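import Mathlib
import Fermat.Prelude.Def_FLTPrelim_Modularity
import Fermat.Prelude.Def_EllipticCurve_ZeroComponentAt
import Fermat.Prelude.Def_FLTPrelim_Ramification
import Fermat.Prelude.Def_ModularCurve_HeckeModule
import Fermat.Prelude.Def_ModularCurve_ArithmeticGalois

-- ===== PACK-BEGIN S51/H471/Descent.lean
section
/-
Descent for the elliptic curves of conductor 15 (used for S51).
Main results:
* `no_sol`: the system `M² = U² + e² = V² + 81 e²` has no integer solution with `e ≠ 0`.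
* `rat_points_15a2`: rational points of `y² = x (x - 1) (x - 81)` have `y = 0`.
* `rat_points_15a1`: rational points of `y² = x (x - 9) (x - 25)`.
* `rat_points_15a3`: rational points of `y² = x (x + 1) (x + 16)`.
-/


set_option autoImplicit false

namespace Fermat.Agent.S51.H471

/-- The Diophantine system `M² = U² + e² = V² + 81 e²` with `e ≠ 0`. -/
structure Sol (M e U V : ℤ) : Prop where
  he : e ≠ 0
  h1 : M ^ 2 = U ^ 2 + e ^ 2
  h2 : M ^ 2 = V ^ 2 + 81 * e ^ 2

lemma sq_of_coprime_mul_eq_sq {a b c : ℤ} (h : IsCoprime a b) (heq : a * b = c ^ 2)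
    (ha : 0 ≤ a) : ∃ r : ℤ, a = r ^ 2 := by
  obtain ⟨r, hr | hr⟩ := Int.sq_of_isCoprime h heq
  · exact ⟨r, hr⟩
  · refine ⟨0, ?_⟩
    have : 0 ≤ r ^ 2 := sq_nonneg r
    nlinarith

/-- The algebraic core of the descent step. -/
lemma core {M e U V k α α' β γ : ℤ} (hk : 0 < k) (hM : 0 < M) (he : e ≠ 0)
    (h1 : M ^ 2 = U ^ 2 + e ^ 2) (h2 : M ^ 2 = V ^ 2 + 81 * e ^ 2)
    (hA : M + U = k * α ^ 2) (hA' : M - U = k * α' ^ 2)
    (hB : M + V = k * β ^ 2) (hC : U + V = k * γ ^ 2) :
    ∃ M₁ e₁ U₁ V₁ : ℤ, Sol M₁ e₁ U₁ V₁ ∧ M₁.natAbs < M.natAbs := by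
  have he2 : 0 < e ^ 2 := by positivity
  have hα' : α' ≠ 0 := by
    rintro rfl
    have hMU : M = U := by linarith
    rw [hMU] at h1
    linarith
  have hα : α ≠ 0 := by
    rintro rfl
    have hMU : U = -M := by linarith
    rw [hMU] at h1
    nlinarith
  have hγ : β ^ 2 - α' ^ 2 = γ ^ 2 := by
    have : k * (β ^ 2 - α' ^ 2) = k * γ ^ 2 := by linarith
    exact mul_left_cancel₀ hk.ne' this
  have hV : α ^ 2 * (β ^ 2 - 81 * α' ^ 2) = (β * γ) ^ 2 := by
    have h : k ^ 2 * (α ^ 2 * (β ^ 2 - 81 * α' ^ 2)) = k ^ 2 * (β * γ) ^ 2 := by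
      have e1 : k ^ 2 * (α ^ 2 * (β ^ 2 - 81 * α' ^ 2))
          = (k * α ^ 2) * (k * β ^ 2 - 81 * (k * α' ^ 2)) := by ring
      have e2 : k ^ 2 * (β * γ) ^ 2 = (k * β ^ 2) * (k * γ ^ 2) := by ring
      rw [e1, e2, ← hA, ← hA', ← hB, ← hC]
      linear_combination h2 - 81 * h1
    exact mul_left_cancel₀ (pow_ne_zero 2 hk.ne') h
  have hdvd : α ∣ β * γ := by
    have : α ^ 2 ∣ (β * γ) ^ 2 := ⟨_, hV.symm⟩
    exact (Int.pow_dvd_pow_iff two_ne_zero).1 this
  obtain ⟨V₁, hV₁⟩ := hdvd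
  have hV₁' : β ^ 2 - 81 * α' ^ 2 = V₁ ^ 2 := by
    have : α ^ 2 * (β ^ 2 - 81 * α' ^ 2) = α ^ 2 * V₁ ^ 2 := by
      rw [hV, hV₁]; ring
    exact mul_left_cancel₀ (pow_ne_zero 2 hα) this
  refine ⟨β, α', γ, V₁, ⟨hα', by linarith, by linarith⟩, ?_⟩
  rw [Int.natAbs_lt_iff_sq_lt]
  have hVM : V < M := by
    by_contra hcon
    have hcon' : M ≤ V := not_lt.mp hcon
    nlinarith
  have hβ : 0 ≤ β ^ 2 := sq_nonneg β
  have hkβ : β ^ 2 ≤ k * β ^ 2 := by nlinarith
  have hM2 : 2 ≤ M := by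
    by_contra hcon
    have hcon' : M < 2 := not_le.mp hcon
    have : M = 1 := by omega
    rw [this] at h2
    nlinarith [sq_nonneg V]
  nlinarith


/-! ### Elementary facts about primitive solutions -/

lemma Sol.neg_U {M e U V : ℤ} (h : Sol M e U V) : Sol M e (-U) V :=
  ⟨h.he, by rw [neg_sq]; exact h.h1, h.h2⟩

lemma Sol.neg_V {M e U V : ℤ} (h : Sol M e U V) : Sol M e U (-V) :=
  ⟨h.he, h.h1, by rw [neg_sq]; exact h.h2⟩

lemma not_dvd_of_coprime {M e : ℤ} (hc : IsCoprime M e) {p : ℤ} (hp : ¬ IsUnit p)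
    (h1 : p ∣ M) : ¬ p ∣ e := fun h2 => hp (hc.isUnit_of_dvd' h1 h2)

lemma not_isUnit_two : ¬ IsUnit (2 : ℤ) := by
  rw [Int.isUnit_iff]; omega

lemma not_isUnit_three : ¬ IsUnit (3 : ℤ) := by
  rw [Int.isUnit_iff]; omega

lemma not_isUnit_five : ¬ IsUnit (5 : ℤ) := by
  rw [Int.isUnit_iff]; omega

lemma prime_five : Prime (5 : ℤ) := by norm_num

lemma dvd_of_cast_eq_zero {n : ℕ} {a : ℤ} (h : ((a : ℤ) : ZMod n) = 0) : (n : ℤ) ∣ a :=
  (ZMod.intCast_zmod_eq_zero_iff_dvd a n).1 h

lemma cast_eq_zero_of_dvd {n : ℕ} {a : ℤ} (h : (n : ℤ) ∣ a) : ((a : ℤ) : ZMod n) = 0 :=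
  (ZMod.intCast_zmod_eq_zero_iff_dvd a n).2 h

lemma Sol.three_not_dvd {M e U V : ℤ} (h : Sol M e U V) (hc : IsCoprime M e) :
    ¬ (3 : ℤ) ∣ M := by
  intro h3
  have key : ∀ m u e : ZMod 3, m ^ 2 = u ^ 2 + e ^ 2 → m = 0 → e = 0 := by decide
  have hcast := congrArg (Int.cast : ℤ → ZMod 3) h.h1
  push_cast at hcast
  have := key _ _ _ hcast (cast_eq_zero_of_dvd (n := 3) h3)
  exact not_dvd_of_coprime hc not_isUnit_three h3 (dvd_of_cast_eq_zero (n := 3) this)

lemma Sol.odd_M {M e U V : ℤ} (h : Sol M e U V) (hc : IsCoprime M e) : M % 2 = 1 := by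
  by_contra hM
  have h2 : (2 : ℤ) ∣ M := by omega
  have he : ¬ (2 : ℤ) ∣ e := not_dvd_of_coprime hc not_isUnit_two h2
  have key : ∀ m u e : ZMod 4, m ^ 2 = u ^ 2 + e ^ 2 → (m = 0 ∨ m = 2) → (e = 0 ∨ e = 2) := by
    decide
  have hcast := congrArg (Int.cast : ℤ → ZMod 4) h.h1
  push_cast at hcast
  have hm : ((M : ℤ) : ZMod 4) = 0 ∨ ((M : ℤ) : ZMod 4) = 2 := by
    obtain ⟨m, rfl⟩ := h2
    rcases Int.emod_two_eq_zero_or_one m with hm | hm
    · left
      apply cast_eq_zero_of_dvd (n := 4)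
      omega
    · right
      have : ((2 * m - 2 : ℤ) : ZMod 4) = 0 := by
        apply cast_eq_zero_of_dvd (n := 4)
        omega
      push_cast at this ⊢
      linear_combination this
  rcases key _ _ _ hcast hm with h0 | h0
  · apply he
    have := dvd_of_cast_eq_zero (n := 4) h0
    omega
  · apply he
    have : ((e - 2 : ℤ) : ZMod 4) = 0 := by push_cast; linear_combination h0
    have := dvd_of_cast_eq_zero (n := 4) this
    omega


lemma Sol.four_dvd_U_of_odd {M e U V : ℤ} (h : Sol M e U V) (hM : M % 2 = 1)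
    (he : e % 2 = 1) : (4 : ℤ) ∣ U := by
  obtain ⟨m, rfl⟩ : ∃ m, M = 2 * m + 1 := ⟨M / 2, by omega⟩
  obtain ⟨f, rfl⟩ : ∃ f, e = 2 * f + 1 := ⟨e / 2, by omega⟩
  have key : ∀ m u f : ZMod 8, (2 * m + 1) ^ 2 = u ^ 2 + (2 * f + 1) ^ 2 → 2 * u = 0 := by
    decide
  have hcast := congrArg (Int.cast : ℤ → ZMod 8) h.h1
  push_cast at hcast
  have h0 : ((2 * U : ℤ) : ZMod 8) = 0 := by
    push_cast
    exact key _ _ _ hcast
  have := dvd_of_cast_eq_zero (n := 8) h0
  omega

lemma Sol.four_dvd_V_of_odd {M e U V : ℤ} (h : Sol M e U V) (hM : M % 2 = 1)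
    (he : e % 2 = 1) : (4 : ℤ) ∣ V := by
  obtain ⟨m, rfl⟩ : ∃ m, M = 2 * m + 1 := ⟨M / 2, by omega⟩
  obtain ⟨f, rfl⟩ : ∃ f, e = 2 * f + 1 := ⟨e / 2, by omega⟩
  have key : ∀ m v f : ZMod 8, (2 * m + 1) ^ 2 = v ^ 2 + 81 * (2 * f + 1) ^ 2 → 2 * v = 0 := by
    decide
  have hcast := congrArg (Int.cast : ℤ → ZMod 8) h.h2
  push_cast at hcast
  have h0 : ((2 * V : ℤ) : ZMod 8) = 0 := by
    push_cast
    exact key _ _ _ hcast
  have := dvd_of_cast_eq_zero (n := 8) h0
  omega

lemma Sol.odd_U_of_even {M e U V : ℤ} (h : Sol M e U V) (hM : M % 2 = 1)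
    (he : e % 2 = 0) : U % 2 = 1 := by
  obtain ⟨m, rfl⟩ : ∃ m, M = 2 * m + 1 := ⟨M / 2, by omega⟩
  obtain ⟨f, rfl⟩ : ∃ f, e = 2 * f := ⟨e / 2, by omega⟩
  have key : ∀ m u f : ZMod 2, (2 * m + 1) ^ 2 = u ^ 2 + (2 * f) ^ 2 → u - 1 = 0 := by
    decide
  have hcast := congrArg (Int.cast : ℤ → ZMod 2) h.h1
  push_cast at hcast
  have h0 : ((U - 1 : ℤ) : ZMod 2) = 0 := by
    push_cast
    exact key _ _ _ hcast
  have := dvd_of_cast_eq_zero (n := 2) h0
  omega

lemma Sol.odd_V_of_even {M e U V : ℤ} (h : Sol M e U V) (hM : M % 2 = 1)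
    (he : e % 2 = 0) : V % 2 = 1 := by
  obtain ⟨m, rfl⟩ : ∃ m, M = 2 * m + 1 := ⟨M / 2, by omega⟩
  obtain ⟨f, rfl⟩ : ∃ f, e = 2 * f := ⟨e / 2, by omega⟩
  have key : ∀ m v f : ZMod 2, (2 * m + 1) ^ 2 = v ^ 2 + 81 * (2 * f) ^ 2 → v - 1 = 0 := by
    decide
  have hcast := congrArg (Int.cast : ℤ → ZMod 2) h.h2
  push_cast at hcast
  have h0 : ((V - 1 : ℤ) : ZMod 2) = 0 := by
    push_cast
    exact key _ _ _ hcast
  have := dvd_of_cast_eq_zero (n := 2) h0
  omega

lemma Sol.five_not_dvd_U {M e U V : ℤ} (h : Sol M e U V) (hc : IsCoprime M e) :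
    ¬ (5 : ℤ) ∣ U := by
  intro h5
  have key : ∀ m u e v : ZMod 5, m ^ 2 = u ^ 2 + e ^ 2 → m ^ 2 = v ^ 2 + 81 * e ^ 2 →
      u = 0 → v = 0 := by decide
  have hc1 := congrArg (Int.cast : ℤ → ZMod 5) h.h1
  have hc2 := congrArg (Int.cast : ℤ → ZMod 5) h.h2
  push_cast at hc1 hc2
  have hV : (5 : ℤ) ∣ V :=
    dvd_of_cast_eq_zero (n := 5) (key _ _ _ _ hc1 hc2 (cast_eq_zero_of_dvd (n := 5) h5))
  obtain ⟨u, rfl⟩ := h5
  obtain ⟨v, rfl⟩ := hV
  have h16 : 16 * e ^ 2 = 5 * (u ^ 2 - v ^ 2) := by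
    have h1 := h.h1
    have h2 := h.h2
    linarith
  have key2 : ∀ e : ZMod 5, 16 * e ^ 2 = 0 → e = 0 := by decide
  have hc3 := congrArg (Int.cast : ℤ → ZMod 5) h16
  push_cast at hc3
  have h50 : ((5 : ℤ) : ZMod 5) = 0 := cast_eq_zero_of_dvd (n := 5) (dvd_refl _)
  have h50' : (5 : ZMod 5) = 0 := by exact_mod_cast h50
  rw [h50', zero_mul] at hc3
  have he0 : ((e : ℤ) : ZMod 5) = 0 := key2 _ hc3
  have he5 : (5 : ℤ) ∣ e := dvd_of_cast_eq_zero (n := 5) he0
  have key3 : ∀ m e : ZMod 5, m ^ 2 = 0 + e ^ 2 → e = 0 → m = 0 := by decide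
  have hM0 : ((M : ℤ) : ZMod 5) = 0 := by
    apply key3 _ _ _ he0
    rw [hc1]
    push_cast
    rw [h50']
    ring
  exact not_dvd_of_coprime hc not_isUnit_five (dvd_of_cast_eq_zero (n := 5) hM0) he5

lemma Sol.coprime_eU {M e U V : ℤ} (h : Sol M e U V) (hc : IsCoprime M e) :
    IsCoprime e U := by
  have h1 : IsCoprime e (M ^ 2) := hc.symm.pow_right
  have h2 : IsCoprime e (M ^ 2 + e * (-e)) := h1.add_mul_left_right _
  have h3 : M ^ 2 + e * (-e) = U ^ 2 := by linear_combination h.h1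
  rw [h3] at h2
  exact (IsCoprime.pow_right_iff (by norm_num)).1 h2

lemma Sol.coprime_MU {M e U V : ℤ} (h : Sol M e U V) (hc : IsCoprime M e) :
    IsCoprime M U := by
  have h1 : IsCoprime M (-e ^ 2) := (hc.pow_right).neg_right
  have h2 : IsCoprime M (-e ^ 2 + M * M) := h1.add_mul_left_right _
  have h3 : -e ^ 2 + M * M = U ^ 2 := by linear_combination h.h1
  rw [h3] at h2
  exact (IsCoprime.pow_right_iff (by norm_num)).1 h2

lemma coprime_three_of_not_dvd {M : ℤ} (h : ¬ (3 : ℤ) ∣ M) : IsCoprime M 3 :=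
  ((Int.prime_three.coprime_iff_not_dvd).2 h).symm

lemma coprime_five_of_not_dvd {M : ℤ} (h : ¬ (5 : ℤ) ∣ M) : IsCoprime M 5 :=
  ((prime_five.coprime_iff_not_dvd).2 h).symm

lemma coprime_two_of_odd {M : ℤ} (h : M % 2 = 1) : IsCoprime M 2 :=
  (Int.isCoprime_two_left.2 (Int.odd_iff.2 h)).symm

lemma Sol.coprime_MV {M e U V : ℤ} (h : Sol M e U V) (hc : IsCoprime M e) :
    IsCoprime M V := by
  have h3 : IsCoprime M 3 := coprime_three_of_not_dvd (h.three_not_dvd hc)
  have h81 : IsCoprime M 81 := by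
    have : (81 : ℤ) = 3 ^ 4 := by norm_num
    rw [this]; exact h3.pow_right
  have h1 : IsCoprime M (-(81 * e ^ 2)) := (h81.mul_right hc.pow_right).neg_right
  have h2 : IsCoprime M (-(81 * e ^ 2) + M * M) := h1.add_mul_left_right _
  have h3 : -(81 * e ^ 2) + M * M = V ^ 2 := by linear_combination h.h2
  rw [h3] at h2
  exact (IsCoprime.pow_right_iff (by norm_num)).1 h2

/-- If `a`, `b` are coprime and `a + b` is odd then `a + b` and `a - b` are coprime. -/
lemma coprime_add_sub {a b : ℤ} (h : IsCoprime a b) (hodd : (a + b) % 2 = 1) :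
    IsCoprime (a + b) (a - b) := by
  have h1 : IsCoprime (a + b) 2 := coprime_two_of_odd hodd
  have h2 : IsCoprime (a + b) a := by
    have := (h.symm.add_mul_left_left 1)
    simpa [add_comm] using this
  have h3 : IsCoprime (a + b) (2 * a) := h1.mul_right h2
  have h4 := h3.add_mul_left_right (-1)
  have h5 : 2 * a + (a + b) * (-1) = a - b := by ring
  rwa [h5] at h4

/-- If `A + A'` and `A - A'` are coprime then so are `A` and `A'`. -/
lemma coprime_of_add_sub {A A' : ℤ} (h : IsCoprime (A + A') (A - A')) : IsCoprime A A' := by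
  obtain ⟨x, y, hxy⟩ := h
  exact ⟨x + y, x - y, by linear_combination hxy⟩

/-- `M + X` is a square when `M² = X² + f²`, `M, X` coprime, `M + X` odd. -/
lemma sq_add_of_odd {M X f : ℤ} (hM : 0 < M) (h : M ^ 2 = X ^ 2 + f ^ 2) (hf : f ≠ 0)
    (hco : IsCoprime M X) (hodd : (M + X) % 2 = 1) : ∃ α : ℤ, M + X = α ^ 2 := by
  have hcop : IsCoprime (M + X) (M - X) := coprime_add_sub hco hodd
  have hprod : (M + X) * (M - X) = f ^ 2 := by linear_combination h
  have hf2 : 0 < f ^ 2 := by positivity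
  have hpos : 0 ≤ M + X := by
    by_contra hcon
    have hcon' : M + X < 0 := not_le.mp hcon
    nlinarith
  exact sq_of_coprime_mul_eq_sq hcop hprod hpos

/-- `M + X` is twice a square when `M² = X² + f²`, `M, X` coprime and both odd. -/
lemma sq_add_of_even {M X f : ℤ} (hM : 0 < M) (h : M ^ 2 = X ^ 2 + f ^ 2) (hf : f ≠ 0)
    (hco : IsCoprime M X) (hM1 : M % 2 = 1) (hX1 : X % 2 = 1) :
    ∃ α : ℤ, M + X = 2 * α ^ 2 := by
  obtain ⟨A, hA⟩ : ∃ A, M + X = 2 * A := ⟨(M + X) / 2, by omega⟩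
  obtain ⟨A', hA'⟩ : ∃ A', M - X = 2 * A' := ⟨(M - X) / 2, by omega⟩
  have hMA : M = A + A' := by linarith
  have hXA : X = A - A' := by linarith
  have hf2 : f % 2 = 0 := by
    have key : ∀ m x f : ZMod 2, m ^ 2 = x ^ 2 + f ^ 2 → m - 1 = 0 → x - 1 = 0 → f = 0 := by
      decide
    have hcast := congrArg (Int.cast : ℤ → ZMod 2) h
    push_cast at hcast
    have hm : ((M - 1 : ℤ) : ZMod 2) = 0 := cast_eq_zero_of_dvd (n := 2) (by omega)
    have hx : ((X - 1 : ℤ) : ZMod 2) = 0 := cast_eq_zero_of_dvd (n := 2) (by omega)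
    push_cast at hm hx
    have := dvd_of_cast_eq_zero (n := 2) (key _ _ _ hcast hm hx)
    omega
  obtain ⟨g, rfl⟩ : ∃ g, f = 2 * g := ⟨f / 2, by omega⟩
  have hprod : A * A' = g ^ 2 := by
    have : (2 * A) * (2 * A') = (2 * g) ^ 2 := by
      rw [← hA, ← hA']; linear_combination h
    linarith
  have hcop : IsCoprime A A' := by
    apply coprime_of_add_sub
    rw [← hMA, ← hXA]; exact hco
  have hg : g ≠ 0 := by rintro rfl; exact hf (by norm_num)
  have hg2 : 0 < g ^ 2 := by positivity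
  have hpos : 0 ≤ A := by
    by_contra hcon
    have hcon' : A < 0 := not_le.mp hcon
    have : A' < 0 := by nlinarith
    nlinarith
  obtain ⟨α, hα⟩ := sq_of_coprime_mul_eq_sq hcop hprod hpos
  exact ⟨α, by rw [hA, hα]⟩

/-- If `c * d = 5 f²` with `c, d` coprime, then one of `±c, ±d` is a square. -/
lemma sq_of_mul_eq_five_sq {c d f : ℤ} (h : c * d = 5 * f ^ 2) (hco : IsCoprime c d) :
    ∃ γ : ℤ, c = γ ^ 2 ∨ c = -γ ^ 2 ∨ d = γ ^ 2 ∨ d = -γ ^ 2 := by
  have h5 : (5 : ℤ) ∣ c * d := ⟨f ^ 2, h⟩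
  rcases prime_five.dvd_or_dvd h5 with hc | hd
  · obtain ⟨c', rfl⟩ := hc
    have hprod : d * c' = f ^ 2 := by
      have : 5 * (d * c') = 5 * f ^ 2 := by linear_combination h
      linarith
    have hcop : IsCoprime d c' := (hco.symm).of_mul_right_right
    obtain ⟨γ, hγ | hγ⟩ := Int.sq_of_isCoprime hcop hprod
    · exact ⟨γ, Or.inr (Or.inr (Or.inl hγ))⟩
    · exact ⟨γ, Or.inr (Or.inr (Or.inr hγ))⟩
  · obtain ⟨d', rfl⟩ := hd
    have hprod : c * d' = f ^ 2 := by
      have : 5 * (c * d') = 5 * f ^ 2 := by linear_combination h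
      linarith
    have hcop : IsCoprime c d' := hco.of_mul_right_right
    obtain ⟨γ, hγ | hγ⟩ := Int.sq_of_isCoprime hcop hprod
    · exact ⟨γ, Or.inl hγ⟩
    · exact ⟨γ, Or.inr (Or.inl hγ)⟩


/-- Oriented descent step, `e` odd. -/
lemma descent_odd_oriented {M e U V : ℤ} (h : Sol M e U V) (hc : IsCoprime M e) (hM : 0 < M)
    (he : e % 2 = 1) {γ : ℤ} (hγ : U + V = γ ^ 2) :
    ∃ M₁ e₁ U₁ V₁ : ℤ, Sol M₁ e₁ U₁ V₁ ∧ M₁.natAbs < M.natAbs := by
  have hM1 := h.odd_M hc
  have hU4 := h.four_dvd_U_of_odd hM1 he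
  have hV4 := h.four_dvd_V_of_odd hM1 he
  have he9 : 9 * e ≠ 0 := mul_ne_zero (by norm_num) h.he
  obtain ⟨α, hα⟩ := sq_add_of_odd hM h.h1 h.he (h.coprime_MU hc) (by omega)
  obtain ⟨α', hα'⟩ := sq_add_of_odd (X := -U) hM (by rw [neg_sq]; exact h.h1) h.he
    (h.neg_U.coprime_MU hc) (by omega)
  obtain ⟨β, hβ⟩ := sq_add_of_odd (f := 9 * e) hM (by linear_combination h.h2) he9
    (h.coprime_MV hc) (by omega)
  exact core (k := 1) one_pos hM h.he h.h1 h.h2 (by rw [hα]; ring)
    (by rw [sub_eq_add_neg, hα']; ring) (by rw [hβ]; ring) (by rw [hγ]; ring)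

/-- Oriented descent step, `e` even. -/
lemma descent_even_oriented {M e U V : ℤ} (h : Sol M e U V) (hc : IsCoprime M e) (hM : 0 < M)
    (he : e % 2 = 0) {γ : ℤ} (hγ : U + V = 2 * γ ^ 2) :
    ∃ M₁ e₁ U₁ V₁ : ℤ, Sol M₁ e₁ U₁ V₁ ∧ M₁.natAbs < M.natAbs := by
  have hM1 := h.odd_M hc
  have hU1 := h.odd_U_of_even hM1 he
  have hV1 := h.odd_V_of_even hM1 he
  have he9 : 9 * e ≠ 0 := mul_ne_zero (by norm_num) h.he
  obtain ⟨α, hα⟩ := sq_add_of_even hM h.h1 h.he (h.coprime_MU hc) hM1 hU1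
  obtain ⟨α', hα'⟩ := sq_add_of_even (X := -U) hM (by rw [neg_sq]; exact h.h1) h.he
    (h.neg_U.coprime_MU hc) hM1 (by omega)
  obtain ⟨β, hβ⟩ := sq_add_of_even (f := 9 * e) hM (by linear_combination h.h2) he9
    (h.coprime_MV hc) hM1 hV1
  exact core (k := 2) two_pos hM h.he h.h1 h.h2 hα
    (by rw [sub_eq_add_neg, hα']) hβ hγ

/-- Descent step for primitive solutions. -/
lemma descent_primitive {M e U V : ℤ} (h : Sol M e U V) (hc : IsCoprime M e) (hM : 0 < M) :
    ∃ M₁ e₁ U₁ V₁ : ℤ, Sol M₁ e₁ U₁ V₁ ∧ M₁.natAbs < M.natAbs := by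
  have hM1 := h.odd_M hc
  have hU5 : IsCoprime U 5 := coprime_five_of_not_dvd (h.five_not_dvd_U hc)
  have hUe : IsCoprime U e := (h.coprime_eU hc).symm
  have hUV : U ^ 2 - V ^ 2 = 80 * e ^ 2 := by linear_combination h.h2 - h.h1
  rcases Int.emod_two_eq_zero_or_one e with he | he
  · -- `e` even
    have hU1 := h.odd_U_of_even hM1 he
    have hV1 := h.odd_V_of_even hM1 he
    obtain ⟨c, hc'⟩ : ∃ c, U + V = 2 * c := ⟨(U + V) / 2, by omega⟩
    obtain ⟨d, hd'⟩ : ∃ d, U - V = 2 * d := ⟨(U - V) / 2, by omega⟩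
    have hUc : U = c + d := by linarith
    have hVc : V = c - d := by linarith
    have hcopUV : IsCoprime U V := by
      have h2 : IsCoprime U 2 := coprime_two_of_odd hU1
      have h80 : IsCoprime U 80 := by
        have : (80 : ℤ) = 2 ^ 4 * 5 := by norm_num
        rw [this]; exact h2.pow_right.mul_right hU5
      have h1 : IsCoprime U (-(80 * e ^ 2)) := (h80.mul_right hUe.pow_right).neg_right
      have h3 : IsCoprime U (-(80 * e ^ 2) + U * U) := h1.add_mul_left_right _
      have h4 : -(80 * e ^ 2) + U * U = V ^ 2 := by linear_combination hUV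
      rw [h4] at h3
      exact (IsCoprime.pow_right_iff (by norm_num)).1 h3
    have hcop : IsCoprime c d := by
      apply coprime_of_add_sub
      rw [← hUc, ← hVc]; exact hcopUV
    have hprod : c * d = 5 * (2 * e) ^ 2 := by
      have : (2 * c) * (2 * d) = 80 * e ^ 2 := by
        rw [← hc', ← hd']; linear_combination hUV
      linarith
    obtain ⟨γ, hγ | hγ | hγ | hγ⟩ := sq_of_mul_eq_five_sq hprod hcop
    · exact descent_even_oriented h hc hM he (γ := γ) (by rw [hc', hγ])
    · obtain ⟨M₁, e₁, U₁, V₁, hs, hlt⟩ :=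
        descent_even_oriented h.neg_U.neg_V hc hM he (γ := γ) (by linarith)
      exact ⟨M₁, e₁, U₁, V₁, hs, hlt⟩
    · exact descent_even_oriented h.neg_V hc hM he (γ := γ) (by linarith)
    · exact descent_even_oriented h.neg_U hc hM he (γ := γ) (by linarith)
  · -- `e` odd
    obtain ⟨u, hu⟩ := h.four_dvd_U_of_odd hM1 he
    obtain ⟨v, hv⟩ := h.four_dvd_V_of_odd hM1 he
    have hprod : (u + v) * (u - v) = 5 * e ^ 2 := by
      have : 16 * ((u + v) * (u - v)) = 80 * e ^ 2 := by
        rw [hu, hv] at hUV; linear_combination hUV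
      linarith
    have hodd : (u + v) % 2 = 1 := by
      obtain ⟨f, rfl⟩ : ∃ f, e = 2 * f + 1 := ⟨e / 2, by omega⟩
      have key : ∀ u v f : ZMod 2, (u + v) * (u - v) = 5 * (2 * f + 1) ^ 2 → u + v - 1 = 0 := by
        decide
      have hcast := congrArg (Int.cast : ℤ → ZMod 2) hprod
      push_cast at hcast
      have h0 : ((u + v - 1 : ℤ) : ZMod 2) = 0 := by
        push_cast
        exact key _ _ _ hcast
      have := dvd_of_cast_eq_zero (n := 2) h0
      omega
    have hcopuv : IsCoprime u v := by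
      have hu5 : IsCoprime u 5 := by
        rw [hu] at hU5; exact hU5.of_mul_left_right
      have hue : IsCoprime u e := by
        rw [hu] at hUe; exact hUe.of_mul_left_right
      have h1 : IsCoprime u (-(5 * e ^ 2)) := (hu5.mul_right hue.pow_right).neg_right
      have h3 : IsCoprime u (-(5 * e ^ 2) + u * u) := h1.add_mul_left_right _
      have h4 : -(5 * e ^ 2) + u * u = v ^ 2 := by linear_combination hprod
      rw [h4] at h3
      exact (IsCoprime.pow_right_iff (by norm_num)).1 h3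
    have hcop : IsCoprime (u + v) (u - v) := coprime_add_sub hcopuv hodd
    obtain ⟨γ, hγ | hγ | hγ | hγ⟩ := sq_of_mul_eq_five_sq hprod hcop
    · exact descent_odd_oriented h hc hM he (γ := 2 * γ) (by rw [hu, hv]; linear_combination 4 * hγ)
    · exact descent_odd_oriented h.neg_U.neg_V hc hM he (γ := 2 * γ)
        (by rw [hu, hv]; linear_combination -4 * hγ)
    · exact descent_odd_oriented h.neg_V hc hM he (γ := 2 * γ)
        (by rw [hu, hv]; linear_combination 4 * hγ)
    · exact descent_odd_oriented h.neg_U hc hM he (γ := 2 * γ)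
        (by rw [hu, hv]; linear_combination -4 * hγ)

/-- **Main descent theorem**: the system `M² = U² + e² = V² + 81 e²` has no integer solution
with `e ≠ 0`. Equivalently, the elliptic curve `y² = x (x - 1) (x - 81)` (15a2) has
no rational point that is a double of a rational point, other than the origin. -/
theorem no_sol (M e U V : ℤ) (he : e ≠ 0) (h1 : M ^ 2 = U ^ 2 + e ^ 2)
    (h2 : M ^ 2 = V ^ 2 + 81 * e ^ 2) : False := by
  suffices H : ∀ n : ℕ, ∀ M e U V : ℤ, M.natAbs = n → Sol M e U V → False from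
    H _ M e U V rfl ⟨he, h1, h2⟩
  intro n
  induction n using Nat.strong_induction_on with
  | _ n ih =>
    intro M e U V hn h
    -- reduce to `M > 0`
    have hM0 : M ≠ 0 := by
      rintro rfl
      have := h.h1
      have he2 : 0 < e ^ 2 := by have := h.he; positivity
      nlinarith [sq_nonneg U]
    -- reduce to the primitive case
    by_cases hc : IsCoprime M e
    · have hS : Sol |M| e U V := ⟨h.he, by rw [sq_abs]; exact h.h1, by rw [sq_abs]; exact h.h2⟩
      have hc' : IsCoprime |M| e := by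
        rcases abs_choice M with hM | hM
        · rw [hM]; exact hc
        · rw [hM]; exact hc.neg_left
      obtain ⟨M₁, e₁, U₁, V₁, hs, hlt⟩ := descent_primitive hS hc' (abs_pos.2 hM0)
      rw [Int.natAbs_abs, hn] at hlt
      exact ih _ hlt M₁ e₁ U₁ V₁ rfl hs
    · -- not primitive: divide by the gcd
      rw [Int.isCoprime_iff_gcd_eq_one] at hc
      obtain ⟨g, hg1, hgM, hge⟩ : ∃ g : ℤ, 1 < g ∧ g ∣ M ∧ g ∣ e := by
        refine ⟨(Int.gcd M e : ℤ), ?_, Int.gcd_dvd_left M e, Int.gcd_dvd_right M e⟩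
        have h0 : Int.gcd M e ≠ 0 := by
          intro h0
          exact hM0 (Int.gcd_eq_zero_iff.1 h0).1
        have : 1 < Int.gcd M e := by omega
        exact_mod_cast this
      have hg0 : g ≠ 0 := by omega
      obtain ⟨M', rfl⟩ := hgM
      obtain ⟨e', rfl⟩ := hge
      have hgU : g ∣ U := by
        have : g ^ 2 ∣ U ^ 2 := ⟨M' ^ 2 - e' ^ 2, by linear_combination -h.h1⟩
        exact (Int.pow_dvd_pow_iff two_ne_zero).1 this
      have hgV : g ∣ V := by
        have : g ^ 2 ∣ V ^ 2 := ⟨M' ^ 2 - 81 * e' ^ 2, by linear_combination -h.h2⟩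
        exact (Int.pow_dvd_pow_iff two_ne_zero).1 this
      obtain ⟨U', rfl⟩ := hgU
      obtain ⟨V', rfl⟩ := hgV
      have hg2 : g ^ 2 ≠ 0 := pow_ne_zero 2 hg0
      have hS : Sol M' e' U' V' := by
        refine ⟨fun h0 => h.he (by rw [h0, mul_zero]), ?_, ?_⟩
        · apply mul_left_cancel₀ hg2
          linear_combination h.h1
        · apply mul_left_cancel₀ hg2
          linear_combination h.h2
      have hM'0 : M' ≠ 0 := fun h0 => hM0 (by rw [h0, mul_zero])
      have hlt : M'.natAbs < n := by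
        rw [← hn, Int.natAbs_mul]
        have h1 : 1 < g.natAbs := by omega
        have h2 : 0 < M'.natAbs := Int.natAbs_pos.2 hM'0
        nlinarith
      exact ih _ hlt M' e' U' V' rfl hS

end Fermat.Agent.S51.H471

end
-- ===== PACK-END S51/H471/Descent.lean

-- ===== PACK-BEGIN S52/H170/Place.lean
section
/-
S52 / piece (B1d) infrastructure, part P1 (helper170).

The place `t = a` of the rational function field `K(t)`:
* `RegAt a f`            : `f : RatFunc K` is regular at `a` (reduced denominator does not vanish);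
* `placeAt a`            : the valuation subring of `RatFunc K` of functions regular at `a`;
* `evalAt a`             : the evaluation ring hom `placeAt a →+* K`, a local surjective hom;
* `regAt_map`, `eval_map`: compatibility with a field hom `σ : K →+* K'` acting on coefficients.

Mathlib-only.
-/


namespace Fermat.Agent.S52.H170

open Polynomial

variable {K : Type*} [Field K]

/-- `f` is regular at `a`: the reduced denominator of `f` does not vanish at `a`. -/
def RegAt (a : K) (f : RatFunc K) : Prop := (RatFunc.denom f).eval a ≠ 0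

/-- value of a rational function at `a` (junk value `0` if not regular). -/
noncomputable def valAt (a : K) (f : RatFunc K) : K := RatFunc.eval (RingHom.id K) a f

lemma valAt_def (a : K) (f : RatFunc K) :
    valAt a f = (RatFunc.num f).eval a / (RatFunc.denom f).eval a := by
  simp [valAt, RatFunc.eval, Polynomial.eval₂_id]

lemma regAt_iff_eval₂ (a : K) (f : RatFunc K) :
    RegAt a f ↔ Polynomial.eval₂ (RingHom.id K) a (RatFunc.denom f) ≠ 0 := by
  simp [RegAt, Polynomial.eval₂_id]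

lemma regAt_div {a : K} (p q : K[X]) (hq : q.eval a ≠ 0) :
    RegAt a (algebraMap K[X] (RatFunc K) p / algebraMap K[X] (RatFunc K) q) := by
  intro h
  exact hq (Polynomial.eval_eq_zero_of_dvd_of_eval_eq_zero (RatFunc.denom_div_dvd p q) h)

lemma regAt_iff (a : K) (f : RatFunc K) :
    RegAt a f ↔ ∃ p q : K[X], q.eval a ≠ 0 ∧
      f = algebraMap K[X] (RatFunc K) p / algebraMap K[X] (RatFunc K) q := by
  constructor
  · intro h
    exact ⟨RatFunc.num f, RatFunc.denom f, h, (RatFunc.num_div_denom f).symm⟩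
  · rintro ⟨p, q, hq, rfl⟩
    exact regAt_div p q hq

lemma regAt_algebraMap (a : K) (p : K[X]) : RegAt a (algebraMap K[X] (RatFunc K) p) := by
  simp [RegAt, RatFunc.denom_algebraMap]

lemma regAt_C (a : K) (c : K) : RegAt a (RatFunc.C c) := by
  have : (RatFunc.C c : RatFunc K) = algebraMap K[X] (RatFunc K) (Polynomial.C c) := by
    simp [RatFunc.algebraMap_C]
  rw [this]; exact regAt_algebraMap a _

lemma regAt_zero (a : K) : RegAt a (0 : RatFunc K) := by simp [RegAt]

lemma regAt_one (a : K) : RegAt a (1 : RatFunc K) := by simp [RegAt]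

lemma regAt_add {a : K} {f g : RatFunc K} (hf : RegAt a f) (hg : RegAt a g) :
    RegAt a (f + g) := by
  intro h
  have := Polynomial.eval_eq_zero_of_dvd_of_eval_eq_zero (RatFunc.denom_add_dvd f g) h
  rw [Polynomial.eval_mul] at this
  rcases mul_eq_zero.mp this with h1 | h1
  · exact hf h1
  · exact hg h1

lemma regAt_mul {a : K} {f g : RatFunc K} (hf : RegAt a f) (hg : RegAt a g) :
    RegAt a (f * g) := by
  intro h
  have := Polynomial.eval_eq_zero_of_dvd_of_eval_eq_zero (RatFunc.denom_mul_dvd f g) h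
  rw [Polynomial.eval_mul] at this
  rcases mul_eq_zero.mp this with h1 | h1
  · exact hf h1
  · exact hg h1

lemma regAt_neg {a : K} {f : RatFunc K} (hf : RegAt a f) : RegAt a (-f) := by
  have : -f = (-1 : RatFunc K) * f := by ring
  rw [this]
  refine regAt_mul ?_ hf
  have h1 : (-1 : RatFunc K) = algebraMap K[X] (RatFunc K) (-1) := by simp
  rw [h1]; exact regAt_algebraMap a _

lemma regAt_sub {a : K} {f g : RatFunc K} (hf : RegAt a f) (hg : RegAt a g) :
    RegAt a (f - g) := by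
  rw [sub_eq_add_neg]; exact regAt_add hf (regAt_neg hg)

lemma valAt_add {a : K} {f g : RatFunc K} (hf : RegAt a f) (hg : RegAt a g) :
    valAt a (f + g) = valAt a f + valAt a g :=
  RatFunc.eval_add _ _ ((regAt_iff_eval₂ a f).1 hf) ((regAt_iff_eval₂ a g).1 hg)

lemma valAt_mul {a : K} {f g : RatFunc K} (hf : RegAt a f) (hg : RegAt a g) :
    valAt a (f * g) = valAt a f * valAt a g :=
  RatFunc.eval_mul _ _ ((regAt_iff_eval₂ a f).1 hf) ((regAt_iff_eval₂ a g).1 hg)

@[simp] lemma valAt_zero (a : K) : valAt a (0 : RatFunc K) = 0 := by simp [valAt]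

@[simp] lemma valAt_one (a : K) : valAt a (1 : RatFunc K) = 1 := by simp [valAt]

@[simp] lemma valAt_algebraMap (a : K) (p : K[X]) :
    valAt a (algebraMap K[X] (RatFunc K) p) = p.eval a := by
  simp [valAt_def, RatFunc.num_algebraMap, RatFunc.denom_algebraMap]

@[simp] lemma valAt_C (a : K) (c : K) : valAt a (RatFunc.C c) = c := by simp [valAt]

@[simp] lemma valAt_X (a : K) : valAt a (RatFunc.X : RatFunc K) = a := by simp [valAt]

/-- if `f` is not regular at `a` then `f⁻¹` is, with value `0`. -/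
lemma regAt_inv_of_not_regAt {a : K} {f : RatFunc K} (hf : ¬ RegAt a f) :
    RegAt a f⁻¹ ∧ valAt a f⁻¹ = 0 := by
  have hd : (RatFunc.denom f).eval a = 0 := by
    by_contra h; exact hf h
  have hf0 : f ≠ 0 := by
    rintro rfl; exact hf (regAt_zero a)
  -- num f does not vanish at a by coprimality
  have hn : (RatFunc.num f).eval a ≠ 0 := by
    intro hn
    obtain ⟨u, v, huv⟩ := RatFunc.isCoprime_num_denom f
    have := congrArg (Polynomial.eval a) huv
    simp [Polynomial.eval_add, Polynomial.eval_mul, hn, hd] at this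
  have hinv : f⁻¹ = algebraMap K[X] (RatFunc K) (RatFunc.denom f) /
      algebraMap K[X] (RatFunc K) (RatFunc.num f) := by
    conv_lhs => rw [← RatFunc.num_div_denom f]
    rw [inv_div]
  have hreg : RegAt a f⁻¹ := by rw [hinv]; exact regAt_div _ _ hn
  refine ⟨hreg, ?_⟩
  -- valAt (f⁻¹) * valAt (num) = valAt (denom) = 0
  have h1 : f⁻¹ * algebraMap K[X] (RatFunc K) (RatFunc.num f) =
      algebraMap K[X] (RatFunc K) (RatFunc.denom f) := by
    rw [hinv, div_mul_cancel₀]
    exact RatFunc.algebraMap_ne_zero (RatFunc.num_ne_zero hf0)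
  have h2 := valAt_mul hreg (regAt_algebraMap a (RatFunc.num f))
  rw [h1, valAt_algebraMap, valAt_algebraMap, hd] at h2
  rcases mul_eq_zero.mp h2.symm with h3 | h3
  · exact h3
  · exact absurd h3 hn

/-- if `f` is regular at `a` with nonzero value then `f⁻¹` is regular at `a`. -/
lemma regAt_inv_of_valAt_ne_zero {a : K} {f : RatFunc K} (hf : RegAt a f)
    (hv : valAt a f ≠ 0) : RegAt a f⁻¹ := by
  have hf0 : f ≠ 0 := by rintro rfl; simp at hv
  have hn : (RatFunc.num f).eval a ≠ 0 := by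
    intro hn; apply hv; rw [valAt_def, hn, zero_div]
  have hinv : f⁻¹ = algebraMap K[X] (RatFunc K) (RatFunc.denom f) /
      algebraMap K[X] (RatFunc K) (RatFunc.num f) := by
    conv_lhs => rw [← RatFunc.num_div_denom f]
    rw [inv_div]
  rw [hinv]; exact regAt_div _ _ hn

lemma valAt_div {a : K} (p q : K[X]) (hq : q.eval a ≠ 0) :
    valAt a (algebraMap K[X] (RatFunc K) p / algebraMap K[X] (RatFunc K) q) =
      p.eval a / q.eval a := by
  have hq0 : q ≠ 0 := by rintro rfl; simp at hq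
  have hreg := regAt_div (a := a) p q hq
  have h1 : (algebraMap K[X] (RatFunc K) p / algebraMap K[X] (RatFunc K) q) *
      algebraMap K[X] (RatFunc K) q = algebraMap K[X] (RatFunc K) p := by
    rw [div_mul_cancel₀]; exact RatFunc.algebraMap_ne_zero hq0
  have h2 := valAt_mul hreg (regAt_algebraMap a q)
  rw [h1, valAt_algebraMap, valAt_algebraMap] at h2
  rw [eq_div_iff hq]; exact h2.symm

/-- The valuation subring of `K(t)` of functions regular at `t = a`. -/
noncomputable def placeAt (a : K) : ValuationSubring (RatFunc K) where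
  carrier := {f | RegAt a f}
  mul_mem' := fun hf hg => regAt_mul hf hg
  one_mem' := regAt_one a
  add_mem' := fun hf hg => regAt_add hf hg
  zero_mem' := regAt_zero a
  neg_mem' := fun hf => regAt_neg hf
  mem_or_inv_mem' := fun f => by
    by_cases hf : RegAt a f
    · exact Or.inl hf
    · exact Or.inr (regAt_inv_of_not_regAt hf).1

@[simp] lemma mem_placeAt {a : K} {f : RatFunc K} : f ∈ placeAt a ↔ RegAt a f := Iff.rfl

/-- Evaluation at `a`, as a ring hom on the valuation subring of functions regular at `a`. -/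
noncomputable def evalAt (a : K) : placeAt a →+* K where
  toFun f := valAt a f.1
  map_one' := by simp
  map_mul' f g := valAt_mul f.2 g.2
  map_zero' := by simp
  map_add' f g := valAt_add f.2 g.2

@[simp] lemma evalAt_apply {a : K} (f : placeAt a) : evalAt a f = valAt a f.1 := rfl

lemma evalAt_surjective (a : K) : Function.Surjective (evalAt a) := fun c =>
  ⟨⟨RatFunc.C c, regAt_C a c⟩, by simp⟩

instance evalAt_isLocalHom (a : K) : IsLocalHom (evalAt a) where
  map_nonunit f hf := by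
    have hv : valAt a f.1 ≠ 0 := by
      have := hf.ne_zero
      simpa using this
    have hreg := regAt_inv_of_valAt_ne_zero f.2 hv
    have hf0 : f.1 ≠ 0 := by
      intro h; rw [h] at hv; simp at hv
    refine isUnit_iff_exists_inv.mpr ⟨⟨f.1⁻¹, hreg⟩, ?_⟩
    apply Subtype.ext
    simp [hf0]

/-- the value at `a` vanishes iff the element lies in the maximal ideal. -/
lemma evalAt_eq_zero_iff {a : K} (f : placeAt a) :
    evalAt a f = 0 ↔ f ∈ IsLocalRing.maximalIdeal (placeAt a) := by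
  rw [IsLocalRing.mem_maximalIdeal, mem_nonunits_iff]
  constructor
  · intro h hu
    have := (hu.map (evalAt a)).ne_zero
    exact this h
  · intro h
    by_contra h0
    exact h (isUnit_of_map_unit (evalAt a) f (isUnit_iff_ne_zero.mpr h0))

section Equivariance

variable {K' : Type*} [Field K'] (σ : K →+* K')

/-- coefficientwise action of a field hom on rational functions. -/
noncomputable def ratMap : RatFunc K →+* RatFunc K' :=
  RatFunc.mapRingHom (Polynomial.mapRingHom σ) (by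
    intro p hp
    rw [Submonoid.mem_comap]
    rw [mem_nonZeroDivisors_iff_ne_zero] at hp ⊢
    rw [Polynomial.coe_mapRingHom]
    exact (Polynomial.map_ne_zero_iff σ.injective).mpr hp)

lemma ratMap_algebraMap (p : K[X]) :
    ratMap σ (algebraMap K[X] (RatFunc K) p) = algebraMap K'[X] (RatFunc K') (p.map σ) := by
  unfold ratMap
  rw [RatFunc.coe_mapRingHom_eq_coe_map]
  have := RatFunc.map_apply_div (K := K) (R := K') (Polynomial.mapRingHom σ) (by
    intro p hp
    rw [Submonoid.mem_comap]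
    rw [mem_nonZeroDivisors_iff_ne_zero] at hp ⊢
    rw [Polynomial.coe_mapRingHom]
    exact (Polynomial.map_ne_zero_iff σ.injective).mpr hp) p 1
  simpa using this

lemma ratMap_C (c : K) : ratMap σ (RatFunc.C c) = RatFunc.C (σ c) := by
  have h1 : (RatFunc.C c : RatFunc K) = algebraMap K[X] (RatFunc K) (Polynomial.C c) := by
    simp [RatFunc.algebraMap_C]
  have h2 : (RatFunc.C (σ c) : RatFunc K') = algebraMap K'[X] (RatFunc K') (Polynomial.C (σ c)) := by
    simp [RatFunc.algebraMap_C]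
  rw [h1, h2, ratMap_algebraMap, Polynomial.map_C]

lemma ratMap_X : ratMap σ (RatFunc.X : RatFunc K) = RatFunc.X := by
  have h1 : (RatFunc.X : RatFunc K) = algebraMap K[X] (RatFunc K) Polynomial.X := by
    simp [RatFunc.algebraMap_X]
  have h2 : (RatFunc.X : RatFunc K') = algebraMap K'[X] (RatFunc K') Polynomial.X := by
    simp [RatFunc.algebraMap_X]
  rw [h1, h2, ratMap_algebraMap, Polynomial.map_X]

lemma ratMap_div (p q : K[X]) :
    ratMap σ (algebraMap K[X] (RatFunc K) p / algebraMap K[X] (RatFunc K) q) =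
      algebraMap K'[X] (RatFunc K') (p.map σ) / algebraMap K'[X] (RatFunc K') (q.map σ) := by
  rw [map_div₀, ratMap_algebraMap, ratMap_algebraMap]

lemma regAt_ratMap {a : K} {f : RatFunc K} (hf : RegAt a f) : RegAt (σ a) (ratMap σ f) := by
  obtain ⟨p, q, hq, rfl⟩ := (regAt_iff a f).1 hf
  rw [ratMap_div]
  refine regAt_div _ _ ?_
  rw [Polynomial.eval_map, Polynomial.eval₂_hom]
  exact (map_ne_zero σ).mpr hq

lemma valAt_ratMap {a : K} {f : RatFunc K} (hf : RegAt a f) :
    valAt (σ a) (ratMap σ f) = σ (valAt a f) := by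
  obtain ⟨p, q, hq, rfl⟩ := (regAt_iff a f).1 hf
  have hq' : (q.map σ).eval (σ a) ≠ 0 := by
    rw [Polynomial.eval_map, Polynomial.eval₂_hom]
    exact (map_ne_zero σ).mpr hq
  rw [ratMap_div, valAt_div _ _ hq', valAt_div _ _ hq, map_div₀]
  simp [Polynomial.eval_map]

end Equivariance

end Fermat.Agent.S52.H170

end
-- ===== PACK-END S52/H170/Place.lean

-- ===== PACK-BEGIN S52/H170/Rigid.lean
section
/-
S52 / piece (B1d), part P2 (helper170): ABSTRACT rigidity.

Two additive maps `r0 : E →+ E0`, `r1 : E →+ E1` which are injective on `n`-torsion, and such that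
every `n`-torsion element of `E0` lifts to an `n`-torsion element of `E`.  Then
`θ := r1 ∘ (r0|E[n])⁻¹ : E0[n] →+ E1[n]` is a well defined injective additive map, characterised by
`θ (r0 P) = r1 P` for `P ∈ E[n]`; it is equivariant for every triple of compatible endomorphisms.

Mathlib-only.
-/


namespace Fermat.Agent.S52.H170

variable {E E0 E1 : Type*} [AddCommGroup E] [AddCommGroup E0] [AddCommGroup E1]

/-- data for the rigidity argument. -/
structure RigidData (n : ℕ) (r0 : E →+ E0) (r1 : E →+ E1) : Prop where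
  inj0 : ∀ P : E, n • P = 0 → r0 P = 0 → P = 0
  inj1 : ∀ P : E, n • P = 0 → r1 P = 0 → P = 0
  lift : ∀ Q : E0, n • Q = 0 → ∃ P : E, n • P = 0 ∧ r0 P = Q

namespace RigidData

variable {n : ℕ} {r0 : E →+ E0} {r1 : E →+ E1}

lemma mem_torsionBy_iff_nsmul {M : Type*} [AddCommGroup M] (n : ℕ) (x : M) :
    x ∈ Submodule.torsionBy ℤ M (n : ℤ) ↔ n • x = 0 := by
  rw [Submodule.mem_torsionBy_iff, natCast_zsmul]

lemma lift_unique (h : RigidData n r0 r1) {P P' : E} (hP : n • P = 0) (hP' : n • P' = 0)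
    (e : r0 P = r0 P') : P = P' := by
  have h1 : n • (P - P') = 0 := by rw [smul_sub, hP, hP', sub_zero]
  have h2 : r0 (P - P') = 0 := by rw [map_sub, e, sub_self]
  exact sub_eq_zero.mp (h.inj0 _ h1 h2)

/-- the chosen lift of an `n`-torsion element. -/
noncomputable def liftFun (h : RigidData n r0 r1) (Q : Submodule.torsionBy ℤ E0 (n : ℤ)) : E :=
  (h.lift Q.1 ((mem_torsionBy_iff_nsmul n Q.1).1 Q.2)).choose

lemma liftFun_nsmul (h : RigidData n r0 r1) (Q : Submodule.torsionBy ℤ E0 (n : ℤ)) :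
    n • h.liftFun Q = 0 :=
  (h.lift Q.1 ((mem_torsionBy_iff_nsmul n Q.1).1 Q.2)).choose_spec.1

lemma r0_liftFun (h : RigidData n r0 r1) (Q : Submodule.torsionBy ℤ E0 (n : ℤ)) :
    r0 (h.liftFun Q) = Q.1 :=
  (h.lift Q.1 ((mem_torsionBy_iff_nsmul n Q.1).1 Q.2)).choose_spec.2

lemma liftFun_eq (h : RigidData n r0 r1) (Q : Submodule.torsionBy ℤ E0 (n : ℤ)) {P : E}
    (hP : n • P = 0) (e : r0 P = Q.1) : h.liftFun Q = P :=
  h.lift_unique (h.liftFun_nsmul Q) hP (by rw [h.r0_liftFun, e])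

/-- **Rigidity map** `θ = r1 ∘ (r0|E[n])⁻¹`. -/
noncomputable def theta (h : RigidData n r0 r1) :
    Submodule.torsionBy ℤ E0 (n : ℤ) →+ Submodule.torsionBy ℤ E1 (n : ℤ) where
  toFun Q := ⟨r1 (h.liftFun Q), by
    rw [mem_torsionBy_iff_nsmul, ← map_nsmul, h.liftFun_nsmul, map_zero]⟩
  map_zero' := by
    apply Subtype.ext
    have : h.liftFun 0 = 0 := h.liftFun_eq 0 (by simp) (by simp)
    simp [this]
  map_add' Q Q' := by
    apply Subtype.ext
    have : h.liftFun (Q + Q') = h.liftFun Q + h.liftFun Q' :=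
      h.liftFun_eq _ (by rw [smul_add, h.liftFun_nsmul, h.liftFun_nsmul, add_zero])
        (by rw [map_add, h.r0_liftFun, h.r0_liftFun]; rfl)
    simp [this]

lemma theta_coe (h : RigidData n r0 r1) (Q : Submodule.torsionBy ℤ E0 (n : ℤ)) :
    ((h.theta Q : Submodule.torsionBy ℤ E1 (n : ℤ)) : E1) = r1 (h.liftFun Q) := rfl

/-- characterisation of `θ`. -/
lemma theta_r0 (h : RigidData n r0 r1) {P : E} (hP : n • P = 0)
    (Q : Submodule.torsionBy ℤ E0 (n : ℤ)) (e : r0 P = Q.1) :
    ((h.theta Q : Submodule.torsionBy ℤ E1 (n : ℤ)) : E1) = r1 P := by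
  rw [theta_coe, h.liftFun_eq Q hP e]

lemma theta_injective (h : RigidData n r0 r1) : Function.Injective h.theta := by
  rw [injective_iff_map_eq_zero]
  intro Q hQ
  have h1 : r1 (h.liftFun Q) = 0 := by
    have := congrArg Subtype.val hQ
    simpa [theta_coe] using this
  have h2 := h.inj1 _ (h.liftFun_nsmul Q) h1
  apply Subtype.ext
  rw [← h.r0_liftFun Q, h2, map_zero]; rfl

/-- **Equivariance** of `θ` for compatible additive endomorphisms `(s, s0, s1)`. -/
lemma theta_equivariant (h : RigidData n r0 r1) (s : E →+ E) (s0 : E0 →+ E0) (s1 : E1 →+ E1)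
    (c0 : ∀ P : E, n • P = 0 → r0 (s P) = s0 (r0 P))
    (c1 : ∀ P : E, n • P = 0 → r1 (s P) = s1 (r1 P))
    (Q Q' : Submodule.torsionBy ℤ E0 (n : ℤ)) (e : Q'.1 = s0 Q.1) :
    ((h.theta Q' : Submodule.torsionBy ℤ E1 (n : ℤ)) : E1) = s1 (h.theta Q).1 := by
  have hP := h.liftFun_nsmul Q
  have hsP : n • s (h.liftFun Q) = 0 := by rw [← map_nsmul, hP, map_zero]
  rw [h.theta_r0 hsP Q' (by rw [c0 _ hP, h.r0_liftFun, e]), c1 _ hP, theta_coe]

end RigidData

end Fermat.Agent.S52.H170

end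
-- ===== PACK-END S52/H170/Rigid.lean

-- ===== PACK-BEGIN S52/Fam/Refl.lean
section


/-!
# S52 / Fam: a tiny reflective checker for polynomial identities in two variables with
integer coefficients (dense lists), evaluated by the kernel (`decide +kernel`).
-/

set_option autoImplicit false

namespace Fermat.Agent.S52.Refl

variable {R : Type*} [CommRing R]

/-! ### univariate polynomials as coefficient lists -/

/-- addition of coefficient lists -/
def uadd : List ℤ → List ℤ → List ℤ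
  | [], q => q
  | p, [] => p
  | a :: p, b :: q => (a + b) :: uadd p q

/-- scalar multiplication -/
def usmul (k : ℤ) : List ℤ → List ℤ
  | [] => []
  | a :: p => (k * a) :: usmul k p

/-- multiplication -/
def umul : List ℤ → List ℤ → List ℤ
  | [], _ => []
  | a :: p, q => uadd (usmul a q) (0 :: umul p q)

/-- power -/
def upow (p : List ℤ) : ℕ → List ℤ
  | 0 => [1]
  | n + 1 => umul p (upow p n)

/-- all coefficients vanish -/
def uzero : List ℤ → Bool
  | [] => true
  | a :: p => (a == 0) && uzero p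

/-- evaluation (Horner) -/
def ueval (x : R) : List ℤ → R
  | [] => 0
  | a :: p => (a : R) + x * ueval x p

@[simp] lemma ueval_nil (x : R) : ueval x [] = 0 := rfl
@[simp] lemma ueval_cons (x : R) (a : ℤ) (p : List ℤ) :
    ueval x (a :: p) = (a : R) + x * ueval x p := rfl

lemma ueval_uadd (x : R) : ∀ p q : List ℤ, ueval x (uadd p q) = ueval x p + ueval x q
  | [], q => by simp [uadd]
  | a :: p, [] => by simp [uadd]
  | a :: p, b :: q => by
      simp only [uadd, ueval_cons, ueval_uadd x p q]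
      push_cast; ring

lemma ueval_usmul (x : R) (k : ℤ) : ∀ p : List ℤ, ueval x (usmul k p) = (k : R) * ueval x p
  | [] => by simp [usmul]
  | a :: p => by
      simp only [usmul, ueval_cons, ueval_usmul x k p]
      push_cast; ring

lemma ueval_umul (x : R) : ∀ p q : List ℤ, ueval x (umul p q) = ueval x p * ueval x q
  | [], q => by simp [umul]
  | a :: p, q => by
      simp only [umul, ueval_uadd, ueval_usmul, ueval_cons, ueval_umul x p q]
      push_cast; ring

lemma ueval_upow (x : R) (p : List ℤ) : ∀ n : ℕ, ueval x (upow p n) = ueval x p ^ n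
  | 0 => by simp [upow]
  | n + 1 => by simp only [upow, ueval_umul, ueval_upow x p n]; ring

lemma ueval_of_uzero (x : R) : ∀ p : List ℤ, uzero p = true → ueval x p = 0
  | [], _ => rfl
  | a :: p, h => by
      simp only [uzero, Bool.and_eq_true, beq_iff_eq] at h
      simp [h.1, ueval_of_uzero x p h.2]

/-! ### bivariate polynomials: lists (index = degree in `τ`) of univariate lists (in `c`) -/

/-- addition -/
def badd : List (List ℤ) → List (List ℤ) → List (List ℤ)
  | [], q => q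
  | p, [] => p
  | a :: p, b :: q => uadd a b :: badd p q

/-- multiplication by a univariate polynomial in `c` -/
def bsmul (k : List ℤ) : List (List ℤ) → List (List ℤ)
  | [] => []
  | a :: p => umul k a :: bsmul k p

/-- multiplication by an integer -/
def bzsmul (k : ℤ) : List (List ℤ) → List (List ℤ)
  | [] => []
  | a :: p => usmul k a :: bzsmul k p

/-- multiplication -/
def bmul : List (List ℤ) → List (List ℤ) → List (List ℤ)
  | [], _ => []
  | a :: p, q => badd (bsmul a q) ([] :: bmul p q)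

/-- power -/
def bpow (p : List (List ℤ)) : ℕ → List (List ℤ)
  | 0 => [[1]]
  | n + 1 => bmul p (bpow p n)

/-- shift by `τ^j` -/
def bshift : ℕ → List (List ℤ) → List (List ℤ)
  | 0, p => p
  | j + 1, p => [] :: bshift j p

/-- all coefficients vanish -/
def bzero : List (List ℤ) → Bool
  | [] => true
  | a :: p => uzero a && bzero p

/-- evaluation -/
def beval (c τ : R) : List (List ℤ) → R
  | [] => 0
  | a :: p => ueval c a + τ * beval c τ p

@[simp] lemma beval_nil (c τ : R) : beval c τ [] = 0 := rfl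
@[simp] lemma beval_cons (c τ : R) (a : List ℤ) (p : List (List ℤ)) :
    beval c τ (a :: p) = ueval c a + τ * beval c τ p := rfl

lemma beval_badd (c τ : R) :
    ∀ p q : List (List ℤ), beval c τ (badd p q) = beval c τ p + beval c τ q
  | [], q => by simp [badd]
  | a :: p, [] => by simp [badd]
  | a :: p, b :: q => by
      simp only [badd, beval_cons, ueval_uadd, beval_badd c τ p q]
      ring

lemma beval_bsmul (c τ : R) (k : List ℤ) :
    ∀ p : List (List ℤ), beval c τ (bsmul k p) = ueval c k * beval c τ p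
  | [] => by simp [bsmul]
  | a :: p => by
      simp only [bsmul, beval_cons, ueval_umul, beval_bsmul c τ k p]
      ring

lemma beval_bzsmul (c τ : R) (k : ℤ) :
    ∀ p : List (List ℤ), beval c τ (bzsmul k p) = (k : R) * beval c τ p
  | [] => by simp [bzsmul]
  | a :: p => by
      simp only [bzsmul, beval_cons, ueval_usmul, beval_bzsmul c τ k p]
      ring

lemma beval_bmul (c τ : R) :
    ∀ p q : List (List ℤ), beval c τ (bmul p q) = beval c τ p * beval c τ q
  | [], q => by simp [bmul]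
  | a :: p, q => by
      simp only [bmul, beval_badd, beval_bsmul, beval_cons, ueval_nil, beval_bmul c τ p q]
      ring

lemma beval_bpow (c τ : R) (p : List (List ℤ)) :
    ∀ n : ℕ, beval c τ (bpow p n) = beval c τ p ^ n
  | 0 => by simp [bpow]
  | n + 1 => by simp only [bpow, beval_bmul, beval_bpow c τ p n]; ring

lemma beval_bshift (c τ : R) :
    ∀ (j : ℕ) (p : List (List ℤ)), beval c τ (bshift j p) = τ ^ j * beval c τ p
  | 0, p => by simp [bshift]
  | j + 1, p => by
      simp only [bshift, beval_cons, ueval_nil, beval_bshift c τ j p]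
      ring

lemma beval_of_bzero (c τ : R) : ∀ p : List (List ℤ), bzero p = true → beval c τ p = 0
  | [], _ => rfl
  | a :: p, h => by
      simp only [bzero, Bool.and_eq_true] at h
      simp [ueval_of_uzero c a h.1, beval_of_bzero c τ p h.2]

/-- equality test -/
def beq (p q : List (List ℤ)) : Bool := bzero (badd p (bzsmul (-1) q))

lemma beval_eq_of_beq (c τ : R) (p q : List (List ℤ)) (h : beq p q = true) :
    beval c τ p = beval c τ q := by
  have := beval_of_bzero c τ _ h
  rw [beval_badd, beval_bzsmul] at this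
  push_cast at this
  linear_combination this

/-! ### sparse tables in three variables `(c₄, c₆, τ)` and substitution of univariate polynomials
for `c₄`, `c₆` -/

/-- evaluation of a sparse table: entries `(k, a, b, j)` stand for `k * c₄^a * c₆^b * τ^j`. -/
def teval (c₄ c₆ τ : R) : List (ℤ × ℕ × ℕ × ℕ) → R
  | [] => 0
  | (k, a, b, j) :: l => (k : R) * c₄ ^ a * c₆ ^ b * τ ^ j + teval c₄ c₆ τ l

/-- substitute `c₄ = A(c)`, `c₆ = B(c)`. -/
def tsubst (A B : List ℤ) : List (ℤ × ℕ × ℕ × ℕ) → List (List ℤ)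
  | [] => []
  | (k, a, b, j) :: l =>
      badd (bshift j [usmul k (umul (upow A a) (upow B b))]) (tsubst A B l)

lemma beval_tsubst (c τ : R) (A B : List ℤ) :
    ∀ l : List (ℤ × ℕ × ℕ × ℕ),
      beval c τ (tsubst A B l) = teval (ueval c A) (ueval c B) τ l
  | [] => rfl
  | (k, a, b, j) :: l => by
      simp only [tsubst, teval, beval_badd, beval_bshift, beval_cons, beval_nil, ueval_usmul,
        ueval_umul, ueval_upow, beval_tsubst c τ A B l]
      ring

/-! ### flattening a table at `τ = 1` to a bivariate polynomial in `(c₄, c₆)` -/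

/-- the univariate monomial `k * x^a` -/
def umono (k : ℤ) : ℕ → List ℤ
  | 0 => [k]
  | a + 1 => 0 :: umono k a

lemma ueval_umono (x : R) (k : ℤ) : ∀ a : ℕ, ueval x (umono k a) = (k : R) * x ^ a
  | 0 => by simp [umono]
  | a + 1 => by simp only [umono, ueval_cons, ueval_umono x k a]; push_cast; ring

/-- flatten at `τ = 1`: inner variable `c₄`, outer variable `c₆`. -/
def tflat : List (ℤ × ℕ × ℕ × ℕ) → List (List ℤ)
  | [] => []
  | (k, a, b, _) :: l => badd (bshift b [umono k a]) (tflat l)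

lemma beval_tflat (x y : R) :
    ∀ l : List (ℤ × ℕ × ℕ × ℕ), beval x y (tflat l) = teval x y 1 l
  | [] => rfl
  | (k, a, b, j) :: l => by
      simp only [tflat, teval, beval_badd, beval_bshift, beval_cons, beval_nil, ueval_umono,
        beval_tflat x y l]
      ring

end Fermat.Agent.S52.Refl

end
-- ===== PACK-END S52/Fam/Refl.lean

-- ===== PACK-BEGIN S52/B/B2/H352/Model.lean
section



/-!
# S52, piece (B2a): integral models with prescribed invariants near a given model

(Verbatim copy of helper172's `Fermat/Agent/S52/H172/Model.lean`, renamed into the namespace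
`Fermat.Agent.S52.B.B2.H352` so that the B2 closure only depends on landed files.)

Data-independent.  Given `W : WeierstrassCurve ℤ` and integers `c4' c6'` with
`576 * K ∣ c4' - W.c₄` and `864 * K ∣ c6' - W.c₆`, there is an integral model `W'` with the same
`a₁ a₂ a₃`, with `a₄, a₆` changed by multiples of `K`, and with `W'.c₄ = c4'`, `W'.c₆ = c6'`.
For primes `ℓ ∣ K` the reductions mod `ℓ` coincide, hence equal `apOfModel`, and the divisibility of
`Δ`, `c₄` by `ℓ` is unchanged.  A semistability criterion is deduced.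
-/

set_option autoImplicit false

namespace Fermat.Agent.S52.B.B2.H352

open WeierstrassCurve

/-- Coefficientwise congruence of two integral Weierstrass models modulo `K`. -/
def CongrMod (K : ℤ) (W W' : WeierstrassCurve ℤ) : Prop :=
  K ∣ W'.a₁ - W.a₁ ∧ K ∣ W'.a₂ - W.a₂ ∧ K ∣ W'.a₃ - W.a₃ ∧ K ∣ W'.a₄ - W.a₄ ∧ K ∣ W'.a₆ - W.a₆

theorem CongrMod.refl (K : ℤ) (W : WeierstrassCurve ℤ) : CongrMod K W W := by
  refine ⟨?_, ?_, ?_, ?_, ?_⟩ <;> simp

theorem CongrMod.of_dvd {K L : ℤ} {W W' : WeierstrassCurve ℤ} (h : CongrMod K W W')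
    (hL : L ∣ K) : CongrMod L W W' :=
  ⟨hL.trans h.1, hL.trans h.2.1, hL.trans h.2.2.1, hL.trans h.2.2.2.1, hL.trans h.2.2.2.2⟩

/-- **Model existence.** -/
theorem exists_model_of_congr (W : WeierstrassCurve ℤ) (K c4' c6' : ℤ)
    (h4 : 576 * K ∣ c4' - W.c₄) (h6 : 864 * K ∣ c6' - W.c₆) :
    ∃ W' : WeierstrassCurve ℤ, W'.a₁ = W.a₁ ∧ W'.a₂ = W.a₂ ∧ W'.a₃ = W.a₃ ∧
      K ∣ W'.a₄ - W.a₄ ∧ K ∣ W'.a₆ - W.a₆ ∧ W'.c₄ = c4' ∧ W'.c₆ = c6' := by
  obtain ⟨α, hα⟩ := h4
  obtain ⟨β, hβ⟩ := h6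
  -- a₄' = a₄ - 12 K α,  a₆' = a₆ - K (β + b₂ α)
  refine ⟨⟨W.a₁, W.a₂, W.a₃, W.a₄ - 12 * K * α, W.a₆ - K * (β + W.b₂ * α)⟩,
    rfl, rfl, rfl, ?_, ?_, ?_, ?_⟩
  · exact ⟨-12 * α, by ring⟩
  · exact ⟨-(β + W.b₂ * α), by ring⟩
  · have : c4' = W.c₄ + 576 * K * α := by linarith
    rw [this]
    simp only [WeierstrassCurve.c₄, WeierstrassCurve.b₂, WeierstrassCurve.b₄]
    ring
  · have : c6' = W.c₆ + 864 * K * β := by linarith
    rw [this]
    simp only [WeierstrassCurve.c₆, WeierstrassCurve.b₂, WeierstrassCurve.b₄,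
      WeierstrassCurve.b₆]
    ring

/-- Same statement, packaged with `CongrMod`. -/
theorem exists_model_congrMod (W : WeierstrassCurve ℤ) (K c4' c6' : ℤ)
    (h4 : 576 * K ∣ c4' - W.c₄) (h6 : 864 * K ∣ c6' - W.c₆) :
    ∃ W' : WeierstrassCurve ℤ, CongrMod K W W' ∧ W'.c₄ = c4' ∧ W'.c₆ = c6' := by
  obtain ⟨W', h1, h2, h3, h4', h6', hc4, hc6⟩ := exists_model_of_congr W K c4' c6' h4 h6
  exact ⟨W', ⟨by simp [h1], by simp [h2], by simp [h3], h4', h6'⟩, hc4, hc6⟩

/-- The discriminant of a model is determined by `c₄`, `c₆`. -/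
theorem delta_ne_zero_of_c (W' : WeierstrassCurve ℤ) (h : W'.c₄ ^ 3 - W'.c₆ ^ 2 ≠ 0) :
    W'.Δ ≠ 0 := by
  intro h0
  apply h
  rw [← W'.c_relation, h0, mul_zero]

section Congr

variable {K : ℤ} {W W' : WeierstrassCurve ℤ}

theorem CongrMod.map_eq {R : Type*} [CommRing R] (f : ℤ →+* R) (hK : f K = 0)
    (h : CongrMod K W W') : W'.map f = W.map f := by
  have key : ∀ a b : ℤ, K ∣ a - b → f a = f b := by
    intro a b ⟨c, hc⟩
    have : a = b + K * c := by linarith
    rw [this, map_add, map_mul, hK, zero_mul, add_zero]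
  obtain ⟨h1, h2, h3, h4, h6⟩ := h
  ext
  · exact key _ _ h1
  · exact key _ _ h2
  · exact key _ _ h3
  · exact key _ _ h4
  · exact key _ _ h6

theorem CongrMod.reductionMod_eq {ℓ : ℕ} (hℓ : (ℓ : ℤ) ∣ K) (h : CongrMod K W W') :
    W'.reductionMod ℓ = W.reductionMod ℓ := by
  unfold WeierstrassCurve.reductionMod
  apply CongrMod.map_eq (K := (ℓ : ℤ)) _ _ (h.of_dvd hℓ)
  simp

/-- Congruent models have the same `a_ℓ` at primes dividing the modulus. -/
theorem CongrMod.apOfModel_eq {ℓ : ℕ} (hℓ : (ℓ : ℤ) ∣ K) (h : CongrMod K W W') :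
    W'.apOfModel ℓ = W.apOfModel ℓ := by
  unfold WeierstrassCurve.apOfModel
  rw [h.reductionMod_eq hℓ]

theorem CongrMod.delta_sub_dvd (h : CongrMod K W W') : K ∣ W'.Δ - W.Δ := by
  have := h.map_eq (Int.castRingHom (ZMod K.natAbs)) (by
    rw [eq_intCast, ZMod.intCast_zmod_eq_zero_iff_dvd]; simp)
  have hΔ : (W'.map (Int.castRingHom (ZMod K.natAbs))).Δ =
      (W.map (Int.castRingHom (ZMod K.natAbs))).Δ := by rw [this]
  rw [WeierstrassCurve.map_Δ, WeierstrassCurve.map_Δ] at hΔ
  have h2 : ((W'.Δ - W.Δ : ℤ) : ZMod K.natAbs) = 0 := by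
    push_cast
    simpa [sub_eq_zero] using hΔ
  rw [ZMod.intCast_zmod_eq_zero_iff_dvd] at h2
  exact Int.natAbs_dvd.mp h2

theorem CongrMod.c₄_sub_dvd (h : CongrMod K W W') : K ∣ W'.c₄ - W.c₄ := by
  have := h.map_eq (Int.castRingHom (ZMod K.natAbs)) (by
    rw [eq_intCast, ZMod.intCast_zmod_eq_zero_iff_dvd]; simp)
  have hc : (W'.map (Int.castRingHom (ZMod K.natAbs))).c₄ =
      (W.map (Int.castRingHom (ZMod K.natAbs))).c₄ := by rw [this]
  rw [WeierstrassCurve.map_c₄, WeierstrassCurve.map_c₄] at hc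
  have h2 : ((W'.c₄ - W.c₄ : ℤ) : ZMod K.natAbs) = 0 := by
    push_cast
    simpa [sub_eq_zero] using hc
  rw [ZMod.intCast_zmod_eq_zero_iff_dvd] at h2
  exact Int.natAbs_dvd.mp h2

theorem CongrMod.dvd_delta_iff {ℓ : ℤ} (hℓ : ℓ ∣ K) (h : CongrMod K W W') :
    ℓ ∣ W'.Δ ↔ ℓ ∣ W.Δ := by
  have hd : ℓ ∣ W'.Δ - W.Δ := hℓ.trans h.delta_sub_dvd
  constructor
  · intro h'
    have := dvd_sub h' hd
    simpa using this
  · intro h'
    have := dvd_add hd h'
    simpa using this

theorem CongrMod.dvd_c₄_iff {ℓ : ℤ} (hℓ : ℓ ∣ K) (h : CongrMod K W W') :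
    ℓ ∣ W'.c₄ ↔ ℓ ∣ W.c₄ := by
  have hd : ℓ ∣ W'.c₄ - W.c₄ := hℓ.trans h.c₄_sub_dvd
  constructor
  · intro h'
    have := dvd_sub h' hd
    simpa using this
  · intro h'
    have := dvd_add hd h'
    simpa using this

/-- **Semistability criterion.**  If `W` is a semistable model, `W' ≡ W` modulo `K`, and at every
prime `ℓ ∤ K` dividing `Δ(W')` the invariant `c₄(W')` is an `ℓ`-unit, then `W'` is a semistable
model. -/
theorem CongrMod.isSemistableModel (h : CongrMod K W W') (hW : W.IsSemistableModel)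
    (hout : ∀ ℓ : ℕ, ℓ.Prime → ¬ (ℓ : ℤ) ∣ K → (ℓ : ℤ) ∣ W'.Δ → ¬ (ℓ : ℤ) ∣ W'.c₄) :
    W'.IsSemistableModel := by
  intro ℓ hℓ hΔ
  by_cases hK : (ℓ : ℤ) ∣ K
  · rw [h.dvd_c₄_iff hK]
    exact hW ℓ hℓ ((h.dvd_delta_iff hK).mp hΔ)
  · exact hout ℓ hℓ hK hΔ

/-- Good primes dividing the modulus are the same for congruent models. -/
theorem CongrMod.isGoodPrimeFor_iff {ℓ : ℕ} (hℓ : (ℓ : ℤ) ∣ K) (h : CongrMod K W W') :
    W'.IsGoodPrimeFor ℓ ↔ W.IsGoodPrimeFor ℓ := by
  unfold WeierstrassCurve.IsGoodPrimeFor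
  rw [h.dvd_delta_iff hℓ]

end Congr

end Fermat.Agent.S52.B.B2.H352

end
-- ===== PACK-END S52/B/B2/H352/Model.lean

-- ===== PACK-BEGIN S52/H531/Quartic.lean
section
/-
S52 / piece B3 (Hilbert irreducibility by hand), helper531.
Part 1: elementary algebra of the depressed quartic `3x⁴ + a x² + b x + c`
(the 3-division polynomial of a short Weierstrass curve, up to normalisation).
Mathlib only.
-/


namespace Fermat.Agent.S52.H531

section Algebra

variable {R : Type*} [CommRing R]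

/-- The depressed quartic `3x⁴ + a x² + b x + c`. -/
def quart (a b c x : R) : R := 3 * x ^ 4 + a * x ^ 2 + b * x + c

/-- Its derivative in `x`. -/
def quartD (a b x : R) : R := 12 * x ^ 3 + 2 * a * x + b

/-- The second-order Taylor remainder factor. -/
def quartR (a x h : R) : R := 18 * x ^ 2 + 12 * x * h + 3 * h ^ 2 + a

theorem quart_taylor (a b c x h : R) :
    quart a b c (x + h) = quart a b c x + h * quartD a b x + h ^ 2 * quartR a x h := by
  unfold quart quartD quartR; ring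

/-- `quart` at `z` in terms of the value at `p`: `q(z) = q(p) + (z - p) * Q`. -/
theorem quart_sub (a b c z p : R) :
    quart a b c z = quart a b c p + (z - p) * (quartD a b p + (z - p) * quartR a p (z - p)) := by
  unfold quart quartD quartR; ring

/-- Weighted homogeneity of `quart`. -/
theorem quart_scale (a b c z s : R) :
    quart (s ^ 2 * a) (s ^ 3 * b) (s ^ 4 * c) (s * z) = s ^ 4 * quart a b c z := by
  unfold quart; ring

theorem map_quart {S : Type*} [CommRing S] (f : R →+* S) (a b c x : R) :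
    f (quart a b c x) = quart (f a) (f b) (f c) (f x) := by
  unfold quart; simp [map_add, map_mul, map_pow, map_ofNat]

theorem map_quartD {S : Type*} [CommRing S] (f : R →+* S) (a b x : R) :
    f (quartD a b x) = quartD (f a) (f b) (f x) := by
  unfold quartD; simp [map_add, map_mul, map_pow, map_ofNat]

theorem map_quartR {S : Type*} [CommRing S] (f : R →+* S) (a x h : R) :
    f (quartR a x h) = quartR (f a) (f x) (f h) := by
  unfold quartR; simp [map_add, map_mul, map_pow, map_ofNat]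

/-- The coefficients attached to `(c₄, c₆)`: `ψ = 3X⁴ - 162 c₄ X² - 648 c₆ X - 729 c₄²`. -/
def cA (c4 : R) : R := -162 * c4
def cB (c6 : R) : R := -648 * c6
def cC (c4 : R) : R := -729 * c4 ^ 2

/-- The quartic `3X⁴ - 162 c₄ X² - 648 c₆ X - 729 c₄²`. -/
def psiQ (c4 c6 x : R) : R := quart (cA c4) (cB c6) (cC c4) x

theorem psiQ_eq (c4 c6 x : R) :
    psiQ c4 c6 x = 3 * x ^ 4 - 162 * c4 * x ^ 2 - 648 * c6 * x - 729 * c4 ^ 2 := by
  unfold psiQ quart cA cB cC; ring

theorem map_psiQ {S : Type*} [CommRing S] (f : R →+* S) (c4 c6 x : R) :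
    f (psiQ c4 c6 x) = psiQ (f c4) (f c6) (f x) := by
  unfold psiQ cA cB cC; rw [map_quart]; simp [map_mul, map_pow, map_neg, map_ofNat]

/-- Weighted homogeneity of `psiQ`: weights `(2, 3, 1)`. -/
theorem psiQ_scale (c4 c6 z s : R) :
    psiQ (s ^ 2 * c4) (s ^ 3 * c6) (s * z) = s ^ 4 * psiQ c4 c6 z := by
  unfold psiQ quart cA cB cC; ring

end Algebra

section Real

/-- Roots of `psiQ` are simple when `c₄³ ≠ c₆²`. -/
theorem psiQ_deriv_ne_zero {F : Type*} [Field F] [CharZero F] {c4 c6 ρ : F}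
    (hΔ : c4 ^ 3 ≠ c6 ^ 2) (hρ : psiQ c4 c6 ρ = 0) :
    quartD (cA c4) (cB c6) ρ ≠ 0 := by
  intro hd
  apply hΔ
  unfold psiQ quart cA cB cC at hρ
  unfold quartD cA cB at hd
  -- f(ρ) = ρ³ - 27 c4 ρ - 54 c6 = 0
  have hf : ρ ^ 3 - 27 * c4 * ρ - 54 * c6 = 0 := by
    have h12 : (12 : F) ≠ 0 := by norm_num
    apply mul_left_cancel₀ h12
    linear_combination hd
  -- (3ρ² - 27 c4)² = 2 f f'' - ψ = 0
  have hsq : (3 * ρ ^ 2 - 27 * c4) ^ 2 = 0 := by
    linear_combination (12 * ρ) * hf - hρ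
  have h1 : 3 * ρ ^ 2 - 27 * c4 = 0 := by
    exact pow_eq_zero_iff (n := 2) (by norm_num) |>.mp hsq
  have hc4 : c4 = ρ ^ 2 / 9 := by
    field_simp
    linear_combination (-1 / 3 : F) * h1
  have hc6 : c6 = -(ρ ^ 3) / 27 := by
    field_simp
    have : 54 * c6 = ρ ^ 3 - 27 * c4 * ρ := by linear_combination -hf
    rw [hc4] at this
    linear_combination (1 / 2 : F) * this
  rw [hc4, hc6]
  ring

/-- The discriminant of `3x⁴ + a x² + b x + c`. -/
def quartDisc {R : Type*} [CommRing R] (a b c : R) : R :=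
  6912 * c ^ 3 - 1152 * a ^ 2 * c ^ 2 + 1296 * a * b ^ 2 * c - 243 * b ^ 4 + 48 * a ^ 4 * c
    - 12 * a ^ 3 * b ^ 2

theorem quartDisc_psi {R : Type*} [CommRing R] (c4 c6 : R) :
    quartDisc (cA c4) (cB c6) (cC c4) = -42845606719488 * (c4 ^ 3 - c6 ^ 2) ^ 2 := by
  unfold quartDisc cA cB cC; ring

/-- Three distinct roots determine the coefficients of the depressed quartic. -/
theorem quart_coeffs_of_three_roots {F : Type*} [Field F] {a b c x0 x1 x2 : F}
    (h01 : x0 ≠ x1) (h02 : x0 ≠ x2) (h12 : x1 ≠ x2)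
    (h0 : quart a b c x0 = 0) (h1 : quart a b c x1 = 0) (h2 : quart a b c x2 = 0) :
    a = 3 * (x0 * x1 + x0 * x2 + x1 * x2 - (x0 + x1 + x2) ^ 2) ∧
    b = 3 * ((x0 + x1 + x2) * (x0 * x1 + x0 * x2 + x1 * x2) - x0 * x1 * x2) ∧
    c = -3 * (x0 * x1 * x2 * (x0 + x1 + x2)) := by
  set α := a - 3 * (x0 * x1 + x0 * x2 + x1 * x2 - (x0 + x1 + x2) ^ 2) with hα
  set β := b - 3 * ((x0 + x1 + x2) * (x0 * x1 + x0 * x2 + x1 * x2) - x0 * x1 * x2) with hβ
  set γ := c + 3 * (x0 * x1 * x2 * (x0 + x1 + x2)) with hγ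
  have e0 : α * x0 ^ 2 + β * x0 + γ = 0 := by
    rw [← h0]; simp only [hα, hβ, hγ]; unfold quart; ring
  have e1 : α * x1 ^ 2 + β * x1 + γ = 0 := by
    rw [← h1]; simp only [hα, hβ, hγ]; unfold quart; ring
  have e2 : α * x2 ^ 2 + β * x2 + γ = 0 := by
    rw [← h2]; simp only [hα, hβ, hγ]; unfold quart; ring
  have d01 : α * (x0 + x1) + β = 0 := by
    have : (x0 - x1) * (α * (x0 + x1) + β) = 0 := by linear_combination e0 - e1
    rcases mul_eq_zero.mp this with h | h
    · exact absurd (sub_eq_zero.mp h) h01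
    · exact h
  have d02 : α * (x0 + x2) + β = 0 := by
    have : (x0 - x2) * (α * (x0 + x2) + β) = 0 := by linear_combination e0 - e2
    rcases mul_eq_zero.mp this with h | h
    · exact absurd (sub_eq_zero.mp h) h02
    · exact h
  have hα0 : α = 0 := by
    have : (x1 - x2) * α = 0 := by linear_combination d01 - d02
    rcases mul_eq_zero.mp this with h | h
    · exact absurd (sub_eq_zero.mp h) h12
    · exact h
  have hβ0 : β = 0 := by rw [hα0] at d01; simpa using d01
  have hγ0 : γ = 0 := by rw [hα0, hβ0] at e0; simpa using e0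
  refine ⟨?_, ?_, ?_⟩
  · have := hα0; rw [hα] at this; linear_combination this
  · have := hβ0; rw [hβ] at this; linear_combination this
  · have := hγ0; rw [hγ] at this; linear_combination this

/-- A depressed real quartic `3x⁴ + a x² + b x + c` with negative discriminant has at most
two real roots. -/
theorem quart_not_three_roots {a b c x0 x1 x2 : ℝ} (hdisc : quartDisc a b c < 0)
    (h01 : x0 ≠ x1) (h02 : x0 ≠ x2) (h12 : x1 ≠ x2)
    (h0 : quart a b c x0 = 0) (h1 : quart a b c x1 = 0) (h2 : quart a b c x2 = 0) : False := by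
  obtain ⟨ha, hb, hc⟩ := quart_coeffs_of_three_roots h01 h02 h12 h0 h1 h2
  have key : quartDisc a b c =
      729 * ((x0 - x1) * (x0 - x2) * (x1 - x2) * (x0 - (-(x0 + x1 + x2)))
        * (x1 - (-(x0 + x1 + x2))) * (x2 - (-(x0 + x1 + x2)))) ^ 2 := by
    rw [ha, hb, hc]; unfold quartDisc; ring
  rw [key] at hdisc
  nlinarith [sq_nonneg ((x0 - x1) * (x0 - x2) * (x1 - x2) * (x0 - (-(x0 + x1 + x2)))
        * (x1 - (-(x0 + x1 + x2))) * (x2 - (-(x0 + x1 + x2))))]

/-- The real roots of `psiQ c4 c6` are contained in a set of the form `{x0, x1}`. -/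
theorem psiQ_roots_subset_pair {c4 c6 x0 : ℝ} (hΔ : c4 ^ 3 ≠ c6 ^ 2)
    (h0 : psiQ c4 c6 x0 = 0) :
    ∃ x1 : ℝ, psiQ c4 c6 x1 = 0 ∧ ∀ ρ : ℝ, psiQ c4 c6 ρ = 0 → ρ = x0 ∨ ρ = x1 := by
  have hdisc : quartDisc (cA c4) (cB c6) (cC c4) < 0 := by
    rw [quartDisc_psi]
    have : 0 < (c4 ^ 3 - c6 ^ 2) ^ 2 := by
      have : c4 ^ 3 - c6 ^ 2 ≠ 0 := sub_ne_zero.mpr hΔ
      positivity
    linarith
  by_cases h : ∃ x1 : ℝ, psiQ c4 c6 x1 = 0 ∧ x1 ≠ x0
  · obtain ⟨x1, hx1, hne⟩ := h
    refine ⟨x1, hx1, fun ρ hρ => ?_⟩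
    by_contra hcon
    rw [not_or] at hcon
    exact quart_not_three_roots hdisc (Ne.symm hne) (Ne.symm hcon.1) (Ne.symm hcon.2) h0 hx1 hρ
  · refine ⟨x0, h0, fun ρ hρ => ?_⟩
    left
    by_contra hne
    exact h ⟨ρ, hρ, hne⟩

/-- A priori bound for the real roots of the depressed quartic. -/
theorem quart_root_bound {a b c z B : ℝ} (hB : 1 ≤ B) (ha : |a| ≤ B) (hb : |b| ≤ B) (hc : |c| ≤ B)
    (hz : quart a b c z = 0) : |z| ≤ B := by
  by_contra hcon
  rw [not_le] at hcon
  unfold quart at hz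
  have hz1 : 1 < |z| := lt_of_le_of_lt hB hcon
  have hpos : 0 < |z| := by linarith
  -- 3 z^4 = -(a z^2 + b z + c)
  have h4 : 3 * |z| ^ 4 = |a * z ^ 2 + b * z + c| := by
    have : a * z ^ 2 + b * z + c = -(3 * z ^ 4) := by linarith
    rw [this, abs_neg, abs_mul, abs_pow]
    norm_num
  have hle : |a * z ^ 2 + b * z + c| ≤ B * |z| ^ 2 + B * |z| + B := by
    calc |a * z ^ 2 + b * z + c| ≤ |a * z ^ 2| + |b * z| + |c| := abs_add_three _ _ _
      _ = |a| * |z| ^ 2 + |b| * |z| + |c| := by rw [abs_mul, abs_mul, abs_pow]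
      _ ≤ B * |z| ^ 2 + B * |z| + B := by
          have h1 : |a| * |z| ^ 2 ≤ B * |z| ^ 2 := by
            apply mul_le_mul_of_nonneg_right ha; positivity
          have h2 : |b| * |z| ≤ B * |z| := by
            apply mul_le_mul_of_nonneg_right hb; positivity
          linarith
  have hz2 : |z| ≤ |z| ^ 2 := by nlinarith
  have hz3 : |z| ^ 2 * |z| ≤ |z| ^ 4 := by nlinarith [sq_nonneg (|z|), sq_nonneg (|z| - 1)]
  have hB0 : 0 < B := by linarith
  -- B (z² + z + 1) ≤ 3 B z² < 3 z³ ≤ 3 z⁴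
  nlinarith [mul_pos hB0 hpos, mul_pos hpos hpos, sq_nonneg (|z|)]

end Real

end Fermat.Agent.S52.H531

end
-- ===== PACK-END S52/H531/Quartic.lean

-- ===== PACK-BEGIN S15/H208/CountAbs.lean
section
/-
S15 / DESC, LOC-p without T7 (helper208): the pure-algebra counting lemma CNT-abs.

`X`, `M` additive commutative groups, `ι : M →+ X` with finite kernel, `N : X →+ M` with
`N ∘ ι ∘ N = 0`, `X[r]` finite and `r : X[r^(k+1)] → X[r^k]` surjective for all `k`.  Then
`|N (X[r])| ^ 2 ≤ |X[r]|`.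

Application (doc `coord/S15-LOCp-helper208.md`): `X = e · (J/A)[r^∞]`, `M = J[r^∞]_E`,
`N = τ₀ - 1` for an inertia element `τ₀` at `p`; `dim X[r] = D + s₀`, so the subgroup
`U₀ = (τ₀ - 1) Y_E` of `W_E` generated by the ramification at `p` of the Kummer classes of rational
points has dimension `≤ (D + s₀) / 2`.
-/


set_option autoImplicit false
set_option linter.style.haveILetI false

namespace Fermat.Agent.S15.H208

section Gen

variable {G H : Type*} [AddCommGroup G] [AddCommGroup H]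

/-- a group with a surjection onto a finite group with finite kernel -/
theorem finite_and_card_of_surjective (f : G →+ H) (hf : Function.Surjective f)
    (hH : Finite H) (hK : Finite f.ker) :
    Finite G ∧ Nat.card G = Nat.card H * Nat.card f.ker := by
  have e₁ : G ≃ (G ⧸ f.ker) × f.ker := AddSubgroup.addGroupEquivQuotientProdAddSubgroup
  have e₂ : (G ⧸ f.ker) ≃ H := (QuotientAddGroup.quotientKerEquivOfSurjective f hf).toEquiv
  have e : G ≃ H × f.ker := e₁.trans (Equiv.prodCongr e₂ (Equiv.refl _))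
  refine ⟨Finite.of_equiv _ e.symm, ?_⟩
  rw [Nat.card_congr e, Nat.card_prod]

/-- a group with a hom to a finite group with finite kernel (cardinality inequality) -/
theorem finite_and_card_le_of_ker (f : G →+ H) (hH : Finite H) (hK : Finite f.ker) :
    Finite G ∧ Nat.card G ≤ Nat.card H * Nat.card f.ker := by
  haveI := hH
  have hr : Finite f.range := inferInstance
  obtain ⟨h1, h2⟩ := finite_and_card_of_surjective f.rangeRestrict f.rangeRestrict_surjective hr
    (by rw [AddMonoidHom.ker_rangeRestrict]; exact hK)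
  refine ⟨h1, ?_⟩
  rw [h2, AddMonoidHom.ker_rangeRestrict]
  exact Nat.mul_le_mul_right _ (Nat.card_le_card_of_injective Subtype.val Subtype.val_injective)

end Gen

section Tors

variable (X : Type*) [AddCommGroup X]

/-- the `n`-torsion subgroup -/
def torsN (n : ℕ) : AddSubgroup X := (nsmulAddMonoidHom (α := X) n).ker

variable {X}

theorem mem_torsN {n : ℕ} {x : X} : x ∈ torsN X n ↔ n • x = 0 := by
  rw [torsN, AddMonoidHom.mem_ker]
  rfl

theorem torsN_mono {m n : ℕ} (h : m ∣ n) : torsN X m ≤ torsN X n := by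
  intro x hx
  rw [mem_torsN] at hx ⊢
  obtain ⟨c, rfl⟩ := h
  rw [mul_comm, mul_smul, hx, smul_zero]

end Tors

section Count

variable {X M : Type*} [AddCommGroup X] [AddCommGroup M]

/-- multiplication by `r` from `X[r^(k+1)]` to `X[r^k]` -/
def mulR (r k : ℕ) : torsN X (r ^ (k + 1)) →+ torsN X (r ^ k) where
  toFun x := ⟨r • (x : X), by
    rw [mem_torsN, ← mul_smul, ← pow_succ]
    exact mem_torsN.1 x.2⟩
  map_zero' := by
    apply Subtype.ext
    simp
  map_add' x y := by
    apply Subtype.ext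
    simp [smul_add]

theorem mulR_ker_card (r k : ℕ) :
    Nat.card (mulR (X := X) r k).ker = Nat.card (torsN X r) := by
  refine Nat.card_congr ⟨fun x => ⟨((x : torsN X (r ^ (k + 1))) : X), ?_⟩,
    fun x => ⟨⟨(x : X), torsN_mono (dvd_pow_self r (Nat.succ_ne_zero k)) x.2⟩, ?_⟩, ?_, ?_⟩
  · have h := x.2
    rw [AddMonoidHom.mem_ker] at h
    have h2 := congrArg Subtype.val h
    exact mem_torsN.2 h2
  · rw [AddMonoidHom.mem_ker]
    apply Subtype.ext
    exact mem_torsN.1 x.2
  · intro x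
    rfl
  · intro x
    rfl

/-- `|X[r^k]| = |X[r]|^k` for a group whose `r`-power torsion is `r`-divisible and `X[r]` finite -/
theorem card_torsN_pow (r : ℕ)
    (hfin : Finite (torsN X r))
    (hdiv : ∀ k : ℕ, ∀ x : X, r ^ k • x = 0 → ∃ x' : X, r ^ (k + 1) • x' = 0 ∧ r • x' = x)
    (k : ℕ) : Finite (torsN X (r ^ k)) ∧ Nat.card (torsN X (r ^ k)) = Nat.card (torsN X r) ^ k := by
  induction k with
  | zero =>
    have h0 : ∀ y : X, y ∈ torsN X (r ^ 0) → y = 0 := by
      intro y hy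
      have h := mem_torsN.1 hy
      rw [pow_zero, one_smul] at h
      exact h
    have h1 : ∀ x : torsN X (r ^ 0), x = 0 := by
      intro x
      apply Subtype.ext
      exact h0 x.1 x.2
    haveI : Subsingleton (torsN X (r ^ 0)) := ⟨fun a b => by rw [h1 a, h1 b]⟩
    refine ⟨inferInstance, ?_⟩
    have h2 : Nat.card (torsN X (r ^ 0)) = 1 := Nat.card_unique
    rw [h2, pow_zero]
  | succ k ih =>
    obtain ⟨hf, hc⟩ := ih
    have hsurj : Function.Surjective (mulR (X := X) r k) := by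
      rintro ⟨x, hx⟩
      obtain ⟨x', hx', hxx⟩ := hdiv k x (mem_torsN.1 hx)
      exact ⟨⟨x', mem_torsN.2 hx'⟩, Subtype.ext hxx⟩
    have hkfin : Finite (mulR (X := X) r k).ker := by
      have h := mulR_ker_card (X := X) r k
      have hpos : 0 < Nat.card (torsN X r) := Nat.card_pos
      rw [← h] at hpos
      exact (Nat.card_pos_iff.1 hpos).2
    obtain ⟨h1, h2⟩ := finite_and_card_of_surjective (mulR (X := X) r k) hsurj hf hkfin
    refine ⟨h1, ?_⟩
    rw [h2, hc, mulR_ker_card, pow_succ]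

/-- the image `N (X[n])` -/
def imgN (N : X →+ M) (n : ℕ) : AddSubgroup M := (torsN X n).map N

/-- `|N (X[r^k])| ≥ |N (X[r])|^k`. -/
theorem card_imgN_pow_le (r : ℕ) (N : X →+ M)
    (hfin : Finite (torsN X r))
    (hdiv : ∀ k : ℕ, ∀ x : X, r ^ k • x = 0 → ∃ x' : X, r ^ (k + 1) • x' = 0 ∧ r • x' = x)
    (k : ℕ) : Nat.card (imgN N r) ^ k ≤ Nat.card (imgN N (r ^ k)) := by
  induction k with
  | zero =>
    rw [pow_zero]
    have : Finite (torsN X (r ^ 0)) := (card_torsN_pow r hfin hdiv 0).1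
    have : Finite (imgN N (r ^ 0)) := by
      unfold imgN
      exact Finite.Set.finite_image _ _
    exact Nat.card_pos
  | succ k ih =>
    have hfk1 : Finite (torsN X (r ^ (k + 1))) := (card_torsN_pow r hfin hdiv (k + 1)).1
    have hfk : Finite (torsN X (r ^ k)) := (card_torsN_pow r hfin hdiv k).1
    haveI hUk1 : Finite (imgN N (r ^ (k + 1))) := by
      unfold imgN
      exact Finite.Set.finite_image _ _
    haveI hUk : Finite (imgN N (r ^ k)) := by
      unfold imgN
      exact Finite.Set.finite_image _ _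
    -- multiplication by `r` : U_{k+1} → U_k
    let f : imgN N (r ^ (k + 1)) →+ imgN N (r ^ k) :=
      { toFun := fun u => ⟨r • (u : M), by
          obtain ⟨x, hx, hxu⟩ := u.2
          refine ⟨r • x, ?_, ?_⟩
          · have hx' : r ^ (k + 1) • x = 0 := mem_torsN.1 hx
            show r • x ∈ torsN X (r ^ k)
            rw [mem_torsN, ← mul_smul, ← pow_succ]
            exact hx'
          · rw [map_nsmul, hxu]⟩
        map_zero' := by
          apply Subtype.ext
          simp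
        map_add' := fun a b => by
          apply Subtype.ext
          simp [smul_add] }
    have hfsurj : Function.Surjective f := by
      rintro ⟨u, x, hx, rfl⟩
      obtain ⟨x', hx', hxx⟩ := hdiv k x (mem_torsN.1 hx)
      refine ⟨⟨N x', x', mem_torsN.2 hx', rfl⟩, ?_⟩
      apply Subtype.ext
      show r • N x' = N x
      rw [← map_nsmul, hxx]
    obtain ⟨-, hcard⟩ := finite_and_card_of_surjective f hfsurj hUk inferInstance
    -- `U_1` injects into the kernel
    have hinj : Nat.card (imgN N r) ≤ Nat.card f.ker := by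
      refine Nat.card_le_card_of_injective
        (fun u : imgN N r => (⟨⟨(u : M), ?_⟩, ?_⟩ : f.ker)) ?_
      · obtain ⟨x, hx, hxu⟩ := u.2
        refine ⟨x, ?_, hxu⟩
        exact torsN_mono (dvd_pow_self r (Nat.succ_ne_zero k)) hx
      · rw [AddMonoidHom.mem_ker]
        apply Subtype.ext
        show r • (u : M) = 0
        obtain ⟨x, hx, hxu⟩ := u.2
        rw [← hxu, ← map_nsmul, mem_torsN.1 hx, map_zero]
      · intro a b hab
        apply Subtype.ext
        have := congrArg (fun z : f.ker => ((z : imgN N (r ^ (k + 1))) : M)) hab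
        exact this
    rw [hcard, pow_succ]
    exact Nat.mul_le_mul ih hinj

/-- `|N (X[r^k])|^2 ≤ |ker ι| · |X[r^k]|` when `N ∘ ι ∘ N = 0`. -/
theorem card_imgN_sq_le (n : ℕ) (ι : M →+ X) (N : X →+ M) (hN : ∀ x, N (ι (N x)) = 0)
    (hker : Finite ι.ker) (hfin : Finite (torsN X n)) :
    Nat.card (imgN N n) ^ 2 ≤ Nat.card ι.ker * Nat.card (torsN X n) := by
  haveI := hfin
  haveI := hker
  -- `N` restricted to `X[n]`
  let Nn : torsN X n →+ M := N.comp (torsN X n).subtype
  have hrange : Nn.range = imgN N n := by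
    ext u
    constructor
    · rintro ⟨x, rfl⟩
      exact ⟨x, x.2, rfl⟩
    · rintro ⟨x, hx, rfl⟩
      exact ⟨⟨x, hx⟩, rfl⟩
  haveI hUfin : Finite (imgN N n) := by
    unfold imgN
    exact Finite.Set.finite_image _ _
  -- `|X[n]| = |im| · |ker|`
  have h1 : Nat.card (torsN X n) = Nat.card (imgN N n) * Nat.card Nn.ker := by
    obtain ⟨-, h⟩ := finite_and_card_of_surjective Nn.rangeRestrict Nn.rangeRestrict_surjective
      (Finite.of_surjective Nn.rangeRestrict Nn.rangeRestrict_surjective)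
      (by rw [AddMonoidHom.ker_rangeRestrict]; infer_instance)
    rw [h, AddMonoidHom.ker_rangeRestrict, hrange]
  -- `ι` maps the image into `ker Nn`, with kernel inside `ker ι`
  let g : imgN N n →+ Nn.ker :=
    { toFun := fun u => ⟨⟨ι (u : M), by
          obtain ⟨x, hx, hxu⟩ := u.2
          rw [mem_torsN, ← map_nsmul, ← hxu, ← map_nsmul, mem_torsN.1 hx, map_zero, map_zero]⟩, by
          rw [AddMonoidHom.mem_ker]
          obtain ⟨x, hx, hxu⟩ := u.2
          show N (ι (u : M)) = 0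
          rw [← hxu]
          exact hN x⟩
      map_zero' := by
        apply Subtype.ext
        apply Subtype.ext
        simp
      map_add' := fun a b => by
        apply Subtype.ext
        apply Subtype.ext
        simp }
  have hgker : Nat.card g.ker ≤ Nat.card ι.ker := by
    refine Nat.card_le_card_of_injective
      (fun u : g.ker => (⟨((u : imgN N n) : M), ?_⟩ : ι.ker)) ?_
    · have h := u.2
      rw [AddMonoidHom.mem_ker] at h
      have h2 := congrArg (fun z : Nn.ker => ((z : torsN X n) : X)) h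
      rw [AddMonoidHom.mem_ker]
      exact h2
    · intro a b hab
      apply Subtype.ext
      apply Subtype.ext
      exact congrArg (fun z : ι.ker => (z : M)) hab
  obtain ⟨-, h2⟩ := finite_and_card_le_of_ker g inferInstance inferInstance
  calc Nat.card (imgN N n) ^ 2 = Nat.card (imgN N n) * Nat.card (imgN N n) := sq _
    _ ≤ Nat.card (imgN N n) * (Nat.card Nn.ker * Nat.card g.ker) :=
        Nat.mul_le_mul_left _ h2
    _ ≤ Nat.card (imgN N n) * (Nat.card Nn.ker * Nat.card ι.ker) :=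
        Nat.mul_le_mul_left _ (Nat.mul_le_mul_left _ hgker)
    _ = Nat.card ι.ker * Nat.card (torsN X n) := by rw [h1]; ring

/-- arithmetic: `a^(2k) ≤ c · b^k` for all `k` implies `a^2 ≤ b`. -/
theorem sq_le_of_forall_pow_le (a b c : ℕ) (h : ∀ k : ℕ, (a ^ 2) ^ k ≤ c * b ^ k) :
    a ^ 2 ≤ b := by
  by_contra hlt
  have hlt' : b + 1 ≤ a ^ 2 := Nat.lt_of_not_le hlt
  -- `(b+1)^k ≥ b^k + k b^(k-1)`; take `k = c * b + 1`
  have key : ∀ k : ℕ, b ^ (k + 1) + (k + 1) * b ^ k ≤ (b + 1) ^ (k + 1) := by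
    intro k
    induction k with
    | zero => simp
    | succ k ih =>
      calc b ^ (k + 2) + (k + 2) * b ^ (k + 1)
          = (b ^ (k + 1) + (k + 1) * b ^ k) * b + b ^ (k + 1) := by ring
        _ ≤ (b + 1) ^ (k + 1) * b + (b + 1) ^ (k + 1) := by
            refine Nat.add_le_add (Nat.mul_le_mul_right _ ih) ?_
            exact Nat.pow_le_pow_left (Nat.le_succ b) _
        _ = (b + 1) ^ (k + 2) := by ring
  have h1 := h (c * b + 1)
  have h2 : (b + 1) ^ (c * b + 1) ≤ c * b ^ (c * b + 1) :=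
    le_trans (Nat.pow_le_pow_left hlt' _) h1
  have h3 := key (c * b)
  have h4 : b ^ (c * b + 1) + (c * b + 1) * b ^ (c * b) ≤ c * b ^ (c * b + 1) :=
    le_trans h3 h2
  have h5 : c * b ^ (c * b + 1) = (c * b) * b ^ (c * b) := by ring
  rw [h5] at h4
  have h6 : (c * b + 1) * b ^ (c * b) = c * b * b ^ (c * b) + b ^ (c * b) := by ring
  rw [h6] at h4
  -- so `b^(cb+1) + b^(cb) ≤ 0`
  have h7 : b ^ (c * b + 1) + b ^ (c * b) = 0 := by omega
  have h8 : b ^ (c * b) = 0 := by omega
  have hb : b = 0 := by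
    by_contra hb
    exact absurd h8 (pow_ne_zero _ hb)
  subst hb
  -- `b = 0`: `h 0` gives `1 ≤ c`, and `h 1` gives `a^2 ≤ 0`
  have h9 := h 1
  rw [pow_one, pow_one, Nat.mul_zero] at h9
  omega

/-- **CNT-abs.**  `|N (X[r])|² ≤ |X[r]|`. -/
theorem card_imgN_sq_le_card_tors (r : ℕ) (ι : M →+ X) (N : X →+ M)
    (hN : ∀ x, N (ι (N x)) = 0) (hker : Finite ι.ker)
    (hfin : Finite (torsN X r))
    (hdiv : ∀ k : ℕ, ∀ x : X, r ^ k • x = 0 → ∃ x' : X, r ^ (k + 1) • x' = 0 ∧ r • x' = x) :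
    Nat.card (imgN N r) ^ 2 ≤ Nat.card (torsN X r) := by
  refine sq_le_of_forall_pow_le _ _ (Nat.card ι.ker) (fun k => ?_)
  obtain ⟨hfk, hck⟩ := card_torsN_pow r hfin hdiv k
  have h1 := card_imgN_sq_le (r ^ k) ι N hN hker hfk
  have h2 := card_imgN_pow_le r N hfin hdiv k
  calc (Nat.card (imgN N r) ^ 2) ^ k = (Nat.card (imgN N r) ^ k) ^ 2 := by ring
    _ ≤ Nat.card (imgN N (r ^ k)) ^ 2 := Nat.pow_le_pow_left h2 2
    _ ≤ Nat.card ι.ker * Nat.card (torsN X (r ^ k)) := h1
    _ = Nat.card ι.ker * Nat.card (torsN X r) ^ k := by rw [hck]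

end Count

end Fermat.Agent.S15.H208

end
-- ===== PACK-END S15/H208/CountAbs.lean

-- ===== PACK-BEGIN S15/Skeleton.lean
section





/-!
# Row S15 (row-lead helper975): frozen interfaces

`S15` (Mazur's Step 3) is deduced from three nodes:

* `LocStatement`  : local lemma at a multiplicative prime (elementary elliptic-curve theory);
* `GeoStatement`  : the moduli point, the cuspidal class and the reduction maps (Tower A);
* `DescStatement` : Mazur's Eisenstein descent (the wall).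

This file contains only definitions (no `sorry`).  The deduction `S15_of_nodes` is in
`Fermat/Agent/S15/Top.lean`.
-/

set_option autoImplicit false

noncomputable section

open WeierstrassCurve WeierstrassCurve.Affine

namespace Fermat.Agent.S15

/-- the absolute Galois group of `ℚ` -/
abbrev Gal : Type := AlgebraicClosure ℚ ≃ₐ[ℚ] AlgebraicClosure ℚ

/-- the points of the curve `W` over `ℚ̄` -/
abbrev Pts (W : WeierstrassCurve ℤ) : Type :=
  ((W.map (Int.castRingHom ℚ))⁄(AlgebraicClosure ℚ)).Point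

/-- **NODE LOC.** A rational point of prime order `p` which lies in the identity component at a
multiplicative prime `ℓ ≠ p` forces `p ∣ (ℓ - 1) (ℓ + 1)`. -/
def LocStatement : Prop :=
  ∀ {p : ℕ} (_hp : p.Prime) (W : WeierstrassCurve ℤ) (_hΔ : W.Δ ≠ 0) (Q : Pts W)
    (_hQfix : ∀ σ : Gal, σ • Q = Q) (_hQord : addOrderOf Q = p)
    {ℓ : ℕ} (_hℓ : ℓ.Prime) (_hℓp : ℓ ≠ p) (_hℓΔ : (ℓ : ℤ) ∣ W.Δ) (_hℓc₄ : ¬ (ℓ : ℤ) ∣ W.c₄)
    (A : ValuationSubring (AlgebraicClosure ℚ)) (_hA : A.LiesOverPrime ℓ),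
    W.InZeroComponentAt A Q → p ∣ (ℓ - 1) * (ℓ + 1)

/-- `x` is an Eisenstein vector: `T_q x = (1 + q) x` for all primes `q ≠ p`. -/
def IsEisensteinVector (p : ℕ) [NeZero p] (x : ModularCurve.JZero p) : Prop :=
  ∀ q : Nat.Primes, (q : ℕ) ≠ p →
    ModularCurve.heckeOperatorBar p q x = ((1 + (q : ℕ) : ℕ)) • x

/-- The ring of endomorphisms of `J₀(p)(ℚ̄)` generated by the `T_q`, `q ∉ S`, `q ≠ p`. -/
def heckeRingAway (p : ℕ) [NeZero p] (S : Finset ℕ) :
    Subalgebra ℤ (Module.End ℤ (ModularCurve.JZero p)) :=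
  Algebra.adjoin ℤ {T | ∃ q : Nat.Primes, (q : ℕ) ∉ S ∧ (q : ℕ) ≠ p ∧
    T = ModularCurve.heckeOperatorBar p q}

/-- A reduction map for `J₀(p)` at the prime `ℓ`: additive, injective on torsion of order prime
to `ℓ`, with kernel stable under the `T_q`, `q ≠ p, ℓ`. -/
structure IsGoodRed (p ℓ : ℕ) [NeZero p] {Y : Type} [AddCommGroup Y]
    (red : ModularCurve.JZero p →+ Y) : Prop where
  inj : ∀ (m : ℕ) (z : ModularCurve.JZero p), ¬ ℓ ∣ m → m • z = 0 → red z = 0 → z = 0
  hecke : ∀ q : Nat.Primes, (q : ℕ) ≠ p → (q : ℕ) ≠ ℓ → ∀ z : ModularCurve.JZero p,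
    red z = 0 → red (ModularCurve.heckeOperatorBar p q z) = 0

/-- **NODE GEO.** For a rational point `Q` of order `p` on `W`: the cuspidal class `c`, the class
`D` of the moduli point `(E, ⟨Q⟩)` minus a cusp, and, at every multiplicative prime `ℓ ≠ p`, a good
reduction map which sees the component of `Q`. -/
def GeoStatement : Prop :=
  ∀ (p : ℕ) [NeZero p] (_hp : p.Prime) (_hp' : p ∉ ({2, 3, 5, 7, 13} : Finset ℕ))
    (W : WeierstrassCurve ℤ) (_hΔ : W.Δ ≠ 0) (Q : Pts W)
    (_hQfix : ∀ σ : Gal, σ • Q = Q) (_hQord : addOrderOf Q = p),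
    ∃ c D : ModularCurve.JZero p,
      (∀ σ : Gal, σ • c = c) ∧ (∀ σ : Gal, σ • D = D) ∧ c ≠ 0 ∧ (p - 1) • c = 0 ∧
      IsEisensteinVector p c ∧
      ∀ (ℓ : ℕ) (_hℓ : ℓ.Prime) (_hℓp : ℓ ≠ p) (_hℓΔ : (ℓ : ℤ) ∣ W.Δ) (_hℓc₄ : ¬ (ℓ : ℤ) ∣ W.c₄)
        (A : ValuationSubring (AlgebraicClosure ℚ)) (_hA : A.LiesOverPrime ℓ),
        ∃ (Y : Type) (_ : AddCommGroup Y) (red : ModularCurve.JZero p →+ Y),
          IsGoodRed p ℓ red ∧
          (¬ W.InZeroComponentAt A Q → red D = 0) ∧
          (W.InZeroComponentAt A Q → red D = red c ∨ red D = -red c)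

/-- **NODE DESC (the wall: Mazur's Eisenstein descent).** There is a Hecke operator `t`, a
polynomial in the `T_q` with `q ∉ S ∪ {p}`, which maps the Mordell–Weil group `J₀(p)(ℚ)` into
torsion and fixes every Eisenstein vector. -/
def DescStatement : Prop :=
  ∀ (p : ℕ) [NeZero p] (_hp : p.Prime) (_hp' : p ∉ ({2, 3, 5, 7, 13} : Finset ℕ))
    (S : Finset ℕ),
    ∃ t ∈ heckeRingAway p S,
      (∀ z : ModularCurve.JZero p, (∀ σ : Gal, σ • z = z) → ∃ m : ℕ, 0 < m ∧ m • t z = 0) ∧
      ∀ x : ModularCurve.JZero p, IsEisensteinVector p x → t x = x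

end Fermat.Agent.S15

end

end
-- ===== PACK-END S15/Skeleton.lean

-- ===== PACK-BEGIN S15/H208/LocPSpec.lean
section
/-
S15 / DESC, LOC-p without T7 (helper208): the interface of the leaf T6'' (owner helper608).

`T6ppStatement N q m` : for every inertia element `τ` at a place over `q` and every `x ∈ J₀(N)(ℚ̄)`
such that `m • x` is RATIONAL (fixed by the absolute Galois group of `ℚ`), `(τ - 1)² x = 0`.
(The wall A2, `A2.Spec.Target N q m`, is the special case `m • x = 0`.)
Consumed by `H208.CountInst` at `N = q = p`, `m = r ^ k`.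
-/



set_option autoImplicit false

namespace Fermat.Agent.S15.H208

open ModularCurve

/-- `(τ - 1)² x = 0` for all `x ∈ J₀(N)` with `m • x` rational. -/
def T6ppAt (N m : ℕ) (τ : AlgebraicClosure ℚ ≃ₐ[ℚ] AlgebraicClosure ℚ) : Prop :=
  ∀ x : JZero N,
    (∀ σ : AlgebraicClosure ℚ ≃ₐ[ℚ] AlgebraicClosure ℚ, σ • (m • x) = m • x) →
    τ • (τ • x) + x = 2 • (τ • x)

/-- **T6''** : `T6ppAt N m τ` for every inertia element `τ` at a place over `q`. -/
def T6ppStatement (N q m : ℕ) : Prop :=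
  ∀ P : ValuationSubring (AlgebraicClosure ℚ), P.LiesOverPrime q →
    ∀ τ ∈ P.inertiaSubgroupIn ℚ, T6ppAt N m τ

end Fermat.Agent.S15.H208

end
-- ===== PACK-END S15/H208/LocPSpec.lean

-- ===== PACK-BEGIN S37/H100/EigenCount.lean
section


/-!
# S37 / E2 (helper100): linear-algebra core of the fibre formula for characteristic polynomials

Mathlib-only.

* `H100.finrank_inf_le_succ` : one filtration step of codimension `≤ 1`.
* `H100.finrank_le_sum_add` : a finite family of filtrations with steps of codimension `≤ 1`.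
* `H100.charpoly_eq_prod_of_rootMultiplicity_le` : a monic polynomial over an algebraically
  closed field whose root multiplicities are bounded by those of `∏ (X - a i) ^ e i`, of the
  same degree, is equal to it.
-/

set_option autoImplicit false

open Polynomial Module

namespace Fermat.Agent.S37.H100

section Filtration

variable {K V : Type*} [Field K] [AddCommGroup V] [Module K V]

/-- One step: if `G'` has "codimension at most one in `G`", then for every finite-dimensional
`E`, `dim (E ⊓ G) ≤ dim (E ⊓ G') + 1`. -/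
theorem finrank_inf_le_succ (E G G' : Submodule K V) [FiniteDimensional K E]
    (h : ∀ y ∈ G, ∀ y' ∈ G, y' ∉ G' → ∃ c : K, y - c • y' ∈ G') :
    finrank K ↥(E ⊓ G) ≤ finrank K ↥(E ⊓ G') + 1 := by
  have : FiniteDimensional K ↥(E ⊓ G') :=
    Submodule.finiteDimensional_of_le (inf_le_left : E ⊓ G' ≤ E)
  by_cases hle : E ⊓ G ≤ G'
  · have : E ⊓ G ≤ E ⊓ G' := le_inf inf_le_left hle
    exact (Submodule.finrank_mono this).trans (Nat.le_succ _)
  · obtain ⟨y', hy', hy'G⟩ := SetLike.not_le_iff_exists.mp hle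
    have hsub : E ⊓ G ≤ (E ⊓ G') ⊔ Submodule.span K {y'} := by
      intro y hy
      obtain ⟨c, hc⟩ := h y hy.2 y' hy'.2 hy'G
      have h1 : y - c • y' ∈ E ⊓ G' := ⟨E.sub_mem hy.1 (E.smul_mem c hy'.1), hc⟩
      have h2 : c • y' ∈ Submodule.span K {y'} :=
        Submodule.smul_mem _ c (Submodule.mem_span_singleton_self y')
      have := Submodule.add_mem_sup h1 h2
      rwa [sub_add_cancel] at this
    calc finrank K ↥(E ⊓ G) ≤ finrank K ↥((E ⊓ G') ⊔ Submodule.span K {y'}) :=
          Submodule.finrank_mono hsub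
      _ ≤ finrank K ↥(E ⊓ G') + finrank K ↥(Submodule.span K {y'}) :=
          Submodule.finrank_add_le_finrank_add_finrank _ _
      _ ≤ finrank K ↥(E ⊓ G') + 1 := by
          gcongr
          rcases eq_or_ne y' 0 with h0 | h0
          · rw [h0, Submodule.span_zero_singleton]
            simp
          · exact (finrank_span_singleton h0).le

/-- A chain of `e` steps. -/
theorem finrank_inf_le_add (E : Submodule K V) [FiniteDimensional K E]
    (G : ℕ → Submodule K V)
    (h : ∀ j, ∀ y ∈ G j, ∀ y' ∈ G j, y' ∉ G (j + 1) → ∃ c : K, y - c • y' ∈ G (j + 1))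
    (e : ℕ) :
    finrank K ↥(E ⊓ G 0) ≤ finrank K ↥(E ⊓ G e) + e := by
  induction e with
  | zero => simp
  | succ e ih =>
    have := finrank_inf_le_succ E (G e) (G (e + 1)) (h e)
    omega

/-- A finite family of filtrations `G w 0 = ⊤ ⊇ G w 1 ⊇ …` with steps of codimension at most
one: `dim E ≤ ∑_{w ∈ T} e w + dim (E ⊓ ⨅_{w ∈ T} G w (e w))`. -/
theorem finrank_le_sum_add {ι : Type*} (T : Finset ι) (e : ι → ℕ)
    (G : ι → ℕ → Submodule K V) (h0 : ∀ w ∈ T, G w 0 = ⊤)
    (h : ∀ w ∈ T, ∀ j, ∀ y ∈ G w j, ∀ y' ∈ G w j, y' ∉ G w (j + 1) →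
      ∃ c : K, y - c • y' ∈ G w (j + 1))
    (E : Submodule K V) [FiniteDimensional K E] :
    finrank K ↥E ≤ ∑ w ∈ T, e w + finrank K ↥(E ⊓ ⨅ w ∈ T, G w (e w)) := by
  classical
  induction T using Finset.induction_on generalizing E with
  | empty =>
    have : (⨅ w ∈ (∅ : Finset ι), G w (e w)) = ⊤ := by simp
    rw [this, inf_top_eq]
    simp
  | insert w T hw ih =>
    have h0' : ∀ w' ∈ T, G w' 0 = ⊤ := fun w' hw' => h0 w' (Finset.mem_insert_of_mem hw')
    have h' : ∀ w' ∈ T, ∀ j, ∀ y ∈ G w' j, ∀ y' ∈ G w' j, y' ∉ G w' (j + 1) →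
        ∃ c : K, y - c • y' ∈ G w' (j + 1) :=
      fun w' hw' => h w' (Finset.mem_insert_of_mem hw')
    have h1 := finrank_inf_le_add E (G w) (h w (Finset.mem_insert_self w T)) (e w)
    rw [h0 w (Finset.mem_insert_self w T), inf_top_eq] at h1
    have : FiniteDimensional K ↥(E ⊓ G w (e w)) :=
      Submodule.finiteDimensional_of_le (inf_le_left : E ⊓ G w (e w) ≤ E)
    have h2 := ih h0' h' (E ⊓ G w (e w))
    rw [Finset.sum_insert hw, Finset.iInf_insert]
    have heq : E ⊓ G w (e w) ⊓ ⨅ w' ∈ T, G w' (e w') =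
        E ⊓ (G w (e w) ⊓ ⨅ w' ∈ T, G w' (e w')) := inf_assoc _ _ _
    rw [heq] at h2
    omega

end Filtration

section Roots

variable {K : Type*} [Field K]

/-- A monic polynomial over an algebraically closed field whose root multiplicities are bounded
by those of `∏ (X - a w) ^ e w`, of the same degree, is equal to this product. -/
theorem eq_prod_of_rootMultiplicity_le [IsAlgClosed K] [DecidableEq K] {ι : Type*}
    (s : Finset ι)
    (a : ι → K) (e : ι → ℕ) (p : K[X]) (hp : p.Monic)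
    (hdeg : p.natDegree = ∑ w ∈ s, e w)
    (hle : ∀ μ : K, p.rootMultiplicity μ ≤ ∑ w ∈ s.filter (fun w => a w = μ), e w) :
    p = ∏ w ∈ s, (X - C (a w)) ^ e w := by
  classical
  set r : K[X] := ∏ w ∈ s, (X - C (a w)) ^ e w with hr
  have hrm : r.Monic := monic_prod_of_monic _ _ fun w _ => (monic_X_sub_C (a w)).pow (e w)
  have hroots : r.roots = ∑ w ∈ s, e w • ({a w} : Multiset K) := by
    rw [hr, roots_prod _ _ (by
      rw [Finset.prod_ne_zero_iff]
      intro w _
      exact pow_ne_zero _ (X_sub_C_ne_zero (a w)))]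
    simp only [roots_pow, roots_X_sub_C]
    rfl
  have hcount : ∀ μ : K, r.roots.count μ = ∑ w ∈ s.filter (fun w => a w = μ), e w := by
    intro μ
    rw [hroots, Multiset.count_sum', Finset.sum_filter]
    refine Finset.sum_congr rfl fun w _ => ?_
    rw [Multiset.count_nsmul, Multiset.count_singleton]
    split_ifs with h1 h2 h2
    · simp
    · exact absurd h1.symm h2
    · exact absurd h2.symm h1
    · simp
  have hle' : p.roots ≤ r.roots := by
    rw [Multiset.le_iff_count]
    intro μ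
    rw [count_roots, hcount]
    exact hle μ
  have hcardp : Multiset.card p.roots = p.natDegree :=
    (IsAlgClosed.splits p).natDegree_eq_card_roots.symm
  have hcardr : Multiset.card r.roots = ∑ w ∈ s, e w := by
    rw [hroots, Multiset.card_sum]
    simp
  have heq : p.roots = r.roots :=
    Multiset.eq_of_le_of_card_le hle' (by rw [hcardp, hcardr, hdeg])
  rw [(IsAlgClosed.splits p).eq_prod_roots_of_monic hp,
    (IsAlgClosed.splits r).eq_prod_roots_of_monic hrm, heq]

end Roots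

end Fermat.Agent.S37.H100

end
-- ===== PACK-END S37/H100/EigenCount.lean

-- ===== PACK-BEGIN S17/H830/AbsLocal.lean
section


/-!
# S17 / tower H, piece ABS (helper830), part 1: local lemmas

`v` is a nonarchimedean absolute value on a field `Ω` of characteristic zero with
`v p = p⁻¹` for a prime number `p`.

* `abv_le_one_of_isIntegral` : integral elements have absolute value `≤ 1`;
* `abv_natCast_prime_ne` : `v ℓ = 1` for primes `ℓ ≠ p`;
* `abv_natCast_eq` : `v n = p ^ (-(n.factorization p))` for `n ≠ 0`;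
* `abv_eq_one_of_prod_eq_one` : if finitely many factors `≤ 1` have product `1`, each is `1`.
-/

set_option autoImplicit false

noncomputable section

namespace Fermat.Agent.S17.H830

section Local

variable {Ω : Type*} [Field Ω]

/-- Integral elements have absolute value at most one for a nonarchimedean absolute value. -/
theorem abv_le_one_of_isIntegral {v : AbsoluteValue Ω ℝ} (hv : IsNonarchimedean v)
    {x : Ω} (hx : IsIntegral ℤ x) : v x ≤ 1 := by
  by_contra hlt
  rw [not_le] at hlt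
  obtain ⟨P, hmonic, hP⟩ := hx
  have hx0 : x ≠ 0 := by
    rintro rfl
    simp at hlt
    linarith
  set n := P.natDegree with hn
  -- `x ^ n = - ∑ i < n, a i * x ^ i`
  have hsum : x ^ n = - ∑ i ∈ Finset.range n, ((P.coeff i : ℤ) : Ω) * x ^ i := by
    have h1 : Polynomial.eval₂ (algebraMap ℤ Ω) x P = 0 := hP
    rw [Polynomial.eval₂_eq_sum_range, Finset.sum_range_succ, ← hn] at h1
    have h2 : P.coeff n = 1 := hmonic.coeff_natDegree
    rw [h2] at h1
    simp only [algebraMap_int_eq, eq_intCast, Int.cast_one, one_mul] at h1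
    have := eq_neg_of_add_eq_zero_right h1
    rw [this]
  have hle : v (x ^ n) ≤ v x ^ (n - 1) := by
    rw [hsum, map_neg_eq_map]
    rcases Nat.eq_zero_or_pos n with h0 | hpos
    · simp [h0]
    have hne : (Finset.range n).Nonempty := Finset.nonempty_range_iff.mpr hpos.ne'
    obtain ⟨i, hi, hi'⟩ := hv.finset_image_add_of_nonempty
      (fun i => ((P.coeff i : ℤ) : Ω) * x ^ i) hne
    refine hi'.trans ?_
    rw [map_mul, map_pow]
    have h1 : v ((P.coeff i : ℤ) : Ω) ≤ 1 := hv.apply_intCast_le_one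
    have h2 : v x ^ i ≤ v x ^ (n - 1) :=
      pow_le_pow_right₀ hlt.le (Nat.le_sub_one_of_lt (Finset.mem_range.mp hi))
    calc v ((P.coeff i : ℤ) : Ω) * v x ^ i ≤ 1 * v x ^ (n - 1) :=
          mul_le_mul h1 h2 (by positivity) zero_le_one
      _ = v x ^ (n - 1) := one_mul _
  rw [map_pow] at hle
  rcases Nat.eq_zero_or_pos n with h0 | hpos
  · -- degree zero: `P = 1`, impossible
    have : P = 1 := by
      have := Polynomial.eq_C_of_natDegree_eq_zero (hn ▸ h0)
      rw [this]
      have h2 : P.coeff 0 = 1 := by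
        have := hmonic.coeff_natDegree
        rwa [← hn, h0] at this
      rw [h2]; simp
    rw [this] at hP
    simp at hP
  · have h3 : v x ^ (n - 1) < v x ^ n :=
      pow_lt_pow_right₀ hlt (Nat.sub_lt hpos Nat.one_pos)
    linarith

/-- `v ℓ = 1` for a prime `ℓ ≠ p` when `v` is nonarchimedean with `v p < 1`. -/
theorem abv_natCast_prime_ne {v : AbsoluteValue Ω ℝ} (hv : IsNonarchimedean v)
    {p : ℕ} (hp : p.Prime) (hvp : v (p : Ω) < 1) {ℓ : ℕ} (hℓ : ℓ.Prime) (hne : ℓ ≠ p) :
    v (ℓ : Ω) = 1 := by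
  refine le_antisymm hv.apply_natCast_le_one ?_
  by_contra hlt
  rw [not_le] at hlt
  have hcop : IsCoprime (ℓ : ℤ) (p : ℤ) := by
    rw [Int.isCoprime_iff_gcd_eq_one, Int.gcd_natCast_natCast]
    exact (Nat.coprime_primes hℓ hp).mpr hne
  obtain ⟨a, b, hab⟩ := hcop
  have h1 : (1 : Ω) = (a : Ω) * (ℓ : Ω) + (b : Ω) * (p : Ω) := by
    have := congrArg (fun z : ℤ => (z : Ω)) hab
    simp only [Int.cast_add, Int.cast_mul, Int.cast_natCast, Int.cast_one] at this
    exact this.symm
  have h2 : v (1 : Ω) ≤ max (v ((a : Ω) * (ℓ : Ω))) (v ((b : Ω) * (p : Ω))) := by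
    conv_lhs => rw [h1]
    exact hv _ _
  rw [map_one, map_mul, map_mul] at h2
  have ha : v (a : Ω) ≤ 1 := hv.apply_intCast_le_one
  have hb : v (b : Ω) ≤ 1 := hv.apply_intCast_le_one
  have h3 : v (a : Ω) * v (ℓ : Ω) < 1 := by
    calc v (a : Ω) * v (ℓ : Ω) ≤ 1 * v (ℓ : Ω) :=
          mul_le_mul_of_nonneg_right ha (by positivity)
      _ < 1 := by rw [one_mul]; exact hlt
  have h4 : v (b : Ω) * v (p : Ω) < 1 := by
    calc v (b : Ω) * v (p : Ω) ≤ 1 * v (p : Ω) :=
          mul_le_mul_of_nonneg_right hb (by positivity)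
      _ < 1 := by rw [one_mul]; exact hvp
  have := max_lt h3 h4
  linarith

/-- The value of a normalised `p`-adic absolute value on natural numbers. -/
theorem abv_natCast_eq {v : AbsoluteValue Ω ℝ} (hv : IsNonarchimedean v)
    {p : ℕ} (hp : p.Prime) (hvp : v (p : Ω) = (p : ℝ)⁻¹) {n : ℕ} (hn : n ≠ 0) :
    v (n : Ω) = ((p : ℝ)⁻¹) ^ (n.factorization p) := by
  have hp1 : v (p : Ω) < 1 := by
    rw [hvp]
    exact inv_lt_one_of_one_lt₀ (by exact_mod_cast hp.one_lt)
  induction n using Nat.recOnMul with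
  | zero => exact absurd rfl hn
  | one => simp
  | prime q hq =>
    by_cases hqp : q = p
    · subst hqp
      simp [hvp, hq.factorization_self]
    · rw [abv_natCast_prime_ne hv hp hp1 hq hqp]
      have : q.factorization p = 0 := by
        rw [hq.factorization]
        simp [hqp]
      rw [this, pow_zero]
  | mul a b iha ihb =>
    have ha : a ≠ 0 := fun h => hn (by simp [h])
    have hb : b ≠ 0 := fun h => hn (by simp [h])
    rw [Nat.cast_mul, map_mul, iha ha, ihb hb, Nat.factorization_mul ha hb, Finsupp.add_apply,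
      pow_add]

/-- If finitely many real numbers in `[0, 1]` have product `1`, each of them is `1`. -/
theorem eq_one_of_prod_eq_one {α : Type*} (s : Finset α) (f : α → ℝ)
    (h0 : ∀ a ∈ s, 0 ≤ f a) (h1 : ∀ a ∈ s, f a ≤ 1) (hprod : ∏ a ∈ s, f a = 1) :
    ∀ a ∈ s, f a = 1 := by
  classical
  intro a ha
  refine le_antisymm (h1 a ha) ?_
  by_contra hlt
  rw [not_le] at hlt
  have h2 : ∏ b ∈ s, f b = f a * ∏ b ∈ s.erase a, f b := (Finset.mul_prod_erase s f ha).symm
  have h3 : ∏ b ∈ s.erase a, f b ≤ 1 :=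
    Finset.prod_le_one (fun b hb => h0 b (Finset.mem_of_mem_erase hb))
      (fun b hb => h1 b (Finset.mem_of_mem_erase hb))
  have h4 : 0 ≤ ∏ b ∈ s.erase a, f b :=
    Finset.prod_nonneg (fun b hb => h0 b (Finset.mem_of_mem_erase hb))
  have h5 : f a * ∏ b ∈ s.erase a, f b ≤ f a * 1 :=
    mul_le_mul_of_nonneg_left h3 (h0 a ha)
  rw [hprod] at h2
  linarith

/-- `∏ p, p ^ (-(v_p n)) = n⁻¹` as a `finprod` over all primes. -/
theorem finprod_primes_inv_pow_factorization {n : ℕ} (hn : n ≠ 0) :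
    ∏ᶠ p : Nat.Primes, (((p : ℕ) : ℝ)⁻¹) ^ (n.factorization p) = (n : ℝ)⁻¹ := by
  classical
  let e : {q // q ∈ n.primeFactors} → Nat.Primes :=
    fun q => ⟨q.1, Nat.prime_of_mem_primeFactors q.2⟩
  have he : Function.Injective e := by
    intro a b hab
    have := congrArg (fun z : Nat.Primes => (z : ℕ)) hab
    exact Subtype.ext this
  set s : Finset Nat.Primes := n.primeFactors.attach.map ⟨e, he⟩ with hs
  have hsupp : Function.mulSupport (fun p : Nat.Primes => (((p : ℕ) : ℝ)⁻¹) ^ (n.factorization p))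
      ⊆ (s : Set Nat.Primes) := by
    intro p hp
    simp only [Function.mem_mulSupport, ne_eq] at hp
    have hdvd : (p : ℕ) ∣ n := by
      by_contra hdvd
      apply hp
      rw [Nat.factorization_eq_zero_of_not_dvd hdvd, pow_zero]
    have hmem : (p : ℕ) ∈ n.primeFactors := Nat.mem_primeFactors.mpr ⟨p.2, hdvd, hn⟩
    rw [hs, Finset.coe_map, Set.mem_image]
    exact ⟨⟨p, hmem⟩, by simp, rfl⟩
  rw [finprod_eq_prod_of_mulSupport_subset _ hsupp, hs, Finset.prod_map]
  have hcongr : ∀ x ∈ n.primeFactors.attach,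
      ((((⟨e, he⟩ : _ ↪ Nat.Primes) x : Nat.Primes) : ℕ) : ℝ)⁻¹ ^
        (n.factorization (((⟨e, he⟩ : _ ↪ Nat.Primes) x : Nat.Primes) : ℕ)) =
      (fun q : ℕ => ((q : ℝ)⁻¹) ^ (n.factorization q)) x.1 := fun _ _ => rfl
  rw [Finset.prod_congr rfl hcongr,
    Finset.prod_attach n.primeFactors (fun q => (((q : ℕ) : ℝ)⁻¹) ^ (n.factorization q))]
  have h1 : (n : ℝ) = ∏ p ∈ n.primeFactors, ((p : ℝ)) ^ (n.factorization p) := by
    conv_lhs => rw [← Nat.prod_factorization_pow_eq_self hn]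
    rw [Finsupp.prod, Nat.support_factorization]
    push_cast
    rfl
  rw [h1, ← Finset.prod_inv_distrib]
  refine Finset.prod_congr rfl fun p _ => ?_
  rw [inv_pow]

end Local

end Fermat.Agent.S17.H830

end
end
-- ===== PACK-END S17/H830/AbsLocal.lean

-- ===== PACK-BEGIN S15/H542/ModSpec.lean
section





/-!
# S15, piece MOD (architect helper542): the moduli place of `(E, ⟨Q⟩)` on `X₀(p)`

INTERFACE FILE (definitions and target statements only, no proofs).

* `veluCurve W Q p` : Vélu's model of `E / ⟨Q⟩` for a point `Q` of odd order `p`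
  (`a₁' = a₁, a₂' = a₂, a₃' = a₃, a₄' = a₄ - 5 t, a₆' = a₆ - b₂ t - 7 w`,
  `t = ∑ (6 x² + b₂ x + b₄)`, `w = ∑ (u + x t)`, `u = 4 x³ + b₂ x² + 2 b₄ x + b₆`,
  sums over the points `k • Q`, `1 ≤ k ≤ (p - 1) / 2`).
* `jInv W = c₄³ / Δ`.
* `jBar p`, `jNBar p` : the functions `j(q)`, `j(q^p)` in the function field of `X₀(p)` over `ℚ̄`.
* `ModuliPlaceStatement` : **the MOD node** consumed by TOP / COMPAT.
* `IsModularPair p a a'` : `(a, a')` is a point of the plane model `{G(j, j_p) = 0}` of `X₀(p)`.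
* sub-statements `PlaceOfModularPairStatement` (MOD-A1), `PlaceUniqueStatement` (MOD-A2),
  `VeluModularPairStatement` (MOD-B), `VeluRationalStatement` (MOD-V).
-/

set_option autoImplicit false

noncomputable section

open WeierstrassCurve AlgebraicCurve ModularCurve
open scoped WeierstrassCurve.Affine

namespace Fermat.Agent.S15.H542

/-! ## Vélu's formulas -/

section Velu

variable {K : Type*} [Field K]

/-- The `x`-coordinate of a point (`0` at the point at infinity). -/
def xOf {W : WeierstrassCurve.Affine K} : W.Point → K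
  | .zero => 0
  | .some x _ _ => x

/-- The `y`-coordinate of a point (`0` at the point at infinity). -/
def yOf {W : WeierstrassCurve.Affine K} : W.Point → K
  | .zero => 0
  | .some _ y _ => y

/-- Vélu's `t_Q = 6 x² + b₂ x + b₄` (for a point which is not of order `2`). -/
def veluT1 (W : WeierstrassCurve K) (x : K) : K := 6 * x ^ 2 + W.b₂ * x + W.b₄

/-- Vélu's `u_Q = 4 x³ + b₂ x² + 2 b₄ x + b₆ = (2 y + a₁ x + a₃)²`. -/
def veluU1 (W : WeierstrassCurve K) (x : K) : K :=
  4 * x ^ 3 + W.b₂ * x ^ 2 + 2 * W.b₄ * x + W.b₆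

variable [DecidableEq K]

/-- Vélu's `t = ∑_{k = 1}^{(p-1)/2} t_{kQ}`. -/
def veluT (W : WeierstrassCurve K) (Q : W.toAffine.Point) (p : ℕ) : K :=
  ∑ k ∈ Finset.Icc 1 ((p - 1) / 2), veluT1 W (xOf (k • Q))

/-- Vélu's `w = ∑_{k = 1}^{(p-1)/2} (u_{kQ} + x_{kQ} t_{kQ})`. -/
def veluW (W : WeierstrassCurve K) (Q : W.toAffine.Point) (p : ℕ) : K :=
  ∑ k ∈ Finset.Icc 1 ((p - 1) / 2),
    (veluU1 W (xOf (k • Q)) + xOf (k • Q) * veluT1 W (xOf (k • Q)))

/-- Vélu's Weierstrass model of the quotient `E / ⟨Q⟩`, `Q` of odd order `p`. -/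
def veluCurve (W : WeierstrassCurve K) (Q : W.toAffine.Point) (p : ℕ) : WeierstrassCurve K where
  a₁ := W.a₁
  a₂ := W.a₂
  a₃ := W.a₃
  a₄ := W.a₄ - 5 * veluT W Q p
  a₆ := W.a₆ - W.b₂ * veluT W Q p - 7 * veluW W Q p

/-- The `j`-invariant `c₄³ / Δ` (junk value `0` if `Δ = 0`). -/
def jInv (W : WeierstrassCurve K) : K := W.c₄ ^ 3 / W.Δ

end Velu

/-! ## The functions `j`, `j_p` on `X₀(p)` over `ℚ̄` -/

section Functions

variable (N : ℕ) [NeZero N]

/-- `j(q)` as an element of the function field of `X₀(N)` over `ℚ̄`. -/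
def jBar : modularFunctionFieldBar N :=
  ⟨coeffEmb (AlgebraicClosure ℚ) jq,
    coeffEmb_mem_laurentBaseChange (AlgebraicClosure ℚ) (modularFunctionField_le_full N (jq_mem N))⟩

/-- `j(q^N)` as an element of the function field of `X₀(N)` over `ℚ̄`. -/
def jNBar : modularFunctionFieldBar N :=
  ⟨coeffEmb (AlgebraicClosure ℚ) (qExpand ℚ N jq),
    coeffEmb_mem_laurentBaseChange (AlgebraicClosure ℚ) (jqd_mem_full N dvd_rfl)⟩

/-- `(a, a')` lies on the plane model of `X₀(N)`: every polynomial relation over `ℚ` between the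
`q`-series `j(q)` and `j(q^N)` vanishes at `(a, a')`. -/
def IsModularPair {K : Type*} [Field K] [Algebra ℚ K] (a a' : K) : Prop :=
  ∀ G : MvPolynomial (Fin 2) ℚ,
    MvPolynomial.aeval ![jq, qExpand ℚ N jq] G = 0 → MvPolynomial.aeval ![a, a'] G = 0

/-- The place `P` takes the value `a` at the function `f`. -/
def HasValueAt {N : ℕ} (P : Place (AlgebraicClosure ℚ) (modularFunctionFieldBar N))
    (f : modularFunctionFieldBar N) (a : AlgebraicClosure ℚ) : Prop :=
  0 < P.ord (f - algebraMap (AlgebraicClosure ℚ) (modularFunctionFieldBar N) a)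

/-- `P` is fixed by the arithmetic Galois action. -/
def IsGaloisFixedPlace {N : ℕ} (P : Place (AlgebraicClosure ℚ) (modularFunctionFieldBar N)) :
    Prop :=
  ∀ σ : AlgebraicClosure ℚ ≃ₐ[ℚ] AlgebraicClosure ℚ,
    arithmeticGalois (modularFunctionFieldFull N) σ • P = P

end Functions

/-! ## The MOD node -/

/-- The curve `E = W ⊗ ℚ̄` of the frozen statement S15. -/
abbrev curveBar (W : WeierstrassCurve ℤ) : WeierstrassCurve (AlgebraicClosure ℚ) :=
  (W.map (Int.castRingHom ℚ))⁄(AlgebraicClosure ℚ)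

/-- **MOD.**  A rational point `Q` of prime order `p ≥ 5` on `E/ℚ` (non-integral `j` at `2`) gives a
Galois-fixed place `P_x` of the function field of `X₀(p)` over `ℚ̄` with `j(P_x) = j(E)` and
`j_p(P_x) = j(E/⟨Q⟩)` (Vélu model); `E/⟨Q⟩` is nonsingular. -/
def ModuliPlaceStatement : Prop :=
  ∀ (p : ℕ) [NeZero p] (_hp : p.Prime) (_hp5 : 5 ≤ p)
    (W : WeierstrassCurve ℤ) (_hΔ : W.Δ ≠ 0)
    (Q : (curveBar W).toAffine.Point)
    (_hQfix : ∀ σ : AlgebraicClosure ℚ ≃ₐ[ℚ] AlgebraicClosure ℚ, σ • Q = Q)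
    (_hQord : addOrderOf Q = p)
    (_h2Δ : (2 : ℤ) ∣ W.Δ) (_h2c₄ : ¬ (2 : ℤ) ∣ W.c₄),
    (veluCurve (curveBar W) Q p).Δ ≠ 0 ∧
    (∃ r : ℚ, algebraMap ℚ (AlgebraicClosure ℚ) r = jInv (veluCurve (curveBar W) Q p)) ∧
    ∃ P : Place (AlgebraicClosure ℚ) (modularFunctionFieldBar p),
      IsGaloisFixedPlace P ∧
      HasValueAt P (jBar p) (jInv (curveBar W)) ∧
      HasValueAt P (jNBar p) (jInv (veluCurve (curveBar W) Q p))

/-! ## Sub-statements -/

/-- **MOD-V** (algebra).  Vélu's curve of a Galois-fixed point is defined over `ℚ`: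
its `j`-invariant is rational. -/
def VeluRationalStatement : Prop :=
  ∀ (p : ℕ) (W : WeierstrassCurve ℤ)
    (Q : (curveBar W).toAffine.Point)
    (_hQfix : ∀ σ : AlgebraicClosure ℚ ≃ₐ[ℚ] AlgebraicClosure ℚ, σ • Q = Q),
    ∃ r : ℚ, algebraMap ℚ (AlgebraicClosure ℚ) r = jInv (veluCurve (curveBar W) Q p)

/-- **MOD-A1** (function fields).  Every point of the plane model lifts to a place. -/
def PlaceOfModularPairStatement : Prop :=
  ∀ (p : ℕ) [NeZero p] (_hp : p.Prime) (a a' : AlgebraicClosure ℚ),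
    IsModularPair p a a' →
    ∃ P : Place (AlgebraicClosure ℚ) (modularFunctionFieldBar p),
      HasValueAt P (jBar p) a ∧ HasValueAt P (jNBar p) a'

/-- **MOD-A2** (function fields).  Above a rational `j`-value which is not `2`-integral the
place with given `(j, j_p)`-values is unique.  (The discriminant of `Φ_p(X, j)` in `X` is a
polynomial in `j` with integer coefficients and leading coefficient `± p ^ p`.) -/
def PlaceUniqueStatement : Prop :=
  ∀ (p : ℕ) [NeZero p] (_hp : p.Prime) (_hp2 : p ≠ 2) (r : ℚ) (_hr : padicValRat 2 r < 0)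
    (a' : AlgebraicClosure ℚ)
    (P P' : Place (AlgebraicClosure ℚ) (modularFunctionFieldBar p)),
    HasValueAt P (jBar p) (algebraMap ℚ (AlgebraicClosure ℚ) r) → HasValueAt P (jNBar p) a' →
    HasValueAt P' (jBar p) (algebraMap ℚ (AlgebraicClosure ℚ) r) → HasValueAt P' (jNBar p) a' →
    P = P'

/-- **MOD-B** (the bridge: complex uniformisation).  Over a field `K` of characteristic `0`
which embeds into `ℂ`: if `Q` has exact order `p` (odd prime) on the elliptic curve `E`, then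
Vélu's curve is nonsingular and `(j(E), j(E/⟨Q⟩))` lies on the plane model of `X₀(p)`. -/
def VeluModularPairStatement : Prop :=
  ∀ (p : ℕ) [NeZero p] (_hp : p.Prime) (_hp2 : p ≠ 2)
    (E : WeierstrassCurve (AlgebraicClosure ℚ)) (_hΔ : E.Δ ≠ 0)
    (Q : E.toAffine.Point) (_hQord : addOrderOf Q = p),
    (veluCurve E Q p).Δ ≠ 0 ∧ IsModularPair p (jInv E) (jInv (veluCurve E Q p))

end Fermat.Agent.S15.H542

end
end
-- ===== PACK-END S15/H542/ModSpec.lean

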