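import Fermat.Statements.S51
import Mathlib.AlgebraicGeometry.EllipticCurve.VariableChange
import Mathlib.Tactic
import Mathlib
import Mathlib.NumberTheory.Height.NumberField
import Mathlib.RingTheory.Ideal.Norm.RelNorm
import Mathlib.NumberTheory.NumberField.InfinitePlace.Ramification
import Mathlib.FieldTheory.PrimitiveElement
import Mathlib.RingTheory.MvPolynomial.WeightedHomogeneous
import Mathlib.RingTheory.MvPolynomial.Homogeneous
import Mathlib.Algebra.MvPolynomial.Rename

-- ===== PACK-BEGIN S51/H591/Final.lean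
section


set_option autoImplicit false

namespace Fermat.Agent.S51.H591

/-- Core arithmetic: if `n * c^3 = 5^a * m * D` with `a ∈ {1,2}`, `5 ∤ n`, `5 ∤ m`,
then `5 ∣ D` and `5 ∣ c`. -/
lemma five_dvd_of_eq {n m c D : ℤ} {a : ℕ} (ha1 : 1 ≤ a) (ha2 : a ≤ 2)
    (hn : ¬ (5 : ℤ) ∣ n) (hm : ¬ (5 : ℤ) ∣ m)
    (h : n * c ^ 3 = 5 ^ a * m * D) : (5 : ℤ) ∣ D ∧ (5 : ℤ) ∣ c := by
  have hp : Prime (5 : ℤ) := by
    rw [Int.prime_iff_natAbs_prime]; norm_num
  have h5c : (5 : ℤ) ∣ c := by
    have h1 : (5 : ℤ) ∣ n * c ^ 3 := by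
      rw [h]
      obtain ⟨k, rfl⟩ : ∃ k, a = k + 1 := ⟨a - 1, by omega⟩
      exact ⟨5 ^ k * m * D, by ring⟩
    rcases hp.dvd_or_dvd h1 with h2 | h2
    · exact absurd h2 hn
    · exact hp.dvd_of_dvd_pow h2
  refine ⟨?_, h5c⟩
  obtain ⟨k, rfl⟩ := h5c
  have key : (5 : ℤ) ∣ m * D := by
    interval_cases a
    · -- a = 1: n * 125 k^3 = 5 m D  →  m D = 25 n k^3
      have : m * D = 5 * (5 * n * k ^ 3) := by
        have h' : (5 : ℤ) * (m * D) = 5 * (5 * (5 * n * k ^ 3)) := by
          have := h; ring_nf at this ⊢; linarith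
        exact mul_left_cancel₀ (by norm_num) h'
      exact ⟨_, this⟩
    · -- a = 2: n * 125 k^3 = 25 m D  →  m D = 5 n k^3
      have : m * D = 5 * (n * k ^ 3) := by
        have h' : (25 : ℤ) * (m * D) = 25 * (5 * (n * k ^ 3)) := by
          have := h; ring_nf at this ⊢; linarith
        exact mul_left_cancel₀ (by norm_num) h'
      exact ⟨_, this⟩
  rcases hp.dvd_or_dvd key with h2 | h2
  · exact absurd h2 hm
  · exact h2

/-- (I4) A semistable integral model cannot have `j`-invariant in the `X₀(15)` list. -/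
theorem semistable_j_not_mem (W : WeierstrassCurve ℤ) (hW : W.IsSemistableModel)
    (j : ℚ) (hj : j * (W.Δ : ℚ) = (W.c₄ : ℚ) ^ 3)
    (hmem : j = -25/2 ∨ j = -349938025/8 ∨ j = -121945/32 ∨ j = 46969655/32768) :
    False := by
  have h5 : Nat.Prime 5 := by norm_num
  have hss : (5 : ℤ) ∣ W.Δ → ¬ (5 : ℤ) ∣ W.c₄ := fun h => hW 5 h5 (by exact_mod_cast h)
  have main : ∀ (n m : ℤ) (a : ℕ), 1 ≤ a → a ≤ 2 → ¬ (5 : ℤ) ∣ n → ¬ (5 : ℤ) ∣ m →
      n * W.c₄ ^ 3 = 5 ^ a * m * W.Δ → False := by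
    intro n m a ha1 ha2 hn hm h
    obtain ⟨h1, h2⟩ := five_dvd_of_eq ha1 ha2 hn hm h
    exact hss h1 h2
  rcases hmem with rfl | rfl | rfl | rfl
  · -- j = -25/2 : 2 c₄³ = 5² * (-1) * Δ
    refine main 2 (-1) 2 (by norm_num) (by norm_num) (by norm_num) (by norm_num) ?_
    have : ((2 * W.c₄ ^ 3 : ℤ) : ℚ) = ((5 ^ 2 * (-1) * W.Δ : ℤ) : ℚ) := by
      push_cast; linarith
    exact_mod_cast this
  · -- j = -349938025/8 = -5² 241³ / 2³
    refine main 8 (-13997521) 2 (by norm_num) (by norm_num) (by norm_num) (by norm_num) ?_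
    have : ((8 * W.c₄ ^ 3 : ℤ) : ℚ) = ((5 ^ 2 * (-13997521) * W.Δ : ℤ) : ℚ) := by
      push_cast; linarith
    exact_mod_cast this
  · -- j = -121945/32 = -5 29³ / 2⁵
    refine main 32 (-24389) 1 (by norm_num) (by norm_num) (by norm_num) (by norm_num) ?_
    have : ((32 * W.c₄ ^ 3 : ℤ) : ℚ) = ((5 ^ 1 * (-24389) * W.Δ : ℤ) : ℚ) := by
      push_cast; linarith
    exact_mod_cast this
  · -- j = 46969655/32768 = 5 211³ / 2¹⁵
    refine main 32768 9393931 1 (by norm_num) (by norm_num) (by norm_num) (by norm_num) ?_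
    have : ((32768 * W.c₄ ^ 3 : ℤ) : ℚ) = ((5 ^ 1 * 9393931 * W.Δ : ℤ) : ℚ) := by
      push_cast; linarith
    exact_mod_cast this

end Fermat.Agent.S51.H591

end
-- ===== PACK-END S51/H591/Final.lean

-- ===== PACK-BEGIN S52/H410/InvVC.lean
section



/-!
# S52 helper: Weierstrass curves with the same `c₄`, `c₆` (characteristic `≠ 2, 3`)

* `eq_of_a_c` : two Weierstrass curves over a field in which `2, 3 ≠ 0` with the same
  `a₁, a₂, a₃, c₄, c₆` are equal.
* `vcOfInv u W₁ W₂` : the explicit variable change with scaling `u` matching `a₁, a₂, a₃`.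
* `vcOfInv_smul` : if `W₁.c₄ = u⁴ W₂.c₄` and `W₁.c₆ = u⁶ W₂.c₆` then `vcOfInv u W₁ W₂ • W₁ = W₂`.
* `eq_vcOfInv` : conversely every `C` with `C • W₁ = W₂` is `vcOfInv C.u W₁ W₂`.
-/

set_option autoImplicit false

namespace Fermat.Agent.S52.H410

open WeierstrassCurve

variable {K : Type*} [Field K]

/-- Two Weierstrass curves with the same `a₁, a₂, a₃, c₄, c₆` over a field where `2` and `3`
are invertible coincide. -/
theorem eq_of_a_c {W W' : WeierstrassCurve K} (h2 : (2 : K) ≠ 0) (h3 : (3 : K) ≠ 0)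
    (h₁ : W.a₁ = W'.a₁) (h₂ : W.a₂ = W'.a₂) (h₃ : W.a₃ = W'.a₃)
    (h4 : W.c₄ = W'.c₄) (h6 : W.c₆ = W'.c₆) : W = W' := by
  have hb₂ : W.b₂ = W'.b₂ := by simp only [b₂, h₁, h₂]
  have h48 : (48 : K) ≠ 0 := by
    have : (48 : K) = 2 ^ 4 * 3 := by norm_num
    rw [this]; exact mul_ne_zero (pow_ne_zero 4 h2) h3
  have h864 : (864 : K) ≠ 0 := by
    have : (864 : K) = 2 ^ 5 * 3 ^ 3 := by norm_num
    rw [this]; exact mul_ne_zero (pow_ne_zero 5 h2) (pow_ne_zero 3 h3)
  have ha₄ : W.a₄ = W'.a₄ := by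
    have : (48 : K) * (W.a₄ - W'.a₄) = 0 := by
      have e := h4
      simp only [c₄, b₂, b₄, h₁, h₂, h₃] at e
      linear_combination -e
    rcases mul_eq_zero.mp this with h | h
    · exact absurd h h48
    · exact sub_eq_zero.mp h
  have ha₆ : W.a₆ = W'.a₆ := by
    have : (864 : K) * (W.a₆ - W'.a₆) = 0 := by
      have e := h6
      simp only [c₆, b₂, b₄, b₆, h₁, h₂, h₃, ha₄] at e
      linear_combination -e
    rcases mul_eq_zero.mp this with h | h
    · exact absurd h h864
    · exact sub_eq_zero.mp h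
  ext <;> assumption

/-- The variable change with scaling `u` that matches `a₁, a₂, a₃` of `W₁` with those of `W₂`. -/
def vcOfInv (u : Kˣ) (W₁ W₂ : WeierstrassCurve K) : VariableChange K where
  u := u
  s := (u * W₂.a₁ - W₁.a₁) / 2
  r := (u ^ 2 * W₂.a₂ - W₁.a₂ + (u * W₂.a₁ - W₁.a₁) / 2 * W₁.a₁
        + ((u * W₂.a₁ - W₁.a₁) / 2) ^ 2) / 3
  t := (u ^ 3 * W₂.a₃ - W₁.a₃
        - (u ^ 2 * W₂.a₂ - W₁.a₂ + (u * W₂.a₁ - W₁.a₁) / 2 * W₁.a₁
          + ((u * W₂.a₁ - W₁.a₁) / 2) ^ 2) / 3 * W₁.a₁) / 2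

@[simp] lemma vcOfInv_u (u : Kˣ) (W₁ W₂ : WeierstrassCurve K) : (vcOfInv u W₁ W₂).u = u := rfl

lemma vcOfInv_s (u : Kˣ) (W₁ W₂ : WeierstrassCurve K) :
    (vcOfInv u W₁ W₂).s = (u * W₂.a₁ - W₁.a₁) / 2 := rfl

lemma vcOfInv_r (u : Kˣ) (W₁ W₂ : WeierstrassCurve K) :
    (vcOfInv u W₁ W₂).r = (u ^ 2 * W₂.a₂ - W₁.a₂ + (vcOfInv u W₁ W₂).s * W₁.a₁
        + (vcOfInv u W₁ W₂).s ^ 2) / 3 := rfl

lemma vcOfInv_t (u : Kˣ) (W₁ W₂ : WeierstrassCurve K) :
    (vcOfInv u W₁ W₂).t = (u ^ 3 * W₂.a₃ - W₁.a₃ - (vcOfInv u W₁ W₂).r * W₁.a₁) / 2 := rfl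

/-- If `c₄` and `c₆` match up to the scaling `u`, then `vcOfInv u W₁ W₂` carries `W₁` to `W₂`. -/
theorem vcOfInv_smul (h2 : (2 : K) ≠ 0) (h3 : (3 : K) ≠ 0) (u : Kˣ) (W₁ W₂ : WeierstrassCurve K)
    (h4 : W₁.c₄ = u ^ 4 * W₂.c₄) (h6 : W₁.c₆ = u ^ 6 * W₂.c₆) :
    vcOfInv u W₁ W₂ • W₁ = W₂ := by
  have hu : (u : K) ≠ 0 := u.ne_zero
  have hinv : ((u⁻¹ : Kˣ) : K) = (u : K)⁻¹ := Units.val_inv_eq_inv_val u
  apply eq_of_a_c h2 h3
  · rw [variableChange_a₁, vcOfInv_u, vcOfInv_s, hinv]
    field_simp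
    ring
  · rw [variableChange_a₂, vcOfInv_u, vcOfInv_r, hinv]
    field_simp
    ring
  · rw [variableChange_a₃, vcOfInv_u, vcOfInv_t, hinv]
    field_simp
    ring
  · rw [variableChange_c₄, vcOfInv_u, hinv, h4]
    field_simp
  · rw [variableChange_c₆, vcOfInv_u, hinv, h6]
    field_simp

/-- Every variable change from `W₁` to `W₂` is the explicit one. -/
theorem eq_vcOfInv (h2 : (2 : K) ≠ 0) (h3 : (3 : K) ≠ 0) (C : VariableChange K)
    (W₁ W₂ : WeierstrassCurve K) (h : C • W₁ = W₂) : C = vcOfInv C.u W₁ W₂ := by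
  have hu : (C.u : K) ≠ 0 := C.u.ne_zero
  have hinv : ((C.u⁻¹ : Kˣ) : K) = (C.u : K)⁻¹ := Units.val_inv_eq_inv_val C.u
  have e₁ : W₂.a₁ = (C.u : K)⁻¹ * (W₁.a₁ + 2 * C.s) := by
    rw [← h, variableChange_a₁, hinv]
  have e₂ : W₂.a₂ = (C.u : K)⁻¹ ^ 2 * (W₁.a₂ - C.s * W₁.a₁ + 3 * C.r - C.s ^ 2) := by
    rw [← h, variableChange_a₂, hinv]
  have e₃ : W₂.a₃ = (C.u : K)⁻¹ ^ 3 * (W₁.a₃ + C.r * W₁.a₁ + 2 * C.t) := by
    rw [← h, variableChange_a₃, hinv]
  have hs : C.s = (C.u * W₂.a₁ - W₁.a₁) / 2 := by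
    rw [e₁]; field_simp; ring
  have hr : C.r = (C.u ^ 2 * W₂.a₂ - W₁.a₂ + C.s * W₁.a₁ + C.s ^ 2) / 3 := by
    rw [e₂]; field_simp; ring
  have ht : C.t = (C.u ^ 3 * W₂.a₃ - W₁.a₃ - C.r * W₁.a₁) / 2 := by
    rw [e₃]; field_simp; ring
  have hs' : C.s = (vcOfInv C.u W₁ W₂).s := hs
  have hr' : C.r = (vcOfInv C.u W₁ W₂).r := by
    rw [vcOfInv_r, ← hs']; exact hr
  have ht' : C.t = (vcOfInv C.u W₁ W₂).t := by
    rw [vcOfInv_t, ← hr']; exact ht
  ext
  · rfl
  · exact hr'
  · exact hs'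
  · exact ht'

end Fermat.Agent.S52.H410

end
-- ===== PACK-END S52/H410/InvVC.lean

-- ===== PACK-BEGIN S52/H396/NoRoot.lean
section


/-!
# S52 piece (B3n): the 3-division quartic of the 5-congruent family has no polynomial root

For `A B : k[X]` put `q_{A,B}(x) = 3 x^4 + 6 A x^2 + 12 B x - A^2` (the 3-division polynomial of
`y^2 = x^3 + A x + B`).  If `4 A^3 + 27 B^2 = d0 * F^5` with `d0 ≠ 0`, `A`, `B` coprime, `F`
cube-free and non-constant, and `3 deg A ≤ 5 deg F`, then `q_{A,B}` has no root in `k[X]`.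

Everything here is Mathlib-only.
-/

namespace Fermat.Agent.S52.H396

open Polynomial

/-- The key identity: modulo the quartic `q = 3P^4 + 6aP^2 + 12bP - a^2` one has
`16 (4a^3 + 27b^2) P^2 = (3P^2 + a)^3 (P^2 + 3a)`. -/
theorem psi3_key_identity {R : Type*} [CommRing R] (a b P : R)
    (h : 3 * P ^ 4 + 6 * a * P ^ 2 + 12 * b * P - a ^ 2 = 0) :
    16 * (4 * a ^ 3 + 27 * b ^ 2) * P ^ 2 = (3 * P ^ 2 + a) ^ 3 * (P ^ 2 + 3 * a) := by
  linear_combination (36 * P * b - 9 * P ^ 4 - 18 * a * P ^ 2 + 3 * a ^ 2) * h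

variable {k : Type*} [Field k]

theorem isUnit_C_of_ne_zero {c : k} (hc : c ≠ 0) : IsUnit (C c : k[X]) :=
  Polynomial.isUnit_C.mpr (IsUnit.mk0 c hc)

theorem isUnit_two (h2 : (2 : k) ≠ 0) : IsUnit (2 : k[X]) := by
  have e : (2 : k[X]) = C (2 : k) := (map_ofNat C 2).symm
  rw [e]; exact isUnit_C_of_ne_zero h2

theorem isUnit_three (h3 : (3 : k) ≠ 0) : IsUnit (3 : k[X]) := by
  have e : (3 : k[X]) = C (3 : k) := (map_ofNat C 3).symm
  rw [e]; exact isUnit_C_of_ne_zero h3

theorem prime_dvd_of_dvd_unit_mul {π u x : k[X]} (hu : IsUnit u) (h : π ∣ u * x) : π ∣ x :=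
  (hu.dvd_mul_left).mp h

/-- Core statement: cube-free `F`, coprime `A`, `B`. -/
theorem no_poly_root_of_cubefree (h2 : (2 : k) ≠ 0) (h3 : (3 : k) ≠ 0)
    (A B F : k[X]) (d0 : k) (hd0 : d0 ≠ 0)
    (hD : 4 * A ^ 3 + 27 * B ^ 2 = C d0 * F ^ 5)
    (hAB : IsCoprime A B)
    (hF : ∀ π : k[X], Prime π → ¬ π ^ 3 ∣ F)
    (hdeg : 3 * A.natDegree ≤ 5 * F.natDegree) (hFpos : 0 < F.natDegree) :
    ∀ P : k[X], 3 * P ^ 4 + 6 * A * P ^ 2 + 12 * B * P - A ^ 2 ≠ 0 := by
  intro P hP
  have hF0 : F ≠ 0 := by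
    rintro rfl
    simp at hFpos
  have u2 : IsUnit (2 : k[X]) := isUnit_two h2
  have u3 : IsUnit (3 : k[X]) := isUnit_three h3
  have ud0 : IsUnit (C d0 : k[X]) := isUnit_C_of_ne_zero hd0
  have u8 : IsUnit (8 : k[X]) := by
    have : (8 : k[X]) = 2 ^ 3 := by norm_num
    rw [this]; exact u2.pow 3
  have u16 : IsUnit (16 : k[X]) := by
    have : (16 : k[X]) = 2 ^ 4 := by norm_num
    rw [this]; exact u2.pow 4
  have u27 : IsUnit (27 : k[X]) := by
    have : (27 : k[X]) = 3 ^ 3 := by norm_num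
    rw [this]; exact u3.pow 3
  have key : 16 * (C d0 * F ^ 5) * P ^ 2 = (3 * P ^ 2 + A) ^ 3 * (P ^ 2 + 3 * A) := by
    rw [← hD]; exact psi3_key_identity A B P hP
  -- Claim 1: a prime factor of `F` does not divide `P`.
  have claim1 : ∀ π : k[X], Prime π → π ∣ F → ¬ π ∣ P := by
    intro π hπ hπF hπP
    have hA2 : π ∣ A ^ 2 := by
      have e : A ^ 2 = P * (3 * P ^ 3 + 6 * A * P + 12 * B) := by
        linear_combination (-1 : k[X]) * hP
      rw [e]; exact Dvd.dvd.mul_right hπP _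
    have hA : π ∣ A := hπ.dvd_of_dvd_pow hA2
    have hB2 : π ∣ 27 * B ^ 2 := by
      have e : 27 * B ^ 2 = C d0 * F ^ 5 - 4 * A ^ 3 := by linear_combination hD
      rw [e]
      refine dvd_sub ?_ ?_
      · exact Dvd.dvd.mul_left (dvd_pow hπF (by norm_num)) _
      · exact Dvd.dvd.mul_left (dvd_pow hA (by norm_num)) _
    have hB : π ∣ B := hπ.dvd_of_dvd_pow (prime_dvd_of_dvd_unit_mul u27 hB2)
    exact hπ.not_isUnit (hAB.isUnit_of_dvd' hA hB)
  -- Claim 2: a prime factor of `F` does not divide `U = 3P^2 + A`.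
  have hP0 : P ≠ 0 := by
    rintro rfl
    -- then `A^2 = 0`, so `A = 0`, so `B` is a unit, so `F` is a unit
    have hA : A = 0 := by
      have : A ^ 2 = 0 := by linear_combination (-1 : k[X]) * hP
      exact pow_eq_zero_iff (by norm_num) |>.mp this
    subst hA
    have hBu : IsUnit B := isCoprime_zero_left.mp hAB
    have : IsUnit (C d0 * F ^ 5) := by
      rw [← hD]; simp only [ne_eq, OfNat.ofNat_ne_zero, not_false_eq_true, zero_pow, mul_zero,
        zero_add]
      exact u27.mul (hBu.pow 2)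
    have hFu : IsUnit F := by
      have h5 : IsUnit (F ^ 5) := (IsUnit.mul_iff.mp this).2
      exact (isUnit_pow_iff (by norm_num)).mp h5
    have := natDegree_eq_zero_of_isUnit hFu
    omega
  have hlhs0 : 16 * (C d0 * F ^ 5) * P ^ 2 ≠ 0 := by
    refine mul_ne_zero (mul_ne_zero u16.ne_zero (mul_ne_zero ud0.ne_zero (pow_ne_zero 5 hF0))) ?_
    exact pow_ne_zero 2 hP0
  have hU0 : 3 * P ^ 2 + A ≠ 0 := by
    intro h
    rw [h] at key
    simp only [ne_eq, OfNat.ofNat_ne_zero, not_false_eq_true, zero_pow, zero_mul] at key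
    exact hlhs0 key
  have hV0 : P ^ 2 + 3 * A ≠ 0 := by
    intro h
    rw [h] at key
    simp only [mul_zero] at key
    exact hlhs0 key
  have claim2 : ∀ π : k[X], Prime π → π ∣ F → ¬ π ∣ 3 * P ^ 2 + A := by
    intro π hπ hπF hπU
    have hπP : ¬ π ∣ P := claim1 π hπ hπF
    have hπV : ¬ π ∣ P ^ 2 + 3 * A := by
      intro hπV
      have h8 : π ∣ 8 * P ^ 2 := by
        have e : 8 * P ^ 2 = 3 * (3 * P ^ 2 + A) - (P ^ 2 + 3 * A) := by ring
        rw [e]
        exact dvd_sub (Dvd.dvd.mul_left hπU _) hπV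
      exact hπP (hπ.dvd_of_dvd_pow (prime_dvd_of_dvd_unit_mul u8 h8))
    -- multiplicities
    have e := congrArg (emultiplicity π) key
    rw [emultiplicity_mul hπ, emultiplicity_mul hπ, emultiplicity_mul hπ, emultiplicity_mul hπ,
      emultiplicity_pow hπ, emultiplicity_pow hπ, emultiplicity_pow hπ,
      emultiplicity_of_isUnit_right hπ.not_isUnit u16,
      emultiplicity_of_isUnit_right hπ.not_isUnit ud0,
      emultiplicity_eq_zero.mpr hπP, emultiplicity_eq_zero.mpr hπV] at e
    have finF : FiniteMultiplicity π F := FiniteMultiplicity.of_prime_left hπ hF0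
    have finU : FiniteMultiplicity π (3 * P ^ 2 + A) := FiniteMultiplicity.of_prime_left hπ hU0
    rw [finF.emultiplicity_eq_multiplicity, finU.emultiplicity_eq_multiplicity] at e
    have e' : 5 * multiplicity π F = 3 * multiplicity π (3 * P ^ 2 + A) := by
      have : ((5 * multiplicity π F : ℕ) : ℕ∞) = ((3 * multiplicity π (3 * P ^ 2 + A) : ℕ) : ℕ∞) := by
        push_cast
        simpa using e
      exact_mod_cast this
    have hlt : multiplicity π F < 3 := finF.multiplicity_lt_iff_not_dvd.mpr (hF π hπ)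
    have hpos : 1 ≤ multiplicity π F := by
      have := finF.pow_dvd_iff_le_multiplicity (k := 1) |>.mp (by simpa using hπF)
      exact this
    omega
  -- Claim 3: `F^5` divides `V = P^2 + 3A`.
  have hcop : IsCoprime F (3 * P ^ 2 + A) :=
    isCoprime_of_prime_dvd (fun h => hF0 h.1) claim2
  have hcop' : IsCoprime (F ^ 5) ((3 * P ^ 2 + A) ^ 3) := hcop.pow
  have hdvd : F ^ 5 ∣ P ^ 2 + 3 * A := by
    have : F ^ 5 ∣ (3 * P ^ 2 + A) ^ 3 * (P ^ 2 + 3 * A) := by
      rw [← key]
      exact ⟨16 * C d0 * P ^ 2, by ring⟩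
    exact hcop'.dvd_of_dvd_mul_left this
  -- degree bounds
  have h27 : (27 : k) ≠ 0 := by
    have : (27 : k) = 3 ^ 3 := by norm_num
    rw [this]; exact pow_ne_zero 3 h3
  have hnum : ∀ (n : ℕ) [n.AtLeastTwo] (Q : k[X]),
      (OfNat.ofNat n * Q : k[X]).natDegree ≤ Q.natDegree := by
    intro n _ Q
    refine (natDegree_mul_le).trans ?_
    simp
  have hBdeg : 2 * B.natDegree ≤ 5 * F.natDegree := by
    have e : 27 * B ^ 2 = C d0 * F ^ 5 - 4 * A ^ 3 := by linear_combination hD
    have h1 : (27 * B ^ 2 : k[X]).natDegree = 2 * B.natDegree := by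
      rw [show (27 : k[X]) = C (27 : k) from (map_ofNat C 27).symm, natDegree_C_mul h27,
        natDegree_pow]
    have h2' : (C d0 * F ^ 5 - 4 * A ^ 3 : k[X]).natDegree ≤ 5 * F.natDegree := by
      refine (natDegree_sub_le _ _).trans (max_le ?_ ?_)
      · exact (natDegree_C_mul_le _ _).trans (natDegree_pow_le)
      · exact ((hnum 4 _).trans natDegree_pow_le).trans hdeg
    rw [← h1, e]; exact h2'
  have hPdeg : 6 * P.natDegree ≤ 5 * F.natDegree := by
    by_contra hcon
    rw [not_le] at hcon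
    have e : 3 * P ^ 4 = A ^ 2 - 6 * A * P ^ 2 - 12 * B * P := by linear_combination hP
    have h1 : (3 * P ^ 4 : k[X]).natDegree = 4 * P.natDegree := by
      rw [show (3 : k[X]) = C (3 : k) from (map_ofNat C 3).symm, natDegree_C_mul h3,
        natDegree_pow]
    have hA2 : (A ^ 2 : k[X]).natDegree ≤ 2 * A.natDegree := natDegree_pow_le
    have hAP : (6 * A * P ^ 2 : k[X]).natDegree ≤ A.natDegree + 2 * P.natDegree := by
      rw [mul_assoc]
      refine (hnum 6 _).trans (natDegree_mul_le.trans ?_)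
      exact Nat.add_le_add_left natDegree_pow_le _
    have hBP : (12 * B * P : k[X]).natDegree ≤ B.natDegree + P.natDegree := by
      rw [mul_assoc]
      exact (hnum 12 _).trans natDegree_mul_le
    have h2' : (A ^ 2 - 6 * A * P ^ 2 - 12 * B * P : k[X]).natDegree < 4 * P.natDegree := by
      refine lt_of_le_of_lt (natDegree_sub_le _ _) (max_lt ?_ ?_)
      · refine lt_of_le_of_lt (natDegree_sub_le _ _) (max_lt ?_ ?_)
        · omega
        · omega
      · omega
    rw [e] at h1
    omega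
  have hVdeg : (P ^ 2 + 3 * A : k[X]).natDegree ≤ max (2 * P.natDegree) A.natDegree := by
    refine (natDegree_add_le _ _).trans (max_le_max natDegree_pow_le (hnum 3 _))
  have hF5 : (F ^ 5).natDegree ≤ (P ^ 2 + 3 * A : k[X]).natDegree :=
    natDegree_le_of_dvd hdvd hV0
  rw [natDegree_pow] at hF5
  have := hF5.trans hVdeg
  rcases le_max_iff.mp this with h | h <;> omega

/-- Arithmetic in `ℕ∞` used for the squarefree case. -/
theorem enat_aux (x y : ℕ∞) (hx : 1 ≤ x) (hy : 1 ≤ y) :
    (3 * x ≠ 2 * y → min (3 * x) (2 * y) ≠ 5) ∧ (3 * x = 2 * y → ¬ (3 * x ≤ 5)) := by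
  induction x using ENat.recTopCoe with
  | top =>
    induction y using ENat.recTopCoe with
    | top => simp
    | coe n =>
      have hn : 1 ≤ n := by exact_mod_cast hy
      have e : (3 : ℕ∞) * ⊤ = ⊤ := by simp
      rw [e]
      constructor
      · intro _ h
        rw [min_eq_right le_top] at h
        have : ((2 * n : ℕ) : ℕ∞) = ((5 : ℕ) : ℕ∞) := by push_cast; exact h
        have := ENat.natCast_inj.mp this
        omega
      · intro h
        exact absurd h.symm (by
          have : ((2 : ℕ∞) * (n : ℕ∞)) = ((2 * n : ℕ) : ℕ∞) := by push_cast; rfl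
          rw [this]; exact ENat.natCast_ne_top _)
  | coe m =>
    have hm : 1 ≤ m := by exact_mod_cast hx
    induction y using ENat.recTopCoe with
    | top =>
      have e : (2 : ℕ∞) * ⊤ = ⊤ := by simp
      rw [e]
      constructor
      · intro _ h
        rw [min_eq_left le_top] at h
        have : ((3 * m : ℕ) : ℕ∞) = ((5 : ℕ) : ℕ∞) := by push_cast; exact h
        have := ENat.natCast_inj.mp this
        omega
      · intro h
        exact absurd h (by
          have : ((3 : ℕ∞) * (m : ℕ∞)) = ((3 * m : ℕ) : ℕ∞) := by push_cast; rfl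
          rw [this]; exact ENat.natCast_ne_top _)
    | coe n =>
      have hn : 1 ≤ n := by exact_mod_cast hy
      have e3 : ((3 : ℕ∞) * (m : ℕ∞)) = ((3 * m : ℕ) : ℕ∞) := by push_cast; rfl
      have e2 : ((2 : ℕ∞) * (n : ℕ∞)) = ((2 * n : ℕ) : ℕ∞) := by push_cast; rfl
      rw [e3, e2]
      constructor
      · intro _ h
        have h5 : (5 : ℕ∞) = ((5 : ℕ) : ℕ∞) := rfl
        rw [h5] at h
        rcases le_total (3 * m) (2 * n) with h' | h'
        · rw [min_eq_left (by exact_mod_cast h')] at h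
          have := ENat.natCast_inj.mp h
          omega
        · rw [min_eq_right (by exact_mod_cast h')] at h
          have := ENat.natCast_inj.mp h
          omega
      · intro h h'
        have h5 : (5 : ℕ∞) = ((5 : ℕ) : ℕ∞) := rfl
        rw [h5, ENat.natCast_le_natCast] at h'
        rw [ENat.natCast_inj] at h
        omega

/-- If `4A^3 + 27B^2 = d0 F^5` with `F` squarefree and nonzero, then `A` and `B` are coprime. -/
theorem isCoprime_of_squarefree (h2 : (2 : k) ≠ 0) (h3 : (3 : k) ≠ 0)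
    (A B F : k[X]) (d0 : k) (hd0 : d0 ≠ 0)
    (hD : 4 * A ^ 3 + 27 * B ^ 2 = C d0 * F ^ 5) (hF : Squarefree F) (hF0 : F ≠ 0) :
    IsCoprime A B := by
  have u2 : IsUnit (2 : k[X]) := isUnit_two h2
  have u3 : IsUnit (3 : k[X]) := isUnit_three h3
  have ud0 : IsUnit (C d0 : k[X]) := isUnit_C_of_ne_zero hd0
  have u4 : IsUnit (4 : k[X]) := by
    have : (4 : k[X]) = 2 ^ 2 := by norm_num
    rw [this]; exact u2.pow 2
  have u27 : IsUnit (27 : k[X]) := by
    have : (27 : k[X]) = 3 ^ 3 := by norm_num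
    rw [this]; exact u3.pow 3
  refine isCoprime_of_prime_dvd ?_ ?_
  · rintro ⟨rfl, rfl⟩
    have : C d0 * F ^ 5 = 0 := by rw [← hD]; ring
    exact (mul_ne_zero ud0.ne_zero (pow_ne_zero 5 hF0)) this
  · intro π hπ hπA hπB
    -- `π ∣ F`
    have hπF5 : π ∣ C d0 * F ^ 5 := by
      rw [← hD]
      exact dvd_add (Dvd.dvd.mul_left (dvd_pow hπA (by norm_num)) _)
        (Dvd.dvd.mul_left (dvd_pow hπB (by norm_num)) _)
    have hπF : π ∣ F := hπ.dvd_of_dvd_pow (prime_dvd_of_dvd_unit_mul ud0 hπF5)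
    have eF : emultiplicity π F = 1 := by
      refine le_antisymm ?_ ?_
      · rcases (squarefree_iff_emultiplicity_le_one F).mp hF π with h | h
        · exact h
        · exact absurd h hπ.not_isUnit
      · have := (pow_dvd_iff_le_emultiplicity (a := π) (b := F) (k := 1)).mp (by simpa using hπF)
        simpa using this
    have hxA : 1 ≤ emultiplicity π A := by
      have := (pow_dvd_iff_le_emultiplicity (a := π) (b := A) (k := 1)).mp (by simpa using hπA)
      simpa using this
    have hxB : 1 ≤ emultiplicity π B := by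
      have := (pow_dvd_iff_le_emultiplicity (a := π) (b := B) (k := 1)).mp (by simpa using hπB)
      simpa using this
    have e := congrArg (emultiplicity π) hD
    have eR : emultiplicity π (C d0 * F ^ 5) = 5 := by
      rw [emultiplicity_mul hπ, emultiplicity_pow hπ,
        emultiplicity_of_isUnit_right hπ.not_isUnit ud0, eF]
      simp
    have eA : emultiplicity π (4 * A ^ 3) = 3 * emultiplicity π A := by
      rw [emultiplicity_mul hπ, emultiplicity_pow hπ,
        emultiplicity_of_isUnit_right hπ.not_isUnit u4]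
      simp
    have eB : emultiplicity π (27 * B ^ 2) = 2 * emultiplicity π B := by
      rw [emultiplicity_mul hπ, emultiplicity_pow hπ,
        emultiplicity_of_isUnit_right hπ.not_isUnit u27]
      simp
    rw [eR] at e
    obtain ⟨aux1, aux2⟩ := enat_aux _ _ hxA hxB
    by_cases hne : 3 * emultiplicity π A = 2 * emultiplicity π B
    · refine aux2 hne ?_
      have := min_le_emultiplicity_add (p := π) (a := 4 * A ^ 3) (b := 27 * B ^ 2)
      rw [e, eA, eB, ← hne, min_self] at this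
      exact this
    · refine aux1 hne ?_
      have := emultiplicity_add_eq_min (p := π) (a := 4 * A ^ 3) (b := 27 * B ^ 2)
        (by rw [eA, eB]; exact hne)
      rw [e, eA, eB] at this
      exact this.symm

/-- Squarefree version (general field with `2, 3 ≠ 0`). -/
theorem no_poly_root_of_squarefree (h2 : (2 : k) ≠ 0) (h3 : (3 : k) ≠ 0)
    (A B F : k[X]) (d0 : k) (hd0 : d0 ≠ 0)
    (hD : 4 * A ^ 3 + 27 * B ^ 2 = C d0 * F ^ 5) (hF : Squarefree F)
    (hdeg : 3 * A.natDegree ≤ 5 * F.natDegree) (hFpos : 0 < F.natDegree) :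
    ∀ P : k[X], 3 * P ^ 4 + 6 * A * P ^ 2 + 12 * B * P - A ^ 2 ≠ 0 := by
  have hF0 : F ≠ 0 := by
    rintro rfl
    simp at hFpos
  refine no_poly_root_of_cubefree h2 h3 A B F d0 hd0 hD
    (isCoprime_of_squarefree h2 h3 A B F d0 hd0 hD hF hF0) ?_ hdeg hFpos
  intro π hπ h
  have : π * π ∣ F := dvd_trans ⟨π, by ring⟩ h
  exact hπ.not_isUnit (hF π this)

/-- **B3n**, in the exact shape of helper232's interface `no_poly_root`. -/
theorem no_poly_root (A B F : Polynomial ℚ) (d0 : ℚ) (hd0 : d0 ≠ 0)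
    (hD : 4 * A ^ 3 + 27 * B ^ 2 = Polynomial.C d0 * F ^ 5) (hF : Squarefree F)
    (hdeg : 3 * A.natDegree ≤ 5 * F.natDegree) (hFpos : 0 < F.natDegree) (hA : A ≠ 0) :
    ∀ P : Polynomial ℚ, 3 * P ^ 4 + 6 * A * P ^ 2 + 12 * B * P - A ^ 2 ≠ 0 :=
  have _ := hA
  no_poly_root_of_squarefree (by norm_num) (by norm_num) A B F d0 hd0 hD hF hdeg hFpos

end Fermat.Agent.S52.H396

end
-- ===== PACK-END S52/H396/NoRoot.lean

-- ===== PACK-BEGIN S15/H302/Nakayama.lean
section


/-!
# Row S15, piece DESC-ALG (helper302): the commutative algebra of the Eisenstein descent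

* `exists_ne_zero_smul_eq_zero_of_smul_ne` : a finite module `N` over a commutative ring with
  `P • N ≠ N` contains a non-zero element killed by the ideal `P`.
* `exists_sub_one_mem_smul_eq_zero_of_socle` (ALG1): `M` a finitely generated abelian group with
  an action of a commutative ring `R`, `P` an ideal containing `r > 0`; if `(M / r M)[P] = 0`
  then some `t ∈ 1 + P` kills `M`.

Mathlib only; no `sorry`.
-/

set_option autoImplicit false

namespace Fermat.Agent.S15.H302

open Submodule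

/-- A finite module `N` with `P • N ≠ N` has a non-zero element killed by `P`
(strong induction on the cardinality; no maximality or noetherian hypothesis). -/
theorem exists_ne_zero_smul_eq_zero_of_smul_ne {R X : Type*} [CommRing R] [AddCommGroup X]
    [Module R X] [Finite X] (P : Ideal R) :
    ∀ (n : ℕ) (N : Submodule R X), (N : Set X).ncard = n → P • N ≠ N →
      ∃ x ∈ N, x ≠ 0 ∧ ∀ s ∈ P, s • x = 0 := by
  intro n
  induction n using Nat.strong_induction_on with
  | _ n ih =>
    intro N hN hne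
    by_cases hall : ∀ s ∈ P, ∀ x ∈ N, s • x = 0
    · -- `P` kills `N`; `N ≠ ⊥` since `P • ⊥ = ⊥`
      have hbot : N ≠ ⊥ := by
        rintro rfl
        exact hne (by simp)
      obtain ⟨x, hx, hx0⟩ := (Submodule.ne_bot_iff N).1 hbot
      exact ⟨x, hx, hx0, fun s hs => hall s hs x hx⟩
    · push Not at hall
      obtain ⟨s, hs, x₀, hx₀, hsx₀⟩ := hall
      set f : X →ₗ[R] X := LinearMap.lsmul R X s with hf
      have hfx : ∀ x, f x = s • x := fun x => rfl
      -- the kernel part
      set K : Submodule R X := N ⊓ LinearMap.ker f with hK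
      have hKN : K ≤ N := inf_le_left
      have hKlt : (K : Set X) ⊂ (N : Set X) := by
        refine ⟨hKN, fun h => ?_⟩
        have : x₀ ∈ K := h hx₀
        exact hsx₀ (by simpa [hfx] using this.2)
      have hKcard : (K : Set X).ncard < n := by
        rw [← hN]
        exact Set.ncard_lt_ncard hKlt (Set.toFinite _)
      by_cases hPK : P • K = K
      swap
      · obtain ⟨x, hx, hx0, hxP⟩ := ih _ hKcard K rfl hPK
        exact ⟨x, hKN hx, hx0, hxP⟩
      -- the image part
      set I : Submodule R X := N.map f with hI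
      have hIPN : I ≤ P • N := by
        rintro _ ⟨x, hx, rfl⟩
        exact Submodule.smul_mem_smul hs hx
      have hPN : P • N ≤ N := Submodule.smul_le.2 fun a _ x hx => N.smul_mem a hx
      have hIN : I ≤ N := hIPN.trans hPN
      have hIlt : (I : Set X) ⊂ (N : Set X) := by
        refine ⟨hIN, fun h => ?_⟩
        exact hne (le_antisymm hPN (fun x hx => hIPN (h hx)))
      have hIcard : (I : Set X).ncard < n := by
        rw [← hN]
        exact Set.ncard_lt_ncard hIlt (Set.toFinite _)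
      by_cases hPI : P • I = I
      swap
      · obtain ⟨x, hx, hx0, hxP⟩ := ih _ hIcard I rfl hPI
        exact ⟨x, hIN hx, hx0, hxP⟩
      -- both `K` and `I` are `P`-divisible: then so is `N`, contradiction
      exfalso
      refine hne (le_antisymm hPN fun x hx => ?_)
      have h1 : f x ∈ (P • N).map f := by
        rw [Submodule.map_smul'', hPI]
        exact ⟨x, hx, rfl⟩
      obtain ⟨y, hy, hyx⟩ := h1
      have h2 : x - y ∈ K := by
        refine ⟨N.sub_mem hx (hPN hy), ?_⟩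
        show x - y ∈ LinearMap.ker f
        rw [LinearMap.mem_ker, map_sub, hyx, sub_self]
      have h3 : x - y ∈ P • N := by
        rw [← hPK] at h2
        exact (Submodule.smul_le.2 fun a ha k hk =>
          Submodule.smul_mem_smul ha (hKN hk)) h2
      have := (P • N).add_mem h3 hy
      simpa using this

/-- **ALG1.**  `M` a finitely generated abelian group with an action of a commutative ring `R`,
`P` an ideal of `R` containing the integer `r > 0`.  If every `z ∈ M` with `P z ⊆ r M` lies in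
`r M` (i.e. `(M / r M)[P] = 0`), then there is `t ∈ 1 + P` with `t M = 0`. -/
theorem exists_sub_one_mem_smul_eq_zero_of_socle {R M : Type*} [CommRing R] [AddCommGroup M]
    [Module R M] [Module.Finite ℤ M] (P : Ideal R) (r : ℕ) (hr : 0 < r) (hrP : (r : R) ∈ P)
    (h : ∀ z : M, (∀ s ∈ P, ∃ w : M, s • z = r • w) → ∃ w : M, z = r • w) :
    ∃ t : R, t - 1 ∈ P ∧ ∀ z : M, t • z = 0 := by
  classical
  -- the submodule `r M`
  set Nr : Submodule R M := LinearMap.range (LinearMap.lsmul R M (r : R)) with hNr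
  have hmemNr : ∀ z : M, z ∈ Nr ↔ ∃ w : M, z = r • w := by
    intro z
    constructor
    · rintro ⟨w, rfl⟩
      exact ⟨w, by simp [Nat.cast_smul_eq_nsmul]⟩
    · rintro ⟨w, rfl⟩
      exact ⟨w, by simp [Nat.cast_smul_eq_nsmul]⟩
  -- `X = M / r M` is finite
  have : Module.Finite ℤ (M ⧸ Nr) :=
    Module.Finite.of_surjective ((Nr.mkQ).restrictScalars ℤ) (Submodule.mkQ_surjective Nr)
  have htors : Module.IsTorsion ℤ (M ⧸ Nr) := by
    intro x
    obtain ⟨z, rfl⟩ := Submodule.mkQ_surjective Nr x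
    refine ⟨⟨(r : ℤ), ?_⟩, ?_⟩
    · rw [mem_nonZeroDivisors_iff_ne_zero]
      exact_mod_cast hr.ne'
    · show (r : ℤ) • Nr.mkQ z = 0
      rw [← map_zsmul, Submodule.mkQ_apply, Submodule.Quotient.mk_eq_zero, hmemNr]
      exact ⟨z, by simp⟩
  have : Finite (M ⧸ Nr) := Module.finite_of_fg_torsion _ htors
  -- `P • X = X`
  have hPX : P • (⊤ : Submodule R (M ⧸ Nr)) = ⊤ := by
    by_contra hne
    obtain ⟨x, -, hx0, hxP⟩ :=
      exists_ne_zero_smul_eq_zero_of_smul_ne P _ (⊤ : Submodule R (M ⧸ Nr)) rfl hne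
    obtain ⟨z, rfl⟩ := Submodule.mkQ_surjective Nr x
    apply hx0
    rw [Submodule.mkQ_apply, Submodule.Quotient.mk_eq_zero, hmemNr]
    refine h z fun s hs => ?_
    have := hxP s hs
    rw [← map_smul, Submodule.mkQ_apply, Submodule.Quotient.mk_eq_zero, hmemNr] at this
    exact this
  -- `M = P M`
  have hle : (⊤ : Submodule R M) ≤ P • (⊤ : Submodule R M) := by
    intro z _
    have h1 : Nr.mkQ z ∈ (P • (⊤ : Submodule R M)).map Nr.mkQ := by
      rw [Submodule.map_smul'', Submodule.map_top, Submodule.range_mkQ, hPX]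
      exact Submodule.mem_top
    obtain ⟨y, hy, hyz⟩ := h1
    have h2 : z - y ∈ Nr := by
      rw [← Submodule.Quotient.mk_eq_zero, Submodule.Quotient.mk_sub]
      simp only [Submodule.mkQ_apply] at hyz
      rw [hyz, sub_self]
    obtain ⟨w, hw⟩ := h2
    have h3 : z - y ∈ P • (⊤ : Submodule R M) := by
      rw [← hw]
      exact Submodule.smul_mem_smul hrP Submodule.mem_top
    have := (P • (⊤ : Submodule R M)).add_mem h3 hy
    simpa using this
  have : Module.Finite R M := Module.Finite.of_restrictScalars_finite ℤ R M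
  obtain ⟨t, ht, htM⟩ := Submodule.exists_sub_one_mem_and_smul_eq_zero_of_fg_of_le_smul P
    (⊤ : Submodule R M) Module.Finite.fg_top hle
  exact ⟨t, ht, fun z => htM z Submodule.mem_top⟩

end Fermat.Agent.S15.H302

end
-- ===== PACK-END S15/H302/Nakayama.lean

-- ===== PACK-BEGIN S15/H842/Engine.lean
section


/-!
# S15 / DESC — ENGINE (blueprint v3, sec. 1), abstract form      (helper842)

Pure group theory, Mathlib only.  `Γ` acts on the additive commutative group `J` by additive
automorphisms.  For a subgroup `F ≤ J` put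

  `cocSub Γ F := {y : ∀ s, s • y - y ∈ F}`          ("the Kummer cocycle of `y` takes values in `F`").

So `cocSub Γ ⊥ = J^Γ` (= `A` of the blueprint), and for a `Γ`-stable finite `W_E ≤ J[r]`,
`cocSub Γ W_E = Y_E`, `cocSub Γ (F i) = Y_i` (the condition `r y ∈ A` is automatic).

For a flag `F 0 ≤ F 1 ≤ … ≤ F D = W` of `Γ`-stable subgroups the ENGINE is the EXACT formula

  `(∏_{i<D} sel i) * [W ⊓ cocSub (F 0) : F 0] = [cocSub W : cocSub (F 0) ⊔ W] * ∏_{i<D} pG i`,

* `sel i = [cocSub (F (i+1)) : cocSub (F i) ⊔ F (i+1)]`   (`= |Sel_i|`: the map `y ↦ [c_y mod F i]`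
  into `H¹(Γ, F (i+1) / F i)` has kernel `cocSub (F i) ⊔ F (i+1)`, see `mem_cocSub_sup_iff`),
* `pG i = [F (i+1) ⊓ cocSub (F i) : F i]`                (`= |(F (i+1) / F i)^Γ| = |P_i^Γ|`).

With `F 0 = ⊥` this is `|Y_E / (A + W_E)| * ∏ |P_i^Γ| = |W_E^Γ| * ∏ |Sel_i|` (`engine_bot`).
All indices are `AddSubgroup.relIndex` (value `0` = infinite), and the identity holds without any
finiteness hypothesis.  `engine_le` is the inequality form used by ALG0 / (SEL):
`sel i ≤ r ^ a i`, `r ^ b i ≤ pG i` ⟹ the total index is finite and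
`[Y_E : A + W_E] * r ^ (∑ b) ≤ |W_E^Γ| * r ^ (∑ a)`.

Auxiliary: `relIndex_le_of_forall_sub_mem` (bound an index by the size of a set of invariants),
`pG_eq_relIndex_of_trivial`, `pG_eq_one_of_nontrivial` (the two values of `|P_i^Γ|`).
-/

set_option autoImplicit false

namespace Fermat.Agent.S15.H842.Engine

open scoped BigOperators

section Defs

variable (Γ : Type*) [Group Γ] {J : Type*} [AddCommGroup J] [DistribMulAction Γ J]

/-- The points `y` of `J` whose Kummer cocycle `s ↦ s • y - y` takes values in `F`. -/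
def cocSub (F : AddSubgroup J) : AddSubgroup J where
  carrier := {y | ∀ s : Γ, s • y - y ∈ F}
  zero_mem' := by
    intro s
    simp
  add_mem' := by
    intro a b ha hb s
    have h : s • (a + b) - (a + b) = (s • a - a) + (s • b - b) := by
      rw [smul_add]; abel
    rw [h]
    exact F.add_mem (ha s) (hb s)
  neg_mem' := by
    intro a ha s
    have h : s • (-a) - (-a) = -(s • a - a) := by
      rw [smul_neg]; abel
    rw [h]
    exact F.neg_mem (ha s)

/-- `F` is stable under `Γ`. -/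
def IsStable (F : AddSubgroup J) : Prop := ∀ (s : Γ) (f : J), f ∈ F → s • f ∈ F

end Defs

section Basic

variable {Γ : Type*} [Group Γ] {J : Type*} [AddCommGroup J] [DistribMulAction Γ J]

theorem mem_cocSub {F : AddSubgroup J} {y : J} :
    y ∈ cocSub Γ F ↔ ∀ s : Γ, s • y - y ∈ F := Iff.rfl

theorem mem_cocSub_bot {y : J} : y ∈ cocSub Γ (⊥ : AddSubgroup J) ↔ ∀ s : Γ, s • y = y := by
  rw [mem_cocSub]
  constructor
  · intro h s
    have := h s
    rw [AddSubgroup.mem_bot, sub_eq_zero] at this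
    exact this
  · intro h s
    rw [AddSubgroup.mem_bot, sub_eq_zero]
    exact h s

theorem cocSub_mono {F F' : AddSubgroup J} (h : F ≤ F') : cocSub Γ F ≤ cocSub Γ F' :=
  fun _ hy s => h (hy s)

theorem le_cocSub_of_isStable {F : AddSubgroup J} (hF : IsStable Γ F) : F ≤ cocSub Γ F :=
  fun f hf s => F.sub_mem (hF s f hf) hf

theorem isStable_bot : IsStable Γ (⊥ : AddSubgroup J) := by
  intro s f hf
  rw [AddSubgroup.mem_bot] at hf ⊢
  rw [hf, smul_zero]

/-- The kernel of `y ↦ [c_y mod F₀] ∈ H¹(Γ, F₁ / F₀)` on `cocSub Γ F₁` is `cocSub Γ F₀ ⊔ F₁`: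
`y` lies in it iff its cocycle is, modulo `F₀`, the coboundary of some `f ∈ F₁`. -/
theorem mem_cocSub_sup_iff {F₀ F₁ : AddSubgroup J} {y : J} :
    y ∈ cocSub Γ F₀ ⊔ F₁ ↔ ∃ f ∈ F₁, ∀ s : Γ, (s • y - y) - (s • f - f) ∈ F₀ := by
  rw [AddSubgroup.mem_sup]
  constructor
  · rintro ⟨a, ha, f, hf, rfl⟩
    refine ⟨f, hf, fun s => ?_⟩
    have h : (s • (a + f) - (a + f)) - (s • f - f) = s • a - a := by
      rw [smul_add]; abel
    rw [h]
    exact ha s
  · rintro ⟨f, hf, h⟩
    refine ⟨y - f, fun s => ?_, f, hf, by abel⟩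
    have h' : s • (y - f) - (y - f) = (s • y - y) - (s • f - f) := by
      rw [smul_sub]; abel
    rw [h']
    exact h s

end Basic

/-! ## Index bookkeeping in an abelian group -/

section Index

variable {J : Type*} [AddCommGroup J]

/-- second isomorphism theorem + modular law: `[L ⊔ M : K ⊔ M] = [L : K ⊔ (M ⊓ L)]` for `K ≤ L`. -/
theorem relIndex_sup_sup (K L M : AddSubgroup J) (hKL : K ≤ L) :
    (K ⊔ M).relIndex (L ⊔ M) = (K ⊔ M ⊓ L).relIndex L := by
  have h1 : L ⊔ M = L ⊔ (K ⊔ M) := by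
    rw [← sup_assoc, sup_eq_left.2 hKL]
  have h2 : (K ⊔ M) ⊓ L = K ⊔ M ⊓ L := sup_inf_assoc_of_le M hKL
  rw [h1, AddSubgroup.relIndex_sup_right, ← AddSubgroup.inf_relIndex_right, h2]

/-- An index is bounded by the number of values of any invariant separating the cosets. -/
theorem relIndex_le_of_forall_sub_mem {S : Type*} [Finite S] (H K : AddSubgroup J) (κ : J → S)
    (hκ : ∀ y ∈ K, ∀ y' ∈ K, κ y = κ y' → y - y' ∈ H) :
    H.relIndex K ≠ 0 ∧ H.relIndex K ≤ Nat.card S := by
  classical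
  -- the induced map on the quotient `K ⧸ H.addSubgroupOf K` is injective
  let g : (K ⧸ H.addSubgroupOf K) → S := fun q => κ ((Quotient.out q : K) : J)
  have hg : Function.Injective g := by
    intro q q' h
    have h1 : ((Quotient.out q : K) : J) - ((Quotient.out q' : K) : J) ∈ H :=
      hκ _ (Quotient.out q).2 _ (Quotient.out q').2 h
    have h2 : (Quotient.out q : K) - Quotient.out q' ∈ H.addSubgroupOf K := by
      rw [AddSubgroup.mem_addSubgroupOf]
      simpa using h1
    have h3 : ((Quotient.out q : K) : K ⧸ H.addSubgroupOf K) = (Quotient.out q' : K) := by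
      rw [QuotientAddGroup.eq]
      have : -(Quotient.out q : K) + Quotient.out q' = -((Quotient.out q : K) - Quotient.out q') := by
        abel
      rw [this]
      exact (H.addSubgroupOf K).neg_mem h2
    have e1 : ((Quotient.out q : K) : K ⧸ H.addSubgroupOf K) = q := Quotient.out_eq q
    have e2 : ((Quotient.out q' : K) : K ⧸ H.addSubgroupOf K) = q' := Quotient.out_eq q'
    rw [← e1, ← e2]
    exact h3
  have : Finite (K ⧸ H.addSubgroupOf K) := Finite.of_injective g hg
  refine ⟨?_, ?_⟩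
  · show (H.addSubgroupOf K).index ≠ 0
    exact AddSubgroup.index_ne_zero_of_finite
  · show (H.addSubgroupOf K).index ≤ Nat.card S
    rw [AddSubgroup.index]
    exact Nat.card_le_card_of_injective g hg

/-- Indices inside a finite subgroup are non-zero. -/
theorem relIndex_ne_zero_of_finite (H K : AddSubgroup J) [Finite K] : H.relIndex K ≠ 0 := by
  show (H.addSubgroupOf K).index ≠ 0
  exact AddSubgroup.index_ne_zero_of_finite

end Index

/-! ## One step of the flag -/

section Step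

variable {Γ : Type*} [Group Γ] {J : Type*} [AddCommGroup J] [DistribMulAction Γ J]

/-- **ENGINE, one step.**  `F₀ ≤ F₁ ≤ W`, `F₀`, `F₁` stable.  With
`sel = [Y₁ : Y₀ ⊔ F₁]`, `idx = [Y₁ ⊔ W : Y₀ ⊔ W]`, `vⱼ = [W ⊓ Yⱼ : Fⱼ]`, `pG = [F₁ ⊓ Y₀ : F₀]`
(`Yⱼ = cocSub Fⱼ`):  `sel * v₀ = idx * v₁ * pG`. -/
theorem engine_step (F₀ F₁ W : AddSubgroup J) (h01 : F₀ ≤ F₁) (h1W : F₁ ≤ W)
    (hs0 : IsStable Γ F₀) (hs1 : IsStable Γ F₁) :
    (cocSub Γ F₀ ⊔ F₁).relIndex (cocSub Γ F₁) * F₀.relIndex (W ⊓ cocSub Γ F₀) =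
      (cocSub Γ F₀ ⊔ W).relIndex (cocSub Γ F₁ ⊔ W) * F₁.relIndex (W ⊓ cocSub Γ F₁) *
        F₀.relIndex (F₁ ⊓ cocSub Γ F₀) := by
  set Y₀ := cocSub Γ F₀ with hY₀
  set Y₁ := cocSub Γ F₁ with hY₁
  have hY : Y₀ ≤ Y₁ := cocSub_mono h01
  have hF0Y0 : F₀ ≤ Y₀ := le_cocSub_of_isStable hs0
  have hF1Y1 : F₁ ≤ Y₁ := le_cocSub_of_isStable hs1
  set V₀ := W ⊓ Y₀ with hV₀
  set V₁ := W ⊓ Y₁ with hV₁
  have hF1V1 : F₁ ≤ V₁ := le_inf h1W hF1Y1
  have hV1Y1 : V₁ ≤ Y₁ := inf_le_right
  have hV01 : V₀ ≤ V₁ := inf_le_inf_left W hY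
  -- (1) idx = [Y₁ : Y₀ ⊔ V₁]
  have e1 : (Y₀ ⊔ W).relIndex (Y₁ ⊔ W) = (Y₀ ⊔ V₁).relIndex Y₁ :=
    relIndex_sup_sup Y₀ Y₁ W hY
  -- (2) sel = [Y₀ ⊔ V₁ : Y₀ ⊔ F₁] * [Y₁ : Y₀ ⊔ V₁]
  have e2 : (Y₀ ⊔ F₁).relIndex (Y₀ ⊔ V₁) * (Y₀ ⊔ V₁).relIndex Y₁ = (Y₀ ⊔ F₁).relIndex Y₁ :=
    AddSubgroup.relIndex_mul_relIndex _ _ _ (sup_le_sup_left hF1V1 Y₀) (sup_le hY hV1Y1)
  -- (3) [Y₀ ⊔ V₁ : Y₀ ⊔ F₁] = [V₁ : F₁ ⊔ V₀]
  have e3 : (Y₀ ⊔ F₁).relIndex (Y₀ ⊔ V₁) = (F₁ ⊔ V₀).relIndex V₁ := by
    have h := relIndex_sup_sup F₁ V₁ Y₀ hF1V1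
    have hYV : Y₀ ⊓ V₁ = V₀ := by
      rw [hV₁, hV₀, ← inf_assoc, inf_comm Y₀ W, inf_assoc, inf_eq_left.2 hY]
    rw [hYV] at h
    rw [sup_comm Y₀ F₁, sup_comm Y₀ V₁]
    exact h
  -- (4) v₁ = [V₀ : Q] * [V₁ : F₁ ⊔ V₀],  v₀ = pG * [V₀ : Q]
  set Q := F₁ ⊓ Y₀ with hQ
  have hQV : F₁ ⊓ V₀ = Q := by
    rw [hV₀, hQ, ← inf_assoc, inf_eq_left.2 h1W]
  have e4 : F₁.relIndex V₁ = Q.relIndex V₀ * (F₁ ⊔ V₀).relIndex V₁ := by
    have h := AddSubgroup.relIndex_mul_relIndex F₁ (F₁ ⊔ V₀) V₁ le_sup_left (sup_le hF1V1 hV01)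
    rw [AddSubgroup.relIndex_sup_left, ← AddSubgroup.inf_relIndex_right, hQV] at h
    exact h.symm
  have hF0Q : F₀ ≤ Q := le_inf h01 hF0Y0
  have hQV0 : Q ≤ V₀ := by
    rw [← hQV]; exact inf_le_right
  have e5 : F₀.relIndex V₀ = F₀.relIndex Q * Q.relIndex V₀ :=
    (AddSubgroup.relIndex_mul_relIndex F₀ Q V₀ hF0Q hQV0).symm
  rw [← e2, e1, e3, e4, e5]
  ring

end Step

/-! ## The flag -/

section Flag

variable {Γ : Type*} [Group Γ] {J : Type*} [AddCommGroup J] [DistribMulAction Γ J]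

/-- `|Sel_i|`, as an index. -/
noncomputable def sel (Γ : Type*) [Group Γ] {J : Type*} [AddCommGroup J] [DistribMulAction Γ J]
    (F : ℕ → AddSubgroup J) (i : ℕ) : ℕ :=
  (cocSub Γ (F i) ⊔ F (i + 1)).relIndex (cocSub Γ (F (i + 1)))

/-- `|P_i^Γ|`, as an index. -/
noncomputable def pG (Γ : Type*) [Group Γ] {J : Type*} [AddCommGroup J] [DistribMulAction Γ J]
    (F : ℕ → AddSubgroup J) (i : ℕ) : ℕ :=
  (F i).relIndex (F (i + 1) ⊓ cocSub Γ (F i))

/-- telescoping of the indices `[Y_{i+1} ⊔ W : Y_i ⊔ W]` -/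
theorem prod_idx (F : ℕ → AddSubgroup J) (W : AddSubgroup J) (k : ℕ)
    (hmono : ∀ i, i < k → F i ≤ F (i + 1)) :
    ∏ i ∈ Finset.range k, (cocSub Γ (F i) ⊔ W).relIndex (cocSub Γ (F (i + 1)) ⊔ W) =
      (cocSub Γ (F 0) ⊔ W).relIndex (cocSub Γ (F k) ⊔ W) := by
  induction k with
  | zero => simp [AddSubgroup.relIndex_self]
  | succ k ih =>
    have hle : ∀ j, j ≤ k → F 0 ≤ F j := by
      intro j hj
      induction j with
      | zero => exact le_rfl
      | succ j ihj =>
        exact (ihj (Nat.le_of_succ_le hj)).trans (hmono j (Nat.lt_succ_of_le (Nat.le_of_succ_le hj)))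
    rw [Finset.prod_range_succ, ih (fun i hi => hmono i (Nat.lt_succ_of_lt hi))]
    exact AddSubgroup.relIndex_mul_relIndex _ _ _
      (sup_le_sup_right (cocSub_mono (hle k le_rfl)) W)
      (sup_le_sup_right (cocSub_mono (hmono k (Nat.lt_succ_self k))) W)

/-- **ENGINE (general flag), exact formula up to level `k`.** -/
theorem engine_upto (F : ℕ → AddSubgroup J) (W : AddSubgroup J) (k : ℕ)
    (hmono : ∀ i, i < k → F i ≤ F (i + 1)) (hW : ∀ i, i ≤ k → F i ≤ W)
    (hst : ∀ i, i ≤ k → IsStable Γ (F i)) :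
    (∏ i ∈ Finset.range k, sel Γ F i) * (F 0).relIndex (W ⊓ cocSub Γ (F 0)) =
      (cocSub Γ (F 0) ⊔ W).relIndex (cocSub Γ (F k) ⊔ W) *
        (F k).relIndex (W ⊓ cocSub Γ (F k)) * ∏ i ∈ Finset.range k, pG Γ F i := by
  induction k with
  | zero => simp [AddSubgroup.relIndex_self]
  | succ k ih =>
    have ih' := ih (fun i hi => hmono i (Nat.lt_succ_of_lt hi))
      (fun i hi => hW i (Nat.le_succ_of_le hi)) (fun i hi => hst i (Nat.le_succ_of_le hi))
    have hstep := engine_step (Γ := Γ) (F k) (F (k + 1)) W (hmono k (Nat.lt_succ_self k))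
      (hW (k + 1) le_rfl) (hst k (Nat.le_succ k)) (hst (k + 1) le_rfl)
    have hidx := prod_idx (Γ := Γ) F W
    have h0k := hidx k (fun i hi => hmono i (Nat.lt_succ_of_lt hi))
    have h0k1 := hidx (k + 1) hmono
    rw [Finset.prod_range_succ] at h0k1
    rw [h0k] at h0k1
    rw [Finset.prod_range_succ, Finset.prod_range_succ]
    -- abbreviations
    set S := ∏ i ∈ Finset.range k, sel Γ F i
    set P := ∏ i ∈ Finset.range k, pG Γ F i
    set a := (cocSub Γ (F 0) ⊔ W).relIndex (cocSub Γ (F k) ⊔ W)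
    set b := (cocSub Γ (F k) ⊔ W).relIndex (cocSub Γ (F (k + 1)) ⊔ W)
    set c := (cocSub Γ (F 0) ⊔ W).relIndex (cocSub Γ (F (k + 1)) ⊔ W)
    set v0 := (F 0).relIndex (W ⊓ cocSub Γ (F 0))
    set vk := (F k).relIndex (W ⊓ cocSub Γ (F k))
    set vk1 := (F (k + 1)).relIndex (W ⊓ cocSub Γ (F (k + 1)))
    have hstep' : sel Γ F k * vk = b * vk1 * pG Γ F k := hstep
    calc S * sel Γ F k * v0 = (S * v0) * sel Γ F k := by ring
      _ = (a * vk * P) * sel Γ F k := by rw [ih']
      _ = a * P * (sel Γ F k * vk) := by ring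
      _ = a * P * (b * vk1 * pG Γ F k) := by rw [hstep']
      _ = (a * b) * vk1 * (P * pG Γ F k) := by ring
      _ = c * vk1 * (P * pG Γ F k) := by rw [h0k1]

/-- **ENGINE** for a flag ending at `W = F D`:
`(∏ |Sel_i|) * [W ⊓ Y₀ : F 0] = [Y_D : Y₀ ⊔ W] * ∏ |P_i^Γ|`. -/
theorem engine (F : ℕ → AddSubgroup J) (D : ℕ)
    (hmono : ∀ i, i < D → F i ≤ F (i + 1)) (hst : ∀ i, i ≤ D → IsStable Γ (F i)) :
    (∏ i ∈ Finset.range D, sel Γ F i) * (F 0).relIndex (F D ⊓ cocSub Γ (F 0)) =
      (cocSub Γ (F 0) ⊔ F D).relIndex (cocSub Γ (F D)) * ∏ i ∈ Finset.range D, pG Γ F i := by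
  have hle : ∀ j, j ≤ D → ∀ i, i ≤ j → F i ≤ F j := by
    intro j
    induction j with
    | zero =>
      intro _ i hi
      rw [Nat.le_zero.1 hi]
    | succ j ihj =>
      intro hj i hi
      rcases Nat.eq_or_lt_of_le hi with h | h
      · rw [h]
      · exact (ihj (Nat.le_of_succ_le hj) i (Nat.lt_succ_iff.1 h)).trans
          (hmono j (Nat.lt_of_succ_le hj))
  have h := engine_upto (Γ := Γ) F (F D) D hmono (fun i hi => hle D le_rfl i hi) hst
  have hD : F D ≤ cocSub Γ (F D) := le_cocSub_of_isStable (hst D le_rfl)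
  rw [sup_eq_left.2 hD, inf_eq_left.2 hD, AddSubgroup.relIndex_self, mul_one] at h
  exact h

/-- **ENGINE, blueprint form** (`F 0 = ⊥`):
`(∏ |Sel_i|) * |W^Γ| = [Y_E : A + W] * ∏ |P_i^Γ|`, where `A = cocSub Γ ⊥ = J^Γ`, `W = F D`,
`Y_E = cocSub Γ W`. -/
theorem engine_bot (F : ℕ → AddSubgroup J) (D : ℕ) (h0 : F 0 = ⊥)
    (hmono : ∀ i, i < D → F i ≤ F (i + 1)) (hst : ∀ i, i ≤ D → IsStable Γ (F i)) :
    (∏ i ∈ Finset.range D, sel Γ F i) *
        Nat.card ↥(F D ⊓ cocSub Γ (⊥ : AddSubgroup J)) =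
      (cocSub Γ (⊥ : AddSubgroup J) ⊔ F D).relIndex (cocSub Γ (F D)) *
        ∏ i ∈ Finset.range D, pG Γ F i := by
  have h := engine (Γ := Γ) F D hmono hst
  rw [h0, AddSubgroup.relIndex_bot_left] at h
  exact h

end Flag

/-! ## Values of `|P_i^Γ|` and the inequality form -/

section Bounds

variable {Γ : Type*} [Group Γ] {J : Type*} [AddCommGroup J] [DistribMulAction Γ J]

/-- If `Γ` acts trivially on `F₁ / F₀`, then `|P^Γ| = [F₁ : F₀]`. -/
theorem pG_eq_relIndex_of_trivial (F₀ F₁ : AddSubgroup J)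
    (htriv : ∀ f ∈ F₁, ∀ s : Γ, s • f - f ∈ F₀) :
    F₀.relIndex (F₁ ⊓ cocSub Γ F₀) = F₀.relIndex F₁ := by
  have h : F₁ ⊓ cocSub Γ F₀ = F₁ := inf_eq_left.2 (fun f hf => htriv f hf)
  rw [h]

/-- If `[F₁ : F₀]` is a prime `r` and `Γ` does not act trivially on `F₁ / F₀`, then
`|P^Γ| = 1`. -/
theorem pG_eq_one_of_nontrivial (F₀ F₁ : AddSubgroup J) (h01 : F₀ ≤ F₁)
    (hs0 : IsStable Γ F₀) {r : ℕ} (hr : r.Prime) (hidx : F₀.relIndex F₁ = r)
    (hnt : ∃ f ∈ F₁, ∃ s : Γ, s • f - f ∉ F₀) :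
    F₀.relIndex (F₁ ⊓ cocSub Γ F₀) = 1 := by
  set Q := F₁ ⊓ cocSub Γ F₀ with hQ
  have hF0Q : F₀ ≤ Q := le_inf h01 (le_cocSub_of_isStable hs0)
  have hQF1 : Q ≤ F₁ := inf_le_left
  have hmul : F₀.relIndex Q * Q.relIndex F₁ = r := by
    rw [AddSubgroup.relIndex_mul_relIndex F₀ Q F₁ hF0Q hQF1, hidx]
  have hdvd : F₀.relIndex Q ∣ r := Dvd.intro _ hmul
  rcases (Nat.dvd_prime hr).1 hdvd with h1 | hr'
  · exact h1
  · exfalso
    rw [hr'] at hmul
    have h2 : Q.relIndex F₁ = 1 := by
      have hpos : 0 < r := hr.pos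
      have : r * Q.relIndex F₁ = r * 1 := by rw [hmul, mul_one]
      exact Nat.eq_of_mul_eq_mul_left hpos this
    have h3 : F₁ ≤ Q := AddSubgroup.relIndex_eq_one.1 h2
    obtain ⟨f, hf, s, hfs⟩ := hnt
    exact hfs ((h3 hf).2 s)

/-- **ENGINE, inequality form** (what (SEL) consumes).  `W = F D` finite, `F 0 = ⊥`; if for
every piece `|Sel_i|` is finite and `≤ r ^ a i`, and `r ^ b i ≤ |P_i^Γ|`, then the index
`[Y_E : A + W]` is finite and `[Y_E : A + W] * r ^ (∑ b) ≤ |W^Γ| * r ^ (∑ a)`. -/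
theorem engine_le (F : ℕ → AddSubgroup J) (D : ℕ) (h0 : F 0 = ⊥)
    (hmono : ∀ i, i < D → F i ≤ F (i + 1)) (hst : ∀ i, i ≤ D → IsStable Γ (F i))
    [Finite (F D)] (r : ℕ) (a b : ℕ → ℕ)
    (hsel : ∀ i, i < D → sel Γ F i ≠ 0 ∧ sel Γ F i ≤ r ^ a i)
    (hpG : ∀ i, i < D → r ^ b i ≤ pG Γ F i) :
    (cocSub Γ (⊥ : AddSubgroup J) ⊔ F D).relIndex (cocSub Γ (F D)) ≠ 0 ∧
      (cocSub Γ (⊥ : AddSubgroup J) ⊔ F D).relIndex (cocSub Γ (F D)) *
          r ^ (∑ i ∈ Finset.range D, b i) ≤
        Nat.card ↥(F D ⊓ cocSub Γ (⊥ : AddSubgroup J)) * r ^ (∑ i ∈ Finset.range D, a i) := by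
  classical
  have h := engine_bot (Γ := Γ) F D h0 hmono hst
  set T := (cocSub Γ (⊥ : AddSubgroup J) ⊔ F D).relIndex (cocSub Γ (F D)) with hT
  set c := Nat.card ↥(F D ⊓ cocSub Γ (⊥ : AddSubgroup J)) with hc
  have hle : ∀ j, j ≤ D → F j ≤ F D := by
    intro j hj
    obtain ⟨k, rfl⟩ := Nat.exists_eq_add_of_le hj
    clear hj hsel hpG h hst
    induction k with
    | zero => exact le_rfl
    | succ k ih =>
      have h1 : F j ≤ F (j + k) := by
        -- monotone along the flag
        have : ∀ m, j + m ≤ j + (k + 1) → F j ≤ F (j + m) := by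
          intro m
          induction m with
          | zero => intro _; exact le_rfl
          | succ m ihm =>
            intro hm
            exact (ihm (Nat.le_of_succ_le hm)).trans (hmono (j + m) (Nat.lt_of_succ_le hm))
        exact this k (by omega)
      exact h1.trans (hmono (j + k) (by omega))
  -- the finite pieces have non-zero `pG`
  have hpGpos : ∀ i, i < D → pG Γ F i ≠ 0 := by
    intro i hi
    have hfin : Finite ↥(F (i + 1) ⊓ cocSub Γ (F i)) :=
      Finite.of_injective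
        (fun x : ↥(F (i + 1) ⊓ cocSub Γ (F i)) =>
          (⟨x.1, hle (i + 1) hi (x.2.1)⟩ : ↥(F D)))
        (fun x y hxy => Subtype.ext (by simpa using congrArg Subtype.val hxy))
    exact relIndex_ne_zero_of_finite _ _
  have hcpos : c ≠ 0 := by
    have hfin : Finite ↥(F D ⊓ cocSub Γ (⊥ : AddSubgroup J)) :=
      Finite.of_injective
        (fun x : ↥(F D ⊓ cocSub Γ (⊥ : AddSubgroup J)) => (⟨x.1, x.2.1⟩ : ↥(F D)))
        (fun x y hxy => Subtype.ext (by simpa using congrArg Subtype.val hxy))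
    exact Nat.card_pos.ne'
  have hSpos : ∏ i ∈ Finset.range D, sel Γ F i ≠ 0 :=
    Finset.prod_ne_zero_iff.2 (fun i hi => (hsel i (Finset.mem_range.1 hi)).1)
  have hPpos : ∏ i ∈ Finset.range D, pG Γ F i ≠ 0 :=
    Finset.prod_ne_zero_iff.2 (fun i hi => hpGpos i (Finset.mem_range.1 hi))
  have hTpos : T ≠ 0 := by
    intro hT0
    rw [hT0, zero_mul] at h
    exact (mul_ne_zero hSpos hcpos) h
  refine ⟨hTpos, ?_⟩
  have hS : ∏ i ∈ Finset.range D, sel Γ F i ≤ r ^ (∑ i ∈ Finset.range D, a i) := by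
    rw [← Finset.prod_pow_eq_pow_sum]
    exact Finset.prod_le_prod' (fun i hi => (hsel i (Finset.mem_range.1 hi)).2)
  have hP : r ^ (∑ i ∈ Finset.range D, b i) ≤ ∏ i ∈ Finset.range D, pG Γ F i := by
    rw [← Finset.prod_pow_eq_pow_sum]
    exact Finset.prod_le_prod' (fun i hi => hpG i (Finset.mem_range.1 hi))
  calc T * r ^ (∑ i ∈ Finset.range D, b i)
      ≤ T * ∏ i ∈ Finset.range D, pG Γ F i := Nat.mul_le_mul_left _ hP
    _ = (∏ i ∈ Finset.range D, sel Γ F i) * c := h.symm
    _ ≤ r ^ (∑ i ∈ Finset.range D, a i) * c := Nat.mul_le_mul_right _ hS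
    _ = c * r ^ (∑ i ∈ Finset.range D, a i) := Nat.mul_comm _ _

end Bounds

end Fermat.Agent.S15.H842.Engine

end
-- ===== PACK-END S15/H842/Engine.lean

-- ===== PACK-BEGIN S15/H808/RtfAlg.lean
section


/-!
# S15 / DESC skeleton leaf RTF, the algebra (helper808)

A finitely generated abelian group has bounded torsion:
`exists_exponent_of_fg : AddGroup.FG A → ∃ e > 0, ∀ t torsion, e • t = 0`.
Mathlib only.
-/

set_option autoImplicit false

namespace Fermat.Agent.S15.H808

/-- The torsion of a finitely generated abelian group has a finite exponent. -/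
theorem exists_exponent_of_fg (A : Type*) [AddCommGroup A] (h : AddGroup.FG A) :
    ∃ e : ℕ, 0 < e ∧ ∀ t : A, (∃ m : ℕ, 0 < m ∧ m • t = 0) → e • t = 0 := by
  have : Module.Finite ℤ A := Module.Finite.iff_addGroup_fg.mpr h
  have : IsNoetherian ℤ A := isNoetherian_of_isNoetherianRing_of_finite ℤ A
  let T : Submodule ℤ A := Submodule.torsion ℤ A
  have : Module.Finite ℤ T := Module.Finite.of_fg (IsNoetherian.noetherian T)
  have htors : Module.IsTorsion ℤ T := Submodule.torsion_isTorsion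
  have : Finite T := Module.finite_of_fg_torsion T htors
  refine ⟨Nat.card T, Nat.card_pos, ?_⟩
  rintro t ⟨m, hm0, hm⟩
  have ht : t ∈ T := by
    rw [Submodule.mem_torsion_iff]
    refine ⟨⟨(m : ℤ), ?_⟩, ?_⟩
    · rw [mem_nonZeroDivisors_iff_ne_zero]
      exact_mod_cast hm0.ne'
    · show (m : ℤ) • t = 0
      rw [natCast_zsmul]
      exact hm
  have h1 : Nat.card T • (⟨t, ht⟩ : T) = 0 := card_nsmul_eq_zero'
  have h2 := congrArg (Subtype.val) h1
  simpa using h2

end Fermat.Agent.S15.H808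

end
-- ===== PACK-END S15/H808/RtfAlg.lean

-- ===== PACK-BEGIN S17/H497/DiscBound.lean
section


/-!
# S17 / W-HM (helper497), part A: a crude discriminant bound for Galois number fields

Let `L/ℚ` be a finite Galois extension of degree `n`, `𝔇` its different.

* `dvd_finrank_of_different_le_span` : if `𝔇 ⊆ m 𝓞_L` then `m ∣ n` (trace of `1/m`).
* `smul_mem_differentIdeal` : `𝔇` is stable under `Gal(L/ℚ)`.
* `different_le_span_pow_of_le_pow` : if `P ^ (e k) ∣ 𝔇` for ONE prime `P ∣ p` then `p ^ k ∣ 𝔇`.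
* `natAbs_discr_dvd_of_unramified_outside` : if every prime `q ∉ S` has ramification index `1`
  then `|disc L| ∣ (∏_{p ∈ S prime} p ^ n) ^ n`.
-/

set_option autoImplicit false
set_option linter.style.haveILetI false

open NumberField
open scoped Pointwise

namespace Fermat.Agent.S17.H497

section Different

variable (L : Type*) [Field L] [NumberField L]

/-- Elementwise description of the different: `x ∈ 𝔇` iff `x y ∈ 𝓞_L` for every `y` in the
trace dual of `𝓞_L`. -/
theorem mem_differentIdeal_iff (x : 𝓞 L) :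
    x ∈ differentIdeal ℤ (𝓞 L) ↔
      ∀ y : L, (∀ z : 𝓞 L, Algebra.trace ℚ L (y * z) ∈ (algebraMap ℤ ℚ).range) →
        (x : L) * y ∈ (algebraMap (𝓞 L) L).range := by
  have h1 : x ∈ differentIdeal ℤ (𝓞 L) ↔ (algebraMap (𝓞 L) L x) ∈
      ((differentIdeal ℤ (𝓞 L) : Ideal (𝓞 L)) : FractionalIdeal (nonZeroDivisors (𝓞 L)) L) := by
    rw [FractionalIdeal.mem_coeIdeal]
    constructor
    · intro h
      exact ⟨x, h, rfl⟩
    · rintro ⟨x', hx', h⟩
      rwa [← FaithfulSMul.algebraMap_injective (𝓞 L) L h]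
  have hone : (1 : FractionalIdeal (nonZeroDivisors (𝓞 L)) L) ≠ 0 := one_ne_zero
  rw [h1, coeIdeal_differentIdeal ℤ ℚ L (𝓞 L),
    FractionalIdeal.mem_inv_iff (FractionalIdeal.dual_ne_zero ℤ ℚ hone)]
  constructor
  · intro h y hy
    have hy' : y ∈ FractionalIdeal.dual ℤ ℚ (1 : FractionalIdeal (nonZeroDivisors (𝓞 L)) L) := by
      rw [FractionalIdeal.mem_dual hone]
      intro a ha
      obtain ⟨z, rfl⟩ := (FractionalIdeal.mem_one_iff _).1 ha
      exact hy z
    obtain ⟨w, hw⟩ := (FractionalIdeal.mem_one_iff _).1 (h y hy')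
    exact ⟨w, hw⟩
  · intro h y hy
    rw [FractionalIdeal.mem_dual hone] at hy
    obtain ⟨w, hw⟩ := h y (fun z => hy _ ((FractionalIdeal.mem_one_iff _).2 ⟨z, rfl⟩))
    exact (FractionalIdeal.mem_one_iff _).2 ⟨w, hw⟩

/-- If the different is contained in `m 𝓞_L` then `m` divides the degree. -/
theorem dvd_finrank_of_different_le_span (m : ℕ) (hm : m ≠ 0)
    (h : differentIdeal ℤ (𝓞 L) ≤ Ideal.span {(m : 𝓞 L)}) : m ∣ Module.finrank ℚ L := by
  have hm' : (m : 𝓞 L) ≠ 0 := Nat.cast_ne_zero.2 hm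
  have hmL : (m : L) ≠ 0 := Nat.cast_ne_zero.2 hm
  have hI : Ideal.span {(m : 𝓞 L)} ≠ ⊥ := by
    rw [Ne, Ideal.span_singleton_eq_bot]
    exact hm'
  have hI' : ((Ideal.span {(m : 𝓞 L)} : Ideal (𝓞 L)) :
      FractionalIdeal (nonZeroDivisors (𝓞 L)) L) ≠ 0 := by
    rwa [Ne, FractionalIdeal.coeIdeal_eq_zero]
  rw [differentialIdeal_le_iff (K := ℚ) (L := L) hI] at h
  have hmem : ((m : L)⁻¹) ∈ ((Ideal.span {(m : 𝓞 L)} : Ideal (𝓞 L)) :
      FractionalIdeal (nonZeroDivisors (𝓞 L)) L)⁻¹ := by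
    rw [FractionalIdeal.mem_inv_iff hI']
    intro y hy
    obtain ⟨y', hy', rfl⟩ := (FractionalIdeal.mem_coeIdeal _).1 hy
    obtain ⟨c, rfl⟩ := Ideal.mem_span_singleton'.1 hy'
    refine (FractionalIdeal.mem_one_iff _).2 ⟨c, ?_⟩
    rw [map_mul, map_natCast]
    field_simp
  have htr : Algebra.trace ℚ L ((m : L)⁻¹) ∈ (1 : Submodule ℤ ℚ) := by
    apply h
    exact ⟨_, hmem, rfl⟩
  obtain ⟨c, hc⟩ := Submodule.mem_one.1 htr
  have h2 : Algebra.trace ℚ L ((m : L)⁻¹) = (Module.finrank ℚ L : ℚ) * (m : ℚ)⁻¹ := by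
    have : ((m : L)⁻¹) = algebraMap ℚ L ((m : ℚ)⁻¹) := by
      rw [map_inv₀, map_natCast]
    rw [this, Algebra.trace_algebraMap, nsmul_eq_mul]
  rw [h2] at hc
  have hmQ : (m : ℚ) ≠ 0 := Nat.cast_ne_zero.2 hm
  have h3 : ((Module.finrank ℚ L : ℤ) : ℚ) = ((m : ℤ) * c : ℤ) := by
    push_cast
    have : (algebraMap ℤ ℚ) c = (c : ℚ) := rfl
    rw [this] at hc
    field_simp at hc
    linarith
  have h4 : (Module.finrank ℚ L : ℤ) = (m : ℤ) * c := by exact_mod_cast h3
  exact Int.natCast_dvd_natCast.1 ⟨c, h4⟩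

/-- The different is stable under the Galois group. -/
theorem smul_mem_differentIdeal (σ : L ≃ₐ[ℚ] L) {x : 𝓞 L}
    (hx : x ∈ differentIdeal ℤ (𝓞 L)) : σ • x ∈ differentIdeal ℤ (𝓞 L) := by
  rw [mem_differentIdeal_iff] at hx ⊢
  intro y hy
  have hy' : ∀ z : 𝓞 L, Algebra.trace ℚ L (σ.symm y * z) ∈ (algebraMap ℤ ℚ).range := by
    intro z
    have h1 : σ.symm y * (z : L) = σ.symm (y * ((σ • z : 𝓞 L) : L)) := by
      rw [map_mul]
      congr 1
      exact (σ.symm_apply_apply (z : L)).symm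
    rw [h1, Algebra.trace_eq_of_algEquiv]
    exact hy (σ • z)
  obtain ⟨w, hw⟩ := hx (σ.symm y) hy'
  refine ⟨σ • w, ?_⟩
  have h2 : ((σ • w : 𝓞 L) : L) = σ ((w : 𝓞 L) : L) := rfl
  have h3 : ((σ • x : 𝓞 L) : L) = σ ((x : 𝓞 L) : L) := rfl
  show ((σ • w : 𝓞 L) : L) = ((σ • x : 𝓞 L) : L) * y
  rw [h2, h3]
  have hw' : ((w : 𝓞 L) : L) = (x : L) * σ.symm y := hw
  rw [hw', map_mul, σ.apply_symm_apply]

/-- If the different is contained in an ideal `I`, it is contained in all its conjugates. -/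
theorem differentIdeal_le_smul (σ : L ≃ₐ[ℚ] L) {I : Ideal (𝓞 L)}
    (h : differentIdeal ℤ (𝓞 L) ≤ I) : differentIdeal ℤ (𝓞 L) ≤ σ • I := by
  intro x hx
  have h1 : σ⁻¹ • x ∈ I := h (smul_mem_differentIdeal L σ⁻¹ hx)
  have h2 : σ • (σ⁻¹ • x) ∈ σ • I := Ideal.smul_mem_pointwise_smul_iff.2 h1
  rwa [smul_inv_smul] at h2

section Galois

variable [IsGalois ℚ L]

omit [IsGalois ℚ L] in
theorem smul_ideal_pow (σ : L ≃ₐ[ℚ] L) (I : Ideal (𝓞 L)) (n : ℕ) :
    σ • (I ^ n) = (σ • I) ^ n := by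
  rw [Ideal.pointwise_smul_def, Ideal.pointwise_smul_def, Ideal.map_pow]

/-- Key lemma: if `P ^ (e k)` divides the different for ONE prime `P` over `p` (`e` the
ramification index of `p`), then `p ^ k` divides the different. -/
theorem different_le_span_pow_of_le_pow {p : ℕ} (hp : p.Prime) (P : Ideal (𝓞 L)) [P.IsPrime]
    [P.LiesOver (Ideal.span {(p : ℤ)})] (k : ℕ)
    (h : differentIdeal ℤ (𝓞 L) ≤
      P ^ ((Ideal.span {(p : ℤ)}).ramificationIdxIn (𝓞 L) * k)) :
    differentIdeal ℤ (𝓞 L) ≤ Ideal.span {((p ^ k : ℕ) : 𝓞 L)} := by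
  classical
  have hgal : IsGaloisGroup (L ≃ₐ[ℚ] L) ℤ (𝓞 L) :=
    IsGaloisGroup.of_isFractionRing (L ≃ₐ[ℚ] L) ℤ (𝓞 L) ℚ L
  have hmax : (Ideal.span {(p : ℤ)}).IsMaximal :=
    PrincipalIdealRing.isMaximal_of_irreducible (Nat.prime_iff_prime_int.mp hp).irreducible
  have hp0 : Ideal.span {(p : ℤ)} ≠ 0 := by
    rw [Ne, Ideal.zero_eq_bot, Ideal.span_singleton_eq_bot]
    exact_mod_cast hp.ne_zero
  set e := (Ideal.span {(p : ℤ)}).ramificationIdxIn (𝓞 L) with he
  have hfac := Ideal.map_algebraMap_eq_finsetProd_pow (R := 𝓞 L) (S := ℤ) hp0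
  have hmap : Ideal.map (algebraMap ℤ (𝓞 L)) (Ideal.span {(p : ℤ)}) =
      Ideal.span {(p : 𝓞 L)} := by
    rw [Ideal.map_span, Set.image_singleton]
    simp
  have hQ : ∀ Q ∈ ((Ideal.span {(p : ℤ)}).primesOver (𝓞 L)).toFinset,
      Q.IsPrime ∧ Q.LiesOver (Ideal.span {(p : ℤ)}) := by
    intro Q hQ
    rw [Set.mem_toFinset] at hQ
    exact hQ
  have hpow : Ideal.span {((p ^ k : ℕ) : 𝓞 L)} =
      ∏ Q ∈ ((Ideal.span {(p : ℤ)}).primesOver (𝓞 L)).toFinset, Q ^ (e * k) := by
    have h1 : Ideal.span {((p ^ k : ℕ) : 𝓞 L)} = Ideal.span {(p : 𝓞 L)} ^ k := by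
      rw [Ideal.span_singleton_pow]
      push_cast
      rfl
    rw [h1, ← hmap, hfac, ← Finset.prod_pow]
    refine Finset.prod_congr rfl fun Q hQ' => ?_
    obtain ⟨hQ1, hQ2⟩ := hQ Q hQ'
    rw [← pow_mul, he, Ideal.ramificationIdxIn_eq_ramificationIdx (Ideal.span {(p : ℤ)}) Q
      (L ≃ₐ[ℚ] L)]
  rw [hpow, ← IsDedekindDomain.inf_pow_eq_prod_of_prime _ (fun Q => Q) (fun _ => e * k)]
  · refine Finset.le_inf fun Q hQ' => ?_
    obtain ⟨hQ1, hQ2⟩ := hQ Q hQ'
    obtain ⟨σ, hσ⟩ := Ideal.exists_smul_eq_of_isGaloisGroup (Ideal.span {(p : ℤ)}) P Q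
      (L ≃ₐ[ℚ] L)
    have := differentIdeal_le_smul L σ h
    rwa [smul_ideal_pow, hσ] at this
  · intro Q hQ'
    obtain ⟨hQ1, hQ2⟩ := hQ Q hQ'
    exact Ideal.prime_of_isPrime
      (Ideal.ne_bot_of_liesOver_of_ne_bot (p := Ideal.span {(p : ℤ)}) hp0 Q) hQ1
  · intro Q _ Q' _ hne
    exact hne

/-- A prime number `p` and the degree `n ≥ 1`: `p ^ n` does not divide `n`. -/
theorem not_prime_pow_dvd_self {p n : ℕ} (hp : p.Prime) (hn : 0 < n) : ¬ p ^ n ∣ n := by
  intro h
  have h1 : p ^ n ≤ n := Nat.le_of_dvd hn h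
  have h2 : n < p ^ n := Nat.lt_pow_self hp.one_lt
  omega

/-- **Divisibility bound for the different.**  If every prime `q ∉ S` has ramification index `1`
in the Galois number field `L` of degree `n`, then `𝔇 ∣ (∏_{p ∈ S prime} p ^ n)`. -/
theorem differentIdeal_dvd_span_of_unramified_outside (S : Finset ℕ)
    (hur : ∀ q : ℕ, q.Prime → q ∉ S →
      (Ideal.span {(q : ℤ)}).ramificationIdxIn (𝓞 L) = 1) :
    differentIdeal ℤ (𝓞 L) ∣
      Ideal.span {((∏ p ∈ S.filter Nat.Prime, p ^ Module.finrank ℚ L : ℕ) : 𝓞 L)} := by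
  classical
  have hgal : IsGaloisGroup (L ≃ₐ[ℚ] L) ℤ (𝓞 L) :=
    IsGaloisGroup.of_isFractionRing (L ≃ₐ[ℚ] L) ℤ (𝓞 L) ℚ L
  set n := Module.finrank ℚ L with hn
  have hn0 : 0 < n := Module.finrank_pos
  have hD0 : differentIdeal ℤ (𝓞 L) ≠ 0 := differentIdeal_ne_bot
  rw [UniqueFactorizationMonoid.dvd_iff_emultiplicity_le hD0]
  intro P hP
  rw [emultiplicity_le_emultiplicity_iff]
  intro m hm
  rcases Nat.eq_zero_or_pos m with rfl | hmpos
  · rw [pow_zero]; exact one_dvd _
  have hPprime : P.IsPrime := Ideal.isPrime_of_prime hP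
  have hPne : P ≠ ⊥ := hP.ne_zero
  haveI : NeZero P := ⟨hPne⟩
  have hPD : P ∣ differentIdeal ℤ (𝓞 L) := (dvd_pow_self P hmpos.ne').trans hm
  -- the prime number below `P`
  set p := Ideal.absNorm (Ideal.under ℤ P) with hpdef
  have hp : p.Prime := Nat.absNorm_under_prime P
  haveI hlies : P.LiesOver (Ideal.span {(p : ℤ)}) := Int.liesOver_span_absNorm P
  have hmax : (Ideal.span {(p : ℤ)}).IsMaximal :=
    PrincipalIdealRing.isMaximal_of_irreducible (Nat.prime_iff_prime_int.mp hp).irreducible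
  have he : (Ideal.span {(p : ℤ)}).ramificationIdxIn (𝓞 L) = P.ramificationIdx ℤ :=
    Ideal.ramificationIdxIn_eq_ramificationIdx (Ideal.span {(p : ℤ)}) P (L ≃ₐ[ℚ] L)
  -- `p ∈ S`
  have hpS : p ∈ S := by
    by_contra hpS
    have h1 := hur p hp hpS
    rw [he] at h1
    have h2 : Algebra.IsUnramifiedAt ℤ P := Ideal.ramificationIdx_eq_one_iff.1 h1
    exact (dvd_differentIdeal_iff.1 hPD) h2
  -- `m < e n`
  have hlt : m < (Ideal.span {(p : ℤ)}).ramificationIdxIn (𝓞 L) * n := by
    by_contra hge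
    rw [not_lt] at hge
    have h1 : differentIdeal ℤ (𝓞 L) ≤
        P ^ ((Ideal.span {(p : ℤ)}).ramificationIdxIn (𝓞 L) * n) :=
      Ideal.dvd_iff_le.1 ((pow_dvd_pow P hge).trans hm)
    have h2 := different_le_span_pow_of_le_pow L hp P n h1
    have h3 := dvd_finrank_of_different_le_span L (p ^ n) (pow_ne_zero _ hp.ne_zero) h2
    exact not_prime_pow_dvd_self hp hn0 h3
  -- `P ^ m ∣ P ^ (e n) ∣ (p ^ n) ∣ (N)`
  have h4 : P ^ (P.ramificationIdx ℤ * n) ∣ Ideal.span {((p ^ n : ℕ) : 𝓞 L)} := by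
    have hmap : Ideal.map (algebraMap ℤ (𝓞 L)) (Ideal.span {(p : ℤ)}) =
        Ideal.span {(p : 𝓞 L)} := by
      rw [Ideal.map_span, Set.image_singleton]
      simp
    have h5 : Ideal.span {((p ^ n : ℕ) : 𝓞 L)} = Ideal.span {(p : 𝓞 L)} ^ n := by
      rw [Ideal.span_singleton_pow]
      push_cast
      rfl
    rw [h5, pow_mul]
    refine pow_dvd_pow_of_dvd ?_ n
    rw [← hmap, Ideal.dvd_iff_le]
    have hp0 : Ideal.span {(p : ℤ)} ≠ ⊥ := by
      rw [Ne, Ideal.span_singleton_eq_bot]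
      exact_mod_cast hp.ne_zero
    have h7 := Ideal.le_pow_ramificationIdx' (p := Ideal.span {(p : ℤ)}) (P := P)
    rwa [Ideal.ramificationIdx'_eq_ramificationIdx (Ideal.span {(p : ℤ)}) P hp0] at h7
  have h6 : Ideal.span {((p ^ n : ℕ) : 𝓞 L)} ∣
      Ideal.span {((∏ p ∈ S.filter Nat.Prime, p ^ n : ℕ) : 𝓞 L)} := by
    rw [Ideal.dvd_iff_le, Ideal.span_singleton_le_span_singleton]
    have hmem : p ∈ S.filter Nat.Prime := Finset.mem_filter.2 ⟨hpS, hp⟩
    obtain ⟨c, hc⟩ := Finset.dvd_prod_of_mem (fun p => p ^ n) hmem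
    exact ⟨(c : 𝓞 L), by rw [hc]; push_cast; rfl⟩
  rw [he] at hlt
  exact ((pow_dvd_pow P hlt.le).trans h4).trans h6

/-- **Crude discriminant bound for Galois number fields.**  If every prime `q ∉ S` has
ramification index `1` in the Galois number field `L` of degree `n`, then
`|disc L| ∣ (∏_{p ∈ S prime} p ^ n) ^ n`. -/
theorem natAbs_discr_dvd_of_unramified_outside (S : Finset ℕ)
    (hur : ∀ q : ℕ, q.Prime → q ∉ S →
      (Ideal.span {(q : ℤ)}).ramificationIdxIn (𝓞 L) = 1) :
    (discr L).natAbs ∣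
      (∏ p ∈ S.filter Nat.Prime, p ^ Module.finrank ℚ L) ^ Module.finrank ℚ L := by
  have h1 := differentIdeal_dvd_span_of_unramified_outside L S hur
  have h2 := Ideal.absNorm_dvd_absNorm_of_le (Ideal.dvd_iff_le.1 h1)
  rwa [absNorm_differentIdeal L (𝓞 L), Ideal.absNorm_span_natCast,
    RingOfIntegers.rank] at h2

end Galois

end Different

end Fermat.Agent.S17.H497

end
-- ===== PACK-END S17/H497/DiscBound.lean

-- ===== PACK-BEGIN S17/H380/AbsRel.lean
section





namespace Fermat.Agent.S17.H380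

open NumberField Height Module

section Embeddings

variable {K L : Type*} [Field K] [NumberField K] [Field L] [NumberField L] [Algebra K L]

/-- The complex embeddings of `L` extending a given embedding `ψ` of `K` correspond to
`K`-algebra homomorphisms `L → ℂ`, where `ℂ` is a `K`-algebra via `ψ`. -/
noncomputable def embExtEquiv (ψ : K →+* ℂ) :
    letI := ψ.toAlgebra
    (L →ₐ[K] ℂ) ≃ {φ : L →+* ℂ // φ.comp (algebraMap K L) = ψ} :=
  letI := ψ.toAlgebra
  { toFun := fun f => ⟨f.toRingHom, by ext x; exact f.commutes x⟩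
    invFun := fun φ =>
      { (φ.1 : L →+* ℂ) with
        commutes' := fun x => congrArg (fun g : K →+* ℂ => g x) φ.2 }
    left_inv := fun f => by ext; rfl
    right_inv := fun φ => by ext; rfl }

theorem natCard_embExt (ψ : K →+* ℂ) :
    Nat.card {φ : L →+* ℂ // φ.comp (algebraMap K L) = ψ} = finrank K L := by
  let _ := ψ.toAlgebra
  rw [← Nat.card_congr (embExtEquiv (L := L) ψ)]
  exact AlgHom.natCard_of_splits K L ℂ (fun _ => IsAlgClosed.splits _)

open Classical in
theorem card_filter_embExt (ψ : K →+* ℂ) :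
    (Finset.univ.filter (fun φ : L →+* ℂ => φ.comp (algebraMap K L) = ψ)).card = finrank K L := by
  rw [← natCard_embExt (L := L) ψ, Nat.card_eq_fintype_card, Fintype.card_subtype]

/-- Products over complex embeddings of `L` of a function of the restricted embedding. -/
theorem prod_embeddings_comp {M : Type*} [CommMonoid M] (f : (K →+* ℂ) → M) :
    ∏ φ : L →+* ℂ, f (φ.comp (algebraMap K L)) = (∏ ψ : K →+* ℂ, f ψ) ^ finrank K L := by
  classical
  rw [← Finset.prod_fiberwise (s := Finset.univ) (g := fun φ : L →+* ℂ => φ.comp (algebraMap K L))]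
  rw [← Finset.prod_pow]
  refine Finset.prod_congr rfl fun ψ _ => ?_
  rw [Finset.prod_congr rfl (fun φ hφ => by rw [(Finset.mem_filter.mp hφ).2] :
      ∀ φ ∈ Finset.univ.filter (fun φ : L →+* ℂ => φ.comp (algebraMap K L) = ψ),
        f (φ.comp (algebraMap K L)) = f ψ)]
  rw [Finset.prod_const, card_filter_embExt]

/-- Products over infinite places with multiplicity are products over complex embeddings. -/
theorem prod_infinitePlace_pow_mult {M : Type*} [CommMonoid M] (g : InfinitePlace K → M) :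
    ∏ v : InfinitePlace K, g v ^ v.mult = ∏ ψ : K →+* ℂ, g (InfinitePlace.mk ψ) := by
  classical
  rw [← Finset.prod_fiberwise (s := Finset.univ) (g := fun ψ : K →+* ℂ => InfinitePlace.mk ψ)]
  refine Finset.prod_congr rfl fun v _ => ?_
  rw [Finset.prod_congr rfl (fun φ hφ => by rw [(Finset.mem_filter.mp hφ).2] :
      ∀ φ ∈ Finset.univ.filter (fun φ : K →+* ℂ => InfinitePlace.mk φ = v),
        g (InfinitePlace.mk φ) = g v)]
  rw [Finset.prod_const, InfinitePlace.card_filter_mk_eq]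

/-- **Infinite part of the degree formula**: for an extension `L/K` of number fields,
the weighted product over the infinite places of `L` of a function of the place below
is the `[L:K]`-th power of the weighted product over the infinite places of `K`. -/
theorem prod_infinitePlace_comap {M : Type*} [CommMonoid M] (g : InfinitePlace K → M) :
    ∏ w : InfinitePlace L, g (w.comap (algebraMap K L)) ^ w.mult
      = (∏ v : InfinitePlace K, g v ^ v.mult) ^ finrank K L := by
  rw [prod_infinitePlace_pow_mult (fun w : InfinitePlace L => g (w.comap (algebraMap K L))),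
    prod_infinitePlace_pow_mult g]
  simp only [InfinitePlace.comap_mk]
  exact prod_embeddings_comp (L := L) (fun ψ => g (InfinitePlace.mk ψ))

end Embeddings


section Relative

variable {K L : Type*} [Field K] [NumberField K] [Field L] [NumberField L] [Algebra K L]
variable {ι : Type*} [Finite ι]

/-- The multiplicative height of a nonzero tuple of algebraic integers: the archimedean
part divided by the absolute norm of the ideal generated by the entries. -/
theorem mulHeight_integral_eq {y : ι → 𝓞 K} (hy : y ≠ 0) :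
    mulHeight (fun i => (y i : K)) * (Ideal.span (Set.range y)).absNorm
      = ∏ v : InfinitePlace K, (⨆ i, v (y i)) ^ v.mult := by
  have hy' : (fun i => (y i : K)) ≠ 0 := by
    intro h
    apply hy
    funext i
    have := congrFun h i
    exact RingOfIntegers.coe_eq_zero_iff.mp this
  rw [NumberField.mulHeight_eq hy', mul_assoc, mul_comm (∏ᶠ v : FinitePlace K, _),
    NumberField.absNorm_mul_finprod_finitePlace_eq_one hy, mul_one]

omit [Finite ι] in
theorem absNorm_span_range_ne_zero {y : ι → 𝓞 K} (hy : y ≠ 0) :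
    ((Ideal.span (Set.range y)).absNorm : ℝ) ≠ 0 := by
  rw [Nat.cast_ne_zero, Ne, Ideal.absNorm_eq_zero_iff, Ideal.span_eq_bot]
  intro h
  apply hy
  funext i
  exact h _ ⟨i, rfl⟩

/-- **Degree formula for heights**, integral case. -/
theorem mulHeight_algebraMap_integral (y : ι → 𝓞 K) :
    mulHeight (fun i => algebraMap K L (y i : K))
      = mulHeight (fun i => (y i : K)) ^ finrank K L := by
  rcases eq_or_ne y 0 with rfl | hy
  · have h0 : (fun i : ι => algebraMap K L (((0 : ι → 𝓞 K) i : 𝓞 K) : K)) = 0 := by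
      funext i; simp
    have h1 : (fun i : ι => ((((0 : ι → 𝓞 K) i : 𝓞 K)) : K)) = 0 := by
      funext i; simp
    rw [h0, h1]; simp
  -- the tuple upstairs
  set z : ι → 𝓞 L := fun i => algebraMap (𝓞 K) (𝓞 L) (y i) with hz
  have hzy : ∀ i, ((z i : 𝓞 L) : L) = algebraMap K L (y i : K) := fun i => rfl
  have hz0 : z ≠ 0 := by
    intro h
    apply hy
    funext i
    have h1 := congrFun h i
    have h2 : algebraMap K L (y i : K) = 0 := by
      rw [← hzy i, h1]; simp
    have h3 : (y i : K) = 0 := by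
      simpa using h2
    exact RingOfIntegers.coe_eq_zero_iff.mp h3
  have hspan : Ideal.span (Set.range z)
      = (Ideal.span (Set.range y)).map (algebraMap (𝓞 K) (𝓞 L)) := by
    rw [Ideal.map_span, ← Set.range_comp]; rfl
  have hnorm : ((Ideal.span (Set.range z)).absNorm : ℝ)
      = ((Ideal.span (Set.range y)).absNorm : ℝ) ^ finrank K L := by
    rw [hspan, Ideal.absNorm_algebraMap, IsFractionRing.finrank_eq (𝓞 K) K (𝓞 L) L]
    push_cast; rfl
  have hK := mulHeight_integral_eq hy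
  have hL := mulHeight_integral_eq hz0
  have hinf : ∏ w : InfinitePlace L, (⨆ i, w (z i)) ^ w.mult
      = (∏ v : InfinitePlace K, (⨆ i, v (y i)) ^ v.mult) ^ finrank K L := by
    rw [← prod_infinitePlace_comap (L := L) (fun v : InfinitePlace K => ⨆ i, v (y i))]
    refine Finset.prod_congr rfl fun w _ => ?_
    congr 1
  have hne := absNorm_span_range_ne_zero hz0
  have key : mulHeight (fun i => ((z i : 𝓞 L) : L)) * ((Ideal.span (Set.range z)).absNorm : ℝ)
      = mulHeight (fun i => (y i : K)) ^ finrank K L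
          * ((Ideal.span (Set.range z)).absNorm : ℝ) := by
    rw [hL, hinf, ← hK, mul_pow, hnorm]
  exact mul_right_cancel₀ hne key

/-- **Degree formula for heights**: for an extension `L/K` of number fields the multiplicative
height of a tuple of elements of `K`, computed in `L`, is the `[L:K]`-th power of its height
computed in `K`. -/
theorem mulHeight_algebraMap (x : ι → K) :
    mulHeight (fun i => algebraMap K L (x i)) = mulHeight x ^ finrank K L := by
  obtain ⟨b, hb⟩ := IsLocalization.exist_integer_multiples_of_finite (nonZeroDivisors (𝓞 K)) x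
  choose y hy using hb
  have hb0 : ((b : 𝓞 K) : K) ≠ 0 := by
    have := nonZeroDivisors.coe_ne_zero b
    exact fun h => this (RingOfIntegers.coe_eq_zero_iff.mp h)
  have hyx : (fun i => (y i : K)) = ((b : 𝓞 K) : K) • x := by
    funext i
    have := hy i
    simp only [Pi.smul_apply, smul_eq_mul]
    rw [Algebra.smul_def] at this
    exact this
  have hbL : algebraMap K L ((b : 𝓞 K) : K) ≠ 0 := by simp [hb0]
  have hyxL : (fun i => algebraMap K L (y i : K))
      = (algebraMap K L ((b : 𝓞 K) : K)) • (fun i => algebraMap K L (x i)) := by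
    funext i
    have := congrFun hyx i
    simp only [Pi.smul_apply, smul_eq_mul] at this ⊢
    rw [this, map_mul]
  have := mulHeight_algebraMap_integral (L := L) y
  rw [hyx, hyxL, mulHeight_smul_eq_mulHeight _ hb0, mulHeight_smul_eq_mulHeight _ hbL] at this
  exact this

/-- Logarithmic version of the degree formula. -/
theorem logHeight_algebraMap (x : ι → K) :
    logHeight (fun i => algebraMap K L (x i)) = finrank K L * logHeight x := by
  rw [logHeight_eq_log_mulHeight, mulHeight_algebraMap, Real.log_pow, logHeight_eq_log_mulHeight]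

end Relative

end Fermat.Agent.S17.H380

end
-- ===== PACK-END S17/H380/AbsRel.lean

-- ===== PACK-BEGIN S17/H680/GaloisDescent.lean
section


/-!
# S17 / BASE-2 (helper680): Galois descent for semilinear actions (abstract part)

`L / k` a normal algebraic field extension, `G = Gal(L/k)`, `M` an `L`-vector space with a
semilinear action of `G`.  If `v ∈ M` is fixed by `Gal(L/K)` for a finite subextension `K / k`,
then `v` lies in the `L`-span of the `G`-fixed vectors of any `G`-stable subspace containing it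
(`mem_span_fixed`).  If moreover `L / k` is Galois, `k`-linearly independent fixed vectors are
`L`-linearly independent (`linearIndependent_of_fixed`).
-/

set_option autoImplicit false

noncomputable section

namespace Fermat.Agent.S17.H680

section Extend

variable {k L : Type*} [Field k] [Field L] [Algebra k L] [Normal k L]

/-- Extend an embedding of an intermediate field to an automorphism of `L`. -/
def extendEmb (K : IntermediateField k L) (τ : K →ₐ[k] L) : L ≃ₐ[k] L :=
  AlgEquiv.ofBijective (τ.liftNormal L) (Algebra.IsAlgebraic.algHom_bijective _)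

theorem extendEmb_apply (K : IntermediateField k L) (τ : K →ₐ[k] L) (a : K) :
    extendEmb K τ (a : L) = τ a := by
  have h := τ.liftNormal_commutes L a
  simpa [extendEmb] using h

end Extend

section Descent

variable {k L : Type*} [Field k] [Field L] [Algebra k L] [Normal k L]
variable {M : Type*} [AddCommGroup M] [Module L M] [DistribMulAction (L ≃ₐ[k] L) M]

/-- The trace of `v` from a finite level `K`. -/
def traceAt (K : IntermediateField k L) [FiniteDimensional k K] (v : M) : M :=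
  ∑ τ : K →ₐ[k] L, extendEmb K τ • v

variable (hsemi : ∀ (σ : L ≃ₐ[k] L) (a : L) (m : M), σ • (a • m) = σ a • σ • m)

omit [Normal k L] [Module L M] in
theorem smul_eq_of_agree (K : IntermediateField k L) {v : M}
    (hv : ∀ σ : L ≃ₐ[k] L, (∀ a ∈ K, σ a = a) → σ • v = v) {σ τ : L ≃ₐ[k] L}
    (h : ∀ a ∈ K, σ a = τ a) : σ • v = τ • v := by
  have h1 : (τ⁻¹ * σ) • v = v := by
    apply hv
    intro a ha
    rw [AlgEquiv.mul_apply, h a ha]
    exact τ.symm_apply_apply a
  calc σ • v = (τ * (τ⁻¹ * σ)) • v := by rw [mul_inv_cancel_left]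
    _ = τ • v := by rw [mul_smul, h1]

omit [Normal k L] in
include hsemi in
theorem fixed_smul_of_mem (K : IntermediateField k L) {v : M}
    (hv : ∀ σ : L ≃ₐ[k] L, (∀ a ∈ K, σ a = a) → σ • v = v) {a : L} (ha : a ∈ K)
    (σ : L ≃ₐ[k] L) (hσ : ∀ b ∈ K, σ b = b) : σ • (a • v) = a • v := by
  rw [hsemi, hσ a ha, hv σ hσ]

include hsemi in
/-- The trace of `a • v` is fixed by the Galois group. -/
theorem smul_traceAt (K : IntermediateField k L) [FiniteDimensional k K] {v : M}
    (hv : ∀ σ : L ≃ₐ[k] L, (∀ a ∈ K, σ a = a) → σ • v = v) {a : L} (ha : a ∈ K)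
    (ρ : L ≃ₐ[k] L) : ρ • traceAt K (a • v) = traceAt K (a • v) := by
  classical
  unfold traceAt
  rw [Finset.smul_sum]
  -- reindex by `τ ↦ ρ ∘ τ`
  let e : (K →ₐ[k] L) ≃ (K →ₐ[k] L) :=
    { toFun := fun τ => (ρ : L →ₐ[k] L).comp τ
      invFun := fun τ => ((ρ⁻¹ : L ≃ₐ[k] L) : L →ₐ[k] L).comp τ
      left_inv := fun τ => by
        ext x
        show (ρ⁻¹ : L ≃ₐ[k] L) (ρ (τ x)) = τ x
        exact ρ.symm_apply_apply _
      right_inv := fun τ => by
        ext x
        show ρ ((ρ⁻¹ : L ≃ₐ[k] L) (τ x)) = τ x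
        exact ρ.apply_symm_apply _ }
  rw [← Equiv.sum_comp e (fun τ => extendEmb K τ • (a • v))]
  refine Finset.sum_congr rfl fun τ _ => ?_
  rw [← mul_smul]
  refine smul_eq_of_agree K (fixed_smul_of_mem hsemi K hv ha) ?_
  intro b hb
  rw [AlgEquiv.mul_apply, extendEmb_apply K τ ⟨b, hb⟩, extendEmb_apply K (e τ) ⟨b, hb⟩]
  rfl

include hsemi in
/-- **Galois descent, spanning**: a vector fixed by an open subgroup lies in the span of the
fixed vectors of any stable subspace containing it. -/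
theorem mem_span_fixed (V : Submodule L M) (hV : ∀ (σ : L ≃ₐ[k] L), ∀ m ∈ V, σ • m ∈ V)
    {v : M} (hvV : v ∈ V) (K : IntermediateField k L) [FiniteDimensional k K]
    (hv : ∀ σ : L ≃ₐ[k] L, (∀ a ∈ K, σ a = a) → σ • v = v) :
    v ∈ Submodule.span L {w : M | w ∈ V ∧ ∀ σ : L ≃ₐ[k] L, σ • w = w} := by
  classical
  by_contra hnot
  obtain ⟨φ, hφv, hφ⟩ := Submodule.exists_le_ker_of_notMem hnot
  -- all traces are killed by `φ`
  have hT : ∀ a : K, φ (traceAt K ((a : L) • v)) = 0 := by
    intro a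
    have hmem : traceAt K ((a : L) • v) ∈
        Submodule.span L {w : M | w ∈ V ∧ ∀ σ : L ≃ₐ[k] L, σ • w = w} := by
      refine Submodule.subset_span ⟨?_, fun σ => smul_traceAt hsemi K hv a.2 σ⟩
      unfold traceAt
      exact Submodule.sum_mem _ fun τ _ => hV _ _ (V.smul_mem _ hvV)
    exact hφ hmem
  -- a linear relation between the embeddings
  have hrel : ∑ τ : K →ₐ[k] L, φ (extendEmb K τ • v) • (τ.toLinearMap : K →ₗ[k] L) = 0 := by
    ext a
    have := hT a
    unfold traceAt at this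
    rw [map_sum] at this
    rw [LinearMap.sum_apply, LinearMap.zero_apply, ← this]
    refine Finset.sum_congr rfl fun τ _ => ?_
    have h1 : extendEmb K τ • ((a : L) • v) = τ a • (extendEmb K τ • v) := by
      rw [hsemi, extendEmb_apply]
    rw [h1, LinearMap.map_smul, LinearMap.smul_apply, AlgHom.toLinearMap_apply, smul_eq_mul,
      smul_eq_mul, mul_comm]
  have hli := linearIndependent_algHom_toLinearMap k K L
  have h0 := (Fintype.linearIndependent_iff.mp hli) (fun τ => φ (extendEmb K τ • v)) hrel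
    (K.val)
  apply hφv
  have h1 : extendEmb K K.val • v = v := by
    apply hv
    intro a ha
    exact extendEmb_apply K K.val ⟨a, ha⟩
  rw [← h1]
  exact h0

end Descent

section Independence

variable {k L : Type*} [Field k] [Field L] [Algebra k L] [IsGalois k L]
variable {M : Type*} [AddCommGroup M] [Module L M] [Module k M] [IsScalarTower k L M]
variable [DistribMulAction (L ≃ₐ[k] L) M]
variable (hsemi : ∀ (σ : L ≃ₐ[k] L) (a : L) (m : M), σ • (a • m) = σ a • σ • m)

include hsemi in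
/-- **Galois descent, independence**: `k`-linearly independent fixed vectors are `L`-linearly
independent. -/
theorem linearIndependent_of_fixed {ι : Type*} (w : ι → M)
    (hw : ∀ (σ : L ≃ₐ[k] L) (i : ι), σ • w i = w i) (hli : LinearIndependent k w) :
    LinearIndependent L w := by
  classical
  rw [linearIndependent_iff']
  -- strong induction on the size of the support
  have key : ∀ n : ℕ, ∀ s : Finset ι, s.card = n → ∀ c : ι → L,
      ∑ i ∈ s, c i • w i = 0 → ∀ i ∈ s, c i = 0 := by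
    intro n
    induction n using Nat.strong_induction_on with
    | _ n ih =>
      intro s hs c hc i₀ hi₀
      by_contra hne
      -- normalise the coefficient at `i₀`
      set c' : ι → L := fun i => (c i₀)⁻¹ * c i with hc'
      have hc'0 : c' i₀ = 1 := inv_mul_cancel₀ hne
      have hsum' : ∑ i ∈ s, c' i • w i = 0 := by
        have : ∑ i ∈ s, c' i • w i = (c i₀)⁻¹ • ∑ i ∈ s, c i • w i := by
          rw [Finset.smul_sum]
          refine Finset.sum_congr rfl fun i _ => ?_
          rw [hc', mul_smul]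
        rw [this, hc, smul_zero]
      -- all coefficients are Galois-fixed
      have hfix : ∀ σ : L ≃ₐ[k] L, ∀ i ∈ s, σ (c' i) = c' i := by
        intro σ i hi
        have h1 : ∑ j ∈ s, σ (c' j) • w j = 0 := by
          have := congrArg (fun m => σ • m) hsum'
          simp only [Finset.smul_sum, smul_zero] at this
          rw [← this]
          refine Finset.sum_congr rfl fun j _ => ?_
          rw [hsemi, hw]
        have h2 : ∑ j ∈ s.erase i₀, (σ (c' j) - c' j) • w j = 0 := by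
          have h3 : ∑ j ∈ s, (σ (c' j) - c' j) • w j = 0 := by
            simp only [sub_smul, Finset.sum_sub_distrib, h1, hsum', sub_zero]
          rw [← Finset.add_sum_erase s _ hi₀] at h3
          rw [hc'0, map_one, sub_self, zero_smul, zero_add] at h3
          exact h3
        by_cases hii : i = i₀
        · rw [hii, hc'0, map_one]
        · have hcard : (s.erase i₀).card < n := by
            rw [Finset.card_erase_of_mem hi₀, hs]
            have : 0 < s.card := Finset.card_pos.mpr ⟨i₀, hi₀⟩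
            omega
          have := ih _ hcard (s.erase i₀) rfl (fun j => σ (c' j) - c' j) h2 i
            (Finset.mem_erase.mpr ⟨hii, hi⟩)
          exact sub_eq_zero.mp this
      -- hence they come from `k`
      have hk : ∀ i ∈ s, ∃ d : k, algebraMap k L d = c' i := by
        intro i hi
        exact (InfiniteGalois.mem_range_algebraMap_iff_fixed (c' i)).mpr fun σ => hfix σ i hi
      choose! d hd using hk
      have hsumk : ∑ i ∈ s, d i • w i = 0 := by
        rw [← hsum']
        refine Finset.sum_congr rfl fun i hi => ?_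
        rw [← hd i hi, algebraMap_smul]
      have := (linearIndependent_iff'.mp hli) s d hsumk i₀ hi₀
      have h1 : c' i₀ = 0 := by rw [← hd i₀ hi₀, this, map_zero]
      rw [hc'0] at h1
      exact one_ne_zero h1
  intro s c hc i hi
  exact key s.card s rfl c hc i hi

end Independence

end Fermat.Agent.S17.H680

end
end
-- ===== PACK-END S17/H680/GaloisDescent.lean

-- ===== PACK-BEGIN S17/H50/CycleBase.lean
section


/-!
# S17 / tower H (helper50): Galois-stable cycles of points over `ℚ̄` — abstract Northcott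

A *cycle* is a multiset `S` of affine points `y : ι → ℚ̄`.  If `S` is Galois stable then all
coordinate polynomials `∏_{y ∈ S} (X - y i)` have rational coefficients.  Hence:

* `northcott_of_coeff_bound` : if a "height" `hq` on `ℚ̄` has the Northcott property on `ℚ`
  and the coefficients of the coordinate polynomials of the cycles under consideration have
  bounded `hq`, then there are only finitely many such cycles of bounded degree.

This is instantiated for the absolute height (`AbsNorthcott.lean`) and for the sum of local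
heights w.r.t. fixed absolute values of `ℚ̄` (`LocCycle.lean`).
-/

set_option autoImplicit false
set_option linter.unusedSectionVars false

open Polynomial

noncomputable section

namespace Fermat.Agent.S17.H50

/-- `ℚ̄` -/
abbrev Qb : Type := AlgebraicClosure ℚ

/-- the absolute Galois group of `ℚ` -/
abbrev GQ : Type := Qb ≃ₐ[ℚ] Qb

instance qbIsAlgebraic : Algebra.IsAlgebraic ℚ Qb := AlgebraicClosure.isAlgebraic _

theorem isGalois_Qb : IsGalois ℚ Qb := by
  have hcl : IsAlgClosure ℚ Qb := ⟨inferInstance, inferInstance⟩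
  exact IsAlgClosure.isGalois ℚ Qb

/-- Galois-fixed algebraic numbers are rational -/
theorem exists_rat_of_fixed (α : Qb) (h : ∀ σ : GQ, σ α = α) :
    ∃ q : ℚ, algebraMap ℚ Qb q = α := by
  have := isGalois_Qb
  have := (InfiniteGalois.mem_bot_iff_fixed (k := ℚ) (K := Qb) α).2 h
  exact IntermediateField.mem_bot.1 this

/-! ### the monic polynomial with prescribed roots -/

/-- the monic polynomial with the given multiset of roots -/
def rootPoly {K : Type*} [Field K] (s : Multiset K) : K[X] := (s.map fun a => X - C a).prod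

section rootPoly

variable {K : Type*} [Field K]

theorem rootPoly_zero : rootPoly (0 : Multiset K) = 1 := by simp [rootPoly]

theorem rootPoly_cons (a : K) (s : Multiset K) :
    rootPoly (a ::ₘ s) = (X - C a) * rootPoly s := by
  simp [rootPoly]

theorem rootPoly_monic (s : Multiset K) : (rootPoly s).Monic :=
  monic_multiset_prod_of_monic _ _ fun a _ => monic_X_sub_C a

theorem rootPoly_natDegree (s : Multiset K) : (rootPoly s).natDegree = s.card := by
  simp [rootPoly]

theorem rootPoly_ne_zero (s : Multiset K) : rootPoly s ≠ 0 := (rootPoly_monic s).ne_zero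

theorem rootPoly_isRoot (s : Multiset K) (a : K) (ha : a ∈ s) : (rootPoly s).IsRoot a := by
  obtain ⟨t, rfl⟩ := Multiset.exists_cons_of_mem ha
  simp [rootPoly_cons]

theorem coeff_rootPoly_cons (a : K) (s : Multiset K) (k : ℕ) :
    (rootPoly (a ::ₘ s)).coeff k
      = (if k = 0 then 0 else (rootPoly s).coeff (k - 1)) - a * (rootPoly s).coeff k := by
  rw [rootPoly_cons]
  rcases k with _ | k
  · simp [sub_mul]
  · rw [sub_mul, coeff_sub, coeff_X_mul, coeff_C_mul]
    simp

theorem coeff_rootPoly_zero (k : ℕ) :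
    (rootPoly (0 : Multiset K)).coeff k = if k = 0 then 1 else 0 := by
  rw [rootPoly_zero, coeff_one]

theorem rootPoly_map {L : Type*} [Field L] (σ : K →+* L) (s : Multiset K) :
    (rootPoly s).map σ = rootPoly (s.map σ) := by
  simp [rootPoly, Polynomial.map_multiset_prod, Multiset.map_map]

end rootPoly

/-- the coefficients of `rootPoly s` are rational if `s` is Galois stable -/
theorem exists_rat_coeff_rootPoly (s : Multiset Qb) (hs : ∀ σ : GQ, s.map σ = s) (k : ℕ) :
    ∃ q : ℚ, algebraMap ℚ Qb q = (rootPoly s).coeff k := by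
  apply exists_rat_of_fixed
  intro σ
  have h := congrArg (fun P => P.coeff k) (rootPoly_map (σ : Qb →+* Qb) s)
  simp only [coeff_map] at h
  have hs' : s.map (σ : Qb →+* Qb) = s := hs σ
  rw [hs'] at h
  exact h

/-! ### cycles -/

/-- multisets of bounded cardinality in a finite set -/
theorem finite_multiset_card_le {α : Type*} (Y : Set α) (hY : Y.Finite) (d : ℕ) :
    {S : Multiset α | S.card ≤ d ∧ ∀ y ∈ S, y ∈ Y}.Finite := by
  classical
  have hfin : ((Multiset.powerset (d • hY.toFinset.val)).toFinset : Set (Multiset α)).Finite :=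
    Finset.finite_toSet _
  refine hfin.subset ?_
  rintro S ⟨hcard, hmem⟩
  simp only [Finset.mem_coe, Multiset.mem_toFinset, Multiset.mem_powerset]
  rw [Multiset.le_iff_count]
  intro a
  rw [Multiset.count_nsmul]
  by_cases ha : a ∈ S
  · have haY : a ∈ hY.toFinset := hY.mem_toFinset.2 (hmem a ha)
    have h1 : Multiset.count a hY.toFinset.val = 1 :=
      Multiset.count_eq_one_of_mem hY.toFinset.nodup haY
    rw [h1, mul_one]
    exact (Multiset.count_le_card a S).trans hcard
  · rw [Multiset.count_eq_zero_of_notMem ha]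
    exact Nat.zero_le _

/-- the polynomial with given rational coefficients -/
def polyOf (d : ℕ) (f : Fin (d + 1) → ℚ) : Qb[X] :=
  ∑ k : Fin (d + 1), C (algebraMap ℚ Qb (f k)) * X ^ (k : ℕ)

variable {ι : Type*} [Finite ι]

/-- a cycle is Galois stable -/
def IsGStable (S : Multiset (ι → Qb)) : Prop :=
  ∀ σ : GQ, S.map (fun y i => σ (y i)) = S

theorem IsGStable.coord {S : Multiset (ι → Qb)} (hS : IsGStable S) (i : ι) (σ : GQ) :
    (S.map fun y => y i).map σ = S.map fun y => y i := by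
  conv_rhs => rw [← hS σ]
  simp [Multiset.map_map]

theorem IsGStable.add {S T : Multiset (ι → Qb)} (hS : IsGStable S) (hT : IsGStable T) :
    IsGStable (S + T) := fun σ => by
  rw [Multiset.map_add, hS σ, hT σ]

theorem isGStable_zero : IsGStable (0 : Multiset (ι → Qb)) := fun _ => rfl

/-- the roots of the nonzero polynomials of degree `≤ d` with coefficients in a finite set of
rational numbers form a finite set -/
theorem finite_roots_of_coeff_mem (T : Set ℚ) (hT : T.Finite) (d : ℕ) :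
    {a : Qb | ∃ P : Qb[X], P ≠ 0 ∧ P.natDegree ≤ d ∧
      (∀ k, ∃ q ∈ T, algebraMap ℚ Qb q = P.coeff k) ∧ P.IsRoot a}.Finite := by
  classical
  have hF : {f : Fin (d + 1) → ℚ | ∀ k, f k ∈ T}.Finite := by
    have := Set.Finite.pi (t := fun _ : Fin (d + 1) => T) (fun _ => hT)
    refine this.subset ?_
    intro f hf
    rw [Set.mem_pi]
    intro k _
    exact hf k
  have hR : (⋃ f ∈ {f : Fin (d + 1) → ℚ | ∀ k, f k ∈ T},
      {a | polyOf d f ≠ 0 ∧ (polyOf d f).IsRoot a}).Finite := by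
    refine hF.biUnion fun f _ => ?_
    by_cases h0 : polyOf d f = 0
    · simp [h0]
    · refine (Polynomial.finite_setOfPred_isRoot h0).subset ?_
      rintro a ⟨-, ha⟩
      exact ha
  refine hR.subset ?_
  rintro a ⟨P, hP0, hdeg, hcoef, hroot⟩
  choose q hqT hq using hcoef
  have hpoly : polyOf d (fun k => q k) = P := by
    have hdeg' : P.natDegree < d + 1 := by omega
    conv_rhs => rw [Polynomial.as_sum_range' P (d + 1) hdeg']
    unfold polyOf
    rw [Fin.sum_univ_eq_sum_range (fun k => C (algebraMap ℚ Qb (q k)) * X ^ k) (d + 1)]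
    refine Finset.sum_congr rfl fun k _ => ?_
    rw [hq k, ← Polynomial.C_mul_X_pow_eq_monomial]
  simp only [Set.mem_iUnion, Set.mem_ofPred_eq, exists_prop]
  refine ⟨fun k => q k, fun k => hqT k, ?_, ?_⟩
  · rw [hpoly]
    exact hP0
  · rw [hpoly]
    exact hroot

/-- **Abstract Northcott for Galois-stable cycles.**  Let `P` be a property of cycles, `hq` a
function on `ℚ̄` with the Northcott property on `ℚ`, and assume that the coefficients of all
coordinate polynomials of the cycles with property `P` have `hq ≤ M`.  Then there are only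
finitely many Galois-stable cycles of degree `≤ d` with property `P`. -/
theorem northcott_of_coeff_bound (hq : Qb → ℝ)
    (hfin : ∀ B : ℝ, {q : ℚ | hq (algebraMap ℚ Qb q) ≤ B}.Finite)
    (P : Multiset (ι → Qb) → Prop) (d : ℕ) (M : ℝ)
    (hbound : ∀ S : Multiset (ι → Qb), S.card ≤ d → IsGStable S → P S →
      ∀ (i : ι) (k : ℕ), hq ((rootPoly (S.map fun y => y i)).coeff k) ≤ M) :
    {S : Multiset (ι → Qb) | S.card ≤ d ∧ IsGStable S ∧ P S}.Finite := by
  classical
  set T : Set ℚ := {q | hq (algebraMap ℚ Qb q) ≤ M} with hTdef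
  have hT : T.Finite := hfin M
  have hR := finite_roots_of_coeff_mem T hT d
  set R : Set Qb := {a : Qb | ∃ P : Qb[X], P ≠ 0 ∧ P.natDegree ≤ d ∧
      (∀ k, ∃ q ∈ T, algebraMap ℚ Qb q = P.coeff k) ∧ P.IsRoot a} with hRdef
  set Y : Set (ι → Qb) := {y | ∀ i, y i ∈ R} with hYdef
  have hY : Y.Finite := by
    have := Set.Finite.pi (t := fun _ : ι => R) (fun _ => hR)
    refine this.subset ?_
    intro y hy
    rw [Set.mem_pi]
    intro i _
    exact hy i
  refine (finite_multiset_card_le Y hY d).subset ?_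
  rintro S ⟨hcard, hG, hP⟩
  refine ⟨hcard, fun y hy i => ?_⟩
  -- the coordinate polynomial
  set s : Multiset Qb := S.map fun y => y i with hs
  have hscard : s.card = S.card := Multiset.card_map _ _
  refine ⟨rootPoly s, rootPoly_ne_zero s, ?_, ?_, ?_⟩
  · rw [rootPoly_natDegree, hscard]
    exact hcard
  · intro k
    obtain ⟨q, hq'⟩ := exists_rat_coeff_rootPoly s (hG.coord i) k
    refine ⟨q, ?_, hq'⟩
    simp only [hTdef, Set.mem_ofPred_eq]
    rw [hq']
    exact hbound S hcard hG hP i k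
  · exact rootPoly_isRoot s (y i) (Multiset.mem_map.2 ⟨y, hy, rfl⟩)

end Fermat.Agent.S17.H50

end
end
-- ===== PACK-END S17/H50/CycleBase.lean

-- ===== PACK-BEGIN S17/H740/SegreLift.lean
section




/-!
# Segre substitution and lifting of multihomogeneous polynomials

Slots `a : α` (finitely many), slot `a` has variables `ι a`.  A polynomial in the variables
`Σ a, ι a` is *multihomogeneous of multidegree `m : α → ℕ`* if every monomial has degree `m a` in the
variables of slot `a` (`IsMultiHom`, a weighted homogeneity with weights in `α → ℕ`).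

The *Segre substitution* sends the Segre variable `Z_f`, `f : (a : α) → ι a`, to `∏ a, X ⟨a, f a⟩`.
Main result: every multihomogeneous polynomial of multidegree `(N, …, N)` is the Segre
substitution of a homogeneous polynomial of degree `N` in the Segre variables
(`exists_segre_lift`).

Mathlib-only.  Part of the heights tower of row S17 (leaf SEGRE).
-/

set_option autoImplicit false

noncomputable section

namespace Fermat.Agent.S17.H740

open MvPolynomial

section Defs

variable {k : Type*} [CommSemiring k] {α : Type*} {ι : α → Type*}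

/-- The weight (in `α → ℕ`) of the variable `⟨a, j⟩`: the indicator of its slot. -/
def slotW [DecidableEq α] : (Σ a, ι a) → (α → ℕ) := fun s => Pi.single s.1 1

/-- `p` is multihomogeneous of multidegree `m`: every monomial has degree `m a` in the variables
of slot `a`. -/
def IsMultiHom [DecidableEq α] (p : MvPolynomial (Σ a, ι a) k) (m : α → ℕ) : Prop :=
  IsWeightedHomogeneous (slotW (ι := ι)) p m

/-- The point of the "big" affine space attached to a family of tuples. -/
def sigmaPt {R : Type*} (u : (a : α) → ι a → R) : (Σ a, ι a) → R := fun s => u s.1 s.2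

variable [Fintype α]

/-- The Segre point (multiplication table) of a family of tuples. -/
def segrePt {R : Type*} [CommMonoid R] (u : (a : α) → ι a → R) : ((a : α) → ι a) → R :=
  fun f => ∏ a, u a (f a)

variable (k) in
/-- The Segre substitution `Z_f ↦ ∏ a, X ⟨a, f a⟩`. -/
def segreSubst : MvPolynomial ((a : α) → ι a) k →ₐ[k] MvPolynomial (Σ a, ι a) k :=
  aeval (fun f => ∏ a, X (⟨a, f a⟩ : Σ a, ι a))

@[simp]
theorem segreSubst_X (f : (a : α) → ι a) :
    segreSubst k (X f) = ∏ a, X (⟨a, f a⟩ : Σ a, ι a) := by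
  simp [segreSubst]

theorem aeval_sigmaPt_segreSubst {R : Type*} [CommSemiring R] [Algebra k R]
    (u : (a : α) → ι a → R) (P : MvPolynomial ((a : α) → ι a) k) :
    aeval (sigmaPt u) (segreSubst k P) = aeval (segrePt u) P := by
  have h : (aeval (sigmaPt u)).comp (segreSubst k) =
      (aeval (segrePt u) : MvPolynomial ((a : α) → ι a) k →ₐ[k] R) := by
    apply MvPolynomial.algHom_ext
    intro f
    simp [segrePt, sigmaPt]
  exact congrArg (fun φ => φ P) h

end Defs

section Weight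

variable {α : Type*} [DecidableEq α] {ι : α → Type*}

theorem weight_slotW_apply (d : (Σ a, ι a) →₀ ℕ) (a : α) :
    Finsupp.weight (slotW (ι := ι)) d a = ∑ s ∈ d.support, if s.1 = a then d s else 0 := by
  classical
  rw [Finsupp.weight_apply, Finsupp.sum, Finset.sum_apply]
  refine Finset.sum_congr rfl fun s _ => ?_
  simp only [slotW, Pi.smul_apply, smul_eq_mul, Pi.single_apply]
  split_ifs with h1 h2 h2
  · simp
  · exact absurd h1.symm h2
  · exact absurd h2.symm h1
  · simp

theorem le_weight_slotW (d : (Σ a, ι a) →₀ ℕ) (s : Σ a, ι a) :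
    d s ≤ Finsupp.weight (slotW (ι := ι)) d s.1 := by
  classical
  rw [weight_slotW_apply]
  by_cases hs : s ∈ d.support
  · calc d s = (if s.1 = s.1 then d s else 0) := by simp
      _ ≤ _ := Finset.single_le_sum (f := fun t => if t.1 = s.1 then d t else 0)
          (fun _ _ => Nat.zero_le _) hs
  · simp only [Finsupp.mem_support_iff, not_not] at hs
    simp [hs]

theorem exists_pos_of_weight_slotW_pos (d : (Σ a, ι a) →₀ ℕ) (a : α)
    (h : 0 < Finsupp.weight (slotW (ι := ι)) d a) : ∃ j : ι a, d ⟨a, j⟩ ≠ 0 := by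
  classical
  rw [weight_slotW_apply] at h
  obtain ⟨s, hs, hpos⟩ := Finset.exists_ne_zero_of_sum_ne_zero h.ne'
  by_cases hsa : s.1 = a
  · subst hsa
    refine ⟨s.2, ?_⟩
    simpa using hpos
  · simp [hsa] at hpos

end Weight

section Lift

variable {k : Type*} [CommSemiring k] {α : Type*} [Fintype α] [DecidableEq α] {ι : α → Type*}

/-- The exponent vector of the monomial `∏ a, X ⟨a, j a⟩`. -/
def transversal (j : (a : α) → ι a) : (Σ a, ι a) →₀ ℕ :=
  ∑ a, Finsupp.single (⟨a, j a⟩ : Σ a, ι a) 1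

omit [DecidableEq α] in
theorem monomial_transversal (j : (a : α) → ι a) :
    (monomial (transversal j) (1 : k)) = ∏ a, X (⟨a, j a⟩ : Σ a, ι a) := by
  classical
  unfold transversal
  rw [MvPolynomial.monomial_sum_one]
  rfl

theorem weight_transversal (j : (a : α) → ι a) :
    Finsupp.weight (slotW (ι := ι)) (transversal j) = fun _ => 1 := by
  classical
  unfold transversal
  rw [map_sum]
  funext b
  simp [Finsupp.weight_single, slotW, Finset.sum_apply, Pi.single_apply]

theorem transversal_le (d : (Σ a, ι a) →₀ ℕ) (j : (a : α) → ι a)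
    (hj : ∀ a, d ⟨a, j a⟩ ≠ 0) : transversal j ≤ d := by
  classical
  intro s
  unfold transversal
  rw [Finsupp.finsetSum_apply]
  have : ∀ a ∈ (Finset.univ : Finset α),
      (Finsupp.single (⟨a, j a⟩ : Σ a, ι a) 1) s = if a = s.1 ∧ j s.1 = s.2 then 1 else 0 := by
    intro a _
    rw [Finsupp.single_apply]
    by_cases h : (⟨a, j a⟩ : Σ a, ι a) = s
    · subst h
      simp
    · rw [if_neg h, if_neg]
      rintro ⟨rfl, h2⟩
      exact h (by cases s; simp_all)
  rw [Finset.sum_congr rfl this]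
  by_cases h2 : j s.1 = s.2
  · simp only [h2, and_true]
    rw [Finset.sum_ite_eq' Finset.univ s.1 (fun _ => 1)]
    simp only [Finset.mem_univ, if_true]
    have := hj s.1
    rw [h2] at this
    exact Nat.one_le_iff_ne_zero.mpr (by cases s; simpa using this)
  · simp [h2]

/-- Every monomial whose degree in each slot is `N` is the Segre substitution of a monomial of
degree `N`. -/
theorem exists_lift_monomial (N : ℕ) : ∀ d : (Σ a, ι a) →₀ ℕ,
    Finsupp.weight (slotW (ι := ι)) d = (fun _ => N) →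
    ∃ e : ((a : α) → ι a) →₀ ℕ, e.degree = N ∧
      segreSubst k (monomial e (1 : k)) = monomial d 1 := by
  classical
  induction N with
  | zero =>
    intro d hd
    have hd0 : d = 0 := by
      ext s
      have := le_weight_slotW d s
      rw [hd] at this
      simpa using this
    subst hd0
    exact ⟨0, by simp, by simp⟩
  | succ N ih =>
    intro d hd
    have hex : ∀ a, ∃ j : ι a, d ⟨a, j⟩ ≠ 0 := fun a =>
      exists_pos_of_weight_slotW_pos d a (by rw [hd]; exact Nat.succ_pos N)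
    choose j hj using hex
    have hle := transversal_le d j hj
    obtain ⟨d', hd'⟩ : ∃ d', d = d' + transversal j := ⟨d - transversal j, by
      rw [tsub_add_cancel_of_le hle]⟩
    have hw' : Finsupp.weight (slotW (ι := ι)) d' = fun _ => N := by
      have h1 := hd
      rw [hd', map_add, weight_transversal] at h1
      funext a
      have := congrFun h1 a
      simp only [Pi.add_apply] at this
      omega
    obtain ⟨e', he', hs'⟩ := ih d' hw'
    refine ⟨e' + Finsupp.single j 1, ?_, ?_⟩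
    · rw [map_add, he']
      simp [Finsupp.degree_single]
    · have h2 : (monomial (e' + Finsupp.single j 1) (1 : k)) = monomial e' 1 * X j := by
        rw [X, monomial_mul, mul_one]
      rw [h2, map_mul, hs', segreSubst_X, ← monomial_transversal (k := k), monomial_mul, mul_one,
        ← hd']

/-- **Segre lift.**  A multihomogeneous polynomial of multidegree `(N, …, N)` is the Segre
substitution of a homogeneous polynomial of degree `N` in the Segre variables. -/
theorem exists_segre_lift {N : ℕ} {p : MvPolynomial (Σ a, ι a) k}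
    (hp : IsMultiHom p (fun _ => N)) :
    ∃ P : MvPolynomial ((a : α) → ι a) k, P.IsHomogeneous N ∧ segreSubst k P = p := by
  classical
  have hex : ∀ d : (Σ a, ι a) →₀ ℕ, ∃ e : ((a : α) → ι a) →₀ ℕ,
      d ∈ p.support → e.degree = N ∧ segreSubst k (monomial e (1 : k)) = monomial d 1 := by
    intro d
    by_cases hd : d ∈ p.support
    · obtain ⟨e, he⟩ := exists_lift_monomial (k := k) N d (hp (by simpa using hd))
      exact ⟨e, fun _ => he⟩
    · exact ⟨0, fun h => absurd h hd⟩
  choose e he using hex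
  refine ⟨∑ d ∈ p.support, C (coeff d p) * monomial (e d) 1, ?_, ?_⟩
  · refine IsHomogeneous.sum _ _ _ fun d hd => ?_
    have : (C (coeff d p) * monomial (e d) (1 : k)) = monomial (e d) (coeff d p) := by
      rw [C_mul_monomial, mul_one]
    rw [this]
    exact isHomogeneous_monomial _ (he d hd).1
  · rw [map_sum]
    conv_rhs => rw [← support_sum_monomial_coeff p]
    refine Finset.sum_congr rfl fun d hd => ?_
    rw [map_mul, (he d hd).2]
    have hC : segreSubst (α := α) (ι := ι) k (C (coeff d p)) = C (coeff d p) := by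
      simp [segreSubst]
    rw [hC, C_mul_monomial, mul_one]

end Lift

end Fermat.Agent.S17.H740

end
end
-- ===== PACK-END S17/H740/SegreLift.lean

-- ===== PACK-BEGIN S15/H215/WpDeriv.lean
section


/-!
# S15, piece MOD-B4 (helper215): derivatives of the Weierstrass `℘`-function off the lattice

Mathlib-only.  For a period pair `L` and `x ∉ L.lattice`:

* `deriv_derivWeierstrassP_h215` : second derivative `℘₂ = 6 ℘² - g₂ / 2`;
* `deriv_deriv_derivWeierstrassP_h215` : third derivative `℘₃ = 12 ℘ ℘₁`;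
* `deriv_deriv_deriv_derivWeierstrassP_h215` : fourth derivative `℘₄ = 120 ℘³ - 18 g₂ ℘ - 12 g₃`;
* `six_mul_sumInvPow_four_h215` : `6 ∑ (l - x)⁻⁴ = 6 ℘(x)² - g₂ / 2`;
* `mul_sumInvPow_six_h215` : `120 ∑ (l - x)⁻⁶ = 120 ℘(x)³ - 18 g₂ ℘(x) - 12 g₃`;
* `isPreconnected_compl_lattice_h215`, `exists_derivWeierstrassP_ne_zero_h215`.

Method: differentiate Mathlib's relation `℘₁² = 4 ℘³ - g₂ ℘ - g₃`, cancel `℘₁` by the identity
theorem on the connected open set `ℂ \ L`, and read the lattice sums off the Taylor coefficients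
of `℘` (`PeriodPair.iteratedDeriv_weierstrassPExcept_self`).
-/

set_option autoImplicit false

namespace Fermat.Agent.S15.H215

open Filter Topology

variable (L : PeriodPair)

theorem countable_lattice_h215 : (L.lattice : Set ℂ).Countable := by
  have : Countable L.lattice := L.latticeEquivProd.toEquiv.countable_iff.mpr inferInstance
  exact Set.countable_coe_iff.mp this

theorem isPreconnected_compl_lattice_h215 : IsPreconnected ((L.lattice : Set ℂ)ᶜ) :=
  ((countable_lattice_h215 L).isConnected_compl_of_one_lt_rank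
    (by simp only [Complex.rank_real_complex, Nat.one_lt_ofNat])).isPreconnected

theorem isOpen_compl_lattice_h215 : IsOpen ((L.lattice : Set ℂ)ᶜ) :=
  L.isClosed_lattice.isOpen_compl

/-- `℘'` is not identically zero off the lattice. -/
theorem exists_derivWeierstrassP_ne_zero_h215 :
    ¬ ∀ z ∈ ((L.lattice : Set ℂ)ᶜ), L.derivWeierstrassP z = 0 := by
  intro h
  have hconst : ∃ a, ∀ x ∈ ((L.lattice : Set ℂ)ᶜ), L.weierstrassP x = a := by
    refine (isOpen_compl_lattice_h215 L).exists_is_const_of_deriv_eq_zero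
      (isPreconnected_compl_lattice_h215 L) L.differentiableOn_weierstrassP ?_
    intro x hx
    rw [L.deriv_weierstrassP]
    exact h x hx
  obtain ⟨a, ha⟩ := hconst
  have hev : L.weierstrassP =ᶠ[𝓝[≠] (0 : ℂ)] fun _ => a := by
    have h1 : ((↑L.lattice \ {(0 : ℂ)})ᶜ : Set ℂ) ∈ 𝓝 (0 : ℂ) :=
      L.compl_lattice_sdiff_singleton_mem_nhds 0
    filter_upwards [mem_nhdsWithin_of_mem_nhds h1, self_mem_nhdsWithin] with z hz hz0
    apply ha
    intro hzL
    exact hz ⟨hzL, hz0⟩
  have hord := L.order_weierstrassP 0 (zero_mem _)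
  classical
  have h2 : (-2 : WithTop ℤ) = ((-2 : ℤ) : WithTop ℤ) := by norm_num
  rw [meromorphicOrderAt_congr hev, meromorphicOrderAt_const, h2] at hord
  split_ifs at hord
  · exact WithTop.top_ne_coe hord
  · have h0 : (0 : WithTop ℤ) = ((0 : ℤ) : WithTop ℤ) := rfl
    rw [h0, WithTop.coe_eq_coe] at hord
    omega

theorem hasDerivAt_wp_h215 (z : ℂ) (hz : z ∉ L.lattice) :
    HasDerivAt L.weierstrassP (L.derivWeierstrassP z) z := by
  have h := (L.analyticOnNhd_weierstrassP z hz).differentiableAt.hasDerivAt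
  rwa [L.deriv_weierstrassP] at h

theorem hasDerivAt_derivWp_h215 (z : ℂ) (hz : z ∉ L.lattice) :
    HasDerivAt L.derivWeierstrassP (deriv L.derivWeierstrassP z) z :=
  (L.analyticOnNhd_derivWeierstrassP z hz).differentiableAt.hasDerivAt

/-- `℘'' = 6 ℘² - g₂ / 2` off the lattice. -/
theorem deriv_derivWeierstrassP_h215 (z : ℂ) (hz : z ∉ L.lattice) :
    deriv L.derivWeierstrassP z = 6 * L.weierstrassP z ^ 2 - L.g₂ / 2 := by
  have hmul : ∀ w ∈ ((L.lattice : Set ℂ)ᶜ), L.derivWeierstrassP w *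
      (deriv L.derivWeierstrassP w - (6 * L.weierstrassP w ^ 2 - L.g₂ / 2)) = 0 := by
    intro w hw
    have hev : (fun z => L.derivWeierstrassP z ^ 2) =ᶠ[𝓝 w]
        fun z => 4 * L.weierstrassP z ^ 3 - L.g₂ * L.weierstrassP z - L.g₃ := by
      filter_upwards [(isOpen_compl_lattice_h215 L).mem_nhds hw] with z hz
      exact L.derivWeierstrassP_sq z hz
    have h1 : HasDerivAt (fun z => L.derivWeierstrassP z ^ 2)
        (2 * L.derivWeierstrassP w ^ 1 * deriv L.derivWeierstrassP w) w := by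
      simpa using (hasDerivAt_derivWp_h215 L w hw).fun_pow 2
    have h2 : HasDerivAt (fun z => 4 * L.weierstrassP z ^ 3 - L.g₂ * L.weierstrassP z - L.g₃)
        (4 * (3 * L.weierstrassP w ^ 2 * L.derivWeierstrassP w) - L.g₂ * L.derivWeierstrassP w)
        w := by
      have := (((hasDerivAt_wp_h215 L w hw).fun_pow 3).const_mul 4).fun_sub
        ((hasDerivAt_wp_h215 L w hw).const_mul L.g₂)
      simpa using this.sub_const L.g₃
    have h3 := (hev.hasDerivAt_iff.mpr h2).unique h1
    linear_combination (-1 / 2 : ℂ) * h3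
  have hA1 : AnalyticOnNhd ℂ L.derivWeierstrassP ((L.lattice : Set ℂ)ᶜ) :=
    L.analyticOnNhd_derivWeierstrassP
  have hA2 : AnalyticOnNhd ℂ (fun w => deriv L.derivWeierstrassP w -
      (6 * L.weierstrassP w ^ 2 - L.g₂ / 2)) ((L.lattice : Set ℂ)ᶜ) := by
    have hd : AnalyticOnNhd ℂ (deriv L.derivWeierstrassP) ((L.lattice : Set ℂ)ᶜ) := hA1.deriv
    have hp : AnalyticOnNhd ℂ L.weierstrassP ((L.lattice : Set ℂ)ᶜ) :=
      L.analyticOnNhd_weierstrassP
    intro w hw
    have := hd w hw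
    have := hp w hw
    fun_prop
  rcases hA1.eq_zero_or_eq_zero_of_mul_eq_zero hA2 hmul (isPreconnected_compl_lattice_h215 L)
    with h | h
  · exact absurd h (exists_derivWeierstrassP_ne_zero_h215 L)
  · have := h z hz
    linear_combination this

/-- `℘''' = 12 ℘ ℘'` off the lattice. -/
theorem deriv_deriv_derivWeierstrassP_h215 (z : ℂ) (hz : z ∉ L.lattice) :
    deriv (deriv L.derivWeierstrassP) z = 12 * L.weierstrassP z * L.derivWeierstrassP z := by
  have hev : deriv L.derivWeierstrassP =ᶠ[𝓝 z] fun w => 6 * L.weierstrassP w ^ 2 - L.g₂ / 2 := by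
    filter_upwards [(isOpen_compl_lattice_h215 L).mem_nhds hz] with w hw
    exact deriv_derivWeierstrassP_h215 L w hw
  have h2 : HasDerivAt (fun w => 6 * L.weierstrassP w ^ 2 - L.g₂ / 2)
      (6 * (2 * L.weierstrassP z ^ 1 * L.derivWeierstrassP z)) z := by
    simpa using (((hasDerivAt_wp_h215 L z hz).fun_pow 2).const_mul 6).sub_const (L.g₂ / 2)
  rw [(hev.hasDerivAt_iff.mpr h2).deriv]
  ring

/-- `℘'''' = 120 ℘³ - 18 g₂ ℘ - 12 g₃` off the lattice. -/
theorem deriv_deriv_deriv_derivWeierstrassP_h215 (z : ℂ) (hz : z ∉ L.lattice) :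
    deriv (deriv (deriv L.derivWeierstrassP)) z =
      120 * L.weierstrassP z ^ 3 - 18 * L.g₂ * L.weierstrassP z - 12 * L.g₃ := by
  have hev : deriv (deriv L.derivWeierstrassP) =ᶠ[𝓝 z]
      fun w => 12 * L.weierstrassP w * L.derivWeierstrassP w := by
    filter_upwards [(isOpen_compl_lattice_h215 L).mem_nhds hz] with w hw
    exact deriv_deriv_derivWeierstrassP_h215 L w hw
  have h2 : HasDerivAt (fun w => 12 * L.weierstrassP w * L.derivWeierstrassP w)
      (12 * L.derivWeierstrassP z * L.derivWeierstrassP z +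
        12 * L.weierstrassP z * deriv L.derivWeierstrassP z) z := by
    simpa using ((hasDerivAt_wp_h215 L z hz).const_mul 12).fun_mul (hasDerivAt_derivWp_h215 L z hz)
  rw [(hev.hasDerivAt_iff.mpr h2).deriv, deriv_derivWeierstrassP_h215 L z hz]
  have h3 := L.derivWeierstrassP_sq z hz
  linear_combination 12 * h3

/-- `6 ∑ (l - x)⁻⁴ = 6 ℘(x)² - g₂ / 2`. -/
theorem six_mul_sumInvPow_four_h215 (x : ℂ) (hx : x ∉ L.lattice) :
    6 * L.sumInvPow x 4 = 6 * L.weierstrassP x ^ 2 - L.g₂ / 2 := by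
  have h := L.iteratedDeriv_weierstrassPExcept_self x (n := 2)
  rw [L.weierstrassPExcept_of_notMem x hx, if_neg (by norm_num)] at h
  have h2 : iteratedDeriv 2 L.weierstrassP x = deriv L.derivWeierstrassP x := by
    rw [iteratedDeriv_succ, iteratedDeriv_one, L.deriv_weierstrassP]
  rw [h2, deriv_derivWeierstrassP_h215 L x hx] at h
  rw [h]
  norm_num [Nat.factorial]

/-- `120 ∑ (l - x)⁻⁶ = 120 ℘(x)³ - 18 g₂ ℘(x) - 12 g₃`. -/
theorem mul_sumInvPow_six_h215 (x : ℂ) (hx : x ∉ L.lattice) :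
    120 * L.sumInvPow x 6 =
      120 * L.weierstrassP x ^ 3 - 18 * L.g₂ * L.weierstrassP x - 12 * L.g₃ := by
  have h := L.iteratedDeriv_weierstrassPExcept_self x (n := 4)
  rw [L.weierstrassPExcept_of_notMem x hx, if_neg (by norm_num)] at h
  have h2 : iteratedDeriv 4 L.weierstrassP x =
      deriv (deriv (deriv L.derivWeierstrassP)) x := by
    rw [iteratedDeriv_succ, iteratedDeriv_succ, iteratedDeriv_succ, iteratedDeriv_one,
      L.deriv_weierstrassP]
  rw [h2, deriv_deriv_deriv_derivWeierstrassP_h215 L x hx] at h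
  rw [h]
  norm_num [Nat.factorial]

end Fermat.Agent.S15.H215

end
-- ===== PACK-END S15/H215/WpDeriv.lean

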