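import Mathlib
import Mathlib.AlgebraicGeometry.EllipticCurve.Affine.Point
import Mathlib.AlgebraicGeometry.EllipticCurve.VariableChange
import Mathlib.Tactic
import Mathlib.FieldTheory.Separable
import Mathlib.Tactic.LinearCombination
import Mathlib.Tactic.FieldSimp
import Mathlib.RingTheory.LaurentSeries
import Mathlib.Algebra.Ring.GeomSum
import Mathlib.Algebra.CharZero.Defs
import Fermat.Prelude.Def_ModularCurve_ArithmeticGalois
import Fermat.Prelude.Def_FLTPrelim_Ramification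
import Mathlib.Algebra.Group.Hom.Defs
import Mathlib.Algebra.Order.AbsoluteValue.Basic
import Mathlib.Analysis.SpecialFunctions.Log.Basic
import Mathlib.Data.Real.Basic
import Mathlib.Data.Set.Finite.Basic
import Fermat.Prelude.Def_HeckeGalois_EichlerShimura

-- ===== PACK-BEGIN S52/Fam/Defs.lean
section


/-!
# S52, piece B1-data: the explicit 5-congruent family (Rubin–Silverberg) in (c₄,c₆)-form and the
torsion sections in Tate normal form.  All statements are polynomial identities (`ring`).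
Data computed by helper952 (twisted Klein form `F` with `(F,F)₄ = 0`, `C4 ∝` Hessian, `C6 ∝` Jacobian).
-/

set_option autoImplicit false
set_option linter.unusedVariables false

namespace Fermat.Agent.S52.Fam

variable {R : Type*} [CommRing R]

/-- `c₄` of the Tate normal form `y² + (1-c)xy - cy = x³ - cx²`. -/
def tc4 (c : R) : R := c^4 - 12*c^3 + 14*c^2 + 12*c + 1

/-- `c₆` of the Tate normal form. -/
def tc6 (c : R) : R := -((c^2 + 1) * (c^4 - 18*c^3 + 74*c^2 + 18*c + 1))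

/-- `Δ` of the Tate normal form. -/
def tΔ (c : R) : R := c^5 * (c^2 - 11*c - 1)

/-- homogeneous `c₄`-form: `c₄` of `y² + (Z-X)xy - XZ²y = x³ - XZ x²`. -/
def C4hom (X Z : R) : R := X^4 - 12*X^3*Z + 14*X^2*Z^2 + 12*X*Z^3 + Z^4

/-- homogeneous `c₆`-form. -/
def C6hom (X Z : R) : R := -((X^2 + Z^2) * (X^4 - 18*X^3*Z + 74*X^2*Z^2 + 18*X*Z^3 + Z^4))

/-- homogeneous `Δ`-form. -/
def Δhom (X Z : R) : R := X^5 * Z^5 * (X^2 - 11*X*Z - Z^2)

/-- coefficient of `τ^0` in `q5`. -/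
def q5_0 (c : R) : R := 1

/-- coefficient of `τ^1` in `q5`. -/
def q5_1 (c : R) : R := 7 + 66*c - 5*c^2

/-- coefficient of `τ^2` in `q5`. -/
def q5_2 (c : R) : R := -38 - 264*c + 1772*c^2 - 264*c^3 + 10*c^4

/-- coefficient of `τ^3` in `q5`. -/
def q5_3 (c : R) : R := 62 + 396*c - 966*c^2 + 24552*c^3 - 5358*c^4 + 396*c^5 - 10*c^6

/-- coefficient of `τ^4` in `q5`. -/
def q5_4 (c : R) : R := -43 - 264*c - 3364*c^2 - 48312*c^3 + 164046*c^4 - 48312*c^5 + 5372*c^6 - 264*c^7 + 5*c^8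

/-- coefficient of `τ^5` in `q5`. -/
def q5_5 (c : R) : R := 11 + 66*c + 2563*c^2 + 24024*c^3 - 80938*c^4 + 475596*c^5 - 163042*c^6 + 24024*c^7 - 1793*c^8 + 66*c^9 - c^10

def q5 (c τ : R) : R :=
  q5_0 c
  + q5_1 c * τ
  + q5_2 c * τ^2
  + q5_3 c * τ^3
  + q5_4 c * τ^4
  + q5_5 c * τ^5

/-- coefficient of `τ^0` in `q5'`. -/
def q5'_0 (c : R) : R := 1

/-- coefficient of `τ^1` in `q5'`. -/
def q5'_1 (c : R) : R := -5 - 66*c + 7*c^2

/-- coefficient of `τ^2` in `q5'`. -/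
def q5'_2 (c : R) : R := 10 + 264*c + 1772*c^2 + 264*c^3 - 38*c^4

/-- coefficient of `τ^3` in `q5'`. -/
def q5'_3 (c : R) : R := -10 - 396*c - 5358*c^2 - 24552*c^3 - 966*c^4 - 396*c^5 + 62*c^6

/-- coefficient of `τ^4` in `q5'`. -/
def q5'_4 (c : R) : R := 5 + 264*c + 5372*c^2 + 48312*c^3 + 164046*c^4 + 48312*c^5 - 3364*c^6 + 264*c^7 - 43*c^8

/-- coefficient of `τ^5` in `q5'`. -/
def q5'_5 (c : R) : R := -1 - 66*c - 1793*c^2 - 24024*c^3 - 163042*c^4 - 475596*c^5 - 80938*c^6 - 24024*c^7 + 2563*c^8 - 66*c^9 + 11*c^10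

def q5' (c τ : R) : R :=
  q5'_0 c
  + q5'_1 c * τ
  + q5'_2 c * τ^2
  + q5'_3 c * τ^3
  + q5'_4 c * τ^4
  + q5'_5 c * τ^5

/-- coefficient of `τ^0` in `Fk`. -/
def Fk_0 (c₄ c₆ : R) : R := 1

/-- coefficient of `τ^2` in `Fk`. -/
def Fk_2 (c₄ c₆ : R) : R := -66*c₄

/-- coefficient of `τ^3` in `Fk`. -/
def Fk_3 (c₄ c₆ : R) : R := -440*c₆

/-- coefficient of `τ^4` in `Fk`. -/
def Fk_4 (c₄ c₆ : R) : R := -1485*c₄^2

/-- coefficient of `τ^5` in `Fk`. -/
def Fk_5 (c₄ c₆ : R) : R := -3168*c₄*c₆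

/-- coefficient of `τ^6` in `Fk`. -/
def Fk_6 (c₄ c₆ : R) : R := 5940*c₄^3 - 10560*c₆^2

/-- coefficient of `τ^7` in `Fk`. -/
def Fk_7 (c₄ c₆ : R) : R := -4752*c₄^2*c₆

/-- coefficient of `τ^8` in `Fk`. -/
def Fk_8 (c₄ c₆ : R) : R := -66825*c₄^4 + 63360*c₄*c₆^2

/-- coefficient of `τ^9` in `Fk`. -/
def Fk_9 (c₄ c₆ : R) : R := -142560*c₄^3*c₆ + 140800*c₆^3

/-- coefficient of `τ^10` in `Fk`. -/
def Fk_10 (c₄ c₆ : R) : R := -133650*c₄^5 + 133056*c₄^2*c₆^2

/-- coefficient of `τ^11` in `Fk`. -/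
def Fk_11 (c₄ c₆ : R) : R := -61560*c₄^4*c₆ + 61440*c₄*c₆^3

/-- coefficient of `τ^12` in `Fk`. -/
def Fk_12 (c₄ c₆ : R) : R := 91125*c₄^6 - 193536*c₄^3*c₆^2 + 102400*c₆^4

def Fk (c₄ c₆ τ : R) : R :=
  Fk_0 c₄ c₆
  + Fk_2 c₄ c₆ * τ^2
  + Fk_3 c₄ c₆ * τ^3
  + Fk_4 c₄ c₆ * τ^4
  + Fk_5 c₄ c₆ * τ^5
  + Fk_6 c₄ c₆ * τ^6
  + Fk_7 c₄ c₆ * τ^7
  + Fk_8 c₄ c₆ * τ^8
  + Fk_9 c₄ c₆ * τ^9
  + Fk_10 c₄ c₆ * τ^10
  + Fk_11 c₄ c₆ * τ^11
  + Fk_12 c₄ c₆ * τ^12

/-- coefficient of `τ^0` in `C4`. -/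
def C4_0 (c₄ c₆ : R) : R := c₄

/-- coefficient of `τ^1` in `C4`. -/
def C4_1 (c₄ c₆ : R) : R := 20*c₆

/-- coefficient of `τ^2` in `C4`. -/
def C4_2 (c₄ c₆ : R) : R := 190*c₄^2

/-- coefficient of `τ^3` in `C4`. -/
def C4_3 (c₄ c₆ : R) : R := 1140*c₄*c₆

/-- coefficient of `τ^4` in `C4`. -/
def C4_4 (c₄ c₆ : R) : R := -855*c₄^3 + 5700*c₆^2

/-- coefficient of `τ^5` in `C4`. -/
def C4_5 (c₄ c₆ : R) : R := 15504*c₄^2*c₆

/-- coefficient of `τ^6` in `C4`. -/
def C4_6 (c₄ c₆ : R) : R := 102600*c₄^4 - 63840*c₄*c₆^2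

/-- coefficient of `τ^7` in `C4`. -/
def C4_7 (c₄ c₆ : R) : R := 259920*c₄^3*c₆ - 182400*c₆^3

/-- coefficient of `τ^8` in `C4`. -/
def C4_8 (c₄ c₆ : R) : R := -1000350*c₄^5 + 1126320*c₄^2*c₆^2

/-- coefficient of `τ^9` in `C4`. -/
def C4_9 (c₄ c₆ : R) : R := -7736040*c₄^4*c₆ + 7904000*c₄*c₆^3

/-- coefficient of `τ^10` in `C4`. -/
def C4_10 (c₄ c₆ : R) : R := -10003500*c₄^6 - 5619744*c₄^3*c₆^2 + 15808000*c₆^4

/-- coefficient of `τ^11` in `C4`. -/
def C4_11 (c₄ c₆ : R) : R := -54685800*c₄^5*c₆ + 54853760*c₄^2*c₆^3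

/-- coefficient of `τ^12` in `C4`. -/
def C4_12 (c₄ c₆ : R) : R := -45015750*c₄^7 + 7202520*c₄^4*c₆^2 + 37939200*c₄*c₆^4

/-- coefficient of `τ^13` in `C4`. -/
def C4_13 (c₄ c₆ : R) : R := -35089200*c₄^6*c₆ - 23201280*c₄^3*c₆^3 + 58368000*c₆^5

/-- coefficient of `τ^14` in `C4`. -/
def C4_14 (c₄ c₆ : R) : R := 207765000*c₄^8 - 495188640*c₄^5*c₆^2 + 287462400*c₄^2*c₆^4

/-- coefficient of `τ^15` in `C4`. -/
def C4_15 (c₄ c₆ : R) : R := 415530000*c₄^7*c₆ - 882458496*c₄^4*c₆^3 + 466944000*c₄*c₆^5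

/-- coefficient of `τ^16` in `C4`. -/
def C4_16 (c₄ c₆ : R) : R := -77911875*c₄^9 + 714711600*c₄^6*c₆^2 - 1220474880*c₄^3*c₆^4 + 583680000*c₆^6

/-- coefficient of `τ^17` in `C4`. -/
def C4_17 (c₄ c₆ : R) : R := 353200500*c₄^8*c₆ - 715080960*c₄^5*c₆^3 + 361881600*c₄^2*c₆^5

/-- coefficient of `τ^18` in `C4`. -/
def C4_18 (c₄ c₆ : R) : R := 779118750*c₄^10 - 2182917600*c₄^7*c₆^2 + 2026391040*c₄^4*c₆^4 - 622592000*c₄*c₆^6

/-- coefficient of `τ^19` in `C4`. -/
def C4_19 (c₄ c₆ : R) : R := 694372500*c₄^9*c₆ - 2044414080*c₄^6*c₆^3 + 2005401600*c₄^3*c₆^5 - 655360000*c₆^7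

/-- coefficient of `τ^20` in `C4`. -/
def C4_20 (c₄ c₆ : R) : R := 184528125*c₄^11 - 549301500*c₄^8*c₆^2 + 544997376*c₄^5*c₆^4 - 180224000*c₄^2*c₆^6

def C4 (c₄ c₆ τ : R) : R :=
  C4_0 c₄ c₆
  + C4_1 c₄ c₆ * τ
  + C4_2 c₄ c₆ * τ^2
  + C4_3 c₄ c₆ * τ^3
  + C4_4 c₄ c₆ * τ^4
  + C4_5 c₄ c₆ * τ^5
  + C4_6 c₄ c₆ * τ^6
  + C4_7 c₄ c₆ * τ^7
  + C4_8 c₄ c₆ * τ^8
  + C4_9 c₄ c₆ * τ^9
  + C4_10 c₄ c₆ * τ^10
  + C4_11 c₄ c₆ * τ^11
  + C4_12 c₄ c₆ * τ^12
  + C4_13 c₄ c₆ * τ^13
  + C4_14 c₄ c₆ * τ^14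
  + C4_15 c₄ c₆ * τ^15
  + C4_16 c₄ c₆ * τ^16
  + C4_17 c₄ c₆ * τ^17
  + C4_18 c₄ c₆ * τ^18
  + C4_19 c₄ c₆ * τ^19
  + C4_20 c₄ c₆ * τ^20

/-- coefficient of `τ^0` in `C6`. -/
def C6_0 (c₄ c₆ : R) : R := c₆

/-- coefficient of `τ^1` in `C6`. -/
def C6_1 (c₄ c₆ : R) : R := 30*c₄^2

/-- coefficient of `τ^2` in `C6`. -/
def C6_2 (c₄ c₆ : R) : R := 435*c₄*c₆

/-- coefficient of `τ^3` in `C6`. -/
def C6_3 (c₄ c₆ : R) : R := 1160*c₄^3 + 2900*c₆^2

/-- coefficient of `τ^4` in `C6`. -/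
def C6_4 (c₄ c₆ : R) : R := 27405*c₄^2*c₆

/-- coefficient of `τ^5` in `C6`. -/
def C6_5 (c₄ c₆ : R) : R := 95526*c₄^4 + 46980*c₄*c₆^2

/-- coefficient of `τ^6` in `C6`. -/
def C6_6 (c₄ c₆ : R) : R := 437175*c₄^3*c₆ + 156600*c₆^3

/-- coefficient of `τ^7` in `C6`. -/
def C6_7 (c₄ c₆ : R) : R := -1879200*c₄^5 + 3915000*c₄^2*c₆^2

/-- coefficient of `τ^8` in `C6`. -/
def C6_8 (c₄ c₆ : R) : R := -8554275*c₄^4*c₆ + 14407200*c₄*c₆^3

/-- coefficient of `τ^9` in `C6`. -/
def C6_9 (c₄ c₆ : R) : R := 24312150*c₄^6 - 42021000*c₄^3*c₆^2 + 32016000*c₆^4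

/-- coefficient of `τ^10` in `C6`. -/
def C6_10 (c₄ c₆ : R) : R := 246633255*c₄^5*c₆ - 216588240*c₄^2*c₆^3

/-- coefficient of `τ^11` in `C6`. -/
def C6_11 (c₄ c₆ : R) : R := 162081000*c₄^7 + 1352475900*c₄^4*c₆^2 - 1459929600*c₄*c₆^4

/-- coefficient of `τ^12` in `C6`. -/
def C6_12 (c₄ c₆ : R) : R := 4131714825*c₄^6*c₆ - 1612005600*c₄^3*c₆^3 - 2433216000*c₆^5

/-- coefficient of `τ^13` in `C6`. -/
def C6_13 (c₄ c₆ : R) : R := 6928962750*c₄^8 + 5235216300*c₄^5*c₆^2 - 12044419200*c₄^2*c₆^4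

/-- coefficient of `τ^14` in `C6`. -/
def C6_14 (c₄ c₆ : R) : R := 43190534475*c₄^7*c₆ - 43045111800*c₄^4*c₆^3

/-- coefficient of `τ^15` in `C6`. -/
def C6_15 (c₄ c₆ : R) : R := 79575287760*c₄^6*c₆^2 - 79420170240*c₄^3*c₆^4

/-- coefficient of `τ^16` in `C6`. -/
def C6_16 (c₄ c₆ : R) : R := -176688550125*c₄^8*c₆ + 474659611200*c₄^5*c₆^3 - 297825638400*c₄^2*c₆^5

/-- coefficient of `τ^17` in `C6`. -/
def C6_17 (c₄ c₆ : R) : R := -311803323750*c₄^10 + 77604382800*c₄^7*c₆^2 + 935084908800*c₄^4*c₆^4 - 700766208000*c₄*c₆^6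

/-- coefficient of `τ^18` in `C6`. -/
def C6_18 (c₄ c₆ : R) : R := -1694131392375*c₄^9*c₆ + 2776512362400*c₄^6*c₆^3 - 303665356800*c₄^3*c₆^5 - 778629120000*c₆^7

/-- coefficient of `τ^19` in `C6`. -/
def C6_19 (c₄ c₆ : R) : R := -328214025000*c₄^11 - 3481840250100*c₄^8*c₆^2 + 8100765158400*c₄^5*c₆^4 - 4290656256000*c₄^2*c₆^6

/-- coefficient of `τ^20` in `C6`. -/
def C6_20 (c₄ c₆ : R) : R := -2874607835625*c₄^10*c₆ + 2424887357760*c₄^7*c₆^3 + 3892110842880*c₄^4*c₆^5 - 3442360320000*c₄*c₆^7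

/-- coefficient of `τ^21` in `C6`. -/
def C6_21 (c₄ c₆ : R) : R := -2215444668750*c₄^12 + 3077188825500*c₄^9*c₆^2 - 2709129888000*c₄^6*c₆^4 + 5125838438400*c₄^3*c₆^6 - 3278438400000*c₆^8

/-- coefficient of `τ^22` in `C6`. -/
def C6_22 (c₄ c₆ : R) : R := -1403114956875*c₄^11*c₆ - 1724509423800*c₄^8*c₆^3 + 7701051801600*c₄^5*c₆^5 - 4573421568000*c₄^2*c₆^7

/-- coefficient of `τ^23` in `C6`. -/
def C6_23 (c₄ c₆ : R) : R := 7705894500000*c₄^13 - 33414470973000*c₄^10*c₆^2 + 49888700928000*c₄^7*c₆^4 - 30337884979200*c₄^4*c₆^6 + 6157762560000*c₄*c₆^8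

/-- coefficient of `τ^24` in `C6`. -/
def C6_24 (c₄ c₆ : R) : R := 5089101159375*c₄^12*c₆ - 22687218914400*c₄^9*c₆^3 + 35246094796800*c₄^6*c₆^5 - 22779445248000*c₄^3*c₆^7 + 5131468800000*c₆^9

/-- coefficient of `τ^25` in `C6`. -/
def C6_25 (c₄ c₆ : R) : R := -17627233668750*c₄^14 + 70097953635000*c₄^11*c₆^2 - 105528606261120*c₄^8*c₆^4 + 71274600677376*c₄^5*c₆^6 - 18216714240000*c₄^2*c₆^8

/-- coefficient of `τ^26` in `C6`. -/
def C6_26 (c₄ c₆ : R) : R := -40985726371875*c₄^13*c₆ + 163672057566000*c₄^10*c₆^3 - 245438120632320*c₄^7*c₆^5 + 163803539865600*c₄^4*c₆^7 - 41051750400000*c₄*c₆^9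

/-- coefficient of `τ^27` in `C6`. -/
def C6_27 (c₄ c₆ : R) : R := -9632368125000*c₄^15 + 8104032382500*c₄^12*c₆^2 + 63806176396800*c₄^9*c₆^4 - 143803576074240*c₄^6*c₆^6 + 111934439424000*c₄^3*c₆^8 - 30408704000000*c₆^10

/-- coefficient of `τ^28` in `C6`. -/
def C6_28 (c₄ c₆ : R) : R := -21432019078125*c₄^14*c₆ + 85719228804000*c₄^11*c₆^3 - 128580522647040*c₄^8*c₆^5 + 85731449241600*c₄^5*c₆^7 - 21438136320000*c₄^2*c₆^9

/-- coefficient of `τ^29` in `C6`. -/
def C6_29 (c₄ c₆ : R) : R := -11210083593750*c₄^16 + 49873523512500*c₄^13*c₆^2 - 87394892457600*c₄^10*c₆^4 + 75042714746880*c₄^7*c₆^6 - 31344427008000*c₄^4*c₆^8 + 5033164800000*c₄*c₆^10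

/-- coefficient of `τ^30` in `C6`. -/
def C6_30 (c₄ c₆ : R) : R := -4110363984375*c₄^15*c₆ + 19796866155000*c₄^12*c₆^3 - 38083944628224*c₄^9*c₆^5 + 36574189977600*c₄^6*c₆^7 - 17532190720000*c₄^3*c₆^9 + 3355443200000*c₆^11

def C6 (c₄ c₆ τ : R) : R :=
  C6_0 c₄ c₆
  + C6_1 c₄ c₆ * τ
  + C6_2 c₄ c₆ * τ^2
  + C6_3 c₄ c₆ * τ^3
  + C6_4 c₄ c₆ * τ^4
  + C6_5 c₄ c₆ * τ^5
  + C6_6 c₄ c₆ * τ^6
  + C6_7 c₄ c₆ * τ^7
  + C6_8 c₄ c₆ * τ^8
  + C6_9 c₄ c₆ * τ^9
  + C6_10 c₄ c₆ * τ^10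
  + C6_11 c₄ c₆ * τ^11
  + C6_12 c₄ c₆ * τ^12
  + C6_13 c₄ c₆ * τ^13
  + C6_14 c₄ c₆ * τ^14
  + C6_15 c₄ c₆ * τ^15
  + C6_16 c₄ c₆ * τ^16
  + C6_17 c₄ c₆ * τ^17
  + C6_18 c₄ c₆ * τ^18
  + C6_19 c₄ c₆ * τ^19
  + C6_20 c₄ c₆ * τ^20
  + C6_21 c₄ c₆ * τ^21
  + C6_22 c₄ c₆ * τ^22
  + C6_23 c₄ c₆ * τ^23
  + C6_24 c₄ c₆ * τ^24
  + C6_25 c₄ c₆ * τ^25
  + C6_26 c₄ c₆ * τ^26
  + C6_27 c₄ c₆ * τ^27
  + C6_28 c₄ c₆ * τ^28
  + C6_29 c₄ c₆ * τ^29
  + C6_30 c₄ c₆ * τ^30

end Fermat.Agent.S52.Fam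

end
-- ===== PACK-END S52/Fam/Defs.lean

-- ===== PACK-BEGIN S52/H410/Tate5.lean
section




/-!
# S52, piece B1a (part 1): the Tate normal form of a point of order 5

`tnf c u` is the Weierstrass curve `y² + u(1-c)xy - u³c·y = x³ - u²c·x²`.  On it the point
`(0,0)` is nonsingular of order `5` as soon as `c ≠ 0` and `u ≠ 0`:
`2P = (u²c, u³c²)`, `3P = (u²c, 0)`, `4P = (0, u³c)`.
-/

set_option autoImplicit false

namespace Fermat.Agent.S52.H410

open WeierstrassCurve

variable {K : Type*} [Field K]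

/-- Tate normal form with a point of order `5` at `(0,0)`, scaled by `u`. -/
def tnf (c u : K) : WeierstrassCurve K :=
  ⟨u * (1 - c), -(u ^ 2 * c), -(u ^ 3 * c), 0, 0⟩

@[simp] lemma tnf_a₁ (c u : K) : (tnf c u).a₁ = u * (1 - c) := rfl
@[simp] lemma tnf_a₂ (c u : K) : (tnf c u).a₂ = -(u ^ 2 * c) := rfl
@[simp] lemma tnf_a₃ (c u : K) : (tnf c u).a₃ = -(u ^ 3 * c) := rfl
@[simp] lemma tnf_a₄ (c u : K) : (tnf c u).a₄ = 0 := rfl
@[simp] lemma tnf_a₆ (c u : K) : (tnf c u).a₆ = 0 := rfl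

lemma tnf_b₂ (c u : K) : (tnf c u).b₂ = u ^ 2 * (c ^ 2 - 6 * c + 1) := by
  simp only [b₂, tnf_a₁, tnf_a₂]; ring

lemma tnf_b₄ (c u : K) : (tnf c u).b₄ = u ^ 4 * (c ^ 2 - c) := by
  simp only [b₄, tnf_a₁, tnf_a₃, tnf_a₄]; ring

lemma tnf_b₆ (c u : K) : (tnf c u).b₆ = u ^ 6 * c ^ 2 := by
  simp only [b₆, tnf_a₃, tnf_a₆]; ring

lemma tnf_b₈ (c u : K) : (tnf c u).b₈ = -(u ^ 8 * c ^ 3) := by
  simp only [b₈, tnf_a₁, tnf_a₂, tnf_a₃, tnf_a₄, tnf_a₆]; ring

/-- `c₄` of the Tate normal form: `u⁴·H₅(c,1)`. -/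
lemma tnf_c₄ (c u : K) :
    (tnf c u).c₄ = u ^ 4 * (c ^ 4 - 12 * c ^ 3 + 14 * c ^ 2 + 12 * c + 1) := by
  simp only [c₄, tnf_b₂, tnf_b₄]; ring

/-- `c₆` of the Tate normal form: `u⁶·T₅(c,1)`. -/
lemma tnf_c₆ (c u : K) :
    (tnf c u).c₆ =
      -(u ^ 6 * ((c ^ 2 + 1) * (c ^ 4 - 18 * c ^ 3 + 74 * c ^ 2 + 18 * c + 1))) := by
  simp only [c₆, tnf_b₂, tnf_b₄, tnf_b₆]; ring

/-- The discriminant of the Tate normal form. -/
lemma tnf_Δ (c u : K) : (tnf c u).Δ = u ^ 12 * (c ^ 5 * (c ^ 2 - 11 * c - 1)) := by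
  simp only [Δ, tnf_b₂, tnf_b₄, tnf_b₆, tnf_b₈]; ring

lemma tnf_c_ne_zero_of_Δ {c u : K} (h : (tnf c u).Δ ≠ 0) : c ≠ 0 := by
  rintro rfl; apply h; rw [tnf_Δ]; ring

lemma tnf_u_ne_zero_of_Δ {c u : K} (h : (tnf c u).Δ ≠ 0) : u ≠ 0 := by
  rintro rfl; apply h; rw [tnf_Δ]; ring

section Point

variable {c u : K}

open WeierstrassCurve.Affine

lemma tnf_negY (x y : K) : (tnf c u).toAffine.negY x y = -y - u * (1 - c) * x + u ^ 3 * c := by
  simp only [Affine.negY, tnf_a₁, tnf_a₃]; ring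

/-- `(0,0)` is a nonsingular point of `tnf c u`. -/
lemma tnf_nonsingular_zero (hc : c ≠ 0) (hu : u ≠ 0) :
    (tnf c u).toAffine.Nonsingular 0 0 := by
  rw [Affine.nonsingular_zero]
  refine ⟨rfl, Or.inl ?_⟩
  simp only [tnf_a₃, ne_eq, neg_eq_zero, mul_eq_zero, not_or]
  exact ⟨pow_ne_zero 3 hu, hc⟩

/-- `(u²c, u³c²)` is a nonsingular point of `tnf c u`. -/
lemma tnf_nonsingular_two (hc : c ≠ 0) (hu : u ≠ 0) :
    (tnf c u).toAffine.Nonsingular (u ^ 2 * c) (u ^ 3 * c ^ 2) := by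
  rw [Affine.nonsingular_iff', Affine.equation_iff]
  refine ⟨by simp only [tnf_a₁, tnf_a₂, tnf_a₃, tnf_a₄, tnf_a₆]; ring, Or.inr ?_⟩
  simp only [tnf_a₁, tnf_a₃]
  have : 2 * (u ^ 3 * c ^ 2) + u * (1 - c) * (u ^ 2 * c) + -(u ^ 3 * c) = u ^ 3 * c ^ 2 := by ring
  rw [this]
  exact mul_ne_zero (pow_ne_zero 3 hu) (pow_ne_zero 2 hc)

/-- The point `P = (0,0)` on the Tate normal form. -/
def tnfP (hc : c ≠ 0) (hu : u ≠ 0) : (tnf c u).toAffine.Point :=
  Point.some 0 0 (tnf_nonsingular_zero hc hu)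

/-- The point `2P = (u²c, u³c²)` on the Tate normal form. -/
def tnfQ (hc : c ≠ 0) (hu : u ≠ 0) : (tnf c u).toAffine.Point :=
  Point.some (u ^ 2 * c) (u ^ 3 * c ^ 2) (tnf_nonsingular_two hc hu)

lemma tnfP_ne_zero (hc : c ≠ 0) (hu : u ≠ 0) : tnfP hc hu ≠ 0 := Point.some_ne_zero _

variable [DecidableEq K]

/-- `P + P = (u²c, u³c²)`. -/
lemma tnfP_add_self (hc : c ≠ 0) (hu : u ≠ 0) : tnfP hc hu + tnfP hc hu = tnfQ hc hu := by
  have hy : (0 : K) ≠ (tnf c u).toAffine.negY 0 0 := by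
    rw [tnf_negY]
    have : -(0 : K) - u * (1 - c) * 0 + u ^ 3 * c = u ^ 3 * c := by ring
    rw [this]
    exact (mul_ne_zero (pow_ne_zero 3 hu) hc).symm
  rw [tnfP, tnfQ, Point.add_self_of_Y_ne hy]
  have hs : (tnf c u).toAffine.slope 0 0 0 0 = 0 := by
    rw [Affine.slope_of_Y_ne rfl hy]
    simp only [tnf_a₁, tnf_a₂, tnf_a₄]
    have : (3 * (0 : K) ^ 2 + 2 * -(u ^ 2 * c) * 0 + 0 - u * (1 - c) * 0) = 0 := by ring
    rw [this, zero_div]
  have hX : (tnf c u).toAffine.addX 0 0 ((tnf c u).toAffine.slope 0 0 0 0) = u ^ 2 * c := by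
    rw [hs]; simp only [Affine.addX, tnf_a₁, tnf_a₂]; ring
  have hY : (tnf c u).toAffine.addY 0 0 0 ((tnf c u).toAffine.slope 0 0 0 0) =
      u ^ 3 * c ^ 2 := by
    rw [hs]
    simp only [Affine.addY, Affine.negAddY, Affine.addX, Affine.negY, tnf_a₁, tnf_a₂, tnf_a₃]
    ring
  simp only [Point.some.injEq]
  exact ⟨hX, hY⟩

/-- `2P + 2P = -P`. -/
lemma tnfQ_add_self (hc : c ≠ 0) (hu : u ≠ 0) : tnfQ hc hu + tnfQ hc hu = -tnfP hc hu := by
  have hny : (tnf c u).toAffine.negY (u ^ 2 * c) (u ^ 3 * c ^ 2) = 0 := by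
    rw [tnf_negY]; ring
  have hy : u ^ 3 * c ^ 2 ≠ (tnf c u).toAffine.negY (u ^ 2 * c) (u ^ 3 * c ^ 2) := by
    rw [hny]
    exact mul_ne_zero (pow_ne_zero 3 hu) (pow_ne_zero 2 hc)
  rw [tnfP, tnfQ, Point.add_self_of_Y_ne hy, Point.neg_some]
  have hs : (tnf c u).toAffine.slope (u ^ 2 * c) (u ^ 2 * c) (u ^ 3 * c ^ 2) (u ^ 3 * c ^ 2) =
      u * c := by
    rw [Affine.slope_of_Y_ne rfl hy, hny, sub_zero]
    simp only [tnf_a₁, tnf_a₂, tnf_a₄]
    rw [div_eq_iff (mul_ne_zero (pow_ne_zero 3 hu) (pow_ne_zero 2 hc))]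
    ring
  have hX : (tnf c u).toAffine.addX (u ^ 2 * c) (u ^ 2 * c)
      ((tnf c u).toAffine.slope (u ^ 2 * c) (u ^ 2 * c) (u ^ 3 * c ^ 2) (u ^ 3 * c ^ 2)) = 0 := by
    rw [hs]; simp only [Affine.addX, tnf_a₁, tnf_a₂]; ring
  have hY : (tnf c u).toAffine.addY (u ^ 2 * c) (u ^ 2 * c) (u ^ 3 * c ^ 2)
      ((tnf c u).toAffine.slope (u ^ 2 * c) (u ^ 2 * c) (u ^ 3 * c ^ 2) (u ^ 3 * c ^ 2)) =
      (tnf c u).toAffine.negY 0 0 := by
    rw [hs]
    simp only [Affine.addY, Affine.negAddY, Affine.addX, Affine.negY, tnf_a₁, tnf_a₂, tnf_a₃]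
    ring
  simp only [Point.some.injEq]
  exact ⟨hX, hY⟩

/-- **(T1)** The point `(0,0)` of the Tate normal form is killed by `5`. -/
theorem tnfP_five_nsmul (hc : c ≠ 0) (hu : u ≠ 0) : 5 • tnfP hc hu = 0 := by
  have h : (5 : ℕ) • tnfP hc hu =
      tnfP hc hu + ((tnfP hc hu + tnfP hc hu) + (tnfP hc hu + tnfP hc hu)) := by
    abel
  rw [h, tnfP_add_self, tnfQ_add_self, add_neg_cancel]

theorem tnfP_five_zsmul (hc : c ≠ 0) (hu : u ≠ 0) : (5 : ℤ) • tnfP hc hu = 0 := by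
  have := tnfP_five_nsmul hc hu
  rw [← natCast_zsmul] at this
  exact_mod_cast this

end Point

end Fermat.Agent.S52.H410

end
-- ===== PACK-END S52/H410/Tate5.lean

-- ===== PACK-BEGIN S52/H890/TateExists.lean
section


/-!
# S52 / H890 : existence of Tate parameters (pure algebra)

Over an algebraically closed field `k` in which `2, 3, 5` are invertible, every pair `(c4, c6)` with
`c4 ^ 3 ≠ c6 ^ 2` is of the form `c4 = lam ^ 4 * H5 c 1`, `c6 = lam ^ 6 * T5 c 1` with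
`lam ≠ 0`, `c ≠ 0`, `c ^ 2 - 11 * c - 1 ≠ 0`; i.e. the short Weierstrass curve with invariants
`(c4, c6)` is a twist of the Tate normal form `y² + (1-c)xy - cy = x³ - cx²` (which carries the
point `(0,0)` of order `5`).  No torsion point is needed as input.
-/

set_option autoImplicit false

namespace Fermat.Agent.S52.H890

/-- The binary quartic form giving `c₄` of the Tate normal form of order `5`. -/
def H5 {R : Type*} [CommRing R] (X Y : R) : R :=
  X ^ 4 - 12 * X ^ 3 * Y + 14 * X ^ 2 * Y ^ 2 + 12 * X * Y ^ 3 + Y ^ 4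

/-- The binary sextic form giving `c₆` of the Tate normal form of order `5`. -/
def T5 {R : Type*} [CommRing R] (X Y : R) : R :=
  -((X ^ 2 + Y ^ 2) * (X ^ 4 - 18 * X ^ 3 * Y + 74 * X ^ 2 * Y ^ 2 + 18 * X * Y ^ 3 + Y ^ 4))

lemma H5_cube_sub_T5_sq {R : Type*} [CommRing R] (X Y : R) :
    H5 X Y ^ 3 - T5 X Y ^ 2 = 1728 * (X * Y) ^ 5 * (X ^ 2 - 11 * X * Y - Y ^ 2) := by
  simp only [H5, T5]; ring

lemma H5_one_eq {R : Type*} [CommRing R] (c : R) :
    H5 c 1 = (c ^ 2 - 11 * c - 1) * (c ^ 2 - c - 1) + 5 * c ^ 2 := by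
  simp only [H5]; ring

section Field

variable {k : Type*} [Field k]

lemma ne_zero_1728 (h2 : (2 : k) ≠ 0) (h3 : (3 : k) ≠ 0) : (1728 : k) ≠ 0 := by
  have : (1728 : k) = 2 ^ 6 * 3 ^ 3 := by norm_num
  rw [this]; exact mul_ne_zero (pow_ne_zero _ h2) (pow_ne_zero _ h3)

/-- `H5(c,1)` and `T5(c,1)` have no common zero when `2, 3, 5` are invertible. -/
lemma H5_T5_not_both_zero (h2 : (2 : k) ≠ 0) (h3 : (3 : k) ≠ 0) (h5 : (5 : k) ≠ 0) (c : k)
    (hH : H5 c 1 = 0) (hT : T5 c 1 = 0) : False := by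
  have h1728 := ne_zero_1728 h2 h3
  have key := H5_cube_sub_T5_sq c (1 : k)
  rw [hH, hT] at key
  have key2 : (1728 : k) * (c * 1) ^ 5 * (c ^ 2 - 11 * c * 1 - 1 ^ 2) = 0 := by
    rw [← key]; ring
  rcases mul_eq_zero.mp key2 with h | h
  · rcases mul_eq_zero.mp h with h | h
    · exact h1728 h
    · have hc : c = 0 := by simpa using h
      rw [hc] at hH; simp [H5] at hH
  · have hq : c ^ 2 - 11 * c - 1 = 0 := by simpa using h
    have := H5_one_eq c
    rw [hH, hq] at this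
    have hc2 : (5 : k) * c ^ 2 = 0 := by rw [this]; ring
    have hc : c = 0 := by
      rcases mul_eq_zero.mp hc2 with h | h
      · exact absurd h h5
      · simpa using h
    rw [hc] at hq; norm_num at hq

open Polynomial in
/-- Over an algebraically closed field, the degree-`12` equation
`c4³·T5(c,1)² = c6²·H5(c,1)³` has a solution `c` as soon as `c4³ ≠ c6²`. -/
lemma exists_root_tate [IsAlgClosed k] (c4 c6 : k) (hΔ : c4 ^ 3 - c6 ^ 2 ≠ 0) :
    ∃ c : k, c4 ^ 3 * T5 c 1 ^ 2 = c6 ^ 2 * H5 c 1 ^ 3 := by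
  set A : k := c4 ^ 3 with hA
  set B : k := c6 ^ 2 with hB
  let p : k[X] := C (A - B) * X ^ 12 + C (-36 * A + 36 * B) * X ^ 11 + C (474 * A - 474 * B) * X ^ 10
    + C (-2700 * A + 2700 * B) * X ^ 9 + C (5775 * A - 5775 * B) * X ^ 8
    + C (-2664 * A + 936 * B) * X ^ 7 + C (10604 * A + 8404 * B) * X ^ 6
    + C (2664 * A - 936 * B) * X ^ 5 + C (5775 * A - 5775 * B) * X ^ 4
    + C (2700 * A - 2700 * B) * X ^ 3 + C (474 * A - 474 * B) * X ^ 2
    + C (36 * A - 36 * B) * X + C (A - B)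
  have hnat : p.natDegree = 12 := by
    simp only [p]
    compute_degree!
  have hdeg : p.degree ≠ 0 := by
    intro h0
    have : p.natDegree = 0 := natDegree_eq_zero_iff_degree_le_zero.mpr (le_of_eq h0)
    omega
  obtain ⟨c, hc⟩ := IsAlgClosed.exists_root p hdeg
  refine ⟨c, ?_⟩
  have := hc
  simp only [p, IsRoot.def, eval_add, eval_mul, eval_C, eval_pow, eval_X] at this
  simp only [H5, T5]
  linear_combination this

/-- **Existence of Tate parameters.** Over an algebraically closed field in which `2, 3, 5` are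
invertible, any `(c4, c6)` with `c4³ ≠ c6²` equals `(lam⁴·H5(c,1), lam⁶·T5(c,1))` for some
`lam ≠ 0` and some `c` with `c ≠ 0`, `c² - 11c - 1 ≠ 0`. -/
theorem exists_tate_params [IsAlgClosed k] (h2 : (2 : k) ≠ 0) (h3 : (3 : k) ≠ 0)
    (h5 : (5 : k) ≠ 0) (c4 c6 : k) (hΔ : c4 ^ 3 - c6 ^ 2 ≠ 0) :
    ∃ c lam : k, lam ≠ 0 ∧ c ≠ 0 ∧ c ^ 2 - 11 * c - 1 ≠ 0 ∧
      c4 = lam ^ 4 * H5 c 1 ∧ c6 = lam ^ 6 * T5 c 1 := by
  obtain ⟨c, hc⟩ := exists_root_tate c4 c6 hΔ
  have hnb : ¬ (H5 c 1 = 0 ∧ T5 c 1 = 0) := fun h => H5_T5_not_both_zero h2 h3 h5 c h.1 h.2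
  have h1728 := ne_zero_1728 h2 h3
  have hid := H5_cube_sub_T5_sq c (1 : k)
  -- the cusp condition
  have hcusp : c ^ 5 * (c ^ 2 - 11 * c - 1) ≠ 0 := by
    intro h0
    have hHT : H5 c 1 ^ 3 = T5 c 1 ^ 2 := by
      have : H5 c 1 ^ 3 - T5 c 1 ^ 2 = 0 := by
        rw [hid]
        have : (1728 : k) * (c * 1) ^ 5 * (c ^ 2 - 11 * c * 1 - 1 ^ 2)
            = 1728 * (c ^ 5 * (c ^ 2 - 11 * c - 1)) := by ring
        rw [this, h0, mul_zero]
      exact sub_eq_zero.mp this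
    have h1 : (c4 ^ 3 - c6 ^ 2) * T5 c 1 ^ 2 = 0 := by
      rw [sub_mul, hc, hHT]; ring
    have hT : T5 c 1 = 0 := by
      rcases mul_eq_zero.mp h1 with h | h
      · exact absurd h hΔ
      · simpa using h
    have hH : H5 c 1 = 0 := by
      rw [hT] at hHT
      have : H5 c 1 ^ 3 = 0 := by rw [hHT]; ring
      simpa using this
    exact hnb ⟨hH, hT⟩
  have hc0 : c ≠ 0 := by
    rintro rfl; exact hcusp (by ring)
  have hcq : c ^ 2 - 11 * c - 1 ≠ 0 := by
    intro h; exact hcusp (by rw [h, mul_zero])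
  by_cases h4 : c4 = 0
  · -- `c4 = 0`: then `H5 = 0`, `T5 ≠ 0`, take a sixth root
    have h6 : c6 ≠ 0 := by
      rintro rfl; apply hΔ; rw [h4]; ring
    have hH : H5 c 1 = 0 := by
      rw [h4] at hc
      have : c6 ^ 2 * H5 c 1 ^ 3 = 0 := by rw [← hc]; ring
      rcases mul_eq_zero.mp this with h | h
      · exact absurd (by simpa using h) h6
      · simpa using h
    have hT : T5 c 1 ≠ 0 := fun h => hnb ⟨hH, h⟩
    obtain ⟨lam, hlam⟩ := IsAlgClosed.exists_pow_nat_eq (c6 / T5 c 1) (n := 6) (by norm_num)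
    refine ⟨c, lam, ?_, hc0, hcq, ?_, ?_⟩
    · rintro rfl
      have : c6 / T5 c 1 = 0 := by rw [← hlam]; ring
      rcases div_eq_zero_iff.mp this with h | h
      · exact h6 h
      · exact hT h
    · rw [h4, hH, mul_zero]
    · rw [hlam]; field_simp
  · by_cases h6 : c6 = 0
    · -- `c6 = 0`: then `T5 = 0`, `H5 ≠ 0`, take a fourth root
      have hT : T5 c 1 = 0 := by
        rw [h6] at hc
        have : c4 ^ 3 * T5 c 1 ^ 2 = 0 := by rw [hc]; ring
        rcases mul_eq_zero.mp this with h | h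
        · exact absurd (by simpa using h) h4
        · simpa using h
      have hH : H5 c 1 ≠ 0 := fun h => hnb ⟨h, hT⟩
      obtain ⟨lam, hlam⟩ := IsAlgClosed.exists_pow_nat_eq (c4 / H5 c 1) (n := 4) (by norm_num)
      refine ⟨c, lam, ?_, hc0, hcq, ?_, ?_⟩
      · rintro rfl
        have : c4 / H5 c 1 = 0 := by rw [← hlam]; ring
        rcases div_eq_zero_iff.mp this with h | h
        · exact h4 h
        · exact hH h
      · rw [hlam]; field_simp
      · rw [h6, hT, mul_zero]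
    · -- generic case
      have hH : H5 c 1 ≠ 0 := by
        intro h
        rw [h] at hc
        have : c4 ^ 3 * T5 c 1 ^ 2 = 0 := by rw [hc]; ring
        rcases mul_eq_zero.mp this with h' | h'
        · exact absurd (by simpa using h') h4
        · exact hnb ⟨h, by simpa using h'⟩
      have hT : T5 c 1 ≠ 0 := by
        intro h
        rw [h] at hc
        have : c6 ^ 2 * H5 c 1 ^ 3 = 0 := by rw [← hc]; ring
        rcases mul_eq_zero.mp this with h' | h'
        · exact absurd (by simpa using h') h6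
        · exact hH (by simpa using h')
      obtain ⟨lam, hlam⟩ := IsAlgClosed.exists_pow_nat_eq (c6 * H5 c 1 / (c4 * T5 c 1)) (n := 2)
        (by norm_num)
      have hmu2 : (c6 * H5 c 1 / (c4 * T5 c 1)) ^ 2 = c4 / H5 c 1 := by
        field_simp
        exact hc.symm
      refine ⟨c, lam, ?_, hc0, hcq, ?_, ?_⟩
      · rintro rfl
        have : c6 * H5 c 1 / (c4 * T5 c 1) = 0 := by rw [← hlam]; ring
        rcases div_eq_zero_iff.mp this with h | h
        · exact (mul_ne_zero h6 hH) h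
        · exact (mul_ne_zero h4 hT) h
      · have : lam ^ 4 = c4 / H5 c 1 := by
          have : lam ^ 4 = (lam ^ 2) ^ 2 := by ring
          rw [this, hlam, hmu2]
        rw [this]; field_simp
      · have : lam ^ 6 = c6 / T5 c 1 := by
          have : lam ^ 6 = (lam ^ 2) * (lam ^ 2) ^ 2 := by ring
          rw [this, hlam, hmu2]; field_simp
        rw [this]; field_simp

end Field

end Fermat.Agent.S52.H890

end
-- ===== PACK-END S52/H890/TateExists.lean

-- ===== PACK-BEGIN S52/B3/H240/Sep.lean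
section




/-!
# S52 / B3n-fam: an abstract separability lemma (helper240)

Let `L₊ = 1 − a₊X`, `L₋ = 1 − a₋X` with `a₊ ≠ a₋` over a field `K` with `2, 5 ≠ 0`, and let
`N, D ∈ K[X]` satisfy `2N − g₊D = κ₊L₊⁵`, `2N − g₋D = κ₋L₋⁵` with `g₊ ≠ g₋`, `g₊, g₋, κ₊, κ₋ ≠ 0`.
Then `N · D · L₊ · L₋` is separable (`separable_icosa`).
(The twelve roots are the vertices of an icosahedron in the coordinate `L₊/L₋`.)
-/

set_option autoImplicit false

namespace Fermat.Agent.S52.B3.H240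

open Polynomial

section ring

variable {A : Type*} [CommRing A]

/-- If two coprime elements lie in the ideal `(p, q)`, then `p` and `q` are coprime. -/
theorem isCoprime_of_combo {a b p q : A} (h : IsCoprime a b)
    (ha : ∃ u v : A, a = u * p + v * q) (hb : ∃ u v : A, b = u * p + v * q) :
    IsCoprime p q := by
  obtain ⟨x, y, hxy⟩ := h
  obtain ⟨u₁, v₁, rfl⟩ := ha
  obtain ⟨u₂, v₂, rfl⟩ := hb
  exact ⟨x * u₁ + y * u₂, x * v₁ + y * v₂, by linear_combination hxy⟩

end ring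

variable {K : Type*} [Field K]

theorem isUnit_C_of_ne {c : K} (hc : c ≠ 0) : IsUnit (C c : K[X]) :=
  isUnit_C.mpr (IsUnit.mk0 c hc)

/-- The linear polynomial `1 − aX`. -/
noncomputable def lin (a : K) : K[X] := 1 - C a * X

theorem derivative_lin (a : K) : derivative (lin a) = - C a := by
  simp [lin]

theorem separable_lin (a : K) : (lin a).Separable := by
  rw [separable_def', derivative_lin]
  exact ⟨1, -X, by simp only [lin]; ring⟩

/-- the key relation `a·L_b − b·L_a = a − b`. -/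
theorem lin_relation (a b : K) : C a * lin b - C b * lin a = C (a - b) := by
  simp only [lin, C_sub]
  ring

theorem isCoprime_lin {a b : K} (hab : a ≠ b) : IsCoprime (lin a) (lin b) := by
  have hd : a - b ≠ 0 := sub_ne_zero.mpr hab
  have hu : IsUnit (C (a - b) : K[X]) := isUnit_C_of_ne hd
  -- `(a−b) = a·L_b − b·L_a` is a unit in the ideal `(L_a, L_b)`
  obtain ⟨w, hw⟩ := hu.exists_left_inv
  exact ⟨-(w * C b), w * C a, by linear_combination w * lin_relation a b + hw⟩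

/-- `P = α L_a⁵ − β L_b⁵` with `α, β ≠ 0`, `a ≠ b`, `5 ≠ 0` is separable. -/
theorem separable_pow_five (h5 : (5 : K) ≠ 0) {a b α β : K} (hab : a ≠ b) (hα : α ≠ 0)
    (hβ : β ≠ 0) : (C α * lin a ^ 5 - C β * lin b ^ 5).Separable := by
  have hd : a - b ≠ 0 := sub_ne_zero.mpr hab
  set P : K[X] := C α * lin a ^ 5 - C β * lin b ^ 5 with hP
  set Q : K[X] := C α * C a * lin a ^ 4 - C β * C b * lin b ^ 4 with hQ
  have hder : derivative P = C (-5) * Q := by
    rw [hP, hQ]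
    have e5 : (C (5 : K) : K[X]) = 5 := map_ofNat C 5
    simp only [derivative_sub, derivative_mul, derivative_C, derivative_pow, derivative_lin,
      C_neg, Nat.cast_ofNat, Nat.add_one_sub_one, e5]
    ring
  have hrel := lin_relation a b
  have e1 : C β * C (a - b) * lin b ^ 4 = (-C a) * P + lin a * Q := by
    rw [hP, hQ]
    linear_combination (-(C β * lin b ^ 4)) * hrel
  have e2 : C α * C (a - b) * lin a ^ 4 = (-C b) * P + lin b * Q := by
    rw [hP, hQ]
    linear_combination (-(C α * lin a ^ 4)) * hrel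
  have hcop : IsCoprime (C α * C (a - b) * lin a ^ 4) (C β * C (a - b) * lin b ^ 4) := by
    have h0 : IsCoprime (lin a ^ 4) (lin b ^ 4) := (isCoprime_lin hab).pow
    have u1 : IsUnit (C α * C (a - b) : K[X]) := (isUnit_C_of_ne hα).mul (isUnit_C_of_ne hd)
    have u2 : IsUnit (C β * C (a - b) : K[X]) := (isUnit_C_of_ne hβ).mul (isUnit_C_of_ne hd)
    exact (isCoprime_mul_unit_left_left u1 _ _).mpr
      ((isCoprime_mul_unit_left_right u2 _ _).mpr h0)
  have hPQ : IsCoprime P Q := isCoprime_of_combo hcop ⟨_, _, e2⟩ ⟨_, _, e1⟩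
  rw [separable_def, hder]
  have u5 : IsUnit (C (-5) : K[X]) := isUnit_C_of_ne (neg_ne_zero.mpr h5)
  exact (isCoprime_mul_unit_left_right u5 _ _).mpr hPQ

/-- a unit multiple version -/
theorem separable_of_pow_five (h5 : (5 : K) ≠ 0) {a b α β γ : K} (hab : a ≠ b) (hα : α ≠ 0)
    (hβ : β ≠ 0) (_hγ : γ ≠ 0) {P : K[X]}
    (hP : C γ * P = C α * lin a ^ 5 - C β * lin b ^ 5) : P.Separable := by
  have h := separable_pow_five h5 hab hα hβ
  rw [← hP] at h
  exact h.of_mul_right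

/-- **Icosahedral separability.** -/
theorem separable_icosa (h2 : (2 : K) ≠ 0) (h5 : (5 : K) ≠ 0) {a b g₁ g₂ κ₁ κ₂ : K}
    (hab : a ≠ b) (hg : g₁ ≠ g₂) (hg₁ : g₁ ≠ 0) (hg₂ : g₂ ≠ 0) (hκ₁ : κ₁ ≠ 0) (hκ₂ : κ₂ ≠ 0)
    {N D : K[X]}
    (h₁ : C 2 * N - C g₁ * D = C κ₁ * lin a ^ 5)
    (h₂ : C 2 * N - C g₂ * D = C κ₂ * lin b ^ 5) :
    (N * D * lin a * lin b).Separable := by
  have hgd : g₂ - g₁ ≠ 0 := sub_ne_zero.mpr (Ne.symm hg)
  -- `N` and `D` are combinations of `L_a⁵`, `L_b⁵`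
  have hD : C (g₂ - g₁) * D = C κ₁ * lin a ^ 5 - C κ₂ * lin b ^ 5 := by
    simp only [C_sub]
    linear_combination h₁ - h₂
  have hN : C (2 * (g₂ - g₁)) * N = C (g₂ * κ₁) * lin a ^ 5 - C (g₁ * κ₂) * lin b ^ 5 := by
    simp only [C_sub, C_mul]
    linear_combination C g₂ * h₁ - C g₁ * h₂
  have sN : N.Separable :=
    separable_of_pow_five h5 hab (mul_ne_zero hg₂ hκ₁) (mul_ne_zero hg₁ hκ₂)
      (mul_ne_zero h2 hgd) hN
  have sD : D.Separable := separable_of_pow_five h5 hab hκ₁ hκ₂ hgd hD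
  -- coprimality
  have hL : IsCoprime (lin a) (lin b) := isCoprime_lin hab
  have hL5 : IsCoprime (C κ₁ * lin a ^ 5) (C κ₂ * lin b ^ 5) :=
    (isCoprime_mul_unit_left_left (isUnit_C_of_ne hκ₁) _ _).mpr
      ((isCoprime_mul_unit_left_right (isUnit_C_of_ne hκ₂) _ _).mpr hL.pow)
  have cND : IsCoprime N D :=
    isCoprime_of_combo hL5 ⟨C 2, -C g₁, by linear_combination -h₁⟩
      ⟨C 2, -C g₂, by linear_combination -h₂⟩
  have cND' : IsCoprime N (C g₁ * D) :=
    (isCoprime_mul_unit_left_right (isUnit_C_of_ne hg₁) _ _).mpr cND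
  have cND'' : IsCoprime N (C g₂ * D) :=
    (isCoprime_mul_unit_left_right (isUnit_C_of_ne hg₂) _ _).mpr cND
  have cN2D : IsCoprime (C 2 * N) D :=
    (isCoprime_mul_unit_left_left (isUnit_C_of_ne h2) _ _).mpr cND
  have cNa : IsCoprime N (lin a) :=
    isCoprime_of_combo cND' ⟨1, 0, by ring⟩
      ⟨C 2, -(C κ₁ * lin a ^ 4), by linear_combination -h₁⟩
  have cNb : IsCoprime N (lin b) :=
    isCoprime_of_combo cND'' ⟨1, 0, by ring⟩
      ⟨C 2, -(C κ₂ * lin b ^ 4), by linear_combination -h₂⟩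
  have cDa : IsCoprime D (lin a) :=
    isCoprime_of_combo cN2D.symm ⟨1, 0, by ring⟩
      ⟨C g₁, C κ₁ * lin a ^ 4, by linear_combination h₁⟩
  have cDb : IsCoprime D (lin b) :=
    isCoprime_of_combo cN2D.symm ⟨1, 0, by ring⟩
      ⟨C g₂, C κ₂ * lin b ^ 4, by linear_combination h₂⟩
  exact ((sN.mul sD cND).mul (separable_lin a) (cNa.mul_left cDa)).mul (separable_lin b)
    ((cNb.mul_left cDb).mul_left hL)

end Fermat.Agent.S52.B3.H240

end
-- ===== PACK-END S52/B3/H240/Sep.lean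

-- ===== PACK-BEGIN S24/H324/Laurent.lean
section




/-!
# S24 / ALG (helper324) — Laurent series: "vanishing below `N`" calculus

`VanishBelow N A` says that all coefficients of `A` of index `< N` vanish.  This is a
junk-free replacement of `N ≤ A.order` (which misbehaves for `A = 0`).
-/

set_option autoImplicit false

namespace Fermat.Agent.S24.H324

open HahnSeries

variable {C : Type*} [Field C]

/-- All coefficients of index `< N` vanish. -/
def VanishBelow (N : ℤ) (A : LaurentSeries C) : Prop := ∀ i : ℤ, i < N → A.coeff i = 0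

theorem vanishBelow_zero (N : ℤ) : VanishBelow N (0 : LaurentSeries C) := fun _ _ => rfl

theorem VanishBelow.mono {N M : ℤ} {A : LaurentSeries C} (h : VanishBelow N A) (hMN : M ≤ N) :
    VanishBelow M A := fun i hi => h i (lt_of_lt_of_le hi hMN)

theorem VanishBelow.add {N : ℤ} {A B : LaurentSeries C} (hA : VanishBelow N A)
    (hB : VanishBelow N B) : VanishBelow N (A + B) := fun i hi => by
  rw [coeff_add, hA i hi, hB i hi, add_zero]

theorem VanishBelow.neg {N : ℤ} {A : LaurentSeries C} (hA : VanishBelow N A) :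
    VanishBelow N (-A) := fun i hi => by
  rw [coeff_neg, hA i hi, neg_zero]

theorem VanishBelow.sub {N : ℤ} {A B : LaurentSeries C} (hA : VanishBelow N A)
    (hB : VanishBelow N B) : VanishBelow N (A - B) := fun i hi => by
  rw [coeff_sub, hA i hi, hB i hi, sub_zero]

theorem vanishBelow_order (A : LaurentSeries C) : VanishBelow A.order A :=
  fun _ hi => coeff_eq_zero_of_lt_order hi

theorem vanishBelow_of_le_order {N : ℤ} {A : LaurentSeries C} (h : N ≤ A.order) :
    VanishBelow N A := (vanishBelow_order A).mono h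

theorem VanishBelow.le_order {N : ℤ} {A : LaurentSeries C} (h : VanishBelow N A) (hA : A ≠ 0) :
    N ≤ A.order := by
  by_contra hlt
  exact hA (coeff_order_eq_zero.mp (h _ (lt_of_not_ge hlt)))

theorem vanishBelow_iff {N : ℤ} {A : LaurentSeries C} (hA : A ≠ 0) :
    VanishBelow N A ↔ N ≤ A.order :=
  ⟨fun h => h.le_order hA, vanishBelow_of_le_order⟩

theorem VanishBelow.mul {N M : ℤ} {A B : LaurentSeries C} (hA : VanishBelow N A)
    (hB : VanishBelow M B) : VanishBelow (N + M) (A * B) := by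
  rcases eq_or_ne A 0 with rfl | hA0
  · rw [zero_mul]; exact vanishBelow_zero _
  rcases eq_or_ne B 0 with rfl | hB0
  · rw [mul_zero]; exact vanishBelow_zero _
  apply vanishBelow_of_le_order
  rw [order_mul hA0 hB0]
  exact add_le_add (hA.le_order hA0) (hB.le_order hB0)

/-- Cancellation of a nonzero factor. -/
theorem VanishBelow.of_mul_right {N : ℤ} {A B : LaurentSeries C} (hB : B ≠ 0)
    (h : VanishBelow N (A * B)) : VanishBelow (N - B.order) A := by
  rcases eq_or_ne A 0 with rfl | hA0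
  · exact vanishBelow_zero _
  apply vanishBelow_of_le_order
  have := h.le_order (mul_ne_zero hA0 hB)
  rw [order_mul hA0 hB] at this
  omega

theorem eq_zero_of_forall_vanishBelow {A : LaurentSeries C}
    (h : ∀ N : ℕ, VanishBelow (N : ℤ) A) : A = 0 := by
  ext i
  have := h (i + 1).toNat i (by omega)
  simpa using this

theorem vanishBelow_sum {ι : Type*} (s : Finset ι) (N : ℤ) (A : ι → LaurentSeries C)
    (h : ∀ i ∈ s, VanishBelow N (A i)) : VanishBelow N (∑ i ∈ s, A i) := by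
  classical
  induction s using Finset.induction_on with
  | empty => simpa using vanishBelow_zero N
  | insert a s ha ih =>
    rw [Finset.sum_insert ha]
    exact (h a (Finset.mem_insert_self a s)).add
      (ih fun i hi => h i (Finset.mem_insert_of_mem hi))

theorem coeff_sum' {ι : Type*} (s : Finset ι) (A : ι → LaurentSeries C) (n : ℤ) :
    (∑ i ∈ s, A i).coeff n = ∑ i ∈ s, (A i).coeff n := by
  classical
  induction s using Finset.induction_on with
  | empty => simp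
  | insert a s ha ih => rw [Finset.sum_insert ha, Finset.sum_insert ha, coeff_add, ih]

theorem leadingCoeff_pow' (A : LaurentSeries C) (n : ℕ) :
    (A ^ n).leadingCoeff = A.leadingCoeff ^ n := by
  induction n with
  | zero => simp
  | succ n ih => rw [pow_succ, pow_succ, leadingCoeff_mul, ih]

theorem order_pow' (A : LaurentSeries C) (n : ℕ) : (A ^ n).order = n * A.order := by
  rw [order_pow, nsmul_eq_mul]

/-- The "geometric sum" `∑_{l<e} P^l Q^(e-1-l)` of two series with the same order `g` and the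
same leading coefficient is nonzero of order `g (e - 1)` (characteristic zero). -/
theorem geomSum_ne_zero_and_order [CharZero C] {P Q : LaurentSeries C} {g : ℤ}
    (hP0 : P ≠ 0) (hQ0 : Q ≠ 0) (hP : P.order = g) (hQ : Q.order = g)
    (hlc : P.leadingCoeff = Q.leadingCoeff) (e : ℕ) (he : 0 < e) :
    (∑ l ∈ Finset.range e, P ^ l * Q ^ (e - 1 - l)) ≠ 0 ∧
      (∑ l ∈ Finset.range e, P ^ l * Q ^ (e - 1 - l)).order = g * ((e : ℤ) - 1) := by
  set S := ∑ l ∈ Finset.range e, P ^ l * Q ^ (e - 1 - l) with hS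
  have hterm_ne : ∀ l, P ^ l * Q ^ (e - 1 - l) ≠ 0 := fun l =>
    mul_ne_zero (pow_ne_zero _ hP0) (pow_ne_zero _ hQ0)
  have hterm_ord : ∀ l ∈ Finset.range e, (P ^ l * Q ^ (e - 1 - l)).order = g * ((e : ℤ) - 1) := by
    intro l hl
    have hl' : l < e := Finset.mem_range.mp hl
    rw [order_mul (pow_ne_zero _ hP0) (pow_ne_zero _ hQ0), order_pow', order_pow', hP, hQ]
    have : ((e - 1 - l : ℕ) : ℤ) = (e : ℤ) - 1 - l := by omega
    rw [this]; ring
  have hterm_lc : ∀ l ∈ Finset.range e,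
      (P ^ l * Q ^ (e - 1 - l)).coeff (g * ((e : ℤ) - 1)) = P.leadingCoeff ^ (e - 1) := by
    intro l hl
    have hl' : l < e := Finset.mem_range.mp hl
    rw [← hterm_ord l hl, ← leadingCoeff_eq, leadingCoeff_mul, leadingCoeff_pow',
      leadingCoeff_pow', ← hlc, ← _root_.pow_add]
    congr 1
    omega
  have hcoeff : S.coeff (g * ((e : ℤ) - 1)) = (e : C) * P.leadingCoeff ^ (e - 1) := by
    rw [hS, coeff_sum', Finset.sum_congr rfl hterm_lc, Finset.sum_const, Finset.card_range,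
      nsmul_eq_mul]
  have hne : S.coeff (g * ((e : ℤ) - 1)) ≠ 0 := by
    rw [hcoeff]
    refine mul_ne_zero (Nat.cast_ne_zero.mpr he.ne') (pow_ne_zero _ ?_)
    exact leadingCoeff_ne_zero.mpr hP0
  have hS0 : S ≠ 0 := by
    intro h
    rw [h] at hne
    exact hne rfl
  refine ⟨hS0, le_antisymm (order_le_of_coeff_ne_zero hne) ?_⟩
  have hV : VanishBelow (g * ((e : ℤ) - 1)) S :=
    vanishBelow_sum _ _ _ fun l hl => vanishBelow_of_le_order (hterm_ord l hl).ge
  exact hV.le_order hS0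

end Fermat.Agent.S24.H324

end
-- ===== PACK-END S24/H324/Laurent.lean

-- ===== PACK-BEGIN S17/H857/WeakMW.lean
section




/-!
# S17, piece W-KUM (helper857): weak Mordell–Weil from its inputs

The Kummer/pigeonhole argument, pure algebra + infinite Galois theory.

* `finiteIndex_of_pigeonhole` : a subgroup `H` of `A` such that some map `f : A → Φ` into a finite
  type satisfies `f a = f b → a - b ∈ H` has finite index.
* `weakMW_abstract` : for any `G_ℚ`-module `J` with finite `n`-torsion, `n`-divisible, all of whose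
  elements have open stabiliser, and such that the `n`-division points of the fixed points are
  unramified outside a finite set `S`, Hermite–Minkowski (as a hypothesis) implies that
  `n • J^G` has finite index in `J^G`.
* `weakMW_of` : the skeleton statement `Skel.weakMW_of` (definitions `WeakMW`, `MW`, `UnramifiedAt`
  unfolded).
-/

set_option autoImplicit false

noncomputable section

namespace Fermat.Agent.S17.H857

open ModularCurve AlgebraicCurve

/-- Pigeonhole: if `f : A → Φ`, `Φ` finite, separates the cosets of `H`, then `H` has finite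
index. -/
theorem finiteIndex_of_pigeonhole {A : Type*} [AddCommGroup A] (H : AddSubgroup A) {Φ : Type*}
    [Finite Φ] (f : A → Φ) (hf : ∀ a b : A, f a = f b → a - b ∈ H) : H.FiniteIndex := by
  haveI : Finite (A ⧸ H) := by
    refine Finite.of_injective (fun q : A ⧸ H => f q.out) ?_
    intro q q' hqq'
    have h := hf _ _ hqq'
    have h1 : (QuotientAddGroup.mk q.out : A ⧸ H) = QuotientAddGroup.mk q'.out := by
      rw [QuotientAddGroup.eq]
      have : -q.out + q'.out = -(q.out - q'.out) := by abel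
      rw [this]
      exact H.neg_mem h
    simpa using h1
  exact AddSubgroup.finiteIndex_of_finite_quotient

/-- `ℚ̄` -/
abbrev Qb : Type := AlgebraicClosure ℚ

/-- the absolute Galois group of `ℚ` -/
abbrev GQ : Type := Qb ≃ₐ[ℚ] Qb

theorem isGalois_Qb : IsGalois ℚ Qb := by
  haveI : Algebra.IsAlgebraic ℚ (AlgebraicClosure ℚ) := AlgebraicClosure.isAlgebraic ℚ
  haveI : IsAlgClosure ℚ (AlgebraicClosure ℚ) := ⟨inferInstance, inferInstance⟩
  exact IsAlgClosure.isGalois ℚ Qb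

section Abstract

variable {J : Type*} [AddCommGroup J] [DistribMulAction GQ J]

/-- The stabiliser of an element with open stabiliser is the fixing subgroup of its fixed field. -/
theorem fixingSubgroup_fixedField_stabilizer (y : J)
    (hstab : ∃ K : IntermediateField ℚ Qb, FiniteDimensional ℚ K ∧
      ∀ σ : GQ, (∀ a ∈ K, σ a = a) → σ • y = y) :
    (IntermediateField.fixedField (MulAction.stabilizer GQ y)).fixingSubgroup =
      MulAction.stabilizer GQ y := by
  haveI := isGalois_Qb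
  obtain ⟨K, hK, hKy⟩ := hstab
  have hle : K.fixingSubgroup ≤ MulAction.stabilizer GQ y := by
    intro σ hσ
    rw [MulAction.mem_stabilizer_iff]
    exact hKy σ ((IntermediateField.mem_fixingSubgroup_iff K σ).mp hσ)
  have hopen : IsOpen (MulAction.stabilizer GQ y : Set GQ) :=
    Subgroup.isOpen_mono hle K.fixingSubgroup_isOpen
  have hclosed : IsClosed (MulAction.stabilizer GQ y : Set GQ) :=
    Subgroup.isClosed_of_isOpen _ hopen
  exact InfiniteGalois.fixingSubgroup_fixedField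
    (⟨MulAction.stabilizer GQ y, hclosed⟩ : ClosedSubgroup GQ)

/-- The fixed field of the stabiliser is a number field. -/
theorem finiteDimensional_fixedField_stabilizer (y : J)
    (hstab : ∃ K : IntermediateField ℚ Qb, FiniteDimensional ℚ K ∧
      ∀ σ : GQ, (∀ a ∈ K, σ a = a) → σ • y = y) :
    FiniteDimensional ℚ (IntermediateField.fixedField (MulAction.stabilizer GQ y)) := by
  haveI := isGalois_Qb
  obtain ⟨K, hK, hKy⟩ := hstab
  have hle : K.fixingSubgroup ≤ MulAction.stabilizer GQ y := by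
    intro σ hσ
    rw [MulAction.mem_stabilizer_iff]
    exact hKy σ ((IntermediateField.mem_fixingSubgroup_iff K σ).mp hσ)
  have hKK : IntermediateField.fixedField (MulAction.stabilizer GQ y) ≤ K := by
    have h1 := IntermediateField.fixedField_antitone hle
    rwa [InfiniteGalois.fixedField_fixingSubgroup] at h1
  exact Module.Finite.of_injective (IntermediateField.inclusion hKK).toLinearMap
    (IntermediateField.inclusion hKK).injective

/-- Weak Mordell–Weil, abstract form. -/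
theorem weakMW_abstract (n : ℕ)
    (hstab : ∀ x : J, ∃ K : IntermediateField ℚ Qb, FiniteDimensional ℚ K ∧
      ∀ σ : GQ, (∀ a ∈ K, σ a = a) → σ • x = x)
    (T : AddSubgroup J) (hT : ∀ x : J, x ∈ T ↔ n • x = 0) [Finite T]
    (hdiv : ∀ x : J, ∃ y : J, n • y = x)
    (S : Finset ℕ)
    (hunr : ∀ ℓ : ℕ, ℓ.Prime → ℓ ∉ S → ∀ A : ValuationSubring Qb, A.LiesOverPrime ℓ →
      ∀ σ ∈ A.inertiaSubgroupIn ℚ, ∀ y : J, n • y ∈ FixedPoints.addSubgroup GQ J → σ • y = y)
    (hHM : ∀ d : ℕ, {K : IntermediateField ℚ Qb | FiniteDimensional ℚ K ∧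
      Module.finrank ℚ K ≤ d ∧ ∀ ℓ : ℕ, ℓ.Prime → ℓ ∉ S →
        ∀ A : ValuationSubring Qb, A.LiesOverPrime ℓ → ∀ σ ∈ A.inertiaSubgroupIn ℚ,
          ∀ a ∈ K, σ a = a}.Finite) :
    (nsmulAddMonoidHom n :
      FixedPoints.addSubgroup GQ J →+ FixedPoints.addSubgroup GQ J).range.FiniteIndex := by
  classical
  haveI := isGalois_Qb
  have hfin := hHM (Nat.card T)
  set HM : Set (IntermediateField ℚ Qb) := {K : IntermediateField ℚ Qb | FiniteDimensional ℚ K ∧
      Module.finrank ℚ K ≤ Nat.card T ∧ ∀ ℓ : ℕ, ℓ.Prime → ℓ ∉ S →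
        ∀ A : ValuationSubring Qb, A.LiesOverPrime ℓ → ∀ σ ∈ A.inertiaSubgroupIn ℚ,
          ∀ a ∈ K, σ a = a} with hHMdef
  -- the compositum of the Hermite–Minkowski set
  set M : IntermediateField ℚ Qb := ⨆ K ∈ hfin.toFinset, K with hM
  haveI hMfd : FiniteDimensional ℚ M :=
    IntermediateField.finiteDimensional_iSup_of_finset'
      (fun K hK => (hfin.mem_toFinset.mp hK).1)
  -- torsion differences
  have htorsdiff : ∀ y : J, n • y ∈ FixedPoints.addSubgroup GQ J → ∀ σ : GQ,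
      σ • y - y ∈ T := by
    intro y hy σ
    rw [hT, smul_sub, ← smul_comm σ n y, (FixedPoints.mem_addSubgroup GQ J _).mp hy σ, sub_self]
  -- every `n`-division point of a fixed point is fixed by `Gal(ℚ̄/M)`
  have key : ∀ y : J, n • y ∈ FixedPoints.addSubgroup GQ J → ∀ σ : GQ,
      σ ∈ M.fixingSubgroup → σ • y = y := by
    intro y hy σ hσ
    have hfix := fixingSubgroup_fixedField_stabilizer y (hstab y)
    have hKy_mem : IntermediateField.fixedField (MulAction.stabilizer GQ y) ∈ HM := by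
      refine ⟨finiteDimensional_fixedField_stabilizer y (hstab y), ?_, ?_⟩
      · rw [IntermediateField.finrank_eq_fixingSubgroup_index Qb, hfix,
          MulAction.index_stabilizer, ← Nat.card_coe_set_eq]
        refine Nat.card_le_card_of_injective
          (fun z : MulAction.orbit GQ y => (⟨(z : J) - y, ?_⟩ : T)) ?_
        · obtain ⟨σ', hσ'⟩ := z.2
          rw [← hσ']
          exact htorsdiff y hy σ'
        · intro z z' hzz'
          have := congrArg (fun w : T => (w : J)) hzz'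
          simp only [sub_left_inj] at this
          exact Subtype.ext this
      · intro ℓ hℓ hℓS A hA τ hτ a ha
        have hτy : τ • y = y := hunr ℓ hℓ hℓS A hA τ hτ y hy
        exact (IntermediateField.mem_fixedField_iff _ a).mp ha τ
          (MulAction.mem_stabilizer_iff.mpr hτy)
    have hKyM : IntermediateField.fixedField (MulAction.stabilizer GQ y) ≤ M :=
      le_iSup₂_of_le (f := fun K (_ : K ∈ hfin.toFinset) => K) _
        (hfin.mem_toFinset.mpr hKy_mem) le_rfl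
    have h1 : σ ∈ (IntermediateField.fixedField (MulAction.stabilizer GQ y)).fixingSubgroup :=
      IntermediateField.fixingSubgroup_antitone hKyM hσ
    rw [hfix] at h1
    exact MulAction.mem_stabilizer_iff.mp h1
  -- restriction to `M`
  haveI : Finite (M →ₐ[ℚ] Qb) := inferInstance
  let res : GQ → (M →ₐ[ℚ] Qb) := fun σ => (σ : Qb →ₐ[ℚ] Qb).comp M.val
  have hres : ∀ σ τ : GQ, res σ = res τ → σ⁻¹ * τ ∈ M.fixingSubgroup := by
    intro σ τ h
    rw [IntermediateField.mem_fixingSubgroup_iff]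
    intro a ha
    have := congrArg (fun e : M →ₐ[ℚ] Qb => e ⟨a, ha⟩) h
    change σ a = τ a at this
    rw [AlgEquiv.mul_apply, ← this]
    exact σ.symm_apply_apply a
  have hsame : ∀ y : J, n • y ∈ FixedPoints.addSubgroup GQ J → ∀ σ τ : GQ, res σ = res τ →
      σ • y = τ • y := by
    intro y hy σ τ h
    have := key y hy _ (hres σ τ h)
    rw [mul_smul, inv_smul_eq_iff] at this
    exact this.symm
  choose ydiv hydiv using hdiv
  have hyMW : ∀ x : FixedPoints.addSubgroup GQ J,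
      n • ydiv (x : J) ∈ FixedPoints.addSubgroup GQ J := by
    intro x
    rw [hydiv]
    exact x.2
  let f : FixedPoints.addSubgroup GQ J → ((M →ₐ[ℚ] Qb) → T) := fun x e =>
    if h : ∃ σ : GQ, res σ = e then
      ⟨h.choose • ydiv (x : J) - ydiv (x : J), htorsdiff _ (hyMW x) _⟩
    else 0
  refine finiteIndex_of_pigeonhole _ f ?_
  intro x x' hxx'
  have hz : ydiv (x : J) - ydiv (x' : J) ∈ FixedPoints.addSubgroup GQ J := by
    rw [FixedPoints.mem_addSubgroup]
    intro σ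
    have hex : ∃ σ' : GQ, res σ' = res σ := ⟨σ, rfl⟩
    have h1 := congrFun hxx' (res σ)
    simp only [f, dif_pos hex] at h1
    have h2 := congrArg (fun w : T => (w : J)) h1
    simp only at h2
    rw [hsame _ (hyMW x) _ _ hex.choose_spec, hsame _ (hyMW x') _ _ hex.choose_spec] at h2
    rw [smul_sub]
    exact sub_eq_sub_iff_sub_eq_sub.mp h2
  refine ⟨⟨_, hz⟩, ?_⟩
  apply Subtype.ext
  simp only [nsmulAddMonoidHom_apply, AddSubgroup.coe_nsmul, AddSubgroup.coe_sub, smul_sub, hydiv]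

end Abstract

/-- **W-KUM** (skeleton statement `Skel.weakMW_of`, with `WeakMW`, `MW`, `UnramifiedAt`
unfolded). Weak Mordell–Weil for `J₀(N)` from its inputs. -/
theorem weakMW_of (N : ℕ) [NeZero N] (n : ℕ) (hn : n ≠ 0)
    (hstab : ∀ x : JZero N, ∃ K : IntermediateField ℚ Qb, FiniteDimensional ℚ K ∧
      ∀ σ : GQ, (∀ a ∈ K, σ a = a) → σ • x = x)
    (htors : Finite (Pic0.torsion Qb (modularFunctionFieldBar N) n))
    (hdiv : ∀ x : JZero N, ∃ y : JZero N, n • y = x)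
    (S : Finset ℕ)
    (hunr : ∀ ℓ : ℕ, ℓ.Prime → ℓ ∉ S → ∀ A : ValuationSubring Qb, A.LiesOverPrime ℓ →
      ∀ σ ∈ A.inertiaSubgroupIn ℚ, ∀ y : JZero N,
        n • y ∈ FixedPoints.addSubgroup GQ (JZero N) → σ • y = y)
    (hHM : ∀ d : ℕ, {K : IntermediateField ℚ Qb | FiniteDimensional ℚ K ∧
      Module.finrank ℚ K ≤ d ∧ ∀ ℓ : ℕ, ℓ.Prime → ℓ ∉ S →
        ∀ A : ValuationSubring Qb, A.LiesOverPrime ℓ → ∀ σ ∈ A.inertiaSubgroupIn ℚ,
          ∀ a ∈ K, σ a = a}.Finite) :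
    (nsmulAddMonoidHom n : FixedPoints.addSubgroup GQ (JZero N) →+
      FixedPoints.addSubgroup GQ (JZero N)).range.FiniteIndex := by
  haveI := htors
  refine weakMW_abstract (J := JZero N) n hstab (Pic0.torsion Qb (modularFunctionFieldBar N) n)
    (fun x => ?_) hdiv S hunr hHM
  rw [Pic0.mem_torsion, natCast_zsmul]

end Fermat.Agent.S17.H857

end
end
-- ===== PACK-END S17/H857/WeakMW.lean

-- ===== PACK-BEGIN S17/H980/Siegel.lean
section


/-!
# Siegel's lemma in Plücker form (piece MINK of S17 / tower H, helper980)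

Mathlib-only.  For an integer matrix `B` (`d × n`, `d < n`) with a non-vanishing maximal minor there
is a non-zero integer vector `a` in the kernel of `B` with

  `‖a‖_∞ ≤ k * H ^ (1 / k)`,   `k = n - d`,  `H = max |maximal minors of B|`.

The proof is the pigeonhole principle (no measure theory): choose the maximal minor `B₁` of largest
absolute value; the `(T + 1) ^ k` vectors of the box `{0, …, T} ^ k` (free coordinates) are mapped to
the finite group `ℤ ^ d / B₁ ℤ ^ d` of order `|det B₁|`; Cramer's rule bounds the remaining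
coordinates because all ratios of maximal minors are `≤ 1` in absolute value.

Main statements:
* `exists_small_kernel_block` : block form `[B₁ | B₂]`, `B₁` square.
* `exists_small_kernel` : general form, minors indexed by embeddings `Fin d ↪ ι`.
-/

set_option autoImplicit false

open Matrix

namespace Fermat.Agent.S17.H980

section Block

variable {ι₁ ι₂ : Type*} [Fintype ι₁] [DecidableEq ι₁] [Fintype ι₂] [DecidableEq ι₂]

/-- The index of the lattice `B₁ ℤ^d` in `ℤ^d` is `|det B₁|`. -/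
theorem card_quotient_range_mulVecLin (B₁ : Matrix ι₁ ι₁ ℤ) (hdet : B₁.det ≠ 0) :
    Nat.card ((ι₁ → ℤ) ⧸ LinearMap.range (Matrix.toLin' B₁)) = B₁.det.natAbs := by
  have hinj : Function.Injective (Matrix.toLin' B₁) := by
    rw [← LinearMap.ker_eq_bot, LinearMap.ker_eq_bot']
    intro v hv
    exact Matrix.eq_zero_of_mulVec_eq_zero hdet (by simpa using hv)
  let e : (ι₁ → ℤ) ≃ₗ[ℤ] LinearMap.range (Matrix.toLin' B₁) := LinearEquiv.ofInjective _ hinj
  have h := Submodule.natAbs_det_equiv (LinearMap.range (Matrix.toLin' B₁)) e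
  rw [← h]
  congr 1
  rw [← LinearMap.det_toLin' B₁]
  congr 1

/-- **Pigeonhole step.**  If `|det B₁| < (T + 1) ^ k` (`k = #ι₂`), there are integer vectors
`a₁`, `a₂ ≠ 0` with `B₁ a₁ + B₂ a₂ = 0` and `|a₂ i| ≤ T`. -/
theorem exists_small_kernel_pigeonhole (B₁ : Matrix ι₁ ι₁ ℤ) (B₂ : Matrix ι₁ ι₂ ℤ)
    (hdet : B₁.det ≠ 0) (T : ℕ) (hT : B₁.det.natAbs < (T + 1) ^ Fintype.card ι₂) :
    ∃ (a₁ : ι₁ → ℤ) (a₂ : ι₂ → ℤ), a₂ ≠ 0 ∧ B₁ *ᵥ a₁ + B₂ *ᵥ a₂ = 0 ∧ ∀ i, |a₂ i| ≤ T := by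
  classical
  set N := LinearMap.range (Matrix.toLin' B₁) with hN
  have hcard : Nat.card ((ι₁ → ℤ) ⧸ N) = B₁.det.natAbs := card_quotient_range_mulVecLin B₁ hdet
  have hfin : Finite ((ι₁ → ℤ) ⧸ N) := by
    apply Nat.finite_of_card_ne_zero
    rw [hcard]
    exact Int.natAbs_ne_zero.mpr hdet
  -- the box
  let f : (ι₂ → Fin (T + 1)) → (ι₁ → ℤ) ⧸ N := fun c =>
    Submodule.Quotient.mk (B₂ *ᵥ (fun i => ((c i : ℕ) : ℤ)))
  letI : Fintype ((ι₁ → ℤ) ⧸ N) := Fintype.ofFinite _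
  have hlt : Fintype.card ((ι₁ → ℤ) ⧸ N) < Fintype.card (ι₂ → Fin (T + 1)) := by
    rw [← Nat.card_eq_fintype_card, hcard, Fintype.card_fun, Fintype.card_fin]
    exact hT
  obtain ⟨c, c', hne, hcc'⟩ := Fintype.exists_ne_map_eq_of_card_lt f hlt
  -- the difference
  let a₂ : ι₂ → ℤ := fun i => ((c i : ℕ) : ℤ) - ((c' i : ℕ) : ℤ)
  have ha₂ : a₂ ≠ 0 := by
    intro h
    apply hne
    funext i
    have := congrFun h i
    simp only [a₂, Pi.zero_apply, sub_eq_zero] at this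
    exact Fin.ext (by exact_mod_cast this)
  have hmem : B₂ *ᵥ a₂ ∈ N := by
    have h1 : B₂ *ᵥ a₂ = B₂ *ᵥ (fun i => ((c i : ℕ) : ℤ)) - B₂ *ᵥ (fun i => ((c' i : ℕ) : ℤ)) := by
      rw [← Matrix.mulVec_sub]; rfl
    rw [h1, ← Submodule.Quotient.eq]
    exact hcc'
  obtain ⟨b, hb⟩ := hmem
  refine ⟨-b, a₂, ha₂, ?_, ?_⟩
  · rw [Matrix.mulVec_neg, ← hb]
    simp [Matrix.toLin'_apply]
  · intro i
    have h1 : ((c i : ℕ) : ℤ) ≤ T := by exact_mod_cast Nat.lt_succ_iff.mp (c i).2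
    have h2 : ((c' i : ℕ) : ℤ) ≤ T := by exact_mod_cast Nat.lt_succ_iff.mp (c' i).2
    have h3 : (0 : ℤ) ≤ ((c i : ℕ) : ℤ) := Int.natCast_nonneg _
    have h4 : (0 : ℤ) ≤ ((c' i : ℕ) : ℤ) := Int.natCast_nonneg _
    simp only [a₂]
    rw [abs_le]
    constructor <;> omega

omit [DecidableEq ι₂] in
/-- **Cramer step.**  If all the determinants obtained from `B₁` by replacing one column by a
column of `B₂` are bounded by `|det B₁|`, then `B₁ a₁ + B₂ a₂ = 0` and `|a₂ i| ≤ T` imply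
`|a₁ j| ≤ k T`. -/
theorem abs_le_of_cramer (B₁ : Matrix ι₁ ι₁ ℤ) (B₂ : Matrix ι₁ ι₂ ℤ) (hdet : B₁.det ≠ 0)
    (hmax : ∀ (j : ι₁) (i : ι₂), |(B₁.updateCol j (fun r => B₂ r i)).det| ≤ |B₁.det|)
    (a₁ : ι₁ → ℤ) (a₂ : ι₂ → ℤ) (h : B₁ *ᵥ a₁ + B₂ *ᵥ a₂ = 0) (T : ℕ) (hT : ∀ i, |a₂ i| ≤ T)
    (j : ι₁) : |a₁ j| ≤ Fintype.card ι₂ * T := by
  -- `det B₁ • a₁ = cramer B₁ (B₁ a₁) = - cramer B₁ (B₂ a₂)`
  have h1 : B₁ *ᵥ a₁ = -(B₂ *ᵥ a₂) := eq_neg_of_add_eq_zero_left h
  have h2 : B₁.det • a₁ = B₁.cramer (B₁ *ᵥ a₁) := by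
    rw [Matrix.cramer_eq_adjugate_mulVec, Matrix.mulVec_mulVec, Matrix.adjugate_mul,
      Matrix.smul_mulVec, Matrix.one_mulVec]
  have h3 : B₂ *ᵥ a₂ = ∑ i, a₂ i • (fun r => B₂ r i) := by
    funext r
    simp [Matrix.mulVec, dotProduct, mul_comm]
  have h4 : B₁.det * a₁ j = -∑ i, a₂ i * (B₁.updateCol j (fun r => B₂ r i)).det := by
    have := congrFun h2 j
    rw [h1, h3, map_neg, map_sum] at this
    simp only [Pi.smul_apply, smul_eq_mul, Pi.neg_apply, Finset.sum_apply, map_smul,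
      Matrix.cramer_apply] at this
    exact this
  have h5 : |B₁.det| * |a₁ j| ≤ |B₁.det| * (Fintype.card ι₂ * T) := by
    rw [← abs_mul, h4, abs_neg]
    calc |∑ i, a₂ i * (B₁.updateCol j (fun r => B₂ r i)).det|
        ≤ ∑ i, |a₂ i * (B₁.updateCol j (fun r => B₂ r i)).det| := Finset.abs_sum_le_sum_abs _ _
      _ ≤ ∑ _i : ι₂, (T : ℤ) * |B₁.det| := by
          apply Finset.sum_le_sum
          intro i _
          rw [abs_mul]
          exact mul_le_mul (hT i) (hmax j i) (abs_nonneg _) (by positivity)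
      _ = |B₁.det| * (Fintype.card ι₂ * T) := by
          rw [Finset.sum_const, Finset.card_univ, nsmul_eq_mul]; ring
  exact le_of_mul_le_mul_left h5 (abs_pos.mpr hdet)

end Block

section General

variable {ι₁ ι : Type*} [Fintype ι₁] [DecidableEq ι₁] [Fintype ι] [DecidableEq ι]

/-- The maximal minor of `B` attached to a choice `e` of columns. -/
def minor (B : Matrix ι₁ ι ℤ) (e : ι₁ ↪ ι) : ℤ := (B.submatrix id e).det

/-- Replacing the `j`-th chosen column by a column outside the range is again a choice of columns. -/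
def updateEmb (e : ι₁ ↪ ι) (j : ι₁) (i : ι) (hi : i ∉ Set.range e) : ι₁ ↪ ι where
  toFun := Function.update e j i
  inj' := by
    intro x y hxy
    by_cases hx : x = j
    · by_cases hy : y = j
      · rw [hx, hy]
      · exfalso
        rw [hx, Function.update_self, Function.update_of_ne hy] at hxy
        exact hi ⟨y, hxy.symm⟩
    · by_cases hy : y = j
      · exfalso
        rw [hy, Function.update_self, Function.update_of_ne hx] at hxy
        exact hi ⟨x, hxy⟩
      · rw [Function.update_of_ne hx, Function.update_of_ne hy] at hxy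
        exact e.injective hxy

theorem minor_updateEmb (B : Matrix ι₁ ι ℤ) (e : ι₁ ↪ ι) (j : ι₁) (i : ι) (hi : i ∉ Set.range e) :
    minor B (updateEmb e j i hi) = ((B.submatrix id e).updateCol j (fun r => B r i)).det := by
  unfold minor
  congr 1
  ext r c
  by_cases hc : c = j
  · subst hc
    simp [updateEmb, Matrix.updateCol_apply]
  · simp [updateEmb, Matrix.updateCol_apply, hc, Function.update_of_ne hc]

/-- **Siegel's lemma in Plücker form** (integer version).  Let `B` be an integer matrix with fewer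
rows than columns, `k = #columns - #rows`, with a non-vanishing maximal minor, all maximal minors
bounded by `H`, and `H < (T + 1) ^ k`.  Then the kernel of `B` contains a non-zero integer vector
with all coordinates bounded by `k * T`. -/
theorem exists_small_kernel (B : Matrix ι₁ ι ℤ) (hcard : Fintype.card ι₁ < Fintype.card ι)
    (hne : ∃ e : ι₁ ↪ ι, minor B e ≠ 0) (H : ℕ) (hH : ∀ e : ι₁ ↪ ι, |minor B e| ≤ H)
    (T : ℕ) (hT : H < (T + 1) ^ (Fintype.card ι - Fintype.card ι₁)) :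
    ∃ a : ι → ℤ, a ≠ 0 ∧ B *ᵥ a = 0 ∧
      ∀ i, |a i| ≤ ((Fintype.card ι - Fintype.card ι₁ : ℕ) : ℤ) * T := by
  classical
  -- a column choice with maximal `|minor|`
  obtain ⟨e, -, hemax⟩ := Finset.exists_max_image (Finset.univ : Finset (ι₁ ↪ ι))
    (fun e => |minor B e|) (by obtain ⟨e, _⟩ := hne; exact ⟨e, Finset.mem_univ _⟩)
  have he0 : minor B e ≠ 0 := by
    obtain ⟨e', he'⟩ := hne
    have h1 := hemax e' (Finset.mem_univ _)
    have h2 : 0 < |minor B e'| := abs_pos.mpr he'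
    exact abs_pos.mp (lt_of_lt_of_le h2 h1)
  set k := Fintype.card ι - Fintype.card ι₁ with hk
  have hk1 : 1 ≤ k := by omega
  -- the complement of the chosen columns
  let ι₂ := {i : ι // i ∉ Set.range e}
  have hcard₂ : Fintype.card ι₂ = k := by
    have h1 : Fintype.card ι₂ = Fintype.card ι - Fintype.card {i : ι // i ∈ Set.range e} :=
      Fintype.card_subtype_compl _
    have h2 : Fintype.card {i : ι // i ∈ Set.range e} = Fintype.card ι₁ := by
      rw [← Fintype.card_congr (Equiv.ofInjective e e.injective)]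
    rw [h1, h2]
  let B₁ : Matrix ι₁ ι₁ ℤ := B.submatrix id e
  let B₂ : Matrix ι₁ ι₂ ℤ := B.submatrix id (fun i => i.1)
  have hdet : B₁.det ≠ 0 := he0
  have hT' : B₁.det.natAbs < (T + 1) ^ Fintype.card ι₂ := by
    rw [hcard₂]
    refine lt_of_le_of_lt ?_ hT
    have := hH e
    have h3 : ((B₁.det.natAbs : ℕ) : ℤ) ≤ H := by rw [Int.natCast_natAbs]; exact this
    exact_mod_cast h3
  obtain ⟨a₁, a₂, ha₂, hker, hbd⟩ := exists_small_kernel_pigeonhole B₁ B₂ hdet T hT'
  have hmax : ∀ (j : ι₁) (i : ι₂), |(B₁.updateCol j (fun r => B₂ r i)).det| ≤ |B₁.det| := by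
    intro j i
    have := hemax (updateEmb e j i.1 i.2) (Finset.mem_univ _)
    rw [minor_updateEmb] at this
    exact this
  have hbd₁ : ∀ j, |a₁ j| ≤ (k : ℤ) * T := by
    intro j
    have := abs_le_of_cramer B₁ B₂ hdet hmax a₁ a₂ hker T hbd j
    rw [hcard₂] at this
    exact this
  -- glue `a₁` and `a₂`
  let σ : ι₁ ⊕ ι₂ ≃ ι :=
    (Equiv.sumCongr (Equiv.ofInjective e e.injective) (Equiv.refl _)).trans
      (Equiv.Set.sumCompl (Set.range e))
  have hσl : ∀ j, σ (Sum.inl j) = e j := fun j => rfl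
  have hσr : ∀ i : ι₂, σ (Sum.inr i) = i.1 := fun i => rfl
  let a : ι → ℤ := fun i => Sum.elim a₁ a₂ (σ.symm i)
  have hal : ∀ j, a (e j) = a₁ j := by
    intro j
    simp only [a]
    rw [← hσl j, Equiv.symm_apply_apply]; rfl
  have har : ∀ i : ι₂, a i.1 = a₂ i := by
    intro i
    simp only [a]
    rw [← hσr i, Equiv.symm_apply_apply]; rfl
  refine ⟨a, ?_, ?_, ?_⟩
  · intro h
    apply ha₂
    funext i
    rw [← har i, h]; rfl
  · funext r
    have h1 : (B *ᵥ a) r = ∑ s : ι₁ ⊕ ι₂, B r (σ s) * a (σ s) := by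
      simp only [Matrix.mulVec, dotProduct]
      exact (Equiv.sum_comp σ (fun i => B r i * a i)).symm
    rw [h1, Fintype.sum_sum_type]
    simp only [hσl, hσr, hal, har]
    have h2 := congrFun hker r
    simp only [Pi.add_apply, Matrix.mulVec, dotProduct, Pi.zero_apply] at h2
    exact h2
  · intro i
    obtain ⟨s, rfl⟩ := σ.surjective i
    rcases s with j | i'
    · rw [hσl, hal]; exact hbd₁ j
    · rw [hσr, har]
      refine le_trans (hbd i') ?_
      have : (1 : ℤ) ≤ k := by exact_mod_cast hk1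
      nlinarith [Int.natCast_nonneg T]

end General

end Fermat.Agent.S17.H980

end
-- ===== PACK-END S17/H980/Siegel.lean

-- ===== PACK-BEGIN S17/H500/Package.lean
section






/-!
# S17 / tower H (architect helper500): the GLOBAL PAIRING PACKAGE  (definitions only)

Route H-D (`origin/helper500:coord/S17-H-helper500.md`, checked by helper680/110/380/980/920).
This file fixes the interface between

* the FORMAL layer  (`PairingPackage A` ⟹ inputs of `H737.descent_data_of_pairing_height`), and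
* the GEOMETRIC/LOCAL layer (construction of a `PairingPackage (MW N)` for `J₀(N)`).

Dictionary (for `A = MW N`, `F = ℚ̄(X₀(N))`, `∞` = the rational cusp, `x₀ = 1, …, x_r` a basis of
Galois-fixed functions of `L(m ∞)`):

* `Dv`   : effective Galois-invariant divisors (`∞` allowed);  `deg`, `cls D = [D - deg D • ∞]`;
* `Disj` : disjoint supports;  `Good D` : `D` reduced, avoiding `∞` and the ramification `Rt` of `t`;
* `N D`  : naive height `∑_P D(P) h(x P)`;  `pr D E = ∑ D(P) E(Q) hD(P,Q)` (diagonal height);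
* `Lin`  : nonzero rational linear forms `a ∈ L(m ∞)` ; `ht a` its height; `Z a = div a + m ∞`;
* `δ D = ∑_{P<Q} hD(P,Q)`, `K D = ∑_P (h(W P) - 2 h(x P))` (`W` = tangent Plücker vector w.r.t. `t`),
  `Pl D = h(x P₁ ∧ … ∧ x P_d)` (Plücker height of the annihilator of `L(m ∞ - D)`).

All constants are existential.  Everything here is complete (definitions only) and Mathlib-only.
-/

set_option autoImplicit false

namespace Fermat.Agent.S17.H500

/-- The global pairing package of route H-D on an abelian group `A`. -/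
structure PairingPackage (A : Type) [AddCommGroup A] where
  /-- effective rational divisors -/
  Dv : Type
  [instDv : AddCommMonoid Dv]
  /-- degree -/
  deg : Dv →+ ℕ
  /-- class of `D - deg D • ∞` -/
  cls : Dv →+ A
  /-- disjoint supports -/
  Disj : Dv → Dv → Prop
  /-- generic: reduced, avoiding `∞` and `Rt` -/
  Good : Dv → Prop
  /-- naive height -/
  N : Dv → ℝ
  /-- diagonal pairing -/
  pr : Dv → Dv → ℝ
  /-- off-diagonal self pairing -/
  δ : Dv → ℝ
  /-- tangent term -/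
  K : Dv → ℝ
  /-- Plücker height -/
  Pl : Dv → ℝ
  /-- nonzero rational linear forms -/
  Lin : Type
  /-- height of a linear form -/
  ht : Lin → ℝ
  /-- hyperplane section -/
  Z : Lin → Dv
  /-- degree of the embedding -/
  m : ℕ
  /-- degree of the representatives -/
  d : ℕ
  /-- genus -/
  g : ℕ
  /-- the point at infinity -/
  inf : Dv
  /-- the constant function `1` -/
  one : Lin
  /-- finite ramification divisor of the coordinate `t` -/
  Rt : Dv
  -- numerical conditions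
  one_le_g : 1 ≤ g
  two_g_le_d : 2 * g ≤ d
  four_d_le_m : 4 * d + 2 * g ≤ m
  -- structure
  disj_symm : ∀ D E, Disj D E → Disj E D
  disj_zero : ∀ E, Disj 0 E
  disj_add_left : ∀ D₁ D₂ E, Disj (D₁ + D₂) E ↔ Disj D₁ E ∧ Disj D₂ E
  deg_inf : deg inf = 1
  cls_inf : cls inf = 0
  deg_Z : ∀ a, deg (Z a) = m
  cls_Z : ∀ a, cls (Z a) = 0
  Z_one : Z one = m • inf
  ht_one : ht one = 0
  good_disj_inf : ∀ D, Good D → Disj D inf
  good_disj_Rt : ∀ D, Good D → Disj D Rt
  N_add : ∀ D E, N (D + E) = N D + N E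
  N_nonneg : ∀ D, 0 ≤ N D
  pr_symm : ∀ D E, pr D E = pr E D
  pr_add : ∀ D₁ D₂ E, Disj (D₁ + D₂) E → pr (D₁ + D₂) E = pr D₁ E + pr D₂ E
  /-- Northcott for the naive height on effective rational divisors of bounded degree -/
  northcott : ∀ (e : ℕ) (B : ℝ), {D : Dv | deg D ≤ e ∧ N D ≤ B}.Finite
  /-- (Mov1) generic representatives of degree `d` -/
  mov1 : ∀ (x : A) (T : Dv), ∃ D, deg D = d ∧ cls D = x ∧ Disj D T ∧ Good D
  /-- (Mov2) linear equivalence is realised by hyperplane sections with a common generic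
  residual divisor -/
  mov2 : ∀ D₁ D₂, deg D₁ = deg D₂ → deg D₁ + 2 * g ≤ m → cls D₁ = cls D₂ → ∀ T,
    ∃ (R : Dv) (a₁ a₂ : Lin), Z a₁ = D₁ + R ∧ Z a₂ = D₂ + R ∧ Disj R T
  /-- (E3) pairing with a hyperplane section, uniformly in the hyperplane -/
  e3 : ∃ C : ℝ, ∀ a E, Disj (Z a) E → |pr (Z a) E - (deg E * ht a + N E)| ≤ C * deg E
  /-- (BEZ) height of a hyperplane section -/
  bez : ∃ C : ℝ, ∀ a, |N (Z a) - m * ht a| ≤ C
  /-- (ADJ) (E3) at simple zeros, with the regularised self pairing -/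
  adj : ∃ C : ℝ, ∀ a D D', Good D → Z a = D + D' → Disj D D' →
    |2 * δ D - K D + pr D' D - (deg D * ht a + N D)| ≤ C * deg D
  /-- (GAUSS) the tangent term is the pairing with a canonical divisor -/
  gauss : ∃ C : ℝ, ∀ D, Good D →
    |K D - (pr Rt D - (((deg Rt : ℝ) - (2 * g - 2)) / m) * N D)| ≤ C * deg D
  /-- (VDM) Vandermonde bound for the Plücker height -/
  vdm : ∃ C : ℝ, ∀ D, Good D → deg D = d → Pl D ≤ N D - δ D + C
  /-- (MINK) a small rational section through `D` -/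
  mink : ∃ C : ℝ, ∀ D, Good D → deg D = d →
    ∃ (a : Lin) (D' : Dv), Z a = D + D' ∧ ((m : ℝ) - d + 1 - g) * ht a ≤ Pl D + C

attribute [instance] PairingPackage.instDv

namespace PairingPackage

variable {A : Type} [AddCommGroup A] (P : PairingPackage A)

/-- The normalised pairing `B(D,E) = (D - deg D ∞ . E - deg E ∞)` without the `(∞.∞)` term:
`pr D E - (deg D / m) N E - (deg E / m) N D`. -/
noncomputable def B (D E : P.Dv) : ℝ :=
  P.pr D E - ((P.deg D : ℝ) / P.m) * P.N E - ((P.deg E : ℝ) / P.m) * P.N D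

/-- The class function attached to the tangent term: `L D = pr Rt D - (deg Rt / m) N D`. -/
noncomputable def L (D : P.Dv) : ℝ :=
  P.pr P.Rt D - ((P.deg P.Rt : ℝ) / P.m) * P.N D

/-- `k = dim L(m ∞ - D) = m - d + 1 - g`. -/
noncomputable def k : ℝ := (P.m : ℝ) - P.d + 1 - P.g

/-! ## Statements of the formal leaves (Spec pattern: prove `theorem foo : FooStatement P`
from the hypotheses listed in `coord/S17-HSkel.md`) -/

/-- F-B: `B (Z a) E` is bounded; hence `B inf E` is bounded. -/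
def BZStatement : Prop :=
  ∃ C : ℝ, ∀ a E, P.Disj (P.Z a) E → |P.B (P.Z a) E| ≤ C * (P.deg E + 1)

/-- F-INV: `B` is a class function in each variable (equal degrees `≤ m - 2g`). -/
def InvStatement : Prop :=
  ∃ C : ℝ, ∀ D₁ D₂ E, P.deg D₁ = P.deg D₂ → P.deg D₁ + 2 * P.g ≤ P.m → P.cls D₁ = P.cls D₂ →
    P.Disj D₁ E → P.Disj D₂ E → |P.B D₁ E - P.B D₂ E| ≤ C * (P.deg E + 1)

/-- F-WD: a function `q` on `A` computing `-B/2` on all disjoint good representatives of
degree `d`. -/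
def WDStatement (q : A → ℝ) : Prop :=
  ∃ C : ℝ, ∀ (x : A) (D D' : P.Dv), P.deg D = P.d → P.deg D' = P.d → P.cls D = x → P.cls D' = x →
    P.Good D → P.Good D' → P.Disj D D' → |q x + P.B D D' / 2| ≤ C

/-- F-ELL: a quasi-additive function `l` on `A` computing `K - ((2g-2)/m) N` on good
representatives of degree `d`. -/
def EllStatement (l : A → ℝ) : Prop :=
  (∃ C : ℝ, ∀ (x : A) (D : P.Dv), P.deg D = P.d → P.cls D = x → P.Good D →
    |l x - (P.K D - ((2 * (P.g : ℝ) - 2) / P.m) * P.N D)| ≤ C) ∧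
  ∃ C : ℝ, ∀ x y : A, |l (x + y) - l x - l y| ≤ C

/-- F-KEY: the self-pairing formula `N D - δ D = -B(D,D₁)/2 - K D / 2 + (1 - d/m) N D + O(1)`. -/
def KeyStatement : Prop :=
  ∃ C : ℝ, ∀ (D D₁ : P.Dv), P.deg D = P.d → P.deg D₁ = P.d → P.cls D = P.cls D₁ →
    P.Good D → P.Good D₁ → P.Disj D D₁ →
    |P.N D - P.δ D - (-(P.B D D₁) / 2 - P.K D / 2 + (1 - (P.d : ℝ) / P.m) * P.N D)| ≤ C

/-- F-POS: the positivity inequality. -/
def PosStatement (q l : A → ℝ) : Prop :=
  ∃ C : ℝ, ∀ x : A, ∃ D' : P.Dv, P.deg D' = P.m - P.d ∧ P.cls D' = -x ∧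
    P.N D' ≤ (P.m / P.k) * (q x - l x / 2) + C

end PairingPackage

/-- F-QP: quasi-parallelogram law. -/
def QPStatement {A : Type} [AddCommGroup A] (q : A → ℝ) : Prop :=
  ∃ C : ℝ, ∀ x y : A, |q (x + y) + q (x - y) - 2 * q x - 2 * q y| ≤ C

/-- The output of the formal layer = the hypotheses of
`Fermat.Agent.S17.H737.descent_data_of_pairing_height`. -/
def EndStatement (A : Type) [AddCommGroup A] : Prop :=
  ∃ (q l ν : A → ℝ) (C c₁ c₂ : ℝ), 0 < c₁ ∧
    (∀ x y, |q (x + y) + q (x - y) - 2 * q x - 2 * q y| ≤ C) ∧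
    (∀ x y, |l (x + y) - l x - l y| ≤ C) ∧
    (∀ x, 0 ≤ ν x) ∧
    (∀ B : ℝ, {x : A | ν x ≤ B}.Finite) ∧
    (∀ x, ν (-x) ≤ c₁ * (q x - l x / 2) + c₂)

end Fermat.Agent.S17.H500

end
-- ===== PACK-END S17/H500/Package.lean

-- ===== PACK-BEGIN S17/H377/LangPlace.lean
section


set_option linter.style.haveILetI false

/-!
# Lang's place-extension theorem (helper377, S17 / G-DIV piece PLACE, Mathlib-only)

`exists_valuationSubring_extends`: a ring hom `φ : A →+* k` from a subring `A` of a field `Ω`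
into an algebraically closed field `k` extends to a valuation subring `V ⊇ A` of `Ω`,
`π : V →+* k`, with `ker π` the maximal ideal of `V`.
(Atiyah–Macdonald 5.21.)
-/

set_option autoImplicit false

namespace Fermat.Agent.S17.H377

open IsLocalRing Polynomial

section Graph

variable {Ω k : Type*} [Field Ω] [Field k]

/-- A subring of `Ω × k` which is the graph of a partial ring hom. -/
def IsFunctionalGraph (G : Subring (Ω × k)) : Prop := ∀ c : k, ((0 : Ω), c) ∈ G → c = 0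

/-- The graph of a partial ring hom. -/
def graphOf (A : Subring Ω) (f : A →+* k) : Subring (Ω × k) :=
  (A.subtype.prod f).range

theorem mem_graphOf {A : Subring Ω} {f : A →+* k} {p : Ω × k} :
    p ∈ graphOf A f ↔ ∃ a : A, (a : Ω) = p.1 ∧ f a = p.2 := by
  simp only [graphOf, RingHom.mem_range, RingHom.prod_apply, Subring.subtype_apply, Prod.ext_iff]

theorem isFunctionalGraph_graphOf (A : Subring Ω) (f : A →+* k) :
    IsFunctionalGraph (graphOf A f) := by
  intro c hc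
  obtain ⟨a, ha1, ha2⟩ := mem_graphOf.mp hc
  have : a = 0 := Subtype.ext ha1
  simpa [this] using ha2.symm

/-- The domain of a graph. -/
def domOf (G : Subring (Ω × k)) : Subring Ω := G.map (RingHom.fst Ω k)

theorem mem_domOf {G : Subring (Ω × k)} {x : Ω} : x ∈ domOf G ↔ ∃ c : k, (x, c) ∈ G := by
  simp only [domOf, Subring.mem_map, RingHom.coe_fst]
  constructor
  · rintro ⟨p, hp, rfl⟩
    exact ⟨p.2, hp⟩
  · rintro ⟨c, hc⟩
    exact ⟨(x, c), hc, rfl⟩

theorem snd_unique {G : Subring (Ω × k)} (hG : IsFunctionalGraph G) {x : Ω} {c c' : k}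
    (h : (x, c) ∈ G) (h' : (x, c') ∈ G) : c = c' := by
  have h2 := G.sub_mem h h'
  have h3 : ((x, c) - (x, c') : Ω × k) = (0, c - c') := by
    ext <;> simp
  rw [h3] at h2
  exact sub_eq_zero.mp (hG _ h2)

/-- The partial hom of a functional graph. -/
noncomputable def homOf (G : Subring (Ω × k)) (hG : IsFunctionalGraph G) : domOf G →+* k where
  toFun x := Classical.choose (mem_domOf.mp x.2)
  map_one' := snd_unique hG (Classical.choose_spec (mem_domOf.mp (1 : domOf G).2)) G.one_mem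
  map_zero' := snd_unique hG (Classical.choose_spec (mem_domOf.mp (0 : domOf G).2)) G.zero_mem
  map_mul' x y := snd_unique hG (Classical.choose_spec (mem_domOf.mp (x * y).2))
    (G.mul_mem (Classical.choose_spec (mem_domOf.mp x.2)) (Classical.choose_spec (mem_domOf.mp y.2)))
  map_add' x y := snd_unique hG (Classical.choose_spec (mem_domOf.mp (x + y).2))
    (G.add_mem (Classical.choose_spec (mem_domOf.mp x.2)) (Classical.choose_spec (mem_domOf.mp y.2)))

theorem homOf_spec (G : Subring (Ω × k)) (hG : IsFunctionalGraph G) (x : domOf G) :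
    ((x : Ω), homOf G hG x) ∈ G :=
  Classical.choose_spec (mem_domOf.mp x.2)

theorem homOf_eq (G : Subring (Ω × k)) (hG : IsFunctionalGraph G) {x : Ω} {c : k}
    (h : (x, c) ∈ G) : homOf G hG ⟨x, mem_domOf.mpr ⟨c, h⟩⟩ = c :=
  snd_unique hG (homOf_spec G hG _) h

/-- A maximal partial ring hom from a subring of `Ω` to `k`. -/
def IsMaxPartialHom (V : Subring Ω) (π : V →+* k) : Prop :=
  ∀ (A : Subring Ω) (f : A →+* k) (h : V ≤ A),
    (∀ v : V, f (Subring.inclusion h v) = π v) → A ≤ V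

/-- Zorn: every partial hom extends to a maximal one. -/
theorem exists_isMaxPartialHom (A : Subring Ω) (φ : A →+* k) :
    ∃ (V : Subring Ω) (π : V →+* k) (h : A ≤ V),
      (∀ a : A, π (Subring.inclusion h a) = φ a) ∧ IsMaxPartialHom V π := by
  obtain ⟨G, hG0, hGmax⟩ := zorn_le_nonempty₀ {G : Subring (Ω × k) | IsFunctionalGraph G}
    (fun c hc hchain y hy => by
      refine ⟨sSup c, ?_, fun z hz => le_sSup hz⟩
      intro d hd
      obtain ⟨s, hs, hds⟩ :=
        (Subring.mem_sSup_of_directedOn ⟨y, hy⟩ hchain.directedOn).mp hd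
      exact hc hs d hds)
    (graphOf A φ) (isFunctionalGraph_graphOf A φ)
  have hGf : IsFunctionalGraph G := hGmax.prop
  have hAV : A ≤ domOf G := fun a ha =>
    mem_domOf.mpr ⟨φ ⟨a, ha⟩, hG0 (mem_graphOf.mpr ⟨⟨a, ha⟩, rfl, rfl⟩)⟩
  refine ⟨domOf G, homOf G hGf, hAV, fun a => ?_, ?_⟩
  · exact homOf_eq G hGf (hG0 (mem_graphOf.mpr ⟨a, rfl, rfl⟩))
  · intro B f hVB hext b hb
    have hle : G ≤ graphOf B f := by
      rintro ⟨x, c⟩ hxc
      have hx : x ∈ domOf G := mem_domOf.mpr ⟨c, hxc⟩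
      refine mem_graphOf.mpr ⟨⟨x, hVB hx⟩, rfl, ?_⟩
      have := hext ⟨x, hx⟩
      rw [homOf_eq G hGf hxc] at this
      exact this
    have hge : graphOf B f ≤ G := hGmax.le_of_ge (isFunctionalGraph_graphOf B f) hle
    exact mem_domOf.mpr ⟨f ⟨b, hb⟩, hge (mem_graphOf.mpr ⟨⟨b, hb⟩, rfl, rfl⟩)⟩

end Graph

section MaxHom

variable {Ω k : Type*} [Field Ω] [Field k]

/-- For a maximal partial hom, elements not in the kernel are invertible in the domain. -/
theorem IsMaxPartialHom.inv_mem {V : Subring Ω} {π : V →+* k} (hmax : IsMaxPartialHom V π)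
    (v : V) (hv : π v ≠ 0) : ((v : Ω))⁻¹ ∈ V := by
  classical
  let P : Ideal V := RingHom.ker π
  have : P.IsPrime := RingHom.ker_isPrime π
  let A : Subring Ω := (LocalSubring.ofPrime V P).toSubring
  have hg : ∀ y : P.primeCompl, IsUnit (π y) := fun y =>
    IsUnit.mk0 _ (fun h => y.2 ((RingHom.mem_ker).mpr h))
  let f : A →+* k := IsLocalization.lift (M := P.primeCompl) (S := A) hg
  have hA : A ≤ V := hmax A f (LocalSubring.le_ofPrime V P)
    (fun v => IsLocalization.lift_eq (M := P.primeCompl) (S := A) hg v)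
  have hvP : v ∈ P.primeCompl := fun h => hv ((RingHom.mem_ker).mp h)
  have hu : IsUnit (algebraMap V A v) := IsLocalization.map_units A ⟨v, hvP⟩
  obtain ⟨u, hu'⟩ := isUnit_iff_exists_inv.mp hu
  have h1 : (v : Ω) * (u : Ω) = 1 := congrArg Subtype.val hu'
  have h2 : ((v : Ω))⁻¹ = (u : Ω) := by
    have hv0 : (v : Ω) ≠ 0 := left_ne_zero_of_mul_eq_one h1
    exact inv_eq_of_mul_eq_one_right h1
  rw [h2]
  exact hA u.2

theorem IsMaxPartialHom.ker_isMaximal {V : Subring Ω} {π : V →+* k}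
    (hmax : IsMaxPartialHom V π) : (RingHom.ker π).IsMaximal := by
  refine Ideal.isMaximal_iff.mpr ⟨fun h => ?_, fun J x hJ hx hxJ => ?_⟩
  · have : π 1 = 0 := (RingHom.mem_ker).mp h
    simp at this
  · have hx' : π x ≠ 0 := fun h => hx ((RingHom.mem_ker).mpr h)
    have hinv := hmax.inv_mem x hx'
    have : (⟨((x : Ω))⁻¹, hinv⟩ : V) * x = 1 := by
      apply Subtype.ext
      have hx0 : (x : Ω) ≠ 0 := fun h => hx' (by
        have : x = 0 := Subtype.ext h
        simp [this])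
      simp [hx0]
    rw [← this]
    exact J.mul_mem_left _ hxJ

/-- Core step: if `ker π` does not generate the unit ideal of `V[y]`, then `y ∈ V`. -/
theorem IsMaxPartialHom.mem_of_map_ne_top [IsAlgClosed k] {V : Subring Ω} {π : V →+* k}
    (hmax : IsMaxPartialHom V π) (y : Ω)
    (hy : (RingHom.ker π).map (algebraMap V (Algebra.adjoin V {y})) ≠ ⊤) : y ∈ V := by
  classical
  have hPmax : (RingHom.ker π).IsMaximal := hmax.ker_isMaximal
  obtain ⟨M, hM, hPM⟩ := Ideal.exists_le_maximal _ hy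
  have hcomap : RingHom.ker π ≤ M.comap (algebraMap V (Algebra.adjoin V {y})) :=
    Ideal.map_le_iff_le_comap.mp hPM
  letI : Field (V ⧸ RingHom.ker π) := Ideal.Quotient.field _
  letI : Field (Algebra.adjoin V {y} ⧸ M) := Ideal.Quotient.field M
  letI : Algebra (V ⧸ RingHom.ker π) (Algebra.adjoin V {y} ⧸ M) :=
    (Ideal.quotientMap M (algebraMap V (Algebra.adjoin V {y})) hcomap).toAlgebra
  letI : Algebra (V ⧸ RingHom.ker π) k := (RingHom.kerLift π).toAlgebra
  haveI : IsScalarTower V (V ⧸ RingHom.ker π) (Algebra.adjoin V {y} ⧸ M) :=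
    IsScalarTower.of_algebraMap_eq (fun v => rfl)
  haveI : Algebra.FiniteType V (Algebra.adjoin V {y}) := by
    have h := Subalgebra.fg_adjoin_finset (R := V) ({y} : Finset Ω)
    rw [Finset.coe_singleton] at h
    exact (Subalgebra.fg_iff_finiteType _).mp h
  haveI : Algebra.FiniteType V (Algebra.adjoin V {y} ⧸ M) :=
    Algebra.FiniteType.of_surjective (Ideal.Quotient.mkₐ V M) Ideal.Quotient.mk_surjective
  haveI : Algebra.FiniteType (V ⧸ RingHom.ker π) (Algebra.adjoin V {y} ⧸ M) :=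
    Algebra.FiniteType.of_restrictScalars_finiteType V _ _
  haveI : Module.Finite (V ⧸ RingHom.ker π) (Algebra.adjoin V {y} ⧸ M) :=
    finite_of_finite_type_of_isJacobsonRing _ _
  haveI : Algebra.IsAlgebraic (V ⧸ RingHom.ker π) (Algebra.adjoin V {y} ⧸ M) :=
    Algebra.IsAlgebraic.of_finite _ _
  haveI : Module.IsTorsionFree (V ⧸ RingHom.ker π) (Algebra.adjoin V {y} ⧸ M) :=
    DivisionSemiring.to_moduleIsTorsionFree
  haveI : Module.IsTorsionFree (V ⧸ RingHom.ker π) k :=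
    DivisionSemiring.to_moduleIsTorsionFree
  let ψ : (Algebra.adjoin V {y} ⧸ M) →ₐ[V ⧸ RingHom.ker π] k := IsAlgClosed.lift
  let f : (Algebra.adjoin V {y}).toSubring →+* k :=
    (ψ : (Algebra.adjoin V {y} ⧸ M) →+* k).comp (Ideal.Quotient.mk M)
  have hVS : V ≤ (Algebra.adjoin V {y}).toSubring := fun v hv =>
    (Algebra.adjoin V {y}).algebraMap_mem ⟨v, hv⟩
  have hle := hmax (Algebra.adjoin V {y}).toSubring f hVS (fun v => by
    have h1 : f (Subring.inclusion hVS v)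
        = ψ (algebraMap (V ⧸ RingHom.ker π) (Algebra.adjoin V {y} ⧸ M)
            (Ideal.Quotient.mk _ v)) := rfl
    rw [h1, ψ.commutes]
    rfl)
  exact hle (Algebra.subset_adjoin (Set.mem_singleton y))

/-- A maximal partial hom into an algebraically closed field is defined on a valuation ring. -/
theorem IsMaxPartialHom.mem_or_inv_mem [IsAlgClosed k] {V : Subring Ω} {π : V →+* k}
    (hmax : IsMaxPartialHom V π) (x : Ω) : x ∈ V ∨ x⁻¹ ∈ V := by
  classical
  by_cases hx : x ∈ V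
  · exact Or.inl hx
  right
  have hx0 : x ≠ 0 := fun h => hx (h ▸ V.zero_mem)
  have htop : (RingHom.ker π).map (algebraMap V (Algebra.adjoin V {x})) = ⊤ := by
    by_contra h
    exact hx (hmax.mem_of_map_ne_top x h)
  have hPmax : (RingHom.ker π).IsMaximal := hmax.ker_isMaximal
  letI := invertibleOfNonzero hx0
  obtain ⟨p, hp, hpx⟩ := Algebra.exists_aeval_invOf_eq_zero_of_idealMap_adjoin_sup_span_eq_top x
    (RingHom.ker π) hPmax.ne_top (by rw [htop]; exact top_sup_eq _)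
  have hlc : π p.leadingCoeff = 1 := by
    have := (RingHom.mem_ker).mp hp
    rwa [map_sub, map_one, sub_eq_zero] at this
  have hlcinv := hmax.inv_mem p.leadingCoeff (by rw [hlc]; exact one_ne_zero)
  have hlc0 : (p.leadingCoeff : Ω) ≠ 0 := by
    intro h
    have : p.leadingCoeff = 0 := Subtype.ext h
    rw [this, map_zero] at hlc
    exact zero_ne_one hlc
  have hunit : IsUnit p.leadingCoeff := by
    refine isUnit_iff_exists_inv.mpr ⟨⟨_, hlcinv⟩, Subtype.ext ?_⟩
    simp [hlc0]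
  have hint : IsIntegral V (x⁻¹) :=
    ⟨C hunit.unit⁻¹.1 * p, by simp [Polynomial.Monic], by
      have : (⅟x : Ω) = x⁻¹ := invOf_eq_inv x
      rw [this] at hpx
      rw [aeval_def] at hpx
      simp only [eval₂_mul, eval₂_C, hpx, mul_zero]⟩
  apply hmax.mem_of_map_ne_top x⁻¹
  haveI : Algebra.IsIntegral V (Algebra.adjoin V {x⁻¹}) :=
    Algebra.IsIntegral.adjoin (by simpa using hint)
  have hker : RingHom.ker (algebraMap V (Algebra.adjoin V {x⁻¹})) ≤ RingHom.ker π := by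
    intro v hv
    have h0 : algebraMap V (Algebra.adjoin V {x⁻¹}) v = 0 := (RingHom.mem_ker).mp hv
    have h1 : (v : Ω) = 0 := congrArg Subtype.val h0
    have : v = 0 := Subtype.ext h1
    rw [this]
    exact Ideal.zero_mem _
  obtain ⟨Q, hQ, hQc⟩ := Ideal.exists_ideal_over_maximal_of_isIntegral
    (S := Algebra.adjoin V {x⁻¹}) (RingHom.ker π) hker
  intro htop'
  have hle : (RingHom.ker π).map (algebraMap V (Algebra.adjoin V {x⁻¹})) ≤ Q :=
    Ideal.map_le_iff_le_comap.mpr hQc.ge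
  rw [htop'] at hle
  exact hQ.ne_top (top_le_iff.mp hle)

/-- **Lang's place-extension theorem** (Atiyah–Macdonald 5.21, Chevalley):
a ring hom from a subring `A` of a field `Ω` to an algebraically closed field `k` extends to a
valuation subring `V ⊇ A` of `Ω`; the kernel of the extension is the maximal ideal of `V`. -/
theorem exists_valuationSubring_extends [IsAlgClosed k] (A : Subring Ω) (φ : A →+* k) :
    ∃ (V : ValuationSubring Ω) (π : V →+* k),
      (∀ a : A, ∃ h : (a : Ω) ∈ V, π ⟨a, h⟩ = φ a) ∧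
      (∀ v : V, π v = 0 ↔ v ∈ IsLocalRing.maximalIdeal V) := by
  obtain ⟨V₀, π₀, hAV, hext, hmax⟩ := exists_isMaxPartialHom A φ
  let V : ValuationSubring Ω := ⟨V₀, fun x => hmax.mem_or_inv_mem x⟩
  refine ⟨V, π₀, fun a => ⟨hAV a.2, hext a⟩, fun v => ?_⟩
  rw [IsLocalRing.mem_maximalIdeal, mem_nonunits_iff]
  constructor
  · intro h hu
    have := hu.map π₀
    rw [h] at this
    exact not_isUnit_zero this
  · intro hnu
    by_contra h
    apply hnu
    have hinv := hmax.inv_mem v h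
    have hv0 : (v : Ω) ≠ 0 := by
      intro h0
      have : v = 0 := Subtype.ext h0
      rw [this, map_zero] at h
      exact h rfl
    refine isUnit_iff_exists_inv.mpr ⟨⟨_, hinv⟩, Subtype.ext ?_⟩
    show (v : Ω) * (v : Ω)⁻¹ = 1
    exact mul_inv_cancel₀ hv0

end MaxHom

section KPlace

variable (K : Type*) {Ω : Type*} [Field K] [Field Ω] [Algebra K Ω]

/-- `V` is a `K`-place of `Ω` with residue map `π`: a valuation subring of `Ω` containing `K`
whose residue field is `K` (via `π`, which is the identity on `K`). -/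
structure IsKPlace (V : ValuationSubring Ω) (π : V →+* K) : Prop where
  algebraMap_mem : ∀ c : K, algebraMap K Ω c ∈ V
  map_algebraMap : ∀ c : K, π ⟨algebraMap K Ω c, algebraMap_mem c⟩ = c
  ker : ∀ v : V, π v = 0 ↔ v ∈ IsLocalRing.maximalIdeal V

variable {K}

theorem IsKPlace.surjective {V : ValuationSubring Ω} {π : V →+* K} (h : IsKPlace K V π) :
    Function.Surjective π := fun c => ⟨_, h.map_algebraMap c⟩

/-- `V = K ⊕ 𝔪_V`. -/
theorem IsKPlace.sub_mem_maximalIdeal {V : ValuationSubring Ω} {π : V →+* K}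
    (h : IsKPlace K V π) (v : V) :
    v - ⟨algebraMap K Ω (π v), h.algebraMap_mem _⟩ ∈ IsLocalRing.maximalIdeal V := by
  rw [← h.ker, map_sub, h.map_algebraMap, sub_self]

theorem IsKPlace.isUnit_iff {V : ValuationSubring Ω} {π : V →+* K} (h : IsKPlace K V π)
    (v : V) : IsUnit v ↔ π v ≠ 0 := by
  rw [Ne, h.ker, IsLocalRing.mem_maximalIdeal, mem_nonunits_iff, not_not]

/-- If `x ∉ V` then `x⁻¹` lies in the maximal ideal, i.e. `π x⁻¹ = 0` ("`x` specialises to `∞`"). -/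
theorem IsKPlace.map_inv_eq_zero {V : ValuationSubring Ω} {π : V →+* K} (h : IsKPlace K V π)
    {x : Ω} (hx : x ∉ V) :
    ∃ hx' : x⁻¹ ∈ V, π ⟨x⁻¹, hx'⟩ = 0 := by
  have hx' : x⁻¹ ∈ V := (V.mem_or_inv_mem x).resolve_left hx
  refine ⟨hx', ?_⟩
  by_contra hne
  have hu : IsUnit (⟨x⁻¹, hx'⟩ : V) := (h.isUnit_iff _).mpr hne
  obtain ⟨w, hw⟩ := isUnit_iff_exists_inv.mp hu
  have h1 : x⁻¹ * (w : Ω) = 1 := congrArg Subtype.val hw
  have hx0 : x ≠ 0 := fun h0 => hx (h0 ▸ V.zero_mem)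
  have : (w : Ω) = x := by
    field_simp at h1
    exact h1
  exact hx (this ▸ w.2)

/-- **Lang's theorem, `K`-algebra form**: a `K`-algebra hom `φ : B →ₐ[K] K` on a `K`-subalgebra
`B` of a field `Ω` (`K` algebraically closed) extends to a `K`-place of `Ω`. -/
theorem exists_isKPlace_extends [IsAlgClosed K] (B : Subalgebra K Ω) (φ : B →ₐ[K] K) :
    ∃ (V : ValuationSubring Ω) (π : V →+* K), IsKPlace K V π ∧
      ∀ b : B, ∃ h : (b : Ω) ∈ V, π ⟨b, h⟩ = φ b := by
  obtain ⟨V, π, hext, hker⟩ := exists_valuationSubring_extends B.toSubring (φ : B →+* K)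
  have hmem : ∀ c : K, algebraMap K Ω c ∈ V := fun c =>
    (hext ⟨algebraMap K Ω c, B.algebraMap_mem c⟩).1
  refine ⟨V, π, ⟨hmem, fun c => ?_, hker⟩, fun b => hext b⟩
  obtain ⟨h, hc⟩ := hext ⟨algebraMap K Ω c, B.algebraMap_mem c⟩
  rw [hc]
  exact φ.commutes c

/-- Every field extension of an algebraically closed field `K` has a `K`-place. -/
theorem exists_isKPlace [IsAlgClosed K] :
    ∃ (V : ValuationSubring Ω) (π : V →+* K), IsKPlace K V π := by
  obtain ⟨V, π, h, -⟩ := exists_isKPlace_extends (⊥ : Subalgebra K Ω)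
    ((Algebra.botEquiv K Ω : (⊥ : Subalgebra K Ω) →ₐ[K] K))
  exact ⟨V, π, h⟩

/-- Algebraically independent elements can be specialised to arbitrary values of `K`. -/
theorem exists_isKPlace_of_algebraicIndependent [IsAlgClosed K] {ι : Type*} (t : ι → Ω)
    (ht : AlgebraicIndependent K t) (c : ι → K) :
    ∃ (V : ValuationSubring Ω) (π : V →+* K), IsKPlace K V π ∧
      ∀ i, ∃ h : t i ∈ V, π ⟨t i, h⟩ = c i := by
  let φ : Algebra.adjoin K (Set.range t) →ₐ[K] K :=
    (MvPolynomial.aeval c).comp (ht.aevalEquiv.symm : _ →ₐ[K] MvPolynomial ι K)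
  obtain ⟨V, π, hK, hext⟩ := exists_isKPlace_extends (Algebra.adjoin K (Set.range t)) φ
  refine ⟨V, π, hK, fun i => ?_⟩
  have hti : t i ∈ Algebra.adjoin K (Set.range t) := Algebra.subset_adjoin ⟨i, rfl⟩
  obtain ⟨h, hi⟩ := hext ⟨t i, hti⟩
  refine ⟨h, hi.trans ?_⟩
  have h1 : ht.aevalEquiv (MvPolynomial.X i) = ⟨t i, hti⟩ := by
    apply Subtype.ext
    simp
  have h2 : ht.aevalEquiv.symm ⟨t i, hti⟩ = MvPolynomial.X i := by
    rw [← h1, AlgEquiv.symm_apply_apply]
  show (MvPolynomial.aeval c) (ht.aevalEquiv.symm ⟨t i, hti⟩) = c i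
  rw [h2, MvPolynomial.aeval_X]

/-- Weak Nullstellensatz: a nontrivial algebra of finite type over an algebraically closed
field `K` has a `K`-point. -/
theorem exists_algHom_of_finiteType [IsAlgClosed K] (B : Type*) [CommRing B] [Algebra K B]
    [Nontrivial B] [Algebra.FiniteType K B] : Nonempty (B →ₐ[K] K) := by
  obtain ⟨M, hM⟩ := Ideal.exists_maximal B
  letI : Field (B ⧸ M) := Ideal.Quotient.field M
  haveI : Algebra.FiniteType K (B ⧸ M) :=
    Algebra.FiniteType.of_surjective (Ideal.Quotient.mkₐ K M) Ideal.Quotient.mk_surjective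
  haveI : Module.Finite K (B ⧸ M) := finite_of_finite_type_of_isJacobsonRing _ _
  haveI : Algebra.IsAlgebraic K (B ⧸ M) := Algebra.IsAlgebraic.of_finite _ _
  haveI : Module.IsTorsionFree K (B ⧸ M) := DivisionSemiring.to_moduleIsTorsionFree
  let ψ : (B ⧸ M) →ₐ[K] K := IsAlgClosed.lift
  exact ⟨ψ.comp (Ideal.Quotient.mkₐ K M)⟩

/-- Unit-avoiding places: finitely many nonzero elements of `Ω` are simultaneously units of
some `K`-place (their residues are nonzero). -/
theorem exists_isKPlace_units [IsAlgClosed K] (s : Finset Ω) (hs : ∀ x ∈ s, x ≠ 0) :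
    ∃ (V : ValuationSubring Ω) (π : V →+* K), IsKPlace K V π ∧
      ∀ x ∈ s, ∃ h : x ∈ V, π ⟨x, h⟩ ≠ 0 := by
  classical
  let T : Finset Ω := s ∪ s.image (fun x => x⁻¹)
  let B : Subalgebra K Ω := Algebra.adjoin K (T : Set Ω)
  haveI : Algebra.FiniteType K B :=
    (Subalgebra.fg_iff_finiteType _).mp (Subalgebra.fg_adjoin_finset T)
  obtain ⟨φ⟩ := exists_algHom_of_finiteType (K := K) B
  obtain ⟨V, π, hK, hext⟩ := exists_isKPlace_extends B φ
  refine ⟨V, π, hK, fun x hx => ?_⟩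
  have hxB : x ∈ B := Algebra.subset_adjoin (by
    simp only [T, Finset.coe_union, Set.mem_union, Finset.mem_coe]
    exact Or.inl hx)
  have hxiB : x⁻¹ ∈ B := Algebra.subset_adjoin (by
    simp only [T, Finset.coe_union, Set.mem_union, Finset.mem_coe, Finset.mem_image]
    exact Or.inr ⟨x, hx, rfl⟩)
  obtain ⟨h, hφ⟩ := hext ⟨x, hxB⟩
  refine ⟨h, ?_⟩
  rw [hφ]
  intro h0
  have hmul : (⟨x, hxB⟩ : B) * ⟨x⁻¹, hxiB⟩ = 1 := Subtype.ext (mul_inv_cancel₀ (hs x hx))
  have := congrArg φ hmul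
  rw [map_mul, h0, zero_mul, map_one] at this
  exact zero_ne_one this

end KPlace

end Fermat.Agent.S17.H377

end
-- ===== PACK-END S17/H377/LangPlace.lean

-- ===== PACK-BEGIN S29/H451/SpecToRel.lean
section


/-!
# S29 / piece GALJ (helper451): from `SpecializationExists` to the relations on `J[p^∞]`

The conclusion `SpecializationExists` of the frozen Eichler–Shimura statement implies
`UnramifiedOutside` and `FrobeniusQuadratic` (Prelude shapes), for any Hecke–Galois module `J`.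
-/

set_option autoImplicit false

noncomputable section

namespace Fermat.Agent.S29.H451

open ModularCurve

variable {K L : Type*} [Field K] [Field L] [Algebra K L]
variable (N p : ℕ) (J : Type*) [AddCommGroup J] [Module HeckeAlg J]
  [DistribMulAction (L ≃ₐ[K] L) J] [SMulCommClass (L ≃ₐ[K] L) HeckeAlg J]

omit [Module HeckeAlg J] [SMulCommClass (L ≃ₐ[K] L) HeckeAlg J] in
theorem galois_smul_nsmul (σ : L ≃ₐ[K] L) (n : ℕ) (x : J) : σ • (n • x) = n • (σ • x) :=
  map_nsmul (DistribSMul.toAddMonoidHom J σ) n x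

theorem unramifiedOutside_of_specializationExists
    (h : SpecializationExists (K := K) (L := L) N p J) :
    UnramifiedOutside (K := K) (L := L) N p J := by
  intro ℓ hℓ hℓNp A hA σ hσ x ⟨n, hn⟩
  obtain ⟨J', _, _, sp, F, hsp, -⟩ := h ℓ hℓ hℓNp A hA
  have h1 : sp (σ • x - x) = 0 := by
    rw [map_sub, hsp.inertia_comm σ hσ x, sub_self]
  have h2 : p ^ n • (σ • x - x) = 0 := by
    rw [smul_sub, ← galois_smul_nsmul J, hn, smul_zero, sub_self]
  exact sub_eq_zero.mp (hsp.injective_torsion _ ⟨n, h2⟩ h1)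

theorem frobeniusQuadratic_of_specializationExists
    (h : SpecializationExists (K := K) (L := L) N p J) :
    FrobeniusQuadratic (K := K) (L := L) N p J := by
  intro ℓ hℓ hℓNp A hA σ hσ x ⟨n, hn⟩
  obtain ⟨J', _, _, sp, F, hsp, hF⟩ := h ℓ hℓ hℓNp A hA
  refine hsp.injective_torsion _ ⟨n, ?_⟩ ?_
  · rw [smul_add, smul_sub, ← galois_smul_nsmul J, ← galois_smul_nsmul J, hn,
      smul_comm (p ^ n) (heckeGen ⟨ℓ, hℓ⟩) (σ • x), ← galois_smul_nsmul J, hn,
      smul_comm (p ^ n) ℓ x, hn]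
    simp
  · rw [map_add, map_sub, hsp.frobenius_comm σ hσ, hsp.frobenius_comm σ hσ, hsp.hecke_comm,
      hsp.frobenius_comm σ hσ, map_nsmul]
    exact hF (sp x)

/-- Both relations at once, in the shape consumed downstream: on the `p`-power torsion of `J`
inertia at `ℓ ∤ Np` acts trivially and every Frobenius `σ` at `ℓ ∤ Np` satisfies
`σ² - T_ℓ σ + ℓ = 0`. -/
theorem relations_of_specializationExists
    (h : SpecializationExists (K := K) (L := L) N p J) :
    UnramifiedOutside (K := K) (L := L) N p J ∧ FrobeniusQuadratic (K := K) (L := L) N p J :=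
  ⟨unramifiedOutside_of_specializationExists N p J h,
    frobeniusQuadratic_of_specializationExists N p J h⟩

end Fermat.Agent.S29.H451

end
end
-- ===== PACK-END S29/H451/SpecToRel.lean

-- ===== PACK-BEGIN S15/H111/Count2Alg.lean
section
/-
Row S15, node DESC, tower COUNT for `r = 2` (helper111): PURE ALGEBRA (Mathlib only).
Blueprint: `coord/S15-COUNT2-helper111.md`.

* `exists_four_torsion_sub_eq`  (LOC-∞, abstract): on a `2`-divisible abelian group with an additive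
  involution `c`, every `y` with `c (2y) = 2y` has `c y - y = c z - z` for some `z` killed by `4`.
* `card_sq_le_of_isotropic`  (isotropic subgroups of a non-degenerate pairing into `ZMod n`;
  the pairing is a plain function, additive only on the relevant subgroups).
* `pairing_sub_sub_eq_zero`  (`(c - 1) E` is isotropic for a `c`-anti-invariant pairing).
* `card_sq_le_of_tower`  (SAT): the saturation count.
-/


set_option autoImplicit false

namespace Fermat.Agent.S15.H111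

section LocInfty

variable {J : Type*} [AddCommGroup J]

/-- **LOC-∞, abstract form.**  `J` a `2`-divisible abelian group, `c` an additive involution,
`c (2 y) = 2 y`.  Then `c y - y = c z - z` for some `z` with `4 z = 0`. -/
theorem exists_four_torsion_sub_eq (c : J →+ J) (hc : ∀ x, c (c x) = x)
    (hdiv : ∀ x : J, ∃ y : J, 2 • y = x) (y : J) (hy : c (2 • y) = 2 • y) :
    ∃ z : J, 4 • z = 0 ∧ c z - z = c y - y := by
  obtain ⟨y', hy'⟩ := hdiv y
  have hcy : 2 • c y = 2 • y := by rw [← map_nsmul, hy]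
  have hcy' : 2 • c y' = c y := by rw [← map_nsmul, hy']
  refine ⟨y - (y' + c y'), ?_, ?_⟩
  · have h1 : 2 • (y - (y' + c y')) = y - c y := by
      rw [smul_sub, smul_add, hy', hcy', two_nsmul]; abel
    have h4 : (4 : ℕ) • (y - (y' + c y')) = 2 • (2 • (y - (y' + c y'))) := by
      rw [← mul_nsmul]
    rw [h4, h1, smul_sub, hcy, sub_self]
  · rw [map_sub, map_add, hc]
    abel

end LocInfty

section Isotropic

open Function

/-- **Isotropic subgroups of a non-degenerate pairing into `ZMod n` are small.**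
`B` is a plain function, additive in each variable on `E × Y`; `Y ≤ E` is isotropic and the pairing
`E × Y → ZMod n` has trivial right kernel. -/
theorem card_sq_le_of_isotropic {X : Type*} [AddCommGroup X] {n : ℕ} [NeZero n]
    (B : X → X → ZMod n) (E Y : AddSubgroup X) [Finite E] (hYE : Y ≤ E)
    (hl : ∀ x ∈ E, ∀ x' ∈ E, ∀ y ∈ Y, B (x + x') y = B x y + B x' y)
    (hr : ∀ x ∈ E, ∀ y ∈ Y, ∀ y' ∈ Y, B x (y + y') = B x y + B x y')
    (hiso : ∀ y ∈ Y, ∀ y' ∈ Y, B y y' = 0)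
    (hnd : ∀ y ∈ Y, (∀ x ∈ E, B x y = 0) → y = 0) :
    Nat.card Y ^ 2 ≤ Nat.card E := by
  classical
  have : Finite Y := Finite.of_injective (fun y : Y => (⟨y, hYE y.2⟩ : E))
    (fun a b h => Subtype.ext (congrArg (fun e : E => (e : X)) h))
  have hl0 : ∀ y ∈ Y, B 0 y = 0 := fun y hy => by
    have := hl 0 E.zero_mem 0 E.zero_mem y hy
    rw [add_zero] at this
    exact left_eq_add.mp this
  let Φ : E →+ (Y → ZMod n) :=
    { toFun := fun x y => B (x : X) (y : X)
      map_zero' := by funext y; exact hl0 y y.2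
      map_add' := fun x x' => by funext y; exact hl x x.2 x' x'.2 y y.2 }
  have h1 : Nat.card Φ.ker * Nat.card Φ.range = Nat.card E := by
    rw [← AddSubgroup.index_ker]; exact AddSubgroup.card_mul_index _
  have h2 : Nat.card Y ≤ Nat.card Φ.ker := by
    refine Nat.card_le_card_of_injective
      (fun y : Y => (⟨⟨y, hYE y.2⟩, ?_⟩ : Φ.ker)) ?_
    · rw [AddMonoidHom.mem_ker]
      funext y'
      exact hiso y y.2 y' y'.2
    · intro a b h
      have := congrArg (fun e : Φ.ker => ((e : E) : X)) h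
      exact Subtype.ext this
  have h3 : Nat.card Y ≤ Nat.card Φ.range := by
    let ev : Y → AddChar Φ.range ℂ := fun y =>
      { toFun := fun h => ZMod.stdAddChar ((h : Y → ZMod n) y)
        map_zero_eq_one' := by simp
        map_add_eq_mul' := fun h h' => by
          simp [AddChar.map_add_eq_mul] }
    have hev : Injective ev := by
      intro y y' hyy'
      have hsub : ((y : X) - (y' : X)) = 0 := by
        refine hnd _ (Y.sub_mem y.2 y'.2) fun x hx => ?_
        have := congrArg (fun ψ : AddChar Φ.range ℂ => ψ ⟨Φ ⟨x, hx⟩, ⟨⟨x, hx⟩, rfl⟩⟩) hyy'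
        have h' : ZMod.stdAddChar (B x (y : X)) = ZMod.stdAddChar (B x (y' : X)) := this
        have h'' := ZMod.injective_stdAddChar h'
        have h3 := hr x hx ((y : X) - (y' : X)) (Y.sub_mem y.2 y'.2) (y' : X) y'.2
        rw [sub_add_cancel, h''] at h3
        exact right_eq_add.mp h3
      exact Subtype.ext (sub_eq_zero.mp hsub)
    let _ : Fintype Φ.range := Fintype.ofFinite _
    calc Nat.card Y ≤ Nat.card (AddChar Φ.range ℂ) := Nat.card_le_card_of_injective ev hev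
      _ = Fintype.card (AddChar Φ.range ℂ) := Nat.card_eq_fintype_card
      _ ≤ Fintype.card Φ.range := AddChar.card_addChar_le _ _
      _ = Nat.card Φ.range := Nat.card_eq_fintype_card.symm
  calc Nat.card Y ^ 2 = Nat.card Y * Nat.card Y := sq _
    _ ≤ Nat.card Φ.ker * Nat.card Φ.range := Nat.mul_le_mul h2 h3
    _ = Nat.card E := h1

/-- The image of `c - 1` is isotropic for a `c`-anti-invariant pairing (`c` an involution);
`B` a plain function, bi-additive on the `c`-stable subgroup `E`. -/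
theorem pairing_sub_sub_eq_zero {X A : Type*} [AddCommGroup X] [AddCommGroup A]
    (B : X → X → A) (E : AddSubgroup X) (c : X →+ X) (hc : ∀ x, c (c x) = x)
    (hcE : ∀ x ∈ E, c x ∈ E)
    (hl : ∀ x ∈ E, ∀ x' ∈ E, ∀ y ∈ E, B (x + x') y = B x y + B x' y)
    (hr : ∀ x ∈ E, ∀ y ∈ E, ∀ y' ∈ E, B x (y + y') = B x y + B x y')
    (hcB : ∀ x ∈ E, ∀ y ∈ E, B (c x) (c y) = - B x y) (x y : X) (hx : x ∈ E) (hy : y ∈ E) :
    B (c x - x) (c y - y) = 0 := by
  have hcx := hcE x hx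
  have hcy := hcE y hy
  have h1 : B x (c y) = - B (c x) y := by
    have h := hcB x hx (c y) hcy
    rw [hc] at h
    rw [h, neg_neg]
  -- expand in the second variable
  have e1 : ∀ u ∈ E, B u (c y) = B u (c y - y) + B u y := fun u hu => by
    have := hr u hu (c y - y) (E.sub_mem hcy hy) y hy
    rwa [sub_add_cancel] at this
  have e2 : ∀ v ∈ E, B (c x) v = B (c x - x) v + B x v := fun v hv => by
    have := hl (c x - x) (E.sub_mem hcx hx) x hx v hv
    rwa [sub_add_cancel] at this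
  have hcxy := hcB x hx y hy
  -- B (cx) (cy) = B (cx - x) (cy) + B x (cy) = B(cx - x)(cy - y) + B (cx - x) y + B x (cy)
  have a1 := e2 (c y) hcy
  have a2 := e1 (c x - x) (E.sub_mem hcx hx)
  have a3 := e2 y hy
  -- B (cx - x) y = B (cx) y - B x y
  have : B (c x - x) (c y - y) = B (c x) (c y) - B x (c y) - (B (c x) y - B x y) := by
    rw [a1, a2, a3]; abel
  rw [this, hcxy, h1]
  abel

end Isotropic

section Sat

variable {M : Type*} [AddCommGroup M]

/-- The `2 ^ k`-torsion subgroup. -/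
def tk (M : Type*) [AddCommGroup M] (k : ℕ) : AddSubgroup M :=
  (nsmulAddMonoidHom (α := M) (2 ^ k)).ker

theorem mem_tk {k : ℕ} {x : M} : x ∈ tk M k ↔ 2 ^ k • x = 0 := by
  rw [tk, AddMonoidHom.mem_ker]; rfl

theorem tk_mono {k l : ℕ} (h : k ≤ l) : tk M k ≤ tk M l := by
  intro x hx
  rw [mem_tk] at hx ⊢
  obtain ⟨m, rfl⟩ := Nat.exists_eq_add_of_le h
  rw [pow_add, mul_nsmul, hx, smul_zero]

/-- `|H| = |H ∩ ker f| * |f(H)|`. -/
theorem card_eq_card_inf_ker_mul_card_map {N : Type*} [AddCommGroup N] (f : M →+ N)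
    (H : AddSubgroup M) :
    Nat.card H = Nat.card ↥(H ⊓ f.ker) * Nat.card ↥(H.map f) := by
  let g : H →+ N := f.comp H.subtype
  have h1 : Nat.card g.ker * Nat.card g.range = Nat.card H := by
    rw [← AddSubgroup.index_ker]; exact AddSubgroup.card_mul_index _
  have h2 : g.range = H.map f := by
    ext y
    constructor
    · rintro ⟨x, rfl⟩
      exact ⟨x, x.2, rfl⟩
    · rintro ⟨x, hx, rfl⟩
      exact ⟨⟨x, hx⟩, rfl⟩
  have h3 : Nat.card g.ker = Nat.card ↥(H ⊓ f.ker) := by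
    refine Nat.card_congr
      { toFun := fun x => ⟨(x : H), ⟨(x : H).2, x.2⟩⟩
        invFun := fun x => ⟨⟨x, x.2.1⟩, x.2.2⟩
        left_inv := fun x => rfl
        right_inv := fun x => rfl }
  rw [← h1, h2, h3]

theorem le_of_forall_pow_le_pow_succ {a b : ℕ} (hb : 0 < b) (h : ∀ k : ℕ, a ^ k ≤ b ^ (k + 1)) :
    a ≤ b := by
  by_contra hab
  rw [not_le] at hab
  have hb' : (0 : ℝ) < b := by exact_mod_cast hb
  have h1 : (1 : ℝ) < (a : ℝ) / b := by
    rw [one_lt_div hb']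
    exact_mod_cast hab
  obtain ⟨n, hn⟩ := pow_unbounded_of_one_lt (b : ℝ) h1
  have h2 : ((a : ℝ) / b) ^ n ≤ b := by
    rw [div_pow, div_le_iff₀ (pow_pos hb' n)]
    have := h n
    have h3 : ((a ^ n : ℕ) : ℝ) ≤ ((b ^ (n + 1) : ℕ) : ℝ) := by exact_mod_cast this
    push_cast at h3
    calc (a : ℝ) ^ n ≤ (b : ℝ) ^ (n + 1) := h3
      _ = b * b ^ n := by ring
  exact absurd hn (not_lt.mpr h2)

/-- **SAT (the saturation count).**  `E ≤ M` a subgroup stable under the additive endomorphism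
`c`, whose `2`-power torsion is `2`-divisible (inside `E`) with finite `2 ^ k`-torsion.
If `|(c - 1) E[2^k]|² ≤ |E[2^k]|` for all `k`, then `U := (c - 1) E[4] ∩ M[2]` satisfies
`|U|² ≤ |E[2]|`. -/
theorem card_sq_le_of_tower (E : AddSubgroup M) (c : M →+ M) (hcE : ∀ x ∈ E, c x ∈ E)
    (hdiv : ∀ (k : ℕ) (x : M), x ∈ E → 2 ^ k • x = 0 → ∃ y ∈ E, 2 • y = x)
    (hfin : ∀ k, Finite ↥(E ⊓ tk M k))
    (hiso : ∀ k, Nat.card ((E ⊓ tk M k).map (c - AddMonoidHom.id M)) ^ 2 ≤
      Nat.card ↥(E ⊓ tk M k)) :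
    Nat.card ↥(((E ⊓ tk M 2).map (c - AddMonoidHom.id M)) ⊓ tk M 1) ^ 2 ≤
      Nat.card ↥(E ⊓ tk M 1) := by
  set d : M →+ M := c - AddMonoidHom.id M with hd
  set μ : M →+ M := nsmulAddMonoidHom (α := M) 2 with hμ
  have hμapp : ∀ x : M, μ x = 2 • x := fun x => rfl
  have hμker : μ.ker = tk M 1 := by
    ext x
    rw [AddMonoidHom.mem_ker, mem_tk, pow_one, hμapp]
  have ha : ∀ k, (E ⊓ tk M (k + 1)).map μ = E ⊓ tk M k := by
    intro k
    ext x
    constructor
    · rintro ⟨y, ⟨hyE, hy⟩, rfl⟩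
      replace hy : y ∈ tk M (k + 1) := hy
      replace hyE : y ∈ E := hyE
      rw [mem_tk] at hy
      refine AddSubgroup.mem_inf.mpr ⟨?_, ?_⟩
      · rw [hμapp]; exact E.nsmul_mem hyE 2
      · rw [mem_tk, hμapp, ← mul_nsmul, mul_comm, ← pow_succ]
        exact hy
    · rintro ⟨hxE, hx⟩
      replace hx : x ∈ tk M k := hx
      replace hxE : x ∈ E := hxE
      rw [mem_tk] at hx
      obtain ⟨y, hyE, hy⟩ := hdiv k x hxE hx
      refine ⟨y, AddSubgroup.mem_inf.mpr ⟨hyE, ?_⟩, by rw [hμapp, hy]⟩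
      rw [mem_tk, pow_succ, mul_comm, mul_nsmul, hy, hx]
  have hb : ∀ k, (E ⊓ tk M (k + 1)) ⊓ μ.ker = E ⊓ tk M 1 := by
    intro k
    rw [hμker, inf_assoc]
    congr 1
    exact inf_eq_right.mpr (tk_mono (by omega))
  have hc : ∀ k, Nat.card ↥(E ⊓ tk M k) = Nat.card ↥(E ⊓ tk M 1) ^ k := by
    intro k
    induction k with
    | zero =>
      rw [pow_zero]
      have : E ⊓ tk M 0 = ⊥ := by
        ext x
        rw [AddSubgroup.mem_inf, mem_tk, pow_zero, one_nsmul, AddSubgroup.mem_bot]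
        exact ⟨fun h => h.2, fun h => ⟨h ▸ E.zero_mem, h⟩⟩
      rw [this]
      exact AddSubgroup.card_bot
    | succ k ih =>
      rw [card_eq_card_inf_ker_mul_card_map μ (E ⊓ tk M (k + 1)), hb, ha, ih, pow_succ, mul_comm]
  have hdμ : ∀ x : M, d (μ x) = μ (d x) := fun x => by
    rw [hμapp, hμapp, map_nsmul]
  have hV : ∀ k, ((E ⊓ tk M (k + 1)).map d).map μ = (E ⊓ tk M k).map d := by
    intro k
    rw [← ha k]
    ext x
    constructor
    · rintro ⟨y, ⟨z, hz, rfl⟩, rfl⟩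
      exact ⟨μ z, ⟨z, hz, rfl⟩, hdμ z⟩
    · rintro ⟨y, ⟨z, hz, rfl⟩, rfl⟩
      exact ⟨d z, ⟨z, hz, rfl⟩, (hdμ z).symm⟩
  have hVle : ∀ k, (E ⊓ tk M k).map d ≤ E ⊓ tk M k := by
    intro k x
    rintro ⟨z, ⟨hzE, hz⟩, rfl⟩
    replace hz : z ∈ tk M k := hz
    replace hzE : z ∈ E := hzE
    rw [mem_tk] at hz
    refine AddSubgroup.mem_inf.mpr ⟨?_, ?_⟩
    · show (c - AddMonoidHom.id M) z ∈ E
      rw [AddMonoidHom.sub_apply]
      exact E.sub_mem (hcE z hzE) hzE
    · rw [mem_tk, ← map_nsmul, hz, map_zero]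
  have hVfin : ∀ k, Finite ((E ⊓ tk M k).map d) := fun k =>
    have := hfin k
    Finite.of_injective (fun x : (E ⊓ tk M k).map d => (⟨x, hVle k x.2⟩ : ↥(E ⊓ tk M k)))
      (fun a b h => Subtype.ext (congrArg (fun e : ↥(E ⊓ tk M k) => (e : M)) h))
  set U : AddSubgroup M := ((E ⊓ tk M 2).map d) ⊓ tk M 1 with hU
  have hg : ∀ k, Nat.card U ^ k ≤ Nat.card ((E ⊓ tk M (k + 1)).map d) := by
    intro k
    induction k with
    | zero =>
      rw [pow_zero]
      have := hVfin 1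
      exact Nat.card_pos
    | succ k ih =>
      have hle : U ≤ (E ⊓ tk M (k + 2)).map d ⊓ μ.ker := by
        rw [hμker]
        exact inf_le_inf_right _
          (AddSubgroup.map_mono (inf_le_inf_left _ (tk_mono (by omega))))
      have : Finite ↥((E ⊓ tk M (k + 2)).map d ⊓ μ.ker) := by
        have := hVfin (k + 2)
        exact Finite.of_injective
          (fun x : ↥((E ⊓ tk M (k + 2)).map d ⊓ μ.ker) =>
            (⟨x, x.2.1⟩ : (E ⊓ tk M (k + 2)).map d))
          (fun a b h => Subtype.ext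
            (congrArg (fun e : (E ⊓ tk M (k + 2)).map d => (e : M)) h))
      have h1 := AddSubgroup.card_le_of_le hle
      rw [card_eq_card_inf_ker_mul_card_map μ ((E ⊓ tk M (k + 2)).map d), hV (k + 1), pow_succ,
        mul_comm]
      exact Nat.mul_le_mul h1 ih
  have := hfin 1
  refine le_of_forall_pow_le_pow_succ Nat.card_pos fun k => ?_
  calc (Nat.card U ^ 2) ^ k = (Nat.card U ^ k) ^ 2 := by rw [← pow_mul, ← pow_mul, mul_comm]
    _ ≤ Nat.card ((E ⊓ tk M (k + 1)).map d) ^ 2 := Nat.pow_le_pow_left (hg k) 2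
    _ ≤ Nat.card ↥(E ⊓ tk M (k + 1)) := hiso (k + 1)
    _ = Nat.card ↥(E ⊓ tk M 1) ^ (k + 1) := hc (k + 1)

end Sat

end Fermat.Agent.S15.H111

end
-- ===== PACK-END S15/H111/Count2Alg.lean

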