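import Mathlib
import Mathlib.AlgebraicGeometry.EllipticCurve.Affine.Point
import Mathlib.Tactic
import Mathlib.RingTheory.Nullstellensatz
import Mathlib.RingTheory.MvPolynomial.Homogeneous
import Mathlib.NumberTheory.Height.MvPolynomial
import Mathlib.FieldTheory.IsAlgClosed.AlgebraicClosure

-- ===== PACK-BEGIN S51/H591/X015Map.lean
section


set_option autoImplicit false

namespace Fermat.Agent.S51.H591

/-- No rational number squares to `5`. -/
lemma X015_sq_ne_five (r : ℚ) : r ^ 2 ≠ 5 := by
  intro hr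
  have h5 : IsSquare (5 : ℚ) := ⟨r, by rw [← hr]; ring⟩
  rw [Rat.isSquare_iff] at h5
  obtain ⟨⟨k, hk⟩, -⟩ := h5
  have hk' : k * k = 5 := by
    have : ((5 : ℚ)).num = 5 := by norm_num
    rw [this] at hk; exact hk.symm
  have hk2 : k ^ 2 = 5 := by rw [sq]; exact hk'
  have h1 : -3 < k := by nlinarith
  have h2 : k < 3 := by nlinarith
  interval_cases k <;> omega

lemma X015_quad1_ne (h : ℚ) : h ^ 2 + 4 * h - 1 ≠ 0 := by
  intro hq
  exact X015_sq_ne_five (h + 2) (by linear_combination hq)

lemma X015_quad2_ne (h : ℚ) : h ^ 2 + 10 * h + 5 ≠ 0 := by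
  intro hq
  exact X015_sq_ne_five ((h + 5) / 2) (by linear_combination hq / 4)

/-- The curve `C : (t+27)(t+3)^3 h = (h^2+10h+5)^3 t` maps to the plane cubic model of `X₀(15)`. -/
theorem X015_exists_uv (t h : ℚ) (ht : t ≠ 0) (hC : (t+27)*(t+3)^3*h = (h^2+10*h+5)^3*t) :
    ∃ u v : ℚ, u^2*v + u*v^2 + 5*u*v + 9*u - v = 0 ∧ t*u^2*v^3 = 729 := by
  have hq1 := X015_quad1_ne h
  have hq2 := X015_quad2_ne h
  have ht3 : t + 3 ≠ 0 := by
    intro h3
    have ht' : t = -3 := by linarith
    rw [ht'] at hC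
    have : (h^2+10*h+5)^3 = 0 := by linarith
    exact hq2 (pow_eq_zero_iff (by norm_num) |>.mp this)
  have hDu : ((t+3)*(h^2+4*h-1)) ≠ 0 := mul_ne_zero ht3 hq1
  have hE : (t*(h^2+10*h+5)) ≠ 0 := mul_ne_zero ht hq2
  obtain ⟨u, hu⟩ : ∃ u : ℚ, u * (((t+3)*(h^2+4*h-1))) = t^2 + 18*t - 3*h^3 - 39*h^2 - 105*h :=
    ⟨(t^2 + 18*t - 3*h^3 - 39*h^2 - 105*h) / (((t+3)*(h^2+4*h-1))), div_mul_cancel₀ _ hDu⟩
  obtain ⟨v, hv⟩ : ∃ v : ℚ, v * ((((t+3)*(h^2+4*h-1))) * ((t*(h^2+10*h+5)))) = -10935 - 45*t + 23625*t*h + 19800*t*h^2 + 4995*t*h^3 + 504*t*h^4 + 18*t*h^5 + 3195*t^2*h + 747*t^2*h^2 + 45*t^2*h^3 + 90*t^3*h + 9*t^3*h^2 :=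
    ⟨(-10935 - 45*t + 23625*t*h + 19800*t*h^2 + 4995*t*h^3 + 504*t*h^4 + 18*t*h^5 + 3195*t^2*h + 747*t^2*h^2 + 45*t^2*h^3 + 90*t^3*h + 9*t^3*h^2) / ((((t+3)*(h^2+4*h-1))) * ((t*(h^2+10*h+5)))), div_mul_cancel₀ _ (mul_ne_zero hDu hE)⟩
  refine ⟨u, v, ?_, ?_⟩
  · have key : (u^2*v + u*v^2 + 5*u*v + 9*u - v) * ((((t+3)*(h^2+4*h-1)))^3 * ((t*(h^2+10*h+5)))^2) = 0 := by
      have e1 : (u^2*v + u*v^2 + 5*u*v + 9*u - v) * ((((t+3)*(h^2+4*h-1)))^3 * ((t*(h^2+10*h+5)))^2)
          = (u * (((t+3)*(h^2+4*h-1))))^2 * (v * ((((t+3)*(h^2+4*h-1))) * ((t*(h^2+10*h+5))))) * ((t*(h^2+10*h+5)))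
            + (u * (((t+3)*(h^2+4*h-1)))) * (v * ((((t+3)*(h^2+4*h-1))) * ((t*(h^2+10*h+5)))))^2
            + 5 * (u * (((t+3)*(h^2+4*h-1)))) * (v * ((((t+3)*(h^2+4*h-1))) * ((t*(h^2+10*h+5))))) * (((t+3)*(h^2+4*h-1))) * ((t*(h^2+10*h+5)))
            + 9 * (u * (((t+3)*(h^2+4*h-1)))) * (((t+3)*(h^2+4*h-1)))^2 * ((t*(h^2+10*h+5)))^2
            - (v * ((((t+3)*(h^2+4*h-1))) * ((t*(h^2+10*h+5))))) * (((t+3)*(h^2+4*h-1)))^2 * ((t*(h^2+10*h+5))) := by ring
      rw [e1, hu, hv]
      linear_combination (90*t^4*h^3 + 1800*t^4*h^2 + 9045*t^4*h + 450*t^4 + 45*t^3*h^5 + 1935*t^3*h^4 + 29565*t^3*h^3 + 193950*t^3*h^2 + 469260*t^3*h + 13725*t^3 + 270*t^2*h^6 + 11475*t^2*h^5 + 188595*t^2*h^4 + 1486890*t^2*h^3 + 5534865*t^2*h^2 + 7537995*t^2*h + 86400*t^2 + 810*t*h^7 + 33210*t*h^6 + 546750*t*h^5 + 4578930*t*h^4 + 20295765*t*h^3 + 44357220*t*h^2 + 36489285*t*h - 1219050*t - 492075*h^2 - 6396975*h - 17222625) * hC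
    rcases mul_eq_zero.mp key with h0 | h0
    · exact h0
    · exact absurd h0 (mul_ne_zero (pow_ne_zero _ hDu) (pow_ne_zero _ hE))
  · have key : (t*u^2*v^3 - 729) * ((((t+3)*(h^2+4*h-1)))^5 * ((t*(h^2+10*h+5)))^3) = 0 := by
      have e1 : (t*u^2*v^3 - 729) * ((((t+3)*(h^2+4*h-1)))^5 * ((t*(h^2+10*h+5)))^3)
          = t * (u * (((t+3)*(h^2+4*h-1))))^2 * (v * ((((t+3)*(h^2+4*h-1))) * ((t*(h^2+10*h+5)))))^3 - 729 * (((t+3)*(h^2+4*h-1)))^5 * ((t*(h^2+10*h+5)))^3 := by ring
      rw [e1, hu, hv]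
      linear_combination (729*t^10*h^5 + 21870*t^10*h^4 + 218700*t^10*h^3 + 729000*t^10*h^2 + 10935*t^9*h^6 + 400221*t^9*h^5 + 5500305*t^9*h^4 + 33679800*t^9*h^3 + 77638500*t^9*h^2 + 76545*t^8*h^7 + 3291435*t^8*h^6 + 56330559*t^8*h^5 + 478920195*t^8*h^4 + 2019082140*t^8*h^3 + 3369401550*t^8*h^2 - 1093500*t^8*h + 729*t^7*h^10 + 21870*t^7*h^9 + 408240*t^7*h^8 + 11616615*t^7*h^7 + 249897555*t^7*h^6 + 2933811657*t^7*h^5 + 18542709135*t^7*h^4 + 59632119810*t^7*h^3 + 76094058825*t^7*h^2 - 252234000*t^7*h - 172773*t^6*h^10 - 7818525*t^6*h^9 - 136446930*t^6*h^8 - 1027430730*t^6*h^7 - 626345865*t^6*h^6 + 44219954646*t^6*h^5 + 312619544955*t^6*h^4 + 892251702315*t^6*h^3 + 938609060175*t^6*h^2 - 14453008200*t^6*h + 546750*t^6 - 43740*t^5*h^12 - 3521070*t^5*h^11 - 116072838*t^5*h^10 - 2082691035*t^5*h^9 - 22380456735*t^5*h^8 - 146648125890*t^5*h^7 - 552273498135*t^5*h^6 - 887930367462*t^5*h^5 + 991276437915*t^5*h^4 + 5790964156245*t^5*h^3 + 5904681737400*t^5*h^2 - 345839386050*t^5*h + 148442625*t^5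 - 393660*t^4*h^13 - 26375220*t^4*h^12 - 781808760*t^4*h^11 - 13457857590*t^4*h^10 - 148341421575*t^4*h^9 - 1087439002875*t^4*h^8 - 5319481226535*t^4*h^7 - 16864562591235*t^4*h^6 - 31917579000147*t^4*h^5 - 28245878443485*t^4*h^4 + 2168013362670*t^4*h^3 + 13843689660900*t^4*h^2 - 3710947691025*t^4*h + 15281389125*t^4 - 52488*t^3*h^15 - 4199040*t^3*h^14 - 151821540*t^3*h^13 - 3274201440*t^3*h^12 - 46806502050*t^3*h^11 - 466126290927*t^3*h^10 - 3306689904555*t^3*h^9 - 16785013418685*t^3*h^8 - 60296938187085*t^3*h^7 - 148856586275835*t^3*h^6 - 238147366301757*t^3*h^5 - 218360901614985*t^3*h^4 - 82211869303830*t^3*h^3 - 900949794975*t^3*h^2 - 14566087745775*t^3*h + 418413832875*t^3 + 57572775*t^2*h^10 + 3064643100*t^2*h^9 + 69667486425*t^2*h^8 + 879782860800*t^2*h^7 + 6718277831625*t^2*h^6 + 31594322453625*t^2*h^5 + 88820332201125*t^2*h^4 + 135540329106375*t^2*h^3 + 84917473783875*t^2*h^2 - 81952630875*t^2*h + 3389154260625*t^2 - 16142520375*t*h^5 - 419705529750*t*h^4 - 3858062369625*t*h^3 -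 14689693541250*t*h^2 - 19774587459375*t*h) * hC
    rcases mul_eq_zero.mp key with h0 | h0
    · linarith
    · exact absurd h0 (mul_ne_zero (pow_ne_zero _ hDu) (pow_ne_zero _ hE))

/-- Rational points of `X₀(15)` in the `(t,h)`-model, assuming the descent theorem on
`Y^2 = X(X+9)(X-16)` (the curve `15a1`). -/
theorem X015_t_of_descent
    (hdesc : ∀ X Y : ℚ, Y^2 = X*(X+9)*(X-16) → X = 0 ∨ X = -9 ∨ X = 16 ∨ X = 36 ∨ X = -4)
    (t h : ℚ) (ht : t ≠ 0)
    (hC : (t+27)*(t+3)^3*h = (h^2+10*h+5)^3*t) :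
    t = -2 ∨ t = -729/32 ∨ t = -32 ∨ t = -729/2 := by
  obtain ⟨u, v, hG, hT⟩ := X015_exists_uv t h ht hC
  have hu0 : u ≠ 0 := by
    rintro rfl
    norm_num at hT
  have hv0 : v ≠ 0 := by
    rintro rfl
    norm_num at hT
  have hW : (72*u + 8*u^2*v + 20*u*v)^2 = (-4*u*v)*((-4*u*v)+9)*((-4*u*v)-16) := by
    linear_combination (64*u^2*v + 576*u) * hG
  -- `u * G = 0` written in terms of `p = u*v`
  have hp : (u*v + 9)*u^2 + 5*(u*v)*u + (u*v)^2 - u*v = 0 := by
    linear_combination u * hG
  rcases hdesc _ _ hW with hX | hX | hX | hX | hX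
  · -- X = 0
    exfalso
    have : u * v = 0 := by linarith
    rcases mul_eq_zero.mp this with h0 | h0
    · exact hu0 h0
    · exact hv0 h0
  · -- X = -9 : uv = 9/4, u = -1/2, v = -9/2, t = -32
    have huv : u * v = 9/4 := by linarith
    rw [huv] at hp
    have h1 : (2*u + 1)^2 = 0 := by linear_combination (16/45) * hp
    have hu : u = -1/2 := by
      have := pow_eq_zero_iff (by norm_num : (2:ℕ) ≠ 0) |>.mp h1
      linarith
    have hv : v = -9/2 := by
      rw [hu] at huv; linarith
    rw [hu, hv] at hT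
    right; right; left
    linarith
  · -- X = 16 : uv = -4, u = 2, v = -2, t = -729/32
    have huv : u * v = -4 := by linarith
    rw [huv] at hp
    have h1 : (u - 2)^2 = 0 := by linear_combination (1/5) * hp
    have hu : u = 2 := by
      have := pow_eq_zero_iff (by norm_num : (2:ℕ) ≠ 0) |>.mp h1
      linarith
    have hv : v = -2 := by
      rw [hu] at huv; linarith
    rw [hu, hv] at hT
    right; left
    linarith
  · -- X = 36 : uv = -9, u = 2, v = -9/2, t = -2
    have huv : u * v = -9 := by linarith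
    rw [huv] at hp
    have hu : u = 2 := by linarith
    have hv : v = -9/2 := by
      rw [hu] at huv; linarith
    rw [hu, hv] at hT
    left
    linarith
  · -- X = -4 : uv = 1, u = -1/2, v = -2, t = -729/2
    have huv : u * v = 1 := by linarith
    rw [huv] at hp
    have h1 : u * (2*u + 1) = 0 := by linear_combination (1/5) * hp
    have hu : u = -1/2 := by
      rcases mul_eq_zero.mp h1 with h0 | h0
      · exact absurd h0 hu0
      · linarith
    have hv : v = -2 := by
      rw [hu] at huv; linarith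
    rw [hu, hv] at hT
    right; right; right
    linarith

/-- (I3) The `j`-invariants of the non-cuspidal rational points of `X₀(15)`. -/
theorem X015_j_of_descent
    (hdesc : ∀ X Y : ℚ, Y^2 = X*(X+9)*(X-16) → X = 0 ∨ X = -9 ∨ X = 16 ∨ X = 36 ∨ X = -4)
    (t h j : ℚ) (ht : t ≠ 0) (_hh : h ≠ 0)
    (h3 : j * t = (t+27)*(t+3)^3) (h5 : j * h = (h^2+10*h+5)^3) :
    j = -25/2 ∨ j = -349938025/8 ∨ j = -121945/32 ∨ j = 46969655/32768 := by
  have hC : (t+27)*(t+3)^3*h = (h^2+10*h+5)^3*t := by
    rw [← h3, ← h5]; ring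
  rcases X015_t_of_descent hdesc t h ht hC with rfl | rfl | rfl | rfl
  · left
    have : j * (-2) = -2 * (-25/2) := by rw [h3]; norm_num
    linarith
  · right; right; right
    have : j * (-729/32) = (-729/32) * (46969655/32768) := by rw [h3]; norm_num
    linarith
  · right; right; left
    have : j * (-32) = -32 * (-121945/32) := by rw [h3]; norm_num
    linarith
  · right; left
    have : j * (-729/2) = (-729/2) * (-349938025/8) := by rw [h3]; norm_num
    linarith

end Fermat.Agent.S51.H591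

end
-- ===== PACK-END S51/H591/X015Map.lean

-- ===== PACK-BEGIN S52/H309/VarChange.lean
section



/-!
# S52, piece (A3): an admissible change of variables induces a group isomorphism on points

For a Weierstrass curve `W` over a field `F` and `C : VariableChange F`, the map
`(X, Y) ↦ (u²X + r, u³Y + u²sX + t)` is an isomorphism of groups
`(C • W).toAffine.Point ≃+ W.toAffine.Point`.
-/

set_option autoImplicit false
set_option linter.unusedSectionVars false

namespace Fermat.Agent.S52.H309.VC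

open WeierstrassCurve WeierstrassCurve.Affine

variable {F : Type*} [Field F] (W : WeierstrassCurve F) (C : VariableChange F)

/-- `X ↦ u²X + r`. -/
def fx (X : F) : F := (C.u : F) ^ 2 * X + C.r

/-- `(X, Y) ↦ u³Y + u²sX + t`. -/
def fy (X Y : F) : F := (C.u : F) ^ 3 * Y + (C.u : F) ^ 2 * C.s * X + C.t

lemma u_ne_zero : (C.u : F) ≠ 0 := C.u.ne_zero

lemma fx_injective : Function.Injective (fx C) := by
  intro X X' h
  have hu := u_ne_zero C
  simp only [fx] at h
  have h2 : (C.u : F) ^ 2 * X = (C.u : F) ^ 2 * X' := by linear_combination h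
  exact mul_left_cancel₀ (pow_ne_zero 2 hu) h2

lemma fy_injective (X : F) : Function.Injective (fy C X) := by
  intro Y Y' h
  have hu := u_ne_zero C
  simp only [fy] at h
  have h2 : (C.u : F) ^ 3 * Y = (C.u : F) ^ 3 * Y' := by linear_combination h
  exact mul_left_cancel₀ (pow_ne_zero 3 hu) h2

lemma equation_iff (X Y : F) :
    (C • W).toAffine.Equation X Y ↔ W.toAffine.Equation (fx C X) (fy C X Y) := by
  have hu := u_ne_zero C
  rw [Affine.equation_iff, Affine.equation_iff]
  simp only [variableChange_a₁, variableChange_a₂, variableChange_a₃, variableChange_a₄,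
    variableChange_a₆, Units.val_inv_eq_inv_val, fx, fy]
  constructor
  · intro h
    field_simp at h
    linear_combination h
  · intro h
    field_simp
    linear_combination h

lemma polyY_eq (X Y : F) :
    2 * fy C X Y + W.a₁ * fx C X + W.a₃ =
      (C.u : F) ^ 3 * (2 * Y + (C • W).a₁ * X + (C • W).a₃) := by
  have hu := u_ne_zero C
  simp only [variableChange_a₁, variableChange_a₃, Units.val_inv_eq_inv_val, fx, fy]
  field_simp
  ring

lemma polyX_eq (X Y : F) :
    W.a₁ * fy C X Y - (3 * fx C X ^ 2 + 2 * W.a₂ * fx C X + W.a₄) =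
      (C.u : F) ^ 4 * ((C • W).a₁ * Y - (3 * X ^ 2 + 2 * (C • W).a₂ * X + (C • W).a₄)) -
        C.s * ((C.u : F) ^ 3 * (2 * Y + (C • W).a₁ * X + (C • W).a₃)) := by
  have hu := u_ne_zero C
  simp only [variableChange_a₁, variableChange_a₂, variableChange_a₃, variableChange_a₄,
    Units.val_inv_eq_inv_val, fx, fy]
  field_simp
  ring

lemma nonsingular_iff (X Y : F) :
    (C • W).toAffine.Nonsingular X Y ↔ W.toAffine.Nonsingular (fx C X) (fy C X Y) := by
  have hu := u_ne_zero C
  rw [Affine.nonsingular_iff', Affine.nonsingular_iff', ← equation_iff]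
  refine and_congr_right fun _ => ?_
  have hY := polyY_eq W C X Y
  have hX := polyX_eq W C X Y
  have hu3 : (C.u : F) ^ 3 ≠ 0 := pow_ne_zero 3 hu
  have hu4 : (C.u : F) ^ 4 ≠ 0 := pow_ne_zero 4 hu
  constructor
  · rintro (h | h)
    · by_cases h' : 2 * Y + (C • W).a₁ * X + (C • W).a₃ = 0
      · left
        show W.a₁ * fy C X Y - (3 * fx C X ^ 2 + 2 * W.a₂ * fx C X + W.a₄) ≠ 0
        rw [hX, h', mul_zero, mul_zero, sub_zero]
        exact mul_ne_zero hu4 h
      · right
        show 2 * fy C X Y + W.a₁ * fx C X + W.a₃ ≠ 0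
        rw [hY]; exact mul_ne_zero hu3 h'
    · right
      show 2 * fy C X Y + W.a₁ * fx C X + W.a₃ ≠ 0
      rw [hY]; exact mul_ne_zero hu3 h
  · rintro (h | h)
    · by_cases h' : 2 * Y + (C • W).a₁ * X + (C • W).a₃ = 0
      · left
        intro h0
        apply h
        show W.a₁ * fy C X Y - (3 * fx C X ^ 2 + 2 * W.a₂ * fx C X + W.a₄) = 0
        rw [hX, h', mul_zero, mul_zero, sub_zero]
        show (C.u : F) ^ 4 * ((C • W).a₁ * Y - (3 * X ^ 2 + 2 * (C • W).a₂ * X + (C • W).a₄)) = 0
        rw [h0, mul_zero]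
      · exact Or.inr h'
    · right
      intro h0
      apply h
      show 2 * fy C X Y + W.a₁ * fx C X + W.a₃ = 0
      rw [hY]
      show (C.u : F) ^ 3 * (2 * Y + (C • W).a₁ * X + (C • W).a₃) = 0
      rw [h0, mul_zero]

lemma negY_eq (X Y : F) :
    W.toAffine.negY (fx C X) (fy C X Y) = fy C X ((C • W).toAffine.negY X Y) := by
  have hu := u_ne_zero C
  simp only [negY, variableChange_a₁, variableChange_a₃, Units.val_inv_eq_inv_val, fx, fy]
  field_simp
  ring

lemma addX_eq (X₁ X₂ L : F) :
    W.toAffine.addX (fx C X₁) (fx C X₂) ((C.u : F) * L + C.s) =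
      fx C ((C • W).toAffine.addX X₁ X₂ L) := by
  have hu := u_ne_zero C
  simp only [addX, variableChange_a₁, variableChange_a₂, Units.val_inv_eq_inv_val, fx]
  field_simp
  ring

lemma negAddY_eq (X₁ X₂ Y₁ L : F) :
    W.toAffine.negAddY (fx C X₁) (fx C X₂) (fy C X₁ Y₁) ((C.u : F) * L + C.s) =
      fy C ((C • W).toAffine.addX X₁ X₂ L) ((C • W).toAffine.negAddY X₁ X₂ Y₁ L) := by
  have hu := u_ne_zero C
  simp only [negAddY, addX_eq]
  simp only [addX, variableChange_a₁, variableChange_a₂, Units.val_inv_eq_inv_val, fx, fy]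
  field_simp
  ring

lemma addY_eq (X₁ X₂ Y₁ L : F) :
    W.toAffine.addY (fx C X₁) (fx C X₂) (fy C X₁ Y₁) ((C.u : F) * L + C.s) =
      fy C ((C • W).toAffine.addX X₁ X₂ L) ((C • W).toAffine.addY X₁ X₂ Y₁ L) := by
  simp only [addY, negAddY_eq, addX_eq, negY_eq]

variable [DecidableEq F]

lemma slope_eq {X₁ X₂ Y₁ Y₂ : F} (h₁ : (C • W).toAffine.Equation X₁ Y₁)
    (h₂ : (C • W).toAffine.Equation X₂ Y₂)
    (hxy : ¬(X₁ = X₂ ∧ Y₁ = (C • W).toAffine.negY X₂ Y₂)) :
    W.toAffine.slope (fx C X₁) (fx C X₂) (fy C X₁ Y₁) (fy C X₂ Y₂) =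
      (C.u : F) * (C • W).toAffine.slope X₁ X₂ Y₁ Y₂ + C.s := by
  have hu := u_ne_zero C
  by_cases hx : X₁ = X₂
  · subst hx
    have hy : Y₁ ≠ (C • W).toAffine.negY X₁ Y₂ := fun h => hxy ⟨rfl, h⟩
    have hy' : fy C X₁ Y₁ ≠ W.toAffine.negY (fx C X₁) (fy C X₁ Y₂) := by
      rw [negY_eq]; exact fun h => hy (fy_injective C X₁ h)
    rw [slope_of_Y_ne rfl hy', slope_of_Y_ne rfl hy]
    have hYY : Y₁ = Y₂ := (Affine.Y_eq_of_X_eq h₁ h₂ rfl).resolve_right hy
    subst hYY
    have hd : Y₁ - (C • W).toAffine.negY X₁ Y₁ ≠ 0 := sub_ne_zero.mpr hy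
    have hd' : fy C X₁ Y₁ - W.toAffine.negY (fx C X₁) (fy C X₁ Y₁) ≠ 0 := sub_ne_zero.mpr hy'
    have e1 : fy C X₁ Y₁ - W.toAffine.negY (fx C X₁) (fy C X₁ Y₁) =
        (C.u : F) ^ 3 * (Y₁ - (C • W).toAffine.negY X₁ Y₁) := by
      have := polyY_eq W C X₁ Y₁
      simp only [negY] at this ⊢
      linear_combination this
    have e2 : 3 * fx C X₁ ^ 2 + 2 * W.a₂ * fx C X₁ + W.a₄ - W.a₁ * fy C X₁ Y₁ =
        (C.u : F) ^ 4 * (3 * X₁ ^ 2 + 2 * (C • W).a₂ * X₁ + (C • W).a₄ - (C • W).a₁ * Y₁) +
          C.s * ((C.u : F) ^ 3 * (Y₁ - (C • W).toAffine.negY X₁ Y₁)) := by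
      have := polyX_eq W C X₁ Y₁
      simp only [negY] at this ⊢
      linear_combination -this
    rw [div_eq_iff hd', e2, e1]
    field_simp
  · have hx' : fx C X₁ ≠ fx C X₂ := fun h => hx (fx_injective C h)
    rw [slope_of_X_ne hx', slope_of_X_ne hx]
    have hd : X₁ - X₂ ≠ 0 := sub_ne_zero.mpr hx
    have hd' : fx C X₁ - fx C X₂ ≠ 0 := sub_ne_zero.mpr hx'
    rw [div_eq_iff hd']
    simp only [fx, fy]
    field_simp
    ring

variable {W C}

/-- The map on points induced by the change of variables. -/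
def toFun : (C • W).toAffine.Point → W.toAffine.Point
  | .zero => 0
  | .some X Y h => .some (fx C X) (fy C X Y) ((nonsingular_iff W C X Y).mp h)

@[simp] lemma toFun_zero : toFun (0 : (C • W).toAffine.Point) = 0 := rfl

@[simp] lemma toFun_some {X Y : F} (h : (C • W).toAffine.Nonsingular X Y) :
    toFun (Point.some X Y h) = Point.some (fx C X) (fy C X Y) ((nonsingular_iff W C X Y).mp h) :=
  rfl

lemma toFun_add (P Q : (C • W).toAffine.Point) : toFun (P + Q) = toFun P + toFun Q := by
  rcases P with _ | ⟨X₁, Y₁, h₁⟩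
  · have e : (Point.zero : (C • W).toAffine.Point) = 0 := rfl
    rw [e, zero_add, toFun_zero, zero_add]
  rcases Q with _ | ⟨X₂, Y₂, h₂⟩
  · have e : (Point.zero : (C • W).toAffine.Point) = 0 := rfl
    rw [e, add_zero, toFun_zero, add_zero]
  by_cases hxy : X₁ = X₂ ∧ Y₁ = (C • W).toAffine.negY X₂ Y₂
  · rw [Point.add_of_Y_eq hxy.1 hxy.2, toFun_zero, toFun_some, toFun_some,
      Point.add_of_Y_eq (congrArg (fx C) hxy.1) (by rw [negY_eq, hxy.1, hxy.2])]
  · have hxy' : ¬(fx C X₁ = fx C X₂ ∧ fy C X₁ Y₁ = W.toAffine.negY (fx C X₂) (fy C X₂ Y₂)) := by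
      rintro ⟨hx, hy⟩
      have hx' := fx_injective C hx
      subst hx'
      rw [negY_eq] at hy
      exact hxy ⟨rfl, fy_injective C X₁ hy⟩
    rw [Point.add_some hxy, toFun_some, toFun_some, toFun_some, Point.add_some hxy']
    simp only [slope_eq W C h₁.1 h₂.1 hxy, addX_eq, addY_eq]

/-- The group homomorphism on points induced by the change of variables. -/
def hom : (C • W).toAffine.Point →+ W.toAffine.Point where
  toFun := toFun
  map_zero' := rfl
  map_add' := toFun_add

@[simp] lemma hom_zero : hom (0 : (C • W).toAffine.Point) = 0 := rfl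

@[simp] lemma hom_some {X Y : F} (h : (C • W).toAffine.Nonsingular X Y) :
    hom (Point.some X Y h) = Point.some (fx C X) (fy C X Y) ((nonsingular_iff W C X Y).mp h) :=
  rfl

lemma hom_injective : Function.Injective (hom : (C • W).toAffine.Point →+ W.toAffine.Point) := by
  rintro (_ | ⟨X₁, Y₁, h₁⟩) (_ | ⟨X₂, Y₂, h₂⟩) h
  · rfl
  · exact absurd h (Point.some_ne_zero _).symm
  · exact absurd h (Point.some_ne_zero _)
  · have h' : Point.some (fx C X₁) (fy C X₁ Y₁) ((nonsingular_iff W C X₁ Y₁).mp h₁) =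
        Point.some (fx C X₂) (fy C X₂ Y₂) ((nonsingular_iff W C X₂ Y₂).mp h₂) := h
    rw [Point.some.injEq] at h'
    have hx := fx_injective C h'.1
    subst hx
    have hy := fy_injective C X₁ h'.2
    subst hy
    rfl

lemma hom_surjective : Function.Surjective (hom : (C • W).toAffine.Point →+ W.toAffine.Point) := by
  have hu := u_ne_zero C
  rintro (_ | ⟨x, y, h⟩)
  · exact ⟨0, rfl⟩
  · set X : F := ((C.u : F) ^ 2)⁻¹ * (x - C.r) with hX
    set Y : F := ((C.u : F) ^ 3)⁻¹ * (y - C.s * (x - C.r) - C.t) with hY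
    have ex : fx C X = x := by
      simp only [fx, hX]; field_simp; ring
    have ey : fy C X Y = y := by
      simp only [fy, hX, hY]; field_simp; ring
    have h' : (C • W).toAffine.Nonsingular X Y := by
      rw [nonsingular_iff, ex, ey]; exact h
    refine ⟨Point.some X Y h', ?_⟩
    rw [hom_some]
    congr

/-- **(A3)** The group isomorphism on points induced by an admissible change of variables. -/
noncomputable def equiv : (C • W).toAffine.Point ≃+ W.toAffine.Point :=
  AddEquiv.ofBijective hom ⟨hom_injective, hom_surjective⟩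

@[simp] lemma equiv_zero : equiv (0 : (C • W).toAffine.Point) = 0 := rfl

@[simp] lemma equiv_some {X Y : F} (h : (C • W).toAffine.Nonsingular X Y) :
    equiv (Point.some X Y h) =
      Point.some (fx C X) (fy C X Y) ((nonsingular_iff W C X Y).mp h) :=
  rfl

end Fermat.Agent.S52.H309.VC

namespace Fermat.Agent.S52.H309.VC

open WeierstrassCurve WeierstrassCurve.Affine

section Congr

variable {F : Type*} [Field F] [DecidableEq F]

/-- Transport of points along an equality of curves. -/
def pointCongr {W₁ W₂ : Affine F} (h : W₁ = W₂) : W₁.Point ≃+ W₂.Point :=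
  h ▸ AddEquiv.refl _

@[simp] lemma pointCongr_zero {W₁ W₂ : Affine F} (h : W₁ = W₂) :
    pointCongr h (0 : W₁.Point) = 0 := by
  subst h; rfl

@[simp] lemma pointCongr_some {W₁ W₂ : Affine F} (h : W₁ = W₂) {x y : F}
    (hxy : W₁.Nonsingular x y) :
    pointCongr h (Point.some x y hxy) = Point.some x y (h ▸ hxy) := by
  subst h; rfl

end Congr

section Card

variable {F : Type*} [Field F] (W : WeierstrassCurve F) (C : VariableChange F)

/-- A change of variables does not change the number of points. -/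
theorem card_variableChange :
    Nat.card (C • W).toAffine.Point = Nat.card W.toAffine.Point := by
  classical
  exact Nat.card_congr (equiv (W := W) (C := C)).toEquiv

end Card

section Base

variable {R : Type*} [CommRing R] (W₀ : WeierstrassCurve R) (C₀ : VariableChange R)
variable (K : Type*) [Field K] [DecidableEq K] [Algebra R K]

lemma baseChange_smul :
    ((C₀ • W₀)⁄K) = (C₀.baseChange K • W₀.baseChange K).toAffine :=
  (map_variableChange (φ := algebraMap R K) (W := W₀) (C := C₀)).symm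

/-- **(A3), base-change form.** For a curve `W₀` and a change of variables `C₀` over a base ring
`R`, and a field `K` over `R`: `((C₀ • W₀)⁄K).Point ≃+ (W₀⁄K).Point`. -/
noncomputable def equivBase : ((C₀ • W₀)⁄K).Point ≃+ (W₀⁄K).Point :=
  (pointCongr (baseChange_smul W₀ C₀ K)).trans
    (equiv (W := W₀.baseChange K) (C := C₀.baseChange K))

@[simp] lemma equivBase_zero : equivBase W₀ C₀ K 0 = 0 := by
  simp [equivBase]

lemma equivBase_some {X Y : K} (h : ((C₀ • W₀)⁄K).Nonsingular X Y) :
    ∃ h', equivBase W₀ C₀ K (Point.some X Y h) =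
      Point.some (algebraMap R K (C₀.u : R) ^ 2 * X + algebraMap R K C₀.r)
        (algebraMap R K (C₀.u : R) ^ 3 * Y + algebraMap R K (C₀.u : R) ^ 2 *
          algebraMap R K C₀.s * X + algebraMap R K C₀.t) h' := by
  refine ⟨?_, ?_⟩
  · have := (nonsingular_iff (W₀.baseChange K) (C₀.baseChange K) X Y).mp
      (baseChange_smul W₀ C₀ K ▸ h)
    exact this
  · simp only [equivBase, AddEquiv.trans_apply, pointCongr_some, equiv_some]
    rfl

end Base

section Equivariant

variable {R : Type*} [CommRing R] (W₀ : WeierstrassCurve R) (C₀ : VariableChange R)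
variable {S : Type*} [CommRing S] [Algebra R S]
variable {K : Type*} [Field K] [DecidableEq K] [Algebra R K] [Algebra S K] [IsScalarTower R S K]
variable {L : Type*} [Field L] [DecidableEq L] [Algebra R L] [Algebra S L] [IsScalarTower R S L]

/-- The isomorphism `equivBase` commutes with the maps on points induced by field homomorphisms
over the base (in particular with Galois actions). -/
theorem equivBase_map (f : K →ₐ[S] L) (P : ((C₀ • W₀)⁄K).Point) :
    equivBase W₀ C₀ L (Point.map f P) = Point.map f (equivBase W₀ C₀ K P) := by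
  rcases P with _ | ⟨X, Y, h⟩
  · have e : (Point.zero : ((C₀ • W₀)⁄K).Point) = 0 := rfl
    rw [e, Point.map_zero, equivBase_zero, equivBase_zero, Point.map_zero]
  · obtain ⟨h1, e1⟩ := equivBase_some W₀ C₀ K h
    rw [e1, Point.map_some, Point.map_some]
    obtain ⟨h2, e2⟩ := equivBase_some W₀ C₀ L
      ((Affine.baseChange_nonsingular (W := (C₀ • W₀).toAffine) f.injective X Y).mpr h)
    rw [e2]
    have hfa : ∀ r : R, f (algebraMap R K r) = algebraMap R L r := fun r => by
      rw [IsScalarTower.algebraMap_apply R S K, IsScalarTower.algebraMap_apply R S L,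
        AlgHom.commutes]
    congr 1
    · simp only [map_add, map_mul, map_pow, hfa]
    · simp only [map_add, map_mul, map_pow, hfa]

end Equivariant

end Fermat.Agent.S52.H309.VC

end
-- ===== PACK-END S52/H309/VarChange.lean

-- ===== PACK-BEGIN S52/H170/PtMap.lean
section
/-
S52 / piece (B1d), plumbing (helper170): maps on points induced by RING homs (Mathlib's
`Point.map` needs an `AlgHom` over a base where the curve is defined), and transport along an
equality of curves.

* `ptCongr (h : W = W') : W.Point ≃+ W'.Point`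
* `ptMap W f : W.Point →+ (W.map f).toAffine.Point`         (`f : F →+* F'` a field hom)
* `ptMapTo f (h : W.map f = W') : W.Point →+ W'.Point`

Mathlib-only.
-/


namespace Fermat.Agent.S52.H170

open WeierstrassCurve WeierstrassCurve.Affine

variable {F F' F'' : Type*} [Field F] [Field F'] [Field F'']
  [DecidableEq F] [DecidableEq F'] [DecidableEq F'']

/-- transport of points along an equality of curves. -/
noncomputable def ptCongr {W W' : Affine F} (h : W = W') : W.Point ≃+ W'.Point := by
  subst h; exact AddEquiv.refl _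

@[simp] lemma ptCongr_zero {W W' : Affine F} (h : W = W') : ptCongr h (0 : W.Point) = 0 := by
  subst h; rfl

lemma ptCongr_some {W W' : Affine F} (h : W = W') {x y : F} (hxy : W.Nonsingular x y) :
    ptCongr h (Point.some x y hxy) = Point.some x y (h ▸ hxy) := by
  subst h; rfl

lemma ptCongr_eq_zero_iff {W W' : Affine F} (h : W = W') (P : W.Point) :
    ptCongr h P = 0 ↔ P = 0 := by
  subst h; rfl

/-- the group homomorphism on points induced by a field homomorphism. -/
noncomputable def ptMap (W : Affine F) (f : F →+* F') : W.Point →+ (W.map f).toAffine.Point where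
  toFun P := match P with
    | 0 => 0
    | .some x y h => .some (f x) (f y) ((W.map_nonsingular f.injective x y).mpr h)
  map_zero' := rfl
  map_add' := by
    rintro (_ | ⟨x₁, y₁, h₁⟩) (_ | ⟨x₂, y₂, h₂⟩)
    any_goals rfl
    by_cases hxy : x₁ = x₂ ∧ y₁ = W.negY x₂ y₂
    · rw [Point.add_of_Y_eq hxy.left hxy.right,
        Point.add_of_Y_eq (congr_arg _ hxy.left) <| by rw [hxy.right, map_negY]]
    · have hxy' : ¬(f x₁ = f x₂ ∧ f y₁ = (W.map f).toAffine.negY (f x₂) (f y₂)) := by
        rintro ⟨h1, h2⟩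
        rw [map_negY] at h2
        exact hxy ⟨f.injective h1, f.injective h2⟩
      rw [Point.add_some hxy]
      show Point.some _ _ _ = Point.some _ _ _ + Point.some _ _ _
      rw [Point.add_some hxy']
      simp only [Point.some.injEq]
      rw [map_slope, map_addX, map_addY]
      exact ⟨rfl, rfl⟩

@[simp] lemma ptMap_zero (W : Affine F) (f : F →+* F') : ptMap W f 0 = 0 := rfl

lemma ptMap_some (W : Affine F) (f : F →+* F') {x y : F} (h : W.Nonsingular x y) :
    ptMap W f (Point.some x y h) =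
      Point.some (f x) (f y) ((W.map_nonsingular f.injective x y).mpr h) := rfl

lemma ptMap_injective (W : Affine F) (f : F →+* F') : Function.Injective (ptMap W f) := by
  rintro (_ | ⟨x₁, y₁, h₁⟩) (_ | ⟨x₂, y₂, h₂⟩) h
  · rfl
  · exact absurd h (by rw [ptMap_some]; exact (Point.some_ne_zero _).symm)
  · exact absurd h (by rw [ptMap_some]; exact Point.some_ne_zero _)
  · rw [ptMap_some, ptMap_some] at h
    have := Point.some.inj h
    have hx := f.injective this.1
    have hy := f.injective this.2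
    subst hx; subst hy; rfl

/-- the group homomorphism on points induced by a field homomorphism, with prescribed target. -/
noncomputable def ptMapTo {W : Affine F} {W' : Affine F'} (f : F →+* F')
    (h : W.map f = W') : W.Point →+ W'.Point :=
  (ptCongr (W := (W.map f).toAffine) (W' := W') h).toAddMonoidHom.comp (ptMap W f)

@[simp] lemma ptMapTo_zero {W : Affine F} {W' : Affine F'} (f : F →+* F')
    (h : W.map f = W') : ptMapTo f h 0 = 0 := map_zero _

lemma ptMapTo_some {W : Affine F} {W' : Affine F'} (f : F →+* F') (h : W.map f = W')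
    {x y : F} (hxy : W.Nonsingular x y) :
    ∃ hxy' : W'.Nonsingular (f x) (f y), ptMapTo f h (Point.some x y hxy) =
      Point.some (f x) (f y) hxy' := by
  subst h
  exact ⟨_, rfl⟩

lemma ptMapTo_injective {W : Affine F} {W' : Affine F'} (f : F →+* F') (h : W.map f = W') :
    Function.Injective (ptMapTo f h) := by
  subst h
  exact ptMap_injective W f

lemma ptMapTo_eq_zero_iff {W : Affine F} {W' : Affine F'} (f : F →+* F') (h : W.map f = W')
    (P : W.Point) : ptMapTo f h P = 0 ↔ P = 0 := by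
  constructor
  · intro e; exact ptMapTo_injective f h (by rw [e, map_zero])
  · rintro rfl; exact map_zero _

end Fermat.Agent.S52.H170

end
-- ===== PACK-END S52/H170/PtMap.lean

-- ===== PACK-BEGIN S52/H531/Diff.lean
section
/-
S52 / piece B3 (Hilbert irreducibility by hand), helper531.
Part 4: an integer sequence asymptotic to a real polynomial sequence of degree `≤ w`
forces `w! * (coefficient of X^w)` to be an integer.
-/


namespace Fermat.Agent.S52.H531

open Polynomial Finset Filter Topology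
open scoped fwdDiff Nat

/-- The `w`-th forward difference, written as an explicit sum of shifts. -/
noncomputable def Dw (w : ℕ) (f : ℕ → ℝ) (k : ℕ) : ℝ :=
  ∑ j ∈ range (w + 1), (((-1 : ℤ) ^ (w - j) * (w.choose j : ℤ) : ℤ) : ℝ) * f (k + j)

theorem Dw_sub (w : ℕ) (f g : ℕ → ℝ) (k : ℕ) :
    Dw w (fun i => f i - g i) k = Dw w f k - Dw w g k := by
  unfold Dw
  rw [← Finset.sum_sub_distrib]
  apply Finset.sum_congr rfl
  intro j _
  ring

theorem Dw_int (w : ℕ) (u : ℕ → ℤ) (k : ℕ) :
    ∃ N : ℤ, Dw w (fun i => (u i : ℝ)) k = (N : ℝ) := by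
  refine ⟨∑ j ∈ range (w + 1), ((-1 : ℤ) ^ (w - j) * (w.choose j : ℤ)) * u (k + j), ?_⟩
  unfold Dw
  push_cast
  rfl

theorem Dw_tendsto_zero (w : ℕ) (e : ℕ → ℝ) (he : Tendsto e atTop (𝓝 0)) :
    Tendsto (Dw w e) atTop (𝓝 0) := by
  unfold Dw
  have : (0 : ℝ) = ∑ j ∈ range (w + 1), (((-1 : ℤ) ^ (w - j) * (w.choose j : ℤ) : ℤ) : ℝ) * 0 := by
    simp
  rw [this]
  apply tendsto_finsetSum
  intro j _
  apply Tendsto.const_mul
  have hshift : Tendsto (fun k : ℕ => k + j) atTop atTop := tendsto_add_atTop_nat j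
  exact he.comp hshift

theorem Dw_poly (w : ℕ) (Q : ℝ[X]) (hQ : Q.natDegree ≤ w) (k : ℕ) :
    Dw w (fun i => Q.eval (i : ℝ)) k = (w ! : ℝ) * Q.coeff w := by
  have h1 : Dw w (fun i => Q.eval (i : ℝ)) k = ((fwdDiff (1 : ℝ))^[w] Q.eval) (k : ℝ) := by
    rw [fwdDiff_iter_eq_sum_shift]
    unfold Dw
    apply Finset.sum_congr rfl
    intro j _
    simp only [zsmul_eq_mul, nsmul_eq_mul, mul_one, Nat.cast_add]
  rw [h1]
  rcases Nat.lt_or_ge Q.natDegree w with hlt | hge
  · rw [Polynomial.fwdDiff_iter_eq_zero_of_degree_lt hlt]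
    rw [coeff_eq_zero_of_natDegree_lt hlt]
    simp
  · have heq : Q.natDegree = w := le_antisymm hQ hge
    have := Polynomial.fwdDiff_iter_degree_eq_factorial Q
    rw [heq] at this
    rw [this]
    simp only [Pi.smul_apply, smul_eq_mul]
    rw [leadingCoeff, heq]
    simp [mul_comm]

/-- A convergent sequence of integers (viewed in `ℝ`) has an integer limit. -/
theorem int_limit {I : ℕ → ℤ} {L : ℝ} (h : Tendsto (fun k => (I k : ℝ)) atTop (𝓝 L)) :
    ∃ N : ℤ, (N : ℝ) = L := by
  have hclosed : IsClosed (Set.range ((↑) : ℤ → ℝ)) :=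
    Int.isClosedEmbedding_coe_real.isClosed_range
  have : L ∈ Set.range ((↑) : ℤ → ℝ) :=
    hclosed.mem_of_tendsto h (Filter.Eventually.of_forall fun k => ⟨I k, rfl⟩)
  exact this

/-- Main lemma of this file. -/
theorem factorial_mul_coeff_int (w : ℕ) (Q : ℝ[X]) (hQ : Q.natDegree ≤ w) (u : ℕ → ℤ)
    (hlim : Tendsto (fun k : ℕ => (u k : ℝ) - Q.eval (k : ℝ)) atTop (𝓝 0)) :
    ∃ N : ℤ, (N : ℝ) = (w ! : ℝ) * Q.coeff w := by
  have h0 := Dw_tendsto_zero w _ hlim
  have hI : ∀ k, ∃ N : ℤ, Dw w (fun i => (u i : ℝ)) k = (N : ℝ) := Dw_int w u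
  choose I hIk using hI
  have h1 : ∀ k, Dw w (fun i : ℕ => (u i : ℝ) - Q.eval (i : ℝ)) k
      = (I k : ℝ) - (w ! : ℝ) * Q.coeff w := by
    intro k
    rw [Dw_sub, hIk, Dw_poly w Q hQ]
  have h2 : Tendsto (fun k => (I k : ℝ)) atTop (𝓝 ((w ! : ℝ) * Q.coeff w)) := by
    have h3 : Tendsto (fun k => (I k : ℝ) - (w ! : ℝ) * Q.coeff w) atTop (𝓝 0) := by
      have : (fun k => (I k : ℝ) - (w ! : ℝ) * Q.coeff w)
          = Dw w (fun i : ℕ => (u i : ℝ) - Q.eval (i : ℝ)) := by
        funext k; rw [h1]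
      rw [this]; exact h0
    have h4 := h3.add_const ((w ! : ℝ) * Q.coeff w)
    simpa using h4
  exact int_limit h2

end Fermat.Agent.S52.H531

end
-- ===== PACK-END S52/H531/Diff.lean

-- ===== PACK-BEGIN S24/H902/PowerEval.lean
section


/-!
# Evaluation of formal power series over `ℂ` at points of a disc

`Ev f q v` says that the power series `f` converges (unconditionally) at `q` with sum `v`.
We prove: compatibility with products (Cauchy product), uniqueness of the power series of a
function on a disc, the Taylor series of a function differentiable on a disc, and that the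
formal inverse of a power series computes the inverse of the value.
-/

set_option autoImplicit false

noncomputable section

namespace Fermat.Agent.S24.H902

open Complex PowerSeries Filter Topology

/-- `Ev f q v`: the power series `f` converges at `q` with sum `v`. -/
def Ev (f : PowerSeries ℂ) (q v : ℂ) : Prop :=
  HasSum (fun n : ℕ => PowerSeries.coeff n f * q ^ n) v

theorem Ev.hasSum {f : PowerSeries ℂ} {q v : ℂ} (h : Ev f q v) :
    HasSum (fun n : ℕ => PowerSeries.coeff n f * q ^ n) v := h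

theorem ev_iff {f : PowerSeries ℂ} {q v : ℂ} :
    Ev f q v ↔ HasSum (fun n : ℕ => PowerSeries.coeff n f * q ^ n) v := Iff.rfl

theorem Ev.unique {f : PowerSeries ℂ} {q v w : ℂ} (h : Ev f q v) (h' : Ev f q w) : v = w :=
  HasSum.unique h h'

theorem Ev.congr_val {f : PowerSeries ℂ} {q v w : ℂ} (h : Ev f q v) (hvw : v = w) : Ev f q w :=
  hvw ▸ h

theorem ev_one (q : ℂ) : Ev 1 q 1 := by
  unfold Ev
  have : (fun n : ℕ => PowerSeries.coeff n (1 : PowerSeries ℂ) * q ^ n)
      = fun n : ℕ => if n = 0 then (1 : ℂ) else 0 := by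
    funext n
    by_cases hn : n = 0
    · subst hn; simp
    · simp [PowerSeries.coeff_one, hn]
  rw [this]
  exact hasSum_ite_eq 0 (1 : ℂ)

theorem ev_C (c q : ℂ) : Ev (PowerSeries.C c) q c := by
  unfold Ev
  have : (fun n : ℕ => PowerSeries.coeff n (PowerSeries.C c : PowerSeries ℂ) * q ^ n)
      = fun n : ℕ => if n = 0 then c else 0 := by
    funext n
    by_cases hn : n = 0
    · subst hn; simp
    · simp [PowerSeries.coeff_C, hn]
  rw [this]
  exact hasSum_ite_eq 0 c

theorem ev_X (q : ℂ) : Ev PowerSeries.X q q := by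
  unfold Ev
  have : (fun n : ℕ => PowerSeries.coeff n (PowerSeries.X : PowerSeries ℂ) * q ^ n)
      = fun n : ℕ => if n = 1 then q else 0 := by
    funext n
    by_cases hn : n = 1
    · subst hn; simp
    · simp [PowerSeries.coeff_X, hn]
  rw [this]
  exact hasSum_ite_eq 1 q

theorem Ev.add {f g : PowerSeries ℂ} {q v w : ℂ} (hf : Ev f q v) (hg : Ev g q w) :
    Ev (f + g) q (v + w) := by
  unfold Ev at *
  have h := HasSum.add hf hg
  have e : (fun n : ℕ => PowerSeries.coeff n (f + g) * q ^ n)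
      = fun n : ℕ => PowerSeries.coeff n f * q ^ n + PowerSeries.coeff n g * q ^ n := by
    funext n
    rw [map_add, add_mul]
  rw [e]
  exact h

theorem Ev.smul {f : PowerSeries ℂ} {q v : ℂ} (c : ℂ) (hf : Ev f q v) :
    Ev (c • f) q (c * v) := by
  unfold Ev at *
  have h := HasSum.mul_left c hf
  have e : (fun n : ℕ => PowerSeries.coeff n (c • f) * q ^ n)
      = fun n : ℕ => c * (PowerSeries.coeff n f * q ^ n) := by
    funext n
    rw [map_smul, smul_eq_mul, mul_assoc]
  rw [e]
  exact h

/-- Cauchy product. -/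
theorem Ev.mul {f g : PowerSeries ℂ} {q v w : ℂ} (hf : Ev f q v) (hg : Ev g q w) :
    Ev (f * g) q (v * w) := by
  have hfs : Summable fun n : ℕ => ‖PowerSeries.coeff n f * q ^ n‖ :=
    summable_norm_iff.mpr hf.summable
  have hgs : Summable fun n : ℕ => ‖PowerSeries.coeff n g * q ^ n‖ :=
    summable_norm_iff.mpr hg.summable
  have h1 := tsum_mul_tsum_eq_tsum_sum_antidiagonal_of_summable_norm hfs hgs
  have h2 := summable_norm_sum_mul_antidiagonal_of_summable_norm hfs hgs
  have h3 : Summable fun n : ℕ => ∑ kl ∈ Finset.HasAntidiagonal.antidiagonal n,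
      (PowerSeries.coeff kl.1 f * q ^ kl.1) * (PowerSeries.coeff kl.2 g * q ^ kl.2) :=
    summable_norm_iff.mp h2
  have key : ∀ n : ℕ, ∑ kl ∈ Finset.HasAntidiagonal.antidiagonal n,
      (PowerSeries.coeff kl.1 f * q ^ kl.1) * (PowerSeries.coeff kl.2 g * q ^ kl.2)
        = PowerSeries.coeff n (f * g) * q ^ n := by
    intro n
    rw [PowerSeries.coeff_mul, Finset.sum_mul]
    refine Finset.sum_congr rfl fun kl hkl => ?_
    have hkl' := Finset.HasAntidiagonal.mem_antidiagonal.mp hkl
    rw [← hkl', pow_add]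
    ring
  unfold Ev
  have h4 : HasSum (fun n : ℕ => ∑ kl ∈ Finset.HasAntidiagonal.antidiagonal n,
      (PowerSeries.coeff kl.1 f * q ^ kl.1) * (PowerSeries.coeff kl.2 g * q ^ kl.2)) (v * w) := by
    have := h3.hasSum
    rw [← h1, hf.tsum_eq, hg.tsum_eq] at this
    exact this
  have e : (fun n : ℕ => PowerSeries.coeff n (f * g) * q ^ n)
      = fun n : ℕ => ∑ kl ∈ Finset.HasAntidiagonal.antidiagonal n,
      (PowerSeries.coeff kl.1 f * q ^ kl.1) * (PowerSeries.coeff kl.2 g * q ^ kl.2) :=
    funext fun n => (key n).symm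
  rw [e]
  exact h4

theorem Ev.pow {f : PowerSeries ℂ} {q v : ℂ} (hf : Ev f q v) (k : ℕ) :
    Ev (f ^ k) q (v ^ k) := by
  induction k with
  | zero => simpa using ev_one q
  | succ k ih => rw [pow_succ, pow_succ]; exact ih.mul hf

/-- A function given on a disc by a convergent power series has that series as its
formal power series expansion at `0`. -/
theorem hasFPowerSeriesOnBall_of_ev {a : PowerSeries ℂ} {r : NNReal} (hr : 0 < r) {c : ℂ → ℂ}
    (ha : ∀ q : ℂ, ‖q‖ < r → Ev a q (c q)) :
    HasFPowerSeriesOnBall c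
      (FormalMultilinearSeries.ofScalars ℂ fun n => PowerSeries.coeff n a) 0 r := by
  constructor
  · refine le_of_forall_lt_imp_le_of_dense fun r' hr' => ?_
    lift r' to NNReal using hr'.ne_top
    have hr'' : (r' : ℝ) < r := by exact_mod_cast hr'
    apply FormalMultilinearSeries.le_radius_of_summable
    have hs := (ha (r' : ℂ) (by simpa using hr'')).summable.norm
    refine hs.congr fun n => ?_
    rw [FormalMultilinearSeries.ofScalars_norm]
    simp [norm_pow]
  · exact_mod_cast hr
  · intro y hy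
    rw [Metric.eball_coe, mem_ball_zero_iff] at hy
    have h := ha y hy
    unfold Ev at h
    rw [zero_add]
    have e : (fun n : ℕ => (FormalMultilinearSeries.ofScalars ℂ
        (fun n => PowerSeries.coeff n a)) n fun _ => y)
        = fun n : ℕ => PowerSeries.coeff n a * y ^ n := by
      funext n
      rw [FormalMultilinearSeries.ofScalars_apply_eq]
      simp
    rw [e]
    exact h

/-- Uniqueness of power series expansions on a disc. -/
theorem ev_series_unique {a b : PowerSeries ℂ} {r : ℝ} (hr : 0 < r) {c : ℂ → ℂ}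
    (ha : ∀ q : ℂ, ‖q‖ < r → Ev a q (c q)) (hb : ∀ q : ℂ, ‖q‖ < r → Ev b q (c q)) :
    a = b := by
  lift r to NNReal using hr.le
  have hr' : 0 < r := by exact_mod_cast hr
  have h1 := (hasFPowerSeriesOnBall_of_ev hr' ha).hasFPowerSeriesAt
  have h2 := (hasFPowerSeriesOnBall_of_ev hr' hb).hasFPowerSeriesAt
  have h3 := h1.eq_formalMultilinearSeries h2
  have h4 := FormalMultilinearSeries.ofScalars_series_injective ℂ ℂ h3
  ext n
  exact congrFun h4 n

/-- The Taylor series at `0` of a function, as a formal power series. -/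
def taylor0 (F : ℂ → ℂ) : PowerSeries ℂ :=
  PowerSeries.mk fun n => ((n.factorial : ℂ))⁻¹ * iteratedDeriv n F 0

@[simp]
theorem coeff_taylor0 (F : ℂ → ℂ) (n : ℕ) :
    PowerSeries.coeff n (taylor0 F) = ((n.factorial : ℂ))⁻¹ * iteratedDeriv n F 0 := by
  simp [taylor0]

/-- A function differentiable on a disc around `0` is the sum of its Taylor series there. -/
theorem ev_taylor0 {F : ℂ → ℂ} {r : ℝ} (hF : DifferentiableOn ℂ F (Metric.ball 0 r)) {q : ℂ}
    (hq : ‖q‖ < r) : Ev (taylor0 F) q (F q) := by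
  have h := Complex.hasSum_taylorSeries_on_ball hF (z := q) (by simpa using hq)
  unfold Ev
  have e : (fun n : ℕ => PowerSeries.coeff n (taylor0 F) * q ^ n)
      = fun n : ℕ => ((n.factorial : ℂ))⁻¹ • (q - 0) ^ n • iteratedDeriv n F 0 := by
    funext n
    rw [coeff_taylor0, sub_zero, smul_eq_mul, smul_eq_mul]
    ring
  rw [e]
  exact h

/-- If a power series represents `F` on a disc, it is the Taylor series of `F`. -/
theorem eq_taylor0_of_ev {a : PowerSeries ℂ} {r : ℝ} (hr : 0 < r) {F : ℂ → ℂ}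
    (hF : DifferentiableOn ℂ F (Metric.ball 0 r))
    (ha : ∀ q : ℂ, ‖q‖ < r → Ev a q (F q)) : a = taylor0 F :=
  ev_series_unique hr ha fun _ hq => ev_taylor0 hF hq

/-- A convergent power series on a disc defines a differentiable function there. -/
theorem differentiableOn_of_ev {a : PowerSeries ℂ} {r : ℝ} (hr : 0 < r) {c : ℂ → ℂ}
    (ha : ∀ q : ℂ, ‖q‖ < r → Ev a q (c q)) : DifferentiableOn ℂ c (Metric.ball 0 r) := by
  lift r to NNReal using hr.le
  have hr' : 0 < r := by exact_mod_cast hr
  have h := (hasFPowerSeriesOnBall_of_ev hr' ha).analyticOnNhd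
  rw [Metric.eball_coe] at h
  exact h.differentiableOn

/-- **Formal inverse = analytic inverse.**  If `u` represents a nowhere vanishing function `U`
on the disc of radius `r` and `u * w = 1` formally, then `w` represents `1 / U` on that disc. -/
theorem ev_of_mul_eq_one {u w : PowerSeries ℂ} {r : ℝ} (hr : 0 < r) {U : ℂ → ℂ}
    (hu : ∀ q : ℂ, ‖q‖ < r → Ev u q (U q)) (hU : ∀ q : ℂ, ‖q‖ < r → U q ≠ 0)
    (huw : u * w = 1) {q : ℂ} (hq : ‖q‖ < r) : Ev w q (U q)⁻¹ := by
  have hUd : DifferentiableOn ℂ U (Metric.ball 0 r) := differentiableOn_of_ev hr hu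
  have hGd : DifferentiableOn ℂ (fun q => (U q)⁻¹) (Metric.ball 0 r) :=
    hUd.inv fun x hx => hU x (by simpa using hx)
  have hg : ∀ q : ℂ, ‖q‖ < r → Ev (taylor0 fun q => (U q)⁻¹) q (U q)⁻¹ :=
    fun q hq => ev_taylor0 hGd hq
  have hprod : ∀ q : ℂ, ‖q‖ < r → Ev (u * taylor0 fun q => (U q)⁻¹) q 1 := fun q hq =>
    ((hu q hq).mul (hg q hq)).congr_val (mul_inv_cancel₀ (hU q hq))
  have hone : u * (taylor0 fun q => (U q)⁻¹) = 1 :=
    ev_series_unique (c := fun _ => 1) hr hprod fun q _ => ev_one q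
  have hw : w = taylor0 fun q => (U q)⁻¹ := by
    calc w = w * (u * taylor0 fun q => (U q)⁻¹) := by rw [hone, mul_one]
      _ = (u * w) * taylor0 (fun q => (U q)⁻¹) := by ring
      _ = taylor0 fun q => (U q)⁻¹ := by rw [huw, one_mul]
  rw [hw]
  exact hg q hq

end Fermat.Agent.S24.H902

end
end
-- ===== PACK-END S24/H902/PowerEval.lean

-- ===== PACK-BEGIN S15/H2/FiniteSplit.lean
section


/-!
# Row S15, node DESC (helper2): splitting a finite module at an ideal

For a commutative ring `T`, an ideal `𝔪` and a **finite** `T`-module `Y` there are `K ≥ 1` and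
`f ∈ 𝔪 ^ K` acting on `Y` as an idempotent such that `𝔪 ^ K` kills `(1 - f) Y`.  Hence
`Y = Y[𝔪^∞] ⊕ f Y`, `Y[𝔪^∞] = ker f = (1 - f) Y` and `f Y ⊆ 𝔪 ^ k Y` for all `k`.
The datum `(K, f)` only depends on the annihilator of `Y`, so it passes to submodules and
quotients; this makes `Y ↦ Y[𝔪^∞]` exact on finite modules without any localisation.
-/

set_option autoImplicit false

namespace Fermat.Agent.S15.H2

open Submodule

section Split

variable {T : Type*} [CommRing T]

/-- The `𝔪`-primary part `Y[𝔪^∞]` of a module. -/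
def primaryPart (𝔪 : Ideal T) (Y : Type*) [AddCommGroup Y] [Module T Y] : Submodule T Y where
  carrier := {y | ∃ k : ℕ, ∀ t ∈ 𝔪 ^ k, t • y = 0}
  zero_mem' := ⟨0, fun t _ => smul_zero t⟩
  add_mem' := by
    rintro a b ⟨k, hk⟩ ⟨l, hl⟩
    refine ⟨max k l, fun t ht => ?_⟩
    rw [smul_add, hk t (Ideal.pow_le_pow_right (le_max_left k l) ht),
      hl t (Ideal.pow_le_pow_right (le_max_right k l) ht), add_zero]
  smul_mem' := by
    rintro c y ⟨k, hk⟩
    exact ⟨k, fun t ht => by rw [smul_comm, hk t ht, smul_zero]⟩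

theorem mem_primaryPart {𝔪 : Ideal T} {Y : Type*} [AddCommGroup Y] [Module T Y] {y : Y} :
    y ∈ primaryPart 𝔪 Y ↔ ∃ k : ℕ, ∀ t ∈ 𝔪 ^ k, t • y = 0 :=
  Iff.rfl

/-- A splitting datum for `Y` at `𝔪`. -/
structure IsSplit (𝔪 : Ideal T) (K : ℕ) (f : T) (Y : Type*) [AddCommGroup Y] [Module T Y] :
    Prop where
  pos : 1 ≤ K
  mem : f ∈ 𝔪 ^ K
  idem : ∀ y : Y, f • f • y = f • y
  kill : ∀ t ∈ 𝔪 ^ K, ∀ y : Y, t • (y - f • y) = 0

variable {𝔪 : Ideal T} {K : ℕ} {f : T}

theorem exists_isSplit (𝔪 : Ideal T) (Y : Type*) [AddCommGroup Y] [Module T Y] [Finite Y] :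
    ∃ (K : ℕ) (f : T), IsSplit 𝔪 K f Y := by
  have : IsArtinian T Y := isArtinian_of_finite
  obtain ⟨n, hn⟩ := IsArtinian.monotone_stabilizes (R := T) (M := Y)
    ⟨fun k => OrderDual.toDual ((𝔪 ^ k) • (⊤ : Submodule T Y)), fun a b hab =>
      OrderDual.toDual_le_toDual.mpr (Submodule.smul_mono_left (Ideal.pow_le_pow_right hab))⟩
  have hn' : ∀ m, n ≤ m → (𝔪 ^ n) • (⊤ : Submodule T Y) = (𝔪 ^ m) • (⊤ : Submodule T Y) :=
    fun m hm => hn m hm
  set K := n + 1 with hK
  set N : Submodule T Y := (𝔪 ^ K) • (⊤ : Submodule T Y) with hN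
  have hNfg : N.FG := by
    have : IsNoetherian T Y := isNoetherian_of_finite T Y
    exact IsNoetherian.noetherian N
  have hle : N ≤ (𝔪 ^ K) • N := by
    rw [hN, ← Submodule.mul_smul, ← pow_add, ← hn' (K + K) (by omega), ← hn' K (by omega)]
  obtain ⟨r, hr1, hr⟩ :=
    Submodule.exists_sub_one_mem_and_smul_eq_zero_of_fg_of_le_smul (𝔪 ^ K) N hNfg hle
  have hfmem : 1 - r ∈ 𝔪 ^ K := by
    have := (𝔪 ^ K).neg_mem hr1
    simpa using this
  have hmemN : ∀ t ∈ 𝔪 ^ K, ∀ y : Y, t • y ∈ N := fun t ht y =>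
    Submodule.smul_mem_smul ht Submodule.mem_top
  refine ⟨K, 1 - r, ⟨by omega, hfmem, fun y => ?_, fun t ht y => ?_⟩⟩
  · -- idempotent: (1 - r) • y ∈ N so r • (1 - r) • y = 0
    have h1 := hr _ (hmemN _ hfmem y)
    have : (1 - r) • (1 - r) • y = (1 - r) • y - r • (1 - r) • y := by
      rw [sub_smul 1 r ((1 - r) • y), one_smul]
    rw [this, h1, sub_zero]
  · have h1 := hr _ (hmemN t ht y)
    have : y - (1 - r) • y = r • y := by rw [sub_smul, one_smul]; abel
    rw [this, smul_comm, h1]

namespace IsSplit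

variable {Y : Type*} [AddCommGroup Y] [Module T Y]

theorem pow_smul (h : IsSplit 𝔪 K f Y) (y : Y) : ∀ n : ℕ, 1 ≤ n → f ^ n • y = f • y := by
  intro n hn
  induction n, hn using Nat.le_induction with
  | base => rw [pow_one]
  | succ n _ ih => rw [pow_succ', mul_smul, ih, h.idem]

theorem pow_mem (h : IsSplit 𝔪 K f Y) (n : ℕ) : f ^ n ∈ 𝔪 ^ n := by
  have h1 : f ^ n ∈ (𝔪 ^ K) ^ n := Ideal.pow_mem_pow h.mem n
  rw [← pow_mul] at h1
  exact Ideal.pow_le_pow_right (Nat.le_mul_of_pos_left n h.pos) h1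

theorem not_mem_of_ne_top (h : IsSplit 𝔪 K f Y) (h𝔪 : 𝔪 ≠ ⊤) : 1 - f ∉ 𝔪 := by
  intro hmem
  have hf : f ∈ 𝔪 := by
    have := h.pow_mem 1
    simpa using this
  exact h𝔪 ((Ideal.eq_top_iff_one 𝔪).mpr (by simpa using 𝔪.add_mem hmem hf))

/-- `Y[𝔪^∞] = ker f`. -/
theorem mem_primaryPart_iff (h : IsSplit 𝔪 K f Y) (y : Y) :
    y ∈ primaryPart 𝔪 Y ↔ f • y = 0 := by
  constructor
  · rintro ⟨k, hk⟩
    rcases Nat.eq_zero_or_pos k with rfl | hkpos
    · have := hk 1 (by simp)
      rw [one_smul] at this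
      rw [this, smul_zero]
    · rw [← h.pow_smul y k hkpos]
      exact hk _ (h.pow_mem k)
  · intro hy
    refine ⟨K, fun t ht => ?_⟩
    have := h.kill t ht y
    rwa [hy, sub_zero] at this

theorem sub_smul_mem_primaryPart (h : IsSplit 𝔪 K f Y) (y : Y) :
    y - f • y ∈ primaryPart 𝔪 Y := by
  rw [h.mem_primaryPart_iff, smul_sub, h.idem, sub_self]

theorem smul_mem_pow_smul_top (h : IsSplit 𝔪 K f Y) (y : Y) (n : ℕ) :
    f • y ∈ (𝔪 ^ n) • (⊤ : Submodule T Y) := by
  rcases Nat.eq_zero_or_pos n with rfl | hn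
  · simp
  · rw [← h.pow_smul y n hn]
    exact Submodule.smul_mem_smul (h.pow_mem n) Submodule.mem_top

/-- If `Y[𝔪^∞] = 0` then `Y = 𝔪 Y`. -/
theorem top_le_smul_top_of_primaryPart_eq_bot (h : IsSplit 𝔪 K f Y)
    (h0 : primaryPart 𝔪 Y = ⊥) : (⊤ : Submodule T Y) ≤ 𝔪 • (⊤ : Submodule T Y) := by
  intro y _
  have h1 : y - f • y = 0 := by
    have := h.sub_smul_mem_primaryPart y
    rwa [h0, Submodule.mem_bot] at this
  have h2 : y = f • y := sub_eq_zero.mp h1
  rw [h2]
  have := h.smul_mem_pow_smul_top y 1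
  rwa [pow_one] at this

/-- A splitting datum passes to the target of a surjective linear map. -/
theorem of_surjective {Z : Type*} [AddCommGroup Z] [Module T Z] (h : IsSplit 𝔪 K f Y)
    (φ : Y →ₗ[T] Z) (hφ : Function.Surjective φ) : IsSplit 𝔪 K f Z where
  pos := h.pos
  mem := h.mem
  idem := fun z => by
    obtain ⟨y, rfl⟩ := hφ z
    rw [← map_smul, ← map_smul, h.idem]
  kill := fun t ht z => by
    obtain ⟨y, rfl⟩ := hφ z
    rw [← map_smul, ← map_sub, ← map_smul, h.kill t ht y, map_zero]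

/-- A splitting datum passes to the source of an injective linear map. -/
theorem of_injective {Z : Type*} [AddCommGroup Z] [Module T Z] (h : IsSplit 𝔪 K f Y)
    (φ : Z →ₗ[T] Y) (hφ : Function.Injective φ) : IsSplit 𝔪 K f Z where
  pos := h.pos
  mem := h.mem
  idem := fun z => hφ (by rw [map_smul, map_smul, h.idem])
  kill := fun t ht z => hφ (by
    rw [map_smul, map_sub, map_smul, h.kill t ht, map_zero])

end IsSplit

end Split

end Fermat.Agent.S15.H2

end
-- ===== PACK-END S15/H2/FiniteSplit.lean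

-- ===== PACK-BEGIN S17/H737/AbstractDescent.lean
section


/-!
# S17 / tower H: abstract end of the height argument (helper737)

Mathlib-only.  `A` is any commutative additive group (think `MW N`).

* `descent_data_of_pairing_height` : from a quasi-quadratic `q`, a quasi-additive `l`, a
  nonnegative Northcott function `ν` and the positivity inequality
  `ν (-x) ≤ c₁ * (q x - l x / 2) + c₂` (route H-D, inequality (POS)), the function `h := q`
  is a descent height for the exponent `2`: Northcott, `h x ≤ 2 * h (g + x) + c g`,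
  `4 * h x - c₀ ≤ h (2 • x)`.  The conclusion is literally the body of
  `Skel.HasDescentHeight N 2` with `MW N` replaced by `A`.  No Tate limit is needed.
* `exists_quadratic_limit`, `exists_additive_limit` : Tate limits (exact quadratic / additive
  function at bounded distance), for users who prefer exact forms.
-/

set_option autoImplicit false

namespace Fermat.Agent.S17.H737

section Descent

variable {A : Type*} [AddCommGroup A]

/-- A quasi-quadratic function is bounded at `0`. -/
theorem abs_zero_le_of_quasiQuadratic (q : A → ℝ) (C : ℝ)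
    (hq : ∀ x y, |q (x + y) + q (x - y) - 2 * q x - 2 * q y| ≤ C) : |q 0| ≤ C / 2 := by
  have h := hq 0 0
  simp only [add_zero, sub_zero] at h
  have h2 : q 0 + q 0 - 2 * q 0 - 2 * q 0 = -(2 * q 0) := by ring
  rw [h2, abs_neg, abs_mul, abs_two] at h
  linarith

/-- A quasi-quadratic function is quasi-even. -/
theorem abs_neg_sub_le_of_quasiQuadratic (q : A → ℝ) (C : ℝ)
    (hq : ∀ x y, |q (x + y) + q (x - y) - 2 * q x - 2 * q y| ≤ C) (y : A) :
    |q (-y) - q y| ≤ 2 * C := by
  have h0 := abs_zero_le_of_quasiQuadratic q C hq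
  have h := hq 0 y
  simp only [zero_add, zero_sub] at h
  have e : q (-y) - q y = (q y + q (-y) - 2 * q 0 - 2 * q y) + 2 * q 0 := by ring
  rw [e]
  calc |(q y + q (-y) - 2 * q 0 - 2 * q y) + 2 * q 0|
      ≤ |q y + q (-y) - 2 * q 0 - 2 * q y| + |2 * q 0| := abs_add_le _ _
    _ ≤ C + 2 * (C / 2) := by
        rw [abs_mul, abs_two]
        linarith
    _ = 2 * C := by ring

/-- A quasi-additive function is quasi-odd. -/
theorem abs_add_neg_le_of_quasiAdditive (l : A → ℝ) (C : ℝ)
    (hl : ∀ x y, |l (x + y) - l x - l y| ≤ C) (x : A) : |l x + l (-x)| ≤ 2 * C := by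
  have h0 := hl 0 0
  simp only [add_zero] at h0
  have h00 : |l 0| ≤ C := by
    have e : l 0 - l 0 - l 0 = -(l 0) := by ring
    rwa [e, abs_neg] at h0
  have h := hl x (-x)
  rw [add_neg_cancel] at h
  have e : l x + l (-x) = -(l 0 - l x - l (-x)) + l 0 := by ring
  rw [e]
  calc |-(l 0 - l x - l (-x)) + l 0| ≤ |-(l 0 - l x - l (-x))| + |l 0| := abs_add_le _ _
    _ ≤ C + C := by rw [abs_neg]; linarith
    _ = 2 * C := by ring

/-- **Abstract end of route H-D.**  Quasi-quadratic `q`, quasi-additive `l`, nonnegative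
Northcott `ν`, and `(POS)`: `ν (-x) ≤ c₁ * (q x - l x / 2) + c₂` with `c₁ > 0`.
Then `h := q` satisfies the three requirements of a descent height for the exponent `2`
(with `a = 2 < b = 4`). -/
theorem descent_data_of_pairing_height (q l ν : A → ℝ) (C c₁ c₂ : ℝ) (hc₁ : 0 < c₁)
    (hq : ∀ x y, |q (x + y) + q (x - y) - 2 * q x - 2 * q y| ≤ C)
    (hl : ∀ x y, |l (x + y) - l x - l y| ≤ C)
    (hν0 : ∀ x, 0 ≤ ν x)
    (hν : ∀ B : ℝ, {x : A | ν x ≤ B}.Finite)
    (hpos : ∀ x, ν (-x) ≤ c₁ * (q x - l x / 2) + c₂) :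
    ∃ (h : A → ℝ) (a b c₀ : ℝ) (c : A → ℝ), 0 ≤ a ∧ a < b ∧
      (∀ B : ℝ, {x : A | h x ≤ B}.Finite) ∧
      (∀ g x : A, h x ≤ a * h (g + x) + c g) ∧
      (∀ x : A, b * h x - c₀ ≤ h (2 • x)) := by
  have hC : 0 ≤ C := le_trans (abs_nonneg _) (hq 0 0)
  have hq0 := abs_zero_le_of_quasiQuadratic q C hq
  -- first lower bound: `q x - l x / 2 ≥ - c₂ / c₁`
  have h1 : ∀ x, -(c₂ / c₁) ≤ q x - l x / 2 := by
    intro x
    have h := le_trans (hν0 (-x)) (hpos x)
    have h' : -c₂ ≤ (q x - l x / 2) * c₁ := by linarith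
    rw [← neg_div, div_le_iff₀ hc₁]
    exact h'
  -- second lower bound, from `-x`
  have h2 : ∀ x, -(c₂ / c₁) - 3 * C ≤ q x + l x / 2 := by
    intro x
    have h := h1 (-x)
    have hqe := abs_neg_sub_le_of_quasiQuadratic q C hq x
    have hle := abs_add_neg_le_of_quasiAdditive l C hl x
    have hqe' := (abs_le.1 hqe).2
    have hle' := (abs_le.1 hle).1
    linarith
  -- `q` is bounded below
  have h3 : ∀ x, -(c₂ / c₁) - 3 * C / 2 ≤ q x := by
    intro x
    have := h1 x
    have := h2 x
    linarith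
  refine ⟨q, 2, 4, 3 * C / 2, fun g => 2 * q g + C + (c₂ / c₁ + 3 * C / 2), by norm_num,
    by norm_num, ?_, ?_, ?_⟩
  · -- Northcott
    intro B
    have hfin : {x : A | ν (-x) ≤ c₁ * (2 * B + c₂ / c₁ + 3 * C) + c₂}.Finite := by
      have := (hν (c₁ * (2 * B + c₂ / c₁ + 3 * C) + c₂)).preimage
        (f := fun x : A => -x) (fun x _ y _ hxy => neg_injective hxy)
      exact this
    refine hfin.subset ?_
    intro x hx
    simp only [Set.mem_ofPred_eq] at hx ⊢
    refine le_trans (hpos x) ?_
    have h := h2 x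
    have : q x - l x / 2 ≤ 2 * B + c₂ / c₁ + 3 * C := by linarith
    have := mul_le_mul_of_nonneg_left this hc₁.le
    linarith
  · -- translation
    intro g x
    have h := hq (g + x) g
    have e1 : g + x - g = x := by abel
    rw [e1] at h
    have h' := (abs_le.1 h).2
    have hlow := h3 (g + x + g)
    show q x ≤ 2 * q (g + x) + (2 * q g + C + (c₂ / c₁ + 3 * C / 2))
    linarith
  · -- duplication
    intro x
    have h := hq x x
    rw [sub_self, ← two_nsmul] at h
    have h' := (abs_le.1 h).1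
    have h0 := (abs_le.1 hq0).2
    linarith

end Descent

section TateLimit

variable {A : Type*} [AddCommGroup A]

/-- Tate limit for quasi-quadratic functions: an exact quadratic function at distance `≤ C / 2`. -/
theorem exists_quadratic_limit (f : A → ℝ) (C : ℝ)
    (hf : ∀ x y, |f (x + y) + f (x - y) - 2 * f x - 2 * f y| ≤ C) :
    ∃ q : A → ℝ, (∀ x y, q (x + y) + q (x - y) = 2 * q x + 2 * q y) ∧
      ∀ x, |q x - f x| ≤ C / 2 := by
  have hC : 0 ≤ C := le_trans (abs_nonneg _) (hf 0 0)
  have hf0 := abs_zero_le_of_quasiQuadratic f C hf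
  -- the key estimate
  have hdup : ∀ x, |f (2 • x) - 4 * f x| ≤ 3 * C / 2 := by
    intro x
    have h := hf x x
    rw [sub_self, ← two_nsmul] at h
    have e : f (2 • x) - 4 * f x = (f (2 • x) + f 0 - 2 * f x - 2 * f x) - f 0 := by ring
    rw [e]
    calc |(f (2 • x) + f 0 - 2 * f x - 2 * f x) - f 0|
        ≤ |f (2 • x) + f 0 - 2 * f x - 2 * f x| + |f 0| := abs_sub _ _
      _ ≤ C + C / 2 := by linarith
      _ = 3 * C / 2 := by ring
  let u : A → ℕ → ℝ := fun x n => f ((2 ^ n) • x) / 4 ^ n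
  have hstep : ∀ x n, dist (u x n) (u x (n + 1)) ≤ (3 * C / 8) * (1 / 4 : ℝ) ^ n := by
    intro x n
    have h := hdup ((2 ^ n) • x)
    have e2 : (2 : ℕ) • ((2 ^ n) • x) = (2 ^ (n + 1)) • x := by
      rw [smul_smul, pow_succ, mul_comm]
    rw [e2] at h
    have h4 : (0 : ℝ) < 4 ^ n := by positivity
    have h4' : (0 : ℝ) < 4 ^ (n + 1) := by positivity
    rw [Real.dist_eq]
    have e : u x n - u x (n + 1)
        = -((f ((2 ^ (n + 1)) • x) - 4 * f ((2 ^ n) • x)) / 4 ^ (n + 1)) := by
      simp only [u]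
      rw [pow_succ]
      field_simp
      ring
    rw [e, abs_neg, abs_div, abs_of_pos h4']
    rw [div_le_iff₀ h4']
    calc |f ((2 ^ (n + 1)) • x) - 4 * f ((2 ^ n) • x)| ≤ 3 * C / 2 := h
      _ = 3 * C / 8 * (1 / 4) ^ n * 4 ^ (n + 1) := by
          rw [pow_succ, one_div, inv_pow]
          field_simp
          ring
  have hcau : ∀ x, CauchySeq (u x) := fun x =>
    cauchySeq_of_le_geometric (1 / 4) (3 * C / 8) (by norm_num) (hstep x)
  have hlim : ∀ x, ∃ a, Filter.Tendsto (u x) Filter.atTop (nhds a) := fun x =>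
    cauchySeq_tendsto_of_complete (hcau x)
  choose q hq using hlim
  refine ⟨q, ?_, ?_⟩
  · intro x y
    -- pass to the limit in the quasi-parallelogram law
    have hT : Filter.Tendsto
        (fun n => u (x + y) n + u (x - y) n - 2 * u x n - 2 * u y n) Filter.atTop
        (nhds (q (x + y) + q (x - y) - 2 * q x - 2 * q y)) :=
      (((hq (x + y)).add (hq (x - y))).sub ((hq x).const_mul 2)).sub ((hq y).const_mul 2)
    have hB : ∀ n, |u (x + y) n + u (x - y) n - 2 * u x n - 2 * u y n| ≤ C * (1 / 4 : ℝ) ^ n := by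
      intro n
      have h := hf ((2 ^ n) • x) ((2 ^ n) • y)
      rw [← smul_add, ← smul_sub] at h
      have h4 : (0 : ℝ) < 4 ^ n := by positivity
      have e : u (x + y) n + u (x - y) n - 2 * u x n - 2 * u y n
          = (f ((2 ^ n) • (x + y)) + f ((2 ^ n) • (x - y)) - 2 * f ((2 ^ n) • x)
              - 2 * f ((2 ^ n) • y)) / 4 ^ n := by
        simp only [u]
        ring
      rw [e, abs_div, abs_of_pos h4, div_le_iff₀ h4]
      calc _ ≤ C := h
        _ = C * (1 / 4) ^ n * 4 ^ n := by
            rw [one_div, inv_pow]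
            field_simp
    have h0 : Filter.Tendsto (fun n => C * (1 / 4 : ℝ) ^ n) Filter.atTop (nhds 0) := by
      have := (tendsto_pow_atTop_nhds_zero_of_lt_one (r := (1 / 4 : ℝ)) (by norm_num)
        (by norm_num)).const_mul C
      simpa using this
    have hz : Filter.Tendsto
        (fun n => u (x + y) n + u (x - y) n - 2 * u x n - 2 * u y n) Filter.atTop (nhds 0) :=
      squeeze_zero_norm (fun n => by rw [Real.norm_eq_abs]; exact hB n) h0
    have := tendsto_nhds_unique hT hz
    linarith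
  · intro x
    have h := dist_le_of_le_geometric_of_tendsto₀ (1 / 4) (3 * C / 8) (by norm_num) (hstep x)
      (hq x)
    have e0 : u x 0 = f x := by simp [u]
    rw [e0, dist_comm, Real.dist_eq] at h
    refine le_trans h (le_of_eq ?_)
    norm_num
    ring

/-- Tate limit for quasi-additive functions: an exact additive function at distance `≤ C`. -/
theorem exists_additive_limit (f : A → ℝ) (C : ℝ)
    (hf : ∀ x y, |f (x + y) - f x - f y| ≤ C) :
    ∃ l : A →+ ℝ, ∀ x, |l x - f x| ≤ C := by
  have hC : 0 ≤ C := le_trans (abs_nonneg _) (hf 0 0)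
  have hdup : ∀ x, |f (2 • x) - 2 * f x| ≤ C := by
    intro x
    have h := hf x x
    rw [← two_nsmul] at h
    have e : f (2 • x) - 2 * f x = f (2 • x) - f x - f x := by ring
    rwa [e]
  let u : A → ℕ → ℝ := fun x n => f ((2 ^ n) • x) / 2 ^ n
  have hstep : ∀ x n, dist (u x n) (u x (n + 1)) ≤ (C / 2) * (1 / 2 : ℝ) ^ n := by
    intro x n
    have h := hdup ((2 ^ n) • x)
    have e2 : (2 : ℕ) • ((2 ^ n) • x) = (2 ^ (n + 1)) • x := by
      rw [smul_smul, pow_succ, mul_comm]
    rw [e2] at h
    have h4' : (0 : ℝ) < 2 ^ (n + 1) := by positivity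
    rw [Real.dist_eq]
    have e : u x n - u x (n + 1)
        = -((f ((2 ^ (n + 1)) • x) - 2 * f ((2 ^ n) • x)) / 2 ^ (n + 1)) := by
      simp only [u]
      rw [pow_succ]
      field_simp
      ring
    rw [e, abs_neg, abs_div, abs_of_pos h4']
    rw [div_le_iff₀ h4']
    calc |f ((2 ^ (n + 1)) • x) - 2 * f ((2 ^ n) • x)| ≤ C := h
      _ = C / 2 * (1 / 2) ^ n * 2 ^ (n + 1) := by
          rw [pow_succ, one_div, inv_pow]
          field_simp
  have hcau : ∀ x, CauchySeq (u x) := fun x =>
    cauchySeq_of_le_geometric (1 / 2) (C / 2) (by norm_num) (hstep x)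
  have hlim : ∀ x, ∃ a, Filter.Tendsto (u x) Filter.atTop (nhds a) := fun x =>
    cauchySeq_tendsto_of_complete (hcau x)
  choose l hl using hlim
  have hadd : ∀ x y, l (x + y) = l x + l y := by
    intro x y
    have hT : Filter.Tendsto (fun n => u (x + y) n - u x n - u y n) Filter.atTop
        (nhds (l (x + y) - l x - l y)) := ((hl (x + y)).sub (hl x)).sub (hl y)
    have hB : ∀ n, |u (x + y) n - u x n - u y n| ≤ C * (1 / 2 : ℝ) ^ n := by
      intro n
      have h := hf ((2 ^ n) • x) ((2 ^ n) • y)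
      rw [← smul_add] at h
      have h4 : (0 : ℝ) < 2 ^ n := by positivity
      have e : u (x + y) n - u x n - u y n
          = (f ((2 ^ n) • (x + y)) - f ((2 ^ n) • x) - f ((2 ^ n) • y)) / 2 ^ n := by
        simp only [u]
        ring
      rw [e, abs_div, abs_of_pos h4, div_le_iff₀ h4]
      calc _ ≤ C := h
        _ = C * (1 / 2) ^ n * 2 ^ n := by
            rw [one_div, inv_pow]
            field_simp
    have h0 : Filter.Tendsto (fun n => C * (1 / 2 : ℝ) ^ n) Filter.atTop (nhds 0) := by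
      have := (tendsto_pow_atTop_nhds_zero_of_lt_one (r := (1 / 2 : ℝ)) (by norm_num)
        (by norm_num)).const_mul C
      simpa using this
    have hz : Filter.Tendsto (fun n => u (x + y) n - u x n - u y n) Filter.atTop (nhds 0) :=
      squeeze_zero_norm (fun n => by rw [Real.norm_eq_abs]; exact hB n) h0
    have := tendsto_nhds_unique hT hz
    linarith
  refine ⟨AddMonoidHom.mk' l hadd, fun x => ?_⟩
  have h := dist_le_of_le_geometric_of_tendsto₀ (1 / 2) (C / 2) (by norm_num) (hstep x) (hl x)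
  have e0 : u x 0 = f x := by simp [u]
  rw [e0, dist_comm, Real.dist_eq] at h
  refine le_trans h (le_of_eq ?_)
  norm_num
  ring

end TateLimit

end Fermat.Agent.S17.H737

end
-- ===== PACK-END S17/H737/AbstractDescent.lean

-- ===== PACK-BEGIN S17/H860/Cramer.lean
section
/-
helper860 — S17 / tower H — leaf CRAMER (Mathlib-only).

Cramer's rule as a polynomial identity, in the form needed by the global route to (E3)-upper,
(PART), (VDM), (ADJ) (origin/helper710:coord/S17-H-L1-helper710.md, sec. 3):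

* `det_bordered` : Laplace expansion of a bordered determinant over any commutative ring,
    `det [[A, b], [c, d]] = det A * d - ∑ s, det (A.updateRow s c) * b s`.
* `cramer_of_finrank_le` : if `W` is a subspace of `γ → K` of dimension `≤ card κ`, the vectors
    `v s` (`s : κ`) and `w` lie in `W`, then for every choice of columns `T : κ → γ` and every `t`
    `det (v s (T j))_{s j} * w t = ∑ s, det ((v s (T j)).updateRow s (w ∘ T)) * v s t`.
* `cramer_of_rank_le` : the same for rows `S : κ → ρ` of a matrix `B` with `rank B ≤ card κ`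
    and `w` in the row space of `B`.
* adjugate forms of the right-hand side.
-/


namespace Fermat.Agent.S17.H860

open Matrix

section Bordered

variable {R : Type*} {κ : Type*}

/-- The bordered matrix `[[A, b], [c, d]]`, indexed by `κ ⊕ Unit`. -/
def bordered (A : Matrix κ κ R) (b c : κ → R) (d : R) : Matrix (κ ⊕ Unit) (κ ⊕ Unit) R :=
  fromBlocks A (replicateCol Unit b) (replicateRow Unit c) (of fun _ _ => d)

@[simp] theorem bordered_inl_inl (A : Matrix κ κ R) (b c : κ → R) (d : R) (i j : κ) :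
    bordered A b c d (Sum.inl i) (Sum.inl j) = A i j := rfl

@[simp] theorem bordered_inl_inr (A : Matrix κ κ R) (b c : κ → R) (d : R) (i : κ) (u : Unit) :
    bordered A b c d (Sum.inl i) (Sum.inr u) = b i := rfl

@[simp] theorem bordered_inr_inl (A : Matrix κ κ R) (b c : κ → R) (d : R) (u : Unit) (j : κ) :
    bordered A b c d (Sum.inr u) (Sum.inl j) = c j := rfl

@[simp] theorem bordered_inr_inr (A : Matrix κ κ R) (b c : κ → R) (d : R) (u u' : Unit) :
    bordered A b c d (Sum.inr u) (Sum.inr u') = d := rfl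

variable [CommRing R] [Fintype κ] [DecidableEq κ]

/-- `det (A.updateRow s c) = ∑ j, c j * adj(A) j s`. -/
theorem det_updateRow_eq_sum_adjugate (A : Matrix κ κ R) (s : κ) (c : κ → R) :
    (A.updateRow s c).det = ∑ j, c j * A.adjugate j s := by
  rw [det_eq_sum_mul_adjugate_row (A.updateRow s c) s]
  refine Finset.sum_congr rfl fun j _ => ?_
  rw [updateRow_self, adjugate_apply, adjugate_apply, updateRow_idem]

/-- `det (A.updateCol j b) = ∑ s, adj(A) j s * b s`. -/
theorem det_updateCol_eq_sum_adjugate (A : Matrix κ κ R) (j : κ) (b : κ → R) :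
    (A.updateCol j b).det = ∑ s, A.adjugate j s * b s := by
  rw [← cramer_apply, cramer_eq_adjugate_mulVec]
  rfl

/-- The two ways of writing the correction term in a bordered determinant agree. -/
theorem sum_det_updateRow_mul_eq (A : Matrix κ κ R) (b c : κ → R) :
    ∑ s, (A.updateRow s c).det * b s = ∑ j, c j * (A.updateCol j b).det := by
  simp_rw [det_updateRow_eq_sum_adjugate, det_updateCol_eq_sum_adjugate, Finset.sum_mul,
    Finset.mul_sum]
  rw [Finset.sum_comm]
  refine Finset.sum_congr rfl fun j _ => Finset.sum_congr rfl fun s _ => ?_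
  ring

/-- the `(inr, inr)` cofactor of a bordered matrix -/
theorem adjugate_bordered_inr_inr (A : Matrix κ κ R) (b c : κ → R) (d : R) :
    (bordered A b c d).adjugate (Sum.inr ()) (Sum.inr ()) = A.det := by
  rw [adjugate_apply]
  have h : (bordered A b c d).updateRow (Sum.inr ()) (Pi.single (Sum.inr ()) 1) =
      fromBlocks A (replicateCol Unit b) 0 1 := by
    ext i j
    rcases i with i | i <;> rcases j with j | j <;>
      simp [bordered, updateRow_apply]
  rw [h, det_fromBlocks_zero₂₁, det_one, mul_one]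

/-- the `(inl j, inr)` cofactor of a bordered matrix -/
theorem adjugate_bordered_inl_inr (A : Matrix κ κ R) (b c : κ → R) (d : R) (j : κ) :
    (bordered A b c d).adjugate (Sum.inl j) (Sum.inr ()) = - (A.updateCol j b).det := by
  rw [adjugate_apply]
  set M' := (bordered A b c d).updateRow (Sum.inr ()) (Pi.single (Sum.inl j) 1) with hM'
  have hswap : M'.submatrix id (Equiv.swap (Sum.inl j) (Sum.inr ())) =
      fromBlocks (A.updateCol j b) (replicateCol Unit fun s => A s j) 0 1 := by
    ext r k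
    rcases r with r | r <;> rcases k with k | k
    · by_cases hk : k = j
      · subst hk
        simp [M', updateRow_apply]
      · have : Equiv.swap (Sum.inl j) (Sum.inr ()) (Sum.inl k) = (Sum.inl k : κ ⊕ Unit) :=
          Equiv.swap_apply_of_ne_of_ne (by simpa using hk) (by simp)
        simp [M', updateRow_apply, this, hk]
    · simp [M', updateRow_apply]
    · by_cases hk : k = j
      · subst hk
        simp [M', updateRow_apply]
      · have : Equiv.swap (Sum.inl j) (Sum.inr ()) (Sum.inl k) = (Sum.inl k : κ ⊕ Unit) :=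
          Equiv.swap_apply_of_ne_of_ne (by simpa using hk) (by simp)
        simp [M', updateRow_apply, this, hk]
    · simp [M', updateRow_apply]
  have hdet := det_permute' (Equiv.swap (Sum.inl j) (Sum.inr ())) M'
  rw [hswap, det_fromBlocks_zero₂₁, det_one, mul_one,
    Equiv.Perm.sign_swap (by simp : (Sum.inl j : κ ⊕ Unit) ≠ Sum.inr ())] at hdet
  rw [hdet]
  simp

/-- **Laplace expansion of a bordered determinant** (any commutative ring):
`det [[A, b], [c, d]] = det A * d - ∑ s, det (A.updateRow s c) * b s`. -/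
theorem det_bordered (A : Matrix κ κ R) (b c : κ → R) (d : R) :
    (bordered A b c d).det = A.det * d - ∑ s, (A.updateRow s c).det * b s := by
  rw [det_eq_sum_mul_adjugate_row (bordered A b c d) (Sum.inr ()), Fintype.sum_sum_type,
    sum_det_updateRow_mul_eq]
  simp only [Finset.univ_unique, Finset.sum_singleton, bordered_inr_inl, bordered_inr_inr,
    adjugate_bordered_inl_inr]
  simp only [PUnit.default_eq_unit, adjugate_bordered_inr_inr, mul_neg, Finset.sum_neg_distrib]
  ring

/-- column form of `det_bordered` -/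
theorem det_bordered' (A : Matrix κ κ R) (b c : κ → R) (d : R) :
    (bordered A b c d).det = A.det * d - ∑ j, c j * (A.updateCol j b).det := by
  rw [det_bordered, sum_det_updateRow_mul_eq]

/-- adjugate form of `det_bordered` -/
theorem det_bordered_adjugate (A : Matrix κ κ R) (b c : κ → R) (d : R) :
    (bordered A b c d).det = A.det * d - c ⬝ᵥ (A.adjugate *ᵥ b) := by
  rw [det_bordered']
  simp only [det_updateCol_eq_sum_adjugate, dotProduct, mulVec]

end Bordered

section Field

variable {K : Type*} [Field K] {κ : Type*} [Fintype κ] [DecidableEq κ]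

/-- A bordered determinant built from `card κ + 1` vectors of a space of dimension `≤ card κ`
vanishes. -/
theorem det_bordered_eq_zero_of_finrank_le {V : Type*} [AddCommGroup V] [Module K V]
    [Module.Finite K V] (hV : Module.finrank K V ≤ Fintype.card κ)
    (v : κ → V) (w : V) (φ : κ → V →ₗ[K] K) (ψ : V →ₗ[K] K) :
    (bordered (Matrix.of fun s j => φ j (v s)) (fun s => ψ (v s)) (fun j => φ j w) (ψ w)).det
      = 0 := by
  classical
  apply det_eq_zero_of_not_linearIndependent_rows
  intro hli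
  let Φ : V →ₗ[K] (κ ⊕ Unit → K) :=
    LinearMap.pi fun i => Sum.elim (fun j => φ j) (fun _ => ψ) i
  let u : κ ⊕ Unit → V := Sum.elim v fun _ => w
  have hrow : (fun i => bordered (Matrix.of fun s j => φ j (v s)) (fun s => ψ (v s))
      (fun j => φ j w) (ψ w) i) = Φ ∘ u := by
    funext i k
    rcases i with i | i <;> rcases k with k | k <;> rfl
  rw [hrow] at hli
  have hu : LinearIndependent K u := LinearIndependent.of_comp Φ hli
  have := hu.fintype_card_le_finrank
  simp only [Fintype.card_sum, Fintype.card_unique] at this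
  omega

/-- **Cramer's rule as a polynomial identity**, abstract form.  `V` a vector space of dimension
`≤ card κ`, `v s` (`s : κ`) and `w` vectors of `V`, `φ j` (`j : κ`) and `ψ` linear forms. Then
`det (φ j (v s)) * ψ w = ∑ s, det ((φ j (v s)).updateRow s (φ · w)) * ψ (v s)`.
No hypothesis that the `v s` are independent or that the `φ j` are distinct is needed. -/
theorem cramer_of_finrank_le {V : Type*} [AddCommGroup V] [Module K V]
    [Module.Finite K V] (hV : Module.finrank K V ≤ Fintype.card κ)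
    (v : κ → V) (w : V) (φ : κ → V →ₗ[K] K) (ψ : V →ₗ[K] K) :
    (Matrix.of fun s j => φ j (v s)).det * ψ w =
      ∑ s, ((Matrix.of fun s j => φ j (v s)).updateRow s fun j => φ j w).det * ψ (v s) := by
  have h := det_bordered_eq_zero_of_finrank_le hV v w φ ψ
  rw [det_bordered] at h
  exact sub_eq_zero.mp h

/-- adjugate form of `cramer_of_finrank_le` -/
theorem cramer_adjugate_of_finrank_le {V : Type*} [AddCommGroup V] [Module K V]
    [Module.Finite K V] (hV : Module.finrank K V ≤ Fintype.card κ)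
    (v : κ → V) (w : V) (φ : κ → V →ₗ[K] K) (ψ : V →ₗ[K] K) :
    (Matrix.of fun s j => φ j (v s)).det * ψ w =
      ∑ s, ∑ j, φ j w * (Matrix.of fun s j => φ j (v s)).adjugate j s * ψ (v s) := by
  rw [cramer_of_finrank_le hV v w φ ψ]
  refine Finset.sum_congr rfl fun s _ => ?_
  rw [det_updateRow_eq_sum_adjugate, Finset.sum_mul]

variable {γ : Type*}

/-- **Cramer's rule as a polynomial identity**, coordinate form.  `W` a subspace of `γ → K` of
dimension `≤ card κ`, `v s` (`s : κ`) and `w` vectors of `W`. Then for all `T : κ → γ` (columns)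
and every `t : γ`:
`det (v s (T j))_{s j} * w t = ∑ s, det ((v s (T j)).updateRow s (w ∘ T)) * v s t`. -/
theorem cramer_of_mem_submodule (W : Submodule K (γ → K)) [Module.Finite K W]
    (hW : Module.finrank K W ≤ Fintype.card κ)
    (v : κ → γ → K) (hv : ∀ s, v s ∈ W) (w : γ → K) (hw : w ∈ W) (T : κ → γ) (t : γ) :
    (Matrix.of fun s j => v s (T j)).det * w t =
      ∑ s, ((Matrix.of fun s j => v s (T j)).updateRow s (w ∘ T)).det * v s t :=
  cramer_of_finrank_le hW (fun s => (⟨v s, hv s⟩ : W)) ⟨w, hw⟩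
    (fun j => (LinearMap.proj (T j)).comp W.subtype) ((LinearMap.proj t).comp W.subtype)

/-- adjugate form of `cramer_of_mem_submodule` -/
theorem cramer_adjugate_of_mem_submodule (W : Submodule K (γ → K)) [Module.Finite K W]
    (hW : Module.finrank K W ≤ Fintype.card κ)
    (v : κ → γ → K) (hv : ∀ s, v s ∈ W) (w : γ → K) (hw : w ∈ W) (T : κ → γ) (t : γ) :
    (Matrix.of fun s j => v s (T j)).det * w t =
      ∑ s, ∑ j, w (T j) * (Matrix.of fun s j => v s (T j)).adjugate j s * v s t :=
  cramer_adjugate_of_finrank_le hW (fun s => (⟨v s, hv s⟩ : W)) ⟨w, hw⟩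
    (fun j => (LinearMap.proj (T j)).comp W.subtype) ((LinearMap.proj t).comp W.subtype)

variable {ρ : Type*} [Fintype ρ] [Fintype γ]

/-- **Cramer's rule as a polynomial identity**, matrix form.  `B` a matrix of rank `≤ card κ`,
`w` in the row space of `B`.  Then for all `S : κ → ρ` (rows), `T : κ → γ` (columns), `t : γ`:
`det B_{S,T} * w t = ∑ s, det (B_{S,T}[row s ← w ∘ T]) * B (S s) t`. -/
theorem cramer_of_rank_le (B : Matrix ρ γ K) (hB : B.rank ≤ Fintype.card κ) (w : γ → K)
    (hw : w ∈ Submodule.span K (Set.range B.row)) (S : κ → ρ) (T : κ → γ) (t : γ) :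
    (B.submatrix S T).det * w t =
      ∑ s, ((B.submatrix S T).updateRow s (w ∘ T)).det * B (S s) t := by
  have hW : Module.finrank K (Submodule.span K (Set.range B.row)) ≤ Fintype.card κ := by
    rwa [← Matrix.rank_eq_finrank_span_row]
  exact cramer_of_mem_submodule (Submodule.span K (Set.range B.row)) hW (fun s => B (S s))
    (fun s => Submodule.subset_span ⟨S s, rfl⟩) w hw T t

/-- adjugate form of `cramer_of_rank_le` -/
theorem cramer_adjugate_of_rank_le (B : Matrix ρ γ K) (hB : B.rank ≤ Fintype.card κ) (w : γ → K)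
    (hw : w ∈ Submodule.span K (Set.range B.row)) (S : κ → ρ) (T : κ → γ) (t : γ) :
    (B.submatrix S T).det * w t =
      ∑ s, ∑ j, w (T j) * (B.submatrix S T).adjugate j s * B (S s) t := by
  have hW : Module.finrank K (Submodule.span K (Set.range B.row)) ≤ Fintype.card κ := by
    rwa [← Matrix.rank_eq_finrank_span_row]
  exact cramer_adjugate_of_mem_submodule (Submodule.span K (Set.range B.row)) hW
    (fun s => B (S s)) (fun s => Submodule.subset_span ⟨S s, rfl⟩) w hw T t

end Field

end Fermat.Agent.S17.H860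

end
-- ===== PACK-END S17/H860/Cramer.lean

-- ===== PACK-BEGIN S17/H500/NullCert.lean
section





/-!
# Projective Nullstellensatz certificates and height lower bounds on closed cones

Mathlib's lower bound `Height.logHeight_eval_ge` for the height of `(p j (x))_j` needs, as a
hypothesis, a *certificate*: homogeneous polynomials `q (k, j)` of degree `M` with
`∑ j, q (k, j) (x) * p j (x) = x k ^ (M + N)`.  This file produces the certificate from the
geometric hypothesis "the `p j` have no common zero, except the origin, on the cone cut out by a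
homogeneous ideal `I`" (checked over any algebraically closed extension `L` of the ground field),
and derives the height inequality

  `C + N * logHeight x ≤ logHeight (fun j ↦ (p j).eval x)`   for all `x` in the cone of `I`.

Mathlib-only; route-independent tool for the heights tower of row S17.

* `exists_certificate`       : the certificate modulo `I`
* `exists_certificate_eval`  : the certificate evaluated at the points of the cone
* `logHeight_eval_ge_on`     : the height lower bound on the cone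
* `abs_logHeight_eval_sub_le_on` : two-sided bound `|h(p(x)) - N h(x)| ≤ C` on the cone
-/

set_option autoImplicit false

noncomputable section

namespace Fermat.Agent.S17.H500

open MvPolynomial

variable {k : Type*} [Field k] {ι ι' : Type*}

/-- Elementary form of homogeneity of an ideal of a polynomial ring: closed under taking
homogeneous components. -/
def HomIdeal (I : Ideal (MvPolynomial ι k)) : Prop :=
  ∀ f ∈ I, ∀ n : ℕ, homogeneousComponent n f ∈ I

theorem homIdeal_bot : HomIdeal (⊥ : Ideal (MvPolynomial ι k)) := by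
  intro f hf n
  rw [Ideal.mem_bot] at hf
  subst hf
  simp

/-- The homogeneous component of degree `M + N` of `c * p`, `p` homogeneous of degree `N`. -/
theorem homogeneousComponent_add_mul_of_isHomogeneous {M N : ℕ} (c : MvPolynomial ι k)
    {p : MvPolynomial ι k} (hp : p.IsHomogeneous N) :
    homogeneousComponent (M + N) (c * p) = homogeneousComponent M c * p := by
  classical
  conv_lhs => rw [← sum_homogeneousComponent c, Finset.sum_mul, map_sum]
  have key : ∀ n : ℕ, homogeneousComponent (M + N) (homogeneousComponent n c * p) =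
      if n = M then homogeneousComponent M c * p else 0 := by
    intro n
    have hh : (homogeneousComponent n c * p).IsHomogeneous (n + N) :=
      (homogeneousComponent_isHomogeneous n c).mul hp
    rw [homogeneousComponent_of_mem hh]
    by_cases hn : n = M
    · subst hn; simp
    · have hne : ¬ (M = n) := fun h => hn h.symm
      simp [hn, hne]
  simp_rw [key]
  rw [Finset.sum_ite_eq']
  split_ifs with h
  · rfl
  · have : homogeneousComponent M c = 0 := by
      apply homogeneousComponent_eq_zero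
      simp only [Finset.mem_range, not_lt] at h
      omega
    simp [this]

/-- **Projective Nullstellensatz certificate.**  Let `I` be a homogeneous ideal and `p j`
homogeneous polynomials of degree `N` over a field `k` such that, over some algebraically closed
extension `L`, the only common zero of `I` and the `p j` is the origin.  Then there are `M` and
homogeneous polynomials `q (i, j)` of degree `M` with
`∑ j, q (i, j) * p j ≡ X i ^ (M + N)  (mod I)` for every variable `i`. -/
theorem exists_certificate [Finite ι] [Fintype ι'] (L : Type*) [Field L] [Algebra k L]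
    [IsAlgClosed L] (I : Ideal (MvPolynomial ι k)) (hI : HomIdeal I) {N : ℕ}
    (p : ι' → MvPolynomial ι k) (hp : ∀ j, (p j).IsHomogeneous N)
    (h0 : ∀ x : ι → L, (∀ f ∈ I, aeval x f = 0) → (∀ j, aeval x (p j) = 0) → x = 0) :
    ∃ (M : ℕ) (q : ι × ι' → MvPolynomial ι k), (∀ a, (q a).IsHomogeneous M) ∧
      ∀ i, (∑ j, q (i, j) * p j) - X i ^ (M + N) ∈ I := by
  classical
  set J : Ideal (MvPolynomial ι k) := I ⊔ Ideal.span (Set.range p) with hJ
  -- every variable lies in the radical of `J`
  have hrad : ∀ i : ι, (X i : MvPolynomial ι k) ∈ J.radical := by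
    intro i
    rw [← vanishingIdeal_zeroLocus_eq_radical (K := L) J, mem_vanishingIdeal_iff]
    intro x hx
    have hx0 : x = 0 := by
      apply h0 x
      · intro f hf
        exact hx f (Ideal.mem_sup_left hf)
      · intro j
        exact hx (p j) (Ideal.mem_sup_right (Ideal.subset_span ⟨j, rfl⟩))
    simp [hx0]
  choose e he using hrad
  obtain ⟨M, hM⟩ : ∃ M : ℕ, ∀ i, e i ≤ M := by
    obtain ⟨M, hM⟩ := (Set.finite_range e).bddAbove
    exact ⟨M, fun i => hM ⟨i, rfl⟩⟩
  have hXJ : ∀ i : ι, (X i : MvPolynomial ι k) ^ (M + N) ∈ J := by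
    intro i
    have : M + N = (M + N - e i) + e i := by have := hM i; omega
    rw [this, pow_add]
    exact Ideal.mul_mem_left _ _ (he i)
  -- decompose
  have hdec : ∀ i : ι, ∃ (f : MvPolynomial ι k) (c : ι' → MvPolynomial ι k), f ∈ I ∧
      f + ∑ j, c j * p j = X i ^ (M + N) := by
    intro i
    obtain ⟨f, hf, g, hg, hfg⟩ := Submodule.mem_sup.mp (hXJ i)
    obtain ⟨c, hc⟩ := (Ideal.mem_span_range_iff_exists_fun).mp hg
    exact ⟨f, c, hf, by rw [hc]; exact hfg⟩
  choose f c hf hfc using hdec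
  refine ⟨M, fun a => homogeneousComponent M (c a.1 a.2),
    fun a => homogeneousComponent_isHomogeneous _ _, fun i => ?_⟩
  have h1 := congrArg (homogeneousComponent (M + N)) (hfc i)
  rw [map_add, map_sum] at h1
  simp_rw [homogeneousComponent_add_mul_of_isHomogeneous _ (hp _)] at h1
  have h2 : homogeneousComponent (M + N) ((X i : MvPolynomial ι k) ^ (M + N)) = X i ^ (M + N) :=
    homogeneousComponent_of_mem ((isHomogeneous_X k i).pow (M + N)) |>.trans (by simp)
  rw [h2] at h1
  have h3 : (∑ j, homogeneousComponent M (c i j) * p j) - X i ^ (M + N) =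
      -homogeneousComponent (M + N) (f i) := by
    rw [← h1]; ring
  simp only
  rw [h3]
  exact I.neg_mem (hI _ (hf i) _)

/-- The certificate of `exists_certificate`, evaluated at the `k`-points of the cone of `I`:
exactly the hypothesis of `Height.logHeight_eval_ge`. -/
theorem exists_certificate_eval [Finite ι] [Fintype ι'] (L : Type*) [Field L] [Algebra k L]
    [IsAlgClosed L] (I : Ideal (MvPolynomial ι k)) (hI : HomIdeal I) {N : ℕ}
    (p : ι' → MvPolynomial ι k) (hp : ∀ j, (p j).IsHomogeneous N)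
    (h0 : ∀ x : ι → L, (∀ f ∈ I, aeval x f = 0) → (∀ j, aeval x (p j) = 0) → x = 0) :
    ∃ (M : ℕ) (q : ι × ι' → MvPolynomial ι k), (∀ a, (q a).IsHomogeneous M) ∧
      ∀ x : ι → k, (∀ f ∈ I, eval x f = 0) →
        ∀ i, ∑ j, (q (i, j)).eval x * (p j).eval x = x i ^ (M + N) := by
  obtain ⟨M, q, hq, hqI⟩ := exists_certificate L I hI p hp h0
  refine ⟨M, q, hq, fun x hx i => ?_⟩
  have := hx _ (hqI i)
  simpa [sub_eq_zero] using this

variable [Height.AdmissibleAbsValues k]

/-- **Height lower bound on a closed cone.**  If the homogeneous polynomials `p j` of degree `N`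
have no common zero other than the origin on the cone of the homogeneous ideal `I`
(over an algebraically closed extension `L`), then for all `k`-points `x` of the cone
`C + N * logHeight x ≤ logHeight (p j (x))_j`. -/
theorem logHeight_eval_ge_on [Finite ι] [Fintype ι'] (L : Type*) [Field L] [Algebra k L]
    [IsAlgClosed L] (I : Ideal (MvPolynomial ι k)) (hI : HomIdeal I) {N : ℕ}
    (p : ι' → MvPolynomial ι k) (hp : ∀ j, (p j).IsHomogeneous N)
    (h0 : ∀ x : ι → L, (∀ f ∈ I, aeval x f = 0) → (∀ j, aeval x (p j) = 0) → x = 0) :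
    ∃ C : ℝ, ∀ x : ι → k, (∀ f ∈ I, eval x f = 0) →
      C + N * Height.logHeight x ≤ Height.logHeight (fun j ↦ (p j).eval x) := by
  obtain ⟨M, q, hq, hcert⟩ := exists_certificate_eval L I hI p hp h0
  obtain ⟨C, hC⟩ := Height.logHeight_eval_ge' (K := k) (M := M) (N := N) hq
  exact ⟨C, fun x hx => hC p (hcert x hx)⟩

/-- Two-sided version: `|logHeight (p (x)) - N * logHeight x| ≤ C` on the cone of `I`. -/
theorem abs_logHeight_eval_sub_le_on [Finite ι] [Fintype ι'] (L : Type*) [Field L] [Algebra k L]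
    [IsAlgClosed L] (I : Ideal (MvPolynomial ι k)) (hI : HomIdeal I) {N : ℕ}
    (p : ι' → MvPolynomial ι k) (hp : ∀ j, (p j).IsHomogeneous N)
    (h0 : ∀ x : ι → L, (∀ f ∈ I, aeval x f = 0) → (∀ j, aeval x (p j) = 0) → x = 0) :
    ∃ C : ℝ, ∀ x : ι → k, (∀ f ∈ I, eval x f = 0) →
      |Height.logHeight (fun j ↦ (p j).eval x) - N * Height.logHeight x| ≤ C := by
  obtain ⟨C₁, hC₁⟩ := Height.logHeight_eval_le' (K := k) hp
  obtain ⟨C₂, hC₂⟩ := logHeight_eval_ge_on L I hI p hp h0
  refine ⟨max C₁ (-C₂), fun x hx => abs_sub_le_iff.mpr ⟨?_, ?_⟩⟩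
  · have := hC₁ x
    have h2 := le_max_left C₁ (-C₂)
    linarith
  · have := hC₂ x hx
    have h2 := le_max_right C₁ (-C₂)
    linarith

end Fermat.Agent.S17.H500

end
end
-- ===== PACK-END S17/H500/NullCert.lean

-- ===== PACK-BEGIN S15/H62/Constituents.lean
section


/-!
# S15 / DESC piece D3a (helper62): constituents of an "Eisenstein" Galois module

Abstract, Mathlib-only.  Let `r` be a prime, `V` a finite `𝔽_r[G]`-module and `χ : G → 𝔽_r^×` a
character such that for every `g ∈ G` the operator `(g - 1)(g - χ(g))` is nilpotent on `V`.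
(For `V = J₀(p)[r]_𝔓`, `𝔓 = (I, r)` an Eisenstein prime, `χ` the mod `r` cyclotomic character:
Eichler–Shimura gives `F² - T_ℓ F + ℓ = 0` for a Frobenius `F` at `ℓ`, `T_ℓ - 1 - ℓ` is nilpotent
on `V`, and by Chebotarev every `g` is a Frobenius.)  Then

* `exists_eigenline_of_nilpotent` : if `V ≠ 0` there is `v ≠ 0` on which `G` acts trivially, or on
  which `G` acts through `χ`;
* `exists_eigenline` : the same when `(g - 1)(g - χ(g)) = 0` (elementwise form);
* `exists_flag` : `V` has a `G`-stable full flag `0 = F 0 < F 1 < ... < F n = V`,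
  `F (i+1) = F i + 𝔽_r u_i`, and `G` acts on `u_i` modulo `F i` trivially (`ε i = false`) or
  through `χ` (`ε i = true`): all Jordan–Hölder constituents are `ℤ/r` or `μ_r`.
-/

set_option autoImplicit false

namespace Fermat.Agent.S15.H62

open Module

section Fixed

variable {r : ℕ} [Fact r.Prime] {G V : Type*} [Group G] [AddCommGroup V] [Module (ZMod r) V]

/-- The endomorphism ring of a nonzero `𝔽_r`-vector space has characteristic `r`. -/
theorem charP_end [Nontrivial V] : CharP (Module.End (ZMod r) V) r :=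
  charP_of_injective_algebraMap (algebraMap (ZMod r) (Module.End (ZMod r) V)).injective r

/-- A unipotent endomorphism of an `𝔽_r`-vector space has `r`-power order. -/
theorem exists_pow_char_pow_eq_one [Nontrivial V] (u : Module.End (ZMod r) V)
    (hu : IsNilpotent (u - 1)) : ∃ k : ℕ, u ^ r ^ k = 1 := by
  have := charP_end (r := r) (V := V)
  obtain ⟨N, hN⟩ := hu
  refine ⟨N, ?_⟩
  have hlt : N < r ^ N := Nat.lt_pow_self (Fact.out : r.Prime).one_lt
  have h0 : (u - 1) ^ r ^ N = 0 := pow_eq_zero_of_le hlt.le hN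
  have hc : Commute (u - 1) (1 : Module.End (ZMod r) V) := Commute.one_right _
  have := add_pow_char_pow_of_commute r N hc
  rw [sub_add_cancel, h0, one_pow, zero_add] at this
  exact this

/-- The characteristic divides the cardinality of a nontrivial finite `𝔽_r`-vector space. -/
theorem char_dvd_natCard [Finite V] [Nontrivial V] : r ∣ Nat.card V := by
  obtain ⟨v, hv⟩ := exists_ne (0 : V)
  have hr : r • v = 0 := by
    rw [← Nat.cast_smul_eq_nsmul (ZMod r), ZMod.natCast_self, zero_smul]
  have h1 : addOrderOf v ∣ r := addOrderOf_dvd_of_nsmul_eq_zero hr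
  have h2 : addOrderOf v ≠ 1 := by
    intro h
    exact hv (AddMonoid.addOrderOf_eq_one_iff.mp h)
  have h3 : addOrderOf v = r := ((Nat.dvd_prime (Fact.out : r.Prime)).mp h1).resolve_left h2
  rw [← h3]
  exact addOrderOf_dvd_natCard v

/-- **Kolchin for finite `𝔽_r`-vector spaces.** A group acting on a nonzero finite
`𝔽_r`-vector space by unipotent operators has a nonzero fixed vector. -/
theorem exists_fixed_of_unipotent [Finite V] [Nontrivial V] (ρ : Representation (ZMod r) G V)
    (H : Subgroup G) (hH : ∀ h ∈ H, IsNilpotent (ρ h - 1)) :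
    ∃ v : V, v ≠ 0 ∧ ∀ h ∈ H, ρ h v = v := by
  classical
  let φ : G →* (Module.End (ZMod r) V)ˣ := MonoidHom.toHomUnits ρ
  have hφ : ∀ g : G, ((φ g : (Module.End (ZMod r) V)ˣ) : Module.End (ZMod r) V) = ρ g :=
    fun g => rfl
  let P : Subgroup (Module.End (ZMod r) V)ˣ := H.map φ
  have hP : IsPGroup r P := by
    rintro ⟨u, hu⟩
    obtain ⟨h, hh, rfl⟩ := hu
    obtain ⟨k, hk⟩ := exists_pow_char_pow_eq_one (ρ h) (hH h hh)
    refine ⟨k, ?_⟩
    apply Subtype.ext
    apply Units.ext
    simp only [SubgroupClass.coe_pow, Units.val_pow_eq_pow_val, hφ, OneMemClass.coe_one,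
      Units.val_one]
    exact hk
  have h0 : (0 : V) ∈ MulAction.fixedPoints P V := by
    intro u
    exact smul_zero u
  obtain ⟨b, hb, hb0⟩ :=
    hP.exists_fixed_point_of_prime_dvd_card_of_fixed_point V char_dvd_natCard h0
  refine ⟨b, fun h => hb0 h.symm, fun h hh => ?_⟩
  have := hb ⟨φ h, h, hh, rfl⟩
  exact this

/-- For a locally nilpotent operator `B` and `x ≠ 0` some `B ^ i x` is a nonzero element of the
kernel of `B`. -/
theorem exists_pow_apply_ne_zero_of_nilpotent (B : Module.End (ZMod r) V) {x : V} (hx : x ≠ 0)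
    {N : ℕ} (hN : (B ^ N) x = 0) : ∃ i : ℕ, (B ^ i) x ≠ 0 ∧ B ((B ^ i) x) = 0 := by
  classical
  have hex : ∃ n, (B ^ n) x = 0 := ⟨N, hN⟩
  have hpos : Nat.find hex ≠ 0 := by
    intro h0
    have := Nat.find_spec hex
    rw [h0, pow_zero, Module.End.one_apply] at this
    exact hx this
  obtain ⟨i, hi⟩ := Nat.exists_eq_succ_of_ne_zero hpos
  refine ⟨i, ?_, ?_⟩
  · exact Nat.find_min hex (by omega)
  · have := Nat.find_spec hex
    rw [hi, pow_succ', Module.End.mul_apply] at this
    exact this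

end Fixed

section Eigenline

variable {r : ℕ} [Fact r.Prime] {G V : Type*} [Group G] [AddCommGroup V] [Module (ZMod r) V]

/-- The subgroup of `G` acting on the vector `u` through the character `ψ`. -/
def actsThrough (ρ : Representation (ZMod r) G V) (ψ : G →* (ZMod r)ˣ) (u : V) : Subgroup G where
  carrier := {g | ρ g u = ((ψ g : (ZMod r)ˣ) : ZMod r) • u}
  one_mem' := by simp
  mul_mem' := by
    intro a b ha hb
    change ρ a u = ((ψ a : (ZMod r)ˣ) : ZMod r) • u at ha
    change ρ b u = ((ψ b : (ZMod r)ˣ) : ZMod r) • u at hb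
    change ρ (a * b) u = ((ψ (a * b) : (ZMod r)ˣ) : ZMod r) • u
    rw [map_mul, Module.End.mul_apply, hb, map_smul, ha, map_mul, Units.val_mul, mul_smul,
      smul_comm]
  inv_mem' := by
    intro a ha
    change ρ a u = ((ψ a : (ZMod r)ˣ) : ZMod r) • u at ha
    change ρ a⁻¹ u = ((ψ a⁻¹ : (ZMod r)ˣ) : ZMod r) • u
    have h1 : ρ a⁻¹ (ρ a u) = u := by
      rw [← Module.End.mul_apply, ← map_mul, inv_mul_cancel, map_one, Module.End.one_apply]
    rw [ha, map_smul] at h1
    have h2 : ((ψ a⁻¹ : (ZMod r)ˣ) : ZMod r) * ((ψ a : (ZMod r)ˣ) : ZMod r) = 1 := by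
      rw [← Units.val_mul, ← map_mul, inv_mul_cancel, map_one, Units.val_one]
    calc ρ a⁻¹ u = (((ψ a⁻¹ : (ZMod r)ˣ) : ZMod r) * ((ψ a : (ZMod r)ˣ) : ZMod r)) • ρ a⁻¹ u := by
          rw [h2, one_smul]
      _ = ((ψ a⁻¹ : (ZMod r)ˣ) : ZMod r) • u := by rw [mul_smul, h1]

theorem mem_actsThrough {ρ : Representation (ZMod r) G V} {ψ : G →* (ZMod r)ˣ} {u : V} {g : G} :
    g ∈ actsThrough ρ ψ u ↔ ρ g u = ((ψ g : (ZMod r)ˣ) : ZMod r) • u := Iff.rfl

/-- The "Eisenstein operator" `(g - 1)(g - χ(g))` of `g`. -/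
def eisOp (ρ : Representation (ZMod r) G V) (χ : G →* (ZMod r)ˣ) (g : G) :
    Module.End (ZMod r) V :=
  (ρ g - 1) * (ρ g - algebraMap (ZMod r) (Module.End (ZMod r) V) ((χ g : (ZMod r)ˣ) : ZMod r))

theorem eisOp_apply (ρ : Representation (ZMod r) G V) (χ : G →* (ZMod r)ˣ) (g : G) (v : V) :
    eisOp ρ χ g v
      = ρ g (ρ g v) - ρ g v - ((χ g : (ZMod r)ˣ) : ZMod r) • (ρ g v - v) := by
  simp only [eisOp, Module.End.mul_apply, LinearMap.sub_apply, Module.End.one_apply, map_sub,
    Module.algebraMap_end_apply, map_smul, smul_sub]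

/-- **Constituents lemma (D3a), nilpotent form.**  If for every `g` the operator
`(g - 1)(g - χ(g))` is nilpotent on the nonzero finite `𝔽_r[G]`-module `V`, then `V` contains a
nonzero vector on which `G` acts trivially, or one on which `G` acts through `χ`. -/
theorem exists_eigenline_of_nilpotent [Finite V] [Nontrivial V]
    (ρ : Representation (ZMod r) G V) (χ : G →* (ZMod r)ˣ)
    (h : ∀ g : G, IsNilpotent (eisOp ρ χ g)) :
    ∃ v : V, v ≠ 0 ∧
      ((∀ g, ρ g v = v) ∨ (∀ g, ρ g v = ((χ g : (ZMod r)ˣ) : ZMod r) • v)) := by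
  classical
  -- Step 1: a nonzero vector fixed by `H = ker χ`.
  have hH : ∀ g ∈ χ.ker, IsNilpotent (ρ g - 1) := by
    intro g hg
    have hg1 : χ g = 1 := hg
    obtain ⟨N, hN⟩ := h g
    rw [eisOp, hg1, Units.val_one, map_one, ← pow_two, ← pow_mul] at hN
    exact ⟨2 * N, hN⟩
  obtain ⟨v, hv0, hv⟩ := exists_fixed_of_unipotent ρ χ.ker hH
  -- the `H`-fixed vectors are stable under `G`
  have hstab : ∀ (g : G) (w : V), (∀ x ∈ χ.ker, ρ x w = w) → ∀ x ∈ χ.ker, ρ x (ρ g w) = ρ g w := by
    intro g w hw x hx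
    have hx' : g⁻¹ * x * g ∈ χ.ker := by
      have : χ.ker.Normal := inferInstance
      have := this.conj_mem x hx g⁻¹
      simpa using this
    have := hw _ hx'
    calc ρ x (ρ g w) = ρ g (ρ (g⁻¹ * x * g) w) := by
          rw [← Module.End.mul_apply, ← Module.End.mul_apply, ← map_mul, ← map_mul]
          congr 2
          group
      _ = ρ g w := by rw [this]
  -- Step 2: a generator of the image of `χ`.
  obtain ⟨⟨y, g₀, rfl⟩, hy⟩ := (IsCyclic.exists_generator (α := χ.range))
  have hgen : ∀ g : G, ∃ k : ℤ, χ g = χ g₀ ^ k := by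
    intro g
    have := hy ⟨χ g, g, rfl⟩
    obtain ⟨k, hk⟩ := Subgroup.mem_zpowers_iff.mp this
    refine ⟨k, ?_⟩
    have := congrArg Subtype.val hk
    simpa using this.symm
  -- Step 3: from an eigenvector of `g₀` fixed by `H` to a `G`-eigenvector.
  have key : ∀ (ψ : G →* (ZMod r)ˣ) (u : V), χ.ker ≤ ψ.ker → (∀ x ∈ χ.ker, ρ x u = u) →
      ρ g₀ u = ((ψ g₀ : (ZMod r)ˣ) : ZMod r) • u →
      ∀ g, ρ g u = ((ψ g : (ZMod r)ˣ) : ZMod r) • u := by
    intro ψ u hker hu hg₀ g
    obtain ⟨k, hk⟩ := hgen g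
    have h1 : g₀ ∈ actsThrough ρ ψ u := hg₀
    have h2 : g * (g₀ ^ k)⁻¹ ∈ χ.ker := by
      rw [MonoidHom.mem_ker, map_mul, map_inv, map_zpow, hk, mul_inv_cancel]
    have h3 : g * (g₀ ^ k)⁻¹ ∈ actsThrough ρ ψ u := by
      rw [mem_actsThrough, hu _ h2]
      have : ψ (g * (g₀ ^ k)⁻¹) = 1 := hker h2
      rw [this, Units.val_one, one_smul]
    have h4 : g = g * (g₀ ^ k)⁻¹ * g₀ ^ k := by group
    rw [h4]
    exact (actsThrough ρ ψ u).mul_mem h3 ((actsThrough ρ ψ u).zpow_mem h1 k)
  -- Step 4: an eigenvector of `g₀` among the `H`-fixed vectors.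
  set c : ZMod r := ((χ g₀ : (ZMod r)ˣ) : ZMod r) with hc
  set B₁ : Module.End (ZMod r) V := ρ g₀ - 1 with hB₁
  set Bc : Module.End (ZMod r) V := ρ g₀ - algebraMap (ZMod r) (Module.End (ZMod r) V) c with hBc
  have hB₁fix : ∀ w : V, (∀ x ∈ χ.ker, ρ x w = w) → ∀ x ∈ χ.ker, ρ x (B₁ w) = B₁ w := by
    intro w hw x hx
    rw [hB₁, LinearMap.sub_apply, Module.End.one_apply, map_sub, hstab g₀ w hw x hx, hw x hx]
  have hBcfix : ∀ w : V, (∀ x ∈ χ.ker, ρ x w = w) → ∀ x ∈ χ.ker, ρ x (Bc w) = Bc w := by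
    intro w hw x hx
    rw [hBc, LinearMap.sub_apply, Module.algebraMap_end_apply, map_sub, map_smul,
      hstab g₀ w hw x hx, hw x hx]
  have hpowfix : ∀ (B : Module.End (ZMod r) V),
      (∀ w : V, (∀ x ∈ χ.ker, ρ x w = w) → ∀ x ∈ χ.ker, ρ x (B w) = B w) →
      ∀ (i : ℕ) (w : V), (∀ x ∈ χ.ker, ρ x w = w) → ∀ x ∈ χ.ker, ρ x ((B ^ i) w) = (B ^ i) w := by
    intro B hB i
    induction i with
    | zero => intro w hw x hx; simpa using hw x hx
    | succ i ih =>
      intro w hw x hx
      rw [pow_succ', Module.End.mul_apply]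
      exact hB _ (ih w hw) x hx
  have hcomm : Commute B₁ Bc := by
    rw [hB₁, hBc]
    refine Commute.sub_left ?_ ?_
    · exact Commute.sub_right (Commute.refl _) (Algebra.commutes' _ _).symm
    · exact Commute.one_left _
  obtain ⟨N, hN⟩ := h g₀
  rw [eisOp, ← hc, ← hB₁, ← hBc, hcomm.mul_pow] at hN
  by_cases hcase : (Bc ^ N) v = 0
  · -- an eigenvector for `χ`
    obtain ⟨i, hi0, hi⟩ := exists_pow_apply_ne_zero_of_nilpotent Bc hv0 hcase
    refine ⟨(Bc ^ i) v, hi0, Or.inr ?_⟩
    refine key χ _ le_rfl (hpowfix Bc hBcfix i v hv) ?_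
    rw [hBc, LinearMap.sub_apply, Module.algebraMap_end_apply, sub_eq_zero] at hi
    exact hi
  · -- an eigenvector for the trivial character
    have hN' : (B₁ ^ N) ((Bc ^ N) v) = 0 := by
      rw [← Module.End.mul_apply, hN, LinearMap.zero_apply]
    obtain ⟨i, hi0, hi⟩ := exists_pow_apply_ne_zero_of_nilpotent B₁ hcase hN'
    refine ⟨(B₁ ^ i) ((Bc ^ N) v), hi0, Or.inl fun g => ?_⟩
    have hfixed := hpowfix B₁ hB₁fix i _ (hpowfix Bc hBcfix N v hv)
    rw [hB₁, LinearMap.sub_apply, Module.End.one_apply, sub_eq_zero] at hi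
    have := key 1 _ (fun x _ => by simp) hfixed (by simpa using hi) g
    simpa using this

/-- **Constituents lemma (D3a), elementwise form.** -/
theorem exists_eigenline [Finite V] [Nontrivial V] (ρ : Representation (ZMod r) G V)
    (χ : G →* (ZMod r)ˣ)
    (h : ∀ (g : G) (v : V), ρ g (ρ g v) - ρ g v - ((χ g : (ZMod r)ˣ) : ZMod r) • (ρ g v - v) = 0) :
    ∃ v : V, v ≠ 0 ∧
      ((∀ g, ρ g v = v) ∨ (∀ g, ρ g v = ((χ g : (ZMod r)ˣ) : ZMod r) • v)) := by
  refine exists_eigenline_of_nilpotent ρ χ fun g => ⟨1, ?_⟩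
  ext v
  rw [pow_one, eisOp_apply, h g v, LinearMap.zero_apply]

end Eigenline

section Flag

variable {r : ℕ} [Fact r.Prime] {G V : Type*} [Group G] [AddCommGroup V] [Module (ZMod r) V]

/-- The representation induced on the quotient by a stable submodule. -/
def quotRep (ρ : Representation (ZMod r) G V) (L : Submodule (ZMod r) V)
    (hL : ∀ g, L ≤ L.comap (ρ g)) : Representation (ZMod r) G (V ⧸ L) where
  toFun g := L.mapQ L (ρ g) (hL g)
  map_one' := by
    refine LinearMap.ext fun x => ?_
    obtain ⟨v, rfl⟩ := L.mkQ_surjective x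
    simp
  map_mul' a b := by
    refine LinearMap.ext fun x => ?_
    obtain ⟨v, rfl⟩ := L.mkQ_surjective x
    simp

@[simp]
theorem quotRep_mk (ρ : Representation (ZMod r) G V) (L : Submodule (ZMod r) V)
    (hL : ∀ g, L ≤ L.comap (ρ g)) (g : G) (v : V) :
    quotRep ρ L hL g (Submodule.Quotient.mk v) = Submodule.Quotient.mk (ρ g v) := rfl

theorem eisOp_quotRep_mk (ρ : Representation (ZMod r) G V) (χ : G →* (ZMod r)ˣ)
    (L : Submodule (ZMod r) V) (hL : ∀ g, L ≤ L.comap (ρ g)) (g : G) (v : V) :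
    eisOp (quotRep ρ L hL) χ g (Submodule.Quotient.mk v)
      = Submodule.Quotient.mk (eisOp ρ χ g v) := by
  rw [eisOp_apply, eisOp_apply]
  simp only [quotRep_mk, ← Submodule.Quotient.mk_sub, ← Submodule.Quotient.mk_smul]

theorem eisOp_quotRep_pow_mk (ρ : Representation (ZMod r) G V) (χ : G →* (ZMod r)ˣ)
    (L : Submodule (ZMod r) V) (hL : ∀ g, L ≤ L.comap (ρ g)) (g : G) (N : ℕ) (v : V) :
    (eisOp (quotRep ρ L hL) χ g ^ N) (Submodule.Quotient.mk v)
      = Submodule.Quotient.mk ((eisOp ρ χ g ^ N) v) := by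
  induction N generalizing v with
  | zero => simp
  | succ N ih =>
    rw [pow_succ, Module.End.mul_apply, eisOp_quotRep_mk, ih, pow_succ (eisOp ρ χ g),
      Module.End.mul_apply]

theorem isNilpotent_eisOp_quotRep (ρ : Representation (ZMod r) G V) (χ : G →* (ZMod r)ˣ)
    (L : Submodule (ZMod r) V) (hL : ∀ g, L ≤ L.comap (ρ g)) (g : G)
    (h : IsNilpotent (eisOp ρ χ g)) : IsNilpotent (eisOp (quotRep ρ L hL) χ g) := by
  obtain ⟨N, hN⟩ := h
  refine ⟨N, LinearMap.ext fun x => ?_⟩
  obtain ⟨v, rfl⟩ := L.mkQ_surjective x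
  change (eisOp (quotRep ρ L hL) χ g ^ N) (Submodule.Quotient.mk v) = 0
  rw [eisOp_quotRep_pow_mk, hN, LinearMap.zero_apply, Submodule.Quotient.mk_zero]

/-- A full flag from `L` to `⊤` with one-dimensional steps of type `𝟙` (`ε i = false`) or `χ`
(`ε i = true`). -/
def HasFlagFrom (ρ : Representation (ZMod r) G V) (χ : G →* (ZMod r)ˣ)
    (L : Submodule (ZMod r) V) : Prop :=
  ∃ (n : ℕ) (F : ℕ → Submodule (ZMod r) V) (u : ℕ → V) (ε : ℕ → Bool),
    F 0 = L ∧ F n = ⊤ ∧
    (∀ i < n, F (i + 1) = F i ⊔ Submodule.span (ZMod r) {u i}) ∧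
    (∀ i < n, u i ∉ F i) ∧
    (∀ i < n, ∀ g, ρ g (u i) - (if ε i then ((χ g : (ZMod r)ˣ) : ZMod r) else 1) • u i ∈ F i)

/-- In a flag all terms are stable under `G` (if the first one is). -/
theorem HasFlagFrom.stable_step (ρ : Representation (ZMod r) G V) {L : Submodule (ZMod r) V}
    (hL : ∀ g, L ≤ L.comap (ρ g)) {u : V} {e : G → ZMod r} (hu : ∀ g, ρ g u - e g • u ∈ L) :
    ∀ g, L ⊔ Submodule.span (ZMod r) {u} ≤ (L ⊔ Submodule.span (ZMod r) {u}).comap (ρ g) := by
  intro g w hw
  rw [Submodule.mem_comap]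
  obtain ⟨l, hl, s, hs, rfl⟩ := Submodule.mem_sup.mp hw
  obtain ⟨a, rfl⟩ := Submodule.mem_span_singleton.mp hs
  rw [map_add, map_smul]
  have h1 : ρ g l ∈ L := hL g hl
  have h2 : ρ g u = (ρ g u - e g • u) + e g • u := by abel
  rw [h2, smul_add]
  refine Submodule.add_mem _ (Submodule.mem_sup_left h1) (Submodule.add_mem _ ?_ ?_)
  · exact Submodule.mem_sup_left (L.smul_mem a (hu g))
  · exact Submodule.mem_sup_right
      (Submodule.smul_mem _ _ (Submodule.smul_mem _ _ (Submodule.mem_span_singleton_self u)))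

theorem hasFlagFrom_of_stable [Finite V] (ρ : Representation (ZMod r) G V) (χ : G →* (ZMod r)ˣ)
    (h : ∀ g : G, IsNilpotent (eisOp ρ χ g)) (L : Submodule (ZMod r) V)
    (hL : ∀ g, L ≤ L.comap (ρ g)) : HasFlagFrom ρ χ L := by
  classical
  have : WellFoundedGT (Submodule (ZMod r) V) := inferInstance
  induction L using WellFoundedGT.induction with
  | ind L ih =>
    by_cases htop : L = ⊤
    · subst htop
      exact ⟨0, fun _ => ⊤, fun _ => 0, fun _ => false, rfl, rfl, by simp, by simp, by simp⟩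
    · have : Nontrivial (V ⧸ L) := Submodule.Quotient.nontrivial_iff.mpr htop
      have : Finite (V ⧸ L) := Finite.of_surjective _ L.mkQ_surjective
      obtain ⟨x, hx0, hx⟩ := exists_eigenline_of_nilpotent (quotRep ρ L hL) χ
        (fun g => isNilpotent_eisOp_quotRep ρ χ L hL g (h g))
      obtain ⟨v, rfl⟩ := L.mkQ_surjective x
      have hvL : v ∉ L := fun hv => hx0 ((Submodule.Quotient.mk_eq_zero L).mpr hv)
      -- the type of the new step
      obtain ⟨e, he⟩ : ∃ e : Bool, ∀ g,
          ρ g v - (if e then ((χ g : (ZMod r)ˣ) : ZMod r) else 1) • v ∈ L := by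
        rcases hx with hx | hx
        · refine ⟨false, fun g => ?_⟩
          have := hx g
          rw [Submodule.mkQ_apply, quotRep_mk] at this
          rw [← Submodule.Quotient.mk_eq_zero L, Submodule.Quotient.mk_sub, this]
          simp
        · refine ⟨true, fun g => ?_⟩
          have := hx g
          rw [Submodule.mkQ_apply, quotRep_mk] at this
          rw [← Submodule.Quotient.mk_eq_zero L, Submodule.Quotient.mk_sub, this]
          simp
      set L' := L ⊔ Submodule.span (ZMod r) {v} with hL'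
      have hlt : L < L' := by
        refine lt_of_le_of_ne le_sup_left fun heq => hvL ?_
        rw [heq]
        exact Submodule.mem_sup_right (Submodule.mem_span_singleton_self v)
      have hL'stab : ∀ g, L' ≤ L'.comap (ρ g) := HasFlagFrom.stable_step ρ hL he
      obtain ⟨n, F, u, ε, hF0, hFn, hstep, hnot, hact⟩ := ih L' hlt hL'stab
      refine ⟨n + 1, fun i => if i = 0 then L else F (i - 1), fun i => if i = 0 then v else u (i - 1),
        fun i => if i = 0 then e else ε (i - 1), by simp, by simpa using hFn, ?_, ?_, ?_⟩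
      · intro i hi
        rcases Nat.eq_zero_or_pos i with rfl | hpos
        · simp [hF0, hL']
        · obtain ⟨j, rfl⟩ := Nat.exists_eq_succ_of_ne_zero hpos.ne'
          simpa using hstep j (by omega)
      · intro i hi
        rcases Nat.eq_zero_or_pos i with rfl | hpos
        · simpa using hvL
        · obtain ⟨j, rfl⟩ := Nat.exists_eq_succ_of_ne_zero hpos.ne'
          simpa using hnot j (by omega)
      · intro i hi g
        rcases Nat.eq_zero_or_pos i with rfl | hpos
        · simpa using he g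
        · obtain ⟨j, rfl⟩ := Nat.exists_eq_succ_of_ne_zero hpos.ne'
          simpa using hact j (by omega) g

/-- **Constituents (D3a), flag form.**  A finite `𝔽_r[G]`-module on which all operators
`(g - 1)(g - χ(g))` are nilpotent has a `G`-stable full flag whose graded pieces are lines of type
`𝟙` or `χ`. -/
theorem exists_flag [Finite V] (ρ : Representation (ZMod r) G V) (χ : G →* (ZMod r)ˣ)
    (h : ∀ g : G, IsNilpotent (eisOp ρ χ g)) : HasFlagFrom ρ χ ⊥ :=
  hasFlagFrom_of_stable ρ χ h ⊥ fun _ => bot_le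

end Flag

end Fermat.Agent.S15.H62

end
-- ===== PACK-END S15/H62/Constituents.lean

-- ===== PACK-BEGIN S15/H466/ProjAbs.lean
section


/-!
# S15 / DESC — the Hecke projector on a finite torsion level, abstract form (helper466)

`η i` a commuting family of endomorphisms of an abelian group `J`, `X ≤ J` a FINITE subgroup stable
under all `η i`.  Then there is a (non-commutative) polynomial `e` in the `η i` — any property `P`
of endomorphisms which holds for `1`, the `η i` and is stable under `*` and `-` holds for `e` —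
such that on `X`:

* `e x = x`              if `x` is killed by a power of every `η i`,
* `e x` is killed by a power of every `η i`, and `e x ∈ X`.

(`e = ∏ (1 - η_i ^ L)` over finitely many witness indices, `L = |X|!`; no idempotent lifting, no
Noetherian hypothesis: only the pigeonhole principle on the orbits `η^k x`.)
-/

set_option autoImplicit false
set_option linter.style.haveILetI false

namespace Fermat.Agent.S15.H466

section Period

variable {J : Type*} [AddCommGroup J]

theorem pow_apply_mem_h466 (X : AddSubgroup J) (η : Module.End ℤ J) (hX : ∀ x ∈ X, η x ∈ X)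
    (x : J) (hx : x ∈ X) (k : ℕ) : (η ^ k) x ∈ X := by
  induction k with
  | zero => simpa using hx
  | succ k ih =>
    rw [pow_succ', Module.End.mul_apply]
    exact hX _ ih

/-- **Periodicity.**  On a finite stable subgroup `X` with `c = |X|`:
`η^(n + c!) x = η^n x` for `n ≥ c`. -/
theorem pow_add_factorial_apply_h466 (X : AddSubgroup J) [Finite X] (η : Module.End ℤ J)
    (hX : ∀ x ∈ X, η x ∈ X) (x : J) (hx : x ∈ X) (n : ℕ) (hn : Nat.card X ≤ n) :
    (η ^ (n + (Nat.card X).factorial)) x = (η ^ n) x := by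
  classical
  letI : Fintype X := Fintype.ofFinite X
  set c : ℕ := Nat.card X with hc
  -- pigeonhole
  let g : Fin (c + 1) → X := fun k => ⟨(η ^ (k : ℕ)) x, pow_apply_mem_h466 X η hX x hx k⟩
  have hcard : Fintype.card X < Fintype.card (Fin (c + 1)) := by
    rw [Fintype.card_fin, ← Nat.card_eq_fintype_card]
    exact Nat.lt_succ_self _
  obtain ⟨i, j, hij, hg⟩ := Fintype.exists_ne_map_eq_of_card_lt g hcard
  have hg' : (η ^ (i : ℕ)) x = (η ^ (j : ℕ)) x := congrArg Subtype.val hg
  -- wlog `i < j`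
  have key : ∀ a b : ℕ, a < b → b ≤ c → (η ^ a) x = (η ^ b) x →
      (η ^ (n + c.factorial)) x = (η ^ n) x := by
    intro a b hab hbc hab'
    have hd : 0 < b - a := Nat.sub_pos_of_lt hab
    have hdc : b - a ≤ c := (Nat.sub_le _ _).trans hbc
    have hstep : ∀ m, a ≤ m → (η ^ (m + (b - a))) x = (η ^ m) x := by
      intro m hm
      obtain ⟨s, rfl⟩ := Nat.exists_eq_add_of_le hm
      have e1 : a + s + (b - a) = s + b := by omega
      have e2 : a + s = s + a := by omega
      rw [e1, e2, pow_add, pow_add, Module.End.mul_apply, Module.End.mul_apply, hab']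
    have hiter : ∀ t m, a ≤ m → (η ^ (m + t * (b - a))) x = (η ^ m) x := by
      intro t
      induction t with
      | zero => intro m _; simp
      | succ t ih =>
        intro m hm
        have e1 : m + (t + 1) * (b - a) = (m + t * (b - a)) + (b - a) := by ring
        rw [e1, hstep _ (le_trans hm (Nat.le_add_right _ _)), ih m hm]
    obtain ⟨t, ht⟩ := Nat.dvd_factorial hd hdc
    have hna : a ≤ n := le_trans (le_trans hab.le hbc) hn
    rw [ht, mul_comm]
    exact hiter t n hna
  rcases lt_or_gt_of_ne (fun h => hij (Fin.ext h)) with h | h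
  · exact key i j h (Nat.lt_succ_iff.1 j.2) hg'
  · exact key j i h (Nat.lt_succ_iff.1 i.2) hg'.symm

/-- If some power of `η` kills `x ∈ X`, then `η ^ (|X|!)` kills `x`. -/
theorem pow_factorial_apply_eq_zero_h466 (X : AddSubgroup J) [Finite X] (η : Module.End ℤ J)
    (hX : ∀ x ∈ X, η x ∈ X) (x : J) (hx : x ∈ X) (n : ℕ) (h : (η ^ n) x = 0) :
    (η ^ (Nat.card X).factorial) x = 0 := by
  set c : ℕ := Nat.card X with hc
  have hL : 0 < c.factorial := Nat.factorial_pos c
  have hper : ∀ t, (η ^ (c + t * c.factorial)) x = (η ^ c) x := by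
    intro t
    induction t with
    | zero => simp
    | succ t ih =>
      have e1 : c + (t + 1) * c.factorial = (c + t * c.factorial) + c.factorial := by ring
      rw [e1, pow_add_factorial_apply_h466 X η hX x hx _ (Nat.le_add_right _ _), ih]
  have hbig : n ≤ c + n * c.factorial := by
    have : n * 1 ≤ n * c.factorial := Nat.mul_le_mul_left n hL
    omega
  have hc0 : (η ^ c) x = 0 := by
    rw [← hper n]
    obtain ⟨s, hs⟩ := Nat.exists_eq_add_of_le hbig
    rw [hs, add_comm n s, pow_add, Module.End.mul_apply, h, map_zero]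
  obtain ⟨s, hs⟩ := Nat.exists_eq_add_of_le (Nat.self_le_factorial c)
  rw [hs, add_comm c s, pow_add, Module.End.mul_apply, hc0, map_zero]

end Period

section Projector

variable {J : Type*} [AddCommGroup J] {ι : Type*}

/-- **The projector onto the part of `X` killed by powers of all `η i`.** -/
theorem exists_projector_h466 (η : ι → Module.End ℤ J) (hcomm : ∀ i j, Commute (η i) (η j))
    (X : AddSubgroup J) [Finite X] (hX : ∀ i, ∀ x ∈ X, η i x ∈ X)
    (P : Module.End ℤ J → Prop) (hP1 : P 1) (hPη : ∀ i, P (η i))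
    (hPmul : ∀ a b, P a → P b → P (a * b)) (hPsub : ∀ a b, P a → P b → P (a - b)) :
    ∃ e : Module.End ℤ J, P e ∧
      (∀ x ∈ X, (∀ i, ∃ n : ℕ, (η i ^ n) x = 0) → e x = x) ∧
      (∀ x ∈ X, e x ∈ X ∧ ∀ i, ∃ n : ℕ, (η i ^ n) (e x) = 0) := by
  classical
  set L : ℕ := (Nat.card X).factorial with hL
  let f : ι → Module.End ℤ J := fun i => 1 - η i ^ L
  have hPpow : ∀ i (n : ℕ), P (η i ^ n) := by
    intro i n
    induction n with
    | zero => simpa using hP1
    | succ n ih =>
      rw [pow_succ]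
      exact hPmul _ _ ih (hPη i)
  have hPf : ∀ i, P (f i) := fun i => hPsub _ _ hP1 (hPpow i L)
  have hfX : ∀ i, ∀ x ∈ X, f i x ∈ X := by
    intro i x hx
    show (1 - η i ^ L) x ∈ X
    rw [LinearMap.sub_apply, Module.End.one_apply]
    exact X.sub_mem hx (pow_apply_mem_h466 X (η i) (hX i) x hx L)
  have hfcomm : ∀ i j (n : ℕ), Commute (η i ^ n) (f j) := by
    intro i j n
    exact ((Commute.one_right _).sub_right ((hcomm i j).pow_pow n L))
  -- the product over a list of indices
  let E : List ι → Module.End ℤ J := fun l => (l.map f).prod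
  have hE_nil : E [] = 1 := rfl
  have hE_cons : ∀ i l, E (i :: l) = f i * E l := fun i l => by
    show ((i :: l).map f).prod = f i * (l.map f).prod
    rw [List.map_cons, List.prod_cons]
  have hEP : ∀ l, P (E l) := by
    intro l
    induction l with
    | nil => rw [hE_nil]; exact hP1
    | cons i l ih => rw [hE_cons]; exact hPmul _ _ (hPf i) ih
  have hEX : ∀ l, ∀ x ∈ X, E l x ∈ X := by
    intro l
    induction l with
    | nil => intro x hx; rw [hE_nil]; simpa using hx
    | cons i l ih =>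
      intro x hx
      rw [hE_cons, Module.End.mul_apply]
      exact hfX i _ (ih x hx)
  have hEfix : ∀ l, ∀ x ∈ X, (∀ i, ∃ n : ℕ, (η i ^ n) x = 0) → E l x = x := by
    intro l
    induction l with
    | nil => intro x _ _; rw [hE_nil]; rfl
    | cons i l ih =>
      intro x hx hnil
      rw [hE_cons, Module.End.mul_apply, ih x hx hnil]
      show (1 - η i ^ L) x = x
      obtain ⟨n, hn⟩ := hnil i
      rw [LinearMap.sub_apply, Module.End.one_apply,
        pow_factorial_apply_eq_zero_h466 X (η i) (hX i) x hx n hn, sub_zero]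
  have hEkill : ∀ l, ∀ x ∈ X, ∀ i ∈ l, ∃ n : ℕ, (η i ^ n) (E l x) = 0 := by
    intro l
    induction l with
    | nil => intro x _ i hi; simp at hi
    | cons j l ih =>
      intro x hx i hi
      rw [hE_cons, Module.End.mul_apply]
      rcases List.mem_cons.1 hi with rfl | hi'
      · refine ⟨Nat.card X, ?_⟩
        have hy : E l x ∈ X := hEX l x hx
        generalize E l x = y at hy
        have h1 : f i y = y - (η i ^ L) y := by
          show (1 - η i ^ L) y = y - (η i ^ L) y
          rw [LinearMap.sub_apply, Module.End.one_apply]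
        have h2 : (η i ^ Nat.card X) ((η i ^ L) y) = (η i ^ (Nat.card X + L)) y := by
          rw [pow_add, Module.End.mul_apply]
        rw [h1, map_sub, h2, pow_add_factorial_apply_h466 X (η i) (hX i) y hy _ le_rfl, sub_self]
      · obtain ⟨n, hn⟩ := ih x hx i hi'
        refine ⟨n, ?_⟩
        have hc : η i ^ n * f j = f j * η i ^ n := (hfcomm i j n).eq
        have h1 : (η i ^ n) (f j (E l x)) = (η i ^ n * f j) (E l x) := rfl
        have h2 : (f j * η i ^ n) (E l x) = f j ((η i ^ n) (E l x)) := rfl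
        rw [h1, hc, h2, hn, map_zero]
  -- the witnesses
  letI : Fintype X := Fintype.ofFinite X
  have hw : ∀ x : X, ∃ i : Option ι,
      (i = none → ∀ i', ∃ n : ℕ, (η i' ^ n) (x : J) = 0) ∧
      ∀ j, i = some j → ∀ n : ℕ, (η j ^ n) (x : J) ≠ 0 := by
    intro x
    by_cases h : ∀ i', ∃ n : ℕ, (η i' ^ n) (x : J) = 0
    · refine ⟨none, fun _ => h, fun j hj => ?_⟩
      cases hj
    · obtain ⟨j, hj⟩ := not_forall.1 h
      refine ⟨some j, fun hn => ?_, fun j' hj' n hn => ?_⟩
      · cases hn
      · cases hj'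
        exact hj ⟨n, hn⟩
  choose w hwnone hwsome using hw
  let l : List ι := (Finset.univ : Finset X).toList.filterMap w
  refine ⟨E l, hEP l, hEfix l, fun x hx => ⟨hEX l x hx, ?_⟩⟩
  by_contra hbad
  have hy : E l x ∈ X := hEX l x hx
  rcases hwy : w ⟨E l x, hy⟩ with _ | j
  · exact hbad (hwnone ⟨E l x, hy⟩ hwy)
  · have hjl : j ∈ l := by
      rw [List.mem_filterMap]
      exact ⟨⟨E l x, hy⟩, Finset.mem_toList.2 (Finset.mem_univ _), hwy⟩
    obtain ⟨n, hn⟩ := hEkill l x hx j hjl
    exact hwsome ⟨E l x, hy⟩ j hwy n hn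

end Projector

end Fermat.Agent.S15.H466

end
-- ===== PACK-END S15/H466/ProjAbs.lean

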