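import Mathlib
import Fermat.Statements.S07
import Fermat.Prelude.Thm_ModularForm_sturm_bound_Gamma0
import Fermat.Prelude.Def_FLTPrelim_Modularity
import Fermat.Agent.Pack.L1.E0L0

-- ===== PACK-BEGIN S51/H471/DescentRat.lean
section
/-
Rational points on the elliptic curves 15a1, 15a2, 15a3 (used for S51).
-/


set_option autoImplicit false

namespace Fermat.Agent.S51.H471

/-- Rational version of `no_sol`. -/
theorem no_sol_rat (m e u v : ℚ) (he : e ≠ 0) (h1 : m ^ 2 = u ^ 2 + e ^ 2)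
    (h2 : m ^ 2 = v ^ 2 + 81 * e ^ 2) : False := by
  -- clear denominators
  have hm := Rat.mul_den_eq_num m
  have he' := Rat.mul_den_eq_num e
  have hu := Rat.mul_den_eq_num u
  have hv := Rat.mul_den_eq_num v
  have hmd : (m.den : ℚ) ≠ 0 := by exact_mod_cast m.den_ne_zero
  have hed : (e.den : ℚ) ≠ 0 := by exact_mod_cast e.den_ne_zero
  have hud : (u.den : ℚ) ≠ 0 := by exact_mod_cast u.den_ne_zero
  have hvd : (v.den : ℚ) ≠ 0 := by exact_mod_cast v.den_ne_zero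
  have hen : e.num ≠ 0 := Rat.num_ne_zero.2 he
  apply no_sol (m.num * (e.den * u.den * v.den)) (e.num * (m.den * u.den * v.den))
    (u.num * (m.den * e.den * v.den)) (v.num * (m.den * e.den * u.den))
  · apply mul_ne_zero hen
    have := m.den_ne_zero
    have := u.den_ne_zero
    have := v.den_ne_zero
    positivity
  · have : ((m.num * (e.den * u.den * v.den) : ℤ) : ℚ) ^ 2
        = ((u.num * (m.den * e.den * v.den) : ℤ) : ℚ) ^ 2
          + ((e.num * (m.den * u.den * v.den) : ℤ) : ℚ) ^ 2 := by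
      push_cast
      rw [← hm, ← he', ← hu]
      linear_combination ((m.den : ℚ) * e.den * u.den * v.den) ^ 2 * h1
    exact_mod_cast this
  · have : ((m.num * (e.den * u.den * v.den) : ℤ) : ℚ) ^ 2
        = ((v.num * (m.den * e.den * u.den) : ℤ) : ℚ) ^ 2
          + 81 * ((e.num * (m.den * u.den * v.den) : ℤ) : ℚ) ^ 2 := by
      push_cast
      rw [← hm, ← he', ← hv]
      linear_combination ((m.den : ℚ) * e.den * u.den * v.den) ^ 2 * h2
    exact_mod_cast this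

/-- There is no rational `x` with `x`, `x - 1`, `x - 81` all squares
(the curve 15a2 has no nontrivial rational point divisible by 2). -/
theorem no_three_squares (r s t : ℚ) (h1 : r ^ 2 - 1 = s ^ 2) (h2 : r ^ 2 - 81 = t ^ 2) :
    False :=
  no_sol_rat r 1 s t one_ne_zero (by linear_combination h1) (by linear_combination h2)

/-- **Rational points of 15a2**: `y² = x (x - 1) (x - 81)` forces `y = 0`. -/
theorem rat_points_15a2 (x y : ℚ) (h : y ^ 2 = x * (x - 1) * (x - 81)) : y = 0 := by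
  by_contra hy
  apply no_sol_rat (x ^ 2 - 81) (2 * y) (x ^ 2 - 2 * x + 81) (x ^ 2 - 162 * x + 81)
    (mul_ne_zero two_ne_zero hy)
  · linear_combination (-4 : ℚ) * h
  · linear_combination (-324 : ℚ) * h

/-- **Rational points of 15a2**, explicit form. -/
theorem rat_points_15a2' (x y : ℚ) (h : y ^ 2 = x * (x - 1) * (x - 81)) :
    x = 0 ∨ x = 1 ∨ x = 81 := by
  have hy := rat_points_15a2 x y h
  rw [hy] at h
  have h0 : x * (x - 1) * (x - 81) = 0 := by rw [← h]; ring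
  rcases mul_eq_zero.1 h0 with h0 | h0
  · rcases mul_eq_zero.1 h0 with h0 | h0
    · exact Or.inl h0
    · exact Or.inr (Or.inl (by linarith))
  · exact Or.inr (Or.inr (by linarith))

/-- **Rational points of 15a1 = X₀(15)** in the model `y² = x (x - 9) (x - 25)`. -/
theorem rat_points_15a1 (x y : ℚ) (h : y ^ 2 = x * (x - 9) * (x - 25)) :
    x = 0 ∨ x = 9 ∨ x = 25 ∨ x = 5 ∨ x = 45 := by
  by_cases hX : x - 25 = 0
  · exact Or.inr (Or.inr (Or.inl (by linarith)))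
  -- 2-isogeny to 15a2 with kernel generated by (25, 0)
  have key := rat_points_15a2 (y ^ 2 / (x - 25) ^ 2)
    (y * (400 - (x - 25) ^ 2) / (x - 25) ^ 2) (by
      field_simp
      rw [h]
      ring)
  have hX2 : (x - 25) ^ 2 ≠ 0 := pow_ne_zero 2 hX
  rw [div_eq_zero_iff] at key
  rcases key with key | key
  · rcases mul_eq_zero.1 key with hy | hq
    · rw [hy] at h
      have h0 : x * (x - 9) * (x - 25) = 0 := by rw [← h]; ring
      rcases mul_eq_zero.1 h0 with h0 | h0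
      · rcases mul_eq_zero.1 h0 with h0 | h0
        · exact Or.inl h0
        · exact Or.inr (Or.inl (by linarith))
      · exact Or.inr (Or.inr (Or.inl (by linarith)))
    · have h0 : (x - 5) * (x - 45) = 0 := by linear_combination -hq
      rcases mul_eq_zero.1 h0 with h0 | h0
      · exact Or.inr (Or.inr (Or.inr (Or.inl (by linarith))))
      · exact Or.inr (Or.inr (Or.inr (Or.inr (by linarith))))
  · exact absurd key hX2

/-- **Rational points of 15a1 = X₀(15)** in the model `y² = x (x + 9) (x - 16)`. -/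
theorem rat_points_15a1' (x y : ℚ) (h : y ^ 2 = x * (x + 9) * (x - 16)) :
    x = 0 ∨ x = -9 ∨ x = 16 ∨ x = -4 ∨ x = 36 := by
  have := rat_points_15a1 (x + 9) y (by rw [h]; ring)
  rcases this with h | h | h | h | h
  · exact Or.inr (Or.inl (by linarith))
  · exact Or.inl (by linarith)
  · exact Or.inr (Or.inr (Or.inl (by linarith)))
  · exact Or.inr (Or.inr (Or.inr (Or.inl (by linarith))))
  · exact Or.inr (Or.inr (Or.inr (Or.inr (by linarith))))


/-- The descent statement in the exact shape `hdesc` used by the modular-curve glue. -/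
theorem hdesc : ∀ x y : ℚ, y ^ 2 = x * (x + 9) * (x - 16) →
    x = 0 ∨ x = -9 ∨ x = 16 ∨ x = -4 ∨ x = 36 :=
  rat_points_15a1'

/-- The descent statement in the shape `Descent15`. -/
theorem descent15 : ∀ X Y : ℚ, Y ^ 2 = X * (X - 16) * (X + 9) →
    X = 0 ∨ X = 16 ∨ X = -9 ∨ X = 36 ∨ X = -4 := by
  intro X Y h
  rcases rat_points_15a1' X Y (by rw [h]; ring) with h | h | h | h | h
  · exact Or.inl h
  · exact Or.inr (Or.inr (Or.inl h))
  · exact Or.inr (Or.inl h)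
  · exact Or.inr (Or.inr (Or.inr (Or.inr h)))
  · exact Or.inr (Or.inr (Or.inr (Or.inl h)))

/-- Variant with the points listed as `0, -9, 16, 36, -4`. -/
theorem descent15' (x y : ℚ) (h : y ^ 2 = x * (x + 9) * (x - 16)) :
    x = 0 ∨ x = -9 ∨ x = 16 ∨ x = 36 ∨ x = -4 := by
  rcases rat_points_15a1' x y h with h | h | h | h | h
  · exact Or.inl h
  · exact Or.inr (Or.inl h)
  · exact Or.inr (Or.inr (Or.inl h))
  · exact Or.inr (Or.inr (Or.inr (Or.inr h)))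
  · exact Or.inr (Or.inr (Or.inr (Or.inl h)))

end Fermat.Agent.S51.H471

end
-- ===== PACK-END S51/H471/DescentRat.lean

-- ===== PACK-BEGIN S12/H291/Endgame.lean
section


/-!
# S12 one-step route: the `2`-adic endgame (helper291)

`X` odd, `32 ∣ Y ≠ 0`, `p` odd:  `16^(p-1) ((X + Y)^p - X^p) ≠ Y^p`.
(The left side has `2`-adic valuation `4(p-1) + v₂(Y)`, the right side `p · v₂(Y)`, and
`v₂(Y) ≥ 5`.)
-/

set_option autoImplicit false

namespace Fermat.Agent.S12.H291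

lemma intCast_zmod_two_of_odd {X : ℤ} (hX : Odd X) : ((X : ℤ) : ZMod 2) = 1 := by
  obtain ⟨k, rfl⟩ := hX
  push_cast
  have : (2 : ZMod 2) = 0 := rfl
  rw [this, zero_mul, zero_add]

/-- `∑_{i<p} Z^i X^(p-1-i)` is odd for `Z`, `X` odd and `p` odd. -/
lemma odd_geom_sum₂ {X Z : ℤ} {p : ℕ} (hp : Odd p) (hX : Odd X) (hZ : Odd Z) :
    Odd (∑ i ∈ Finset.range p, Z ^ i * X ^ (p - 1 - i)) := by
  have hX1 := intCast_zmod_two_of_odd hX
  have hZ1 := intCast_zmod_two_of_odd hZ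
  have hS1 : ((∑ i ∈ Finset.range p, Z ^ i * X ^ (p - 1 - i) : ℤ) : ZMod 2) = 1 := by
    push_cast
    simp only [hX1, hZ1, one_pow, mul_one, Finset.sum_const, Finset.card_range, nsmul_eq_mul]
    obtain ⟨k, rfl⟩ := hp
    push_cast
    have : (2 : ZMod 2) = 0 := rfl
    rw [this, zero_mul, zero_add]
  rw [← Int.not_even_iff_odd]
  intro hev
  obtain ⟨t, ht⟩ := hev
  rw [ht] at hS1
  push_cast at hS1
  have h2 : (t : ZMod 2) + (t : ZMod 2) = 0 := by
    have : (t : ZMod 2) + (t : ZMod 2) = 2 * (t : ZMod 2) := by ring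
    rw [this]
    have : (2 : ZMod 2) = 0 := rfl
    rw [this, zero_mul]
  rw [h2] at hS1
  exact zero_ne_one hS1

/-- **Endgame.** -/
theorem endgame {X Y : ℤ} {p : ℕ} (hp : Odd p) (hp1 : 1 < p) (hX : Odd X) (hY : (32 : ℤ) ∣ Y)
    (hY0 : Y ≠ 0) : (16 : ℤ) ^ (p - 1) * ((X + Y) ^ p - X ^ p) ≠ Y ^ p := by
  intro h
  have hYeven : Even Y := by
    obtain ⟨t, rfl⟩ := hY
    exact ⟨16 * t, by ring⟩
  have hZ : Odd (X + Y) := hX.add_even hYeven
  have hS := odd_geom_sum₂ hp hX hZ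
  set S := ∑ i ∈ Finset.range p, (X + Y) ^ i * X ^ (p - 1 - i) with hSdef
  have hgeom : S * Y = (X + Y) ^ p - X ^ p := by
    have := (Commute.all (X + Y) X).geom_sum₂_mul p
    rw [add_sub_cancel_left] at this
    exact this
  rw [← hgeom] at h
  have hp' : p = (p - 1) + 1 := by omega
  have h1 : (16 : ℤ) ^ (p - 1) * S = Y ^ (p - 1) := by
    apply mul_right_cancel₀ hY0
    rw [← pow_succ, ← hp']
    linear_combination h
  obtain ⟨t, rfl⟩ := hY
  have h2 : S = 2 ^ (p - 1) * t ^ (p - 1) := by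
    have h16 : (16 : ℤ) ^ (p - 1) ≠ 0 := pow_ne_zero _ (by norm_num)
    apply mul_left_cancel₀ h16
    rw [h1, ← mul_assoc, ← mul_pow, ← mul_pow]
    norm_num
  have hev : Even S := by
    rw [h2]
    have hp2 : p - 1 = (p - 2) + 1 := by omega
    rw [hp2, pow_succ]
    exact ⟨2 ^ (p - 2) * t ^ (p - 2 + 1), by ring⟩
  exact (Int.not_even_iff_odd.mpr hS) hev

end Fermat.Agent.S12.H291

end
-- ===== PACK-END S12/H291/Endgame.lean

-- ===== PACK-BEGIN S10/Glue.lean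
section


/-!
# S10 glue: Fermat's Last Theorem for an odd prime exponent from Case I and Case II

Generic (in the odd prime `p`) version of Mathlib's
`fermatLastTheoremThree_of_three_dvd_only_c`.
-/

set_option autoImplicit false

namespace Fermat.Agent.S10

section glue

variable {p : ℕ}

lemma glue_dvd_b_of_dvd_a {a b c : ℤ} (hp : p.Prime) (hodd : p ≠ 2) (ha : a ≠ 0)
    (Hgcd : Finset.gcd {a, b, c} id = 1) (hpa : (p : ℤ) ∣ a)
    (HF : a ^ p + b ^ p + c ^ p = 0)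
    (H : ∀ a b c : ℤ, c ≠ 0 → ¬ (p : ℤ) ∣ a → ¬ (p : ℤ) ∣ b → (p : ℤ) ∣ c → IsCoprime a b →
      a ^ p + b ^ p ≠ c ^ p) :
    (p : ℤ) ∣ b := by
  have hpodd : Odd p := hp.odd_of_ne_two hodd
  have hpZ : Prime (p : ℤ) := Nat.prime_iff_prime_int.mp hp
  have hbc : IsCoprime (-b) (-c) := by
    refine IsCoprime.neg_neg ?_
    rw [add_comm (a ^ p), add_assoc, add_comm (a ^ p), ← add_assoc] at HF
    refine isCoprime_of_gcd_eq_one_of_FLT ?_ HF
    convert Hgcd using 2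
    rw [Finset.pair_comm, Finset.insert_comm]
  by_contra! hpb
  by_cases hpc : (p : ℤ) ∣ c
  · apply hpb
    rw [add_assoc, add_comm (b ^ p), ← add_assoc] at HF
    exact dvd_c_of_prime_of_dvd_a_of_dvd_b_of_FLT hpZ hpa hpc HF
  · refine H (-b) (-c) a ha (by simpa using hpb) (by simpa using hpc) hpa hbc ?_
    rw [hpodd.neg_pow, hpodd.neg_pow]
    linear_combination -HF

lemma glue_of_dvd_a {a b c : ℤ} (hp : p.Prime) (hodd : p ≠ 2) (ha : a ≠ 0)
    (hpa : (p : ℤ) ∣ a) (Hgcd : Finset.gcd {a, b, c} id = 1)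
    (H : ∀ a b c : ℤ, c ≠ 0 → ¬ (p : ℤ) ∣ a → ¬ (p : ℤ) ∣ b → (p : ℤ) ∣ c → IsCoprime a b →
      a ^ p + b ^ p ≠ c ^ p) :
    a ^ p + b ^ p + c ^ p ≠ 0 := by
  intro HF
  have hpZ : Prime (p : ℤ) := Nat.prime_iff_prime_int.mp hp
  apply hpZ.not_dvd_one
  rw [← Hgcd]
  refine Finset.dvd_gcd (fun x hx ↦ ?_)
  simp only [Finset.mem_insert, Finset.mem_singleton] at hx
  have hpb : (p : ℤ) ∣ b := glue_dvd_b_of_dvd_a hp hodd ha Hgcd hpa HF H
  rcases hx with hx | hx | hx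
  · exact hx ▸ hpa
  · exact hx ▸ hpb
  · simpa [hx] using dvd_c_of_prime_of_dvd_a_of_dvd_b_of_FLT hpZ hpa hpb HF

/-- To prove Fermat's Last Theorem for an odd prime `p` it is enough to prove Case I
(coprime solutions have `p ∣ a * b * c`) and Case II in the normalised form (`p ∣ c`, `p ∤ a`,
`p ∤ b`, `a`, `b` coprime). -/
theorem flt_of_caseI_caseII (hp : p.Prime) (hodd : p ≠ 2)
    (h1 : ∀ a b c : ℤ, IsCoprime a b → a ^ p + b ^ p = c ^ p → (p : ℤ) ∣ a * b * c)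
    (h2 : ∀ a b c : ℤ, c ≠ 0 → ¬ (p : ℤ) ∣ a → ¬ (p : ℤ) ∣ b → (p : ℤ) ∣ c → IsCoprime a b →
      a ^ p + b ^ p ≠ c ^ p) :
    FermatLastTheoremFor p := by
  have hpodd : Odd p := hp.odd_of_ne_two hodd
  have hpZ : Prime (p : ℤ) := Nat.prime_iff_prime_int.mp hp
  rw [fermatLastTheoremFor_iff_int]
  refine fermatLastTheoremWith_of_fermatLastTheoremWith_coprime (fun a b c ha hb hc Hgcd hF ↦ ?_)
  have hF0 := hF
  rw [← sub_eq_zero, sub_eq_add_neg, ← hpodd.neg_pow] at hF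
  have Hgcd' : Finset.gcd {a, b, -c} id = 1 := by
    simp only [← Hgcd, Finset.gcd_insert, Finset.gcd_singleton, id_eq, ← Int.abs_eq_normalize,
      abs_neg]
  have hab : IsCoprime a b := isCoprime_of_gcd_eq_one_of_FLT Hgcd' hF
  have hdvd : (p : ℤ) ∣ a * b * c := h1 a b c hab hF0
  rw [hpZ.dvd_mul, hpZ.dvd_mul] at hdvd
  rcases hdvd with (hpa | hpb) | hpc
  · exact glue_of_dvd_a hp hodd ha hpa Hgcd' h2 hF
  · rw [add_comm (a ^ p)] at hF
    refine glue_of_dvd_a hp hodd hb hpb ?_ h2 hF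
    simp only [← Hgcd, Finset.insert_comm, Finset.gcd_insert, Finset.gcd_singleton, id_eq,
      ← Int.abs_eq_normalize, abs_neg]
  · rw [add_comm _ ((-c) ^ p), ← add_assoc] at hF
    refine glue_of_dvd_a hp hodd (neg_ne_zero.2 hc) (by simpa using hpc) ?_ h2 hF
    rw [Finset.insert_comm (-c), Finset.pair_comm (-c) b]
    simp only [← Hgcd, Finset.gcd_insert, Finset.gcd_singleton, id_eq, ← Int.abs_eq_normalize,
      abs_neg]

end glue

end Fermat.Agent.S10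

end
-- ===== PACK-END S10/Glue.lean

-- ===== PACK-BEGIN S10/PID13h430.lean
section


/-!
# The ring of integers of `ℚ(ζ₁₃)` is a principal ideal domain

Independent hedge (helper430).  Method: Minkowski bound `< 307`, Mathlib's Galois criterion
`RingOfIntegers.isPrincipalIdealRing_of_isPrincipal_of_lt_or_isPrincipal_of_mem_primesOver_of_mem_Icc`,
inertia degrees `= orderOf (p : ZMod 13)`, and explicit generators for one prime above each of
`3, 53, 79, 131, 157` (Kummer-Dedekind + cofactor identities modulo `Φ₁₃`).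
-/

open NumberField Polynomial Ideal Module

namespace Fermat.Agent.S10.H430


/-- table of multiplicative orders modulo 13 -/
def ordTable : ℕ → ℕ
  | 1 => 1
  | 12 => 2
  | 3 => 3
  | 9 => 3
  | 5 => 4
  | 8 => 4
  | 4 => 6
  | 10 => 6
  | _ => 12

lemma orderOf_zmod13_aux : ∀ x : ZMod 13, x ≠ 0 →
    x ^ ordTable x.val = 1 ∧ ∀ m < ordTable x.val, 0 < m → x ^ m ≠ 1 := by
  decide

lemma ordTable_pos (n : ℕ) : 0 < ordTable n := by
  unfold ordTable
  split <;> norm_num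

lemma orderOf_zmod13 (x : ZMod 13) (hx : x ≠ 0) : orderOf x = ordTable x.val := by
  rw [orderOf_eq_iff (ordTable_pos _)]
  exact orderOf_zmod13_aux x hx

set_option maxRecDepth 100000 in
lemma key_aux : ∀ p < 307, p ∈ [0,1,3,12,14,27,40,53,66,79,92,105,118,131,144,157,170,183,196,
    209,222,235,248,261,274,287,300] ∨ 306 < p ^ ordTable (p % 13) := by
  decide

lemma key (p : ℕ) (hp : p.Prime) (hle : p ≤ 306) (h13 : p ≠ 13)
    (hs : p ≠ 3 ∧ p ≠ 53 ∧ p ≠ 79 ∧ p ≠ 131 ∧ p ≠ 157) :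
    306 < p ^ orderOf (p : ZMod 13) := by
  have hx : (p : ZMod 13) ≠ 0 := by
    intro h
    rw [ZMod.natCast_eq_zero_iff] at h
    exact h13 ((Nat.prime_dvd_prime_iff_eq (by norm_num) hp).mp h).symm
  rw [orderOf_zmod13 _ hx, ZMod.val_natCast]
  rcases key_aux p (by omega) with h | h
  · exfalso
    simp only [List.mem_cons, List.not_mem_nil, or_false] at h
    obtain ⟨h3, h53, h79, h131, h157⟩ := hs
    rcases h with rfl | rfl | rfl | rfl | rfl | rfl | rfl | rfl | rfl | rfl | rfl | rfl | rfl | rfl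
      | rfl | rfl | rfl | rfl | rfl | rfl | rfl | rfl | rfl | rfl | rfl | rfl | rfl <;>
      first
      | exact absurd rfl h3
      | exact absurd rfl h53
      | exact absurd rfl h79
      | exact absurd rfl h131
      | exact absurd rfl h157
      | (revert hp; norm_num)
  · exact h



lemma cubic_three_natDegree : ((X ^ 3 - X - 1 : (ZMod 3)[X])).natDegree = 3 := by
  compute_degree!

lemma cubic_three_noroot : ∀ (x : ZMod 3), ¬x ^ 3 - x - 1 = 0 := by decide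

lemma cubic_three_irreducible : Irreducible (X ^ 3 - X - 1 : (ZMod 3)[X]) := by
  have hF : Fact (Nat.Prime 3) := ⟨by norm_num⟩
  apply irreducible_of_degree_le_three_of_not_isRoot
  · rw [cubic_three_natDegree]; decide
  · intro x
    simp only [IsRoot.def, eval_sub, eval_pow, eval_X, eval_one]
    exact cubic_three_noroot x

lemma cubic_three_map : (X ^ 3 - X - 1 : ℤ[X]).map (Int.castRingHom (ZMod 3)) = X ^ 3 - X - 1 := by
  simp

lemma cubic_three_dvd : (X ^ 3 - X - 1 : (ZMod 3)[X]) ∣ cyclotomic 13 (ZMod 3) := by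
  have hF : Fact (Nat.Prime 13) := ⟨by norm_num⟩
  have h : cyclotomic 13 ℤ = (X ^ 3 - X - 1) * (20 + 15 * X + 11 * X ^ 2 + 8 * X ^ 3 + 6 * X ^ 4 + 4 * X ^ 5 + 3 * X ^ 6 + 2 * X ^ 7 + X ^ 8 + X ^ 9) + 3 * (7 + 12 * X + 9 * X ^ 2) := by
    rw [cyclotomic_prime]
    simp only [Finset.sum_range_succ, Finset.sum_range_zero]
    ring
  have h2 := congrArg (Polynomial.map (Int.castRingHom (ZMod 3))) h
  rw [map_cyclotomic] at h2
  rw [h2]
  have h3 : ((3 : ℤ[X])).map (Int.castRingHom (ZMod 3)) = 0 := by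
    have : (3 : ℤ[X]) = C 3 := by simp
    rw [this, Polynomial.map_C]
    have : (Int.castRingHom (ZMod 3)) 3 = 0 := by decide
    rw [this, C_0]
  rw [Polynomial.map_add, Polynomial.map_mul, Polynomial.map_mul, h3, zero_mul, add_zero,
    cubic_three_map]
  exact Dvd.intro _ rfl



section
variable (K : Type*) [Field K] [NumberField K] [IsCyclotomicExtension {13} ℚ K]

/-- the chosen primitive 13-th root of unity, as an algebraic integer -/
noncomputable def zeta13 : 𝓞 K := (IsCyclotomicExtension.zeta_spec 13 ℚ K).toInteger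

lemma zeta13_sum : 1 + zeta13 K + zeta13 K ^ 2 + zeta13 K ^ 3 + zeta13 K ^ 4 + zeta13 K ^ 5
    + zeta13 K ^ 6 + zeta13 K ^ 7 + zeta13 K ^ 8 + zeta13 K ^ 9 + zeta13 K ^ 10 + zeta13 K ^ 11
    + zeta13 K ^ 12 = 0 := by
  have h := (IsCyclotomicExtension.zeta_spec 13 ℚ K).toInteger_isPrimitiveRoot.geom_sum_eq_zero
    (by norm_num)
  simpa [Finset.sum_range_succ, zeta13] using h

lemma minpoly_zeta13 : minpoly ℤ (zeta13 K) = cyclotomic 13 ℤ := by
  rw [cyclotomic_eq_minpoly (IsCyclotomicExtension.zeta_spec 13 ℚ K) (by norm_num),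
    ← (IsCyclotomicExtension.zeta_spec 13 ℚ K).coe_toInteger, ← RingOfIntegers.minpoly_coe]
  rfl

lemma not_dvd_exponent_zeta13 (q : ℕ) [hq : Fact q.Prime] :
    ¬ q ∣ RingOfIntegers.exponent (zeta13 K) := by
  have h : RingOfIntegers.exponent (zeta13 K) = 1 :=
    RingOfIntegers.exponent_eq_one_iff.mpr <|
      IsCyclotomicExtension.Rat.adjoin_singleton_eq_top (IsCyclotomicExtension.zeta_spec 13 ℚ K)
  rw [h]
  exact hq.out.not_dvd_one

lemma exists_principal_prime_over (q : ℕ) [hq : Fact q.Prime] (Q : ℤ[X])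
    (hQmonic : Q.Monic)
    (hQirr : Irreducible (Q.map (Int.castRingHom (ZMod q))))
    (hQdvd : Q.map (Int.castRingHom (ZMod q)) ∣ cyclotomic 13 (ZMod q))
    (α : 𝓞 K) (h1 : α ∣ (q : 𝓞 K)) (h2 : α ∣ aeval (zeta13 K) Q)
    (h3 : α ∈ span {(q : 𝓞 K), aeval (zeta13 K) Q}) :
    ∃ P ∈ primesOver (span {(q : ℤ)}) (𝓞 K), Submodule.IsPrincipal P := by
  have hexp := not_dvd_exponent_zeta13 K q
  have hQ : Q.map (Int.castRingHom (ZMod q)) ∈ RingOfIntegers.monicFactorsMod (zeta13 K) q := by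
    rw [Multiset.mem_toFinset, Polynomial.mem_normalizedFactors_iff
      (map_monic_ne_zero (minpoly.monic (zeta13 K).isIntegral))]
    refine ⟨hQirr, hQmonic.map _, ?_⟩
    rw [minpoly_zeta13, map_cyclotomic]
    exact hQdvd
  refine ⟨((NumberField.Ideal.primesOverSpanEquivMonicFactorsMod hexp).symm ⟨_, hQ⟩ : Ideal (𝓞 K)),
    ((NumberField.Ideal.primesOverSpanEquivMonicFactorsMod hexp).symm ⟨_, hQ⟩).2, ?_⟩
  rw [NumberField.Ideal.primesOverSpanEquivMonicFactorsMod_symm_apply_eq_span hexp hQ]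
  refine ⟨α, ?_⟩
  apply le_antisymm
  · rw [Ideal.span_le]
    intro x hx
    rcases hx with rfl | rfl
    · exact Ideal.mem_span_singleton.mpr h1
    · exact Ideal.mem_span_singleton.mpr h2
  · rw [Ideal.submodule_span_eq, Ideal.span_le]
    intro x hx
    rw [Set.mem_singleton_iff] at hx
    rw [hx]
    exact h3

lemma exists_principal_prime_over_linear (q : ℕ) [hq : Fact q.Prime] (r : ℤ)
    (hr : ∑ i ∈ Finset.range 13, ((r : ZMod q)) ^ i = 0)
    (α β γ g : 𝓞 K) (m : ℤ) (h1 : α * β = (q : 𝓞 K)) (h2 : α * γ = zeta13 K - (r : 𝓞 K))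
    (h3 : (m : 𝓞 K) * (q : 𝓞 K) + g * (zeta13 K - (r : 𝓞 K)) = α) :
    ∃ P ∈ primesOver (span {(q : ℤ)}) (𝓞 K), Submodule.IsPrincipal P := by
  have hmap : (X - C r : ℤ[X]).map (Int.castRingHom (ZMod q)) = X - C (r : ZMod q) := by
    simp
  have hae : aeval (zeta13 K) (X - C r : ℤ[X]) = zeta13 K - (r : 𝓞 K) := by
    simp
  have h13 : Fact (Nat.Prime 13) := ⟨by norm_num⟩
  refine exists_principal_prime_over K q (X - C r) (monic_X_sub_C r) ?_ ?_ α ⟨β, h1.symm⟩ ?_ ?_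
  · rw [hmap]
    exact irreducible_X_sub_C _
  · rw [hmap, dvd_iff_isRoot, IsRoot.def, cyclotomic_prime, eval_finsetSum]
    simpa using hr
  · rw [hae]
    exact ⟨γ, h2.symm⟩
  · rw [hae]
    exact Ideal.mem_span_pair.mpr ⟨m, g, h3⟩




lemma finrank_thirteen : finrank ℚ K = 12 := by
  rw [IsCyclotomicExtension.finrank (n := 13) K (Polynomial.cyclotomic.irreducible_rat (by norm_num)),
    Nat.totient_prime (by norm_num)]

lemma nrComplexPlaces_thirteen : InfinitePlace.nrComplexPlaces K = 6 := by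
  rw [IsCyclotomicExtension.Rat.nrComplexPlaces_eq_totient_div_two 13, Nat.totient_prime (by norm_num)]

lemma discr_thirteen : discr K = 13 ^ 11 := by
  have hF : Fact (Nat.Prime 13) := ⟨by norm_num⟩
  rw [IsCyclotomicExtension.Rat.discr_prime 13 K]
  norm_num

lemma minkowski_lt :
    (4 / Real.pi) ^ InfinitePlace.nrComplexPlaces K *
      (((finrank ℚ K).factorial : ℝ) / (finrank ℚ K : ℝ) ^ (finrank ℚ K) *
        √|((discr K : ℤ) : ℝ)|) < 307 := by
  rw [finrank_thirteen, nrComplexPlaces_thirteen, discr_thirteen]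
  have hpi : (3.1415 : ℝ) < Real.pi := Real.pi_gt_d4
  have h1 : (4 / Real.pi) ^ 6 < (4 / 3.1415 : ℝ) ^ 6 := by
    gcongr
  have h2 : √|((13 ^ 11 : ℤ) : ℝ)| < 1338717 := by
    rw [Real.sqrt_lt' (by norm_num)]
    norm_num
  have h3 : (0 : ℝ) ≤ √|((13 ^ 11 : ℤ) : ℝ)| := Real.sqrt_nonneg _
  have hfac : ((Nat.factorial 12 : ℕ) : ℝ) = 479001600 := by
    norm_num [Nat.factorial]
  rw [hfac]
  have h4 : (0 : ℝ) < (4 / Real.pi) ^ 6 := by positivity
  calc (4 / Real.pi) ^ 6 * ((479001600 : ℝ) / ((12 : ℕ) : ℝ) ^ 12 * √|((13 ^ 11 : ℤ) : ℝ)|)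
      ≤ (4 / Real.pi) ^ 6 * ((479001600 : ℝ) / ((12 : ℕ) : ℝ) ^ 12 * 1338717) := by
        gcongr
    _ < (4 / 3.1415 : ℝ) ^ 6 * ((479001600 : ℝ) / ((12 : ℕ) : ℝ) ^ 12 * 1338717) := by
        gcongr
    _ < 307 := by norm_num


lemma root_53 : ∑ i ∈ Finset.range 13, (((-17 : ℤ) : ZMod 53)) ^ i = 0 := by decide

lemma exists_principal_53 :
    ∃ P ∈ primesOver (span {((53 : ℕ) : ℤ)}) (𝓞 K), Submodule.IsPrincipal P := by
  have hF : Fact (Nat.Prime 53) := ⟨by norm_num⟩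
  have hΦ := zeta13_sum K
  set ζ := zeta13 K with hζ
  refine exists_principal_prime_over_linear K 53 (-17) root_53
    (1 + ζ + ζ ^ 3)
    (1 - 24 * ζ - 35 * ζ ^ 2 - 25 * ζ ^ 3 - 10 * ζ ^ 4 - 14 * ζ ^ 5 - 20 * ζ ^ 6 - 29 * ζ ^ 7 - 16 * ζ ^ 8 - 23 * ζ ^ 9 - 7 * ζ ^ 10 - 36 * ζ ^ 11)
    (1 - 7 * ζ - 11 * ζ ^ 2 - 8 * ζ ^ 3 - 3 * ζ ^ 4 - 4 * ζ ^ 5 - 6 * ζ ^ 6 - 9 * ζ ^ 7 - 5 * ζ ^ 8 - 7 * ζ ^ 9 - 2 * ζ ^ 10 - 11 * ζ ^ 11)
    (290 - 17 * ζ + ζ ^ 2) (-93) ?_ ?_ ?_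
  · push_cast
    linear_combination (-52 + 29 * ζ - 36 * ζ ^ 2) * hΦ
  · push_cast
    linear_combination (-16 + 9 * ζ - 11 * ζ ^ 2) * hΦ
  · push_cast
    ring

lemma root_79 : ∑ i ∈ Finset.range 13, (((-15 : ℤ) : ZMod 79)) ^ i = 0 := by decide

lemma exists_principal_79 :
    ∃ P ∈ primesOver (span {((79 : ℕ) : ℤ)}) (𝓞 K), Submodule.IsPrincipal P := by
  have hF : Fact (Nat.Prime 79) := ⟨by norm_num⟩
  have hΦ := zeta13_sum K
  set ζ := zeta13 K with hζ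
  refine exists_principal_prime_over_linear K 79 (-15) root_79
    (1 + ζ - ζ ^ 4)
    (24 - 25 * ζ - 27 * ζ ^ 2 + 10 * ζ ^ 3 - 3 * ζ ^ 4 - 39 * ζ ^ 5 - 5 * ζ ^ 6 - 2 * ζ ^ 7 - 18 * ζ ^ 8 - 38 * ζ ^ 9 + 16 * ζ ^ 10 - 35 * ζ ^ 11)
    (5 - 4 * ζ - 5 * ζ ^ 2 + 2 * ζ ^ 3 - 7 * ζ ^ 5 - ζ ^ 6 - 3 * ζ ^ 8 - 7 * ζ ^ 9 + 3 * ζ ^ 10 - 6 * ζ ^ 11)
    (3376 - 225 * ζ + 15 * ζ ^ 2 - ζ ^ 3) (-641) ?_ ?_ ?_
  · push_cast
    linear_combination (-55 + 54 * ζ - 51 * ζ ^ 2 + 35 * ζ ^ 3) * hΦ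
  · push_cast
    linear_combination (-10 + 10 * ζ - 9 * ζ ^ 2 + 6 * ζ ^ 3) * hΦ
  · push_cast
    ring

lemma root_131 : ∑ i ∈ Finset.range 13, (((-51 : ℤ) : ZMod 131)) ^ i = 0 := by decide

lemma exists_principal_131 :
    ∃ P ∈ primesOver (span {((131 : ℕ) : ℤ)}) (𝓞 K), Submodule.IsPrincipal P := by
  have hF : Fact (Nat.Prime 131) := ⟨by norm_num⟩
  have hΦ := zeta13_sum K
  set ζ := zeta13 K with hζ
  refine exists_principal_prime_over_linear K 131 (-51) root_131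
    (1 - ζ - ζ ^ 3)
    (111 + 78 * ζ + 17 * ζ ^ 2 + 67 * ζ ^ 3 + 84 * ζ ^ 4 + 40 * ζ ^ 5 + 46 * ζ ^ 6 + 69 * ζ ^ 7 + 48 * ζ ^ 8 + 33 * ζ ^ 9 + 41 * ζ ^ 10 + 28 * ζ ^ 11)
    (43 + 31 * ζ + 7 * ζ ^ 2 + 26 * ζ ^ 3 + 33 * ζ ^ 4 + 16 * ζ ^ 5 + 18 * ζ ^ 6 + 27 * ζ ^ 7 + 19 * ζ ^ 8 + 13 * ζ ^ 9 + 16 * ζ ^ 10 + 11 * ζ ^ 11)
    (-2602 + 51 * ζ - ζ ^ 2) (1013) ?_ ?_ ?_
  · push_cast
    linear_combination (-20 - 13 * ζ - 28 * ζ ^ 2) * hΦ
  · push_cast
    linear_combination (-8 - 5 * ζ - 11 * ζ ^ 2) * hΦ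
  · push_cast
    ring

lemma root_157 : ∑ i ∈ Finset.range 13, (((75 : ℤ) : ZMod 157)) ^ i = 0 := by decide

lemma exists_principal_157 :
    ∃ P ∈ primesOver (span {((157 : ℕ) : ℤ)}) (𝓞 K), Submodule.IsPrincipal P := by
  have hF : Fact (Nat.Prime 157) := ⟨by norm_num⟩
  have hΦ := zeta13_sum K
  set ζ := zeta13 K with hζ
  refine exists_principal_prime_over_linear K 157 (75) root_157
    (1 - ζ + ζ ^ 2 + ζ ^ 4)
    (89 + 86 * ζ + 42 * ζ ^ 2 + 77 * ζ ^ 3 + 67 * ζ ^ 4 + 25 * ζ ^ 5 + 37 * ζ ^ 6 + 56 * ζ ^ 7 + 73 * ζ ^ 8 + 113 * ζ ^ 9 + 124 * ζ ^ 10 + 76 * ζ ^ 11)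
    (-43 - 41 * ζ - 20 * ζ ^ 2 - 37 * ζ ^ 3 - 32 * ζ ^ 4 - 12 * ζ ^ 5 - 18 * ζ ^ 6 - 27 * ζ ^ 7 - 35 * ζ ^ 8 - 54 * ζ ^ 9 - 59 * ζ ^ 10 - 36 * ζ ^ 11)
    (421949 + 5626 * ζ + 75 * ζ ^ 2 + ζ ^ 3) (201568) ?_ ?_ ?_
  · push_cast
    linear_combination (-68 + 65 * ζ + 48 * ζ ^ 2 + 76 * ζ ^ 3) * hΦ
  · push_cast
    linear_combination (32 - 31 * ζ - 23 * ζ ^ 2 - 36 * ζ ^ 3) * hΦ
  · push_cast
    ring

lemma exists_principal_3 :
    ∃ P ∈ primesOver (span {((3 : ℕ) : ℤ)}) (𝓞 K), Submodule.IsPrincipal P := by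
  have hF : Fact (Nat.Prime 3) := ⟨by norm_num⟩
  have hΦ := zeta13_sum K
  have hae : aeval (zeta13 K) (X ^ 3 - X - 1 : ℤ[X]) = zeta13 K ^ 3 - zeta13 K - 1 := by
    simp
  have hmonic : (X ^ 3 - X - 1 : ℤ[X]).Monic := by monicity!
  refine exists_principal_prime_over K 3 (X ^ 3 - X - 1) hmonic ?_ ?_
    (zeta13 K ^ 3 - zeta13 K - 1) ?_ ?_ ?_
  · rw [cubic_three_map]
    exact cubic_three_irreducible
  · rw [cubic_three_map]
    exact cubic_three_dvd
  · set ζ := zeta13 K with hζ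
    refine ⟨1 + ζ ^ 2 + ζ ^ 3 + 2 * ζ ^ 5 + ζ ^ 7 + 2 * ζ ^ 8 - ζ ^ 9 + 3 * ζ ^ 10, ?_⟩
    push_cast
    linear_combination (-(-4 + 3 * ζ)) * hΦ
  · rw [hae]
  · rw [hae]
    exact Ideal.subset_span (by simp)

lemma exists_principal_13 :
    ∃ P ∈ primesOver (span {((13 : ℕ) : ℤ)}) (𝓞 K), Submodule.IsPrincipal P := by
  have hF : Fact (Nat.Prime 13) := ⟨by norm_num⟩
  obtain ⟨P, hP1, hP2⟩ := (span {((13 : ℕ) : ℤ)}).nonempty_primesOver (S := 𝓞 K)
  refine ⟨P, ⟨hP1, hP2⟩, ?_⟩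
  rw [IsCyclotomicExtension.Rat.eq_span_zeta_sub_one_of_liesOver' 13 K
    (IsCyclotomicExtension.zeta_spec 13 ℚ K) P]
  exact ⟨_, rfl⟩

/-- The ring of integers of the 13-th cyclotomic field is a principal ideal domain. -/
theorem thirteen_pid_aux : IsPrincipalIdealRing (𝓞 K) := by
  have hGal : IsGalois ℚ K := IsCyclotomicExtension.isGalois {13} ℚ K
  have hM : ⌊(4 / Real.pi) ^ InfinitePlace.nrComplexPlaces K *
      (((finrank ℚ K).factorial : ℝ) / (finrank ℚ K : ℝ) ^ (finrank ℚ K) *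
        √|((discr K : ℤ) : ℝ)|)⌋₊ ≤ 306 := by
    have h := minkowski_lt K
    have h0 : (0 : ℝ) ≤ (4 / Real.pi) ^ InfinitePlace.nrComplexPlaces K *
      (((finrank ℚ K).factorial : ℝ) / (finrank ℚ K : ℝ) ^ (finrank ℚ K) *
        √|((discr K : ℤ) : ℝ)|) := by positivity
    have h1 := (Nat.floor_lt h0).mpr (by exact_mod_cast h : _ < ((307 : ℕ) : ℝ))
    omega
  apply RingOfIntegers.isPrincipalIdealRing_of_isPrincipal_of_lt_or_isPrincipal_of_mem_primesOver_of_mem_Icc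
  intro p hpmem hp
  have hple : p ≤ 306 := (Finset.mem_Icc.mp hpmem).2.trans hM
  by_cases h13 : p = 13
  · subst h13
    obtain ⟨P, hP, hpr⟩ := exists_principal_13 K
    exact ⟨P, hP, Or.inr hpr⟩
  by_cases h3 : p = 3
  · subst h3
    obtain ⟨P, hP, hpr⟩ := exists_principal_3 K
    exact ⟨P, hP, Or.inr hpr⟩
  by_cases h53 : p = 53
  · subst h53
    obtain ⟨P, hP, hpr⟩ := exists_principal_53 K
    exact ⟨P, hP, Or.inr hpr⟩
  by_cases h79 : p = 79
  · subst h79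
    obtain ⟨P, hP, hpr⟩ := exists_principal_79 K
    exact ⟨P, hP, Or.inr hpr⟩
  by_cases h131 : p = 131
  · subst h131
    obtain ⟨P, hP, hpr⟩ := exists_principal_131 K
    exact ⟨P, hP, Or.inr hpr⟩
  by_cases h157 : p = 157
  · subst h157
    obtain ⟨P, hP, hpr⟩ := exists_principal_157 K
    exact ⟨P, hP, Or.inr hpr⟩
  have hF : Fact (Nat.Prime p) := ⟨hp⟩
  obtain ⟨P, hP1, hP2⟩ := (span {(p : ℤ)}).nonempty_primesOver (S := 𝓞 K)
  refine ⟨P, ⟨hP1, hP2⟩, Or.inl ?_⟩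
  have hnd : ¬ p ∣ 13 := by
    intro h
    exact h13 ((Nat.prime_dvd_prime_iff_eq hp (by norm_num)).mp h)
  rw [IsCyclotomicExtension.Rat.inertiaDeg_eq_of_not_dvd p K P hnd]
  exact lt_of_le_of_lt hM (key p hp hple h13 ⟨h3, h53, h79, h131, h157⟩)

end

end Fermat.Agent.S10.H430

namespace Fermat.Agent.S10

/-- The ring of integers of the 13-th cyclotomic field is a principal ideal domain. -/
theorem thirteen_pid_h430 (K : Type*) [Field K] [NumberField K] [IsCyclotomicExtension {13} ℚ K] :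
    IsPrincipalIdealRing (NumberField.RingOfIntegers K) :=
  H430.thirteen_pid_aux K

end Fermat.Agent.S10

end
-- ===== PACK-END S10/PID13h430.lean

-- ===== PACK-BEGIN S11/PID791.lean
section


/-
Independent hedge of T2 (helper791): the ring of integers of the 11-th cyclotomic field is a PID.
Method: Minkowski bound (floor at most 59) and the Galois criterion from Mathlib; the only primes
needing work are 11 (generated by zeta - 1) and 23 (generated by zeta^4 + zeta^3 - 1).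
-/

open NumberField Polynomial Ideal

namespace Fermat.Agent.S11.H791

variable (K : Type*) [Field K] [NumberField K] [IsCyclotomicExtension {11} ℚ K]

instance fact_prime_eleven : Fact (Nat.Prime 11) := ⟨by norm_num⟩
instance fact_prime_twentythree : Fact (Nat.Prime 23) := ⟨by norm_num⟩

/-- the chosen primitive root in `𝓞 K` -/
noncomputable def zt : 𝓞 K := (IsCyclotomicExtension.zeta_spec 11 ℚ K).toInteger

lemma zt_prim : IsPrimitiveRoot (zt K) 11 :=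
  (IsCyclotomicExtension.zeta_spec 11 ℚ K).toInteger_isPrimitiveRoot

lemma zt_rel : 1 + zt K + zt K ^ 2 + zt K ^ 3 + zt K ^ 4 + zt K ^ 5 + zt K ^ 6 + zt K ^ 7
    + zt K ^ 8 + zt K ^ 9 + zt K ^ 10 = 0 := by
  have h := (zt_prim K).geom_sum_eq_zero (by norm_num)
  simpa [Finset.sum_range_succ] using h

lemma minpoly_zt : minpoly ℤ (zt K) = cyclotomic 11 ℤ := by
  have hζ := IsCyclotomicExtension.zeta_spec 11 ℚ K
  rw [cyclotomic_eq_minpoly hζ (by norm_num)]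
  have : algebraMap (𝓞 K) K (zt K) = IsCyclotomicExtension.zeta 11 ℚ K := rfl
  rw [← this]
  exact (minpoly.algebraMap_eq (RingOfIntegers.coe_injective) (zt K)).symm

/-- the power basis `1, ζ, …, ζ^9` of `𝓞 K` -/
noncomputable def pb : PowerBasis ℤ (𝓞 K) :=
  (IsCyclotomicExtension.zeta_spec 11 ℚ K).integralPowerBasis

lemma pb_gen : (pb K).gen = zt K :=
  (IsCyclotomicExtension.zeta_spec 11 ℚ K).integralPowerBasis_gen

lemma aeval_two_minpoly : aeval (2 : ZMod 23) (minpoly ℤ (pb K).gen) = 0 := by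
  rw [pb_gen, minpoly_zt, cyclotomic_prime]
  simp [Finset.sum_range_succ]
  decide

/-- reduction modulo the prime `(23, ζ - 2)` -/
noncomputable def rho : 𝓞 K →ₐ[ℤ] ZMod 23 := (pb K).lift 2 (aeval_two_minpoly K)

lemma rho_zt : rho K (zt K) = 2 := by
  have := (pb K).lift_gen 2 (aeval_two_minpoly K)
  rwa [pb_gen] at this


/-- the generator of a prime above 23 -/
noncomputable def al : 𝓞 K := zt K ^ 4 + zt K ^ 3 - 1

noncomputable def be : 𝓞 K := 1 + 13 * zt K - 4 * zt K ^ 2 - zt K ^ 3 + 12 * zt K ^ 4 + 7 * zt K ^ 5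
  - 7 * zt K ^ 6 + 9 * zt K ^ 7 + 17 * zt K ^ 8 - 2 * zt K ^ 9

noncomputable def ga : 𝓞 K := - zt K + zt K ^ 2 - zt K ^ 4 + zt K ^ 6 - zt K ^ 7 - zt K ^ 8 + zt K ^ 9

lemma al_mul_be : al K * be K = 23 := by
  unfold al be
  linear_combination (-24 + 11 * zt K + 17 * zt K ^ 2 - 2 * zt K ^ 3) * zt_rel K

lemma al_mul_ga : al K * ga K = zt K - 2 := by
  unfold al ga
  linear_combination (2 - 2 * zt K - zt K ^ 2 + zt K ^ 3) * zt_rel K

lemma rho_al : rho K (al K) = 0 := by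
  unfold al
  simp only [map_sub, map_add, map_pow, map_one, rho_zt]
  decide

lemma exists_aeval (x : 𝓞 K) : ∃ f : ℤ[X], x = aeval (zt K) f := by
  obtain ⟨f, -, hf⟩ := (pb K).exists_eq_aeval x
  exact ⟨f, by rw [hf, pb_gen]⟩

lemma ker_rho_le : RingHom.ker (rho K) ≤ Ideal.span {al K} := by
  intro x hx
  obtain ⟨f, rfl⟩ := exists_aeval K x
  rw [RingHom.mem_ker] at hx
  -- f = f(2) + (X - 2) * h
  obtain ⟨h, hh⟩ : (X - C (2 : ℤ)) ∣ f - C (f.eval 2) := by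
    rw [Polynomial.dvd_iff_isRoot]; simp
  have hf : f = C (f.eval 2) + (X - C 2) * h := by rw [← hh]; ring
  have h1 : aeval (zt K) f = (f.eval 2 : ℤ) + (zt K - 2) * aeval (zt K) h := by
    conv_lhs => rw [hf]
    simp [map_ofNat]
  have h2 : ((f.eval 2 : ℤ) : ZMod 23) = 0 := by
    have := hx
    rw [h1] at this
    simpa [rho_zt, map_ofNat] using this
  rw [ZMod.intCast_zmod_eq_zero_iff_dvd] at h2
  obtain ⟨m, hm⟩ := h2
  rw [h1, Ideal.mem_span_singleton]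
  refine ⟨be K * m + ga K * aeval (zt K) h, ?_⟩
  rw [hm, mul_add, ← mul_assoc, ← mul_assoc, al_mul_be, al_mul_ga]
  push_cast
  ring

lemma ker_rho_eq : RingHom.ker (rho K) = Ideal.span {al K} :=
  le_antisymm (ker_rho_le K) (by
    rw [Ideal.span_singleton_le_iff_mem, RingHom.mem_ker]; exact rho_al K)

lemma ker_rho_mem_primesOver :
    RingHom.ker (rho K) ∈ Ideal.primesOver (Ideal.span {((23 : ℕ) : ℤ)}) (𝓞 K) := by
  refine ⟨RingHom.ker_isPrime _, ⟨?_⟩⟩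
  ext n
  rw [Ideal.mem_span_singleton, Ideal.under_def, Ideal.mem_comap, RingHom.mem_ker]
  simp only [algebraMap_int_eq, eq_intCast, map_intCast]
  rw [ZMod.intCast_zmod_eq_zero_iff_dvd]


open InfinitePlace in
lemma minkowski_floor_le :
    ⌊(4 / Real.pi) ^ nrComplexPlaces K *
      ((Module.finrank ℚ K).factorial / (Module.finrank ℚ K) ^ (Module.finrank ℚ K) *
        √|(discr K : ℝ)|)⌋₊ ≤ 59 := by
  rw [IsCyclotomicExtension.Rat.discr_prime 11 K, IsCyclotomicExtension.Rat.finrank 11 K,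
    IsCyclotomicExtension.Rat.nrComplexPlaces_eq_totient_div_two 11,
    Nat.totient_prime (by norm_num : Nat.Prime 11)]
  have h1 : (4 / Real.pi : ℝ) ≤ 4 / 3.14 := by
    have := Real.pi_gt_d2
    gcongr
  have h1' : (0 : ℝ) ≤ 4 / Real.pi := by positivity
  have h2 : √|(((-1 : ℤ) ^ ((11 - 1) / 2) * ((11 : ℕ) : ℤ) ^ (11 - 2) : ℤ) : ℝ)| ≤ 48608.12 := by
    rw [Real.sqrt_le_left (by norm_num)]
    norm_num
  apply Nat.le_of_lt_succ
  rw [Nat.floor_lt (by positivity)]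
  calc (4 / Real.pi) ^ ((11 - 1) / 2) * (((11 - 1 : ℕ).factorial : ℝ) / ((11 - 1 : ℕ) : ℝ) ^ (11 - 1)
        * √|(((-1 : ℤ) ^ ((11 - 1) / 2) * ((11 : ℕ) : ℤ) ^ (11 - 2) : ℤ) : ℝ)|)
      ≤ (4 / 3.14) ^ ((11 - 1) / 2) * (((11 - 1 : ℕ).factorial : ℝ) / ((11 - 1 : ℕ) : ℝ) ^ (11 - 1)
        * 48608.12) := by gcongr
    _ < ((59 + 1 : ℕ) : ℝ) := by
      norm_num [Nat.factorial]


lemma lt_pow_orderOf (p k : ℕ) (hk : 59 < p ^ k) (h1 : 1 < p)
    (hfin : ((p : ℕ) : ZMod 11) ^ 10 = 1)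
    (h : ∀ m < k, 0 < m → ((p : ℕ) : ZMod 11) ^ m ≠ 1) :
    59 < p ^ orderOf ((p : ℕ) : ZMod 11) := by
  have hpos : 0 < orderOf ((p : ℕ) : ZMod 11) :=
    orderOf_pos_iff.2 (isOfFinOrder_iff_pow_eq_one.2 ⟨10, by norm_num, hfin⟩)
  have hle : k ≤ orderOf ((p : ℕ) : ZMod 11) := by
    by_contra hlt
    exact h _ (not_le.1 hlt) hpos (pow_orderOf_eq_one _)
  exact lt_of_lt_of_le hk (Nat.pow_le_pow_right (by omega) hle)

theorem eleven_pid : IsPrincipalIdealRing (𝓞 K) := by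
  have : IsGalois ℚ K := IsCyclotomicExtension.isGalois {11} ℚ K
  apply RingOfIntegers.isPrincipalIdealRing_of_isPrincipal_of_lt_or_isPrincipal_of_mem_primesOver_of_mem_Icc
  intro p hp hpp
  have hM := minkowski_floor_le K
  have hp59 : p ≤ 59 := (Finset.mem_Icc.1 hp).2.trans hM
  by_cases h11 : p = 11
  · subst h11
    have hζ := IsCyclotomicExtension.zeta_spec 11 ℚ K
    have hK : IsCyclotomicExtension {11 ^ (0 + 1)} ℚ K := by simpa using ‹IsCyclotomicExtension {11} ℚ K›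
    have hζ' : IsPrimitiveRoot (IsCyclotomicExtension.zeta 11 ℚ K) (11 ^ (0 + 1)) := by simpa using hζ
    exact ⟨Ideal.span {hζ'.toInteger - 1},
      ⟨IsCyclotomicExtension.Rat.isPrime_span_zeta_sub_one 11 0 hζ',
        IsCyclotomicExtension.Rat.liesOver_span_zeta_sub_one 11 0 hζ'⟩, Or.inr ⟨⟨_, rfl⟩⟩⟩
  by_cases h23 : p = 23
  · subst h23
    exact ⟨RingHom.ker (rho K), ker_rho_mem_primesOver K, Or.inr ⟨⟨al K, ker_rho_eq K⟩⟩⟩
  have : Fact p.Prime := ⟨hpp⟩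
  obtain ⟨⟨P, hP1, hP2⟩⟩ := (Ideal.span {(p : ℤ)}).nonempty_primesOver (S := 𝓞 K)
  refine ⟨P, ⟨hP1, hP2⟩, Or.inl ?_⟩
  have hnd : ¬ p ∣ 11 := by
    intro h
    rcases (Nat.dvd_prime (by norm_num : Nat.Prime 11)).1 h with h | h
    · exact hpp.one_lt.ne' h
    · exact h11 h
  rw [IsCyclotomicExtension.Rat.inertiaDeg_eq_of_not_dvd p K P hnd]
  apply lt_of_le_of_lt hM
  clear hP2 hP1 P hM hp this
  interval_cases p <;>
  first
  | (exfalso; revert hpp; norm_num; done)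
  | (exfalso; exact h11 rfl)
  | (exfalso; exact h23 rfl)
  | (refine lt_pow_orderOf _ 2 ?_ ?_ ?_ ?_
     · norm_num
     · norm_num
     · decide
     · decide)
  | (refine lt_pow_orderOf _ 3 ?_ ?_ ?_ ?_
     · norm_num
     · norm_num
     · decide
     · decide)
  | (refine lt_pow_orderOf _ 4 ?_ ?_ ?_ ?_
     · norm_num
     · norm_num
     · decide
     · decide)
  | (refine lt_pow_orderOf _ 6 ?_ ?_ ?_ ?_
     · norm_num
     · norm_num
     · decide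
     · decide)

end Fermat.Agent.S11.H791

end
-- ===== PACK-END S11/PID791.lean

-- ===== PACK-BEGIN S11/EchLevel.lean
section


/-!
# `λ`-adic levels of units in `ℤ[ζ_p]` (generic odd prime `p`)
-/

set_option autoImplicit false
set_option linter.unusedSectionVars false

open NumberField

namespace Fermat.Agent.S11.Ech

variable {p : ℕ} [hp : Fact p.Prime] {K : Type*} [Field K] [NumberField K]
  [hK : IsCyclotomicExtension {p} ℚ K] {ζ : K} (hζ : IsPrimitiveRoot ζ p)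

include hζ in
/-- Every `p`-th power in `𝓞 K` is congruent to a rational integer modulo `p`. -/
theorem exists_int_sub_pow_prime_dvd (w : 𝓞 K) : ∃ n : ℤ, (p : 𝓞 K) ∣ w ^ p - n := by
  have hw : w ∈ Algebra.adjoin ℤ {hζ.toInteger} := by
    rw [IsCyclotomicExtension.Rat.adjoin_singleton_eq_top hζ]; trivial
  induction hw using Algebra.adjoin_induction with
  | mem x hx =>
    rw [Set.mem_singleton_iff] at hx
    refine ⟨1, ?_⟩
    rw [hx, hζ.toInteger_isPrimitiveRoot.pow_eq_one]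
    simp
  | algebraMap r =>
    refine ⟨r ^ p, ?_⟩
    simp
  | add x y _ _ hx hy =>
    obtain ⟨n, s, hs⟩ := hx
    obtain ⟨m, t, ht⟩ := hy
    obtain ⟨r, hr⟩ := exists_add_pow_prime_eq hp.out x y
    refine ⟨n + m, s + t + x * y * r, ?_⟩
    push_cast
    linear_combination hr + hs + ht
  | mul x y _ _ hx hy =>
    obtain ⟨n, s, hs⟩ := hx
    obtain ⟨m, t, ht⟩ := hy
    refine ⟨n * m, s * y ^ p + n * t, ?_⟩
    push_cast
    linear_combination y ^ p * hs + (n : 𝓞 K) * ht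

/-- `x` is congruent to a rational integer modulo `λ ^ k`. -/
def IntMod (k : ℕ) (x : 𝓞 K) : Prop := ∃ N : ℤ, (hζ.toInteger - 1) ^ k ∣ x - N

theorem IntMod.mul {k : ℕ} {x y : 𝓞 K} (hx : IntMod hζ k x) (hy : IntMod hζ k y) :
    IntMod hζ k (x * y) := by
  obtain ⟨N, s, hs⟩ := hx
  obtain ⟨M, t, ht⟩ := hy
  refine ⟨N * M, s * y + N * t, ?_⟩
  push_cast
  linear_combination y * hs + (N : 𝓞 K) * ht

theorem IntMod.one (k : ℕ) : IntMod hζ k (1 : 𝓞 K) := ⟨1, by simp⟩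

theorem IntMod.pow {k : ℕ} {x : 𝓞 K} (hx : IntMod hζ k x) (n : ℕ) : IntMod hζ k (x ^ n) := by
  induction n with
  | zero => simpa using IntMod.one hζ k
  | succ n ih => rw [pow_succ]; exact ih.mul hζ hx

theorem IntMod.mono {k l : ℕ} (hkl : k ≤ l) {x : 𝓞 K} (hx : IntMod hζ l x) : IntMod hζ k x := by
  obtain ⟨N, hN⟩ := hx
  exact ⟨N, (pow_dvd_pow _ hkl).trans hN⟩

theorem lambda_pow_dvd_p : (hζ.toInteger - 1) ^ (p - 1) ∣ (p : 𝓞 K) :=
  (IsCyclotomicExtension.Rat.associated_zeta_sub_one_pow_prime p hζ).dvd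

theorem p_dvd_lambda_pow : (p : 𝓞 K) ∣ (hζ.toInteger - 1) ^ (p - 1) :=
  (IsCyclotomicExtension.Rat.associated_zeta_sub_one_pow_prime p hζ).symm.dvd

theorem intMod_of_p_dvd {x : 𝓞 K} (h : ∃ N : ℤ, (p : 𝓞 K) ∣ x - N) : IntMod hζ (p - 1) x := by
  obtain ⟨N, hN⟩ := h
  exact ⟨N, (lambda_pow_dvd_p hζ).trans hN⟩

theorem p_dvd_of_intMod {x : 𝓞 K} (h : IntMod hζ (p - 1) x) : ∃ N : ℤ, (p : 𝓞 K) ∣ x - N := by
  obtain ⟨N, hN⟩ := h
  exact ⟨N, (p_dvd_lambda_pow hζ).trans hN⟩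

theorem IntMod.pow_p {k : ℕ} (hk : k ≤ p - 1) (w : 𝓞 K) : IntMod hζ k (w ^ p) :=
  (intMod_of_p_dvd hζ (exists_int_sub_pow_prime_dvd hζ w)).mono hζ hk

theorem IntMod.unit_inv {k : ℕ} (hk : k ≤ p - 1) {u : (𝓞 K)ˣ} (hu : IntMod hζ k (u : 𝓞 K)) :
    IntMod hζ k ((u⁻¹ : (𝓞 K)ˣ) : 𝓞 K) := by
  have h1 : ((u⁻¹ : (𝓞 K)ˣ) : 𝓞 K) = (u : 𝓞 K) ^ (p - 1) * ((u⁻¹ : (𝓞 K)ˣ) : 𝓞 K) ^ p := by
    obtain ⟨q, hq⟩ : ∃ q, p = q + 1 := ⟨p - 1, by have := hp.out.pos; omega⟩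
    rw [hq, Nat.add_sub_cancel, pow_succ, ← mul_assoc, ← mul_pow]
    simp
  rw [h1]
  exact (hu.pow hζ _).mul hζ (IntMod.pow_p hζ hk _)

theorem IntMod.unit_zpow {k : ℕ} (hk : k ≤ p - 1) {u : (𝓞 K)ˣ} (hu : IntMod hζ k (u : 𝓞 K))
    (n : ℤ) : IntMod hζ k ((u ^ n : (𝓞 K)ˣ) : 𝓞 K) := by
  cases n with
  | ofNat m =>
    simp only [Int.ofNat_eq_natCast, zpow_natCast, Units.val_pow_eq_pow_val]
    exact hu.pow hζ m
  | negSucc m =>
    rw [zpow_negSucc, ← inv_pow]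
    simp only [Units.val_pow_eq_pow_val]
    exact (hu.unit_inv hζ hk).pow hζ _

theorem lambda_not_isUnit : ¬ IsUnit (hζ.toInteger - 1) := hζ.zeta_sub_one_prime'.not_isUnit

theorem lambda_ne_zero : (hζ.toInteger - 1 : 𝓞 K) ≠ 0 := hζ.zeta_sub_one_prime'.ne_zero

theorem lambda_dvd_int_iff {n : ℤ} : (hζ.toInteger - 1) ∣ (n : 𝓞 K) ↔ (p : ℤ) ∣ n :=
  IsCyclotomicExtension.Rat.zeta_sub_one_dvd_intCast_iff' p hζ

/-- If a unit is congruent to the integer `N` modulo `λ`, then `p ∤ N`. -/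
theorem not_dvd_of_unit_sub_int {u : (𝓞 K)ˣ} {N : ℤ} (h : (hζ.toInteger - 1) ∣ (u : 𝓞 K) - N) :
    ¬ (p : ℤ) ∣ N := by
  intro hN
  have h2 : (hζ.toInteger - 1) ∣ (N : 𝓞 K) := (lambda_dvd_int_iff hζ).mpr hN
  have h3 : (hζ.toInteger - 1) ∣ (u : 𝓞 K) := by
    have := dvd_add h h2
    simpa using this
  exact lambda_not_isUnit hζ (isUnit_of_dvd_unit h3 u.isUnit)

/-- power lemma: if `g ≡ a + b λ^(j+1) mod λ^(j+2)` then
`a (g^n - a^n) ≡ n a^n b λ^(j+1) mod λ^(j+2)`. -/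
theorem level_pow {j : ℕ} {g : 𝓞 K} {a b : ℤ}
    (hg : (hζ.toInteger - 1) ^ (j + 2) ∣ g - a - b * (hζ.toInteger - 1) ^ (j + 1)) (n : ℕ) :
    (hζ.toInteger - 1) ^ (j + 2) ∣
      a * (g ^ n - a ^ n) - n * a ^ n * b * (hζ.toInteger - 1) ^ (j + 1) := by
  obtain ⟨q, hq⟩ := hg
  induction n with
  | zero => simp
  | succ n ih =>
    obtain ⟨qn, hqn⟩ := ih
    refine ⟨n * a ^ n * b ^ 2 * (hζ.toInteger - 1) ^ j
      + q * n * a ^ n * b * (hζ.toInteger - 1) ^ (j + 1) + g * qn + a ^ (n + 1) * q, ?_⟩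
    push_cast
    linear_combination g * hqn + ((a : 𝓞 K) ^ (n + 1)
      + n * a ^ n * b * (hζ.toInteger - 1) ^ (j + 1)) * hq

/-- One step of the echelon argument (natural exponent). -/
theorem step_nat {j : ℕ} (hj : j + 2 ≤ p - 1) {g R : (𝓞 K)ˣ} {a b : ℤ}
    (hg : (hζ.toInteger - 1) ^ (j + 2) ∣ (g : 𝓞 K) - a - b * (hζ.toInteger - 1) ^ (j + 1))
    (hb : ¬ (p : ℤ) ∣ b) (hR : IntMod hζ (j + 2) (R : 𝓞 K)) (m : ℕ)
    (h : IntMod hζ (j + 2) ((g : 𝓞 K) ^ m * R)) : (p : ℤ) ∣ m := by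
  have hprime : Prime (p : ℤ) := Nat.prime_iff_prime_int.mp hp.out
  -- `p ∤ a`
  have ha : ¬ (p : ℤ) ∣ a := by
    apply not_dvd_of_unit_sub_int hζ (u := g)
    obtain ⟨q, hq⟩ := hg
    refine ⟨b * (hζ.toInteger - 1) ^ j + (hζ.toInteger - 1) ^ (j + 1) * q, ?_⟩
    linear_combination hq
  obtain ⟨N, s, hs⟩ := hR
  have hN : ¬ (p : ℤ) ∣ N := by
    apply not_dvd_of_unit_sub_int hζ (u := R)
    refine ⟨(hζ.toInteger - 1) ^ (j + 1) * s, ?_⟩
    linear_combination hs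
  obtain ⟨N', t, ht⟩ := h
  obtain ⟨q, hq⟩ := level_pow hζ hg m
  -- the integer `L`
  set L : ℤ := a ^ (m + 1) * N - a * N' with hL
  have key : (L : 𝓞 K) = - (m * a ^ m * b * N : ℤ) * (hζ.toInteger - 1) ^ (j + 1)
      + (hζ.toInteger - 1) ^ (j + 2) * (a * t - q * R - (a : 𝓞 K) ^ (m + 1) * s
        - m * a ^ m * b * (hζ.toInteger - 1) ^ (j + 1) * s) := by
    rw [hL]
    push_cast
    linear_combination (a : 𝓞 K) * ht - (R : 𝓞 K) * hq
      - ((a : 𝓞 K) ^ (m + 1) + m * a ^ m * b * (hζ.toInteger - 1) ^ (j + 1)) * hs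
  have hL1 : (hζ.toInteger - 1) ∣ (L : 𝓞 K) := by
    rw [key]
    refine dvd_add (Dvd.dvd.mul_left (dvd_pow_self _ (by omega)) _)
      (Dvd.dvd.mul_right (dvd_pow_self _ (by omega)) _)
  have hL2 : (p : ℤ) ∣ L := (lambda_dvd_int_iff hζ).mp hL1
  have hL3 : (hζ.toInteger - 1) ^ (j + 2) ∣ (L : 𝓞 K) := by
    obtain ⟨c, hc⟩ := hL2
    rw [hc]
    push_cast
    exact Dvd.dvd.mul_right (((pow_dvd_pow _ hj).trans (lambda_pow_dvd_p hζ))) _
  have h4 : (hζ.toInteger - 1) ^ (j + 2) ∣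
      ((m * a ^ m * b * N : ℤ) : 𝓞 K) * (hζ.toInteger - 1) ^ (j + 1) := by
    have h5 : ((m * a ^ m * b * N : ℤ) : 𝓞 K) * (hζ.toInteger - 1) ^ (j + 1)
        = (hζ.toInteger - 1) ^ (j + 2) * (a * t - q * R - (a : 𝓞 K) ^ (m + 1) * s
        - m * a ^ m * b * (hζ.toInteger - 1) ^ (j + 1) * s) - (L : 𝓞 K) := by
      rw [key]; ring
    rw [h5]
    exact dvd_sub (dvd_mul_right _ _) hL3
  have h6 : (hζ.toInteger - 1) ∣ ((m * a ^ m * b * N : ℤ) : 𝓞 K) := by
    have h4' : (hζ.toInteger - 1) ^ (j + 1) * (hζ.toInteger - 1) ∣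
        (hζ.toInteger - 1) ^ (j + 1) * ((m * a ^ m * b * N : ℤ) : 𝓞 K) := by
      rw [← pow_succ, mul_comm ((hζ.toInteger - 1) ^ (j + 1))]
      exact h4
    exact (mul_dvd_mul_iff_left (pow_ne_zero _ (lambda_ne_zero hζ))).mp h4'
  have h7 : (p : ℤ) ∣ m * a ^ m * b * N := (lambda_dvd_int_iff hζ).mp h6
  rcases hprime.dvd_or_dvd h7 with h8 | h8
  · rcases hprime.dvd_or_dvd h8 with h9 | h9
    · rcases hprime.dvd_or_dvd h9 with h10 | h10
      · exact h10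
      · exact absurd (hprime.dvd_of_dvd_pow h10) ha
    · exact absurd h9 hb
  · exact absurd h8 hN

/-- One step of the echelon argument (integer exponent). -/
theorem step_int {j : ℕ} (hj : j + 2 ≤ p - 1) {g R : (𝓞 K)ˣ} {a b : ℤ}
    (hg : (hζ.toInteger - 1) ^ (j + 2) ∣ (g : 𝓞 K) - a - b * (hζ.toInteger - 1) ^ (j + 1))
    (hb : ¬ (p : ℤ) ∣ b) (hR : IntMod hζ (j + 2) (R : 𝓞 K)) (n : ℤ)
    (h : IntMod hζ (j + 2) ((g ^ n * R : (𝓞 K)ˣ) : 𝓞 K)) : (p : ℤ) ∣ n := by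
  cases n with
  | ofNat m =>
    simp only [Int.ofNat_eq_natCast, zpow_natCast, Units.val_mul, Units.val_pow_eq_pow_val] at h
    exact step_nat hζ hj hg hb hR m h
  | negSucc m =>
    have h1 : IntMod hζ (j + 2) ((g : 𝓞 K) ^ (m + 1) * ((g ^ (Int.negSucc m) * R : (𝓞 K)ˣ))) := by
      have : (g : 𝓞 K) ^ (m + 1) * ((g ^ (Int.negSucc m) * R : (𝓞 K)ˣ)) = (R : 𝓞 K) := by
        rw [← Units.val_pow_eq_pow_val, ← Units.val_mul, zpow_negSucc]
        congr 1
        rw [← mul_assoc, mul_inv_cancel, one_mul]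
      rw [this]
      exact hR
    have := step_nat hζ hj hg hb h (m + 1) h1
    rw [Int.negSucc_eq, dvd_neg]
    exact_mod_cast this

end Fermat.Agent.S11.Ech

end
-- ===== PACK-END S11/EchLevel.lean

-- ===== PACK-BEGIN S07.lean
section



set_option autoImplicit false
open WeierstrassCurve WeierstrassCurve.Affine WeierstrassCurve.Affine.Point
open CuspForm ModularFormClass UpperHalfPlane
open ModularForm

namespace Fermat.Agent.S07

open scoped MatrixGroups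

theorem index_Gamma0_two_le : (CongruenceSubgroup.Gamma0 2).index ≤ 4 := by
  classical
  let f : SL(2, ℤ) ⧸ CongruenceSubgroup.Gamma0 2 → ZMod 2 × ZMod 2 :=
    fun q => (((q.out 0 0 : ℤ) : ZMod 2), ((q.out 1 0 : ℤ) : ZMod 2))
  have hf : Function.Injective f := by
    intro x y hxy
    rw [← QuotientGroup.out_eq' x, ← QuotientGroup.out_eq' y]
    rw [QuotientGroup.eq]
    rw [CongruenceSubgroup.Gamma0_mem]
    simp only [f, Prod.mk.injEq] at hxy
    obtain ⟨h0, h1⟩ := hxy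
    set A := x.out with hA
    set B := y.out with hB
    have hAinv : (A⁻¹ * B) 1 0 = - A 1 0 * B 0 0 + A 0 0 * B 1 0 := by
      rw [Matrix.SpecialLinearGroup.coe_mul, Matrix.SpecialLinearGroup.coe_inv,
        Matrix.adjugate_fin_two, Matrix.mul_apply]
      simp [Fin.sum_univ_two]
    rw [hAinv]
    push_cast
    rw [h0, h1]
    ring
  have := Nat.card_le_card_of_injective f hf
  simpa [Subgroup.index] using this

theorem result (f : CuspForm (CongruenceSubgroup.Gamma0 2) 2) : f = 0 := by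
  have h1 : (1 : ℝ) ∈ (CongruenceSubgroup.Gamma0 2 : Subgroup (GL (Fin 2) ℝ)).strictPeriods := by
    simp [CongruenceSubgroup.strictPeriods_Gamma0]
  have h0 : (qExpansion 1 f).coeff 0 = 0 :=
    CuspFormClass.qExpansion_coeff_zero f one_pos h1
  have hidx := index_Gamma0_two_le
  have hg : CuspForm.toModularFormₗ f = 0 := by
    refine ModularForm.sturm_bound_Gamma0 2 _ (fun n hn => ?_)
    have hn0 : n = 0 := by
      have : ((2 : ℤ) * ((CongruenceSubgroup.Gamma0 2).index : ℤ)).toNat / 12 = 0 := by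
        omega
      omega
    subst hn0
    exact h0
  exact CuspForm.toModularFormₗ_injective (by simpa using hg)

end Fermat.Agent.S07

end
-- ===== PACK-END S07.lean

-- ===== PACK-BEGIN G1/H899/TwistCount.lean
section



/-!
# G1.c, leaf TWC (helper899), part 1: the quadratic twist by `-3` and its traces of Frobenius

For an integral Weierstrass curve `W` let `twistNegThree899 W` be the model
`Y² = X³ + d b₂ X² + 8 d² b₄ X + 16 d³ b₆`, `d = -3`, of the quadratic twist of `W` by `ℚ(√-3)`.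

* `twc_Δ899`      : `Δ(W') = 2¹² · 3⁶ · Δ(W)`;
* `twc_apOfModel899` : for every prime `ℓ` which is good for `W'`,
  `a_ℓ(W') = χ₋₃(ℓ) · a_ℓ(W)` (`χ₋₃ = twcChi899`, the quadratic character mod `3`).

Everything is elementary point counting: `#E(𝔽) = 1 + ∑ₓ (1 + χ(4x³ + b₂x² + 2b₄x + b₆))` over a finite
field of odd characteristic.  Mathlib + Prelude only.
-/

set_option autoImplicit false

open scoped BigOperators

namespace Fermat.Agent.G1.H899

/-! ## Point count over a finite field of odd characteristic -/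

section Count

variable {F : Type} [Field F]

/-- The discriminant (in `y`) of the Weierstrass equation: `4x³ + b₂x² + 2b₄x + b₆`. -/
def twcD899 (E : WeierstrassCurve F) (x : F) : F :=
  4 * x ^ 3 + E.b₂ * x ^ 2 + 2 * E.b₄ * x + E.b₆

lemma twc_equation_iff899 (E : WeierstrassCurve F) (h2 : (2 : F) ≠ 0) (x y : F) :
    E.toAffine.Equation x y ↔ (2 * y + E.a₁ * x + E.a₃) ^ 2 = twcD899 E x := by
  rw [WeierstrassCurve.Affine.equation_iff, twcD899, WeierstrassCurve.b₂, WeierstrassCurve.b₄,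
    WeierstrassCurve.b₆]
  have h4 : (4 : F) ≠ 0 := by
    have : (4 : F) = 2 * 2 := by norm_num
    rw [this]; exact mul_ne_zero h2 h2
  constructor
  · intro h
    linear_combination 4 * h
  · intro h
    apply mul_left_cancel₀ h4
    linear_combination h

variable [Fintype F] [DecidableEq F]

/-- The number of `y` over a given `x`. -/
lemma twc_card_fiber899 (E : WeierstrassCurve F) (hF : ringChar F ≠ 2) (x : F) :
    (Nat.card {y : F // E.toAffine.Equation x y} : ℤ) =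
      quadraticChar F (twcD899 E x) + 1 := by
  classical
  have h2 : (2 : F) ≠ 0 := Ring.two_ne_zero hF
  rw [← quadraticChar_card_sqrts hF (twcD899 E x)]
  congr 1
  rw [Set.toFinset_card, ← Nat.card_eq_fintype_card]
  refine Nat.card_congr (Equiv.ofBijective
    (fun y : {y : F // E.toAffine.Equation x y} =>
      (⟨2 * y.1 + E.a₁ * x + E.a₃, (twc_equation_iff899 E h2 x y.1).mp y.2⟩ :
        {Y : F | Y ^ 2 = twcD899 E x})) ⟨?_, ?_⟩)
  · rintro ⟨y₁, h₁⟩ ⟨y₂, h₂⟩ h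
    have h' : 2 * y₁ + E.a₁ * x + E.a₃ = 2 * y₂ + E.a₁ * x + E.a₃ := congrArg Subtype.val h
    have : 2 * y₁ = 2 * y₂ := by linear_combination h'
    exact Subtype.ext (mul_left_cancel₀ h2 this)
  · rintro ⟨Y, hY⟩
    have hY' : Y ^ 2 = twcD899 E x := hY
    refine ⟨⟨(Y - E.a₁ * x - E.a₃) / 2, (twc_equation_iff899 E h2 x _).mpr ?_⟩, ?_⟩
    · rw [← hY']
      congr 1
      field_simp
      ring
    · apply Subtype.ext
      show 2 * ((Y - E.a₁ * x - E.a₃) / 2) + E.a₁ * x + E.a₃ = Y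
      field_simp
      ring

/-- Points of an elliptic curve: the point at infinity and the solutions of the equation. -/
noncomputable def twcPointEquiv899 (E : WeierstrassCurve F) (hΔ : E.Δ ≠ 0) :
    E.toAffine.Point ≃ Option (Σ x : F, {y : F // E.toAffine.Equation x y}) where
  toFun P := match P with
    | .zero => none
    | .some x y h => some ⟨x, ⟨y, h.1⟩⟩
  invFun o := match o with
    | none => .zero
    | some ⟨x, ⟨y, he⟩⟩ =>
      .some x y ((WeierstrassCurve.Affine.equation_iff_nonsingular_of_Δ_ne_zero hΔ).mp he)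
  left_inv P := by
    rcases P with _ | ⟨x, y, h⟩
    · rfl
    · rfl
  right_inv o := by
    rcases o with _ | ⟨x, ⟨y, he⟩⟩
    · rfl
    · rfl

/-- `#E(F) = 1 + ∑ₓ (1 + χ(D(x)))`. -/
theorem twc_card899 (E : WeierstrassCurve F) (hF : ringChar F ≠ 2) (hΔ : E.Δ ≠ 0) :
    (E.card : ℤ) = 1 + (Fintype.card F : ℤ) + ∑ x : F, quadraticChar F (twcD899 E x) := by
  classical
  have h1 : Nat.card E.toAffine.Point =
      Nat.card (Σ x : F, {y : F // E.toAffine.Equation x y}) + 1 := by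
    rw [Nat.card_congr (twcPointEquiv899 E hΔ), Finite.card_option]
  have h2 : Nat.card (Σ x : F, {y : F // E.toAffine.Equation x y}) =
      ∑ x : F, Nat.card {y : F // E.toAffine.Equation x y} := Nat.card_sigma
  rw [WeierstrassCurve.card, h1, h2]
  push_cast
  simp_rw [twc_card_fiber899 E hF]
  rw [Finset.sum_add_distrib, Finset.sum_const, Finset.card_univ]
  simp
  ring

/-- `a(E) = - ∑ₓ χ(D(x))`. -/
theorem twc_trace899 (E : WeierstrassCurve F) (hF : ringChar F ≠ 2) (hΔ : E.Δ ≠ 0) :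
    E.traceOfFrobenius = - ∑ x : F, quadraticChar F (twcD899 E x) := by
  rw [WeierstrassCurve.traceOfFrobenius, twc_card899 E hF hΔ, Nat.card_eq_fintype_card]
  ring

end Count

/-! ## The twisted model -/

section Twist

variable {R : Type} [CommRing R]

/-- The quadratic twist by `d`: the model `Y² = X³ + d b₂ X² + 8 d² b₄ X + 16 d³ b₆`. -/
def twcTwist899 (d : R) (W : WeierstrassCurve R) : WeierstrassCurve R :=
  ⟨0, d * W.b₂, 0, 8 * d ^ 2 * W.b₄, 16 * d ^ 3 * W.b₆⟩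

@[simp] lemma twcTwist_a₁899 (d : R) (W : WeierstrassCurve R) : (twcTwist899 d W).a₁ = 0 := rfl
@[simp] lemma twcTwist_a₂899 (d : R) (W : WeierstrassCurve R) :
    (twcTwist899 d W).a₂ = d * W.b₂ := rfl
@[simp] lemma twcTwist_a₃899 (d : R) (W : WeierstrassCurve R) : (twcTwist899 d W).a₃ = 0 := rfl
@[simp] lemma twcTwist_a₄899 (d : R) (W : WeierstrassCurve R) :
    (twcTwist899 d W).a₄ = 8 * d ^ 2 * W.b₄ := rfl
@[simp] lemma twcTwist_a₆899 (d : R) (W : WeierstrassCurve R) :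
    (twcTwist899 d W).a₆ = 16 * d ^ 3 * W.b₆ := rfl

lemma twcTwist_b₂899 (d : R) (W : WeierstrassCurve R) :
    (twcTwist899 d W).b₂ = 4 * d * W.b₂ := by
  simp only [WeierstrassCurve.b₂, twcTwist_a₁899, twcTwist_a₂899]; ring

lemma twcTwist_b₄899 (d : R) (W : WeierstrassCurve R) :
    (twcTwist899 d W).b₄ = 16 * d ^ 2 * W.b₄ := by
  rw [WeierstrassCurve.b₄, twcTwist_a₁899, twcTwist_a₃899, twcTwist_a₄899]; ring

lemma twcTwist_b₆899 (d : R) (W : WeierstrassCurve R) :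
    (twcTwist899 d W).b₆ = 64 * d ^ 3 * W.b₆ := by
  rw [WeierstrassCurve.b₆, twcTwist_a₃899, twcTwist_a₆899]; ring

lemma twcTwist_b₈899 (d : R) (W : WeierstrassCurve R) :
    (twcTwist899 d W).b₈ = 256 * d ^ 4 * W.b₈ := by
  have h := W.b_relation
  rw [WeierstrassCurve.b₈, twcTwist_a₁899, twcTwist_a₂899, twcTwist_a₃899, twcTwist_a₄899,
    twcTwist_a₆899]
  linear_combination (-64 * d ^ 4) * h

/-- `Δ(W') = 2¹² d⁶ Δ(W)`. -/
theorem twcTwist_Δ899 (d : R) (W : WeierstrassCurve R) :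
    (twcTwist899 d W).Δ = 4096 * d ^ 6 * W.Δ := by
  rw [WeierstrassCurve.Δ, twcTwist_b₂899, twcTwist_b₄899, twcTwist_b₆899, twcTwist_b₈899,
    WeierstrassCurve.Δ]
  ring

/-- `c₄(W') = 16 d² c₄(W)`. -/
theorem twcTwist_c₄899 (d : R) (W : WeierstrassCurve R) :
    (twcTwist899 d W).c₄ = 16 * d ^ 2 * W.c₄ := by
  rw [WeierstrassCurve.c₄, twcTwist_b₂899, twcTwist_b₄899, WeierstrassCurve.c₄]
  ring

lemma twcTwist_map899 {S : Type} [CommRing S] (φ : R →+* S) (d : R) (W : WeierstrassCurve R) :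
    (twcTwist899 d W).map φ = twcTwist899 (φ d) (W.map φ) := by
  ext
  · simp [WeierstrassCurve.map]
  · simp [WeierstrassCurve.map, WeierstrassCurve.b₂, map_ofNat]
  · simp [WeierstrassCurve.map]
  · simp [WeierstrassCurve.map, WeierstrassCurve.b₄, map_ofNat]
  · simp [WeierstrassCurve.map, WeierstrassCurve.b₆, map_ofNat]

end Twist

section TwistCount

variable {F : Type} [Field F]

lemma twcD_twist899 (d : F) (E : WeierstrassCurve F) (x : F) :
    twcD899 (twcTwist899 d E) (4 * d * x) = (8 * d) ^ 2 * d * twcD899 E x := by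
  rw [twcD899, twcD899, twcTwist_b₂899, twcTwist_b₄899, twcTwist_b₆899]
  ring

variable [Fintype F] [DecidableEq F]

/-- **Traces of Frobenius of a quadratic twist.** -/
theorem twc_trace_twist899 (E : WeierstrassCurve F) (hF : ringChar F ≠ 2) (hΔ : E.Δ ≠ 0)
    (d : F) (hd : d ≠ 0) :
    (twcTwist899 d E).traceOfFrobenius = quadraticChar F d * E.traceOfFrobenius := by
  have h2 : (2 : F) ≠ 0 := Ring.two_ne_zero hF
  have h4d : (4 : F) * d ≠ 0 := by
    have : (4 : F) = 2 * 2 := by norm_num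
    rw [this]; exact mul_ne_zero (mul_ne_zero h2 h2) hd
  have h8d : (8 : F) * d ≠ 0 := by
    have : (8 : F) = 2 * 2 * 2 := by norm_num
    rw [this]; exact mul_ne_zero (mul_ne_zero (mul_ne_zero h2 h2) h2) hd
  have hΔ' : (twcTwist899 d E).Δ ≠ 0 := by
    rw [twcTwist_Δ899]
    have : (4096 : F) = 2 ^ 12 := by norm_num
    rw [this]
    exact mul_ne_zero (mul_ne_zero (pow_ne_zero _ h2) (pow_ne_zero _ hd)) hΔ
  rw [twc_trace899 _ hF hΔ', twc_trace899 _ hF hΔ, mul_neg, neg_inj, Finset.mul_sum]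
  rw [← Equiv.sum_comp (Equiv.mulLeft₀ (4 * d) h4d)
    (fun X => quadraticChar F (twcD899 (twcTwist899 d E) X))]
  refine Finset.sum_congr rfl (fun x _ => ?_)
  rw [Equiv.mulLeft₀_apply, twcD_twist899, map_mul, map_mul, map_pow,
    quadraticChar_sq_one h8d, one_mul]

end TwistCount

/-! ## The quadratic character `χ₋₃` -/

/-- `χ₋₃(ℓ)`: the quadratic character modulo `3` (the mod-`3` cyclotomic character at `Frob_ℓ`). -/
def twcChi899 (ℓ : ℕ) : ℤ := if ℓ % 3 = 1 then 1 else if ℓ % 3 = 2 then -1 else 0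

lemma twc_qc3_one899 : quadraticChar (ZMod 3) 1 = 1 := by simp

lemma twc_qc3_neg_one899 : quadraticChar (ZMod 3) (-1) = -1 := by
  rw [quadraticChar_neg_one (by rw [ZMod.ringChar_zmod_n]; decide)]
  decide

/-- The quadratic character of `ZMod 3` on a natural number. -/
lemma twc_qc3_natCast899 (n : ℕ) : quadraticChar (ZMod 3) (n : ZMod 3) = twcChi899 n := by
  have h : (n : ZMod 3) = ((n % 3 : ℕ) : ZMod 3) := by
    rw [ZMod.natCast_mod]
  have h3 : n % 3 < 3 := Nat.mod_lt _ (by norm_num)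
  rw [h, twcChi899]
  interval_cases hn : n % 3
  · simp
  · simp
  · have : ((2 : ℕ) : ZMod 3) = -1 := by decide
    rw [this, twc_qc3_neg_one899]
    simp

/-- **Quadratic reciprocity for `-3`**: `(-3 / ℓ) = χ₋₃(ℓ)` for a prime `ℓ ≠ 2, 3`. -/
theorem twc_qc_neg_three899 (ℓ : ℕ) [Fact ℓ.Prime] (h2 : ℓ ≠ 2) (h3 : ℓ ≠ 3) :
    quadraticChar (ZMod ℓ) (-3) = twcChi899 ℓ := by
  have hℓ : ℓ.Prime := Fact.out
  have hF : ringChar (ZMod ℓ) ≠ 2 := by rw [ZMod.ringChar_zmod_n]; exact h2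
  have : Fact (Nat.Prime 3) := ⟨Nat.prime_three⟩
  have hodd : ℓ % 2 = 1 := by
    rcases hℓ.eq_two_or_odd with h | h
    · exact absurd h h2
    · exact h
  have e1 : (-3 : ZMod ℓ) = (-1) * ((3 : ℕ) : ZMod ℓ) := by push_cast; ring
  rw [e1, map_mul, quadraticChar_neg_one hF,
    quadraticChar_odd_prime hF (p := 3) (by norm_num) (by rw [ZMod.ringChar_zmod_n]; exact h3),
    ZMod.card, map_mul, twc_qc3_natCast899]
  have h4 : ℓ % 4 = 1 ∨ ℓ % 4 = 3 := by omega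
  rcases h4 with h | h
  · rw [ZMod.χ₄_nat_one_mod_four h]
    simp
  · rw [ZMod.χ₄_nat_three_mod_four h]
    have : (((-1 : ℤ) : ZMod 3)) = -1 := by simp
    rw [this, twc_qc3_neg_one899]
    ring

/-! ## The integral statement -/

/-- The quadratic twist of an integral model by `-3`. -/
def twistNegThree899 (W : WeierstrassCurve ℤ) : WeierstrassCurve ℤ := twcTwist899 (-3) W

theorem twistNegThree_Δ899 (W : WeierstrassCurve ℤ) :
    (twistNegThree899 W).Δ = 2 ^ 12 * 3 ^ 6 * W.Δ := by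
  rw [twistNegThree899, twcTwist_Δ899]; ring

theorem twistNegThree_Δ_ne_zero899 {W : WeierstrassCurve ℤ} (hΔ : W.Δ ≠ 0) :
    (twistNegThree899 W).Δ ≠ 0 := by
  rw [twistNegThree_Δ899]
  exact mul_ne_zero (by norm_num) hΔ

/-- A good prime of the twist is `≠ 2, 3` and good for `W`. -/
theorem twistNegThree_good899 {W : WeierstrassCurve ℤ} {ℓ : ℕ}
    (h : (twistNegThree899 W).IsGoodPrimeFor ℓ) :
    ℓ ≠ 2 ∧ ℓ ≠ 3 ∧ W.IsGoodPrimeFor ℓ := by
  unfold WeierstrassCurve.IsGoodPrimeFor at h ⊢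
  rw [twistNegThree_Δ899] at h
  refine ⟨?_, ?_, ?_⟩
  · rintro rfl
    exact h (Dvd.dvd.mul_right (Dvd.dvd.mul_right (dvd_pow_self _ (by norm_num)) _) _)
  · rintro rfl
    exact h (Dvd.dvd.mul_right (Dvd.dvd.mul_left (dvd_pow_self _ (by norm_num)) _) _)
  · intro hd
    exact h (Dvd.dvd.mul_left hd _)

/-- **`a_ℓ(W') = χ₋₃(ℓ) a_ℓ(W)`** at every good prime `ℓ` of the twist `W'`. -/
theorem twc_apOfModel899 (W : WeierstrassCurve ℤ) (ℓ : ℕ) (hℓ : ℓ.Prime)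
    (hgood : (twistNegThree899 W).IsGoodPrimeFor ℓ) :
    (twistNegThree899 W).apOfModel ℓ = twcChi899 ℓ * W.apOfModel ℓ := by
  have : Fact ℓ.Prime := ⟨hℓ⟩
  obtain ⟨h2, h3, hW⟩ := twistNegThree_good899 hgood
  have hF : ringChar (ZMod ℓ) ≠ 2 := by rw [ZMod.ringChar_zmod_n]; exact h2
  have hΔ : (W.reductionMod ℓ).Δ ≠ 0 := by
    rw [WeierstrassCurve.reductionMod, WeierstrassCurve.map_Δ]
    intro h0
    apply hW
    have := (ZMod.intCast_zmod_eq_zero_iff_dvd W.Δ ℓ).mp (by simpa using h0)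
    exact this
  have hd : ((-3 : ℤ) : ZMod ℓ) ≠ 0 := by
    intro h0
    have hdvd := (ZMod.intCast_zmod_eq_zero_iff_dvd (-3) ℓ).mp h0
    have h3' : (ℓ : ℤ) ∣ 3 := (dvd_neg).mp hdvd
    have : ℓ ∣ 3 := by exact_mod_cast h3'
    exact h3 ((Nat.prime_dvd_prime_iff_eq hℓ Nat.prime_three).mp this)
  have key := twc_trace_twist899 (W.reductionMod ℓ) hF hΔ ((-3 : ℤ) : ZMod ℓ) hd
  have hmap : (twistNegThree899 W).reductionMod ℓ =
      twcTwist899 ((-3 : ℤ) : ZMod ℓ) (W.reductionMod ℓ) := by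
    rw [WeierstrassCurve.reductionMod, twistNegThree899, twcTwist_map899]
    rfl
  rw [WeierstrassCurve.apOfModel, hmap, key, WeierstrassCurve.apOfModel]
  congr 1
  have : ((-3 : ℤ) : ZMod ℓ) = -3 := by push_cast; rfl
  rw [this]
  exact twc_qc_neg_three899 ℓ h2 h3

end Fermat.Agent.G1.H899

end
-- ===== PACK-END G1/H899/TwistCount.lean

-- ===== PACK-BEGIN S51/T171Dup.lean
section


set_option autoImplicit false
open WeierstrassCurve WeierstrassCurve.Affine WeierstrassCurve.Affine.Point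

namespace Fermat.Agent.S51.T171

variable {F : Type*} [Field F] (W : Affine F)

/-- `ψ₂² = 4x³ + b₂x² + 2b₄x + b₆`. -/
def dB6 (x : F) : F := 4 * x ^ 3 + W.b₂ * x ^ 2 + 2 * W.b₄ * x + W.b₆

/-- Numerator of the duplication map on `x`-coordinates. -/
def dN (x : F) : F := x ^ 4 - W.b₄ * x ^ 2 - 2 * W.b₆ * x - W.b₈

/-- The `3`-division polynomial. -/
def dPsi3 (x : F) : F := 3 * x ^ 4 + W.b₂ * x ^ 3 + 3 * W.b₄ * x ^ 2 + 3 * W.b₆ * x + W.b₈

theorem dPsi3_eq (x : F) : dPsi3 W x = x * dB6 W x - dN W x := by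
  unfold dPsi3 dB6 dN; ring

variable {W} [DecidableEq F]

omit [DecidableEq F] in
theorem dB6_eq_sq {x y : F} (h : W.Equation x y) : dB6 W x = (y - W.negY x y) ^ 2 := by
  rw [equation_iff] at h
  simp only [dB6, negY, WeierstrassCurve.b₂, WeierstrassCurve.b₄, WeierstrassCurve.b₆]
  linear_combination (-4 : F) * h

omit [DecidableEq F] in
theorem dB6_ne_zero {x y : F} (h : W.Equation x y) (hy : y ≠ W.negY x y) : dB6 W x ≠ 0 := by
  rw [dB6_eq_sq h]
  exact pow_ne_zero 2 (sub_ne_zero.mpr hy)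

/-- The duplication formula on `x`-coordinates. -/
theorem addX_self_mul_dB6 {x y : F} (h : W.Equation x y) (hy : y ≠ W.negY x y) :
    W.addX x x (W.slope x x y y) * dB6 W x = dN W x := by
  have hne : y - W.negY x y ≠ 0 := sub_ne_zero.mpr hy
  rw [dB6_eq_sq h, slope_of_Y_ne rfl hy]
  rw [equation_iff] at h
  obtain ⟨ℓ, hℓdef⟩ : ∃ ℓ : F, ℓ =
      (3 * x ^ 2 + 2 * W.a₂ * x + W.a₄ - W.a₁ * y) / (y - W.negY x y) := ⟨_, rfl⟩
  rw [← hℓdef]
  have hℓ : ℓ * (y - W.negY x y) = 3 * x ^ 2 + 2 * W.a₂ * x + W.a₄ - W.a₁ * y := by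
    rw [hℓdef]; exact div_mul_cancel₀ _ hne
  simp only [addX, dN, WeierstrassCurve.b₄, WeierstrassCurve.b₆,
    WeierstrassCurve.b₈]
  simp only [negY] at hℓ ⊢
  linear_combination (ℓ * (y - (-y - W.a₁ * x - W.a₃))
      + (3 * x ^ 2 + 2 * W.a₂ * x + W.a₄ - W.a₁ * y)
      + W.a₁ * (y - (-y - W.a₁ * x - W.a₃))) * hℓ
    + (-(8 * x + W.a₁ ^ 2 + 4 * W.a₂)) * h

/-- Doubling an affine point which is not `2`-torsion. -/
theorem two_nsmul_some {x y : F} (h : W.Nonsingular x y) (hy : y ≠ W.negY x y) :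
    ∃ (x' y' : F) (h' : W.Nonsingular x' y'),
      Point.some x y h + Point.some x y h = Point.some x' y' h' ∧ x' * dB6 W x = dN W x :=
  ⟨_, _, _, add_self_of_Y_ne hy, addX_self_mul_dB6 h.1 hy⟩

/-- Doubling a `2`-torsion affine point. -/
theorem two_nsmul_some_of_eq {x y : F} (h : W.Nonsingular x y) (hy : y = W.negY x y) :
    Point.some x y h + Point.some x y h = 0 :=
  add_self_of_Y_eq hy

omit [DecidableEq F] in
/-- Two affine points with the same `x`-coordinate are equal or opposite. -/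
theorem eq_or_eq_neg_of_x_eq {x y y' : F} (h : W.Nonsingular x y) (h' : W.Nonsingular x y') :
    Point.some x y h = Point.some x y' h' ∨ Point.some x y h = -Point.some x y' h' := by
  rcases Y_eq_of_X_eq h.1 h'.1 rfl with hy | hy
  · left; subst hy; rfl
  · right
    rw [neg_some]
    subst hy; rfl

omit [DecidableEq F] in
/-- At a nonsingular point with `ψ₂ = 0` the polynomial `ψ₃` does not vanish. -/
theorem dPsi3_ne_zero_of_Y_eq (h2 : (2 : F) ≠ 0) {x y : F} (h : W.Nonsingular x y)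
    (hy : y = W.negY x y) : dPsi3 W x ≠ 0 := by
  intro h3
  have heq : W.Equation x y := h.1
  rw [nonsingular_iff] at h
  obtain ⟨-, hns⟩ := h
  have hpsi : 2 * y + W.a₁ * x + W.a₃ = 0 := by
    simp only [negY] at hy
    linear_combination hy
  have hB6 : dB6 W x = 0 := by
    rw [dB6_eq_sq heq]
    simp only [negY]
    have : y - (-y - W.a₁ * x - W.a₃) = 0 := by linear_combination hpsi
    rw [this]; ring
  -- `B6' = 2 a₁ ψ - 4 W_x`, `16 ψ₃ = 2 B6 B6'' - B6'²`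
  have hWx : (16 : F) * (W.a₁ * y - (3 * x ^ 2 + 2 * W.a₂ * x + W.a₄)) ^ 2 = 0 := by
    have e1 : (16 : F) * dPsi3 W x = 2 * dB6 W x * (24 * x + 2 * W.b₂)
        - (12 * x ^ 2 + 2 * W.b₂ * x + 2 * W.b₄) ^ 2 := by
      simp only [dPsi3, dB6, WeierstrassCurve.b₂, WeierstrassCurve.b₄, WeierstrassCurve.b₆,
        WeierstrassCurve.b₈]
      ring
    have e2 : 12 * x ^ 2 + 2 * W.b₂ * x + 2 * W.b₄
        = 2 * W.a₁ * (2 * y + W.a₁ * x + W.a₃)
          - 4 * (W.a₁ * y - (3 * x ^ 2 + 2 * W.a₂ * x + W.a₄)) := by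
      simp only [WeierstrassCurve.b₂, WeierstrassCurve.b₄]
      ring
    rw [h3, hB6, e2, hpsi] at e1
    linear_combination e1
  have h16 : (16 : F) ≠ 0 := by
    have : (16 : F) = 2 ^ 4 := by norm_num
    rw [this]; exact pow_ne_zero 4 h2
  have hWx0 : W.a₁ * y - (3 * x ^ 2 + 2 * W.a₂ * x + W.a₄) = 0 := by
    rcases mul_eq_zero.mp hWx with h' | h'
    · exact absurd h' h16
    · exact pow_eq_zero_iff (by norm_num) |>.mp h'
  rcases hns with hns | hns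
  · exact hns (by linear_combination hWx0)
  · apply hns
    simp only [negY] at hy
    exact hy

end Fermat.Agent.S51.T171

end
-- ===== PACK-END S51/T171Dup.lean

-- ===== PACK-BEGIN G2/H6/X20.lean
section
/-
GLUE phase 2, block F, leaf F5 (helper6): the Diophantine core.

`X(2) ×_{X(1)} X₀(5) ≅ X₀(20)` has no rational point outside the cusps:

* `quartic_trivial`  : `N² = M⁴ - 2 M² e² + 5 e⁴`, `gcd(M, e) = 1`, `e ≠ 0` ⟹ `M² = e² = 1`
  (descent via the `2`-isogeny `20a1 → 20a2 → 20a1`, measure `|e|`);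
* `rat_points_20a1`  : `y² = (x + 1)(x² + 4)` ⟹ `x ∈ {-1, 0, 4}`;
* `x20_no_point`     : no rational point on `X₀(20)` in the coordinates `(h, m, S)`;
* `x20_core`         : `2⁸ (A² + AB + B²)³ h ≠ A² B² (A + B)² (h² + 10 h + 5)³` for rational
  `h ≠ 0`, `A B (A + B) ≠ 0`.

Parametrisation (Hauptmodul `u` of `X₀(10)`, `p = u + 4`):
`t = u (u + 4)⁵ / (u + 5)`, `h = u (u + 5)² / (u + 4)`, `j = (t + 16)³ / t = (h² + 10 h + 5)³ / h`,
`m = (t + 16) / (h² + 10 h + 5) = (u + 4)² / (u + 5)`, `t = h m³`,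
`t (t + 64) = u (u + 4)⁵ (u² + 6 u + 4)² (u² + 8 u + 20) / (u + 5)²`.
Mathlib only.
-/


set_option autoImplicit false

namespace Fermat.Agent.G2.H6

/-- A positive integer which is a coprime factor of a fourth power is a fourth power. -/
theorem pow_four_of_coprime_mul {a b c : ℤ} (h : IsCoprime a b) (heq : a * b = c ^ 4)
    (ha : 0 < a) : ∃ d : ℤ, a = d ^ 4 := by
  obtain ⟨d, hd⟩ := exists_associated_pow_of_mul_eq_pow' h heq
  refine ⟨d, ?_⟩
  rcases Int.associated_iff.mp hd with h1 | h1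
  · exact h1.symm
  · exfalso
    have h2 : 0 ≤ d ^ 4 := by positivity
    linarith

/-- Coprime positive factors of a fourth power. -/
theorem pow_four_pair {a b c : ℤ} (h : IsCoprime a b) (heq : a * b = c ^ 4)
    (ha : 0 < a) (hb : 0 < b) :
    ∃ r s : ℤ, a = r ^ 4 ∧ b = s ^ 4 ∧ IsCoprime r s ∧ c ^ 2 = r ^ 2 * s ^ 2 := by
  obtain ⟨r, hr⟩ := pow_four_of_coprime_mul h heq ha
  obtain ⟨s, hs⟩ := pow_four_of_coprime_mul h.symm (by rw [mul_comm]; exact heq) hb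
  refine ⟨r, s, hr, hs, ?_, ?_⟩
  · rw [hr, hs] at h
    exact (IsCoprime.pow_iff (by norm_num) (by norm_num)).mp h
  · have h4 : (c ^ 2) ^ 2 = (r ^ 2 * s ^ 2) ^ 2 := by
      rw [hr, hs] at heq
      linear_combination -heq
    have h5 : (0:ℤ) ≤ c ^ 2 := by positivity
    have h6 : (0:ℤ) ≤ r ^ 2 * s ^ 2 := by positivity
    exact (pow_left_inj₀ h5 h6 (by norm_num)).mp h4

theorem prime_five_int : Prime (5 : ℤ) := Int.prime_iff_natAbs_prime.mpr (by norm_num)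

/-- Coprime positive factors of `5 c⁴`. -/
theorem split_five {F₁ F₂ c : ℤ} (h : IsCoprime F₁ F₂) (heq : F₁ * F₂ = 5 * c ^ 4)
    (h1 : 0 < F₁) (h2 : 0 < F₂) :
    ∃ r s : ℤ, IsCoprime r s ∧ c ^ 2 = r ^ 2 * s ^ 2 ∧ F₁ + F₂ = r ^ 4 + 5 * s ^ 4 := by
  have hdvd : (5:ℤ) ∣ F₁ * F₂ := ⟨c ^ 4, heq⟩
  rcases prime_five_int.dvd_or_dvd hdvd with ⟨k, hk⟩ | ⟨k, hk⟩
  · have hk0 : 0 < k := by linarith
    have hcop : IsCoprime k F₂ := by
      rw [hk] at h
      exact h.of_mul_left_right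
    have heq' : k * F₂ = c ^ 4 := by
      rw [hk] at heq
      linarith
    obtain ⟨s, r, hs, hr, hsr, hc⟩ := pow_four_pair hcop heq' hk0 h2
    exact ⟨r, s, hsr.symm, by rw [hc]; ring, by rw [hk, hs, hr]; ring⟩
  · have hk0 : 0 < k := by linarith
    have hcop : IsCoprime F₁ k := by
      rw [hk] at h
      exact h.of_mul_right_right
    have heq' : F₁ * k = c ^ 4 := by
      rw [hk] at heq
      linarith
    obtain ⟨r, s, hr, hs, hrs, hc⟩ := pow_four_pair hcop heq' h1 hk0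
    exact ⟨r, s, hrs, hc, by rw [hk, hs, hr]⟩

/-- Coprimality of the two factors in the second descent step. -/
theorem coprime_of_sum_prod {G₁ G₂ c k a t : ℤ} (hkc : IsCoprime (k * a ^ 2) c)
    (hsum : G₁ + G₂ = k * a ^ 2 + t * c) (hprod : G₁ * G₂ = 5 * c ^ 4) (hne : G₁ ≠ 0) :
    IsCoprime G₁ G₂ := by
  apply isCoprime_of_prime_dvd (fun h => hne h.1)
  intro ℓ hℓ h1 h2
  have hcase : ℓ ∣ c → False := by
    intro hc
    have h3 : ℓ ∣ k * a ^ 2 := by
      have h4 : ℓ ∣ G₁ + G₂ - t * c := dvd_sub (dvd_add h1 h2) (dvd_mul_of_dvd_right hc _)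
      have h5 : G₁ + G₂ - t * c = k * a ^ 2 := by linarith
      rwa [h5] at h4
    exact hℓ.not_isUnit (hkc.isUnit_of_dvd' h3 hc)
  have h5c : ℓ ∣ 5 * c ^ 4 := by
    rw [← hprod]
    exact dvd_mul_of_dvd_left h1 _
  rcases hℓ.dvd_or_dvd h5c with h5 | h5
  · have hass : Associated ℓ 5 := (hℓ.dvd_prime_iff_associated prime_five_int).mp h5
    have h51 : (5:ℤ) ∣ G₁ := hass.symm.dvd.trans h1
    have h52 : (5:ℤ) ∣ G₂ := hass.symm.dvd.trans h2
    obtain ⟨x, hx⟩ := h51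
    obtain ⟨y, hy⟩ := h52
    have h6 : (5:ℤ) ∣ c ^ 4 := by
      refine ⟨x * y, ?_⟩
      have : 5 * c ^ 4 = 5 * (5 * (x * y)) := by rw [← hprod, hx, hy]; ring
      linarith
    have h7 : (5:ℤ) ∣ c := prime_five_int.dvd_of_dvd_pow h6
    exact hcase (h5.trans h7)
  · exact hcase (hℓ.dvd_of_dvd_pow h5)


/-- The final bookkeeping of the descent: the smaller solution `(r, s)` is trivial, hence so
is the original one. -/
theorem finish_descent {a c r s : ℤ} (hr : r ^ 2 = 1) (hs : s ^ 2 = 1)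
    (h4 : (2 * a) ^ 2 = r ^ 4 - 2 * r ^ 2 * s ^ 2 + 5 * s ^ 4) (hc : c ^ 2 = r ^ 2 * s ^ 2)
    {M e : ℤ} (he : e ^ 2 = a ^ 2 * c ^ 2) (hM : M ^ 2 = a ^ 4 - c ^ 4 + a ^ 2 * c ^ 2) :
    M ^ 2 = 1 ∧ e ^ 2 = 1 := by
  have hr4 : r ^ 4 = 1 := by
    have : r ^ 4 = (r ^ 2) ^ 2 := by ring
    rw [this, hr]; norm_num
  have hs4 : s ^ 4 = 1 := by
    have : s ^ 4 = (s ^ 2) ^ 2 := by ring
    rw [this, hs]; norm_num
  have ha : a ^ 2 = 1 := by
    rw [hr4, hs4, hr, hs] at h4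
    linarith
  have hc1 : c ^ 2 = 1 := by rw [hc, hr, hs]; norm_num
  have ha4 : a ^ 4 = 1 := by
    have : a ^ 4 = (a ^ 2) ^ 2 := by ring
    rw [this, ha]; norm_num
  have hc4 : c ^ 4 = 1 := by
    have : c ^ 4 = (c ^ 2) ^ 2 := by ring
    rw [this, hc1]; norm_num
  refine ⟨?_, ?_⟩
  · rw [hM, ha4, hc4, ha, hc1]; norm_num
  · rw [he, ha, hc1]; norm_num

/-- **The descent.**  The quartic `N² = M⁴ - 2 M² e² + 5 e⁴` (a `2`-covering of the elliptic
curve `20a1`) has only the trivial coprime solutions `M² = e² = 1`. -/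
theorem quartic_trivial : ∀ (n : ℕ) (M e N : ℤ), e.natAbs = n → IsCoprime M e → e ≠ 0 →
    N ^ 2 = M ^ 4 - 2 * M ^ 2 * e ^ 2 + 5 * e ^ 4 → M ^ 2 = 1 ∧ e ^ 2 = 1 := by
  intro n
  induction n using Nat.strong_induction_on with
  | _ n ih =>
  intro M e N hn hcop he hN
  have he4 : 0 < e ^ 4 := by positivity
  -- Step 1: `N² - U² = 4 e⁴` with `U = M² - e²`.
  obtain ⟨U, hU⟩ : ∃ U : ℤ, U = M ^ 2 - e ^ 2 := ⟨_, rfl⟩
  have hNU : N ^ 2 = U ^ 2 + 4 * e ^ 4 := by rw [hU]; linear_combination hN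
  obtain ⟨N', hN'pos, hN'⟩ : ∃ N' : ℤ, 0 < N' ∧ N' ^ 2 = U ^ 2 + 4 * e ^ 4 := by
    refine ⟨|N|, ?_, by rw [sq_abs]; exact hNU⟩
    have : N ≠ 0 := by
      rintro rfl
      nlinarith [sq_nonneg U]
    exact abs_pos.mpr this
  have hprod : (N' + U) * (N' - U) = 4 * e ^ 4 := by linear_combination hN'
  have hev : Even (N' + U) := by
    have h1 : Even ((N' + U) * (N' - U)) := ⟨2 * e ^ 4, by rw [hprod]; ring⟩
    rw [Int.even_mul, Int.even_add, Int.even_sub] at h1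
    rw [Int.even_add]
    tauto
  obtain ⟨P, hP⟩ := hev
  obtain ⟨Q, hQ⟩ : ∃ Q : ℤ, Q = P - U := ⟨_, rfl⟩
  have hN'eq : N' = P + Q := by rw [hQ]; linarith
  have hUeq : U = P - Q := by rw [hQ]; ring
  have hPQ : P * Q = e ^ 4 := by
    have h1 : (P + Q + (P - Q)) * (P + Q - (P - Q)) = 4 * e ^ 4 := by
      rw [← hN'eq, ← hUeq]; exact hprod
    have h2 : 4 * (P * Q) = 4 * e ^ 4 := by linear_combination h1
    linarith
  have habs : |U| < N' := by
    apply abs_lt_of_sq_lt_sq _ hN'pos.le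
    rw [hN']; linarith
  have hPpos : 0 < P := by
    have := (abs_lt.mp habs).1
    linarith
  have hQpos : 0 < Q := by
    have := (abs_lt.mp habs).2
    linarith
  have hM2 : M ^ 2 = P - Q + e ^ 2 := by rw [← hUeq, hU]; ring
  have hcopPQ : IsCoprime P Q := by
    obtain ⟨x, y, hxy⟩ : IsCoprime (M ^ 4) (e ^ 4) := hcop.pow
    refine ⟨x * (P - Q + 2 * e ^ 2) + y * Q, x * (Q - 2 * e ^ 2), ?_⟩
    linear_combination hxy + (x + y) * hPQ - x * (M ^ 2 + (P - Q + e ^ 2)) * hM2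
  obtain ⟨a, c, hPa, hQc, hac, he2⟩ := pow_four_pair hcopPQ hPQ hPpos hQpos
  have hMac : M ^ 2 = a ^ 4 - c ^ 4 + a ^ 2 * c ^ 2 := by rw [hM2, hPa, hQc, he2]
  have ha0 : a ≠ 0 := by
    rintro rfl
    rw [hPa] at hPpos; norm_num at hPpos
  have hc0 : c ≠ 0 := by
    rintro rfl
    rw [hQc] at hQpos; norm_num at hQpos
  have hnat : e.natAbs = a.natAbs * c.natAbs := by
    rw [← Int.natAbs_mul]
    apply Int.natAbs_eq_iff_sq_eq.mpr
    rw [he2]; ring
  -- Step 2: `(2a² + c²)² - (2M)² = 5 c⁴`.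
  obtain ⟨M', hM'nn, hM'⟩ : ∃ M' : ℤ, 0 ≤ M' ∧ M' ^ 2 = a ^ 4 - c ^ 4 + a ^ 2 * c ^ 2 :=
    ⟨|M|, abs_nonneg _, by rw [sq_abs]; exact hMac⟩
  have ha2 : 0 < a ^ 2 := by positivity
  have hc2 : 0 < c ^ 2 := by positivity
  have hc4 : 0 < c ^ 4 := by positivity
  rcases Int.even_or_odd c with hce | hco
  · -- `c` even: impossible
    exfalso
    obtain ⟨c', hc'⟩ := hce
    have hc'0 : c' ≠ 0 := by
      rintro rfl
      apply hc0; rw [hc']; ring
    have hao : Odd a := by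
      rcases Int.even_or_odd a with hae | hao
      · exfalso
        obtain ⟨a', ha'⟩ := hae
        have h2 : IsUnit (2 : ℤ) :=
          hac.isUnit_of_dvd' ⟨a', by rw [ha']; ring⟩ ⟨c', by rw [hc']; ring⟩
        rw [Int.isUnit_iff] at h2
        omega
      · exact hao
    have hM'o : Odd M' := by
      have h1 : Odd (M' ^ 2) := by
        rw [hM']
        have h2 : Odd (a ^ 4) := hao.pow
        have h3 : Even (c ^ 4) := ⟨8 * c' ^ 4, by rw [hc']; ring⟩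
        have h4 : Even (a ^ 2 * c ^ 2) := ⟨2 * a ^ 2 * c' ^ 2, by rw [hc']; ring⟩
        exact (h2.sub_even h3).add_even h4
      exact (Int.odd_pow.mp h1).resolve_right (by norm_num)
    have hsumeven : Even (a ^ 2 + 2 * c' ^ 2 + M') := by
      have h1 : Odd (a ^ 2) := hao.pow
      have h2 : Even (2 * c' ^ 2) := ⟨c' ^ 2, by ring⟩
      exact (h1.add_even h2).add_odd hM'o
    obtain ⟨G₂, hG₂⟩ := hsumeven
    obtain ⟨G₁, hG₁⟩ : ∃ G₁ : ℤ, G₁ = a ^ 2 + 2 * c' ^ 2 - G₂ := ⟨_, rfl⟩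
    have hG₂pos : 0 < G₂ := by
      have : 0 ≤ c' ^ 2 := sq_nonneg _
      linarith
    have hM'G : M' = G₂ - G₁ := by rw [hG₁]; linarith
    have hGprod : G₁ * G₂ = 5 * c' ^ 4 := by
      have h1 : (G₂ - G₁) ^ 2 = a ^ 4 - c ^ 4 + a ^ 2 * c ^ 2 := by rw [← hM'G]; exact hM'
      have h2 : G₁ + G₂ = a ^ 2 + 2 * c' ^ 2 := by rw [hG₁]; ring
      have h3 : (G₁ + G₂) ^ 2 = (a ^ 2 + 2 * c' ^ 2) ^ 2 := by rw [h2]
      rw [hc'] at h1
      have h5 : 4 * (G₁ * G₂) = 4 * (5 * c' ^ 4) := by linear_combination h3 - h1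
      linarith
    have hc'4 : 0 < c' ^ 4 := by positivity
    have hG₁pos : 0 < G₁ := by
      by_contra hcon
      have : G₁ * G₂ ≤ 0 := mul_nonpos_of_nonpos_of_nonneg (not_lt.mp hcon) hG₂pos.le
      linarith
    have hac' : IsCoprime (1 * a ^ 2) c' := by
      rw [one_mul]
      have : IsCoprime a c' := by
        rw [hc', ← two_mul] at hac
        exact hac.of_mul_right_right
      exact this.pow_left
    have hcopG : IsCoprime G₁ G₂ :=
      coprime_of_sum_prod (t := 2 * c') hac' (by rw [hG₁]; ring) hGprod hG₁pos.ne'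
    obtain ⟨r, s, hrs, hcrs, hsum⟩ := split_five hcopG hGprod hG₁pos hG₂pos
    have h4 : a ^ 2 = r ^ 4 - 2 * r ^ 2 * s ^ 2 + 5 * s ^ 4 := by
      have : G₁ + G₂ = a ^ 2 + 2 * c' ^ 2 := by rw [hG₁]; ring
      rw [this, hcrs] at hsum
      linarith
    have hs0 : s ≠ 0 := by
      rintro rfl
      apply hc'0
      have : c' ^ 2 = 0 := by rw [hcrs]; ring
      exact pow_eq_zero_iff (by norm_num) |>.mp this
    have hr0 : r ≠ 0 := by
      rintro rfl
      apply hc'0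
      have : c' ^ 2 = 0 := by rw [hcrs]; ring
      exact pow_eq_zero_iff (by norm_num) |>.mp this
    have hnat' : c'.natAbs = r.natAbs * s.natAbs := by
      rw [← Int.natAbs_mul]
      apply Int.natAbs_eq_iff_sq_eq.mpr
      rw [hcrs]; ring
    have hlt : s.natAbs < n := by
      rw [← hn, hnat]
      have hcn : c.natAbs = 2 * c'.natAbs := by
        rw [hc', ← two_mul, Int.natAbs_mul]; rfl
      rw [hcn, hnat']
      have h1 : 0 < a.natAbs := Int.natAbs_pos.mpr ha0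
      have h2 : 0 < r.natAbs := Int.natAbs_pos.mpr hr0
      have h3 : 0 < s.natAbs := Int.natAbs_pos.mpr hs0
      have h5 : 1 * s.natAbs ≤ r.natAbs * s.natAbs := Nat.mul_le_mul_right _ h2
      have h6 : 1 * (2 * (r.natAbs * s.natAbs)) ≤ a.natAbs * (2 * (r.natAbs * s.natAbs)) :=
        Nat.mul_le_mul_right _ h1
      omega
    obtain ⟨hr1, hs1⟩ := ih s.natAbs hlt r s a rfl hrs hs0 h4
    have hr4 : r ^ 4 = 1 := by
      have : r ^ 4 = (r ^ 2) ^ 2 := by ring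
      rw [this, hr1]; norm_num
    have hs4 : s ^ 4 = 1 := by
      have : s ^ 4 = (s ^ 2) ^ 2 := by ring
      rw [this, hs1]; norm_num
    have ha4 : a ^ 2 = 4 := by rw [h4, hr4, hs4, hr1, hs1]; norm_num
    have : Odd (a ^ 2) := hao.pow
    rw [ha4] at this
    exact absurd this (by decide)
  · -- `c` odd
    obtain ⟨F₁, hF₁⟩ : ∃ F₁ : ℤ, F₁ = 2 * a ^ 2 + c ^ 2 - 2 * M' := ⟨_, rfl⟩
    obtain ⟨F₂, hF₂⟩ : ∃ F₂ : ℤ, F₂ = 2 * a ^ 2 + c ^ 2 + 2 * M' := ⟨_, rfl⟩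
    have hFprod : F₁ * F₂ = 5 * c ^ 4 := by
      rw [hF₁, hF₂]
      linear_combination -4 * hM'
    have hF₂pos : 0 < F₂ := by rw [hF₂]; linarith
    have hF₁pos : 0 < F₁ := by
      by_contra hcon
      have : F₁ * F₂ ≤ 0 := mul_nonpos_of_nonpos_of_nonneg (not_lt.mp hcon) hF₂pos.le
      linarith
    have hkc : IsCoprime (4 * a ^ 2) c := by
      have h2 : IsCoprime (2 : ℤ) c := by
        obtain ⟨k, hk⟩ := hco
        exact ⟨-k, 1, by rw [hk]; ring⟩
      have h4 : IsCoprime (4 : ℤ) c := by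
        have : (4 : ℤ) = 2 ^ 2 := by norm_num
        rw [this]
        exact h2.pow_left
      exact h4.mul_left hac.pow_left
    have hcopF : IsCoprime F₁ F₂ :=
      coprime_of_sum_prod (t := 2 * c) hkc (by rw [hF₁, hF₂]; ring) hFprod hF₁pos.ne'
    obtain ⟨r, s, hrs, hcrs, hsum⟩ := split_five hcopF hFprod hF₁pos hF₂pos
    have h4 : (2 * a) ^ 2 = r ^ 4 - 2 * r ^ 2 * s ^ 2 + 5 * s ^ 4 := by
      have : F₁ + F₂ = 4 * a ^ 2 + 2 * c ^ 2 := by rw [hF₁, hF₂]; ring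
      rw [this, hcrs] at hsum
      linear_combination hsum
    have hs0 : s ≠ 0 := by
      rintro rfl
      apply hc0
      have : c ^ 2 = 0 := by rw [hcrs]; ring
      exact pow_eq_zero_iff (by norm_num) |>.mp this
    have hr0 : r ≠ 0 := by
      rintro rfl
      apply hc0
      have : c ^ 2 = 0 := by rw [hcrs]; ring
      exact pow_eq_zero_iff (by norm_num) |>.mp this
    have hnat' : c.natAbs = r.natAbs * s.natAbs := by
      rw [← Int.natAbs_mul]
      apply Int.natAbs_eq_iff_sq_eq.mpr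
      rw [hcrs]; ring
    by_cases hlt : s.natAbs < n
    · obtain ⟨hr1, hs1⟩ := ih s.natAbs hlt r s (2 * a) rfl hrs hs0 h4
      exact finish_descent hr1 hs1 h4 hcrs he2 hMac
    · -- then `|a| = |r| = 1`
      have h1 : 0 < a.natAbs := Int.natAbs_pos.mpr ha0
      have h2 : 0 < r.natAbs := Int.natAbs_pos.mpr hr0
      have h3 : 0 < s.natAbs := Int.natAbs_pos.mpr hs0
      have hle : a.natAbs * (r.natAbs * s.natAbs) ≤ s.natAbs := by
        rw [← hnat', ← hnat, hn]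
        exact not_lt.mp hlt
      have har : a.natAbs * r.natAbs = 1 := by
        have h5 : a.natAbs * r.natAbs * s.natAbs ≤ 1 * s.natAbs := by
          rw [one_mul, mul_assoc]; exact hle
        have h6 : a.natAbs * r.natAbs ≤ 1 := Nat.le_of_mul_le_mul_right h5 h3
        have h7 : 0 < a.natAbs * r.natAbs := Nat.mul_pos h1 h2
        omega
      have ha1 : a.natAbs = 1 := Nat.eq_one_of_mul_eq_one_right har
      have hr1n : r.natAbs = 1 := Nat.eq_one_of_mul_eq_one_left har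
      have ha21 : a ^ 2 = 1 := by
        have := Int.natAbs_eq_iff_sq_eq (a := a) (b := 1)
        simpa using this.mp (by simpa using ha1)
      have hr21 : r ^ 2 = 1 := by
        have := Int.natAbs_eq_iff_sq_eq (a := r) (b := 1)
        simpa using this.mp (by simpa using hr1n)
      have hr4 : r ^ 4 = 1 := by
        have : r ^ 4 = (r ^ 2) ^ 2 := by ring
        rw [this, hr21]; norm_num
      have hs21 : s ^ 2 = 1 := by
        have h8 : (s ^ 2 - 1) * (5 * s ^ 2 + 3) = 0 := by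
          have h9 : (2 * a) ^ 2 = 4 := by
            have : (2 * a) ^ 2 = 4 * a ^ 2 := by ring
            rw [this, ha21]; norm_num
          rw [h9, hr4, hr21] at h4
          linear_combination -h4
        rcases mul_eq_zero.mp h8 with h9 | h9
        · linarith
        · exfalso
          have : 0 ≤ s ^ 2 := sq_nonneg _
          linarith
      exact finish_descent hr21 hs21 h4 hcrs he2 hMac


/-- A positive integer which is a coprime factor of a square is a square. -/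
theorem sq_of_coprime_mul_pos {a b c : ℤ} (h : IsCoprime a b) (heq : a * b = c ^ 2)
    (ha : 0 < a) : ∃ d : ℤ, a = d ^ 2 := by
  obtain ⟨d, hd | hd⟩ := Int.sq_of_isCoprime h heq
  · exact ⟨d, hd⟩
  · exfalso
    have : 0 ≤ d ^ 2 := sq_nonneg d
    linarith

/-- **Rational points of `20a1`** in the model `y² = X (X² - 2X + 5)`: `X ∈ {0, 1, 5}`. -/
theorem rat_points_20a1_shift (X y : ℚ) (h : y ^ 2 = X * (X ^ 2 - 2 * X + 5)) :
    X = 0 ∨ X = 1 ∨ X = 5 := by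
  obtain ⟨m, hm⟩ : ∃ m : ℤ, m = X.num := ⟨_, rfl⟩
  obtain ⟨n, hn⟩ : ∃ n : ℤ, n = (X.den : ℤ) := ⟨_, rfl⟩
  have hnpos : 0 < n := by rw [hn]; exact_mod_cast X.den_pos
  have hcop : IsCoprime m n := by rw [hm, hn]; exact X.isCoprime_num_den
  have hnQ : (n : ℚ) ≠ 0 := by exact_mod_cast hnpos.ne'
  have hX : X = (m : ℚ) / (n : ℚ) := by
    rw [hm, hn]
    exact_mod_cast (Rat.num_div_den X).symm
  obtain ⟨Qf, hQf⟩ : ∃ Qf : ℤ, Qf = m ^ 2 - 2 * m * n + 5 * n ^ 2 := ⟨_, rfl⟩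
  have hQfpos : 0 < Qf := by
    rw [hQf]
    nlinarith [sq_nonneg (m - n), sq_pos_of_pos hnpos]
  -- `n * (m * Qf)` is a square
  have hsq : IsSquare (n * (m * Qf)) := by
    rw [← Rat.isSquare_intCast_iff]
    refine ⟨y * (n : ℚ) ^ 2, ?_⟩
    have : (y * (n : ℚ) ^ 2) * (y * (n : ℚ) ^ 2) = y ^ 2 * (n : ℚ) ^ 4 := by ring
    rw [this, h, hX, hQf]
    push_cast
    field_simp
  obtain ⟨z, hz⟩ := hsq
  have hz' : n * (m * Qf) = z ^ 2 := by rw [hz]; ring
  have hcopQ : IsCoprime n Qf := by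
    have h1 : IsCoprime n (m ^ 2) := hcop.symm.pow_right
    have h2 : Qf = m ^ 2 + n * (5 * n - 2 * m) := by rw [hQf]; ring
    rw [h2]
    exact h1.add_mul_left_right _
  have hcop1 : IsCoprime n (m * Qf) := hcop.symm.mul_right hcopQ
  obtain ⟨e, he⟩ := sq_of_coprime_mul_pos hcop1 hz' hnpos
  have he0 : e ≠ 0 := by
    rintro rfl
    rw [he] at hnpos; norm_num at hnpos
  have hmQ_nonneg : 0 ≤ m * Qf := by
    by_contra hcon
    have h1 : m * Qf < 0 := not_le.mp hcon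
    have h2 : n * (m * Qf) < 0 := mul_neg_of_pos_of_neg hnpos h1
    have h3 : 0 ≤ z ^ 2 := sq_nonneg z
    linarith
  have hm_nonneg : 0 ≤ m := by
    by_contra hcon
    have h1 : m < 0 := not_le.mp hcon
    have h2 : m * Qf < 0 := mul_neg_of_neg_of_pos h1 hQfpos
    linarith
  rcases hm_nonneg.eq_or_lt with hm0 | hmpos
  · left
    rw [hX, ← hm0]; simp
  right
  -- `m * Qf` is a square
  obtain ⟨w, hw⟩ : ∃ w : ℤ, m * Qf = w ^ 2 := by
    have hpos : 0 < m * Qf := mul_pos hmpos hQfpos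
    exact sq_of_coprime_mul_pos hcop1.symm (by rw [mul_comm]; exact hz') hpos
  by_cases h5 : (5 : ℤ) ∣ m
  · -- `X = 5`
    right
    obtain ⟨m', hm'⟩ := h5
    have hm'pos : 0 < m' := by linarith
    obtain ⟨Q', hQ'⟩ : ∃ Q' : ℤ, Q' = 5 * m' ^ 2 - 2 * m' * n + n ^ 2 := ⟨_, rfl⟩
    have hQfQ' : Qf = 5 * Q' := by rw [hQf, hQ', hm']; ring
    have hQ'pos : 0 < Q' := by linarith
    have h5w : (5 : ℤ) ∣ w := by
      apply prime_five_int.dvd_of_dvd_pow (n := 2)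
      rw [← hw, hm']
      exact dvd_mul_of_dvd_left (dvd_mul_right _ _) _
    obtain ⟨w', hw'⟩ := h5w
    have hmQ' : m' * Q' = w' ^ 2 := by
      have h1 : 25 * (m' * Q') = 25 * w' ^ 2 := by
        have : m * Qf = 25 * (m' * Q') := by rw [hm', hQfQ']; ring
        rw [← this, hw, hw']; ring
      linarith
    have hcop' : IsCoprime m' n := by
      rw [hm'] at hcop
      exact hcop.of_mul_left_right
    have hcopQ' : IsCoprime m' Q' := by
      have h1 : IsCoprime m' (n ^ 2) := hcop'.pow_right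
      have h2 : Q' = n ^ 2 + m' * (5 * m' - 2 * n) := by rw [hQ']; ring
      rw [h2]
      exact h1.add_mul_left_right _
    obtain ⟨M', hM'⟩ := sq_of_coprime_mul_pos hcopQ' hmQ' hm'pos
    obtain ⟨N', hN'⟩ := sq_of_coprime_mul_pos hcopQ'.symm (by rw [mul_comm]; exact hmQ') hQ'pos
    have hM'0 : M' ≠ 0 := by
      rintro rfl
      rw [hM'] at hm'pos; norm_num at hm'pos
    have hcopeM : IsCoprime e M' := by
      rw [hM', he] at hcop'
      exact ((IsCoprime.pow_iff (by norm_num) (by norm_num)).mp hcop').symm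
    have hquart : N' ^ 2 = e ^ 4 - 2 * e ^ 2 * M' ^ 2 + 5 * M' ^ 4 := by
      rw [← hN', hQ', hM', he]; ring
    obtain ⟨h1, h2⟩ := quartic_trivial M'.natAbs e M' N' rfl hcopeM hM'0 hquart
    have hm5 : m = 5 := by rw [hm', hM', h2]; norm_num
    have hn1 : n = 1 := by rw [he, h1]
    rw [hX, hm5, hn1]; norm_num
  · -- `X = 1`
    left
    have hcop5 : IsCoprime m 5 := ((Prime.coprime_iff_not_dvd prime_five_int).mpr h5).symm
    have hcopmQ : IsCoprime m Qf := by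
      have h1 : IsCoprime m (5 * n ^ 2) := hcop5.mul_right hcop.pow_right
      have h2 : Qf = 5 * n ^ 2 + m * (m - 2 * n) := by rw [hQf]; ring
      rw [h2]
      exact h1.add_mul_left_right _
    obtain ⟨M, hM⟩ := sq_of_coprime_mul_pos hcopmQ hw hmpos
    obtain ⟨N, hN⟩ := sq_of_coprime_mul_pos hcopmQ.symm (by rw [mul_comm]; exact hw) hQfpos
    have hcopMe : IsCoprime M e := by
      rw [hM, he] at hcop
      exact (IsCoprime.pow_iff (by norm_num) (by norm_num)).mp hcop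
    have hquart : N ^ 2 = M ^ 4 - 2 * M ^ 2 * e ^ 2 + 5 * e ^ 4 := by
      rw [← hN, hQf, hM, he]; ring
    obtain ⟨h1, h2⟩ := quartic_trivial e.natAbs M e N rfl hcopMe he0 hquart
    have hm1 : m = 1 := by rw [hM, h1]
    have hn1 : n = 1 := by rw [he, h2]
    rw [hX, hm1, hn1]; norm_num

/-- **Rational points of `20a1`**, `y² = (x + 1)(x² + 4)`: `x ∈ {-1, 0, 4}`. -/
theorem rat_points_20a1 (x y : ℚ) (h : y ^ 2 = (x + 1) * (x ^ 2 + 4)) :
    x = -1 ∨ x = 0 ∨ x = 4 := by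
  have h' : y ^ 2 = (x + 1) * ((x + 1) ^ 2 - 2 * (x + 1) + 5) := by rw [h]; ring
  rcases rat_points_20a1_shift (x + 1) y h' with h0 | h0 | h0
  · left; linarith
  · right; left; linarith
  · right; right; linarith


/-- No rational number squares to `5`. -/
theorem rat_sq_ne_five (r : ℚ) : r ^ 2 ≠ 5 := by
  intro h
  have h1 : IsSquare ((5 : ℤ) : ℚ) := ⟨r, by push_cast; rw [← h]; ring⟩
  rw [Rat.isSquare_intCast_iff] at h1
  obtain ⟨z, hz⟩ := h1
  have h2 : -3 < z := by nlinarith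
  have h3 : z < 3 := by nlinarith
  interval_cases z <;> omega

/-- **`X₀(20)` has no rational point outside the cusps**, in the coordinates `(h, m)` of
`X₀(10)` (`m h² + (10 m - m³) h + 5 m - 16 = 0`; `h` is the Hauptmodul of `X₀(5)` and
`t = h m³` is the Hauptmodul of `X₀(2)` with `j = (t + 16)³ / t`) together with a square
root `S` of `t (t + 64)`. -/
theorem x20_no_point (h m S : ℚ) (hh : h ≠ 0) (hm : m ≠ 0)
    (hF : m * h ^ 2 + (10 * m - m ^ 3) * h + 5 * m - 16 = 0)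
    (hS : S ^ 2 = h * m ^ 3 * (h * m ^ 3 + 64)) : False := by
  obtain ⟨D, hD⟩ : ∃ D : ℚ, D = m ^ 2 - 2 * m - 4 := ⟨_, rfl⟩
  have hD0 : D ≠ 0 := by
    intro h0
    exact rat_sq_ne_five (m - 1) (by rw [hD] at h0; linear_combination h0)
  -- the Hauptmodul `u` of `X₀(10)`, `p = u + 4`
  obtain ⟨p, hp⟩ : ∃ p : ℚ, p * D = m * (h - m + 3) :=
    ⟨m * (h - m + 3) / D, div_mul_cancel₀ _ hD0⟩
  have hR1 : p ^ 2 = m * (p + 1) := by
    have h1 : D ^ 2 * (p ^ 2 - m * (p + 1)) = 0 := by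
      rw [hD] at hp ⊢
      linear_combination m * hF + (p * (m ^ 2 - 2 * m - 4) + m * (h - m + 3)
        - m * (m ^ 2 - 2 * m - 4)) * hp
    rcases mul_eq_zero.mp h1 with h2 | h2
    · exact absurd (pow_eq_zero_iff (by norm_num) |>.mp h2) hD0
    · linarith
  have hR2 : h * p = (p - 4) * (p + 1) ^ 2 := by
    have h1 : m * (h * p - (p - 4) * (p + 1) ^ 2) = 0 := by
      rw [hD] at hp
      linear_combination (-p) * hp + (-m * p - 4) * hR1
    rcases mul_eq_zero.mp h1 with h2 | h2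
    · exact absurd h2 hm
    · linarith
  have hT : h * m ^ 3 * (p + 1) = (p - 4) * p ^ 5 := by
    linear_combination (-(h * m ^ 2) - p * (p - 4) * (m * (p + 1) + p ^ 2)) * hR1
      + m ^ 2 * p * hR2
  have hp1 : p + 1 ≠ 0 := by
    intro h0
    have h1 : p = -1 := by linarith
    rw [h1] at hR1
    norm_num at hR1
  have hp0 : p ≠ 0 := by
    intro h0
    rw [h0] at hR1
    have : m = 0 := by linarith
    exact hm this
  obtain ⟨w, hw⟩ : ∃ w : ℚ, w = p ^ 2 - 2 * p - 4 := ⟨_, rfl⟩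
  have hw0 : w ≠ 0 := by
    intro h0
    exact rat_sq_ne_five (p - 1) (by rw [hw] at h0; linear_combination h0)
  have ht0 : h * m ^ 3 ≠ 0 := mul_ne_zero hh (pow_ne_zero 3 hm)
  have hSq : S ^ 2 * (p + 1) ^ 2 = (p - 4) * p ^ 5 * (w ^ 2 * (p ^ 2 + 4)) := by
    have h1 : S ^ 2 * (p + 1) ^ 2
        = (h * m ^ 3 * (p + 1)) * (h * m ^ 3 * (p + 1) + 64 * (p + 1)) := by
      rw [hS]; ring
    rw [h1, hT, hw]; ring
  -- the point of `20a1`
  have hden : p ^ 4 * w ≠ 0 := mul_ne_zero (pow_ne_zero 4 hp0) hw0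
  obtain ⟨x, hx⟩ : ∃ x : ℚ, x * p = -4 := ⟨-4 / p, div_mul_cancel₀ _ hp0⟩
  obtain ⟨y, hy⟩ : ∃ y : ℚ, y * (p ^ 4 * w) = 2 * S * (p + 1) :=
    ⟨2 * S * (p + 1) / (p ^ 4 * w), div_mul_cancel₀ _ hden⟩
  have hxy : y ^ 2 = (x + 1) * (x ^ 2 + 4) := by
    apply mul_left_cancel₀ (pow_ne_zero 2 hden)
    linear_combination (y * (p ^ 4 * w) + 2 * S * (p + 1)) * hy + 4 * hSq
      - p ^ 5 * w ^ 2 * ((x * p) ^ 2 - 4 * (x * p) + 16 + p * (x * p - 4) + 4 * p ^ 2) * hx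
  rcases rat_points_20a1 x y hxy with h0 | h0 | h0
  · -- `x = -1`, `p = 4`, `u = 0`
    rw [h0] at hx
    have hp4 : p = 4 := by linarith
    rw [hp4] at hT
    have : h * m ^ 3 = 0 := by linarith
    exact ht0 this
  · rw [h0] at hx
    norm_num at hx
  · -- `x = 4`, `p = -1`
    rw [h0] at hx
    apply hp1
    linarith

/-- **The Diophantine core of `F5`**: the curve `X(2) ×_{X(1)} X₀(5) ≅ X₀(20)` has no
non-cuspidal rational point.  (`j = 2⁸ (A² + AB + B²)³ / (A B (A + B))²` is the `j`-invariant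
of `y² = x (x - A) (x + B)` and `j = (h² + 10 h + 5)³ / h` is the `j`-map of `X₀(5)`.) -/
theorem x20_core (A B h : ℚ) (hh : h ≠ 0) (hAB : A * B * (A + B) ≠ 0) :
    2 ^ 8 * (A ^ 2 + A * B + B ^ 2) ^ 3 * h
      ≠ A ^ 2 * B ^ 2 * (A + B) ^ 2 * (h ^ 2 + 10 * h + 5) ^ 3 := by
  intro heq
  have hA : A ≠ 0 := fun h0 => hAB (by rw [h0]; ring)
  have hB : B ≠ 0 := fun h0 => hAB (by rw [h0]; ring)
  have hC : A + B ≠ 0 := fun h0 => hAB (by rw [h0]; ring)
  have hk : h ^ 2 + 10 * h + 5 ≠ 0 := by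
    intro h0
    exact rat_sq_ne_five ((h + 5) / 2) (by linear_combination h0 / 4)
  have hc : A ^ 2 + A * B + B ^ 2 ≠ 0 := by
    intro h0
    have h1 : (2 * A + B) ^ 2 + 3 * B ^ 2 = 0 := by linear_combination 4 * h0
    have h2 : 0 < B ^ 2 := by positivity
    nlinarith [sq_nonneg (2 * A + B)]
  obtain ⟨m, hmdef⟩ : ∃ m : ℚ, m * (A * B * (h ^ 2 + 10 * h + 5))
      = -16 * (A ^ 2 + A * B + B ^ 2) :=
    ⟨-16 * (A ^ 2 + A * B + B ^ 2) / (A * B * (h ^ 2 + 10 * h + 5)),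
      div_mul_cancel₀ _ (mul_ne_zero (mul_ne_zero hA hB) hk)⟩
  have hm : m ≠ 0 := by
    intro h0
    rw [h0] at hmdef
    have : A ^ 2 + A * B + B ^ 2 = 0 := by linarith
    exact hc this
  -- `t = h m³ = -16 (A + B)² / (A B)`
  have ht : h * m ^ 3 * (A * B) = -16 * (A + B) ^ 2 := by
    have h1 : (h * m ^ 3 * (A * B) + 16 * (A + B) ^ 2)
        * (A ^ 2 * B ^ 2 * (h ^ 2 + 10 * h + 5) ^ 3) = 0 := by
      linear_combination (h * (m ^ 2 * (A * B * (h ^ 2 + 10 * h + 5)) ^ 2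
        + m * (A * B * (h ^ 2 + 10 * h + 5)) * (-16 * (A ^ 2 + A * B + B ^ 2))
        + (-16 * (A ^ 2 + A * B + B ^ 2)) ^ 2)) * hmdef - 16 * heq
    rcases mul_eq_zero.mp h1 with h2 | h2
    · linarith
    · exfalso
      exact (mul_ne_zero (mul_ne_zero (pow_ne_zero 2 hA) (pow_ne_zero 2 hB))
        (pow_ne_zero 3 hk)) h2
  have hF : m * h ^ 2 + (10 * m - m ^ 3) * h + 5 * m - 16 = 0 := by
    have h1 : (m * h ^ 2 + (10 * m - m ^ 3) * h + 5 * m - 16) * (A * B) = 0 := by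
      linear_combination hmdef - ht
    rcases mul_eq_zero.mp h1 with h2 | h2
    · exact h2
    · exact absurd h2 (mul_ne_zero hA hB)
  obtain ⟨S, hSdef⟩ : ∃ S : ℚ, S * (A * B) = 16 * (A + B) * (A - B) :=
    ⟨16 * (A + B) * (A - B) / (A * B), div_mul_cancel₀ _ (mul_ne_zero hA hB)⟩
  have hS : S ^ 2 = h * m ^ 3 * (h * m ^ 3 + 64) := by
    apply mul_left_cancel₀ (pow_ne_zero 2 (mul_ne_zero hA hB))
    linear_combination (S * (A * B) + 16 * (A + B) * (A - B)) * hSdef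
      - (h * m ^ 3 * (A * B) + 64 * (A * B) - 16 * (A + B) ^ 2) * ht
  exact x20_no_point h m S hh hm hF hS

end Fermat.Agent.G2.H6

end
-- ===== PACK-END G2/H6/X20.lean

-- ===== PACK-BEGIN S48/H788/Teich.lean
section


/-!
# S48 / Tower A1 / piece P2 (helper788): the inverse Teichmüller character of a residue map

For a prime `ℓ`, a field `k` of characteristic `ℓ` and a ring hom `φ : ℤ̄ → k` there is a Dirichlet
character `ψ : (ℤ/ℓ)ˣ → ℂˣ` with values in `ℤ̄` (`(ℓ-1)`-th roots of unity) and `φ(ψ(a)) · a = 1`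
in `k` for every unit `a`: `ψ = ω⁻¹`, `ω` the Teichmüller character relative to `φ`.
-/

set_option autoImplicit false

noncomputable section

namespace Fermat.Agent.S48.H788

open Polynomial

/-- `ℤ̄ ⊆ ℂ`. -/
abbrev ZbarT : Type := integralClosure ℤ ℂ

section

variable (ℓ : ℕ) [hℓ : Fact ℓ.Prime] {k : Type*} [Field k] [CharP k ℓ] (φ : ZbarT →+* k)

/-- The standard primitive `(ℓ-1)`-th root of unity of `ℂ`, as an algebraic integer. -/
def zetaT : ZbarT :=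
  ⟨Complex.exp (2 * Real.pi * Complex.I / ((ℓ - 1 : ℕ) : ℂ)), by
    have hn : ℓ - 1 ≠ 0 := Nat.sub_ne_zero_of_lt hℓ.out.one_lt
    have h := Complex.isPrimitiveRoot_exp (ℓ - 1) hn
    exact IsIntegral.of_pow (Nat.pos_of_ne_zero hn) (by rw [h.pow_eq_one]; exact isIntegral_one)⟩

theorem zetaT_isPrimitiveRoot : IsPrimitiveRoot ((zetaT ℓ : ZbarT) : ℂ) (ℓ - 1) :=
  Complex.isPrimitiveRoot_exp (ℓ - 1) (Nat.sub_ne_zero_of_lt hℓ.out.one_lt)

theorem natCast_sub_one_ne_zero : (((ℓ - 1 : ℕ)) : k) ≠ 0 := by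
  intro h
  have h1 : (ℓ : k) = 0 := CharP.cast_eq_zero k ℓ
  have h2 : ℓ ∣ ℓ - 1 := (CharP.cast_eq_zero_iff k ℓ (ℓ - 1)).mp h
  have h3 := Nat.le_of_dvd (Nat.sub_pos_of_lt hℓ.out.one_lt) h2
  have := hℓ.out.one_lt
  omega

/-- The image of `ζ` in `k` is a primitive `(ℓ-1)`-th root of unity. -/
theorem map_zetaT_isPrimitiveRoot : IsPrimitiveRoot (φ (zetaT ℓ)) (ℓ - 1) := by
  have hn : 0 < ℓ - 1 := Nat.sub_pos_of_lt hℓ.out.one_lt
  have hk : NeZero (((ℓ - 1 : ℕ)) : k) := ⟨natCast_sub_one_ne_zero ℓ⟩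
  have hC : NeZero (((ℓ - 1 : ℕ)) : ℂ) := ⟨Nat.cast_ne_zero.mpr hn.ne'⟩
  have h0 : (cyclotomic (ℓ - 1) ℂ).IsRoot ((zetaT ℓ : ZbarT) : ℂ) :=
    (Polynomial.isRoot_cyclotomic_iff (R := ℂ) (n := ℓ - 1)).mpr (zetaT_isPrimitiveRoot ℓ)
  have h1 : aeval ((zetaT ℓ : ZbarT) : ℂ) (cyclotomic (ℓ - 1) ℤ) = 0 := by
    rw [aeval_def, eval₂_eq_eval_map, map_cyclotomic]
    exact h0
  have h2 : aeval (zetaT ℓ : ZbarT) (cyclotomic (ℓ - 1) ℤ) = 0 := by
    apply Subtype.ext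
    have := (aeval_algebraMap_apply ℂ (zetaT ℓ : ZbarT) (cyclotomic (ℓ - 1) ℤ))
    simpa [h1] using this.symm
  have e : φ.comp (algebraMap ℤ ZbarT) = Int.castRingHom k := RingHom.ext_int _ _
  have h3 : (cyclotomic (ℓ - 1) ℤ).eval₂ (Int.castRingHom k) (φ (zetaT ℓ)) = 0 := by
    have := congrArg φ h2
    rw [map_zero, aeval_def, hom_eval₂, e] at this
    exact this
  refine (Polynomial.isRoot_cyclotomic_iff (R := k) (n := ℓ - 1)).mp ?_
  rw [IsRoot.def, ← map_cyclotomic_int, eval_map]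
  exact h3

/-- The canonical map `ℤ/ℓ → k`. -/
abbrev castT : ZMod ℓ →+* k := ZMod.castHom (dvd_refl ℓ) k

theorem exists_exponent (u : (ZMod ℓ)ˣ) :
    ∃ i : ℕ, i < ℓ - 1 ∧ (φ (zetaT ℓ)) ^ i = castT ℓ (k := k) ((u⁻¹ : (ZMod ℓ)ˣ) : ZMod ℓ) := by
  have hz := map_zetaT_isPrimitiveRoot ℓ φ
  have hn : 0 < ℓ - 1 := Nat.sub_pos_of_lt hℓ.out.one_lt
  have h1 : (castT ℓ (k := k) ((u⁻¹ : (ZMod ℓ)ˣ) : ZMod ℓ)) ^ (ℓ - 1) = 1 := by
    rw [← map_pow, ZMod.pow_card_sub_one_eq_one (Units.ne_zero _), map_one]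
  have : NeZero (ℓ - 1) := ⟨hn.ne'⟩
  obtain ⟨i, hi, h⟩ := hz.eq_pow_of_pow_eq_one h1
  exact ⟨i, hi, h⟩

/-- The exponent `i(u)` with `φ(ζ)^{i(u)} = u⁻¹` in `k`. -/
def expT (u : (ZMod ℓ)ˣ) : ℕ := Classical.choose (exists_exponent ℓ φ u)

theorem expT_lt (u : (ZMod ℓ)ˣ) : expT ℓ φ u < ℓ - 1 :=
  (Classical.choose_spec (exists_exponent ℓ φ u)).1

theorem expT_spec (u : (ZMod ℓ)ˣ) :
    (φ (zetaT ℓ)) ^ expT ℓ φ u = castT ℓ (k := k) ((u⁻¹ : (ZMod ℓ)ˣ) : ZMod ℓ) :=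
  (Classical.choose_spec (exists_exponent ℓ φ u)).2

theorem zetaT_ne_zero : ((zetaT ℓ : ZbarT) : ℂ) ≠ 0 :=
  (zetaT_isPrimitiveRoot ℓ).ne_zero (Nat.sub_ne_zero_of_lt hℓ.out.one_lt)

theorem zetaT_pow_congr {i j : ℕ} (h : (φ (zetaT ℓ)) ^ i = (φ (zetaT ℓ)) ^ j) :
    ((zetaT ℓ : ZbarT) : ℂ) ^ i = ((zetaT ℓ : ZbarT) : ℂ) ^ j := by
  have hz := map_zetaT_isPrimitiveRoot ℓ φ
  have hζ := zetaT_isPrimitiveRoot ℓ
  have hn : 0 < ℓ - 1 := Nat.sub_pos_of_lt hℓ.out.one_lt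
  have h1 : (φ (zetaT ℓ)) ^ (i % (ℓ - 1)) = (φ (zetaT ℓ)) ^ (j % (ℓ - 1)) := by
    have e1 : (φ (zetaT ℓ)) ^ (i % (ℓ - 1)) = (φ (zetaT ℓ)) ^ i := by
      conv_rhs => rw [← Nat.mod_add_div i (ℓ - 1), pow_add, pow_mul, hz.pow_eq_one, one_pow,
        mul_one]
    have e2 : (φ (zetaT ℓ)) ^ (j % (ℓ - 1)) = (φ (zetaT ℓ)) ^ j := by
      conv_rhs => rw [← Nat.mod_add_div j (ℓ - 1), pow_add, pow_mul, hz.pow_eq_one, one_pow,
        mul_one]
    rw [e1, e2, h]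
  have h2 := hz.pow_inj (Nat.mod_lt _ hn) (Nat.mod_lt _ hn) h1
  conv_lhs => rw [← Nat.mod_add_div i (ℓ - 1), pow_add, pow_mul, hζ.pow_eq_one, one_pow, mul_one]
  conv_rhs => rw [← Nat.mod_add_div j (ℓ - 1), pow_add, pow_mul, hζ.pow_eq_one, one_pow, mul_one]
  rw [h2]

/-- The inverse Teichmüller character on units. -/
def teichUnitHom : (ZMod ℓ)ˣ →* ℂˣ where
  toFun u := Units.mk0 (((zetaT ℓ : ZbarT) : ℂ) ^ expT ℓ φ u) (pow_ne_zero _ (zetaT_ne_zero ℓ))
  map_one' := by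
    apply Units.ext
    show ((zetaT ℓ : ZbarT) : ℂ) ^ expT ℓ φ 1 = 1
    rw [← pow_zero ((zetaT ℓ : ZbarT) : ℂ)]
    apply zetaT_pow_congr ℓ φ
    rw [expT_spec, pow_zero]
    simp
  map_mul' u v := by
    apply Units.ext
    show ((zetaT ℓ : ZbarT) : ℂ) ^ expT ℓ φ (u * v) =
      ((zetaT ℓ : ZbarT) : ℂ) ^ expT ℓ φ u * ((zetaT ℓ : ZbarT) : ℂ) ^ expT ℓ φ v
    rw [← pow_add]
    apply zetaT_pow_congr ℓ φ
    rw [pow_add, expT_spec, expT_spec, expT_spec, ← map_mul]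
    congr 1
    rw [mul_inv, Units.val_mul]

/-- The inverse Teichmüller character `ψ = ω⁻¹` relative to `φ`. -/
def teichInv : DirichletCharacter ℂ ℓ := MulChar.ofUnitHom (teichUnitHom ℓ φ)

theorem teichInv_coe (u : (ZMod ℓ)ˣ) :
    teichInv ℓ φ (u : ZMod ℓ) = (((zetaT ℓ) ^ expT ℓ φ u : ZbarT) : ℂ) := by
  unfold teichInv
  rw [MulChar.ofUnitHom_coe]
  rfl

theorem castT_eq_val (a : ZMod ℓ) : castT ℓ (k := k) a = ((a.val : ℕ) : k) := by
  rw [ZMod.castHom_apply, ZMod.natCast_val]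

/-- Values of `ψ` are algebraic integers, and `φ(ψ(a)) · a = 1` for `a ≠ 0`. -/
theorem teichInv_spec (a : ZMod ℓ) :
    ∃ z : ZbarT, (z : ℂ) = teichInv ℓ φ a ∧
      φ z * ((a.val : ℕ) : k) = if a = 0 then 0 else 1 := by
  by_cases ha : a = 0
  · subst ha
    refine ⟨0, ?_, by simp⟩
    have : ¬ IsUnit (0 : ZMod ℓ) := not_isUnit_zero
    rw [MulChar.map_nonunit _ this]
    rfl
  · obtain ⟨u, rfl⟩ : IsUnit a := IsUnit.mk0 a ha
    refine ⟨(zetaT ℓ) ^ expT ℓ φ u, (teichInv_coe ℓ φ u).symm, ?_⟩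
    rw [if_neg ha, map_pow, expT_spec, ← castT_eq_val, ← map_mul, Units.inv_mul, map_one]

/-- `ψ` is odd (for `ℓ ≠ 2`). -/
theorem teichInv_odd (hℓ2 : ℓ ≠ 2) : (teichInv ℓ φ).Odd := by
  have hsq : (teichInv ℓ φ (-1)) ^ 2 = 1 := by
    rw [← map_pow]; simp
  have hcases : teichInv ℓ φ (-1) = 1 ∨ teichInv ℓ φ (-1) = -1 := by
    have : (teichInv ℓ φ (-1) - 1) * (teichInv ℓ φ (-1) + 1) = 0 := by
      ring_nf; rw [hsq]; ring
    rcases mul_eq_zero.mp this with h | h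
    · left; exact sub_eq_zero.mp h
    · right; exact eq_neg_of_add_eq_zero_left h
  rcases hcases with h | h
  · exfalso
    obtain ⟨z, hz, hφ⟩ := teichInv_spec ℓ φ (-1 : ZMod ℓ)
    have hne : (-1 : ZMod ℓ) ≠ 0 := neg_ne_zero.mpr one_ne_zero
    rw [if_neg hne] at hφ
    have hz1 : z = 1 := by
      apply Subtype.ext
      rw [hz, h]
      rfl
    rw [hz1, map_one, one_mul, ← castT_eq_val, map_neg, map_one] at hφ
    -- `-1 = 1` in `k` forces `ℓ = 2`
    have h2 : (2 : k) = 0 := by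
      have : (1 : k) + 1 = 0 := by
        nth_rewrite 1 [← hφ]
        ring
      rw [← this]; norm_num
    have h3 : ((2 : ℕ) : k) = 0 := by exact_mod_cast h2
    have h4 : ℓ ∣ 2 := (CharP.cast_eq_zero_iff k ℓ 2).mp h3
    have h5 := (Nat.prime_dvd_prime_iff_eq hℓ.out Nat.prime_two).mp h4
    exact hℓ2 h5
  · exact h

end

end Fermat.Agent.S48.H788

end
end
-- ===== PACK-END S48/H788/Teich.lean

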