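import Mathlib
import Fermat.Prelude.Def_FLTPrelim_FreyPackage
import Fermat.Prelude.Def_FLTPrelim_Modularity
import Fermat.Prelude.Def_FLTPrelim_ModularRep
import Fermat.Prelude.Def_FreyPackage_IsConductorLevel
import Fermat.Prelude.Def_WeierstrassCurve_Mlc1RowStatement
import Fermat.Prelude.Def_CuspForm_IntegralLattice
import Fermat.Prelude.Def_CuspForm_HeckeLocal
import Fermat.Agent.Pack.L1.E0L1

-- ===== PACK-BEGIN S15/H226/WpDeriv.lean
section


/-!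
# S15 / MOD-B3 (helper226): derivative of `℘'` and the elliptic Liouville principle

Mathlib-only.  Main results:

* `countable_lattice226`, `isPreconnected_compl_lattice226`
* `deriv_derivWeierstrassP226` : `deriv ℘' z = 6 ℘ z ^ 2 - g₂ / 2` off the lattice
* `elliptic_const226` : a meromorphic `Λ`-periodic function all of whose orders are `≥ 0`
  is constant on its continuity points.
-/

set_option autoImplicit false

open Filter Topology

noncomputable section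

namespace Fermat.Agent.S15.H226

open PeriodPair

theorem countable_lattice226 (L : PeriodPair) : (L.lattice : Set ℂ).Countable := by
  have : Countable L.lattice := L.latticeEquivProd.toEquiv.countable_iff.mpr inferInstance
  exact Set.countable_coe_iff.mp this

theorem isPreconnected_compl_lattice226 (L : PeriodPair) :
    IsPreconnected ((L.lattice : Set ℂ)ᶜ) := by
  have h : 1 < Module.rank ℝ ℂ := by
    rw [Complex.rank_real_complex]; norm_num
  exact ((countable_lattice226 L).isConnected_compl_of_one_lt_rank h).isPreconnected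

theorem hasDerivAt_weierstrassP226 (L : PeriodPair) {z : ℂ} (hz : z ∉ L.lattice) :
    HasDerivAt ℘[L] (℘'[L] z) z := by
  have h := (L.analyticOnNhd_weierstrassP z hz).differentiableAt.hasDerivAt
  rwa [L.deriv_weierstrassP] at h

theorem hasDerivAt_derivWeierstrassP226 (L : PeriodPair) {z : ℂ} (hz : z ∉ L.lattice) :
    HasDerivAt ℘'[L] (deriv ℘'[L] z) z :=
  (L.analyticOnNhd_derivWeierstrassP z hz).differentiableAt.hasDerivAt

/-- `℘'` does not vanish identically off the lattice. -/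
theorem not_forall_derivWeierstrassP_eq_zero226 (L : PeriodPair) :
    ¬ ∀ z ∈ (L.lattice : Set ℂ)ᶜ, ℘'[L] z = 0 := by
  intro h
  have hopen : IsOpen ((L.lattice : Set ℂ)ᶜ) := L.isClosed_lattice.isOpen_compl
  have hconst : ∀ z ∈ (L.lattice : Set ℂ)ᶜ, ℘[L] z = ℘[L] (L.ω₁ / 2) := by
    intro z hz
    refine hopen.is_const_of_deriv_eq_zero (isPreconnected_compl_lattice226 L)
      L.differentiableOn_weierstrassP ?_ hz L.ω₁_div_two_notMem_lattice
    intro x hx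
    rw [L.deriv_weierstrassP]
    exact h x hx
  have hev : ℘[L] =ᶠ[𝓝[≠] (0 : ℂ)] fun _ => ℘[L] (L.ω₁ / 2) := by
    filter_upwards [mem_nhdsWithin_of_mem_nhds (L.compl_lattice_sdiff_singleton_mem_nhds 0),
      self_mem_nhdsWithin] with z hz hz0
    refine hconst z fun hzL => hz ⟨hzL, hz0⟩
  have h1 : meromorphicOrderAt ℘[L] 0 = meromorphicOrderAt (fun _ : ℂ => ℘[L] (L.ω₁ / 2)) 0 :=
    meromorphicOrderAt_congr hev
  have h2 : (0 : WithTop ℤ) ≤ meromorphicOrderAt (fun _ : ℂ => ℘[L] (L.ω₁ / 2)) 0 :=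
    (analyticAt_const).meromorphicOrderAt_nonneg
  rw [← h1, L.order_weierstrassP 0 (zero_mem _)] at h2
  exact absurd h2 (by decide)

/-- `℘'' = 6 ℘² - g₂ / 2` off the lattice. -/
theorem deriv_derivWeierstrassP226 (L : PeriodPair) {z : ℂ} (hz : z ∉ L.lattice) :
    deriv ℘'[L] z = 6 * ℘[L] z ^ 2 - L.g₂ / 2 := by
  have hopen : IsOpen ((L.lattice : Set ℂ)ᶜ) := L.isClosed_lattice.isOpen_compl
  -- the product relation
  have hprod : ∀ x ∈ (L.lattice : Set ℂ)ᶜ,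
      ℘'[L] x * (deriv ℘'[L] x - (6 * ℘[L] x ^ 2 - L.g₂ / 2)) = 0 := by
    intro x hx
    have hP := hasDerivAt_weierstrassP226 L hx
    have hP' := hasDerivAt_derivWeierstrassP226 L hx
    have hL : HasDerivAt (fun y => ℘'[L] y ^ 2) (2 * ℘'[L] x * deriv ℘'[L] x) x := by
      simpa using hP'.fun_pow 2
    have hR : HasDerivAt (fun y => 4 * ℘[L] y ^ 3 - L.g₂ * ℘[L] y - L.g₃)
        (4 * (3 * ℘[L] x ^ 2 * ℘'[L] x) - L.g₂ * ℘'[L] x) x := by
      have := (((hP.fun_pow 3).const_mul 4).sub (hP.const_mul L.g₂)).sub_const L.g₃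
      simpa using this
    have heq : (fun y => ℘'[L] y ^ 2) =ᶠ[𝓝 x]
        fun y => 4 * ℘[L] y ^ 3 - L.g₂ * ℘[L] y - L.g₃ := by
      filter_upwards [hopen.mem_nhds hx] with y hy
      exact L.derivWeierstrassP_sq y hy
    have := (hL.congr_of_eventuallyEq heq.symm).unique hR
    linear_combination (1 / 2 : ℂ) * this
  have hana1 : AnalyticOnNhd ℂ ℘'[L] (L.lattice : Set ℂ)ᶜ := L.analyticOnNhd_derivWeierstrassP
  have hana2 : AnalyticOnNhd ℂ (fun x => deriv ℘'[L] x - (6 * ℘[L] x ^ 2 - L.g₂ / 2))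
      (L.lattice : Set ℂ)ᶜ := by
    intro x hx
    have h1 : AnalyticAt ℂ (deriv ℘'[L]) x := (L.analyticOnNhd_derivWeierstrassP x hx).deriv
    have h2 : AnalyticAt ℂ ℘[L] x := L.analyticOnNhd_weierstrassP x hx
    fun_prop
  rcases AnalyticOnNhd.eq_zero_or_eq_zero_of_mul_eq_zero hana1 hana2 hprod
    (isPreconnected_compl_lattice226 L) with h | h
  · exact absurd h (not_forall_derivWeierstrassP_eq_zero226 L)
  · exact sub_eq_zero.mp (h z hz)

/-- Two functions continuous at `z` that agree on a punctured neighbourhood agree at `z`. -/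
theorem eq_of_eventuallyEq_nhdsNE226 {f g : ℂ → ℂ} {z : ℂ} (hf : ContinuousAt f z)
    (hg : ContinuousAt g z) (h : f =ᶠ[𝓝[≠] z] g) : f z = g z := by
  have h1 : Tendsto f (𝓝[≠] z) (𝓝 (f z)) := hf.tendsto.mono_left nhdsWithin_le_nhds
  have h2 : Tendsto g (𝓝[≠] z) (𝓝 (g z)) := hg.tendsto.mono_left nhdsWithin_le_nhds
  exact tendsto_nhds_unique (h1.congr' h) h2

/-- Translation of a punctured-neighbourhood equality. -/
theorem eventuallyEq_nhdsNE_comp_add226 {f g : ℂ → ℂ} {z l : ℂ} (h : f =ᶠ[𝓝[≠] (z + l)] g) :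
    (fun y => f (y + l)) =ᶠ[𝓝[≠] z] fun y => g (y + l) := by
  rw [Filter.EventuallyEq, eventually_nhdsWithin_iff] at h ⊢
  have ht : Tendsto (fun y : ℂ => y + l) (𝓝 z) (𝓝 (z + l)) :=
    (continuous_id.add continuous_const).continuousAt
  filter_upwards [ht.eventually h] with y hy hyz
  exact hy (by simpa using hyz)

/-- **Elliptic Liouville principle.**  A meromorphic function on `ℂ`, periodic with respect to
the lattice of `L`, all of whose orders are nonnegative, is constant on its continuity points. -/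
theorem elliptic_const226 (L : PeriodPair) {f : ℂ → ℂ} (hf : Meromorphic f)
    (hord : ∀ z, 0 ≤ meromorphicOrderAt f z)
    (hper : ∀ z, ∀ l ∈ L.lattice, f (z + l) = f z) :
    ∃ c, ∀ z, ContinuousAt f z → f z = c := by
  have hfU : MeromorphicOn f Set.univ := fun x _ => hf x
  set g := toMeromorphicNFOn f Set.univ with hg
  have hgNF : MeromorphicNFOn g Set.univ := meromorphicNFOn_toMeromorphicNFOn f Set.univ
  have hg_eq : ∀ x, g =ᶠ[𝓝[≠] x] f := fun x =>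
    hfU.toMeromorphicNFOn_eq_self_on_nhdsNE (Set.mem_univ x)
  have hg_an : ∀ x, AnalyticAt ℂ g x := by
    intro x
    refine (hgNF (Set.mem_univ x)).meromorphicOrderAt_nonneg_iff_analyticAt.mp ?_
    rw [meromorphicOrderAt_congr (hg_eq x)]
    exact hord x
  have hg_diff : Differentiable ℂ g := fun x => (hg_an x).differentiableAt
  have hg_per : ∀ z w, w ∈ L.lattice → g (z + w) = g z := by
    intro z w hw
    have h1 : (fun y => g (y + w)) =ᶠ[𝓝[≠] z] fun y => f (y + w) :=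
      eventuallyEq_nhdsNE_comp_add226 (hg_eq (z + w))
    have h2 : (fun y => f (y + w)) =ᶠ[𝓝[≠] z] g := by
      refine Filter.EventuallyEq.trans ?_ (hg_eq z).symm
      exact Filter.Eventually.of_forall fun y => hper y w hw
    have hc : ContinuousAt (fun y => g (y + w)) z :=
      (hg_diff.continuous.comp (continuous_id.add continuous_const)).continuousAt
    exact eq_of_eventuallyEq_nhdsNE226 hc hg_diff.continuous.continuousAt (h1.trans h2)
  have hbdd : Bornology.IsBounded (Set.range g) :=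
    (IsZLattice.isCompact_range_of_periodic L.lattice g hg_diff.continuous hg_per).isBounded
  refine ⟨g 0, fun z hz => ?_⟩
  have h1 : f z = g z :=
    eq_of_eventuallyEq_nhdsNE226 hz hg_diff.continuous.continuousAt (hg_eq z).symm
  rw [h1]
  exact hg_diff.apply_eq_apply_of_bounded hbdd z 0

end Fermat.Agent.S15.H226

end
end
-- ===== PACK-END S15/H226/WpDeriv.lean

-- ===== PACK-BEGIN S12/H651/RootSums.lean
section


/-!
# S12 / QUOT-Q3 (helper651), part 2: sums over the nontrivial `p`-th roots of unity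

For a primitive `p`-th root of unity `ζ` in a field in which `2, 3, 5` are invertible and
`s_k = ζ ^ k / (1 - ζ ^ k) ^ 2`:

  `120 * ∑_{k = 1}^{p - 1} (6 s_k ^ 2 + s_k) = p ^ 4 - 1`        (`root_sum`).

Proof: `s_k = v_k ^ 2 + v_k` with `v_k = 1 / (ζ ^ k - 1)`; the `v_k` are the roots of
`(X + 1) ^ p - X ^ p = p X ^ (p-1) + C(p,2) X ^ (p-2) + …` (`add_one_pow_sub_pow_eq`), so their
elementary symmetric functions are binomial coefficients (`esymm_vRoot`), and Newton's identities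
(`newton_four`, from Mathlib's `MvPolynomial.psum_eq_mul_esymm_sub_sum`) give the power sums.

This is the computation behind "Vélu's quotient of a nodal cubic by `μ_p` multiplies `c₄` by `p⁴`".
Mathlib only.
-/

set_option autoImplicit false

namespace Fermat.Agent.S12.H651

open Finset Polynomial

section Newton

variable {κ : Type*} [CommRing κ]

/-- Newton's identities for the first four power sums of a finite family. -/
theorem newton_four {ι : Type*} [Fintype ι] (f : ι → κ) :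
    (∑ i, f i ^ 1 = (univ.val.map f).esymm 1) ∧
    (∑ i, f i ^ 2 = (univ.val.map f).esymm 1 * ∑ i, f i ^ 1 - 2 * (univ.val.map f).esymm 2) ∧
    (∑ i, f i ^ 3 = (univ.val.map f).esymm 1 * ∑ i, f i ^ 2
        - (univ.val.map f).esymm 2 * ∑ i, f i ^ 1 + 3 * (univ.val.map f).esymm 3) ∧
    (∑ i, f i ^ 4 = (univ.val.map f).esymm 1 * ∑ i, f i ^ 3
        - (univ.val.map f).esymm 2 * ∑ i, f i ^ 2 + (univ.val.map f).esymm 3 * ∑ i, f i ^ 1
        - 4 * (univ.val.map f).esymm 4) := by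
  classical
  have key : ∀ k : ℕ, 0 < k → ∑ i, f i ^ k =
      (-1) ^ (k + 1) * k * (univ.val.map f).esymm k -
      ∑ a ∈ antidiagonal k with a.1 ∈ Set.Ioo 0 k,
        (-1) ^ a.1 * (univ.val.map f).esymm a.1 * ∑ i, f i ^ a.2 := by
    intro k hk
    have h := congrArg (MvPolynomial.aeval (R := ℤ) f)
      (MvPolynomial.psum_eq_mul_esymm_sub_sum ι ℤ k hk)
    simp only [MvPolynomial.psum, map_sum, map_pow, MvPolynomial.aeval_X, map_sub, map_mul,
      map_neg, map_one, map_natCast, MvPolynomial.aeval_esymm_eq_multiset_esymm] at h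
    exact h
  refine ⟨?_, ?_, ?_, ?_⟩
  · rw [key 1 one_pos]
    simp [Finset.sum_filter, Finset.Nat.antidiagonal_succ]
  · rw [key 2 two_pos]
    simp [Finset.sum_filter, Finset.Nat.antidiagonal_succ]
    ring
  · rw [key 3 (by norm_num)]
    simp [Finset.sum_filter, Finset.Nat.antidiagonal_succ]
    ring
  · rw [key 4 (by norm_num)]
    simp [Finset.sum_filter, Finset.Nat.antidiagonal_succ]
    ring

end Newton


section RootPoly

variable {κ : Type*} [Field κ]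

/-- `v_k = 1 / (ζ ^ k - 1)`. -/
noncomputable def vRoot (ζ : κ) (k : ℕ) : κ := (ζ ^ k - 1)⁻¹

lemma vRoot_add_one {ζ : κ} {k : ℕ} (hk : ζ ^ k ≠ 1) : vRoot ζ k + 1 = ζ ^ k * vRoot ζ k := by
  unfold vRoot
  have h : ζ ^ k - 1 ≠ 0 := sub_ne_zero.mpr hk
  field_simp
  ring

lemma vRoot_add_one_pow {ζ : κ} {p k : ℕ} (hζ : ζ ^ p = 1) (hk : ζ ^ k ≠ 1) :
    (vRoot ζ k + 1) ^ p = vRoot ζ k ^ p := by
  rw [vRoot_add_one hk, mul_pow, ← pow_mul, mul_comm k p, pow_mul, hζ, one_pow, one_mul]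

/-- `ζ ^ k / (1 - ζ ^ k)² = v_k² + v_k`. -/
lemma s_eq_vRoot {ζ : κ} {k : ℕ} (hk : ζ ^ k ≠ 1) :
    ζ ^ k / (1 - ζ ^ k) ^ 2 = vRoot ζ k ^ 2 + vRoot ζ k := by
  unfold vRoot
  have h : ζ ^ k - 1 ≠ 0 := sub_ne_zero.mpr hk
  have h' : 1 - ζ ^ k ≠ 0 := sub_ne_zero.mpr (Ne.symm hk)
  field_simp
  ring

variable {ζ : κ} {p : ℕ}

lemma pow_ne_one_of_lt (hζ : IsPrimitiveRoot ζ p) {k : ℕ} (h0 : 0 < k) (hk : k < p) :
    ζ ^ k ≠ 1 := hζ.pow_ne_one_of_pos_of_lt (Nat.pos_iff_ne_zero.mp h0) hk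

lemma vRoot_injOn (hζ : IsPrimitiveRoot ζ p) :
    Function.Injective fun i : Fin (p - 1) => vRoot ζ (i + 1) := by
  intro i j h
  simp only [vRoot] at h
  have h1 : ζ ^ ((i : ℕ) + 1) = ζ ^ ((j : ℕ) + 1) := by
    have := inv_injective h
    exact sub_left_injective this
  have hi : (i : ℕ) + 1 < p := by have := i.2; omega
  have hj : (j : ℕ) + 1 < p := by have := j.2; omega
  have := hζ.pow_inj hi hj h1
  exact Fin.ext (by omega)

/-- The polynomial `(X + 1) ^ p - X ^ p` has the roots `v_k`, `1 ≤ k ≤ p - 1`. -/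
theorem add_one_pow_sub_pow_eq (hp : 2 ≤ p) (hζ : IsPrimitiveRoot ζ p) :
    ((X : κ[X]) + 1) ^ p - X ^ p = C (p : κ) * ∏ i : Fin (p - 1), (X - C (vRoot ζ (i + 1))) := by
  classical
  set G : κ[X] := ∏ i : Fin (p - 1), (X - C (vRoot ζ (i + 1))) with hG
  have hGmonic : G.Monic := monic_prod_of_monic _ _ fun i _ => monic_X_sub_C _
  have hGdeg : G.natDegree = p - 1 := by
    rw [hG, natDegree_prod_of_monic _ _ fun i _ => monic_X_sub_C _]
    simp
  refine eq_of_degree_sub_lt_of_eval_index_eq (v := fun i : Fin (p - 1) => vRoot ζ (i + 1))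
    Finset.univ (vRoot_injOn hζ).injOn ?_ ?_
  · rw [Finset.card_univ, Fintype.card_fin, degree_lt_iff_coeff_zero]
    intro m hm
    rw [coeff_sub, coeff_sub, coeff_C_mul, coeff_X_add_one_pow, coeff_X_pow]
    rcases Nat.lt_or_ge m p with h1 | h1
    · have hm' : m = p - 1 := by omega
      subst hm'
      have : G.coeff (p - 1) = 1 := by
        rw [← hGdeg]; exact hGmonic.coeff_natDegree
      rw [this, if_neg (by omega), Nat.choose_symm_of_eq_add (by omega : p = (p - 1) + 1),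
        Nat.choose_one_right]
      ring
    · rw [coeff_eq_zero_of_natDegree_lt (by omega : G.natDegree < m)]
      rcases Nat.eq_or_lt_of_le h1 with h2 | h2
      · subst h2
        simp
      · rw [if_neg (by omega), Nat.choose_eq_zero_of_lt h2]
        simp
  · intro i _
    have hi : (i : ℕ) + 1 < p := by have := i.2; omega
    have hk := pow_ne_one_of_lt hζ (Nat.succ_pos i) hi
    rw [eval_sub, eval_pow, eval_add, eval_X, eval_one, eval_pow, eval_X,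
      vRoot_add_one_pow hζ.pow_eq_one hk, sub_self, eval_mul, eval_C, hG, eval_prod,
      Finset.prod_eq_zero (Finset.mem_univ i) (by simp), mul_zero]

/-- Vieta: the elementary symmetric functions of the `v_k`. -/
theorem esymm_vRoot (hp : 2 ≤ p) (hζ : IsPrimitiveRoot ζ p) {j : ℕ} (hj : j ≤ p - 1) :
    (p : κ) * (Finset.univ.val.map fun i : Fin (p - 1) => vRoot ζ (i + 1)).esymm j =
      (-1) ^ j * (p.choose (j + 1) : κ) := by
  classical
  have h := add_one_pow_sub_pow_eq hp hζ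
  have hprod : (∏ i : Fin (p - 1), (X - C (vRoot ζ (i + 1))) : κ[X]) =
      ((Finset.univ.val.map fun i : Fin (p - 1) => vRoot ζ (i + 1)).map
        fun t => X - C t).prod := by
    rw [Multiset.map_map]
    rfl
  have hcard : Multiset.card (Finset.univ.val.map fun i : Fin (p - 1) => vRoot ζ (i + 1))
      = p - 1 := by simp
  have hc : (((X : κ[X]) + 1) ^ p - X ^ p).coeff (p - 1 - j) =
      (C (p : κ) * ∏ i : Fin (p - 1), (X - C (vRoot ζ (i + 1)))).coeff (p - 1 - j) := by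
    rw [h]
  rw [coeff_sub, coeff_C_mul, coeff_X_add_one_pow, coeff_X_pow, if_neg (by omega), hprod,
    Multiset.prod_X_sub_C_coeff _ (by rw [hcard]; omega), hcard, sub_zero,
    Nat.sub_sub_self hj] at hc
  have hch : p.choose (p - 1 - j) = p.choose (j + 1) :=
    Nat.choose_symm_of_eq_add (by omega)
  rw [hch] at hc
  have hsq : ((-1 : κ) ^ j) * (-1) ^ j = 1 := by
    rw [← mul_pow]; simp
  calc (p : κ) * (Finset.univ.val.map fun i : Fin (p - 1) => vRoot ζ (i + 1)).esymm j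
      = (-1) ^ j * ((p : κ) * ((-1) ^ j *
          (Finset.univ.val.map fun i : Fin (p - 1) => vRoot ζ (i + 1)).esymm j)) := by
        linear_combination (-(p : κ) *
          (Finset.univ.val.map fun i : Fin (p - 1) => vRoot ζ (i + 1)).esymm j) * hsq
    _ = (-1) ^ j * (p.choose (j + 1) : κ) := by rw [← hc]

end RootPoly


section RootSum

variable {κ : Type*} [Field κ]

lemma choose_cast_identities (p : ℕ) (hp : 5 ≤ p) :
    (2 : κ) * (p.choose 2 : κ) = (p : κ) * (p - 1) ∧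
    (6 : κ) * (p.choose 3 : κ) = (p : κ) * (p - 1) * (p - 2) ∧
    (24 : κ) * (p.choose 4 : κ) = (p : κ) * (p - 1) * (p - 2) * (p - 3) ∧
    (120 : κ) * (p.choose 5 : κ) = (p : κ) * (p - 1) * (p - 2) * (p - 3) * (p - 4) := by
  have h2 := Nat.descFactorial_eq_factorial_mul_choose p 2
  have h3 := Nat.descFactorial_eq_factorial_mul_choose p 3
  have h4 := Nat.descFactorial_eq_factorial_mul_choose p 4
  have h5 := Nat.descFactorial_eq_factorial_mul_choose p 5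
  simp only [Nat.descFactorial, Nat.factorial] at h2 h3 h4 h5
  have c2 := congrArg (Nat.cast : ℕ → κ) h2
  have c3 := congrArg (Nat.cast : ℕ → κ) h3
  have c4 := congrArg (Nat.cast : ℕ → κ) h4
  have c5 := congrArg (Nat.cast : ℕ → κ) h5
  push_cast [Nat.cast_sub (by omega : 1 ≤ p), Nat.cast_sub (by omega : 2 ≤ p),
    Nat.cast_sub (by omega : 3 ≤ p), Nat.cast_sub (by omega : 4 ≤ p)] at c2 c3 c4 c5
  refine ⟨?_, ?_, ?_, ?_⟩
  · linear_combination -c2
  · linear_combination -c3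
  · linear_combination -c4
  · linear_combination -c5


variable {ζ : κ} {p : ℕ}

lemma natCast_ne_zero_of_isPrimitiveRoot (hp : 2 ≤ p) (hζ : IsPrimitiveRoot ζ p) :
    (p : κ) ≠ 0 := by
  intro h0
  have h := congrArg (fun q : κ[X] => q.eval 0) (add_one_pow_sub_pow_eq hp hζ)
  simp only [eval_sub, eval_pow, eval_add, eval_X, eval_one, eval_mul, eval_C, h0, zero_mul] at h
  have hp0 : p ≠ 0 := by omega
  rw [zero_add, one_pow, zero_pow hp0, sub_zero] at h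
  exact one_ne_zero h

/-- **The root-of-unity sum.** -/
theorem root_sum (hp : 5 ≤ p) (hζ : IsPrimitiveRoot ζ p)
    (h2 : (2 : κ) ≠ 0) (h3 : (3 : κ) ≠ 0) (h5 : (5 : κ) ≠ 0) :
    120 * ∑ k ∈ Finset.Icc 1 (p - 1),
        (6 * (ζ ^ k / (1 - ζ ^ k) ^ 2) ^ 2 + ζ ^ k / (1 - ζ ^ k) ^ 2) = (p : κ) ^ 4 - 1 := by
  classical
  have hp2 : 2 ≤ p := by omega
  have hpκ := natCast_ne_zero_of_isPrimitiveRoot hp2 hζ
  -- reindex
  have hre : ∑ k ∈ Finset.Icc 1 (p - 1),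
        (6 * (ζ ^ k / (1 - ζ ^ k) ^ 2) ^ 2 + ζ ^ k / (1 - ζ ^ k) ^ 2) =
      ∑ i : Fin (p - 1), (6 * vRoot ζ (i + 1) ^ 4 + 12 * vRoot ζ (i + 1) ^ 3 +
        7 * vRoot ζ (i + 1) ^ 2 + vRoot ζ (i + 1) ^ 1) := by
    rw [Fin.sum_univ_eq_sum_range (fun i => 6 * vRoot ζ (i + 1) ^ 4 + 12 * vRoot ζ (i + 1) ^ 3 +
        7 * vRoot ζ (i + 1) ^ 2 + vRoot ζ (i + 1) ^ 1) (p - 1)]
    refine Finset.sum_nbij' (fun k => k - 1) (fun i => i + 1) ?_ ?_ ?_ ?_ ?_
    · intro k hk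
      rw [Finset.mem_Icc] at hk
      rw [Finset.mem_range]
      omega
    · intro i hi
      rw [Finset.mem_range] at hi
      rw [Finset.mem_Icc]
      omega
    · intro k hk
      rw [Finset.mem_Icc] at hk
      omega
    · intro i _
      omega
    · intro k hk
      rw [Finset.mem_Icc] at hk
      have hk1 : k - 1 + 1 = k := by omega
      rw [hk1, s_eq_vRoot (pow_ne_one_of_lt hζ (by omega) (by omega))]
      ring
  rw [hre]
  simp only [Finset.sum_add_distrib, ← Finset.mul_sum]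
  obtain ⟨n1, n2, n3, n4⟩ := newton_four (fun i : Fin (p - 1) => vRoot ζ (i + 1))
  have e1 := esymm_vRoot hp2 hζ (j := 1) (by omega)
  have e2 := esymm_vRoot hp2 hζ (j := 2) (by omega)
  have e3 := esymm_vRoot hp2 hζ (j := 3) (by omega)
  have e4 := esymm_vRoot hp2 hζ (j := 4) (by omega)
  obtain ⟨c2, c3, c4, c5⟩ := choose_cast_identities (κ := κ) p hp
  set E1 := (Finset.univ.val.map fun i : Fin (p - 1) => vRoot ζ (i + 1)).esymm 1 with hE1
  set E2 := (Finset.univ.val.map fun i : Fin (p - 1) => vRoot ζ (i + 1)).esymm 2 with hE2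
  set E3 := (Finset.univ.val.map fun i : Fin (p - 1) => vRoot ζ (i + 1)).esymm 3 with hE3
  set E4 := (Finset.univ.val.map fun i : Fin (p - 1) => vRoot ζ (i + 1)).esymm 4 with hE4
  set P1 := ∑ i : Fin (p - 1), vRoot ζ (i + 1) ^ 1 with hP1
  set P2 := ∑ i : Fin (p - 1), vRoot ζ (i + 1) ^ 2 with hP2
  set P3 := ∑ i : Fin (p - 1), vRoot ζ (i + 1) ^ 3 with hP3
  set P4 := ∑ i : Fin (p - 1), vRoot ζ (i + 1) ^ 4 with hP4
  have h6 : (6 : κ) ≠ 0 := by
    have : (6 : κ) = 2 * 3 := by norm_num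
    rw [this]; exact mul_ne_zero h2 h3
  have h24 : (24 : κ) ≠ 0 := by
    have : (24 : κ) = 2 * 2 * 2 * 3 := by norm_num
    rw [this]; exact mul_ne_zero (mul_ne_zero (mul_ne_zero h2 h2) h2) h3
  have h120 : (120 : κ) ≠ 0 := by
    have : (120 : κ) = 2 * 2 * 2 * 3 * 5 := by norm_num
    rw [this]; exact mul_ne_zero (mul_ne_zero (mul_ne_zero (mul_ne_zero h2 h2) h2) h3) h5
  have E1v : E1 = -((p : κ) - 1) / 2 := by
    have h : (p : κ) * (2 * E1) = (p : κ) * (-((p : κ) - 1)) := by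
      linear_combination 2 * e1 - c2
    have h' := mul_left_cancel₀ hpκ h
    rw [eq_div_iff h2]
    linear_combination h'
  have E2v : E2 = ((p : κ) - 1) * (p - 2) / 6 := by
    have h : (p : κ) * (6 * E2) = (p : κ) * (((p : κ) - 1) * (p - 2)) := by
      linear_combination 6 * e2 + c3
    have h' := mul_left_cancel₀ hpκ h
    rw [eq_div_iff h6]
    linear_combination h'
  have E3v : E3 = -(((p : κ) - 1) * (p - 2) * (p - 3)) / 24 := by
    have h : (p : κ) * (24 * E3) = (p : κ) * (-(((p : κ) - 1) * (p - 2) * (p - 3))) := by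
      linear_combination 24 * e3 - c4
    have h' := mul_left_cancel₀ hpκ h
    rw [eq_div_iff h24]
    linear_combination h'
  have E4v : E4 = ((p : κ) - 1) * (p - 2) * (p - 3) * (p - 4) / 120 := by
    have h : (p : κ) * (120 * E4) = (p : κ) * (((p : κ) - 1) * (p - 2) * (p - 3) * (p - 4)) := by
      linear_combination 120 * e4 + c5
    have h' := mul_left_cancel₀ hpκ h
    rw [eq_div_iff h120]
    linear_combination h'
  rw [n4, n3, n2, n1, E1v, E2v, E3v, E4v]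
  field_simp
  ring

end RootSum

end Fermat.Agent.S12.H651

end
-- ===== PACK-END S12/H651/RootSums.lean

-- ===== PACK-BEGIN S10/X11/CaseII.lean
section


/-!
# Case II of Fermat's Last Theorem for a prime `p`, assuming `𝓞 K` is a PID and Kummer's lemma

Kummer's descent in the ring of integers of the `p`-th cyclotomic field.
-/

open NumberField Polynomial

set_option linter.unusedSectionVars false

namespace Fermat.Agent.S10.X11.H911

section CaseII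

variable {p : ℕ} [hp : Fact p.Prime] {K : Type*} [Field K] [NumberField K]
  [IsCyclotomicExtension {p} ℚ K] {ζ : K} (hζ : IsPrimitiveRoot ζ p)

include hζ in
lemma card_quotient_pi (hodd : p ≠ 2) :
    Nat.card (𝓞 K ⧸ Ideal.span {hζ.toInteger - 1}) = p := by
  rw [hζ.card_quotient_toInteger_sub_one, hζ.norm_toInteger_sub_one_of_prime_ne_two' hodd]
  simp

/-- Every element of `𝓞 K` is congruent to a rational integer modulo `ζ - 1`. -/
lemma exists_int_sub_dvd (hodd : p ≠ 2) (x : 𝓞 K) : ∃ n : ℤ, hζ.toInteger - 1 ∣ x - n := by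
  classical
  have hfin := hζ.finite_quotient_toInteger_sub_one hp.out.one_lt
  have hcard := card_quotient_pi hζ hodd
  set I : Ideal (𝓞 K) := Ideal.span {hζ.toInteger - 1} with hI
  -- the map `ZMod p → 𝓞 K ⧸ I`
  have hpI : (p : 𝓞 K) ∈ I := by
    rw [hI, Ideal.mem_span_singleton]
    exact hζ.toInteger_sub_one_dvd_prime'
  let f : ℤ →+* (𝓞 K ⧸ I) := (Ideal.Quotient.mk I).comp (Int.castRingHom (𝓞 K))
  have hker : ∀ n : ℤ, f n = 0 ↔ (p : ℤ) ∣ n := by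
    intro n
    simp only [f, RingHom.comp_apply, Ideal.Quotient.eq_zero_iff_mem, hI,
      Ideal.mem_span_singleton]
    exact IsCyclotomicExtension.Rat.zeta_sub_one_dvd_intCast_iff' p hζ
  -- injective map from `Fin p`
  let g : Fin p → (𝓞 K ⧸ I) := fun i => f (i : ℕ)
  have hg : Function.Injective g := by
    intro i j hij
    have h1 : f ((i : ℕ) - (j : ℕ) : ℤ) = 0 := by
      simp only [g] at hij
      rw [map_sub, sub_eq_zero]
      exact_mod_cast hij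
    rw [hker] at h1
    have hi := i.2
    have hj := j.2
    apply Fin.ext
    have := Int.eq_of_sub_eq_zero (Int.eq_zero_of_abs_lt_dvd h1 (by rw [abs_lt]; constructor <;> omega))
    exact_mod_cast this
  have hbij := hg.bijective_of_nat_card_le (by rw [hcard]; simp)
  obtain ⟨i, hi⟩ := hbij.2 (Ideal.Quotient.mk I x)
  refine ⟨(i : ℕ), ?_⟩
  rw [← Ideal.mem_span_singleton, ← hI, ← Ideal.Quotient.eq_zero_iff_mem, map_sub, ← hi]
  simp [g, f]

/-- The integer `ζ` as a primitive root in `𝓞 K`. -/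
lemma eta_mem_roots : hζ.toInteger ∈ nthRootsFinset p (1 : 𝓞 K) :=
  (mem_nthRootsFinset hp.out.pos 1).2 hζ.toInteger_isPrimitiveRoot.pow_eq_one

lemma pi_dvd_root_sub_root {μ ν : 𝓞 K} (hμ : μ ∈ nthRootsFinset p (1 : 𝓞 K))
    (hν : ν ∈ nthRootsFinset p (1 : 𝓞 K)) : hζ.toInteger - 1 ∣ μ - ν :=
  hζ.toInteger_isPrimitiveRoot.sub_one_dvd_sub hp.out hμ hν

lemma pi_assoc_root_sub_root {μ ν : 𝓞 K} (hμ : μ ∈ nthRootsFinset p (1 : 𝓞 K))
    (hν : ν ∈ nthRootsFinset p (1 : 𝓞 K)) (hne : μ ≠ ν) : Associated (hζ.toInteger - 1) (μ - ν) :=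
  hζ.toInteger_isPrimitiveRoot.nthRootsFinset_pairwise_associated_sub_one_sub_of_prime hp.out
    hμ hν hne

lemma one_mem_roots : (1 : 𝓞 K) ∈ nthRootsFinset p (1 : 𝓞 K) :=
  (mem_nthRootsFinset hp.out.pos 1).2 (one_pow _)

include hζ in
lemma card_roots : (nthRootsFinset p (1 : 𝓞 K)).card = p :=
  IsPrimitiveRoot.card_nthRootsFinset hζ.toInteger_isPrimitiveRoot

/-- If `x ≡ y mod π` then `x ^ p ≡ y ^ p mod π ^ p`. -/
lemma pi_pow_dvd_pow_sub_pow {x y : 𝓞 K} (h : hζ.toInteger - 1 ∣ x - y) :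
    (hζ.toInteger - 1) ^ p ∣ x ^ p - y ^ p := by
  rw [hζ.toInteger_isPrimitiveRoot.pow_sub_pow_eq_prod_sub_mul x y hp.out.pos]
  have : (hζ.toInteger - 1) ^ p = ∏ _μ ∈ nthRootsFinset p (1 : 𝓞 K), (hζ.toInteger - 1) := by
    rw [Finset.prod_const, card_roots hζ]
  rw [this]
  refine Finset.prod_dvd_prod_of_dvd _ _ fun μ hμ => ?_
  have h1 : hζ.toInteger - 1 ∣ 1 - μ := pi_dvd_root_sub_root hζ (one_mem_roots) hμ
  have : x - μ * y = (x - y) + (1 - μ) * y := by ring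
  rw [this]
  exact dvd_add h (Dvd.dvd.mul_right h1 _)

lemma p_dvd_pi_pow : (p : 𝓞 K) ∣ (hζ.toInteger - 1) ^ p := by
  have h := (IsCyclotomicExtension.Rat.associated_zeta_sub_one_pow_prime p hζ).symm.dvd
  refine h.trans (pow_dvd_pow _ (Nat.sub_le _ _))


/-- A solution of the generalized Fermat equation `x ^ p + y ^ p = ε * (π ^ m * z) ^ p`
with `π ∤ x y z` and `x`, `y` coprime. -/
def IsSol (m : ℕ) (x y z : 𝓞 K) (ε : (𝓞 K)ˣ) : Prop :=
  ¬ hζ.toInteger - 1 ∣ x ∧ ¬ hζ.toInteger - 1 ∣ y ∧ ¬ hζ.toInteger - 1 ∣ z ∧ IsCoprime x y ∧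
    x ^ p + y ^ p = ε * ((hζ.toInteger - 1) ^ m * z) ^ p

variable {hζ}

lemma IsSol.prod_eq (hodd : p ≠ 2) {m : ℕ} {x y z : 𝓞 K} {ε : (𝓞 K)ˣ} (h : IsSol hζ m x y z ε) :
    ∏ μ ∈ nthRootsFinset p (1 : 𝓞 K), (x + μ * y) = ε * ((hζ.toInteger - 1) ^ m * z) ^ p := by
  rw [← h.2.2.2.2]
  exact (hζ.toInteger_isPrimitiveRoot.pow_add_pow_eq_prod_add_mul x y
    (hp.out.odd_of_ne_two hodd)).symm

/-- In a solution, `π` divides every factor `x + μ y`. -/
lemma IsSol.pi_dvd_factor (hodd : p ≠ 2) {m : ℕ} (hm : 1 ≤ m) {x y z : 𝓞 K} {ε : (𝓞 K)ˣ}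
    (h : IsSol hζ m x y z ε) {μ : 𝓞 K} (hμ : μ ∈ nthRootsFinset p (1 : 𝓞 K)) :
    hζ.toInteger - 1 ∣ x + μ * y := by
  have hprime : Prime (hζ.toInteger - 1) := hζ.zeta_sub_one_prime'
  have h1 : hζ.toInteger - 1 ∣ ∏ μ ∈ nthRootsFinset p (1 : 𝓞 K), (x + μ * y) := by
    rw [h.prod_eq hodd]
    refine Dvd.dvd.mul_left ?_ _
    refine dvd_pow ?_ hp.out.ne_zero
    exact Dvd.dvd.mul_right (dvd_pow_self _ (by omega)) _
  obtain ⟨ν, hν, hdvd⟩ := (Prime.dvd_finsetProd_iff hprime _).1 h1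
  have : x + μ * y = (x + ν * y) + (μ - ν) * y := by ring
  rw [this]
  exact dvd_add hdvd (Dvd.dvd.mul_right (pi_dvd_root_sub_root hζ hμ hν) _)

/-- Normalization: we may assume `π ^ 2 ∣ x + y`. -/
lemma IsSol.exists_normalized (hodd : p ≠ 2) {m : ℕ} (hm : 1 ≤ m) {x y z : 𝓞 K} {ε : (𝓞 K)ˣ}
    (h : IsSol hζ m x y z ε) :
    ∃ y' : 𝓞 K, IsSol hζ m x y' z ε ∧ (hζ.toInteger - 1) ^ 2 ∣ x + y' := by
  classical
  have hprime : Prime (hζ.toInteger - 1) := hζ.zeta_sub_one_prime'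
  have hfin := hζ.finite_quotient_toInteger_sub_one hp.out.one_lt
  have hcard := card_quotient_pi hζ hodd
  set I : Ideal (𝓞 K) := Ideal.span {hζ.toInteger - 1} with hI
  have hdvd : ∀ μ : nthRootsFinset p (1 : 𝓞 K), ∃ t : 𝓞 K, x + μ * y = (hζ.toInteger - 1) * t :=
    fun μ => h.pi_dvd_factor hodd hm μ.2
  choose g hg using hdvd
  let f : nthRootsFinset p (1 : 𝓞 K) → 𝓞 K ⧸ I := fun μ => Ideal.Quotient.mk I (g μ)
  have hf : Function.Injective f := by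
    intro μ ν hμν
    by_contra hne
    have hne' : (μ : 𝓞 K) ≠ ν := fun h => hne (Subtype.ext h)
    have h1 : hζ.toInteger - 1 ∣ g μ - g ν := by
      rw [← Ideal.mem_span_singleton, ← hI, ← Ideal.Quotient.eq_zero_iff_mem, map_sub, sub_eq_zero]
      exact hμν
    obtain ⟨u, hu⟩ := pi_assoc_root_sub_root hζ μ.2 ν.2 hne'
    have h2 : (hζ.toInteger - 1) * (g μ - g ν) = (hζ.toInteger - 1) * (u * y) := by
      rw [mul_sub, ← hg, ← hg, ← mul_assoc, hu]; ring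
    have h3 := mul_left_cancel₀ hprime.ne_zero h2
    rw [h3] at h1
    exact h.2.1 ((Units.dvd_mul_left).1 h1)
  have hbij := hf.bijective_of_nat_card_le (by
    rw [hcard, Nat.card_eq_fintype_card, Fintype.card_coe, card_roots hζ])
  obtain ⟨μ, hμ⟩ := hbij.2 0
  have hμ' : hζ.toInteger - 1 ∣ g μ := by
    rw [← Ideal.mem_span_singleton, ← hI, ← Ideal.Quotient.eq_zero_iff_mem]
    exact hμ
  have hμunit : IsUnit (μ : 𝓞 K) :=
    IsUnit.of_pow_eq_one ((mem_nthRootsFinset hp.out.pos 1).1 μ.2) hp.out.ne_zero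
  refine ⟨μ * y, ⟨h.1, ?_, h.2.2.1, ?_, ?_⟩, ?_⟩
  · intro hd
    exact h.2.1 ((hμunit.dvd_mul_left).1 hd)
  · exact (isCoprime_mul_unit_left_right hμunit _ _).2 h.2.2.2.1
  · rw [mul_pow, (mem_nthRootsFinset hp.out.pos 1).1 μ.2, one_mul]
    exact h.2.2.2.2
  · rw [hg μ, pow_two]
    exact mul_dvd_mul_left _ hμ'


/-- For a normalized solution, the factors `x + μ y` with `μ ≠ 1` are exactly divisible by `π`. -/
lemma IsSol.not_pi_sq_dvd_factor {m : ℕ} {x y z : 𝓞 K} {ε : (𝓞 K)ˣ}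
    (h : IsSol hζ m x y z ε) (hxy : (hζ.toInteger - 1) ^ 2 ∣ x + y)
    {μ : 𝓞 K} (hμ : μ ∈ nthRootsFinset p (1 : 𝓞 K)) (hμ1 : μ ≠ 1) :
    ¬ (hζ.toInteger - 1) ^ 2 ∣ x + μ * y := by
  have hprime : Prime (hζ.toInteger - 1) := hζ.zeta_sub_one_prime'
  intro hd
  obtain ⟨u, hu⟩ := pi_assoc_root_sub_root hζ hμ one_mem_roots hμ1
  have h1 : (hζ.toInteger - 1) ^ 2 ∣ (x + μ * y) - (x + y) := dvd_sub hd hxy
  have h2 : (x + μ * y) - (x + y) = (hζ.toInteger - 1) * (u * y) := by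
    rw [← mul_assoc, hu]; ring
  rw [h2, pow_two] at h1
  have h3 := (mul_dvd_mul_iff_left hprime.ne_zero).1 h1
  exact h.2.1 ((Units.dvd_mul_left).1 h3)

/-- Pairwise "coprimality up to `π`" of the factors. -/
lemma IsSol.dvd_pi_of_dvd_factors {m : ℕ} {x y z : 𝓞 K} {ε : (𝓞 K)ˣ}
    (h : IsSol hζ m x y z ε) {μ ν : 𝓞 K} (hμ : μ ∈ nthRootsFinset p (1 : 𝓞 K))
    (hν : ν ∈ nthRootsFinset p (1 : 𝓞 K)) (hne : μ ≠ ν) {q : 𝓞 K}
    (hqμ : q ∣ x + μ * y) (hqν : q ∣ x + ν * y) : q ∣ hζ.toInteger - 1 := by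
  obtain ⟨a, b, hab⟩ := h.2.2.2.1
  have h1 : q ∣ (μ - ν) * y := by
    have : (μ - ν) * y = (x + μ * y) - (x + ν * y) := by ring
    rw [this]; exact dvd_sub hqμ hqν
  have h2 : q ∣ (μ - ν) * x := by
    have : (μ - ν) * x = μ * (x + ν * y) - ν * (x + μ * y) := by ring
    rw [this]; exact dvd_sub (Dvd.dvd.mul_left hqν _) (Dvd.dvd.mul_left hqμ _)
  have h3 : q ∣ μ - ν := by
    have : μ - ν = a * ((μ - ν) * x) + b * ((μ - ν) * y) := by
      calc μ - ν = (μ - ν) * (a * x + b * y) := by rw [hab, mul_one]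
        _ = _ := by ring
    rw [this]; exact dvd_add (Dvd.dvd.mul_left h2 _) (Dvd.dvd.mul_left h1 _)
  exact h3.trans (pi_assoc_root_sub_root hζ hμ hν hne).symm.dvd


/-- Key structural lemma for a normalized solution. -/
lemma IsSol.exists_factors (hodd : p ≠ 2) {m : ℕ} (hm : 1 ≤ m) {x y z : 𝓞 K} {ε : (𝓞 K)ˣ}
    (h : IsSol hζ m x y z ε) (hxy : (hζ.toInteger - 1) ^ 2 ∣ x + y) :
    2 ≤ m ∧ ∃ H : 𝓞 K → 𝓞 K,
      x + y = (hζ.toInteger - 1) ^ ((m - 1) * p + 1) * H 1 ∧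
      (∀ μ ∈ nthRootsFinset p (1 : 𝓞 K), μ ≠ 1 → x + μ * y = (hζ.toInteger - 1) * H μ) ∧
      (∀ μ ∈ nthRootsFinset p (1 : 𝓞 K), ¬ hζ.toInteger - 1 ∣ H μ) ∧
      ∏ μ ∈ nthRootsFinset p (1 : 𝓞 K), H μ = ε * z ^ p := by
  classical
  have hprime : Prime (hζ.toInteger - 1) := hζ.zeta_sub_one_prime'
  have hp1 : 1 ≤ p := hp.out.pos
  -- the quotients `G μ = (x + μ y) / π`
  have hdvd : ∀ μ : 𝓞 K, ∃ t : 𝓞 K, μ ∈ nthRootsFinset p (1 : 𝓞 K) →
      x + μ * y = (hζ.toInteger - 1) * t := by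
    intro μ
    by_cases hμ : μ ∈ nthRootsFinset p (1 : 𝓞 K)
    · obtain ⟨t, ht⟩ := h.pi_dvd_factor hodd hm hμ
      exact ⟨t, fun _ => ht⟩
    · exact ⟨0, fun h' => absurd h' hμ⟩
  choose G hG using hdvd
  have hGndvd : ∀ μ ∈ (nthRootsFinset p (1 : 𝓞 K)).erase 1, ¬ hζ.toInteger - 1 ∣ G μ := by
    intro μ hμ hd
    rw [Finset.mem_erase] at hμ
    apply h.not_pi_sq_dvd_factor hxy hμ.2 hμ.1
    rw [hG μ hμ.2, pow_two]
    exact mul_dvd_mul_left _ hd
  set P := ∏ μ ∈ (nthRootsFinset p (1 : 𝓞 K)).erase 1, G μ with hP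
  have hPndvd : ¬ hζ.toInteger - 1 ∣ P := by
    intro hd
    obtain ⟨μ, hμ, hd'⟩ := (Prime.dvd_finsetProd_iff hprime _).1 hd
    exact hGndvd μ hμ hd'
  -- the product formula
  have hprod : (x + y) * ((hζ.toInteger - 1) ^ (p - 1) * P) =
      ε * ((hζ.toInteger - 1) ^ m * z) ^ p := by
    rw [← h.prod_eq hodd, ← Finset.mul_prod_erase _ _ (one_mem_roots (p := p) (K := K)), one_mul]
    congr 1
    have hcard : ((nthRootsFinset p (1 : 𝓞 K)).erase 1).card = p - 1 := by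
      rw [Finset.card_erase_of_mem (one_mem_roots (p := p) (K := K)), card_roots hζ]
    rw [hP, ← hcard, ← Finset.prod_const, ← Finset.prod_mul_distrib]
    refine Finset.prod_congr rfl fun μ hμ => ?_
    exact (hG μ (Finset.mem_of_mem_erase hμ)).symm
  have hexp : m * p = (p - 1) + ((m - 1) * p + 1) := by
    obtain ⟨m', rfl⟩ : ∃ m', m = m' + 1 := ⟨m - 1, by omega⟩
    obtain ⟨p', hp'⟩ : ∃ p', p = p' + 1 := ⟨p - 1, by omega⟩
    rw [hp']
    simp only [Nat.add_sub_cancel]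
    ring
  have hprod2 : (x + y) * P = (hζ.toInteger - 1) ^ ((m - 1) * p + 1) * (ε * z ^ p) := by
    have h1 : (hζ.toInteger - 1) ^ (p - 1) * ((x + y) * P) =
        (hζ.toInteger - 1) ^ (p - 1) * ((hζ.toInteger - 1) ^ ((m - 1) * p + 1) * (ε * z ^ p)) := by
      calc (hζ.toInteger - 1) ^ (p - 1) * ((x + y) * P)
          = (x + y) * ((hζ.toInteger - 1) ^ (p - 1) * P) := by ring
        _ = ε * ((hζ.toInteger - 1) ^ m * z) ^ p := hprod
        _ = ε * ((hζ.toInteger - 1) ^ (m * p) * z ^ p) := by rw [mul_pow, ← pow_mul]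
        _ = _ := by rw [hexp, pow_add]; ring
    exact mul_left_cancel₀ (pow_ne_zero _ hprime.ne_zero) h1
  have hdvdxy : (hζ.toInteger - 1) ^ ((m - 1) * p + 1) ∣ x + y :=
    hprime.pow_dvd_of_dvd_mul_right _ hPndvd (hprod2 ▸ dvd_mul_right _ _)
  obtain ⟨X₀, hX₀⟩ := hdvdxy
  have hX₀P : X₀ * P = ε * z ^ p := by
    have h1 : (hζ.toInteger - 1) ^ ((m - 1) * p + 1) * (X₀ * P) =
        (hζ.toInteger - 1) ^ ((m - 1) * p + 1) * (ε * z ^ p) := by
      rw [← hprod2, hX₀]; ring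
    exact mul_left_cancel₀ (pow_ne_zero _ hprime.ne_zero) h1
  have hX₀ndvd : ¬ hζ.toInteger - 1 ∣ X₀ := by
    intro hd
    have h1 : hζ.toInteger - 1 ∣ (ε : 𝓞 K) * z ^ p := hX₀P ▸ Dvd.dvd.mul_right hd _
    have h2 := (Units.dvd_mul_left).1 h1
    exact h.2.2.1 (hprime.dvd_of_dvd_pow h2)
  have hm2 : 2 ≤ m := by
    by_contra hlt
    have hm1 : m = 1 := by omega
    subst hm1
    simp only [Nat.sub_self, zero_mul, zero_add, pow_one] at hX₀
    rw [hX₀, pow_two] at hxy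
    exact hX₀ndvd ((mul_dvd_mul_iff_left hprime.ne_zero).1 hxy)
  refine ⟨hm2, fun μ => if μ = 1 then X₀ else G μ, ?_, ?_, ?_, ?_⟩
  · simpa using hX₀
  · intro μ hμ hμ1
    simp only [hμ1, if_false]
    exact hG μ hμ
  · intro μ hμ
    by_cases hμ1 : μ = 1
    · simpa [hμ1] using hX₀ndvd
    · simp only [hμ1, if_false]
      exact hGndvd μ (Finset.mem_erase.2 ⟨hμ1, hμ⟩)
  · rw [← Finset.mul_prod_erase _ _ (one_mem_roots (p := p) (K := K))]
    simp only [if_true]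
    rw [← hX₀P, hP]
    congr 1
    refine Finset.prod_congr rfl fun μ hμ => ?_
    simp [Finset.ne_of_mem_erase hμ]


/-- The descent step. -/
lemma IsSol.descent [IsPrincipalIdealRing (𝓞 K)] (hodd : p ≠ 2)
    (KL : ∀ u : (𝓞 K)ˣ, (∃ n : ℤ, (p : 𝓞 K) ∣ (u : 𝓞 K) - n) → ∃ v : (𝓞 K)ˣ, u = v ^ p)
    {m : ℕ} (hm : 1 ≤ m) {x y z : 𝓞 K} {ε : (𝓞 K)ˣ}
    (h : IsSol hζ m x y z ε) (hxy : (hζ.toInteger - 1) ^ 2 ∣ x + y) :
    2 ≤ m ∧ ∃ (x' y' z' : 𝓞 K) (ε' : (𝓞 K)ˣ), IsSol hζ (m - 1) x' y' z' ε' := by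
  classical
  have hprime : Prime (hζ.toInteger - 1) := hζ.zeta_sub_one_prime'
  have hp3 : 3 ≤ p := by
    have := hp.out.two_le
    omega
  obtain ⟨hm2, H, hH1, hHμ, hHndvd, hHprod⟩ := h.exists_factors hodd hm hxy
  refine ⟨hm2, ?_⟩
  -- `H μ` divides `x + μ y`
  have hHdvd : ∀ μ ∈ nthRootsFinset p (1 : 𝓞 K), H μ ∣ x + μ * y := by
    intro μ hμ
    by_cases hμ1 : μ = 1
    · subst hμ1
      rw [one_mul, hH1]
      exact dvd_mul_left _ _
    · rw [hHμ μ hμ hμ1]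
      exact dvd_mul_left _ _
  -- pairwise coprimality
  have hcop : ∀ μ ∈ nthRootsFinset p (1 : 𝓞 K), ∀ ν ∈ nthRootsFinset p (1 : 𝓞 K), μ ≠ ν →
      IsCoprime (H μ) (H ν) := by
    intro μ hμ ν hν hne
    refine isCoprime_of_prime_dvd ?_ ?_
    · rintro ⟨h0, -⟩
      exact hHndvd μ hμ (h0 ▸ dvd_zero _)
    · intro q hq hqμ hqν
      have hqpi : q ∣ hζ.toInteger - 1 :=
        h.dvd_pi_of_dvd_factors hμ hν hne (hqμ.trans (hHdvd μ hμ)) (hqν.trans (hHdvd ν hν))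
      have hass : Associated q (hζ.toInteger - 1) := hq.associated_of_dvd hprime hqpi
      exact hHndvd μ hμ (hass.symm.dvd.trans hqμ)
  -- each `H μ` is a `p`-th power up to a unit
  have hpow : ∀ μ ∈ nthRootsFinset p (1 : 𝓞 K), ∃ d : 𝓞 K, Associated (d ^ p) (H μ) := by
    intro μ hμ
    have h1 : H μ * ∏ ν ∈ (nthRootsFinset p (1 : 𝓞 K)).erase μ, H ν = ε * z ^ p := by
      rw [Finset.mul_prod_erase _ _ hμ, hHprod]
    have h2 : IsCoprime (H μ) (∏ ν ∈ (nthRootsFinset p (1 : 𝓞 K)).erase μ, H ν) := by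
      refine IsCoprime.prod_right fun ν hν => ?_
      rw [Finset.mem_erase] at hν
      exact hcop μ hμ ν hν.2 (Ne.symm hν.1)
    refine exists_associated_pow_of_associated_pow_mul h2 (c := z) ?_
    rw [h1]
    exact ⟨ε, by rw [mul_comm]⟩
  -- the three roots `1`, `η`, `η ^ 2`
  have hηprim := hζ.toInteger_isPrimitiveRoot
  have hη : hζ.toInteger ∈ nthRootsFinset p (1 : 𝓞 K) := eta_mem_roots hζ
  have hη2 : hζ.toInteger ^ 2 ∈ nthRootsFinset p (1 : 𝓞 K) := by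
    rw [mem_nthRootsFinset hp.out.pos 1, ← pow_mul, mul_comm, pow_mul, hηprim.pow_eq_one, one_pow]
  have hη_ne : hζ.toInteger ≠ 1 := hηprim.ne_one hp.out.one_lt
  have hη2_ne : hζ.toInteger ^ 2 ≠ 1 := hηprim.pow_ne_one_of_pos_of_lt (by norm_num) (by omega)
  have hη_ne_η2 : hζ.toInteger ≠ hζ.toInteger ^ 2 := by
    intro heq
    apply hη_ne
    have h0 : hζ.toInteger ≠ 0 := hηprim.ne_zero hp.out.ne_zero
    have : hζ.toInteger * 1 = hζ.toInteger * hζ.toInteger := by rw [mul_one, ← pow_two]; exact heq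
    exact (mul_left_cancel₀ h0 this).symm
  obtain ⟨d₀, u₀, hd₀⟩ := hpow 1 one_mem_roots
  obtain ⟨d₁, u₁, hd₁⟩ := hpow _ hη
  obtain ⟨d₂, u₂, hd₂⟩ := hpow _ hη2
  have hX1 := hHμ _ hη hη_ne
  have hX2 := hHμ _ hη2 hη2_ne
  -- `1 + η` is a unit
  have hunit : IsUnit (1 + hζ.toInteger) := by
    have := hηprim.geom_sum_isUnit hp.out.two_le (j := 2)
      ((Nat.coprime_primes Nat.prime_two hp.out).2 (Ne.symm hodd))
    simpa [Finset.sum_range_succ] using this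
  obtain ⟨w, hw⟩ := hunit
  -- the linear relation
  have hrel : (1 + hζ.toInteger) * H hζ.toInteger - H (hζ.toInteger ^ 2) =
      hζ.toInteger * (hζ.toInteger - 1) ^ ((m - 1) * p) * H 1 := by
    have h1 : (hζ.toInteger - 1) * ((1 + hζ.toInteger) * H hζ.toInteger - H (hζ.toInteger ^ 2)) =
        (hζ.toInteger - 1) * (hζ.toInteger * (hζ.toInteger - 1) ^ ((m - 1) * p) * H 1) := by
      calc (hζ.toInteger - 1) * ((1 + hζ.toInteger) * H hζ.toInteger - H (hζ.toInteger ^ 2))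
          = (1 + hζ.toInteger) * ((hζ.toInteger - 1) * H hζ.toInteger) -
              (hζ.toInteger - 1) * H (hζ.toInteger ^ 2) := by ring
        _ = (1 + hζ.toInteger) * (x + hζ.toInteger * y) - (x + hζ.toInteger ^ 2 * y) := by
            rw [← hX1, ← hX2]
        _ = hζ.toInteger * (x + y) := by ring
        _ = _ := by rw [hH1, pow_succ]; ring
    exact mul_left_cancel₀ hprime.ne_zero h1
  -- `π ∤ d_i`
  have hd₀ndvd : ¬ hζ.toInteger - 1 ∣ d₀ := fun hd =>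
    hHndvd 1 one_mem_roots (hd₀ ▸ Dvd.dvd.mul_right (dvd_pow hd hp.out.ne_zero) _)
  have hd₁ndvd : ¬ hζ.toInteger - 1 ∣ d₁ := fun hd =>
    hHndvd _ hη (hd₁ ▸ Dvd.dvd.mul_right (dvd_pow hd hp.out.ne_zero) _)
  have hd₂ndvd : ¬ hζ.toInteger - 1 ∣ d₂ := fun hd =>
    hHndvd _ hη2 (hd₂ ▸ Dvd.dvd.mul_right (dvd_pow hd hp.out.ne_zero) _)
  -- the unit `ω`
  set ω : (𝓞 K)ˣ := -(u₂ * w⁻¹ * u₁⁻¹) with hω
  set ε' : (𝓞 K)ˣ := (hηprim.isUnit hp.out.ne_zero).unit * u₀ * w⁻¹ * u₁⁻¹ with hε'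
  have hwinv : (w⁻¹ : (𝓞 K)ˣ) * (1 + hζ.toInteger) = (1 : 𝓞 K) := by
    rw [← hw]; simp
  have hnew : d₁ ^ p + ω * d₂ ^ p = ε' * ((hζ.toInteger - 1) ^ (m - 1) * d₀) ^ p := by
    have e1 : (u₁⁻¹ : (𝓞 K)ˣ) * (u₁ : 𝓞 K) = 1 := by simp
    have key : (w⁻¹ : (𝓞 K)ˣ) * (u₁⁻¹ : (𝓞 K)ˣ) *
        ((1 + hζ.toInteger) * (d₁ ^ p * u₁) - d₂ ^ p * u₂) =
        (w⁻¹ : (𝓞 K)ˣ) * (u₁⁻¹ : (𝓞 K)ˣ) *
        (hζ.toInteger * (hζ.toInteger - 1) ^ ((m - 1) * p) * (d₀ ^ p * u₀)) := by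
      rw [hd₀, hd₁, hd₂, hrel]
    have lhs : (w⁻¹ : (𝓞 K)ˣ) * (u₁⁻¹ : (𝓞 K)ˣ) *
        ((1 + hζ.toInteger) * (d₁ ^ p * u₁) - d₂ ^ p * u₂) = d₁ ^ p + ω * d₂ ^ p := by
      calc (w⁻¹ : (𝓞 K)ˣ) * (u₁⁻¹ : (𝓞 K)ˣ) *
            ((1 + hζ.toInteger) * (d₁ ^ p * u₁) - d₂ ^ p * u₂)
          = ((w⁻¹ : (𝓞 K)ˣ) * (1 + hζ.toInteger)) * ((u₁⁻¹ : (𝓞 K)ˣ) * (u₁ : 𝓞 K)) * d₁ ^ p
              - (u₂ * (w⁻¹ : (𝓞 K)ˣ) * (u₁⁻¹ : (𝓞 K)ˣ)) * d₂ ^ p := by ring
        _ = d₁ ^ p + ω * d₂ ^ p := by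
            rw [hwinv, e1, hω]
            push_cast
            ring
    have rhs : (w⁻¹ : (𝓞 K)ˣ) * (u₁⁻¹ : (𝓞 K)ˣ) *
        (hζ.toInteger * (hζ.toInteger - 1) ^ ((m - 1) * p) * (d₀ ^ p * u₀)) =
        ε' * ((hζ.toInteger - 1) ^ (m - 1) * d₀) ^ p := by
      rw [hε', mul_pow, ← pow_mul]
      push_cast
      rw [IsUnit.unit_spec]
      ring
    rw [← lhs, key, rhs]
  -- Kummer's lemma applies to `ω`
  have hωcong : ∃ n : ℤ, (p : 𝓞 K) ∣ (ω : 𝓞 K) - n := by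
    obtain ⟨a, ha⟩ := exists_int_sub_dvd hζ hodd d₁
    obtain ⟨b, hb⟩ := exists_int_sub_dvd hζ hodd d₂
    have ha' := pi_pow_dvd_pow_sub_pow hζ ha
    have hb' := pi_pow_dvd_pow_sub_pow hζ hb
    have hpb : ¬ (p : ℤ) ∣ b := by
      intro hpb
      have h1 : hζ.toInteger - 1 ∣ (b : 𝓞 K) :=
        (IsCyclotomicExtension.Rat.zeta_sub_one_dvd_intCast_iff' p hζ).2 hpb
      have h2 : hζ.toInteger - 1 ∣ (d₂ - b) + b := dvd_add hb h1
      rw [sub_add_cancel] at h2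
      exact hd₂ndvd h2
    have hsum : (hζ.toInteger - 1) ^ p ∣ d₁ ^ p + ω * d₂ ^ p := by
      rw [hnew, mul_pow, ← pow_mul]
      refine Dvd.dvd.mul_left (Dvd.dvd.mul_right (pow_dvd_pow _ ?_) _) _
      calc p = 1 * p := (one_mul p).symm
        _ ≤ (m - 1) * p := Nat.mul_le_mul_right _ (by omega)
    have h3 : (hζ.toInteger - 1) ^ p ∣ (a : 𝓞 K) ^ p + ω * (b : 𝓞 K) ^ p := by
      have : (a : 𝓞 K) ^ p + ω * (b : 𝓞 K) ^ p =
          (d₁ ^ p + ω * d₂ ^ p) - (d₁ ^ p - (a : 𝓞 K) ^ p) - ω * (d₂ ^ p - (b : 𝓞 K) ^ p) := by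
        ring
      rw [this]
      exact dvd_sub (dvd_sub hsum ha') (Dvd.dvd.mul_left hb' _)
    have h4 : (p : 𝓞 K) ∣ (a : 𝓞 K) ^ p + ω * (b : 𝓞 K) ^ p := (p_dvd_pi_pow hζ).trans h3
    have hcopb : IsCoprime (b ^ p) (p : ℤ) := by
      refine IsCoprime.pow_left ?_
      exact ((Nat.prime_iff_prime_int.1 hp.out).coprime_iff_not_dvd.2 hpb).symm
    obtain ⟨c, e, hce⟩ := hcopb
    refine ⟨-(c * a ^ p), ?_⟩
    have hce' : (c : 𝓞 K) * (b : 𝓞 K) ^ p + (e : 𝓞 K) * (p : 𝓞 K) = 1 := by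
      have := congrArg (Int.cast : ℤ → 𝓞 K) hce
      push_cast at this
      exact this
    have : (ω : 𝓞 K) - ((-(c * a ^ p) : ℤ) : 𝓞 K) =
        c * ((a : 𝓞 K) ^ p + ω * (b : 𝓞 K) ^ p) + (p : 𝓞 K) * (ω * e) := by
      push_cast
      calc (ω : 𝓞 K) - -(c * (a : 𝓞 K) ^ p)
          = ω * 1 + c * (a : 𝓞 K) ^ p := by ring
        _ = ω * ((c : 𝓞 K) * (b : 𝓞 K) ^ p + (e : 𝓞 K) * (p : 𝓞 K)) + c * (a : 𝓞 K) ^ p := by
            rw [hce']
        _ = _ := by ring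
    rw [this]
    exact dvd_add (Dvd.dvd.mul_left h4 _) (dvd_mul_right _ _)
  obtain ⟨v, hv⟩ := KL ω hωcong
  refine ⟨d₁, v * d₂, d₀, ε', hd₁ndvd, ?_, hd₀ndvd, ?_, ?_⟩
  · intro hd
    exact hd₂ndvd ((Units.dvd_mul_left).1 hd)
  · have h1 : IsCoprime (d₁ ^ p) (d₂ ^ p) := by
      have := hcop _ hη _ hη2 hη_ne_η2
      rw [← hd₁, ← hd₂] at this
      exact (isCoprime_mul_unit_right_left u₁.isUnit _ _).1
        ((isCoprime_mul_unit_right_right u₂.isUnit _ _).1 this)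
    have h2 : IsCoprime d₁ d₂ := (IsCoprime.pow_iff hp.out.pos hp.out.pos).1 h1
    exact (isCoprime_mul_unit_left_right v.isUnit _ _).2 h2
  · rw [mul_pow, ← hnew, hv]
    push_cast
    rfl


/-- Case II of Fermat's Last Theorem in `𝓞 K`, generalized equation. -/
theorem not_isSol [IsPrincipalIdealRing (𝓞 K)] (hodd : p ≠ 2)
    (KL : ∀ u : (𝓞 K)ˣ, (∃ n : ℤ, (p : 𝓞 K) ∣ (u : 𝓞 K) - n) → ∃ v : (𝓞 K)ˣ, u = v ^ p)
    (m : ℕ) (hm : 1 ≤ m) (x y z : 𝓞 K) (ε : (𝓞 K)ˣ) : ¬ IsSol hζ m x y z ε := by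
  induction m generalizing x y z ε with
  | zero => omega
  | succ n ih =>
    intro h
    obtain ⟨y', hy', hxy'⟩ := h.exists_normalized hodd hm
    obtain ⟨h2, x'', y'', z'', ε'', h''⟩ := hy'.descent hodd KL hm hxy'
    simp only [Nat.add_sub_cancel] at h''
    exact ih (by omega) x'' y'' z'' ε'' h''

variable (hζ)

include hζ in
/-- Case II of Fermat's Last Theorem over `ℤ` for the prime `p`, assuming that the ring of
integers of the `p`-th cyclotomic field is a PID and Kummer's lemma. -/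
theorem caseII_int [IsPrincipalIdealRing (𝓞 K)] (hodd : p ≠ 2)
    (KL : ∀ u : (𝓞 K)ˣ, (∃ n : ℤ, (p : 𝓞 K) ∣ (u : 𝓞 K) - n) → ∃ v : (𝓞 K)ˣ, u = v ^ p)
    {a b c : ℤ} (hc : c ≠ 0) (hpa : ¬ (p : ℤ) ∣ a) (hpb : ¬ (p : ℤ) ∣ b) (hpc : (p : ℤ) ∣ c)
    (hab : IsCoprime a b) : a ^ p + b ^ p ≠ c ^ p := by
  intro hF
  have hprime : Prime (hζ.toInteger - 1) := hζ.zeta_sub_one_prime'
  have hc' : (c : 𝓞 K) ≠ 0 := by exact_mod_cast hc
  have hfin : FiniteMultiplicity (hζ.toInteger - 1) (c : 𝓞 K) :=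
    FiniteMultiplicity.of_not_isUnit hprime.not_isUnit hc'
  obtain ⟨z, hz, hzndvd⟩ := hfin.exists_eq_pow_mul_and_not_dvd
  have hπc : hζ.toInteger - 1 ∣ (c : 𝓞 K) :=
    (IsCyclotomicExtension.Rat.zeta_sub_one_dvd_intCast_iff' p hζ).2 hpc
  have hm : 1 ≤ multiplicity (hζ.toInteger - 1) (c : 𝓞 K) := by
    by_contra hlt
    have h0 : multiplicity (hζ.toInteger - 1) (c : 𝓞 K) = 0 := by omega
    rw [h0, pow_zero, one_mul] at hz
    exact hzndvd (hz ▸ hπc)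
  refine not_isSol (hζ := hζ) hodd KL _ hm (a : 𝓞 K) (b : 𝓞 K) z 1 ⟨?_, ?_, hzndvd, ?_, ?_⟩
  · rwa [IsCyclotomicExtension.Rat.zeta_sub_one_dvd_intCast_iff' p hζ]
  · rwa [IsCyclotomicExtension.Rat.zeta_sub_one_dvd_intCast_iff' p hζ]
  · exact IsCoprime.intCast hab
  · rw [← hz, Units.val_one, one_mul]
    exact_mod_cast hF


/-- Case II of Fermat's Last Theorem in `𝓞 K` (generalized equation), generic in the odd prime
`p`, assuming `𝓞 K` is a PID and Kummer's lemma. -/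
theorem caseII_gen_of_prime [IsPrincipalIdealRing (𝓞 K)] (hodd : p ≠ 2)
    (KL : ∀ u : (𝓞 K)ˣ, (∃ n : ℤ, (p : 𝓞 K) ∣ (u : 𝓞 K) - n) → ∃ v : (𝓞 K)ˣ, u = v ^ p)
    (a b c : 𝓞 K) (u : (𝓞 K)ˣ) (hc : c ≠ 0) (ha : ¬ (hζ.toInteger - 1) ∣ a)
    (hb : ¬ (hζ.toInteger - 1) ∣ b) (hcdvd : (hζ.toInteger - 1) ∣ c) (hab : IsCoprime a b) :
    a ^ p + b ^ p ≠ u * c ^ p := by
  intro hF
  have hprime : Prime (hζ.toInteger - 1) := hζ.zeta_sub_one_prime'
  have hfin : FiniteMultiplicity (hζ.toInteger - 1) c :=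
    FiniteMultiplicity.of_not_isUnit hprime.not_isUnit hc
  obtain ⟨z, hz, hzndvd⟩ := hfin.exists_eq_pow_mul_and_not_dvd
  have hm : 1 ≤ multiplicity (hζ.toInteger - 1) c := by
    by_contra hlt
    have h0 : multiplicity (hζ.toInteger - 1) c = 0 := by omega
    rw [h0, pow_zero, one_mul] at hz
    exact hzndvd (hz ▸ hcdvd)
  refine not_isSol (hζ := hζ) hodd KL _ hm a b z u ⟨ha, hb, hzndvd, hab, ?_⟩
  rw [← hz]
  exact hF


end CaseII

end Fermat.Agent.S10.X11.H911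

namespace Fermat.Agent.S10.X11.CaseII

/-- T4 final (team skeleton name): the generalized Case II statement, generic in the odd prime
`p`, assuming `𝓞 K` is a PID and Kummer's lemma. -/
theorem caseII_gen {K : Type*} [Field K] [NumberField K] {p : ℕ} [hp : Fact p.Prime]
    [hK : IsCyclotomicExtension {p} ℚ K] {ζ : K} (hζ : IsPrimitiveRoot ζ p)
    (hp2 : p ≠ 2) [IsPrincipalIdealRing (𝓞 K)]
    (hkummer : ∀ u : (𝓞 K)ˣ, (∃ m : ℤ, (p : 𝓞 K) ∣ (u : 𝓞 K) - (m : 𝓞 K)) →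
      ∃ v : (𝓞 K)ˣ, u = v ^ p)
    (a b c : 𝓞 K) (u : (𝓞 K)ˣ) (hc : c ≠ 0) (ha : ¬ (hζ.toInteger - 1) ∣ a)
    (hb : ¬ (hζ.toInteger - 1) ∣ b) (hcdvd : (hζ.toInteger - 1) ∣ c) (hab : IsCoprime a b) :
    a ^ p + b ^ p ≠ u * c ^ p :=
  Fermat.Agent.S10.X11.H911.caseII_gen_of_prime hζ hp2 hkummer a b c u hc ha hb hcdvd hab

/-- Case II over `ℤ`, generic in the odd prime `p`, assuming that the ring of integers of one
`p`-th cyclotomic field `K` is a PID and Kummer's lemma for `K`. -/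
theorem caseII_int {K : Type*} [Field K] [NumberField K] {p : ℕ} [hp : Fact p.Prime]
    [hK : IsCyclotomicExtension {p} ℚ K] (hp2 : p ≠ 2) [IsPrincipalIdealRing (𝓞 K)]
    (hkummer : ∀ u : (𝓞 K)ˣ, (∃ m : ℤ, (p : 𝓞 K) ∣ (u : 𝓞 K) - (m : 𝓞 K)) →
      ∃ v : (𝓞 K)ˣ, u = v ^ p)
    {a b c : ℤ} (hc : c ≠ 0) (ha : ¬ (p : ℤ) ∣ a) (hb : ¬ (p : ℤ) ∣ b) (hcdvd : (p : ℤ) ∣ c)
    (hab : IsCoprime a b) : a ^ p + b ^ p ≠ c ^ p :=
  Fermat.Agent.S10.X11.H911.caseII_int (IsCyclotomicExtension.zeta_spec p ℚ K) hp2 hkummer hc ha hb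
    hcdvd hab

end Fermat.Agent.S10.X11.CaseII

namespace Fermat.Agent.S10.X11

open Fermat.Agent.S10.X11.H911

/-- Case II descent for `p = 11`, in the exact form of the team interface. -/
theorem caseII_gen {K : Type*} [Field K] [NumberField K] [IsCyclotomicExtension {11} ℚ K]
    {ζ : K} (hζ : IsPrimitiveRoot ζ 11)
    (hpid : IsPrincipalIdealRing (𝓞 K))
    (hkummer : ∀ u : (𝓞 K)ˣ, (∃ m : ℤ, (11 : 𝓞 K) ∣ (u : 𝓞 K) - (m : 𝓞 K)) →
      ∃ v : (𝓞 K)ˣ, u = v ^ 11)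
    (a b c : 𝓞 K) (u : (𝓞 K)ˣ) (hc : c ≠ 0) (ha : ¬ (hζ.toInteger - 1) ∣ a)
    (hb : ¬ (hζ.toInteger - 1) ∣ b) (hcdvd : (hζ.toInteger - 1) ∣ c) (hab : IsCoprime a b) :
    a ^ 11 + b ^ 11 ≠ u * c ^ 11 := by
  have : Fact (Nat.Prime 11) := ⟨by norm_num⟩
  refine caseII_gen_of_prime (p := 11) hζ (by norm_num) ?_ a b c u hc ha hb hcdvd hab
  intro w hw
  refine hkummer w ?_
  obtain ⟨n, hn⟩ := hw
  exact ⟨n, by simpa using hn⟩

/-- Case II over `ℤ` for `p = 11`, in the exact form of the team interface, assuming the PID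
property and Kummer's lemma for one cyclotomic field `K`. -/
theorem caseII_eleven_of {K : Type*} [Field K] [NumberField K] [IsCyclotomicExtension {11} ℚ K]
    (hpid : IsPrincipalIdealRing (𝓞 K))
    (hkummer : ∀ u : (𝓞 K)ˣ, (∃ m : ℤ, (11 : 𝓞 K) ∣ (u : 𝓞 K) - (m : 𝓞 K)) →
      ∃ v : (𝓞 K)ˣ, u = v ^ 11)
    {a b c : ℤ} (hc : c ≠ 0) (ha : ¬ (11 : ℤ) ∣ a) (hb : ¬ (11 : ℤ) ∣ b)
    (hcdvd : (11 : ℤ) ∣ c) (hab : IsCoprime a b) : a ^ 11 + b ^ 11 ≠ c ^ 11 := by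
  have : Fact (Nat.Prime 11) := ⟨by norm_num⟩
  have hζ := IsCyclotomicExtension.zeta_spec 11 ℚ K
  refine caseII_int (p := 11) hζ (by norm_num) ?_ hc ?_ ?_ ?_ hab
  · intro w hw
    refine hkummer w ?_
    obtain ⟨n, hn⟩ := hw
    exact ⟨n, by simpa using hn⟩
  · simpa using ha
  · simpa using hb
  · simpa using hcdvd

end Fermat.Agent.S10.X11



end
-- ===== PACK-END S10/X11/CaseII.lean

-- ===== PACK-BEGIN S11/CaseI.lean
section


/-!
# Sophie Germain's theorem for the exponent 11 (auxiliary prime 23)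

If `x ^ 11 + y ^ 11 + z ^ 11 = 0` with `x, y, z` pairwise coprime integers then `11 ∣ x * y * z`
("first case" of Fermat's Last Theorem for the exponent `11`).
-/

set_option autoImplicit false

namespace Fermat.Agent.S11

/-- The cofactor `(y ^ 11 + z ^ 11) / (y + z)`. -/
def sgPhi (y z : ℤ) : ℤ :=
  y ^ 10 - y ^ 9 * z + y ^ 8 * z ^ 2 - y ^ 7 * z ^ 3 + y ^ 6 * z ^ 4 - y ^ 5 * z ^ 5 + y ^ 4 * z ^ 6
    - y ^ 3 * z ^ 7 + y ^ 2 * z ^ 8 - y * z ^ 9 + z ^ 10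

lemma sgPhi_mul (y z : ℤ) : (y + z) * sgPhi y z = y ^ 11 + z ^ 11 := by
  unfold sgPhi; ring

lemma sgPhi_comm (y z : ℤ) : sgPhi y z = sgPhi z y := by
  unfold sgPhi; ring

/-- `sgPhi y z = 11 * y ^ 10 + (y + z) * k`. -/
lemma sgPhi_eq_add (y z : ℤ) : ∃ k : ℤ, sgPhi y z = 11 * y ^ 10 + (y + z) * k := by
  refine ⟨-55 * y ^ 9 + 165 * y ^ 8 * (y + z) - 330 * y ^ 7 * (y + z) ^ 2
    + 462 * y ^ 6 * (y + z) ^ 3 - 462 * y ^ 5 * (y + z) ^ 4 + 330 * y ^ 4 * (y + z) ^ 5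
    - 165 * y ^ 3 * (y + z) ^ 6 + 55 * y ^ 2 * (y + z) ^ 7 - 11 * y * (y + z) ^ 8
    + (y + z) ^ 9, ?_⟩
  unfold sgPhi; ring

lemma sg_isCoprime_add_sgPhi {y z : ℤ} (hyz : IsCoprime y z) (h11 : ¬ (11 : ℤ) ∣ y + z) :
    IsCoprime (y + z) (sgPhi y z) := by
  obtain ⟨k, hk⟩ := sgPhi_eq_add y z
  rw [hk]
  apply IsCoprime.add_mul_left_right
  apply IsCoprime.mul_right
  · have hp : Prime (11 : ℤ) := by
      rw [Int.prime_iff_natAbs_prime]; norm_num
    exact ((Prime.coprime_iff_not_dvd hp).2 h11).symm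
  · apply IsCoprime.pow_right
    have : IsCoprime z y := hyz.symm
    simpa [add_comm] using (IsCoprime.add_mul_left_left this 1)

/-- If `x ^ 11 + y ^ 11 + z ^ 11 = 0`, `y, z` coprime and `11 ∤ x` then `y + z` and
`sgPhi y z` are eleventh powers. -/
lemma sg_exists_pow {x y z : ℤ} (hyz : IsCoprime y z) (h : x ^ 11 + y ^ 11 + z ^ 11 = 0)
    (h11 : ¬ (11 : ℤ) ∣ x) :
    (∃ a : ℤ, y + z = a ^ 11) ∧ (∃ α : ℤ, sgPhi y z = α ^ 11) := by
  have hmul : (y + z) * sgPhi y z = (-x) ^ 11 := by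
    rw [sgPhi_mul]; linear_combination h
  have hp : Prime (11 : ℤ) := by
    rw [Int.prime_iff_natAbs_prime]; norm_num
  have hnd : ¬ (11 : ℤ) ∣ y + z := by
    intro hd
    have h1 : (11 : ℤ) ∣ (-x) ^ 11 := by
      rw [← hmul]; exact Dvd.dvd.mul_right hd _
    have h2 : (11 : ℤ) ∣ -x := hp.dvd_of_dvd_pow h1
    exact h11 ((dvd_neg).1 h2)
  have hcop := sg_isCoprime_add_sgPhi hyz hnd
  have hodd : Odd 11 := by decide
  exact ⟨Int.eq_pow_of_mul_eq_pow_odd_left hcop hodd hmul,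
    Int.eq_pow_of_mul_eq_pow_odd_right hcop hodd hmul⟩

/-- Eleventh powers modulo `23` are `0`, `1` or `-1`. -/
lemma sg_pow_eleven_zmod (t : ZMod 23) : (t = 0 ∧ t ^ 11 = 0) ∨ (t ≠ 0 ∧ (t ^ 11 = 1 ∨ t ^ 11 = -1)) := by
  revert t; decide

lemma sg_zmod_sum_three {a b c : ZMod 23} (h : a ^ 11 + b ^ 11 + c ^ 11 = 0) :
    a = 0 ∨ b = 0 ∨ c = 0 := by
  rcases sg_pow_eleven_zmod a with ⟨ha, -⟩ | ⟨-, ha⟩
  · exact Or.inl ha
  rcases sg_pow_eleven_zmod b with ⟨hb, -⟩ | ⟨-, hb⟩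
  · exact Or.inr (Or.inl hb)
  rcases sg_pow_eleven_zmod c with ⟨hc, -⟩ | ⟨-, hc⟩
  · exact Or.inr (Or.inr hc)
  exfalso
  rcases ha with ha | ha <;> rcases hb with hb | hb <;> rcases hc with hc | hc <;>
    rw [ha, hb, hc] at h <;> revert h <;> decide

lemma sg_pow_ten_ne_zero : ∀ y : ZMod 23, y ≠ 0 → y ^ 10 ≠ 0 := by decide

lemma sg_zmod_final {y α γ : ZMod 23} (hy : y ≠ 0) (hα : α ^ 11 = 11 * y ^ 10)
    (hγ : γ ^ 11 = y ^ 10) : False := by
  have hy10 : y ^ 10 ≠ 0 := sg_pow_ten_ne_zero y hy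
  have hγ' : y ^ 10 = 1 ∨ y ^ 10 = -1 := by
    rcases sg_pow_eleven_zmod γ with ⟨-, h0⟩ | ⟨-, h1⟩
    · exact absurd (hγ ▸ h0) hy10
    · rwa [hγ] at h1
  rcases sg_pow_eleven_zmod α with ⟨-, h0⟩ | ⟨-, h1⟩
  · rw [hα] at h0
    rcases hγ' with h | h <;> rw [h] at h0 <;> revert h0 <;> decide
  · rw [hα] at h1
    rcases hγ' with h | h <;> rw [h] at h1 <;> revert h1 <;> decide

lemma sg_not_dvd_of_isCoprime {x y : ℤ} (hxy : IsCoprime x y) (hx : (23 : ℤ) ∣ x) :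
    ¬ (23 : ℤ) ∣ y := by
  intro hy
  have hu : IsUnit (23 : ℤ) := hxy.isUnit_of_dvd' hx hy
  rw [Int.isUnit_iff] at hu
  omega

/-- The core of Sophie Germain's argument: the case `23 ∣ x`. -/
lemma sg_aux {x y z : ℤ} (hxy : IsCoprime x y) (hyz : IsCoprime y z) (hzx : IsCoprime z x)
    (h : x ^ 11 + y ^ 11 + z ^ 11 = 0) (hx11 : ¬ (11 : ℤ) ∣ x) (hy11 : ¬ (11 : ℤ) ∣ y)
    (hz11 : ¬ (11 : ℤ) ∣ z) (hq : (23 : ℤ) ∣ x) : False := by
  obtain ⟨⟨a, ha⟩, ⟨α, hα⟩⟩ := sg_exists_pow hyz h hx11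
  have h' : y ^ 11 + z ^ 11 + x ^ 11 = 0 := by linear_combination h
  obtain ⟨⟨b, hb⟩, -⟩ := sg_exists_pow hzx h' hy11
  have h'' : z ^ 11 + x ^ 11 + y ^ 11 = 0 := by linear_combination h
  obtain ⟨⟨c, hc⟩, ⟨γ, hγ⟩⟩ := sg_exists_pow hxy h'' hz11
  have hx0 : (x : ZMod 23) = 0 := (ZMod.intCast_zmod_eq_zero_iff_dvd x 23).2 (by exact_mod_cast hq)
  have hy0 : (y : ZMod 23) ≠ 0 := by
    intro h0
    have := (ZMod.intCast_zmod_eq_zero_iff_dvd y 23).1 h0
    exact sg_not_dvd_of_isCoprime hxy hq (by exact_mod_cast this)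
  have hz0 : (z : ZMod 23) ≠ 0 := by
    intro h0
    have := (ZMod.intCast_zmod_eq_zero_iff_dvd z 23).1 h0
    exact sg_not_dvd_of_isCoprime hzx.symm hq (by exact_mod_cast this)
  have ha' : (y : ZMod 23) + z = (a : ZMod 23) ^ 11 := by
    have := congrArg (Int.cast : ℤ → ZMod 23) ha
    push_cast at this; exact this
  have hb' : (z : ZMod 23) + x = (b : ZMod 23) ^ 11 := by
    have := congrArg (Int.cast : ℤ → ZMod 23) hb
    push_cast at this; exact this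
  have hc' : (x : ZMod 23) + y = (c : ZMod 23) ^ 11 := by
    have := congrArg (Int.cast : ℤ → ZMod 23) hc
    push_cast at this; exact this
  have hα' : (α : ZMod 23) ^ 11 = ((sgPhi y z : ℤ) : ZMod 23) := by
    have := congrArg (Int.cast : ℤ → ZMod 23) hα
    push_cast at this; exact this.symm
  have hγ' : (γ : ZMod 23) ^ 11 = ((sgPhi x y : ℤ) : ZMod 23) := by
    have := congrArg (Int.cast : ℤ → ZMod 23) hγ
    push_cast at this; exact this.symm
  rw [hx0] at hb' hc'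
  have hsum : (c : ZMod 23) ^ 11 + (b : ZMod 23) ^ 11 + (-(a : ZMod 23)) ^ 11 = 0 := by
    have : (-(a : ZMod 23)) ^ 11 = - (a : ZMod 23) ^ 11 := by ring
    rw [this, ← ha', ← hb', ← hc']; ring
  rcases sg_zmod_sum_three hsum with hc0 | hb0 | ha0
  · rw [hc0] at hc'
    apply hy0
    simpa using hc'
  · rw [hb0] at hb'
    apply hz0
    simpa using hb'
  · have ha0' : (a : ZMod 23) = 0 := by simpa using ha0
    rw [ha0'] at ha'
    have hzy : (z : ZMod 23) = -y := by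
      have : (y : ZMod 23) + z = 0 := by simpa using ha'
      linear_combination this
    have e1 : ((sgPhi y z : ℤ) : ZMod 23) = 11 * (y : ZMod 23) ^ 10 := by
      unfold sgPhi; push_cast; rw [hzy]; ring
    have e2 : ((sgPhi x y : ℤ) : ZMod 23) = (y : ZMod 23) ^ 10 := by
      unfold sgPhi; push_cast; rw [hx0]; ring
    rw [e1] at hα'
    rw [e2] at hγ'
    exact sg_zmod_final hy0 hα' hγ'

/-- **Sophie Germain's theorem** for the exponent `11` (auxiliary prime `23 = 2 * 11 + 1`). -/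
theorem sophieGermain_eleven (x y z : ℤ) (hxy : IsCoprime x y) (hyz : IsCoprime y z)
    (hzx : IsCoprime z x) (h : x ^ 11 + y ^ 11 + z ^ 11 = 0) : (11 : ℤ) ∣ x * y * z := by
  by_contra hnd
  have hx11 : ¬ (11 : ℤ) ∣ x := fun hd => hnd (Dvd.dvd.mul_right (Dvd.dvd.mul_right hd _) _)
  have hy11 : ¬ (11 : ℤ) ∣ y := fun hd => hnd (Dvd.dvd.mul_right (Dvd.dvd.mul_left hd _) _)
  have hz11 : ¬ (11 : ℤ) ∣ z := fun hd => hnd (Dvd.dvd.mul_left hd _)
  have hmod : (x : ZMod 23) ^ 11 + (y : ZMod 23) ^ 11 + (z : ZMod 23) ^ 11 = 0 := by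
    have := congrArg (Int.cast : ℤ → ZMod 23) h
    push_cast at this; exact this
  have key : ∀ t : ℤ, (t : ZMod 23) = 0 → (23 : ℤ) ∣ t := fun t ht => by
    have := (ZMod.intCast_zmod_eq_zero_iff_dvd t 23).1 ht
    exact_mod_cast this
  rcases sg_zmod_sum_three hmod with hx0 | hy0 | hz0
  · exact sg_aux hxy hyz hzx h hx11 hy11 hz11 (key x hx0)
  · exact sg_aux hyz hzx hxy (by linear_combination h) hy11 hz11 hx11 (key y hy0)
  · exact sg_aux hzx hxy hyz (by linear_combination h) hz11 hx11 hy11 (key z hz0)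

/-- First case of Fermat's Last Theorem for exponent `11`, pairwise coprime version. -/
theorem caseI_eleven_aux (a b c : ℤ) (hab : IsCoprime a b) (hac : IsCoprime a c)
    (hbc : IsCoprime b c) (h : a ^ 11 + b ^ 11 = c ^ 11) : (11 : ℤ) ∣ a * b * c := by
  have h' : a ^ 11 + b ^ 11 + (-c) ^ 11 = 0 := by
    have : (-c) ^ 11 = - c ^ 11 := by ring
    rw [this, h]; ring
  have := sophieGermain_eleven a b (-c) hab hbc.neg_right hac.symm.neg_left h'
  have h2 : a * b * -c = -(a * b * c) := by ring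
  rw [h2] at this
  exact (dvd_neg).1 this

lemma sg_isCoprime_of_eq {a b c : ℤ} (hab : IsCoprime a b) (h : a ^ 11 + b ^ 11 = c ^ 11) :
    IsCoprime a c := by
  have h1 : IsCoprime a (b ^ 11 + a * a ^ 10) :=
    IsCoprime.add_mul_left_right (hab.pow_right) _
  have h2 : b ^ 11 + a * a ^ 10 = c ^ 11 := by rw [← h]; ring
  rw [h2] at h1
  exact (IsCoprime.pow_right_iff (by norm_num)).1 h1

/-- **T1**: first case of Fermat's Last Theorem for exponent `11` (Sophie Germain, `q = 23`). -/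
theorem caseI_eleven {a b c : ℤ} (hab : IsCoprime a b) (h : ¬ (11 : ℤ) ∣ a * b * c) :
    a ^ 11 + b ^ 11 ≠ c ^ 11 := by
  intro heq
  have hac : IsCoprime a c := sg_isCoprime_of_eq hab heq
  have hbc : IsCoprime b c := sg_isCoprime_of_eq hab.symm (by rw [add_comm]; exact heq)
  exact h (caseI_eleven_aux a b c hab hac hbc heq)

end Fermat.Agent.S11

end
-- ===== PACK-END S11/CaseI.lean

-- ===== PACK-BEGIN S11/GlueZ.lean
section


/-!
# T5a: reduction of `FermatLastTheoremFor p` (odd prime `p`) to Case I and Case II over `ℤ`.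
Generalisation of `fermatLastTheoremThree_of_three_dvd_only_c` from Mathlib.
-/

set_option autoImplicit false

namespace Fermat.Agent.S11.GlueZ

lemma p_dvd_b_of_dvd_a_of_gcd_eq_one_of_case2 {p : ℕ} (hp : p.Prime) (hodd : Odd p)
    {a b c : ℤ} (ha : a ≠ 0)
    (Hgcd : Finset.gcd {a, b, c} id = 1) (h3a : (p : ℤ) ∣ a) (HF : a ^ p + b ^ p + c ^ p = 0)
    (H : ∀ a b c : ℤ, c ≠ 0 → ¬ (p : ℤ) ∣ a → ¬ (p : ℤ) ∣ b → (p : ℤ) ∣ c → IsCoprime a b →
      a ^ p + b ^ p ≠ c ^ p) :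
    (p : ℤ) ∣ b := by
  have hpZ : Prime (p : ℤ) := Nat.prime_iff_prime_int.mp hp
  have hbc : IsCoprime (-b) (-c) := by
    refine IsCoprime.neg_neg ?_
    rw [add_comm (a ^ p), add_assoc, add_comm (a ^ p), ← add_assoc] at HF
    refine isCoprime_of_gcd_eq_one_of_FLT ?_ HF
    convert Hgcd using 2
    rw [Finset.pair_comm, Finset.insert_comm]
  by_contra! h3b
  by_cases h3c : (p : ℤ) ∣ c
  · apply h3b
    rw [add_assoc, add_comm (b ^ p), ← add_assoc] at HF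
    exact dvd_c_of_prime_of_dvd_a_of_dvd_b_of_FLT hpZ h3a h3c HF
  · refine H (-b) (-c) a ha (by simp [h3b]) (by simp [h3c]) h3a hbc ?_
    rw [add_eq_zero_iff_eq_neg, ← hodd.neg_pow] at HF
    rw [hodd.neg_pow, hodd.neg_pow]
    have : a ^ p = - (b ^ p) - c ^ p := by
      have h2 := HF
      rw [hodd.neg_pow] at h2
      linarith
    rw [this]
    ring

open Finset in
lemma flt_of_dvd_a_of_gcd_eq_one_of_case2 {p : ℕ} (hp : p.Prime) (hodd : Odd p)
    {a b c : ℤ} (ha : a ≠ 0)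
    (h3a : (p : ℤ) ∣ a) (Hgcd : Finset.gcd {a, b, c} id = 1)
    (H : ∀ a b c : ℤ, c ≠ 0 → ¬ (p : ℤ) ∣ a → ¬ (p : ℤ) ∣ b → (p : ℤ) ∣ c → IsCoprime a b →
      a ^ p + b ^ p ≠ c ^ p) :
    a ^ p + b ^ p + c ^ p ≠ 0 := by
  have hpZ : Prime (p : ℤ) := Nat.prime_iff_prime_int.mp hp
  intro HF
  apply hpZ.not_dvd_one
  rw [← Hgcd]
  refine dvd_gcd (fun x hx ↦ ?_)
  simp only [mem_insert, mem_singleton] at hx
  have h3b : (p : ℤ) ∣ b := by
    refine p_dvd_b_of_dvd_a_of_gcd_eq_one_of_case2 hp hodd ha ?_ h3a HF H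
    simp only [← Hgcd, gcd_insert, gcd_singleton, id_eq, ← Int.abs_eq_normalize]
  rcases hx with hx | hx | hx
  · exact hx ▸ h3a
  · exact hx ▸ h3b
  · simpa [hx] using dvd_c_of_prime_of_dvd_a_of_dvd_b_of_FLT hpZ h3a h3b HF

open Finset Int in
/-- To prove Fermat's Last Theorem for an odd prime `p`, it is enough to prove Case I and
Case II (with `p ∣ c` only). -/
theorem flt_of_caseI_of_caseII {p : ℕ} (hp : p.Prime) (hodd : Odd p)
    (H1 : ∀ a b c : ℤ, IsCoprime a b → ¬ (p : ℤ) ∣ a * b * c → a ^ p + b ^ p ≠ c ^ p)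
    (H : ∀ a b c : ℤ, c ≠ 0 → ¬ (p : ℤ) ∣ a → ¬ (p : ℤ) ∣ b → (p : ℤ) ∣ c → IsCoprime a b →
      a ^ p + b ^ p ≠ c ^ p) :
    FermatLastTheoremFor p := by
  have hpZ : Prime (p : ℤ) := Nat.prime_iff_prime_int.mp hp
  rw [fermatLastTheoremFor_iff_int]
  refine fermatLastTheoremWith_of_fermatLastTheoremWith_coprime (fun a b c ha hb hc Hgcd hF ↦ ?_)
  have hF0 : a ^ p + b ^ p + (-c) ^ p = 0 := by
    rw [hodd.neg_pow, hF]; ring
  by_cases h1 : (p : ℤ) ∣ a * b * c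
  swap
  · refine H1 a b c ?_ h1 hF
    refine isCoprime_of_gcd_eq_one_of_FLT (c := -c) ?_ hF0
    simp only [← Hgcd, gcd_insert, gcd_singleton, id_eq, ← abs_eq_normalize, abs_neg]
  rw [hpZ.dvd_mul, hpZ.dvd_mul] at h1
  rcases h1 with (h3a | h3b) | h3c
  · refine flt_of_dvd_a_of_gcd_eq_one_of_case2 hp hodd ha h3a ?_ H hF0
    simp only [← Hgcd, gcd_insert, gcd_singleton, id_eq, ← abs_eq_normalize, abs_neg]
  · rw [add_comm (a ^ p)] at hF0
    refine flt_of_dvd_a_of_gcd_eq_one_of_case2 hp hodd hb h3b ?_ H hF0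
    simp only [← Hgcd, insert_comm, gcd_insert, gcd_singleton, id_eq, ← abs_eq_normalize, abs_neg]
  · rw [add_comm _ ((-c) ^ p), ← add_assoc] at hF0
    refine flt_of_dvd_a_of_gcd_eq_one_of_case2 hp hodd (neg_ne_zero.2 hc) (by simp [h3c])
      ?_ H hF0
    rw [Finset.insert_comm (-c), Finset.pair_comm (-c) b]
    simp only [← Hgcd, gcd_insert, gcd_singleton, id_eq, ← abs_eq_normalize, abs_neg]

end Fermat.Agent.S11.GlueZ

end
-- ===== PACK-END S11/GlueZ.lean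

-- ===== PACK-BEGIN S11/GlueBridge.lean
section


/-!
# T5b: bridge from the generalized Case II statement in `𝓞 K` to Case II over `ℤ`.
-/

set_option autoImplicit false

namespace Fermat.Agent.S11.GlueBridge

open NumberField

theorem caseII_int_of_gen {p : ℕ} [hp : Fact p.Prime] {K : Type*} [Field K] [NumberField K]
    [IsCyclotomicExtension {p} ℚ K] {ζ : K} (hζ : IsPrimitiveRoot ζ p)
    (Hgen : ∀ a b c : 𝓞 K, ∀ u : (𝓞 K)ˣ, c ≠ 0 → ¬ (hζ.toInteger - 1) ∣ a →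
      ¬ (hζ.toInteger - 1) ∣ b → (hζ.toInteger - 1) ∣ c → IsCoprime a b →
      a ^ p + b ^ p ≠ u * c ^ p) :
    ∀ a b c : ℤ, c ≠ 0 → ¬ (p : ℤ) ∣ a → ¬ (p : ℤ) ∣ b → (p : ℤ) ∣ c → IsCoprime a b →
      a ^ p + b ^ p ≠ c ^ p := by
  intro a b c hc ha hb hcdvd hcoprime h
  refine Hgen a b c 1 (by simp [hc]) (fun hdvd ↦ ha ?_) (fun hdvd ↦ hb ?_) ?_ ?_ ?_
  · exact (IsCyclotomicExtension.Rat.zeta_sub_one_dvd_intCast_iff' p hζ).mp hdvd
  · exact (IsCyclotomicExtension.Rat.zeta_sub_one_dvd_intCast_iff' p hζ).mp hdvd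
  · exact (IsCyclotomicExtension.Rat.zeta_sub_one_dvd_intCast_iff' p hζ).mpr hcdvd
  · exact IsCoprime.intCast hcoprime
  · simpa using mod_cast h

end Fermat.Agent.S11.GlueBridge

end
-- ===== PACK-END S11/GlueBridge.lean

-- ===== PACK-BEGIN S11/EchCounting.lean
section


/-!
# Abstract counting lemma for Kummer's lemma (echelon method)

Let `G` be a commutative group generated (as a group) by a family `gens : ι → G`, let `H` be a
submonoid containing all `p`-th powers, and let `e : κ → G` be a family with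
`card ι ≤ card κ` which is "independent modulo `H`".  Then every element of `H` is a `p`-th power.
-/

set_option autoImplicit false

namespace Fermat.Agent.S11.Ech

open Function

variable {G : Type*} [CommGroup G]

theorem prod_zpow_eq_prod_pow_mul_pow {ι : Type*} [Fintype ι] (p : ℕ) (hp : 0 < p)
    (g : ι → G) (K : ι → ℤ) :
    ∏ i, g i ^ K i = (∏ i, g i ^ ((K i % (p : ℤ)).toNat)) * (∏ i, g i ^ (K i / (p : ℤ))) ^ p := by
  rw [← Finset.prod_pow, ← Finset.prod_mul_distrib]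
  refine Finset.prod_congr rfl fun i _ => ?_
  have hp' : (0 : ℤ) < p := by exact_mod_cast hp
  have h1 : (0 : ℤ) ≤ K i % p := Int.emod_nonneg _ hp'.ne'
  rw [← zpow_natCast (g i) (K i % (p : ℤ)).toNat, Int.toNat_of_nonneg h1, ← zpow_natCast _ p,
    ← zpow_mul, ← zpow_add]
  congr 1
  rw [mul_comm]
  exact (Int.emod_add_mul_ediv (K i) p).symm

theorem exists_pow_eq_of_counting (p : ℕ) [hp : Fact p.Prime]
    {ι κ : Type*} [Fintype ι] [Fintype κ] (hcard : Fintype.card ι ≤ Fintype.card κ)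
    (gens : ι → G) (hgens : ∀ x : G, ∃ k : ι → ℤ, x = ∏ i, gens i ^ k i)
    (H : Submonoid G) (hH : ∀ x : G, x ^ p ∈ H)
    (e : κ → G)
    (hind : ∀ n : κ → ℤ, (∏ i, e i ^ n i) ∈ H → ∀ i, (p : ℤ) ∣ n i) :
    ∀ u ∈ H, ∃ v : G, u = v ^ p := by
  classical
  have hp0 : 0 < p := hp.out.pos
  let P : Subgroup G := (powMonoidHom p : G →* G).range
  have hP : ∀ x : G, x ∈ P ↔ ∃ w : G, w ^ p = x := fun x => by
    simp [P, MonoidHom.mem_range]
  let φ : (ι → Fin p) → G ⧸ P := fun k => QuotientGroup.mk (∏ i, gens i ^ (k i : ℕ))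
  let ψ : (κ → Fin p) → G ⧸ P := fun n => QuotientGroup.mk (∏ i, e i ^ (n i : ℕ))
  have hφ : Surjective φ := by
    intro v
    obtain ⟨x, rfl⟩ := QuotientGroup.mk_surjective v
    obtain ⟨K, hK⟩ := hgens x
    have hp' : (0 : ℤ) < p := by exact_mod_cast hp0
    refine ⟨fun i => ⟨(K i % (p : ℤ)).toNat, ?_⟩, ?_⟩
    · have h1 : (0 : ℤ) ≤ K i % p := Int.emod_nonneg _ hp'.ne'
      have h2 : K i % p < p := Int.emod_lt_of_pos _ hp'
      omega
    · simp only [φ]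
      rw [QuotientGroup.eq, hP]
      refine ⟨∏ i, gens i ^ (K i / (p : ℤ)), ?_⟩
      rw [hK, prod_zpow_eq_prod_pow_mul_pow p hp0 gens K]
      simp
  have hψ : Injective ψ := by
    intro n m hnm
    simp only [ψ] at hnm
    rw [QuotientGroup.eq, hP] at hnm
    obtain ⟨w, hw⟩ := hnm
    have key : ∏ i, e i ^ ((m i : ℕ) - (n i : ℕ) : ℤ) ∈ H := by
      have : ∏ i, e i ^ ((m i : ℕ) - (n i : ℕ) : ℤ) = w ^ p := by
        rw [hw, ← Finset.prod_inv_distrib, ← Finset.prod_mul_distrib]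
        refine Finset.prod_congr rfl fun i _ => ?_
        rw [zpow_sub, zpow_natCast, zpow_natCast, mul_comm]
      rw [this]
      exact hH w
    have := hind _ key
    funext i
    have hi := this i
    have h1 := (n i).isLt
    have h2 := (m i).isLt
    apply Fin.ext
    obtain ⟨c, hc⟩ := hi
    have hp' : (0 : ℤ) < p := by exact_mod_cast hp0
    have h1' : ((n i : ℕ) : ℤ) < p := by exact_mod_cast h1
    have h2' : ((m i : ℕ) : ℤ) < p := by exact_mod_cast h2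
    have h3 : (0 : ℤ) ≤ ((n i : ℕ) : ℤ) := by positivity
    have h4 : (0 : ℤ) ≤ ((m i : ℕ) : ℤ) := by positivity
    have hc0 : c = 0 := by
      by_contra hne
      rcases lt_or_gt_of_ne hne with h | h
      · have : (p : ℤ) * c ≤ (p : ℤ) * (-1) := mul_le_mul_of_nonneg_left (by omega) hp'.le
        nlinarith
      · have : (p : ℤ) * 1 ≤ (p : ℤ) * c := mul_le_mul_of_nonneg_left (by omega) hp'.le
        nlinarith
    rw [hc0, mul_zero] at hc
    have : ((n i : ℕ) : ℤ) = ((m i : ℕ) : ℤ) := by linarith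
    exact_mod_cast this
  have : Finite (G ⧸ P) := Finite.of_surjective φ hφ
  have hcardV : Nat.card (G ⧸ P) ≤ Nat.card (κ → Fin p) := by
    calc Nat.card (G ⧸ P) ≤ Nat.card (ι → Fin p) := Nat.card_le_card_of_surjective φ hφ
      _ = p ^ Fintype.card ι := by simp [Nat.card_eq_fintype_card]
      _ ≤ p ^ Fintype.card κ := Nat.pow_le_pow_right hp0 hcard
      _ = Nat.card (κ → Fin p) := by simp [Nat.card_eq_fintype_card]
  have hψb : Bijective ψ := hψ.bijective_of_nat_card_le hcardV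
  intro u hu
  obtain ⟨n, hn⟩ := hψb.2 (QuotientGroup.mk u)
  simp only [ψ] at hn
  rw [QuotientGroup.eq, hP] at hn
  obtain ⟨w, hw⟩ := hn
  have hmem : ∏ i, e i ^ ((n i : ℕ) : ℤ) ∈ H := by
    have : ∏ i, e i ^ ((n i : ℕ) : ℤ) = u * (w⁻¹) ^ p := by
      simp only [zpow_natCast]
      rw [inv_pow, hw]
      simp
    rw [this]
    exact H.mul_mem hu (hH _)
  have hn0 : ∀ i, (n i : ℕ) = 0 := by
    intro i
    obtain ⟨c, hc⟩ := hind _ hmem i
    have h1 := (n i).isLt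
    have hp' : (0 : ℤ) < p := by exact_mod_cast hp0
    have h1' : ((n i : ℕ) : ℤ) < p := by exact_mod_cast h1
    have h3 : (0 : ℤ) ≤ ((n i : ℕ) : ℤ) := by positivity
    have hc0 : c = 0 := by
      by_contra hne
      rcases lt_or_gt_of_ne hne with h | h
      · have : (p : ℤ) * c ≤ (p : ℤ) * (-1) := mul_le_mul_of_nonneg_left (by omega) hp'.le
        nlinarith
      · have : (p : ℤ) * 1 ≤ (p : ℤ) * c := mul_le_mul_of_nonneg_left (by omega) hp'.le
        nlinarith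
    rw [hc0, mul_zero] at hc
    exact_mod_cast hc
  refine ⟨w, ?_⟩
  rw [hw]
  simp [hn0]

end Fermat.Agent.S11.Ech

end
-- ===== PACK-END S11/EchCounting.lean

-- ===== PACK-BEGIN S06/H211/Glue.lean
section







/-!
# S06 glue (helper211): the statement of S06 from exact-conductor-level modularity of the
integral Frey model

`s06_of_mlc1 : (∀ P, Mlc1IsModularModelOfExactConductorLevel P.freyCurveInt) → S06Statement`.

Hypothesis-parametrised, Mathlib + Prelude only.  The hypothesis is what the S60 chain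
(S51 + S52 + S50 + S59) produces for every semistable integral model with nonzero discriminant;
the integral Frey model is such a model.  Self-contained (the two facts on `freyCurveInt` that are
needed are re-proved here under fresh names).
-/

set_option autoImplicit false

namespace Fermat.Agent.S06.H211

open WeierstrassCurve

/-- The statement of S06. -/
def S06Statement : Prop :=
  ∀ P : FreyPackage, ∃ N : ℕ, P.IsConductorLevel N ∧ P.ModularRepOfLevel N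

lemma two_dvd_b (P : FreyPackage) : (2 : ℤ) ∣ P.b :=
  (ZMod.intCast_zmod_eq_zero_iff_dvd P.b 2).1 P.hb2

lemma apow_mod4 (P : FreyPackage) : ((P.a ^ P.p : ℤ) : ZMod 4) = 3 := by
  have h := P.ha4
  obtain ⟨k, hk⟩ := P.hp_odd
  push_cast
  rw [h, hk, pow_succ, pow_mul]
  have : (3 : ZMod 4) ^ 2 = 1 := by decide
  rw [this, one_pow, one_mul]

lemma dvd32_bpow (P : FreyPackage) : (32 : ℤ) ∣ P.b ^ P.p := by
  have h2 : (2 : ℤ) ^ P.p ∣ P.b ^ P.p := pow_dvd_pow_of_dvd (two_dvd_b P) _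
  have h5 : (2 : ℤ) ^ 5 ∣ (2 : ℤ) ^ P.p := pow_dvd_pow _ P.hp5
  have : (32 : ℤ) = 2 ^ 5 := by norm_num
  rw [this]
  exact h5.trans h2

lemma four_dvd (P : FreyPackage) : (4 : ℤ) ∣ P.b ^ P.p - 1 - P.a ^ P.p := by
  have hA := apow_mod4 P
  have hB : ((P.b ^ P.p : ℤ) : ZMod 4) = 0 :=
    (ZMod.intCast_zmod_eq_zero_iff_dvd _ 4).2 (Dvd.dvd.trans (by norm_num) (dvd32_bpow P))
  apply (ZMod.intCast_zmod_eq_zero_iff_dvd _ 4).1
  rw [Int.cast_sub, Int.cast_sub, hA, hB]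
  decide

lemma sixteen_dvd (P : FreyPackage) : (16 : ℤ) ∣ -(P.a ^ P.p) * (P.b ^ P.p) :=
  Dvd.dvd.mul_left (Dvd.dvd.trans (by norm_num) (dvd32_bpow P)) _

lemma four_mul_a₂ (P : FreyPackage) :
    4 * P.freyCurveInt.a₂ = P.b ^ P.p - 1 - P.a ^ P.p := by
  simp only [FreyPackage.freyCurveInt]
  exact Int.mul_ediv_cancel' (four_dvd P)

lemma sixteen_mul_a₄ (P : FreyPackage) :
    16 * P.freyCurveInt.a₄ = -(P.a ^ P.p) * (P.b ^ P.p) := by
  simp only [FreyPackage.freyCurveInt]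
  exact Int.mul_ediv_cancel' (sixteen_dvd P)

/-- The integral Frey model base-changes to the rational Frey curve. -/
theorem freyInt_map (P : FreyPackage) :
    P.freyCurveInt.map (Int.castRingHom ℚ) = P.freyCurve := by
  have h2 := four_mul_a₂ P
  have h4 := sixteen_mul_a₄ P
  have h2' : (4 : ℚ) * (P.freyCurveInt.a₂ : ℚ) = (P.b : ℚ) ^ P.p - 1 - (P.a : ℚ) ^ P.p := by
    exact_mod_cast h2
  have h4' : (16 : ℚ) * (P.freyCurveInt.a₄ : ℚ) = -((P.a : ℚ) ^ P.p) * ((P.b : ℚ) ^ P.p) := by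
    exact_mod_cast h4
  ext
  · simp [FreyPackage.freyCurveInt, FreyPackage.freyCurve, WeierstrassCurve.map]
  · simp only [WeierstrassCurve.map, FreyPackage.freyCurve, eq_intCast]
    rw [eq_div_iff (by norm_num : (4 : ℚ) ≠ 0), mul_comm]
    exact h2'
  · simp [FreyPackage.freyCurveInt, FreyPackage.freyCurve, WeierstrassCurve.map]
  · simp only [WeierstrassCurve.map, FreyPackage.freyCurve, eq_intCast]
    rw [eq_div_iff (by norm_num : (16 : ℚ) ≠ 0), mul_comm]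
    exact h4'
  · simp [FreyPackage.freyCurveInt, FreyPackage.freyCurve, WeierstrassCurve.map]

/-- `2⁸ Δ = (a^p b^p c^p)²` for the integral Frey model. -/
theorem freyInt_Δ (P : FreyPackage) :
    256 * P.freyCurveInt.Δ = (P.a ^ P.p * P.b ^ P.p * P.c ^ P.p) ^ 2 := by
  have h2 := four_mul_a₂ P
  have h4 := sixteen_mul_a₄ P
  have hC := P.hFLT
  have e1 : P.freyCurveInt.a₁ = 1 := rfl
  have e3 : P.freyCurveInt.a₃ = 0 := rfl
  have e6 : P.freyCurveInt.a₆ = 0 := rfl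
  simp only [WeierstrassCurve.Δ, WeierstrassCurve.b₂, WeierstrassCurve.b₄, WeierstrassCurve.b₆,
    WeierstrassCurve.b₈, e1, e3, e6]
  rw [← hC]
  generalize P.freyCurveInt.a₂ = x at *
  generalize P.freyCurveInt.a₄ = y at *
  generalize P.a ^ P.p = A at *
  generalize P.b ^ P.p = B at *
  linear_combination ((16 * y) ^ 2 * (2 + 4 * x + (B - 1 - A))) * h2
    + ((1 + (B - 1 - A)) ^ 2 * (16 * y + (-A * B))
        - 4 * ((16 * y) ^ 2 + 16 * y * (-A * B) + (-A * B) ^ 2)) * h4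

/-- A prime dividing the discriminant of the integral Frey model divides `a b c`. -/
theorem prime_dvd_abc_of_dvd_Δ (P : FreyPackage) {q : ℕ} (hq : q.Prime)
    (h : (q : ℤ) ∣ P.freyCurveInt.Δ) : (q : ℤ) ∣ P.a * P.b * P.c := by
  have hqp : Prime (q : ℤ) := Nat.prime_iff_prime_int.mp hq
  have h1 : (q : ℤ) ∣ (P.a ^ P.p * P.b ^ P.p * P.c ^ P.p) ^ 2 := by
    rw [← freyInt_Δ P]
    exact Dvd.dvd.mul_left h _
  have h2 : (q : ℤ) ∣ P.a ^ P.p * P.b ^ P.p * P.c ^ P.p := hqp.dvd_of_dvd_pow h1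
  have h3 : P.a ^ P.p * P.b ^ P.p * P.c ^ P.p = (P.a * P.b * P.c) ^ P.p := by ring
  rw [h3] at h2
  exact hqp.dvd_of_dvd_pow h2

/-- **S06 from exact-conductor-level modularity of the integral Frey model.** -/
theorem s06_of_mlc1
    (h : ∀ P : FreyPackage, Mlc1IsModularModelOfExactConductorLevel P.freyCurveInt) :
    S06Statement := by
  intro P
  obtain ⟨N, hN, hsq, hsupp, f, hf, hcoef⟩ := h P
  refine ⟨N, ⟨hN, hsq, fun q hq hqN => prime_dvd_abc_of_dvd_Δ P hq ((hsupp q hq).1 hqN)⟩, ?_⟩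
  obtain ⟨𝔪, h𝔪, hp𝔪⟩ := FLTPrelim.exists_maximalIdeal_natCast_prime_mem P.pp
  refine ⟨f, P.freyCurveInt, 𝔪, hf, ⟨1, ?_⟩, h𝔪, hp𝔪, ?_⟩
  · rw [one_smul, freyInt_map]
  · intro ℓ hℓ hgood hℓN _
    refine ⟨((P.freyCurveInt.apOfModel ℓ : ℤ) : integralClosure ℤ ℂ), ?_, ?_⟩
    · rw [hcoef ℓ hℓ hgood hℓN]
      push_cast
      rfl
    · rw [sub_self]
      exact 𝔪.zero_mem

/-- The same from the S60-type input: exact-conductor-level modularity of every semistable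
integral model with nonzero discriminant. -/
theorem s06_of_semistable_mlc1
    (h : ∀ W : WeierstrassCurve ℤ, W.Δ ≠ 0 → W.IsSemistableModel →
      Mlc1IsModularModelOfExactConductorLevel W)
    (hss : ∀ P : FreyPackage, P.freyCurveInt.IsSemistableModel) : S06Statement :=
  s06_of_mlc1 fun P => h P.freyCurveInt (by
    intro h0
    have hΔ := freyInt_Δ P
    rw [h0, mul_zero] at hΔ
    have hne : P.a ^ P.p * P.b ^ P.p * P.c ^ P.p ≠ 0 :=
      mul_ne_zero (mul_ne_zero (pow_ne_zero _ P.ha0) (pow_ne_zero _ P.hb0)) (pow_ne_zero _ P.hc0)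
    exact pow_ne_zero 2 hne hΔ.symm) (hss P)

end Fermat.Agent.S06.H211

end
-- ===== PACK-END S06/H211/Glue.lean

-- ===== PACK-BEGIN G1/H486/C3Hom.lean
section


/-!
# G1.b, group theory of the `C3`-descent (Mathlib only)

For `3 ∣ N` the map `γ = !![a, b; c, d] ↦ (c / N) * d mod 3` is a homomorphism
`Γ0(N) → ZMod 3` with kernel `Γ0(3 * N)`; it is onto for `N ≠ 0` (the element
`!![1, 0; N, 1]` goes to `1`).  Hence `Γ0(3 * N)` is a normal subgroup of index `3`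
of `Γ0(N)`.
-/

set_option autoImplicit false

namespace Fermat.Agent.G1.H486

open CongruenceSubgroup
open scoped MatrixGroups

/-- The lower-left entry of an element of `Γ0(N)` is divisible by `N`. -/
theorem natCast_dvd_of_mem_Gamma0 {N : ℕ} {γ : SL(2, ℤ)} (h : γ ∈ Gamma0 N) :
    (N : ℤ) ∣ γ 1 0 := by
  rw [Gamma0_mem] at h
  exact (ZMod.intCast_zmod_eq_zero_iff_dvd _ _).mp h

/-- Membership in `Γ0(N)` from divisibility. -/
theorem mem_Gamma0_of_natCast_dvd {N : ℕ} {γ : SL(2, ℤ)} (h : (N : ℤ) ∣ γ 1 0) :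
    γ ∈ Gamma0 N := by
  rw [Gamma0_mem]
  exact (ZMod.intCast_zmod_eq_zero_iff_dvd _ _).mpr h

theorem sl2_det_eq (γ : SL(2, ℤ)) : γ 0 0 * γ 1 1 - γ 0 1 * γ 1 0 = 1 := by
  have h := γ.det_coe
  rw [Matrix.det_fin_two] at h
  exact h

theorem sl2_mul_one_zero (γ δ : SL(2, ℤ)) :
    (γ * δ) 1 0 = γ 1 0 * δ 0 0 + γ 1 1 * δ 1 0 := by
  rw [Matrix.SpecialLinearGroup.coe_mul, Matrix.mul_apply, Fin.sum_univ_two]

theorem sl2_mul_one_one (γ δ : SL(2, ℤ)) :
    (γ * δ) 1 1 = γ 1 0 * δ 0 1 + γ 1 1 * δ 1 1 := by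
  rw [Matrix.SpecialLinearGroup.coe_mul, Matrix.mul_apply, Fin.sum_univ_two]

/-- The function `γ ↦ (c / N) * d mod 3`. -/
def c3Fun (N : ℕ) (γ : SL(2, ℤ)) : ZMod 3 :=
  ((γ 1 0 / (N : ℤ) : ℤ) : ZMod 3) * ((γ 1 1 : ℤ) : ZMod 3)

theorem zmod3_sq_of_mul_eq_one : ∀ a d : ZMod 3, a * d = 1 → d * d = 1 := by decide

theorem zmod3_mul_eq_zero_of_mul_eq_one : ∀ a d k : ZMod 3, a * d = 1 → (k * d = 0 ↔ k = 0) := by
  decide

/-- For `γ ∈ Γ0(N)` with `3 ∣ N` the diagonal entries are inverse to each other mod `3`. -/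
theorem diag_mul_eq_one_zmod3 {N : ℕ} (h3 : 3 ∣ N) {γ : SL(2, ℤ)} (h : γ ∈ Gamma0 N) :
    ((γ 0 0 : ℤ) : ZMod 3) * ((γ 1 1 : ℤ) : ZMod 3) = 1 := by
  have hc : ((γ 1 0 : ℤ) : ZMod 3) = 0 := by
    rw [ZMod.intCast_zmod_eq_zero_iff_dvd]
    exact (Int.natCast_dvd_natCast.mpr h3).trans (natCast_dvd_of_mem_Gamma0 h)
  have hdet := congrArg (Int.cast : ℤ → ZMod 3) (sl2_det_eq γ)
  push_cast at hdet
  rw [hc, mul_zero, sub_zero] at hdet
  exact hdet

theorem c3Fun_one (N : ℕ) : c3Fun N 1 = 0 := by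
  simp [c3Fun]

theorem c3Fun_mul {N : ℕ} (h3 : 3 ∣ N) {γ δ : SL(2, ℤ)} (hγ : γ ∈ Gamma0 N)
    (hδ : δ ∈ Gamma0 N) : c3Fun N (γ * δ) = c3Fun N γ + c3Fun N δ := by
  obtain ⟨k, hk⟩ := natCast_dvd_of_mem_Gamma0 hγ
  obtain ⟨l, hl⟩ := natCast_dvd_of_mem_Gamma0 hδ
  have h3γ : ((γ 1 0 : ℤ) : ZMod 3) = 0 := by
    rw [ZMod.intCast_zmod_eq_zero_iff_dvd]
    exact (Int.natCast_dvd_natCast.mpr h3).trans (natCast_dvd_of_mem_Gamma0 hγ)
  have hγd := zmod3_sq_of_mul_eq_one _ _ (diag_mul_eq_one_zmod3 h3 hγ)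
  have hδd := diag_mul_eq_one_zmod3 h3 hδ
  rcases Nat.eq_zero_or_pos N with hN | hN
  · subst hN
    have hγ0 : γ 1 0 = 0 := by simpa using hk
    have hδ0 : δ 1 0 = 0 := by simpa using hl
    simp [c3Fun, sl2_mul_one_zero, hγ0, hδ0]
  · have hNz : (N : ℤ) ≠ 0 := by exact_mod_cast hN.ne'
    have e1 : γ 1 0 / (N : ℤ) = k := by rw [hk]; exact Int.mul_ediv_cancel_left _ hNz
    have e2 : δ 1 0 / (N : ℤ) = l := by rw [hl]; exact Int.mul_ediv_cancel_left _ hNz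
    have e3 : (γ * δ) 1 0 / (N : ℤ) = k * δ 0 0 + γ 1 1 * l := by
      rw [sl2_mul_one_zero, hk, hl]
      have : (N : ℤ) * k * δ 0 0 + γ 1 1 * ((N : ℤ) * l) = (N : ℤ) * (k * δ 0 0 + γ 1 1 * l) := by
        ring
      rw [this]
      exact Int.mul_ediv_cancel_left _ hNz
    unfold c3Fun
    rw [e1, e2, e3, sl2_mul_one_one]
    push_cast
    rw [h3γ]
    linear_combination ((k : ZMod 3) * ((γ 1 1 : ℤ) : ZMod 3)) * hδd
      + ((l : ZMod 3) * ((δ 1 1 : ℤ) : ZMod 3)) * hγd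

theorem c3Fun_eq_zero_iff {N : ℕ} (h3 : 3 ∣ N) {γ : SL(2, ℤ)} (hγ : γ ∈ Gamma0 N) :
    c3Fun N γ = 0 ↔ γ ∈ Gamma0 (3 * N) := by
  obtain ⟨k, hk⟩ := natCast_dvd_of_mem_Gamma0 hγ
  have hd := diag_mul_eq_one_zmod3 h3 hγ
  unfold c3Fun
  rw [zmod3_mul_eq_zero_of_mul_eq_one _ _ _ hd, ZMod.intCast_zmod_eq_zero_iff_dvd]
  rcases Nat.eq_zero_or_pos N with hN | hN
  · subst hN
    have hγ0 : γ 1 0 = 0 := by simpa using hk
    simp [hγ0, Gamma0_mem]
  · have hNz : (N : ℤ) ≠ 0 := by exact_mod_cast hN.ne'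
    have e1 : γ 1 0 / (N : ℤ) = k := by rw [hk]; exact Int.mul_ediv_cancel_left _ hNz
    rw [e1]
    constructor
    · rintro ⟨m, rfl⟩
      apply mem_Gamma0_of_natCast_dvd
      rw [hk]
      exact ⟨m, by push_cast; ring⟩
    · intro h
      obtain ⟨m, hm⟩ := natCast_dvd_of_mem_Gamma0 h
      rw [hk] at hm
      push_cast at hm
      have : (N : ℤ) * k = (N : ℤ) * (3 * m) := by rw [hm]; ring
      exact ⟨m, mul_left_cancel₀ hNz this⟩

/-- The homomorphism `Γ0(N) → ZMod 3`, `γ ↦ (c / N) * d`, for `3 ∣ N`. -/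
def c3Hom (N : ℕ) (h3 : 3 ∣ N) : Additive (Gamma0 N) →+ ZMod 3 where
  toFun γ := c3Fun N ((Additive.toMul γ : Gamma0 N) : SL(2, ℤ))
  map_zero' := c3Fun_one N
  map_add' γ δ := c3Fun_mul h3 (Additive.toMul γ).2 (Additive.toMul δ).2

@[simp] theorem c3Hom_apply (N : ℕ) (h3 : 3 ∣ N) (γ : Gamma0 N) :
    c3Hom N h3 (Additive.ofMul γ) = c3Fun N (γ : SL(2, ℤ)) := rfl

theorem c3Hom_eq_zero_iff (N : ℕ) (h3 : 3 ∣ N) (γ : Gamma0 N) :
    c3Hom N h3 (Additive.ofMul γ) = 0 ↔ (γ : SL(2, ℤ)) ∈ Gamma0 (3 * N) :=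
  c3Fun_eq_zero_iff h3 γ.2

/-- The element `!![1, 0; N, 1]` of `SL(2, ℤ)`. -/
def lowerUnip (N : ℤ) : SL(2, ℤ) :=
  ⟨!![1, 0; N, 1], by simp [Matrix.det_fin_two]⟩

@[simp] theorem lowerUnip_zero_zero (N : ℤ) : lowerUnip N 0 0 = 1 := rfl
@[simp] theorem lowerUnip_zero_one (N : ℤ) : lowerUnip N 0 1 = 0 := rfl
@[simp] theorem lowerUnip_one_zero (N : ℤ) : lowerUnip N 1 0 = N := rfl
@[simp] theorem lowerUnip_one_one (N : ℤ) : lowerUnip N 1 1 = 1 := rfl

theorem lowerUnip_mem_Gamma0 (N : ℕ) : lowerUnip (N : ℤ) ∈ Gamma0 N :=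
  mem_Gamma0_of_natCast_dvd (by simp)

theorem lowerUnip_add (M N : ℤ) : lowerUnip (M + N) = lowerUnip M * lowerUnip N := by
  apply Subtype.ext
  rw [Matrix.SpecialLinearGroup.coe_mul]
  ext i j
  fin_cases i <;> fin_cases j <;> simp [lowerUnip, Matrix.mul_apply, Fin.sum_univ_two, add_comm]

theorem lowerUnip_zero : lowerUnip 0 = 1 := by
  apply Subtype.ext
  ext i j
  fin_cases i <;> fin_cases j <;> simp [lowerUnip]

theorem lowerUnip_pow (N : ℤ) (n : ℕ) : lowerUnip N ^ n = lowerUnip (n * N) := by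
  induction n with
  | zero => simp [lowerUnip_zero]
  | succ n ih =>
    rw [pow_succ, ih, ← lowerUnip_add]
    congr 1
    push_cast
    ring

theorem c3Fun_lowerUnip {N : ℕ} (hN : N ≠ 0) : c3Fun N (lowerUnip (N : ℤ)) = 1 := by
  have hNz : (N : ℤ) ≠ 0 := by exact_mod_cast hN
  simp [c3Fun, Int.ediv_self hNz]

/-- The generator `g0 = !![1, 0; N, 1]` as an element of `Γ0(N)`. -/
def g0 (N : ℕ) : Gamma0 N := ⟨lowerUnip (N : ℤ), lowerUnip_mem_Gamma0 N⟩

theorem c3Hom_g0 {N : ℕ} (h3 : 3 ∣ N) (hN : N ≠ 0) : c3Hom N h3 (Additive.ofMul (g0 N)) = 1 :=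
  c3Fun_lowerUnip hN

theorem c3Hom_surjective {N : ℕ} (h3 : 3 ∣ N) (hN : N ≠ 0) :
    Function.Surjective (c3Hom N h3) := by
  intro x
  refine ⟨x.val • Additive.ofMul (g0 N), ?_⟩
  rw [map_nsmul, c3Hom_g0 h3 hN]
  simp

/-- `Γ0(3N) ≤ Γ0(N)`. -/
theorem Gamma0_three_mul_le (N : ℕ) : Gamma0 (3 * N) ≤ Gamma0 N := by
  intro γ hγ
  apply mem_Gamma0_of_natCast_dvd
  exact (Int.natCast_dvd_natCast.mpr (Dvd.intro_left 3 rfl)).trans (natCast_dvd_of_mem_Gamma0 hγ)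

/-- The multiplicative form of `c3Hom`. -/
def c3MonoidHom (N : ℕ) (h3 : 3 ∣ N) : Gamma0 N →* Multiplicative (ZMod 3) where
  toFun γ := Multiplicative.ofAdd (c3Fun N (γ : SL(2, ℤ)))
  map_one' := by
    show Multiplicative.ofAdd (c3Fun N 1) = 1
    rw [c3Fun_one]
    rfl
  map_mul' γ δ := by
    show Multiplicative.ofAdd (c3Fun N ((γ : SL(2, ℤ)) * (δ : SL(2, ℤ)))) = _
    rw [c3Fun_mul h3 γ.2 δ.2]
    rfl

@[simp] theorem c3MonoidHom_apply (N : ℕ) (h3 : 3 ∣ N) (γ : Gamma0 N) :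
    c3MonoidHom N h3 γ = Multiplicative.ofAdd (c3Fun N (γ : SL(2, ℤ))) := rfl

theorem c3MonoidHom_ker (N : ℕ) (h3 : 3 ∣ N) :
    (c3MonoidHom N h3).ker = (Gamma0 (3 * N)).subgroupOf (Gamma0 N) := by
  ext γ
  rw [MonoidHom.mem_ker, Subgroup.mem_subgroupOf, ← c3Fun_eq_zero_iff h3 γ.2, c3MonoidHom_apply]
  exact Iff.rfl

/-- `Γ0(3N)` is normal in `Γ0(N)` for `3 ∣ N`. -/
theorem Gamma0_three_mul_normal (N : ℕ) (h3 : 3 ∣ N) :
    ((Gamma0 (3 * N)).subgroupOf (Gamma0 N)).Normal := by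
  rw [← c3MonoidHom_ker N h3]
  exact MonoidHom.normal_ker _

theorem c3MonoidHom_surjective {N : ℕ} (h3 : 3 ∣ N) (hN : N ≠ 0) :
    Function.Surjective (c3MonoidHom N h3) := by
  intro x
  obtain ⟨γ, hγ⟩ := c3Hom_surjective h3 hN (Multiplicative.toAdd x)
  refine ⟨Additive.toMul γ, ?_⟩
  rw [c3MonoidHom_apply]
  have : c3Fun N ((Additive.toMul γ : Gamma0 N) : SL(2, ℤ)) = Multiplicative.toAdd x := hγ
  rw [this]
  rfl

/-- `Γ0(3N)` has index `3` in `Γ0(N)` for `3 ∣ N`, `N ≠ 0`. -/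
theorem Gamma0_three_mul_relIndex {N : ℕ} (h3 : 3 ∣ N) (hN : N ≠ 0) :
    (Gamma0 (3 * N)).relIndex (Gamma0 N) = 3 := by
  rw [Subgroup.relIndex, ← c3MonoidHom_ker N h3,
    Subgroup.index_ker, MonoidHom.range_eq_top.mpr (c3MonoidHom_surjective h3 hN)]
  simp [Nat.card_eq_fintype_card]

/-- Conjugation invariance: for `g ∈ Γ0(N)` and `γ ∈ Γ0(3N)`, `g γ g⁻¹ ∈ Γ0(3N)`. -/
theorem conj_mem_Gamma0_three_mul {N : ℕ} (h3 : 3 ∣ N) {g γ : SL(2, ℤ)} (hg : g ∈ Gamma0 N)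
    (hγ : γ ∈ Gamma0 (3 * N)) : g * γ * g⁻¹ ∈ Gamma0 (3 * N) := by
  have hγN : γ ∈ Gamma0 N := Gamma0_three_mul_le N hγ
  have hmem : g * γ * g⁻¹ ∈ Gamma0 N :=
    (Gamma0 N).mul_mem ((Gamma0 N).mul_mem hg hγN) ((Gamma0 N).inv_mem hg)
  rw [← c3Fun_eq_zero_iff h3 hmem, c3Fun_mul h3 ((Gamma0 N).mul_mem hg hγN) ((Gamma0 N).inv_mem hg),
    c3Fun_mul h3 hg hγN, (c3Fun_eq_zero_iff h3 hγN).mpr hγ, add_zero,
    ← c3Fun_mul h3 hg ((Gamma0 N).inv_mem hg), mul_inv_cancel, c3Fun_one]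

end Fermat.Agent.G1.H486

end
-- ===== PACK-END G1/H486/C3Hom.lean

-- ===== PACK-BEGIN G2/H559/MuCore.lean
section


/-!
# Row GLUE, phase 2, block F, leaf L2 (MU-crit): the abstract valuation core (helper559)

OFF-MAIN.  Mathlib only.

`K` a field with a valuation `v`, `0 < v 3 < 1`, `v 2 = 1`; `b₂ b₄ b₆ b₈` integral with
`4 b₈ = b₂ b₆ - b₄²`, `c₄ = b₂² - 24 b₄ = s²` a unit, `v Δ = (v 3) ^ n`.  With the INTEGRAL root
`r = (s - b₂) / 12` of `6 r² + b₂ r + b₄` (the node of the reduction), every root `x` of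
`ψ₃ = 3x⁴ + b₂x³ + 3b₄x² + 3b₆x + b₈` has `v (x - r) = (v 3)⁻¹` or `v (x - r) ^ 3 = (v 3) ^ n`
(Newton polygon of `ψ₃ (u + r) = 3u⁴ + s u³ + 3 B₆ u + B₈`, `v B₆ = v B₈ = (v 3) ^ n`).
In the first case the `y`-coordinate has `v y ^ 2 = (v 3)⁻¹ ^ 3`.
-/

set_option autoImplicit false

namespace Fermat.Agent.G2.H559

variable {K : Type*} [Field K] {Γ₀ : Type*} [LinearOrderedCommGroupWithZero Γ₀]
  (v : Valuation K Γ₀)

/-- A strictly dominant term decides the valuation of a sum of four terms. -/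
theorem val_add4_eq559 {a b c d : K} (hb : v b < v a) (hc : v c < v a) (hd : v d < v a) :
    v (a + b + c + d) = v a := by
  have h1 : v (a + b) = v a := v.map_add_eq_of_lt_left hb
  have h2 : v (a + b + c) = v a := by
    rw [v.map_add_eq_of_lt_left (by rw [h1]; exact hc), h1]
  rw [v.map_add_eq_of_lt_left (by rw [h2]; exact hd), h2]

/-- If a sum of four terms vanishes, no term is strictly dominant. -/
theorem not_dominant559 {a b c d : K} (h0 : a + b + c + d = 0) (ha : v a ≠ 0)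
    (hb : v b < v a) (hc : v c < v a) (hd : v d < v a) : False := by
  have h := val_add4_eq559 v hb hc hd
  rw [h0, map_zero] at h
  exact ha h.symm

theorem val_four559 (h2 : v 2 = 1) : v 4 = 1 := by
  have : (4 : K) = 2 * 2 := by norm_num
  rw [this, map_mul, h2, one_mul]

theorem val_eight559 (h2 : v 2 = 1) : v 8 = 1 := by
  have : (8 : K) = 2 * 2 * 2 := by norm_num
  rw [this, map_mul, map_mul, h2, one_mul, one_mul]

theorem val_twelve559 (h2 : v 2 = 1) : v 12 = v 3 := by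
  have : (12 : K) = 3 * 4 := by norm_num
  rw [this, map_mul, val_four559 v h2, mul_one]

theorem val_twentyfour559 (h2 : v 2 = 1) : v 24 = v 3 := by
  have : (24 : K) = 3 * 8 := by norm_num
  rw [this, map_mul, val_eight559 v h2, mul_one]

theorem val_twentyseven559 : v 27 = v 3 ^ 3 := by
  have : (27 : K) = 3 ^ 3 := by norm_num
  rw [this, map_pow]

/-- In a linearly ordered group with zero, `x ^ 2 = 1` forces `x = 1`. -/
theorem eq_one_of_sq_eq_one559 {x : Γ₀} (h : x ^ 2 = 1) : x = 1 := by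
  rcases lt_trichotomy x 1 with hlt | heq | hgt
  · exfalso
    have : x ^ 2 < 1 := pow_lt_one₀ zero_le hlt two_ne_zero
    exact this.ne h
  · exact heq
  · exfalso
    have : 1 < x ^ 2 := one_lt_pow₀ hgt two_ne_zero
    exact this.ne' h


/-! ## The translated invariants -/

/-- `b₆` of the curve translated by `r`. -/
def trB6_559 (b₂ b₄ b₆ r : K) : K := b₆ + 2 * r * b₄ + r ^ 2 * b₂ + 4 * r ^ 3

/-- `b₈` of the curve translated by `r`. -/
def trB8_559 (b₂ b₄ b₆ b₈ r : K) : K := b₈ + 3 * r * b₆ + 3 * r ^ 2 * b₄ + r ^ 3 * b₂ + 3 * r ^ 4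

/-- `ψ₃` after the translation by a root `r` of `6 r² + b₂ r + b₄`. -/
theorem psi3_translate559 {b₂ b₄ b₆ b₈ r u : K} (hr : 6 * r ^ 2 + b₂ * r + b₄ = 0) :
    3 * (u + r) ^ 4 + b₂ * (u + r) ^ 3 + 3 * b₄ * (u + r) ^ 2 + 3 * b₆ * (u + r) + b₈
      = 3 * u ^ 4 + (b₂ + 12 * r) * u ^ 3 + 3 * trB6_559 b₂ b₄ b₆ r * u
        + trB8_559 b₂ b₄ b₆ b₈ r := by
  unfold trB6_559 trB8_559
  linear_combination (3 * u ^ 2) * hr

/-- The relation `4 b₈ = b₂ b₆ - b₄²` after the translation (`b₄' = 0`). -/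
theorem rel_translate559 {b₂ b₄ b₆ b₈ r : K} (hrel : 4 * b₈ = b₂ * b₆ - b₄ ^ 2)
    (hr : 6 * r ^ 2 + b₂ * r + b₄ = 0) :
    4 * trB8_559 b₂ b₄ b₆ b₈ r = (b₂ + 12 * r) * trB6_559 b₂ b₄ b₆ r := by
  unfold trB6_559 trB8_559
  linear_combination hrel - (6 * r ^ 2 + b₂ * r + b₄) * hr

/-- The discriminant after the translation (`b₄' = 0`). -/
theorem disc_translate559 {b₂ b₄ b₆ b₈ r : K} (hrel : 4 * b₈ = b₂ * b₆ - b₄ ^ 2)
    (hr : 6 * r ^ 2 + b₂ * r + b₄ = 0) (h4 : (4 : K) ≠ 0) :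
    -b₂ ^ 2 * b₈ - 8 * b₄ ^ 3 - 27 * b₆ ^ 2 + 9 * b₂ * b₄ * b₆
      = -(b₂ + 12 * r) ^ 2 * trB8_559 b₂ b₄ b₆ b₈ r - 27 * trB6_559 b₂ b₄ b₆ r ^ 2 := by
  have hrel' := rel_translate559 hrel hr
  apply mul_left_cancel₀ h4
  have e1 : 4 * (-b₂ ^ 2 * b₈ - 8 * b₄ ^ 3 - 27 * b₆ ^ 2 + 9 * b₂ * b₄ * b₆)
      = -b₂ ^ 2 * (b₂ * b₆ - b₄ ^ 2) - 32 * b₄ ^ 3 - 108 * b₆ ^ 2 + 36 * b₂ * b₄ * b₆ := by
    linear_combination (-b₂ ^ 2) * hrel
  have e2 : 4 * (-(b₂ + 12 * r) ^ 2 * trB8_559 b₂ b₄ b₆ b₈ r - 27 * trB6_559 b₂ b₄ b₆ r ^ 2)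
      = -(b₂ + 12 * r) ^ 2 * ((b₂ + 12 * r) * trB6_559 b₂ b₄ b₆ r)
        - 108 * trB6_559 b₂ b₄ b₆ r ^ 2 := by
    linear_combination (-(b₂ + 12 * r) ^ 2) * hrel'
  rw [e1, e2]
  unfold trB6_559
  linear_combination ((b₂ + 12 * r) ^ 2 * (6 * r ^ 2 + b₂ * r + b₄)
    - 32 * (6 * r ^ 2 + b₂ * r + b₄) ^ 2
    + 36 * (b₂ + 12 * r) * (b₆ + 2 * r * b₄ + r ^ 2 * b₂ + 4 * r ^ 3)) * hr


/-! ## Order lemmas in the value group -/

section order

variable {Γ : Type*} [LinearOrderedCommGroupWithZero Γ]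

theorem pos_of_ne_zero559 {a : Γ} (h : a ≠ 0) : 0 < a := zero_lt_iff.mpr h

theorem mul_lt_right559 {a b : Γ} (ha : a < 1) (hb : b ≠ 0) : a * b < b := by
  have := mul_lt_mul_of_pos_right ha (pos_of_ne_zero559 hb)
  rwa [one_mul] at this

theorem lt_mul_right559 {a b : Γ} (ha : 1 < a) (hb : b ≠ 0) : b < a * b := by
  have := mul_lt_mul_of_pos_right ha (pos_of_ne_zero559 hb)
  rwa [one_mul] at this

theorem one_lt_inv559 {a : Γ} (h0 : a ≠ 0) (h1 : a < 1) : 1 < a⁻¹ :=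
  (one_lt_inv₀ (pos_of_ne_zero559 h0)).mpr h1

end order

/-! ## The Newton polygon of `ψ₃` at the node -/

section root

variable {b₂ b₄ b₆ b₈ s : K}

/-- `r = (s - b₂) / 12` is a root of `6 r² + b₂ r + b₄`. -/
theorem node_root559 (h24 : (24 : K) ≠ 0) {r : K} (hs : s ^ 2 = b₂ ^ 2 - 24 * b₄)
    (hr12 : 12 * r = s - b₂) : 6 * r ^ 2 + b₂ * r + b₄ = 0 := by
  apply mul_left_cancel₀ h24
  linear_combination (12 * r + b₂ + s) * hr12 + hs

/-- The node is integral. -/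
theorem node_val_le559 (h3ne : v 3 ≠ 0) (h2 : v 2 = 1) (hb4 : v b₄ ≤ 1)
    (hs : s ^ 2 = b₂ ^ 2 - 24 * b₄) (hs1 : v s = 1) (hsb : v (s - b₂) < 1)
    {r : K} (hr12 : 12 * r = s - b₂) : v r ≤ 1 := by
  have h2s : v (2 * s) = 1 := by rw [map_mul, h2, hs1, one_mul]
  have hsum : v (s + b₂) = 1 := by
    have e : s + b₂ = 2 * s - (s - b₂) := by ring
    rw [e, v.map_sub_eq_of_lt_left (by rw [h2s]; exact hsb), h2s]
  have hprod : (s - b₂) * (s + b₂) = -(24 * b₄) := by linear_combination hs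
  have hv : v (s - b₂) = v 3 * v b₄ := by
    have := congrArg v hprod
    rw [map_mul, hsum, mul_one, Valuation.map_neg, map_mul, val_twentyfour559 v h2] at this
    exact this
  have h12 : v 3 * v r = v 3 * v b₄ := by
    rw [← val_twelve559 v h2, ← map_mul, hr12, hv, val_twelve559 v h2]
  have hr : v r = v b₄ := mul_left_cancel₀ h3ne h12
  rw [hr]; exact hb4


theorem val_ofNat_le559 (h3lt : v 3 < 1) (h2 : v 2 = 1) :
    v 3 ≤ 1 ∧ v 4 ≤ 1 ∧ v 2 ≤ 1 :=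
  ⟨h3lt.le, (val_four559 v h2).le, h2.le⟩

/-- `b₈` of the translated curve is integral. -/
theorem trB8_val_le559 (h3lt : v 3 < 1) {r : K}
    (hb2 : v b₂ ≤ 1) (hb4 : v b₄ ≤ 1) (hb6 : v b₆ ≤ 1) (hb8 : v b₈ ≤ 1) (hr : v r ≤ 1) :
    v (trB8_559 b₂ b₄ b₆ b₈ r) ≤ 1 := by
  have h3 : (3 : K) ∈ v.integer := h3lt.le
  have m2 : b₂ ∈ v.integer := hb2
  have m4 : b₄ ∈ v.integer := hb4
  have m6 : b₆ ∈ v.integer := hb6
  have m8 : b₈ ∈ v.integer := hb8
  have mr : r ∈ v.integer := hr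
  have : trB8_559 b₂ b₄ b₆ b₈ r ∈ v.integer := by
    unfold trB8_559
    exact add_mem (add_mem (add_mem (add_mem m8 (mul_mem (mul_mem h3 mr) m6))
      (mul_mem (mul_mem h3 (pow_mem mr 2)) m4)) (mul_mem (pow_mem mr 3) m2))
      (mul_mem h3 (pow_mem mr 4))
  exact this

/-- The valuations of the translated `b₆`, `b₈` are the valuation of the discriminant. -/
theorem trB8_val_eq559 (h3lt : v 3 < 1) (h3ne : v 3 ≠ 0) (h2 : v 2 = 1)
    (hb2 : v b₂ ≤ 1) (hb4 : v b₄ ≤ 1) (hb6 : v b₆ ≤ 1) (hb8 : v b₈ ≤ 1)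
    (hrel : 4 * b₈ = b₂ * b₆ - b₄ ^ 2)
    (hs : s ^ 2 = b₂ ^ 2 - 24 * b₄) (hs1 : v s = 1) (hsb : v (s - b₂) < 1)
    {r : K} (hr12 : 12 * r = s - b₂)
    (hΔ0 : v (-b₂ ^ 2 * b₈ - 8 * b₄ ^ 3 - 27 * b₆ ^ 2 + 9 * b₂ * b₄ * b₆) ≠ 0) :
    v (trB8_559 b₂ b₄ b₆ b₈ r)
        = v (-b₂ ^ 2 * b₈ - 8 * b₄ ^ 3 - 27 * b₆ ^ 2 + 9 * b₂ * b₄ * b₆) ∧
      v (trB6_559 b₂ b₄ b₆ r)
        = v (-b₂ ^ 2 * b₈ - 8 * b₄ ^ 3 - 27 * b₆ ^ 2 + 9 * b₂ * b₄ * b₆) := by
  have h4 : (4 : K) ≠ 0 := by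
    intro h
    have := val_four559 v h2
    rw [h, map_zero] at this
    exact zero_ne_one this
  have h24 : (24 : K) ≠ 0 := by
    intro h
    have := val_twentyfour559 v h2
    rw [h, map_zero] at this
    exact h3ne this.symm
  have hr := node_root559 h24 hs hr12
  have hbr : b₂ + 12 * r = s := by linear_combination hr12
  have hrv := node_val_le559 v h3ne h2 hb4 hs hs1 hsb hr12
  have I1 := rel_translate559 hrel hr
  have I2 := disc_translate559 hrel hr h4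
  rw [hbr] at I1 I2
  set B₆ := trB6_559 b₂ b₄ b₆ r with hB6
  set B₈ := trB8_559 b₂ b₄ b₆ b₈ r with hB8
  have hB8le : v B₈ ≤ 1 := trB8_val_le559 v h3lt hb2 hb4 hb6 hb8 hrv
  have h68 : v B₆ = v B₈ := by
    have := congrArg v I1
    rw [map_mul, map_mul, val_four559 v h2, hs1, one_mul, one_mul] at this
    exact this.symm
  rw [I2] at hΔ0 ⊢
  have hB8ne : v B₈ ≠ 0 := by
    intro h0
    have hB8z : B₈ = 0 := (map_eq_zero v).mp h0
    have hB6z : B₆ = 0 := (map_eq_zero v).mp (h68.trans h0)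
    apply hΔ0
    rw [hB8z, hB6z]
    simp
  have hsmall : v (27 * B₆ ^ 2) < v (-s ^ 2 * B₈) := by
    rw [map_mul, map_pow, val_twentyseven559, h68, map_mul, Valuation.map_neg, map_pow, hs1,
      one_pow, one_mul]
    have h33 : v 3 ^ 3 < 1 := pow_lt_one₀ zero_le h3lt three_ne_zero
    have h1 : v 3 ^ 3 * v B₈ ^ 2 = (v 3 ^ 3 * v B₈) * v B₈ := by rw [pow_two, mul_assoc]
    rw [h1]
    have h2' : v 3 ^ 3 * v B₈ < 1 := by
      calc v 3 ^ 3 * v B₈ ≤ v 3 ^ 3 * 1 := by gcongr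
        _ = v 3 ^ 3 := mul_one _
        _ < 1 := h33
    exact mul_lt_right559 h2' hB8ne
  have hΔv : v (-s ^ 2 * B₈ - 27 * B₆ ^ 2) = v B₈ := by
    rw [v.map_sub_eq_of_lt_left hsmall, map_mul, Valuation.map_neg, map_pow, hs1, one_pow,
      one_mul]
  exact ⟨hΔv.symm, h68.trans hΔv.symm⟩


/-- **Newton polygon of `ψ₃` at the node.**  Every root `x` of `ψ₃` has
`v (x - r) = (v 3)⁻¹` (the pole root) or `v (x - r) ^ 3 = (v 3) ^ n` (the three roots at the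
node), `n` the exponent of `3` in the discriminant. -/
theorem mu_root_val559 (h3lt : v 3 < 1) (h3ne : v 3 ≠ 0) (h2 : v 2 = 1)
    (hb2 : v b₂ ≤ 1) (hb4 : v b₄ ≤ 1) (hb6 : v b₆ ≤ 1) (hb8 : v b₈ ≤ 1)
    (hrel : 4 * b₈ = b₂ * b₆ - b₄ ^ 2)
    (hs : s ^ 2 = b₂ ^ 2 - 24 * b₄) (hs1 : v s = 1) (hsb : v (s - b₂) < 1)
    {r : K} (hr12 : 12 * r = s - b₂) {n : ℕ}
    (hΔ : v (-b₂ ^ 2 * b₈ - 8 * b₄ ^ 3 - 27 * b₆ ^ 2 + 9 * b₂ * b₄ * b₆) = v 3 ^ n)
    {x : K} (hx : 3 * x ^ 4 + b₂ * x ^ 3 + 3 * b₄ * x ^ 2 + 3 * b₆ * x + b₈ = 0) :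
    v (x - r) = (v 3)⁻¹ ∨ v (x - r) ^ 3 = v 3 ^ n := by
  have hβ0 : v 3 ^ n ≠ 0 := pow_ne_zero _ h3ne
  have hβ1 : v 3 ^ n ≤ 1 := pow_le_one₀ zero_le h3lt.le
  have hΔ0 : v (-b₂ ^ 2 * b₈ - 8 * b₄ ^ 3 - 27 * b₆ ^ 2 + 9 * b₂ * b₄ * b₆) ≠ 0 := by
    rw [hΔ]; exact hβ0
  obtain ⟨h8, h6⟩ := trB8_val_eq559 v h3lt h3ne h2 hb2 hb4 hb6 hb8 hrel hs hs1 hsb hr12 hΔ0
  rw [hΔ] at h8 h6
  have h24 : (24 : K) ≠ 0 := by
    intro h
    have := val_twentyfour559 v h2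
    rw [h, map_zero] at this
    exact h3ne this.symm
  have hr := node_root559 h24 hs hr12
  have hbr : b₂ + 12 * r = s := by linear_combination hr12
  have hx' : 3 * (x - r) ^ 4 + s * (x - r) ^ 3 + 3 * trB6_559 b₂ b₄ b₆ r * (x - r)
      + trB8_559 b₂ b₄ b₆ b₈ r = 0 := by
    have := psi3_translate559 (b₆ := b₆) (b₈ := b₈) (u := x - r) hr
    rw [sub_add_cancel, hx, hbr] at this
    exact this.symm
  set B₆ := trB6_559 b₂ b₄ b₆ r with hB6
  set B₈ := trB8_559 b₂ b₄ b₆ b₈ r with hB8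
  set u := x - r with hu
  have hu0 : v u ≠ 0 := by
    intro h0
    have huz : u = 0 := (map_eq_zero v).mp h0
    rw [huz] at hx'
    have : B₈ = 0 := by simpa using hx'
    rw [this, map_zero] at h8
    exact hβ0 h8.symm
  have hu3 : v u ^ 3 ≠ 0 := pow_ne_zero _ hu0
  have va : v (3 * u ^ 4) = (v 3 * v u) * v u ^ 3 := by
    rw [map_mul, map_pow, pow_succ (v u) 3, mul_assoc, mul_comm (v u ^ 3) (v u)]
  have vb : v (s * u ^ 3) = v u ^ 3 := by
    rw [map_mul, map_pow, hs1, one_mul]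
  have vc : v (3 * B₆ * u) = (v 3 * v u) * v 3 ^ n := by
    rw [map_mul, map_mul, h6, mul_assoc, mul_comm (v 3 ^ n) (v u), ← mul_assoc]
  rcases lt_trichotomy (v 3 * v u) 1 with h | h | h
  · -- the roots at the node
    right
    have hab : v (3 * u ^ 4) < v (s * u ^ 3) := by
      rw [va, vb]; exact mul_lt_right559 h hu3
    have hcd : v (3 * B₆ * u) < v B₈ := by
      rw [vc, h8]; exact mul_lt_right559 h hβ0
    rcases lt_trichotomy (v u ^ 3) (v 3 ^ n) with h' | h' | h'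
    · exfalso
      have hbd : v (s * u ^ 3) < v B₈ := by rw [vb, h8]; exact h'
      have h0 : B₈ + 3 * u ^ 4 + s * u ^ 3 + 3 * B₆ * u = 0 := by linear_combination hx'
      exact not_dominant559 v h0 (by rw [h8]; exact hβ0) (hab.trans hbd) hbd hcd
    · exact h'
    · exfalso
      have hdb : v B₈ < v (s * u ^ 3) := by rw [vb, h8]; exact h'
      have h0 : s * u ^ 3 + 3 * u ^ 4 + 3 * B₆ * u + B₈ = 0 := by linear_combination hx'
      exact not_dominant559 v h0 (by rw [vb]; exact hu3) hab (hcd.trans hdb) hdb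
  · -- the pole root
    left
    exact eq_inv_of_mul_eq_one_right h
  · -- impossible: `3 u⁴` would be dominant
    exfalso
    have hu1 : 1 < v u := by
      by_contra hle
      have hle' : v u ≤ 1 := not_lt.mp hle
      have : v 3 * v u ≤ 1 := mul_le_one' h3lt.le hle'
      exact (not_lt.mpr this) h
    have hu31 : 1 < v u ^ 3 := one_lt_pow₀ hu1 three_ne_zero
    have hba : v (s * u ^ 3) < v (3 * u ^ 4) := by
      rw [va, vb]; exact lt_mul_right559 h hu3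
    have hda : v B₈ < v (3 * u ^ 4) := by
      rw [h8]
      exact lt_of_le_of_lt hβ1 (hu31.trans (by rw [← vb]; exact hba))
    have hca : v (3 * B₆ * u) < v (3 * u ^ 4) := by
      rw [va, vc]
      have hpos : 0 < v 3 * v u := pos_of_ne_zero559 (mul_ne_zero h3ne hu0)
      exact mul_lt_mul_of_pos_left (lt_of_le_of_lt hβ1 hu31) hpos
    have h0 : 3 * u ^ 4 + s * u ^ 3 + 3 * B₆ * u + B₈ = 0 := hx'
    have hane : v (3 * u ^ 4) ≠ 0 := by
      rw [va]; exact mul_ne_zero (mul_ne_zero h3ne hu0) hu3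
    exact not_dominant559 v h0 hane hba hca hda

end root

/-! ## The `y`-coordinate over the pole root -/

/-- If `v x = (v 3)⁻¹` on an integral Weierstrass equation, then `v y ^ 2 = (v 3)⁻¹ ^ 3`. -/
theorem pole_y_val559 {a₁ a₂ a₃ a₄ a₆ x y : K} (h3lt : v 3 < 1) (h3ne : v 3 ≠ 0)
    (h1 : v a₁ ≤ 1) (h2 : v a₂ ≤ 1) (h3 : v a₃ ≤ 1) (h4 : v a₄ ≤ 1) (h6 : v a₆ ≤ 1)
    (heq : y ^ 2 + a₁ * x * y + a₃ * y = x ^ 3 + a₂ * x ^ 2 + a₄ * x + a₆)
    (hx : v x = (v 3)⁻¹) : v y ^ 2 = (v 3)⁻¹ ^ 3 := by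
  set P := (v 3)⁻¹ with hP
  have hP1 : 1 < P := one_lt_inv559 h3ne h3lt
  have hP0 : P ≠ 0 := (zero_lt_one.trans hP1).ne'
  have hPpos : 0 < P := zero_lt_one.trans hP1
  have hP2 : P < P ^ 2 := by
    rw [pow_two]; exact lt_mul_right559 hP1 hP0
  have hP3 : P ^ 2 < P ^ 3 := by
    rw [pow_succ P 2, mul_comm]; exact lt_mul_right559 hP1 (pow_ne_zero _ hP0)
  -- the right-hand side
  have hR : v (x ^ 3 + a₂ * x ^ 2 + a₄ * x + a₆) = P ^ 3 := by
    have e3 : v (x ^ 3) = P ^ 3 := by rw [map_pow, hx]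
    have e2 : v (a₂ * x ^ 2) < v (x ^ 3) := by
      rw [e3, map_mul, map_pow, hx]
      exact lt_of_le_of_lt (mul_le_of_le_one_left zero_le h2) hP3
    have e1 : v (a₄ * x) < v (x ^ 3) := by
      rw [e3, map_mul, hx]
      exact lt_of_le_of_lt (mul_le_of_le_one_left zero_le h4) (hP2.trans hP3)
    have e0 : v a₆ < v (x ^ 3) := by
      rw [e3]
      exact lt_of_le_of_lt h6 (hP1.trans (hP2.trans hP3))
    rw [val_add4_eq559 v e2 e1 e0, e3]
  rw [← heq] at hR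
  by_cases hy : v y ≤ P
  · exfalso
    have b1 : v (y ^ 2) ≤ P ^ 2 := by
      rw [map_pow]; exact pow_le_pow_left₀ zero_le hy 2
    have b2 : v (a₁ * x * y) ≤ P ^ 2 := by
      rw [map_mul, map_mul, hx, pow_two]
      calc v a₁ * P * v y ≤ 1 * P * P := by gcongr
        _ = P * P := by rw [one_mul]
    have b3 : v (a₃ * y) ≤ P ^ 2 := by
      rw [map_mul]
      calc v a₃ * v y ≤ 1 * P := by gcongr
        _ = P := one_mul P
        _ ≤ P ^ 2 := hP2.le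
    have : v (y ^ 2 + a₁ * x * y + a₃ * y) ≤ P ^ 2 :=
      le_trans (v.map_add _ _) (max_le (le_trans (v.map_add _ _) (max_le b1 b2)) b3)
    rw [hR] at this
    exact (not_lt.mpr this) hP3
  · have hy' : P < v y := not_le.mp hy
    have hy0 : v y ≠ 0 := (hPpos.trans hy').ne'
    have hy1 : 1 < v y := hP1.trans hy'
    have c2 : v (a₁ * x * y) < v (y ^ 2) := by
      rw [map_mul, map_mul, hx, map_pow, pow_two]
      have : v a₁ * P * v y ≤ P * v y := by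
        calc v a₁ * P * v y ≤ 1 * P * v y := by gcongr
          _ = P * v y := by rw [one_mul]
      exact lt_of_le_of_lt this (mul_lt_mul_of_pos_right hy' (pos_of_ne_zero559 hy0))
    have c3 : v (a₃ * y) < v (y ^ 2) := by
      rw [map_mul, map_pow, pow_two]
      have : v a₃ * v y ≤ v y := mul_le_of_le_one_left zero_le h3
      exact lt_of_le_of_lt this (lt_mul_right559 hy1 hy0)
    have hL : v (y ^ 2 + a₁ * x * y + a₃ * y) = v (y ^ 2) := by
      have h1' : v (y ^ 2 + a₁ * x * y) = v (y ^ 2) := v.map_add_eq_of_lt_left c2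
      rw [v.map_add_eq_of_lt_left (by rw [h1']; exact c3), h1']
    rw [hL, map_pow] at hR
    exact hR

/-! ## Arithmetic of exponents -/

section expo

variable {Γ : Type*} [LinearOrderedCommGroupWithZero Γ]

/-- `(π ^ k) ^ 3 = π ^ n` forces `3 ∣ n`. -/
theorem three_dvd_of_zpow559 {π : Γ} (h0 : π ≠ 0) (h1 : π < 1) {k : ℤ} {n : ℕ}
    (h : (π ^ k) ^ 3 = π ^ n) : 3 ∣ n := by
  have e : π ^ (k * 3) = π ^ (n : ℤ) := by
    rw [zpow_mul]; exact_mod_cast h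
  have := (zpow_right_inj₀ (pos_of_ne_zero559 h0) h1.ne).mp e
  have h3 : (3 : ℤ) ∣ (n : ℤ) := ⟨k, by rw [← this]; ring⟩
  exact_mod_cast h3

/-- `(π ^ k) ^ 2 = π⁻¹ ^ 3` is impossible. -/
theorem not_zpow_sq559 {π : Γ} (h0 : π ≠ 0) (h1 : π < 1) {k : ℤ}
    (h : (π ^ k) ^ 2 = π⁻¹ ^ 3) : False := by
  have e : π ^ (k * 2) = π ^ (-3 : ℤ) := by
    rw [zpow_mul, zpow_neg, ← inv_zpow]; exact_mod_cast h
  have := (zpow_right_inj₀ (pos_of_ne_zero559 h0) h1.ne).mp e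
  omega

end expo

end Fermat.Agent.G2.H559

end
-- ===== PACK-END G2/H559/MuCore.lean

-- ===== PACK-BEGIN S49/Integral.lean
section



set_option autoImplicit false
open CuspForm CongruenceSubgroup ModularFormClass

namespace Fermat.Agent.S49

variable {N : ℕ}

theorem qIntegralSet_subset_intLattice (N : ℕ) :
    qIntegralSet N ⊆ (intLattice N 2 : Set (CuspForm (Gamma0 N) 2)) := by
  intro f hf
  apply Submodule.subset_span
  intro n
  obtain ⟨m, hm⟩ := Subring.mem_bot.mp (hf n)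
  exact ⟨m, hm.symm⟩

theorem hasIntegralStructure_of_hasIntegralBasis (h : CuspForm.HasIntegralBasis N) :
    CuspForm.HasIntegralStructure N 2 := by
  unfold CuspForm.HasIntegralStructure
  unfold CuspForm.HasIntegralBasis at h
  exact top_le_iff.mp (h ▸ Submodule.span_mono (qIntegralSet_subset_intLattice N))

/-- (E2) -/
theorem finiteDimensional_of_hasIntegralBasis [NeZero N] (h : CuspForm.HasIntegralBasis N) :
    FiniteDimensional ℂ (CuspForm (Gamma0 N) 2) := by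
  obtain ⟨S, hS⟩ := CuspForm.intLattice_fg N 2
  have hint := hasIntegralStructure_of_hasIntegralBasis h
  unfold CuspForm.HasIntegralStructure at hint
  refine ⟨⟨S, top_le_iff.mp ?_⟩⟩
  rw [← hint]
  apply Submodule.span_le.mpr
  intro f hf
  have hf' : f ∈ Submodule.span ℤ (S : Set (CuspForm (Gamma0 N) 2)) := hS ▸ hf
  exact Submodule.span_le_restrictScalars ℤ ℂ _ hf'

/-- (E3) -/
theorem isIntegral_heckeAlgebra [NeZero N] (h : CuspForm.HasIntegralBasis N)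
    (t : heckeAlgebra N 2 (∅ : Set ℕ)) : IsIntegral ℤ t := by
  have hbij := CuspForm.latticeRestrictHom_bijective N (∅ : Set ℕ)
    (hasIntegralStructure_of_hasIntegralBasis h)
  have h1 : IsIntegral ℤ (CuspForm.latticeRestrictHom N (∅ : Set ℕ) t) :=
    Algebra.IsIntegral.isIntegral _
  exact (isIntegral_algHom_iff _ hbij.1).mp h1

end Fermat.Agent.S49

end
-- ===== PACK-END S49/Integral.lean

-- ===== PACK-BEGIN S22T/QExpRing.lean
section


/-!
The ring of functions on the upper half plane whose cusp function (for a period `h`) is analytic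
at `0`, and the `q`-expansion ring homomorphism on it.
-/

open UpperHalfPlane
open scoped Manifold

namespace Fermat.Agent.S22T

/-- Functions `ℍ → ℂ` whose cusp function with respect to the period `h` is analytic at `0`. -/
def analyticSubring (h : ℝ) : Subring (ℍ → ℂ) where
  carrier := {F | AnalyticAt ℂ (cuspFunction h F) 0}
  mul_mem' {f g} hf hg := by
    simp only [Set.mem_ofPred_eq] at hf hg ⊢
    rw [cuspFunction_mul hf.continuousAt hg.continuousAt]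
    exact hf.mul hg
  one_mem' := by
    simp only [Set.mem_ofPred_eq]
    have h1 : cuspFunction h 1 = 1 := by
      ext q
      rcases eq_or_ne q 0 with rfl | hq
      · simpa [cuspFunction, Function.Periodic.cuspFunction] using!
          tendsto_const_nhds.limUnder_eq
      · simp [cuspFunction, Function.Periodic.cuspFunction_eq_of_nonzero h _ hq]
    rw [h1]
    exact analyticAt_const
  add_mem' {f g} hf hg := by
    simp only [Set.mem_ofPred_eq] at hf hg ⊢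
    rw [cuspFunction_add hf.continuousAt hg.continuousAt]
    exact hf.add hg
  zero_mem' := by
    simp only [Set.mem_ofPred_eq]
    have h0 : cuspFunction h 0 = 0 := by
      ext q
      rcases eq_or_ne q 0 with rfl | hq
      · simpa [cuspFunction, Function.Periodic.cuspFunction] using!
          tendsto_const_nhds.limUnder_eq
      · simp [cuspFunction, Function.Periodic.cuspFunction_eq_of_nonzero h _ hq]
    rw [h0]
    exact analyticAt_const
  neg_mem' {f} hf := by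
    simp only [Set.mem_ofPred_eq] at hf ⊢
    rw [cuspFunction_neg hf.continuousAt]
    exact hf.neg

theorem mem_analyticSubring_iff {h : ℝ} {F : ℍ → ℂ} :
    F ∈ analyticSubring h ↔ AnalyticAt ℂ (cuspFunction h F) 0 := Iff.rfl

/-- The `q`-expansion, as a ring homomorphism on `analyticSubring h`. -/
noncomputable def qExpHom (h : ℝ) : analyticSubring h →+* PowerSeries ℂ where
  toFun F := qExpansion h (F : ℍ → ℂ)
  map_one' := qExpansion_one h
  map_mul' F G := qExpansion_mul F.2 G.2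
  map_zero' := qExpansion_zero h
  map_add' F G := qExpansion_add F.2 G.2

@[simp] theorem qExpHom_apply {h : ℝ} (F : analyticSubring h) :
    qExpHom h F = qExpansion h (F : ℍ → ℂ) := rfl

theorem mem_analyticSubring_of_periodic {h : ℝ} (hh : 0 < h) {F : ℍ → ℂ}
    (hper : Function.Periodic (F ∘ ofComplex) h) (hhol : MDiff F)
    (hbdd : IsBoundedAtImInfty F) : F ∈ analyticSubring h :=
  analyticAt_cuspFunction_zero hh hper hhol hbdd

theorem smul_mem_analyticSubring {h : ℝ} {F : ℍ → ℂ} (c : ℂ) (hF : F ∈ analyticSubring h) :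
    c • F ∈ analyticSubring h := by
  rw [mem_analyticSubring_iff] at hF ⊢
  rw [cuspFunction_smul hF.continuousAt]
  exact hF.const_smul

theorem qExpansion_smul_of_mem {h : ℝ} {F : ℍ → ℂ} (c : ℂ) (hF : F ∈ analyticSubring h) :
    qExpansion h (c • F) = c • qExpansion h F :=
  qExpansion_smul hF c

end Fermat.Agent.S22T

end
-- ===== PACK-END S22T/QExpRing.lean

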