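import Mathlib
import Fermat.Statements.S08
import Fermat.Statements.S02
import Fermat.Prelude.Def_FLTPrelim_FreyPackage
import Fermat.Prelude.Def_FLTPrelim_GaloisRep
import Fermat.Prelude.Def_FLTPrelim_Modularity
import Fermat.Prelude.Def_FLTPrelim_ModularRep
import Fermat.Prelude.Def_FLTPrelim_Ramification
import Fermat.Prelude.Def_WeierstrassCurve_Mlc1RowStatement
import Fermat.Prelude.Def_FLTPrelim_CofixedLine
import Fermat.Prelude.Def_FreyPackage_IsConductorLevel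
import Fermat.Prelude.Def_LanglandsTunnell_WeightOneRealizationCarriers
import Fermat.Prelude.Def_FormalHecke_Eigensystem
import Fermat.Agent.Pack.L1.E0L2

-- ===== PACK-BEGIN S15/H946/Ex.lean
section


/-!
# S15 / DESC / T1 HOPF-E — the extension `E_x` of `ℤ/ℓ` by `J[ℓ]`  (helper946)

For an abelian group `J` with an action of a group `G`, a `G`-fixed point `x` and `ℓ ≠ 0`:

    E_x := { (s, a) ∈ J × ℤ : ℓ s = a x } / ⟨(x, ℓ)⟩ .

It is an extension `0 → J[ℓ] → E_x → ℤ/ℓ` of `G`-modules (`ι`, `κ`), onto if `x ∈ ℓ J`; for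
`ℓ y = x` the class `pt y` of `(y, 1)` lies over `1` and `σ (pt y) - pt y = ι (σ y - y)`: the class
of the extension is the Kummer class of `x`.  (If `x` has infinite order this is `(J[ℓ] + ℤy)/ℤx`.)

`rep : E_x → J` is the set-theoretic section `[(s, a)] ↦ s - ⌊a/ℓ⌋ x` (`ℓ · rep m = (κ m).val x`);
it is additive up to the carry: `rep (m + m') = rep m + rep m' - ⌊(κ m + κ m')/ℓ⌋ x`.

Mathlib only; sorry-free.
-/

set_option autoImplicit false

noncomputable section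

namespace Fermat.Agent.S15.H946

variable {J : Type} [AddCommGroup J] (ℓ : ℕ) (x : J)

/-- The pairs `(s, a)` with `ℓ s = a x`. -/
def preE : AddSubgroup (J × ℤ) where
  carrier := {p | (ℓ : ℤ) • p.1 = p.2 • x}
  zero_mem' := by simp
  add_mem' := by
    intro p q hp hq
    simp only [Set.mem_ofPred_eq, Prod.fst_add, Prod.snd_add, smul_add, add_smul] at *
    rw [hp, hq]
  neg_mem' := by
    intro p hp
    simp only [Set.mem_ofPred_eq, Prod.fst_neg, Prod.snd_neg, smul_neg, neg_smul] at *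
    rw [hp]

theorem mem_preE (p : J × ℤ) : p ∈ preE ℓ x ↔ (ℓ : ℤ) • p.1 = p.2 • x := Iff.rfl

/-- The generator `(x, ℓ)` of the relations. -/
def genE : preE ℓ x := ⟨(x, (ℓ : ℤ)), rfl⟩

/-- **The extension `E_x`.** -/
abbrev Ex : Type := preE ℓ x ⧸ AddSubgroup.zmultiples (genE ℓ x)

/-- The class of a pair. -/
def mkE (s : J) (a : ℤ) (h : (ℓ : ℤ) • s = a • x) : Ex ℓ x :=
  QuotientAddGroup.mk (⟨(s, a), h⟩ : preE ℓ x)

theorem mkE_surjective (m : Ex ℓ x) : ∃ s a h, mkE ℓ x s a h = m := by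
  obtain ⟨⟨⟨s, a⟩, h⟩, rfl⟩ := QuotientAddGroup.mk_surjective m
  exact ⟨s, a, h, rfl⟩

theorem mkE_add (s s' : J) (a a' : ℤ) (h : (ℓ : ℤ) • s = a • x) (h' : (ℓ : ℤ) • s' = a' • x) :
    mkE ℓ x s a h + mkE ℓ x s' a' h' =
      mkE ℓ x (s + s') (a + a') (by rw [smul_add, add_smul, h, h']) := rfl

theorem mkE_eq_iff (s s' : J) (a a' : ℤ) (h : (ℓ : ℤ) • s = a • x) (h' : (ℓ : ℤ) • s' = a' • x) :
    mkE ℓ x s a h = mkE ℓ x s' a' h' ↔ ∃ n : ℤ, s' = s + n • x ∧ a' = a + n * ℓ := by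
  unfold mkE
  rw [QuotientAddGroup.eq, AddSubgroup.mem_zmultiples_iff]
  constructor
  · rintro ⟨n, hn⟩
    have h1 := congrArg (fun p : preE ℓ x => (p : J × ℤ).1) hn
    have h2 := congrArg (fun p : preE ℓ x => (p : J × ℤ).2) hn
    simp only [genE, AddSubgroup.coe_zsmul, Prod.smul_fst, Prod.smul_snd, AddSubgroup.coe_add,
      AddSubgroup.coe_neg, Prod.fst_add, Prod.snd_add, Prod.fst_neg, Prod.snd_neg,
      smul_eq_mul] at h1 h2
    refine ⟨n, ?_, ?_⟩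
    · rw [h1]; abel
    · rw [h2]; ring
  · rintro ⟨n, h1, h2⟩
    refine ⟨n, Subtype.ext ?_⟩
    simp only [genE, AddSubgroup.coe_zsmul, AddSubgroup.coe_add, AddSubgroup.coe_neg]
    refine Prod.ext ?_ ?_
    · simp only [Prod.smul_fst, Prod.fst_add, Prod.fst_neg]
      rw [h1]; abel
    · simp only [Prod.smul_snd, Prod.snd_add, Prod.snd_neg, smul_eq_mul]
      rw [h2]; ring

/-! ### The projection to `ℤ/ℓ` -/

/-- The projection `κ : E_x → ℤ/ℓ`. -/
def kap : Ex ℓ x →+ ZMod ℓ :=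
  QuotientAddGroup.lift _
    ((Int.castAddHom (ZMod ℓ)).comp ((AddMonoidHom.snd J ℤ).comp (preE ℓ x).subtype))
    (by
      rw [AddSubgroup.zmultiples_le]
      show ((Int.castAddHom (ZMod ℓ)).comp ((AddMonoidHom.snd J ℤ).comp (preE ℓ x).subtype))
        (genE ℓ x) = 0
      simp [genE])

@[simp] theorem kap_mkE (s : J) (a : ℤ) (h : (ℓ : ℤ) • s = a • x) :
    kap ℓ x (mkE ℓ x s a h) = (a : ZMod ℓ) := rfl

/-! ### The representatives -/

variable [NeZero ℓ]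

/-- The representative `s - ⌊a/ℓ⌋ x` of the class of `(s, a)`. -/
def rep : Ex ℓ x → J :=
  Quotient.lift (fun p : preE ℓ x => (p : J × ℤ).1 - ((p : J × ℤ).2 / (ℓ : ℤ)) • x) (by
    rintro ⟨⟨s, a⟩, h⟩ ⟨⟨s', a'⟩, h'⟩ hr
    have hr' : mkE ℓ x s a h = mkE ℓ x s' a' h' := Quotient.sound hr
    obtain ⟨n, h1, h2⟩ := (mkE_eq_iff ℓ x s s' a a' h h').1 hr'
    have hℓ : (ℓ : ℤ) ≠ 0 := by exact_mod_cast NeZero.ne ℓ
    show s - (a / (ℓ : ℤ)) • x = s' - (a' / (ℓ : ℤ)) • x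
    rw [h1, h2, Int.add_mul_ediv_right _ _ hℓ, add_smul]
    abel)

@[simp] theorem rep_mkE (s : J) (a : ℤ) (h : (ℓ : ℤ) • s = a • x) :
    rep ℓ x (mkE ℓ x s a h) = s - (a / (ℓ : ℤ)) • x := rfl

/-- `ℓ · rep m = (κ m).val · x`. -/
theorem smul_rep (m : Ex ℓ x) : (ℓ : ℤ) • rep ℓ x m = ((kap ℓ x m).val : ℤ) • x := by
  obtain ⟨s, a, h, rfl⟩ := mkE_surjective ℓ x m
  rw [rep_mkE, kap_mkE, smul_sub, h, smul_smul, ZMod.val_intCast, ← sub_smul]
  congr 1
  have := Int.mul_ediv_add_emod a (ℓ : ℤ)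
  linarith

/-- The carry constant. -/
def carry (j j' : ZMod ℓ) : J := -((((j.val + j'.val) / ℓ : ℕ) : ℤ) • x)

/-- **`rep` is additive up to the carry.** -/
theorem rep_add (m m' : Ex ℓ x) :
    rep ℓ x (m + m') = rep ℓ x m + rep ℓ x m' + carry ℓ x (kap ℓ x m) (kap ℓ x m') := by
  obtain ⟨s, a, h, rfl⟩ := mkE_surjective ℓ x m
  obtain ⟨s', a', h', rfl⟩ := mkE_surjective ℓ x m'
  rw [mkE_add, rep_mkE, rep_mkE, rep_mkE, kap_mkE, kap_mkE, carry]
  have hℓ : (ℓ : ℤ) ≠ 0 := by exact_mod_cast NeZero.ne ℓ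
  have hℓ' : (0 : ℤ) < ℓ := by exact_mod_cast Nat.pos_of_ne_zero (NeZero.ne ℓ)
  have key : (a + a') / (ℓ : ℤ) =
      a / (ℓ : ℤ) + a' / (ℓ : ℤ) + (((((a : ZMod ℓ).val + (a' : ZMod ℓ).val) / ℓ : ℕ)) : ℤ) := by
    have e1 := Int.mul_ediv_add_emod a (ℓ : ℤ)
    have e2 := Int.mul_ediv_add_emod a' (ℓ : ℤ)
    have hsum : a + a' = (a % (ℓ : ℤ) + a' % (ℓ : ℤ)) + (a / (ℓ : ℤ) + a' / (ℓ : ℤ)) * ℓ := by
      linarith
    rw [hsum, Int.add_mul_ediv_right _ _ hℓ]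
    push_cast
    rw [ZMod.val_intCast, ZMod.val_intCast]
    ring
  rw [key, add_smul, add_smul]
  abel

/-- Grading and representative determine the element. -/
theorem eq_of_kap_rep {m m' : Ex ℓ x} (hk : kap ℓ x m = kap ℓ x m')
    (hr : rep ℓ x m = rep ℓ x m') : m = m' := by
  obtain ⟨s, a, h, rfl⟩ := mkE_surjective ℓ x m
  obtain ⟨s', a', h', rfl⟩ := mkE_surjective ℓ x m'
  rw [kap_mkE, kap_mkE] at hk
  rw [rep_mkE, rep_mkE] at hr
  rw [mkE_eq_iff]
  have hmod : a % (ℓ : ℤ) = a' % (ℓ : ℤ) := (ZMod.intCast_eq_intCast_iff' a a' ℓ).1 hk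
  have e1 := Int.mul_ediv_add_emod a (ℓ : ℤ)
  have e2 := Int.mul_ediv_add_emod a' (ℓ : ℤ)
  refine ⟨a' / (ℓ : ℤ) - a / (ℓ : ℤ), ?_, ?_⟩
  · rw [sub_smul]
    have : s' = s - (a / (ℓ : ℤ)) • x + (a' / (ℓ : ℤ)) • x := by rw [hr]; abel
    rw [this]; abel
  · linarith

/-! ### The subgroup `J[ℓ]` -/

/-- The inclusion `ι : J[ℓ] → E_x`. -/
def iot : (Submodule.torsionBy ℤ J (ℓ : ℤ)) →+ Ex ℓ x where
  toFun w := mkE ℓ x (w : J) 0 (by
    rw [zero_smul]
    exact (Submodule.mem_torsionBy_iff _ _).1 w.2)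
  map_zero' := rfl
  map_add' _ _ := rfl

omit [NeZero ℓ] in
@[simp] theorem kap_iot (w : Submodule.torsionBy ℤ J (ℓ : ℤ)) : kap ℓ x (iot ℓ x w) = 0 := by
  simp [iot]

@[simp] theorem rep_iot (w : Submodule.torsionBy ℤ J (ℓ : ℤ)) : rep ℓ x (iot ℓ x w) = (w : J) := by
  simp [iot]

theorem iot_injective : Function.Injective (iot ℓ x) := by
  intro w w' h
  have := congrArg (rep ℓ x) h
  rw [rep_iot, rep_iot] at this
  exact Subtype.ext this

/-- Exactness in the middle: the kernel of `κ` is the image of `ι`. -/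
theorem exists_iot_of_kap_eq_zero {m : Ex ℓ x} (h : kap ℓ x m = 0) :
    ∃ w, iot ℓ x w = m := by
  have h1 := smul_rep ℓ x m
  rw [h, ZMod.val_zero] at h1
  simp only [Nat.cast_zero, zero_smul] at h1
  refine ⟨⟨rep ℓ x m, (Submodule.mem_torsionBy_iff _ _).2 h1⟩, ?_⟩
  apply eq_of_kap_rep
  · rw [kap_iot, h]
  · rw [rep_iot]

omit [NeZero ℓ] in
/-- The point over `1` attached to a division point `y` of `x`. -/
def ptE (y : J) (hy : (ℓ : ℤ) • y = x) : Ex ℓ x := mkE ℓ x y 1 (by rw [one_smul, hy])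

omit [NeZero ℓ] in
@[simp] theorem kap_ptE (y : J) (hy : (ℓ : ℤ) • y = x) : kap ℓ x (ptE ℓ x y hy) = 1 := by
  simp [ptE]

/-- Every element is `ι w + j · pt y`. -/
theorem exists_eq_iot_add (y : J) (hy : (ℓ : ℤ) • y = x) (m : Ex ℓ x) :
    ∃ w, m = iot ℓ x w + ((kap ℓ x m).val : ℤ) • ptE ℓ x y hy := by
  have h0 : kap ℓ x (m - ((kap ℓ x m).val : ℤ) • ptE ℓ x y hy) = 0 := by
    rw [map_sub, map_zsmul, kap_ptE]
    simp
  obtain ⟨w, hw⟩ := exists_iot_of_kap_eq_zero ℓ x h0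
  exact ⟨w, by rw [hw]; abel⟩

/-! ### Finiteness -/

theorem finite_Ex [Finite (Submodule.torsionBy ℤ J (ℓ : ℤ))] : Finite (Ex ℓ x) := by
  classical
  -- a section of `κ` on its range
  let sec : ZMod ℓ → Ex ℓ x := fun j => if h : ∃ m, kap ℓ x m = j then h.choose else 0
  have hsec : ∀ m, kap ℓ x (sec (kap ℓ x m)) = kap ℓ x m := by
    intro m
    have h : ∃ m', kap ℓ x m' = kap ℓ x m := ⟨m, rfl⟩
    simp only [sec, dif_pos h]
    exact h.choose_spec
  have hmem : ∀ m, rep ℓ x m - rep ℓ x (sec (kap ℓ x m)) ∈ Submodule.torsionBy ℤ J (ℓ : ℤ) := by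
    intro m
    rw [Submodule.mem_torsionBy_iff, smul_sub, smul_rep, smul_rep, hsec, sub_self]
  have : Finite (ZMod ℓ) := by
    have : Fintype (ZMod ℓ) := ZMod.fintype ℓ
    infer_instance
  refine Finite.of_injective
    (fun m => ((kap ℓ x m, ⟨_, hmem m⟩) : ZMod ℓ × Submodule.torsionBy ℤ J (ℓ : ℤ))) ?_
  intro m m' h
  have hk : kap ℓ x m = kap ℓ x m' := congrArg Prod.fst h
  have hr := congrArg (fun p : ZMod ℓ × Submodule.torsionBy ℤ J (ℓ : ℤ) => (p.2 : J)) h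
  simp only [hk] at hr
  exact eq_of_kap_rep ℓ x hk (sub_left_injective hr)

/-! ### The action -/

section Action

variable {G : Type} [Group G] [DistribMulAction G J] (hx : ∀ σ : G, σ • x = x)

include hx in
omit [NeZero ℓ] in
theorem smul_mem_preE (σ : G) (p : J × ℤ) (hp : p ∈ preE ℓ x) : (σ • p.1, p.2) ∈ preE ℓ x := by
  rw [mem_preE] at hp ⊢
  show (ℓ : ℤ) • σ • p.1 = p.2 • x
  rw [← smul_comm σ, hp, smul_comm σ, hx]

omit [NeZero ℓ] in
/-- The action of `σ` on pairs. -/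
def preAct (σ : G) : preE ℓ x →+ preE ℓ x where
  toFun p := ⟨(σ • (p : J × ℤ).1, (p : J × ℤ).2), smul_mem_preE ℓ x hx σ p p.2⟩
  map_zero' := Subtype.ext (by simp)
  map_add' p q := Subtype.ext (by simp [smul_add])

omit [NeZero ℓ] in
/-- **The action of `G` on `E_x`.** -/
def actE (σ : G) : Ex ℓ x →+ Ex ℓ x :=
  QuotientAddGroup.map _ _ (preAct ℓ x hx σ) (by
    rw [AddSubgroup.zmultiples_le]
    show preAct ℓ x hx σ (genE ℓ x) ∈ AddSubgroup.zmultiples (genE ℓ x)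
    have : preAct ℓ x hx σ (genE ℓ x) = genE ℓ x := Subtype.ext (by
      show (σ • x, (ℓ : ℤ)) = (x, (ℓ : ℤ))
      rw [hx])
    rw [this]
    exact AddSubgroup.mem_zmultiples _)

omit [NeZero ℓ] in
@[simp] theorem actE_mkE (σ : G) (s : J) (a : ℤ) (h : (ℓ : ℤ) • s = a • x) :
    actE ℓ x hx σ (mkE ℓ x s a h) =
      mkE ℓ x (σ • s) a (smul_mem_preE ℓ x hx σ (s, a) h) := rfl

omit [NeZero ℓ] in
theorem actE_one (m : Ex ℓ x) : actE ℓ x hx 1 m = m := by
  obtain ⟨s, a, h, rfl⟩ := mkE_surjective ℓ x m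
  rw [actE_mkE]
  congr 1
  exact one_smul G s

omit [NeZero ℓ] in
theorem actE_mul (σ τ : G) (m : Ex ℓ x) :
    actE ℓ x hx (σ * τ) m = actE ℓ x hx σ (actE ℓ x hx τ m) := by
  obtain ⟨s, a, h, rfl⟩ := mkE_surjective ℓ x m
  rw [actE_mkE, actE_mkE, actE_mkE]
  congr 1
  exact mul_smul σ τ s

omit [NeZero ℓ] in
@[simp] theorem kap_actE (σ : G) (m : Ex ℓ x) : kap ℓ x (actE ℓ x hx σ m) = kap ℓ x m := by
  obtain ⟨s, a, h, rfl⟩ := mkE_surjective ℓ x m
  rw [actE_mkE, kap_mkE, kap_mkE]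

@[simp] theorem rep_actE (σ : G) (m : Ex ℓ x) : rep ℓ x (actE ℓ x hx σ m) = σ • rep ℓ x m := by
  obtain ⟨s, a, h, rfl⟩ := mkE_surjective ℓ x m
  rw [actE_mkE, rep_mkE, rep_mkE, smul_sub, smul_comm σ, hx]

/-- If `σ` fixes the representative, it fixes the element. -/
theorem actE_eq_self_of_rep {σ : G} {m : Ex ℓ x} (h : σ • rep ℓ x m = rep ℓ x m) :
    actE ℓ x hx σ m = m :=
  eq_of_kap_rep ℓ x (kap_actE ℓ x hx σ m) (by rw [rep_actE, h])

omit [NeZero ℓ] in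
/-- `ι` is equivariant. -/
theorem actE_iot (σ : G) (w : Submodule.torsionBy ℤ J (ℓ : ℤ)) :
    actE ℓ x hx σ (iot ℓ x w) = iot ℓ x ⟨σ • (w : J), by
      rw [Submodule.mem_torsionBy_iff, smul_comm, (Submodule.mem_torsionBy_iff _ _).1 w.2,
        smul_zero]⟩ := rfl

omit [NeZero ℓ] in
/-- **The class of the extension is the Kummer class of `x`.** -/
theorem actE_ptE (σ : G) (y : J) (hy : (ℓ : ℤ) • y = x) :
    actE ℓ x hx σ (ptE ℓ x y hy) = ptE ℓ x y hy + iot ℓ x ⟨σ • y - y, by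
      rw [Submodule.mem_torsionBy_iff, smul_sub, smul_comm, hy, hx, sub_self]⟩ := by
  unfold ptE iot
  simp only [actE_mkE, AddMonoidHom.coe_mk, ZeroHom.coe_mk]
  rw [mkE_add]
  congr 1
  abel

end Action

end Fermat.Agent.S15.H946

end
end
-- ===== PACK-END S15/H946/Ex.lean

-- ===== PACK-BEGIN S10/PID7Full.lean
section


set_option autoImplicit false

namespace Fermat.Agent.S10.R378

open NumberField Module InfinitePlace Ideal Nat Real

/-- The Minkowski bound of `ℚ(ζ₇)` is `< 5`. -/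
theorem minkowski_bound_seven_lt (K : Type*) [Field K] [NumberField K]
    [IsCyclotomicExtension {7} ℚ K] :
    (4 / π) ^ nrComplexPlaces K *
      ((finrank ℚ K)! / (finrank ℚ K) ^ (finrank ℚ K) * √|(discr K : ℝ)|) < 5 := by
  have hp : Fact (Nat.Prime 7) := ⟨by norm_num⟩
  have h1 : nrComplexPlaces K = 3 := by
    rw [IsCyclotomicExtension.Rat.nrComplexPlaces_eq_totient_div_two 7,
      totient_prime hp.out]
  have h2 : finrank ℚ K = 6 := by
    rw [IsCyclotomicExtension.finrank (n := 7) K (Polynomial.cyclotomic.irreducible_rat (by simp)),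
      totient_prime hp.out]
  have h3 : discr K = -7 ^ 5 := by
    rw [IsCyclotomicExtension.Rat.discr_prime 7 K]
    norm_num
  rw [h1, h2, h3]
  have hsq : √|(((-7 ^ 5 : ℤ)) : ℝ)| < 7 ^ 2 * 2.6458 := by
    rw [Real.sqrt_lt' (by norm_num)]
    push_cast
    rw [abs_neg, abs_of_pos (by positivity)]
    norm_num
  have hpi : (4 / π) ^ 3 < (4 / 3) ^ 3 := by
    gcongr
    exact pi_gt_three
  have hfac : ((6 : ℕ)! : ℝ) = 720 := by
    norm_num [Nat.factorial]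
  rw [hfac]
  calc (4 / π) ^ 3 * ((720 : ℝ) / ((6 : ℕ) : ℝ) ^ 6 * √|(((-7 ^ 5 : ℤ)) : ℝ)|)
      ≤ (4 / 3) ^ 3 * ((720 : ℝ) / ((6 : ℕ) : ℝ) ^ 6 * (7 ^ 2 * 2.6458)) := by
        gcongr
    _ < 5 := by norm_num

/-- `⌊M K⌋₊ ≤ 4` for `K = ℚ(ζ₇)`. -/
theorem floor_minkowski_bound_seven_le (K : Type*) [Field K] [NumberField K]
    [IsCyclotomicExtension {7} ℚ K] :
    ⌊(4 / π) ^ nrComplexPlaces K *
      ((finrank ℚ K)! / (finrank ℚ K) ^ (finrank ℚ K) * √|(discr K : ℝ)|)⌋₊ ≤ 4 := by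
  have h := minkowski_bound_seven_lt K
  have h0 : (0 : ℝ) ≤ (4 / π) ^ nrComplexPlaces K *
      ((finrank ℚ K)! / (finrank ℚ K) ^ (finrank ℚ K) * √|(discr K : ℝ)|) := by positivity
  have := (Nat.floor_lt h0).mpr (by exact_mod_cast h : _ < ((5 : ℕ) : ℝ))
  omega

/-- If `IsCyclotomicExtension {7} ℚ K` then `𝓞 K` is a principal ideal domain. -/
theorem seven_pid (K : Type*) [Field K] [NumberField K] [IsCyclotomicExtension {7} ℚ K] :
    IsPrincipalIdealRing (𝓞 K) := by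
  have hgal : IsGalois ℚ K := IsCyclotomicExtension.isGalois {7} ℚ K
  have hfloor := floor_minkowski_bound_seven_le K
  refine RingOfIntegers.isPrincipalIdealRing_of_isPrincipal_of_lt_or_isPrincipal_of_mem_primesOver_of_mem_Icc
    (fun p hpmem hp => ?_)
  have hle : p ≤ 4 := (Finset.mem_Icc.mp hpmem).2.trans hfloor
  have hpf : Fact (Nat.Prime p) := ⟨hp⟩
  obtain ⟨⟨P, hP1, hP2⟩⟩ := (span {(p : ℤ)}).nonempty_primesOver (S := 𝓞 K)
  refine ⟨P, ⟨hP1, hP2⟩, Or.inl ?_⟩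
  have hnd : ¬ p ∣ 7 := by
    intro hd
    have := (Nat.prime_dvd_prime_iff_eq hp (by norm_num)).mp hd
    omega
  rw [IsCyclotomicExtension.Rat.inertiaDeg_eq_of_not_dvd (m := 7) p K P hnd]
  refine lt_of_le_of_lt hfloor ?_
  have hp2 := hp.two_le
  clear hP1 hP2 hpmem hpf hnd
  interval_cases p
  · -- p = 2, order 3
    have : orderOf ((2 : ℕ) : ZMod 7) = 3 := by
      rw [orderOf_eq_iff (by norm_num)]
      refine ⟨by decide, fun m hm hm0 => ?_⟩
      interval_cases m <;> decide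
    rw [this]; norm_num
  · -- p = 3, order 6
    have : orderOf ((3 : ℕ) : ZMod 7) = 6 := by
      rw [orderOf_eq_iff (by norm_num)]
      refine ⟨by decide, fun m hm hm0 => ?_⟩
      interval_cases m <;> decide
    rw [this]; norm_num
  · exfalso; revert hp; norm_num

end Fermat.Agent.S10.R378

end
-- ===== PACK-END S10/PID7Full.lean

-- ===== PACK-BEGIN S11/CaseII.lean
section


/-!
# Case II of Fermat's Last Theorem for a prime `p`, assuming `𝓞 K` is a PID and Kummer's lemma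

Kummer's descent in the ring of integers of the `p`-th cyclotomic field.
-/

open NumberField Polynomial

set_option linter.unusedSectionVars false

namespace Fermat.Agent.S11.H911

section CaseII

variable {p : ℕ} [hp : Fact p.Prime] {K : Type*} [Field K] [NumberField K]
  [IsCyclotomicExtension {p} ℚ K] {ζ : K} (hζ : IsPrimitiveRoot ζ p)

include hζ in
lemma card_quotient_pi (hodd : p ≠ 2) :
    Nat.card (𝓞 K ⧸ Ideal.span {hζ.toInteger - 1}) = p := by
  rw [hζ.card_quotient_toInteger_sub_one, hζ.norm_toInteger_sub_one_of_prime_ne_two' hodd]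
  simp

/-- Every element of `𝓞 K` is congruent to a rational integer modulo `ζ - 1`. -/
lemma exists_int_sub_dvd (hodd : p ≠ 2) (x : 𝓞 K) : ∃ n : ℤ, hζ.toInteger - 1 ∣ x - n := by
  classical
  have hfin := hζ.finite_quotient_toInteger_sub_one hp.out.one_lt
  have hcard := card_quotient_pi hζ hodd
  set I : Ideal (𝓞 K) := Ideal.span {hζ.toInteger - 1} with hI
  -- the map `ZMod p → 𝓞 K ⧸ I`
  have hpI : (p : 𝓞 K) ∈ I := by
    rw [hI, Ideal.mem_span_singleton]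
    exact hζ.toInteger_sub_one_dvd_prime'
  let f : ℤ →+* (𝓞 K ⧸ I) := (Ideal.Quotient.mk I).comp (Int.castRingHom (𝓞 K))
  have hker : ∀ n : ℤ, f n = 0 ↔ (p : ℤ) ∣ n := by
    intro n
    simp only [f, RingHom.comp_apply, Ideal.Quotient.eq_zero_iff_mem, hI,
      Ideal.mem_span_singleton]
    exact IsCyclotomicExtension.Rat.zeta_sub_one_dvd_intCast_iff' p hζ
  -- injective map from `Fin p`
  let g : Fin p → (𝓞 K ⧸ I) := fun i => f (i : ℕ)
  have hg : Function.Injective g := by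
    intro i j hij
    have h1 : f ((i : ℕ) - (j : ℕ) : ℤ) = 0 := by
      simp only [g] at hij
      rw [map_sub, sub_eq_zero]
      exact_mod_cast hij
    rw [hker] at h1
    have hi := i.2
    have hj := j.2
    apply Fin.ext
    have := Int.eq_of_sub_eq_zero (Int.eq_zero_of_abs_lt_dvd h1 (by rw [abs_lt]; constructor <;> omega))
    exact_mod_cast this
  have hbij := hg.bijective_of_nat_card_le (by rw [hcard]; simp)
  obtain ⟨i, hi⟩ := hbij.2 (Ideal.Quotient.mk I x)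
  refine ⟨(i : ℕ), ?_⟩
  rw [← Ideal.mem_span_singleton, ← hI, ← Ideal.Quotient.eq_zero_iff_mem, map_sub, ← hi]
  simp [g, f]

/-- The integer `ζ` as a primitive root in `𝓞 K`. -/
lemma eta_mem_roots : hζ.toInteger ∈ nthRootsFinset p (1 : 𝓞 K) :=
  (mem_nthRootsFinset hp.out.pos 1).2 hζ.toInteger_isPrimitiveRoot.pow_eq_one

lemma pi_dvd_root_sub_root {μ ν : 𝓞 K} (hμ : μ ∈ nthRootsFinset p (1 : 𝓞 K))
    (hν : ν ∈ nthRootsFinset p (1 : 𝓞 K)) : hζ.toInteger - 1 ∣ μ - ν :=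
  hζ.toInteger_isPrimitiveRoot.sub_one_dvd_sub hp.out hμ hν

lemma pi_assoc_root_sub_root {μ ν : 𝓞 K} (hμ : μ ∈ nthRootsFinset p (1 : 𝓞 K))
    (hν : ν ∈ nthRootsFinset p (1 : 𝓞 K)) (hne : μ ≠ ν) : Associated (hζ.toInteger - 1) (μ - ν) :=
  hζ.toInteger_isPrimitiveRoot.nthRootsFinset_pairwise_associated_sub_one_sub_of_prime hp.out
    hμ hν hne

lemma one_mem_roots : (1 : 𝓞 K) ∈ nthRootsFinset p (1 : 𝓞 K) :=
  (mem_nthRootsFinset hp.out.pos 1).2 (one_pow _)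

include hζ in
lemma card_roots : (nthRootsFinset p (1 : 𝓞 K)).card = p :=
  IsPrimitiveRoot.card_nthRootsFinset hζ.toInteger_isPrimitiveRoot

/-- If `x ≡ y mod π` then `x ^ p ≡ y ^ p mod π ^ p`. -/
lemma pi_pow_dvd_pow_sub_pow {x y : 𝓞 K} (h : hζ.toInteger - 1 ∣ x - y) :
    (hζ.toInteger - 1) ^ p ∣ x ^ p - y ^ p := by
  rw [hζ.toInteger_isPrimitiveRoot.pow_sub_pow_eq_prod_sub_mul x y hp.out.pos]
  have : (hζ.toInteger - 1) ^ p = ∏ _μ ∈ nthRootsFinset p (1 : 𝓞 K), (hζ.toInteger - 1) := by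
    rw [Finset.prod_const, card_roots hζ]
  rw [this]
  refine Finset.prod_dvd_prod_of_dvd _ _ fun μ hμ => ?_
  have h1 : hζ.toInteger - 1 ∣ 1 - μ := pi_dvd_root_sub_root hζ (one_mem_roots) hμ
  have : x - μ * y = (x - y) + (1 - μ) * y := by ring
  rw [this]
  exact dvd_add h (Dvd.dvd.mul_right h1 _)

lemma p_dvd_pi_pow : (p : 𝓞 K) ∣ (hζ.toInteger - 1) ^ p := by
  have h := (IsCyclotomicExtension.Rat.associated_zeta_sub_one_pow_prime p hζ).symm.dvd
  refine h.trans (pow_dvd_pow _ (Nat.sub_le _ _))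


/-- A solution of the generalized Fermat equation `x ^ p + y ^ p = ε * (π ^ m * z) ^ p`
with `π ∤ x y z` and `x`, `y` coprime. -/
def IsSol (m : ℕ) (x y z : 𝓞 K) (ε : (𝓞 K)ˣ) : Prop :=
  ¬ hζ.toInteger - 1 ∣ x ∧ ¬ hζ.toInteger - 1 ∣ y ∧ ¬ hζ.toInteger - 1 ∣ z ∧ IsCoprime x y ∧
    x ^ p + y ^ p = ε * ((hζ.toInteger - 1) ^ m * z) ^ p

variable {hζ}

lemma IsSol.prod_eq (hodd : p ≠ 2) {m : ℕ} {x y z : 𝓞 K} {ε : (𝓞 K)ˣ} (h : IsSol hζ m x y z ε) :
    ∏ μ ∈ nthRootsFinset p (1 : 𝓞 K), (x + μ * y) = ε * ((hζ.toInteger - 1) ^ m * z) ^ p := by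
  rw [← h.2.2.2.2]
  exact (hζ.toInteger_isPrimitiveRoot.pow_add_pow_eq_prod_add_mul x y
    (hp.out.odd_of_ne_two hodd)).symm

/-- In a solution, `π` divides every factor `x + μ y`. -/
lemma IsSol.pi_dvd_factor (hodd : p ≠ 2) {m : ℕ} (hm : 1 ≤ m) {x y z : 𝓞 K} {ε : (𝓞 K)ˣ}
    (h : IsSol hζ m x y z ε) {μ : 𝓞 K} (hμ : μ ∈ nthRootsFinset p (1 : 𝓞 K)) :
    hζ.toInteger - 1 ∣ x + μ * y := by
  have hprime : Prime (hζ.toInteger - 1) := hζ.zeta_sub_one_prime'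
  have h1 : hζ.toInteger - 1 ∣ ∏ μ ∈ nthRootsFinset p (1 : 𝓞 K), (x + μ * y) := by
    rw [h.prod_eq hodd]
    refine Dvd.dvd.mul_left ?_ _
    refine dvd_pow ?_ hp.out.ne_zero
    exact Dvd.dvd.mul_right (dvd_pow_self _ (by omega)) _
  obtain ⟨ν, hν, hdvd⟩ := (Prime.dvd_finsetProd_iff hprime _).1 h1
  have : x + μ * y = (x + ν * y) + (μ - ν) * y := by ring
  rw [this]
  exact dvd_add hdvd (Dvd.dvd.mul_right (pi_dvd_root_sub_root hζ hμ hν) _)

/-- Normalization: we may assume `π ^ 2 ∣ x + y`. -/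
lemma IsSol.exists_normalized (hodd : p ≠ 2) {m : ℕ} (hm : 1 ≤ m) {x y z : 𝓞 K} {ε : (𝓞 K)ˣ}
    (h : IsSol hζ m x y z ε) :
    ∃ y' : 𝓞 K, IsSol hζ m x y' z ε ∧ (hζ.toInteger - 1) ^ 2 ∣ x + y' := by
  classical
  have hprime : Prime (hζ.toInteger - 1) := hζ.zeta_sub_one_prime'
  have hfin := hζ.finite_quotient_toInteger_sub_one hp.out.one_lt
  have hcard := card_quotient_pi hζ hodd
  set I : Ideal (𝓞 K) := Ideal.span {hζ.toInteger - 1} with hI
  have hdvd : ∀ μ : nthRootsFinset p (1 : 𝓞 K), ∃ t : 𝓞 K, x + μ * y = (hζ.toInteger - 1) * t :=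
    fun μ => h.pi_dvd_factor hodd hm μ.2
  choose g hg using hdvd
  let f : nthRootsFinset p (1 : 𝓞 K) → 𝓞 K ⧸ I := fun μ => Ideal.Quotient.mk I (g μ)
  have hf : Function.Injective f := by
    intro μ ν hμν
    by_contra hne
    have hne' : (μ : 𝓞 K) ≠ ν := fun h => hne (Subtype.ext h)
    have h1 : hζ.toInteger - 1 ∣ g μ - g ν := by
      rw [← Ideal.mem_span_singleton, ← hI, ← Ideal.Quotient.eq_zero_iff_mem, map_sub, sub_eq_zero]
      exact hμν
    obtain ⟨u, hu⟩ := pi_assoc_root_sub_root hζ μ.2 ν.2 hne'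
    have h2 : (hζ.toInteger - 1) * (g μ - g ν) = (hζ.toInteger - 1) * (u * y) := by
      rw [mul_sub, ← hg, ← hg, ← mul_assoc, hu]; ring
    have h3 := mul_left_cancel₀ hprime.ne_zero h2
    rw [h3] at h1
    exact h.2.1 ((Units.dvd_mul_left).1 h1)
  have hbij := hf.bijective_of_nat_card_le (by
    rw [hcard, Nat.card_eq_fintype_card, Fintype.card_coe, card_roots hζ])
  obtain ⟨μ, hμ⟩ := hbij.2 0
  have hμ' : hζ.toInteger - 1 ∣ g μ := by
    rw [← Ideal.mem_span_singleton, ← hI, ← Ideal.Quotient.eq_zero_iff_mem]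
    exact hμ
  have hμunit : IsUnit (μ : 𝓞 K) :=
    IsUnit.of_pow_eq_one ((mem_nthRootsFinset hp.out.pos 1).1 μ.2) hp.out.ne_zero
  refine ⟨μ * y, ⟨h.1, ?_, h.2.2.1, ?_, ?_⟩, ?_⟩
  · intro hd
    exact h.2.1 ((hμunit.dvd_mul_left).1 hd)
  · exact (isCoprime_mul_unit_left_right hμunit _ _).2 h.2.2.2.1
  · rw [mul_pow, (mem_nthRootsFinset hp.out.pos 1).1 μ.2, one_mul]
    exact h.2.2.2.2
  · rw [hg μ, pow_two]
    exact mul_dvd_mul_left _ hμ'


/-- For a normalized solution, the factors `x + μ y` with `μ ≠ 1` are exactly divisible by `π`. -/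
lemma IsSol.not_pi_sq_dvd_factor {m : ℕ} {x y z : 𝓞 K} {ε : (𝓞 K)ˣ}
    (h : IsSol hζ m x y z ε) (hxy : (hζ.toInteger - 1) ^ 2 ∣ x + y)
    {μ : 𝓞 K} (hμ : μ ∈ nthRootsFinset p (1 : 𝓞 K)) (hμ1 : μ ≠ 1) :
    ¬ (hζ.toInteger - 1) ^ 2 ∣ x + μ * y := by
  have hprime : Prime (hζ.toInteger - 1) := hζ.zeta_sub_one_prime'
  intro hd
  obtain ⟨u, hu⟩ := pi_assoc_root_sub_root hζ hμ one_mem_roots hμ1
  have h1 : (hζ.toInteger - 1) ^ 2 ∣ (x + μ * y) - (x + y) := dvd_sub hd hxy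
  have h2 : (x + μ * y) - (x + y) = (hζ.toInteger - 1) * (u * y) := by
    rw [← mul_assoc, hu]; ring
  rw [h2, pow_two] at h1
  have h3 := (mul_dvd_mul_iff_left hprime.ne_zero).1 h1
  exact h.2.1 ((Units.dvd_mul_left).1 h3)

/-- Pairwise "coprimality up to `π`" of the factors. -/
lemma IsSol.dvd_pi_of_dvd_factors {m : ℕ} {x y z : 𝓞 K} {ε : (𝓞 K)ˣ}
    (h : IsSol hζ m x y z ε) {μ ν : 𝓞 K} (hμ : μ ∈ nthRootsFinset p (1 : 𝓞 K))
    (hν : ν ∈ nthRootsFinset p (1 : 𝓞 K)) (hne : μ ≠ ν) {q : 𝓞 K}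
    (hqμ : q ∣ x + μ * y) (hqν : q ∣ x + ν * y) : q ∣ hζ.toInteger - 1 := by
  obtain ⟨a, b, hab⟩ := h.2.2.2.1
  have h1 : q ∣ (μ - ν) * y := by
    have : (μ - ν) * y = (x + μ * y) - (x + ν * y) := by ring
    rw [this]; exact dvd_sub hqμ hqν
  have h2 : q ∣ (μ - ν) * x := by
    have : (μ - ν) * x = μ * (x + ν * y) - ν * (x + μ * y) := by ring
    rw [this]; exact dvd_sub (Dvd.dvd.mul_left hqν _) (Dvd.dvd.mul_left hqμ _)
  have h3 : q ∣ μ - ν := by
    have : μ - ν = a * ((μ - ν) * x) + b * ((μ - ν) * y) := by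
      calc μ - ν = (μ - ν) * (a * x + b * y) := by rw [hab, mul_one]
        _ = _ := by ring
    rw [this]; exact dvd_add (Dvd.dvd.mul_left h2 _) (Dvd.dvd.mul_left h1 _)
  exact h3.trans (pi_assoc_root_sub_root hζ hμ hν hne).symm.dvd


/-- Key structural lemma for a normalized solution. -/
lemma IsSol.exists_factors (hodd : p ≠ 2) {m : ℕ} (hm : 1 ≤ m) {x y z : 𝓞 K} {ε : (𝓞 K)ˣ}
    (h : IsSol hζ m x y z ε) (hxy : (hζ.toInteger - 1) ^ 2 ∣ x + y) :
    2 ≤ m ∧ ∃ H : 𝓞 K → 𝓞 K,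
      x + y = (hζ.toInteger - 1) ^ ((m - 1) * p + 1) * H 1 ∧
      (∀ μ ∈ nthRootsFinset p (1 : 𝓞 K), μ ≠ 1 → x + μ * y = (hζ.toInteger - 1) * H μ) ∧
      (∀ μ ∈ nthRootsFinset p (1 : 𝓞 K), ¬ hζ.toInteger - 1 ∣ H μ) ∧
      ∏ μ ∈ nthRootsFinset p (1 : 𝓞 K), H μ = ε * z ^ p := by
  classical
  have hprime : Prime (hζ.toInteger - 1) := hζ.zeta_sub_one_prime'
  have hp1 : 1 ≤ p := hp.out.pos
  -- the quotients `G μ = (x + μ y) / π`
  have hdvd : ∀ μ : 𝓞 K, ∃ t : 𝓞 K, μ ∈ nthRootsFinset p (1 : 𝓞 K) →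
      x + μ * y = (hζ.toInteger - 1) * t := by
    intro μ
    by_cases hμ : μ ∈ nthRootsFinset p (1 : 𝓞 K)
    · obtain ⟨t, ht⟩ := h.pi_dvd_factor hodd hm hμ
      exact ⟨t, fun _ => ht⟩
    · exact ⟨0, fun h' => absurd h' hμ⟩
  choose G hG using hdvd
  have hGndvd : ∀ μ ∈ (nthRootsFinset p (1 : 𝓞 K)).erase 1, ¬ hζ.toInteger - 1 ∣ G μ := by
    intro μ hμ hd
    rw [Finset.mem_erase] at hμ
    apply h.not_pi_sq_dvd_factor hxy hμ.2 hμ.1
    rw [hG μ hμ.2, pow_two]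
    exact mul_dvd_mul_left _ hd
  set P := ∏ μ ∈ (nthRootsFinset p (1 : 𝓞 K)).erase 1, G μ with hP
  have hPndvd : ¬ hζ.toInteger - 1 ∣ P := by
    intro hd
    obtain ⟨μ, hμ, hd'⟩ := (Prime.dvd_finsetProd_iff hprime _).1 hd
    exact hGndvd μ hμ hd'
  -- the product formula
  have hprod : (x + y) * ((hζ.toInteger - 1) ^ (p - 1) * P) =
      ε * ((hζ.toInteger - 1) ^ m * z) ^ p := by
    rw [← h.prod_eq hodd, ← Finset.mul_prod_erase _ _ (one_mem_roots (p := p) (K := K)), one_mul]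
    congr 1
    have hcard : ((nthRootsFinset p (1 : 𝓞 K)).erase 1).card = p - 1 := by
      rw [Finset.card_erase_of_mem (one_mem_roots (p := p) (K := K)), card_roots hζ]
    rw [hP, ← hcard, ← Finset.prod_const, ← Finset.prod_mul_distrib]
    refine Finset.prod_congr rfl fun μ hμ => ?_
    exact (hG μ (Finset.mem_of_mem_erase hμ)).symm
  have hexp : m * p = (p - 1) + ((m - 1) * p + 1) := by
    obtain ⟨m', rfl⟩ : ∃ m', m = m' + 1 := ⟨m - 1, by omega⟩
    obtain ⟨p', hp'⟩ : ∃ p', p = p' + 1 := ⟨p - 1, by omega⟩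
    rw [hp']
    simp only [Nat.add_sub_cancel]
    ring
  have hprod2 : (x + y) * P = (hζ.toInteger - 1) ^ ((m - 1) * p + 1) * (ε * z ^ p) := by
    have h1 : (hζ.toInteger - 1) ^ (p - 1) * ((x + y) * P) =
        (hζ.toInteger - 1) ^ (p - 1) * ((hζ.toInteger - 1) ^ ((m - 1) * p + 1) * (ε * z ^ p)) := by
      calc (hζ.toInteger - 1) ^ (p - 1) * ((x + y) * P)
          = (x + y) * ((hζ.toInteger - 1) ^ (p - 1) * P) := by ring
        _ = ε * ((hζ.toInteger - 1) ^ m * z) ^ p := hprod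
        _ = ε * ((hζ.toInteger - 1) ^ (m * p) * z ^ p) := by rw [mul_pow, ← pow_mul]
        _ = _ := by rw [hexp, pow_add]; ring
    exact mul_left_cancel₀ (pow_ne_zero _ hprime.ne_zero) h1
  have hdvdxy : (hζ.toInteger - 1) ^ ((m - 1) * p + 1) ∣ x + y :=
    hprime.pow_dvd_of_dvd_mul_right _ hPndvd (hprod2 ▸ dvd_mul_right _ _)
  obtain ⟨X₀, hX₀⟩ := hdvdxy
  have hX₀P : X₀ * P = ε * z ^ p := by
    have h1 : (hζ.toInteger - 1) ^ ((m - 1) * p + 1) * (X₀ * P) =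
        (hζ.toInteger - 1) ^ ((m - 1) * p + 1) * (ε * z ^ p) := by
      rw [← hprod2, hX₀]; ring
    exact mul_left_cancel₀ (pow_ne_zero _ hprime.ne_zero) h1
  have hX₀ndvd : ¬ hζ.toInteger - 1 ∣ X₀ := by
    intro hd
    have h1 : hζ.toInteger - 1 ∣ (ε : 𝓞 K) * z ^ p := hX₀P ▸ Dvd.dvd.mul_right hd _
    have h2 := (Units.dvd_mul_left).1 h1
    exact h.2.2.1 (hprime.dvd_of_dvd_pow h2)
  have hm2 : 2 ≤ m := by
    by_contra hlt
    have hm1 : m = 1 := by omega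
    subst hm1
    simp only [Nat.sub_self, zero_mul, zero_add, pow_one] at hX₀
    rw [hX₀, pow_two] at hxy
    exact hX₀ndvd ((mul_dvd_mul_iff_left hprime.ne_zero).1 hxy)
  refine ⟨hm2, fun μ => if μ = 1 then X₀ else G μ, ?_, ?_, ?_, ?_⟩
  · simpa using hX₀
  · intro μ hμ hμ1
    simp only [hμ1, if_false]
    exact hG μ hμ
  · intro μ hμ
    by_cases hμ1 : μ = 1
    · simpa [hμ1] using hX₀ndvd
    · simp only [hμ1, if_false]
      exact hGndvd μ (Finset.mem_erase.2 ⟨hμ1, hμ⟩)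
  · rw [← Finset.mul_prod_erase _ _ (one_mem_roots (p := p) (K := K))]
    simp only [if_true]
    rw [← hX₀P, hP]
    congr 1
    refine Finset.prod_congr rfl fun μ hμ => ?_
    simp [Finset.ne_of_mem_erase hμ]


/-- The descent step. -/
lemma IsSol.descent [IsPrincipalIdealRing (𝓞 K)] (hodd : p ≠ 2)
    (KL : ∀ u : (𝓞 K)ˣ, (∃ n : ℤ, (p : 𝓞 K) ∣ (u : 𝓞 K) - n) → ∃ v : (𝓞 K)ˣ, u = v ^ p)
    {m : ℕ} (hm : 1 ≤ m) {x y z : 𝓞 K} {ε : (𝓞 K)ˣ}
    (h : IsSol hζ m x y z ε) (hxy : (hζ.toInteger - 1) ^ 2 ∣ x + y) :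
    2 ≤ m ∧ ∃ (x' y' z' : 𝓞 K) (ε' : (𝓞 K)ˣ), IsSol hζ (m - 1) x' y' z' ε' := by
  classical
  have hprime : Prime (hζ.toInteger - 1) := hζ.zeta_sub_one_prime'
  have hp3 : 3 ≤ p := by
    have := hp.out.two_le
    omega
  obtain ⟨hm2, H, hH1, hHμ, hHndvd, hHprod⟩ := h.exists_factors hodd hm hxy
  refine ⟨hm2, ?_⟩
  -- `H μ` divides `x + μ y`
  have hHdvd : ∀ μ ∈ nthRootsFinset p (1 : 𝓞 K), H μ ∣ x + μ * y := by
    intro μ hμ
    by_cases hμ1 : μ = 1
    · subst hμ1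
      rw [one_mul, hH1]
      exact dvd_mul_left _ _
    · rw [hHμ μ hμ hμ1]
      exact dvd_mul_left _ _
  -- pairwise coprimality
  have hcop : ∀ μ ∈ nthRootsFinset p (1 : 𝓞 K), ∀ ν ∈ nthRootsFinset p (1 : 𝓞 K), μ ≠ ν →
      IsCoprime (H μ) (H ν) := by
    intro μ hμ ν hν hne
    refine isCoprime_of_prime_dvd ?_ ?_
    · rintro ⟨h0, -⟩
      exact hHndvd μ hμ (h0 ▸ dvd_zero _)
    · intro q hq hqμ hqν
      have hqpi : q ∣ hζ.toInteger - 1 :=
        h.dvd_pi_of_dvd_factors hμ hν hne (hqμ.trans (hHdvd μ hμ)) (hqν.trans (hHdvd ν hν))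
      have hass : Associated q (hζ.toInteger - 1) := hq.associated_of_dvd hprime hqpi
      exact hHndvd μ hμ (hass.symm.dvd.trans hqμ)
  -- each `H μ` is a `p`-th power up to a unit
  have hpow : ∀ μ ∈ nthRootsFinset p (1 : 𝓞 K), ∃ d : 𝓞 K, Associated (d ^ p) (H μ) := by
    intro μ hμ
    have h1 : H μ * ∏ ν ∈ (nthRootsFinset p (1 : 𝓞 K)).erase μ, H ν = ε * z ^ p := by
      rw [Finset.mul_prod_erase _ _ hμ, hHprod]
    have h2 : IsCoprime (H μ) (∏ ν ∈ (nthRootsFinset p (1 : 𝓞 K)).erase μ, H ν) := by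
      refine IsCoprime.prod_right fun ν hν => ?_
      rw [Finset.mem_erase] at hν
      exact hcop μ hμ ν hν.2 (Ne.symm hν.1)
    refine exists_associated_pow_of_associated_pow_mul h2 (c := z) ?_
    rw [h1]
    exact ⟨ε, by rw [mul_comm]⟩
  -- the three roots `1`, `η`, `η ^ 2`
  have hηprim := hζ.toInteger_isPrimitiveRoot
  have hη : hζ.toInteger ∈ nthRootsFinset p (1 : 𝓞 K) := eta_mem_roots hζ
  have hη2 : hζ.toInteger ^ 2 ∈ nthRootsFinset p (1 : 𝓞 K) := by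
    rw [mem_nthRootsFinset hp.out.pos 1, ← pow_mul, mul_comm, pow_mul, hηprim.pow_eq_one, one_pow]
  have hη_ne : hζ.toInteger ≠ 1 := hηprim.ne_one hp.out.one_lt
  have hη2_ne : hζ.toInteger ^ 2 ≠ 1 := hηprim.pow_ne_one_of_pos_of_lt (by norm_num) (by omega)
  have hη_ne_η2 : hζ.toInteger ≠ hζ.toInteger ^ 2 := by
    intro heq
    apply hη_ne
    have h0 : hζ.toInteger ≠ 0 := hηprim.ne_zero hp.out.ne_zero
    have : hζ.toInteger * 1 = hζ.toInteger * hζ.toInteger := by rw [mul_one, ← pow_two]; exact heq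
    exact (mul_left_cancel₀ h0 this).symm
  obtain ⟨d₀, u₀, hd₀⟩ := hpow 1 one_mem_roots
  obtain ⟨d₁, u₁, hd₁⟩ := hpow _ hη
  obtain ⟨d₂, u₂, hd₂⟩ := hpow _ hη2
  have hX1 := hHμ _ hη hη_ne
  have hX2 := hHμ _ hη2 hη2_ne
  -- `1 + η` is a unit
  have hunit : IsUnit (1 + hζ.toInteger) := by
    have := hηprim.geom_sum_isUnit hp.out.two_le (j := 2)
      ((Nat.coprime_primes Nat.prime_two hp.out).2 (Ne.symm hodd))
    simpa [Finset.sum_range_succ] using this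
  obtain ⟨w, hw⟩ := hunit
  -- the linear relation
  have hrel : (1 + hζ.toInteger) * H hζ.toInteger - H (hζ.toInteger ^ 2) =
      hζ.toInteger * (hζ.toInteger - 1) ^ ((m - 1) * p) * H 1 := by
    have h1 : (hζ.toInteger - 1) * ((1 + hζ.toInteger) * H hζ.toInteger - H (hζ.toInteger ^ 2)) =
        (hζ.toInteger - 1) * (hζ.toInteger * (hζ.toInteger - 1) ^ ((m - 1) * p) * H 1) := by
      calc (hζ.toInteger - 1) * ((1 + hζ.toInteger) * H hζ.toInteger - H (hζ.toInteger ^ 2))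
          = (1 + hζ.toInteger) * ((hζ.toInteger - 1) * H hζ.toInteger) -
              (hζ.toInteger - 1) * H (hζ.toInteger ^ 2) := by ring
        _ = (1 + hζ.toInteger) * (x + hζ.toInteger * y) - (x + hζ.toInteger ^ 2 * y) := by
            rw [← hX1, ← hX2]
        _ = hζ.toInteger * (x + y) := by ring
        _ = _ := by rw [hH1, pow_succ]; ring
    exact mul_left_cancel₀ hprime.ne_zero h1
  -- `π ∤ d_i`
  have hd₀ndvd : ¬ hζ.toInteger - 1 ∣ d₀ := fun hd =>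
    hHndvd 1 one_mem_roots (hd₀ ▸ Dvd.dvd.mul_right (dvd_pow hd hp.out.ne_zero) _)
  have hd₁ndvd : ¬ hζ.toInteger - 1 ∣ d₁ := fun hd =>
    hHndvd _ hη (hd₁ ▸ Dvd.dvd.mul_right (dvd_pow hd hp.out.ne_zero) _)
  have hd₂ndvd : ¬ hζ.toInteger - 1 ∣ d₂ := fun hd =>
    hHndvd _ hη2 (hd₂ ▸ Dvd.dvd.mul_right (dvd_pow hd hp.out.ne_zero) _)
  -- the unit `ω`
  set ω : (𝓞 K)ˣ := -(u₂ * w⁻¹ * u₁⁻¹) with hω
  set ε' : (𝓞 K)ˣ := (hηprim.isUnit hp.out.ne_zero).unit * u₀ * w⁻¹ * u₁⁻¹ with hε'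
  have hwinv : (w⁻¹ : (𝓞 K)ˣ) * (1 + hζ.toInteger) = (1 : 𝓞 K) := by
    rw [← hw]; simp
  have hnew : d₁ ^ p + ω * d₂ ^ p = ε' * ((hζ.toInteger - 1) ^ (m - 1) * d₀) ^ p := by
    have e1 : (u₁⁻¹ : (𝓞 K)ˣ) * (u₁ : 𝓞 K) = 1 := by simp
    have key : (w⁻¹ : (𝓞 K)ˣ) * (u₁⁻¹ : (𝓞 K)ˣ) *
        ((1 + hζ.toInteger) * (d₁ ^ p * u₁) - d₂ ^ p * u₂) =
        (w⁻¹ : (𝓞 K)ˣ) * (u₁⁻¹ : (𝓞 K)ˣ) *
        (hζ.toInteger * (hζ.toInteger - 1) ^ ((m - 1) * p) * (d₀ ^ p * u₀)) := by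
      rw [hd₀, hd₁, hd₂, hrel]
    have lhs : (w⁻¹ : (𝓞 K)ˣ) * (u₁⁻¹ : (𝓞 K)ˣ) *
        ((1 + hζ.toInteger) * (d₁ ^ p * u₁) - d₂ ^ p * u₂) = d₁ ^ p + ω * d₂ ^ p := by
      calc (w⁻¹ : (𝓞 K)ˣ) * (u₁⁻¹ : (𝓞 K)ˣ) *
            ((1 + hζ.toInteger) * (d₁ ^ p * u₁) - d₂ ^ p * u₂)
          = ((w⁻¹ : (𝓞 K)ˣ) * (1 + hζ.toInteger)) * ((u₁⁻¹ : (𝓞 K)ˣ) * (u₁ : 𝓞 K)) * d₁ ^ p
              - (u₂ * (w⁻¹ : (𝓞 K)ˣ) * (u₁⁻¹ : (𝓞 K)ˣ)) * d₂ ^ p := by ring
        _ = d₁ ^ p + ω * d₂ ^ p := by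
            rw [hwinv, e1, hω]
            push_cast
            ring
    have rhs : (w⁻¹ : (𝓞 K)ˣ) * (u₁⁻¹ : (𝓞 K)ˣ) *
        (hζ.toInteger * (hζ.toInteger - 1) ^ ((m - 1) * p) * (d₀ ^ p * u₀)) =
        ε' * ((hζ.toInteger - 1) ^ (m - 1) * d₀) ^ p := by
      rw [hε', mul_pow, ← pow_mul]
      push_cast
      rw [IsUnit.unit_spec]
      ring
    rw [← lhs, key, rhs]
  -- Kummer's lemma applies to `ω`
  have hωcong : ∃ n : ℤ, (p : 𝓞 K) ∣ (ω : 𝓞 K) - n := by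
    obtain ⟨a, ha⟩ := exists_int_sub_dvd hζ hodd d₁
    obtain ⟨b, hb⟩ := exists_int_sub_dvd hζ hodd d₂
    have ha' := pi_pow_dvd_pow_sub_pow hζ ha
    have hb' := pi_pow_dvd_pow_sub_pow hζ hb
    have hpb : ¬ (p : ℤ) ∣ b := by
      intro hpb
      have h1 : hζ.toInteger - 1 ∣ (b : 𝓞 K) :=
        (IsCyclotomicExtension.Rat.zeta_sub_one_dvd_intCast_iff' p hζ).2 hpb
      have h2 : hζ.toInteger - 1 ∣ (d₂ - b) + b := dvd_add hb h1
      rw [sub_add_cancel] at h2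
      exact hd₂ndvd h2
    have hsum : (hζ.toInteger - 1) ^ p ∣ d₁ ^ p + ω * d₂ ^ p := by
      rw [hnew, mul_pow, ← pow_mul]
      refine Dvd.dvd.mul_left (Dvd.dvd.mul_right (pow_dvd_pow _ ?_) _) _
      calc p = 1 * p := (one_mul p).symm
        _ ≤ (m - 1) * p := Nat.mul_le_mul_right _ (by omega)
    have h3 : (hζ.toInteger - 1) ^ p ∣ (a : 𝓞 K) ^ p + ω * (b : 𝓞 K) ^ p := by
      have : (a : 𝓞 K) ^ p + ω * (b : 𝓞 K) ^ p =
          (d₁ ^ p + ω * d₂ ^ p) - (d₁ ^ p - (a : 𝓞 K) ^ p) - ω * (d₂ ^ p - (b : 𝓞 K) ^ p) := by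
        ring
      rw [this]
      exact dvd_sub (dvd_sub hsum ha') (Dvd.dvd.mul_left hb' _)
    have h4 : (p : 𝓞 K) ∣ (a : 𝓞 K) ^ p + ω * (b : 𝓞 K) ^ p := (p_dvd_pi_pow hζ).trans h3
    have hcopb : IsCoprime (b ^ p) (p : ℤ) := by
      refine IsCoprime.pow_left ?_
      exact ((Nat.prime_iff_prime_int.1 hp.out).coprime_iff_not_dvd.2 hpb).symm
    obtain ⟨c, e, hce⟩ := hcopb
    refine ⟨-(c * a ^ p), ?_⟩
    have hce' : (c : 𝓞 K) * (b : 𝓞 K) ^ p + (e : 𝓞 K) * (p : 𝓞 K) = 1 := by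
      have := congrArg (Int.cast : ℤ → 𝓞 K) hce
      push_cast at this
      exact this
    have : (ω : 𝓞 K) - ((-(c * a ^ p) : ℤ) : 𝓞 K) =
        c * ((a : 𝓞 K) ^ p + ω * (b : 𝓞 K) ^ p) + (p : 𝓞 K) * (ω * e) := by
      push_cast
      calc (ω : 𝓞 K) - -(c * (a : 𝓞 K) ^ p)
          = ω * 1 + c * (a : 𝓞 K) ^ p := by ring
        _ = ω * ((c : 𝓞 K) * (b : 𝓞 K) ^ p + (e : 𝓞 K) * (p : 𝓞 K)) + c * (a : 𝓞 K) ^ p := by
            rw [hce']
        _ = _ := by ring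
    rw [this]
    exact dvd_add (Dvd.dvd.mul_left h4 _) (dvd_mul_right _ _)
  obtain ⟨v, hv⟩ := KL ω hωcong
  refine ⟨d₁, v * d₂, d₀, ε', hd₁ndvd, ?_, hd₀ndvd, ?_, ?_⟩
  · intro hd
    exact hd₂ndvd ((Units.dvd_mul_left).1 hd)
  · have h1 : IsCoprime (d₁ ^ p) (d₂ ^ p) := by
      have := hcop _ hη _ hη2 hη_ne_η2
      rw [← hd₁, ← hd₂] at this
      exact (isCoprime_mul_unit_right_left u₁.isUnit _ _).1
        ((isCoprime_mul_unit_right_right u₂.isUnit _ _).1 this)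
    have h2 : IsCoprime d₁ d₂ := (IsCoprime.pow_iff hp.out.pos hp.out.pos).1 h1
    exact (isCoprime_mul_unit_left_right v.isUnit _ _).2 h2
  · rw [mul_pow, ← hnew, hv]
    push_cast
    rfl


/-- Case II of Fermat's Last Theorem in `𝓞 K`, generalized equation. -/
theorem not_isSol [IsPrincipalIdealRing (𝓞 K)] (hodd : p ≠ 2)
    (KL : ∀ u : (𝓞 K)ˣ, (∃ n : ℤ, (p : 𝓞 K) ∣ (u : 𝓞 K) - n) → ∃ v : (𝓞 K)ˣ, u = v ^ p)
    (m : ℕ) (hm : 1 ≤ m) (x y z : 𝓞 K) (ε : (𝓞 K)ˣ) : ¬ IsSol hζ m x y z ε := by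
  induction m generalizing x y z ε with
  | zero => omega
  | succ n ih =>
    intro h
    obtain ⟨y', hy', hxy'⟩ := h.exists_normalized hodd hm
    obtain ⟨h2, x'', y'', z'', ε'', h''⟩ := hy'.descent hodd KL hm hxy'
    simp only [Nat.add_sub_cancel] at h''
    exact ih (by omega) x'' y'' z'' ε'' h''

variable (hζ)

include hζ in
/-- Case II of Fermat's Last Theorem over `ℤ` for the prime `p`, assuming that the ring of
integers of the `p`-th cyclotomic field is a PID and Kummer's lemma. -/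
theorem caseII_int [IsPrincipalIdealRing (𝓞 K)] (hodd : p ≠ 2)
    (KL : ∀ u : (𝓞 K)ˣ, (∃ n : ℤ, (p : 𝓞 K) ∣ (u : 𝓞 K) - n) → ∃ v : (𝓞 K)ˣ, u = v ^ p)
    {a b c : ℤ} (hc : c ≠ 0) (hpa : ¬ (p : ℤ) ∣ a) (hpb : ¬ (p : ℤ) ∣ b) (hpc : (p : ℤ) ∣ c)
    (hab : IsCoprime a b) : a ^ p + b ^ p ≠ c ^ p := by
  intro hF
  have hprime : Prime (hζ.toInteger - 1) := hζ.zeta_sub_one_prime'
  have hc' : (c : 𝓞 K) ≠ 0 := by exact_mod_cast hc
  have hfin : FiniteMultiplicity (hζ.toInteger - 1) (c : 𝓞 K) :=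
    FiniteMultiplicity.of_not_isUnit hprime.not_isUnit hc'
  obtain ⟨z, hz, hzndvd⟩ := hfin.exists_eq_pow_mul_and_not_dvd
  have hπc : hζ.toInteger - 1 ∣ (c : 𝓞 K) :=
    (IsCyclotomicExtension.Rat.zeta_sub_one_dvd_intCast_iff' p hζ).2 hpc
  have hm : 1 ≤ multiplicity (hζ.toInteger - 1) (c : 𝓞 K) := by
    by_contra hlt
    have h0 : multiplicity (hζ.toInteger - 1) (c : 𝓞 K) = 0 := by omega
    rw [h0, pow_zero, one_mul] at hz
    exact hzndvd (hz ▸ hπc)
  refine not_isSol (hζ := hζ) hodd KL _ hm (a : 𝓞 K) (b : 𝓞 K) z 1 ⟨?_, ?_, hzndvd, ?_, ?_⟩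
  · rwa [IsCyclotomicExtension.Rat.zeta_sub_one_dvd_intCast_iff' p hζ]
  · rwa [IsCyclotomicExtension.Rat.zeta_sub_one_dvd_intCast_iff' p hζ]
  · exact IsCoprime.intCast hab
  · rw [← hz, Units.val_one, one_mul]
    exact_mod_cast hF


/-- Case II of Fermat's Last Theorem in `𝓞 K` (generalized equation), generic in the odd prime
`p`, assuming `𝓞 K` is a PID and Kummer's lemma. -/
theorem caseII_gen_of_prime [IsPrincipalIdealRing (𝓞 K)] (hodd : p ≠ 2)
    (KL : ∀ u : (𝓞 K)ˣ, (∃ n : ℤ, (p : 𝓞 K) ∣ (u : 𝓞 K) - n) → ∃ v : (𝓞 K)ˣ, u = v ^ p)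
    (a b c : 𝓞 K) (u : (𝓞 K)ˣ) (hc : c ≠ 0) (ha : ¬ (hζ.toInteger - 1) ∣ a)
    (hb : ¬ (hζ.toInteger - 1) ∣ b) (hcdvd : (hζ.toInteger - 1) ∣ c) (hab : IsCoprime a b) :
    a ^ p + b ^ p ≠ u * c ^ p := by
  intro hF
  have hprime : Prime (hζ.toInteger - 1) := hζ.zeta_sub_one_prime'
  have hfin : FiniteMultiplicity (hζ.toInteger - 1) c :=
    FiniteMultiplicity.of_not_isUnit hprime.not_isUnit hc
  obtain ⟨z, hz, hzndvd⟩ := hfin.exists_eq_pow_mul_and_not_dvd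
  have hm : 1 ≤ multiplicity (hζ.toInteger - 1) c := by
    by_contra hlt
    have h0 : multiplicity (hζ.toInteger - 1) c = 0 := by omega
    rw [h0, pow_zero, one_mul] at hz
    exact hzndvd (hz ▸ hcdvd)
  refine not_isSol (hζ := hζ) hodd KL _ hm a b z u ⟨ha, hb, hzndvd, hab, ?_⟩
  rw [← hz]
  exact hF


end CaseII

end Fermat.Agent.S11.H911

namespace Fermat.Agent.S11.CaseII

/-- T4 final (team skeleton name): the generalized Case II statement, generic in the odd prime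
`p`, assuming `𝓞 K` is a PID and Kummer's lemma. -/
theorem caseII_gen {K : Type*} [Field K] [NumberField K] {p : ℕ} [hp : Fact p.Prime]
    [hK : IsCyclotomicExtension {p} ℚ K] {ζ : K} (hζ : IsPrimitiveRoot ζ p)
    (hp2 : p ≠ 2) [IsPrincipalIdealRing (𝓞 K)]
    (hkummer : ∀ u : (𝓞 K)ˣ, (∃ m : ℤ, (p : 𝓞 K) ∣ (u : 𝓞 K) - (m : 𝓞 K)) →
      ∃ v : (𝓞 K)ˣ, u = v ^ p)
    (a b c : 𝓞 K) (u : (𝓞 K)ˣ) (hc : c ≠ 0) (ha : ¬ (hζ.toInteger - 1) ∣ a)
    (hb : ¬ (hζ.toInteger - 1) ∣ b) (hcdvd : (hζ.toInteger - 1) ∣ c) (hab : IsCoprime a b) :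
    a ^ p + b ^ p ≠ u * c ^ p :=
  Fermat.Agent.S11.H911.caseII_gen_of_prime hζ hp2 hkummer a b c u hc ha hb hcdvd hab

/-- Case II over `ℤ`, generic in the odd prime `p`, assuming that the ring of integers of one
`p`-th cyclotomic field `K` is a PID and Kummer's lemma for `K`. -/
theorem caseII_int {K : Type*} [Field K] [NumberField K] {p : ℕ} [hp : Fact p.Prime]
    [hK : IsCyclotomicExtension {p} ℚ K] (hp2 : p ≠ 2) [IsPrincipalIdealRing (𝓞 K)]
    (hkummer : ∀ u : (𝓞 K)ˣ, (∃ m : ℤ, (p : 𝓞 K) ∣ (u : 𝓞 K) - (m : 𝓞 K)) →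
      ∃ v : (𝓞 K)ˣ, u = v ^ p)
    {a b c : ℤ} (hc : c ≠ 0) (ha : ¬ (p : ℤ) ∣ a) (hb : ¬ (p : ℤ) ∣ b) (hcdvd : (p : ℤ) ∣ c)
    (hab : IsCoprime a b) : a ^ p + b ^ p ≠ c ^ p :=
  Fermat.Agent.S11.H911.caseII_int (IsCyclotomicExtension.zeta_spec p ℚ K) hp2 hkummer hc ha hb
    hcdvd hab

end Fermat.Agent.S11.CaseII

namespace Fermat.Agent.S11

open Fermat.Agent.S11.H911

/-- Case II descent for `p = 11`, in the exact form of the team interface. -/
theorem caseII_gen {K : Type*} [Field K] [NumberField K] [IsCyclotomicExtension {11} ℚ K]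
    {ζ : K} (hζ : IsPrimitiveRoot ζ 11)
    (hpid : IsPrincipalIdealRing (𝓞 K))
    (hkummer : ∀ u : (𝓞 K)ˣ, (∃ m : ℤ, (11 : 𝓞 K) ∣ (u : 𝓞 K) - (m : 𝓞 K)) →
      ∃ v : (𝓞 K)ˣ, u = v ^ 11)
    (a b c : 𝓞 K) (u : (𝓞 K)ˣ) (hc : c ≠ 0) (ha : ¬ (hζ.toInteger - 1) ∣ a)
    (hb : ¬ (hζ.toInteger - 1) ∣ b) (hcdvd : (hζ.toInteger - 1) ∣ c) (hab : IsCoprime a b) :
    a ^ 11 + b ^ 11 ≠ u * c ^ 11 := by
  have : Fact (Nat.Prime 11) := ⟨by norm_num⟩
  refine caseII_gen_of_prime (p := 11) hζ (by norm_num) ?_ a b c u hc ha hb hcdvd hab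
  intro w hw
  refine hkummer w ?_
  obtain ⟨n, hn⟩ := hw
  exact ⟨n, by simpa using hn⟩

/-- Case II over `ℤ` for `p = 11`, in the exact form of the team interface, assuming the PID
property and Kummer's lemma for one cyclotomic field `K`. -/
theorem caseII_eleven_of {K : Type*} [Field K] [NumberField K] [IsCyclotomicExtension {11} ℚ K]
    (hpid : IsPrincipalIdealRing (𝓞 K))
    (hkummer : ∀ u : (𝓞 K)ˣ, (∃ m : ℤ, (11 : 𝓞 K) ∣ (u : 𝓞 K) - (m : 𝓞 K)) →
      ∃ v : (𝓞 K)ˣ, u = v ^ 11)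
    {a b c : ℤ} (hc : c ≠ 0) (ha : ¬ (11 : ℤ) ∣ a) (hb : ¬ (11 : ℤ) ∣ b)
    (hcdvd : (11 : ℤ) ∣ c) (hab : IsCoprime a b) : a ^ 11 + b ^ 11 ≠ c ^ 11 := by
  have : Fact (Nat.Prime 11) := ⟨by norm_num⟩
  have hζ := IsCyclotomicExtension.zeta_spec 11 ℚ K
  refine caseII_int (p := 11) hζ (by norm_num) ?_ hc ?_ ?_ ?_ hab
  · intro w hw
    refine hkummer w ?_
    obtain ⟨n, hn⟩ := hw
    exact ⟨n, by simpa using hn⟩
  · simpa using ha
  · simpa using hb
  · simpa using hcdvd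

end Fermat.Agent.S11



end
-- ===== PACK-END S11/CaseII.lean

-- ===== PACK-BEGIN S11/EchUnitsGen.lean
section


/-!
# The unit group of `ℚ(ζ₁₁)` is generated by five elements (Dirichlet)
-/

set_option autoImplicit false

open NumberField

namespace Fermat.Agent.S11.Ech

theorem units_generated (K : Type*) [Field K] [NumberField K] :
    ∃ gens : Option (Fin (Units.rank K)) → (𝓞 K)ˣ,
      ∀ x : (𝓞 K)ˣ, ∃ k : Option (Fin (Units.rank K)) → ℤ, x = ∏ i, gens i ^ k i := by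
  classical
  obtain ⟨t, ht⟩ := (inferInstance : IsCyclic (Units.torsion K)).exists_generator
  refine ⟨fun o => o.elim (t : (𝓞 K)ˣ) (Units.fundSystem K), fun x => ?_⟩
  obtain ⟨⟨z, e⟩, hx, -⟩ := Units.exist_unique_eq_mul_prod K x
  obtain ⟨m, hm⟩ := Subgroup.mem_zpowers_iff.mp (ht z)
  refine ⟨fun o => o.elim m e, ?_⟩
  rw [Fintype.prod_option]
  simp only [Option.elim_none, Option.elim_some]
  rw [hx]
  congr 1
  rw [← hm]
  simp

theorem rank_eleven (K : Type*) [Field K] [NumberField K] [IsCyclotomicExtension {11} ℚ K] :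
    Units.rank K = 4 := by
  have h1 : InfinitePlace.nrRealPlaces K = 0 :=
    IsCyclotomicExtension.Rat.nrRealPlaces_eq_zero (n := 11) K (by norm_num)
  have h2 : InfinitePlace.nrComplexPlaces K = 5 := by
    rw [IsCyclotomicExtension.Rat.nrComplexPlaces_eq_totient_div_two 11 K]
    rw [Nat.totient_prime (by norm_num : Nat.Prime 11)]
  rw [Units.rank, InfinitePlace.card_eq_nrRealPlaces_add_nrComplexPlaces, h1, h2]

theorem card_option_rank_eleven (K : Type*) [Field K] [NumberField K]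
    [IsCyclotomicExtension {11} ℚ K] :
    Fintype.card (Option (Fin (Units.rank K))) = 5 := by
  rw [Fintype.card_option, Fintype.card_fin, rank_eleven K]

end Fermat.Agent.S11.Ech

end
-- ===== PACK-END S11/EchUnitsGen.lean

-- ===== PACK-BEGIN S08.lean
section


set_option autoImplicit false
open WeierstrassCurve WeierstrassCurve.Affine WeierstrassCurve.Affine.Point
open CuspForm ModularFormClass UpperHalfPlane
open ModularForm

namespace Fermat.Agent.S08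

/-- `Γ₀(1)` is all of `SL(2, ℤ)`. -/
theorem gamma0_one_eq_top : CongruenceSubgroup.Gamma0 1 = ⊤ := by
  ext g
  simp [CongruenceSubgroup.Gamma0_mem, Subsingleton.elim (_ : ZMod 1) 0]

/-- A weight `2` cusp form for any subgroup equal to `𝒮ℒ` vanishes. -/
theorem cuspForm_weight_two_eq_zero_of_eq
    (Γ : Subgroup (GL (Fin 2) ℝ))
    (h : Γ = (Matrix.SpecialLinearGroup.mapGL (n := Fin 2) (R := ℤ) ℝ).range)
    (f : CuspForm Γ 2) : f = 0 := by
  subst h
  exact rank_zero_iff_forall_zero.mp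
    (CuspForm.rank_eq_zero_of_weight_lt_twelve (k := 2) (by norm_num)) f

theorem result (f : CuspForm (CongruenceSubgroup.Gamma0 1) 2) : f = 0 := by
  refine cuspForm_weight_two_eq_zero_of_eq _ ?_ f
  rw [gamma0_one_eq_top, MonoidHom.range_eq_map]

end Fermat.Agent.S08

end
-- ===== PACK-END S08.lean

-- ===== PACK-BEGIN S02.lean
section


set_option autoImplicit false
open FreyPackage

namespace Fermat.Agent.S02

/-- Core constructor: from a coprime solution with `b` even, build a Frey package. -/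
theorem nonempty_of_coprime_even (a b c : ℤ) (ha : a ≠ 0) (hb : b ≠ 0) (hc : c ≠ 0)
    (p : ℕ) (pp : p.Prime) (hp5 : 5 ≤ p) (H : a ^ p + b ^ p = c ^ p)
    (hab : IsCoprime a b) (hbe : (2 : ℤ) ∣ b) : Nonempty FreyPackage := by
  have hpodd : Odd p := pp.odd_of_ne_two (by omega)
  have hgcd : gcd a b = 1 := by
    have h1 : Int.gcd a b = 1 := Int.isCoprime_iff_gcd_eq_one.mp hab
    change ((Int.gcd a b : ℕ) : ℤ) = 1
    rw [h1]; rfl
  have hb2 : (b : ZMod 2) = 0 := (ZMod.intCast_zmod_eq_zero_iff_dvd b 2).2 (by exact_mod_cast hbe)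
  -- a is odd
  have haodd : ¬ (2 : ℤ) ∣ a := by
    intro h2a
    have : IsUnit (2 : ℤ) := hab.isUnit_of_dvd' h2a hbe
    rw [Int.isUnit_iff] at this
    omega
  have hamod : a % 4 = 1 ∨ a % 4 = 3 := by omega
  rcases hamod with h1 | h3
  · -- replace by negatives
    refine ⟨⟨-a, -b, -c, neg_ne_zero.2 ha, neg_ne_zero.2 hb, neg_ne_zero.2 hc, p, pp, hp5, ?_, ?_, ?_, ?_⟩⟩
    · rw [hpodd.neg_pow, hpodd.neg_pow, hpodd.neg_pow, ← H]; ring
    · rw [gcd_neg, neg_gcd]; exact hgcd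
    · have : ((-a : ℤ) : ZMod 4) = ((3 : ℤ) : ZMod 4) := by
        rw [ZMod.intCast_eq_intCast_iff_dvd_sub]
        push_cast
        omega
      simpa using this
    · simp [hb2]
  · refine ⟨⟨a, b, c, ha, hb, hc, p, pp, hp5, H, hgcd, ?_, hb2⟩⟩
    have : ((a : ℤ) : ZMod 4) = ((3 : ℤ) : ZMod 4) := by
      rw [ZMod.intCast_eq_intCast_iff_dvd_sub]
      push_cast
      omega
    simpa using this

theorem result (a b c : ℤ) (ha : a ≠ 0) (hb : b ≠ 0) (hc : c ≠ 0) (p : ℕ) (pp : p.Prime) (hp5 : 5 ≤ p) (H : a ^ p + b ^ p = c ^ p) : Nonempty FreyPackage := by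
  have hp0 : p ≠ 0 := pp.ne_zero
  have hpodd : Odd p := pp.odd_of_ne_two (by omega)
  -- reduce to coprime a, b
  obtain ⟨d, a', b', hd, rfl, rfl, hcop⟩ :
      ∃ d a' b' : ℤ, d ≠ 0 ∧ a = d * a' ∧ b = d * b' ∧ IsCoprime a' b' := by
    obtain ⟨a', b', hg, h1, h2⟩ := Int.exists_gcd_one (m := a) (n := b)
      (Int.gcd_pos_of_ne_zero_left b ha)
    refine ⟨(Int.gcd a b : ℤ), a', b', ?_, ?_, ?_, ?_⟩
    · exact_mod_cast (Int.gcd_pos_of_ne_zero_left b ha).ne'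
    · exact h1.trans (mul_comm _ _)
    · exact h2.trans (mul_comm _ _)
    · exact Int.isCoprime_iff_gcd_eq_one.mpr hg
  have ha' : a' ≠ 0 := right_ne_zero_of_mul ha
  have hb' : b' ≠ 0 := right_ne_zero_of_mul hb
  have hdc : d ∣ c := by
    rw [← Int.pow_dvd_pow_iff hp0, ← H]
    exact dvd_add (by rw [mul_pow]; exact dvd_mul_right _ _) (by rw [mul_pow]; exact dvd_mul_right _ _)
  obtain ⟨c', rfl⟩ := hdc
  have hc' : c' ≠ 0 := right_ne_zero_of_mul hc
  have H' : a' ^ p + b' ^ p = c' ^ p := by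
    have hdp : d ^ p ≠ 0 := pow_ne_zero _ hd
    apply mul_left_cancel₀ hdp
    rw [mul_add, ← mul_pow, ← mul_pow, ← mul_pow]; exact H
  clear H ha hb hc
  -- pairwise coprimality
  have hac : IsCoprime a' c' := by
    have : IsCoprime (a' ^ p) (c' ^ p) := by
      rw [← H']
      have := (hcop.pow (m := p) (n := p))
      simpa [add_comm] using IsCoprime.add_mul_left_right this 1
    exact (IsCoprime.pow_iff (Nat.pos_of_ne_zero hp0) (Nat.pos_of_ne_zero hp0)).1 this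
  have hbc : IsCoprime b' c' := by
    have : IsCoprime (b' ^ p) (c' ^ p) := by
      rw [← H']
      have := (hcop.symm.pow (m := p) (n := p))
      simpa using IsCoprime.add_mul_left_right this 1
    exact (IsCoprime.pow_iff (Nat.pos_of_ne_zero hp0) (Nat.pos_of_ne_zero hp0)).1 this
  -- parity
  by_cases hbe : (2 : ℤ) ∣ b'
  · exact nonempty_of_coprime_even a' b' c' ha' hb' hc' p pp hp5 H' hcop hbe
  by_cases hae : (2 : ℤ) ∣ a'
  · exact nonempty_of_coprime_even b' a' c' hb' ha' hc' p pp hp5 (by rw [add_comm]; exact H')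
      hcop.symm hae
  -- both odd, so c' is even
  have hce : (2 : ℤ) ∣ c' := by
    have h1 : Odd a' := by rwa [← Int.not_even_iff_odd, even_iff_two_dvd]
    have h2 : Odd b' := by rwa [← Int.not_even_iff_odd, even_iff_two_dvd]
    have h3 : Even (c' ^ p) := by rw [← H']; exact (h1.pow).add_odd (h2.pow)
    rw [← even_iff_two_dvd]
    exact (Int.even_pow.1 h3).1
  -- a'^p + (-c')^p = (-b')^p
  refine nonempty_of_coprime_even a' (-c') (-b') ha' (neg_ne_zero.2 hc') (neg_ne_zero.2 hb') p pp hp5 ?_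
    hac.neg_right ((dvd_neg).2 hce)
  rw [hpodd.neg_pow, hpodd.neg_pow, ← H']; ring

end Fermat.Agent.S02

end
-- ===== PACK-END S02.lean

-- ===== PACK-BEGIN S60/Glue.lean
section








/-!
# S60 glue (hypothesis-parametrised, sorry-free)

`Fermat.Agent.S60.isModular_of_chain` derives the statement of S60 from the
*exact* statements of S51, S52, S50, S59 (taken as hypotheses) plus one extra hypothesis
`hgap` (level optimisation at `3`) which is not among the frozen statements: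
S50 may return a level `M` with `9 ∣ M`, whereas S59 needs `¬ 3 ^ 2 ∣ M₀`.
-/

set_option autoImplicit false
open WeierstrassCurve WeierstrassCurve.Affine WeierstrassCurve.Affine.Point
open CuspForm ModularFormClass UpperHalfPlane
open scoped WeierstrassCurve.Affine

namespace Fermat.Agent.S60

/-- The exact statement of S51. -/
def StatementS51 : Prop :=
  ∀ (W : WeierstrassCurve ℤ) (_hΔ : W.Δ ≠ 0) (_hW : W.IsSemistableModel),
    W.ModRepIsIrreducible 3 ∨ W.ModRepIsIrreducible 5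

/-- The exact statement of S52. -/
def StatementS52 : Prop :=
  ∀ (W : WeierstrassCurve ℤ) (_hΔ : W.Δ ≠ 0) (_hW : W.IsSemistableModel)
    (_h5 : W.ModRepIsIrreducible 5),
    ∃ W' : WeierstrassCurve ℤ, W'.Δ ≠ 0 ∧ W'.IsSemistableModel ∧ W'.ModRepIsIrreducible 3 ∧
      ∀ ℓ : ℕ, ℓ.Prime → W.IsGoodPrimeFor ℓ → W'.IsGoodPrimeFor ℓ → ℓ ≠ 5 →
        (5 : ℤ) ∣ (W'.apOfModel ℓ - W.apOfModel ℓ)

/-- The "no inertia-fixed 3-torsion" clause of S50. -/
def NoInertiaFixedThreeTorsion (W : WeierstrassCurve ℤ) : Prop :=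
  ∀ A : ValuationSubring (AlgebraicClosure ℚ), A.LiesOverPrime 3 →
    ∀ x : Submodule.torsionBy ℤ
        ((W.map (Int.castRingHom ℚ))⁄(AlgebraicClosure ℚ)).Point (3 : ℕ),
      (∀ σ ∈ A.inertiaSubgroupIn ℚ, σ • x = x) → x = 0

/-- The exact statement of S50 (Langlands–Tunnell, form (iii)). -/
def StatementS50 : Prop :=
  ∀ (W : WeierstrassCurve ℤ) (_hΔ : W.Δ ≠ 0) (_hW : W.IsSemistableModel)
    (_h3 : W.ModRepIsIrreducible 3),
    ∃ M : ℕ, 0 < M ∧ W.IsResiduallyModularOfLevel 3 M ∧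
      (∀ q : ℕ, q.Prime → q ≠ 3 → ¬ q ^ 3 ∣ M) ∧
      (3 ^ 2 ∣ M →
        ∀ A : ValuationSubring (AlgebraicClosure ℚ), A.LiesOverPrime 3 →
          ∀ x : Submodule.torsionBy ℤ
              ((W.map (Int.castRingHom ℚ))⁄(AlgebraicClosure ℚ)).Point (3 : ℕ),
            (∀ σ ∈ A.inertiaSubgroupIn ℚ, σ • x = x) → x = 0)

/-- The exact statement of S59 (modularity lifting at `p ∈ {3, 5}`). -/
def StatementS59 : Prop :=
  ∀ (p : ℕ) (_hp : p = 3 ∨ p = 5)
    (W : WeierstrassCurve ℤ) (_hΔ : W.Δ ≠ 0) (_hW : W.IsSemistableModel)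
    (_hirr : W.ModRepIsIrreducible p)
    (M₀ : ℕ) [NeZero M₀] (_hres₀ : W.IsResiduallyModularOfLevel p M₀)
    (_hM₀ : ¬ p ^ 2 ∣ M₀)
    (_hM₀3 : ∀ q : ℕ, q.Prime → q ≠ p → ¬ q ^ 3 ∣ M₀),
    Mlc1IsModularModelOfExactConductorLevel W

/-- The gap between S50 and S59: level optimisation at `3` when `9 ∣ M`.
This is *not* one of the frozen statements. -/
def StatementGapAtThree : Prop :=
  ∀ (W : WeierstrassCurve ℤ) (_hΔ : W.Δ ≠ 0) (_hW : W.IsSemistableModel)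
    (_h3 : W.ModRepIsIrreducible 3) (M : ℕ) (_hM : 0 < M)
    (_hres : W.IsResiduallyModularOfLevel 3 M)
    (_hM3 : ∀ q : ℕ, q.Prime → q ≠ 3 → ¬ q ^ 3 ∣ M)
    (_h9 : 3 ^ 2 ∣ M) (_hfix : NoInertiaFixedThreeTorsion W),
    ∃ M₀ : ℕ, 0 < M₀ ∧ W.IsResiduallyModularOfLevel 3 M₀ ∧ ¬ 3 ^ 2 ∣ M₀ ∧
      ∀ q : ℕ, q.Prime → q ≠ 3 → ¬ q ^ 3 ∣ M₀

/-- Exact conductor-level modularity implies modularity of the generic fibre. -/
theorem isModular_of_mlc1 {W : WeierstrassCurve ℤ}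
    (h : Mlc1IsModularModelOfExactConductorLevel W) :
    (W.map (Int.castRingHom ℚ)).IsModular := by
  obtain ⟨N, hN, -, -, hmod⟩ := h
  exact ⟨W, ⟨1, one_smul _ _⟩, N, hN, hmod⟩

/-- The `3`-branch: irreducible mod `3` + S50 + gap + S59 gives exact conductor-level
modularity. -/
theorem mlc1_of_irreducible_three (h50 : StatementS50) (hgap : StatementGapAtThree)
    (h59 : StatementS59) (W : WeierstrassCurve ℤ) (hΔ : W.Δ ≠ 0) (hW : W.IsSemistableModel)
    (h3 : W.ModRepIsIrreducible 3) : Mlc1IsModularModelOfExactConductorLevel W := by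
  obtain ⟨M, hM, hres, hM3, hfix⟩ := h50 W hΔ hW h3
  by_cases h9 : 3 ^ 2 ∣ M
  · obtain ⟨M₀, hM₀, hres₀, h9₀, hM₀3⟩ := hgap W hΔ hW h3 M hM hres hM3 h9 (hfix h9)
    have : NeZero M₀ := ⟨hM₀.ne'⟩
    exact h59 3 (Or.inl rfl) W hΔ hW h3 M₀ hres₀ h9₀ hM₀3
  · have : NeZero M := ⟨hM.ne'⟩
    exact h59 3 (Or.inl rfl) W hΔ hW h3 M hres h9 hM3

/-- Transfer of modularity along a mod-`5` congruence: if `W'` is modular of exact conductor
level and `a_ℓ(W') ≡ a_ℓ(W) mod 5` at common good primes `ℓ ≠ 5`, then `W` is residually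
modular at `5` of a squarefree level. -/
theorem residuallyModular_five_of_congruent {W W' : WeierstrassCurve ℤ}
    (h : Mlc1IsModularModelOfExactConductorLevel W')
    (hcong : ∀ ℓ : ℕ, ℓ.Prime → W.IsGoodPrimeFor ℓ → W'.IsGoodPrimeFor ℓ → ℓ ≠ 5 →
      (5 : ℤ) ∣ (W'.apOfModel ℓ - W.apOfModel ℓ)) :
    ∃ N : ℕ, 0 < N ∧ Squarefree N ∧ W.IsResiduallyModularOfLevel 5 N := by
  obtain ⟨N, hN, hsq, hbad, f, hf, hap⟩ := h
  obtain ⟨𝔪, h𝔪, h5⟩ := FLTPrelim.exists_maximalIdeal_natCast_prime_mem (p := 5) (by norm_num)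
  refine ⟨N, hN, hsq, f, 𝔪, hf, h𝔪, h5, ?_⟩
  intro ℓ hℓ hgoodW hℓN hℓ5
  have hgoodW' : W'.IsGoodPrimeFor ℓ := fun hdvd => hℓN ((hbad ℓ hℓ).2 hdvd)
  refine ⟨((W'.apOfModel ℓ : ℤ) : integralClosure ℤ ℂ), ?_, ?_⟩
  · rw [hap ℓ hℓ hgoodW' hℓN]
    simp
  · obtain ⟨c, hc⟩ := hcong ℓ hℓ hgoodW hgoodW' hℓ5
    have : ((W'.apOfModel ℓ : ℤ) : integralClosure ℤ ℂ) - ((W.apOfModel ℓ : ℤ) : integralClosure ℤ ℂ)
        = ((5 : ℕ) : integralClosure ℤ ℂ) * ((c : ℤ) : integralClosure ℤ ℂ) := by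
      rw [← Int.cast_sub, hc]
      push_cast
      ring
    rw [this]
    exact Ideal.mul_mem_right _ _ h5

/-- **S60 from the chain** S51 + S52 + S50 + (gap at 3) + S59. -/
theorem isModular_of_chain (h51 : StatementS51) (h52 : StatementS52) (h50 : StatementS50)
    (hgap : StatementGapAtThree) (h59 : StatementS59)
    (W : WeierstrassCurve ℤ) (hΔ : W.Δ ≠ 0) (hW : W.IsSemistableModel) :
    (W.map (Int.castRingHom ℚ)).IsModular := by
  apply isModular_of_mlc1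
  rcases h51 W hΔ hW with h3 | h5
  · exact mlc1_of_irreducible_three h50 hgap h59 W hΔ hW h3
  · obtain ⟨W', hΔ', hW', h3', hcong⟩ := h52 W hΔ hW h5
    have hmod' := mlc1_of_irreducible_three h50 hgap h59 W' hΔ' hW' h3'
    obtain ⟨N, hN, hsq, hres⟩ := residuallyModular_five_of_congruent hmod' hcong
    have : NeZero N := ⟨hN.ne'⟩
    have hnot_sq : ∀ q : ℕ, q.Prime → ∀ k : ℕ, 2 ≤ k → ¬ q ^ k ∣ N := by
      intro q hq k hk hdvd
      have h2 : q * q ∣ N := by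
        have : q ^ 2 ∣ q ^ k := pow_dvd_pow q hk
        rw [pow_two] at this
        exact this.trans hdvd
      exact hq.not_isUnit (hsq q h2)
    exact h59 5 (Or.inr rfl) W hΔ hW h5 N hres (hnot_sq 5 (by norm_num) 2 le_rfl)
      (fun q hq _ => hnot_sq q hq 3 (by norm_num))

end Fermat.Agent.S60

end
-- ===== PACK-END S60/Glue.lean

-- ===== PACK-BEGIN Glue/Spec.lean
section










/-!
# Row GLUE — frozen Props of the conditional chain `S50 + G1 ⟹ S01` (row-lead helper120)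

Mathlib + Prelude only.  `SnnStatement` is the frozen type of `Snn`, verbatim, as a `Prop`
(the check `example : SnnStatement := Fermat.Agent.Snn.result` is done in the wiring files).

* `G1Statement` : level lowering at `3` (the gap between S50 and S59);
* `IsResModTw`, `NeatLevel`, `RaiseStatement`, `DescentStatement`, `TwistExclStatement` : the
  frozen split of G1 (v1.2: neat levels);
* `g1_of : RaiseStatement → DescentStatement → TwistExclStatement → G1Statement` (proved here).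
-/

set_option autoImplicit false
open WeierstrassCurve WeierstrassCurve.Affine WeierstrassCurve.Affine.Point
open CuspForm ModularFormClass UpperHalfPlane
open scoped WeierstrassCurve.Affine

namespace Fermat.Agent.Glue

/-! ## The frozen statements, verbatim -/

def S01Statement : Prop :=
  ∀ (n : ℕ) (_hn : 3 ≤ n) (a b c : ℕ) (_ha : 0 < a) (_hb : 0 < b) (_hc : 0 < c),
    a ^ n + b ^ n ≠ c ^ n

def S02Statement : Prop :=
  ∀ (a b c : ℤ) (_ha : a ≠ 0) (_hb : b ≠ 0) (_hc : c ≠ 0) (p : ℕ) (_pp : p.Prime)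
    (_hp5 : 5 ≤ p) (_H : a ^ p + b ^ p = c ^ p), Nonempty FreyPackage

def S03Statement : Prop := ∀ (_P : FreyPackage), False

def S04Statement : Prop := ∀ (P : FreyPackage), P.freyCurve.IsModular

def S05Statement : Prop :=
  ∀ (P : FreyPackage) {q : ℕ} (_hq : q.Prime) (_hq2 : q ≠ 2) (_hqp : q ≠ P.p),
    P.GaloisRepUnramifiedAt q

def S06Statement : Prop :=
  ∀ (P : FreyPackage), ∃ N : ℕ, P.IsConductorLevel N ∧ P.ModularRepOfLevel N

def S07Statement : Prop := ∀ (f : CuspForm (CongruenceSubgroup.Gamma0 2) 2), f = 0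

def S08Statement : Prop := ∀ (f : CuspForm (CongruenceSubgroup.Gamma0 1) 2), f = 0

def S09Statement : Prop :=
  ∀ (P : FreyPackage), GaloisRepIsIrreducible (K := AlgebraicClosure ℚ) ℚ P.freyCurve P.p

def S43Statement : Prop :=
  ∀ (P : FreyPackage) {N q : ℕ} (_hcond : P.IsConductorLevel N) (_hq : q.Prime) (_hq2 : q ≠ 2)
    (_hqp : q ≠ P.p) (_hqN : q ∣ N)
    (_hirr : GaloisRepIsIrreducible (K := AlgebraicClosure ℚ) ℚ P.freyCurve P.p)
    (_hmod : P.ModularRepOfLevel N) (_hunr : P.GaloisRepUnramifiedAt q),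
    ∃ M : ℕ, M ∣ N ∧ ¬ q ∣ M ∧ P.ModularRepOfLevel M

def S44Statement : Prop :=
  ∀ (P : FreyPackage) {N : ℕ} (_hcond : P.IsConductorLevel N) (_hpN : P.p ∣ N)
    (_hirr : GaloisRepIsIrreducible (K := AlgebraicClosure ℚ) ℚ P.freyCurve P.p)
    (_hmod : P.ModularRepOfLevel N),
    ∃ M : ℕ, M ∣ N ∧ ¬ P.p ∣ M ∧ P.ModularRepOfLevel M

def S45Statement : Prop :=
  ∀ (P : FreyPackage) (_hmod : P.freyCurve.IsModular)
    (_hirr : GaloisRepIsIrreducible (K := AlgebraicClosure ℚ) ℚ P.freyCurve P.p),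
    ∃ f : CuspForm (CongruenceSubgroup.Gamma0 2) 2, f ≠ 0

def S50Statement : Prop :=
  ∀ (W : WeierstrassCurve ℤ) (_hΔ : W.Δ ≠ 0) (_hW : W.IsSemistableModel)
    (_h3 : W.ModRepIsIrreducible 3),
    ∃ M : ℕ, 0 < M ∧ W.IsResiduallyModularOfLevel 3 M ∧
      (∀ q : ℕ, q.Prime → q ≠ 3 → ¬ q ^ 3 ∣ M) ∧
      (3 ^ 2 ∣ M →
        ∀ A : ValuationSubring (AlgebraicClosure ℚ), A.LiesOverPrime 3 →
          ∀ x : Submodule.torsionBy ℤ
              ((W.map (Int.castRingHom ℚ))⁄(AlgebraicClosure ℚ)).Point (3 : ℕ),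
            (∀ σ ∈ A.inertiaSubgroupIn ℚ, σ • x = x) → x = 0)

def S51Statement : Prop :=
  ∀ (W : WeierstrassCurve ℤ) (_hΔ : W.Δ ≠ 0) (_hW : W.IsSemistableModel),
    W.ModRepIsIrreducible 3 ∨ W.ModRepIsIrreducible 5

def S52Statement : Prop :=
  ∀ (W : WeierstrassCurve ℤ) (_hΔ : W.Δ ≠ 0) (_hW : W.IsSemistableModel)
    (_h5 : W.ModRepIsIrreducible 5),
    ∃ W' : WeierstrassCurve ℤ, W'.Δ ≠ 0 ∧ W'.IsSemistableModel ∧ W'.ModRepIsIrreducible 3 ∧
      ∀ ℓ : ℕ, ℓ.Prime → W.IsGoodPrimeFor ℓ → W'.IsGoodPrimeFor ℓ → ℓ ≠ 5 →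
        (5 : ℤ) ∣ (W'.apOfModel ℓ - W.apOfModel ℓ)

def S59Statement : Prop :=
  ∀ (p : ℕ) (_hp : p = 3 ∨ p = 5)
    (W : WeierstrassCurve ℤ) (_hΔ : W.Δ ≠ 0) (_hW : W.IsSemistableModel)
    (_hirr : W.ModRepIsIrreducible p)
    (M₀ : ℕ) [NeZero M₀] (_hres₀ : W.IsResiduallyModularOfLevel p M₀)
    (_hM₀ : ¬ p ^ 2 ∣ M₀)
    (_hM₀3 : ∀ q : ℕ, q.Prime → q ≠ p → ¬ q ^ 3 ∣ M₀),
    Mlc1IsModularModelOfExactConductorLevel W

def S60Statement : Prop :=
  ∀ (W : WeierstrassCurve ℤ) (_hΔ : W.Δ ≠ 0) (_hW : W.IsSemistableModel),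
    (W.map (Int.castRingHom ℚ)).IsModular

/-- Exact conductor-level modularity of every semistable integral model (what the chain
S51 + S52 + S59 + S50 + G1 really proves; it implies S60, S04 and S06). -/
def MlcAllStatement : Prop :=
  ∀ (W : WeierstrassCurve ℤ) (_hΔ : W.Δ ≠ 0) (_hW : W.IsSemistableModel),
    Mlc1IsModularModelOfExactConductorLevel W

/-- The four elementary facts on the integral Frey model (block TFR). -/
def FreyIntStatement : Prop :=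
  ∀ P : FreyPackage, P.freyCurveInt.IsSemistableModel ∧ P.freyCurveInt.Δ ≠ 0 ∧
    P.freyCurveInt.map (Int.castRingHom ℚ) = P.freyCurve ∧
    ∀ q : ℕ, q.Prime → (q : ℤ) ∣ P.freyCurveInt.Δ → (q : ℤ) ∣ P.a * P.b * P.c

/-! ## G1: level lowering at `3` -/

/-- The "no inertia-fixed 3-torsion" clause of S50. -/
def NoFix3 (W : WeierstrassCurve ℤ) : Prop :=
  ∀ A : ValuationSubring (AlgebraicClosure ℚ), A.LiesOverPrime 3 →
    ∀ x : Submodule.torsionBy ℤ
        ((W.map (Int.castRingHom ℚ))⁄(AlgebraicClosure ℚ)).Point (3 : ℕ),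
      (∀ σ ∈ A.inertiaSubgroupIn ℚ, σ • x = x) → x = 0

/-- **G1**: the gap between S50 and S59. -/
def G1Statement : Prop :=
  ∀ (W : WeierstrassCurve ℤ) (_hΔ : W.Δ ≠ 0) (_hW : W.IsSemistableModel)
    (_h3 : W.ModRepIsIrreducible 3) (M : ℕ) (_hM : 0 < M)
    (_hres : W.IsResiduallyModularOfLevel 3 M)
    (_hM3 : ∀ q : ℕ, q.Prime → q ≠ 3 → ¬ q ^ 3 ∣ M)
    (_h9 : 3 ^ 2 ∣ M) (_hfix : NoFix3 W),
    ∃ M₀ : ℕ, 0 < M₀ ∧ W.IsResiduallyModularOfLevel 3 M₀ ∧ ¬ 3 ^ 2 ∣ M₀ ∧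
      ∀ q : ℕ, q.Prime → q ≠ 3 → ¬ q ^ 3 ∣ M₀

/-- The quadratic character `χ₋₃ = ω` (the mod `3` cyclotomic character), with integer values. -/
def chi3 (ℓ : ℕ) : ℤ := if ℓ % 3 = 1 then 1 else if ℓ % 3 = 2 then -1 else 0

/-- The sign of the twist: `1` (no twist) or `χ₋₃(ℓ)`. -/
def twSign (tw : Bool) (ℓ : ℕ) : ℤ := if tw then chi3 ℓ else 1

/-- Residual modularity at `3` of level `M` of the system `a_ℓ(W)` (`tw = false`) or of the twisted
system `χ₋₃(ℓ) a_ℓ(W)` (`tw = true`). -/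
def IsResModTw (W : WeierstrassCurve ℤ) (tw : Bool) (M : ℕ) : Prop :=
  ∃ (f : CuspForm (CongruenceSubgroup.Gamma0 M) 2) (𝔪 : Ideal (integralClosure ℤ ℂ)),
    f.IsNormalizedEigenform ∧ 𝔪.IsMaximal ∧ ((3 : ℕ) : integralClosure ℤ ℂ) ∈ 𝔪 ∧
    ∀ ℓ : ℕ, ℓ.Prime → W.IsGoodPrimeFor ℓ → ¬ ℓ ∣ M → ℓ ≠ 3 →
      ∃ a : integralClosure ℤ ℂ, (a : ℂ) = ModularFormClass.qCoeff f ℓ ∧
        a - ((twSign tw ℓ * W.apOfModel ℓ : ℤ) : integralClosure ℤ ℂ) ∈ 𝔪

theorem isResModTw_false_iff (W : WeierstrassCurve ℤ) (M : ℕ) :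
    IsResModTw W false M ↔ W.IsResiduallyModularOfLevel 3 M := by
  unfold IsResModTw WeierstrassCurve.IsResiduallyModularOfLevel
  simp only [twSign, Bool.false_eq_true, if_false, one_mul]

/-- **Neat level** (the levels of the engine of row S59 at `p = 3`, `H826.LoSqNeatStatement`):
`4 ∥ N`, an auxiliary prime `r ≡ 47 mod 60` with `r ∥ N` at which `W` is good, and `N` cube-free
away from `3`.  At such levels `Γ₀(N)` has no elements of order `3` and `-1` is the only element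
of order `2`. -/
structure NeatLevel (W : WeierstrassCurve ℤ) (N r : ℕ) : Prop where
  pos : 0 < N
  four_dvd : 4 ∣ N
  not_eight_dvd : ¬ 8 ∣ N
  r_prime : r.Prime
  r_mod : r % 60 = 47
  r_dvd : r ∣ N
  r_sq : ¬ r ^ 2 ∣ N
  r_good : W.IsGoodPrimeFor r
  cubefree : ∀ q : ℕ, q.Prime → q ≠ 3 → ¬ q ^ 3 ∣ N

/-- Neatness passes from `3 N` to `N`. -/
theorem NeatLevel.of_three_mul {W : WeierstrassCurve ℤ} {N r : ℕ} (h : NeatLevel W (3 * N) r) :
    NeatLevel W N r := by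
  have hr3 : Nat.Coprime r 3 := by
    rw [Nat.coprime_comm, Nat.coprime_primes Nat.prime_three h.r_prime]
    intro h3
    have := h.r_mod
    rw [← h3] at this
    norm_num at this
  refine ⟨?_, ?_, ?_, h.r_prime, h.r_mod, ?_, ?_, h.r_good, ?_⟩
  · have := h.pos
    omega
  · exact (Nat.Coprime.dvd_mul_left (by norm_num : Nat.Coprime 4 3)).1 h.four_dvd
  · exact fun h8 => h.not_eight_dvd (Dvd.dvd.mul_left h8 3)
  · exact (Nat.Coprime.dvd_mul_left hr3).1 h.r_dvd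
  · exact fun h2 => h.r_sq (Dvd.dvd.mul_left h2 3)
  · exact fun q hq hq3 hd => h.cubefree q hq hq3 (Dvd.dvd.mul_left hd 3)

/-- **Block R** (raising the level to a neat one; stabilisation, `Lib/Newform/H683` on main). -/
def RaiseStatement : Prop :=
  ∀ (W : WeierstrassCurve ℤ) (_hΔ : W.Δ ≠ 0) (M : ℕ) (_hM : 0 < M)
    (_hM3 : ∀ q : ℕ, q.Prime → q ≠ 3 → ¬ q ^ 3 ∣ M)
    (_hres : W.IsResiduallyModularOfLevel 3 M),
    ∃ C r : ℕ, NeatLevel W C r ∧ W.IsResiduallyModularOfLevel 3 C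

/-- **Block D** (one `C₃`-step of the descent): from the neat level `3 N` to the level `N` when
`3 ∣ N`, up to the twist by `χ₋₃`. -/
def DescentStatement : Prop :=
  ∀ (W : WeierstrassCurve ℤ) (_hΔ : W.Δ ≠ 0) (_hW : W.IsSemistableModel)
    (_h3 : W.ModRepIsIrreducible 3) (N r : ℕ) (tw : Bool) (_hneat : NeatLevel W (3 * N) r)
    (_h3N : 3 ∣ N) (_hres : IsResModTw W tw (3 * N)),
    ∃ tw' : Bool, IsResModTw W tw' N

/-- **Block X** (twist exclusion): the twisted system does not occur at a neat level `N` with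
`9 ∤ N`. -/
def TwistExclStatement : Prop :=
  ∀ (W : WeierstrassCurve ℤ) (_hΔ : W.Δ ≠ 0) (_hW : W.IsSemistableModel)
    (_h3 : W.ModRepIsIrreducible 3) (_hfix : NoFix3 W) (N r : ℕ) (_hneat : NeatLevel W N r)
    (_h9 : ¬ 3 ^ 2 ∣ N),
    ¬ IsResModTw W true N

/-- Iterated descent: down to a neat level not divisible by `9`. -/
theorem exists_level_of_descent (hD : DescentStatement)
    (W : WeierstrassCurve ℤ) (hΔ : W.Δ ≠ 0) (hW : W.IsSemistableModel)
    (h3 : W.ModRepIsIrreducible 3) (r : ℕ) :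
    ∀ (M : ℕ) (tw : Bool), NeatLevel W M r → IsResModTw W tw M →
      ∃ (M₀ : ℕ) (tw' : Bool), NeatLevel W M₀ r ∧ ¬ 3 ^ 2 ∣ M₀ ∧ IsResModTw W tw' M₀ := by
  intro M
  induction M using Nat.strong_induction_on with
  | _ M ih =>
    intro tw hneat hres
    by_cases h9 : 3 ^ 2 ∣ M
    · obtain ⟨N, hN⟩ : ∃ N, M = 3 * N := by
        obtain ⟨k, hk⟩ := h9
        exact ⟨3 * k, by rw [hk]; ring⟩
      have h3N : 3 ∣ N := by
        obtain ⟨k, hk⟩ := h9
        refine ⟨k, ?_⟩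
        have : 3 * N = 3 * (3 * k) := by rw [← hN, hk]; ring
        exact Nat.eq_of_mul_eq_mul_left (by norm_num) this
      subst hN
      have hNpos : 0 < N := hneat.of_three_mul.pos
      obtain ⟨tw', hres'⟩ := hD W hΔ hW h3 N r tw hneat h3N hres
      exact ih N (by omega) tw' hneat.of_three_mul hres'
    · exact ⟨M, tw, hneat, h9, hres⟩

/-- **Glue G1.0**: G1 from the raising, the descent step and the twist exclusion. -/
theorem g1_of (hR : RaiseStatement) (hD : DescentStatement) (hX : TwistExclStatement) :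
    G1Statement := by
  intro W hΔ hW h3 M hM hres hM3 _ hfix
  obtain ⟨C, r, hneat, hresC⟩ := hR W hΔ M hM hM3 hres
  obtain ⟨M₀, tw', hneat₀, h9, hres'⟩ :=
    exists_level_of_descent hD W hΔ hW h3 r C false hneat ((isResModTw_false_iff W C).2 hresC)
  cases tw' with
  | false => exact ⟨M₀, hneat₀.pos, (isResModTw_false_iff W M₀).1 hres', h9, hneat₀.cubefree⟩
  | true => exact absurd hres' (hX W hΔ hW h3 hfix M₀ r hneat₀ h9)

end Fermat.Agent.Glue

end
-- ===== PACK-END Glue/Spec.lean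

-- ===== PACK-BEGIN LT/H17/Board.lean
section





/-!
# Row LT -- BOARD v1 of the row-lead (helper17), OFF-MAIN

Frozen Props of the row + sorry-free tops.  Nothing here is on main.

RETIRED (falsity findings of helper446, helper681, helper391, helper670, helper437, helper130,
helper12 and others): the Prelude carriers `TunnellExistsForAttachedOctahedralData`,
`WeightOneHolomorphicRealization` with a universally quantified datum, `LT17.DatumStatement`
and `LT17.top` of `Spec.lean`.  Do not prove them, do not cite them.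

Cut (all Props below are TRUE statements of mathematics):

* `LTB.Hyp rho Psi`      : the hypotheses of the frozen S47.
* `LTB.Concl rho Psi`    : the conclusion of the frozen S47.
* `LTB.WallOut rho Psi`  : a CLASSICAL holomorphic cusp form of weight one on `Gamma1 N`,
  normalised, with the Hecke relations of S48 for a Dirichlet character `eps` at the primes
  not dividing `N`, whose `a_p` equals `iota (tr Psi (rho Frob_p))` at the primes `p` not dividing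
  `3 N` whose Frobenius lies in `Q8 = {g | det g = 1, g ^ 4 = 1}` (primes split completely in the
  sextic `S3`-field `E`).  NO integrality, NO condition at the other primes, NO level control.
* `LTB.WallC`   : `Hyp -> WallOut`             (THE WALL = automorphic input).
* `LTB.IdentC`  : `Hyp -> WallOut -> Concl`    (landed S48 + Chebotarev + Clifford + twist by
  `chi_{-3}` + depletion at the bad primes + integrality in `Z[sqrt -2]`; no automorphic input).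
* `LTB.top47`   : `IdentC -> WallC ->` frozen S47 (verbatim binders).   MILESTONE 1 (row 42).
* `LTB.Glue2`   : frozen S47 `->` every semistable `W` with irreducible `W[3]` is residually
  modular at 3 of SOME level.
* `LTB.LevelOpt`: residually modular at 3 of some level `->` conclusion of the frozen S50
  (level cube-free away from 3, condition at 9).
* `LTB.top50`   : `IdentC -> WallC -> Glue2 -> LevelOpt ->` frozen S50.   MILESTONE 2.
-/

set_option autoImplicit false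

open AutomorphicForm FLT.ExplicitLift EisensteinWeightOne
open WeierstrassCurve WeierstrassCurve.Affine WeierstrassCurve.Affine.Point
open CongruenceSubgroup
open scoped MatrixGroups
open scoped WeierstrassCurve.Affine

noncomputable section

namespace LTB

local notation "Γℚ" => (AlgebraicClosure ℚ ≃ₐ[ℚ] AlgebraicClosure ℚ)

/-- The hypotheses of the frozen S47. -/
structure Hyp (ρ : Γℚ →* GL (Fin 2) (ZMod 3))
    (Ψ : GL (Fin 2) (ZMod 3) →* GL (Fin 2) (ℤ√(-2))) : Prop where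
  cont : Continuous ρ
  surj : Function.Surjective ρ
  det : ∀ σ : Γℚ, Matrix.GeneralLinearGroup.det (ρ σ) = modThreeCyclotomicChar σ
  lift : ∀ g, Matrix.GeneralLinearGroup.map red (Ψ g) = g

/-- The conclusion of the frozen S47. -/
def Concl (ρ : Γℚ →* GL (Fin 2) (ZMod 3))
    (Ψ : GL (Fin 2) (ZMod 3) →* GL (Fin 2) (ℤ√(-2))) : Prop :=
  ∃ (N : ℕ) (_ : NeZero N) (b : ℕ → ℤ√(-2)),
    FormalHecke.IsEigensystem
      (fun ℓ => if ℓ ∣ N then 0 else ((chiNegThree ℓ : ℤ) : ℤ√(-2))) b ∧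
    CuspForm.IsWeightOneChiNegThreeRealized N b ∧
    ∀ p : ℕ, p.Prime → ¬ p ∣ 3 * N →
      ∀ A : ValuationSubring (AlgebraicClosure ℚ), A.LiesOverPrime p →
        ∀ σ : Γℚ, A.IsFrobeniusAt σ p →
          b p = ((Ψ (ρ σ) : GL (Fin 2) (ℤ√(-2))) : Matrix (Fin 2) (Fin 2) (ℤ√(-2))).trace

/-- Output of the wall: a classical weight-one cuspidal Hecke eigenform (shape of the hypotheses
of the landed S48) matching `Ψ ∘ ρ` at the primes whose Frobenius lies in `Q8`. -/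
def WallOut (ρ : Γℚ →* GL (Fin 2) (ZMod 3))
    (Ψ : GL (Fin 2) (ZMod 3) →* GL (Fin 2) (ℤ√(-2))) : Prop :=
  ∃ (N : ℕ) (_ : NeZero N) (ε : DirichletCharacter ℂ N) (f : CuspForm (Gamma1 N) 1)
    (ι : ℤ√(-2) →+* ℂ),
    ModularFormClass.qCoeff f 1 = 1 ∧
    (∀ p : ℕ, p.Prime → ¬ p ∣ N → ∀ n : ℕ,
        ModularFormClass.qCoeff f (p * n) +
            ε (p : ZMod N) * (if p ∣ n then ModularFormClass.qCoeff f (n / p) else 0) =
          ModularFormClass.qCoeff f p * ModularFormClass.qCoeff f n) ∧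
    ∀ p : ℕ, p.Prime → ¬ p ∣ 3 * N →
      ∀ A : ValuationSubring (AlgebraicClosure ℚ), A.LiesOverPrime p →
        ∀ σ : Γℚ, A.IsFrobeniusAt σ p →
          Matrix.GeneralLinearGroup.det (ρ σ) = 1 → (ρ σ) ^ 4 = 1 →
          ModularFormClass.qCoeff f p =
            ι (((Ψ (ρ σ) : GL (Fin 2) (ℤ√(-2))) : Matrix (Fin 2) (Fin 2) (ℤ√(-2))).trace)

/-- THE WALL (automorphic input): Langlands--Tunnell for `Ψ ∘ ρ`, weakened by the twist freedom
of the descent steps and stripped of every arithmetic normalisation. -/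
def WallC : Prop :=
  ∀ (ρ : Γℚ →* GL (Fin 2) (ZMod 3)) (Ψ : GL (Fin 2) (ZMod 3) →* GL (Fin 2) (ℤ√(-2))),
    Hyp ρ Ψ → WallOut ρ Ψ

/-- IDENT (no automorphic input): landed S48 on the form of `WallOut`, Chebotarev, Clifford theory
for `Q8 < GL2(F3)` (quotient `S3`), twist by `chi_{-3}`, depletion at the primes dividing the
level, coefficients in `Z[sqrt -2]`. -/
def IdentC : Prop :=
  ∀ (ρ : Γℚ →* GL (Fin 2) (ZMod 3)) (Ψ : GL (Fin 2) (ZMod 3) →* GL (Fin 2) (ℤ√(-2))),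
    Hyp ρ Ψ → WallOut ρ Ψ → Concl ρ Ψ

/-- The frozen S47 as a Prop. -/
def S47Statement : Prop :=
  ∀ (ρ : Γℚ →* GL (Fin 2) (ZMod 3)) (_ : Continuous ρ) (_ : Function.Surjective ρ)
    (_ : ∀ σ : Γℚ, Matrix.GeneralLinearGroup.det (ρ σ) = modThreeCyclotomicChar σ)
    (Ψ : GL (Fin 2) (ZMod 3) →* GL (Fin 2) (ℤ√(-2)))
    (_ : ∀ g, Matrix.GeneralLinearGroup.map red (Ψ g) = g),
    ∃ (N : ℕ) (_ : NeZero N) (b : ℕ → ℤ√(-2)),
      FormalHecke.IsEigensystem
        (fun ℓ => if ℓ ∣ N then 0 else ((chiNegThree ℓ : ℤ) : ℤ√(-2))) b ∧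
      CuspForm.IsWeightOneChiNegThreeRealized N b ∧
      ∀ p : ℕ, p.Prime → ¬ p ∣ 3 * N →
        ∀ A : ValuationSubring (AlgebraicClosure ℚ), A.LiesOverPrime p →
          ∀ σ : Γℚ, A.IsFrobeniusAt σ p →
            b p = ((Ψ (ρ σ) : GL (Fin 2) (ℤ√(-2))) : Matrix (Fin 2) (Fin 2) (ℤ√(-2))).trace

/-- MILESTONE 1: the frozen S47 from IDENT + WALL. -/
theorem top47 (hI : IdentC) (hW : WallC) : S47Statement :=
  fun ρ hρ hsurj hdet Ψ hΨ =>
    hI ρ Ψ ⟨hρ, hsurj, hdet, hΨ⟩ (hW ρ Ψ ⟨hρ, hsurj, hdet, hΨ⟩)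

/-- The hypotheses of the frozen S50. -/
structure Hyp50 (W : WeierstrassCurve ℤ) : Prop where
  disc : W.Δ ≠ 0
  semistable : W.IsSemistableModel
  irred : W.ModRepIsIrreducible 3

/-- The conclusion of the frozen S50. -/
def Concl50 (W : WeierstrassCurve ℤ) : Prop :=
  ∃ M : ℕ, 0 < M ∧ W.IsResiduallyModularOfLevel 3 M ∧
    (∀ q : ℕ, q.Prime → q ≠ 3 → ¬ q ^ 3 ∣ M) ∧
    (3 ^ 2 ∣ M →
      ∀ A : ValuationSubring (AlgebraicClosure ℚ), A.LiesOverPrime 3 →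
        ∀ x : Submodule.torsionBy ℤ
            ((W.map (Int.castRingHom ℚ))⁄(AlgebraicClosure ℚ)).Point (3 : ℕ),
          (∀ σ ∈ A.inertiaSubgroupIn ℚ, σ • x = x) → x = 0)

/-- GLUE2: S47 gives residual modularity at 3 of SOME level (mod-3 representation of `W` in a
basis, surjectivity for semistable + irreducible, Weil pairing, product with the Eisenstein series
`E_{1,chi_{-3}}`, landed S49). -/
def Glue2 : Prop :=
  S47Statement → ∀ W : WeierstrassCurve ℤ, Hyp50 W → W.IsResiduallyModular 3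

/-- LEVELOPT: level optimisation in weight 2 modulo 3 (away from 3: the engine of row CAR3;
at 3: the condition at 9). -/
def LevelOpt : Prop :=
  ∀ W : WeierstrassCurve ℤ, Hyp50 W → W.IsResiduallyModular 3 → Concl50 W

/-- MILESTONE 2: the frozen S50 (verbatim binders). -/
theorem top50 (hI : IdentC) (hW : WallC) (hG : Glue2) (hL : LevelOpt)
    (W : WeierstrassCurve ℤ) (hΔ : W.Δ ≠ 0) (hW' : W.IsSemistableModel)
    (h3 : W.ModRepIsIrreducible 3) :
    ∃ M : ℕ, 0 < M ∧ W.IsResiduallyModularOfLevel 3 M ∧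
      (∀ q : ℕ, q.Prime → q ≠ 3 → ¬ q ^ 3 ∣ M) ∧
      (3 ^ 2 ∣ M →
        ∀ A : ValuationSubring (AlgebraicClosure ℚ), A.LiesOverPrime 3 →
          ∀ x : Submodule.torsionBy ℤ
              ((W.map (Int.castRingHom ℚ))⁄(AlgebraicClosure ℚ)).Point (3 : ℕ),
            (∀ σ ∈ A.inertiaSubgroupIn ℚ, σ • x = x) → x = 0) :=
  hL W ⟨hΔ, hW', h3⟩ (hG (top47 hI hW) W ⟨hΔ, hW', h3⟩)

end LTB

end

end
-- ===== PACK-END LT/H17/Board.lean

-- ===== PACK-BEGIN LT/H49/FormalLift.lean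
section



/-!
# Row LT, block GLUE2, leaf W2A (helper49): formal Hecke eigensystems with prescribed prime values

* `eigSeq e v` : the sequence with `a 0 = 0`, `a 1 = 1`, multiplicative, with the prime power
  recursion `a (p^(r+2)) = v p * a (p^(r+1)) - e p * a (p^r)`; it is a formal eigensystem
  (`isEigensystem_eigSeq`) with `a p = v p` at the primes (`eigSeq_prime`).
* `eigensystem_ext` : a formal eigensystem is determined by `a 0` and its values at the primes.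
* `isEigensystem_map` : formal eigensystems map along ring homomorphisms.
-/

set_option autoImplicit false

namespace Fermat.Agent.LT.H49

variable {R : Type*} [CommRing R]

/-- The values at the powers of `p` given by the Hecke recursion. -/
def ppVal (e v : ℕ → R) (p : ℕ) : ℕ → R
  | 0 => 1
  | 1 => v p
  | (r + 2) => v p * ppVal e v p (r + 1) - e p * ppVal e v p r

@[simp] theorem ppVal_zero (e v : ℕ → R) (p : ℕ) : ppVal e v p 0 = 1 := rfl

@[simp] theorem ppVal_one (e v : ℕ → R) (p : ℕ) : ppVal e v p 1 = v p := rfl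

theorem ppVal_add_two (e v : ℕ → R) (p r : ℕ) :
    ppVal e v p (r + 2) = v p * ppVal e v p (r + 1) - e p * ppVal e v p r := rfl

/-- The multiplicative sequence with the given values at the primes. -/
noncomputable def eigSeq (e v : ℕ → R) (n : ℕ) : R :=
  if n = 0 then 0 else n.factorization.prod fun p r => ppVal e v p r

@[simp] theorem eigSeq_zero (e v : ℕ → R) : eigSeq e v 0 = 0 := by simp [eigSeq]

@[simp] theorem eigSeq_one (e v : ℕ → R) : eigSeq e v 1 = 1 := by simp [eigSeq]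

theorem eigSeq_pow_mul (e v : ℕ → R) {p : ℕ} (hp : p.Prime) (r : ℕ) {m : ℕ} (hm : ¬ p ∣ m) :
    eigSeq e v (p ^ r * m) = ppVal e v p r * eigSeq e v m := by
  have hm0 : m ≠ 0 := fun h => hm (h ▸ dvd_zero p)
  have hpr : p ^ r ≠ 0 := pow_ne_zero _ hp.ne_zero
  have hne : p ^ r * m ≠ 0 := mul_ne_zero hpr hm0
  rw [eigSeq, if_neg hne, eigSeq, if_neg hm0, Nat.factorization_mul hpr hm0,
    hp.factorization_pow]
  rw [Finsupp.prod_add_index_of_disjoint]
  · rw [Finsupp.prod_single_index (ppVal_zero e v p)]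
  · rw [Finset.disjoint_left]
    intro q hq hq'
    have hqp : q = p := by
      have := Finsupp.support_single_subset hq
      simpa using this
    subst hqp
    rw [Nat.support_factorization] at hq'
    exact hm (Nat.dvd_of_mem_primeFactors hq')

theorem eigSeq_prime (e v : ℕ → R) {p : ℕ} (hp : p.Prime) : eigSeq e v p = v p := by
  have h := eigSeq_pow_mul e v hp 1 (m := 1) (by simpa using hp.ne_one)
  simpa using h

/-- `eigSeq e v` is a formal Hecke eigensystem for `e`. -/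
theorem isEigensystem_eigSeq (e v : ℕ → R) : FormalHecke.IsEigensystem e (eigSeq e v) := by
  refine ⟨eigSeq_one e v, fun ℓ hℓ n => ?_⟩
  rcases eq_or_ne n 0 with rfl | hn
  · simp
  obtain ⟨r, m, hm, rfl⟩ := Nat.exists_eq_pow_mul_and_not_dvd hn ℓ hℓ.ne_one
  have h1 : ℓ * (ℓ ^ r * m) = ℓ ^ (r + 1) * m := by ring
  rw [h1, eigSeq_pow_mul e v hℓ (r + 1) hm, eigSeq_pow_mul e v hℓ r hm, eigSeq_prime e v hℓ]
  rcases r with _ | r
  · have hnd : ¬ ℓ ∣ ℓ ^ 0 * m := by simpa using hm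
    rw [if_neg hnd]
    simp
  · have hd : ℓ ∣ ℓ ^ (r + 1) * m := Dvd.dvd.mul_right (dvd_pow_self ℓ (Nat.succ_ne_zero r)) m
    have hdiv : ℓ ^ (r + 1) * m / ℓ = ℓ ^ r * m := by
      rw [pow_succ, mul_assoc, mul_comm ℓ m, ← mul_assoc, Nat.mul_div_cancel _ hℓ.pos]
    rw [if_pos hd, hdiv, eigSeq_pow_mul e v hℓ r hm, ppVal_add_two]
    ring

/-- A formal eigensystem is determined by its value at `0` and its values at the primes. -/
theorem eigensystem_ext {e a a' : ℕ → R} (h : FormalHecke.IsEigensystem e a)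
    (h' : FormalHecke.IsEigensystem e a') (h0 : a 0 = a' 0)
    (hp : ∀ p : ℕ, p.Prime → a p = a' p) : a = a' := by
  funext n
  induction n using Nat.strong_induction_on with
  | _ n ih =>
    rcases eq_or_ne n 0 with rfl | hn0
    · exact h0
    rcases eq_or_ne n 1 with rfl | hn1
    · rw [h.1, h'.1]
    obtain ⟨ℓ, hℓ, k, rfl⟩ : ∃ ℓ : ℕ, ℓ.Prime ∧ ∃ k, n = ℓ * k := by
      obtain ⟨ℓ, hℓ, hd⟩ := Nat.exists_prime_and_dvd hn1
      exact ⟨ℓ, hℓ, hd⟩
    have hk0 : k ≠ 0 := by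
      rintro rfl
      exact hn0 (mul_zero ℓ)
    have hklt : k < ℓ * k := by
      have := hℓ.two_le
      nlinarith [Nat.pos_of_ne_zero hk0]
    have hdivlt : k / ℓ < ℓ * k := lt_of_le_of_lt (Nat.div_le_self k ℓ) hklt
    have e1 := h.2 ℓ hℓ k
    have e2 := h'.2 ℓ hℓ k
    have ia := ih k hklt
    have ib := ih (k / ℓ) hdivlt
    have ic := hp ℓ hℓ
    have : a (ℓ * k) = a ℓ * a k - e ℓ * (if ℓ ∣ k then a (k / ℓ) else 0) := by
      rw [← e1]; ring
    rw [this, ia, ib, ic, ← e2]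
    ring

/-- Formal eigensystems map along ring homomorphisms. -/
theorem isEigensystem_map {S : Type*} [CommRing S] (φ : R →+* S) {e a : ℕ → R}
    (h : FormalHecke.IsEigensystem e a) :
    FormalHecke.IsEigensystem (fun n => φ (e n)) (fun n => φ (a n)) := by
  refine ⟨by simp [h.1], fun ℓ hℓ n => ?_⟩
  have := congrArg φ (h.2 ℓ hℓ n)
  rw [map_add, map_mul, map_mul] at this
  rw [← this]
  split_ifs <;> simp

end Fermat.Agent.LT.H49

end
-- ===== PACK-END LT/H49/FormalLift.lean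

-- ===== PACK-BEGIN S48/H796/Cot.lean
section


/-!
# S48 / P2-EIS (helper796): cotangent sums

`cotPi x = π cot (π x)`; row sums `∑_{n ∈ ℤ} (1/(x+n) - 1/(y+n)) = cotPi x - cotPi y`,
exponential form of `cotPi` in the upper and lower half planes.
-/

set_option autoImplicit false

noncomputable section

namespace Fermat.Agent.S48.H796

open Complex Filter Topology Asymptotics
open scoped Real

/-- `c(x) = π cot(π x)`. -/
def cotPi (x : ℂ) : ℂ := π * Complex.cot (π * x)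

lemma cotPi_def (x : ℂ) : cotPi x = π * Complex.cot (π * x) := rfl

lemma cotPi_eq_exp (x : ℂ) :
    cotPi x = π * ((cexp (2 * π * I * x) + 1) / (I * (1 - cexp (2 * π * I * x)))) := by
  rw [cotPi, cot_pi_eq_exp_ratio]

lemma cexp_two_pi_I_add_int (x : ℂ) (n : ℤ) :
    cexp (2 * π * I * (x + n)) = cexp (2 * π * I * x) := by
  rw [mul_add, Complex.exp_add]
  have : cexp (2 * π * I * n) = 1 := by
    have := Complex.exp_int_mul_two_pi_mul_I n
    rw [← this]; congr 1; ring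
  rw [this, mul_one]

lemma cotPi_add_int (x : ℂ) (n : ℤ) : cotPi (x + n) = cotPi x := by
  rw [cotPi_eq_exp, cotPi_eq_exp, cexp_two_pi_I_add_int]

lemma cotPi_sub_int (x : ℂ) (n : ℤ) : cotPi (x - n) = cotPi x := by
  have := cotPi_add_int x (-n)
  simpa [sub_eq_add_neg] using this

lemma cotPi_neg (x : ℂ) : cotPi (-x) = -cotPi x := by
  simp only [cotPi, mul_neg, Complex.cot, Complex.cos_neg, Complex.sin_neg, div_neg]

/-- For `‖u‖ < 1` (`u = e^{2πix}`, `Im x > 0`): `cotPi x = -πi - 2πi u/(1-u)`. -/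
lemma cotPi_eq_of_ne {x : ℂ} (hu : cexp (2 * π * I * x) ≠ 1) :
    cotPi x = -(π * I) - 2 * π * I * (cexp (2 * π * I * x) / (1 - cexp (2 * π * I * x))) := by
  rw [cotPi_eq_exp]
  have h1 : (1 : ℂ) - cexp (2 * π * I * x) ≠ 0 := sub_ne_zero.mpr (Ne.symm hu)
  generalize cexp (2 * π * I * x) = u at h1 ⊢
  rw [show I * (1 - u) = (1 - u) * I by ring, ← div_div, Complex.div_I]
  field_simp
  ring

lemma norm_cexp_two_pi_I (x : ℂ) : ‖cexp (2 * π * I * x)‖ = Real.exp (-2 * π * x.im) := by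
  rw [Complex.norm_exp]
  congr 1
  simp [Complex.mul_re, Complex.mul_im]

lemma cexp_ne_one_of_im_pos {x : ℂ} (hx : 0 < x.im) : cexp (2 * π * I * x) ≠ 1 := by
  intro h
  have := norm_cexp_two_pi_I x
  rw [h, norm_one] at this
  have h2 : Real.exp (-2 * π * x.im) < 1 := by
    rw [Real.exp_lt_one_iff]
    have := Real.pi_pos
    nlinarith
  linarith

/-- Bound: for `Im x > 0`, `‖cotPi x + πi‖ ≤ 2π t/(1-t)`, `t = e^{-2π Im x}`. -/
lemma norm_cotPi_add_le {x : ℂ} (hx : 0 < x.im) :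
    ‖cotPi x + π * I‖ ≤
      2 * π * (Real.exp (-2 * π * x.im) / (1 - Real.exp (-2 * π * x.im))) := by
  have ht1 : Real.exp (-2 * π * x.im) < 1 := by
    rw [Real.exp_lt_one_iff]
    have := Real.pi_pos
    nlinarith
  rw [cotPi_eq_of_ne (cexp_ne_one_of_im_pos hx)]
  have : -(π * I) - 2 * π * I * (cexp (2 * π * I * x) / (1 - cexp (2 * π * I * x))) + π * I
      = -(2 * π * I * (cexp (2 * π * I * x) / (1 - cexp (2 * π * I * x)))) := by ring
  rw [this, norm_neg, norm_mul, norm_mul, norm_mul, norm_div, Complex.norm_I, mul_one,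
    norm_cexp_two_pi_I]
  have h2 : ‖(2 : ℂ)‖ = 2 := by simp
  have h3 : ‖(π : ℂ)‖ = π := by simp [abs_of_pos Real.pi_pos]
  rw [h2, h3]
  have hden : 1 - Real.exp (-2 * π * x.im) ≤ ‖1 - cexp (2 * π * I * x)‖ := by
    have := norm_sub_norm_le (1 : ℂ) (cexp (2 * π * I * x))
    rw [norm_one, norm_cexp_two_pi_I] at this
    exact this
  have hpos : 0 < 1 - Real.exp (-2 * π * x.im) := by linarith
  gcongr

/-- Bound in the lower half plane. -/
lemma norm_cotPi_sub_le {x : ℂ} (hx : x.im < 0) :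
    ‖cotPi x - π * I‖ ≤
      2 * π * (Real.exp (2 * π * x.im) / (1 - Real.exp (2 * π * x.im))) := by
  have h := norm_cotPi_add_le (x := -x) (by simpa using hx)
  rw [cotPi_neg] at h
  have e : -cotPi x + π * I = -(cotPi x - π * I) := by ring
  rw [e, norm_neg] at h
  simpa using h

/-! ## Row sums -/

lemma summable_inv_mul_inv (x y : ℂ) : Summable (fun n : ℤ => ((x + n) * (y + n))⁻¹) := by
  apply EisensteinSeries.summable_inv_of_isBigO_rpow_inv (a := 2) (by norm_num)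
  have h1 := EisensteinSeries.linear_inv_isBigO_right 1 x
  have h2 := EisensteinSeries.linear_inv_isBigO_right 1 y
  simpa [pow_two] using h2.mul h1

lemma natCast_add_one_injective : Function.Injective (fun n : ℕ => ((n : ℤ) + 1)) := by
  intro a b h
  simpa using h

lemma neg_natCast_add_one_injective : Function.Injective (fun n : ℕ => (-((n : ℤ) + 1))) := by
  intro a b h
  simpa using h

/-- `∑_{n ∈ ℤ} (1/(x+n) - 1/(y+n)) = π cot πx - π cot πy` (absolutely convergent). -/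
theorem hasSum_inv_sub_inv {x y : ℂ} (hx : x ∈ integerComplement) (hy : y ∈ integerComplement) :
    HasSum (fun n : ℤ => 1 / (x + n) - 1 / (y + n)) (cotPi x - cotPi y) := by
  set f : ℤ → ℂ := fun n => 1 / (x + n) - 1 / (y + n) with hfdef
  have hf : ∀ n : ℤ, f n = (y - x) * ((x + n) * (y + n))⁻¹ := by
    intro n
    have h1 := integerComplement_add_ne_zero hx n
    have h2 := integerComplement_add_ne_zero hy n
    simp only [hfdef]
    field_simp
    ring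
  have hs : Summable f :=
    ((summable_inv_mul_inv x y).mul_left (y - x)).congr fun n => (hf n).symm
  have hs1 : Summable (fun n : ℕ => f ((n : ℤ) + 1)) :=
    hs.comp_injective natCast_add_one_injective
  have hs2 : Summable (fun n : ℕ => f (-((n : ℤ) + 1))) :=
    hs.comp_injective neg_natCast_add_one_injective
  have hsum := HasSum.of_add_one_of_neg_add_one hs1.hasSum hs2.hasSum
  have hx' := cot_series_rep' hx
  have hy' := cot_series_rep' hy
  have hsx := summable_cotTerm hx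
  have hsy := summable_cotTerm hy
  have e1 : ∑' n : ℕ, f ((n : ℤ) + 1) + ∑' n : ℕ, f (-((n : ℤ) + 1)) =
      ∑' n : ℕ, (cotTerm x n - cotTerm y n) := by
    rw [← Summable.tsum_add hs1 hs2]
    refine tsum_congr fun n => ?_
    simp only [cotTerm, hfdef]
    push_cast
    ring
  have e2 : ∑' n : ℕ, (cotTerm x n - cotTerm y n) =
      (cotPi x - 1 / x) - (cotPi y - 1 / y) := by
    rw [Summable.tsum_sub hsx hsy, cotPi, cotPi, hx', hy']
  have e3 : f 0 = 1 / x - 1 / y := by simp [hfdef]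
  convert hsum using 1
  rw [e3]
  linear_combination -e1 - e2

/-- Zero row: `∑_{n ∈ ℤ} (1/(x+n) - 1/n) = π cot πx` (with `1/0 = 0`). -/
theorem hasSum_inv_sub_inv_zero {x : ℂ} (hx : x ∈ integerComplement) :
    HasSum (fun n : ℤ => 1 / (x + n) - 1 / (n : ℂ)) (cotPi x) := by
  set g : ℤ → ℂ := fun n => 1 / (x + n) - 1 / (n : ℂ) with hg
  have hh : Summable (fun n : ℤ => (-x) * ((x + n) * ((0 : ℂ) + n))⁻¹) :=
    (summable_inv_mul_inv x 0).mul_left _
  have hgn : ∀ n : ℤ, n ≠ 0 → g n = (-x) * ((x + n) * ((0 : ℂ) + n))⁻¹ := by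
    intro n hn
    have h1 := integerComplement_add_ne_zero hx n
    have h2 : (n : ℂ) ≠ 0 := by exact_mod_cast hn
    simp only [hg, zero_add]
    field_simp
    ring
  have hs1 : Summable (fun n : ℕ => g ((n : ℤ) + 1)) := by
    refine (hh.comp_injective natCast_add_one_injective).congr fun n => ?_
    simp only [Function.comp_def]
    rw [hgn _ (by positivity)]
  have hs2 : Summable (fun n : ℕ => g (-((n : ℤ) + 1))) := by
    refine (hh.comp_injective neg_natCast_add_one_injective).congr fun n => ?_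
    simp only [Function.comp_def]
    rw [hgn _ (by
      have : (0 : ℤ) < (n : ℤ) + 1 := by positivity
      omega)]
  have hsum := HasSum.of_add_one_of_neg_add_one hs1.hasSum hs2.hasSum
  have hx' := cot_series_rep' hx
  have e1 : ∑' n : ℕ, g ((n : ℤ) + 1) + ∑' n : ℕ, g (-((n : ℤ) + 1)) = cotPi x - 1 / x := by
    rw [← Summable.tsum_add hs1 hs2, cotPi, hx']
    refine tsum_congr fun n => ?_
    have key : ∀ a : ℂ, 1 / (-a) = -(1 / a) := fun a => by rw [div_neg]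
    simp only [hg]
    push_cast
    rw [key]
    ring
  have e3 : g 0 = 1 / x := by simp [hg]
  convert hsum using 1
  rw [e3]
  linear_combination -e1

end Fermat.Agent.S48.H796

end
end
-- ===== PACK-END S48/H796/Cot.lean

-- ===== PACK-BEGIN S48/H788/EisAlg.lean
section



/-!
# S48 / Tower A1 / piece P2-EIS, steps 5–6 (helper788): from the Eisenstein family to `E_{1,ψ}`

Input (abstract; = output of steps 1–4 of `coord/S48-P2EIS-helper796.md`): a family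
`F b : ModularForm (Gamma1 N) 1`, `b : ZMod N`, with `F_b ∣ γ = F_{b d}` for `γ ∈ Γ₀(N)` and
`F_b = π cot(π b / N) + 4π ∑_{n ≥ 1} (∑_{k ∣ n} sin(2π k b / N)) qⁿ`.

Output: for `ψ` primitive and odd, the form `E = (-4πi τ(ψ̄))⁻¹ ∑_b ψ̄(b) F_b` has nebentypus `ψ`,
constant term `-(∑_a a ψ(a)) / (2N)` and `n`-th coefficient `∑_{d ∣ n} ψ(d)`.
-/

set_option autoImplicit false

noncomputable section

namespace Fermat.Agent.S48.H788

open UpperHalfPlane ModularFormClass CongruenceSubgroup Complex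
open scoped Real MatrixGroups ModularForm

/-- The abstract Eisenstein family of weight one attached to the vectors `(0, b)`. -/
structure EisFamily (N : ℕ) [NeZero N] (F : ZMod N → ModularForm (Gamma1 N) 1) : Prop where
  slash : ∀ γ : SL(2, ℤ), γ ∈ Gamma0 N → ∀ b : ZMod N, b ≠ 0 →
    (⇑(F b)) ∣[(1 : ℤ)] γ = ⇑(F (b * ((γ 1 1 : ℤ) : ZMod N)))
  coeff_zero : ∀ b : ZMod N, b ≠ 0 →
    qCoeff (F b) 0 = π * Complex.cot (π * ((b.val : ℂ) / N))
  coeff_pos : ∀ b : ZMod N, b ≠ 0 → ∀ n : ℕ, 1 ≤ n →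
    qCoeff (F b) n =
      4 * π * ∑ k ∈ n.divisors, Complex.sin (2 * π * ((k : ℂ) * (b.val : ℂ) / N))

/-! ### Finite trigonometric sums -/

section Trig

variable {N : ℕ} [NeZero N]

theorem stdAddChar_natCast_mul (k : ℕ) (b : ZMod N) :
    ZMod.stdAddChar ((k : ZMod N) * b) = exp (2 * π * Complex.I * ((k : ℂ) * (b.val : ℂ) / N)) := by
  have h : ((k : ZMod N) * b) = (((k * b.val : ℕ) : ℤ) : ZMod N) := by
    push_cast
    rw [ZMod.natCast_zmod_val]
  rw [h, ZMod.stdAddChar_coe]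
  congr 1
  push_cast
  ring

theorem stdAddChar_neg_natCast_mul (k : ℕ) (b : ZMod N) :
    ZMod.stdAddChar ((-(k : ZMod N)) * b) = exp (-(2 * π * Complex.I * ((k : ℂ) * (b.val : ℂ) / N))) := by
  rw [neg_mul, AddChar.map_neg_eq_inv, stdAddChar_natCast_mul, ← Complex.exp_neg]

/-- `sin(2π k b / N)` through the standard additive character. -/
theorem sin_eq_stdAddChar (k : ℕ) (b : ZMod N) :
    Complex.sin (2 * π * ((k : ℂ) * (b.val : ℂ) / N)) =
      (ZMod.stdAddChar ((-(k : ZMod N)) * b) - ZMod.stdAddChar ((k : ZMod N) * b)) * Complex.I / 2 := by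
  rw [stdAddChar_neg_natCast_mul, stdAddChar_natCast_mul, Complex.sin]
  congr 3
  · congr 1; ring
  · congr 1; ring

/-- `∑_{a < n} a wᵃ` in closed form. -/
theorem sum_mul_pow_aux (w : ℂ) (n : ℕ) :
    (w - 1) * ∑ a ∈ Finset.range n, (a : ℂ) * w ^ a =
      n * w ^ n - w * ∑ a ∈ Finset.range n, w ^ a := by
  induction n with
  | zero => simp
  | succ n ih =>
    rw [Finset.sum_range_succ, Finset.sum_range_succ, mul_add, ih]
    push_cast
    ring

theorem sum_mul_pow_of_root {w : ℂ} {n : ℕ} (hw : w ^ n = 1) (hw1 : w ≠ 1) :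
    (w - 1) * ∑ a ∈ Finset.range n, (a : ℂ) * w ^ a = n := by
  have hg : ∑ a ∈ Finset.range n, w ^ a = 0 := by
    have := mul_neg_geom_sum w n
    have h2 : (1 - w) * ∑ a ∈ Finset.range n, w ^ a = 0 := by rw [this, hw, sub_self]
    rcases mul_eq_zero.mp h2 with h | h
    · exact absurd (sub_eq_zero.mp h).symm hw1
    · exact h
  rw [sum_mul_pow_aux, hw, hg]
  ring

/-- `cot(π b / N) = i + (2i/N) ∑_{a < N} a e(ab/N)` for `b ≠ 0`. -/
theorem cot_eq_sum (b : ZMod N) (hb : b ≠ 0) :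
    Complex.cot (π * ((b.val : ℂ) / N)) =
      Complex.I + 2 * Complex.I / N * ∑ a ∈ Finset.range N, (a : ℂ) * ZMod.stdAddChar ((a : ZMod N) * b) := by
  set w : ℂ := ZMod.stdAddChar b with hw
  have hw1 : w ≠ 1 := by
    intro h
    apply hb
    have := ZMod.injective_stdAddChar (N := N)
    apply this
    rw [← hw, h, AddChar.map_zero_eq_one]
  have hwN : w ^ N = 1 := by
    rw [hw, ← AddChar.map_nsmul_eq_pow]
    simp
  have hpow : ∀ a : ℕ, ZMod.stdAddChar ((a : ZMod N) * b) = w ^ a := by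
    intro a
    rw [hw, ← AddChar.map_nsmul_eq_pow, nsmul_eq_mul]
  have hwexp : w = exp (2 * π * Complex.I * ((b.val : ℂ) / N)) := by
    have := stdAddChar_natCast_mul (N := N) 1 b
    simp only [Nat.cast_one, one_mul] at this
    rw [hw, this]
  have hsum := sum_mul_pow_of_root hwN hw1
  have hN : (N : ℂ) ≠ 0 := Nat.cast_ne_zero.mpr (NeZero.ne N)
  have hw1' : w - 1 ≠ 0 := sub_ne_zero.mpr hw1
  have h1w : 1 - w ≠ 0 := sub_ne_zero.mpr (Ne.symm hw1)
  simp_rw [hpow]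
  rw [Complex.cot_pi_eq_exp_ratio, ← hwexp]
  have hS : ∑ a ∈ Finset.range N, (a : ℂ) * w ^ a = N / (w - 1) := by
    rw [eq_div_iff hw1', mul_comm]
    exact hsum
  rw [hS]
  field_simp
  ring_nf
  rw [Complex.I_sq]
  ring

end Trig

/-! ### Character sums -/

section CharSum

variable {N : ℕ} [NeZero N]

/-- The Gauss sum `τ(ψ̄)`. -/
def gTau (ψ : DirichletCharacter ℂ N) : ℂ := gaussSum ψ⁻¹ ZMod.stdAddChar

omit [NeZero N] in
theorem inv_isPrimitive {ψ : DirichletCharacter ℂ N} (h : ψ.IsPrimitive) : ψ⁻¹.IsPrimitive := by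
  rw [DirichletCharacter.isPrimitive_def] at h ⊢
  rw [DirichletCharacter.conductor_inv, h]

theorem gTau_ne_zero {ψ : DirichletCharacter ℂ N} (h : ψ.IsPrimitive) : gTau ψ ≠ 0 := by
  intro h0
  have h1 : ∀ k : ZMod N, ZMod.dft (⇑ψ⁻¹) k = 0 := by
    intro k
    rw [DirichletCharacter.IsPrimitive.fourierTransform_eq_inv_mul_gaussSum (inv_isPrimitive h)]
    unfold gTau at h0
    rw [h0, mul_zero]
  have h2 : ZMod.dft (⇑ψ⁻¹) = 0 := funext h1
  have h3 : (⇑ψ⁻¹ : ZMod N → ℂ) = 0 := by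
    have := (ZMod.dft (N := N) (E := ℂ)).injective
    apply this
    rw [h2, map_zero]
  have h4 := congrFun h3 1
  simp at h4

theorem gaussSum_shift {ψ : DirichletCharacter ℂ N} (h : ψ.IsPrimitive) (a : ZMod N) :
    ∑ b : ZMod N, ψ⁻¹ b * ZMod.stdAddChar (a * b) = ψ a * gTau ψ := by
  have := gaussSum_mulShift_of_isPrimitive (ZMod.stdAddChar (N := N)) (inv_isPrimitive h) a
  rw [inv_inv] at this
  unfold gTau
  rw [← this, gaussSum]
  simp [AddChar.mulShift_apply]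

omit [NeZero N] in
theorem odd_ne_one {ψ : DirichletCharacter ℂ N} (hodd : ψ.Odd) : ψ ≠ 1 := by
  intro h
  have h1 : ψ (-1) = -1 := hodd
  rw [h] at h1
  have h2 : (1 : DirichletCharacter ℂ N) (-1) = 1 := by
    exact MulChar.one_apply (isUnit_one.neg)
  rw [h2] at h1
  norm_num at h1

theorem sum_inv_eq_zero {ψ : DirichletCharacter ℂ N} (hodd : ψ.Odd) :
    ∑ b : ZMod N, ψ⁻¹ b = 0 := by
  apply MulChar.sum_eq_zero_of_ne_one
  intro h
  exact odd_ne_one hodd (inv_eq_one.mp h)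

omit [NeZero N] in
theorem map_zero_of_odd {ψ : DirichletCharacter ℂ N} (hodd : ψ.Odd) : ψ⁻¹ 0 = 0 := by
  apply MulChar.map_nonunit
  intro h0
  have hsub : Subsingleton (ZMod N) := by
    rw [isUnit_zero_iff] at h0
    exact subsingleton_of_zero_eq_one h0
  have h1 : ψ (-1) = -1 := hodd
  have h2 : (-1 : ZMod N) = 1 := Subsingleton.elim _ _
  rw [h2, map_one] at h1
  norm_num at h1

/-- `∑_b ψ̄(b) sin(2π k b / N) = -i ψ(k) τ(ψ̄)`. -/
theorem sum_inv_mul_sin {ψ : DirichletCharacter ℂ N} (hodd : ψ.Odd) (h : ψ.IsPrimitive) (k : ℕ) :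
    ∑ b : ZMod N, ψ⁻¹ b * Complex.sin (2 * π * ((k : ℂ) * (b.val : ℂ) / N)) =
      -Complex.I * ψ k * gTau ψ := by
  simp_rw [sin_eq_stdAddChar]
  have h1 := gaussSum_shift h (k : ZMod N)
  have h2 := gaussSum_shift h (-(k : ZMod N))
  have h3 : ψ (-(k : ZMod N)) = -ψ k := by
    rw [← neg_one_mul, map_mul, hodd, neg_one_mul]
  rw [h3] at h2
  calc ∑ b : ZMod N, ψ⁻¹ b * ((ZMod.stdAddChar (-(k : ZMod N) * b) -
        ZMod.stdAddChar ((k : ZMod N) * b)) * Complex.I / 2)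
      = ((∑ b : ZMod N, ψ⁻¹ b * ZMod.stdAddChar (-(k : ZMod N) * b)) -
          ∑ b : ZMod N, ψ⁻¹ b * ZMod.stdAddChar ((k : ZMod N) * b)) * Complex.I / 2 := by
        rw [← Finset.sum_sub_distrib, Finset.sum_mul, Finset.sum_div]
        refine Finset.sum_congr rfl fun b _ => ?_
        ring
    _ = -Complex.I * ψ k * gTau ψ := by
        rw [h1, h2]
        ring

/-- `∑_b ψ̄(b) cot(π b / N) = (2i/N) τ(ψ̄) ∑_{a < N} a ψ(a)`. -/
theorem sum_inv_mul_cot {ψ : DirichletCharacter ℂ N} (hodd : ψ.Odd) (h : ψ.IsPrimitive) :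
    ∑ b : ZMod N, ψ⁻¹ b * Complex.cot (π * ((b.val : ℂ) / N)) =
      2 * Complex.I / N * gTau ψ * ∑ a ∈ Finset.range N, (a : ℂ) * ψ a := by
  have h0 := map_zero_of_odd hodd
  have step : ∀ b : ZMod N, ψ⁻¹ b * Complex.cot (π * ((b.val : ℂ) / N)) =
      ψ⁻¹ b * (Complex.I + 2 * Complex.I / N *
        ∑ a ∈ Finset.range N, (a : ℂ) * ZMod.stdAddChar ((a : ZMod N) * b)) := by
    intro b
    by_cases hb : b = 0
    · rw [hb, h0, zero_mul, zero_mul]
    · rw [cot_eq_sum b hb]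
  simp_rw [step, mul_add]
  rw [Finset.sum_add_distrib, ← Finset.sum_mul, sum_inv_eq_zero hodd, zero_mul, zero_add]
  calc ∑ b : ZMod N, ψ⁻¹ b * (2 * Complex.I / N *
        ∑ a ∈ Finset.range N, (a : ℂ) * ZMod.stdAddChar ((a : ZMod N) * b))
      = ∑ b : ZMod N, ∑ a ∈ Finset.range N,
          2 * Complex.I / N * ((a : ℂ) * (ψ⁻¹ b * ZMod.stdAddChar ((a : ZMod N) * b))) := by
        refine Finset.sum_congr rfl fun b _ => ?_
        rw [Finset.mul_sum, Finset.mul_sum]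
        refine Finset.sum_congr rfl fun a _ => ?_
        ring
    _ = ∑ a ∈ Finset.range N, ∑ b : ZMod N,
          2 * Complex.I / N * ((a : ℂ) * (ψ⁻¹ b * ZMod.stdAddChar ((a : ZMod N) * b))) :=
        Finset.sum_comm
    _ = ∑ a ∈ Finset.range N, 2 * Complex.I / N * ((a : ℂ) * (ψ a * gTau ψ)) := by
        refine Finset.sum_congr rfl fun a _ => ?_
        rw [← Finset.mul_sum, ← Finset.mul_sum, gaussSum_shift h]
    _ = 2 * Complex.I / N * gTau ψ * ∑ a ∈ Finset.range N, (a : ℂ) * ψ a := by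
        rw [Finset.mul_sum]
        refine Finset.sum_congr rfl fun a _ => ?_
        ring

end CharSum

/-! ### The form `E_{1,ψ}` -/

section Main

variable {N : ℕ} [NeZero N]

theorem one_mem_strictPeriods_Gamma1_788 (N : ℕ) :
    (1 : ℝ) ∈ ((Gamma1 N).map (Matrix.SpecialLinearGroup.mapGL ℝ)).strictPeriods := by
  simp [strictPeriods_Gamma1]

omit [NeZero N] in
theorem coe_sum_788 {ι : Type*} (s : Finset ι) (f : ι → ModularForm (Gamma1 N) 1) :
    (⇑(∑ i ∈ s, f i : ModularForm (Gamma1 N) 1) : ℍ → ℂ) = ∑ i ∈ s, (⇑(f i) : ℍ → ℂ) := by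
  classical
  induction s using Finset.induction_on with
  | empty => simp
  | insert a s ha ih =>
    rw [Finset.sum_insert ha, Finset.sum_insert ha, ← ih]
    rfl

omit [NeZero N] in
theorem qCoeff_smul_788 (c : ℂ) (f : ModularForm (Gamma1 N) 1) (n : ℕ) :
    qCoeff (⇑(c • f : ModularForm (Gamma1 N) 1)) n = c * qCoeff (⇑f) n := by
  unfold qCoeff
  have := ModularForm.qExpansion_smul (h := 1) one_pos (one_mem_strictPeriods_Gamma1_788 N) c f
  have h2 : (⇑(c • f : ModularForm (Gamma1 N) 1) : ℍ → ℂ) = c • ⇑f := rfl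
  rw [h2, this]
  simp

omit [NeZero N] in
theorem qCoeff_sum_788 {ι : Type*} (s : Finset ι) (f : ι → ModularForm (Gamma1 N) 1) (n : ℕ) :
    qCoeff (⇑(∑ i ∈ s, f i : ModularForm (Gamma1 N) 1)) n = ∑ i ∈ s, qCoeff (⇑(f i)) n := by
  unfold qCoeff
  have h := map_sum
    (ModularForm.qExpansionAddHom (h := 1) one_pos (one_mem_strictPeriods_Gamma1_788 N) 1) f s
  have h' : qExpansion 1 (⇑(∑ i ∈ s, f i : ModularForm (Gamma1 N) 1)) =
      ∑ i ∈ s, qExpansion 1 (⇑(f i)) := h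
  rw [h', map_sum]

/-- The unnormalised character sum `∑_b ψ̄(b) F_b`. -/
def eisSum (F : ZMod N → ModularForm (Gamma1 N) 1) (ψ : DirichletCharacter ℂ N) :
    ModularForm (Gamma1 N) 1 :=
  ∑ b : ZMod N, ψ⁻¹ b • F b

theorem qCoeff_eisSum (F : ZMod N → ModularForm (Gamma1 N) 1) (ψ : DirichletCharacter ℂ N)
    (n : ℕ) : qCoeff (⇑(eisSum F ψ)) n = ∑ b : ZMod N, ψ⁻¹ b * qCoeff (⇑(F b)) n := by
  unfold eisSum
  rw [qCoeff_sum_788]
  refine Finset.sum_congr rfl fun b _ => ?_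
  rw [qCoeff_smul_788]

omit [NeZero N] in
theorem isUnit_of_mem_Gamma0 {γ : SL(2, ℤ)} (hγ : γ ∈ Gamma0 N) :
    IsUnit (((γ 1 1 : ℤ)) : ZMod N) := by
  rw [Gamma0_mem] at hγ
  have hdet : γ 0 0 * γ 1 1 - γ 0 1 * γ 1 0 = 1 := by
    have := γ.det_coe
    rw [Matrix.det_fin_two] at this
    exact this
  have h : ((γ 0 0 : ℤ) : ZMod N) * ((γ 1 1 : ℤ) : ZMod N) = 1 := by
    have h1 := congrArg (Int.cast : ℤ → ZMod N) hdet
    push_cast at h1
    rw [hγ, mul_zero, sub_zero] at h1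
    exact h1
  exact IsUnit.of_mul_eq_one_right _ h

/-- The nebentypus of the character sum. -/
theorem eisSum_slash {F : ZMod N → ModularForm (Gamma1 N) 1} (hF : EisFamily N F)
    {ψ : DirichletCharacter ℂ N} (hodd : ψ.Odd) (γ : SL(2, ℤ)) (hγ : γ ∈ Gamma0 N) :
    (⇑(eisSum F ψ)) ∣[(1 : ℤ)] γ = ψ (((γ 1 1 : ℤ)) : ZMod N) • ⇑(eisSum F ψ) := by
  obtain ⟨u, hu⟩ := isUnit_of_mem_Gamma0 hγ
  set d : ZMod N := ((γ 1 1 : ℤ) : ZMod N) with hd
  have h0 := map_zero_of_odd hodd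
  unfold eisSum
  rw [coe_sum_788, SlashAction.sum_slash, Finset.smul_sum]
  have step : ∀ b : ZMod N, (⇑(ψ⁻¹ b • F b : ModularForm (Gamma1 N) 1) : ℍ → ℂ) ∣[(1 : ℤ)] γ =
      ψ⁻¹ b • (⇑(F (b * d)) : ℍ → ℂ) := by
    intro b
    by_cases hb : b = 0
    · subst hb
      rw [h0]
      have : (⇑((0 : ℂ) • F 0 : ModularForm (Gamma1 N) 1) : ℍ → ℂ) = 0 := by
        ext z; simp
      rw [this, SlashAction.zero_slash, zero_smul]
    · have : (⇑(ψ⁻¹ b • F b : ModularForm (Gamma1 N) 1) : ℍ → ℂ) = ψ⁻¹ b • ⇑(F b) := rfl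
      rw [this, ModularForm.SL_smul_slash, hF.slash γ hγ b hb]
  simp_rw [step]
  -- reindex `b ↦ b * d`
  have hre : ∑ b : ZMod N, ψ⁻¹ b • (⇑(F (b * d)) : ℍ → ℂ) =
      ∑ b : ZMod N, ψ⁻¹ (b * (↑u⁻¹ : ZMod N)) • (⇑(F b) : ℍ → ℂ) := by
    refine Fintype.sum_equiv (Units.mulRight u) _ _ fun b => ?_
    rw [Units.mulRight_apply, hu, mul_assoc, ← hu, Units.mul_inv, mul_one]
  rw [hre]
  refine Finset.sum_congr rfl fun b _ => ?_
  have hψ : ψ⁻¹ (b * (↑u⁻¹ : ZMod N)) = ψ d * ψ⁻¹ b := by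
    rw [map_mul, mul_comm]
    congr 1
    rw [MulChar.inv_apply, Ring.inverse_unit, inv_inv, hu]
  rw [hψ, mul_smul]
  rfl

/-- **P2-EIS, step 5.**  The weight-one Eisenstein series `E_{1,ψ}` for a primitive odd
character `ψ`, given the Eisenstein family. -/
theorem eisenstein_one_of_family {F : ZMod N → ModularForm (Gamma1 N) 1} (hF : EisFamily N F)
    (ψ : DirichletCharacter ℂ N) (hodd : ψ.Odd) (hprim : ψ.IsPrimitive) :
    ∃ E : ModularForm (Gamma1 N) 1,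
      (∀ γ : SL(2, ℤ), γ ∈ Gamma0 N →
        (⇑E) ∣[(1 : ℤ)] γ = ψ (((γ 1 1 : ℤ)) : ZMod N) • ⇑E) ∧
      qCoeff (⇑E) 0 = -(∑ a ∈ Finset.range N, (a : ℂ) * ψ a) / (2 * N) ∧
      ∀ n : ℕ, 1 ≤ n → qCoeff (⇑E) n = ∑ d ∈ n.divisors, ψ d := by
  have hτ := gTau_ne_zero hprim
  have hπ : (π : ℂ) ≠ 0 := by exact_mod_cast Real.pi_ne_zero
  have hN : (N : ℂ) ≠ 0 := Nat.cast_ne_zero.mpr (NeZero.ne N)
  have h0 := map_zero_of_odd hodd
  set c : ℂ := (-4 * π * Complex.I * gTau ψ)⁻¹ with hc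
  have hc4 : -4 * π * Complex.I * gTau ψ ≠ 0 := by
    simp [hπ, hτ, Complex.I_ne_zero]
  refine ⟨c • eisSum F ψ, ?_, ?_, ?_⟩
  · intro γ hγ
    have : (⇑(c • eisSum F ψ : ModularForm (Gamma1 N) 1) : ℍ → ℂ) = c • ⇑(eisSum F ψ) := rfl
    rw [this, ModularForm.SL_smul_slash, eisSum_slash hF hodd γ hγ, smul_comm]
  · rw [qCoeff_smul_788, qCoeff_eisSum]
    have step : ∀ b : ZMod N, ψ⁻¹ b * qCoeff (⇑(F b)) 0 =
        π * (ψ⁻¹ b * Complex.cot (π * ((b.val : ℂ) / N))) := by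
      intro b
      by_cases hb : b = 0
      · rw [hb, h0, zero_mul, zero_mul, mul_zero]
      · rw [hF.coeff_zero b hb]; ring
    simp_rw [step]
    rw [← Finset.mul_sum, sum_inv_mul_cot hodd hprim, hc]
    field_simp
    ring
  · intro n hn
    rw [qCoeff_smul_788, qCoeff_eisSum]
    have step : ∀ b : ZMod N, ψ⁻¹ b * qCoeff (⇑(F b)) n =
        4 * π * ∑ k ∈ n.divisors,
          ψ⁻¹ b * Complex.sin (2 * π * ((k : ℂ) * (b.val : ℂ) / N)) := by
      intro b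
      by_cases hb : b = 0
      · rw [hb, h0, zero_mul]
        simp
      · rw [hF.coeff_pos b hb n hn, Finset.mul_sum, Finset.mul_sum, Finset.mul_sum]
        refine Finset.sum_congr rfl fun k _ => ?_
        ring
    simp_rw [step]
    rw [← Finset.mul_sum, Finset.sum_comm]
    simp_rw [sum_inv_mul_sin hodd hprim]
    have : ∑ x ∈ n.divisors, -Complex.I * ψ (x : ZMod N) * gTau ψ =
        -Complex.I * gTau ψ * ∑ x ∈ n.divisors, ψ (x : ZMod N) := by
      rw [Finset.mul_sum]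
      refine Finset.sum_congr rfl fun k _ => ?_
      ring
    rw [this, hc]
    field_simp

end Main

end Fermat.Agent.S48.H788

end
end
-- ===== PACK-END S48/H788/EisAlg.lean

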