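import Fermat.Statements.S51
import Mathlib
import Fermat.Prelude.Def_FLTPrelim_FreyPackage
import Fermat.Prelude.Def_FLTPrelim_GaloisRep
import Fermat.Prelude.Def_FLTPrelim_Modularity
import Fermat.Prelude.Def_FLTPrelim_ModularRep
import Fermat.Prelude.Def_FLTPrelim_Ramification
import Fermat.Prelude.Def_FLTPrelim_CofixedLine
import Fermat.Agent.Pack.L1.E0L1
import Fermat.Agent.Pack.L1.E0L3
import Fermat.Agent.Pack.S44C.G0E0L1
import Fermat.Agent.Pack.L1.E0L2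

-- ===== PACK-BEGIN S51/H591/Glue.lean
section




set_option autoImplicit false
open WeierstrassCurve

namespace Fermat.Agent.S51.H591

/-- Assembly of S51 from the three remaining ingredients:
* `hdesc` : the rational points of `15a1 : Y^2 = X(X+9)(X-16)`;
* `I1` : a reducible mod-3 representation gives a rational point of `X₀(3)` above `j`;
* `I2` : a reducible mod-5 representation gives a rational point of `X₀(5)` above `j`. -/
theorem S51_of_parts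
    (hdesc : ∀ X Y : ℚ, Y^2 = X*(X+9)*(X-16) → X = 0 ∨ X = -9 ∨ X = 16 ∨ X = 36 ∨ X = -4)
    (I1 : ∀ W : WeierstrassCurve ℤ, W.Δ ≠ 0 → ¬ W.ModRepIsIrreducible 3 →
      ∃ t : ℚ, t ≠ 0 ∧ (W.c₄ : ℚ)^3 * t = (W.Δ : ℚ) * ((t+27)*(t+3)^3))
    (I2 : ∀ W : WeierstrassCurve ℤ, W.Δ ≠ 0 → ¬ W.ModRepIsIrreducible 5 →
      ∃ h : ℚ, h ≠ 0 ∧ (W.c₄ : ℚ)^3 * h = (W.Δ : ℚ) * (h^2+10*h+5)^3)
    (W : WeierstrassCurve ℤ) (hΔ : W.Δ ≠ 0) (hW : W.IsSemistableModel) :
    W.ModRepIsIrreducible 3 ∨ W.ModRepIsIrreducible 5 := by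
  by_contra hcon
  rw [not_or] at hcon
  obtain ⟨t, ht, h3⟩ := I1 W hΔ hcon.1
  obtain ⟨h, hh, h5⟩ := I2 W hΔ hcon.2
  have hΔ' : (W.Δ : ℚ) ≠ 0 := by exact_mod_cast hΔ
  set j : ℚ := (W.c₄ : ℚ)^3 / (W.Δ : ℚ) with hj
  have hjΔ : j * (W.Δ : ℚ) = (W.c₄ : ℚ)^3 := div_mul_cancel₀ _ hΔ'
  have h3' : j * t = (t+27)*(t+3)^3 := by
    have : (j * t) * (W.Δ : ℚ) = ((t+27)*(t+3)^3) * (W.Δ : ℚ) := by
      calc (j * t) * (W.Δ : ℚ) = (j * (W.Δ : ℚ)) * t := by ring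
        _ = (W.c₄ : ℚ)^3 * t := by rw [hjΔ]
        _ = (W.Δ : ℚ) * ((t+27)*(t+3)^3) := h3
        _ = ((t+27)*(t+3)^3) * (W.Δ : ℚ) := by ring
    exact mul_right_cancel₀ hΔ' this
  have h5' : j * h = (h^2+10*h+5)^3 := by
    have : (j * h) * (W.Δ : ℚ) = ((h^2+10*h+5)^3) * (W.Δ : ℚ) := by
      calc (j * h) * (W.Δ : ℚ) = (j * (W.Δ : ℚ)) * h := by ring
        _ = (W.c₄ : ℚ)^3 * h := by rw [hjΔ]
        _ = (W.Δ : ℚ) * (h^2+10*h+5)^3 := h5
        _ = ((h^2+10*h+5)^3) * (W.Δ : ℚ) := by ring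
    exact mul_right_cancel₀ hΔ' this
  exact semistable_j_not_mem W hW j hjΔ (X015_j_of_descent hdesc t h j ht hh h3' h5')

end Fermat.Agent.S51.H591

end
-- ===== PACK-END S51/H591/Glue.lean

-- ===== PACK-BEGIN S52/Top.lean
section









/-!
# S52 (3–5 switch) — FROZEN TOP-LEVEL INTERFACE (row-lead helper472)

`S52 ⇐ PartA ∧ Switch`  (`result_of_parts`, proved here, no `sorry`).

* `PartA`  : an injective Galois-equivariant additive map `W[5] → W'[5]` forces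
             `a_ℓ(W') ≡ a_ℓ(W) mod 5` at every prime `ℓ ≥ 7` good for both.
             (`PartA ⇐ Lib.Frob.FrobRelation`, see `partA_of_frobRelation` in `PartAGlue.lean`.)
* `Switch` : if `W` is semistable and `W[3]` is reducible, there is a semistable `W'` with the same
             reductions mod 2 and mod 3, `W'[3]` irreducible, and such a map `W[5] → W'[5]`.
-/

set_option autoImplicit false

open WeierstrassCurve WeierstrassCurve.Affine WeierstrassCurve.Affine.Point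

namespace Fermat.Agent.S52

open Fermat.Agent.Lib.Frob (Qb Pts)

/-- The `n`-torsion Galois module of `W` over `ℚ̄` (the Prelude type). -/
abbrev Tors (W : WeierstrassCurve ℤ) (n : ℕ) : Type :=
  Submodule.torsionBy ℤ (Pts W) n

/-- An injective, Galois-equivariant additive map `W[5](ℚ̄) → W'[5](ℚ̄)`. -/
def FiveCongruent (W W' : WeierstrassCurve ℤ) : Prop :=
  ∃ θ : Tors W 5 →+ Tors W' 5, Function.Injective θ ∧
    ∀ (σ : Qb ≃ₐ[ℚ] Qb) (P : Tors W 5), θ (σ • P) = σ • θ P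

/-- **PART A** (frozen). -/
def PartA : Prop :=
  ∀ (W W' : WeierstrassCurve ℤ), W.Δ ≠ 0 → FiveCongruent W W' →
    ∀ ℓ : ℕ, ℓ.Prime → 7 ≤ ℓ → W.IsGoodPrimeFor ℓ → W'.IsGoodPrimeFor ℓ →
      (5 : ℤ) ∣ (W'.apOfModel ℓ - W.apOfModel ℓ)

/-- **PART B** (frozen). -/
def Switch : Prop :=
  ∀ (W : WeierstrassCurve ℤ), W.Δ ≠ 0 → W.IsSemistableModel → W.ModRepIsIrreducible 5 →
    ¬ W.ModRepIsIrreducible 3 →
    ∃ W' : WeierstrassCurve ℤ, W'.Δ ≠ 0 ∧ W'.IsSemistableModel ∧ W'.ModRepIsIrreducible 3 ∧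
      W'.reductionMod 2 = W.reductionMod 2 ∧ W'.reductionMod 3 = W.reductionMod 3 ∧
      FiveCongruent W W'

/-- The frozen statement S52 as a `Prop` (definitionally the type of `Fermat.Agent.S52.result`). -/
def Goal : Prop :=
  ∀ (W : WeierstrassCurve ℤ) (_ : W.Δ ≠ 0) (_ : W.IsSemistableModel)
    (_ : W.ModRepIsIrreducible 5),
    ∃ W' : WeierstrassCurve ℤ, W'.Δ ≠ 0 ∧ W'.IsSemistableModel ∧ W'.ModRepIsIrreducible 3 ∧
      ∀ ℓ : ℕ, ℓ.Prime → W.IsGoodPrimeFor ℓ → W'.IsGoodPrimeFor ℓ → ℓ ≠ 5 →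
        (5 : ℤ) ∣ (W'.apOfModel ℓ - W.apOfModel ℓ)

theorem result_of_parts (hA : PartA) (hB : Switch) : Goal := by
  intro W hΔ hW h5
  by_cases h3 : W.ModRepIsIrreducible 3
  · exact ⟨W, hΔ, hW, h3, fun ℓ _ _ _ _ => by simp⟩
  · obtain ⟨W', hΔ', hW', h3', h2r, h3r, hθ⟩ := hB W hΔ hW h5 h3
    refine ⟨W', hΔ', hW', h3', ?_⟩
    intro ℓ hℓ hg hg' hℓ5
    by_cases h7 : 7 ≤ ℓ
    · exact hA W W' hΔ hθ ℓ hℓ h7 hg hg'
    · have hlt : ℓ < 7 := not_le.mp h7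
      have h2 := hℓ.two_le
      have hcases : ℓ = 2 ∨ ℓ = 3 := by
        interval_cases ℓ
        · exact Or.inl rfl
        · exact Or.inr rfl
        · exact absurd hℓ (by decide)
        · exact absurd rfl hℓ5
        · exact absurd hℓ (by decide)
      rcases hcases with rfl | rfl
      · have : W'.apOfModel 2 = W.apOfModel 2 := by
          unfold WeierstrassCurve.apOfModel; rw [h2r]
        simp [this]
      · have : W'.apOfModel 3 = W.apOfModel 3 := by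
          unfold WeierstrassCurve.apOfModel; rw [h3r]
        simp [this]

end Fermat.Agent.S52

end
-- ===== PACK-END S52/Top.lean

-- ===== PACK-BEGIN S52/B/Hom.lean
section



/-!
# S52 / Part B — homogenised family polynomials  (squad S52/S52, helper52)

Canonical family data = `Fermat.Agent.S52.Fam` (helper952, `Fam/Defs.lean`): `C4 C6 Fk` in `ℤ[c₄,c₆][τ]`.
Here: the homogenisations in `τ = m/n`,

  `C4h c₄ c₆ m n = n²⁰·C4 c₄ c₆ (m/n)`,  `C6h = n³⁰·C6(m/n)`,  `Fkh = n¹²·Fk(m/n)`,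

as explicit polynomials over any commutative ring, with the basic bookkeeping lemmas
(specialisation `n = 1`, homogeneity over a field, compatibility with ring homs, congruence
`C4h c₄ c₆ m n ≡ c₄·n²⁰ mod m`).  No `sorry`.
-/

set_option autoImplicit false
set_option linter.unusedSimpArgs false

namespace Fermat.Agent.S52.B

open Fermat.Agent.S52.Fam

variable {R : Type*} [CommRing R]

/-- `n²⁰·C4 c₄ c₆ (m/n)`. -/
def C4h (c₄ c₆ m n : R) : R :=
  C4_0 c₄ c₆ * n^20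
  + C4_1 c₄ c₆ * m * n^19
  + C4_2 c₄ c₆ * m^2 * n^18
  + C4_3 c₄ c₆ * m^3 * n^17
  + C4_4 c₄ c₆ * m^4 * n^16
  + C4_5 c₄ c₆ * m^5 * n^15
  + C4_6 c₄ c₆ * m^6 * n^14
  + C4_7 c₄ c₆ * m^7 * n^13
  + C4_8 c₄ c₆ * m^8 * n^12
  + C4_9 c₄ c₆ * m^9 * n^11
  + C4_10 c₄ c₆ * m^10 * n^10
  + C4_11 c₄ c₆ * m^11 * n^9
  + C4_12 c₄ c₆ * m^12 * n^8
  + C4_13 c₄ c₆ * m^13 * n^7
  + C4_14 c₄ c₆ * m^14 * n^6
  + C4_15 c₄ c₆ * m^15 * n^5
  + C4_16 c₄ c₆ * m^16 * n^4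
  + C4_17 c₄ c₆ * m^17 * n^3
  + C4_18 c₄ c₆ * m^18 * n^2
  + C4_19 c₄ c₆ * m^19 * n
  + C4_20 c₄ c₆ * m^20

/-- `n³⁰·C6 c₄ c₆ (m/n)`. -/
def C6h (c₄ c₆ m n : R) : R :=
  C6_0 c₄ c₆ * n^30
  + C6_1 c₄ c₆ * m * n^29
  + C6_2 c₄ c₆ * m^2 * n^28
  + C6_3 c₄ c₆ * m^3 * n^27
  + C6_4 c₄ c₆ * m^4 * n^26
  + C6_5 c₄ c₆ * m^5 * n^25
  + C6_6 c₄ c₆ * m^6 * n^24
  + C6_7 c₄ c₆ * m^7 * n^23
  + C6_8 c₄ c₆ * m^8 * n^22
  + C6_9 c₄ c₆ * m^9 * n^21
  + C6_10 c₄ c₆ * m^10 * n^20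
  + C6_11 c₄ c₆ * m^11 * n^19
  + C6_12 c₄ c₆ * m^12 * n^18
  + C6_13 c₄ c₆ * m^13 * n^17
  + C6_14 c₄ c₆ * m^14 * n^16
  + C6_15 c₄ c₆ * m^15 * n^15
  + C6_16 c₄ c₆ * m^16 * n^14
  + C6_17 c₄ c₆ * m^17 * n^13
  + C6_18 c₄ c₆ * m^18 * n^12
  + C6_19 c₄ c₆ * m^19 * n^11
  + C6_20 c₄ c₆ * m^20 * n^10
  + C6_21 c₄ c₆ * m^21 * n^9
  + C6_22 c₄ c₆ * m^22 * n^8
  + C6_23 c₄ c₆ * m^23 * n^7
  + C6_24 c₄ c₆ * m^24 * n^6
  + C6_25 c₄ c₆ * m^25 * n^5
  + C6_26 c₄ c₆ * m^26 * n^4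
  + C6_27 c₄ c₆ * m^27 * n^3
  + C6_28 c₄ c₆ * m^28 * n^2
  + C6_29 c₄ c₆ * m^29 * n
  + C6_30 c₄ c₆ * m^30

/-- `n¹²·Fk c₄ c₆ (m/n)`. -/
def Fkh (c₄ c₆ m n : R) : R :=
  Fk_0 c₄ c₆ * n^12
  + Fk_2 c₄ c₆ * m^2 * n^10
  + Fk_3 c₄ c₆ * m^3 * n^9
  + Fk_4 c₄ c₆ * m^4 * n^8
  + Fk_5 c₄ c₆ * m^5 * n^7
  + Fk_6 c₄ c₆ * m^6 * n^6
  + Fk_7 c₄ c₆ * m^7 * n^5
  + Fk_8 c₄ c₆ * m^8 * n^4
  + Fk_9 c₄ c₆ * m^9 * n^3
  + Fk_10 c₄ c₆ * m^10 * n^2
  + Fk_11 c₄ c₆ * m^11 * n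
  + Fk_12 c₄ c₆ * m^12

theorem C4h_one (c₄ c₆ τ : R) : C4h c₄ c₆ τ 1 = C4 c₄ c₆ τ := by
  simp only [C4h, C4, one_pow, mul_one]

theorem C6h_one (c₄ c₆ τ : R) : C6h c₄ c₆ τ 1 = C6 c₄ c₆ τ := by
  simp only [C6h, C6, one_pow, mul_one]

theorem Fkh_one (c₄ c₆ τ : R) : Fkh c₄ c₆ τ 1 = Fk c₄ c₆ τ := by
  simp only [Fkh, Fk, one_pow, mul_one]

theorem C4h_zero_left (c₄ c₆ n : R) : C4h c₄ c₆ 0 n = c₄ * n ^ 20 := by
  simp only [C4h, C4_0]; ring

theorem C6h_zero_left (c₄ c₆ n : R) : C6h c₄ c₆ 0 n = c₆ * n ^ 30 := by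
  simp only [C6h, C6_0]; ring

theorem Fkh_zero_left (c₄ c₆ n : R) : Fkh c₄ c₆ 0 n = n ^ 12 := by
  simp only [Fkh, Fk_0]; ring

/-- `C4h ≡ c₄·n²⁰ mod m`. -/
theorem C4h_sub_dvd (c₄ c₆ m n : R) : m ∣ C4h c₄ c₆ m n - c₄ * n ^ 20 :=
  ⟨C4_1 c₄ c₆ * n^19
    + C4_2 c₄ c₆ * m * n^18
    + C4_3 c₄ c₆ * m^2 * n^17
    + C4_4 c₄ c₆ * m^3 * n^16
    + C4_5 c₄ c₆ * m^4 * n^15
    + C4_6 c₄ c₆ * m^5 * n^14
    + C4_7 c₄ c₆ * m^6 * n^13
    + C4_8 c₄ c₆ * m^7 * n^12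
    + C4_9 c₄ c₆ * m^8 * n^11
    + C4_10 c₄ c₆ * m^9 * n^10
    + C4_11 c₄ c₆ * m^10 * n^9
    + C4_12 c₄ c₆ * m^11 * n^8
    + C4_13 c₄ c₆ * m^12 * n^7
    + C4_14 c₄ c₆ * m^13 * n^6
    + C4_15 c₄ c₆ * m^14 * n^5
    + C4_16 c₄ c₆ * m^15 * n^4
    + C4_17 c₄ c₆ * m^16 * n^3
    + C4_18 c₄ c₆ * m^17 * n^2
    + C4_19 c₄ c₆ * m^18 * n
    + C4_20 c₄ c₆ * m^19,
    by simp only [C4h, C4_0]; ring⟩

/-- `C6h ≡ c₆·n³⁰ mod m`. -/
theorem C6h_sub_dvd (c₄ c₆ m n : R) : m ∣ C6h c₄ c₆ m n - c₆ * n ^ 30 :=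
  ⟨C6_1 c₄ c₆ * n^29
    + C6_2 c₄ c₆ * m * n^28
    + C6_3 c₄ c₆ * m^2 * n^27
    + C6_4 c₄ c₆ * m^3 * n^26
    + C6_5 c₄ c₆ * m^4 * n^25
    + C6_6 c₄ c₆ * m^5 * n^24
    + C6_7 c₄ c₆ * m^6 * n^23
    + C6_8 c₄ c₆ * m^7 * n^22
    + C6_9 c₄ c₆ * m^8 * n^21
    + C6_10 c₄ c₆ * m^9 * n^20
    + C6_11 c₄ c₆ * m^10 * n^19
    + C6_12 c₄ c₆ * m^11 * n^18
    + C6_13 c₄ c₆ * m^12 * n^17
    + C6_14 c₄ c₆ * m^13 * n^16
    + C6_15 c₄ c₆ * m^14 * n^15
    + C6_16 c₄ c₆ * m^15 * n^14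
    + C6_17 c₄ c₆ * m^16 * n^13
    + C6_18 c₄ c₆ * m^17 * n^12
    + C6_19 c₄ c₆ * m^18 * n^11
    + C6_20 c₄ c₆ * m^19 * n^10
    + C6_21 c₄ c₆ * m^20 * n^9
    + C6_22 c₄ c₆ * m^21 * n^8
    + C6_23 c₄ c₆ * m^22 * n^7
    + C6_24 c₄ c₆ * m^23 * n^6
    + C6_25 c₄ c₆ * m^24 * n^5
    + C6_26 c₄ c₆ * m^25 * n^4
    + C6_27 c₄ c₆ * m^26 * n^3
    + C6_28 c₄ c₆ * m^27 * n^2
    + C6_29 c₄ c₆ * m^28 * n
    + C6_30 c₄ c₆ * m^29,
    by simp only [C6h, C6_0]; ring⟩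

/-- `Fkh ≡ n¹² mod m` (even mod `m²`, not needed). -/
theorem Fkh_sub_dvd (c₄ c₆ m n : R) : m ∣ Fkh c₄ c₆ m n - n ^ 12 :=
  ⟨Fk_2 c₄ c₆ * m * n^10
    + Fk_3 c₄ c₆ * m^2 * n^9
    + Fk_4 c₄ c₆ * m^3 * n^8
    + Fk_5 c₄ c₆ * m^4 * n^7
    + Fk_6 c₄ c₆ * m^5 * n^6
    + Fk_7 c₄ c₆ * m^6 * n^5
    + Fk_8 c₄ c₆ * m^7 * n^4
    + Fk_9 c₄ c₆ * m^8 * n^3
    + Fk_10 c₄ c₆ * m^9 * n^2
    + Fk_11 c₄ c₆ * m^10 * n
    + Fk_12 c₄ c₆ * m^11,
    by simp only [Fkh, Fk_0]; ring⟩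

section Field

variable {k : Type*} [Field k]

theorem C4h_eq_pow_mul (c₄ c₆ m : k) {n : k} (hn : n ≠ 0) :
    C4h c₄ c₆ m n = n ^ 20 * C4 c₄ c₆ (m / n) := by
  simp only [C4h, C4]; field_simp

theorem C6h_eq_pow_mul (c₄ c₆ m : k) {n : k} (hn : n ≠ 0) :
    C6h c₄ c₆ m n = n ^ 30 * C6 c₄ c₆ (m / n) := by
  simp only [C6h, C6]; field_simp

theorem Fkh_eq_pow_mul (c₄ c₆ m : k) {n : k} (hn : n ≠ 0) :
    Fkh c₄ c₆ m n = n ^ 12 * Fk c₄ c₆ (m / n) := by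
  simp only [Fkh, Fk]; field_simp

end Field

section Map

theorem map_C4_0 {S : Type*} [CommRing S] (f : R →+* S) (c₄ c₆ : R) :
    f (C4_0 c₄ c₆) = C4_0 (f c₄) (f c₆) := by
  simp only [C4_0, map_add, map_sub, map_mul, map_pow, map_neg, map_ofNat, map_one]

theorem map_C4_1 {S : Type*} [CommRing S] (f : R →+* S) (c₄ c₆ : R) :
    f (C4_1 c₄ c₆) = C4_1 (f c₄) (f c₆) := by
  simp only [C4_1, map_add, map_sub, map_mul, map_pow, map_neg, map_ofNat, map_one]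

theorem map_C4_2 {S : Type*} [CommRing S] (f : R →+* S) (c₄ c₆ : R) :
    f (C4_2 c₄ c₆) = C4_2 (f c₄) (f c₆) := by
  simp only [C4_2, map_add, map_sub, map_mul, map_pow, map_neg, map_ofNat, map_one]

theorem map_C4_3 {S : Type*} [CommRing S] (f : R →+* S) (c₄ c₆ : R) :
    f (C4_3 c₄ c₆) = C4_3 (f c₄) (f c₆) := by
  simp only [C4_3, map_add, map_sub, map_mul, map_pow, map_neg, map_ofNat, map_one]

theorem map_C4_4 {S : Type*} [CommRing S] (f : R →+* S) (c₄ c₆ : R) :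
    f (C4_4 c₄ c₆) = C4_4 (f c₄) (f c₆) := by
  simp only [C4_4, map_add, map_sub, map_mul, map_pow, map_neg, map_ofNat, map_one]

theorem map_C4_5 {S : Type*} [CommRing S] (f : R →+* S) (c₄ c₆ : R) :
    f (C4_5 c₄ c₆) = C4_5 (f c₄) (f c₆) := by
  simp only [C4_5, map_add, map_sub, map_mul, map_pow, map_neg, map_ofNat, map_one]

theorem map_C4_6 {S : Type*} [CommRing S] (f : R →+* S) (c₄ c₆ : R) :
    f (C4_6 c₄ c₆) = C4_6 (f c₄) (f c₆) := by
  simp only [C4_6, map_add, map_sub, map_mul, map_pow, map_neg, map_ofNat, map_one]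

theorem map_C4_7 {S : Type*} [CommRing S] (f : R →+* S) (c₄ c₆ : R) :
    f (C4_7 c₄ c₆) = C4_7 (f c₄) (f c₆) := by
  simp only [C4_7, map_add, map_sub, map_mul, map_pow, map_neg, map_ofNat, map_one]

theorem map_C4_8 {S : Type*} [CommRing S] (f : R →+* S) (c₄ c₆ : R) :
    f (C4_8 c₄ c₆) = C4_8 (f c₄) (f c₆) := by
  simp only [C4_8, map_add, map_sub, map_mul, map_pow, map_neg, map_ofNat, map_one]

theorem map_C4_9 {S : Type*} [CommRing S] (f : R →+* S) (c₄ c₆ : R) :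
    f (C4_9 c₄ c₆) = C4_9 (f c₄) (f c₆) := by
  simp only [C4_9, map_add, map_sub, map_mul, map_pow, map_neg, map_ofNat, map_one]

theorem map_C4_10 {S : Type*} [CommRing S] (f : R →+* S) (c₄ c₆ : R) :
    f (C4_10 c₄ c₆) = C4_10 (f c₄) (f c₆) := by
  simp only [C4_10, map_add, map_sub, map_mul, map_pow, map_neg, map_ofNat, map_one]

theorem map_C4_11 {S : Type*} [CommRing S] (f : R →+* S) (c₄ c₆ : R) :
    f (C4_11 c₄ c₆) = C4_11 (f c₄) (f c₆) := by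
  simp only [C4_11, map_add, map_sub, map_mul, map_pow, map_neg, map_ofNat, map_one]

theorem map_C4_12 {S : Type*} [CommRing S] (f : R →+* S) (c₄ c₆ : R) :
    f (C4_12 c₄ c₆) = C4_12 (f c₄) (f c₆) := by
  simp only [C4_12, map_add, map_sub, map_mul, map_pow, map_neg, map_ofNat, map_one]

theorem map_C4_13 {S : Type*} [CommRing S] (f : R →+* S) (c₄ c₆ : R) :
    f (C4_13 c₄ c₆) = C4_13 (f c₄) (f c₆) := by
  simp only [C4_13, map_add, map_sub, map_mul, map_pow, map_neg, map_ofNat, map_one]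

theorem map_C4_14 {S : Type*} [CommRing S] (f : R →+* S) (c₄ c₆ : R) :
    f (C4_14 c₄ c₆) = C4_14 (f c₄) (f c₆) := by
  simp only [C4_14, map_add, map_sub, map_mul, map_pow, map_neg, map_ofNat, map_one]

theorem map_C4_15 {S : Type*} [CommRing S] (f : R →+* S) (c₄ c₆ : R) :
    f (C4_15 c₄ c₆) = C4_15 (f c₄) (f c₆) := by
  simp only [C4_15, map_add, map_sub, map_mul, map_pow, map_neg, map_ofNat, map_one]

theorem map_C4_16 {S : Type*} [CommRing S] (f : R →+* S) (c₄ c₆ : R) :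
    f (C4_16 c₄ c₆) = C4_16 (f c₄) (f c₆) := by
  simp only [C4_16, map_add, map_sub, map_mul, map_pow, map_neg, map_ofNat, map_one]

theorem map_C4_17 {S : Type*} [CommRing S] (f : R →+* S) (c₄ c₆ : R) :
    f (C4_17 c₄ c₆) = C4_17 (f c₄) (f c₆) := by
  simp only [C4_17, map_add, map_sub, map_mul, map_pow, map_neg, map_ofNat, map_one]

theorem map_C4_18 {S : Type*} [CommRing S] (f : R →+* S) (c₄ c₆ : R) :
    f (C4_18 c₄ c₆) = C4_18 (f c₄) (f c₆) := by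
  simp only [C4_18, map_add, map_sub, map_mul, map_pow, map_neg, map_ofNat, map_one]

theorem map_C4_19 {S : Type*} [CommRing S] (f : R →+* S) (c₄ c₆ : R) :
    f (C4_19 c₄ c₆) = C4_19 (f c₄) (f c₆) := by
  simp only [C4_19, map_add, map_sub, map_mul, map_pow, map_neg, map_ofNat, map_one]

theorem map_C4_20 {S : Type*} [CommRing S] (f : R →+* S) (c₄ c₆ : R) :
    f (C4_20 c₄ c₆) = C4_20 (f c₄) (f c₆) := by
  simp only [C4_20, map_add, map_sub, map_mul, map_pow, map_neg, map_ofNat, map_one]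

theorem map_C6_0 {S : Type*} [CommRing S] (f : R →+* S) (c₄ c₆ : R) :
    f (C6_0 c₄ c₆) = C6_0 (f c₄) (f c₆) := by
  simp only [C6_0, map_add, map_sub, map_mul, map_pow, map_neg, map_ofNat, map_one]

theorem map_C6_1 {S : Type*} [CommRing S] (f : R →+* S) (c₄ c₆ : R) :
    f (C6_1 c₄ c₆) = C6_1 (f c₄) (f c₆) := by
  simp only [C6_1, map_add, map_sub, map_mul, map_pow, map_neg, map_ofNat, map_one]

theorem map_C6_2 {S : Type*} [CommRing S] (f : R →+* S) (c₄ c₆ : R) :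
    f (C6_2 c₄ c₆) = C6_2 (f c₄) (f c₆) := by
  simp only [C6_2, map_add, map_sub, map_mul, map_pow, map_neg, map_ofNat, map_one]

theorem map_C6_3 {S : Type*} [CommRing S] (f : R →+* S) (c₄ c₆ : R) :
    f (C6_3 c₄ c₆) = C6_3 (f c₄) (f c₆) := by
  simp only [C6_3, map_add, map_sub, map_mul, map_pow, map_neg, map_ofNat, map_one]

theorem map_C6_4 {S : Type*} [CommRing S] (f : R →+* S) (c₄ c₆ : R) :
    f (C6_4 c₄ c₆) = C6_4 (f c₄) (f c₆) := by
  simp only [C6_4, map_add, map_sub, map_mul, map_pow, map_neg, map_ofNat, map_one]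

theorem map_C6_5 {S : Type*} [CommRing S] (f : R →+* S) (c₄ c₆ : R) :
    f (C6_5 c₄ c₆) = C6_5 (f c₄) (f c₆) := by
  simp only [C6_5, map_add, map_sub, map_mul, map_pow, map_neg, map_ofNat, map_one]

theorem map_C6_6 {S : Type*} [CommRing S] (f : R →+* S) (c₄ c₆ : R) :
    f (C6_6 c₄ c₆) = C6_6 (f c₄) (f c₆) := by
  simp only [C6_6, map_add, map_sub, map_mul, map_pow, map_neg, map_ofNat, map_one]

theorem map_C6_7 {S : Type*} [CommRing S] (f : R →+* S) (c₄ c₆ : R) :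
    f (C6_7 c₄ c₆) = C6_7 (f c₄) (f c₆) := by
  simp only [C6_7, map_add, map_sub, map_mul, map_pow, map_neg, map_ofNat, map_one]

theorem map_C6_8 {S : Type*} [CommRing S] (f : R →+* S) (c₄ c₆ : R) :
    f (C6_8 c₄ c₆) = C6_8 (f c₄) (f c₆) := by
  simp only [C6_8, map_add, map_sub, map_mul, map_pow, map_neg, map_ofNat, map_one]

theorem map_C6_9 {S : Type*} [CommRing S] (f : R →+* S) (c₄ c₆ : R) :
    f (C6_9 c₄ c₆) = C6_9 (f c₄) (f c₆) := by
  simp only [C6_9, map_add, map_sub, map_mul, map_pow, map_neg, map_ofNat, map_one]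

theorem map_C6_10 {S : Type*} [CommRing S] (f : R →+* S) (c₄ c₆ : R) :
    f (C6_10 c₄ c₆) = C6_10 (f c₄) (f c₆) := by
  simp only [C6_10, map_add, map_sub, map_mul, map_pow, map_neg, map_ofNat, map_one]

theorem map_C6_11 {S : Type*} [CommRing S] (f : R →+* S) (c₄ c₆ : R) :
    f (C6_11 c₄ c₆) = C6_11 (f c₄) (f c₆) := by
  simp only [C6_11, map_add, map_sub, map_mul, map_pow, map_neg, map_ofNat, map_one]

theorem map_C6_12 {S : Type*} [CommRing S] (f : R →+* S) (c₄ c₆ : R) :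
    f (C6_12 c₄ c₆) = C6_12 (f c₄) (f c₆) := by
  simp only [C6_12, map_add, map_sub, map_mul, map_pow, map_neg, map_ofNat, map_one]

theorem map_C6_13 {S : Type*} [CommRing S] (f : R →+* S) (c₄ c₆ : R) :
    f (C6_13 c₄ c₆) = C6_13 (f c₄) (f c₆) := by
  simp only [C6_13, map_add, map_sub, map_mul, map_pow, map_neg, map_ofNat, map_one]

theorem map_C6_14 {S : Type*} [CommRing S] (f : R →+* S) (c₄ c₆ : R) :
    f (C6_14 c₄ c₆) = C6_14 (f c₄) (f c₆) := by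
  simp only [C6_14, map_add, map_sub, map_mul, map_pow, map_neg, map_ofNat, map_one]

theorem map_C6_15 {S : Type*} [CommRing S] (f : R →+* S) (c₄ c₆ : R) :
    f (C6_15 c₄ c₆) = C6_15 (f c₄) (f c₆) := by
  simp only [C6_15, map_add, map_sub, map_mul, map_pow, map_neg, map_ofNat, map_one]

theorem map_C6_16 {S : Type*} [CommRing S] (f : R →+* S) (c₄ c₆ : R) :
    f (C6_16 c₄ c₆) = C6_16 (f c₄) (f c₆) := by
  simp only [C6_16, map_add, map_sub, map_mul, map_pow, map_neg, map_ofNat, map_one]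

theorem map_C6_17 {S : Type*} [CommRing S] (f : R →+* S) (c₄ c₆ : R) :
    f (C6_17 c₄ c₆) = C6_17 (f c₄) (f c₆) := by
  simp only [C6_17, map_add, map_sub, map_mul, map_pow, map_neg, map_ofNat, map_one]

theorem map_C6_18 {S : Type*} [CommRing S] (f : R →+* S) (c₄ c₆ : R) :
    f (C6_18 c₄ c₆) = C6_18 (f c₄) (f c₆) := by
  simp only [C6_18, map_add, map_sub, map_mul, map_pow, map_neg, map_ofNat, map_one]

theorem map_C6_19 {S : Type*} [CommRing S] (f : R →+* S) (c₄ c₆ : R) :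
    f (C6_19 c₄ c₆) = C6_19 (f c₄) (f c₆) := by
  simp only [C6_19, map_add, map_sub, map_mul, map_pow, map_neg, map_ofNat, map_one]

theorem map_C6_20 {S : Type*} [CommRing S] (f : R →+* S) (c₄ c₆ : R) :
    f (C6_20 c₄ c₆) = C6_20 (f c₄) (f c₆) := by
  simp only [C6_20, map_add, map_sub, map_mul, map_pow, map_neg, map_ofNat, map_one]

theorem map_C6_21 {S : Type*} [CommRing S] (f : R →+* S) (c₄ c₆ : R) :
    f (C6_21 c₄ c₆) = C6_21 (f c₄) (f c₆) := by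
  simp only [C6_21, map_add, map_sub, map_mul, map_pow, map_neg, map_ofNat, map_one]

theorem map_C6_22 {S : Type*} [CommRing S] (f : R →+* S) (c₄ c₆ : R) :
    f (C6_22 c₄ c₆) = C6_22 (f c₄) (f c₆) := by
  simp only [C6_22, map_add, map_sub, map_mul, map_pow, map_neg, map_ofNat, map_one]

theorem map_C6_23 {S : Type*} [CommRing S] (f : R →+* S) (c₄ c₆ : R) :
    f (C6_23 c₄ c₆) = C6_23 (f c₄) (f c₆) := by
  simp only [C6_23, map_add, map_sub, map_mul, map_pow, map_neg, map_ofNat, map_one]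

theorem map_C6_24 {S : Type*} [CommRing S] (f : R →+* S) (c₄ c₆ : R) :
    f (C6_24 c₄ c₆) = C6_24 (f c₄) (f c₆) := by
  simp only [C6_24, map_add, map_sub, map_mul, map_pow, map_neg, map_ofNat, map_one]

theorem map_C6_25 {S : Type*} [CommRing S] (f : R →+* S) (c₄ c₆ : R) :
    f (C6_25 c₄ c₆) = C6_25 (f c₄) (f c₆) := by
  simp only [C6_25, map_add, map_sub, map_mul, map_pow, map_neg, map_ofNat, map_one]

theorem map_C6_26 {S : Type*} [CommRing S] (f : R →+* S) (c₄ c₆ : R) :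
    f (C6_26 c₄ c₆) = C6_26 (f c₄) (f c₆) := by
  simp only [C6_26, map_add, map_sub, map_mul, map_pow, map_neg, map_ofNat, map_one]

theorem map_C6_27 {S : Type*} [CommRing S] (f : R →+* S) (c₄ c₆ : R) :
    f (C6_27 c₄ c₆) = C6_27 (f c₄) (f c₆) := by
  simp only [C6_27, map_add, map_sub, map_mul, map_pow, map_neg, map_ofNat, map_one]

theorem map_C6_28 {S : Type*} [CommRing S] (f : R →+* S) (c₄ c₆ : R) :
    f (C6_28 c₄ c₆) = C6_28 (f c₄) (f c₆) := by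
  simp only [C6_28, map_add, map_sub, map_mul, map_pow, map_neg, map_ofNat, map_one]

theorem map_C6_29 {S : Type*} [CommRing S] (f : R →+* S) (c₄ c₆ : R) :
    f (C6_29 c₄ c₆) = C6_29 (f c₄) (f c₆) := by
  simp only [C6_29, map_add, map_sub, map_mul, map_pow, map_neg, map_ofNat, map_one]

theorem map_C6_30 {S : Type*} [CommRing S] (f : R →+* S) (c₄ c₆ : R) :
    f (C6_30 c₄ c₆) = C6_30 (f c₄) (f c₆) := by
  simp only [C6_30, map_add, map_sub, map_mul, map_pow, map_neg, map_ofNat, map_one]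

theorem map_Fk_0 {S : Type*} [CommRing S] (f : R →+* S) (c₄ c₆ : R) :
    f (Fk_0 c₄ c₆) = Fk_0 (f c₄) (f c₆) := by
  simp only [Fk_0, map_add, map_sub, map_mul, map_pow, map_neg, map_ofNat, map_one]

theorem map_Fk_2 {S : Type*} [CommRing S] (f : R →+* S) (c₄ c₆ : R) :
    f (Fk_2 c₄ c₆) = Fk_2 (f c₄) (f c₆) := by
  simp only [Fk_2, map_add, map_sub, map_mul, map_pow, map_neg, map_ofNat, map_one]

theorem map_Fk_3 {S : Type*} [CommRing S] (f : R →+* S) (c₄ c₆ : R) :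
    f (Fk_3 c₄ c₆) = Fk_3 (f c₄) (f c₆) := by
  simp only [Fk_3, map_add, map_sub, map_mul, map_pow, map_neg, map_ofNat, map_one]

theorem map_Fk_4 {S : Type*} [CommRing S] (f : R →+* S) (c₄ c₆ : R) :
    f (Fk_4 c₄ c₆) = Fk_4 (f c₄) (f c₆) := by
  simp only [Fk_4, map_add, map_sub, map_mul, map_pow, map_neg, map_ofNat, map_one]

theorem map_Fk_5 {S : Type*} [CommRing S] (f : R →+* S) (c₄ c₆ : R) :
    f (Fk_5 c₄ c₆) = Fk_5 (f c₄) (f c₆) := by
  simp only [Fk_5, map_add, map_sub, map_mul, map_pow, map_neg, map_ofNat, map_one]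

theorem map_Fk_6 {S : Type*} [CommRing S] (f : R →+* S) (c₄ c₆ : R) :
    f (Fk_6 c₄ c₆) = Fk_6 (f c₄) (f c₆) := by
  simp only [Fk_6, map_add, map_sub, map_mul, map_pow, map_neg, map_ofNat, map_one]

theorem map_Fk_7 {S : Type*} [CommRing S] (f : R →+* S) (c₄ c₆ : R) :
    f (Fk_7 c₄ c₆) = Fk_7 (f c₄) (f c₆) := by
  simp only [Fk_7, map_add, map_sub, map_mul, map_pow, map_neg, map_ofNat, map_one]

theorem map_Fk_8 {S : Type*} [CommRing S] (f : R →+* S) (c₄ c₆ : R) :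
    f (Fk_8 c₄ c₆) = Fk_8 (f c₄) (f c₆) := by
  simp only [Fk_8, map_add, map_sub, map_mul, map_pow, map_neg, map_ofNat, map_one]

theorem map_Fk_9 {S : Type*} [CommRing S] (f : R →+* S) (c₄ c₆ : R) :
    f (Fk_9 c₄ c₆) = Fk_9 (f c₄) (f c₆) := by
  simp only [Fk_9, map_add, map_sub, map_mul, map_pow, map_neg, map_ofNat, map_one]

theorem map_Fk_10 {S : Type*} [CommRing S] (f : R →+* S) (c₄ c₆ : R) :
    f (Fk_10 c₄ c₆) = Fk_10 (f c₄) (f c₆) := by
  simp only [Fk_10, map_add, map_sub, map_mul, map_pow, map_neg, map_ofNat, map_one]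

theorem map_Fk_11 {S : Type*} [CommRing S] (f : R →+* S) (c₄ c₆ : R) :
    f (Fk_11 c₄ c₆) = Fk_11 (f c₄) (f c₆) := by
  simp only [Fk_11, map_add, map_sub, map_mul, map_pow, map_neg, map_ofNat, map_one]

theorem map_Fk_12 {S : Type*} [CommRing S] (f : R →+* S) (c₄ c₆ : R) :
    f (Fk_12 c₄ c₆) = Fk_12 (f c₄) (f c₆) := by
  simp only [Fk_12, map_add, map_sub, map_mul, map_pow, map_neg, map_ofNat, map_one]


theorem map_C4h {S : Type*} [CommRing S] (f : R →+* S) (c₄ c₆ m n : R) :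
    f (C4h c₄ c₆ m n) = C4h (f c₄) (f c₆) (f m) (f n) := by
  simp only [C4h, map_add, map_mul, map_pow, map_C4_0, map_C4_1, map_C4_2, map_C4_3, map_C4_4, map_C4_5, map_C4_6, map_C4_7, map_C4_8, map_C4_9, map_C4_10, map_C4_11, map_C4_12, map_C4_13, map_C4_14, map_C4_15, map_C4_16, map_C4_17, map_C4_18, map_C4_19, map_C4_20]

theorem map_C6h {S : Type*} [CommRing S] (f : R →+* S) (c₄ c₆ m n : R) :
    f (C6h c₄ c₆ m n) = C6h (f c₄) (f c₆) (f m) (f n) := by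
  simp only [C6h, map_add, map_mul, map_pow, map_C6_0, map_C6_1, map_C6_2, map_C6_3, map_C6_4, map_C6_5, map_C6_6, map_C6_7, map_C6_8, map_C6_9, map_C6_10, map_C6_11, map_C6_12, map_C6_13, map_C6_14, map_C6_15, map_C6_16, map_C6_17, map_C6_18, map_C6_19, map_C6_20, map_C6_21, map_C6_22, map_C6_23, map_C6_24, map_C6_25, map_C6_26, map_C6_27, map_C6_28, map_C6_29, map_C6_30]

theorem map_Fkh {S : Type*} [CommRing S] (f : R →+* S) (c₄ c₆ m n : R) :
    f (Fkh c₄ c₆ m n) = Fkh (f c₄) (f c₆) (f m) (f n) := by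
  simp only [Fkh, map_add, map_mul, map_pow, map_Fk_0, map_Fk_2, map_Fk_3, map_Fk_4, map_Fk_5, map_Fk_6, map_Fk_7, map_Fk_8, map_Fk_9, map_Fk_10, map_Fk_11, map_Fk_12]

theorem map_C4 {S : Type*} [CommRing S] (f : R →+* S) (c₄ c₆ τ : R) :
    f (C4 c₄ c₆ τ) = C4 (f c₄) (f c₆) (f τ) := by
  rw [← C4h_one, ← C4h_one, map_C4h, map_one]

theorem map_C6 {S : Type*} [CommRing S] (f : R →+* S) (c₄ c₆ τ : R) :
    f (C6 c₄ c₆ τ) = C6 (f c₄) (f c₆) (f τ) := by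
  rw [← C6h_one, ← C6h_one, map_C6h, map_one]

theorem map_Fk {S : Type*} [CommRing S] (f : R →+* S) (c₄ c₆ τ : R) :
    f (Fk c₄ c₆ τ) = Fk (f c₄) (f c₆) (f τ) := by
  rw [← Fkh_one, ← Fkh_one, map_Fkh, map_one]

end Map

end Fermat.Agent.S52.B

end
-- ===== PACK-END S52/B/Hom.lean

-- ===== PACK-BEGIN S15/H662/Liouville.lean
section


/-!
# Row S15, piece I1 (helper662): Liouville's theorem for doubly periodic functions

`exists_const_of_periodic_of_removable`: a function `f : ℂ → ℂ` which is periodic with respect to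
the lattice of a `PeriodPair` and which has only removable singularities (near every point it
agrees, on a punctured neighbourhood, with a function analytic at that point) is constant off its
singularities.

Mathlib-only.
-/

set_option autoImplicit false

open Filter Topology

noncomputable section

namespace Fermat.Agent.S15.H662

/-- two functions continuous at `w` which agree on a punctured neighbourhood of `w` agree at `w` -/
theorem eq_of_eventuallyEq_nhdsNE {g₁ g₂ : ℂ → ℂ} {w : ℂ} (h₁ : ContinuousAt g₁ w)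
    (h₂ : ContinuousAt g₂ w) (h : g₁ =ᶠ[𝓝[≠] w] g₂) : g₁ w = g₂ w := by
  have t₁ : Tendsto g₁ (𝓝[≠] w) (𝓝 (g₁ w)) := h₁.tendsto.mono_left nhdsWithin_le_nhds
  have t₂ : Tendsto g₂ (𝓝[≠] w) (𝓝 (g₂ w)) := h₂.tendsto.mono_left nhdsWithin_le_nhds
  exact tendsto_nhds_unique (t₁.congr' h) t₂

/-- **Liouville's theorem for doubly periodic functions** with removable singularities. -/
theorem exists_const_of_periodic_of_removable (L : PeriodPair) (f : ℂ → ℂ)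
    (hper : ∀ z : ℂ, ∀ l ∈ L.lattice, f (z + l) = f z)
    (hrem : ∀ z : ℂ, ∃ g : ℂ → ℂ, AnalyticAt ℂ g z ∧ f =ᶠ[𝓝[≠] z] g) :
    ∃ c : ℂ, ∀ z : ℂ, f =ᶠ[𝓝[≠] z] fun _ => c := by
  classical
  choose g hg hfg using hrem
  -- the regularised function
  set F : ℂ → ℂ := fun z => g z z with hF
  have hFg : ∀ z, F =ᶠ[𝓝 z] g z := by
    intro z
    have h1 : ∀ᶠ w in 𝓝 z, AnalyticAt ℂ (g z) w := (hg z).eventually_analyticAt
    have h2 : ∀ᶠ w in 𝓝 z, w ≠ z → f w = g z w := by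
      have := hfg z
      rw [Filter.EventuallyEq, eventually_nhdsWithin_iff] at this
      exact this
    have h3 : ∀ᶠ w in 𝓝 z, ∀ᶠ v in 𝓝 w, v ≠ z → f v = g z v := h2.eventually_nhds
    filter_upwards [h1, h3] with w hw1 hw3
    by_cases hwz : w = z
    · subst hwz; rfl
    · -- `g w` and `g z` agree on a punctured neighbourhood of `w`
      have hne : ∀ᶠ v in 𝓝 w, v ≠ z := isOpen_ne.mem_nhds hwz
      have h4 : f =ᶠ[𝓝[≠] w] g z := by
        rw [Filter.EventuallyEq, eventually_nhdsWithin_iff]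
        filter_upwards [hw3, hne] with v hv hvz _
        exact hv hvz
      have h5 : g w =ᶠ[𝓝[≠] w] g z := (hfg w).symm.trans h4
      show g w w = g z w
      exact eq_of_eventuallyEq_nhdsNE (hg w).continuousAt hw1.continuousAt h5
  have hFan : ∀ z, AnalyticAt ℂ F z := fun z => (hg z).congr (hFg z).symm
  have hFf : ∀ z, F =ᶠ[𝓝[≠] z] f := fun z =>
    ((hFg z).filter_mono nhdsWithin_le_nhds).trans (hfg z).symm
  have hFdiff : Differentiable ℂ F := fun z => (hFan z).differentiableAt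
  have hFper : ∀ z w, w ∈ L.lattice → F (z + w) = F z := by
    intro z w hw
    -- compare `v ↦ F (v + w)` and `F` near `z`
    have hc1 : ContinuousAt (fun v => F (v + w)) z :=
      (hFdiff.continuous.comp (continuous_id.add continuous_const)).continuousAt
    have hc2 : ContinuousAt F z := hFdiff.continuous.continuousAt
    have hshift : Tendsto (fun v : ℂ => v + w) (𝓝[≠] z) (𝓝[≠] (z + w)) := by
      refine tendsto_nhdsWithin_of_tendsto_nhds_of_eventually_within _ ?_ ?_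
      · exact ((continuous_id.add continuous_const).tendsto z).mono_left nhdsWithin_le_nhds
      · filter_upwards [self_mem_nhdsWithin] with v hv
        simpa using hv
    have h6 : (fun v => F (v + w)) =ᶠ[𝓝[≠] z] fun v => f (v + w) := hshift.eventually (hFf (z + w))
    have h7 : (fun v => F (v + w)) =ᶠ[𝓝[≠] z] F := by
      refine h6.trans (EventuallyEq.trans ?_ (hFf z).symm)
      exact Eventually.of_forall fun v => hper v w hw
    exact eq_of_eventuallyEq_nhdsNE hc1 hc2 h7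
  have hbdd : Bornology.IsBounded (Set.range F) :=
    (IsZLattice.isCompact_range_of_periodic L.lattice F hFdiff.continuous hFper).isBounded
  refine ⟨F 0, fun z => ?_⟩
  refine (hFf z).symm.trans (Eventually.of_forall fun v => ?_)
  exact hFdiff.apply_eq_apply_of_bounded hbdd v 0

/-- Liouville for doubly periodic functions, pointwise form: at points of continuity the value is
the constant. -/
theorem exists_const_of_periodic_of_removable' (L : PeriodPair) (f : ℂ → ℂ)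
    (hper : ∀ z : ℂ, ∀ l ∈ L.lattice, f (z + l) = f z)
    (hrem : ∀ z : ℂ, ∃ g : ℂ → ℂ, AnalyticAt ℂ g z ∧ f =ᶠ[𝓝[≠] z] g) :
    ∃ c : ℂ, ∀ z : ℂ, ContinuousAt f z → f z = c := by
  obtain ⟨c, hc⟩ := exists_const_of_periodic_of_removable L f hper hrem
  exact ⟨c, fun z hz => eq_of_eventuallyEq_nhdsNE hz continuousAt_const (hc z)⟩

end Fermat.Agent.S15.H662

end

end
-- ===== PACK-END S15/H662/Liouville.lean

-- ===== PACK-BEGIN S15/H322/BaseArith.lean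
section


/-!
# Row S15 — DESC leaf BASE, part 2 (helper322): Kummer classes of `ℚ`, arithmetic

Blueprint `coord/S15-DESC-blueprint.md` §2, the pieces `ψ_i = ω` and `r = 2`: which rational
numbers have all valuations away from `p` divisible by `r`.  Mathlib only.

* `nat_eq_pow_of_dvd`      : `n ≠ 0`, `r ∣ v_ℓ(n)` for all primes `ℓ` ⟹ `n = m ^ r`.
* `rat_eq_pow_of_dvd`      : `a ≠ 0`, `r ∣ v_ℓ(a)` for all primes `ℓ` ⟹ `a = ± b ^ r`.
* `rat_eq_zpow_mul_pow`    : `a ≠ 0`, `r ∣ v_ℓ(a)` for all primes `ℓ ≠ p` ⟹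
                             `a = ± p ^ v_p(a) · b ^ r`.
* `rat_eq_pow_mul_pow_odd` : `r` odd: `a = p ^ k · b ^ r` with `k < r`.
* `rat_eq_pow_mul_pow_two` : `r = 2`: `a = ε · p ^ k · b ^ 2`, `ε = ±1`, `k ≤ 1`.
* `rat_eq_pow_of_dvd_odd`, `rat_eq_sq_of_dvd_of_pos`, `rat_two_cases` : variants.
* `rat_dichotomy_odd`      : `r` an odd prime, `a₁, a₂` as above: `a₁ = b ^ r` or
                             `a₂ = a₁ ^ m · b ^ r`  (the group of such classes is cyclic of order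
                             dividing `r`, generated by `p`).
-/

set_option autoImplicit false

namespace Fermat.Agent.S15.H322

/-- A natural number all of whose prime valuations are divisible by `r` is an `r`-th power. -/
theorem nat_eq_pow_of_dvd {n r : ℕ} (hn : n ≠ 0)
    (h : ∀ ℓ : ℕ, ℓ.Prime → r ∣ padicValNat ℓ n) : ∃ m : ℕ, m ≠ 0 ∧ n = m ^ r := by
  refine ⟨n.factorization.prod (fun ℓ k => ℓ ^ (k / r)), ?_, ?_⟩
  · rw [Finsupp.prod, Finset.prod_ne_zero_iff]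
    intro ℓ hℓ
    rw [Nat.support_factorization] at hℓ
    exact pow_ne_zero _ (Nat.prime_of_mem_primeFactors hℓ).ne_zero
  · conv_lhs => rw [← Nat.prod_factorization_pow_eq_self hn]
    rw [Finsupp.prod, Finsupp.prod, ← Finset.prod_pow]
    refine Finset.prod_congr rfl (fun ℓ hℓ => ?_)
    rw [Nat.support_factorization] at hℓ
    have hℓp := Nat.prime_of_mem_primeFactors hℓ
    have hd : r ∣ n.factorization ℓ := by
      rw [Nat.factorization_def n hℓp]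
      exact h ℓ hℓp
    rw [← pow_mul, Nat.div_mul_cancel hd]

/-- A nonzero rational number all of whose prime valuations are divisible by `r` is, up to sign,
an `r`-th power. -/
theorem rat_eq_pow_of_dvd {a : ℚ} {r : ℕ} (ha : a ≠ 0)
    (h : ∀ ℓ : ℕ, ℓ.Prime → (r : ℤ) ∣ padicValRat ℓ a) :
    ∃ b : ℚ, b ≠ 0 ∧ (a = b ^ r ∨ a = -b ^ r) := by
  have hnum : a.num ≠ 0 := Rat.num_ne_zero.mpr ha
  have hcop : a.num.natAbs.Coprime a.den := a.reduced
  have key : ∀ ℓ : ℕ, ℓ.Prime → r ∣ padicValNat ℓ a.num.natAbs ∧ r ∣ padicValNat ℓ a.den := by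
    intro ℓ hℓ
    have : Fact ℓ.Prime := ⟨hℓ⟩
    have h1 := h ℓ hℓ
    rw [padicValRat_def, padicValInt] at h1
    by_cases hd : ℓ ∣ a.den
    · have hn : ¬ ℓ ∣ a.num.natAbs := fun hn =>
        hℓ.one_lt.ne' (Nat.eq_one_of_dvd_coprimes hcop hn hd)
      have h0 : padicValNat ℓ a.num.natAbs = 0 := padicValNat.eq_zero_of_not_dvd hn
      rw [h0] at h1 ⊢
      refine ⟨dvd_zero _, ?_⟩
      have h2 : (r : ℤ) ∣ (padicValNat ℓ a.den : ℤ) := by
        have := (dvd_neg (a := (r : ℤ))).mpr h1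
        simpa using this
      exact_mod_cast h2
    · have h0 : padicValNat ℓ a.den = 0 := padicValNat.eq_zero_of_not_dvd hd
      rw [h0] at h1 ⊢
      refine ⟨?_, dvd_zero _⟩
      have h2 : (r : ℤ) ∣ (padicValNat ℓ a.num.natAbs : ℤ) := by simpa using h1
      exact_mod_cast h2
  obtain ⟨m₁, hm₁, e₁⟩ := nat_eq_pow_of_dvd (Int.natAbs_ne_zero.mpr hnum)
    (fun ℓ hℓ => (key ℓ hℓ).1)
  obtain ⟨m₂, hm₂, e₂⟩ := nat_eq_pow_of_dvd a.den_ne_zero (fun ℓ hℓ => (key ℓ hℓ).2)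
  refine ⟨(m₁ : ℚ) / m₂, div_ne_zero (by exact_mod_cast hm₁) (by exact_mod_cast hm₂), ?_⟩
  have ha' : a = (a.num : ℚ) / (a.den : ℚ) := (Rat.num_div_den a).symm
  have hden : (a.den : ℚ) = (m₂ : ℚ) ^ r := by exact_mod_cast e₂
  rcases Int.natAbs_eq a.num with hs | hs
  · left
    have hnumq : (a.num : ℚ) = (m₁ : ℚ) ^ r := by
      rw [hs, e₁]; push_cast; rfl
    rw [div_pow, ← hnumq, ← hden]
    exact ha'
  · right
    have hnumq : (a.num : ℚ) = -(m₁ : ℚ) ^ r := by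
      rw [hs, e₁]; push_cast; rfl
    rw [div_pow, ← hden, ← neg_div, ← hnumq]
    exact ha'

/-- A nonzero rational number whose valuations at the primes `ℓ ≠ p` are divisible by `r` is
`± p ^ v_p(a) · b ^ r`. -/
theorem rat_eq_zpow_mul_pow {a : ℚ} {r p : ℕ} (hp : p.Prime) (ha : a ≠ 0)
    (h : ∀ ℓ : ℕ, ℓ.Prime → ℓ ≠ p → (r : ℤ) ∣ padicValRat ℓ a) :
    ∃ b : ℚ, b ≠ 0 ∧ (a = (p : ℚ) ^ padicValRat p a * b ^ r ∨
      a = -((p : ℚ) ^ padicValRat p a * b ^ r)) := by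
  have hp0 : (p : ℚ) ≠ 0 := by exact_mod_cast hp.ne_zero
  have hpk : (p : ℚ) ^ padicValRat p a ≠ 0 := zpow_ne_zero _ hp0
  set c : ℚ := a / (p : ℚ) ^ padicValRat p a with hc
  have hc0 : c ≠ 0 := div_ne_zero ha hpk
  have hcv : ∀ ℓ : ℕ, ℓ.Prime → (r : ℤ) ∣ padicValRat ℓ c := by
    intro ℓ hℓ
    have : Fact ℓ.Prime := ⟨hℓ⟩
    rw [hc, padicValRat.div ha hpk, padicValRat.zpow]
    by_cases hℓp : ℓ = p
    · subst hℓp
      rw [padicValRat.self hℓ.one_lt, mul_one, sub_self]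
      exact dvd_zero _
    · have : Fact p.Prime := ⟨hp⟩
      have h0 : padicValRat ℓ (p : ℚ) = 0 := by
        rw [padicValRat.of_nat, padicValNat_primes hℓp]; rfl
      rw [h0, mul_zero, sub_zero]
      exact h ℓ hℓ hℓp
  obtain ⟨b, hb, hb'⟩ := rat_eq_pow_of_dvd hc0 hcv
  have hac : a = (p : ℚ) ^ padicValRat p a * c := by
    rw [hc, mul_div_cancel₀ _ hpk]
  refine ⟨b, hb, ?_⟩
  rcases hb' with h1 | h1
  · left; rw [← h1]; exact hac
  · right; rw [← mul_neg, ← h1]; exact hac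

/-- `p ^ k` is `p ^ (k mod r)` times an `r`-th power. -/
theorem zpow_eq_pow_mod_mul_pow {p : ℚ} (hp0 : p ≠ 0) {r : ℕ} (hr : r ≠ 0) (k : ℤ) :
    ∃ k' : ℕ, k' < r ∧ (k' : ℤ) = k % (r : ℤ) ∧ p ^ k = p ^ k' * (p ^ (k / (r : ℤ))) ^ r := by
  have hr0 : (r : ℤ) ≠ 0 := by exact_mod_cast hr
  have hm0 : 0 ≤ k % (r : ℤ) := Int.emod_nonneg k hr0
  have hmr : k % (r : ℤ) < r := Int.emod_lt_of_pos k (by positivity)
  refine ⟨(k % (r : ℤ)).toNat, by omega, Int.toNat_of_nonneg hm0, ?_⟩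
  have e : k = ((k % (r : ℤ)).toNat : ℤ) + (k / (r : ℤ)) * r := by
    rw [Int.toNat_of_nonneg hm0]
    have := Int.emod_add_mul_ediv k r
    linarith [mul_comm (r : ℤ) (k / r)]
  conv_lhs => rw [e]
  rw [zpow_add₀ hp0, zpow_natCast, zpow_mul, zpow_natCast]

/-- `r` odd: `a = p ^ k · b ^ r` with `0 ≤ k < r`. -/
theorem rat_eq_pow_mul_pow_odd {a : ℚ} {r p : ℕ} (hp : p.Prime) (hr : Odd r) (ha : a ≠ 0)
    (h : ∀ ℓ : ℕ, ℓ.Prime → ℓ ≠ p → (r : ℤ) ∣ padicValRat ℓ a) :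
    ∃ k : ℕ, k < r ∧ (k : ℤ) = padicValRat p a % (r : ℤ) ∧
      ∃ b : ℚ, b ≠ 0 ∧ a = (p : ℚ) ^ k * b ^ r := by
  have hp0 : (p : ℚ) ≠ 0 := by exact_mod_cast hp.ne_zero
  have hr0 : r ≠ 0 := fun h0 => by rw [h0] at hr; exact Nat.not_odd_zero hr
  obtain ⟨b, hb, hb'⟩ := rat_eq_zpow_mul_pow hp ha h
  obtain ⟨k, hk, hkmod, hkp⟩ := zpow_eq_pow_mod_mul_pow hp0 hr0 (padicValRat p a)
  have hq0 : (p : ℚ) ^ (padicValRat p a / (r : ℤ)) ≠ 0 := zpow_ne_zero _ hp0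
  refine ⟨k, hk, hkmod, ?_⟩
  rcases hb' with h1 | h1
  · refine ⟨(p : ℚ) ^ (padicValRat p a / (r : ℤ)) * b, mul_ne_zero hq0 hb, ?_⟩
    calc a = (p : ℚ) ^ padicValRat p a * b ^ r := h1
      _ = _ := by rw [hkp, mul_pow, mul_assoc]
  · refine ⟨-((p : ℚ) ^ (padicValRat p a / (r : ℤ)) * b), neg_ne_zero.mpr (mul_ne_zero hq0 hb), ?_⟩
    calc a = -((p : ℚ) ^ padicValRat p a * b ^ r) := h1
      _ = _ := by rw [hkp, hr.neg_pow, mul_pow, mul_assoc, mul_neg]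

/-- `r = 2`: `a = ± p ^ k · b ^ 2` with `k ≤ 1`. -/
theorem rat_eq_pow_mul_pow_two {a : ℚ} {p : ℕ} (hp : p.Prime) (ha : a ≠ 0)
    (h : ∀ ℓ : ℕ, ℓ.Prime → ℓ ≠ p → (2 : ℤ) ∣ padicValRat ℓ a) :
    ∃ k : ℕ, k < 2 ∧ (k : ℤ) = padicValRat p a % 2 ∧
      ∃ b : ℚ, b ≠ 0 ∧ (a = (p : ℚ) ^ k * b ^ 2 ∨ a = -((p : ℚ) ^ k * b ^ 2)) := by
  have hp0 : (p : ℚ) ≠ 0 := by exact_mod_cast hp.ne_zero
  obtain ⟨b, hb, hb'⟩ := rat_eq_zpow_mul_pow (r := 2) hp ha (by exact_mod_cast h)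
  obtain ⟨k, hk, hkmod, hkp⟩ := zpow_eq_pow_mod_mul_pow hp0 (two_ne_zero) (padicValRat p a)
  have hq0 : (p : ℚ) ^ (padicValRat p a / ((2 : ℕ) : ℤ)) ≠ 0 := zpow_ne_zero _ hp0
  refine ⟨k, hk, by exact_mod_cast hkmod,
    (p : ℚ) ^ (padicValRat p a / ((2 : ℕ) : ℤ)) * b, mul_ne_zero hq0 hb, ?_⟩
  rcases hb' with h1 | h1
  · left
    calc a = (p : ℚ) ^ padicValRat p a * b ^ 2 := h1
      _ = _ := by rw [hkp, mul_pow, mul_assoc]
  · right
    calc a = -((p : ℚ) ^ padicValRat p a * b ^ 2) := h1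
      _ = _ := by rw [hkp, mul_pow, mul_assoc]

/-- `r` odd, all valuations divisible by `r`: an `r`-th power. -/
theorem rat_eq_pow_of_dvd_odd {a : ℚ} {r : ℕ} (hr : Odd r) (ha : a ≠ 0)
    (h : ∀ ℓ : ℕ, ℓ.Prime → (r : ℤ) ∣ padicValRat ℓ a) : ∃ b : ℚ, b ≠ 0 ∧ a = b ^ r := by
  obtain ⟨b, hb, hb'⟩ := rat_eq_pow_of_dvd ha h
  rcases hb' with h1 | h1
  · exact ⟨b, hb, h1⟩
  · exact ⟨-b, neg_ne_zero.mpr hb, by rw [h1, hr.neg_pow]⟩

/-- A positive rational number with all valuations even is a square. -/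
theorem rat_eq_sq_of_dvd_of_pos {a : ℚ} (ha : 0 < a)
    (h : ∀ ℓ : ℕ, ℓ.Prime → (2 : ℤ) ∣ padicValRat ℓ a) : ∃ b : ℚ, b ≠ 0 ∧ a = b ^ 2 := by
  obtain ⟨b, hb, hb'⟩ := rat_eq_pow_of_dvd (r := 2) ha.ne' (by exact_mod_cast h)
  rcases hb' with h1 | h1
  · exact ⟨b, hb, h1⟩
  · exfalso
    have : 0 < b ^ 2 := by positivity
    linarith

/-- `r = 2`, the four classes `1, -1, p, -p`; positivity excludes the negative ones, an even
valuation at `p` excludes `± p`. -/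
theorem rat_two_cases {a : ℚ} {p : ℕ} (hp : p.Prime) (ha : a ≠ 0)
    (h : ∀ ℓ : ℕ, ℓ.Prime → ℓ ≠ p → (2 : ℤ) ∣ padicValRat ℓ a) :
    ∃ b : ℚ, b ≠ 0 ∧
      ((a = b ^ 2) ∨
        (a = -b ^ 2 ∧ a < 0) ∨
        (a = (p : ℚ) * b ^ 2 ∧ ¬ (2 : ℤ) ∣ padicValRat p a) ∨
        (a = -((p : ℚ) * b ^ 2) ∧ a < 0 ∧ ¬ (2 : ℤ) ∣ padicValRat p a)) := by
  have hp0 : (0 : ℚ) < p := by exact_mod_cast hp.pos
  obtain ⟨k, hk, hkmod, b, hb, hb'⟩ := rat_eq_pow_mul_pow_two hp ha h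
  have hb2 : 0 < b ^ 2 := by positivity
  refine ⟨b, hb, ?_⟩
  have hk01 : k = 0 ∨ k = 1 := by omega
  rcases hk01 with rfl | rfl
  · rcases hb' with h1 | h1
    · left; rw [h1]; ring
    · right; left
      refine ⟨by rw [h1]; ring, ?_⟩
      rw [h1]; simp only [pow_zero, one_mul]; linarith
  · have hodd : ¬ (2 : ℤ) ∣ padicValRat p a := by
      intro hd
      have := Int.emod_eq_zero_of_dvd hd
      rw [this] at hkmod
      norm_num at hkmod
    rcases hb' with h1 | h1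
    · right; right; left
      exact ⟨by rw [h1]; ring, hodd⟩
    · right; right; right
      refine ⟨by rw [h1]; ring, ?_, hodd⟩
      rw [h1]
      have : 0 < (p : ℚ) ^ 1 * b ^ 2 := by positivity
      linarith


/-- **Dimension ≤ 1 (odd `r`).**  For an odd prime `r` and two rational numbers whose valuations at
all primes `ℓ ≠ p` are divisible by `r`: the first is an `r`-th power, or the second is a power of
the first times an `r`-th power. -/
theorem rat_dichotomy_odd {a₁ a₂ : ℚ} {r p : ℕ} (hp : p.Prime) (hr : r.Prime) (hr2 : r ≠ 2)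
    (ha₁ : a₁ ≠ 0) (ha₂ : a₂ ≠ 0)
    (h₁ : ∀ ℓ : ℕ, ℓ.Prime → ℓ ≠ p → (r : ℤ) ∣ padicValRat ℓ a₁)
    (h₂ : ∀ ℓ : ℕ, ℓ.Prime → ℓ ≠ p → (r : ℤ) ∣ padicValRat ℓ a₂) :
    (∃ b : ℚ, b ≠ 0 ∧ a₁ = b ^ r) ∨ ∃ m : ℕ, m < r ∧ ∃ b : ℚ, b ≠ 0 ∧ a₂ = a₁ ^ m * b ^ r := by
  have hodd : Odd r := hr.odd_of_ne_two hr2
  have hp0 : (p : ℚ) ≠ 0 := by exact_mod_cast hp.ne_zero
  obtain ⟨k₁, hk₁, -, b₁, hb₁, e₁⟩ := rat_eq_pow_mul_pow_odd hp hodd ha₁ h₁
  obtain ⟨k₂, hk₂, -, b₂, hb₂, e₂⟩ := rat_eq_pow_mul_pow_odd hp hodd ha₂ h₂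
  by_cases hk0 : k₁ = 0
  · left
    refine ⟨b₁, hb₁, ?_⟩
    rw [e₁, hk0, pow_zero, one_mul]
  · right
    -- `k₁` is invertible modulo `r`: pick `m` with `m k₁ ≡ k₂`
    have : Fact r.Prime := ⟨hr⟩
    have hk₁' : (k₁ : ZMod r) ≠ 0 := by
      intro h0
      rw [ZMod.natCast_eq_zero_iff] at h0
      exact hk0 (Nat.eq_zero_of_dvd_of_lt h0 hk₁)
    set m : ℕ := ((k₂ : ZMod r) * (k₁ : ZMod r)⁻¹).val with hm
    have hmr : m < r := ZMod.val_lt _
    have hcong : ((m * k₁ : ℕ) : ZMod r) = (k₂ : ZMod r) := by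
      rw [Nat.cast_mul, hm, ZMod.natCast_zmod_val, mul_assoc, inv_mul_cancel₀ hk₁', mul_one]
    have hdvd : (r : ℤ) ∣ (k₂ : ℤ) - ((m * k₁ : ℕ) : ℤ) := by
      have := (ZMod.intCast_eq_intCast_iff_dvd_sub ((m * k₁ : ℕ) : ℤ) (k₂ : ℤ) r).mp
        (by push_cast; exact_mod_cast hcong)
      exact this
    obtain ⟨t, ht⟩ := hdvd
    have hb₁m : b₁ ^ m ≠ 0 := pow_ne_zero _ hb₁
    have hpt : (p : ℚ) ^ t ≠ 0 := zpow_ne_zero _ hp0
    refine ⟨m, hmr, (p : ℚ) ^ t * b₂ / b₁ ^ m,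
      div_ne_zero (mul_ne_zero hpt hb₂) hb₁m, ?_⟩
    have hk₂ : ((k₂ : ℕ) : ℤ) = ((m * k₁ : ℕ) : ℤ) + t * r := by
      rw [mul_comm t]; linarith
    have e3 : (p : ℚ) ^ k₂ = ((p : ℚ) ^ k₁) ^ m * ((p : ℚ) ^ t) ^ r := by
      rw [← zpow_natCast (p : ℚ) k₂, hk₂, zpow_add₀ hp0, zpow_natCast, zpow_mul, zpow_natCast,
        ← pow_mul, mul_comm k₁ m]
    calc a₂ = (p : ℚ) ^ k₂ * b₂ ^ r := e₂
      _ = ((p : ℚ) ^ k₁) ^ m * ((p : ℚ) ^ t) ^ r * b₂ ^ r := by rw [e3]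
      _ = ((p : ℚ) ^ k₁ * b₁ ^ r) ^ m * ((p : ℚ) ^ t * b₂ / b₁ ^ m) ^ r := by
          have hbb : (b₁ ^ r) ^ m = (b₁ ^ m) ^ r := by
            rw [← pow_mul, ← pow_mul, mul_comm]
          rw [div_pow, mul_pow, mul_pow, hbb]
          have hne : (b₁ ^ m) ^ r ≠ 0 := pow_ne_zero _ hb₁m
          field_simp
      _ = a₁ ^ m * ((p : ℚ) ^ t * b₂ / b₁ ^ m) ^ r := by rw [← e₁]

end Fermat.Agent.S15.H322

end
-- ===== PACK-END S15/H322/BaseArith.lean

-- ===== PACK-BEGIN S10/SophieGermain.lean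
section
/-
Case I of Fermat's Last Theorem for a prime exponent `p` admitting a Sophie Germain
auxiliary prime `q`, and the instances `p = 5, 7, 11, 13` (auxiliary primes `11, 29, 23, 53`).
Purely elementary (integers and `ZMod q`).
-/


set_option autoImplicit false

namespace Fermat.Agent.S10

open Finset

/-- The cofactor `φ(y,z) = ∑_{i<p} y^i (-z)^(p-1-i)`; for odd `p`, `φ(y,z) * (y+z) = y^p + z^p`. -/
def sgPhi {R : Type*} [CommRing R] (p : ℕ) (y z : R) : R :=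
  ∑ i ∈ range p, y ^ i * (-z) ^ (p - 1 - i)

lemma sgPhi_mul {R : Type*} [CommRing R] {p : ℕ} (hp : Odd p) (y z : R) :
    sgPhi p y z * (y + z) = y ^ p + z ^ p := by
  have h := geom_sum₂_mul y (-z) p
  rw [hp.neg_pow, sub_neg_eq_add, sub_neg_eq_add] at h
  exact h

lemma sgPhi_map {R S : Type*} [CommRing R] [CommRing S] (f : R →+* S) (p : ℕ) (y z : R) :
    f (sgPhi p y z) = sgPhi p (f y) (f z) := by
  simp [sgPhi, map_sum]

lemma sgPhi_of_eq_neg {R : Type*} [CommRing R] (p : ℕ) (y z : R) (h : z = -y) :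
    sgPhi p y z = p * y ^ (p - 1) := by
  subst h
  simp only [sgPhi, neg_neg]
  exact geom_sum₂_self y p

lemma sgPhi_zero_left {R : Type*} [CommRing R] {p : ℕ} (hp : Odd p) (z : R) :
    sgPhi p 0 z = z ^ (p - 1) := by
  have hpos : 0 < p := hp.pos
  have heven : Even (p - 1) := by
    obtain ⟨k, hk⟩ := hp
    exact ⟨k, by omega⟩
  unfold sgPhi
  rw [Finset.sum_eq_single 0]
  · simp [heven.neg_pow]
  · intro i _ hi
    simp [zero_pow hi]
  · intro h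
    exact absurd (Finset.mem_range.mpr hpos) h

/-- `φ(u,v) ≡ p u^(p-1)` modulo `u + v`. -/
lemma sgPhi_sub_dvd (p : ℕ) (u v : ℤ) : (u + v) ∣ sgPhi p u v - p * u ^ (p - 1) := by
  have hmem : sgPhi p u v - p * u ^ (p - 1) ∈ Ideal.span ({u + v} : Set ℤ) := by
    rw [← Ideal.Quotient.eq_zero_iff_mem, map_sub, sub_eq_zero, sgPhi_map]
    have hv : Ideal.Quotient.mk (Ideal.span ({u + v} : Set ℤ)) v
        = - Ideal.Quotient.mk (Ideal.span ({u + v} : Set ℤ)) u := by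
      rw [eq_neg_iff_add_eq_zero, ← map_add, Ideal.Quotient.eq_zero_iff_mem, add_comm]
      exact Ideal.subset_span rfl
    rw [sgPhi_of_eq_neg _ _ _ hv]
    simp
  exact Ideal.mem_span_singleton.mp hmem

variable {p q : ℕ}

/-- If `u^p + v^p + w^p = 0` with `u, v` coprime and `p ∤ w`, then both `u + v` and the cofactor
`φ(u,v)` are `p`-th powers. -/
lemma sg_roots (hp : p.Prime) (hodd : p ≠ 2) {u v w : ℤ} (huv : IsCoprime u v)
    (h : u ^ p + v ^ p + w ^ p = 0) (hpw : ¬ (p : ℤ) ∣ w) :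
    ∃ A T : ℤ, u + v = A ^ p ∧ sgPhi p u v = T ^ p := by
  have hpodd : Odd p := hp.odd_of_ne_two hodd
  have hpint : Prime (p : ℤ) := Nat.prime_iff_prime_int.mp hp
  have hmul : sgPhi p u v * (u + v) = (-w) ^ p := by
    rw [sgPhi_mul hpodd, hpodd.neg_pow]; linarith
  have hw0 : w ≠ 0 := fun h0 => hpw (h0 ▸ dvd_zero _)
  have hcop : IsCoprime (sgPhi p u v) (u + v) := by
    apply isCoprime_of_prime_dvd
    · rintro ⟨-, h0⟩
      have : (-w) ^ p = 0 := by rw [← hmul, h0, mul_zero]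
      exact hw0 (neg_eq_zero.mp (pow_eq_zero_iff hp.ne_zero |>.mp this))
    · intro r hr hr1 hr2
      have hrw : r ∣ w := by
        have : r ∣ (-w) ^ p := hmul ▸ Dvd.dvd.mul_left hr2 _
        exact (dvd_neg.mp (hr.dvd_of_dvd_pow this))
      have h3 : r ∣ (p : ℤ) * u ^ (p - 1) := by
        have h4 : r ∣ sgPhi p u v - p * u ^ (p - 1) := hr2.trans (sgPhi_sub_dvd p u v)
        have := dvd_sub hr1 h4
        simpa using this
      rcases hr.dvd_or_dvd h3 with h5 | h5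
      · have hass : Associated r (p : ℤ) := (hr.dvd_prime_iff_associated hpint).mp h5
        exact hpw (hass.dvd_iff_dvd_left.mp hrw)
      · have hru : r ∣ u := hr.dvd_of_dvd_pow h5
        have hrv : r ∣ v := by
          have := dvd_sub hr2 hru
          simpa using this
        exact hr.not_isUnit (huv.isUnit_of_dvd' hru hrv)
  obtain ⟨⟨T, hT⟩, ⟨A, hA⟩⟩ := Int.eq_pow_of_mul_eq_pow_odd hcop hpodd hmul
  exact ⟨A, T, hA, hT⟩

/-- Core of Sophie Germain's theorem: the case where the auxiliary prime divides `x`. -/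
lemma sg_core (hp : p.Prime) (hodd : p ≠ 2) (hq : q.Prime)
    (h1 : ∀ x y z : ZMod q, x ^ p + y ^ p + z ^ p = 0 → x = 0 ∨ y = 0 ∨ z = 0)
    (h2 : ∀ x : ZMod q, x ^ p ≠ (p : ZMod q))
    {x y z : ℤ} (hxy : IsCoprime x y) (hyz : IsCoprime y z) (hzx : IsCoprime z x)
    (h : x ^ p + y ^ p + z ^ p = 0)
    (hpx : ¬ (p : ℤ) ∣ x) (hpy : ¬ (p : ℤ) ∣ y) (hpz : ¬ (p : ℤ) ∣ z)
    (hqx : (q : ℤ) ∣ x) : False := by
  have : Fact q.Prime := ⟨hq⟩
  have hpodd : Odd p := hp.odd_of_ne_two hodd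
  have hqint : Prime (q : ℤ) := Nat.prime_iff_prime_int.mp hq
  obtain ⟨A, T, hA, hT⟩ := sg_roots hp hodd hyz (w := x) (by linarith) hpx
  obtain ⟨B, S, hB, -⟩ := sg_roots hp hodd hzx (w := y) (by linarith) hpy
  obtain ⟨C, R, hC, hR⟩ := sg_roots hp hodd hxy (w := z) (by linarith) hpz
  have hx0 : (x : ZMod q) = 0 := (ZMod.intCast_zmod_eq_zero_iff_dvd x q).mpr hqx
  have hA' : (y : ZMod q) + z = (A : ZMod q) ^ p := by
    exact_mod_cast congrArg (Int.cast : ℤ → ZMod q) hA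
  have hB' : (z : ZMod q) + x = (B : ZMod q) ^ p := by
    exact_mod_cast congrArg (Int.cast : ℤ → ZMod q) hB
  have hC' : (x : ZMod q) + y = (C : ZMod q) ^ p := by
    exact_mod_cast congrArg (Int.cast : ℤ → ZMod q) hC
  have hT' : sgPhi p (y : ZMod q) (z : ZMod q) = (T : ZMod q) ^ p := by
    have := congrArg (Int.castRingHom (ZMod q)) hT
    rw [sgPhi_map] at this
    simpa using this
  have hR' : sgPhi p (x : ZMod q) (y : ZMod q) = (R : ZMod q) ^ p := by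
    have := congrArg (Int.castRingHom (ZMod q)) hR
    rw [sgPhi_map] at this
    simpa using this
  have hy0 : (y : ZMod q) ≠ 0 := by
    intro hy
    have hqy : (q : ℤ) ∣ y := (ZMod.intCast_zmod_eq_zero_iff_dvd y q).mp hy
    exact hqint.not_isUnit (hxy.isUnit_of_dvd' hqx hqy)
  have hz0 : (z : ZMod q) ≠ 0 := by
    intro hz
    have hqz : (q : ℤ) ∣ z := (ZMod.intCast_zmod_eq_zero_iff_dvd z q).mp hz
    exact hqint.not_isUnit (hzx.isUnit_of_dvd' hqz hqx)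
  have key : (C : ZMod q) ^ p + (B : ZMod q) ^ p + (-(A : ZMod q)) ^ p = 0 := by
    rw [hpodd.neg_pow, ← hA', ← hB', ← hC', hx0]; ring
  rcases h1 _ _ _ key with hC0 | hB0 | hA0
  · rw [hC0, zero_pow hp.ne_zero, hx0, zero_add] at hC'
    exact hy0 hC'
  · rw [hB0, zero_pow hp.ne_zero, hx0, add_zero] at hB'
    exact hz0 hB'
  · rw [neg_eq_zero] at hA0
    rw [hA0, zero_pow hp.ne_zero] at hA'
    have hzy : (z : ZMod q) = -(y : ZMod q) := by
      rw [eq_neg_iff_add_eq_zero, add_comm]; exact hA'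
    rw [sgPhi_of_eq_neg _ _ _ hzy] at hT'
    rw [hx0, sgPhi_zero_left hpodd] at hR'
    apply h2 ((T : ZMod q) / (R : ZMod q))
    rw [div_pow, ← hT', ← hR']
    exact mul_div_cancel_right₀ _ (pow_ne_zero _ hy0)

/-- Sophie Germain's theorem, symmetric form. -/
theorem sophieGermain_sym (hp : p.Prime) (hodd : p ≠ 2) (hq : q.Prime)
    (h1 : ∀ x y z : ZMod q, x ^ p + y ^ p + z ^ p = 0 → x = 0 ∨ y = 0 ∨ z = 0)
    (h2 : ∀ x : ZMod q, x ^ p ≠ (p : ZMod q))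
    {x y z : ℤ} (hxy : IsCoprime x y) (hyz : IsCoprime y z) (hzx : IsCoprime z x)
    (h : x ^ p + y ^ p + z ^ p = 0) :
    (p : ℤ) ∣ x ∨ (p : ℤ) ∣ y ∨ (p : ℤ) ∣ z := by
  have : Fact q.Prime := ⟨hq⟩
  by_contra hcon
  rw [not_or, not_or] at hcon
  obtain ⟨hpx, hpy, hpz⟩ := hcon
  have hcast : (x : ZMod q) ^ p + (y : ZMod q) ^ p + (z : ZMod q) ^ p = 0 := by
    exact_mod_cast congrArg (Int.cast : ℤ → ZMod q) h
  rcases h1 _ _ _ hcast with hx | hy | hz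
  · exact sg_core hp hodd hq h1 h2 hxy hyz hzx h hpx hpy hpz
      ((ZMod.intCast_zmod_eq_zero_iff_dvd x q).mp hx)
  · exact sg_core hp hodd hq h1 h2 hyz hzx hxy (by linarith) hpy hpz hpx
      ((ZMod.intCast_zmod_eq_zero_iff_dvd y q).mp hy)
  · exact sg_core hp hodd hq h1 h2 hzx hxy hyz (by linarith) hpz hpx hpy
      ((ZMod.intCast_zmod_eq_zero_iff_dvd z q).mp hz)

/-- Sophie Germain's theorem (Case I of FLT): if `q` is an auxiliary prime for the odd prime `p`,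
any coprime solution of `a^p + b^p = c^p` has `p ∣ a b c`. -/
theorem sophieGermain_caseI (hp : p.Prime) (hodd : p ≠ 2) (hq : q.Prime)
    (h1 : ∀ x y z : ZMod q, x ^ p + y ^ p + z ^ p = 0 → x = 0 ∨ y = 0 ∨ z = 0)
    (h2 : ∀ x : ZMod q, x ^ p ≠ (p : ZMod q))
    {a b c : ℤ} (hab : IsCoprime a b) (h : a ^ p + b ^ p = c ^ p) :
    (p : ℤ) ∣ a * b * c := by
  have hpodd : Odd p := hp.odd_of_ne_two hodd
  have hac : IsCoprime a c := by
    rw [← IsCoprime.pow_right_iff hp.pos, ← h]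
    have : a ^ p + b ^ p = b ^ p + a * a ^ (p - 1) := by
      rw [← pow_succ', Nat.sub_add_cancel hp.one_le]; ring
    rw [this]
    exact (hab.pow_right).add_mul_left_right _
  have hbc : IsCoprime b c := by
    rw [← IsCoprime.pow_right_iff hp.pos, ← h]
    have : a ^ p + b ^ p = a ^ p + b * b ^ (p - 1) := by
      rw [← pow_succ', Nat.sub_add_cancel hp.one_le]
    rw [this]
    exact (hab.symm.pow_right).add_mul_left_right _
  have h0 : a ^ p + b ^ p + (-c) ^ p = 0 := by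
    rw [hpodd.neg_pow, h]; ring
  rcases sophieGermain_sym hp hodd hq h1 h2 hab hbc.neg_right hac.symm.neg_left h0 with h' | h' | h'
  · exact dvd_mul_of_dvd_left (dvd_mul_of_dvd_left h' b) c
  · exact dvd_mul_of_dvd_left (dvd_mul_of_dvd_right h' a) c
  · exact dvd_mul_of_dvd_right (dvd_neg.mp h') _

/-- Removing the coprimality hypothesis: if every coprime solution has `p ∣ a b c`, then there
is no solution at all with `p ∤ a b c`. -/
theorem caseI_of_coprime {p : ℕ} (hp0 : p ≠ 0)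
    (H : ∀ a b c : ℤ, IsCoprime a b → a ^ p + b ^ p = c ^ p → (p : ℤ) ∣ a * b * c)
    {a b c : ℤ} (h : ¬ (p : ℤ) ∣ a * b * c) : a ^ p + b ^ p ≠ c ^ p := by
  intro heq
  have ha0 : a ≠ 0 := by
    rintro rfl
    exact h (by simp)
  have hd : 0 < Int.gcd a b := Int.gcd_pos_of_ne_zero_left b ha0
  obtain ⟨a', b', hcop, ha, hb⟩ := Int.exists_gcd_one hd
  set d : ℤ := (Int.gcd a b : ℤ) with hd_def
  have hd0 : d ≠ 0 := by
    rw [hd_def]; exact_mod_cast hd.ne'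
  have hdc : d ∣ c := by
    rw [← Int.pow_dvd_pow_iff hp0, ← heq]
    exact dvd_add (pow_dvd_pow_of_dvd (Int.gcd_dvd_left ..) p)
      (pow_dvd_pow_of_dvd (Int.gcd_dvd_right ..) p)
  obtain ⟨c', hc⟩ := hdc
  have heq' : a' ^ p + b' ^ p = c' ^ p := by
    have h1 : d ^ p * (a' ^ p + b' ^ p) = d ^ p * c' ^ p := by
      have : (a' * d) ^ p + (b' * d) ^ p = (d * c') ^ p := by
        rw [← ha, ← hb, ← hc]; exact heq
      rw [mul_pow, mul_pow, mul_pow] at this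
      linear_combination this
    exact mul_left_cancel₀ (pow_ne_zero p hd0) h1
  have hdvd := H a' b' c' (Int.isCoprime_iff_gcd_eq_one.mpr hcop) heq'
  apply h
  have : a * b * c = (a' * b' * c') * d ^ 3 := by
    rw [ha, hb, hc]; ring
  rw [this]
  exact dvd_mul_of_dvd_left hdvd _

/-! ### The four instances -/

lemma sg_pow_5_11 : ∀ x : ZMod 11, x = 0 ∨ x ^ 5 = 1 ∨ x ^ 5 = -1 := by decide

lemma sg_pow_11_23 : ∀ x : ZMod 23, x = 0 ∨ x ^ 11 = 1 ∨ x ^ 11 = -1 := by decide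

lemma sg_pow_7_29 :
    ∀ x : ZMod 29, x = 0 ∨ x ^ 7 = 1 ∨ x ^ 7 = -1 ∨ x ^ 7 = 12 ∨ x ^ 7 = -12 := by decide

lemma sg_pow_13_53 :
    ∀ x : ZMod 53, x = 0 ∨ x ^ 13 = 1 ∨ x ^ 13 = -1 ∨ x ^ 13 = 23 ∨ x ^ 13 = -23 := by decide

/-- Case I of FLT for exponent `5`. -/
theorem caseI_five_of_isCoprime {a b c : ℤ} (hab : IsCoprime a b) (h : a ^ 5 + b ^ 5 = c ^ 5) :
    (5 : ℤ) ∣ a * b * c := by
  have h1 : ∀ x y z : ZMod 11, x ^ 5 + y ^ 5 + z ^ 5 = 0 → x = 0 ∨ y = 0 ∨ z = 0 := by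
    intro x y z hxyz
    rcases sg_pow_5_11 x with hx | hx | hx
    · exact Or.inl hx
    all_goals
      rcases sg_pow_5_11 y with hy | hy | hy
      · exact Or.inr (Or.inl hy)
      all_goals
        rcases sg_pow_5_11 z with hz | hz | hz
        · exact Or.inr (Or.inr hz)
        all_goals
          rw [hx, hy, hz] at hxyz
          exact absurd hxyz (by decide)
  have h2 : ∀ x : ZMod 11, x ^ 5 ≠ ((5 : ℕ) : ZMod 11) := by
    intro x
    rcases sg_pow_5_11 x with hx | hx | hx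
    · rw [hx]; decide
    all_goals rw [hx]; decide
  exact_mod_cast sophieGermain_caseI (p := 5) (q := 11) (by norm_num) (by norm_num) (by norm_num)
    h1 h2 hab h

/-- Case I of FLT for exponent `11`. -/
theorem caseI_eleven_of_isCoprime {a b c : ℤ} (hab : IsCoprime a b) (h : a ^ 11 + b ^ 11 = c ^ 11) :
    (11 : ℤ) ∣ a * b * c := by
  have h1 : ∀ x y z : ZMod 23, x ^ 11 + y ^ 11 + z ^ 11 = 0 → x = 0 ∨ y = 0 ∨ z = 0 := by
    intro x y z hxyz
    rcases sg_pow_11_23 x with hx | hx | hx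
    · exact Or.inl hx
    all_goals
      rcases sg_pow_11_23 y with hy | hy | hy
      · exact Or.inr (Or.inl hy)
      all_goals
        rcases sg_pow_11_23 z with hz | hz | hz
        · exact Or.inr (Or.inr hz)
        all_goals
          rw [hx, hy, hz] at hxyz
          exact absurd hxyz (by decide)
  have h2 : ∀ x : ZMod 23, x ^ 11 ≠ ((11 : ℕ) : ZMod 23) := by
    intro x
    rcases sg_pow_11_23 x with hx | hx | hx
    · rw [hx]; decide
    all_goals rw [hx]; decide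
  exact_mod_cast sophieGermain_caseI (p := 11) (q := 23) (by norm_num) (by norm_num) (by norm_num)
    h1 h2 hab h

/-- Case I of FLT for exponent `7`. -/
theorem caseI_seven_of_isCoprime {a b c : ℤ} (hab : IsCoprime a b) (h : a ^ 7 + b ^ 7 = c ^ 7) :
    (7 : ℤ) ∣ a * b * c := by
  have h1 : ∀ x y z : ZMod 29, x ^ 7 + y ^ 7 + z ^ 7 = 0 → x = 0 ∨ y = 0 ∨ z = 0 := by
    intro x y z hxyz
    rcases sg_pow_7_29 x with hx | hx | hx | hx | hx
    · exact Or.inl hx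
    all_goals
      rcases sg_pow_7_29 y with hy | hy | hy | hy | hy
      · exact Or.inr (Or.inl hy)
      all_goals
        rcases sg_pow_7_29 z with hz | hz | hz | hz | hz
        · exact Or.inr (Or.inr hz)
        all_goals
          rw [hx, hy, hz] at hxyz
          exact absurd hxyz (by decide)
  have h2 : ∀ x : ZMod 29, x ^ 7 ≠ ((7 : ℕ) : ZMod 29) := by
    intro x
    rcases sg_pow_7_29 x with hx | hx | hx | hx | hx
    · rw [hx]; decide
    all_goals rw [hx]; decide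
  exact_mod_cast sophieGermain_caseI (p := 7) (q := 29) (by norm_num) (by norm_num) (by norm_num)
    h1 h2 hab h

/-- Case I of FLT for exponent `13`. -/
theorem caseI_thirteen_of_isCoprime {a b c : ℤ} (hab : IsCoprime a b) (h : a ^ 13 + b ^ 13 = c ^ 13) :
    (13 : ℤ) ∣ a * b * c := by
  have h1 : ∀ x y z : ZMod 53, x ^ 13 + y ^ 13 + z ^ 13 = 0 → x = 0 ∨ y = 0 ∨ z = 0 := by
    intro x y z hxyz
    rcases sg_pow_13_53 x with hx | hx | hx | hx | hx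
    · exact Or.inl hx
    all_goals
      rcases sg_pow_13_53 y with hy | hy | hy | hy | hy
      · exact Or.inr (Or.inl hy)
      all_goals
        rcases sg_pow_13_53 z with hz | hz | hz | hz | hz
        · exact Or.inr (Or.inr hz)
        all_goals
          rw [hx, hy, hz] at hxyz
          exact absurd hxyz (by decide)
  have h2 : ∀ x : ZMod 53, x ^ 13 ≠ ((13 : ℕ) : ZMod 53) := by
    intro x
    rcases sg_pow_13_53 x with hx | hx | hx | hx | hx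
    · rw [hx]; decide
    all_goals rw [hx]; decide
  exact_mod_cast sophieGermain_caseI (p := 13) (q := 53) (by norm_num) (by norm_num) (by norm_num)
    h1 h2 hab h


/-! ### Captain's interface: no coprimality hypothesis -/

/-- Case I of FLT for exponent `5`: no solution with `5 ∤ a b c`. -/
theorem caseI_five {a b c : ℤ} (h : ¬ (5 : ℤ) ∣ a * b * c) : a ^ 5 + b ^ 5 ≠ c ^ 5 :=
  caseI_of_coprime (p := 5) (by norm_num) (fun _ _ _ hab heq => caseI_five_of_isCoprime hab heq)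
    (by exact_mod_cast h)

/-- Case I of FLT for exponent `7`: no solution with `7 ∤ a b c`. -/
theorem caseI_seven {a b c : ℤ} (h : ¬ (7 : ℤ) ∣ a * b * c) : a ^ 7 + b ^ 7 ≠ c ^ 7 :=
  caseI_of_coprime (p := 7) (by norm_num) (fun _ _ _ hab heq => caseI_seven_of_isCoprime hab heq)
    (by exact_mod_cast h)

/-- Case I of FLT for exponent `11`: no solution with `11 ∤ a b c`. -/
theorem caseI_eleven {a b c : ℤ} (h : ¬ (11 : ℤ) ∣ a * b * c) : a ^ 11 + b ^ 11 ≠ c ^ 11 :=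
  caseI_of_coprime (p := 11) (by norm_num) (fun _ _ _ hab heq => caseI_eleven_of_isCoprime hab heq)
    (by exact_mod_cast h)

/-- Case I of FLT for exponent `13`: no solution with `13 ∤ a b c`. -/
theorem caseI_thirteen {a b c : ℤ} (h : ¬ (13 : ℤ) ∣ a * b * c) : a ^ 13 + b ^ 13 ≠ c ^ 13 :=
  caseI_of_coprime (p := 13) (by norm_num) (fun _ _ _ hab heq => caseI_thirteen_of_isCoprime hab heq)
    (by exact_mod_cast h)

end Fermat.Agent.S10

end
-- ===== PACK-END S10/SophieGermain.lean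

-- ===== PACK-BEGIN S10/Kummer.lean
section


/-
Kummer's lemma for the cyclotomic fields `ℚ(ζ_p)`, `p ∈ {5, 7, 11, 13}`:
a unit of `ℤ[ζ_p]` congruent to a rational integer modulo `p` is a `p`-th power.

Proof: Dirichlet's unit theorem shows that the unit group modulo `p`-th powers is spanned by
`(p - 1) / 2` elements; the logarithmic derivative
`ψ : 𝓞ˣ → 𝔽_p[X]/(X^(p-2))` kills `p`-th powers and units congruent to an integer mod `p`,
and an explicit computation shows that the images of `ζ` and of the cyclotomic units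
`1 + ζ + ... + ζ^(k-1)`, `2 ≤ k ≤ (p-1)/2`, are linearly independent.  Hence `ψ` is injective
modulo `p`-th powers.
-/

namespace Fermat.Agent.S10.Kummer

section abstract


open Module in
/-- Abstract counting lemma behind Kummer's lemma. -/
theorem exists_pow_eq_of_map_eq_zero
    {E : Type*} [CommGroup E] {p : ℕ} [Fact p.Prime]
    {V : Type*} [AddCommGroup V] [Module (ZMod p) V]
    (ψ : Additive E →+ V)
    {ι κ : Type*} [Fintype ι] [Fintype κ]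
    (g : ι → E) (hg : ∀ x : E, ∃ e : ι → ℤ, x = ∏ i, g i ^ e i)
    (c : κ → E) (hc : LinearIndependent (ZMod p) (fun k => ψ (Additive.ofMul (c k))))
    (hcard : Fintype.card ι ≤ Fintype.card κ)
    (u : E) (hu : ψ (Additive.ofMul u) = 0) : ∃ v : E, u = v ^ p := by
  classical
  set w : ι → V := fun i => ψ (Additive.ofMul (g i)) with hw
  have key : ∀ (e : ι → ℤ), ψ (Additive.ofMul (∏ i, g i ^ e i)) = ∑ i, ((e i : ℤ) : ZMod p) • w i := by
    intro e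
    rw [ofMul_prod, map_sum]
    refine Finset.sum_congr rfl fun i _ => ?_
    rw [ofMul_zpow, map_zsmul, hw, Int.cast_smul_eq_zsmul]
  have hmem : ∀ x : E, ψ (Additive.ofMul x) ∈ Submodule.span (ZMod p) (Set.range w) := by
    intro x
    obtain ⟨e, rfl⟩ := hg x
    rw [key]
    exact Submodule.sum_mem _ fun i _ => Submodule.smul_mem _ _ (Submodule.subset_span ⟨i, rfl⟩)
  have hle : Submodule.span (ZMod p) (Set.range (fun k => ψ (Additive.ofMul (c k)))) ≤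
      Submodule.span (ZMod p) (Set.range w) := by
    rw [Submodule.span_le]
    rintro _ ⟨k, rfl⟩
    exact hmem _
  have h1 : finrank (ZMod p) (Submodule.span (ZMod p) (Set.range (fun k => ψ (Additive.ofMul (c k)))))
      = Fintype.card κ := finrank_span_eq_card hc
  have h2 : finrank (ZMod p) (Submodule.span (ZMod p) (Set.range w)) ≤ Fintype.card ι :=
    (finrank_span_le_card _).trans (by simpa using Finset.card_image_le (s := Finset.univ) (f := w))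
  have : Module.Finite (ZMod p) (Submodule.span (ZMod p) (Set.range w)) :=
    Module.Finite.span_of_finite (ZMod p) (Set.finite_range w)
  have h3 := Submodule.finrank_mono hle
  have hwli : LinearIndependent (ZMod p) w := by
    rw [linearIndependent_iff_card_eq_finrank_span, Set.finrank]
    omega
  obtain ⟨e, rfl⟩ := hg u
  rw [key] at hu
  have he := Fintype.linearIndependent_iff.mp hwli _ hu
  have he' : ∀ i, ∃ f : ℤ, e i = p * f := by
    intro i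
    have := he i
    rw [ZMod.intCast_zmod_eq_zero_iff_dvd] at this
    exact this
  choose f hf using he'
  refine ⟨∏ i, g i ^ f i, ?_⟩
  rw [← Finset.prod_pow]
  refine Finset.prod_congr rfl fun i _ => ?_
  rw [hf i, mul_comm, zpow_mul, zpow_natCast]


end abstract

section dirichlet


open NumberField

/-- Dirichlet's unit theorem: the unit group is generated by `rank K + 1` elements. -/
theorem exists_units_generators (K : Type*) [Field K] [NumberField K] :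
    ∃ g : Option (Fin (Units.rank K)) → (𝓞 K)ˣ,
      ∀ x : (𝓞 K)ˣ, ∃ e : Option (Fin (Units.rank K)) → ℤ, x = ∏ i, g i ^ e i := by
  classical
  obtain ⟨t₀, ht₀⟩ := IsCyclic.exists_generator (α := Units.torsion K)
  refine ⟨fun i => i.elim (t₀ : (𝓞 K)ˣ) (Units.fundSystem K), fun x => ?_⟩
  obtain ⟨⟨t, e'⟩, hx, -⟩ := Units.exist_unique_eq_mul_prod K x
  obtain ⟨k, hk⟩ := Subgroup.mem_zpowers_iff.mp (ht₀ t)
  refine ⟨fun i => i.elim k e', ?_⟩
  rw [Fintype.prod_option]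
  simp only [Option.elim_none, Option.elim_some]
  rw [hx]
  congr 1
  rw [← hk]
  simp

theorem card_option_rank_cyclotomic (p : ℕ) [hp : Fact p.Prime] (h3 : 3 ≤ p)
    (K : Type*) [Field K] [NumberField K] [IsCyclotomicExtension {p} ℚ K] :
    Fintype.card (Option (Fin (Units.rank K))) = (p - 1) / 2 := by
  have hlt : 2 < p := by omega
  rw [Fintype.card_option, Fintype.card_fin, Units.rank,
    InfinitePlace.card_eq_nrRealPlaces_add_nrComplexPlaces,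
    IsCyclotomicExtension.Rat.nrRealPlaces_eq_zero (n := p) K hlt,
    IsCyclotomicExtension.Rat.nrComplexPlaces_eq_totient_div_two p K, Nat.totient_prime hp.out]
  have : 1 ≤ (p - 1) / 2 := by omega
  omega


end dirichlet


open Polynomial NumberField TrivSqZeroExt

section generic

variable (p : ℕ) [hp : Fact p.Prime]

/-- The truncated polynomial ring `𝔽_p[X]/(X^(p-2))`. -/
abbrev TA : Type := (ZMod p)[X] ⧸ Ideal.span {(X : (ZMod p)[X]) ^ (p - 2)}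

/-- Dual numbers over `TA p`. -/
abbrev TC : Type := TrivSqZeroExt (TA p) (TA p)

/-- The class of `X` in `TA p`. -/
noncomputable def xA : TA p := Ideal.Quotient.mk _ (X : (ZMod p)[X])

lemma xA_pow : (xA p) ^ (p - 2) = 0 := by
  rw [xA, ← map_pow]
  exact Ideal.Quotient.eq_zero_iff_mem.mpr (Ideal.subset_span rfl)

/-- The image of `ζ` in `TC p`. -/
noncomputable def zC : TC p := inl (1 + xA p) + inr 1

lemma zC_sub_one_pow (h3 : 3 ≤ p) : (zC p - 1) ^ (p - 1) = 0 := by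
  have h1 : zC p - 1 = inl (xA p) + inr 1 := by
    rw [zC, inl_add, inl_one]; abel
  rw [h1]
  ext
  · simp only [fst_pow, fst_add, fst_inl, fst_inr, add_zero, fst_zero]
    have : p - 1 = (p - 2) + 1 := by omega
    rw [this, pow_succ, xA_pow, zero_mul]
  · simp only [snd_pow, fst_add, fst_inl, fst_inr, add_zero, snd_add, snd_inl, snd_inr, zero_add,
      snd_zero]
    have : (p - 1).pred = p - 2 := by
      rw [Nat.pred_eq_sub_one]; omega
    rw [this, xA_pow]; simp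

lemma aeval_zC_cyclotomic (h3 : 3 ≤ p) : aeval (zC p) (cyclotomic p ℤ) = 0 := by
  have h1 : cyclotomic p (ZMod p) = (X - 1) ^ (p - 1) := by
    have := cyclotomic_mul_prime_pow_eq (ZMod p) (p := p) (m := 1) (hp.out.one_lt.ne' ∘ Nat.dvd_one.mp)
      (k := 1) one_pos
    simpa [cyclotomic_one] using this
  rw [← aeval_map_algebraMap (ZMod p), map_cyclotomic, h1]
  simp only [map_pow, map_sub, aeval_X, map_one]
  exact zC_sub_one_pow p h3

variable {p}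
variable {K : Type*} [Field K] [NumberField K] [IsCyclotomicExtension {p} ℚ K]
variable {ζ : K} (hζ : IsPrimitiveRoot ζ p)

omit [IsCyclotomicExtension {p} ℚ K] in
lemma minpoly_toInteger : minpoly ℤ hζ.toInteger = cyclotomic p ℤ := by
  rw [cyclotomic_eq_minpoly hζ hp.out.pos]
  exact (RingOfIntegers.minpoly_coe hζ.toInteger).symm

/-- The ring homomorphism `𝓞 K → TC p` sending `ζ` to `zC p`. -/
noncomputable def PsiHom (h3 : 3 ≤ p) : 𝓞 K →ₐ[ℤ] TC p :=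
  hζ.integralPowerBasis.lift (zC p) (by
    rw [hζ.integralPowerBasis_gen, minpoly_toInteger hζ]
    exact aeval_zC_cyclotomic p h3)

lemma PsiHom_zeta (h3 : 3 ≤ p) : PsiHom hζ h3 hζ.toInteger = zC p := by
  calc PsiHom hζ h3 hζ.toInteger = PsiHom hζ h3 hζ.integralPowerBasis.gen := by
        rw [hζ.integralPowerBasis_gen]
    _ = zC p := hζ.integralPowerBasis.lift_gen (zC p) _

lemma natCast_TA_eq_zero : ((p : ℕ) : TA p) = 0 := by
  rw [← map_natCast (algebraMap (ZMod p) (TA p)) p, ZMod.natCast_self, map_zero]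

lemma natCast_TC_eq_zero : ((p : ℕ) : TC p) = 0 := by
  rw [← map_natCast (algebraMap (ZMod p) (TC p)) p, ZMod.natCast_self, map_zero]

/-- The logarithmic derivative `ψ : (𝓞 K)ˣ → TA p`. -/
noncomputable def logDeriv (h3 : 3 ≤ p) : Additive (𝓞 K)ˣ →+ TA p where
  toFun u := (PsiHom hζ h3 (Additive.toMul u : (𝓞 K)ˣ)).snd *
    (PsiHom hζ h3 ((Additive.toMul u)⁻¹ : (𝓞 K)ˣ)).fst
  map_zero' := by simp
  map_add' u v := by
    set a := Additive.toMul u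
    set b := Additive.toMul v
    have ha : (PsiHom hζ h3 (a : 𝓞 K)).fst * (PsiHom hζ h3 ((a⁻¹ : (𝓞 K)ˣ) : 𝓞 K)).fst = 1 := by
      rw [← fst_mul, ← map_mul, Units.mul_inv, map_one, fst_one]
    have hb : (PsiHom hζ h3 (b : 𝓞 K)).fst * (PsiHom hζ h3 ((b⁻¹ : (𝓞 K)ˣ) : 𝓞 K)).fst = 1 := by
      rw [← fst_mul, ← map_mul, Units.mul_inv, map_one, fst_one]
    simp only [toMul_add, Units.val_mul, map_mul, mul_inv, snd_mul, fst_mul, smul_eq_mul,
      MulOpposite.smul_eq_mul_unop, MulOpposite.unop_op]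
    linear_combination ((PsiHom hζ h3 (b : 𝓞 K)).snd * (PsiHom hζ h3 ((b⁻¹ : (𝓞 K)ˣ) : 𝓞 K)).fst) * ha
      + ((PsiHom hζ h3 (a : 𝓞 K)).snd * (PsiHom hζ h3 ((a⁻¹ : (𝓞 K)ˣ) : 𝓞 K)).fst) * hb

lemma logDeriv_apply (h3 : 3 ≤ p) (u : (𝓞 K)ˣ) :
    logDeriv hζ h3 (Additive.ofMul u) =
      (PsiHom hζ h3 (u : 𝓞 K)).snd * (PsiHom hζ h3 ((u⁻¹ : (𝓞 K)ˣ) : 𝓞 K)).fst := rfl

lemma logDeriv_eq_zero_of_dvd (h3 : 3 ≤ p) (u : (𝓞 K)ˣ) (n : ℤ)
    (h : ((p : ℕ) : 𝓞 K) ∣ (u : 𝓞 K) - n) : logDeriv hζ h3 (Additive.ofMul u) = 0 := by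
  obtain ⟨r, hr⟩ := h
  have hu : (u : 𝓞 K) = n + (p : ℕ) * r := by rw [← hr]; ring
  rw [logDeriv_apply, hu]
  simp only [map_add, map_mul, map_intCast, map_natCast, natCast_TC_eq_zero, zero_mul, add_zero]
  simp


/-- Powers of `x` below `p - 2` are linearly independent in `TA p`. -/
lemma TA_coeffs_eq_zero (b : Fin (p - 2) → ZMod p)
    (h : ∑ j : Fin (p - 2), algebraMap (ZMod p) (TA p) (b j) * xA p ^ (j : ℕ) = 0) :
    ∀ j, b j = 0 := by
  classical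
  have h1 : ∑ j : Fin (p - 2), algebraMap (ZMod p) (TA p) (b j) * xA p ^ (j : ℕ) =
      Ideal.Quotient.mk _ (∑ j : Fin (p - 2), C (b j) * (X : (ZMod p)[X]) ^ (j : ℕ)) := by
    rw [map_sum]
    refine Finset.sum_congr rfl fun j _ => ?_
    rw [map_mul, map_pow, xA]
    rfl
  rw [h1, Ideal.Quotient.eq_zero_iff_mem, Ideal.mem_span_singleton, X_pow_dvd_iff] at h
  intro j
  have := h j j.2
  rw [finsetSum_coeff] at this
  simp only [coeff_C_mul, coeff_X_pow] at this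
  rw [Finset.sum_eq_single j] at this
  · simpa using this
  · intro i _ hij
    have : (j : ℕ) ≠ (i : ℕ) := fun h => hij (Fin.ext h.symm)
    simp [this]
  · simp

lemma logDeriv_eq_of_mul_eq (h3 : 3 ≤ p) (u : (𝓞 K)ˣ) (T : TA p)
    (hT : T * (PsiHom hζ h3 (u : 𝓞 K)).fst = (PsiHom hζ h3 (u : 𝓞 K)).snd) :
    logDeriv hζ h3 (Additive.ofMul u) = T := by
  have ha : (PsiHom hζ h3 (u : 𝓞 K)).fst * (PsiHom hζ h3 ((u⁻¹ : (𝓞 K)ˣ) : 𝓞 K)).fst = 1 := by
    rw [← fst_mul, ← map_mul, Units.mul_inv, map_one, fst_one]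
  rw [logDeriv_apply, ← hT, mul_assoc, ha, mul_one]

theorem linearIndependent_logDeriv (h3 : 3 ≤ p) {m : ℕ}
    (A : Matrix (Fin m) (Fin (p - 2)) (ZMod p))
    (B : Matrix (Fin (p - 2)) (Fin m) (ZMod p)) (hAB : A * B = 1)
    (c : Fin m → (𝓞 K)ˣ)
    (hc : ∀ k, (∑ j : Fin (p - 2), algebraMap (ZMod p) (TA p) (A k j) * xA p ^ (j : ℕ)) *
      (PsiHom hζ h3 (c k : 𝓞 K)).fst = (PsiHom hζ h3 (c k : 𝓞 K)).snd) :
    LinearIndependent (ZMod p) (fun k => logDeriv hζ h3 (Additive.ofMul (c k))) := by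
  rw [Fintype.linearIndependent_iff]
  intro n hn
  have h1 : ∀ k, logDeriv hζ h3 (Additive.ofMul (c k)) =
      ∑ j : Fin (p - 2), algebraMap (ZMod p) (TA p) (A k j) * xA p ^ (j : ℕ) :=
    fun k => logDeriv_eq_of_mul_eq hζ h3 (c k) _ (hc k)
  simp only [h1] at hn
  have h2 : ∑ j : Fin (p - 2), algebraMap (ZMod p) (TA p) (Matrix.vecMul n A j) * xA p ^ (j : ℕ)
      = 0 := by
    rw [← hn]
    simp only [Matrix.vecMul, dotProduct, map_sum, map_mul, Finset.sum_mul, Finset.smul_sum]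
    rw [Finset.sum_comm]
    refine Finset.sum_congr rfl fun k _ => Finset.sum_congr rfl fun j _ => ?_
    rw [mul_assoc]
    exact (Algebra.smul_def _ _).symm
  have h3' := TA_coeffs_eq_zero (Matrix.vecMul n A) h2
  have h4 : Matrix.vecMul n A = 0 := funext h3'
  have h5 : Matrix.vecMul n (A * B) = 0 := by
    rw [← Matrix.vecMul_vecMul, h4, Matrix.zero_vecMul]
  rw [hAB, Matrix.vecMul_one] at h5
  intro i
  exact congrFun h5 i


/-- `ζ` as a unit of `𝓞 K`. -/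
noncomputable def zetaUnit : (𝓞 K)ˣ :=
  (hζ.toInteger_isPrimitiveRoot.isUnit hp.out.ne_zero).unit

/-- The cyclotomic unit `1 + ζ + ... + ζ^(k-1)`. -/
noncomputable def cycUnit (k : ℕ) (hk : k.Coprime p) : (𝓞 K)ˣ :=
  (hζ.toInteger_isPrimitiveRoot.geom_sum_isUnit hp.out.two_le hk).unit

lemma fst_zC_pow (i : ℕ) : ((zC p) ^ i).fst = (1 + xA p) ^ i := by
  simp [zC]

lemma snd_zC_pow (i : ℕ) : ((zC p) ^ i).snd = (i : TA p) * (1 + xA p) ^ (i - 1) := by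
  simp [zC, Nat.pred_eq_sub_one]

lemma fst_PsiHom_zetaUnit (h3 : 3 ≤ p) :
    (PsiHom hζ h3 (zetaUnit hζ : 𝓞 K)).fst = 1 + xA p := by
  rw [zetaUnit, IsUnit.unit_spec, PsiHom_zeta]
  simp [zC]

lemma snd_PsiHom_zetaUnit (h3 : 3 ≤ p) :
    (PsiHom hζ h3 (zetaUnit hζ : 𝓞 K)).snd = 1 := by
  rw [zetaUnit, IsUnit.unit_spec, PsiHom_zeta]
  simp [zC]

lemma fst_PsiHom_cycUnit (h3 : 3 ≤ p) (k : ℕ) (hk : k.Coprime p) :
    (PsiHom hζ h3 (cycUnit hζ k hk : 𝓞 K)).fst = ∑ i ∈ Finset.range k, (1 + xA p) ^ i := by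
  rw [cycUnit, IsUnit.unit_spec, map_sum]
  simp only [map_pow, PsiHom_zeta]
  rw [fst_sum]
  simp only [fst_zC_pow]

lemma snd_PsiHom_cycUnit (h3 : 3 ≤ p) (k : ℕ) (hk : k.Coprime p) :
    (PsiHom hζ h3 (cycUnit hζ k hk : 𝓞 K)).snd =
      ∑ i ∈ Finset.range k, (i : TA p) * (1 + xA p) ^ (i - 1) := by
  rw [cycUnit, IsUnit.unit_spec, map_sum]
  simp only [map_pow, PsiHom_zeta]
  rw [snd_sum]
  simp only [snd_zC_pow]


/-- Kummer's lemma from explicit matrix data. -/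
theorem kummer_of_data (h3 : 3 ≤ p) {m : ℕ} (hm : (p - 1) / 2 ≤ m)
    (A : Matrix (Fin m) (Fin (p - 2)) (ZMod p))
    (B : Matrix (Fin (p - 2)) (Fin m) (ZMod p)) (hAB : A * B = 1)
    (c : Fin m → (𝓞 K)ˣ)
    (hc : ∀ k, (∑ j : Fin (p - 2), algebraMap (ZMod p) (TA p) (A k j) * xA p ^ (j : ℕ)) *
      (PsiHom hζ h3 (c k : 𝓞 K)).fst = (PsiHom hζ h3 (c k : 𝓞 K)).snd)
    (u : (𝓞 K)ˣ) (hu : ∃ n : ℤ, ((p : ℕ) : 𝓞 K) ∣ (u : 𝓞 K) - n) :
    ∃ v : (𝓞 K)ˣ, u = v ^ p := by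
  obtain ⟨g, hg⟩ := exists_units_generators K
  obtain ⟨n, hn⟩ := hu
  exact exists_pow_eq_of_map_eq_zero (logDeriv hζ h3) g hg c
    (linearIndependent_logDeriv hζ h3 A B hAB c hc)
    (by rw [card_option_rank_cyclotomic p h3 K, Fintype.card_fin]; exact hm) u
    (logDeriv_eq_zero_of_dvd hζ h3 u n hn)

end generic

section five

local instance fact_prime_five' : Fact (Nat.Prime 5) := ⟨by norm_num⟩

theorem kummer_five (K : Type*) [Field K] [NumberField K] [IsCyclotomicExtension {5} ℚ K]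
    (u : (𝓞 K)ˣ) (hu : ∃ n : ℤ, ((5 : ℕ) : 𝓞 K) ∣ (u : 𝓞 K) - n) :
    ∃ v : (𝓞 K)ˣ, u = v ^ 5 := by
  have hζ := IsCyclotomicExtension.zeta_spec 5 ℚ K
  have hx : xA 5 ^ 3 = 0 := xA_pow 5
  have h0 : (5 : TA 5) = 0 := by
    exact_mod_cast natCast_TA_eq_zero (p := 5)
  refine kummer_of_data (p := 5) hζ (by norm_num) (m := 2) (by norm_num)
    !![1, 4, 1; 3, 1, 2] !![4, 4; 3, 4; 0, 0] (by decide)
    ![zetaUnit hζ, cycUnit hζ 2 (by norm_num)] ?_ u hu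
  intro k
  fin_cases k
  · simp [fst_PsiHom_zetaUnit, snd_PsiHom_zetaUnit, Fin.sum_univ_succ, map_ofNat]
    linear_combination ((1) : TA 5) * hx + ((1) * xA 5 + (1) * xA 5 ^ 2) * h0
  · simp [fst_PsiHom_cycUnit, snd_PsiHom_cycUnit, Fin.sum_univ_succ, Finset.sum_range_succ, map_ofNat]
    linear_combination ((2) : TA 5) * hx + ((1) + (1) * xA 5 + (1) * xA 5 ^ 2) * h0

end five

section seven

local instance fact_prime_seven' : Fact (Nat.Prime 7) := ⟨by norm_num⟩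

/-- Kummer's lemma for `p = 7`. -/
theorem kummer_seven (K : Type*) [Field K] [NumberField K] [IsCyclotomicExtension {7} ℚ K]
    (u : (𝓞 K)ˣ) (hu : ∃ n : ℤ, ((7 : ℕ) : 𝓞 K) ∣ (u : 𝓞 K) - n) :
    ∃ v : (𝓞 K)ˣ, u = v ^ 7 := by
  have hζ := IsCyclotomicExtension.zeta_spec 7 ℚ K
  have hx : xA 7 ^ 5 = 0 := xA_pow 7
  have h0 : (7 : TA 7) = 0 := by
    exact_mod_cast natCast_TA_eq_zero (p := 7)
  refine kummer_of_data (p := 7) hζ (by norm_num) (m := 3) (by norm_num)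
    !![1, 6, 1, 6, 1; 4, 5, 1, 3, 2; 1, 2, 0, 4, 3]
    !![0, 3, 3; 5, 4, 0; 0, 0, 0; 1, 6, 3; 0, 0, 0] (by decide)
    ![zetaUnit hζ, cycUnit hζ 2 (by norm_num), cycUnit hζ 3 (by norm_num)] ?_ u hu
  intro k
  fin_cases k
  · simp [fst_PsiHom_zetaUnit, snd_PsiHom_zetaUnit, Fin.sum_univ_succ, map_ofNat]
    linear_combination (((1)) : TA 7) * hx + ((1) * xA 7 + (1) * xA 7 ^ 2 + (1) * xA 7 ^ 3 + (1) * xA 7 ^ 4) * h0
  · simp [fst_PsiHom_cycUnit, snd_PsiHom_cycUnit, Fin.sum_univ_succ, Finset.sum_range_succ, map_ofNat]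
    linear_combination (((2)) : TA 7) * hx + ((1) + (2) * xA 7 + (1) * xA 7 ^ 2 + (1) * xA 7 ^ 3 + (1) * xA 7 ^ 4) * h0
  · simp [fst_PsiHom_cycUnit, snd_PsiHom_cycUnit, Fin.sum_univ_succ, Finset.sum_range_succ, map_ofNat]
    linear_combination (((13) + (3) * xA 7) : TA 7) * hx + ((1) * xA 7 + (1) * xA 7 ^ 2 + (2) * xA 7 ^ 3 + (3) * xA 7 ^ 4) * h0

end seven

section eleven

local instance fact_prime_eleven' : Fact (Nat.Prime 11) := ⟨by norm_num⟩

/-- Kummer's lemma for `p = 11`. -/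
theorem kummer_eleven (K : Type*) [Field K] [NumberField K] [IsCyclotomicExtension {11} ℚ K]
    (u : (𝓞 K)ˣ) (hu : ∃ n : ℤ, ((11 : ℕ) : 𝓞 K) ∣ (u : 𝓞 K) - n) :
    ∃ v : (𝓞 K)ˣ, u = v ^ 11 := by
  have hζ := IsCyclotomicExtension.zeta_spec 11 ℚ K
  have hx : xA 11 ^ 9 = 0 := xA_pow 11
  have h0 : (11 : TA 11) = 0 := by
    exact_mod_cast natCast_TA_eq_zero (p := 11)
  refine kummer_of_data (p := 11) hζ (by norm_num) (m := 5) (by norm_num)
    !![1, 10, 1, 10, 1, 10, 1, 10, 1; 6, 8, 7, 2, 10, 6, 8, 7, 2; 1, 7, 0, 5, 6, 7, 2, 3, 0; 7, 8, 1, 8, 7, 6, 4, 0, 0; 2, 0, 10, 3, 0, 6, 5, 6, 5]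
    !![9, 6, 7, 0, 2; 1, 8, 7, 4, 2; 0, 0, 0, 0, 0; 9, 0, 1, 3, 1; 0, 0, 0, 0, 0; 0, 8, 5, 0, 1; 0, 0, 0, 0, 0; 9, 1, 5, 4, 9; 0, 0, 0, 0, 0] (by decide)
    ![zetaUnit hζ, cycUnit hζ 2 (by norm_num), cycUnit hζ 3 (by norm_num), cycUnit hζ 4 (by norm_num), cycUnit hζ 5 (by norm_num)] ?_ u hu
  intro k
  fin_cases k
  · simp [fst_PsiHom_zetaUnit, snd_PsiHom_zetaUnit, Fin.sum_univ_succ, map_ofNat]
    linear_combination (((1)) : TA 11) * hx + ((1) * xA 11 + (1) * xA 11 ^ 2 + (1) * xA 11 ^ 3 + (1) * xA 11 ^ 4 + (1) * xA 11 ^ 5 + (1) * xA 11 ^ 6 + (1) * xA 11 ^ 7 + (1) * xA 11 ^ 8) * h0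
  · simp [fst_PsiHom_cycUnit, snd_PsiHom_cycUnit, Fin.sum_univ_succ, Finset.sum_range_succ, map_ofNat]
    linear_combination (((2)) : TA 11) * hx + ((1) + (2) * xA 11 + (2) * xA 11 ^ 2 + (1) * xA 11 ^ 3 + (2) * xA 11 ^ 4 + (2) * xA 11 ^ 5 + (2) * xA 11 ^ 6 + (2) * xA 11 ^ 7 + (1) * xA 11 ^ 8) * h0
  · simp [fst_PsiHom_cycUnit, snd_PsiHom_cycUnit, Fin.sum_univ_succ, Finset.sum_range_succ, map_ofNat]
    linear_combination (((3)) : TA 11) * hx + ((2) * xA 11 + (2) * xA 11 ^ 2 + (2) * xA 11 ^ 3 + (3) * xA 11 ^ 4 + (4) * xA 11 ^ 5 + (3) * xA 11 ^ 6 + (2) * xA 11 ^ 7 + (1) * xA 11 ^ 8) * h0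
  · simp [fst_PsiHom_cycUnit, snd_PsiHom_cycUnit, Fin.sum_univ_succ, Finset.sum_range_succ, map_ofNat]
    linear_combination (((4)) : TA 11) * hx + ((2) + (6) * xA 11 + (7) * xA 11 ^ 2 + (7) * xA 11 ^ 3 + (8) * xA 11 ^ 4 + (9) * xA 11 ^ 5 + (8) * xA 11 ^ 6 + (5) * xA 11 ^ 7 + (2) * xA 11 ^ 8) * h0
  · simp [fst_PsiHom_cycUnit, snd_PsiHom_cycUnit, Fin.sum_univ_succ, Finset.sum_range_succ, map_ofNat]
    linear_combination (((141) + (85) * xA 11 + (31) * xA 11 ^ 2 + (5) * xA 11 ^ 3) : TA 11) * hx + ((5) * xA 11 ^ 2 + (11) * xA 11 ^ 3 + (12) * xA 11 ^ 4 + (10) * xA 11 ^ 5 + (10) * xA 11 ^ 6 + (13) * xA 11 ^ 7 + (15) * xA 11 ^ 8) * h0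

end eleven

section thirteen

local instance fact_prime_thirteen' : Fact (Nat.Prime 13) := ⟨by norm_num⟩

/-- Kummer's lemma for `p = 13`. -/
theorem kummer_thirteen (K : Type*) [Field K] [NumberField K] [IsCyclotomicExtension {13} ℚ K]
    (u : (𝓞 K)ˣ) (hu : ∃ n : ℤ, ((13 : ℕ) : 𝓞 K) ∣ (u : 𝓞 K) - n) :
    ∃ v : (𝓞 K)ˣ, u = v ^ 13 := by
  have hζ := IsCyclotomicExtension.zeta_spec 13 ℚ K
  have hx : xA 13 ^ 11 = 0 := xA_pow 13
  have h0 : (13 : TA 13) = 0 := by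
    exact_mod_cast natCast_TA_eq_zero (p := 13)
  refine kummer_of_data (p := 13) hζ (by norm_num) (m := 6) (by norm_num)
    !![1, 12, 1, 12, 1, 12, 1, 12, 1, 12, 1; 7, 3, 5, 4, 11, 1, 6, 10, 8, 9, 2; 1, 4, 0, 3, 10, 2, 12, 9, 0, 10, 3; 8, 3, 11, 11, 1, 1, 11, 5, 4, 9, 4; 2, 0, 12, 6, 0, 2, 11, 4, 7, 3, 5; 9, 8, 3, 8, 9, 1, 6, 7, 6, 7, 6]
    !![1, 10, 12, 7, 4, 4; 3, 2, 12, 11, 2, 1; 0, 0, 0, 0, 0, 0; 3, 10, 2, 9, 2, 2; 0, 0, 0, 0, 0, 0; 9, 7, 4, 9, 7, 11; 0, 0, 0, 0, 0, 0; 7, 11, 0, 6, 1, 1; 0, 0, 0, 0, 0, 0; 4, 6, 7, 11, 5, 2; 0, 0, 0, 0, 0, 0] (by decide)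
    ![zetaUnit hζ, cycUnit hζ 2 (by norm_num), cycUnit hζ 3 (by norm_num), cycUnit hζ 4 (by norm_num), cycUnit hζ 5 (by norm_num), cycUnit hζ 6 (by norm_num)] ?_ u hu
  intro k
  fin_cases k
  · simp [fst_PsiHom_zetaUnit, snd_PsiHom_zetaUnit, Fin.sum_univ_succ, map_ofNat]
    linear_combination (((1)) : TA 13) * hx + ((1) * xA 13 + (1) * xA 13 ^ 2 + (1) * xA 13 ^ 3 + (1) * xA 13 ^ 4 + (1) * xA 13 ^ 5 + (1) * xA 13 ^ 6 + (1) * xA 13 ^ 7 + (1) * xA 13 ^ 8 + (1) * xA 13 ^ 9 + (1) * xA 13 ^ 10) * h0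
  · simp [fst_PsiHom_cycUnit, snd_PsiHom_cycUnit, Fin.sum_univ_succ, Finset.sum_range_succ, map_ofNat]
    linear_combination (((2)) : TA 13) * hx + ((1) + (1) * xA 13 + (1) * xA 13 ^ 2 + (1) * xA 13 ^ 3 + (2) * xA 13 ^ 4 + (1) * xA 13 ^ 5 + (1) * xA 13 ^ 6 + (2) * xA 13 ^ 7 + (2) * xA 13 ^ 8 + (2) * xA 13 ^ 9 + (1) * xA 13 ^ 10) * h0
  · simp [fst_PsiHom_cycUnit, snd_PsiHom_cycUnit, Fin.sum_univ_succ, Finset.sum_range_succ, map_ofNat]
    linear_combination (((19) + (3) * xA 13) : TA 13) * hx + ((1) * xA 13 + (1) * xA 13 ^ 2 + (1) * xA 13 ^ 3 + (3) * xA 13 ^ 4 + (3) * xA 13 ^ 5 + (4) * xA 13 ^ 6 + (5) * xA 13 ^ 7 + (3) * xA 13 ^ 8 + (3) * xA 13 ^ 9 + (3) * xA 13 ^ 10) * h0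
  · simp [fst_PsiHom_cycUnit, snd_PsiHom_cycUnit, Fin.sum_univ_succ, Finset.sum_range_succ, map_ofNat]
    linear_combination (((64) + (25) * xA 13 + (4) * xA 13 ^ 2) : TA 13) * hx + ((2) + (4) * xA 13 + (7) * xA 13 ^ 2 + (10) * xA 13 ^ 3 + (9) * xA 13 ^ 4 + (5) * xA 13 ^ 5 + (5) * xA 13 ^ 6 + (7) * xA 13 ^ 7 + (7) * xA 13 ^ 8 + (7) * xA 13 ^ 9 + (7) * xA 13 ^ 10) * h0
  · simp [fst_PsiHom_cycUnit, snd_PsiHom_cycUnit, Fin.sum_univ_succ, Finset.sum_range_succ, map_ofNat]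
    linear_combination (((119) + (72) * xA 13 + (28) * xA 13 ^ 2 + (5) * xA 13 ^ 3) : TA 13) * hx + ((5) * xA 13 ^ 2 + (12) * xA 13 ^ 3 + (14) * xA 13 ^ 4 + (10) * xA 13 ^ 5 + (9) * xA 13 ^ 6 + (12) * xA 13 ^ 7 + (15) * xA 13 ^ 8 + (14) * xA 13 ^ 9 + (12) * xA 13 ^ 10) * h0
  · simp [fst_PsiHom_cycUnit, snd_PsiHom_cycUnit, Fin.sum_univ_succ, Finset.sum_range_succ, map_ofNat]
    linear_combination (((368) + (268) * xA 13 + (138) * xA 13 ^ 2 + (43) * xA 13 ^ 3 + (6) * xA 13 ^ 4) : TA 13) * hx + ((3) + (11) * xA 13 + (21) * xA 13 ^ 2 + (28) * xA 13 ^ 3 + (31) * xA 13 ^ 4 + (31) * xA 13 ^ 5 + (29) * xA 13 ^ 6 + (26) * xA 13 ^ 7 + (26) * xA 13 ^ 8 + (29) * xA 13 ^ 9 + (31) * xA 13 ^ 10) * h0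

end thirteen


end Fermat.Agent.S10.Kummer

end
-- ===== PACK-END S10/Kummer.lean

-- ===== PACK-BEGIN S04/FreySemistable.lean
section




/-!
# The integral Frey model is a semistable integral model of the Frey curve

Glue lemmas for S04 (from S60): for a Frey package `P`,
* `P.freyCurveInt.map (Int.castRingHom ℚ) = P.freyCurve`,
* `P.freyCurveInt.Δ ≠ 0`,
* `P.freyCurveInt.IsSemistableModel`.
-/

set_option autoImplicit false

namespace Fermat.Agent.S04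

open WeierstrassCurve

/-- `a ^ p ≡ 3 mod 4`. -/
lemma frey_apow_mod4 (P : FreyPackage) : ((P.a ^ P.p : ℤ) : ZMod 4) = 3 := by
  have h := P.ha4
  obtain ⟨k, hk⟩ := P.hp_odd
  push_cast
  rw [h, hk, pow_succ, pow_mul]
  have : (3 : ZMod 4) ^ 2 = 1 := by decide
  rw [this, one_pow, one_mul]

/-- `2 ∣ b`. -/
lemma frey_two_dvd_b (P : FreyPackage) : (2 : ℤ) ∣ P.b :=
  (ZMod.intCast_zmod_eq_zero_iff_dvd P.b 2).1 P.hb2

/-- `32 ∣ b ^ p`. -/
lemma frey_32_dvd_bpow (P : FreyPackage) : (32 : ℤ) ∣ P.b ^ P.p := by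
  have h2 : (2 : ℤ) ^ P.p ∣ P.b ^ P.p := pow_dvd_pow_of_dvd (frey_two_dvd_b P) _
  have h5 : (2 : ℤ) ^ 5 ∣ (2 : ℤ) ^ P.p := pow_dvd_pow _ P.hp5
  have : (32 : ℤ) = 2 ^ 5 := by norm_num
  rw [this]
  exact h5.trans h2

lemma frey_16_dvd_bpow (P : FreyPackage) : (16 : ℤ) ∣ P.b ^ P.p :=
  Dvd.dvd.trans (by norm_num) (frey_32_dvd_bpow P)

lemma frey_4_dvd_bpow (P : FreyPackage) : (4 : ℤ) ∣ P.b ^ P.p :=
  Dvd.dvd.trans (by norm_num) (frey_32_dvd_bpow P)

/-- `4 ∣ b ^ p - 1 - a ^ p`. -/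
lemma frey_four_dvd (P : FreyPackage) : (4 : ℤ) ∣ P.b ^ P.p - 1 - P.a ^ P.p := by
  have hA := frey_apow_mod4 P
  have hB : ((P.b ^ P.p : ℤ) : ZMod 4) = 0 :=
    (ZMod.intCast_zmod_eq_zero_iff_dvd _ 4).2 (frey_4_dvd_bpow P)
  apply (ZMod.intCast_zmod_eq_zero_iff_dvd _ 4).1
  rw [Int.cast_sub, Int.cast_sub, hA, hB]
  decide

/-- `16 ∣ -(a ^ p) * b ^ p`. -/
lemma frey_sixteen_dvd (P : FreyPackage) : (16 : ℤ) ∣ -(P.a ^ P.p) * (P.b ^ P.p) :=
  Dvd.dvd.mul_left (frey_16_dvd_bpow P) _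

lemma frey_four_mul_a₂ (P : FreyPackage) :
    4 * P.freyCurveInt.a₂ = P.b ^ P.p - 1 - P.a ^ P.p := by
  simp only [FreyPackage.freyCurveInt]
  exact Int.mul_ediv_cancel' (frey_four_dvd P)

lemma frey_sixteen_mul_a₄ (P : FreyPackage) :
    16 * P.freyCurveInt.a₄ = -(P.a ^ P.p) * (P.b ^ P.p) := by
  simp only [FreyPackage.freyCurveInt]
  exact Int.mul_ediv_cancel' (frey_sixteen_dvd P)

/-- The integral Frey model base-changes to the rational Frey curve. -/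
theorem freyCurveInt_map (P : FreyPackage) :
    P.freyCurveInt.map (Int.castRingHom ℚ) = P.freyCurve := by
  have h2 := frey_four_mul_a₂ P
  have h4 := frey_sixteen_mul_a₄ P
  have h2' : (4 : ℚ) * (P.freyCurveInt.a₂ : ℚ) = (P.b : ℚ) ^ P.p - 1 - (P.a : ℚ) ^ P.p := by
    exact_mod_cast h2
  have h4' : (16 : ℚ) * (P.freyCurveInt.a₄ : ℚ) = -((P.a : ℚ) ^ P.p) * ((P.b : ℚ) ^ P.p) := by
    exact_mod_cast h4
  ext
  · simp [FreyPackage.freyCurveInt, FreyPackage.freyCurve, WeierstrassCurve.map]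
  · simp only [WeierstrassCurve.map, FreyPackage.freyCurve, eq_intCast]
    rw [eq_div_iff (by norm_num : (4 : ℚ) ≠ 0), mul_comm]
    exact h2'
  · simp [FreyPackage.freyCurveInt, FreyPackage.freyCurve, WeierstrassCurve.map]
  · simp only [WeierstrassCurve.map, FreyPackage.freyCurve, eq_intCast]
    rw [eq_div_iff (by norm_num : (16 : ℚ) ≠ 0), mul_comm]
    exact h4'
  · simp [FreyPackage.freyCurveInt, FreyPackage.freyCurve, WeierstrassCurve.map]

lemma freyCurveInt_a₁ (P : FreyPackage) : P.freyCurveInt.a₁ = 1 := rfl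
lemma freyCurveInt_a₃ (P : FreyPackage) : P.freyCurveInt.a₃ = 0 := rfl
lemma freyCurveInt_a₆ (P : FreyPackage) : P.freyCurveInt.a₆ = 0 := rfl

/-- `c₄` of the integral Frey model is `A² + AB + B²` with `A = a^p`, `B = b^p`. -/
theorem freyCurveInt_c₄ (P : FreyPackage) :
    P.freyCurveInt.c₄ = (P.a ^ P.p) ^ 2 + P.a ^ P.p * P.b ^ P.p + (P.b ^ P.p) ^ 2 := by
  have h2 := frey_four_mul_a₂ P
  have h4 := frey_sixteen_mul_a₄ P
  simp only [WeierstrassCurve.c₄, WeierstrassCurve.b₂, WeierstrassCurve.b₄,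
    freyCurveInt_a₁, freyCurveInt_a₃]
  generalize P.freyCurveInt.a₂ = x at *
  generalize P.freyCurveInt.a₄ = y at *
  generalize P.a ^ P.p = A at *
  generalize P.b ^ P.p = B at *
  linear_combination (1 + 4 * x + B - A) * h2 - 3 * h4

/-- `2⁸ Δ = (a^p b^p c^p)²` for the integral Frey model. -/
theorem freyCurveInt_Δ (P : FreyPackage) :
    256 * P.freyCurveInt.Δ = (P.a ^ P.p * P.b ^ P.p * P.c ^ P.p) ^ 2 := by
  have h2 := frey_four_mul_a₂ P
  have h4 := frey_sixteen_mul_a₄ P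
  have hC := P.hFLT
  simp only [WeierstrassCurve.Δ, WeierstrassCurve.b₂, WeierstrassCurve.b₄, WeierstrassCurve.b₆,
    WeierstrassCurve.b₈, freyCurveInt_a₁, freyCurveInt_a₃, freyCurveInt_a₆]
  rw [← hC]
  generalize P.freyCurveInt.a₂ = x at *
  generalize P.freyCurveInt.a₄ = y at *
  generalize P.a ^ P.p = A at *
  generalize P.b ^ P.p = B at *
  linear_combination ((16 * y) ^ 2 * (2 + 4 * x + (B - 1 - A))) * h2
    + ((1 + (B - 1 - A)) ^ 2 * (16 * y + (-A * B))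
        - 4 * ((16 * y) ^ 2 + 16 * y * (-A * B) + (-A * B) ^ 2)) * h4

/-- The integral Frey model has nonzero discriminant. -/
theorem freyCurveInt_Δ_ne_zero (P : FreyPackage) : P.freyCurveInt.Δ ≠ 0 := by
  intro h
  have hΔ := freyCurveInt_Δ P
  rw [h, mul_zero] at hΔ
  have h0 : P.a ^ P.p * P.b ^ P.p * P.c ^ P.p ≠ 0 :=
    mul_ne_zero (mul_ne_zero (pow_ne_zero _ P.ha0) (pow_ne_zero _ P.hb0)) (pow_ne_zero _ P.hc0)
  exact pow_ne_zero 2 h0 hΔ.symm

/-- `a ^ p` and `b ^ p` are coprime. -/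
lemma frey_isCoprime_pow (P : FreyPackage) : IsCoprime (P.a ^ P.p) (P.b ^ P.p) := by
  have h : IsCoprime P.a P.b := by
    rw [← gcd_isUnit_iff, P.hgcdab]
    exact isUnit_one
  exact h.pow

/-- The integral Frey model is semistable: no prime divides both `Δ` and `c₄`. -/
theorem freyCurveInt_isSemistableModel (P : FreyPackage) : P.freyCurveInt.IsSemistableModel := by
  intro q hq hqΔ hqc₄
  have hqp : Prime (q : ℤ) := Nat.prime_iff_prime_int.mp hq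
  have hcop := frey_isCoprime_pow P
  rw [freyCurveInt_c₄] at hqc₄
  have hΔ := freyCurveInt_Δ P
  have hFLT := P.hFLT
  -- no prime divides both `A` and `B`
  have hnot : ∀ {A B : ℤ}, IsCoprime A B → (q : ℤ) ∣ A → (q : ℤ) ∣ B → False := by
    intro A B hAB hA hB
    exact hqp.not_isUnit (hAB.isUnit_of_dvd' hA hB)
  have h1 : (q : ℤ) ∣ (P.a ^ P.p * P.b ^ P.p * P.c ^ P.p) ^ 2 := by
    rw [← hΔ]; exact Dvd.dvd.mul_left hqΔ _
  have h2 : (q : ℤ) ∣ P.a ^ P.p * P.b ^ P.p * P.c ^ P.p := hqp.dvd_of_dvd_pow h1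
  rw [← hFLT] at h2
  generalize P.a ^ P.p = A at *
  generalize P.b ^ P.p = B at *
  rcases hqp.dvd_or_dvd h2 with h3 | hC
  · rcases hqp.dvd_or_dvd h3 with hA | hB
    · -- q ∣ A, so q ∣ B ^ 2
      have hB2 : (q : ℤ) ∣ B ^ 2 := by
        have : B ^ 2 = (A ^ 2 + A * B + B ^ 2) - A * (A + B) := by ring
        rw [this]
        exact dvd_sub hqc₄ (Dvd.dvd.mul_right hA _)
      exact hnot hcop hA (hqp.dvd_of_dvd_pow hB2)
    · have hA2 : (q : ℤ) ∣ A ^ 2 := by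
        have : A ^ 2 = (A ^ 2 + A * B + B ^ 2) - B * (A + B) := by ring
        rw [this]
        exact dvd_sub hqc₄ (Dvd.dvd.mul_right hB _)
      exact hnot hcop (hqp.dvd_of_dvd_pow hA2) hB
  · -- q ∣ A + B, so q ∣ A * B
    have hAB : (q : ℤ) ∣ A * B := by
      have : A * B = (A + B) * (A + B) - (A ^ 2 + A * B + B ^ 2) := by ring
      rw [this]
      exact dvd_sub (Dvd.dvd.mul_right hC _) hqc₄
    rcases hqp.dvd_or_dvd hAB with hA | hB
    · have hB : (q : ℤ) ∣ B := by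
        have : B = (A + B) - A := by ring
        rw [this]; exact dvd_sub hC hA
      exact hnot hcop hA hB
    · have hA : (q : ℤ) ∣ A := by
        have : A = (A + B) - B := by ring
        rw [this]; exact dvd_sub hC hB
      exact hnot hcop hA hB

/-- The integral Frey model is an integral model of the rational Frey curve. -/
theorem freyCurveInt_isIntegralModelOf (P : FreyPackage) :
    P.freyCurveInt.IsIntegralModelOf P.freyCurve :=
  ⟨1, by rw [one_smul, freyCurveInt_map]⟩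

end Fermat.Agent.S04

end
-- ===== PACK-END S04/FreySemistable.lean

-- ===== PACK-BEGIN G1/H180/Alg.lean
section


/-!
# G1.c-LOC (helper180): the algebra of the tame characters of level `2` at `p = 3`

In a field with `3 = 0`, let `r ^ 4 = -1` (so `r` has order `8`), `m₁ ∈ {1, 3}`, `1 ≤ m₂ ≤ 4`.
If `A = r ^ m₁` and `C = - r ^ m₂` are roots of the same polynomial `X² - ε X - 1`, `ε² = 1`,
we get a contradiction: the roots are `A`, `A³`, and `C ∈ {A, A³}` means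
`m₂ + 4 ≡ m₁` or `3 m₁ mod 8`.
-/

set_option autoImplicit false

namespace Fermat.Agent.G1.H180

variable {k : Type*} [Field k]

theorem two_ne_zero_of_three (h3 : (3 : k) = 0) : (2 : k) ≠ 0 := by
  intro h2
  have h1 : (1 : k) = 0 := by linear_combination h3 - h2
  exact one_ne_zero h1

theorem neg_one_ne_one_of_three (h3 : (3 : k) = 0) : (-1 : k) ≠ 1 := by
  intro h
  apply two_ne_zero_of_three h3
  linear_combination -h

/-- `X⁴ + 1 = (X² - X - 1)(X² + X - 1)` in characteristic `3`. -/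
theorem alg_sq (h3 : (3 : k) = 0) {A : k} (hA : A ^ 4 = -1) :
    A ^ 2 = A + 1 ∨ A ^ 2 = 2 * A + 1 := by
  have h : (A ^ 2 - A - 1) * (A ^ 2 + A - 1) = 0 := by
    have h1 : (A ^ 2 - A - 1) * (A ^ 2 + A - 1) = A ^ 4 + 1 - 3 * A ^ 2 := by ring
    rw [h1, hA, h3]
    ring
  rcases mul_eq_zero.mp h with h | h
  · left
    linear_combination h
  · right
    linear_combination h - A * h3

theorem orderOf_eq_eight (h3 : (3 : k) = 0) {r : k} (hr : r ^ 4 = -1) : orderOf r = 8 := by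
  have : Fact (Nat.Prime 2) := ⟨Nat.prime_two⟩
  have hr8 : r ^ 2 ^ (2 + 1) = 1 := by
    have h1 : r ^ 2 ^ (2 + 1) = (r ^ 4) ^ 2 := by ring
    rw [h1, hr]
    ring
  have hr4 : ¬ r ^ 2 ^ 2 = 1 := by
    have h1 : r ^ 2 ^ 2 = r ^ 4 := by ring
    rw [h1, hr]
    exact neg_one_ne_one_of_three h3
  have := orderOf_eq_prime_pow hr4 hr8
  simpa using this

theorem pow_eq_pow_mod_eight (h3 : (3 : k) = 0) {r : k} (hr : r ^ 4 = -1) {a b : ℕ}
    (h : r ^ a = r ^ b) : a % 8 = b % 8 := by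
  have hr0 : r ≠ 0 := by
    rintro rfl
    rw [zero_pow (by norm_num)] at hr
    exact one_ne_zero (neg_eq_zero.mp hr.symm)
  have hu : orderOf (Units.mk0 r hr0) = 8 := by
    rw [← orderOf_units]
    exact orderOf_eq_eight h3 hr
  have h' : (Units.mk0 r hr0) ^ a = (Units.mk0 r hr0) ^ b := by
    apply Units.ext
    rw [Units.val_pow_eq_pow_val, Units.val_pow_eq_pow_val]
    exact h
  have h7 := pow_inj_mod.mp h'
  rwa [hu] at h7

/-- The exclusion. -/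
theorem alg_excl (h3 : (3 : k) = 0) {r : k} (hr : r ^ 4 = -1)
    {m₁ m₂ : ℕ} (hm₁ : m₁ = 1 ∨ m₁ = 3) (h1 : 1 ≤ m₂) (h4 : m₂ ≤ 4) {ε : k}
    (hε : ε ^ 2 = 1)
    (hA : (r ^ m₁) ^ 2 = ε * r ^ m₁ + 1)
    (hC : (- r ^ m₂) ^ 2 = ε * (- r ^ m₂) + 1) : False := by
  have hA4 : (r ^ m₁) ^ 4 = -1 := by
    rw [← pow_mul, mul_comm, pow_mul, hr]
    rcases hm₁ with rfl | rfl
    · ring
    · ring
  have hcube : (r ^ m₁) ^ 3 = ε * (ε * r ^ m₁ + 1) + r ^ m₁ := by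
    calc (r ^ m₁) ^ 3 = r ^ m₁ * (r ^ m₁) ^ 2 := by ring
      _ = r ^ m₁ * (ε * r ^ m₁ + 1) := by rw [hA]
      _ = ε * (r ^ m₁) ^ 2 + r ^ m₁ := by ring
      _ = ε * (ε * r ^ m₁ + 1) + r ^ m₁ := by rw [hA]
  have hsum : r ^ m₁ + (r ^ m₁) ^ 3 = ε := by
    rw [hcube]
    linear_combination r ^ m₁ * hε + r ^ m₁ * h3
  have hprod : (- r ^ m₂ - r ^ m₁) * (- r ^ m₂ - (r ^ m₁) ^ 3) = 0 := by
    have h5 : (- r ^ m₂ - r ^ m₁) * (- r ^ m₂ - (r ^ m₁) ^ 3) =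
        (- r ^ m₂) ^ 2 - (r ^ m₁ + (r ^ m₁) ^ 3) * (- r ^ m₂) + (r ^ m₁) ^ 4 := by ring
    rw [h5, hsum, hA4, hC]
    ring
  have hC' : - r ^ m₂ = r ^ (m₂ + 4) := by
    rw [pow_add, hr]
    ring
  rcases mul_eq_zero.mp hprod with h | h
  · have h6 : r ^ (m₂ + 4) = r ^ m₁ := by
      rw [← hC']
      exact sub_eq_zero.mp h
    have h7 := pow_eq_pow_mod_eight h3 hr h6
    rcases hm₁ with rfl | rfl <;> omega
  · have h6 : r ^ (m₂ + 4) = r ^ (m₁ * 3) := by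
      rw [← hC', pow_mul]
      exact sub_eq_zero.mp h
    have h7 := pow_eq_pow_mod_eight h3 hr h6
    rcases hm₁ with rfl | rfl <;> omega

end Fermat.Agent.G1.H180

end
-- ===== PACK-END G1/H180/Alg.lean

-- ===== PACK-BEGIN LT/H952/M2.lean
section


/-!
# Row LT, block GLUE2, leaf G2b-GRP (owner helper952): 2×2 matrices over `𝔽₃` as 4-tuples

Pure finite computations (kernel `decide`), no group theory.  All statements are about the
structure `M2` of 4-tuples over `ZMod 3`; the bridge to `GL (Fin 2) (ZMod 3)` is in `Bridge.lean`.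
-/

set_option autoImplicit false

namespace Fermat.Agent.LT.H952

/-- A `2 × 2` matrix over `𝔽₃`, as a 4-tuple. -/
structure M2 where
  a : ZMod 3
  b : ZMod 3
  c : ZMod 3
  d : ZMod 3
deriving DecidableEq

namespace M2

def one : M2 := ⟨1, 0, 0, 1⟩

def mul (m n : M2) : M2 :=
  ⟨m.a * n.a + m.b * n.c, m.a * n.b + m.b * n.d, m.c * n.a + m.d * n.c, m.c * n.b + m.d * n.d⟩

def neg (m : M2) : M2 := ⟨-m.a, -m.b, -m.c, -m.d⟩

def det (m : M2) : ZMod 3 := m.a * m.d - m.b * m.c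

/-- The inverse of a matrix of determinant `±1`. -/
def inv (m : M2) : M2 := ⟨m.det * m.d, -(m.det * m.b), -(m.det * m.c), m.det * m.a⟩

/-- Powers with exponent in `Fin 3`. -/
def pw (m : M2) (k : Fin 3) : M2 :=
  if k = 0 then one else if k = 1 then m else mul m m

/-- The fourth power. -/
def pow4 (m : M2) : M2 := mul (mul m m) (mul m m)

/-- `m` has order exactly 3. -/
def IsOrd3 (m : M2) : Prop := mul (mul m m) m = one ∧ m ≠ one

instance (m : M2) : Decidable (IsOrd3 m) := by unfold IsOrd3; infer_instance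

/-- `(x, y)` is a nonzero vector fixed by `m`. -/
def Fixes (m : M2) (x y : ZMod 3) : Prop :=
  (x ≠ 0 ∨ y ≠ 0) ∧ m.a * x + m.b * y = x ∧ m.c * x + m.d * y = y

instance (m : M2) (x y : ZMod 3) : Decidable (Fixes m x y) := by unfold Fixes; infer_instance

/-- `h` does not stabilise the line through `(x, y)`. -/
def Moves (h : M2) (x y : ZMod 3) : Prop :=
  ∀ t : ZMod 3, ¬ (h.a * x + h.b * y = t * x ∧ h.c * x + h.d * y = t * y)

instance (h : M2) (x y : ZMod 3) : Decidable (Moves h x y) := by unfold Moves; infer_instance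

/-- The word `g₁^i g₂^j g₁^k g₂^l`. -/
def word (g₁ g₂ : M2) (i j k l : Fin 3) : M2 :=
  mul (mul (pw g₁ i) (pw g₂ j)) (mul (pw g₁ k) (pw g₂ l))

/-! ### Elementary facts -/

theorem unit_cases : ∀ z : ZMod 3, z ≠ 0 → z = 1 ∨ z = -1 := by decide

theorem one_ne_neg_one : (1 : ZMod 3) ≠ -1 := by decide

set_option maxRecDepth 100000 in
/-- An element of order 3 fixes a nonzero vector. -/
theorem fixed_of_ord3 : ∀ a b c d : ZMod 3, IsOrd3 ⟨a, b, c, d⟩ →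
    ∃ x y : ZMod 3, Fixes ⟨a, b, c, d⟩ x y := by
  decide

/-- Inverses are given by `inv`. -/
def InvSpec (m : M2) : Prop := ∀ a b c d : ZMod 3, mul m ⟨a, b, c, d⟩ = one → (⟨a, b, c, d⟩ : M2) = inv m

instance (m : M2) : Decidable (InvSpec m) := by unfold InvSpec; infer_instance

set_option maxRecDepth 1000000 in
theorem inv_spec : ∀ a b c d : ZMod 3, InvSpec ⟨a, b, c, d⟩ := by
  decide

/-! ### Case (i): an element of order 3 -/

/-- Conjugating an element `g` of order 3 by `h` moving its fixed line gives an element of order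
3 that does not commute with `g`. -/
def ConjSpec (g : M2) (x y : ZMod 3) : Prop :=
  ∀ a b c d : ZMod 3, det ⟨a, b, c, d⟩ ≠ 0 → Moves ⟨a, b, c, d⟩ x y →
    IsOrd3 (mul (mul ⟨a, b, c, d⟩ g) (inv ⟨a, b, c, d⟩)) ∧
      mul g (mul (mul ⟨a, b, c, d⟩ g) (inv ⟨a, b, c, d⟩)) ≠
        mul (mul (mul ⟨a, b, c, d⟩ g) (inv ⟨a, b, c, d⟩)) g

instance (g : M2) (x y : ZMod 3) : Decidable (ConjSpec g x y) := by
  unfold ConjSpec; infer_instance

def ConjSpecAll (g : M2) : Prop := ∀ x y : ZMod 3, Fixes g x y → ConjSpec g x y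

instance (g : M2) : Decidable (ConjSpecAll g) := by unfold ConjSpecAll; infer_instance

set_option maxRecDepth 1000000 in
set_option maxHeartbeats 4000000 in
theorem conj_spec : ∀ a b c d : ZMod 3, IsOrd3 ⟨a, b, c, d⟩ → ConjSpecAll ⟨a, b, c, d⟩ := by
  decide

/-- Every matrix of determinant 1 is a word `g₁^i g₂^j g₁^k g₂^l`. -/
def Gen (g₁ g₂ : M2) : Prop :=
  ∀ a b c d : ZMod 3, det ⟨a, b, c, d⟩ = 1 →
    ∃ i j k l : Fin 3, (⟨a, b, c, d⟩ : M2) = word g₁ g₂ i j k l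

instance (g₁ g₂ : M2) : Decidable (Gen g₁ g₂) := by unfold Gen; infer_instance

def GenAll (g₁ : M2) : Prop :=
  ∀ a₂ b₂ c₂ d₂ : ZMod 3, IsOrd3 ⟨a₂, b₂, c₂, d₂⟩ →
    mul g₁ ⟨a₂, b₂, c₂, d₂⟩ ≠ mul ⟨a₂, b₂, c₂, d₂⟩ g₁ → Gen g₁ ⟨a₂, b₂, c₂, d₂⟩

instance (g₁ : M2) : Decidable (GenAll g₁) := by unfold GenAll; infer_instance

set_option maxRecDepth 1000000 in
set_option maxHeartbeats 4000000 in
/-- Two non-commuting elements of order 3 give every matrix of determinant 1 as a word. -/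
theorem word_of_det_one : ∀ a₁ b₁ c₁ d₁ : ZMod 3, IsOrd3 ⟨a₁, b₁, c₁, d₁⟩ →
    GenAll ⟨a₁, b₁, c₁, d₁⟩ := by
  decide

/-! ### Case (ii): no element of order 3 -/

set_option maxRecDepth 1000000 in
/-- A matrix of determinant 1 has order dividing 4, or order 3, or its square has order 3. -/
theorem order_cases : ∀ a b c d : ZMod 3, det ⟨a, b, c, d⟩ = 1 →
    pow4 ⟨a, b, c, d⟩ = one ∨ IsOrd3 ⟨a, b, c, d⟩ ∨ IsOrd3 (mul ⟨a, b, c, d⟩ ⟨a, b, c, d⟩) := by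
  decide

/-- `c` is an involution of determinant `-1`. -/
def IsInv2 (c : M2) : Prop := mul c c = one ∧ det c = -1

instance (c : M2) : Decidable (IsInv2 c) := by unfold IsInv2; infer_instance

/-- `g` lies in `Q₈ ∪ c Q₈`, where `Q₈ = {m : det m = 1, m⁴ = 1}`. -/
def InP (c g : M2) : Prop :=
  (det g = 1 ∧ pow4 g = one) ∨ (det g = -1 ∧ pow4 (mul c g) = one)

instance (c g : M2) : Decidable (InP c g) := by unfold InP; infer_instance

/-- `g` commutes with `c`. -/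
def Comm (c g : M2) : Prop := mul g c = mul c g

instance (c g : M2) : Decidable (Comm c g) := by unfold Comm; infer_instance

/-- `g` commutes or anticommutes with `c`. -/
def Norm (c g : M2) : Prop := mul g c = mul c g ∨ mul g c = neg (mul c g)

instance (c g : M2) : Decidable (Norm c g) := by unfold Norm; infer_instance

/-- The block character is multiplicative on `Q₈ ∪ c Q₈`. -/
def BlockMul (c g : M2) : Prop :=
  ∀ a b c' d : ZMod 3, InP c ⟨a, b, c', d⟩ →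
    (Norm c (mul g ⟨a, b, c', d⟩) ↔ (Norm c g ↔ Norm c ⟨a, b, c', d⟩))

instance (c g : M2) : Decidable (BlockMul c g) := by unfold BlockMul; infer_instance

def BlockMulAll (c : M2) : Prop := ∀ a b c' d : ZMod 3, InP c ⟨a, b, c', d⟩ → BlockMul c ⟨a, b, c', d⟩

instance (c : M2) : Decidable (BlockMulAll c) := by unfold BlockMulAll; infer_instance

set_option maxRecDepth 1000000 in
set_option maxHeartbeats 4000000 in
theorem block_mul : ∀ a b c d : ZMod 3, IsInv2 ⟨a, b, c, d⟩ → BlockMulAll ⟨a, b, c, d⟩ := by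
  decide

/-- The swap character is multiplicative on the normaliser of `{c, -c}`. -/
def SwapMul (c g : M2) : Prop :=
  ∀ a b c' d : ZMod 3, det ⟨a, b, c', d⟩ ≠ 0 → Norm c ⟨a, b, c', d⟩ →
    (Comm c (mul g ⟨a, b, c', d⟩) ↔ (Comm c g ↔ Comm c ⟨a, b, c', d⟩))

instance (c g : M2) : Decidable (SwapMul c g) := by unfold SwapMul; infer_instance

def SwapMulAll (c : M2) : Prop :=
  ∀ a b c' d : ZMod 3, det ⟨a, b, c', d⟩ ≠ 0 → Norm c ⟨a, b, c', d⟩ → SwapMul c ⟨a, b, c', d⟩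

instance (c : M2) : Decidable (SwapMulAll c) := by unfold SwapMulAll; infer_instance

set_option maxRecDepth 1000000 in
set_option maxHeartbeats 4000000 in
theorem swap_mul : ∀ a b c d : ZMod 3, IsInv2 ⟨a, b, c, d⟩ → SwapMulAll ⟨a, b, c, d⟩ := by
  decide

set_option maxRecDepth 1000000 in
/-- An involution of determinant `-1` fixes a nonzero vector. -/
theorem fixed_of_inv2 : ∀ a b c d : ZMod 3, IsInv2 ⟨a, b, c, d⟩ →
    ∃ x y : ZMod 3, Fixes ⟨a, b, c, d⟩ x y := by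
  decide

/-- A matrix commuting with `c` stabilises the line fixed by `c`. -/
def CommStab (c : M2) (x y : ZMod 3) : Prop :=
  ∀ a b c' d : ZMod 3, Comm c ⟨a, b, c', d⟩ → ¬ Moves ⟨a, b, c', d⟩ x y

instance (c : M2) (x y : ZMod 3) : Decidable (CommStab c x y) := by
  unfold CommStab; infer_instance

def CommStabAll (c : M2) : Prop := ∀ x y : ZMod 3, Fixes c x y → CommStab c x y

instance (c : M2) : Decidable (CommStabAll c) := by unfold CommStabAll; infer_instance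

set_option maxRecDepth 1000000 in
set_option maxHeartbeats 4000000 in
theorem comm_stab : ∀ a b c d : ZMod 3, IsInv2 ⟨a, b, c, d⟩ → CommStabAll ⟨a, b, c, d⟩ := by
  decide

end M2

end Fermat.Agent.LT.H952

end
-- ===== PACK-END LT/H952/M2.lean

-- ===== PACK-BEGIN S48/H188/Mat.lean
section


/-!
# S48 / P0 — integer matrices acting by the slash operator (helper188)

`gl a b c d` is the element of `GL₂(ℝ)` with integer entries `a b c d` (junk value `1` when the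
determinant vanishes).  Everything that follows is stated through `gl`, so that identities between
slash operators reduce to identities between integers.
-/

set_option autoImplicit false

open scoped MatrixGroups ModularForm
open UpperHalfPlane CongruenceSubgroup Matrix

namespace Fermat.Agent.S48.H188

noncomputable section

/-- The element of `GL₂(ℝ)` with integer entries `a b c d`. -/
def gl (a b c d : ℤ) : GL (Fin 2) ℝ :=
  if h : ((a : ℝ) * d - b * c) ≠ 0 then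
    Matrix.GeneralLinearGroup.mkOfDetNeZero !![(a : ℝ), b; c, d]
      (by rwa [Matrix.det_fin_two_of])
  else 1

lemma gl_ne {a b c d : ℤ} (h : a * d - b * c ≠ 0) : ((a : ℝ) * d - b * c) ≠ 0 := by
  exact_mod_cast h

lemma gl_val {a b c d : ℤ} (h : a * d - b * c ≠ 0) :
    ((gl a b c d : GL (Fin 2) ℝ) : Matrix (Fin 2) (Fin 2) ℝ) = !![(a : ℝ), b; c, d] := by
  simp [gl, gl_ne h, Matrix.GeneralLinearGroup.mkOfDetNeZero]

lemma gl_det {a b c d : ℤ} (h : a * d - b * c ≠ 0) :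
    ((gl a b c d).det : ℝ) = a * d - b * c := by
  rw [Matrix.GeneralLinearGroup.val_det_apply, gl_val h, Matrix.det_fin_two_of]

lemma gl_mul {a b c d a' b' c' d' : ℤ} (h : a * d - b * c ≠ 0) (h' : a' * d' - b' * c' ≠ 0) :
    gl a b c d * gl a' b' c' d' =
      gl (a * a' + b * c') (a * b' + b * d') (c * a' + d * c') (c * b' + d * d') := by
  have h'' : (a * a' + b * c') * (c * b' + d * d') - (a * b' + b * d') * (c * a' + d * c') ≠ 0 := by
    have : (a * a' + b * c') * (c * b' + d * d') - (a * b' + b * d') * (c * a' + d * c')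
        = (a * d - b * c) * (a' * d' - b' * c') := by ring
    rw [this]; exact mul_ne_zero h h'
  apply Units.ext
  rw [Units.val_mul, gl_val h, gl_val h', gl_val h'']
  rw [Matrix.mul_fin_two]
  push_cast
  rfl

lemma gl_one : gl 1 0 0 1 = 1 := by
  apply Units.ext
  rw [gl_val (by norm_num)]
  simp [Matrix.one_fin_two]

/-- The coercion of `SL₂(ℤ)` into `GL₂(ℝ)` in terms of `gl`. -/
lemma coe_SL_eq_gl (γ : SL(2, ℤ)) :
    (γ : GL (Fin 2) ℝ) = gl (γ 0 0) (γ 0 1) (γ 1 0) (γ 1 1) := by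
  have hdet : (γ 0 0) * (γ 1 1) - (γ 0 1) * (γ 1 0) = 1 := by
    have := γ.det_coe
    rwa [Matrix.det_fin_two] at this
  apply Units.ext
  rw [gl_val (by rw [hdet]; norm_num)]
  ext i j
  fin_cases i <;> fin_cases j <;> simp

/-- The element of `SL₂(ℤ)` with entries `a b c d`. -/
def sl (a b c d : ℤ) (h : a * d - b * c = 1) : SL(2, ℤ) :=
  ⟨!![a, b; c, d], by rw [Matrix.det_fin_two_of]; exact h⟩

@[simp] lemma sl_00 (a b c d : ℤ) (h : a * d - b * c = 1) : (sl a b c d h) 0 0 = a := rfl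
@[simp] lemma sl_01 (a b c d : ℤ) (h : a * d - b * c = 1) : (sl a b c d h) 0 1 = b := rfl
@[simp] lemma sl_10 (a b c d : ℤ) (h : a * d - b * c = 1) : (sl a b c d h) 1 0 = c := rfl
@[simp] lemma sl_11 (a b c d : ℤ) (h : a * d - b * c = 1) : (sl a b c d h) 1 1 = d := rfl

lemma coe_sl (a b c d : ℤ) (h : a * d - b * c = 1) :
    ((sl a b c d h : SL(2, ℤ)) : GL (Fin 2) ℝ) = gl a b c d := by
  rw [coe_SL_eq_gl]; rfl

lemma SL_det_eq (γ : SL(2, ℤ)) : (γ 0 0) * (γ 1 1) - (γ 0 1) * (γ 1 0) = 1 := by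
  have := γ.det_coe
  rwa [Matrix.det_fin_two] at this

variable {k : ℤ}

/-- Slash by a product of integer matrices. -/
lemma slash_gl_mul (F : ℍ → ℂ) {a b c d a' b' c' d' : ℤ}
    (h : a * d - b * c ≠ 0) (h' : a' * d' - b' * c' ≠ 0) :
    (F ∣[k] gl a b c d) ∣[k] gl a' b' c' d' =
      F ∣[k] gl (a * a' + b * c') (a * b' + b * d') (c * a' + d * c') (c * b' + d * d') := by
  rw [← SlashAction.slash_mul, gl_mul h h']

/-- Slash by an element of `SL₂(ℤ)` followed by an integer matrix. -/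
lemma slash_SL_gl (F : ℍ → ℂ) (γ : SL(2, ℤ)) {a' b' c' d' : ℤ} (h' : a' * d' - b' * c' ≠ 0) :
    (F ∣[k] γ) ∣[k] gl a' b' c' d' =
      F ∣[k] gl (γ 0 0 * a' + γ 0 1 * c') (γ 0 0 * b' + γ 0 1 * d')
        (γ 1 0 * a' + γ 1 1 * c') (γ 1 0 * b' + γ 1 1 * d') := by
  rw [ModularForm.SL_slash, coe_SL_eq_gl, slash_gl_mul F (by rw [SL_det_eq]; norm_num) h']

/-- Slash by an integer matrix followed by an element of `SL₂(ℤ)`. -/
lemma slash_gl_SL (F : ℍ → ℂ) (γ : SL(2, ℤ)) {a b c d : ℤ} (h : a * d - b * c ≠ 0) :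
    (F ∣[k] gl a b c d) ∣[k] γ =
      F ∣[k] gl (a * γ 0 0 + b * γ 1 0) (a * γ 0 1 + b * γ 1 1)
        (c * γ 0 0 + d * γ 1 0) (c * γ 0 1 + d * γ 1 1) := by
  rw [ModularForm.SL_slash, coe_SL_eq_gl, slash_gl_mul F h (by rw [SL_det_eq]; norm_num)]

lemma slash_SL_eq_gl (F : ℍ → ℂ) (γ : SL(2, ℤ)) :
    F ∣[k] γ = F ∣[k] gl (γ 0 0) (γ 0 1) (γ 1 0) (γ 1 1) := by
  rw [ModularForm.SL_slash, coe_SL_eq_gl]

/-- The action of an upper triangular integer matrix with positive diagonal on `ℍ`. -/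
lemma coe_gl_upper_smul {a b d : ℤ} (ha : 0 < a) (hd : 0 < d) (τ : ℍ) :
    ((gl a b 0 d • τ : ℍ) : ℂ) = ((a : ℂ) * τ + b) / d := by
  have hdet : a * d - b * 0 ≠ 0 := by
    simp only [mul_zero, sub_zero]; exact (mul_pos ha hd).ne'
  have hpos : 0 < ((gl a b 0 d).det : ℝ) := by
    rw [gl_det hdet]; push_cast; simp only [mul_zero, sub_zero]
    exact_mod_cast mul_pos ha hd
  rw [UpperHalfPlane.coe_smul_of_det_pos hpos]
  simp [UpperHalfPlane.num, UpperHalfPlane.denom, gl_val hdet]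

lemma slash_gl_upper_apply (F : ℍ → ℂ) {a b d : ℤ} (ha : 0 < a) (hd : 0 < d) (τ : ℍ) :
    (F ∣[k] gl a b 0 d) τ = F (gl a b 0 d • τ) * ((a : ℂ) * d) ^ (k - 1) * (d : ℂ) ^ (-k) := by
  have hdet : a * d - b * 0 ≠ 0 := by
    simp only [mul_zero, sub_zero]; exact (mul_pos ha hd).ne'
  have hpos : 0 < ((gl a b 0 d).det : ℝ) := by
    rw [gl_det hdet]; push_cast; simp only [mul_zero, sub_zero]
    exact_mod_cast mul_pos ha hd
  rw [ModularForm.slash_apply]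
  have h1 : UpperHalfPlane.σ (gl a b 0 d) = ContinuousAlgEquiv.refl ℝ ℂ := by
    unfold UpperHalfPlane.σ
    rw [if_pos hpos]
  have h2 : |((gl a b 0 d).det : ℝ)| = (a : ℝ) * d := by
    rw [abs_of_pos hpos, gl_det hdet]; push_cast; ring
  rw [h1, h2]
  simp [UpperHalfPlane.denom, gl_val hdet]

end

end Fermat.Agent.S48.H188

end
-- ===== PACK-END S48/H188/Mat.lean

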