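import Mathlib
import Fermat.Prelude.Def_FLTPrelim_Modularity
import Fermat.Statements.S01
import Fermat.Prelude.Def_GaloisRep_ComplexConjugation
import Fermat.Agent.Pack.L1.E0L0
import Fermat.Agent.Pack.L1.E0L2
import Fermat.Agent.Pack.L1.E0L3
import Fermat.Agent.Pack.S44C.G0E0L3
import Fermat.Agent.Pack.S43GC.G0E2L2
import Fermat.Agent.Pack.S43MC.G0E2L2
import Fermat.Agent.Pack.L1.E1L3
import Fermat.Agent.Pack.L1.E1L2
import Fermat.Agent.Pack.L1.E1L0
import Fermat.Agent.Pack.L1.E1L1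

-- ===== PACK-BEGIN S52/Fam/Tables.lean
section



/-!
# S52 / Fam: coefficient tables of the family data and bridges to the explicit definitions.
-/

set_option autoImplicit false
set_option linter.unusedVariables false

namespace Fermat.Agent.S52.Fam

open Fermat.Agent.S52.Refl

variable {R : Type*} [CommRing R]

/-- table of `q5` (outer index: degree in `τ`, inner: degree in `c`). -/
def q5L : List (List ℤ) :=
  [[1],
   [7, 66, -5],
   [-38, -264, 1772, -264, 10],
   [62, 396, -966, 24552, -5358, 396, -10],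
   [-43, -264, -3364, -48312, 164046, -48312, 5372, -264, 5],
   [11, 66, 2563, 24024, -80938, 475596, -163042, 24024, -1793, 66, -1]]

/-- table of `q5'`. -/
def q5L' : List (List ℤ) :=
  [[1],
   [-5, -66, 7],
   [10, 264, 1772, 264, -38],
   [-10, -396, -5358, -24552, -966, -396, 62],
   [5, 264, 5372, 48312, 164046, 48312, -3364, 264, -43],
   [-1, -66, -1793, -24024, -163042, -475596, -80938, -24024, 2563, -66, 11]]

/-- table of `tc4`. -/
def tc4L : List ℤ := [1, 12, 14, -12, 1]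

/-- table of `tc6`. -/
def tc6L : List ℤ := [-1, -18, -75, 0, -75, 18, -1]

/-- table of `tΔ`. -/
def tΔL : List ℤ := [0, 0, 0, 0, 0, -1, -11, 1]

/-- sparse table of `Fk`: entries `(k, a, b, j)` for `k * c₄^a * c₆^b * τ^j`. -/
def FkT : List (ℤ × ℕ × ℕ × ℕ) :=
  [(1, 0, 0, 0),
   (-66, 1, 0, 2),
   (-440, 0, 1, 3),
   (-1485, 2, 0, 4),
   (-3168, 1, 1, 5),
   (-10560, 0, 2, 6),
   (5940, 3, 0, 6),
   (-4752, 2, 1, 7),
   (63360, 1, 2, 8),
   (-66825, 4, 0, 8),
   (140800, 0, 3, 9),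
   (-142560, 3, 1, 9),
   (133056, 2, 2, 10),
   (-133650, 5, 0, 10),
   (61440, 1, 3, 11),
   (-61560, 4, 1, 11),
   (102400, 0, 4, 12),
   (-193536, 3, 2, 12),
   (91125, 6, 0, 12)]

/-- sparse table of `C4`. -/
def C4T : List (ℤ × ℕ × ℕ × ℕ) :=
  [(1, 1, 0, 0),
   (20, 0, 1, 1),
   (190, 2, 0, 2),
   (1140, 1, 1, 3),
   (5700, 0, 2, 4),
   (-855, 3, 0, 4),
   (15504, 2, 1, 5),
   (-63840, 1, 2, 6),
   (102600, 4, 0, 6),
   (-182400, 0, 3, 7),
   (259920, 3, 1, 7),
   (1126320, 2, 2, 8),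
   (-1000350, 5, 0, 8),
   (7904000, 1, 3, 9),
   (-7736040, 4, 1, 9),
   (15808000, 0, 4, 10),
   (-5619744, 3, 2, 10),
   (-10003500, 6, 0, 10),
   (54853760, 2, 3, 11),
   (-54685800, 5, 1, 11),
   (37939200, 1, 4, 12),
   (7202520, 4, 2, 12),
   (-45015750, 7, 0, 12),
   (58368000, 0, 5, 13),
   (-23201280, 3, 3, 13),
   (-35089200, 6, 1, 13),
   (287462400, 2, 4, 14),
   (-495188640, 5, 2, 14),
   (207765000, 8, 0, 14),
   (466944000, 1, 5, 15),
   (-882458496, 4, 3, 15),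
   (415530000, 7, 1, 15),
   (583680000, 0, 6, 16),
   (-1220474880, 3, 4, 16),
   (714711600, 6, 2, 16),
   (-77911875, 9, 0, 16),
   (361881600, 2, 5, 17),
   (-715080960, 5, 3, 17),
   (353200500, 8, 1, 17),
   (-622592000, 1, 6, 18),
   (2026391040, 4, 4, 18),
   (-2182917600, 7, 2, 18),
   (779118750, 10, 0, 18),
   (-655360000, 0, 7, 19),
   (2005401600, 3, 5, 19),
   (-2044414080, 6, 3, 19),
   (694372500, 9, 1, 19),
   (-180224000, 2, 6, 20),
   (544997376, 5, 4, 20),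
   (-549301500, 8, 2, 20),
   (184528125, 11, 0, 20)]

/-- sparse table of `C6`. -/
def C6T : List (ℤ × ℕ × ℕ × ℕ) :=
  [(1, 0, 1, 0),
   (30, 2, 0, 1),
   (435, 1, 1, 2),
   (2900, 0, 2, 3),
   (1160, 3, 0, 3),
   (27405, 2, 1, 4),
   (46980, 1, 2, 5),
   (95526, 4, 0, 5),
   (156600, 0, 3, 6),
   (437175, 3, 1, 6),
   (3915000, 2, 2, 7),
   (-1879200, 5, 0, 7),
   (14407200, 1, 3, 8),
   (-8554275, 4, 1, 8),
   (32016000, 0, 4, 9),
   (-42021000, 3, 2, 9),
   (24312150, 6, 0, 9),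
   (-216588240, 2, 3, 10),
   (246633255, 5, 1, 10),
   (-1459929600, 1, 4, 11),
   (1352475900, 4, 2, 11),
   (162081000, 7, 0, 11),
   (-2433216000, 0, 5, 12),
   (-1612005600, 3, 3, 12),
   (4131714825, 6, 1, 12),
   (-12044419200, 2, 4, 13),
   (5235216300, 5, 2, 13),
   (6928962750, 8, 0, 13),
   (-43045111800, 4, 3, 14),
   (43190534475, 7, 1, 14),
   (-79420170240, 3, 4, 15),
   (79575287760, 6, 2, 15),
   (-297825638400, 2, 5, 16),
   (474659611200, 5, 3, 16),
   (-176688550125, 8, 1, 16),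
   (-700766208000, 1, 6, 17),
   (935084908800, 4, 4, 17),
   (77604382800, 7, 2, 17),
   (-311803323750, 10, 0, 17),
   (-778629120000, 0, 7, 18),
   (-303665356800, 3, 5, 18),
   (2776512362400, 6, 3, 18),
   (-1694131392375, 9, 1, 18),
   (-4290656256000, 2, 6, 19),
   (8100765158400, 5, 4, 19),
   (-3481840250100, 8, 2, 19),
   (-328214025000, 11, 0, 19),
   (-3442360320000, 1, 7, 20),
   (3892110842880, 4, 5, 20),
   (2424887357760, 7, 3, 20),
   (-2874607835625, 10, 1, 20),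
   (-3278438400000, 0, 8, 21),
   (5125838438400, 3, 6, 21),
   (-2709129888000, 6, 4, 21),
   (3077188825500, 9, 2, 21),
   (-2215444668750, 12, 0, 21),
   (-4573421568000, 2, 7, 22),
   (7701051801600, 5, 5, 22),
   (-1724509423800, 8, 3, 22),
   (-1403114956875, 11, 1, 22),
   (6157762560000, 1, 8, 23),
   (-30337884979200, 4, 6, 23),
   (49888700928000, 7, 4, 23),
   (-33414470973000, 10, 2, 23),
   (7705894500000, 13, 0, 23),
   (5131468800000, 0, 9, 24),
   (-22779445248000, 3, 7, 24),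
   (35246094796800, 6, 5, 24),
   (-22687218914400, 9, 3, 24),
   (5089101159375, 12, 1, 24),
   (-18216714240000, 2, 8, 25),
   (71274600677376, 5, 6, 25),
   (-105528606261120, 8, 4, 25),
   (70097953635000, 11, 2, 25),
   (-17627233668750, 14, 0, 25),
   (-41051750400000, 1, 9, 26),
   (163803539865600, 4, 7, 26),
   (-245438120632320, 7, 5, 26),
   (163672057566000, 10, 3, 26),
   (-40985726371875, 13, 1, 26),
   (-30408704000000, 0, 10, 27),
   (111934439424000, 3, 8, 27),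
   (-143803576074240, 6, 6, 27),
   (63806176396800, 9, 4, 27),
   (8104032382500, 12, 2, 27),
   (-9632368125000, 15, 0, 27),
   (-21438136320000, 2, 9, 28),
   (85731449241600, 5, 7, 28),
   (-128580522647040, 8, 5, 28),
   (85719228804000, 11, 3, 28),
   (-21432019078125, 14, 1, 28),
   (5033164800000, 1, 10, 29),
   (-31344427008000, 4, 8, 29),
   (75042714746880, 7, 6, 29),
   (-87394892457600, 10, 4, 29),
   (49873523512500, 13, 2, 29),
   (-11210083593750, 16, 0, 29),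
   (3355443200000, 0, 11, 30),
   (-17532190720000, 3, 9, 30),
   (36574189977600, 6, 7, 30),
   (-38083944628224, 9, 5, 30),
   (19796866155000, 12, 3, 30),
   (-4110363984375, 15, 1, 30)]

lemma tc4_eq_ueval (c : R) : tc4 c = ueval c tc4L := by
  simp only [tc4, tc4L, ueval]; push_cast; ring

lemma tc6_eq_ueval (c : R) : tc6 c = ueval c tc6L := by
  simp only [tc6, tc6L, ueval]; push_cast; ring

lemma tΔ_eq_ueval (c : R) : tΔ c = ueval c tΔL := by
  simp only [tΔ, tΔL, ueval]; push_cast; ring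

lemma q5_eq_beval (c τ : R) : q5 c τ = beval c τ q5L := by
  simp only [q5, q5_0, q5_1, q5_2, q5_3, q5_4, q5_5, q5L, beval, ueval]; push_cast; ring

lemma q5'_eq_beval (c τ : R) : q5' c τ = beval c τ q5L' := by
  simp only [q5', q5'_0, q5'_1, q5'_2, q5'_3, q5'_4, q5'_5, q5L', beval, ueval]; push_cast; ring

lemma Fk_eq_teval (c₄ c₆ τ : R) : Fk c₄ c₆ τ = teval c₄ c₆ τ FkT := by
  simp only [Fk, Fk_0, Fk_2, Fk_3, Fk_4, Fk_5, Fk_6, Fk_7, Fk_8, Fk_9, Fk_10, Fk_11, Fk_12, FkT, teval]; push_cast; ring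

lemma C4_eq_teval (c₄ c₆ τ : R) : C4 c₄ c₆ τ = teval c₄ c₆ τ C4T := by
  simp only [C4, C4_0, C4_1, C4_2, C4_3, C4_4, C4_5, C4_6, C4_7, C4_8, C4_9, C4_10, C4_11, C4_12, C4_13, C4_14, C4_15, C4_16, C4_17, C4_18, C4_19, C4_20, C4T, teval]; push_cast; ring

set_option maxHeartbeats 1000000 in
lemma C6_eq_teval (c₄ c₆ τ : R) : C6 c₄ c₆ τ = teval c₄ c₆ τ C6T := by
  simp only [C6, C6_0, C6_1, C6_2, C6_3, C6_4, C6_5, C6_6, C6_7, C6_8, C6_9, C6_10, C6_11, C6_12, C6_13, C6_14, C6_15, C6_16, C6_17, C6_18, C6_19, C6_20, C6_21, C6_22, C6_23, C6_24, C6_25, C6_26, C6_27, C6_28, C6_29, C6_30, C6T, teval]; push_cast; ring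

end Fermat.Agent.S52.Fam

end
-- ===== PACK-END S52/Fam/Tables.lean

-- ===== PACK-BEGIN S52/Fam/Ident.lean
section


/-!
# S52 / Fam: the key identities of the explicit 5-congruent family, checked by kernel computation.

* `C4_tate_one`, `C6_tate_one`: the curve with invariants `(C4, C6)(tc4 c, tc6 c, τ)` is the Tate normal
  form with homogeneous parameters `(X, Z) = (c * q5 c τ, q5' c τ)`.
-/

set_option autoImplicit false

namespace Fermat.Agent.S52.Fam

open Fermat.Agent.S52.Refl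

variable {R : Type*} [CommRing R]

/-- table of `X = c * q5`. -/
def XL : List (List ℤ) := bsmul [0, 1] q5L

lemma beval_XL (c τ : R) : beval c τ XL = c * q5 c τ := by
  rw [XL, beval_bsmul, ← q5_eq_beval]; simp [ueval]

/-- `C4hom` on tables. -/
def C4homL (X Z : List (List ℤ)) : List (List ℤ) :=
  badd (bpow X 4) (badd (bzsmul (-12) (bmul (bpow X 3) Z))
    (badd (bzsmul 14 (bmul (bpow X 2) (bpow Z 2)))
      (badd (bzsmul 12 (bmul X (bpow Z 3))) (bpow Z 4))))

lemma beval_C4homL (c τ : R) (X Z : List (List ℤ)) :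
    beval c τ (C4homL X Z) = C4hom (beval c τ X) (beval c τ Z) := by
  simp only [C4homL, C4hom, beval_badd, beval_bzsmul, beval_bmul, beval_bpow]
  push_cast; ring

/-- `X⁴ - 18X³Z + 74X²Z² + 18XZ³ + Z⁴` on tables. -/
def G4L (X Z : List (List ℤ)) : List (List ℤ) :=
  badd (bpow X 4) (badd (bzsmul (-18) (bmul (bpow X 3) Z))
    (badd (bzsmul 74 (bmul (bpow X 2) (bpow Z 2)))
      (badd (bzsmul 18 (bmul X (bpow Z 3))) (bpow Z 4))))

/-- `C6hom` on tables. -/
def C6homL (X Z : List (List ℤ)) : List (List ℤ) :=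
  bzsmul (-1) (bmul (badd (bpow X 2) (bpow Z 2)) (G4L X Z))

lemma beval_C6homL (c τ : R) (X Z : List (List ℤ)) :
    beval c τ (C6homL X Z) = C6hom (beval c τ X) (beval c τ Z) := by
  simp only [C6homL, G4L, C6hom, beval_badd, beval_bzsmul, beval_bmul, beval_bpow]
  push_cast; ring

theorem check_I1 : beq (tsubst tc4L tc6L C4T) (C4homL XL q5L') = true := by
  decide +kernel

theorem check_I2 : beq (tsubst tc4L tc6L C6T) (C6homL XL q5L') = true := by
  decide +kernel

/-- **(I1)** -/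
theorem C4_tate_one (c τ : R) :
    C4 (tc4 c) (tc6 c) τ = C4hom (c * q5 c τ) (q5' c τ) := by
  rw [C4_eq_teval, tc4_eq_ueval, tc6_eq_ueval, ← beval_tsubst,
    beval_eq_of_beq c τ _ _ check_I1, beval_C4homL, beval_XL, ← q5'_eq_beval]

/-- **(I2)** -/
theorem C6_tate_one (c τ : R) :
    C6 (tc4 c) (tc6 c) τ = C6hom (c * q5 c τ) (q5' c τ) := by
  rw [C6_eq_teval, tc4_eq_ueval, tc6_eq_ueval, ← beval_tsubst,
    beval_eq_of_beq c τ _ _ check_I2, beval_C6homL, beval_XL, ← q5'_eq_beval]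

end Fermat.Agent.S52.Fam

end
-- ===== PACK-END S52/Fam/Ident.lean

-- ===== PACK-BEGIN S52/H531/Hensel.lean
section
/-
S52 / piece B3 (Hilbert irreducibility by hand), helper531.
Part 2: truncated Newton (Hensel) lifting of a simple root of the depressed quartic
over a polynomial ring `F[X]`.
-/


namespace Fermat.Agent.S52.H531

open Polynomial

theorem eval_zero_quart {F : Type*} [CommRing F] (A B C P : F[X]) :
    (quart A B C P).eval 0 = quart (A.eval 0) (B.eval 0) (C.eval 0) (P.eval 0) :=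
  map_quart (evalRingHom (0 : F)) A B C P

theorem eval_quart {F : Type*} [CommRing F] (A B C P : F[X]) (t : F) :
    (quart A B C P).eval t = quart (A.eval t) (B.eval t) (C.eval t) (P.eval t) :=
  map_quart (evalRingHom t) A B C P

theorem eval_zero_quartD {F : Type*} [CommRing F] (A B P : F[X]) :
    (quartD A B P).eval 0 = quartD (A.eval 0) (B.eval 0) (P.eval 0) :=
  map_quartD (evalRingHom (0 : F)) A B P

theorem X_dvd_of_eval_zero {F : Type*} [CommRing F] {p : F[X]} (h : p.eval 0 = 0) : X ∣ p := by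
  rw [X_dvd_iff, coeff_zero_eq_eval_zero]; exact h

/-- Truncated Hensel lifting: a simple root `ρ` of the quartic at `t = 0` lifts to a polynomial
`P` of degree `≤ k` with `P(0) = ρ` solving the quartic modulo `X^(k+1)`. -/
theorem exists_newton_trunc {F : Type*} [Field F] (A B C : F[X]) (ρ : F)
    (hρ : quart (A.eval 0) (B.eval 0) (C.eval 0) ρ = 0)
    (hd : quartD (A.eval 0) (B.eval 0) ρ ≠ 0) (k : ℕ) :
    ∃ P : F[X], P.eval 0 = ρ ∧ P.natDegree ≤ k ∧ X ^ (k + 1) ∣ quart A B C P := by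
  induction k with
  | zero =>
    refine ⟨Polynomial.C ρ, by simp, by simp, ?_⟩
    rw [zero_add, pow_one]
    apply X_dvd_of_eval_zero
    rw [eval_zero_quart]; simpa using hρ
  | succ k ih =>
    obtain ⟨P, hP0, hPdeg, G, hG⟩ := ih
    set d := quartD (A.eval 0) (B.eval 0) ρ with hd_def
    set c : F := -(G.eval 0) / d with hc
    set h : F[X] := Polynomial.C c * X ^ (k + 1) with hh
    refine ⟨P + h, ?_, ?_, ?_⟩
    · simp [hh, hP0]
    · apply (natDegree_add_le _ _).trans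
      apply max_le (hPdeg.trans (Nat.le_succ k))
      rw [hh]
      exact (natDegree_C_mul_le _ _).trans (natDegree_X_pow_le _)
    · have hX : X ∣ G + Polynomial.C c * quartD A B P + Polynomial.C c * h * quartR A P h := by
        apply X_dvd_of_eval_zero
        have hh0 : h.eval 0 = 0 := by simp [hh]
        rw [eval_add, eval_add, eval_mul, eval_mul, eval_mul, eval_C, eval_zero_quartD, hP0, hh0]
        rw [← hd_def, hc]
        field_simp
        ring
      obtain ⟨H, hH⟩ := hX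
      refine ⟨H, ?_⟩
      rw [quart_taylor, hG]
      have : X ^ (k + 1) * G + h * quartD A B P + h ^ 2 * quartR A P h
          = X ^ (k + 1) * (G + Polynomial.C c * quartD A B P + Polynomial.C c * h * quartR A P h) := by
        rw [hh]; ring
      rw [this, hH]
      ring

end Fermat.Agent.S52.H531

end
-- ===== PACK-END S52/H531/Hensel.lean

-- ===== PACK-BEGIN S52/H531/Local.lean
section
/-
S52 / piece B3 (Hilbert irreducibility by hand), helper531.
Part 3: real estimates.  Root localisation for small `t`, and closeness of a real root to the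
truncated Newton polynomial.
-/


namespace Fermat.Agent.S52.H531

open Polynomial

/-- A real polynomial is bounded on `[-1, 1]`. -/
theorem exists_bound_on_unit (p : ℝ[X]) : ∃ M : ℝ, 0 ≤ M ∧ ∀ t : ℝ, |t| ≤ 1 → |p.eval t| ≤ M := by
  obtain ⟨M, hM⟩ := (isCompact_Icc (a := (-1 : ℝ)) (b := 1)).exists_bound_of_continuousOn
    (f := fun t => p.eval t) p.continuous.continuousOn
  refine ⟨max M 0, le_max_right _ _, fun t ht => ?_⟩
  have := hM t ⟨(abs_le.mp ht).1, (abs_le.mp ht).2⟩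
  rw [Real.norm_eq_abs] at this
  exact this.trans (le_max_left _ _)

/-- Local estimate: near a simple root `ρ` of the quartic at `t = 0`, every real root `z` of the
quartic at a small `t` is `O(|t|^(k+1))`-close to the value `P(t)` of an approximate root `P`. -/
theorem root_close_to_newton (A B C P G : ℝ[X]) (k : ℕ) (ρ : ℝ)
    (hP0 : P.eval 0 = ρ) (hG : quart A B C P = X ^ (k + 1) * G)
    (hd : quartD (A.eval 0) (B.eval 0) ρ ≠ 0) :
    ∃ η : ℝ, 0 < η ∧ ∃ K : ℝ, 0 ≤ K ∧ ∀ t z : ℝ, |t| ≤ η → |z - ρ| ≤ η →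
      quart (A.eval t) (B.eval t) (C.eval t) z = 0 → |z - P.eval t| ≤ K * |t| ^ (k + 1) := by
  set d := quartD (A.eval 0) (B.eval 0) ρ with hd_def
  have hdpos : 0 < |d| := abs_pos.mpr hd
  -- the continuous function Φ
  let φ : ℝ × ℝ → ℝ := fun p =>
    quartD (A.eval p.1) (B.eval p.1) (P.eval p.1)
      + (p.2 - P.eval p.1) * quartR (A.eval p.1) (P.eval p.1) (p.2 - P.eval p.1)
  have hφc : Continuous φ := by
    have hA : Continuous fun p : ℝ × ℝ => A.eval p.1 := A.continuous.comp continuous_fst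
    have hB : Continuous fun p : ℝ × ℝ => B.eval p.1 := B.continuous.comp continuous_fst
    have hPc : Continuous fun p : ℝ × ℝ => P.eval p.1 := P.continuous.comp continuous_fst
    show Continuous fun p : ℝ × ℝ =>
      quartD (A.eval p.1) (B.eval p.1) (P.eval p.1)
      + (p.2 - P.eval p.1) * quartR (A.eval p.1) (P.eval p.1) (p.2 - P.eval p.1)
    unfold quartD quartR
    fun_prop
  have hφ0 : φ (0, ρ) = d := by
    simp only [φ, hP0, sub_self, zero_mul, add_zero, hd_def]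
  obtain ⟨δ, hδ, hδφ⟩ := (Metric.continuous_iff.mp hφc) (0, ρ) (|d| / 2) (by positivity)
  obtain ⟨G0, hG0, hGb⟩ := exists_bound_on_unit G
  refine ⟨min (δ / 2) 1, by positivity, 2 * G0 / |d|, by positivity, fun t z ht hz hroot => ?_⟩
  have ht1 : |t| ≤ 1 := ht.trans (min_le_right _ _)
  have htδ : |t| < δ := lt_of_le_of_lt (ht.trans (min_le_left _ _)) (by linarith)
  have hzδ : |z - ρ| < δ := lt_of_le_of_lt (hz.trans (min_le_left _ _)) (by linarith)
  have hdist : dist ((t, z) : ℝ × ℝ) (0, ρ) < δ := by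
    rw [Prod.dist_eq]
    simp only [Real.dist_eq, sub_zero]
    exact max_lt htδ hzδ
  have hφ1 := hδφ (t, z) hdist
  rw [hφ0, Real.dist_eq] at hφ1
  -- |φ(t,z)| ≥ |d|/2
  have hφlow : |d| / 2 ≤ |φ (t, z)| := by
    have h1 : |d| - |φ (t, z)| ≤ |φ (t, z) - d| := by
      have := abs_sub_abs_le_abs_sub d (φ (t, z))
      rwa [abs_sub_comm d] at this
    linarith
  -- the identity
  have hval : quart (A.eval t) (B.eval t) (C.eval t) (P.eval t) = t ^ (k + 1) * G.eval t := by
    rw [← eval_quart, hG]; simp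
  have hid : (z - P.eval t) * φ (t, z) = -(t ^ (k + 1) * G.eval t) := by
    have := quart_sub (A.eval t) (B.eval t) (C.eval t) z (P.eval t)
    rw [hroot, hval] at this
    simp only [φ]
    linarith
  have habs : |z - P.eval t| * |φ (t, z)| = |t| ^ (k + 1) * |G.eval t| := by
    rw [← abs_mul, hid, abs_neg, abs_mul, abs_pow]
  have hGt := hGb t ht1
  have hpow : 0 ≤ |t| ^ (k + 1) := by positivity
  have h2 : |z - P.eval t| * (|d| / 2) ≤ |t| ^ (k + 1) * G0 := by
    calc |z - P.eval t| * (|d| / 2) ≤ |z - P.eval t| * |φ (t, z)| :=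
          mul_le_mul_of_nonneg_left hφlow (abs_nonneg _)
      _ = |t| ^ (k + 1) * |G.eval t| := habs
      _ ≤ |t| ^ (k + 1) * G0 := mul_le_mul_of_nonneg_left hGt hpow
  rw [div_mul_eq_mul_div, le_div_iff₀ hdpos]
  nlinarith

/-- Root localisation: for small `t`, every real root of the quartic at `t` is close to a real
root of the quartic at `0`. -/
theorem root_near_root (A B C : ℝ[X]) (ε : ℝ) (hε : 0 < ε) :
    ∃ δ : ℝ, 0 < δ ∧ ∀ t z : ℝ, |t| ≤ δ →
      quart (A.eval t) (B.eval t) (C.eval t) z = 0 →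
      ∃ ρ : ℝ, quart (A.eval 0) (B.eval 0) (C.eval 0) ρ = 0 ∧ |z - ρ| < ε := by
  obtain ⟨MA, hMA0, hMA⟩ := exists_bound_on_unit A
  obtain ⟨MB, hMB0, hMB⟩ := exists_bound_on_unit B
  obtain ⟨MC, hMC0, hMC⟩ := exists_bound_on_unit C
  set B0 : ℝ := 1 + MA + MB + MC with hB0
  have hB01 : 1 ≤ B0 := by linarith
  set ψ0 : ℝ → ℝ := fun z => quart (A.eval 0) (B.eval 0) (C.eval 0) z with hψ0
  have hψc : Continuous ψ0 := by
    show Continuous fun z => quart (A.eval 0) (B.eval 0) (C.eval 0) z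
    unfold quart; fun_prop
  -- the compact set of points far from all roots
  set Kset : Set ℝ := Set.Icc (-B0) B0 ∩ {z | ∀ ρ : ℝ, ψ0 ρ = 0 → ε ≤ |z - ρ|} with hK
  have hKclosed : IsClosed Kset := by
    apply IsClosed.inter isClosed_Icc
    have : {z : ℝ | ∀ ρ : ℝ, ψ0 ρ = 0 → ε ≤ |z - ρ|}
        = ⋂ ρ : ℝ, ⋂ _ : ψ0 ρ = 0, {z : ℝ | ε ≤ |z - ρ|} := by
      ext z; simp
    rw [this]
    apply isClosed_iInter; intro ρ
    apply isClosed_iInter; intro _
    exact isClosed_le continuous_const (by fun_prop)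
  have hKcompact : IsCompact Kset :=
    IsCompact.of_isClosed_subset isCompact_Icc hKclosed Set.inter_subset_left
  -- a root z at time t (|t| ≤ 1) is bounded and has small ψ0
  have hroot_bound : ∀ t z : ℝ, |t| ≤ 1 → quart (A.eval t) (B.eval t) (C.eval t) z = 0 →
      |z| ≤ B0 := by
    intro t z ht hz
    apply quart_root_bound hB01 _ _ _ hz
    · exact (hMA t ht).trans (by linarith)
    · exact (hMB t ht).trans (by linarith)
    · exact (hMC t ht).trans (by linarith)
  have hψsmall : ∀ t z : ℝ, |z| ≤ B0 → quart (A.eval t) (B.eval t) (C.eval t) z = 0 →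
      |ψ0 z| ≤ (|A.eval t - A.eval 0| + |B.eval t - B.eval 0| + |C.eval t - C.eval 0|)
        * B0 ^ 2 := by
    intro t z hzB hz
    have hid : ψ0 z = -((A.eval t - A.eval 0) * z ^ 2 + (B.eval t - B.eval 0) * z
        + (C.eval t - C.eval 0)) := by
      simp only [hψ0]
      unfold quart at hz ⊢
      linarith
    rw [hid, abs_neg]
    have hz2 : |z| ^ 2 ≤ B0 ^ 2 := by
      apply pow_le_pow_left₀ (abs_nonneg _) hzB
    have hz1 : |z| ≤ B0 ^ 2 := by nlinarith [abs_nonneg z]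
    have h1' : (1 : ℝ) ≤ B0 ^ 2 := by nlinarith
    calc |(A.eval t - A.eval 0) * z ^ 2 + (B.eval t - B.eval 0) * z + (C.eval t - C.eval 0)|
        ≤ |(A.eval t - A.eval 0) * z ^ 2| + |(B.eval t - B.eval 0) * z|
            + |C.eval t - C.eval 0| := abs_add_three _ _ _
      _ = |A.eval t - A.eval 0| * |z| ^ 2 + |B.eval t - B.eval 0| * |z|
            + |C.eval t - C.eval 0| := by rw [abs_mul, abs_mul, abs_pow]
      _ ≤ |A.eval t - A.eval 0| * B0 ^ 2 + |B.eval t - B.eval 0| * B0 ^ 2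
            + |C.eval t - C.eval 0| * B0 ^ 2 := by
          have e1 := mul_le_mul_of_nonneg_left hz2 (abs_nonneg (A.eval t - A.eval 0))
          have e2 := mul_le_mul_of_nonneg_left hz1 (abs_nonneg (B.eval t - B.eval 0))
          have e3 := mul_le_mul_of_nonneg_left h1' (abs_nonneg (C.eval t - C.eval 0))
          linarith
      _ = _ := by ring
  by_cases hne : Kset.Nonempty
  · obtain ⟨zs, hzs, hmin⟩ := hKcompact.exists_isMinOn hne
      (f := fun z => |ψ0 z|) (continuous_abs.comp hψc).continuousOn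
    have hμ : 0 < |ψ0 zs| := by
      apply abs_pos.mpr
      intro h0
      have := hzs.2 zs h0
      simp at this
      linarith
    set μ := |ψ0 zs| with hμdef
    -- continuity of the three coefficient polynomials at 0
    have hcont : Continuous fun t : ℝ =>
        (|A.eval t - A.eval 0| + |B.eval t - B.eval 0| + |C.eval t - C.eval 0|) * B0 ^ 2 := by
      have hA := A.continuous
      have hB := B.continuous
      have hC := C.continuous
      fun_prop
    obtain ⟨δ, hδ, hδc⟩ := (Metric.continuous_iff.mp hcont) 0 μ hμ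
    refine ⟨min (δ / 2) 1, by positivity, fun t z ht hz => ?_⟩
    have ht1 : |t| ≤ 1 := ht.trans (min_le_right _ _)
    have htδ : dist t 0 < δ := by
      rw [Real.dist_eq, sub_zero]
      exact lt_of_le_of_lt (ht.trans (min_le_left _ _)) (by linarith)
    have hsm := hδc t htδ
    simp only [sub_self, abs_zero, add_zero, zero_mul, Real.dist_eq, sub_zero] at hsm
    have hzB := hroot_bound t z ht1 hz
    have hψz := hψsmall t z hzB hz
    have hlt : |ψ0 z| < μ := lt_of_le_of_lt hψz (lt_of_le_of_lt (le_abs_self _) hsm)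
    by_contra hcon
    rw [not_exists] at hcon
    have hzK : z ∈ Kset := by
      refine ⟨⟨(abs_le.mp hzB).1, (abs_le.mp hzB).2⟩, fun ρ hρ => ?_⟩
      by_contra hlt'
      rw [not_le] at hlt'
      exact hcon ρ ⟨hρ, hlt'⟩
    have := hmin hzK
    simp only [isMinOn_iff] at hmin
    have h3 := hmin z hzK
    linarith
  · refine ⟨1, one_pos, fun t z ht hz => ?_⟩
    have hzB := hroot_bound t z ht hz
    by_contra hcon
    rw [not_exists] at hcon
    apply hne
    refine ⟨z, ⟨(abs_le.mp hzB).1, (abs_le.mp hzB).2⟩, fun ρ hρ => ?_⟩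
    by_contra hlt'
    rw [not_le] at hlt'
    exact hcon ρ ⟨hρ, hlt'⟩

end Fermat.Agent.S52.H531

end
-- ===== PACK-END S52/H531/Local.lean

-- ===== PACK-BEGIN S15/H302/Alg0Abs.lean
section



/-!
# Row S15, node DESC, leaf ALG0 (helper302): the abstract algebra

`J` an abelian group with an action of a monoid `G` and of a commutative ring `T`, the two actions
commuting; `η i ∈ T` a family ("Eisenstein operators"); `r > 0`.  Put `A = J^G`,
`W_E = {w | r w = 0, every η i nilpotent on w}`, `Y_E = {y | r y ∈ A, σ y - y ∈ W_E}`.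

`alg0_descCore_of_selBound`: if `J = r J`, `J[n]` is finite for all `n > 0`, the rational torsion
has bounded exponent and `[Y_E : A + W_E] ≤ |W_E ∩ A|` (finite index), then every `z ∈ A` which is
killed by all `η i` modulo `r A + A_tors` lies in `r A + A_tors`.

Proof.  `X = J[r e']` (`e'` = exponent of the rational torsion) is a finite `T`-module; let `f` be
the splitting element of `S15.H2.exists_isSplit` at `𝔪 = (η i)`: `f ∈ 𝔪`, `1 - f` projects `X` onto
its `𝔪`-primary part.  `T_E := A_tors ∩ ker f`.  Then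
`[Y_E : A + W_E] = [r Y_E : r A ∩ r Y_E] ≥ [T_E : r A ∩ T_E] = [T_E : r T_E] = |T_E[r]| = |W_E ∩ A|`,
so equality holds and `r Y_E ≤ T_E + r A`.  For `z = r y`: `(1 - f) y ∈ Y_E`, so
`z - f z ∈ T_E + r A`, and `f z ∈ r A + A_tors` because `f ∈ (η i)`.
-/

set_option autoImplicit false

namespace Fermat.Agent.S15.H302

section Index

variable {J : Type*} [AddCommGroup J]

/-- For a finite subgroup `Tg` and a subgroup `R` with `R ∩ Tg = r Tg`:
`[Tg : R ∩ Tg] = |Tg[r]|`. -/
theorem alg0_relIndex_eq_card (Tg R K : AddSubgroup J) (r : ℕ) (hfin : Finite ↥Tg)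
    (hR : ∀ t ∈ Tg, t ∈ R ↔ ∃ t' ∈ Tg, r • t' = t)
    (hK : ∀ t, t ∈ K ↔ t ∈ Tg ∧ r • t = 0) :
    R.relIndex Tg = Nat.card ↥K := by
  classical
  let g : ↥Tg →+ ↥Tg := nsmulAddMonoidHom r
  have hg : ∀ t : ↥Tg, ((g t : ↥Tg) : J) = r • (t : J) := fun t => rfl
  have hrange : R.addSubgroupOf Tg = g.range := by
    ext t
    rw [AddSubgroup.mem_addSubgroupOf, AddMonoidHom.mem_range]
    constructor
    · intro h
      obtain ⟨t', ht', h'⟩ := (hR t.1 t.2).1 h
      exact ⟨⟨t', ht'⟩, Subtype.ext h'⟩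
    · rintro ⟨t', rfl⟩
      exact (hR _ (g t').2).2 ⟨t'.1, t'.2, rfl⟩
  have hker : Nat.card ↥g.ker = Nat.card ↥K := by
    refine Nat.card_congr
      { toFun := fun t => ⟨t.1.1, (hK _).2 ⟨t.1.2, ?_⟩⟩
        invFun := fun k => ⟨⟨k.1, ((hK _).1 k.2).1⟩, ?_⟩
        left_inv := fun t => rfl
        right_inv := fun k => rfl }
    · have := t.2
      rw [AddMonoidHom.mem_ker] at this
      have h2 := congrArg (Subtype.val) this
      simpa [hg] using h2
    · rw [AddMonoidHom.mem_ker]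
      apply Subtype.ext
      rw [hg]
      exact ((hK _).1 k.2).2
  rw [AddSubgroup.relIndex, hrange, AddSubgroup.index_range, hker]

/-- If `Tg ≤ M` and `[M : R ∩ M] ≤ [Tg : R ∩ Tg]` (finite), then `M ≤ Tg + R`. -/
theorem alg0_le_sup_of_relIndex_le (R Tg M : AddSubgroup J) (hTM : Tg ≤ M)
    (h0 : R.relIndex M ≠ 0) (hle : R.relIndex M ≤ R.relIndex Tg) : M ≤ Tg ⊔ R := by
  set N : AddSubgroup J := R ⊓ M with hN
  have hNM : N ≤ M := inf_le_right
  have h1 : N.relIndex M = R.relIndex M := AddSubgroup.inf_relIndex_right R M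
  have h2 : N.relIndex (Tg ⊔ N) * (Tg ⊔ N).relIndex M = N.relIndex M :=
    AddSubgroup.relIndex_mul_relIndex N (Tg ⊔ N) M le_sup_right (sup_le hTM hNM)
  have h3 : N.relIndex (Tg ⊔ N) = R.relIndex Tg := by
    rw [AddSubgroup.relIndex_sup_right]
    rw [← AddSubgroup.inf_relIndex_right N Tg, ← AddSubgroup.inf_relIndex_right R Tg]
    congr 1
    rw [hN, inf_assoc, inf_eq_right.2 hTM]
  rw [h3, h1] at h2
  have h4 : (Tg ⊔ N).relIndex M = 1 := by
    have hpos : 0 < R.relIndex Tg := by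
      rcases Nat.eq_zero_or_pos (R.relIndex Tg) with h | h
      · rw [h, zero_mul] at h2
        exact absurd h2.symm h0
      · exact h
    have h5 : R.relIndex Tg * (Tg ⊔ N).relIndex M ≤ R.relIndex Tg * 1 := by
      rw [h2, mul_one]
      exact hle
    have h6 : (Tg ⊔ N).relIndex M ≤ 1 := Nat.le_of_mul_le_mul_left h5 hpos
    have h7 : (Tg ⊔ N).relIndex M ≠ 0 := by
      intro h
      rw [h, mul_zero] at h2
      exact h0 h2.symm
    omega
  exact (AddSubgroup.relIndex_eq_one.1 h4).trans (sup_le_sup_left inf_le_left Tg)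

end Index

section Main

variable {J : Type*} [AddCommGroup J] {G : Type*} [Monoid G] [DistribMulAction G J]
  {T : Type*} [CommRing T] [Module T J]

/-- **ALG0, abstract form**: the descent core from the Selmer bound. -/
theorem alg0_descCore_of_selBound
    (hcomm : ∀ (t : T) (σ : G) (x : J), t • σ • x = σ • t • x)
    {ι : Type*} (η : ι → T) (r : ℕ) (hr : 0 < r)
    (hdiv : ∀ x : J, ∃ y : J, r • y = x)
    (hfin : ∀ n : ℕ, 0 < n → {x : J | n • x = 0}.Finite)
    (hrtf : ∃ e : ℕ, 0 < e ∧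
      ∀ t : J, (∀ σ : G, σ • t = t) → (∃ m : ℕ, 0 < m ∧ m • t = 0) → e • t = 0)
    (A WE YE : AddSubgroup J)
    (hA : ∀ x, x ∈ A ↔ ∀ σ : G, σ • x = x)
    (hWE : ∀ w, w ∈ WE ↔ r • w = 0 ∧ ∀ i, ∃ k : ℕ, η i ^ k • w = 0)
    (hYE : ∀ y, y ∈ YE ↔ (∀ σ : G, σ • (r • y) = r • y) ∧ ∀ σ : G, σ • y - y ∈ WE)
    (hsel : (A ⊔ WE).relIndex YE ≠ 0 ∧ (A ⊔ WE).relIndex YE ≤ Nat.card ↥(WE ⊓ A))
    (z : J) (hz : ∀ σ : G, σ • z = z)
    (hEis : ∀ i, ∃ w : J, (∀ σ : G, σ • w = w) ∧
      ∃ m : ℕ, 0 < m ∧ m • (η i • z - r • w) = 0) :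
    ∃ w : J, (∀ σ : G, σ • w = w) ∧ ∃ m : ℕ, 0 < m ∧ m • (z - r • w) = 0 := by
  classical
  obtain ⟨e', he', hrtf⟩ := hrtf
  set n := r * e' with hn
  have hnpos : 0 < n := Nat.mul_pos hr he'
  -- the finite `T`-module `X = J[n]`
  let X : Submodule T J :=
    { carrier := {x | n • x = 0}
      zero_mem' := smul_zero n
      add_mem' := fun {a b} ha hb => by
        show n • (a + b) = 0
        rw [smul_add, show n • a = 0 from ha, show n • b = 0 from hb, add_zero]
      smul_mem' := fun t x hx => by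
        show n • (t • x) = 0
        rw [smul_comm, show n • x = 0 from hx, smul_zero] }
  have hXfin : Finite ↥X := Set.finite_coe_iff.2 (hfin n hnpos)
  let 𝔪 : Ideal T := Ideal.span (Set.range η)
  obtain ⟨K, f, hsplit⟩ := Fermat.Agent.S15.H2.exists_isSplit 𝔪 ↥X
  have hfm : f ∈ 𝔪 := by
    have := hsplit.pow_mem 1
    simpa using this
  have hidem : ∀ x : J, n • x = 0 → f • f • x = f • x := fun x hx =>
    congrArg Subtype.val (hsplit.idem ⟨x, hx⟩)
  have hkill : ∀ t ∈ 𝔪 ^ K, ∀ x : J, n • x = 0 → t • (x - f • x) = 0 := fun t ht x hx =>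
    congrArg Subtype.val (hsplit.kill t ht ⟨x, hx⟩)
  -- (a) `x - f x` is Eisenstein
  have hEisOf : ∀ x : J, n • x = 0 → ∀ i, ∃ k : ℕ, η i ^ k • (x - f • x) = 0 := fun x hx i =>
    ⟨K, hkill _ (Ideal.pow_mem_pow (Ideal.subset_span (Set.mem_range_self i)) K) x hx⟩
  -- (b) `f` kills the Eisenstein elements of `X`
  have hfzero : ∀ x : J, n • x = 0 → (∀ i, ∃ k : ℕ, η i ^ k • x = 0) → f • x = 0 := by
    intro x hx h
    have hle : 𝔪 ≤ (Ideal.torsionOf T J x).radical := by
      refine Ideal.span_le.2 ?_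
      rintro _ ⟨i, rfl⟩
      obtain ⟨k, hk⟩ := h i
      exact ⟨k, (Ideal.mem_torsionOf_iff _ _).2 hk⟩
    obtain ⟨k, hk⟩ := hle hfm
    have hk' : f ^ k • x = 0 := (Ideal.mem_torsionOf_iff _ _).1 hk
    have h1 : f ^ (k + 1) • x = f • x :=
      congrArg Subtype.val (hsplit.pow_smul ⟨x, hx⟩ (k + 1) (by omega))
    rw [← h1, pow_succ', mul_smul, hk', smul_zero]
  -- (c) `T` preserves the rational points
  have hTA : ∀ (t : T) (a : J), (∀ σ : G, σ • a = a) → ∀ σ : G, σ • (t • a) = t • a :=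
    fun t a ha σ => by rw [← hcomm, ha σ]
  -- torsion facts
  have hW_X : ∀ w : J, r • w = 0 → n • w = 0 := fun w hw => by
    rw [hn, mul_comm, mul_smul, hw, smul_zero]
  have hdivX : ∀ y t : J, r • y = t → e' • t = 0 → n • y = 0 := fun y t hy ht => by
    rw [hn, mul_comm, mul_smul, hy, ht]
  -- `W ∋ w ↦ w - f w ∈ W_E`
  have hprojW : ∀ w : J, r • w = 0 → w - f • w ∈ WE := fun w hw => by
    rw [hWE]
    refine ⟨?_, hEisOf w (hW_X w hw)⟩
    rw [smul_sub, smul_comm r f w, hw, smul_zero, sub_zero]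
  -- `y ↦ y - f y` maps `{y | r y ∈ A}` into `Y_E`
  have hprojY : ∀ y : J, (∀ σ : G, σ • (r • y) = r • y) → y - f • y ∈ YE := fun y hy => by
    rw [hYE]
    refine ⟨fun σ => ?_, fun σ => ?_⟩
    · rw [smul_sub, smul_comm r f y, smul_sub, hy σ, hTA f _ hy σ]
    · have h1 : σ • (y - f • y) - (y - f • y) = (σ • y - y) - f • (σ • y - y) := by
        rw [smul_sub, smul_sub, hcomm]
        abel
      rw [h1]
      refine hprojW _ ?_
      rw [smul_sub, smul_comm r σ y, hy σ, sub_self]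
  -- the Eisenstein rational torsion
  let Tg : AddSubgroup J :=
    { carrier := {t | (∀ σ : G, σ • t = t) ∧ e' • t = 0 ∧ f • t = 0}
      zero_mem' := ⟨fun σ => smul_zero σ, smul_zero _, smul_zero _⟩
      add_mem' := by
        rintro a b ⟨ha, ha', ha''⟩ ⟨hb, hb', hb''⟩
        exact ⟨fun σ => by rw [smul_add, ha σ, hb σ], by rw [smul_add, ha', hb', add_zero],
          by rw [smul_add, ha'', hb'', add_zero]⟩
      neg_mem' := by
        rintro a ⟨ha, ha', ha''⟩
        exact ⟨fun σ => by rw [smul_neg, ha σ], by rw [smul_neg, ha', neg_zero],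
          by rw [smul_neg, ha'', neg_zero]⟩ }
  have hTg : ∀ t : J, t ∈ Tg ↔ (∀ σ : G, σ • t = t) ∧ e' • t = 0 ∧ f • t = 0 := fun _ => Iff.rfl
  have hTgfin : Finite ↥Tg :=
    Set.finite_coe_iff.2 ((hfin e' he').subset fun t ht => ht.2.1)
  let φ : J →+ J := nsmulAddMonoidHom r
  have hφ : ∀ x : J, φ x = r • x := fun _ => rfl
  set R : AddSubgroup J := A.map φ with hRdef
  have hRmem : ∀ x : J, x ∈ R ↔ ∃ a : J, (∀ σ : G, σ • a = a) ∧ r • a = x := by
    intro x
    rw [hRdef, AddSubgroup.mem_map]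
    constructor
    · rintro ⟨a, ha, rfl⟩
      exact ⟨a, (hA a).1 ha, rfl⟩
    · rintro ⟨a, ha, rfl⟩
      exact ⟨a, (hA a).2 ha, rfl⟩
  -- Part I: `[T_E : r A ∩ T_E] = |W_E ∩ A|`
  have hI : R.relIndex Tg = Nat.card ↥(WE ⊓ A) := by
    refine alg0_relIndex_eq_card Tg R (WE ⊓ A) r hTgfin ?_ ?_
    · intro t ht
      constructor
      · intro htR
        obtain ⟨a, ha, hat⟩ := (hRmem t).1 htR
        have hna : n • a = 0 := hdivX a t hat ht.2.1
        have hea : e' • a = 0 := hrtf a ha ⟨n, hnpos, hna⟩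
        refine ⟨a - f • a, ⟨fun σ => by rw [smul_sub, ha σ, hTA f a ha σ], ?_, ?_⟩, ?_⟩
        · rw [smul_sub, smul_comm e' f a, hea, smul_zero, sub_zero]
        · rw [smul_sub, hidem a hna, sub_self]
        · rw [smul_sub, smul_comm r f a, hat, ht.2.2, sub_zero]
      · rintro ⟨t', ht', rfl⟩
        exact (hRmem _).2 ⟨t', ht'.1, rfl⟩
    · intro w
      rw [AddSubgroup.mem_inf, hWE, hA, hTg]
      constructor
      · rintro ⟨⟨hw, hwE⟩, hwA⟩
        exact ⟨⟨hwA, hrtf w hwA ⟨r, hr, hw⟩, hfzero w (hW_X w hw) hwE⟩, hw⟩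
      · rintro ⟨⟨hwA, -, hfw⟩, hw⟩
        refine ⟨⟨hw, ?_⟩, hwA⟩
        have := hEisOf w (hW_X w hw)
        rwa [hfw, sub_zero] at this
  -- `A + W_E ≤ Y_E`
  have hAY : A ≤ YE := fun a ha => by
    rw [hYE]
    have ha' := (hA a).1 ha
    refine ⟨fun σ => by rw [smul_comm σ r a, ha' σ], fun σ => ?_⟩
    rw [ha' σ, sub_self]
    exact WE.zero_mem
  have hWY : WE ≤ YE := fun w hw => by
    rw [hYE]
    obtain ⟨hw1, hw2⟩ := (hWE w).1 hw
    refine ⟨fun σ => by rw [hw1, smul_zero], fun σ => ?_⟩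
    rw [hWE]
    refine ⟨by rw [smul_sub, smul_comm r σ w, hw1, smul_zero, sub_zero], fun i => ?_⟩
    obtain ⟨k, hk⟩ := hw2 i
    exact ⟨k, by rw [smul_sub, hcomm, hk, smul_zero, sub_zero]⟩
  -- (k1) `A + W_E = [r]⁻¹(r A) ∩ Y_E`
  have hk1 : A ⊔ WE = R.comap φ ⊓ YE := by
    apply le_antisymm
    · refine le_inf (sup_le ?_ ?_) (sup_le hAY hWY)
      · intro a ha
        rw [AddSubgroup.mem_comap, hφ]
        exact (hRmem _).2 ⟨a, (hA a).1 ha, rfl⟩
      · intro w hw
        rw [AddSubgroup.mem_comap, hφ, ((hWE w).1 hw).1]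
        exact R.zero_mem
    · intro y hy
      obtain ⟨hy1, hy2⟩ := AddSubgroup.mem_inf.1 hy
      rw [AddSubgroup.mem_comap, hφ] at hy1
      obtain ⟨a, ha, hay⟩ := (hRmem _).1 hy1
      have hy2' := ((hYE y).1 hy2).2
      set w := y - a with hw
      have hrw : r • w = 0 := by rw [hw, smul_sub, hay, sub_self]
      have hcoc : ∀ σ : G, σ • w - w = σ • y - y := fun σ => by
        rw [hw, smul_sub, ha σ]
        abel
      have hfw : ∀ σ : G, σ • (f • w) = f • w := by
        intro σ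
        have h1 : σ • w - w ∈ WE := by rw [hcoc σ]; exact hy2' σ
        obtain ⟨h2, h3⟩ := (hWE _).1 h1
        have h4 := hfzero _ (hW_X _ h2) h3
        rw [smul_sub, sub_eq_zero, hcomm] at h4
        exact h4
      have hsplit' : y = (a + f • w) + (w - f • w) := by
        rw [hw]
        abel
      rw [hsplit']
      exact AddSubgroup.add_mem _
        (AddSubgroup.mem_sup_left (A.add_mem ((hA a).2 ha) ((hA _).2 hfw)))
        (AddSubgroup.mem_sup_right (hprojW w hrw))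
  -- (k2) `T_E ≤ r Y_E`
  have hk2 : Tg ≤ YE.map φ := by
    intro t ht
    obtain ⟨y0, hy0⟩ := hdiv t
    rw [AddSubgroup.mem_map]
    refine ⟨y0 - f • y0, hprojY y0 (fun σ => by rw [hy0, ht.1 σ]), ?_⟩
    rw [hφ, smul_sub, smul_comm r f y0, hy0, ht.2.2, sub_zero]
  -- the count
  have hrel : (A ⊔ WE).relIndex YE = R.relIndex (YE.map φ) := by
    rw [← AddSubgroup.relIndex_comap, ← AddSubgroup.inf_relIndex_right (R.comap φ) YE, ← hk1]
  have hle : YE.map φ ≤ Tg ⊔ R := by
    refine alg0_le_sup_of_relIndex_le R Tg (YE.map φ) hk2 ?_ ?_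
    · rw [← hrel]
      exact hsel.1
    · rw [← hrel, hI]
      exact hsel.2
  -- the submodule `r A + A_tors`
  let C : Submodule T J :=
    { carrier := {x | ∃ w : J, (∀ σ : G, σ • w = w) ∧ ∃ m : ℕ, 0 < m ∧ m • (x - r • w) = 0}
      zero_mem' := ⟨0, fun σ => smul_zero σ, 1, one_pos, by simp⟩
      add_mem' := by
        rintro a b ⟨w, hw, m, hm, hma⟩ ⟨w', hw', m', hm', hmb⟩
        refine ⟨w + w', fun σ => by rw [smul_add, hw σ, hw' σ], m * m', Nat.mul_pos hm hm', ?_⟩
        have h1 : a + b - r • (w + w') = (a - r • w) + (b - r • w') := by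
          rw [smul_add]
          abel
        rw [h1, smul_add, mul_comm m m', mul_smul, hma, smul_zero, mul_comm m' m, mul_smul, hmb,
          smul_zero, add_zero]
      smul_mem' := by
        rintro t x ⟨w, hw, m, hm, hmx⟩
        refine ⟨t • w, hTA t w hw, m, hm, ?_⟩
        have h1 : t • x - r • t • w = t • (x - r • w) := by
          rw [smul_sub, smul_comm r t w]
        rw [h1, smul_comm m t, hmx, smul_zero] }
  have hC : ∀ x : J, x ∈ C ↔
      ∃ w : J, (∀ σ : G, σ • w = w) ∧ ∃ m : ℕ, 0 < m ∧ m • (x - r • w) = 0 := fun _ => Iff.rfl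
  -- `f z ∈ C`
  have hfz : f • z ∈ C := by
    have hle' : 𝔪 ≤ C.comap (LinearMap.toSpanSingleton T J z) := by
      refine Ideal.span_le.2 ?_
      rintro _ ⟨i, rfl⟩
      show (LinearMap.toSpanSingleton T J z) (η i) ∈ C
      rw [LinearMap.toSpanSingleton_apply]
      exact hEis i
    have := hle' hfm
    rw [Submodule.mem_comap, LinearMap.toSpanSingleton_apply] at this
    exact this
  -- `z - f z ∈ T_E + r A ≤ C`
  obtain ⟨y, hy⟩ := hdiv z
  have hyE : y - f • y ∈ YE := hprojY y (fun σ => by rw [hy, hz σ])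
  have h1 : z - f • z ∈ Tg ⊔ R := by
    refine hle ?_
    rw [AddSubgroup.mem_map]
    refine ⟨y - f • y, hyE, ?_⟩
    rw [hφ, smul_sub, smul_comm r f y, hy]
  obtain ⟨t, ht, x, hx, htx⟩ := AddSubgroup.mem_sup.1 h1
  obtain ⟨a, ha, hax⟩ := (hRmem x).1 hx
  have htC : t ∈ C := (hC t).2 ⟨0, fun σ => smul_zero σ, e', he', by
    rw [smul_zero, sub_zero]
    exact ht.2.1⟩
  have hxC : x ∈ C := (hC x).2 ⟨a, ha, 1, one_pos, by rw [hax, sub_self, smul_zero]⟩
  have hzC : z ∈ C := by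
    have h2 : z = (t + x) + f • z := by
      rw [htx]
      abel
    rw [h2]
    exact C.add_mem (C.add_mem htC hxC) hfz
  exact (hC z).1 hzC

end Main

end Fermat.Agent.S15.H302

end
-- ===== PACK-END S15/H302/Alg0Abs.lean

-- ===== PACK-BEGIN S17/H587/FormalB.lean
section



/-!
# S17 / tower H, formal leaves F-B and F-INV                                   (helper587)

For an arbitrary `P : PairingPackage A`:

* `bz P : P.BZStatement`  — `B (Z a) E` is bounded by `C (deg E + 1)` (from `e3`, `bez`);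
* `inv P hBZ : P.InvStatement` — `B` is a class function in the first variable up to
  `C (deg E + 1)` (from `mov2` with `T := E`, `pr_add`, `N_add`, additivity of `deg`).

Also: `m_pos`, `B_add_left` (exact additivity of `B` in the first variable on divisors disjoint
from `E`), `B_Z_eq` (the identity behind F-B).
-/

set_option autoImplicit false

namespace Fermat.Agent.S17.H587

open Fermat.Agent.S17.H500

variable {A : Type} [AddCommGroup A] (P : PairingPackage A)

/-- `m > 0`. -/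
theorem m_pos : 0 < P.m := by
  have h1 := P.one_le_g
  have h2 := P.two_g_le_d
  have h3 := P.four_d_le_m
  omega

/-- `(m : ℝ) > 0`. -/
theorem m_pos_real : (0 : ℝ) < P.m := by
  exact_mod_cast m_pos P

/-- `B` is exactly additive in the first variable on divisors disjoint from `E`. -/
theorem B_add_left (D₁ D₂ E : P.Dv) (h : P.Disj (D₁ + D₂) E) :
    P.B (D₁ + D₂) E = P.B D₁ E + P.B D₂ E := by
  unfold PairingPackage.B
  rw [P.pr_add D₁ D₂ E h, P.N_add, map_add]
  push_cast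
  ring

/-- The identity behind F-B. -/
theorem B_Z_eq (a : P.Lin) (E : P.Dv) :
    P.B (P.Z a) E =
      (P.pr (P.Z a) E - ((P.deg E : ℝ) * P.ht a + P.N E)) -
        ((P.deg E : ℝ) / P.m) * (P.N (P.Z a) - P.m * P.ht a) := by
  have hm : (P.m : ℝ) ≠ 0 := (m_pos_real P).ne'
  unfold PairingPackage.B
  rw [P.deg_Z a]
  field_simp
  ring

/-- **F-B.** -/
theorem bz : P.BZStatement := by
  obtain ⟨C₁, h₁⟩ := P.e3
  obtain ⟨C₂, h₂⟩ := P.bez
  refine ⟨|C₁| + |C₂|, ?_⟩
  intro a E hdisj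
  have hm : (0 : ℝ) < P.m := m_pos_real P
  have hm1 : (1 : ℝ) ≤ P.m := by exact_mod_cast m_pos P
  have hdeg : (0 : ℝ) ≤ P.deg E := Nat.cast_nonneg _
  have hfrac0 : 0 ≤ (P.deg E : ℝ) / P.m := div_nonneg hdeg hm.le
  have hfrac : (P.deg E : ℝ) / P.m ≤ P.deg E := div_le_self hdeg hm1
  have e1 := h₁ a E hdisj
  have e2 := h₂ a
  rw [B_Z_eq]
  have t1 : |P.pr (P.Z a) E - ((P.deg E : ℝ) * P.ht a + P.N E)| ≤ |C₁| * P.deg E :=
    e1.trans (mul_le_mul_of_nonneg_right (le_abs_self C₁) hdeg)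
  have t2 : |((P.deg E : ℝ) / P.m) * (P.N (P.Z a) - P.m * P.ht a)| ≤ |C₂| * P.deg E := by
    rw [abs_mul, abs_of_nonneg hfrac0]
    have e2' : |P.N (P.Z a) - P.m * P.ht a| ≤ |C₂| := e2.trans (le_abs_self C₂)
    calc (P.deg E : ℝ) / P.m * |P.N (P.Z a) - P.m * P.ht a|
        ≤ (P.deg E : ℝ) * |C₂| := mul_le_mul hfrac e2' (abs_nonneg _) hdeg
      _ = |C₂| * P.deg E := mul_comm _ _
  have t3 := abs_sub (P.pr (P.Z a) E - ((P.deg E : ℝ) * P.ht a + P.N E))
    (((P.deg E : ℝ) / P.m) * (P.N (P.Z a) - P.m * P.ht a))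
  have hC₁ := abs_nonneg C₁
  have hC₂ := abs_nonneg C₂
  nlinarith

/-- **F-INV.** -/
theorem inv (hBZ : P.BZStatement) : P.InvStatement := by
  obtain ⟨C, hC⟩ := hBZ
  refine ⟨2 * C, ?_⟩
  intro D₁ D₂ E hdeg hm hcls hd₁ hd₂
  obtain ⟨R, a₁, a₂, hZ₁, hZ₂, hRE⟩ := P.mov2 D₁ D₂ hdeg hm hcls E
  have hd₁R : P.Disj (D₁ + R) E := (P.disj_add_left D₁ R E).2 ⟨hd₁, hRE⟩
  have hd₂R : P.Disj (D₂ + R) E := (P.disj_add_left D₂ R E).2 ⟨hd₂, hRE⟩
  have b₁ := hC a₁ E (by rw [hZ₁]; exact hd₁R)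
  have b₂ := hC a₂ E (by rw [hZ₂]; exact hd₂R)
  rw [hZ₁, B_add_left P D₁ R E hd₁R] at b₁
  rw [hZ₂, B_add_left P D₂ R E hd₂R] at b₂
  have key : P.B D₁ E - P.B D₂ E = (P.B D₁ E + P.B R E) - (P.B D₂ E + P.B R E) := by ring
  rw [key]
  have t := abs_sub (P.B D₁ E + P.B R E) (P.B D₂ E + P.B R E)
  linarith

end Fermat.Agent.S17.H587

end
-- ===== PACK-END S17/H587/FormalB.lean

-- ===== PACK-BEGIN S15/H62/FrobNilpotent.lean
section



/-!
# S15 / DESC piece D3b (helper62): Eichler–Shimura + Frobenius density ⟹ Eisenstein constituents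

Abstract glue.  Let `W` be a finite `𝔽_r`-module with an action `ρ` of `G_ℚ` factoring through a
finite extension `E`, and commuting operators `T ℓ` ("Hecke operators") such that for `ℓ ∉ S`

* `T ℓ - (1 + ℓ)` is nilpotent on `W`  (`W` is supported at the Eisenstein prime `(I, r)`),
* every Frobenius `τ` at `ℓ` satisfies `τ² - T_ℓ τ + ℓ = 0` on `W`  (Eichler–Shimura, row S37),
* `χ(τ) = ℓ`  (`χ` = mod `r` cyclotomic character).

Then, by the Frobenius density theorem (`Lib.Cheb`, Tier 1, on main), for **every** `σ ∈ G_ℚ` the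
operator `(σ - 1)(σ - χ(σ))` is nilpotent on `W`; hence (`Constituents.exists_flag`) `W` has a
`G_ℚ`-stable full flag with graded pieces `ℤ/r` and `μ_r`.
-/

set_option autoImplicit false

namespace Fermat.Agent.S15.H62

open Fermat.Agent.Lib.Cheb.Spec

section Algebra

variable {R : Type*} [Ring R]

/-- `Y` commutes with `∑ X^i C^(n-1-i)` if it commutes with `X` and `C`. -/
theorem commute_geom_sum₂ {Y X C : R} (hX : Commute Y X) (hC : Commute Y C) (n : ℕ) :
    Commute Y (∑ i ∈ Finset.range n, X ^ i * C ^ (n - 1 - i)) :=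
  Commute.sum_right _ _ _ fun i _ => (hX.pow_right i).mul_right (hC.pow_right _)

/-- `Y` commutes with `∑ X^i` if it commutes with `X`. -/
theorem commute_geom_sum {Y X : R} (hX : Commute Y X) (n : ℕ) :
    Commute Y (∑ i ∈ Finset.range n, X ^ i) :=
  Commute.sum_right _ _ _ fun i _ => hX.pow_right i

/-- Algebraic core: if `X² - ((1 + C) + ν) X + C = 0` with `C` central and `ν` nilpotent
commuting with `X`, then `(X^j - 1)(X^j - C^j)` is nilpotent for every `j`. -/
theorem isNilpotent_pow_sub_one_mul {X ν C : R} (hC : ∀ Y : R, Commute Y C)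
    (hνX : Commute ν X) (hν : IsNilpotent ν)
    (hrel : X * X - ((1 + C) + ν) * X + C = 0) (j : ℕ) :
    IsNilpotent ((X ^ j - 1) * (X ^ j - C ^ j)) := by
  have h1 : (X - 1) * (X - C) = ν * X := by
    have e1 : (X - 1) * (X - C) = X * X - ((1 + C) + ν) * X + C + ν * X := by
      have hXC : X * C = C * X := (hC X).eq
      simp only [sub_mul, mul_sub, add_mul, one_mul, hXC]
      abel
    rw [e1, hrel, zero_add]
  set P := ∑ i ∈ Finset.range j, X ^ i with hP
  set Q := ∑ i ∈ Finset.range j, X ^ i * C ^ (j - 1 - i) with hQ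
  have hXj1 : X ^ j - 1 = (X - 1) * P := (mul_geom_sum X j).symm
  have hXjC : X ^ j - C ^ j = (X - C) * Q := ((hC X).mul_geom_sum₂ j).symm
  have hXX : Commute X X := Commute.refl X
  have hPXC : Commute P (X - C) :=
    ((commute_geom_sum hXX j).symm).sub_right ((hC P))
  have e : (X ^ j - 1) * (X ^ j - C ^ j) = (ν * X) * (P * Q) := by
    rw [hXj1, hXjC, ← h1]
    calc (X - 1) * P * ((X - C) * Q) = (X - 1) * (P * (X - C)) * Q := by noncomm_ring
      _ = (X - 1) * ((X - C) * P) * Q := by rw [hPXC.eq]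
      _ = (X - 1) * (X - C) * (P * Q) := by noncomm_ring
  rw [e]
  have hνXnil : IsNilpotent (ν * X) := hνX.isNilpotent_mul_right hν
  have hcomm : Commute (ν * X) (P * Q) := by
    have hνP : Commute ν P := commute_geom_sum hνX j
    have hνQ : Commute ν Q := commute_geom_sum₂ hνX (hC ν) j
    have hXP : Commute X P := commute_geom_sum hXX j
    have hXQ : Commute X Q := commute_geom_sum₂ hXX (hC X) j
    exact (hνP.mul_right hνQ).mul_left (hXP.mul_right hXQ)
  exact hcomm.isNilpotent_mul_right hνXnil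

end Algebra

section Galois

variable {r : ℕ} [Fact r.Prime] {W : Type*} [AddCommGroup W] [Module (ZMod r) W]

/-- **D3b.**  Eichler–Shimura relations at Frobenius elements + Frobenius density theorem ⟹ for
every `σ ∈ G_ℚ` the operator `(σ - 1)(σ - χ(σ))` is nilpotent on `W`. -/
theorem isNilpotent_eisOp_of_frobenius
    (ρ : Representation (ZMod r) GQ W) (χ : GQ →* (ZMod r)ˣ)
    (E : IntermediateField ℚ Qb) (hE : FiniteDimensional ℚ E)
    (hρE : ∀ σ τ : GQ, (∀ x ∈ E, σ x = τ x) → ρ σ = ρ τ)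
    (hχE : ∀ σ τ : GQ, (∀ x ∈ E, σ x = τ x) → χ σ = χ τ)
    (S : Finset ℕ) (T : ℕ → Module.End (ZMod r) W)
    (hTcomm : ∀ ℓ : ℕ, ℓ.Prime → ℓ ∉ S → ∀ σ : GQ, Commute (T ℓ) (ρ σ))
    (hTnil : ∀ ℓ : ℕ, ℓ.Prime → ℓ ∉ S →
      IsNilpotent (T ℓ - (1 + algebraMap (ZMod r) (Module.End (ZMod r) W) (ℓ : ZMod r))))
    (hES : ∀ ℓ : ℕ, ℓ.Prime → ℓ ∉ S → ∀ A : ValuationSubring Qb, A.LiesOverPrime ℓ →
      ∀ τ : GQ, A.IsFrobeniusAt τ ℓ →
        ρ τ * ρ τ - T ℓ * ρ τ + algebraMap (ZMod r) (Module.End (ZMod r) W) (ℓ : ZMod r) = 0)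
    (hχF : ∀ ℓ : ℕ, ℓ.Prime → ℓ ∉ S → ∀ A : ValuationSubring Qb, A.LiesOverPrime ℓ →
      ∀ τ : GQ, A.IsFrobeniusAt τ ℓ → ((χ τ : (ZMod r)ˣ) : ZMod r) = (ℓ : ZMod r))
    (hcheb : FrobeniusDivisionStatement) (σ : GQ) :
    IsNilpotent (eisOp ρ χ σ) := by
  obtain ⟨ℓ, A, τ, k, j, hℓ, hℓS, hA, hτ, -, -, hj⟩ := hcheb E hE σ S
  have hρ : ρ σ = ρ τ ^ j := by
    rw [← map_pow]
    exact hρE σ (τ ^ j) fun x hx => (hj x hx).symm
  have hχ : χ σ = χ τ ^ j := by
    rw [← map_pow]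
    exact hχE σ (τ ^ j) fun x hx => (hj x hx).symm
  set C : Module.End (ZMod r) W := algebraMap (ZMod r) (Module.End (ZMod r) W) (ℓ : ZMod r)
    with hCdef
  have hC : ∀ Y : Module.End (ZMod r) W, Commute Y C := fun Y =>
    (Algebra.commutes (ℓ : ZMod r) Y).symm
  have hrel : ρ τ * ρ τ - ((1 + C) + (T ℓ - (1 + C))) * ρ τ + C = 0 := by
    rw [add_sub_cancel]
    exact hES ℓ hℓ hℓS A hA τ hτ
  have hνX : Commute (T ℓ - (1 + C)) (ρ τ) :=
    (hTcomm ℓ hℓ hℓS τ).sub_left (((Commute.one_left _).add_left (hC (ρ τ)).symm))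
  have := isNilpotent_pow_sub_one_mul hC hνX (hTnil ℓ hℓ hℓS) hrel j
  have hval : algebraMap (ZMod r) (Module.End (ZMod r) W) ((χ σ : (ZMod r)ˣ) : ZMod r) = C ^ j := by
    rw [hχ, Units.val_pow_eq_pow_val, map_pow, hχF ℓ hℓ hℓS A hA τ hτ]
  rw [eisOp, hρ, hval]
  exact this

/-- **D3 (abstract form).**  Under the hypotheses of `isNilpotent_eisOp_of_frobenius`, the finite
Galois module `W` has a `G_ℚ`-stable full flag with graded pieces of type `𝟙` (`ℤ/r`) or `χ`
(`μ_r`). -/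
theorem exists_flag_of_frobenius [Finite W]
    (ρ : Representation (ZMod r) GQ W) (χ : GQ →* (ZMod r)ˣ)
    (E : IntermediateField ℚ Qb) (hE : FiniteDimensional ℚ E)
    (hρE : ∀ σ τ : GQ, (∀ x ∈ E, σ x = τ x) → ρ σ = ρ τ)
    (hχE : ∀ σ τ : GQ, (∀ x ∈ E, σ x = τ x) → χ σ = χ τ)
    (S : Finset ℕ) (T : ℕ → Module.End (ZMod r) W)
    (hTcomm : ∀ ℓ : ℕ, ℓ.Prime → ℓ ∉ S → ∀ σ : GQ, Commute (T ℓ) (ρ σ))
    (hTnil : ∀ ℓ : ℕ, ℓ.Prime → ℓ ∉ S →
      IsNilpotent (T ℓ - (1 + algebraMap (ZMod r) (Module.End (ZMod r) W) (ℓ : ZMod r))))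
    (hES : ∀ ℓ : ℕ, ℓ.Prime → ℓ ∉ S → ∀ A : ValuationSubring Qb, A.LiesOverPrime ℓ →
      ∀ τ : GQ, A.IsFrobeniusAt τ ℓ →
        ρ τ * ρ τ - T ℓ * ρ τ + algebraMap (ZMod r) (Module.End (ZMod r) W) (ℓ : ZMod r) = 0)
    (hχF : ∀ ℓ : ℕ, ℓ.Prime → ℓ ∉ S → ∀ A : ValuationSubring Qb, A.LiesOverPrime ℓ →
      ∀ τ : GQ, A.IsFrobeniusAt τ ℓ → ((χ τ : (ZMod r)ˣ) : ZMod r) = (ℓ : ZMod r))
    (hcheb : FrobeniusDivisionStatement) :
    HasFlagFrom ρ χ ⊥ :=
  exists_flag ρ χ fun σ =>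
    isNilpotent_eisOp_of_frobenius ρ χ E hE hρE hχE S T hTcomm hTnil hES hχF hcheb σ

end Galois

end Fermat.Agent.S15.H62

end
-- ===== PACK-END S15/H62/FrobNilpotent.lean

-- ===== PACK-BEGIN S41/H683/PDTrCore.lean
section



/-!
# Row S41, block PD, leaf TR — restriction / corestriction of cocycles (helper683)

Mathlib-only cores (plus the Mathlib-only `S41/H761/CosetSystem.lean`) of the four statements
`TransferAlongEquivStatement`, `ManinRepResStatement`, `ManinRepCoresStatement`,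
`ManinFormAdjointStatement` of `Spec/PD.lean`, stated WITHOUT the `Spec` definitions so that they
can be used with either family of interface files (`Spec/Defs.lean` or `Spec/HK.lean`).

* `pushFwd hle m'` : the push-forward of functions along `π : G ⧸ Γ' → G ⧸ Γ` (fibre sums);
* `trfH ι ψ` : verbatim copy of `Spec.trf` (`= Spec.transferAlong`), the transfer along an
  injective homomorphism with finite-index range;
* `trfH_comp_equiv` : TR-4;
* `cocycle_res` : TR-1 (pull-back of cocycles);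
* `cocycle_pushFwd`, `trfH_inclusion_apply` : TR-2 (the transfer is the push-forward of cocycles);
* `parData_pushFwd`, `sum_pullback_mul_eq` : TR-3.
-/

set_option autoImplicit false

namespace Fermat.Agent.S41.H683

open scoped Pointwise

section Fibre

variable {G : Type*} [Group G] {Γ' Γ : Subgroup G}

/-- `π : G ⧸ Γ' → G ⧸ Γ` is equivariant. -/
theorem quotientMapOfLE_smul (hle : Γ' ≤ Γ) (g : G) (x' : G ⧸ Γ') :
    Subgroup.quotientMapOfLE hle (g • x') = g • Subgroup.quotientMapOfLE hle x' := by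
  induction x' using QuotientGroup.induction_on with
  | H h => rfl

/-- The push-forward of a function along `π : G ⧸ Γ' → G ⧸ Γ` (sum over the fibres). -/
noncomputable def pushFwd (hle : Γ' ≤ Γ) {A : Type*} [AddCommMonoid A] (m' : G ⧸ Γ' → A)
    (x : G ⧸ Γ) : A :=
  ∑ᶠ (x' : G ⧸ Γ') (_ : Subgroup.quotientMapOfLE hle x' = x), m' x'

variable {A : Type*} [AddCommGroup A]

theorem pushFwd_eq_sum (hle : Γ' ≤ Γ) [Fintype (G ⧸ Γ')] [DecidableEq (G ⧸ Γ)]
    (m' : G ⧸ Γ' → A) (x : G ⧸ Γ) :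
    pushFwd hle m' x =
      ∑ x' : G ⧸ Γ', if Subgroup.quotientMapOfLE hle x' = x then m' x' else 0 := by
  unfold pushFwd
  rw [finsum_eq_sum_of_fintype]
  refine Finset.sum_congr rfl fun x' _ => ?_
  rw [finsum_eq_if]

/-- The push-forward commutes with the action of `G`. -/
theorem pushFwd_smul (hle : Γ' ≤ Γ) (m' : G ⧸ Γ' → A) (g : G) (x : G ⧸ Γ) :
    pushFwd hle m' (g • x) = pushFwd hle (fun y => m' (g • y)) x := by
  unfold pushFwd
  rw [← finsum_comp_equiv (MulAction.toPerm g : Equiv.Perm (G ⧸ Γ'))]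
  refine finsum_congr fun y => ?_
  have hiff : Subgroup.quotientMapOfLE hle ((MulAction.toPerm g : Equiv.Perm (G ⧸ Γ')) y) = g • x ↔
      Subgroup.quotientMapOfLE hle y = x := by
    rw [MulAction.toPerm_apply, quotientMapOfLE_smul]
    exact smul_left_cancel_iff g
  classical
  rw [finsum_eq_if, finsum_eq_if]
  by_cases h : Subgroup.quotientMapOfLE hle y = x
  · rw [if_pos h, if_pos (hiff.mpr h)]
    rfl
  · rw [if_neg h, if_neg (fun hh => h (hiff.mp hh))]

theorem pushFwd_sub (hle : Γ' ≤ Γ) [Finite (G ⧸ Γ')] (m₁ m₂ : G ⧸ Γ' → A) (x : G ⧸ Γ) :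
    pushFwd hle (fun y => m₁ y - m₂ y) x = pushFwd hle m₁ x - pushFwd hle m₂ x := by
  classical
  let _ := Fintype.ofFinite (G ⧸ Γ')
  rw [pushFwd_eq_sum, pushFwd_eq_sum, pushFwd_eq_sum, ← Finset.sum_sub_distrib]
  refine Finset.sum_congr rfl fun x' _ => ?_
  split_ifs <;> simp

theorem pushFwd_add (hle : Γ' ≤ Γ) [Finite (G ⧸ Γ')] (m₁ m₂ : G ⧸ Γ' → A) (x : G ⧸ Γ) :
    pushFwd hle (fun y => m₁ y + m₂ y) x = pushFwd hle m₁ x + pushFwd hle m₂ x := by
  classical
  let _ := Fintype.ofFinite (G ⧸ Γ')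
  rw [pushFwd_eq_sum, pushFwd_eq_sum, pushFwd_eq_sum, ← Finset.sum_add_distrib]
  refine Finset.sum_congr rfl fun x' _ => ?_
  split_ifs <;> simp

theorem pushFwd_zero (hle : Γ' ≤ Γ) (x : G ⧸ Γ) :
    pushFwd hle (fun _ => (0 : A)) x = 0 := by
  unfold pushFwd
  simp

/-- Projection formula: `∑ₓ m x * (π_* F) x = ∑ₓ' m (π x') * F x'`. -/
theorem sum_mul_pushFwd (hle : Γ' ≤ Γ) {R : Type*} [CommRing R] [Fintype (G ⧸ Γ')]
    [Fintype (G ⧸ Γ)] (m : G ⧸ Γ → R) (F : G ⧸ Γ' → R) :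
    ∑ x : G ⧸ Γ, m x * pushFwd hle F x =
      ∑ x' : G ⧸ Γ', m (Subgroup.quotientMapOfLE hle x') * F x' := by
  classical
  simp only [pushFwd_eq_sum, Finset.mul_sum]
  rw [Finset.sum_comm]
  refine Finset.sum_congr rfl fun x' _ => ?_
  rw [Finset.sum_eq_single (Subgroup.quotientMapOfLE hle x')]
  · rw [if_pos rfl]
  · intro x _ hx
    rw [if_neg (fun h => hx h.symm), mul_zero]
  · intro h
    exact absurd (Finset.mem_univ _) h

end Fibre

section Trf

variable {G H : Type*} [Group G] [Group H] {A : Type*} [AddCommGroup A]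

/-- Transfer of `ψ : Additive H →+ A` along an injective `ι : H →* G` with finite-index range
(`0` otherwise).  Verbatim the definition of `Spec.trf` / `Spec.transferAlong`. -/
noncomputable def trfH (ι : H →* G) (ψ : Additive H →+ A) : Additive G →+ A :=
  open scoped Classical in
  if h : Function.Injective ι ∧ ι.range.FiniteIndex then
    haveI := h.2
    MonoidHom.toAdditiveLeft
      (MonoidHom.transfer
        ((AddMonoidHom.toMultiplicativeRight ψ).comp
          (MonoidHom.ofInjective h.1).symm.toMonoidHom))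
  else 0

theorem trfH_def (ι : H →* G) (h : Function.Injective ι ∧ ι.range.FiniteIndex)
    (ψ : Additive H →+ A) :
    trfH ι ψ = haveI := h.2
      MonoidHom.toAdditiveLeft
        (MonoidHom.transfer
          ((AddMonoidHom.toMultiplicativeRight ψ).comp
            (MonoidHom.ofInjective h.1).symm.toMonoidHom)) := by
  unfold trfH
  rw [dif_pos h]

theorem trfH_of_not (ι : H →* G) (h : ¬ (Function.Injective ι ∧ ι.range.FiniteIndex))
    (ψ : Additive H →+ A) : trfH ι ψ = 0 := by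
  unfold trfH
  rw [dif_neg h]

/-- The transfer depends only on the subgroup and on the values of the homomorphism. -/
theorem transfer_congr_subgroup {B : Type*} [CommGroup B] {H₁ H₂ : Subgroup G} (h : H₁ = H₂)
    [H₁.FiniteIndex] [H₂.FiniteIndex] (φ₁ : H₁ →* B) (φ₂ : H₂ →* B)
    (hφ : ∀ x : H₁, φ₁ x = φ₂ ⟨x, h ▸ x.2⟩) : φ₁.transfer = φ₂.transfer := by
  subst h
  have : φ₁ = φ₂ := MonoidHom.ext fun x => hφ x
  rw [this]

/-- **TR-4**: transfer along `f' ∘ e`, `e` an isomorphism. -/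
theorem trfH_comp_equiv {H' : Type*} [Group H'] (e : H ≃* H') (f' : H' →* G)
    (ψ : Additive H →+ A) :
    trfH (f'.comp e.toMonoidHom) ψ =
      trfH f' (ψ.comp (MonoidHom.toAdditive e.symm.toMonoidHom)) := by
  have hrange : (f'.comp e.toMonoidHom).range = f'.range := by
    ext x
    constructor
    · rintro ⟨y, rfl⟩
      exact ⟨e y, rfl⟩
    · rintro ⟨z, rfl⟩
      exact ⟨e.symm z, by simp⟩
  have hinj : Function.Injective (f'.comp e.toMonoidHom) ↔ Function.Injective f' := by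
    constructor
    · intro h a b hab
      have := h (a₁ := e.symm a) (a₂ := e.symm b) (by simpa using hab)
      exact e.symm.injective this
    · intro h
      exact h.comp e.injective
  by_cases hc : Function.Injective f' ∧ f'.range.FiniteIndex
  · have hc' : Function.Injective (f'.comp e.toMonoidHom) ∧
        (f'.comp e.toMonoidHom).range.FiniteIndex := ⟨hinj.mpr hc.1, by rw [hrange]; exact hc.2⟩
    rw [trfH_def _ hc', trfH_def _ hc]
    have := hc.2
    have := hc'.2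
    congr 1
    refine transfer_congr_subgroup hrange _ _ fun x => ?_
    simp only [MonoidHom.coe_comp, Function.comp_apply, MulEquiv.coe_toMonoidHom]
    -- the two preimages agree
    have h1 : f' (e ((MonoidHom.ofInjective hc'.1).symm x)) = (x : G) := by
      have h0 := MonoidHom.ofInjective_apply hc'.1 (x := (MonoidHom.ofInjective hc'.1).symm x)
      rw [MulEquiv.apply_symm_apply] at h0
      exact h0.symm
    have h2 : f' ((MonoidHom.ofInjective hc.1).symm ⟨x, hrange ▸ x.2⟩) = (x : G) := by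
      have h0 := MonoidHom.ofInjective_apply hc.1
        (x := (MonoidHom.ofInjective hc.1).symm ⟨x, hrange ▸ x.2⟩)
      rw [MulEquiv.apply_symm_apply] at h0
      exact h0.symm
    have h3 : e ((MonoidHom.ofInjective hc'.1).symm x) =
        (MonoidHom.ofInjective hc.1).symm ⟨x, hrange ▸ x.2⟩ := hc.1 (h1.trans h2.symm)
    show ψ (Additive.ofMul ((MonoidHom.ofInjective hc'.1).symm x)) =
      ψ (Additive.ofMul (e.symm ((MonoidHom.ofInjective hc.1).symm ⟨x, hrange ▸ x.2⟩)))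
    rw [← h3, MulEquiv.symm_apply_apply]
  · have hc' : ¬ (Function.Injective (f'.comp e.toMonoidHom) ∧
        (f'.comp e.toMonoidHom).range.FiniteIndex) := by
      rintro ⟨h1, h2⟩
      exact hc ⟨hinj.mp h1, by rw [← hrange]; exact h2⟩
    rw [trfH_of_not _ hc', trfH_of_not _ hc]

end Trf

section Cocycle

variable {G : Type*} [Group G] {Γ' Γ : Subgroup G} {A : Type*} [AddCommGroup A]

/-- **TR-1**: the pull-back of a cocycle along `π : G ⧸ Γ' → G ⧸ Γ` is a cocycle. -/
theorem cocycle_res (hle : Γ' ≤ Γ) (f : G → G ⧸ Γ → A)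
    (hf : ∀ (g h : G) (x : G ⧸ Γ), f (g * h) x = f h x + f g (h • x)) :
    ∀ (g h : G) (x : G ⧸ Γ'),
      f (g * h) (Subgroup.quotientMapOfLE hle x) =
        f h (Subgroup.quotientMapOfLE hle x) + f g (Subgroup.quotientMapOfLE hle (h • x)) := by
  intro g h x
  rw [hf, quotientMapOfLE_smul]

/-- **TR-2a**: the push-forward of a cocycle along `π : G ⧸ Γ' → G ⧸ Γ` is a cocycle. -/
theorem cocycle_pushFwd (hle : Γ' ≤ Γ) [Finite (G ⧸ Γ')] (f' : G → G ⧸ Γ' → A)
    (hf' : ∀ (g h : G) (x : G ⧸ Γ'), f' (g * h) x = f' h x + f' g (h • x)) :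
    ∀ (g h : G) (x : G ⧸ Γ),
      pushFwd hle (f' (g * h)) x = pushFwd hle (f' h) x + pushFwd hle (f' g) (h • x) := by
  intro g h x
  rw [pushFwd_smul, ← pushFwd_add]
  congr 1
  funext y
  exact hf' g h y

/-- Push-forward of a coboundary. -/
theorem pushFwd_cobd (hle : Γ' ≤ Γ) [Finite (G ⧸ Γ')] (m' : G ⧸ Γ' → A) (u : G) (x : G ⧸ Γ) :
    pushFwd hle (fun y => m' (u • y) - m' y) x = pushFwd hle m' (u • x) - pushFwd hle m' x := by
  rw [pushFwd_sub, pushFwd_smul]

/-- **TR-3a**: push-forward of parabolic data. -/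
theorem parData_pushFwd (hle : Γ' ≤ Γ) [Finite (G ⧸ Γ')] (t u : G) (m' e' : G ⧸ Γ' → A)
    (h : ∀ x : G ⧸ Γ', e' (t • x) - e' x = m' (u • x) - m' x) :
    ∀ x : G ⧸ Γ, pushFwd hle e' (t • x) - pushFwd hle e' x =
      pushFwd hle m' (u • x) - pushFwd hle m' x := by
  intro x
  rw [← pushFwd_cobd, ← pushFwd_cobd]
  congr 1
  funext y
  exact h y

/-- **TR-3b**: adjunction for the Manin form. -/
theorem finsum_pullback_mul_eq (hle : Γ' ≤ Γ) [Finite (G ⧸ Γ')] {R : Type*} [CommRing R]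
    (s : G) (m : G ⧸ Γ → R) (e' : G ⧸ Γ' → R) :
    ∑ᶠ x' : G ⧸ Γ', m (Subgroup.quotientMapOfLE hle x') * (e' x' - e' (s • x')) =
      ∑ᶠ x : G ⧸ Γ, m x * (pushFwd hle e' x - pushFwd hle e' (s • x)) := by
  classical
  haveI : Finite (G ⧸ Γ) :=
    Finite.of_surjective (Subgroup.quotientMapOfLE hle) (by
      intro x
      induction x using QuotientGroup.induction_on with
      | H g => exact ⟨(g : G ⧸ Γ'), rfl⟩)
  letI := Fintype.ofFinite (G ⧸ Γ')
  letI := Fintype.ofFinite (G ⧸ Γ)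
  rw [finsum_eq_sum_of_fintype, finsum_eq_sum_of_fintype]
  have h1 : ∀ x : G ⧸ Γ, pushFwd hle e' x - pushFwd hle e' (s • x) =
      pushFwd hle (fun y => e' y - e' (s • y)) x := by
    intro x
    rw [pushFwd_sub, pushFwd_smul]
  simp only [h1]
  rw [sum_mul_pushFwd]

end Cocycle

section Transfer

variable {G : Type*} [Group G] {Γ' Γ : Subgroup G} {A : Type*} [AddCommGroup A]

theorem range_inclusion_finiteIndex (hle : Γ' ≤ Γ) [Γ'.FiniteIndex] :
    (Subgroup.inclusion hle).range.FiniteIndex := by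
  rw [Subgroup.inclusion_range]
  infer_instance

/-- The map from the cosets of `Γ'` in `Γ` to the fibre of `π : G ⧸ Γ' → G ⧸ Γ` over the base
point. -/
noncomputable def fibreMap (hle : Γ' ≤ Γ) (q : Γ ⧸ (Subgroup.inclusion hle).range) : G ⧸ Γ' :=
  (((q.out : Γ) : G) : G ⧸ Γ')

theorem mem_range_inclusion_iff (hle : Γ' ≤ Γ) (γ : Γ) :
    γ ∈ (Subgroup.inclusion hle).range ↔ (γ : G) ∈ Γ' := by
  rw [Subgroup.inclusion_range, Subgroup.mem_subgroupOf]

theorem fibreMap_mk (hle : Γ' ≤ Γ) (γ : Γ) :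
    fibreMap hle (γ : Γ ⧸ (Subgroup.inclusion hle).range) = ((γ : G) : G ⧸ Γ') := by
  unfold fibreMap
  rw [QuotientGroup.eq]
  have h1 : ((γ : Γ ⧸ (Subgroup.inclusion hle).range)).out⁻¹ * γ ∈
      (Subgroup.inclusion hle).range := by
    rw [← QuotientGroup.eq, QuotientGroup.out_eq']
  rw [mem_range_inclusion_iff] at h1
  simpa using h1

theorem quotientMapOfLE_fibreMap (hle : Γ' ≤ Γ) (q : Γ ⧸ (Subgroup.inclusion hle).range) :
    Subgroup.quotientMapOfLE hle (fibreMap hle q) = ((1 : G) : G ⧸ Γ) := by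
  unfold fibreMap
  rw [Subgroup.quotientMapOfLE_apply_mk, QuotientGroup.eq, mul_one]
  exact inv_mem (q.out).2

theorem fibreMap_injective (hle : Γ' ≤ Γ) : Function.Injective (fibreMap hle) := by
  intro q q' h
  induction q using QuotientGroup.induction_on with
  | H γ =>
    induction q' using QuotientGroup.induction_on with
    | H γ' =>
      rw [fibreMap_mk, fibreMap_mk, QuotientGroup.eq] at h
      rw [QuotientGroup.eq, mem_range_inclusion_iff]
      simpa using h

theorem exists_fibreMap_eq (hle : Γ' ≤ Γ) (x' : G ⧸ Γ')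
    (hx' : Subgroup.quotientMapOfLE hle x' = ((1 : G) : G ⧸ Γ)) :
    ∃ q, fibreMap hle q = x' := by
  induction x' using QuotientGroup.induction_on with
  | H g =>
    rw [Subgroup.quotientMapOfLE_apply_mk, QuotientGroup.eq, mul_one] at hx'
    have hg : g ∈ Γ := by simpa using inv_mem hx'
    exact ⟨((⟨g, hg⟩ : Γ) : Γ ⧸ (Subgroup.inclusion hle).range), fibreMap_mk hle ⟨g, hg⟩⟩

theorem fibreMap_smul (hle : Γ' ≤ Γ) (γ : Γ) (q : Γ ⧸ (Subgroup.inclusion hle).range) :
    fibreMap hle (γ • q) = (γ : G) • fibreMap hle q := by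
  induction q using QuotientGroup.induction_on with
  | H δ =>
    rw [MulAction.Quotient.smul_mk, fibreMap_mk, fibreMap_mk, smul_eq_mul,
      MulAction.Quotient.smul_mk, smul_eq_mul, Subgroup.coe_mul]

/-- Sum over the fibre above the base point. -/
theorem sum_fibreMap (hle : Γ' ≤ Γ) [Fintype (G ⧸ Γ')]
    [Fintype (Γ ⧸ (Subgroup.inclusion hle).range)] (F : G ⧸ Γ' → A) :
    ∑ q : Γ ⧸ (Subgroup.inclusion hle).range, F (fibreMap hle q) =
      pushFwd hle F ((1 : G) : G ⧸ Γ) := by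
  classical
  rw [pushFwd_eq_sum, ← Finset.sum_filter]
  rw [← Finset.sum_image (f := F) (g := fibreMap hle) (s := Finset.univ)
    (fun a _ b _ h => fibreMap_injective hle h)]
  refine Finset.sum_congr ?_ fun _ _ => rfl
  ext x'
  simp only [Finset.mem_image, Finset.mem_univ, true_and, Finset.mem_filter]
  constructor
  · rintro ⟨q, rfl⟩
    exact quotientMapOfLE_fibreMap hle q
  · intro h
    exact exists_fibreMap_eq hle x' h

/-- **TR-2b**: on a cocycle class, Mathlib's transfer along `Γ' ≤ Γ` is the push-forward. -/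
theorem trfH_inclusion_apply (hle : Γ' ≤ Γ) [Γ'.FiniteIndex] (ψ : Additive Γ' →+ A)
    (f' : G → G ⧸ Γ' → A)
    (hf' : ∀ (g h : G) (x : G ⧸ Γ'), f' (g * h) x = f' h x + f' g (h • x))
    (hψ : ∀ γ : Γ', ψ (Additive.ofMul γ) = f' (γ : G) ((1 : G) : G ⧸ Γ')) (γ : Γ) :
    trfH (Subgroup.inclusion hle) ψ (Additive.ofMul γ) =
      pushFwd hle (f' (γ : G)) ((1 : G) : G ⧸ Γ) := by
  classical
  have hfin := range_inclusion_finiteIndex hle
  letI := (Subgroup.inclusion hle).range.fintypeQuotientOfFiniteIndex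
  letI := Γ'.fintypeQuotientOfFiniteIndex
  have hinj : Function.Injective (Subgroup.inclusion hle) := Subgroup.inclusion_injective hle
  -- basic cocycle identities
  have hone : ∀ x, f' 1 x = 0 := by
    intro x
    have := hf' 1 1 x
    rw [one_mul, one_smul] at this
    exact left_eq_add.mp this
  have hinv : ∀ (a : G) (x : G ⧸ Γ'), f' a⁻¹ (a • x) = - f' a x := by
    intro a x
    have := hf' a⁻¹ a x
    rw [inv_mul_cancel, hone] at this
    exact eq_neg_of_add_eq_zero_right this.symm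
  rw [trfH_def _ ⟨hinj, hfin⟩]
  show Multiplicative.toAdd (MonoidHom.transfer _ γ) = _
  rw [Fermat.Agent.S41.H761.transfer_eq_prod_out, toAdd_prod]
  -- the summands
  have hterm : ∀ q : Γ ⧸ (Subgroup.inclusion hle).range,
      Multiplicative.toAdd (((AddMonoidHom.toMultiplicativeRight ψ).comp
        (MonoidHom.ofInjective hinj).symm.toMonoidHom)
          ⟨(q.out)⁻¹ * γ * (γ⁻¹ • q).out,
            Fermat.Agent.S41.H761.out_inv_mul_mul_out_mem _ γ q⟩) =
      f' (((γ⁻¹ • q).out : Γ) : G) ((1 : G) : G ⧸ Γ') - f' ((q.out : Γ) : G) ((1 : G) : G ⧸ Γ')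
        + f' (γ : G) (fibreMap hle (γ⁻¹ • q)) := by
    intro q
    set x : (Subgroup.inclusion hle).range := ⟨(q.out)⁻¹ * γ * (γ⁻¹ • q).out,
      Fermat.Agent.S41.H761.out_inv_mul_mul_out_mem _ γ q⟩ with hx
    set γ' : Γ' := (MonoidHom.ofInjective hinj).symm x with hγ'
    have h0 : ((γ' : Γ') : G) = ((q.out : Γ) : G)⁻¹ * (γ : G) * (((γ⁻¹ • q).out : Γ) : G) := by
      have h1 := MonoidHom.ofInjective_apply hinj (x := γ')
      rw [hγ', MulEquiv.apply_symm_apply] at h1
      have h2 := congrArg (Subtype.val : Γ → G) h1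
      simp only [Subgroup.coe_inclusion] at h2
      rw [← hγ'] at h2
      rw [← h2, hx]
      simp
    show ψ (Additive.ofMul γ') = _
    rw [hψ, h0]
    set a : G := ((q.out : Γ) : G) with ha
    set c : G := (((γ⁻¹ • q).out : Γ) : G) with hc
    have hfix : (γ : G) • (c • ((1 : G) : G ⧸ Γ')) = a • ((1 : G) : G ⧸ Γ') := by
      have h3 : (a⁻¹ * (γ : G) * c) • ((1 : G) : G ⧸ Γ') = ((1 : G) : G ⧸ Γ') := by
        rw [← h0, MulAction.Quotient.smul_mk, smul_eq_mul, mul_one, QuotientGroup.eq, mul_one]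
        exact inv_mem γ'.2
      rw [mul_smul, mul_smul] at h3
      have h4 := congrArg (fun z => a • z) h3
      simpa using h4
    have hfm : fibreMap hle (γ⁻¹ • q) = c • ((1 : G) : G ⧸ Γ') := by
      unfold fibreMap
      rw [MulAction.Quotient.smul_mk, smul_eq_mul, mul_one]
    rw [hf', hf', hfix, hinv, hfm]
    abel
  rw [Finset.sum_congr rfl fun q _ => hterm q, Finset.sum_add_distrib, Finset.sum_sub_distrib]
  have hperm1 : ∑ q : Γ ⧸ (Subgroup.inclusion hle).range,
      f' (((γ⁻¹ • q).out : Γ) : G) ((1 : G) : G ⧸ Γ') =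
      ∑ q : Γ ⧸ (Subgroup.inclusion hle).range, f' ((q.out : Γ) : G) ((1 : G) : G ⧸ Γ') :=
    Equiv.sum_comp (MulAction.toPerm γ⁻¹ : Equiv.Perm (Γ ⧸ (Subgroup.inclusion hle).range))
      (fun q => f' ((q.out : Γ) : G) ((1 : G) : G ⧸ Γ'))
  have hperm2 : ∑ q : Γ ⧸ (Subgroup.inclusion hle).range, f' (γ : G) (fibreMap hle (γ⁻¹ • q)) =
      ∑ q : Γ ⧸ (Subgroup.inclusion hle).range, f' (γ : G) (fibreMap hle q) :=
    Equiv.sum_comp (MulAction.toPerm γ⁻¹ : Equiv.Perm (Γ ⧸ (Subgroup.inclusion hle).range))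
      (fun q => f' (γ : G) (fibreMap hle q))
  rw [hperm1, hperm2, sub_self, zero_add, sum_fibreMap]

end Transfer

end Fermat.Agent.S41.H683

end
-- ===== PACK-END S41/H683/PDTrCore.lean

-- ===== PACK-BEGIN S15/H542/ModA2Alg.lean
section



/-!
# S15, piece MOD-A2 (helper542), algebraic core: the big root of `Φ_p(a, Y)` is simple

Let `Φ ∈ ℤ[X][Y]` have modular shape of level `N ≥ 2` (`H962.IsModularShape`), `v` a valuation on
an algebraically closed field `K`, and `a, b ∈ K` with `Φ(a, b) = 0`, `1 < v a`, `v b = (v a)^N`.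
Then `b` is a simple root of `Φ(a, Y)`: `∂Φ/∂Y (a, b) ≠ 0`.

(The Newton polygon of `Φ(a, Y)` has exactly one root of valuation `(v a)^N`; the other `N` roots
have valuation `(v a)^{1/N}`.  Proof here: all roots have valuation `> 1`, the product of the roots
has valuation `(v a)^{N+1}`, and a double root `b` would contribute `(v a)^{2N} > (v a)^{N+1}`.)
-/

set_option autoImplicit false

noncomputable section

open Polynomial

namespace Fermat.Agent.S15.H542

open Fermat.Agent.S15.H962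

section Alg

variable {K : Type*} [Field K]

/-- The one-variable polynomial `Φ(a, Y)`. -/
def phiSpec (Φ : ℤ[X][X]) (a : K) : K[X] :=
  Φ.map (Polynomial.eval₂RingHom (Int.castRingHom K) a)

theorem eval_phiSpec (Φ : ℤ[X][X]) (a b : K) : (phiSpec Φ a).eval b = eval2 Φ a b := by
  unfold phiSpec eval2
  rw [Polynomial.eval_map]

theorem eval_derivative_phiSpec (Φ : ℤ[X][X]) (a b : K) :
    (derivative (phiSpec Φ a)).eval b = eval2 (derivative Φ) a b := by
  unfold phiSpec eval2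
  rw [Polynomial.derivative_map, Polynomial.eval_map]

theorem phiSpec_monic {Φ : ℤ[X][X]} (hΦ : Φ.Monic) (a : K) : (phiSpec Φ a).Monic :=
  hΦ.map _

theorem phiSpec_coeff_zero (Φ : ℤ[X][X]) (a : K) :
    (phiSpec Φ a).coeff 0 = (Φ.coeff 0).eval₂ (Int.castRingHom K) a := by
  simp [phiSpec, Polynomial.coeff_map]

theorem phiSpec_natDegree {Φ : ℤ[X][X]} (hΦ : Φ.Monic) (a : K) :
    (phiSpec Φ a).natDegree = Φ.natDegree :=
  hΦ.natDegree_map _

variable {Γ₀ : Type*} [LinearOrderedCommGroupWithZero Γ₀] (v : Valuation K Γ₀)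

/-- The valuation of a product of a multiset all of whose members have valuation `≥ 1`. -/
theorem one_le_val_multiset_prod (s : Multiset K) (h : ∀ r ∈ s, 1 ≤ v r) : 1 ≤ v s.prod := by
  refine Multiset.prod_induction (fun x => 1 ≤ v x) s ?_ ?_ h
  · intro x y hx hy
    rw [map_mul]
    calc (1 : Γ₀) = 1 * 1 := (mul_one 1).symm
      _ ≤ v x * v y := mul_le_mul' hx hy
  · simp

/-- **The big root is simple.** -/
theorem simple_root_of_isModularShape [IsAlgClosed K] {N : ℕ} (hN : 1 < N) {Φ : ℤ[X][X]}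
    (hΦ : IsModularShape N Φ) {a b : K} (ha : 1 < v a) (h : eval2 Φ a b = 0)
    (hb : v b = v a ^ N) : eval2 (derivative Φ) a b ≠ 0 := by
  classical
  intro hd
  have hN0 : 0 < N := by omega
  set f := phiSpec Φ a with hf
  have hf_monic : f.Monic := phiSpec_monic hΦ.monic a
  have hf0 : f ≠ 0 := hf_monic.ne_zero
  have hroot : f.IsRoot b := by rw [IsRoot, hf, eval_phiSpec]; exact h
  have hdroot : (derivative f).IsRoot b := by rw [IsRoot, hf, eval_derivative_phiSpec]; exact hd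
  have hmult : 1 < f.rootMultiplicity b :=
    (one_lt_rootMultiplicity_iff_isRoot hf0).mpr ⟨hroot, hdroot⟩
  have hcount : 2 ≤ f.roots.count b := by rw [count_roots]; exact hmult
  have hsplit : f.Splits := IsAlgClosed.splits f
  have hprod : f.coeff 0 = (-1) ^ f.natDegree * f.roots.prod :=
    hsplit.coeff_zero_eq_prod_roots_of_monic hf_monic
  -- valuation of the constant coefficient
  have hc0 : v (f.coeff 0) = v a ^ (N + 1) := by
    rw [hf, phiSpec_coeff_zero]
    exact val_eval_eq v ha (Φ.coeff 0) hΦ.coeff_zero_natDegree hΦ.coeff_zero_unit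
  -- all roots have valuation ≥ 1
  have hroots : ∀ r ∈ f.roots, 1 ≤ v r := by
    intro r hr
    have hr0 : eval2 Φ a r = 0 := by
      rw [← eval_phiSpec]
      exact (Polynomial.mem_roots hf0).mp hr
    rcases val_root_of_isModularShape v hN0 hΦ ha hr0 with h1 | h1
    · rw [h1]; exact (one_lt_pow₀ ha hN0.ne').le
    · exact (one_lt_of_pow_eq ha h1).le
  -- split off the double root
  obtain ⟨t, ht⟩ := Multiset.le_iff_exists_add.mp
    (Multiset.le_count_iff_replicate_le.mp hcount)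
  have hprod2 : f.roots.prod = b ^ 2 * t.prod := by
    rw [ht, Multiset.prod_add, Multiset.prod_replicate]
  have ht1 : 1 ≤ v t.prod := by
    refine one_le_val_multiset_prod v t fun r hr => hroots r ?_
    rw [ht]
    exact Multiset.mem_add.mpr (Or.inr hr)
  have hval : v (f.coeff 0) = v a ^ (2 * N) * v t.prod := by
    rw [hprod, hprod2, map_mul, map_pow, Valuation.map_neg, map_one, one_pow, one_mul, map_mul,
      map_pow, hb, ← pow_mul, mul_comm N 2]
  rw [hc0] at hval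
  have hlt : v a ^ (N + 1) < v a ^ (2 * N) := pow_lt_pow_right₀ ha (by omega)
  have hle : v a ^ (2 * N) ≤ v a ^ (2 * N) * v t.prod := by
    calc v a ^ (2 * N) = v a ^ (2 * N) * 1 := (mul_one _).symm
      _ ≤ v a ^ (2 * N) * v t.prod := mul_le_mul' le_rfl ht1
  rw [← hval] at hle
  exact absurd hlt (not_lt.mpr hle)

end Alg

end Fermat.Agent.S15.H542

end
end
-- ===== PACK-END S15/H542/ModA2Alg.lean

-- ===== PACK-BEGIN S15/H542/ModV.lean
section


/-!
# S15, piece MOD-V (helper542): Vélu's curve of a Galois-fixed point is defined over `ℚ`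

`veluRational : VeluRationalStatement`.

More generally, for any `W` over `ℚ̄` fixed by a field automorphism `σ` and any point `Q` fixed by
`σ`, Vélu's curve `veluCurve W Q p` is fixed by `σ` (`veluCurve_map_eq_of_fixed`).
-/

set_option autoImplicit false

noncomputable section

open WeierstrassCurve AlgebraicCurve ModularCurve
open scoped WeierstrassCurve.Affine

namespace Fermat.Agent.S15.H542

section General

variable {K : Type*} [Field K] [DecidableEq K]

/-- `xOf` commutes with `Point.map` along a field automorphism. -/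
theorem xOf_map_algEquiv {F : Type*} [Field F] [Algebra F K] (W : WeierstrassCurve F)
    (σ : K ≃ₐ[F] K) (P : (W⁄K).toAffine.Point) :
    xOf (WeierstrassCurve.Affine.Point.map (W' := W) σ.toAlgHom P) = σ (xOf P) := by
  cases P with
  | zero =>
    have h0 : WeierstrassCurve.Affine.Point.map (W' := W) σ.toAlgHom
        (WeierstrassCurve.Affine.Point.zero) = WeierstrassCurve.Affine.Point.zero :=
      map_zero (WeierstrassCurve.Affine.Point.map (W' := W) σ.toAlgHom)
    rw [h0]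
    simp [xOf]
  | some x y h => rfl

/-- The `x`-coordinate of a fixed point is fixed. -/
theorem xOf_fixed {F : Type*} [Field F] [Algebra F K] (W : WeierstrassCurve F)
    (σ : K ≃ₐ[F] K) (P : (W⁄K).toAffine.Point) (hP : σ • P = P) :
    σ (xOf P) = xOf P := by
  rw [← xOf_map_algEquiv W σ P]
  rw [WeierstrassCurve.Affine.Point.algEquiv_smul_def] at hP
  rw [hP]

/-- Multiples of a fixed point are fixed. -/
theorem nsmul_fixed {F : Type*} [Field F] [Algebra F K] (W : WeierstrassCurve F)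
    (σ : K ≃ₐ[F] K) (P : (W⁄K).toAffine.Point) (hP : σ • P = P) (k : ℕ) :
    σ • (k • P) = k • P := by
  rw [WeierstrassCurve.Affine.Point.algEquiv_smul_def] at hP ⊢
  rw [map_nsmul, hP]

end General

/-- `ℚ̄ / ℚ` is Galois. -/
theorem isGalois_Qbar_h542 : IsGalois ℚ (AlgebraicClosure ℚ) := by
  have : Algebra.IsAlgebraic ℚ (AlgebraicClosure ℚ) := AlgebraicClosure.isAlgebraic ℚ
  have : IsAlgClosure ℚ (AlgebraicClosure ℚ) := ⟨inferInstance, inferInstance⟩
  exact IsAlgClosure.isGalois ℚ (AlgebraicClosure ℚ)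

section Rational

variable (F : WeierstrassCurve ℚ) (Q : (F⁄(AlgebraicClosure ℚ)).toAffine.Point)
  (σ : AlgebraicClosure ℚ ≃ₐ[ℚ] AlgebraicClosure ℚ)

theorem sigma_b₂ : σ (F⁄(AlgebraicClosure ℚ)).b₂ = (F⁄(AlgebraicClosure ℚ)).b₂ := by
  change σ (F.map (algebraMap ℚ (AlgebraicClosure ℚ))).b₂ =
    (F.map (algebraMap ℚ (AlgebraicClosure ℚ))).b₂
  rw [WeierstrassCurve.map_b₂]
  exact σ.commutes _

theorem sigma_b₄ : σ (F⁄(AlgebraicClosure ℚ)).b₄ = (F⁄(AlgebraicClosure ℚ)).b₄ := by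
  change σ (F.map (algebraMap ℚ (AlgebraicClosure ℚ))).b₄ =
    (F.map (algebraMap ℚ (AlgebraicClosure ℚ))).b₄
  rw [WeierstrassCurve.map_b₄]
  exact σ.commutes _

theorem sigma_b₆ : σ (F⁄(AlgebraicClosure ℚ)).b₆ = (F⁄(AlgebraicClosure ℚ)).b₆ := by
  change σ (F.map (algebraMap ℚ (AlgebraicClosure ℚ))).b₆ =
    (F.map (algebraMap ℚ (AlgebraicClosure ℚ))).b₆
  rw [WeierstrassCurve.map_b₆]
  exact σ.commutes _

theorem sigma_veluT (hQ : σ • Q = Q) (p : ℕ) :
    σ (veluT (F⁄(AlgebraicClosure ℚ)) Q p) = veluT (F⁄(AlgebraicClosure ℚ)) Q p := by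
  unfold veluT veluT1
  rw [map_sum]
  refine Finset.sum_congr rfl fun k _ => ?_
  have hx := xOf_fixed F σ (k • Q) (nsmul_fixed F σ Q hQ k)
  simp only [map_add, map_mul, map_pow, map_ofNat, hx, sigma_b₂, sigma_b₄]

theorem sigma_veluW (hQ : σ • Q = Q) (p : ℕ) :
    σ (veluW (F⁄(AlgebraicClosure ℚ)) Q p) = veluW (F⁄(AlgebraicClosure ℚ)) Q p := by
  unfold veluW veluT1 veluU1
  rw [map_sum]
  refine Finset.sum_congr rfl fun k _ => ?_
  have hx := xOf_fixed F σ (k • Q) (nsmul_fixed F σ Q hQ k)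
  simp only [map_add, map_mul, map_pow, map_ofNat, hx, sigma_b₂, sigma_b₄, sigma_b₆]

/-- Vélu's curve of a fixed point is fixed. -/
theorem veluCurve_map_eq_of_fixed (hQ : σ • Q = Q) (p : ℕ) :
    (veluCurve (F⁄(AlgebraicClosure ℚ)) Q p).map (σ : AlgebraicClosure ℚ →+* AlgebraicClosure ℚ)
      = veluCurve (F⁄(AlgebraicClosure ℚ)) Q p := by
  have hT := sigma_veluT F Q σ hQ p
  have hW := sigma_veluW F Q σ hQ p
  have h2 := sigma_b₂ F σ
  have ha : ∀ a : ℚ, σ (algebraMap ℚ (AlgebraicClosure ℚ) a) = algebraMap ℚ (AlgebraicClosure ℚ) a :=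
    fun a => σ.commutes a
  ext
  · simp only [WeierstrassCurve.map_a₁, veluCurve, WeierstrassCurve.baseChange]
    exact ha _
  · simp only [WeierstrassCurve.map_a₂, veluCurve, WeierstrassCurve.baseChange]
    exact ha _
  · simp only [WeierstrassCurve.map_a₃, veluCurve, WeierstrassCurve.baseChange]
    exact ha _
  · simp only [WeierstrassCurve.map_a₄, veluCurve, RingHom.coe_coe, map_sub, map_mul, map_ofNat,
      hT]
    congr 1
    exact ha _
  · simp only [WeierstrassCurve.map_a₆, veluCurve, RingHom.coe_coe, map_sub, map_mul, map_ofNat,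
      hT, hW, h2]
    congr 2
    exact ha _

theorem sigma_jInv_veluCurve (hQ : σ • Q = Q) (p : ℕ) :
    σ (jInv (veluCurve (F⁄(AlgebraicClosure ℚ)) Q p)) =
      jInv (veluCurve (F⁄(AlgebraicClosure ℚ)) Q p) := by
  have h := veluCurve_map_eq_of_fixed F Q σ hQ p
  have h1 : jInv ((veluCurve (F⁄(AlgebraicClosure ℚ)) Q p).map
      (σ : AlgebraicClosure ℚ →+* AlgebraicClosure ℚ)) =
      σ (jInv (veluCurve (F⁄(AlgebraicClosure ℚ)) Q p)) := by
    simp only [jInv, WeierstrassCurve.map_c₄, WeierstrassCurve.map_Δ, RingHom.coe_coe, map_div₀,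
      map_pow]
  rw [← h1, h]

end Rational

/-- **MOD-V.** -/
theorem veluRational : VeluRationalStatement := by
  intro p W Q hQfix
  have := isGalois_Qbar_h542
  have h := (InfiniteGalois.mem_range_algebraMap_iff_fixed (k := ℚ) (K := AlgebraicClosure ℚ)
    (jInv (veluCurve (curveBar W) Q p))).mpr
    (fun σ => sigma_jInv_veluCurve (W.map (Int.castRingHom ℚ)) Q σ (hQfix σ) p)
  exact h

end Fermat.Agent.S15.H542

end
end
-- ===== PACK-END S15/H542/ModV.lean

-- ===== PACK-BEGIN S15/H662/HalfPeriod.lean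
section



/-!
# Row S15, piece I1 (helper662): half-period translation formula

For a lattice `L` and a half-period `h` (`h ∉ L`, `2 h ∈ L`), with `e = ℘(h)`:

* `derivWeierstrassP_halfPeriod` : `℘'(h) = 0`;
* `exists_halfPeriod_translate` : `(℘(z) - e) (℘(z - h) - e) = κ` is constant;
* `removable_weierstrassP_mul` : `℘ · w` has a removable singularity at `0` when `w` is analytic at
  `0` with `w 0 = 0`, `w' 0 = 0`.

Mathlib-only.
-/

set_option autoImplicit false

open Filter Topology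
open scoped PeriodPair

noncomputable section

namespace Fermat.Agent.S15.H662

/-- an analytic function vanishing to second order at `0` is `z ^ 2` times an analytic function -/
theorem exists_sq_factor {w : ℂ → ℂ} (hw : AnalyticAt ℂ w 0) (h0 : w 0 = 0)
    (h1 : deriv w 0 = 0) :
    ∃ w2 : ℂ → ℂ, AnalyticAt ℂ w2 0 ∧ ∀ᶠ z in 𝓝 (0 : ℂ), w z = z ^ 2 * w2 z := by
  have h2 : ((2 : ℕ) : ℕ∞) ≤ analyticOrderAt w 0 := by
    rw [natCast_le_analyticOrderAt_iff_iteratedDeriv_eq_zero hw]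
    intro i hi
    interval_cases i
    · simpa using h0
    · simpa using h1
  obtain ⟨g, hg, hgw⟩ := (natCast_le_analyticOrderAt hw).mp h2
  refine ⟨g, hg, ?_⟩
  filter_upwards [hgw] with z hz
  simpa using hz

/-- near `0`, away from `0`, no point lies in the lattice -/
theorem eventually_nhdsNE_zero_notMem (L : PeriodPair) :
    ∀ᶠ z in 𝓝[≠] (0 : ℂ), z ∉ L.lattice := by
  have h := L.compl_lattice_sdiff_singleton_mem_nhds 0
  filter_upwards [mem_nhdsWithin_of_mem_nhds h, self_mem_nhdsWithin] with z hz hz0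
  intro hzL
  exact hz ⟨hzL, hz0⟩

/-- `℘ z = ℘[L - 0] z + 1 / z ^ 2` -/
theorem weierstrassP_eq_except_zero (L : PeriodPair) (z : ℂ) :
    ℘[L] z = ℘[L - (0 : ℂ)] z + 1 / z ^ 2 := by
  have h1 := L.weierstrassPExcept_def (0 : L.lattice) z
  simp only [ZeroMemClass.coe_zero, sub_zero, ne_eq, OfNat.ofNat_ne_zero, not_false_eq_true,
    zero_pow, div_zero] at h1
  rw [h1]; ring

/-- **Removable singularity.** If `w` is analytic at `0` and vanishes there to second order, then
`℘ · w` has a removable singularity at `0`. -/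
theorem removable_weierstrassP_mul (L : PeriodPair) {w : ℂ → ℂ} (hw : AnalyticAt ℂ w 0)
    (h0 : w 0 = 0) (h1 : deriv w 0 = 0) :
    ∃ g : ℂ → ℂ, AnalyticAt ℂ g 0 ∧ (fun z => ℘[L] z * w z) =ᶠ[𝓝[≠] (0 : ℂ)] g := by
  obtain ⟨w2, hw2, hww2⟩ := exists_sq_factor hw h0 h1
  have hA : AnalyticAt ℂ ℘[L - (0 : ℂ)] 0 := L.analyticAt_weierstrassPExcept 0
  refine ⟨fun z => (℘[L - (0 : ℂ)] z * z ^ 2 + 1) * w2 z, by fun_prop, ?_⟩
  filter_upwards [mem_nhdsWithin_of_mem_nhds hww2, self_mem_nhdsWithin] with z hz hz0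
  have hz0' : z ≠ 0 := hz0
  show ℘[L] z * w z = (℘[L - (0 : ℂ)] z * z ^ 2 + 1) * w2 z
  rw [hz, weierstrassP_eq_except_zero]
  field_simp

/-- the difference of the `℘`-functions of two lattices has a removable singularity at `0` -/
theorem removable_weierstrassP_sub (L L' : PeriodPair) :
    ∃ g : ℂ → ℂ, AnalyticAt ℂ g 0 ∧ (fun z => ℘[L] z - ℘[L'] z) =ᶠ[𝓝[≠] (0 : ℂ)] g := by
  have hA : AnalyticAt ℂ ℘[L - (0 : ℂ)] 0 := L.analyticAt_weierstrassPExcept 0
  have hA' : AnalyticAt ℂ ℘[L' - (0 : ℂ)] 0 := L'.analyticAt_weierstrassPExcept 0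
  refine ⟨fun z => ℘[L - (0 : ℂ)] z - ℘[L' - (0 : ℂ)] z, by fun_prop, ?_⟩
  filter_upwards with z
  show ℘[L] z - ℘[L'] z = ℘[L - (0 : ℂ)] z - ℘[L' - (0 : ℂ)] z
  rw [weierstrassP_eq_except_zero L, weierstrassP_eq_except_zero L']
  ring

/-- removable singularities are transported by periods -/
theorem removable_add_period {f : ℂ → ℂ} {t z₀ : ℂ} (hper : ∀ z, f (z + t) = f z)
    (h : ∃ g : ℂ → ℂ, AnalyticAt ℂ g z₀ ∧ f =ᶠ[𝓝[≠] z₀] g) :
    ∃ g : ℂ → ℂ, AnalyticAt ℂ g (z₀ + t) ∧ f =ᶠ[𝓝[≠] (z₀ + t)] g := by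
  obtain ⟨g, hg, hfg⟩ := h
  refine ⟨fun z => g (z - t), ?_, ?_⟩
  · have : AnalyticAt ℂ g ((z₀ + t) - t) := by simpa using hg
    exact this.comp (f := fun z => z - t) (by fun_prop)
  · have hshift : Tendsto (fun v : ℂ => v - t) (𝓝[≠] (z₀ + t)) (𝓝[≠] z₀) := by
      refine tendsto_nhdsWithin_of_tendsto_nhds_of_eventually_within _ ?_ ?_
      · have : Tendsto (fun v : ℂ => v - t) (𝓝 (z₀ + t)) (𝓝 ((z₀ + t) - t)) :=
          (continuous_id.sub continuous_const).tendsto _
        rw [add_sub_cancel_right] at this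
        exact this.mono_left nhdsWithin_le_nhds
      · filter_upwards [self_mem_nhdsWithin] with v hv
        intro hv'
        apply hv
        rw [Set.mem_singleton_iff] at hv' ⊢
        linear_combination hv'
    have := hshift.eventually hfg
    filter_upwards [this] with v hv
    rw [← hv, ← hper (v - t), sub_add_cancel]

/-- an analytic function is its own removable extension -/
theorem removable_of_analyticAt {f : ℂ → ℂ} {z₀ : ℂ} (h : AnalyticAt ℂ f z₀) :
    ∃ g : ℂ → ℂ, AnalyticAt ℂ g z₀ ∧ f =ᶠ[𝓝[≠] z₀] g :=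
  ⟨f, h, EventuallyEq.rfl⟩

/-- sums of functions with removable singularities -/
theorem removable_add {f₁ f₂ : ℂ → ℂ} {z₀ : ℂ}
    (h₁ : ∃ g : ℂ → ℂ, AnalyticAt ℂ g z₀ ∧ f₁ =ᶠ[𝓝[≠] z₀] g)
    (h₂ : ∃ g : ℂ → ℂ, AnalyticAt ℂ g z₀ ∧ f₂ =ᶠ[𝓝[≠] z₀] g) :
    ∃ g : ℂ → ℂ, AnalyticAt ℂ g z₀ ∧ (fun z => f₁ z + f₂ z) =ᶠ[𝓝[≠] z₀] g := by
  obtain ⟨g₁, hg₁, e₁⟩ := h₁
  obtain ⟨g₂, hg₂, e₂⟩ := h₂
  exact ⟨fun z => g₁ z + g₂ z, hg₁.add hg₂, e₁.add e₂⟩

/-- differences of functions with removable singularities -/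
theorem removable_sub {f₁ f₂ : ℂ → ℂ} {z₀ : ℂ}
    (h₁ : ∃ g : ℂ → ℂ, AnalyticAt ℂ g z₀ ∧ f₁ =ᶠ[𝓝[≠] z₀] g)
    (h₂ : ∃ g : ℂ → ℂ, AnalyticAt ℂ g z₀ ∧ f₂ =ᶠ[𝓝[≠] z₀] g) :
    ∃ g : ℂ → ℂ, AnalyticAt ℂ g z₀ ∧ (fun z => f₁ z - f₂ z) =ᶠ[𝓝[≠] z₀] g := by
  obtain ⟨g₁, hg₁, e₁⟩ := h₁
  obtain ⟨g₂, hg₂, e₂⟩ := h₂
  exact ⟨fun z => g₁ z - g₂ z, hg₁.sub hg₂, e₁.sub e₂⟩

/-- constant multiples of functions with removable singularities -/
theorem removable_const_mul {f : ℂ → ℂ} {z₀ : ℂ} (c : ℂ)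
    (h : ∃ g : ℂ → ℂ, AnalyticAt ℂ g z₀ ∧ f =ᶠ[𝓝[≠] z₀] g) :
    ∃ g : ℂ → ℂ, AnalyticAt ℂ g z₀ ∧ (fun z => c * f z) =ᶠ[𝓝[≠] z₀] g := by
  obtain ⟨g, hg, e⟩ := h
  exact ⟨fun z => c * g z, analyticAt_const.mul hg, e.fun_comp (fun x => c * x)⟩

/-- `℘'` vanishes at half-periods -/
theorem derivWeierstrassP_halfPeriod (L : PeriodPair) {h : ℂ} (hh2 : 2 * h ∈ L.lattice) :
    ℘'[L] h = 0 := by
  have h1 : ℘'[L] (h - 2 * h) = ℘'[L] h := L.derivWeierstrassP_sub_coe h ⟨2 * h, hh2⟩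
  have h2 : h - 2 * h = -h := by ring
  rw [h2, L.derivWeierstrassP_neg] at h1
  linear_combination -(1 / 2 : ℂ) * h1

/-- `℘ (z - h) = ℘ (z + h)` for a half-period `h` -/
theorem weierstrassP_sub_halfPeriod (L : PeriodPair) {h : ℂ} (hh2 : 2 * h ∈ L.lattice) (z : ℂ) :
    ℘[L] (z - h) = ℘[L] (z + h) := by
  have h1 : ℘[L] (z - h + 2 * h) = ℘[L] (z - h) := L.weierstrassP_add_coe (z - h) ⟨2 * h, hh2⟩
  rw [← h1]; congr 1; ring

/-- `℘` is analytic at translates: `z ↦ ℘ (z - h)` is analytic at `z₀` if `z₀ - h ∉ L` -/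
theorem analyticAt_weierstrassP_sub (L : PeriodPair) {h z₀ : ℂ} (hz : z₀ - h ∉ L.lattice) :
    AnalyticAt ℂ (fun z => ℘[L] (z - h)) z₀ :=
  (L.analyticOnNhd_weierstrassP (z₀ - h) hz).comp (f := fun z => z - h) (by fun_prop)

/-- **Half-period translation formula**: `(℘(z) - e) (℘(z - h) - e)` is constant, `e = ℘(h)`. -/
theorem exists_halfPeriod_translate (L : PeriodPair) {h : ℂ} (hh : h ∉ L.lattice)
    (hh2 : 2 * h ∈ L.lattice) :
    ∃ κ : ℂ, ∀ z : ℂ, z ∉ L.lattice → z - h ∉ L.lattice →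
      (℘[L] z - ℘[L] h) * (℘[L] (z - h) - ℘[L] h) = κ := by
  set e := ℘[L] h with he
  set f : ℂ → ℂ := fun z => (℘[L] z - e) * (℘[L] (z - h) - e) with hf
  have hnegh : -h ∉ L.lattice := fun hm => hh (by simpa using L.lattice.neg_mem hm)
  have hperL : ∀ z : ℂ, ∀ l ∈ L.lattice, f (z + l) = f z := by
    intro z l hl
    simp only [hf]
    rw [L.weierstrassP_add_coe z ⟨l, hl⟩, show z + l - h = (z - h) + l by ring,
      L.weierstrassP_add_coe (z - h) ⟨l, hl⟩]
  have hperh : ∀ z : ℂ, f (z + h) = f z := by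
    intro z
    simp only [hf]
    rw [add_sub_cancel_right, ← weierstrassP_sub_halfPeriod L hh2 z]
    ring
  -- removable singularity at `0`
  have hrem0 : ∃ g : ℂ → ℂ, AnalyticAt ℂ g 0 ∧ f =ᶠ[𝓝[≠] (0 : ℂ)] g := by
    set w : ℂ → ℂ := fun z => ℘[L] (z - h) - e with hw
    have hwan : AnalyticAt ℂ w 0 :=
      (analyticAt_weierstrassP_sub L (by simpa using hnegh)).sub analyticAt_const
    have hw0 : w 0 = 0 := by
      simp only [hw, zero_sub, L.weierstrassP_neg, he, sub_self]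
    have hw1 : deriv w 0 = 0 := by
      have hd : HasDerivAt (fun z => ℘[L] (z - h)) (℘'[L] (0 - h)) 0 := by
        have h1 : HasDerivAt ℘[L] (deriv ℘[L] (0 - h)) (0 - h) :=
          ((L.analyticOnNhd_weierstrassP (0 - h) (by simpa using hnegh)).differentiableAt).hasDerivAt
        rw [L.deriv_weierstrassP] at h1
        have h2 : HasDerivAt (fun z : ℂ => z - h) 1 0 := (hasDerivAt_id 0).sub_const h
        have h3 := HasDerivAt.comp (0 : ℂ) h1 h2
        rw [mul_one] at h3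
        exact h3
      have hd' : HasDerivAt w (℘'[L] (0 - h)) 0 := hd.sub_const e
      rw [hd'.deriv, zero_sub, L.derivWeierstrassP_neg, derivWeierstrassP_halfPeriod L hh2,
        neg_zero]
    have h1 := removable_weierstrassP_mul L hwan hw0 hw1
    have h2 := removable_const_mul e (removable_of_analyticAt hwan)
    have h3 := removable_sub h1 h2
    obtain ⟨g, hg, hfg⟩ := h3
    refine ⟨g, hg, EventuallyEq.trans (Eventually.of_forall fun z => ?_) hfg⟩
    simp only [hf, hw]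
    ring
  have hrem : ∀ z : ℂ, ∃ g : ℂ → ℂ, AnalyticAt ℂ g z ∧ f =ᶠ[𝓝[≠] z] g := by
    intro z
    by_cases hz : z ∈ L.lattice
    · have := removable_add_period (t := z) (z₀ := 0) (fun v => hperL v z hz) hrem0
      simpa using this
    by_cases hz' : z - h ∈ L.lattice
    · have h1 := removable_add_period (t := z - h) (z₀ := 0) (fun v => hperL v _ hz') hrem0
      have h2 := removable_add_period (t := h) hperh h1
      simpa using h2
    · refine removable_of_analyticAt ?_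
      have h1 : AnalyticAt ℂ ℘[L] z := L.analyticOnNhd_weierstrassP z hz
      have h2 : AnalyticAt ℂ (fun v => ℘[L] (v - h)) z := analyticAt_weierstrassP_sub L hz'
      exact (h1.sub analyticAt_const).mul (h2.sub analyticAt_const)
  obtain ⟨κ, hκ⟩ := exists_const_of_periodic_of_removable' L f hperL hrem
  refine ⟨κ, fun z hz hz' => ?_⟩
  have h1 : AnalyticAt ℂ ℘[L] z := L.analyticOnNhd_weierstrassP z hz
  have h2 : AnalyticAt ℂ (fun v => ℘[L] (v - h)) z := analyticAt_weierstrassP_sub L hz'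
  have hc : ContinuousAt f z := ((h1.sub analyticAt_const).mul (h2.sub analyticAt_const)).continuousAt
  exact hκ z hc

end Fermat.Agent.S15.H662

end

end
-- ===== PACK-END S15/H662/HalfPeriod.lean

-- ===== PACK-BEGIN S04/Glue.lean
section



set_option autoImplicit false

namespace Fermat.Agent.S04

open WeierstrassCurve

/-- S04 from the S60-type statement (hypothesis-parametrised glue). -/
theorem isModular_of_semistable_modularity
    (h60 : ∀ W : WeierstrassCurve ℤ, W.Δ ≠ 0 → W.IsSemistableModel →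
      (W.map (Int.castRingHom ℚ)).IsModular)
    (P : FreyPackage) : P.freyCurve.IsModular := by
  have h := h60 P.freyCurveInt (freyCurveInt_Δ_ne_zero P) (freyCurveInt_isSemistableModel P)
  rwa [freyCurveInt_map] at h

end Fermat.Agent.S04

end
-- ===== PACK-END S04/Glue.lean

-- ===== PACK-BEGIN S01/Glue918.lean
section



/-!
# S01 glue (helper918): Fermat's Last Theorem from the frozen statement S03 (as a hypothesis),
the landed S02, and Mathlib (`n = 3`, `n = 4`, reduction to odd primes).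
-/

set_option autoImplicit false

namespace Fermat.Agent.S01.H918

/-- FLT for a prime exponent `p ≥ 5` from "no Frey package". -/
theorem fermatLastTheoremFor_of_noFrey (hS03 : FreyPackage → False) (p : ℕ) (pp : p.Prime)
    (hp5 : 5 ≤ p) : FermatLastTheoremFor p := by
  intro a b c ha hb hc H
  have hZ : (a : ℤ) ^ p + (b : ℤ) ^ p = (c : ℤ) ^ p := by exact_mod_cast H
  obtain ⟨P⟩ := Fermat.Agent.S02.result (a : ℤ) (b : ℤ) (c : ℤ)
    (by exact_mod_cast ha) (by exact_mod_cast hb) (by exact_mod_cast hc) p pp hp5 hZ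
  exact hS03 P

/-- Full FLT from "no Frey package". -/
theorem fermatLastTheorem_of_noFrey (hS03 : FreyPackage → False) : FermatLastTheorem := by
  apply FermatLastTheorem.of_odd_primes
  intro p pp hodd
  rcases Nat.lt_or_ge p 5 with h | h
  · have h3 : p = 3 := by
      have h2 := pp.two_le
      interval_cases p
      · exact absurd hodd (by decide)
      · rfl
      · exact absurd pp (by decide)
    subst h3
    exact fermatLastTheoremThree
  · exact fermatLastTheoremFor_of_noFrey hS03 p pp h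

/-- `S01 ⇐ S03` (hypothesis verbatim the frozen statement S03). -/
theorem result_of (hS03 : ∀ P : FreyPackage, False)
    (n : ℕ) (hn : 3 ≤ n) (a b c : ℕ) (ha : 0 < a) (hb : 0 < b) (hc : 0 < c) :
    a ^ n + b ^ n ≠ c ^ n :=
  fermatLastTheorem_of_noFrey hS03 n hn a b c ha.ne' hb.ne' hc.ne'

end Fermat.Agent.S01.H918

end
-- ===== PACK-END S01/Glue918.lean

-- ===== PACK-BEGIN S51/T171Three.lean
section


set_option autoImplicit false
open WeierstrassCurve WeierstrassCurve.Affine WeierstrassCurve.Affine.Point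

namespace Fermat.Agent.S51.T171

variable {F : Type*} [Field F] [DecidableEq F] {W : Affine F}

theorem three_zsmul (P : W.Point) : ((3 : ℕ) : ℤ) • P = P + P + P := by
  have : ((3 : ℕ) : ℤ) = 1 + 1 + 1 := by norm_num
  rw [this, add_smul, add_smul, one_smul]

theorem three_zsmul_eq_zero_iff (P : W.Point) : ((3 : ℕ) : ℤ) • P = 0 ↔ P + P = -P := by
  rw [three_zsmul]
  constructor
  · intro h
    exact eq_neg_of_add_eq_zero_left h
  · intro h
    rw [h]; exact neg_add_cancel P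

/-- A nonzero `3`-torsion point has `ψ₃(x) = 0`. -/
theorem dPsi3_eq_zero_of_three_torsion {x y : F} (h : W.Nonsingular x y)
    (h3 : ((3 : ℕ) : ℤ) • (Point.some x y h) = 0) : dPsi3 W x = 0 := by
  rw [three_zsmul_eq_zero_iff] at h3
  by_cases hy : y = W.negY x y
  · rw [two_nsmul_some_of_eq h hy] at h3
    exact absurd (neg_eq_zero.mp h3.symm) (some_ne_zero h)
  · obtain ⟨x', y', h', hadd, hx'⟩ := two_nsmul_some h hy
    rw [hadd, neg_some] at h3
    have hxx : x' = x := (Point.some.inj h3).1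
    rw [dPsi3_eq, ← hx', hxx]; ring

/-- A point with `ψ₃(x) = 0` is `3`-torsion. -/
theorem three_torsion_of_dPsi3_eq_zero (h2 : (2 : F) ≠ 0) {x y : F} (h : W.Nonsingular x y)
    (h3 : dPsi3 W x = 0) : ((3 : ℕ) : ℤ) • (Point.some x y h) = 0 := by
  rw [three_zsmul_eq_zero_iff]
  have hy : y ≠ W.negY x y := fun hy => dPsi3_ne_zero_of_Y_eq h2 h hy h3
  obtain ⟨x', y', h', hadd, hx'⟩ := two_nsmul_some h hy
  have hB : dB6 W x ≠ 0 := dB6_ne_zero h.1 hy
  have hxx : x' = x := by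
    rw [dPsi3_eq] at h3
    have : x' * dB6 W x = x * dB6 W x := by rw [hx']; linear_combination -h3
    exact mul_right_cancel₀ hB this
  subst hxx
  rw [hadd]
  rcases eq_or_eq_neg_of_x_eq h' h with he | he
  · -- `P + P = P` forces `P = 0`
    exfalso
    rw [he] at hadd
    have h0 : Point.some x' y h = 0 :=
      add_left_cancel (a := Point.some x' y h) (by rw [hadd, add_zero])
    exact some_ne_zero h h0
  · exact he

end Fermat.Agent.S51.T171

end
-- ===== PACK-END S51/T171Three.lean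

-- ===== PACK-BEGIN LT/H670/Glue2.lean
section



/-!
# Row LT, block GLUE2 (architect helper670) -- frozen leaves + proved assembly

Target: `LTB.Glue2` (board of helper17, `LT/H17/Board.lean`):
frozen S47 `→` every semistable `W` with irreducible `W[3]` is residually modular at `3`.

Leaves (all are TRUE statements; Prelude vocabulary only):

| leaf | Prop | content |
|---|---|---|
| G2a      | `MatFormC` | `∃ ρ : Γℚ →* GL₂(𝔽₃)`: continuous, `det = χ̄₃`, Frobenius traces, irreducible, inertia of exponent 3 at `q ≠ 3` (route 1: the five sub-leaves below; route 2: residual rep. of the Tate module of S58) |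
| G2a-REP  | `RepC`     | `W[3]` has a basis; matrix form `ρ : Γℚ →* GL₂(𝔽₃)`, continuous |
| G2a-DET  | `DetC`     | `det ρ = modThreeCyclotomicChar` (Weil pairing) |
| G2a-TR   | `TraceC`   | `tr ρ(Frob_ℓ) = a_ℓ(W)` in `𝔽₃` at good `ℓ ≠ 3` |
| G2a-IRR  | `IrrC`     | `ModRepIsIrreducible 3` ⇒ no `ρ`-stable line |
| G2b-UNIP | `UnipC`    | semistable ⇒ `ρ(σ)³ = 1` for `σ` in an inertia group at `q ≠ 3` |
| G2b-KW   | `KWC`      | a continuous character `Γℚ → 𝔽₃ˣ` trivial on all inertia groups at `q ≠ 3` is `1` or `χ̄₃` |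
| G2b-CC   | `ConjC`    | complex conjugation has order `≤ 2` and `χ̄₃(c) = -1` |
| G2b-GRP  | `GrpC`     | finite group theory in `GL₂(𝔽₃)` |
| G2c      | `SectionC` | the section `Ψ` exists (`Slift`, `Tlift`) |
| FROB     | `FrobC`    | Frobenius elements exist at every prime |
| G2d      | `W2C`      | flexible form of the first conjunct of Prelude `CuspForm.WeightTwoModThreeCongruenceLift` (level may be raised) |
| S23      | `IntBasisC`| `HasIntegralBasis N` for all `N` (landed S23 + adapter) |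
| S49      | `LiftC`    | landed S49 as a Prop |

PROVED in `Glue2Top.lean`: `matFormC_of : RepC → DetC → TraceC → IrrC → UnipC → MatFormC`,
`surjC_of : KWC → ConjC → GrpC → SurjC`,
`glue2_of_matForm : MatFormC → SurjC → SectionC → FrobC → W2C → IntBasisC → LiftC → LTB.Glue2`.
-/

set_option autoImplicit false

open AutomorphicForm FLT.ExplicitLift EisensteinWeightOne
open WeierstrassCurve WeierstrassCurve.Affine WeierstrassCurve.Affine.Point
open CongruenceSubgroup
open scoped MatrixGroups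
open scoped WeierstrassCurve.Affine

noncomputable section

namespace Fermat.Agent.LT.H670

local notation "Γℚ" => (AlgebraicClosure ℚ ≃ₐ[ℚ] AlgebraicClosure ℚ)

/-- `W[3](ℚ̄)`, exactly the type of the frozen S50. -/
abbrev Pts3 (W : WeierstrassCurve ℤ) : Type :=
  Submodule.torsionBy ℤ ((W.map (Int.castRingHom ℚ))⁄(AlgebraicClosure ℚ)).Point (3 : ℕ)

/-- `ρ` is the matrix of the Galois action on `W[3]` in some basis. -/
def IsMatModel (W : WeierstrassCurve ℤ) (ρ : Γℚ →* GL (Fin 2) (ZMod 3)) : Prop :=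
  ∃ e : Pts3 W ≃ₗ[ZMod 3] (Fin 2 → ZMod 3),
    ∀ (σ : Γℚ) (x : Pts3 W),
      e (σ • x) = ((ρ σ : GL (Fin 2) (ZMod 3)) : Matrix (Fin 2) (Fin 2) (ZMod 3)).mulVec (e x)

/-- No line of `𝔽₃²` is stable under `ρ`. -/
def MatIrred (ρ : Γℚ →* GL (Fin 2) (ZMod 3)) : Prop :=
  ∀ v : Fin 2 → ZMod 3, v ≠ 0 →
    ∃ σ : Γℚ, ∀ c : ZMod 3,
      ((ρ σ : GL (Fin 2) (ZMod 3)) : Matrix (Fin 2) (Fin 2) (ZMod 3)).mulVec v ≠ c • v

/-- `ρ` kills the third power of every inertia element at the primes `q ≠ 3`. -/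
def InertiaCubeTrivial (ρ : Γℚ →* GL (Fin 2) (ZMod 3)) : Prop :=
  ∀ q : ℕ, q.Prime → q ≠ 3 →
    ∀ A : ValuationSubring (AlgebraicClosure ℚ), A.LiesOverPrime q →
      ∀ σ ∈ A.inertiaSubgroupIn ℚ, (ρ σ) ^ 3 = 1

/-- Frobenius traces of `ρ` are the `a_ℓ(W)` at the good primes `ℓ ≠ 3`. -/
def HasFrobTraces (W : WeierstrassCurve ℤ) (ρ : Γℚ →* GL (Fin 2) (ZMod 3)) : Prop :=
  ∀ ℓ : ℕ, ℓ.Prime → W.IsGoodPrimeFor ℓ → ℓ ≠ 3 →
    ∀ A : ValuationSubring (AlgebraicClosure ℚ), A.LiesOverPrime ℓ →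
      ∀ σ : Γℚ, A.IsFrobeniusAt σ ℓ →
        ((ρ σ : GL (Fin 2) (ZMod 3)) : Matrix (Fin 2) (Fin 2) (ZMod 3)).trace
          = ((W.apOfModel ℓ : ℤ) : ZMod 3)

/-! ## The leaves -/

/-- **G2a-REP**: a continuous matrix form of `W[3]` exists (`#W[3] = 9` is on main). -/
def RepC : Prop :=
  ∀ W : WeierstrassCurve ℤ, W.Δ ≠ 0 →
    ∃ ρ : Γℚ →* GL (Fin 2) (ZMod 3), Continuous ρ ∧ IsMatModel W ρ

/-- **G2a-DET**: the determinant is the mod-3 cyclotomic character (Weil pairing). -/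
def DetC : Prop :=
  ∀ (W : WeierstrassCurve ℤ) (ρ : Γℚ →* GL (Fin 2) (ZMod 3)), W.Δ ≠ 0 → IsMatModel W ρ →
    ∀ σ : Γℚ, Matrix.GeneralLinearGroup.det (ρ σ) = modThreeCyclotomicChar σ

/-- **G2a-TR**: Frobenius traces (Frobenius relation `σ² - a_ℓ σ + ℓ = 0` on `W[3]`, on main for
`ℓ ≥ 5`; `ℓ = 2` by the small-prime library; Cayley--Hamilton and `det ρ(Frob_ℓ) = ℓ`). -/
def TraceC : Prop :=
  ∀ (W : WeierstrassCurve ℤ) (ρ : Γℚ →* GL (Fin 2) (ZMod 3)), W.Δ ≠ 0 → IsMatModel W ρ →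
    (∀ σ : Γℚ, Matrix.GeneralLinearGroup.det (ρ σ) = modThreeCyclotomicChar σ) →
    HasFrobTraces W ρ

/-- **G2a-IRR**: dictionary for irreducibility. -/
def IrrC : Prop :=
  ∀ (W : WeierstrassCurve ℤ) (ρ : Γℚ →* GL (Fin 2) (ZMod 3)), IsMatModel W ρ →
    W.ModRepIsIrreducible 3 → MatIrred ρ

/-- **G2b-UNIP**: at a prime `q ≠ 3` the inertia acts on `W[3]` trivially (good reduction) or
through a unipotent element (multiplicative reduction), so its cube is trivial. -/
def UnipC : Prop :=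
  ∀ (W : WeierstrassCurve ℤ) (ρ : Γℚ →* GL (Fin 2) (ZMod 3)), W.Δ ≠ 0 → W.IsSemistableModel →
    IsMatModel W ρ → InertiaCubeTrivial ρ

/-- **G2a** (what the top really uses; ANY `ρ` with these five properties will do, it need not
be given by a basis of `W[3]`: e.g. the residual representation of the 3-adic Tate module of
`S58.TateRepStatement` in matrix form, with `S58.ResidualStatement` for irreducibility). -/
def MatFormC : Prop :=
  ∀ W : WeierstrassCurve ℤ, W.Δ ≠ 0 → W.IsSemistableModel → W.ModRepIsIrreducible 3 →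
    ∃ ρ : Γℚ →* GL (Fin 2) (ZMod 3), Continuous ρ ∧
      (∀ σ : Γℚ, Matrix.GeneralLinearGroup.det (ρ σ) = modThreeCyclotomicChar σ) ∧
      HasFrobTraces W ρ ∧ MatIrred ρ ∧ InertiaCubeTrivial ρ

/-- **G2b-KW** (Kronecker--Weber for quadratic characters unramified outside `3`): a continuous
character of `Γℚ` with values in `𝔽₃ˣ` which is trivial on all inertia groups at the primes
`q ≠ 3` is trivial or the mod-3 cyclotomic character. -/
def KWC : Prop :=
  ∀ χ : Γℚ →* (ZMod 3)ˣ, Continuous χ →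
    (∀ q : ℕ, q.Prime → q ≠ 3 →
      ∀ A : ValuationSubring (AlgebraicClosure ℚ), A.LiesOverPrime q →
        ∀ σ ∈ A.inertiaSubgroupIn ℚ, χ σ = 1) →
    χ = 1 ∨ χ = modThreeCyclotomicChar

/-- **G2b-CC**: complex conjugation is an involution on which the mod-3 cyclotomic character
is `-1`. -/
def ConjC : Prop :=
  complexConjugation * complexConjugation = 1 ∧
    modThreeCyclotomicChar complexConjugation = -1

/-- **G2b-GRP** (finite group theory in `GL₂(𝔽₃)`, no Galois theory): a subgroup `G` acting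
irreducibly on `𝔽₃²`, with surjective determinant, containing an involution of determinant `-1`,
is everything as soon as (i) it contains an element of order `3`, or (ii) every homomorphism
`G → 𝔽₃ˣ` is trivial or the determinant.  (In case (ii) without elements of order 3, `G` is a
2-group with a unique subgroup of index 2, hence cyclic, hence `G = ⟨c⟩`, reducible.) -/
def GrpC : Prop :=
  ∀ G : Subgroup (GL (Fin 2) (ZMod 3)),
    (∀ v : Fin 2 → ZMod 3, v ≠ 0 → ∃ g ∈ G, ∀ c : ZMod 3,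
      ((g : GL (Fin 2) (ZMod 3)) : Matrix (Fin 2) (Fin 2) (ZMod 3)).mulVec v ≠ c • v) →
    (∃ c ∈ G, c * c = 1 ∧ Matrix.GeneralLinearGroup.det c = -1) →
    ((∃ g ∈ G, g ^ 3 = 1 ∧ g ≠ 1) ∨
      ∀ χ : G →* (ZMod 3)ˣ, χ = 1 ∨ ∀ g : G, χ g = Matrix.GeneralLinearGroup.det (g : GL (Fin 2) (ZMod 3))) →
    G = ⊤

/-- **G2b** (Galois side, no elliptic curve): continuous, cyclotomic determinant, irreducible,
inertia at `q ≠ 3` of exponent 3  ⇒  surjective. -/
def SurjC : Prop :=
  ∀ ρ : Γℚ →* GL (Fin 2) (ZMod 3), Continuous ρ →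
    (∀ σ : Γℚ, Matrix.GeneralLinearGroup.det (ρ σ) = modThreeCyclotomicChar σ) →
    MatIrred ρ → InertiaCubeTrivial ρ → Function.Surjective ρ

/-- **G2c**: the explicit section exists. -/
def SectionC : Prop :=
  ∃ Ψ : GL (Fin 2) (ZMod 3) →* GL (Fin 2) (ℤ√(-2)),
    ∀ g, Matrix.GeneralLinearGroup.map red (Ψ g) = g

/-- **FROB**: Frobenius elements exist at every prime. -/
def FrobC : Prop :=
  ∀ p : ℕ, p.Prime → ∃ (A : ValuationSubring (AlgebraicClosure ℚ)) (σ : Γℚ),
    A.LiesOverPrime p ∧ A.IsFrobeniusAt σ p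

/-- **G2d** (FLEXIBLE form of the first conjunct of the Prelude Prop
`CuspForm.WeightTwoModThreeCongruenceLift`): a weight-one realized `χ₋₃`-eigensystem `b` of level
`M` is congruent modulo 3, at the primes not dividing SOME multiple `M'` of `M`, to an integral
formal eigensystem `a` that is lattice-realised in weight 2 on `Γ₀(M')`.
The level may be raised (GLUE2 has no level control), so ANY weight-one form `G ≡ 1 (mod 3)` with
character `χ₋₃` may be used (`E_{1,χ₋₃}` on `Γ₁(3)`, the eta quotient `η(τ)³/η(3τ)`, ...).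
`HasIntegralBasis` is available at every level (landed S23). -/
def W2C : Prop :=
  (∀ (N : ℕ) [NeZero N], CuspForm.HasIntegralBasis N) →
  ∀ (M : ℕ) (_ : NeZero M) (b : ℕ → ℤ√(-2)),
    FormalHecke.IsEigensystem
      (fun ℓ => if ℓ ∣ M then 0 else ((chiNegThree ℓ : ℤ) : ℤ√(-2))) b →
    CuspForm.IsWeightOneChiNegThreeRealized M b →
    ∃ (M' : ℕ) (_ : NeZero M') (a : ℕ → ℤ), M ∣ M' ∧
      FormalHecke.IsEigensystem
        (fun ℓ => if ℓ ∣ M' then 0 else ((chiNegThree ℓ : ℤ) : ℤ)) a ∧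
      CuspForm.IsLatticeRealized M' a ∧
      ∀ ℓ : ℕ, ℓ.Prime → ¬ ℓ ∣ M' → ((a ℓ : ℤ) : ZMod 3) = red (b ℓ)

/-- **S23** (landed) in the form used here. -/
def IntBasisC : Prop := ∀ (N : ℕ) [NeZero N], CuspForm.HasIntegralBasis N

/-- **S49** (landed) as a Prop. -/
def LiftC : Prop :=
  ∀ (N : ℕ) [NeZero N], CuspForm.HasIntegralBasis N → ∀ a : ℕ → ℤ,
    FormalHecke.IsEigensystem (fun ℓ => if ℓ ∣ N then 0 else ((chiNegThree ℓ : ℤ) : ℤ)) a →
    CuspForm.IsLatticeRealized N a →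
    ∃ (f : CuspForm (Gamma0 N) 2) (_ : f.IsNormalizedEigenform)
      (𝔪' : Ideal (integralClosure ℤ ℂ)), 𝔪'.IsMaximal ∧
      ((3 : ℕ) : integralClosure ℤ ℂ) ∈ 𝔪' ∧
      ∀ (ℓ : ℕ) (_ : ℓ.Prime) (_ : ¬ ℓ ∣ N),
        ∃ c : integralClosure ℤ ℂ, (c : ℂ) = ModularFormClass.qCoeff f ℓ ∧
          c - (a ℓ : integralClosure ℤ ℂ) ∈ 𝔪'

end Fermat.Agent.LT.H670

end

end
-- ===== PACK-END LT/H670/Glue2.lean

-- ===== PACK-BEGIN S22T/Expand.lean
section



/-!
Re-expansion of a `q`-series along a substitution `𝕢 1 (α z) = ξ * 𝕢 h z ^ e`.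
-/

open UpperHalfPlane Function
open scoped Manifold

namespace Fermat.Agent.S22T

local notation "𝕢" => Function.Periodic.qParam

/-- The coefficients of the re-expanded series. -/
noncomputable def expandCoeff (c : ℕ → ℂ) (e : ℕ) (ξ : ℂ) (j : ℕ) : ℂ :=
  if e ∣ j then c (j / e) * ξ ^ (j / e) else 0

theorem hasSum_expand {F : ℍ → ℂ} {c : ℕ → ℂ}
    (hF : ∀ w : ℍ, HasSum (fun n => c n • 𝕢 1 w ^ n) (F w))
    {h : ℝ} (α : ℍ → ℍ) (e : ℕ) (he : 0 < e) (ξ : ℂ)
    (hα : ∀ z : ℍ, 𝕢 1 (α z) = ξ * 𝕢 h z ^ e) (z : ℍ) :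
    HasSum (fun j => expandCoeff c e ξ j • 𝕢 h z ^ j) (F (α z)) := by
  have h1 := hF (α z)
  have hinj : Function.Injective (fun n : ℕ => e * n) := fun a b hab =>
    Nat.eq_of_mul_eq_mul_left he hab
  rw [← hinj.hasSum_iff]
  · convert h1 using 1
    funext n
    simp only [Function.comp_apply, expandCoeff, dvd_mul_right, if_true,
      Nat.mul_div_cancel_left n he, smul_eq_mul]
    rw [hα z, mul_pow, ← pow_mul]
    ring
  · intro j hj
    have : ¬ e ∣ j := by
      rintro ⟨n, rfl⟩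
      exact hj ⟨n, rfl⟩
    simp [expandCoeff, this]

theorem qParam_add_period {h : ℝ} (hh : h ≠ 0) (w : ℂ) : 𝕢 h (w + h) = 𝕢 h w := by
  have hh' : (h : ℂ) ≠ 0 := by exact_mod_cast hh
  simp only [Function.Periodic.qParam]
  rw [show 2 * (Real.pi : ℂ) * Complex.I * (w + h) / h
      = 2 * Real.pi * Complex.I * w / h + 2 * Real.pi * Complex.I by field_simp]
  rw [Complex.exp_add, Complex.exp_two_pi_mul_I, mul_one]

theorem periodic_of_hasSum {G : ℍ → ℂ} {c : ℕ → ℂ} {h : ℝ} (hh : h ≠ 0)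
    (hG : ∀ z : ℍ, HasSum (fun j => c j • 𝕢 h z ^ j) (G z)) :
    Function.Periodic (G ∘ ofComplex) h := by
  intro w
  by_cases! hw : 0 < Complex.im w
  · have hw' : 0 < Complex.im (w + h) := by simp [hw]
    simp only [comp_apply, ofComplex_apply_of_im_pos hw', ofComplex_apply_of_im_pos hw]
    have e1 := hG ⟨w + h, hw'⟩
    have e2 := hG ⟨w, hw⟩
    have hq : 𝕢 h ((⟨w + h, hw'⟩ : ℍ) : ℂ) = 𝕢 h ((⟨w, hw⟩ : ℍ) : ℂ) := by
      show 𝕢 h (w + h) = 𝕢 h w
      exact qParam_add_period hh w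
    rw [hq] at e1
    exact e1.unique e2
  · have : Complex.im (w + h) ≤ 0 := by simpa using hw
    simp [ofComplex_apply_of_im_nonpos this, ofComplex_apply_of_im_nonpos hw]

theorem mem_analyticSubring_of_hasSum {G : ℍ → ℂ} {c : ℕ → ℂ} {h : ℝ} (hh : 0 < h)
    (hG : ∀ z : ℍ, HasSum (fun j => c j • 𝕢 h z ^ j) (G z)) (hGhol : MDiff G) :
    G ∈ analyticSubring h :=
  mem_analyticSubring_of_periodic hh (periodic_of_hasSum hh.ne' hG) hGhol
    (isBoundedAtImInfty_of_hasSum_qExpansion hh hG)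

theorem qExpansion_coeff_of_hasSum {G : ℍ → ℂ} {c : ℕ → ℂ} {h : ℝ} (hh : 0 < h)
    (hG : ∀ z : ℍ, HasSum (fun j => c j • 𝕢 h z ^ j) (G z)) (hGhol : MDiff G) (j : ℕ) :
    (qExpansion h G).coeff j = c j := by
  have hfanalytic : AnalyticAt ℂ (cuspFunction h G) 0 := mem_analyticSubring_of_hasSum hh hG hGhol
  have h1 := (hasFPowerSeriesOnBall_cuspFunction hh hfanalytic hG).hasFPowerSeriesAt
  have h2 : HasFPowerSeriesAt (cuspFunction h G)
      (FormalMultilinearSeries.ofScalars ℂ fun m ↦ (qExpansion h G).coeff m) 0 := by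
    simpa [qExpansion_coeff, div_eq_mul_inv, mul_comm]
      using hfanalytic.hasFPowerSeriesAt
  have := congr_arg (FormalMultilinearSeries.coeff · j) (h1.eq_formalMultilinearSeries h2)
  simpa [FormalMultilinearSeries.coeff_ofScalars] using this.symm

/-- Main re-expansion lemma. -/
theorem expand_main {F G : ℍ → ℂ} {c : ℕ → ℂ}
    (hF : ∀ w : ℍ, HasSum (fun n => c n • 𝕢 1 w ^ n) (F w))
    {h : ℝ} (hh : 0 < h) (α : ℍ → ℍ) (e : ℕ) (he : 0 < e) (ξ : ℂ)
    (hα : ∀ z : ℍ, 𝕢 1 (α z) = ξ * 𝕢 h z ^ e)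
    (hG : ∀ z, G z = F (α z)) (hGhol : MDiff G) :
    G ∈ analyticSubring h ∧ ∀ j, (qExpansion h G).coeff j = expandCoeff c e ξ j := by
  have hsum : ∀ z : ℍ, HasSum (fun j => expandCoeff c e ξ j • 𝕢 h z ^ j) (G z) := fun z => by
    rw [hG z]
    exact hasSum_expand hF α e he ξ hα z
  exact ⟨mem_analyticSubring_of_hasSum hh hsum hGhol,
    fun j => qExpansion_coeff_of_hasSum hh hsum hGhol j⟩

end Fermat.Agent.S22T

end
-- ===== PACK-END S22T/Expand.lean

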