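import Mathlib
import Fermat.Prelude.Def_FLTPrelim_Ramification
import Fermat.Prelude.Def_ModularCurve_HeckeModule
import Mathlib.FieldTheory.IntermediateField.Adjoin.Algebra
import Mathlib.FieldTheory.IntermediateField.Adjoin.Basic
import Fermat.Statements.S03
import Fermat.Statements.S45
import Fermat.Prelude.Def_FLTPrelim_FreyPackage
import Fermat.Prelude.Def_FLTPrelim_Modularity
import Fermat.Prelude.Def_CuspForm_IntegralLattice
import Fermat.Prelude.Def_FormalHecke_Eigensystem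
import Fermat.Prelude.Thm_CuspForm_mem_intLattice_of_mem_heckeAlgebra
import Fermat.Prelude.Thm_CuspForm_intLattice_fg
import Fermat.Agent.Pack.L1.E1L3
import Fermat.Agent.Pack.S44C.G0E6L2
import Fermat.Agent.Pack.L1.E0L2
import Fermat.Agent.Pack.L1.E0L1
import Fermat.Agent.Pack.L1.E0L3
import Fermat.Agent.Pack.S43MC.G0E7L1
import Fermat.Agent.Pack.L1.E1L0
import Fermat.Agent.Pack.L1.E1L2
import Fermat.Agent.Pack.S44C.G0E1L0

-- ===== PACK-BEGIN S52/PartAGlue.lean
section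




/-!
# `PartA ⇐ Lib.Frob.FrobRelation`  (row-lead glue, no `sorry`)
-/

set_option autoImplicit false

open WeierstrassCurve WeierstrassCurve.Affine WeierstrassCurve.Affine.Point

namespace Fermat.Agent.S52

open Fermat.Agent.Lib.Frob (Qb Pts FrobRelation)

/-- In an additive group, if `5 • x = 0` and `c • x = 0` with `5 ∤ c`, then `x = 0`. -/
theorem eq_zero_of_five_zsmul {G : Type*} [AddCommGroup G] {x : G} (h5 : (5 : ℤ) • x = 0)
    {c : ℤ} (hc : c • x = 0) (h : ¬ (5 : ℤ) ∣ c) : x = 0 := by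
  have hcop : IsCoprime (5 : ℤ) c := by
    have hp : Prime (5 : ℤ) := by norm_num
    exact (Prime.coprime_iff_not_dvd hp).mpr h
  obtain ⟨u, v, huv⟩ := hcop
  have : (u * 5 + v * c) • x = 0 := by
    rw [add_smul, mul_smul, mul_smul, h5, hc, smul_zero, smul_zero, add_zero]
  rw [huv, one_smul] at this
  exact this

theorem coe_galois_smul_tors (W : WeierstrassCurve ℤ) (n : ℕ) (σ : Qb ≃ₐ[ℚ] Qb)
    (P : Tors W n) : ((σ • P : Tors W n) : Pts W) = σ • (P : Pts W) := rfl

theorem partA_of_frobRelation (hF : FrobRelation) : PartA := by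
  intro W W' hΔ hcong ℓ hℓ h7 hg hg'
  obtain ⟨θ, hinj, hθ⟩ := hcong
  obtain ⟨A, σ, hA, hσ⟩ := Fermat.Agent.S54.exists_frobenius ℓ hℓ
  have h5ℓ : 5 ≤ ℓ := by omega
  have hℓ5 : ¬ ℓ ∣ 5 := by
    intro h
    have := Nat.le_of_dvd (by norm_num) h
    omega
  -- a point of order 5 on `W`
  have hΔQ : ((W.map (Int.castRingHom ℚ))⁄Qb).Δ ≠ 0 := by
    simp only [WeierstrassCurve.baseChange, WeierstrassCurve.map_Δ]
    simpa using hΔ
  haveI : ((W.map (Int.castRingHom ℚ))⁄Qb).IsElliptic := ⟨isUnit_iff_ne_zero.mpr hΔQ⟩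
  obtain ⟨P0, hP0, h5P0⟩ :=
    Fermat.Agent.S51.Five.exists_order5 (K := Qb) ((W.map (Int.castRingHom ℚ))⁄Qb)
  have hmem : P0 ∈ Submodule.torsionBy ℤ (Pts W) (5 : ℕ) := by
    rw [Submodule.mem_torsionBy_iff, ← h5P0]
    exact natCast_zsmul P0 5
  set P : Tors W 5 := ⟨P0, hmem⟩ with hP
  have hPne : P ≠ 0 := fun h => hP0 (congrArg Subtype.val h)
  -- relation on `W`
  have r1 : σ • σ • P - W.apOfModel ℓ • σ • P + (ℓ : ℤ) • P = 0 := by
    apply Subtype.ext
    simp only [Submodule.coe_add, Submodule.coe_sub, Submodule.coe_smul_of_tower,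
      coe_galois_smul_tors, ZeroMemClass.coe_zero]
    exact hF W ℓ hℓ h5ℓ hg A σ hA hσ 5 (by norm_num) hℓ5 P0 h5P0
  -- transport by θ
  set Q : Tors W' 5 := θ P with hQ
  have hQne : Q ≠ 0 := by
    intro h
    apply hPne
    apply hinj
    rw [_root_.map_zero]; exact h
  have r1' : σ • σ • Q - W.apOfModel ℓ • σ • Q + (ℓ : ℤ) • Q = 0 := by
    have := congrArg θ r1
    rw [_root_.map_zero, map_add, map_sub, map_zsmul, map_zsmul, hθ, hθ] at this
    exact this
  -- relation on `W'`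
  have h5Q : (5 : ℕ) • (Q : Pts W') = 0 := by
    have := Q.2
    rw [Submodule.mem_torsionBy_iff] at this
    rw [← this]
    exact (natCast_zsmul (Q : Pts W') 5).symm
  have r2 : σ • σ • Q - W'.apOfModel ℓ • σ • Q + (ℓ : ℤ) • Q = 0 := by
    apply Subtype.ext
    simp only [Submodule.coe_add, Submodule.coe_sub, Submodule.coe_smul_of_tower,
      coe_galois_smul_tors, ZeroMemClass.coe_zero]
    exact hF W' ℓ hℓ h5ℓ hg' A σ hA hσ 5 (by norm_num) hℓ5 (Q : Pts W') h5Q
  -- subtract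
  have hdiff : (W'.apOfModel ℓ - W.apOfModel ℓ) • (σ • Q) = 0 := by
    have := congrArg₂ (· - ·) r1' r2
    simp only [sub_zero] at this
    rw [sub_smul]
    rw [← this]
    abel
  have hσQ : σ • Q ≠ 0 := by
    intro h
    apply hQne
    have := congrArg (fun x => σ⁻¹ • x) h
    simpa using this
  have h5σQ : (5 : ℤ) • (σ • Q) = 0 := by
    apply Subtype.ext
    have := (σ • Q).2
    rw [Submodule.mem_torsionBy_iff] at this
    simpa using this
  by_contra hndvd
  exact hσQ (eq_zero_of_five_zsmul h5σQ hdiff hndvd)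

end Fermat.Agent.S52

end
-- ===== PACK-END S52/PartAGlue.lean

-- ===== PACK-BEGIN S52/B/Interfaces.lean
section



/-!
# S52 / Part B — FROZEN B-LEVEL INTERFACES  (squad S52/S52, helper52 = deputy row-lead)

`Switch ⇐ IntegralModel ∧ FamilyHIT ∧ TorsionMap`   (`switch_of_parts`, proved here, no `sorry`).

Family data: `Fermat.Agent.S52.Fam` (helper952) + homogenisations `C4h C6h Fkh` (`B/Hom.lean`).
For an integral model `W` with invariants `(c₄, c₆)` and integers `M`, `n` the new curve `W'` has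
`c₄(W') = C4h c₄ c₆ M n = n²⁰·C4(M/n)`, `c₆(W') = C6h c₄ c₆ M n`, `Δ(W') = Δ(W)·Fkh(M,n)⁵`.

* `IntegralModel` (piece **B2**): choice of the modulus `M` (divisible by `6`, by the bad primes and
  by an auxiliary good prime `p₀ ≥ 7`) and, for every `n ≡ 1 mod M`, of a semistable integral model
  `W'` with the prescribed invariants and `W' ≡ W` modulo every prime dividing `M`.
* `FamilyHIT` (piece **B3**, squad S52/S60): for every `M ≥ 2` some `n ≡ 1 mod M` such that every
  integral model with invariants `(C4h.., C6h..)` has irreducible mod-3 representation.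
* `TorsionMap` (piece **B1**): in the situation produced by `IntegralModel`, `W[5] ≅ W'[5]`
  (injective additive Galois-equivariant map).  The auxiliary prime `p₀ ∣ M` (good for `W`, with
  `W' ≡ W mod p₀`) is there so that additivity may be proved EITHER by rigidity over the function
  field `ℚ̄(τ)` OR by reduction modulo a place over `p₀` (`θ(P) ≡ P`, injectivity of reduction on
  5-torsion); owners may ignore the hypotheses they do not need.
-/

set_option autoImplicit false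

open WeierstrassCurve

namespace Fermat.Agent.S52.B

open Fermat.Agent.S52.Fam

/-- **Piece B2** (frozen). -/
def IntegralModel : Prop :=
  ∀ (W : WeierstrassCurve ℤ), W.Δ ≠ 0 → W.IsSemistableModel →
    ∃ (M : ℤ) (p₀ : ℕ), 0 < M ∧ (6 : ℤ) ∣ M ∧ p₀.Prime ∧ 7 ≤ p₀ ∧ ¬ (p₀ : ℤ) ∣ W.Δ ∧ (p₀ : ℤ) ∣ M ∧
      ∀ n : ℤ, n ≡ 1 [ZMOD M] →
        ∃ W' : WeierstrassCurve ℤ,
          W'.c₄ = C4h W.c₄ W.c₆ M n ∧ W'.c₆ = C6h W.c₄ W.c₆ M n ∧
          W'.Δ ≠ 0 ∧ W'.IsSemistableModel ∧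
          ∀ ℓ : ℕ, (ℓ : ℤ) ∣ M → W'.reductionMod ℓ = W.reductionMod ℓ

/-- **Piece B3** (frozen; hypotheses `hW`, `h3` may be ignored by the owner). -/
def FamilyHIT : Prop :=
  ∀ (W : WeierstrassCurve ℤ), W.Δ ≠ 0 → W.IsSemistableModel → ¬ W.ModRepIsIrreducible 3 →
    ∀ M : ℤ, 2 ≤ M → ∃ n : ℤ, n ≡ 1 [ZMOD M] ∧
      ∀ W' : WeierstrassCurve ℤ, W'.Δ ≠ 0 →
        W'.c₄ = C4h W.c₄ W.c₆ M n → W'.c₆ = C6h W.c₄ W.c₆ M n →
        W'.ModRepIsIrreducible 3

/-- **Piece B1** (frozen). -/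
def TorsionMap : Prop :=
  ∀ (W W' : WeierstrassCurve ℤ) (M n : ℤ) (p₀ : ℕ), W.Δ ≠ 0 → W'.Δ ≠ 0 →
    0 < M → n ≡ 1 [ZMOD M] →
    p₀.Prime → 7 ≤ p₀ → ¬ (p₀ : ℤ) ∣ W.Δ → (p₀ : ℤ) ∣ M →
    W'.reductionMod p₀ = W.reductionMod p₀ →
    W'.c₄ = C4h W.c₄ W.c₆ M n → W'.c₆ = C6h W.c₄ W.c₆ M n →
    FiveCongruent W W'

/-- `Switch ⇐ B2 ∧ B3 ∧ B1`. -/
theorem switch_of_parts (hB2 : IntegralModel) (hB3 : FamilyHIT) (hB1 : TorsionMap) : Switch := by
  intro W hΔ hW _h5 h3
  obtain ⟨M, p₀, hM0, hM6, hp₀, hp₀7, hp₀Δ, hp₀M, hmod⟩ := hB2 W hΔ hW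
  have hM2 : 2 ≤ M := by
    obtain ⟨k, hk⟩ := hM6
    omega
  obtain ⟨n, hn, hirr⟩ := hB3 W hΔ hW h3 M hM2
  obtain ⟨W', hc4, hc6, hΔ', hss, hred⟩ := hmod n hn
  have h2M : ((2 : ℕ) : ℤ) ∣ M := Dvd.dvd.trans (by norm_num) hM6
  have h3M : ((3 : ℕ) : ℤ) ∣ M := Dvd.dvd.trans (by norm_num) hM6
  exact ⟨W', hΔ', hss, hirr W' hΔ' hc4 hc6, hred 2 h2M, hred 3 h3M,
    hB1 W W' M n p₀ hΔ hΔ' hM0 hn hp₀ hp₀7 hp₀Δ hp₀M (hred p₀ hp₀M) hc4 hc6⟩

end Fermat.Agent.S52.B

end
-- ===== PACK-END S52/B/Interfaces.lean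

-- ===== PACK-BEGIN S52/H410/Tate5Exists.lean
section


/-!
# S52, piece B1a (part 2): every point of order 5 can be put in Tate normal form

`exists_tnf`: if `P = (x₀, y₀)` is a nonsingular point of a Weierstrass curve `W` over a field
with `5 • P = 0`, then there are `c ≠ 0` and a variable change `C` with `C • W = tnf c 1`,
`C.r = x₀`, `C.t = y₀` (so that `P` corresponds to the point `(0,0)` of `tnf c 1`).
No hypothesis on the characteristic or on the discriminant.
-/

set_option autoImplicit false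

namespace Fermat.Agent.S52.H410

open WeierstrassCurve WeierstrassCurve.Affine

variable {K : Type*} [Field K] [DecidableEq K]

/-- The algebraic core: the relation `D² - A₁A₂D + A₂³ = 0` satisfied by a point of order 5. -/
theorem tate_relation (W : WeierstrassCurve K) {x₀ y₀ : K}
    (h : W.toAffine.Nonsingular x₀ y₀) (h5 : 5 • (Point.some x₀ y₀ h) = 0) :
    ∃ s D A₂ : K, D ≠ 0 ∧ A₂ ≠ 0 ∧ D = 2 * y₀ + W.a₁ * x₀ + W.a₃ ∧
      s * D = 3 * x₀ ^ 2 + 2 * W.a₂ * x₀ + W.a₄ - W.a₁ * y₀ ∧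
      A₂ = W.a₂ - s * W.a₁ + 3 * x₀ - s ^ 2 ∧
      D ^ 2 - (W.a₁ + 2 * s) * A₂ * D + A₂ ^ 3 = 0 := by
  set P : W.toAffine.Point := Point.some x₀ y₀ h with hP
  have hP0 : P ≠ 0 := Point.some_ne_zero h
  -- `2P ≠ 0`
  have h2 : P + P ≠ 0 := by
    intro h2
    apply hP0
    have : P = 5 • P - 2 • (P + P) := by abel
    rw [this, h5, h2, smul_zero, sub_zero]
  have hy : y₀ ≠ W.toAffine.negY x₀ y₀ := by
    intro hy
    exact h2 (Point.add_self_of_Y_eq hy)
  set D : K := y₀ - W.toAffine.negY x₀ y₀ with hD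
  have hD0 : D ≠ 0 := sub_ne_zero.mpr hy
  have hD' : D = 2 * y₀ + W.a₁ * x₀ + W.a₃ := by
    simp only [hD, Affine.negY]; ring
  set s : K := W.toAffine.slope x₀ x₀ y₀ y₀ with hs
  have hsD : s * D = 3 * x₀ ^ 2 + 2 * W.a₂ * x₀ + W.a₄ - W.a₁ * y₀ := by
    rw [hs, Affine.slope_of_Y_ne rfl hy, div_mul_cancel₀ _ hD0]
  set x₂ : K := W.toAffine.addX x₀ x₀ s with hx₂
  set y₂ : K := W.toAffine.addY x₀ x₀ y₀ s with hy₂
  have h2P : P + P = Point.some x₂ y₂ (Affine.nonsingular_add h h fun hxy => hy hxy.right) :=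
    Point.add_self_of_Y_ne hy
  set Q : W.toAffine.Point :=
    Point.some x₂ y₂ (Affine.nonsingular_add h h fun hxy => hy hxy.right) with hQ
  set A₂ : K := W.a₂ - s * W.a₁ + 3 * x₀ - s ^ 2 with hA₂
  have hx₂' : x₂ = x₀ - A₂ := by
    simp only [hx₂, hA₂, Affine.addX]; ring
  -- `x₂ ≠ x₀`
  have hxne : x₀ ≠ x₂ := by
    intro hxe
    have hQeq := Affine.Y_eq_of_X_eq h.1
      (Affine.nonsingular_add h h fun hxy => hy hxy.right).1 hxe
    rcases hQeq with hyy | hyy
    · -- `P = 2P`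
      have : P = Q := by
        simp only [hP, hQ, Point.some.injEq]; exact ⟨hxe, hyy⟩
      apply hP0
      have h' : P + P = P := by rw [h2P, ← this]
      simp at h'
    · -- `P = -2P`
      have : P = -Q := by
        rw [hQ, Point.neg_some]
        simp only [hP, Point.some.injEq]; exact ⟨hxe, hyy⟩
      apply hP0
      have h3 : P + (P + P) = 0 := by rw [h2P, this]; simp
      have : P = 2 • (P + (P + P)) - 5 • P := by abel
      rw [this, h3, h5, smul_zero, sub_zero]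
  have hA₂0 : A₂ ≠ 0 := by
    intro h0
    apply hxne
    rw [hx₂', h0, sub_zero]
  -- `P + 2P = -2P`
  have h3 : P + Q = -Q := by
    rw [← h2P]
    have : P + (P + P) + (P + P) = 5 • P := by abel
    rw [h5] at this
    exact eq_neg_of_add_eq_zero_left this
  rw [hP, hQ, Point.add_of_X_ne hxne, Point.neg_some] at h3
  simp only [Point.some.injEq] at h3
  obtain ⟨hX, -⟩ := h3
  set μ : K := W.toAffine.slope x₀ x₂ y₀ y₂ with hμ
  have hμ' : μ * A₂ = D - (s + W.a₁) * A₂ := by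
    have hA : x₀ - x₂ = A₂ := by rw [hx₂']; ring
    rw [hμ, Affine.slope_of_X_ne hxne, hA, div_mul_cancel₀ _ hA₂0, hD']
    simp only [hy₂, Affine.addY, Affine.negAddY, Affine.negY, ← hx₂]
    rw [hx₂']; ring
  refine ⟨s, D, A₂, hD0, hA₂0, hD', hsD, rfl, ?_⟩
  have hX' : μ ^ 2 + W.a₁ * μ - W.a₂ - x₀ - x₂ = x₂ := by
    simpa only [Affine.addX] using hX
  have ha₂ : W.a₂ = A₂ + s * W.a₁ - 3 * x₀ + s ^ 2 := by simp only [hA₂]; ring
  have key : (μ * A₂) ^ 2 + W.a₁ * (μ * A₂) * A₂ - (W.a₂ + x₀ + 2 * x₂) * A₂ ^ 2 = 0 := by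
    linear_combination A₂ ^ 2 * hX'
  rw [hμ', hx₂'] at key
  linear_combination key + A₂ ^ 2 * ha₂

/-- **(T2)** Tate normal form: a nonsingular point `P = (x₀, y₀)` with `5 • P = 0` on a
Weierstrass curve over a field is the point `(0,0)` of a curve `tnf c 1` after a variable
change. -/
theorem exists_tnf (W : WeierstrassCurve K) {x₀ y₀ : K}
    (h : W.toAffine.Nonsingular x₀ y₀) (h5 : 5 • (Point.some x₀ y₀ h) = 0) :
    ∃ (c : K) (C : VariableChange K), c ≠ 0 ∧ C • W = tnf c 1 ∧ C.r = x₀ ∧ C.t = y₀ := by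
  obtain ⟨s, D, A₂, hD0, hA₂0, hD, hsD, hA₂, hrel⟩ := tate_relation W h h5
  have hu0 : D / A₂ ≠ 0 := div_ne_zero hD0 hA₂0
  refine ⟨-(A₂ ^ 3 / D ^ 2), ⟨Units.mk0 (D / A₂) hu0, x₀, s, y₀⟩, ?_, ?_, rfl, rfl⟩
  · exact neg_ne_zero.mpr (div_ne_zero (pow_ne_zero 3 hA₂0) (pow_ne_zero 2 hD0))
  · have hinv : ((Units.mk0 (D / A₂) hu0)⁻¹ : Kˣ).val = A₂ / D := by
      rw [Units.val_inv_eq_inv_val, Units.val_mk0, inv_div]
    have heq := (Affine.equation_iff (W := W.toAffine) x₀ y₀).mp h.1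
    ext
    · -- a₁
      rw [variableChange_a₁, hinv, tnf_a₁]
      field_simp
      linear_combination -hrel
    · -- a₂
      rw [variableChange_a₂, hinv, tnf_a₂]
      field_simp
      linear_combination -hA₂
    · -- a₃
      rw [variableChange_a₃, hinv, tnf_a₃]
      field_simp
      linear_combination -hD
    · -- a₄
      rw [variableChange_a₄, hinv, tnf_a₄]
      have : W.a₄ - s * W.a₃ + 2 * x₀ * W.a₂ - (y₀ + x₀ * s) * W.a₁ + 3 * x₀ ^ 2 - 2 * s * y₀
          = 0 := by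
        linear_combination -hsD + s * hD
      rw [this, mul_zero]
    · -- a₆
      rw [variableChange_a₆, hinv, tnf_a₆]
      have : W.a₆ + x₀ * W.a₄ + x₀ ^ 2 * W.a₂ + x₀ ^ 3 - y₀ * W.a₃ - y₀ ^ 2 - x₀ * y₀ * W.a₁
          = 0 := by
        linear_combination -heq
      rw [this, mul_zero]

end Fermat.Agent.S52.H410

end
-- ===== PACK-END S52/H410/Tate5Exists.lean

-- ===== PACK-BEGIN S52/H890/Lift.lean
section







/-!
# S52 / H890 : piece B1b = LIFT of a `5`-torsion point to a family in Tate normal form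

`K` a field with `2, 3 ≠ 0`, `W` a Weierstrass curve over `K[X]` (a one-parameter family) whose
invariants are `c₄ = u⁴·H5(N, D)`, `c₆ = u⁶·T5(N, D)` with `N, D ∈ K[X]` nonzero, `u ∈ Kˣ`.
Then the explicit polynomial point `(liftX, liftY)` is a nonsingular point of `W` over `RatFunc K`
killed by `5` (`exists_lift`), and its value at `X = a` (where `D(a) ≠ 0`) is the `(r, t)` of the
variable change carrying the fibre `W(a)` to the Tate normal form with parameter `N(a)/D(a)`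
(`liftX_eval`, `liftY_eval`).  In particular (`exists_lift_of_tnf`): if `(x₀, y₀)` on `W(0)` has
Tate data `C₀ • W(0) = tnf c 1`, `C₀.r = x₀`, `C₀.t = y₀`, `C₀.u = u`, and `N(0) = c`, `D(0) = 1`,
the lift passes through `(x₀, y₀)` at `X = 0`.
-/

set_option autoImplicit false

namespace Fermat.Agent.S52.H890

open WeierstrassCurve Polynomial
open Fermat.Agent.S52.H410
open Fermat.Agent.S52.H309

variable {K : Type*} [Field K]

/-- The `s` of the variable change to Tate normal form, as a polynomial. -/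
noncomputable def liftS (W : WeierstrassCurve K[X]) (u : K) (N D : K[X]) : K[X] :=
  C (2⁻¹ : K) * (C u * (D - N) - W.a₁)

/-- The `x`-coordinate of the lifted torsion point, as a polynomial. -/
noncomputable def liftX (W : WeierstrassCurve K[X]) (u : K) (N D : K[X]) : K[X] :=
  C (3⁻¹ : K) * (-(C (u ^ 2) * N * D) - W.a₂ + liftS W u N D * W.a₁ + liftS W u N D ^ 2)

/-- The `y`-coordinate of the lifted torsion point, as a polynomial. -/
noncomputable def liftY (W : WeierstrassCurve K[X]) (u : K) (N D : K[X]) : K[X] :=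
  C (2⁻¹ : K) * (-(C (u ^ 3) * N * D ^ 2) - W.a₃ - liftX W u N D * W.a₁)

section Generic

local notation "φ" => algebraMap K[X] (RatFunc K)

lemma two_ne_zero_ratFunc (h2 : (2 : K) ≠ 0) : (2 : RatFunc K) ≠ 0 := by
  rw [← map_ofNat (algebraMap K (RatFunc K)) 2]
  exact (map_ne_zero (algebraMap K (RatFunc K))).mpr h2

lemma three_ne_zero_ratFunc (h3 : (3 : K) ≠ 0) : (3 : RatFunc K) ≠ 0 := by
  rw [← map_ofNat (algebraMap K (RatFunc K)) 3]
  exact (map_ne_zero (algebraMap K (RatFunc K))).mpr h3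

lemma phi_C (b : K) : φ (C b) = algebraMap K (RatFunc K) b := by
  simp [RatFunc.algebraMap_C]

lemma phi_C_inv (a : K) : φ (C (a⁻¹)) = (φ (C a))⁻¹ := by
  rw [phi_C, phi_C, map_inv₀]

lemma phi_C_two_inv : φ (C (2⁻¹ : K)) = (2 : RatFunc K)⁻¹ := by
  rw [phi_C, map_inv₀, map_ofNat]

lemma phi_C_three_inv : φ (C (3⁻¹ : K)) = (3 : RatFunc K)⁻¹ := by
  rw [phi_C, map_inv₀, map_ofNat]

lemma phi_ne_zero {p : K[X]} (hp : p ≠ 0) : φ p ≠ 0 := by
  intro h
  apply hp
  exact (IsFractionRing.injective K[X] (RatFunc K)) (by simpa using h)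

/-- A small helper: rewriting the coordinates of an affine point. -/
lemma some_eq_some_of_eq {F : Type*} [Field F] {W : Affine F} {x y x' y' : F}
    (h : W.Nonsingular x y) (hx : x = x') (hy : y = y') :
    ∃ h' : W.Nonsingular x' y', Affine.Point.some x y h = Affine.Point.some x' y' h' := by
  subst hx hy; exact ⟨h, rfl⟩

variable [DecidableEq (RatFunc K)]

/-- **LIFT (generic fibre).**  If the invariants of the family `W` over `K[X]` are
`c₄ = u⁴ H5(N,D)`, `c₆ = u⁶ T5(N,D)`, then `(liftX, liftY)` is a nonsingular point of `W` over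
`RatFunc K` which is killed by `5`. -/
theorem exists_lift (h2 : (2 : K) ≠ 0) (h3 : (3 : K) ≠ 0)
    (W : WeierstrassCurve K[X]) (u : Kˣ) (N D : K[X]) (hN : N ≠ 0) (hD : D ≠ 0)
    (hc4 : W.c₄ = C ((u : K) ^ 4) * H5 N D) (hc6 : W.c₆ = C ((u : K) ^ 6) * T5 N D) :
    ∃ h : (W.map φ).toAffine.Nonsingular (φ (liftX W u N D)) (φ (liftY W u N D)),
      (5 : ℕ) • Affine.Point.some _ _ h = 0 := by
  have h2L := two_ne_zero_ratFunc h2
  have h3L := three_ne_zero_ratFunc h3
  have hNL : φ N ≠ 0 := phi_ne_zero hN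
  have hDL : φ D ≠ 0 := phi_ne_zero hD
  have huL : φ (C (u : K)) ≠ 0 := phi_ne_zero (by simp)
  set c' : RatFunc K := φ N / φ D with hc'
  have hc'0 : c' ≠ 0 := div_ne_zero hNL hDL
  set u' : (RatFunc K)ˣ := Units.mk0 (φ (C (u : K)) * φ D) (mul_ne_zero huL hDL) with hu'
  have hu'v : (u' : RatFunc K) = φ (C (u : K)) * φ D := rfl
  -- matching invariants
  have h4 : (W.map φ).c₄ = (u' : RatFunc K) ^ 4 * (tnf c' 1).c₄ := by
    rw [WeierstrassCurve.map_c₄, hc4, tnf_c₄, hu'v, hc']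
    simp only [H5, map_mul, map_add, map_sub, map_pow, map_ofNat]
    field_simp
  have h6 : (W.map φ).c₆ = (u' : RatFunc K) ^ 6 * (tnf c' 1).c₆ := by
    rw [WeierstrassCurve.map_c₆, hc6, tnf_c₆, hu'v, hc']
    simp only [T5, map_mul, map_add, map_sub, map_pow, map_ofNat, map_neg]
    field_simp
  have hCL : vcOfInv u' (W.map φ) (tnf c' 1) • (W.map φ) = tnf c' 1 :=
    vcOfInv_smul h2L h3L u' _ _ h4 h6
  set CL := vcOfInv u' (W.map φ) (tnf c' 1) with hCLdef
  -- the Tate point and its image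
  have hP5 : (5 : ℕ) • tnfP (c := c') (u := (1 : RatFunc K)) hc'0 one_ne_zero = 0 :=
    tnfP_five_nsmul hc'0 one_ne_zero
  have hcurve : (tnf c' 1).toAffine = (CL • (W.map φ)).toAffine := hCL.symm
  let Q : (W.map φ).toAffine.Point :=
    VC.equiv (W := W.map φ) (C := CL) (VC.pointCongr hcurve (tnfP hc'0 one_ne_zero))
  have hQ5 : (5 : ℕ) • Q = 0 := by
    simp only [Q]
    rw [← map_nsmul, ← map_nsmul, hP5, map_zero, map_zero]
  -- coordinates of `Q`
  have hs : CL.s = φ (liftS W u N D) := by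
    rw [hCLdef, vcOfInv_s, tnf_a₁, hu'v, hc', WeierstrassCurve.map_a₁]
    simp only [liftS, map_mul, map_sub, phi_C_two_inv]
    field_simp
  have hr : CL.r = φ (liftX W u N D) := by
    rw [hCLdef, vcOfInv_r, ← hCLdef, hs, tnf_a₂, hu'v, hc', WeierstrassCurve.map_a₁,
      WeierstrassCurve.map_a₂]
    simp only [liftX, map_mul, map_sub, map_add, map_neg, map_pow, phi_C_three_inv]
    field_simp
  have ht : CL.t = φ (liftY W u N D) := by
    rw [hCLdef, vcOfInv_t, ← hCLdef, hr, tnf_a₃, hu'v, hc', WeierstrassCurve.map_a₁,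
      WeierstrassCurve.map_a₃]
    simp only [liftY, map_mul, map_sub, map_neg, map_pow, phi_C_two_inv]
    field_simp
  have hQ : ∃ h : (W.map φ).toAffine.Nonsingular (φ (liftX W u N D)) (φ (liftY W u N D)),
      Q = Affine.Point.some _ _ h := by
    simp only [Q, tnfP, VC.pointCongr_some, VC.equiv_some]
    apply some_eq_some_of_eq
    · simp only [VC.fx, mul_zero, zero_add]; exact hr
    · simp only [VC.fy, mul_zero, zero_add]; exact ht
  obtain ⟨h, hQe⟩ := hQ
  exact ⟨h, hQe ▸ hQ5⟩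

end Generic

section Eval

/-- Value of `liftS` at `X = a`. -/
lemma liftS_eval (W : WeierstrassCurve K[X]) (u : K) (N D : K[X]) (a : K) :
    (liftS W u N D).eval a = (u * (D.eval a - N.eval a) - (W.map (evalRingHom a)).a₁) / 2 := by
  simp only [liftS, eval_mul, eval_C, eval_sub, WeierstrassCurve.map_a₁, coe_evalRingHom]
  ring

/-- Value of `liftX` at `X = a`. -/
lemma liftX_eval (W : WeierstrassCurve K[X]) (u : K) (N D : K[X]) (a : K) :
    (liftX W u N D).eval a = (-(u ^ 2 * N.eval a * D.eval a) - (W.map (evalRingHom a)).a₂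
      + (liftS W u N D).eval a * (W.map (evalRingHom a)).a₁ + (liftS W u N D).eval a ^ 2) / 3 := by
  simp only [liftX, eval_mul, eval_C, eval_sub, eval_add, eval_neg, eval_pow,
    WeierstrassCurve.map_a₁, WeierstrassCurve.map_a₂, coe_evalRingHom]
  ring

/-- Value of `liftY` at `X = a`. -/
lemma liftY_eval (W : WeierstrassCurve K[X]) (u : K) (N D : K[X]) (a : K) :
    (liftY W u N D).eval a = (-(u ^ 3 * N.eval a * D.eval a ^ 2) - (W.map (evalRingHom a)).a₃
      - (liftX W u N D).eval a * (W.map (evalRingHom a)).a₁) / 2 := by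
  simp only [liftY, eval_mul, eval_C, eval_sub, eval_neg, eval_pow,
    WeierstrassCurve.map_a₁, WeierstrassCurve.map_a₃, coe_evalRingHom]
  ring

/-- If the fibre `W(a)` is carried to the Tate normal form `tnf c 1` by the variable change `C₀`
and `N(a) = c`, `D(a) = 1`, then the lift (built with `u = C₀.u`) passes through `(C₀.r, C₀.t)`
at `X = a`. -/
theorem lift_eval_of_tnf (h2 : (2 : K) ≠ 0) (h3 : (3 : K) ≠ 0) (W : WeierstrassCurve K[X])
    (a c : K) (C₀ : VariableChange K) (hC₀ : C₀ • (W.map (evalRingHom a)) = tnf c 1)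
    (N D : K[X]) (hN : N.eval a = c) (hD : D.eval a = 1) :
    (liftX W (C₀.u : K) N D).eval a = C₀.r ∧ (liftY W (C₀.u : K) N D).eval a = C₀.t := by
  have hC := eq_vcOfInv h2 h3 C₀ _ _ hC₀
  have hs : (liftS W (C₀.u : K) N D).eval a = C₀.s := by
    rw [liftS_eval, hN, hD]
    conv_rhs => rw [hC, vcOfInv_s, tnf_a₁]
    ring
  have hr : (liftX W (C₀.u : K) N D).eval a = C₀.r := by
    rw [liftX_eval, hs, hN, hD]
    conv_rhs => rw [hC, vcOfInv_r, ← hC, tnf_a₂]
    ring
  refine ⟨hr, ?_⟩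
  rw [liftY_eval, hr, hN, hD]
  conv_rhs => rw [hC, vcOfInv_t, ← hC, tnf_a₃]
  ring

end Eval

section Main

local notation "φ" => algebraMap K[X] (RatFunc K)

variable [DecidableEq (RatFunc K)]

/-- **B1b = LIFT.**  Let `W` be a family of Weierstrass curves over `K[X]` (`2, 3 ≠ 0` in `K`),
`(x₀, y₀)` a point of the fibre at `X = a` killed by `5`.  Suppose that for the Tate parameters
`(c, C₀)` of this point (as provided by `H410.exists_tnf`) the invariants of the family are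
`c₄ = C₀.u⁴·H5(N,D)`, `c₆ = C₀.u⁶·T5(N,D)` for polynomials `N, D` with `N(a) = c`, `D(a) = 1`.
Then there are polynomials `px, py` with `px(a) = x₀`, `py(a) = y₀` such that `(px, py)` is a
nonsingular point of the generic fibre (over `RatFunc K`) killed by `5`. -/
theorem exists_lift_of_tnf (h2 : (2 : K) ≠ 0) (h3 : (3 : K) ≠ 0) (W : WeierstrassCurve K[X])
    (a : K) {x₀ y₀ : K} (c : K) (hc : c ≠ 0) (C₀ : VariableChange K)
    (hC₀ : C₀ • (W.map (evalRingHom a)) = tnf c 1) (hr : C₀.r = x₀) (ht : C₀.t = y₀)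
    (N D : K[X]) (hN : N.eval a = c) (hD : D.eval a = 1)
    (hc4 : W.c₄ = C ((C₀.u : K) ^ 4) * H5 N D) (hc6 : W.c₆ = C ((C₀.u : K) ^ 6) * T5 N D) :
    ∃ px py : K[X], px.eval a = x₀ ∧ py.eval a = y₀ ∧
      ∃ h : (W.map φ).toAffine.Nonsingular (φ px) (φ py),
        (5 : ℕ) • Affine.Point.some _ _ h = 0 := by
  have hN0 : N ≠ 0 := by
    rintro rfl; apply hc; rw [← hN]; simp
  have hD0 : D ≠ 0 := by
    rintro rfl; simp at hD
  obtain ⟨h, h5⟩ := exists_lift h2 h3 W C₀.u N D hN0 hD0 hc4 hc6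
  obtain ⟨e1, e2⟩ := lift_eval_of_tnf h2 h3 W a c C₀ hC₀ N D hN hD
  exact ⟨_, _, e1.trans hr, e2.trans ht, h, h5⟩

omit [DecidableEq (RatFunc K)] in
/-- Invariants of the fibre in terms of the Tate data. -/
lemma c₄_c₆_of_tnf (W₀ : WeierstrassCurve K) (c : K) (C₀ : VariableChange K)
    (hC₀ : C₀ • W₀ = tnf c 1) :
    W₀.c₄ = (C₀.u : K) ^ 4 * H5 c 1 ∧ W₀.c₆ = (C₀.u : K) ^ 6 * T5 c 1 := by
  have hu : (C₀.u : K) ≠ 0 := C₀.u.ne_zero
  have hinv : ((C₀.u⁻¹ : Kˣ) : K) = (C₀.u : K)⁻¹ := Units.val_inv_eq_inv_val C₀.u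
  have e4 : (tnf c 1).c₄ = (C₀.u : K)⁻¹ ^ 4 * W₀.c₄ := by
    rw [← hC₀, variableChange_c₄, hinv]
  have e6 : (tnf c 1).c₆ = (C₀.u : K)⁻¹ ^ 6 * W₀.c₆ := by
    rw [← hC₀, variableChange_c₆, hinv]
  rw [tnf_c₄] at e4
  rw [tnf_c₆] at e6
  constructor
  · simp only [H5]
    field_simp at e4
    linear_combination -e4
  · simp only [T5]
    field_simp at e6
    linear_combination -e6

variable [DecidableEq K]

/-- **B1b = LIFT, plug-in form.**  `W` a family over `K[X]`, `a : K`.  Assume the *family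
identities*: whenever the fibre `W(a)` has invariants `(u⁴·H5(c,1), u⁶·T5(c,1))`, the family has
invariants `(u⁴·H5(N,D), u⁶·T5(N,D))` for polynomials `N = Nf c u`, `D = Df c u` with
`N(a) = c`, `D(a) = 1`.  Then every point `(x₀, y₀)` of the fibre `W(a)` killed by `5` is the value
at `X = a` of a polynomial point of the generic fibre killed by `5`. -/
theorem exists_lift_of_identities (h2 : (2 : K) ≠ 0) (h3 : (3 : K) ≠ 0)
    (W : WeierstrassCurve K[X]) (a : K) (Nf Df : K → K → K[X])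
    (hN : ∀ c u, (Nf c u).eval a = c) (hD : ∀ c u, (Df c u).eval a = 1)
    (hI : ∀ c u : K, (W.map (evalRingHom a)).c₄ = u ^ 4 * H5 c 1 →
      (W.map (evalRingHom a)).c₆ = u ^ 6 * T5 c 1 →
      W.c₄ = C (u ^ 4) * H5 (Nf c u) (Df c u) ∧ W.c₆ = C (u ^ 6) * T5 (Nf c u) (Df c u))
    {x₀ y₀ : K} (h₀ : (W.map (evalRingHom a)).toAffine.Nonsingular x₀ y₀)
    (h5 : (5 : ℕ) • Affine.Point.some x₀ y₀ h₀ = 0) :
    ∃ px py : K[X], px.eval a = x₀ ∧ py.eval a = y₀ ∧
      ∃ h : (W.map φ).toAffine.Nonsingular (φ px) (φ py),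
        (5 : ℕ) • Affine.Point.some _ _ h = 0 := by
  obtain ⟨c, C₀, hc, hC₀, hr, ht⟩ := exists_tnf (W.map (evalRingHom a)) h₀ h5
  obtain ⟨e4, e6⟩ := c₄_c₆_of_tnf _ c C₀ hC₀
  obtain ⟨i4, i6⟩ := hI c (C₀.u : K) e4 e6
  exact exists_lift_of_tnf h2 h3 W a c hc C₀ hC₀ hr ht _ _ (hN _ _) (hD _ _) i4 i6

end Main

end Fermat.Agent.S52.H890

end
-- ===== PACK-END S52/H890/Lift.lean

-- ===== PACK-BEGIN S15/H975/DescSpec.lean
section





/-!
# Row S15, node DESC-CORE: FROZEN SKELETON (row-lead helper975)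

Design: `coord/S15-DESC-blueprint.md` (v3) + `coord/S15-DESC-skeleton.md` (this file explained).

    DescCoreTarget p S r   (= `H302.DescCoreAt p S r`, the wall of row S15)
      <== ALG0   (pure algebra)      SelBound + DIV + FINW + RTF
      <== ENGINE (pure algebra)      SelBound from a flag + per-step bounds + |K| |U| <= |W_E|
      <== FLAG                       a Galois flag of `W_E = J[r]_Eis` with pieces `1` or `omega`
      <== LOCAL                      the per-step bounds (all the arithmetic)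
            <== G3, PEU1J, PEUwJ, LOCP, COUNT (odd r) / LOCR2 (r = 2), + class field theory of Q
                  PEU*J <== T1 (HopfE) + T2 (rank r^2 Hopf orders, pure algebra)
                  LOCP  <== T6 (strong A2) + T7 (J(Q_p^ur)/r generated by torsion)

Everything below is DEFINITIONS and `Prop`s; the only theorem is the trivial assembly
`descCoreTarget_of_nodes`.  A leaf = `theorem xxx : XxxStatement` in YOUR file
`Fermat/Agent/S15/H<seat>/...`, importing this file.  Do not edit this file.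

Notation: `A = rat p` (rational points), `W = tors p r`, `W_E = eis p S r`,
`Y(F) = sel p r F = {y | r y ∈ A, σ y - y ∈ F for all σ}`.
-/

set_option autoImplicit false

noncomputable section

namespace Fermat.Agent.S15.H975

open ModularCurve

/-- `ℚ̄` -/
abbrev Qb : Type := AlgebraicClosure ℚ

/-- `Gal(ℚ̄/ℚ)` -/
abbrev Gal : Type := Qb ≃ₐ[ℚ] Qb

section Defs

variable (p : ℕ) [NeZero p]

/-- `A = J₀(p)(ℚ)`: the Galois-fixed points. -/
def rat : AddSubgroup (JZero p) where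
  carrier := {x | ∀ σ : _root_.Fermat.Agent.S15.H975.Gal, σ • x = x}
  zero_mem' := fun σ => smul_zero σ
  add_mem' := by
    intro a b ha hb σ
    rw [smul_add, ha σ, hb σ]
  neg_mem' := by
    intro a ha σ
    rw [smul_neg, ha σ]

/-- `W = J₀(p)[r]`. -/
def tors (r : ℕ) : AddSubgroup (JZero p) where
  carrier := {w | r • w = 0}
  zero_mem' := smul_zero r
  add_mem' := by
    intro a b ha hb
    show r • (a + b) = 0
    rw [nsmul_add, show r • a = 0 from ha, show r • b = 0 from hb, add_zero]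
  neg_mem' := by
    intro a ha
    show r • (-a) = 0
    rw [neg_nsmul, show r • a = 0 from ha, neg_zero]

/-- The Eisenstein operator `η_ℓ = T_ℓ - (1 + ℓ)`. -/
def eta (ℓ : Nat.Primes) : Module.End ℤ (JZero p) :=
  heckeOperatorBar p ℓ - ((1 + (ℓ : ℕ) : ℕ) : ℤ) • (1 : Module.End ℤ (JZero p))

/-- `w` is Eisenstein (generalised eigenvector) for the good primes `ℓ ≠ p`, `ℓ ∉ S`. -/
def IsEis (S : Set ℕ) (w : JZero p) : Prop :=
  ∀ ℓ : Nat.Primes, (ℓ : ℕ) ≠ p → (ℓ : ℕ) ∉ S → ∃ k : ℕ, (eta p ℓ ^ k) w = 0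

theorem isEis_zero (S : Set ℕ) : IsEis p S 0 := fun _ _ _ => ⟨0, map_zero _⟩

theorem IsEis.add {S : Set ℕ} {a b : JZero p} (ha : IsEis p S a) (hb : IsEis p S b) :
    IsEis p S (a + b) := by
  intro ℓ h1 h2
  obtain ⟨k, hk⟩ := ha ℓ h1 h2
  obtain ⟨k', hk'⟩ := hb ℓ h1 h2
  refine ⟨k + k', ?_⟩
  rw [map_add]
  have e1 : (eta p ℓ ^ (k + k')) a = 0 := by
    rw [add_comm, pow_add, Module.End.mul_apply, hk, map_zero]
  have e2 : (eta p ℓ ^ (k + k')) b = 0 := by
    rw [pow_add, Module.End.mul_apply, hk', map_zero]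
  rw [e1, e2, add_zero]

theorem IsEis.neg {S : Set ℕ} {a : JZero p} (ha : IsEis p S a) : IsEis p S (-a) := by
  intro ℓ h1 h2
  obtain ⟨k, hk⟩ := ha ℓ h1 h2
  exact ⟨k, by rw [map_neg, hk, neg_zero]⟩

/-- `W_E`: the Eisenstein part of `J₀(p)[r]` (for the good primes `ℓ ≠ p`, `ℓ ∉ S`). -/
def eis (S : Set ℕ) (r : ℕ) : AddSubgroup (JZero p) where
  carrier := {w | r • w = 0 ∧ IsEis p S w}
  zero_mem' := ⟨smul_zero r, isEis_zero p S⟩
  add_mem' := by
    rintro a b ⟨ha, ha'⟩ ⟨hb, hb'⟩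
    exact ⟨by rw [nsmul_add, ha, hb, add_zero], ha'.add p hb'⟩
  neg_mem' := by
    rintro a ⟨ha, ha'⟩
    exact ⟨by rw [neg_nsmul, ha, neg_zero], ha'.neg p⟩

/-- `Y(F) = {y | r y ∈ A, σ y - y ∈ F for all σ}`: the `r`-division points of rational points
whose cocycle takes values in `F`. -/
def sel (r : ℕ) (F : AddSubgroup (JZero p)) : AddSubgroup (JZero p) where
  carrier := {y | (∀ σ : _root_.Fermat.Agent.S15.H975.Gal, σ • (r • y) = r • y) ∧ ∀ σ : _root_.Fermat.Agent.S15.H975.Gal, σ • y - y ∈ F}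
  zero_mem' := ⟨fun σ => by rw [smul_zero, smul_zero], fun σ => by
    rw [smul_zero, sub_zero]; exact F.zero_mem⟩
  add_mem' := by
    rintro a b ⟨ha, ha'⟩ ⟨hb, hb'⟩
    refine ⟨fun σ => ?_, fun σ => ?_⟩
    · rw [nsmul_add, smul_add σ (r • a) (r • b), ha σ, hb σ]
    · have h : σ • (a + b) - (a + b) = (σ • a - a) + (σ • b - b) := by
        rw [smul_add σ a b]; abel
      rw [h]
      exact F.add_mem (ha' σ) (hb' σ)
  neg_mem' := by
    rintro a ⟨ha, ha'⟩
    refine ⟨fun σ => ?_, fun σ => ?_⟩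
    · rw [neg_nsmul, smul_neg σ (r • a), ha σ]
    · have h : σ • (-a) - (-a) = -(σ • a - a) := by
        rw [smul_neg σ a]; abel
      rw [h]
      exact F.neg_mem (ha' σ)

/-- `F` is Galois-stable. -/
def IsStable (F : AddSubgroup (JZero p)) : Prop :=
  ∀ σ : _root_.Fermat.Agent.S15.H975.Gal, ∀ f ∈ F, σ • f ∈ F

/-- `z ≡ z'` modulo `r A + A_tors`  (verbatim `H302.CongModRTors`). -/
def CongMod (r : ℕ) (z z' : JZero p) : Prop :=
  ∃ w : JZero p, (∀ σ : _root_.Fermat.Agent.S15.H975.Gal, σ • w = w) ∧ ∃ m : ℕ, 0 < m ∧ m • (z - z' - r • w) = 0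

/-- **The target** (verbatim `H302.DescCoreAt p S r`). -/
def DescCoreTarget (S : Set ℕ) (r : ℕ) : Prop :=
  ∀ z : JZero p, (∀ σ : _root_.Fermat.Agent.S15.H975.Gal, σ • z = z) →
    (∀ ℓ : Nat.Primes, (ℓ : ℕ) ≠ p → (ℓ : ℕ) ∉ S →
      CongMod p r (heckeOperatorBar p ℓ z) ((1 + (ℓ : ℕ) : ℕ) • z)) →
    CongMod p r z 0

/-- **SEL-BOUND**: `[Y(W_E) : A + W_E] ≤ |W_E ∩ A|` (and the index is finite). -/
def SelBound (S : Set ℕ) (r : ℕ) : Prop :=
  (rat p ⊔ eis p S r).relIndex (sel p r (eis p S r)) ≠ 0 ∧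
  (rat p ⊔ eis p S r).relIndex (sel p r (eis p S r)) ≤ Nat.card ↥(eis p S r ⊓ rat p)

/-- `F' ≤ F` is an Eisenstein piece: both Galois-stable, index `r`, and the Galois group acts on
`F / F'` trivially or through the cyclotomic character `ω` modulo `r`. -/
def IsEisPiece (r : ℕ) (F' F : AddSubgroup (JZero p)) : Prop :=
  F' ≤ F ∧ IsStable p F' ∧ IsStable p F ∧ F'.relIndex F = r ∧
    ((∀ σ : _root_.Fermat.Agent.S15.H975.Gal, ∀ f ∈ F, σ • f - f ∈ F') ∨
      ∃ ζ : Qb, IsPrimitiveRoot ζ r ∧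
        ∀ (σ : _root_.Fermat.Agent.S15.H975.Gal) (k : ℕ), σ ζ = ζ ^ k → ∀ f ∈ F, σ • f - k • f ∈ F')

/-- A full flag of Eisenstein pieces of `W_E`. -/
def IsFlag (S : Set ℕ) (r : ℕ) (D : ℕ) (F : ℕ → AddSubgroup (JZero p)) : Prop :=
  F 0 = ⊥ ∧ F D = eis p S r ∧ ∀ i < D, IsEisPiece p r (F i) (F (i + 1))

/-- `s = [Y(F) : Y(F') + F]`: the order of the Selmer group of the piece `F / F'`. -/
def selIndex (r : ℕ) (F' F : AddSubgroup (JZero p)) : ℕ :=
  (sel p r F' ⊔ F).relIndex (sel p r F)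

/-- `g = [F ∩ Y(F') : F'] = |(F / F')^G|`. -/
def fixIndex (r : ℕ) (F' F : AddSubgroup (JZero p)) : ℕ :=
  F'.relIndex (F ⊓ sel p r F')

/-- **The step bound** for the piece `F / F'`, relative to `K` (the non-étale part at `r`) and
`U` (the ramification at `p`):  `s · r^et ≤ r^ram · g`, where
`et := [F ∩ K ≤ F']`, `ram := [F ∩ U ≰ F']`. -/
def StepBound (r : ℕ) (K U F' F : AddSubgroup (JZero p)) : Prop :=
  selIndex p r F' F ≠ 0 ∧
  (F ⊓ K ≤ F' → F ⊓ U ≤ F' → selIndex p r F' F * r ≤ fixIndex p r F' F) ∧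
  (F ⊓ K ≤ F' → ¬ F ⊓ U ≤ F' → selIndex p r F' F ≤ fixIndex p r F' F) ∧
  (¬ F ⊓ K ≤ F' → F ⊓ U ≤ F' → selIndex p r F' F ≤ fixIndex p r F' F) ∧
  (¬ F ⊓ K ≤ F' → ¬ F ⊓ U ≤ F' → selIndex p r F' F ≤ r * fixIndex p r F' F)

end Defs

/-! ## Level 0 and 1: the pure algebra -/

/-- **DIV** (= G-DIV of row S17): `J₀(p)(ℚ̄)` is `r`-divisible. -/
def DivStatement : Prop :=
  ∀ (p : ℕ) [NeZero p], p.Prime → ∀ r : ℕ, r.Prime → ∀ x : JZero p, ∃ y : JZero p, r • y = x

/-- **FINW** (on main: `S17.H317.torsion_finite`, `A3.H319`): `J₀(p)[n]` is finite. -/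
def FinStatement : Prop :=
  ∀ (p : ℕ) [NeZero p] (n : ℕ), 0 < n → Finite ↥(tors p n)

/-- **RTF**: the rational torsion has bounded exponent (from S17, or from the finiteness of the
reductions of `J₀(p)(ℚ)` at two primes). -/
def RtfStatement : Prop :=
  ∀ (p : ℕ) [NeZero p], p.Prime → ∃ e : ℕ, 0 < e ∧
    ∀ t : JZero p, (∀ σ : _root_.Fermat.Agent.S15.H975.Gal, σ • t = t) → (∃ m : ℕ, 0 < m ∧ m • t = 0) → e • t = 0

/-- **ALG0** (pure algebra + Hecke facts on main: `S29.heckeOperatorsCommuteBar`,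
`S29.H571`): the descent core from SEL-BOUND.  Blueprint §0. -/
def Alg0Statement : Prop :=
  ∀ (p : ℕ) [NeZero p] (S : Set ℕ) (r : ℕ), p.Prime → r.Prime →
    (∀ x : JZero p, ∃ y : JZero p, r • y = x) →
    (∀ n : ℕ, 0 < n → Finite ↥(tors p n)) →
    (∃ e : ℕ, 0 < e ∧
      ∀ t : JZero p, (∀ σ : _root_.Fermat.Agent.S15.H975.Gal, σ • t = t) → (∃ m : ℕ, 0 < m ∧ m • t = 0) → e • t = 0) →
    SelBound p S r → DescCoreTarget p S r

/-- **ENGINE** (pure algebra, Mathlib only): SEL-BOUND from a flag with step bounds.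
Blueprint §1: for `F' ≤ F` Galois-stable,
`[Y(F) : A + F] · |F'^G| · g = s · [Y(F') : A + F'] · |F^G|`, and `Y(⊥) = A`. -/
def EngineStatement : Prop :=
  ∀ (p : ℕ) [NeZero p] (S : Set ℕ) (r : ℕ), r.Prime → Finite ↥(tors p r) →
    ∀ K U : AddSubgroup (JZero p), K ≤ eis p S r → U ≤ eis p S r →
      Nat.card ↥K * Nat.card ↥U ≤ Nat.card ↥(eis p S r) →
    ∀ (D : ℕ) (F : ℕ → AddSubgroup (JZero p)), IsFlag p S r D F →
      (∀ i < D, StepBound p r K U (F i) (F (i + 1))) → SelBound p S r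

/-! ## Level 1: the two arithmetic nodes -/

/-- **FLAG**: `W_E` has a full Galois flag with pieces of type `1` or `ω`.
Route: `S15.H62.exists_flag_of_frobenius` + `S37.Core.rawES` + Chebotarev (`Lib/Cheb`). -/
def FlagStatement : Prop :=
  ∀ (p : ℕ) [NeZero p], p.Prime → ∀ (S : Finset ℕ) (r : ℕ), r.Prime → r ∣ p - 1 →
    ∃ (D : ℕ) (F : ℕ → AddSubgroup (JZero p)), IsFlag p (S : Set ℕ) r D F

/-- **LOCAL**: subgroups `K`, `U` of `W_E` with `|K| |U| ≤ |W_E|` for which every Eisenstein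
piece satisfies the step bound. -/
def LocalStatement : Prop :=
  ∀ (p : ℕ) [NeZero p], p.Prime → ∀ (S : Finset ℕ) (r : ℕ), r.Prime → r ∣ p - 1 →
    ∃ K U : AddSubgroup (JZero p), K ≤ eis p (S : Set ℕ) r ∧ U ≤ eis p (S : Set ℕ) r ∧
      Nat.card ↥K * Nat.card ↥U ≤ Nat.card ↥(eis p (S : Set ℕ) r) ∧
      ∀ F' F : AddSubgroup (JZero p), F ≤ eis p (S : Set ℕ) r → IsEisPiece p r F' F →
        StepBound p r K U F' F

/-- **Assembly of the skeleton.** -/
theorem descCoreTarget_of_nodes (hA : Alg0Statement) (hE : EngineStatement)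
    (hDiv : DivStatement) (hFin : FinStatement) (hRtf : RtfStatement)
    (hFlag : FlagStatement) (hLoc : LocalStatement)
    (p : ℕ) [NeZero p] (hp : p.Prime) (S : Finset ℕ) (r : ℕ) (hr : r.Prime) (hrp : r ∣ p - 1) :
    DescCoreTarget p (S : Set ℕ) r := by
  have hW : Finite ↥(tors p r) := hFin p r hr.pos
  obtain ⟨D, F, hF⟩ := hFlag p hp S r hr hrp
  obtain ⟨K, U, hK, hU, hKU, hstep⟩ := hLoc p hp S r hr hrp
  have hsel : SelBound p (S : Set ℕ) r :=
    hE p (S : Set ℕ) r hr hW K U hK hU hKU D F hF fun i hi =>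
      hstep (F i) (F (i + 1)) (by
        -- `F (i+1) ≤ F D = W_E`
        have hmono : ∀ j, j ≤ D → ∀ i, i ≤ j → F i ≤ F j := by
          intro j
          induction j with
          | zero =>
            intro _ i hi
            rw [Nat.le_zero.mp hi]
          | succ j ih =>
            intro hj i hi
            rcases Nat.lt_or_ge i (j + 1) with h | h
            · exact (ih (Nat.le_of_succ_le hj) i (Nat.lt_succ_iff.mp h)).trans
                (hF.2.2 j (Nat.lt_of_succ_le hj)).1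
            · rw [le_antisymm hi h]
        rw [← hF.2.1]
        exact hmono D le_rfl (i + 1) hi) (hF.2.2 i hi)
  exact hA p (S : Set ℕ) r hp hr (hDiv p hp r hr) (fun n hn => hFin p n hn) (hRtf p hp) hsel

/-! ## Level 2: the leaves of LOCAL -/

/-- **G3**: inertia at `ℓ ∤ p r` acts trivially on the `r`-division points of the points it
fixes.  Formal from row S37 (`WeakRedData.inertia`) and the frozen S18. -/
def G3Statement : Prop :=
  ∀ (p : ℕ) [NeZero p], p.Prime → ∀ r : ℕ, r.Prime → ∀ ℓ : ℕ, ℓ.Prime → ℓ ≠ p → ℓ ≠ r →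
    ∀ A : ValuationSubring Qb, A.LiesOverPrime ℓ → ∀ τ ∈ A.inertiaSubgroupIn ℚ,
      ∀ y : JZero p, τ • (r • y) = r • y → τ • y = y

/-- **LOC-p**: the cocycles of `Y(W_E)` restricted to inertia at (one place over) `p` take
values in a subgroup `U` of `W_E` with `|U|² ≤ |W_E|`.  Blueprint §5 (T6 + T7 + algebra). -/
def LocPStatement : Prop :=
  ∀ (p : ℕ) [NeZero p], p.Prime → ∀ (S : Finset ℕ) (r : ℕ), r.Prime → r ∣ p - 1 →
    ∃ A : ValuationSubring Qb, A.LiesOverPrime p ∧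
      ∃ U : AddSubgroup (JZero p), U ≤ eis p (S : Set ℕ) r ∧
        Nat.card ↥U ^ 2 ≤ Nat.card ↥(eis p (S : Set ℕ) r) ∧
        ∀ y ∈ sel p r (eis p (S : Set ℕ) r), ∀ τ ∈ A.inertiaSubgroupIn ℚ, τ • y - y ∈ U

/-- **T7 (LOC-p')**: every rational point is `t + r u` with `t` of `r`-power order, `t` and `u`
fixed by inertia at (one place over) `p`. -/
def T7Statement : Prop :=
  ∀ (p : ℕ) [NeZero p], p.Prime → ∀ r : ℕ, r.Prime → r ≠ p →
    ∃ A : ValuationSubring Qb, A.LiesOverPrime p ∧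
      ∀ x : JZero p, (∀ σ : _root_.Fermat.Agent.S15.H975.Gal, σ • x = x) →
        ∃ t u : JZero p, x = t + r • u ∧ (∃ k : ℕ, r ^ k • t = 0) ∧
          ∀ τ ∈ A.inertiaSubgroupIn ℚ, τ • t = t ∧ τ • u = u

/-- **T6 (strong A2 + tame)**: at every level `r^k` the inertia at `p` acts on `J₀(p)[r^k]`
through the powers of one element `t₀` with `(t₀ - 1)² = 0`. -/
def T6Statement : Prop :=
  ∀ (p : ℕ) [NeZero p], p.Prime → ∀ r : ℕ, r.Prime → r ≠ p →
    ∀ A : ValuationSubring Qb, A.LiesOverPrime p → ∀ k : ℕ,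
      ∃ t₀ ∈ A.inertiaSubgroupIn ℚ,
        (∀ w : JZero p, r ^ k • w = 0 → t₀ • t₀ • w - 2 • t₀ • w + w = 0) ∧
        ∀ τ ∈ A.inertiaSubgroupIn ℚ, ∃ j : ℕ, ∀ w : JZero p, r ^ k • w = 0 →
          τ • w = (t₀ ^ j) • w

/-- **COUNT, `r` odd**: for a complex conjugation `cc`, `|W_E^{cc = -1}|² ≤ |W_E|`. -/
def CountOddStatement : Prop :=
  ∀ (p : ℕ) [NeZero p], p.Prime → ∀ (S : Finset ℕ) (r : ℕ), r.Prime → r ≠ 2 → r ∣ p - 1 →
    ∃ cc : _root_.Fermat.Agent.S15.H975.Gal, cc * cc = 1 ∧ (∀ ζ : Qb, ζ ^ r = 1 → cc ζ = ζ⁻¹) ∧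
      ∃ K : AddSubgroup (JZero p), (∀ w, w ∈ K ↔ w ∈ eis p (S : Set ℕ) r ∧ cc • w = -w) ∧
        Nat.card ↥K ^ 2 ≤ Nat.card ↥(eis p (S : Set ℕ) r)

/-- **LOC-r, `r = 2`** (COUNT + LOC-r-ét): the cocycles of `Y(W_E)` restricted to inertia at
(one place over) `2` take values in a subgroup `K` of `W_E` with `|K|² ≤ |W_E|`
(`K = W_E ∩ ker(reduction)`; the bound is the ordinarity of the Eisenstein part). -/
def LocR2Statement : Prop :=
  ∀ (p : ℕ) [NeZero p], p.Prime → p ≠ 2 → ∀ (S : Finset ℕ),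
    ∃ A : ValuationSubring Qb, A.LiesOverPrime 2 ∧
      ∃ K : AddSubgroup (JZero p), K ≤ eis p (S : Set ℕ) 2 ∧
        Nat.card ↥K ^ 2 ≤ Nat.card ↥(eis p (S : Set ℕ) 2) ∧
        ∀ y ∈ sel p 2 (eis p (S : Set ℕ) 2), ∀ τ ∈ A.inertiaSubgroupIn ℚ, τ • y - y ∈ K

/-- **PEU-1 on `J`** (`r` odd): on a piece with trivial Galois action the characters
`σ ↦ (σ y - y mod F')`, `y ∈ Y(F)`, are unramified at `r`. -/
def Peu1JStatement : Prop :=
  ∀ (p : ℕ) [NeZero p], p.Prime → ∀ r : ℕ, r.Prime → r ≠ p → r ≠ 2 →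
    ∀ A : ValuationSubring Qb, A.LiesOverPrime r → ∀ τ ∈ A.inertiaSubgroupIn ℚ,
    ∀ F' F : AddSubgroup (JZero p), F' ≤ F → F ≤ tors p r → IsStable p F' → IsStable p F →
      F'.relIndex F = r → (∀ σ : _root_.Fermat.Agent.S15.H975.Gal, ∀ f ∈ F, σ • f - f ∈ F') →
      ∀ y ∈ sel p r F, τ • y - y ∈ F'

/-- **PEU-ω on `J`** (all `r`, including `2`): on a piece of type `ω` (generated by `e`, with
`ζ ↔ e`), if `a ∈ ℚˣ` is the Kummer class of `y ∈ Y(F)` (i.e. `σ α = ζ^m α` implies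
`σ y - y ≡ m e mod F'`, `α^r = a`), then `r ∣ v_r(a)`. -/
def PeuOmegaJStatement : Prop :=
  ∀ (p : ℕ) [NeZero p], p.Prime → ∀ r : ℕ, r.Prime → r ≠ p →
    ∀ F' F : AddSubgroup (JZero p), F' ≤ F → F ≤ tors p r → IsStable p F' → IsStable p F →
      F'.relIndex F = r →
    ∀ ζ : Qb, IsPrimitiveRoot ζ r →
      (∀ (σ : _root_.Fermat.Agent.S15.H975.Gal) (k : ℕ), σ ζ = ζ ^ k → ∀ f ∈ F, σ • f - k • f ∈ F') →
    ∀ e ∈ F, e ∉ F' → ∀ y ∈ sel p r F, ∀ (a : ℚ) (α : Qb), a ≠ 0 →
      α ^ r = algebraMap ℚ Qb a →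
      (∀ (σ : _root_.Fermat.Agent.S15.H975.Gal) (m : ℕ), σ α = ζ ^ m * α → σ • y - y - m • e ∈ F') →
      (r : ℤ) ∣ padicValRat r a

/-! ## Level 3: flatness at `r` without Fontaine (T1 + T2) -/

/-- **T1 (HOPF-E)**: for a rational point `x = r y` the extension
`0 → J[r] → E_x → ℤ/r → 0` (class = Kummer class of `x`) has a Hopf model over `ℤ_(r)`.
Route: the A3 LOCAL assembly (`A3/H799/Asm.lean`) for the finite inertia-stable SET
`{t + j y}` with the twisted addition, then `S19.UnrStatement`, `S19.OrdStatement`. -/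
def T1Statement : Prop :=
  ∀ (p : ℕ) [NeZero p], p.Prime → ∀ r : ℕ, r.Prime → r ≠ p →
    ∀ y : JZero p, (∀ σ : _root_.Fermat.Agent.S15.H975.Gal, σ • (r • y) = r • y) →
      ∃ (M : Type) (_ : AddCommGroup M) (_ : Finite M) (act : _root_.Fermat.Agent.S15.H975.Gal → M → M)
        (ι : ↥(tors p r) →+ M) (y' : M),
        Fermat.Agent.S19.IsContAddAction act ∧ Fermat.Agent.S19.HopfModel r M act ∧
        Function.Injective ι ∧ r • y' = 0 ∧
        (∀ j : ℕ, j • y' ∈ ι.range → r ∣ j) ∧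
        (∀ m : M, ∃ (j : ℕ) (w : ↥(tors p r)), m = j • y' + ι w) ∧
        (∀ (σ : _root_.Fermat.Agent.S15.H975.Gal) (w w' : ↥(tors p r)), (w' : JZero p) = σ • (w : JZero p) →
          act σ (ι w) = ι w') ∧
        ∀ (σ : _root_.Fermat.Agent.S15.H975.Gal) (w : ↥(tors p r)), (w : JZero p) = σ • y - y → act σ y' = y' + ι w

/-- **T2-ω** (pure algebra over `ℤ_(r)`; blueprint §4 (a)-(d)): a Hopf model of an extension of
`ℤ/r` (generated by `y`) by `μ_r` (generated by `e ↔ ζ`) with Kummer class `a` forces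
`r ∣ v_r(a)`. -/
def T2OmegaStatement : Prop :=
  ∀ (r : ℕ), r.Prime → ∀ (Q : Type) (_ : AddCommGroup Q) (_ : Finite Q) (act : _root_.Fermat.Agent.S15.H975.Gal → Q → Q),
    Fermat.Agent.S19.IsContAddAction act → Fermat.Agent.S19.HopfModel r Q act →
    ∀ e y : Q, r • e = 0 → r • y = 0 → e ≠ 0 → (∀ j : ℕ, j • y ∈ AddSubgroup.zmultiples e → r ∣ j) →
      (∀ q : Q, ∃ i j : ℕ, q = i • e + j • y) →
    ∀ ζ : Qb, IsPrimitiveRoot ζ r → (∀ (σ : _root_.Fermat.Agent.S15.H975.Gal) (k : ℕ), σ ζ = ζ ^ k → act σ e = k • e) →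
    ∀ (a : ℚ) (α : Qb), a ≠ 0 → α ^ r = algebraMap ℚ Qb a →
      (∀ (σ : _root_.Fermat.Agent.S15.H975.Gal) (m : ℕ), σ α = ζ ^ m * α → act σ y = y + m • e) →
      (r : ℤ) ∣ padicValRat r a

/-- **T2-1** (pure algebra, `r` odd; blueprint §4 (e),(c)): a Hopf model of an extension of `ℤ/r`
by `ℤ/r` with trivial Galois action on the sub and the quotient is unramified at `r`. -/
def T2OneStatement : Prop :=
  ∀ (r : ℕ), r.Prime → r ≠ 2 →
    ∀ (Q : Type) (_ : AddCommGroup Q) (_ : Finite Q) (act : _root_.Fermat.Agent.S15.H975.Gal → Q → Q),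
    Fermat.Agent.S19.IsContAddAction act → Fermat.Agent.S19.HopfModel r Q act →
    ∀ e y : Q, r • e = 0 → r • y = 0 → (∀ q : Q, ∃ i j : ℕ, q = i • e + j • y) →
      (∀ σ : _root_.Fermat.Agent.S15.H975.Gal, act σ e = e) → (∀ σ : _root_.Fermat.Agent.S15.H975.Gal, ∃ m : ℕ, act σ y = y + m • e) →
    ∀ A : ValuationSubring Qb, A.LiesOverPrime r → ∀ τ ∈ A.inertiaSubgroupIn ℚ, act τ y = y

end Fermat.Agent.S15.H975

end

end
-- ===== PACK-END S15/H975/DescSpec.lean

-- ===== PACK-BEGIN S17/H380/AbsDef.lean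
section




namespace Fermat.Agent.S17.H380

open NumberField Height Module IntermediateField

section RingHom

variable {F F' : Type*} [Field F] [NumberField F] [Field F'] [NumberField F']
variable {ι : Type*} [Finite ι]

/-- The normalized logarithmic height is invariant under ring homomorphisms of number fields. -/
theorem normalized_logHeight_ringHom (τ : F →+* F') (y : ι → F) :
    (finrank ℚ F' : ℝ)⁻¹ * logHeight (fun i => τ (y i)) = (finrank ℚ F : ℝ)⁻¹ * logHeight y := by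
  let _ := τ.toAlgebra
  have h1 : logHeight (fun i => τ (y i)) = finrank F F' * logHeight y :=
    logHeight_algebraMap (K := F) (L := F') y
  have h2 : finrank ℚ F * finrank F F' = finrank ℚ F' := Module.finrank_mul_finrank ℚ F F'
  have hF : (0 : ℝ) < finrank ℚ F := by exact_mod_cast Module.finrank_pos
  have hF' : (0 : ℝ) < finrank ℚ F' := by exact_mod_cast Module.finrank_pos
  rw [h1, ← h2]
  push_cast
  have hFF' : (0 : ℝ) < finrank F F' := by
    have : (0:ℝ) < (finrank ℚ F : ℝ) * (finrank F F' : ℝ) := by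
      rw [← Nat.cast_mul, h2]; exact hF'
    exact (mul_pos_iff_of_pos_left hF).mp this
  field_simp

end RingHom


section Abs

variable {A : Type*} [Field A] [CharZero A] {ι : Type*}

/-- The subfield generated over `ℚ` by the entries of a tuple. -/
noncomputable def tupleField (x : ι → A) : IntermediateField ℚ A := adjoin ℚ (Set.range x)

/-- The tuple, viewed as a tuple of elements of the field generated by its entries. -/
noncomputable def tupleLift (x : ι → A) : ι → tupleField x :=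
  fun i => ⟨x i, subset_adjoin ℚ (Set.range x) ⟨i, rfl⟩⟩

@[simp] theorem tupleLift_coe (x : ι → A) (i : ι) : ((tupleLift x i : tupleField x) : A) = x i := rfl

variable [Finite ι]

theorem tupleField_finiteDimensional (x : ι → A) (hx : ∀ i, IsIntegral ℚ (x i)) :
    FiniteDimensional ℚ (tupleField x) :=
  IntermediateField.finiteDimensional_adjoin (by rintro _ ⟨i, rfl⟩; exact hx i)

theorem tupleField_numberField (x : ι → A) (hx : ∀ i, IsIntegral ℚ (x i)) :
    NumberField (tupleField x) :=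
  haveI := tupleField_finiteDimensional x hx
  {}

open Classical in
/-- The **absolute logarithmic height** of a tuple of algebraic numbers (elements of a field
of characteristic zero that are algebraic over `ℚ`; junk value `0` otherwise). -/
noncomputable def absLogHeight (x : ι → A) : ℝ :=
  if hx : ∀ i, IsIntegral ℚ (x i) then
    haveI := tupleField_numberField x hx
    (finrank ℚ (tupleField x) : ℝ)⁻¹ * logHeight (tupleLift x)
  else 0

theorem absLogHeight_def (x : ι → A) (hx : ∀ i, IsIntegral ℚ (x i)) :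
    haveI := tupleField_numberField x hx
    absLogHeight x = (finrank ℚ (tupleField x) : ℝ)⁻¹ * logHeight (tupleLift x) := by
  unfold absLogHeight
  rw [dif_pos hx]

/-- A section of an injective ring homomorphism on a subfield contained in its range. -/
noncomputable def sectionFun {F : Type*} [Field F] (σ : F →+* A) (K : IntermediateField ℚ A)
    (h : ∀ k ∈ K, ∃ a, σ a = k) (k : K) : F := Classical.choose (h k k.2)

theorem sectionFun_spec {F : Type*} [Field F] (σ : F →+* A) (K : IntermediateField ℚ A)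
    (h : ∀ k ∈ K, ∃ a, σ a = k) (k : K) : σ (sectionFun σ K h k) = k :=
  Classical.choose_spec (h k k.2)

/-- A section of an injective ring homomorphism on a subfield contained in its range,
as a ring homomorphism. -/
noncomputable def sectionHom {F : Type*} [Field F] (σ : F →+* A) (K : IntermediateField ℚ A)
    (h : ∀ k ∈ K, ∃ a, σ a = k) : K →+* F where
  toFun := sectionFun σ K h
  map_one' := σ.injective (by rw [sectionFun_spec]; simp)
  map_zero' := σ.injective (by rw [sectionFun_spec]; simp)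
  map_mul' a b := σ.injective (by
    rw [map_mul, sectionFun_spec, sectionFun_spec, sectionFun_spec]; simp)
  map_add' a b := σ.injective (by
    rw [map_add, sectionFun_spec, sectionFun_spec, sectionFun_spec]; simp)

theorem sectionHom_spec {F : Type*} [Field F] (σ : F →+* A) (K : IntermediateField ℚ A)
    (h : ∀ k ∈ K, ∃ a, σ a = k) (k : K) : σ (sectionHom σ K h k) = k :=
  sectionFun_spec σ K h k

theorem isIntegral_ringHom_apply {F : Type*} [Field F] [NumberField F] (σ : F →+* A) (a : F) :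
    IsIntegral ℚ (σ a) :=
  (IsIntegral.of_finite ℚ a).map σ.toRatAlgHom

/-- **Well-definedness of the absolute height**: it can be computed in any number field
containing the entries of the tuple. -/
theorem absLogHeight_eq {F : Type*} [Field F] [NumberField F] (σ : F →+* A) (y : ι → F) :
    absLogHeight (fun i => σ (y i)) = (finrank ℚ F : ℝ)⁻¹ * logHeight y := by
  set x : ι → A := fun i => σ (y i) with hxdef
  have hx : ∀ i, IsIntegral ℚ (x i) := fun i => isIntegral_ringHom_apply σ (y i)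
  haveI := tupleField_numberField x hx
  rw [absLogHeight_def x hx]
  have hle : ∀ k ∈ tupleField x, ∃ a, σ a = k := by
    intro k hk
    have h1 : tupleField x ≤ σ.toRatAlgHom.fieldRange := by
      rw [tupleField, adjoin_le_iff]
      rintro _ ⟨i, rfl⟩
      exact ⟨y i, rfl⟩
    obtain ⟨a, ha⟩ := h1 hk
    exact ⟨a, ha⟩
  let τ := sectionHom σ (tupleField x) hle
  have hτ : (fun i => τ (tupleLift x i)) = y := by
    funext i
    apply σ.injective
    rw [sectionHom_spec]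
    rfl
  rw [← normalized_logHeight_ringHom τ (tupleLift x), hτ]

end Abs

end Fermat.Agent.S17.H380

end
-- ===== PACK-END S17/H380/AbsDef.lean

-- ===== PACK-BEGIN S17/H980/SiegelMinors.lean
section


/-!
# Primitive integral representatives (piece MINK of S17 / tower H, helper980)

* `exists_det_submatrix_ne_zero` : over a field, linearly independent rows give a non-vanishing
  maximal minor; `exists_vecMul_eq_zero_of_minors` is the contrapositive.
* `exists_reduce_step` : if a prime divides all maximal minors of an integer matrix, one row can be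
  replaced so that all minors are multiplied by `c / p` with `0 < |c| < p`.
* `exists_primitive` : every integer matrix with a non-vanishing maximal minor has the same
  rational row space as an integer matrix whose maximal minors have gcd `1`.
-/

set_option autoImplicit false

open Matrix

namespace Fermat.Agent.S17.H980

section Field

variable {ι₁ ι : Type*} [Fintype ι₁] [DecidableEq ι₁] [Fintype ι] [DecidableEq ι]
variable {K : Type*} [Field K]

/-- Over a field, a matrix with linearly independent rows has a non-vanishing maximal minor. -/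
theorem exists_det_submatrix_ne_zero (M : Matrix ι₁ ι K) (h : LinearIndependent K M.row) :
    ∃ e : ι₁ ↪ ι, (M.submatrix id e).det ≠ 0 := by
  classical
  have hrank : M.rank = Fintype.card ι₁ := h.rank_matrix
  have hspan : Submodule.span K (Set.range M.col) = ⊤ := by
    apply Submodule.eq_top_of_finrank_eq
    rw [← Matrix.rank_eq_finrank_span_cols, hrank, Module.finrank_fintype_fun_eq_card]
  obtain ⟨κ, a, ha, hsp, hli⟩ := exists_linearIndependent' K M.col
  rw [hspan] at hsp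
  haveI : Finite κ := Finite.of_injective a ha
  letI : Fintype κ := Fintype.ofFinite κ
  have hcard : Fintype.card κ = Fintype.card ι₁ := by
    have := linearIndependent_iff_card_eq_finrank_span.mp hli
    rw [this, Set.finrank, hsp, finrank_top, Module.finrank_fintype_fun_eq_card]
  let ε : ι₁ ≃ κ := Fintype.equivOfCardEq hcard.symm
  refine ⟨⟨a ∘ ε, ha.comp ε.injective⟩, ?_⟩
  have hli' : LinearIndependent K (M.submatrix id (a ∘ ε)).col := by
    have h1 : (M.submatrix id (a ∘ ε)).col = (M.col ∘ a) ∘ ε := by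
      funext j r
      rfl
    rw [h1]
    exact hli.comp ε ε.injective
  have hu := Matrix.linearIndependent_cols_iff_isUnit.mp hli'
  have := (Matrix.isUnit_iff_isUnit_det _).mp hu
  exact this.ne_zero

/-- Over a field, if all maximal minors vanish, the rows are linearly dependent. -/
theorem exists_vecMul_eq_zero_of_minors (M : Matrix ι₁ ι K)
    (h : ∀ e : ι₁ ↪ ι, (M.submatrix id e).det = 0) :
    ∃ c : ι₁ → K, c ≠ 0 ∧ c ᵥ* M = 0 := by
  classical
  have hnli : ¬ LinearIndependent K M.row := by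
    intro hli
    obtain ⟨e, he⟩ := exists_det_submatrix_ne_zero M hli
    exact he (h e)
  rw [Fintype.not_linearIndependent_iff] at hnli
  obtain ⟨c, hc, i, hi⟩ := hnli
  refine ⟨c, fun h0 => hi (by rw [h0]; rfl), ?_⟩
  funext j
  have := congrFun hc j
  simp only [Finset.sum_apply, Pi.smul_apply, smul_eq_mul, Pi.zero_apply] at this
  simp only [Matrix.vecMul, dotProduct, Pi.zero_apply]
  exact this

end Field

section Reduce

variable {ι₁ ι : Type*} [Fintype ι₁] [DecidableEq ι₁] [Fintype ι] [DecidableEq ι]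

/-- **Reduction step.**  If a prime `p` divides all maximal minors of `B₀`, one row of `B₀` can be
replaced by an integral vector such that all maximal minors are multiplied by `c / p`, `0 < |c| < p`,
and the integral kernel does not grow. -/
theorem exists_reduce_step (B₀ : Matrix ι₁ ι ℤ) (p : ℕ) [hp : Fact p.Prime]
    (hdvd : ∀ e : ι₁ ↪ ι, (p : ℤ) ∣ minor B₀ e) :
    ∃ (B₁ : Matrix ι₁ ι ℤ) (c : ℤ), c ≠ 0 ∧ |c| < p ∧
      (∀ e : ι₁ ↪ ι, (p : ℤ) * minor B₁ e = c * minor B₀ e) ∧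
      (∀ a : ι → ℤ, B₁ *ᵥ a = 0 → B₀ *ᵥ a = 0) := by
  classical
  -- reduce mod p
  let f : ℤ →+* ZMod p := Int.castRingHom (ZMod p)
  have hminor : ∀ e : ι₁ ↪ ι, ((B₀.map f).submatrix id e).det = 0 := by
    intro e
    have h1 : (B₀.map f).submatrix id e = (B₀.submatrix id e).map f := rfl
    rw [h1, ← RingHom.mapMatrix_apply, ← RingHom.map_det]
    exact (ZMod.intCast_zmod_eq_zero_iff_dvd _ p).mpr (hdvd e)
  obtain ⟨c, hc0, hc⟩ := exists_vecMul_eq_zero_of_minors (B₀.map f) hminor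
  obtain ⟨r0, hr0⟩ : ∃ r0, c r0 ≠ 0 := by
    by_contra hcon
    exact hc0 (funext fun r => not_not.mp fun h => hcon ⟨r, h⟩)
  let ct : ι₁ → ℤ := fun r => (c r).valMinAbs
  have hct : ∀ r, ((ct r : ℤ) : ZMod p) = c r := fun r => ZMod.coe_valMinAbs (c r)
  have hct0 : ct r0 ≠ 0 := by
    intro h
    apply hr0
    rw [← hct r0, h]; simp
  have hctlt : |ct r0| < p := by
    have h1 : (ct r0).natAbs ≤ p / 2 := ZMod.natAbs_valMinAbs_le (c r0)
    have h2 : p / 2 < p := Nat.div_lt_self hp.out.pos (by norm_num)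
    have h3 : ((ct r0).natAbs : ℤ) < p := by exact_mod_cast lt_of_le_of_lt h1 h2
    rwa [Int.natCast_natAbs] at h3
  -- the combination of rows is divisible by `p`
  have hw : ∀ i, (p : ℤ) ∣ ∑ r, ct r * B₀ r i := by
    intro i
    rw [← ZMod.intCast_zmod_eq_zero_iff_dvd]
    have := congrFun hc i
    simp only [Matrix.vecMul, dotProduct, Matrix.map_apply, Pi.zero_apply] at this
    push_cast
    simp only [hct]
    exact this
  choose w hwe using hw
  refine ⟨B₀.updateRow r0 w, ct r0, hct0, hctlt, ?_, ?_⟩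
  · intro e
    unfold minor
    have h1 : (B₀.updateRow r0 w).submatrix id e = (B₀.submatrix id e).updateRow r0 (w ∘ e) := by
      ext r j
      by_cases hr : r = r0
      · subst hr; simp [Matrix.updateRow_apply]
      · simp [Matrix.updateRow_apply, hr]
    rw [h1, ← Matrix.det_updateRow_smul]
    have h2 : (p : ℤ) • (w ∘ e) = ∑ r, ct r • (B₀.submatrix id e) r := by
      funext j
      simp only [Pi.smul_apply, Function.comp_apply, smul_eq_mul, Finset.sum_apply,
        Matrix.submatrix_apply, id]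
      exact (hwe (e j)).symm
    rw [h2, Matrix.det_updateRow_sum, smul_eq_mul]
  · intro a ha
    funext r
    by_cases hr : r = r0
    · subst hr
      -- `p * (w · a) = ∑ ct r (B₀ r · a)` and all other rows kill `a`
      have hother : ∀ r', r' ≠ r → ∑ i, B₀ r' i * a i = 0 := by
        intro r' hr'
        have := congrFun ha r'
        simp only [Matrix.mulVec, dotProduct, Matrix.updateRow_apply, hr', if_false,
          Pi.zero_apply] at this
        exact this
      have hself : ∑ i, w i * a i = 0 := by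
        have := congrFun ha r
        simp only [Matrix.mulVec, dotProduct, Matrix.updateRow_apply, if_true,
          Pi.zero_apply] at this
        exact this
      have hsum : (p : ℤ) * ∑ i, w i * a i = ∑ r', ct r' * ∑ i, B₀ r' i * a i := by
        rw [Finset.mul_sum]
        simp_rw [Finset.mul_sum]
        rw [Finset.sum_comm]
        apply Finset.sum_congr rfl
        intro i _
        rw [← mul_assoc, ← hwe i, Finset.sum_mul]
        apply Finset.sum_congr rfl
        intro r' _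
        ring
      rw [hself, mul_zero] at hsum
      rw [Finset.sum_eq_single r (fun r' _ hr' => by rw [hother r' hr', mul_zero])
        (fun h => absurd (Finset.mem_univ _) h)] at hsum
      have := (mul_eq_zero.mp hsum.symm).resolve_left hct0
      simp only [Matrix.mulVec, dotProduct, Pi.zero_apply]
      exact this
    · have := congrFun ha r
      simp only [Matrix.mulVec, dotProduct, Matrix.updateRow_apply, hr, if_false,
        Pi.zero_apply] at this
      simp only [Matrix.mulVec, dotProduct, Pi.zero_apply]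
      exact this


/-- The sum of the absolute values of the maximal minors. -/
noncomputable def minorSum (B : Matrix ι₁ ι ℤ) : ℕ := ∑ e : ι₁ ↪ ι, (minor B e).natAbs

theorem minorSum_pos (B : Matrix ι₁ ι ℤ) (hne : ∃ e : ι₁ ↪ ι, minor B e ≠ 0) : 0 < minorSum B := by
  obtain ⟨e, he⟩ := hne
  unfold minorSum
  exact lt_of_lt_of_le (Int.natAbs_pos.mpr he)
    (Finset.single_le_sum (f := fun e => (minor B e).natAbs) (fun _ _ => Nat.zero_le _)
      (Finset.mem_univ e))

/-- **Primitive representative.**  An integer matrix with a non-vanishing maximal minor can be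
replaced by an integer matrix `B₀` with proportional maximal minors of gcd `1` whose integral kernel
is contained in the kernel of `B`. -/
theorem exists_primitive (B : Matrix ι₁ ι ℤ) (hne : ∃ e : ι₁ ↪ ι, minor B e ≠ 0) :
    ∃ (B₀ : Matrix ι₁ ι ℤ) (num den : ℤ), num ≠ 0 ∧ den ≠ 0 ∧
      (∀ e : ι₁ ↪ ι, den * minor B₀ e = num * minor B e) ∧
      (∀ a : ι → ℤ, B₀ *ᵥ a = 0 → B *ᵥ a = 0) ∧
      (Finset.univ : Finset (ι₁ ↪ ι)).gcd (minor B₀) = 1 := by
  classical
  induction hn : minorSum B using Nat.strong_induction_on generalizing B with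
  | _ n ih =>
    by_cases hg : (Finset.univ : Finset (ι₁ ↪ ι)).gcd (minor B) = 1
    · exact ⟨B, 1, 1, one_ne_zero, one_ne_zero, fun e => rfl, fun a ha => ha, hg⟩
    · -- a prime dividing the gcd
      set g := (Finset.univ : Finset (ι₁ ↪ ι)).gcd (minor B) with hgdef
      have hg0 : g ≠ 0 := by
        intro h0
        obtain ⟨e, he⟩ := hne
        exact he ((Finset.gcd_eq_zero_iff.mp h0) e (Finset.mem_univ e))
      have hgnat : g.natAbs ≠ 1 := by
        intro h1
        apply hg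
        have hnn : 0 ≤ g := by
          rw [hgdef, ← Finset.normalize_gcd]
          exact Int.nonneg_of_normalize_eq_self (normalize_idem _)
        have : g = (g.natAbs : ℤ) := (Int.natAbs_of_nonneg hnn).symm
        rw [this, h1]; rfl
      obtain ⟨p, hp, hpg⟩ := Nat.exists_prime_and_dvd hgnat
      haveI : Fact p.Prime := ⟨hp⟩
      have hdvd : ∀ e : ι₁ ↪ ι, (p : ℤ) ∣ minor B e := by
        intro e
        have h1 : (p : ℤ) ∣ g := Int.natCast_dvd.mpr hpg
        exact h1.trans (Finset.gcd_dvd (Finset.mem_univ e))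
      obtain ⟨B₁, c, hc0, hclt, hmin, hker⟩ := exists_reduce_step B p hdvd
      have hne₁ : ∃ e : ι₁ ↪ ι, minor B₁ e ≠ 0 := by
        obtain ⟨e, he⟩ := hne
        refine ⟨e, fun h0 => ?_⟩
        have := hmin e
        rw [h0, mul_zero] at this
        exact (mul_ne_zero hc0 he) this.symm
      have hlt : minorSum B₁ < n := by
        have h1 : p * minorSum B₁ = c.natAbs * minorSum B := by
          unfold minorSum
          rw [Finset.mul_sum, Finset.mul_sum]
          apply Finset.sum_congr rfl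
          intro e _
          have := congrArg Int.natAbs (hmin e)
          rw [Int.natAbs_mul, Int.natAbs_mul, Int.natAbs_natCast] at this
          exact this
        have h2 : c.natAbs < p := by
          have : ((c.natAbs : ℕ) : ℤ) < p := by rw [Int.natCast_natAbs]; exact hclt
          exact_mod_cast this
        have h3 : 0 < minorSum B := minorSum_pos B hne
        rw [← hn]
        have h4 : p * minorSum B₁ < p * minorSum B := by
          rw [h1]
          exact Nat.mul_lt_mul_of_pos_right h2 h3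
        exact lt_of_mul_lt_mul_left h4 (Nat.zero_le _)
      obtain ⟨B₀, num, den, hnum, hden, hprop, hker₀, hgcd⟩ := ih (minorSum B₁) hlt B₁ hne₁ rfl
      refine ⟨B₀, num * c, den * p, mul_ne_zero hnum hc0,
        mul_ne_zero hden (by exact_mod_cast hp.ne_zero), ?_, fun a ha => hker a (hker₀ a ha), hgcd⟩
      intro e
      calc den * p * minor B₀ e = p * (den * minor B₀ e) := by ring
        _ = p * (num * minor B₁ e) := by rw [hprop e]
        _ = num * (p * minor B₁ e) := by ring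
        _ = num * (c * minor B e) := by rw [hmin e]
        _ = num * c * minor B e := by ring

end Reduce

end Fermat.Agent.S17.H980

end
-- ===== PACK-END S17/H980/SiegelMinors.lean

-- ===== PACK-BEGIN S17/H740/SegreCone.lean
section



/-!
# The Segre cone of a product of cones

For homogeneous ideals `I a ⊆ k[X_j : j ∈ ι a]` (one per slot `a : α`) and an algebraically closed
(or just infinite) extension `L` of `k`, `segreIdeal L I` is the ideal of all polynomials in the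
Segre variables that vanish at every Segre point `segrePt u`, `u a` in the cone of `I a`.

* `homIdeal_segreIdeal` : it is a homogeneous ideal;
* `exists_eq_segrePt`   : every nonzero `L`-point of its zero set is a Segre point `segrePt u` with
  every `u a` a nonzero point of the cone of `I a`.

Mathlib + `H500.NullCert` only.  Leaf SEGRE of the heights tower of row S17.
-/

set_option autoImplicit false

noncomputable section

namespace Fermat.Agent.S17.H740

open MvPolynomial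
open Fermat.Agent.S17.H500 (HomIdeal)

section Smul

variable {σ R A : Type*} [CommSemiring R] [CommSemiring A] [Algebra R A]

theorem aeval_smul_of_isHomogeneous {f : MvPolynomial σ R} {n : ℕ} (hf : f.IsHomogeneous n)
    (t : A) (v : σ → A) : aeval (t • v) f = t ^ n * aeval v f := by
  classical
  conv_lhs => rw [← f.support_sum_monomial_coeff]
  conv_rhs => rw [← f.support_sum_monomial_coeff]
  rw [map_sum, map_sum, Finset.mul_sum]
  refine Finset.sum_congr rfl fun d hd => ?_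
  rw [aeval_monomial, aeval_monomial]
  have hdeg : n = ∑ i ∈ d.support, d i := hf.degree_eq_sum_deg_support hd
  have : (d.prod fun i e => (t • v) i ^ e) = t ^ n * d.prod fun i e => v i ^ e := by
    simp only [Finsupp.prod, Pi.smul_apply, smul_eq_mul, mul_pow, Finset.prod_mul_distrib,
      Finset.prod_pow_eq_pow_sum, ← hdeg]
  rw [this]
  ring

theorem aeval_smul_eq_sum (f : MvPolynomial σ R) (t : A) (v : σ → A) :
    aeval (t • v) f =
      ∑ n ∈ Finset.range (f.totalDegree + 1), t ^ n * aeval v (homogeneousComponent n f) := by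
  conv_lhs => rw [← sum_homogeneousComponent f]
  rw [map_sum]
  exact Finset.sum_congr rfl fun n _ =>
    aeval_smul_of_isHomogeneous (homogeneousComponent_isHomogeneous n f) t v

end Smul

variable {k : Type*} [Field k] {α : Type*} [Fintype α] {ι : α → Type*}
variable (L : Type*) [Field L] [Algebra k L]

/-- `u` is a point of the product of the cones of the ideals `I a`. -/
def InCones (I : ∀ a, Ideal (MvPolynomial (ι a) k)) (u : (a : α) → ι a → L) : Prop :=
  ∀ a, ∀ f ∈ I a, aeval (u a) f = 0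

/-- The vanishing ideal of the Segre image of the product of the cones. -/
def segreIdeal (I : ∀ a, Ideal (MvPolynomial (ι a) k)) :
    Ideal (MvPolynomial ((a : α) → ι a) k) where
  carrier := {P | ∀ u : (a : α) → ι a → L, InCones L I u → aeval (segrePt u) P = 0}
  add_mem' := by
    intro P Q hP hQ u hu
    rw [map_add, hP u hu, hQ u hu, add_zero]
  zero_mem' := by
    intro u _
    exact map_zero _
  smul_mem' := by
    intro c P hP u hu
    rw [smul_eq_mul, map_mul, hP u hu, mul_zero]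

variable {L}

theorem mem_segreIdeal {I : ∀ a, Ideal (MvPolynomial (ι a) k)}
    {P : MvPolynomial ((a : α) → ι a) k} :
    P ∈ segreIdeal L I ↔ ∀ u : (a : α) → ι a → L, InCones L I u → aeval (segrePt u) P = 0 :=
  Iff.rfl

omit [Fintype α] in
theorem inCones_update_smul [DecidableEq α] {I : ∀ a, Ideal (MvPolynomial (ι a) k)}
    (hI : ∀ a, HomIdeal (I a)) {u : (a : α) → ι a → L} (hu : InCones L I u) (a₀ : α) (t : L) :
    InCones L I (Function.update u a₀ (t • u a₀)) := by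
  intro a f hf
  by_cases h : a = a₀
  · subst h
    rw [Function.update_self, aeval_smul_eq_sum]
    refine Finset.sum_eq_zero fun n _ => ?_
    rw [hu a _ (hI a f hf n), mul_zero]
  · rw [Function.update_of_ne h]
    exact hu a f hf

theorem segrePt_update_smul [DecidableEq α] (u : (a : α) → ι a → L) (a₀ : α) (t : L) :
    segrePt (Function.update u a₀ (t • u a₀)) = t • segrePt u := by
  funext f
  simp only [segrePt, Pi.smul_apply, smul_eq_mul]
  rw [← Finset.mul_prod_erase Finset.univ _ (Finset.mem_univ a₀),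
    ← Finset.mul_prod_erase Finset.univ (fun a => u a (f a)) (Finset.mem_univ a₀)]
  rw [Function.update_self, Pi.smul_apply, smul_eq_mul, mul_assoc]
  congr 2
  refine Finset.prod_congr rfl fun a ha => ?_
  rw [Function.update_of_ne (Finset.ne_of_mem_erase ha)]

/-- The Segre ideal is homogeneous. -/
theorem homIdeal_segreIdeal [Nonempty α] [Infinite L] {I : ∀ a, Ideal (MvPolynomial (ι a) k)}
    (hI : ∀ a, HomIdeal (I a)) : HomIdeal (segreIdeal L I) := by
  classical
  intro P hP n u hu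
  obtain ⟨a₀⟩ := ‹Nonempty α›
  -- the polynomial `∑ t^m P_m(z)` vanishes identically
  set z := segrePt u with hz
  set q : Polynomial L := ∑ m ∈ Finset.range (P.totalDegree + 1),
    Polynomial.C (aeval z (homogeneousComponent m P)) * Polynomial.X ^ m with hq
  have hq0 : q = 0 := by
    apply Polynomial.funext
    intro t
    have h1 := hP _ (inCones_update_smul hI hu a₀ t)
    rw [segrePt_update_smul, aeval_smul_eq_sum] at h1
    rw [hq, Polynomial.eval_finsetSum, Polynomial.eval_zero, ← h1]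
    refine Finset.sum_congr rfl fun m _ => ?_
    rw [Polynomial.eval_mul, Polynomial.eval_C, Polynomial.eval_pow, Polynomial.eval_X, mul_comm]
  by_cases hn : n ∈ Finset.range (P.totalDegree + 1)
  · have := congrArg (fun r => Polynomial.coeff r n) hq0
    simp only [hq, Polynomial.finsetSum_coeff, Polynomial.coeff_C_mul, Polynomial.coeff_X_pow,
      Polynomial.coeff_zero] at this
    rw [Finset.sum_eq_single n] at this
    · simpa using this
    · intro m _ hm
      simp [Ne.symm hm]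
    · intro h
      exact absurd hn h
  · have : homogeneousComponent n P = 0 := by
      apply homogeneousComponent_eq_zero
      simp only [Finset.mem_range, not_lt] at hn
      omega
    rw [this, map_zero]

/-! ### Points of the zero set are Segre points -/

section RankOne

variable [DecidableEq α]

theorem swap_mem_segreIdeal (I : ∀ a, Ideal (MvPolynomial (ι a) k)) (f g : (a : α) → ι a)
    (a : α) :
    (X f * X g - X (Function.update f a (g a)) * X (Function.update g a (f a)) :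
      MvPolynomial ((a : α) → ι a) k) ∈ segreIdeal L I := by
  intro u _
  simp only [map_sub, map_mul, aeval_X, segrePt]
  rw [sub_eq_zero, ← Finset.prod_mul_distrib, ← Finset.prod_mul_distrib]
  refine Finset.prod_congr rfl fun b _ => ?_
  by_cases h : b = a
  · subst h
    simp [mul_comm]
  · simp [Function.update_of_ne h]

variable {I : ∀ a, Ideal (MvPolynomial (ι a) k)} {z : ((a : α) → ι a) → L}

theorem swap_eq (hz : ∀ P ∈ segreIdeal L I, aeval z P = 0) (f g : (a : α) → ι a) (a : α) :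
    z f * z g = z (Function.update f a (g a)) * z (Function.update g a (f a)) := by
  have := hz _ (swap_mem_segreIdeal (L := L) I f g a)
  simpa [sub_eq_zero] using this

/-- Auxiliary: replace `f₀` by `f` on the slots in `s`. -/
def mixFun (f₀ f : (a : α) → ι a) (s : Finset α) : (a : α) → ι a :=
  fun a => if a ∈ s then f a else f₀ a

omit [Fintype α] in
theorem mixFun_insert (f₀ f : (a : α) → ι a) {s : Finset α} {a : α} (ha : a ∉ s) :
    Function.update (mixFun f₀ f (insert a s)) a (f₀ a) = mixFun f₀ f s := by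
  funext b
  by_cases h : b = a
  · subst h
    simp [mixFun, ha]
  · simp [mixFun, h]

theorem mix_eq (hz : ∀ P ∈ segreIdeal L I, aeval z P = 0) (f₀ f : (a : α) → ι a)
    (s : Finset α) :
    z (mixFun f₀ f s) * z f₀ ^ s.card = z f₀ * ∏ a ∈ s, z (Function.update f₀ a (f a)) := by
  induction s using Finset.induction_on with
  | empty =>
    have : mixFun f₀ f ∅ = f₀ := by funext a; simp [mixFun]
    simp [this]
  | insert a s ha ih =>
    have h1 := swap_eq hz (mixFun f₀ f (insert a s)) f₀ a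
    rw [mixFun_insert f₀ f ha] at h1
    have h2 : mixFun f₀ f (insert a s) a = f a := by simp [mixFun]
    rw [h2] at h1
    rw [Finset.card_insert_of_notMem ha, Finset.prod_insert ha, pow_succ]
    calc z (mixFun f₀ f (insert a s)) * (z f₀ ^ s.card * z f₀)
        = (z (mixFun f₀ f (insert a s)) * z f₀) * z f₀ ^ s.card := by ring
      _ = (z (mixFun f₀ f s) * z f₀ ^ s.card) * z (Function.update f₀ a (f a)) := by
          rw [h1]; ring
      _ = _ := by rw [ih]; ring

/-- A nonzero point of the zero set of the Segre ideal is a Segre point (rank one). -/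
theorem exists_segrePt_eq [Nonempty α] (hz : ∀ P ∈ segreIdeal L I, aeval z P = 0)
    (hz0 : z ≠ 0) : ∃ u : (a : α) → ι a → L, segrePt u = z := by
  obtain ⟨f₀, hf₀⟩ : ∃ f₀, z f₀ ≠ 0 := by
    by_contra h
    exact hz0 (_root_.funext fun f => by_contra fun hf => h ⟨f, hf⟩)
  obtain ⟨a₀⟩ := ‹Nonempty α›
  set u : (a : α) → ι a → L := fun a j => z (Function.update f₀ a j) / z f₀ with hu
  refine ⟨Function.update u a₀ (z f₀ • u a₀), ?_⟩
  rw [segrePt_update_smul]
  funext f
  have h := mix_eq hz f₀ f Finset.univ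
  have hmix : mixFun f₀ f Finset.univ = f := by funext a; simp [mixFun]
  rw [hmix] at h
  simp only [Pi.smul_apply, smul_eq_mul, segrePt, hu, Finset.prod_div_distrib,
    Finset.prod_const]
  have hpow : z f₀ ^ (Finset.univ : Finset α).card ≠ 0 := pow_ne_zero _ hf₀
  rw [← mul_div_assoc, ← h, mul_div_assoc, div_self hpow, mul_one]

end RankOne

/-! ### Slot membership -/

section Slot

variable [DecidableEq α]

omit [Fintype α] in
theorem weight_slotW_mapDomain (a : α) (e : ι a →₀ ℕ) :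
    Finsupp.weight (slotW (ι := ι)) (e.mapDomain (Sigma.mk a)) = Pi.single a e.degree := by
  classical
  rw [Finsupp.weight_apply, Finsupp.sum_mapDomain_index (by simp) (by intros; simp [add_smul])]
  simp only [slotW, Finsupp.sum, Finsupp.degree_apply]
  rw [← Finset.sum_smul]
  funext b
  by_cases hb : b = a
  · subst hb
    simp
  · simp [hb]

omit [Fintype α] in
theorem isWeightedHomogeneous_rename_sigma (a : α) {g : MvPolynomial (ι a) k} {d : ℕ}
    (hg : g.IsHomogeneous d) :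
    IsWeightedHomogeneous (slotW (ι := ι)) (rename (Sigma.mk a) g) (Pi.single a d) := by
  classical
  intro e he
  obtain ⟨e', rfl, he'⟩ := coeff_rename_ne_zero _ _ _ he
  rw [weight_slotW_mapDomain]
  congr 1
  have := hg he'
  rw [← this, Finsupp.degree_eq_weight_one]
  rfl

theorem isMultiHom_slotPoly (a : α) {g : MvPolynomial (ι a) k} {d : ℕ} (hg : g.IsHomogeneous d)
    (j : (b : α) → ι b) :
    IsMultiHom (rename (Sigma.mk a) g *
      ∏ b ∈ Finset.univ.erase a, (X (⟨b, j b⟩ : Σ b, ι b) : MvPolynomial (Σ b, ι b) k) ^ d)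
      (fun _ => d) := by
  classical
  have h1 := isWeightedHomogeneous_rename_sigma (k := k) a hg
  have h2 : IsWeightedHomogeneous (slotW (ι := ι))
      (∏ b ∈ Finset.univ.erase a, (X (⟨b, j b⟩ : Σ b, ι b) : MvPolynomial (Σ b, ι b) k) ^ d)
      (∑ b ∈ Finset.univ.erase a, Pi.single b d) := by
    refine IsWeightedHomogeneous.prod _ _ _ fun b _ => ?_
    have := (isWeightedHomogeneous_X k (slotW (ι := ι)) (⟨b, j b⟩ : Σ b, ι b)).pow d
    convert this using 1
    funext c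
    simp [slotW, Pi.single_apply]
  have h3 := h1.mul h2
  have hsum : (Pi.single a d + ∑ b ∈ Finset.univ.erase a, Pi.single b d : α → ℕ) = fun _ => d := by
    rw [Finset.add_sum_erase Finset.univ (fun b => (Pi.single b d : α → ℕ)) (Finset.mem_univ a)]
    funext c
    simp [Finset.sum_apply, Pi.single_apply]
  unfold IsMultiHom
  rw [← hsum]
  exact h3

variable {I : ∀ a, Ideal (MvPolynomial (ι a) k)}

/-- If the Segre point of `u` (all `u a ≠ 0`) lies in the zero set of the Segre ideal, then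
every `u a` lies in the cone of `I a`. -/
theorem inCones_of_segrePt (hI : ∀ a, HomIdeal (I a)) {u : (a : α) → ι a → L}
    (hu0 : ∀ a, u a ≠ 0) (hz : ∀ P ∈ segreIdeal L I, aeval (segrePt u) P = 0) :
    InCones L I u := by
  classical
  have hex : ∀ b, ∃ j : ι b, u b j ≠ 0 := fun b => by
    by_contra h
    exact hu0 b (_root_.funext fun j => by_contra fun hj => h ⟨j, hj⟩)
  choose j hj using hex
  -- homogeneous elements first
  have key : ∀ a (g : MvPolynomial (ι a) k) (d : ℕ), g ∈ I a → g.IsHomogeneous d →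
      aeval (u a) g = 0 := by
    intro a g d hgI hg
    obtain ⟨Q, -, hQ⟩ := exists_segre_lift (isMultiHom_slotPoly (k := k) a hg j)
    have hQJ : Q ∈ segreIdeal L I := by
      intro v hv
      rw [← aeval_sigmaPt_segreSubst, hQ, map_mul, aeval_rename]
      have : (sigmaPt v ∘ Sigma.mk a) = v a := rfl
      rw [this, hv a g hgI, zero_mul]
    have h1 := hz Q hQJ
    rw [← aeval_sigmaPt_segreSubst, hQ, map_mul, aeval_rename] at h1
    have h2 : (sigmaPt u ∘ Sigma.mk a) = u a := rfl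
    rw [h2] at h1
    rcases mul_eq_zero.mp h1 with h | h
    · exact h
    · exfalso
      rw [map_prod] at h
      obtain ⟨b, -, hb⟩ := Finset.prod_eq_zero_iff.mp h
      rw [map_pow, aeval_X] at hb
      exact hj b (eq_zero_of_pow_eq_zero hb)
  intro a f hf
  rw [← sum_homogeneousComponent f, map_sum]
  exact Finset.sum_eq_zero fun n _ =>
    key a _ n (hI a f hf n) (homogeneousComponent_isHomogeneous n f)

end Slot

end Fermat.Agent.S17.H740

end
end
-- ===== PACK-END S17/H740/SegreCone.lean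

-- ===== PACK-BEGIN S15/H111/Count2Top.lean
section
/-
Row S15, node DESC, tower COUNT for `r = 2` (helper111): the abstract Hecke-module form.
Blueprint: `coord/S15-COUNT2-helper111.md`.

Setting: `T` a commutative ring (good Hecke polynomial ring), `𝔪` an ideal (Eisenstein ideal),
`J` a `T`-module (`J₀(p)(ℚ̄)`), `c : J →ₗ[T] J` an involution (complex conjugation),
`E = H2.primaryPart 𝔪 J` (Eisenstein part), `tk J k = J[2^k]`.

* `IsGoodPairing T c k B` : the pairing hypothesis (PAIR_k) on `J[2^k]`.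
* `card_iso`      : (PAIR_k) ⇒ (ISO_k)  `|(c - 1) E[2^k]|² ≤ |E[2^k]|`.
* `card_uoo_sq_le`: (PAIR_k for all k) + `J = 2J` + finiteness ⇒ COUNT-2  `|U∞|² ≤ |E[2]|`,
  `U∞ = uoo 𝔪 c = (c - 1) E[4] ∩ J[2]`.
* `sub_mem_uoo`   : LOC-∞: `c (2y) = 2y`, `c y - y ∈ E` ⇒ `c y - y ∈ U∞`.
-/



set_option autoImplicit false

namespace Fermat.Agent.S15.H111

open Fermat.Agent.S15.H2

variable (T : Type*) [CommRing T] (𝔪 : Ideal T) {J : Type*} [AddCommGroup J] [Module T J]

/-- **(PAIR_k)**: `B` is a pairing on `J[2^k]` with values in `ℤ/2^k`: bi-additive, with trivial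
right kernel, Hecke self-adjoint and anti-invariant under `c`.  (Values outside `J[2^k]` are junk.) -/
structure IsGoodPairing (c : J → J) (k : ℕ) (B : J → J → ZMod (2 ^ k)) : Prop where
  add_left : ∀ x ∈ tk J k, ∀ x' ∈ tk J k, ∀ y ∈ tk J k, B (x + x') y = B x y + B x' y
  add_right : ∀ x ∈ tk J k, ∀ y ∈ tk J k, ∀ y' ∈ tk J k, B x (y + y') = B x y + B x y'
  nondeg : ∀ y ∈ tk J k, (∀ x ∈ tk J k, B x y = 0) → y = 0
  hecke : ∀ (t : T), ∀ x ∈ tk J k, ∀ y ∈ tk J k, B (t • x) y = B x (t • y)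
  conj : ∀ x ∈ tk J k, ∀ y ∈ tk J k, B (c x) (c y) = - B x y

variable {T}

/-- `J[2^k]` as a `T`-submodule. -/
def tkSub (J : Type*) [AddCommGroup J] [Module T J] (k : ℕ) : Submodule T J where
  carrier := {x | 2 ^ k • x = 0}
  zero_mem' := smul_zero _
  add_mem' := fun {a b} ha hb => by
    show 2 ^ k • (a + b) = 0
    rw [smul_add, ha, hb, add_zero]
  smul_mem' := fun t x hx => by
    show 2 ^ k • (t • x) = 0
    rw [smul_comm, hx, smul_zero]

theorem mem_tkSub {k : ℕ} {x : J} : x ∈ tkSub (T := T) J k ↔ 2 ^ k • x = 0 := Iff.rfl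

theorem mem_tkSub_iff {k : ℕ} {x : J} : x ∈ tkSub (T := T) J k ↔ x ∈ tk J k := by
  rw [mem_tkSub, mem_tk]

/-- Membership in the primary part of the submodule `J[2^k]` is membership in the primary part
of `J`. -/
theorem coe_mem_primaryPart_iff {k : ℕ} (x : tkSub (T := T) J k) :
    x ∈ primaryPart 𝔪 (tkSub (T := T) J k) ↔ (x : J) ∈ primaryPart 𝔪 J := by
  constructor
  · rintro ⟨n, hn⟩
    exact ⟨n, fun t ht => by
      have := congrArg (fun e : tkSub (T := T) J k => (e : J)) (hn t ht)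
      simpa using this⟩
  · rintro ⟨n, hn⟩
    exact ⟨n, fun t ht => Subtype.ext (by simpa using hn t ht)⟩

/-- The Eisenstein part as an additive subgroup. -/
abbrev eis (J : Type*) [AddCommGroup J] [Module T J] : AddSubgroup J :=
  (primaryPart 𝔪 J).toAddSubgroup

variable {𝔪}

theorem map_mem_eis (c : J →ₗ[T] J) {x : J} (hx : x ∈ eis 𝔪 J) : c x ∈ eis 𝔪 J := by
  obtain ⟨n, hn⟩ := hx
  exact ⟨n, fun t ht => by rw [← map_smul, hn t ht, map_zero]⟩

theorem map_mem_tk (c : J →+ J) {k : ℕ} {x : J} (hx : x ∈ tk J k) : c x ∈ tk J k := by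
  rw [mem_tk] at hx ⊢
  rw [← map_nsmul, hx, map_zero]

/-- Projection to the Eisenstein part inside `J[2^k]`: for `x ∈ J[2^k]` there is `f ∈ T` such that
`x - f • x ∈ E` and `f • y = 0` for every `y ∈ E ∩ J[2^k]`. -/
theorem exists_eis_projector (k : ℕ) [Finite ↥(tk J k)] :
    ∃ f : T, (∀ x ∈ tk J k, x - f • x ∈ eis 𝔪 J) ∧ ∀ y ∈ eis 𝔪 J, y ∈ tk J k → f • y = 0 := by
  have : Finite ↥(tkSub (T := T) J k) :=
    Finite.of_injective (fun x : tkSub (T := T) J k => (⟨x, mem_tkSub_iff.mp x.2⟩ : ↥(tk J k)))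
      (fun a b h => Subtype.ext (congrArg (fun e : ↥(tk J k) => (e : J)) h))
  obtain ⟨K, f, hs⟩ := exists_isSplit 𝔪 (tkSub (T := T) J k)
  refine ⟨f, fun x hx => ?_, fun y hyE hy => ?_⟩
  · have := hs.sub_smul_mem_primaryPart ⟨x, mem_tkSub_iff.mpr hx⟩
    rw [coe_mem_primaryPart_iff] at this
    simpa using this
  · have h1 : (⟨y, mem_tkSub_iff.mpr hy⟩ : tkSub (T := T) J k) ∈
        primaryPart 𝔪 (tkSub (T := T) J k) := by
      rw [coe_mem_primaryPart_iff]; exact hyE
    have h2 := (hs.mem_primaryPart_iff _).mp h1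
    have := congrArg (fun e : tkSub (T := T) J k => (e : J)) h2
    simpa using this

/-- **(PAIR_k) ⇒ (ISO_k).** -/
theorem card_iso (c : J →ₗ[T] J) (hc : ∀ x, c (c x) = x) (k : ℕ) [Finite ↥(tk J k)]
    (B : J → J → ZMod (2 ^ k)) (hB : IsGoodPairing T c k B) :
    Nat.card ((eis 𝔪 J ⊓ tk J k).map (c.toAddMonoidHom - AddMonoidHom.id J)) ^ 2 ≤
      Nat.card ↥(eis 𝔪 J ⊓ tk J k) := by
  set d : J →+ J := c.toAddMonoidHom - AddMonoidHom.id J with hd
  have hdapp : ∀ x, d x = c x - x := fun x => rfl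
  have hfinE : Finite ↥(eis 𝔪 J ⊓ tk J k) :=
    Finite.of_injective (fun x : ↥(eis 𝔪 J ⊓ tk J k) => (⟨x, x.2.2⟩ : ↥(tk J k)))
      (fun a b h => Subtype.ext (congrArg (fun e : ↥(tk J k) => (e : J)) h))
  have hYE : (eis 𝔪 J ⊓ tk J k).map d ≤ eis 𝔪 J ⊓ tk J k := by
    rintro _ ⟨z, hz, rfl⟩
    have hzE : z ∈ eis 𝔪 J := hz.1
    have hzt : z ∈ tk J k := hz.2
    rw [hdapp]
    exact AddSubgroup.mem_inf.mpr
      ⟨(eis 𝔪 J).sub_mem (map_mem_eis c hzE) hzE,
        (tk J k).sub_mem (map_mem_tk c.toAddMonoidHom hzt) hzt⟩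
  have hYt : ∀ y ∈ (eis 𝔪 J ⊓ tk J k).map d, y ∈ tk J k := fun y hy => (hYE hy).2
  have hEt : ∀ x ∈ eis 𝔪 J ⊓ tk J k, x ∈ tk J k := fun x hx => hx.2
  have hr0 : ∀ x ∈ tk J k, B x 0 = 0 := fun x hx => by
    have := hB.add_right x hx 0 (tk J k).zero_mem 0 (tk J k).zero_mem
    rw [add_zero] at this
    exact left_eq_add.mp this
  obtain ⟨f, hf1, hf2⟩ := exists_eis_projector (T := T) (𝔪 := 𝔪) (J := J) k
  refine card_sq_le_of_isotropic B (eis 𝔪 J ⊓ tk J k) ((eis 𝔪 J ⊓ tk J k).map d) hYE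
    (fun x hx x' hx' y hy => hB.add_left x (hEt x hx) x' (hEt x' hx') y (hYt y hy))
    (fun x hx y hy y' hy' => hB.add_right x (hEt x hx) y (hYt y hy) y' (hYt y' hy'))
    ?_ ?_
  · rintro _ ⟨z, hz, rfl⟩ _ ⟨z', hz', rfl⟩
    rw [hdapp, hdapp]
    exact pairing_sub_sub_eq_zero B (tk J k) c.toAddMonoidHom hc
      (fun x hx => map_mem_tk c.toAddMonoidHom hx) hB.add_left hB.add_right hB.conj z z'
      hz.2 hz'.2
  · intro y hy hzero
    have hyE := hYE hy
    refine hB.nondeg y hyE.2 fun x hx => ?_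
    have hfx : f • x ∈ tk J k := by
      rw [mem_tk] at hx ⊢
      rw [smul_comm, hx, smul_zero]
    have hx'' : x - f • x ∈ eis 𝔪 J ⊓ tk J k :=
      AddSubgroup.mem_inf.mpr ⟨hf1 x hx, (tk J k).sub_mem hx hfx⟩
    have h1 := hzero _ hx''
    have h2 := hB.add_left (x - f • x) hx''.2 (f • x) hfx y hyE.2
    rw [sub_add_cancel, h1, zero_add, hB.hecke f x hx y hyE.2, hf2 y hyE.1 hyE.2, hr0 x hx] at h2
    exact h2

/-- The subgroup `U∞ = (c - 1) E[4] ∩ J[2]`. -/
def uoo (𝔪 : Ideal T) (c : J →ₗ[T] J) : AddSubgroup J :=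
  ((eis 𝔪 J ⊓ tk J 2).map (c.toAddMonoidHom - AddMonoidHom.id J)) ⊓ tk J 1

theorem mem_uoo {c : J →ₗ[T] J} {v : J} :
    v ∈ uoo 𝔪 c ↔ (∃ z ∈ primaryPart 𝔪 J, 4 • z = 0 ∧ c z - z = v) ∧ 2 • v = 0 := by
  rw [uoo, AddSubgroup.mem_inf, mem_tk, pow_one]
  refine and_congr_left fun _ => ?_
  constructor
  · rintro ⟨z, hz, rfl⟩
    have hzE : z ∈ eis 𝔪 J := hz.1
    have hzt : z ∈ tk J 2 := hz.2
    rw [mem_tk] at hzt
    exact ⟨z, hzE, by simpa using hzt, rfl⟩
  · rintro ⟨z, hzE, h4, rfl⟩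
    exact ⟨z, AddSubgroup.mem_inf.mpr ⟨hzE, mem_tk.mpr (by simpa using h4)⟩, rfl⟩

/-- **COUNT-2 (abstract).**  If `J = 2J`, the groups `J[2^k]` are finite and carry good pairings,
then `|U∞|² ≤ |E[2]|`. -/
theorem card_uoo_sq_le (c : J →ₗ[T] J) (hc : ∀ x, c (c x) = x)
    (hdiv : ∀ x : J, ∃ y : J, 2 • y = x) (hfin : ∀ k, Finite ↥(tk J k))
    (hpair : ∀ k, ∃ B : J → J → ZMod (2 ^ k), IsGoodPairing T c k B) :
    Nat.card ↥(uoo 𝔪 c) ^ 2 ≤ Nat.card ↥(eis 𝔪 J ⊓ tk J 1) := by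
  refine card_sq_le_of_tower (eis 𝔪 J) c.toAddMonoidHom (fun x hx => map_mem_eis c hx)
    ?_ ?_ ?_
  · intro k x hxE hx
    obtain ⟨y₀, hy₀⟩ := hdiv x
    have := hfin (k + 1)
    obtain ⟨f, hf1, hf2⟩ := exists_eis_projector (T := T) (𝔪 := 𝔪) (J := J) (k + 1)
    have hy₀t : y₀ ∈ tk J (k + 1) := by
      rw [mem_tk, pow_succ, mul_comm, mul_nsmul, hy₀, hx]
    have hxt : x ∈ tk J (k + 1) := tk_mono (Nat.le_succ k) (mem_tk.mpr hx)
    refine ⟨y₀ - f • y₀, hf1 y₀ hy₀t, ?_⟩
    rw [smul_sub, smul_comm, hy₀, hf2 x hxE hxt, sub_zero]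
  · intro k
    have := hfin k
    exact Finite.of_injective (fun x : ↥(eis 𝔪 J ⊓ tk J k) => (⟨x, x.2.2⟩ : ↥(tk J k)))
      (fun a b h => Subtype.ext (congrArg (fun e : ↥(tk J k) => (e : J)) h))
  · intro k
    have := hfin k
    obtain ⟨B, hB⟩ := hpair k
    exact card_iso c hc k B hB

/-- **LOC-∞ (abstract, Eisenstein form).**  If `c (2 y) = 2 y` and `c y - y` lies in the
Eisenstein part, then `c y - y ∈ U∞`. -/
theorem sub_mem_uoo (c : J →ₗ[T] J) (hc : ∀ x, c (c x) = x)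
    (hdiv : ∀ x : J, ∃ y : J, 2 • y = x) [Finite ↥(tk J 2)] (y : J)
    (hy : c (2 • y) = 2 • y) (hyE : c y - y ∈ primaryPart 𝔪 J) :
    c y - y ∈ uoo 𝔪 c := by
  have h2 : 2 • (c y - y) = 0 := by
    rw [smul_sub, ← map_nsmul, hy, sub_self]
  rw [mem_uoo]
  refine ⟨?_, h2⟩
  obtain ⟨z, hz4, hz⟩ := exists_four_torsion_sub_eq c.toAddMonoidHom hc hdiv y hy
  obtain ⟨f, hf1, hf2⟩ := exists_eis_projector (T := T) (𝔪 := 𝔪) (J := J) 2
  have hzt : z ∈ tk J 2 := mem_tk.mpr (by simpa using hz4)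
  have hvt : c y - y ∈ tk J 2 := tk_mono (by omega : 1 ≤ 2) (mem_tk.mpr (by simpa using h2))
  refine ⟨z - f • z, hf1 z hzt, ?_, ?_⟩
  · have := (tk J 2).sub_mem hzt (show f • z ∈ tk J 2 by
      rw [mem_tk] at hzt ⊢
      rw [smul_comm, hzt, smul_zero])
    rw [mem_tk] at this
    simpa using this
  · have hz' : c z - z = c y - y := hz
    rw [map_sub, map_smul, sub_sub_sub_comm, ← smul_sub, hz', hf2 _ hyE hvt, sub_zero]

end Fermat.Agent.S15.H111

end
-- ===== PACK-END S15/H111/Count2Top.lean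

-- ===== PACK-BEGIN S11/EchUnits11.lean
section


/-!
# Explicit echelon units in `ℤ[ζ₁₁]` (machine-generated certificates)
-/

set_option autoImplicit false
set_option linter.unusedSectionVars false
set_option linter.style.longLine false

open NumberField

namespace Fermat.Agent.S11.Ech

variable {K : Type*} [Field K] [NumberField K] [IsCyclotomicExtension {11} ℚ K]
  {ζ : K} (hζ : IsPrimitiveRoot ζ 11)

theorem sum_zeta_eleven :
    1 + hζ.toInteger + hζ.toInteger ^ 2 + hζ.toInteger ^ 3 + hζ.toInteger ^ 4 + hζ.toInteger ^ 5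
      + hζ.toInteger ^ 6 + hζ.toInteger ^ 7 + hζ.toInteger ^ 8 + hζ.toInteger ^ 9
      + hζ.toInteger ^ 10 = 0 := by
  have h := hζ.toInteger_isPrimitiveRoot.geom_sum_eq_zero (by norm_num : 1 < 11)
  simpa [Finset.sum_range_succ] using h

/-- `ζ` as a unit. -/
noncomputable def zetaU : (𝓞 K)ˣ := (hζ.toInteger_isPrimitiveRoot.isUnit (by norm_num)).unit

@[simp] theorem zetaU_val : ((zetaU hζ : (𝓞 K)ˣ) : 𝓞 K) = hζ.toInteger := rfl

/-- The cyclotomic unit `1 + ζ + ⋯ + ζ^(j-1)`. -/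
noncomputable def cyc (j : ℕ) (hj : j.Coprime 11) : (𝓞 K)ˣ :=
  (hζ.toInteger_isPrimitiveRoot.geom_sum_isUnit (by norm_num) hj).unit

theorem cyc_val (j : ℕ) (hj : j.Coprime 11) :
    ((cyc hζ j hj : (𝓞 K)ˣ) : 𝓞 K) = ∑ i ∈ Finset.range j, hζ.toInteger ^ i := rfl

/-- Echelon unit of level 2. -/
noncomputable def ech2 : (𝓞 K)ˣ := zetaU hζ ^ 10 * cyc hζ 3 (by norm_num) ^ 1

theorem ech2_val : ((ech2 hζ : (𝓞 K)ˣ) : 𝓞 K) = hζ.toInteger ^ 10 * (1 + hζ.toInteger + hζ.toInteger ^ 2) ^ 1 := by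
  simp [ech2, cyc_val, Finset.sum_range_succ]

theorem ech2_level : (hζ.toInteger - 1) ^ (1 + 2) ∣
    ((ech2 hζ : (𝓞 K)ˣ) : 𝓞 K) - ((3 : ℤ) : 𝓞 K) - ((1 : ℤ) : 𝓞 K) * (hζ.toInteger - 1) ^ (1 + 1) := by
  refine ⟨(1) + (1) * hζ.toInteger + (1) * hζ.toInteger ^ 2 + (1) * hζ.toInteger ^ 3 + (1) * hζ.toInteger ^ 4 + (1) * hζ.toInteger ^ 5 + (1) * hζ.toInteger ^ 6 + (1) * hζ.toInteger ^ 7 + (1) * hζ.toInteger ^ 8 + (1) * hζ.toInteger ^ 9, ?_⟩
  rw [ech2_val]
  push_cast
  linear_combination ((-3) + (3) * hζ.toInteger) * sum_zeta_eleven hζ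

/-- Echelon unit of level 4. -/
noncomputable def ech4 : (𝓞 K)ˣ := zetaU hζ ^ 4 * cyc hζ 2 (by norm_num) ^ 1 * cyc hζ 3 (by norm_num) ^ 1

theorem ech4_val : ((ech4 hζ : (𝓞 K)ˣ) : 𝓞 K) = hζ.toInteger ^ 4 * (1 + hζ.toInteger) ^ 1 * (1 + hζ.toInteger + hζ.toInteger ^ 2) ^ 1 := by
  simp [ech4, cyc_val, Finset.sum_range_succ]

theorem ech4_level : (hζ.toInteger - 1) ^ (3 + 2) ∣
    ((ech4 hζ : (𝓞 K)ˣ) : 𝓞 K) - ((-5 : ℤ) : 𝓞 K) - ((-1 : ℤ) : 𝓞 K) * (hζ.toInteger - 1) ^ (3 + 1) := by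
  refine ⟨(1) * hζ.toInteger + (1) * hζ.toInteger ^ 2 + (-1) * hζ.toInteger ^ 4 + (-1) * hζ.toInteger ^ 5 + (1) * hζ.toInteger ^ 7 + (1) * hζ.toInteger ^ 8, ?_⟩
  rw [ech4_val]
  push_cast
  linear_combination ((6) + (-9) * hζ.toInteger + (5) * hζ.toInteger ^ 2 + (-1) * hζ.toInteger ^ 3) * sum_zeta_eleven hζ

/-- Echelon unit of level 6. -/
noncomputable def ech6 : (𝓞 K)ˣ := zetaU hζ ^ 5 * cyc hζ 2 (by norm_num) ^ 1 * cyc hζ 4 (by norm_num) ^ 1 * cyc hζ 5 (by norm_num) ^ 2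

theorem ech6_val : ((ech6 hζ : (𝓞 K)ˣ) : 𝓞 K) = hζ.toInteger ^ 5 * (1 + hζ.toInteger) ^ 1 * (1 + hζ.toInteger + hζ.toInteger ^ 2 + hζ.toInteger ^ 3) ^ 1 * (1 + hζ.toInteger + hζ.toInteger ^ 2 + hζ.toInteger ^ 3 + hζ.toInteger ^ 4) ^ 2 := by
  simp [ech6, cyc_val, Finset.sum_range_succ]

theorem ech6_level : (hζ.toInteger - 1) ^ (5 + 2) ∣
    ((ech6 hζ : (𝓞 K)ˣ) : 𝓞 K) - ((2 : ℤ) : 𝓞 K) - ((-1 : ℤ) : 𝓞 K) * (hζ.toInteger - 1) ^ (5 + 1) := by
  refine ⟨(-61) + (-338) * hζ.toInteger + (-744) * hζ.toInteger ^ 2 + (-1150) * hζ.toInteger ^ 3 + (-1427) * hζ.toInteger ^ 4 + (-1487) * hζ.toInteger ^ 5 + (-1311) * hζ.toInteger ^ 6 + (-955) * hζ.toInteger ^ 7 + (-532) * hζ.toInteger ^ 8 + (-176) * hζ.toInteger ^ 9, ?_⟩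
  rw [ech6_val]
  push_cast
  linear_combination ((-62) + (145) * hζ.toInteger + (273) * hζ.toInteger ^ 2 + (-1281) * hζ.toInteger ^ 3 + (1634) * hζ.toInteger ^ 4 + (-871) * hζ.toInteger ^ 5 + (179) * hζ.toInteger ^ 6 + (1) * hζ.toInteger ^ 7) * sum_zeta_eleven hζ

/-- Echelon unit of level 8. -/
noncomputable def ech8 : (𝓞 K)ˣ := zetaU hζ ^ 4 * cyc hζ 2 (by norm_num) ^ 9 * cyc hζ 3 (by norm_num) ^ 1 * cyc hζ 4 (by norm_num) ^ 3 * cyc hζ 5 (by norm_num) ^ 4

theorem ech8_val : ((ech8 hζ : (𝓞 K)ˣ) : 𝓞 K) = hζ.toInteger ^ 4 * (1 + hζ.toInteger) ^ 9 * (1 + hζ.toInteger + hζ.toInteger ^ 2) ^ 1 * (1 + hζ.toInteger + hζ.toInteger ^ 2 + hζ.toInteger ^ 3) ^ 3 * (1 + hζ.toInteger + hζ.toInteger ^ 2 + hζ.toInteger ^ 3 + hζ.toInteger ^ 4) ^ 4 := by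
  simp [ech8, cyc_val, Finset.sum_range_succ]

theorem ech8_level : (hζ.toInteger - 1) ^ (7 + 2) ∣
    ((ech8 hζ : (𝓞 K)ˣ) : 𝓞 K) - ((-5 : ℤ) : 𝓞 K) - ((4 : ℤ) : 𝓞 K) * (hζ.toInteger - 1) ^ (7 + 1) := by
  refine ⟨(56885668) + (140233759) * hζ.toInteger + (223581850) * hζ.toInteger ^ 2 + (280467514) * hζ.toInteger ^ 3 + (292829954) * hζ.toInteger ^ 4 + (256744179) * hζ.toInteger ^ 5 + (183667165) * hζ.toInteger ^ 6 + (96800349) * hζ.toInteger ^ 7 + (23723335) * hζ.toInteger ^ 8 + (-12362440) * hζ.toInteger ^ 9, ?_⟩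
  rw [ech8_val]
  push_cast
  linear_combination ((56885669) + (-428622890) * hζ.toInteger + (1381099176) * hζ.toInteger ^ 2 + (-2471111655) * hζ.toInteger ^ 3 + (2667276761) * hζ.toInteger ^ 4 + (-1766437657) * hζ.toInteger ^ 5 + (696742928) * hζ.toInteger ^ 6 + (-147615941) * hζ.toInteger ^ 7 + (11912715) * hζ.toInteger ^ 8 + (-483727) * hζ.toInteger ^ 9 + (-352800) * hζ.toInteger ^ 10 + (-86291) * hζ.toInteger ^ 11 + (250865) * hζ.toInteger ^ 12 + (579452) * hζ.toInteger ^ 13 + (829691) * hζ.toInteger ^ 14 + (959388) * hζ.toInteger ^ 15 + (961242) * hζ.toInteger ^ 16 + (858496) * hζ.toInteger ^ 17 + (692365) * hζ.toInteger ^ 18 + (506994) * hζ.toInteger ^ 19 + (337407) * hζ.toInteger ^ 20 + (203577) * hζ.toInteger ^ 21 + (110743) * hζ.toInteger ^ 22 + (53831) * hζ.toInteger ^ 23 + (23075) * hζ.toInteger ^ 24 + (8557) * hζ.toInteger ^ 25 + (2669) * hζ.toInteger ^ 26 + (671) * hζ.toInteger ^ 27 + (127) * hζ.toInteger ^ 28 + (16) * hζ.toInteger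 ^ 29 + (1) * hζ.toInteger ^ 30) * sum_zeta_eleven hζ

theorem zeta_level : (hζ.toInteger - 1) ^ (0 + 2) ∣
    ((zetaU hζ : (𝓞 K)ˣ) : 𝓞 K) - ((1 : ℤ) : 𝓞 K) - ((1 : ℤ) : 𝓞 K) * (hζ.toInteger - 1) ^ (0 + 1) := by
  refine ⟨0, ?_⟩
  simp

end Fermat.Agent.S11.Ech

end
-- ===== PACK-END S11/EchUnits11.lean

-- ===== PACK-BEGIN S03/Glue918.lean
section




/-!
# S03 glue (helper918): no Frey package, from the frozen statements S04, S09, S45 (as hypotheses)
and the landed S07 (`S_2(Γ₀(2)) = 0`).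
-/

set_option autoImplicit false
open WeierstrassCurve WeierstrassCurve.Affine WeierstrassCurve.Affine.Point
open CuspForm ModularFormClass UpperHalfPlane

namespace Fermat.Agent.S03.H918

/-- `S03 ⇐ S04 + S09 + S45` (with `S07` landed). The three hypotheses are verbatim the frozen
statements S04, S09, S45. -/
theorem result_of
    (hS04 : ∀ P : FreyPackage, P.freyCurve.IsModular)
    (hS09 : ∀ P : FreyPackage,
      GaloisRepIsIrreducible (K := AlgebraicClosure ℚ) ℚ P.freyCurve P.p)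
    (hS45 : ∀ P : FreyPackage, P.freyCurve.IsModular →
      GaloisRepIsIrreducible (K := AlgebraicClosure ℚ) ℚ P.freyCurve P.p →
      ∃ f : CuspForm (CongruenceSubgroup.Gamma0 2) 2, f ≠ 0)
    (P : FreyPackage) : False := by
  obtain ⟨f, hf⟩ := hS45 P (hS04 P) (hS09 P)
  exact hf (Fermat.Agent.S07.result f)

end Fermat.Agent.S03.H918

end
-- ===== PACK-END S03/Glue918.lean

-- ===== PACK-BEGIN Glue/FreyInt.lean
section





/-!
# Row GLUE, block TFR: the integral Frey model is semistable, `Δ ≠ 0`, and base-changes to the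
Frey curve.  Fresh-name copy of the elementary part of `Ribet/H104/FreyModelAtP.lean` (helper104),
Mathlib + Prelude only, so that the tail of the chain depends on no packed file.
-/

set_option autoImplicit false

namespace Fermat.Agent.Glue.FreyInt

open WeierstrassCurve

variable (P : FreyPackage)

/-! ### Exactness of the integer divisions in `freyCurveInt` -/

lemma two_dvd_b : (2 : ℤ) ∣ P.b := (ZMod.intCast_zmod_eq_zero_iff_dvd P.b 2).1 P.hb2

lemma four_dvd_a₂_num : (4 : ℤ) ∣ P.b ^ P.p - 1 - P.a ^ P.p := by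
  have hp := P.hp5
  have hb4 : (4 : ℤ) ∣ P.b ^ P.p := by
    obtain ⟨k, hk⟩ := two_dvd_b P
    obtain ⟨j, hj⟩ : ∃ j, P.p = j + 2 := ⟨P.p - 2, by omega⟩
    exact ⟨2 ^ j * k ^ P.p, by rw [hk, hj]; ring⟩
  have ha : ((P.a ^ P.p : ℤ) : ZMod 4) = 3 := by
    push_cast
    rw [P.ha4]
    obtain ⟨m, hm⟩ := P.hp_odd
    rw [hm, pow_succ, pow_mul]
    have : (3 : ZMod 4) ^ 2 = 1 := by decide
    rw [this, one_pow, one_mul]
  have hb' : ((P.b ^ P.p : ℤ) : ZMod 4) = 0 :=
    (ZMod.intCast_zmod_eq_zero_iff_dvd _ 4).2 hb4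
  apply (ZMod.intCast_zmod_eq_zero_iff_dvd _ 4).1
  push_cast at ha hb' ⊢
  rw [ha, hb']
  decide

lemma sixteen_dvd_a₄_num : (16 : ℤ) ∣ -(P.a ^ P.p) * P.b ^ P.p := by
  have hp := P.hp5
  obtain ⟨k, hk⟩ := two_dvd_b P
  obtain ⟨j, hj⟩ : ∃ j, P.p = j + 4 := ⟨P.p - 4, by omega⟩
  exact ⟨-(P.a ^ P.p) * (2 ^ j * k ^ P.p), by rw [hk, hj]; ring⟩

lemma four_mul_a₂ : 4 * P.freyCurveInt.a₂ = P.b ^ P.p - 1 - P.a ^ P.p :=
  Int.mul_ediv_cancel' (four_dvd_a₂_num P)

lemma sixteen_mul_a₄ : 16 * P.freyCurveInt.a₄ = -(P.a ^ P.p) * P.b ^ P.p :=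
  Int.mul_ediv_cancel' (sixteen_dvd_a₄_num P)

/-! ### The Frey curve over `ℚ` is the base change of the integral Frey curve -/

theorem freyCurve_eq_map : P.freyCurve = P.freyCurveInt.map (Int.castRingHom ℚ) := by
  have h4 := four_dvd_a₂_num P
  have h16 := sixteen_dvd_a₄_num P
  ext
  · simp [FreyPackage.freyCurve, FreyPackage.freyCurveInt, WeierstrassCurve.map]
  · simp only [FreyPackage.freyCurve, FreyPackage.freyCurveInt, WeierstrassCurve.map,
      eq_intCast]
    rw [Int.cast_div h4 (by norm_num)]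
    push_cast
    ring
  · simp [FreyPackage.freyCurve, FreyPackage.freyCurveInt, WeierstrassCurve.map]
  · simp only [FreyPackage.freyCurve, FreyPackage.freyCurveInt, WeierstrassCurve.map,
      eq_intCast]
    rw [Int.cast_div h16 (by norm_num)]
    push_cast
    ring
  · simp [FreyPackage.freyCurve, FreyPackage.freyCurveInt, WeierstrassCurve.map]

/-- `P.freyCurveInt` is an integral model of `P.freyCurve` (identity variable change). -/
theorem isIntegralModelOf : P.freyCurveInt.IsIntegralModelOf P.freyCurve :=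
  ⟨1, by rw [one_smul, freyCurve_eq_map]⟩

/-! ### Invariants of the integral Frey curve -/

lemma a₁_eq : P.freyCurveInt.a₁ = 1 := rfl
lemma a₃_eq : P.freyCurveInt.a₃ = 0 := rfl
lemma a₆_eq : P.freyCurveInt.a₆ = 0 := rfl

/-- `c₄ = A² + A B + B²` with `A = a ^ p`, `B = b ^ p`. -/
theorem c₄_eq :
    P.freyCurveInt.c₄ = (P.a ^ P.p) ^ 2 + P.a ^ P.p * P.b ^ P.p + (P.b ^ P.p) ^ 2 := by
  have h2 := four_mul_a₂ P
  have h4 := sixteen_mul_a₄ P
  simp only [WeierstrassCurve.c₄, WeierstrassCurve.b₂, WeierstrassCurve.b₄, a₁_eq, a₃_eq]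
  linear_combination (4 * P.freyCurveInt.a₂ + P.b ^ P.p - P.a ^ P.p + 1) * h2 - 3 * h4

/-- `2 ^ 8 * Δ = (a b c) ^ (2 p)`. -/
theorem two_pow_mul_Δ :
    2 ^ 8 * P.freyCurveInt.Δ = (P.a * P.b * P.c) ^ (2 * P.p) := by
  have h2 := four_mul_a₂ P
  have h4 := sixteen_mul_a₄ P
  have hc : P.c ^ P.p = P.a ^ P.p + P.b ^ P.p := P.hFLT.symm
  have e1 : 2 ^ 8 * P.freyCurveInt.Δ =
      (16 * P.freyCurveInt.a₄) ^ 2 *
        ((1 + 4 * P.freyCurveInt.a₂) ^ 2 - 4 * (16 * P.freyCurveInt.a₄)) := by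
    simp only [WeierstrassCurve.Δ, WeierstrassCurve.b₂, WeierstrassCurve.b₄,
      WeierstrassCurve.b₆, WeierstrassCurve.b₈, a₁_eq, a₃_eq, a₆_eq]
    ring
  have e2 : (P.a * P.b * P.c) ^ (2 * P.p) =
      (P.a ^ P.p) ^ 2 * (P.b ^ P.p) ^ 2 * (P.c ^ P.p) ^ 2 := by
    rw [mul_comm 2 P.p, pow_mul, mul_pow, mul_pow]
    ring
  rw [e1, e2, h2, h4, hc]
  ring

theorem abc_ne_zero : P.a * P.b * P.c ≠ 0 := P.habc0

theorem Δ_ne_zero : P.freyCurveInt.Δ ≠ 0 := by
  intro h
  have := two_pow_mul_Δ P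
  rw [h, mul_zero] at this
  exact pow_ne_zero _ (abc_ne_zero P) this.symm

/-! ### Semistability at every prime -/

lemma not_prime_dvd_of_dvd_gcd_one {x y ℓ : ℤ} (hℓ : Prime ℓ) (hxy : gcd x y = 1)
    (hx : ℓ ∣ x) (hy : ℓ ∣ y) : False := by
  have h1 : ℓ ∣ gcd x y := dvd_gcd hx hy
  rw [hxy] at h1
  exact hℓ.not_isUnit (isUnit_of_dvd_one h1)

/-- A prime dividing `c₄` of the integral Frey curve divides none of `a`, `b`, `c`. -/
theorem not_dvd_abc_of_dvd_c₄ {ℓ : ℤ} (hℓ : Prime ℓ) (hc₄ : ℓ ∣ P.freyCurveInt.c₄) :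
    ¬ ℓ ∣ P.a * P.b * P.c := by
  rw [c₄_eq] at hc₄
  have hp0 : P.p ≠ 0 := P.hp0
  have key_a : ℓ ∣ P.a → False := by
    intro ha
    have hA : ℓ ∣ P.a ^ P.p := dvd_pow ha hp0
    have hB2 : ℓ ∣ (P.b ^ P.p) ^ 2 := by
      have : (P.b ^ P.p) ^ 2 =
          ((P.a ^ P.p) ^ 2 + P.a ^ P.p * P.b ^ P.p + (P.b ^ P.p) ^ 2)
            - P.a ^ P.p * (P.a ^ P.p + P.b ^ P.p) := by ring
      rw [this]
      exact dvd_sub hc₄ (dvd_mul_of_dvd_left hA _)
    have hb : ℓ ∣ P.b := hℓ.dvd_of_dvd_pow (hℓ.dvd_of_dvd_pow hB2)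
    exact not_prime_dvd_of_dvd_gcd_one hℓ P.hgcdab ha hb
  have key_b : ℓ ∣ P.b → False := by
    intro hb
    have hB : ℓ ∣ P.b ^ P.p := dvd_pow hb hp0
    have hA2 : ℓ ∣ (P.a ^ P.p) ^ 2 := by
      have : (P.a ^ P.p) ^ 2 =
          ((P.a ^ P.p) ^ 2 + P.a ^ P.p * P.b ^ P.p + (P.b ^ P.p) ^ 2)
            - P.b ^ P.p * (P.a ^ P.p + P.b ^ P.p) := by ring
      rw [this]
      exact dvd_sub hc₄ (dvd_mul_of_dvd_left hB _)
    have ha : ℓ ∣ P.a := hℓ.dvd_of_dvd_pow (hℓ.dvd_of_dvd_pow hA2)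
    exact not_prime_dvd_of_dvd_gcd_one hℓ P.hgcdab ha hb
  intro habc
  rcases hℓ.dvd_or_dvd habc with hab | hc
  · rcases hℓ.dvd_or_dvd hab with ha | hb
    · exact key_a ha
    · exact key_b hb
  · have hC : ℓ ∣ P.a ^ P.p + P.b ^ P.p := by
      rw [P.hFLT]
      exact dvd_pow hc hp0
    have hAB : ℓ ∣ P.a ^ P.p * P.b ^ P.p := by
      have : P.a ^ P.p * P.b ^ P.p =
          (P.a ^ P.p + P.b ^ P.p) * (P.a ^ P.p + P.b ^ P.p)
            - ((P.a ^ P.p) ^ 2 + P.a ^ P.p * P.b ^ P.p + (P.b ^ P.p) ^ 2) := by ring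
      rw [this]
      exact dvd_sub (dvd_mul_of_dvd_left hC _) hc₄
    rcases hℓ.dvd_or_dvd hAB with hA | hB
    · exact key_a (hℓ.dvd_of_dvd_pow hA)
    · exact key_b (hℓ.dvd_of_dvd_pow hB)

/-- A prime dividing `Δ` of the integral Frey curve divides `abc`. -/
theorem dvd_abc_of_dvd_Δ {ℓ : ℤ} (hℓ : Prime ℓ) (hΔ : ℓ ∣ P.freyCurveInt.Δ) :
    ℓ ∣ P.a * P.b * P.c := by
  have h : ℓ ∣ (P.a * P.b * P.c) ^ (2 * P.p) := by
    rw [← two_pow_mul_Δ]
    exact dvd_mul_of_dvd_right hΔ _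
  exact hℓ.dvd_of_dvd_pow h

/-- The integral Frey curve is semistable at every prime: no prime divides both `Δ` and `c₄`. -/
theorem isSemistableModel : P.freyCurveInt.IsSemistableModel := by
  intro ℓ hℓ hΔ hc₄
  have hℓ' : Prime (ℓ : ℤ) := Nat.prime_iff_prime_int.mp hℓ
  exact not_dvd_abc_of_dvd_c₄ P hℓ' hc₄ (dvd_abc_of_dvd_Δ P hℓ' hΔ)

/-- **Block TFR.** -/
theorem freyInt : Fermat.Agent.Glue.FreyIntStatement :=
  fun P => ⟨isSemistableModel P, Δ_ne_zero P, (freyCurve_eq_map P).symm,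
    fun _ hq hΔ => dvd_abc_of_dvd_Δ P (Nat.prime_iff_prime_int.mp hq) hΔ⟩

end Fermat.Agent.Glue.FreyInt

end
-- ===== PACK-END Glue/FreyInt.lean

-- ===== PACK-BEGIN S49/ModThree.lean
section






set_option autoImplicit false
open CuspForm EisensteinWeightOne CongruenceSubgroup ModularFormClass

namespace Fermat.Agent.S49

variable {N : ℕ}

/-- `χ₋₃(ℓ) ≡ ℓ mod 3`. -/
theorem three_dvd_natCast_sub_chiNegThree (ℓ : ℕ) : (3 : ℤ) ∣ (ℓ : ℤ) - chiNegThree ℓ := by
  unfold chiNegThree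
  split_ifs <;> omega

/-- The Eisenstein factor is `≡ 1 mod 3`, hence the bridge product is `≡ a mod 3`. -/
theorem three_dvd_bridgeProduct_coeff_sub (a : ℕ → ℤ) (n : ℕ) :
    (3 : ℤ) ∣ (bridgeProduct a).coeff n - a n := by
  have hE : e1Chi3In ℤ = 1 + PowerSeries.C (3 : ℤ) *
      PowerSeries.mk (fun n => if n = 0 then (0 : ℤ) else 2 * sigmaChi n) := by
    ext m
    simp only [e1Chi3In, e1Chi3, PowerSeries.coeff_map, PowerSeries.coeff_mk, map_add,
      PowerSeries.coeff_one, PowerSeries.coeff_C_mul, Int.coe_castRingHom, Int.cast_id]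
    split_ifs <;> simp <;> ring
  unfold bridgeProduct
  rw [hE, mul_add, mul_one, map_add, PowerSeries.coeff_mk, add_sub_cancel_left,
    mul_left_comm, PowerSeries.coeff_C_mul]
  exact dvd_mul_right _ _

/-- Forms all of whose coefficients are integers divisible by three. -/
def IsThreeDivisible (g : CuspForm (Gamma0 N) 2) : Prop :=
  ∀ n : ℕ, ∃ m : ℤ, qCoeff ⇑g n = 3 * (m : ℂ)

theorem isThreeDivisible_apply [NeZero N] {g : CuspForm (Gamma0 N) 2}
    (hg : IsThreeDivisible g) (t : heckeAlgebra N 2 (∅ : Set ℕ)) :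
    IsThreeDivisible ((t : Module.End ℂ (CuspForm (Gamma0 N) 2)) g) := by
  have hg' : (3 : ℂ)⁻¹ • g ∈ intLattice N 2 := by
    apply Submodule.subset_span
    intro n
    obtain ⟨m, hm⟩ := hg n
    refine ⟨m, ?_⟩
    rw [glue_qCoeff_smul, hm]
    field_simp
  have htg' := CuspForm.mem_intLattice_of_mem_heckeAlgebra one_le_two t.2 hg'
  rw [P2MW.S_CuspForm_intLattice_fg.W3WsD.mem_intLattice_iff] at htg'
  intro n
  obtain ⟨m, hm⟩ := htg' n
  refine ⟨m, ?_⟩
  have h3 : g = (3 : ℂ) • ((3 : ℂ)⁻¹ • g) := by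
    rw [smul_smul, mul_inv_cancel₀ (by norm_num : (3 : ℂ) ≠ 0), one_smul]
  rw [h3, map_smul, glue_qCoeff_smul, hm]

theorem coe_algebraMap_apply [NeZero N] (z : ℤ) (f : CuspForm (Gamma0 N) 2) :
    ((algebraMap ℤ (heckeAlgebra N 2 (∅ : Set ℕ)) z : heckeAlgebra N 2 (∅ : Set ℕ)) :
      Module.End ℂ (CuspForm (Gamma0 N) 2)) f = (z : ℂ) • f := by
  rw [Subalgebra.coe_algebraMap, Algebra.algebraMap_eq_smul_one, LinearMap.smul_apply,
    Module.End.one_apply]
  exact (Int.cast_smul_eq_zsmul ℂ z f).symm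

/-- (B) the maximal ideal of the Hecke algebra attached to the mod-3 eigensystem. -/
theorem exists_maximal_ideal_mod_three [NeZero N] {a : ℕ → ℤ}
    (heig : FormalHecke.IsEigensystem
      (fun ℓ => if ℓ ∣ N then 0 else ((chiNegThree ℓ : ℤ) : ℤ)) a)
    (hreal : CuspForm.IsLatticeRealized N a) :
    ∃ 𝔫 : Ideal (heckeAlgebra N 2 (∅ : Set ℕ)), 𝔫.IsMaximal ∧
      (3 : heckeAlgebra N 2 (∅ : Set ℕ)) ∈ 𝔫 ∧
      ∀ (ℓ : ℕ) (hℓ : ℓ.Prime) (hℓN : ¬ ℓ ∣ N),
        (heckeAlgebra.T hℓ hℓN (Set.notMem_empty _) : heckeAlgebra N 2 (∅ : Set ℕ))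
          - algebraMap ℤ _ (a ℓ) ∈ 𝔫 := by
  classical
  obtain ⟨f₀, -, af, haf, hcong⟩ := hreal
  -- `af ≡ a mod 3`
  have hmod : ∀ n, (3 : ℤ) ∣ af n - a n := by
    intro n
    have h1 := hcong n
    have h2 := three_dvd_bridgeProduct_coeff_sub a n
    have := dvd_add h1 h2
    simpa using this
  -- the ideal
  let 𝔫₀ : Ideal (heckeAlgebra N 2 (∅ : Set ℕ)) :=
    { carrier := {t | IsThreeDivisible ((t : Module.End ℂ (CuspForm (Gamma0 N) 2)) f₀)}
      add_mem' := by
        intro s t hs ht n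
        obtain ⟨m₁, hm₁⟩ := hs n
        obtain ⟨m₂, hm₂⟩ := ht n
        refine ⟨m₁ + m₂, ?_⟩
        rw [Subalgebra.coe_add, LinearMap.add_apply, glue_qCoeff_add, hm₁, hm₂]
        push_cast
        ring
      zero_mem' := by
        intro n
        refine ⟨0, ?_⟩
        rw [Subalgebra.coe_zero, LinearMap.zero_apply]
        have : (0 : CuspForm (Gamma0 N) 2) = (0 : ℂ) • (0 : CuspForm (Gamma0 N) 2) := by simp
        rw [this, glue_qCoeff_smul]
        simp
      smul_mem' := by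
        intro c t ht
        have := isThreeDivisible_apply ht c
        simpa [Module.End.mul_apply] using this }
  have hmem : ∀ t : heckeAlgebra N 2 (∅ : Set ℕ),
      t ∈ 𝔫₀ ↔ IsThreeDivisible ((t : Module.End ℂ (CuspForm (Gamma0 N) 2)) f₀) :=
    fun t => Iff.rfl
  have hne : 𝔫₀ ≠ ⊤ := by
    rw [Ideal.ne_top_iff_one, hmem]
    intro h1
    obtain ⟨m, hm⟩ := h1 1
    rw [Subalgebra.coe_one, Module.End.one_apply, ← haf 1] at hm
    have hm' : af 1 = 3 * m := by exact_mod_cast hm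
    have h3 := hmod 1
    rw [heig.1, hm'] at h3
    omega
  obtain ⟨𝔫, h𝔫max, hle⟩ := Ideal.exists_le_maximal 𝔫₀ hne
  refine ⟨𝔫, h𝔫max, hle ?_, fun ℓ hℓ hℓN => hle ?_⟩
  · rw [hmem]
    intro n
    refine ⟨af n, ?_⟩
    have h3 : ((3 : heckeAlgebra N 2 (∅ : Set ℕ)) : Module.End ℂ (CuspForm (Gamma0 N) 2)) f₀
        = (3 : ℂ) • f₀ := by
      have h33 : (3 : heckeAlgebra N 2 (∅ : Set ℕ)) =
          algebraMap ℤ (heckeAlgebra N 2 (∅ : Set ℕ)) 3 := (map_ofNat _ 3).symm
      rw [h33, coe_algebraMap_apply]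
      norm_num
    rw [h3, glue_qCoeff_smul, haf n]
  · rw [hmem]
    intro n
    -- the n-th coefficient of `T_ℓ f₀ - a ℓ • f₀`
    have happ : ((heckeAlgebra.T hℓ hℓN (Set.notMem_empty _) - algebraMap ℤ _ (a ℓ) :
        heckeAlgebra N 2 (∅ : Set ℕ)) : Module.End ℂ (CuspForm (Gamma0 N) 2)) f₀
        = CuspForm.heckeTLin 2 hℓ hℓN f₀ - ((a ℓ : ℤ) : ℂ) • f₀ := by
      rw [Subalgebra.coe_sub, LinearMap.sub_apply, coe_algebraMap_apply, heckeAlgebra.coe_T]
    rw [happ, glue_qCoeff_sub, glue_qCoeff_heckeTLin, glue_qCoeff_smul, ← haf n, ← haf (n * ℓ)]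
    have hrel := heig.2 ℓ hℓ n
    simp only [if_neg hℓN] at hrel
    rw [mul_comm ℓ n] at hrel
    obtain ⟨d₁, hd₁⟩ := hmod (n * ℓ)
    obtain ⟨d₂, hd₂⟩ := hmod n
    obtain ⟨d₃, hd₃⟩ := hmod ℓ
    obtain ⟨c, hc⟩ := three_dvd_natCast_sub_chiNegThree ℓ
    by_cases hdvd : ℓ ∣ n
    · rw [if_pos hdvd] at hrel ⊢
      obtain ⟨d₄, hd₄⟩ := hmod (n / ℓ)
      rw [← haf (n / ℓ)]
      refine ⟨d₁ + c * af (n / ℓ) + chiNegThree ℓ * d₄ - a ℓ * d₂, ?_⟩
      have e1 : af (n * ℓ) = a (n * ℓ) + 3 * d₁ := by linarith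
      have e2 : af n = a n + 3 * d₂ := by linarith
      have e4 : af (n / ℓ) = a (n / ℓ) + 3 * d₄ := by linarith
      have e5 : (ℓ : ℤ) = chiNegThree ℓ + 3 * c := by linarith
      have key : af (n * ℓ) + (ℓ : ℤ) * af (n / ℓ) - a ℓ * af n
          = 3 * (d₁ + c * af (n / ℓ) + chiNegThree ℓ * d₄ - a ℓ * d₂) := by
        have hrel' : a (n * ℓ) = a ℓ * a n - chiNegThree ℓ * a (n / ℓ) := by linarith
        rw [e1, e2, hrel']
        conv_lhs => rw [e5]
        rw [e4]
        ring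
      have := congrArg (fun z : ℤ => (z : ℂ)) key
      push_cast at this ⊢
      linear_combination this
    · rw [if_neg hdvd] at hrel ⊢
      refine ⟨d₁ - a ℓ * d₂, ?_⟩
      have e1 : af (n * ℓ) = a (n * ℓ) + 3 * d₁ := by linarith
      have e2 : af n = a n + 3 * d₂ := by linarith
      have key : af (n * ℓ) - a ℓ * af n = 3 * (d₁ - a ℓ * d₂) := by
        have hrel' : a (n * ℓ) = a ℓ * a n := by linarith
        rw [e1, e2, hrel']
        ring
      have := congrArg (fun z : ℤ => (z : ℂ)) key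
      push_cast at this ⊢
      linear_combination this

end Fermat.Agent.S49

end
-- ===== PACK-END S49/ModThree.lean

-- ===== PACK-BEGIN S48/H788/EisCong.lean
section



/-!
# S48 / Tower A1 / piece P2-EIS, step 6 (helper788): the multiplier `H ≡ 1 mod λ`

Given the Eisenstein family of level `ℓ` (steps 1–4 of P2-EIS) and a residue map `φ : ℤ̄ → k`,
`char k = ℓ ≠ 2`: a weight-one form `H` on `Γ₁(ℓ)` with nebentypus `ψ = ω⁻¹` (inverse Teichmüller
character relative to `φ`), with `q`-coefficients in `ℤ̄`, and `φ(a₀(H)) = 1`, `φ(a_n(H)) = 0` for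
`n ≥ 1`.   (`H = 2ℓ · E_{1,ψ}`.)
-/

set_option autoImplicit false

noncomputable section

namespace Fermat.Agent.S48.H788

open UpperHalfPlane ModularFormClass CongruenceSubgroup
open scoped Real MatrixGroups ModularForm

section

variable (ℓ : ℕ) [hℓ : Fact ℓ.Prime] {k : Type*} [Field k] [CharP k ℓ] (φ : ZbarT →+* k)

theorem teichInv_isPrimitive (hℓ2 : ℓ ≠ 2) : (teichInv ℓ φ).IsPrimitive := by
  rw [DirichletCharacter.isPrimitive_def]
  have hd := DirichletCharacter.conductor_dvd_level (teichInv ℓ φ)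
  rcases (Nat.dvd_prime hℓ.out).mp hd with h | h
  · exfalso
    have := (DirichletCharacter.eq_one_iff_conductor_eq_one (χ := teichInv ℓ φ)).mpr h
    exact odd_ne_one (teichInv_odd ℓ φ hℓ2) this
  · exact h

/-- A choice of algebraic integers representing the values of `ψ`. -/
def teichVal (a : ZMod ℓ) : ZbarT := Classical.choose (teichInv_spec ℓ φ a)

theorem teichVal_coe (a : ZMod ℓ) : ((teichVal ℓ φ a : ZbarT) : ℂ) = teichInv ℓ φ a :=
  (Classical.choose_spec (teichInv_spec ℓ φ a)).1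

theorem teichVal_spec (a : ZMod ℓ) :
    φ (teichVal ℓ φ a) * ((a.val : ℕ) : k) = if a = 0 then 0 else 1 :=
  (Classical.choose_spec (teichInv_spec ℓ φ a)).2

theorem sum_range_teich :
    ∑ a ∈ Finset.range ℓ, ((a : ℕ) : k) * φ (teichVal ℓ φ (a : ZMod ℓ)) = -1 := by
  have h1 : ∀ a ∈ Finset.range ℓ, ((a : ℕ) : k) * φ (teichVal ℓ φ (a : ZMod ℓ)) =
      if a = 0 then 0 else 1 := by
    intro a ha
    have hlt : a < ℓ := Finset.mem_range.mp ha
    have hv : ((a : ZMod ℓ)).val = a := ZMod.val_natCast_of_lt hlt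
    have := teichVal_spec ℓ φ (a : ZMod ℓ)
    rw [hv, mul_comm] at this
    rw [this]
    have hiff : ((a : ZMod ℓ) = 0) ↔ a = 0 := by
      constructor
      · intro h0
        have := (ZMod.natCast_eq_zero_iff a ℓ).mp h0
        exact Nat.eq_zero_of_dvd_of_lt this hlt
      · intro h0; rw [h0]; simp
    by_cases h0 : a = 0
    · rw [if_pos h0, if_pos (hiff.mpr h0)]
    · rw [if_neg h0, if_neg (fun h => h0 (hiff.mp h))]
  rw [Finset.sum_congr rfl h1]
  have hpos : 0 < ℓ := hℓ.out.pos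
  rw [Finset.sum_ite, Finset.sum_const_zero, zero_add, Finset.sum_const, nsmul_eq_mul, mul_one]
  have hcard : (Finset.filter (fun a => ¬ a = 0) (Finset.range ℓ)).card = ℓ - 1 := by
    have : Finset.filter (fun a => ¬ a = 0) (Finset.range ℓ) = (Finset.range ℓ).erase 0 := by
      ext a
      simp [Finset.mem_erase, and_comm]
    rw [this, Finset.card_erase_of_mem (Finset.mem_range.mpr hpos), Finset.card_range]
  rw [hcard, Nat.cast_sub hℓ.out.one_le, CharP.cast_eq_zero k ℓ]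
  simp

/-- **P2-EIS, step 6 (CONG).** -/
theorem exists_multiplier_of_family (hℓ2 : ℓ ≠ 2)
    {F : ZMod ℓ → ModularForm (Gamma1 ℓ) 1} (hF : EisFamily ℓ F) :
    ∃ (ψ : DirichletCharacter ℂ ℓ) (H : ModularForm (Gamma1 ℓ) 1),
      (∀ a : ZMod ℓ, ∃ z : ZbarT, (z : ℂ) = ψ a ∧
        φ z * ((a.val : ℕ) : k) = if a = 0 then 0 else 1) ∧
      (∀ γ : SL(2, ℤ), γ ∈ Gamma0 ℓ →
        (⇑H) ∣[(1 : ℤ)] γ = ψ (((γ 1 1 : ℤ)) : ZMod ℓ) • ⇑H) ∧
      (∀ n : ℕ, ∃ z : ZbarT, (z : ℂ) = qCoeff (⇑H) n ∧ φ z = if n = 0 then 1 else 0) := by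
  obtain ⟨E, hE1, hE2, hE3⟩ := eisenstein_one_of_family hF (teichInv ℓ φ)
    (teichInv_odd ℓ φ hℓ2) (teichInv_isPrimitive ℓ φ hℓ2)
  have hℓC : (ℓ : ℂ) ≠ 0 := Nat.cast_ne_zero.mpr hℓ.out.ne_zero
  refine ⟨teichInv ℓ φ, ((2 * ℓ : ℂ)) • E, teichInv_spec ℓ φ, ?_, ?_⟩
  · intro γ hγ
    have : (⇑(((2 * ℓ : ℂ)) • E : ModularForm (Gamma1 ℓ) 1) : ℍ → ℂ) = (2 * ℓ : ℂ) • ⇑E := rfl
    rw [this, ModularForm.SL_smul_slash, hE1 γ hγ, smul_comm]
  · intro n
    by_cases hn : n = 0
    · subst hn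
      refine ⟨-∑ a ∈ Finset.range ℓ, ((a : ℕ) : ZbarT) * teichVal ℓ φ (a : ZMod ℓ), ?_, ?_⟩
      · rw [qCoeff_smul_788, hE2]
        push_cast
        simp_rw [teichVal_coe]
        field_simp
      · rw [if_pos rfl, map_neg, map_sum]
        simp_rw [map_mul, map_natCast]
        rw [sum_range_teich, neg_neg]
    · refine ⟨(2 * (ℓ : ZbarT)) * ∑ d ∈ n.divisors, teichVal ℓ φ (d : ZMod ℓ), ?_, ?_⟩
      · rw [qCoeff_smul_788, hE3 n (Nat.one_le_iff_ne_zero.mpr hn)]
        push_cast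
        simp_rw [teichVal_coe]
        rfl
      · rw [if_neg hn, map_mul, map_mul, map_natCast, CharP.cast_eq_zero k ℓ, mul_zero, zero_mul]

end

end Fermat.Agent.S48.H788

end
end
-- ===== PACK-END S48/H788/EisCong.lean

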