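import Mathlib
import Mathlib.NumberTheory.Height.MvPolynomial
import Fermat.Agent.Pack.S44C.G0E7L3
import Fermat.Agent.Pack.L1.E0L0
import Fermat.Agent.Pack.L1.E0L2
import Fermat.Agent.Pack.S44C.G0E6L3
import Fermat.Agent.Pack.L1.E0L1
import Fermat.Agent.Pack.S43MC.G0E3L0
import Fermat.Agent.Pack.S44C.G0E0L2
import Fermat.Agent.Pack.L1.E1L0
import Fermat.Agent.Pack.L1.E1L1
import Fermat.Agent.Pack.L1.E1L3

-- ===== PACK-BEGIN S51/H780/Tors3.lean
section


/-!
# S51 helper: `3`-torsion points via `x`-coordinates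
-/

set_option autoImplicit false

namespace Fermat.Agent.S51.H780

open WeierstrassCurve Polynomial

section Tors3

variable {K : Type*} [Field K] (W : WeierstrassCurve.Affine K)

/-- the `3`-division polynomial as a function -/
def psi3 (x : K) : K := 3 * x ^ 4 + W.b₂ * x ^ 3 + 3 * W.b₄ * x ^ 2 + 3 * W.b₆ * x + W.b₈

lemma psi3_eq (x : K) : psi3 W x = x * dupDen W x - dupNum W x := by
  simp only [psi3, dupDen, dupNum]; ring

lemma eval_Ψ₃ (x : K) : W.Ψ₃.eval x = psi3 W x := by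
  simp [WeierstrassCurve.Ψ₃, psi3]

lemma eval_Ψ₂Sq (x : K) : W.Ψ₂Sq.eval x = dupDen W x := by
  simp [WeierstrassCurve.Ψ₂Sq, dupDen]

/-- The parametrisation of `X₀(3)`: from a root `x` of `ψ₃` with `ψ₂²(x) ≠ 0`. -/
lemma param3_identity (x : K) (hψ : psi3 W x = 0) (hD : dupDen W x ≠ 0) :
    W.c₄ ^ 3 * (W.Δ / dupDen W x ^ 2) =
      W.Δ * ((W.Δ / dupDen W x ^ 2 + 27) * (W.Δ / dupDen W x ^ 2 + 3) ^ 3) := by
  have hrel := W.b_relation
  set D := dupDen W x with hDdef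
  set B₂ := W.b₂ + 12 * x with hB₂
  set B₄ := W.b₄ + W.b₂ * x + 6 * x ^ 2 with hB₄
  have h1 : B₂ * D = B₄ ^ 2 := by
    simp only [hB₂, hB₄, hDdef, dupDen, psi3] at hψ ⊢
    linear_combination 4 * hψ - hrel
  have h2 : W.Δ = B₄ ^ 3 - 27 * D ^ 2 := by
    simp only [hB₄, hDdef, dupDen, psi3, WeierstrassCurve.Δ] at hψ ⊢
    linear_combination (72 * x ^ 2 + 12 * x * W.b₂ - W.b₂ ^ 2 + 36 * W.b₄) * hψ +
      (-18 * x ^ 2 - 3 * x * W.b₂ - 9 * W.b₄) * hrel
  have h3 : W.c₄ * D ^ 2 = B₄ * (W.Δ + 3 * D ^ 2) := by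
    have hc : W.c₄ = B₂ ^ 2 - 24 * B₄ := by
      simp only [hB₂, hB₄, WeierstrassCurve.c₄]; ring
    rw [hc, h2]
    linear_combination (B₂ * D + B₄ ^ 2) * h1
  have h4 : W.c₄ ^ 3 * D ^ 6 = (W.Δ + 27 * D ^ 2) * (W.Δ + 3 * D ^ 2) ^ 3 := by
    have : W.c₄ ^ 3 * D ^ 6 = (W.c₄ * D ^ 2) ^ 3 := by ring
    rw [this, h3]
    have h2' : B₄ ^ 3 = W.Δ + 27 * D ^ 2 := by linear_combination -h2
    linear_combination (W.Δ + 3 * D ^ 2) ^ 3 * h2'
  field_simp
  linear_combination W.Δ * h4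

variable [DecidableEq K]

lemma psi3_of_three_nsmul {P : W.Point} (hP : P ≠ 0) (h3 : (3 : ℕ) • P = 0) :
    psi3 W (xc W P) = 0 ∧ dupDen W (xc W P) ≠ 0 := by
  have h2 : P + P = -P := by
    have : P + P + P = 0 := by
      rw [← h3]; simp only [succ_nsmul, zero_nsmul, zero_add]
    exact eq_neg_of_add_eq_zero_left this
  have h2ne : P + P ≠ 0 := by
    rw [h2]; exact neg_ne_zero.mpr hP
  have hx := xc_add_self W hP h2ne
  rw [h2, xc_neg] at hx
  refine ⟨?_, fun hD => h2ne ((dupDen_xc_eq_zero_iff W hP).mp hD)⟩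
  rw [psi3_eq, hx, sub_self]

lemma three_nsmul_of_psi3 {x y : K} (h : W.Nonsingular x y) (hψ : psi3 W x = 0) :
    (3 : ℕ) • (Affine.Point.some x y h) = 0 := by
  set P : W.Point := Affine.Point.some x y h with hPdef
  have hP : P ≠ 0 := Affine.Point.some_ne_zero h
  have hxc : xc W P = x := rfl
  have hD : dupDen W x ≠ 0 := by
    intro hD
    have hN := dupNum_ne_zero_of_dupDen_eq_zero W h hD
    rw [psi3_eq, hD, mul_zero, zero_sub, neg_eq_zero] at hψ
    exact hN hψ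
  have h2ne : P + P ≠ 0 := fun h0 => hD (hxc ▸ (dupDen_xc_eq_zero_iff W hP).mpr h0)
  have hx := xc_add_self W hP h2ne
  rw [hxc] at hx
  have hx' : xc W (P + P) = xc W P := by
    rw [hxc]
    rw [psi3_eq, sub_eq_zero] at hψ
    exact mul_right_cancel₀ hD (hx.trans hψ.symm)
  have h3 : P + P + P = 0 := by
    rcases eq_or_eq_neg_of_xc_eq W h2ne hP hx' with h | h
    · exact absurd (add_eq_left.mp h) hP
    · rw [h]; exact neg_add_cancel P
  rw [← h3]; simp only [succ_nsmul, zero_nsmul, zero_add]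

lemma mem_torsionBy_iff_nsmul {n : ℕ} (P : W.Point) :
    P ∈ Submodule.torsionBy ℤ W.Point n ↔ n • P = 0 := by
  rw [Submodule.mem_torsionBy_iff, Nat.cast_smul_eq_nsmul]

lemma finite_card_torsion3 (h3 : (3 : K) ≠ 0) :
    Finite (Submodule.torsionBy ℤ W.Point (3 : ℕ)) ∧
      Nat.card (Submodule.torsionBy ℤ W.Point (3 : ℕ)) < 3 ^ 3 := by
  have key := finite_and_ncard_le_of_xc_roots W
    (Submodule.torsionBy ℤ W.Point (3 : ℕ) : Set W.Point) W.Ψ₃ (W.Ψ₃_ne_zero h3) (by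
      intro P hP hP0
      rw [eval_Ψ₃]
      exact (psi3_of_three_nsmul W hP0 ((mem_torsionBy_iff_nsmul W P).mp hP)).1)
  refine ⟨key.1.to_subtype, ?_⟩
  have hdeg : W.Ψ₃.natDegree ≤ 4 := W.natDegree_Ψ₃_le
  have : Nat.card (Submodule.torsionBy ℤ W.Point (3 : ℕ)) =
      (Submodule.torsionBy ℤ W.Point (3 : ℕ) : Set W.Point).ncard := rfl
  rw [this]
  omega

lemma exists_three_torsion [IsAlgClosed K] (h3 : (3 : K) ≠ 0) (hΔ : W.Δ ≠ 0) :
    ∃ P : W.Point, P ≠ 0 ∧ (3 : ℕ) • P = 0 := by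
  obtain ⟨x, hx⟩ := IsAlgClosed.exists_root W.Ψ₃ (by
    rw [Polynomial.degree_eq_natDegree (W.Ψ₃_ne_zero h3), W.natDegree_Ψ₃ h3]; norm_num)
  obtain ⟨y, hy⟩ := IsAlgClosed.exists_root (yPoly W x) (by
    rw [Polynomial.degree_eq_natDegree (yPoly_ne_zero W x), yPoly_natDegree]; norm_num)
  have he : W.Equation x y := (yPoly_eval W).mp hy
  have hns : W.Nonsingular x y := (Affine.equation_iff_nonsingular_of_Δ_ne_zero hΔ).mp he
  refine ⟨Affine.Point.some x y hns, Affine.Point.some_ne_zero hns, ?_⟩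
  apply three_nsmul_of_psi3
  rw [← eval_Ψ₃]; exact hx

end Tors3

end Fermat.Agent.S51.H780

end
-- ===== PACK-END S51/H780/Tors3.lean

-- ===== PACK-BEGIN S15/H208/CountInst.lean
section
/-
S15 / DESC, LOC-p without T7 (helper208): CNT-inst, abstract form.

`J` an additive group with an action of a group `G`, `A = J^G`, `M ≤ J` a `G`-stable subgroup of
`r`-power torsion (in the application: the Eisenstein part of `J₀(p)[r^∞]`), `τ₀ ∈ G`.
`Y_E = {y : r y ∈ A, σ y - y ∈ M for all σ}`, `U₀ = (τ₀ - 1) Y_E`.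

`card_tauSub_YE_sq_le` :  `|U₀|² ≤ [Y_E : A]`, provided

* (DIV)  `J = r J`,
* (PROJ) for every `k` there is a `G`-equivariant endomorphism `e` of `J` which is the identity on
         `M[r^k]` and maps `J[r^k]` into `M`,
* (T6'') `(τ₀ - 1)² h = 0` whenever `r^k h ∈ A` for some `k`,
* `A ∩ M` is finite and `[Y_E : A]` is finite.

`selfImproving` : the arithmetic which turns (SEL) + (CNT) + (COUNT) into SEL-BOUND.
-/


set_option autoImplicit false
set_option linter.style.haveILetI false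

namespace Fermat.Agent.S15.H208

section Inst

variable {J : Type*} [AddCommGroup J] (G : Type*) [Group G] [DistribMulAction G J]

/-- `τ - 1` as an additive endomorphism -/
def tauSub {G : Type*} [Group G] [DistribMulAction G J] (τ : G) : J →+ J :=
  DistribSMul.toAddMonoidHom J τ - AddMonoidHom.id J

theorem tauSub_apply {G : Type*} [Group G] [DistribMulAction G J] (τ : G) (x : J) :
    tauSub τ x = τ • x - x := rfl

/-- the `r`-divisible hull of the rational points, `E`-part: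
`{h : r^k h ∈ A for some k, σ h - h ∈ M for all σ}` -/
def hullE (r : ℕ) (M : AddSubgroup J) : AddSubgroup J where
  carrier := {h | (∃ k : ℕ, ∀ σ : G, σ • (r ^ k • h) = r ^ k • h) ∧ ∀ σ : G, σ • h - h ∈ M}
  zero_mem' := ⟨⟨0, fun σ => by simp⟩, fun σ => by simp⟩
  add_mem' := by
    rintro a b ⟨⟨k, hk⟩, ha⟩ ⟨⟨l, hl⟩, hb⟩
    refine ⟨⟨k + l, fun σ => ?_⟩, fun σ => ?_⟩
    · have h1 : r ^ (k + l) • a = r ^ l • (r ^ k • a) := by
        rw [← mul_smul, ← pow_add, add_comm]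
      have h2 : r ^ (k + l) • b = r ^ k • (r ^ l • b) := by
        rw [← mul_smul, ← pow_add]
      rw [smul_add, h1, h2, smul_add, smul_comm σ, hk σ, smul_comm σ (r ^ k), hl σ]
    · have : σ • (a + b) - (a + b) = (σ • a - a) + (σ • b - b) := by
        rw [smul_add]; abel
      rw [this]
      exact M.add_mem (ha σ) (hb σ)
  neg_mem' := by
    rintro a ⟨⟨k, hk⟩, ha⟩
    refine ⟨⟨k, fun σ => ?_⟩, fun σ => ?_⟩
    · rw [smul_neg, smul_neg, hk σ]
    · have : σ • (-a) - (-a) = -(σ • a - a) := by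
        rw [smul_neg]; abel
      rw [this]
      exact M.neg_mem (ha σ)

/-- `Y_E = {y : r y ∈ A, σ y - y ∈ M for all σ}` -/
def YE (r : ℕ) (M : AddSubgroup J) : AddSubgroup J where
  carrier := {y | (∀ σ : G, σ • (r • y) = r • y) ∧ ∀ σ : G, σ • y - y ∈ M}
  zero_mem' := ⟨fun σ => by simp, fun σ => by simp⟩
  add_mem' := by
    rintro a b ⟨hk, ha⟩ ⟨hl, hb⟩
    refine ⟨fun σ => ?_, fun σ => ?_⟩
    · rw [smul_add, smul_add, hk σ, hl σ]
    · have : σ • (a + b) - (a + b) = (σ • a - a) + (σ • b - b) := by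
        rw [smul_add]; abel
      rw [this]
      exact M.add_mem (ha σ) (hb σ)
  neg_mem' := by
    rintro a ⟨hk, ha⟩
    refine ⟨fun σ => ?_, fun σ => ?_⟩
    · rw [smul_neg, smul_neg, hk σ]
    · have : σ • (-a) - (-a) = -(σ • a - a) := by
        rw [smul_neg]; abel
      rw [this]
      exact M.neg_mem (ha σ)

variable {G}

theorem mem_hullE {r : ℕ} {M : AddSubgroup J} {h : J} :
    h ∈ hullE G r M ↔
      (∃ k : ℕ, ∀ σ : G, σ • (r ^ k • h) = r ^ k • h) ∧ ∀ σ : G, σ • h - h ∈ M := Iff.rfl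

theorem mem_YE {r : ℕ} {M : AddSubgroup J} {y : J} :
    y ∈ YE G r M ↔ (∀ σ : G, σ • (r • y) = r • y) ∧ ∀ σ : G, σ • y - y ∈ M := Iff.rfl

theorem YE_le_hullE (r : ℕ) (M : AddSubgroup J) : YE G r M ≤ hullE G r M := by
  rintro y ⟨h1, h2⟩
  exact ⟨⟨1, fun σ => by rw [pow_one]; exact h1 σ⟩, h2⟩

theorem fixed_le_YE (r : ℕ) (M : AddSubgroup J) : FixedPoints.addSubgroup G J ≤ YE G r M := by
  intro a ha
  have ha : ∀ σ : G, σ • a = a := ha
  refine ⟨fun σ => by rw [smul_comm, ha σ], fun σ => ?_⟩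
  rw [ha σ, sub_self]
  exact M.zero_mem

theorem le_hullE_of_tors (r : ℕ) (M : AddSubgroup J)
    (hMtors : ∀ x ∈ M, ∃ k : ℕ, r ^ k • x = 0) (hMG : ∀ (σ : G), ∀ x ∈ M, σ • x ∈ M) :
    M ≤ hullE G r M := by
  intro x hx
  obtain ⟨k, hk⟩ := hMtors x hx
  exact ⟨⟨k, fun σ => by rw [hk, smul_zero]⟩, fun σ => M.sub_mem (hMG σ x hx) hx⟩

/-- (DIV) + (PROJ) ⟹ the hull is `r`-divisible modulo the rational points. -/
theorem hullE_divisible (r : ℕ) (M : AddSubgroup J)
    (hDIV : ∀ x : J, ∃ y : J, r • y = x)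
    (hPROJ : ∀ k : ℕ, ∃ e : J →+ J, (∀ (σ : G) (x : J), e (σ • x) = σ • e x) ∧
      (∀ x ∈ M, r ^ k • x = 0 → e x = x) ∧ (∀ x : J, r ^ k • x = 0 → e x ∈ M))
    (h : J) (hh : h ∈ hullE G r M) :
    ∃ h' ∈ hullE G r M, r • h' - h ∈ FixedPoints.addSubgroup G J := by
  obtain ⟨⟨k, hk⟩, hM⟩ := hh
  obtain ⟨h₁, rfl⟩ := hDIV h
  obtain ⟨e, he1, he2, he3⟩ := hPROJ (k + 1)
  have hpow : ∀ x : J, r ^ (k + 1) • x = r ^ k • (r • x) := by
    intro x
    rw [← mul_smul, ← pow_succ]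
  -- `σ h₁ - h₁` is killed by `r^(k+1)`
  have hfix : ∀ σ : G, σ • (r ^ (k + 1) • h₁) = r ^ (k + 1) • h₁ := by
    intro σ
    rw [hpow, hk σ]
  have hc : ∀ σ : G, r ^ (k + 1) • (σ • h₁ - h₁) = 0 := by
    intro σ
    calc r ^ (k + 1) • (σ • h₁ - h₁) = r ^ (k + 1) • σ • h₁ - r ^ (k + 1) • h₁ := smul_sub _ _ _
      _ = σ • (r ^ (k + 1) • h₁) - r ^ (k + 1) • h₁ := by rw [smul_comm]
      _ = 0 := by rw [hfix σ, sub_self]
  have hc' : ∀ σ : G, r ^ (k + 1) • (σ • (r • h₁) - r • h₁) = 0 := by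
    intro σ
    have h0 : σ • (r • h₁) - r • h₁ = r • (σ • h₁ - h₁) := by
      rw [smul_sub, smul_comm]
    rw [h0, smul_comm, hc σ, smul_zero]
  refine ⟨e h₁, ⟨⟨k + 1, fun σ => ?_⟩, fun σ => ?_⟩, ?_⟩
  · calc σ • (r ^ (k + 1) • e h₁) = σ • e (r ^ (k + 1) • h₁) := by rw [map_nsmul]
      _ = e (σ • (r ^ (k + 1) • h₁)) := (he1 _ _).symm
      _ = e (r ^ (k + 1) • h₁) := by rw [hfix σ]
      _ = r ^ (k + 1) • e h₁ := map_nsmul _ _ _
  · rw [← he1, ← map_sub]
    exact he3 _ (hc σ)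
  · show ∀ σ : G, σ • (r • e h₁ - r • h₁) = r • e h₁ - r • h₁
    intro σ
    have h1 : σ • (r • e h₁ - r • h₁) - (r • e h₁ - r • h₁)
        = e (σ • (r • h₁) - r • h₁) - (σ • (r • h₁) - r • h₁) := by
      rw [map_sub, he1, map_nsmul, smul_sub]
      abel
    have h2 : e (σ • (r • h₁) - r • h₁) = σ • (r • h₁) - r • h₁ :=
      he2 _ (hM σ) (hc' σ)
    rw [h2, sub_self] at h1
    exact sub_eq_zero.1 h1

/-- **CNT-inst (abstract).**  `|(τ₀ - 1) Y_E|² ≤ [Y_E : A]`. -/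
theorem card_tauSub_YE_sq_le (r : ℕ) (M : AddSubgroup J) (τ₀ : G)
    (hMtors : ∀ x ∈ M, ∃ k : ℕ, r ^ k • x = 0)
    (hMG : ∀ (σ : G), ∀ x ∈ M, σ • x ∈ M)
    (hdiv : ∀ h ∈ hullE G r M, ∃ h' ∈ hullE G r M, r • h' - h ∈ FixedPoints.addSubgroup G J)
    (hT6 : ∀ h ∈ hullE G r M, τ₀ • (τ₀ • h - h) - (τ₀ • h - h) = 0)
    (hfinA : Finite ↥(FixedPoints.addSubgroup G J ⊓ M))
    (hfinY : (FixedPoints.addSubgroup G J).relIndex (YE G r M) ≠ 0) :
    Nat.card ((YE G r M).map (tauSub τ₀)) ^ 2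
      ≤ (FixedPoints.addSubgroup G J).relIndex (YE G r M) := by
  classical
  set A : AddSubgroup J := FixedPoints.addSubgroup G J with hA
  set H : AddSubgroup J := hullE G r M with hH
  set Y : AddSubgroup J := YE G r M with hY
  have hAmem : ∀ a : J, a ∈ A ↔ ∀ σ : G, σ • a = a := fun a => Iff.rfl
  have hYH : Y ≤ H := YE_le_hullE r M
  have hMH : M ≤ H := le_hullE_of_tors r M hMtors hMG
  -- the quotient `X = H / A`
  let AH : AddSubgroup H := A.addSubgroupOf H
  let π : H →+ H ⧸ AH := QuotientAddGroup.mk' AH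
  have hπ : ∀ h : H, π h = 0 ↔ (h : J) ∈ A := by
    intro h
    rw [QuotientAddGroup.mk'_apply, QuotientAddGroup.eq_zero_iff]
    exact AddSubgroup.mem_addSubgroupOf
  -- `N₀ : H → M`
  let N₀ : H →+ M :=
    { toFun := fun h => ⟨τ₀ • (h : J) - h, h.2.2 τ₀⟩
      map_zero' := by
        apply Subtype.ext
        simp
      map_add' := fun a b => by
        apply Subtype.ext
        show τ₀ • ((a : J) + b) - (a + b) = (τ₀ • (a : J) - a) + (τ₀ • (b : J) - b)
        rw [smul_add]; abel }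
  have hN₀ : ∀ h : H, ((N₀ h : M) : J) = τ₀ • (h : J) - h := fun h => rfl
  have hN₀A : AH ≤ N₀.ker := by
    intro h hh
    rw [AddMonoidHom.mem_ker]
    apply Subtype.ext
    rw [hN₀]
    have : (h : J) ∈ A := AddSubgroup.mem_addSubgroupOf.1 hh
    rw [(hAmem _).1 this τ₀, sub_self]
    rfl
  let N : H ⧸ AH →+ M := QuotientAddGroup.lift AH N₀ hN₀A
  have hNπ : ∀ h : H, N (π h) = N₀ h := fun h => rfl
  let ι : M →+ H ⧸ AH := π.comp (AddSubgroup.inclusion hMH)
  have hι : ∀ m : M, ι m = π ⟨(m : J), hMH m.2⟩ := fun m => rfl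
  -- `N ∘ ι ∘ N = 0`
  have hN : ∀ x : H ⧸ AH, N (ι (N x)) = 0 := by
    intro x
    obtain ⟨h, rfl⟩ := QuotientAddGroup.mk'_surjective AH x
    rw [hNπ, hι, hNπ]
    apply Subtype.ext
    rw [hN₀]
    exact hT6 h h.2
  -- `ker ι` is finite
  have hker : Finite ι.ker := by
    haveI := hfinA
    refine Finite.of_injective
      (fun m : ι.ker => (⟨((m : M) : J), ?_⟩ : ↥(A ⊓ M))) ?_
    · refine ⟨?_, (m : M).2⟩
      have h1 := m.2
      rw [AddMonoidHom.mem_ker, hι, hπ] at h1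
      exact h1
    · intro a b hab
      apply Subtype.ext
      apply Subtype.ext
      exact congrArg (fun z : ↥(A ⊓ M) => (z : J)) hab
  -- the map `Y → X[r]`
  have hrY : ∀ y : Y, r • π ⟨(y : J), hYH y.2⟩ = 0 := by
    intro y
    rw [← map_nsmul, hπ]
    show r • (y : J) ∈ A
    rw [hAmem]
    exact y.2.1
  let f : Y →+ torsN (H ⧸ AH) r :=
    { toFun := fun y => ⟨π ⟨(y : J), hYH y.2⟩, mem_torsN.2 (hrY y)⟩
      map_zero' := by
        apply Subtype.ext
        exact map_zero π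
      map_add' := fun a b => by
        apply Subtype.ext
        exact map_add π ⟨(a : J), hYH a.2⟩ ⟨(b : J), hYH b.2⟩ }
  have hf : ∀ y : Y, ((f y : torsN (H ⧸ AH) r) : H ⧸ AH) = π ⟨(y : J), hYH y.2⟩ := fun y => rfl
  have hfsurj : Function.Surjective f := by
    rintro ⟨x, hx⟩
    obtain ⟨h, rfl⟩ := QuotientAddGroup.mk'_surjective AH x
    have h1 : r • π h = 0 := mem_torsN.1 hx
    rw [← map_nsmul, hπ] at h1
    have h2 : (h : J) ∈ Y := by
      refine ⟨fun σ => ?_, h.2.2⟩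
      exact (hAmem _).1 h1 σ
    exact ⟨⟨(h : J), h2⟩, Subtype.ext rfl⟩
  have hfker : f.ker = A.addSubgroupOf Y := by
    ext y
    rw [AddMonoidHom.mem_ker, AddSubgroup.mem_addSubgroupOf]
    constructor
    · intro h
      have := congrArg Subtype.val h
      rw [hf] at this
      exact (hπ _).1 this
    · intro h
      apply Subtype.ext
      rw [hf]
      exact (hπ _).2 h
  have hcardX : Nat.card (torsN (H ⧸ AH) r) = A.relIndex Y := by
    have h1 := AddSubgroup.index_ker f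
    rw [AddMonoidHom.range_eq_top.2 hfsurj] at h1
    rw [AddSubgroup.relIndex, ← hfker, h1]
    exact (Nat.card_congr (Equiv.Set.univ _)).symm
  have hfinX : Finite (torsN (H ⧸ AH) r) := by
    have : Nat.card (torsN (H ⧸ AH) r) ≠ 0 := by rw [hcardX]; exact hfinY
    exact (Nat.card_pos_iff.1 (Nat.pos_of_ne_zero this)).2
  -- divisibility
  have hdivX : ∀ k : ℕ, ∀ x : H ⧸ AH, r ^ k • x = 0 →
      ∃ x' : H ⧸ AH, r ^ (k + 1) • x' = 0 ∧ r • x' = x := by
    intro k x hx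
    obtain ⟨h, rfl⟩ := QuotientAddGroup.mk'_surjective AH x
    obtain ⟨h', hh', hd⟩ := hdiv h h.2
    have h2 : r • π ⟨h', hh'⟩ = π h := by
      rw [← map_nsmul, ← sub_eq_zero, ← map_sub, hπ]
      exact hd
    refine ⟨π ⟨h', hh'⟩, ?_, h2⟩
    rw [pow_succ, mul_smul, h2]
    exact hx
  -- the image
  have himg : (imgN N r).map M.subtype = Y.map (tauSub τ₀) := by
    ext u
    constructor
    · rintro ⟨m, ⟨x, hx, rfl⟩, rfl⟩
      obtain ⟨y, hy⟩ := hfsurj ⟨x, hx⟩
      have hxy : x = π ⟨(y : J), hYH y.2⟩ := by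
        have := congrArg Subtype.val hy
        rw [hf] at this
        exact this.symm
      refine ⟨(y : J), y.2, ?_⟩
      rw [hxy, hNπ]
      rfl
    · rintro ⟨y, hy, rfl⟩
      refine ⟨N₀ ⟨y, hYH hy⟩, ⟨π ⟨y, hYH hy⟩, mem_torsN.2 (hrY ⟨y, hy⟩), rfl⟩, rfl⟩
  have hcardU : Nat.card (Y.map (tauSub τ₀)) = Nat.card (imgN N r) := by
    rw [← himg]
    exact AddSubgroup.card_map_of_injective M.subtype_injective
  rw [hcardU, ← hcardX]
  exact card_imgN_sq_le_card_tors r ι N hN hker hfinX hdivX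

end Inst

/-- The self-improving arithmetic: (SEL) `a·E ≤ b·u`, (CNT) `u²·b ≤ a·w`, (COUNT) `w ≤ E²`
give SEL-BOUND `a ≤ b`.  (`a = |Y_E/(A+W_E)|`, `b = |W_E^G|`, `u = |U₀|`, `w = |W_E|`,
`E = r^(#et)`.) -/
theorem selfImproving (a b u w E : ℕ) (ha : 0 < a) (hE : 0 < E)
    (hSEL : a * E ≤ b * u) (hCNT : u ^ 2 * b ≤ a * w) (hCOUNT : w ≤ E ^ 2) : a ≤ b := by
  by_contra hlt
  have hlt' : b < a := Nat.lt_of_not_le hlt
  have h1 : (a * E) ^ 2 ≤ (b * u) ^ 2 := Nat.pow_le_pow_left hSEL 2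
  have h2 : (b * u) ^ 2 = b * (u ^ 2 * b) := by ring
  have h3 : b * (u ^ 2 * b) ≤ b * (a * w) := Nat.mul_le_mul_left _ hCNT
  have h4 : b * (a * w) ≤ b * (a * E ^ 2) := Nat.mul_le_mul_left _ (Nat.mul_le_mul_left _ hCOUNT)
  have h5 : (a * E) ^ 2 ≤ b * (a * E ^ 2) := by
    rw [h2] at h1
    exact le_trans h1 (le_trans h3 h4)
  have h6 : (a * E) ^ 2 = a * (a * E ^ 2) := by ring
  rw [h6] at h5
  have hpos : 0 < a * E ^ 2 := Nat.mul_pos ha (pow_pos hE 2)
  exact absurd (Nat.le_of_mul_le_mul_right h5 hpos) (Nat.not_le.2 hlt')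

end Fermat.Agent.S15.H208

end
-- ===== PACK-END S15/H208/CountInst.lean

-- ===== PACK-BEGIN S24/H324/LocalUnique.lean
section



/-!
# S24 / ALG (helper324) — local uniqueness of embeddings

Two embeddings `σ τ : F → C((z))` inducing the same place `v` (with the same multiplicity `g`),
agreeing on the constants and on one element `t` with `v(t) > 0`, and such that the leading
coefficients of `σ π` and `τ π` agree for one uniformiser `π`, are equal.

No completeness, no Dedekind domains: successive approximation inside `F`.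
-/

set_option autoImplicit false

namespace Fermat.Agent.S24.H324

open AlgebraicCurve HahnSeries
open Fermat.Agent.S24.H117

variable {K F : Type*} [Field K] [Field F] [Algebra K F]
variable {C : Type*} [Field C]

section Abstract

variable (v : Place K F) (σ τ : F →+* LaurentSeries C) (g : ℕ)

/-- Hypotheses shared by the lemmas of this section. -/
structure SamePlace : Prop where
  g_pos : 0 < g
  ordσ : ∀ f : F, (σ f).order = (g : ℤ) * v.ord f
  ordτ : ∀ f : F, (τ f).order = (g : ℤ) * v.ord f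
  const : ∀ c : K, σ (algebraMap K F c) = τ (algebraMap K F c)

variable {v σ τ g}

theorem SamePlace.vanishσ (h : SamePlace v σ τ g) {f : F} {n : ℤ} (hf : n ≤ v.ord f) :
    VanishBelow ((g : ℤ) * n) (σ f) := by
  apply vanishBelow_of_le_order
  rw [h.ordσ]
  exact mul_le_mul_of_nonneg_left hf (by positivity)

theorem SamePlace.vanishτ (h : SamePlace v σ τ g) {f : F} {n : ℤ} (hf : n ≤ v.ord f) :
    VanishBelow ((g : ℤ) * n) (τ f) := by
  apply vanishBelow_of_le_order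
  rw [h.ordτ]
  exact mul_le_mul_of_nonneg_left hf (by positivity)

/-- **Local uniqueness.** -/
theorem SamePlace.eq_of_leadingCoeff_eq [CharZero C] (h : SamePlace v σ τ g)
    (π : F) (hπ : v.ord π = 1)
    (hres : ∀ f : F, 0 ≤ v.ord f →
      ∃ (c : K) (f₁ : F), 0 ≤ v.ord f₁ ∧ f = algebraMap K F c + π * f₁)
    (t : F) (ht : 0 < v.ord t) (hst : σ t = τ t)
    (hlc : (σ π).leadingCoeff = (τ π).leadingCoeff) : σ = τ := by
  have hg : (0 : ℤ) < g := by exact_mod_cast h.g_pos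
  have hπ0 : π ≠ 0 := ne_zero_of_ord_ne_zero v (by rw [hπ]; norm_num)
  have ht0 : t ≠ 0 := ne_zero_of_ord_ne_zero v ht.ne'
  set P := σ π with hP
  set Q := τ π with hQ
  have hP0 : P ≠ 0 := (map_ne_zero σ).mpr hπ0
  have hQ0 : Q ≠ 0 := (map_ne_zero τ).mpr hπ0
  have hPord : P.order = g := by rw [hP, h.ordσ, hπ, mul_one]
  have hQord : Q.order = g := by rw [hQ, h.ordτ, hπ, mul_one]
  -- ramification index
  obtain ⟨e, he⟩ : ∃ e : ℕ, (e : ℤ) = v.ord t := ⟨(v.ord t).toNat, Int.toNat_of_nonneg ht.le⟩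
  have he0 : 0 < e := by
    have : (0 : ℤ) < e := by rw [he]; exact ht
    exact_mod_cast this
  -- the unit `u = t / π ^ e`
  set u := t / π ^ e with hu
  have hu0 : u ≠ 0 := div_ne_zero ht0 (pow_ne_zero _ hπ0)
  have hut : t = u * π ^ e := by rw [hu, div_mul_cancel₀ _ (pow_ne_zero _ hπ0)]
  have huord : v.ord u = 0 := by
    rw [hu, ord_div v ht0 (pow_ne_zero _ hπ0), ord_pow, hπ, he]; ring
  have hσu0 : σ u ≠ 0 := (map_ne_zero σ).mpr hu0
  have hσuord : (σ u).order = 0 := by rw [h.ordσ, huord, mul_zero]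
  -- the geometric sum
  obtain ⟨hS0, hSord⟩ := geomSum_ne_zero_and_order hP0 hQ0 hPord hQord hlc e he0
  have hgeom := geom_sum₂_mul P Q e
  -- main induction
  have key : ∀ N : ℕ, ∀ f : F, 0 ≤ v.ord f → VanishBelow (N : ℤ) (σ f - τ f) := by
    intro N
    induction N with
    | zero =>
      intro f hf
      have h1 := h.vanishσ hf
      have h2 := h.vanishτ hf
      rw [mul_zero] at h1 h2
      simpa using h1.sub h2
    | succ N ih =>
      intro f hf
      -- the difference `P - Q`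
      have hPQ : VanishBelow ((N : ℤ) + g) (P - Q) := by
        have hu1 := ih u huord.ge
        have hrel : (P ^ e - Q ^ e) * σ u = -(Q ^ e * (σ u - τ u)) := by
          have h1 : σ t = σ u * P ^ e := by rw [hut, map_mul, map_pow]
          have h2 : τ t = τ u * Q ^ e := by rw [hut, map_mul, map_pow]
          have h3 : σ u * P ^ e = τ u * Q ^ e := by rw [← h1, ← h2, hst]
          linear_combination h3
        have hQe : VanishBelow ((g : ℤ) * e) (Q ^ e) := by
          apply vanishBelow_of_le_order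
          rw [order_pow', hQord]
          exact le_of_eq (mul_comm _ _)
        have h4 : VanishBelow ((g : ℤ) * e + N) ((P ^ e - Q ^ e) * σ u) := by
          rw [hrel]
          exact (hQe.mul hu1).neg
        have h5 := h4.of_mul_right hσu0
        rw [hσuord, sub_zero, ← hgeom] at h5
        have h6 : VanishBelow ((g : ℤ) * e + N)
            ((P - Q) * ∑ l ∈ Finset.range e, P ^ l * Q ^ (e - 1 - l)) := by
          rw [mul_comm (P - Q)]; exact h5
        have h7 := h6.of_mul_right hS0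
        rw [hSord] at h7
        refine h7.mono ?_
        have : (g : ℤ) * e + N - g * ((e : ℤ) - 1) = N + g := by ring
        rw [this]
      obtain ⟨c, f₁, hf₁, rfl⟩ := hres f hf
      have hdecomp : σ (algebraMap K F c + π * f₁) - τ (algebraMap K F c + π * f₁)
          = P * (σ f₁ - τ f₁) + (P - Q) * τ f₁ := by
        rw [map_add, map_add, map_mul, map_mul, h.const c]
        ring
      rw [hdecomp]
      have hA : VanishBelow ((g : ℤ) + N) (P * (σ f₁ - τ f₁)) :=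
        (vanishBelow_of_le_order hPord.ge).mul (ih f₁ hf₁)
      have hB : VanishBelow ((N : ℤ) + g + 0) ((P - Q) * τ f₁) := by
        refine hPQ.mul ?_
        have := h.vanishτ hf₁
        rwa [mul_zero] at this
      have hA' : VanishBelow ((N + 1 : ℕ) : ℤ) (P * (σ f₁ - τ f₁)) :=
        hA.mono (by push_cast; omega)
      have hB' : VanishBelow ((N + 1 : ℕ) : ℤ) ((P - Q) * τ f₁) :=
        hB.mono (by push_cast; omega)
      exact hA'.add hB'
  have hint : ∀ f : F, 0 ≤ v.ord f → σ f = τ f := fun f hf =>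
    sub_eq_zero.mp (eq_zero_of_forall_vanishBelow fun N => key N f hf)
  refine RingHom.ext fun f => ?_
  rcases le_or_gt 0 (v.ord f) with hf | hf
  · exact hint f hf
  · have hinv : σ f⁻¹ = τ f⁻¹ := hint f⁻¹ (by rw [v.ord_inv]; omega)
    rw [map_inv₀, map_inv₀] at hinv
    exact inv_injective hinv

/-- The `e`-th power of the leading coefficient of `σ π` is determined by `σ t`. -/
theorem SamePlace.leadingCoeff_pow_eq (h : SamePlace v σ τ g)
    (π : F) (hπ : v.ord π = 1)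
    (hres : ∀ f : F, 0 ≤ v.ord f →
      ∃ (c : K) (f₁ : F), 0 ≤ v.ord f₁ ∧ f = algebraMap K F c + π * f₁)
    (t : F) (ht : 0 < v.ord t) (hst : σ t = τ t) (e : ℕ) (he : (e : ℤ) = v.ord t) :
    (σ π).leadingCoeff ^ e = (τ π).leadingCoeff ^ e := by
  have hg : (0 : ℤ) < g := by exact_mod_cast h.g_pos
  have hπ0 : π ≠ 0 := ne_zero_of_ord_ne_zero v (by rw [hπ]; norm_num)
  have ht0 : t ≠ 0 := ne_zero_of_ord_ne_zero v ht.ne'
  set u := t / π ^ e with hu
  have hu0 : u ≠ 0 := div_ne_zero ht0 (pow_ne_zero _ hπ0)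
  have hut : t = u * π ^ e := by rw [hu, div_mul_cancel₀ _ (pow_ne_zero _ hπ0)]
  have huord : v.ord u = 0 := by
    rw [hu, ord_div v ht0 (pow_ne_zero _ hπ0), ord_pow, hπ, he]; ring
  obtain ⟨c, u₁, hu₁, hcu⟩ := hres u huord.ge
  -- leading coefficient of the image of a unit `c + π u₁`
  have hlead : ∀ ρ : F →+* LaurentSeries C, (∀ f : F, (ρ f).order = (g : ℤ) * v.ord f) →
      (ρ u).leadingCoeff = (ρ (algebraMap K F c)).coeff 0 := by
    intro ρ hρ
    have hord : (ρ u).order = 0 := by rw [hρ, huord, mul_zero]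
    rw [leadingCoeff_eq, hord, hcu, map_add, coeff_add]
    have : (ρ (π * u₁)).coeff 0 = 0 := by
      rcases eq_or_ne u₁ 0 with rfl | hu₁0
      · simp
      apply coeff_eq_zero_of_lt_order
      rw [hρ, v.ord_mul hπ0 hu₁0, hπ]
      nlinarith
    rw [this, add_zero]
  have h1 : σ t = σ u * (σ π) ^ e := by rw [hut, map_mul, map_pow]
  have h2 : τ t = τ u * (τ π) ^ e := by rw [hut, map_mul, map_pow]
  have h3 := congrArg HahnSeries.leadingCoeff hst
  rw [h1, h2, leadingCoeff_mul, leadingCoeff_mul, leadingCoeff_pow', leadingCoeff_pow',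
    hlead σ h.ordσ, hlead τ h.ordτ, h.const c] at h3
  have hne : (τ (algebraMap K F c)).coeff 0 ≠ 0 := by
    rw [← hlead τ h.ordτ]
    exact leadingCoeff_ne_zero.mpr ((map_ne_zero τ).mpr hu0)
  exact mul_left_cancel₀ hne h3

end Abstract

end Fermat.Agent.S24.H324

end
-- ===== PACK-END S24/H324/LocalUnique.lean

-- ===== PACK-BEGIN S17/H637/Formal.lean
section



/-!
# S17 / tower H, FORMAL layer (helper637): leaves F-WD and F-QP

Exact statements of `Fermat/Agent/S17/H500/Package.lean` (architect helper500):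

* `wd : P.InvStatement → ∃ q, P.WDStatement q`
* `qp : P.BZStatement → P.InvStatement → P.WDStatement q → QPStatement q`

Both are pure bookkeeping with the normalised pairing
`B D E = pr D E - (deg D / m) N E - (deg E / m) N D`:
`B` is symmetric, additive in each variable on disjoint divisors, and (by `InvStatement`) a class
function up to `O(deg E + 1)`.
-/

set_option autoImplicit false

namespace Fermat.Agent.S17.H637

open Fermat.Agent.S17.H500

variable {A : Type} [AddCommGroup A] (P : PairingPackage A)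

/-! ## Basic calculus of `B` -/

theorem m_pos : 0 < P.m := by
  have h1 := P.one_le_g
  have h2 := P.two_g_le_d
  have h3 := P.four_d_le_m
  omega

theorem d_add_le : P.d + 2 * P.g ≤ P.m := by
  have h3 := P.four_d_le_m
  omega

theorem two_d_add_le : 2 * P.d + 2 * P.g ≤ P.m := by
  have h3 := P.four_d_le_m
  omega

theorem B_symm (D E : P.Dv) : P.B D E = P.B E D := by
  unfold PairingPackage.B
  rw [P.pr_symm D E]
  ring

theorem disj_add_right (D E₁ E₂ : P.Dv) :
    P.Disj D (E₁ + E₂) ↔ P.Disj D E₁ ∧ P.Disj D E₂ := by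
  constructor
  · intro h
    have h' := (P.disj_add_left E₁ E₂ D).1 (P.disj_symm _ _ h)
    exact ⟨P.disj_symm _ _ h'.1, P.disj_symm _ _ h'.2⟩
  · rintro ⟨h1, h2⟩
    exact P.disj_symm _ _
      ((P.disj_add_left E₁ E₂ D).2 ⟨P.disj_symm _ _ h1, P.disj_symm _ _ h2⟩)

theorem B_add_left (D₁ D₂ E : P.Dv) (h1 : P.Disj D₁ E) (h2 : P.Disj D₂ E) :
    P.B (D₁ + D₂) E = P.B D₁ E + P.B D₂ E := by
  unfold PairingPackage.B
  rw [P.pr_add D₁ D₂ E ((P.disj_add_left _ _ _).2 ⟨h1, h2⟩), P.N_add, map_add]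
  push_cast
  ring

theorem disj_nsmul_left (n : ℕ) (D E : P.Dv) (h : P.Disj D E) : P.Disj (n • D) E := by
  induction n with
  | zero => rw [zero_nsmul]; exact P.disj_zero E
  | succ n ih => rw [succ_nsmul]; exact (P.disj_add_left _ _ _).2 ⟨ih, h⟩

theorem B_nsmul_left (n : ℕ) (D E : P.Dv) (h : P.Disj D E) :
    P.B (n • D) E = n * P.B D E := by
  induction n with
  | zero =>
    rw [zero_nsmul]
    unfold PairingPackage.B
    have h0 : P.N (0 : P.Dv) = 0 := by
      have := P.N_add 0 0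
      rw [add_zero] at this
      linarith
    have hp : P.pr (0 : P.Dv) E = 0 := by
      have := P.pr_add 0 0 E (by rw [add_zero]; exact P.disj_zero E)
      rw [add_zero] at this
      linarith
    rw [h0, hp, map_zero]
    simp
  | succ n ih =>
    rw [succ_nsmul, B_add_left P _ _ _ (disj_nsmul_left P n D E h) h, ih]
    push_cast
    ring

/-- `InvStatement` with a nonnegative constant. -/
theorem inv_nonneg (hInv : P.InvStatement) :
    ∃ C : ℝ, 0 ≤ C ∧ ∀ D₁ D₂ E, P.deg D₁ = P.deg D₂ → P.deg D₁ + 2 * P.g ≤ P.m →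
      P.cls D₁ = P.cls D₂ → P.Disj D₁ E → P.Disj D₂ E →
      |P.B D₁ E - P.B D₂ E| ≤ C * (P.deg E + 1) := by
  obtain ⟨C, hC⟩ := hInv
  refine ⟨|C|, abs_nonneg C, fun D₁ D₂ E h1 h2 h3 h4 h5 => ?_⟩
  refine (hC D₁ D₂ E h1 h2 h3 h4 h5).trans ?_
  have : (0 : ℝ) ≤ (P.deg E : ℝ) + 1 := by positivity
  exact mul_le_mul_of_nonneg_right (le_abs_self C) this

/-! ## F-WD -/

/-- Any two pairs of good disjoint representatives of degree `d` of the same class have the same
`B` up to a constant. -/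
theorem B_pair_indep (hInv : P.InvStatement) :
    ∃ C : ℝ, 0 ≤ C ∧ ∀ (D D' E E' : P.Dv), P.deg D = P.d → P.deg D' = P.d → P.deg E = P.d →
      P.deg E' = P.d → P.cls D' = P.cls D → P.cls E = P.cls D → P.cls E' = P.cls D →
      P.Disj D D' → P.Disj E E' → |P.B D D' - P.B E E'| ≤ C := by
  obtain ⟨C, hC0, hC⟩ := inv_nonneg P hInv
  refine ⟨4 * (C * (P.d + 1)), by positivity, ?_⟩
  intro D D' E E' hD hD' hE hE' hcD' hcE hcE' hDD' hEE'
  have hdm := d_add_le P
  -- generic `G` disjoint from `E'`, then `G'` disjoint from `D + G`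
  obtain ⟨G, hG, hcG, hGE', -⟩ := P.mov1 (P.cls D) E'
  obtain ⟨G', hG', hcG', hG'T, -⟩ := P.mov1 (P.cls D) (D + G)
  obtain ⟨hG'D, hG'G⟩ := (disj_add_right P _ _ _).1 hG'T
  -- step 1: second variable `D' → G'` (with `E := D`)
  have s1 : |P.B D' D - P.B G' D| ≤ C * (P.d + 1) := by
    have := hC D' G' D (by rw [hD', hG']) (by rw [hD']; exact hdm) (by rw [hcD', hcG'])
      (P.disj_symm _ _ hDD') hG'D
    rwa [hD] at this
  -- step 2: first variable `D → G` (with `E := G'`)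
  have s2 : |P.B D G' - P.B G G'| ≤ C * (P.d + 1) := by
    have := hC D G G' (by rw [hD, hG]) (by rw [hD]; exact hdm) (by rw [hcG])
      (P.disj_symm _ _ hG'D) (P.disj_symm _ _ hG'G)
    rwa [hG'] at this
  -- step 3: second variable `G' → E'` (with `E := G`)
  have s3 : |P.B G' G - P.B E' G| ≤ C * (P.d + 1) := by
    have := hC G' E' G (by rw [hG', hE']) (by rw [hG']; exact hdm) (by rw [hcG', hcE'])
      hG'G (P.disj_symm _ _ hGE')
    rwa [hG] at this
  -- step 4: first variable `G → E` (with `E := E'`)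
  have s4 : |P.B G E' - P.B E E'| ≤ C * (P.d + 1) := by
    have := hC G E E' (by rw [hG, hE]) (by rw [hG]; exact hdm) (by rw [hcG, hcE])
      hGE' hEE'
    rwa [hE'] at this
  rw [B_symm P D' D, B_symm P G' D] at s1
  rw [B_symm P G' G, B_symm P E' G] at s3
  rw [abs_le] at s1 s2 s3 s4 ⊢
  constructor <;> linarith [s1.1, s1.2, s2.1, s2.2, s3.1, s3.2, s4.1, s4.2]

/-- **Leaf F-WD.** -/
theorem wd (hInv : P.InvStatement) : ∃ q : A → ℝ, P.WDStatement q := by
  obtain ⟨C, hC0, hC⟩ := B_pair_indep P hInv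
  -- chosen representatives
  have hex : ∀ x : A, ∃ E E' : P.Dv, P.deg E = P.d ∧ P.deg E' = P.d ∧ P.cls E = x ∧
      P.cls E' = x ∧ P.Disj E E' := by
    intro x
    obtain ⟨E, hE, hcE, -, -⟩ := P.mov1 x 0
    obtain ⟨E', hE', hcE', hE'E, -⟩ := P.mov1 x E
    exact ⟨E, E', hE, hE', hcE, hcE', P.disj_symm _ _ hE'E⟩
  choose E E' hE hE' hcE hcE' hEE' using hex
  refine ⟨fun x => -(P.B (E x) (E' x)) / 2, C / 2, ?_⟩
  intro x D D' hD hD' hcD hcD' _ _ hDD'
  have h := hC D D' (E x) (E' x) hD hD' (hE x) (hE' x) (by rw [hcD', hcD])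
    (by rw [hcE, hcD]) (by rw [hcE', hcD]) hDD' (hEE' x)
  rw [abs_le] at h ⊢
  constructor <;> linarith [h.1, h.2]

/-! ## F-QP -/

/-- `B inf E` is bounded. -/
theorem B_inf_bdd (hBZ : P.BZStatement) :
    ∃ C : ℝ, 0 ≤ C ∧ ∀ E, P.Disj P.inf E → |P.B P.inf E| ≤ C * (P.deg E + 1) := by
  obtain ⟨C, hC⟩ := hBZ
  refine ⟨|C|, abs_nonneg C, fun E hE => ?_⟩
  have hm : (1 : ℝ) ≤ P.m := by exact_mod_cast m_pos P
  have h1 := hC P.one E (by rw [P.Z_one]; exact disj_nsmul_left P _ _ _ hE)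
  rw [P.Z_one, B_nsmul_left P _ _ _ hE, abs_mul, Nat.abs_cast] at h1
  have hdeg : (0 : ℝ) ≤ (P.deg E : ℝ) + 1 := by positivity
  have h2 : C * ((P.deg E : ℝ) + 1) ≤ |C| * ((P.deg E : ℝ) + 1) :=
    mul_le_mul_of_nonneg_right (le_abs_self C) hdeg
  have h3 : |P.B P.inf E| ≤ (P.m : ℝ) * |P.B P.inf E| := by
    have := abs_nonneg (P.B P.inf E)
    nlinarith
  linarith

/-- `B B0 E` is bounded for `B0` of class `0` and degree `d`. -/
theorem B_zero_bdd (hBZ : P.BZStatement) (hInv : P.InvStatement) :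
    ∃ C : ℝ, 0 ≤ C ∧ ∀ B0 E, P.deg B0 = P.d → P.cls B0 = 0 → P.Disj B0 E → P.Disj P.inf E →
      |P.B B0 E| ≤ C * (P.deg E + 1) := by
  obtain ⟨C₁, hC₁0, hC₁⟩ := inv_nonneg P hInv
  obtain ⟨C₂, hC₂0, hC₂⟩ := B_inf_bdd P hBZ
  refine ⟨C₁ + P.d * C₂, by positivity, fun B0 E hB0 hc hd hinf => ?_⟩
  have hdeg : P.deg (P.d • P.inf) = P.d := by
    rw [map_nsmul, P.deg_inf, smul_eq_mul, mul_one]
  have hcls : P.cls (P.d • P.inf) = 0 := by
    rw [map_nsmul, P.cls_inf, smul_zero]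
  have h1 := hC₁ B0 (P.d • P.inf) E (by rw [hB0, hdeg]) (by rw [hB0]; exact d_add_le P)
    (by rw [hc, hcls]) hd (disj_nsmul_left P _ _ _ hinf)
  rw [B_nsmul_left P _ _ _ hinf] at h1
  have h2 := hC₂ E hinf
  have hdeg' : (0 : ℝ) ≤ (P.deg E : ℝ) + 1 := by positivity
  have hd0 : (0 : ℝ) ≤ (P.d : ℝ) := by positivity
  have h3 : |(P.d : ℝ) * P.B P.inf E| ≤ P.d * (C₂ * ((P.deg E : ℝ) + 1)) := by
    rw [abs_mul, Nat.abs_cast]
    exact mul_le_mul_of_nonneg_left h2 hd0
  rw [abs_le] at h1 h3 ⊢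
  constructor <;> nlinarith [h1.1, h1.2, h3.1, h3.2]

/-- Quasi-additivity of `B` in the first variable along the group law:
if `cls D₃ = cls D₁ + cls D₂` (degrees `d`, auxiliary `B0` of class `0`), then
`B D₃ E = B D₁ E + B D₂ E + O(deg E + 1)`. -/
theorem B_class_add (hBZ : P.BZStatement) (hInv : P.InvStatement) :
    ∃ C : ℝ, 0 ≤ C ∧ ∀ D₁ D₂ D₃ B0 E, P.deg D₁ = P.d → P.deg D₂ = P.d → P.deg D₃ = P.d →
      P.deg B0 = P.d → P.cls B0 = 0 → P.cls D₃ = P.cls D₁ + P.cls D₂ →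
      P.Disj D₁ E → P.Disj D₂ E → P.Disj D₃ E → P.Disj B0 E → P.Disj P.inf E →
      |P.B D₃ E - P.B D₁ E - P.B D₂ E| ≤ C * (P.deg E + 1) := by
  obtain ⟨C₁, hC₁0, hC₁⟩ := inv_nonneg P hInv
  obtain ⟨C₂, hC₂0, hC₂⟩ := B_zero_bdd P hBZ hInv
  refine ⟨C₁ + C₂, by positivity, ?_⟩
  intro D₁ D₂ D₃ B0 E h1 h2 h3 h0 hc0 hc d1 d2 d3 d0 dinf
  have hdm := two_d_add_le P
  have hA := hC₁ (D₃ + B0) (D₁ + D₂) E (by rw [map_add, map_add, h1, h2, h3, h0])
    (by rw [map_add, h3, h0]; omega) (by rw [map_add, map_add, hc0, hc, add_zero])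
    ((P.disj_add_left _ _ _).2 ⟨d3, d0⟩) ((P.disj_add_left _ _ _).2 ⟨d1, d2⟩)
  rw [B_add_left P _ _ _ d3 d0, B_add_left P _ _ _ d1 d2] at hA
  have hB := hC₂ B0 E h0 hc0 d0 dinf
  rw [abs_le] at hA hB ⊢
  constructor <;> nlinarith [hA.1, hA.2, hB.1, hB.2]

/-- **Leaf F-QP**: the quasi-parallelogram law. -/
theorem qp (hBZ : P.BZStatement) (hInv : P.InvStatement) (q : A → ℝ) (hq : P.WDStatement q) :
    QPStatement q := by
  obtain ⟨C, hC0, hC⟩ := B_class_add P hBZ hInv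
  obtain ⟨Cq, hCq⟩ := hq
  refine ⟨3 * (C * (P.d + 1)) + 6 * |Cq|, ?_⟩
  intro x y
  -- unprimed representatives
  obtain ⟨Dx, hDx, cDx, -, gDx⟩ := P.mov1 x 0
  obtain ⟨Dy, hDy, cDy, -, gDy⟩ := P.mov1 y 0
  obtain ⟨Ds, hDs, cDs, -, gDs⟩ := P.mov1 (x + y) 0
  obtain ⟨Dm, hDm, cDm, -, gDm⟩ := P.mov1 (x - y) 0
  obtain ⟨B0, hB0, cB0, -, gB0⟩ := P.mov1 (0 : A) 0
  -- primed representatives, disjoint from all unprimed ones
  set T : P.Dv := Dx + Dy + Ds + Dm + B0 with hT
  have hsplit : ∀ D : P.Dv, P.Disj D T →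
      P.Disj D Dx ∧ P.Disj D Dy ∧ P.Disj D Ds ∧ P.Disj D Dm ∧ P.Disj D B0 := by
    intro D h
    rw [hT] at h
    obtain ⟨h, h5⟩ := (disj_add_right P _ _ _).1 h
    obtain ⟨h, h4⟩ := (disj_add_right P _ _ _).1 h
    obtain ⟨h, h3⟩ := (disj_add_right P _ _ _).1 h
    obtain ⟨h1, h2⟩ := (disj_add_right P _ _ _).1 h
    exact ⟨h1, h2, h3, h4, h5⟩
  obtain ⟨Dx', hDx', cDx', tDx', gDx'⟩ := P.mov1 x T
  obtain ⟨Dy', hDy', cDy', tDy', gDy'⟩ := P.mov1 y T
  obtain ⟨Ds', hDs', cDs', tDs', gDs'⟩ := P.mov1 (x + y) T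
  obtain ⟨Dm', hDm', cDm', tDm', gDm'⟩ := P.mov1 (x - y) T
  obtain ⟨B0', hB0', cB0', tB0', gB0'⟩ := P.mov1 (0 : A) T
  obtain ⟨x'x, x'y, x's, x'm, x'0⟩ := hsplit Dx' tDx'
  obtain ⟨y'x, y'y, y's, y'm, y'0⟩ := hsplit Dy' tDy'
  obtain ⟨s'x, s'y, s's, s'm, s'0⟩ := hsplit Ds' tDs'
  obtain ⟨m'x, m'y, m's, m'm, m'0⟩ := hsplit Dm' tDm'
  obtain ⟨b'x, b'y, b's, b'm, b'0⟩ := hsplit B0' tB0'
  have sym := P.disj_symm
  have inf_of : ∀ D, P.Good D → P.Disj P.inf D := fun D h => sym _ _ (P.good_disj_inf D h)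
  -- the four values of `q`
  have qx := hCq x Dx Dx' hDx hDx' cDx cDx' gDx gDx' (sym _ _ x'x)
  have qy := hCq y Dy Dy' hDy hDy' cDy cDy' gDy gDy' (sym _ _ y'y)
  have qs := hCq (x + y) Ds Ds' hDs hDs' cDs cDs' gDs gDs' (sym _ _ s's)
  have qm := hCq (x - y) Dm Dm' hDm hDm' cDm cDm' gDm gDm' (sym _ _ m'm)
  -- expansion of `B Ds Ds'`
  have e1 := hC Dx Dy Ds B0 Ds' hDx hDy hDs hB0 cB0 (by rw [cDs, cDx, cDy])
    (sym _ _ s'x) (sym _ _ s'y) (sym _ _ s's) (sym _ _ s'0) (inf_of _ gDs')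
  have e2 := hC Dx' Dy' Ds' B0' Dx hDx' hDy' hDs' hB0' cB0' (by rw [cDs', cDx', cDy'])
    x'x y'x s'x b'x (inf_of _ gDx)
  have e3 := hC Dx' Dy' Ds' B0' Dy hDx' hDy' hDs' hB0' cB0' (by rw [cDs', cDx', cDy'])
    x'y y'y s'y b'y (inf_of _ gDy)
  -- expansion of `B Dm Dm'` (`Dx ~ Dm + Dy`)
  have e4 := hC Dm Dy Dx B0 Dm' hDm hDy hDx hB0 cB0 (by rw [cDx, cDm, cDy]; abel)
    (sym _ _ m'm) (sym _ _ m'y) (sym _ _ m'x) (sym _ _ m'0) (inf_of _ gDm')
  have e5 := hC Dm' Dy' Dx' B0' Dx hDm' hDy' hDx' hB0' cB0' (by rw [cDx', cDm', cDy']; abel)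
    m'x y'x x'x b'x (inf_of _ gDx)
  have e6 := hC Dm' Dy' Dx' B0' Dy hDm' hDy' hDx' hB0' cB0' (by rw [cDx', cDm', cDy']; abel)
    m'y y'y x'y b'y (inf_of _ gDy)
  rw [hDs'] at e1
  rw [hDx] at e2 e5
  rw [hDy] at e3 e6
  rw [hDm'] at e4
  rw [B_symm P Dx Ds', B_symm P Dy Ds'] at e1
  rw [B_symm P Dx Dm', B_symm P Dy Dm'] at e4
  rw [B_symm P Dx Dx'] at qx
  rw [B_symm P Dy Dy'] at qy
  have hq' : Cq ≤ |Cq| := le_abs_self Cq
  rw [abs_le] at qx qy qs qm e1 e2 e3 e4 e5 e6 ⊢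
  constructor <;>
    linarith [qx.1, qx.2, qy.1, qy.2, qs.1, qs.2, qm.1, qm.2, e1.1, e1.2, e2.1, e2.2,
      e3.1, e3.2, e4.1, e4.2, e5.1, e5.2, e6.1, e6.2]

end Fermat.Agent.S17.H637

end
-- ===== PACK-END S17/H637/Formal.lean

-- ===== PACK-BEGIN S17/H924/EndOf.lean
section


/-!
# S17 / tower H, formal leaf F-END (helper924)

`end_of : QPStatement q → P.EllStatement l → P.PosStatement q l → EndStatement A`.

`ν y := sInf {N D' | deg D' = m - d ∧ cls D' = y}`; the set is nonempty by `PosStatement`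
(applied to `-y`), bounded below by `N_nonneg`; Northcott for `ν` from `P.northcott`.
-/

set_option autoImplicit false

namespace Fermat.Agent.S17.H924

open Fermat.Agent.S17.H500

variable {A : Type} [AddCommGroup A]

/-- The set of naive heights of the representatives of degree `m - d` of a class. -/
def repHeights (P : PairingPackage A) (y : A) : Set ℝ :=
  {r | ∃ D' : P.Dv, P.deg D' = P.m - P.d ∧ P.cls D' = y ∧ P.N D' = r}

/-- `ν y` : the least naive height of a representative of degree `m - d`. -/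
noncomputable def nuOf (P : PairingPackage A) (y : A) : ℝ := sInf (repHeights P y)

theorem repHeights_bddBelow (P : PairingPackage A) (y : A) : BddBelow (repHeights P y) :=
  ⟨0, fun _ ⟨D', _, _, h⟩ => h ▸ P.N_nonneg D'⟩

theorem k_pos (P : PairingPackage A) : 0 < P.k := by
  have h1 := P.one_le_g
  have h2 := P.two_g_le_d
  have h3 := P.four_d_le_m
  have h4 : (P.d : ℝ) + P.g + 1 ≤ P.m := by
    have : P.d + P.g + 1 ≤ P.m := by omega
    exact_mod_cast this
  unfold PairingPackage.k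
  linarith

theorem m_pos (P : PairingPackage A) : (0 : ℝ) < P.m := by
  have h1 := P.one_le_g
  have h2 := P.two_g_le_d
  have h3 := P.four_d_le_m
  have : 0 < P.m := by omega
  exact_mod_cast this

/-- **F-END.** -/
theorem end_of (P : PairingPackage A) (q l : A → ℝ) (hqp : QPStatement q)
    (hl : P.EllStatement l) (hpos : P.PosStatement q l) : EndStatement A := by
  obtain ⟨C₁, hC₁⟩ := hqp
  obtain ⟨-, C₂, hC₂⟩ := hl
  obtain ⟨C₃, hC₃⟩ := hpos
  -- nonemptiness of the sets of representatives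
  have hne : ∀ y : A, (repHeights P y).Nonempty := by
    intro y
    obtain ⟨D', hdeg, hcls, -⟩ := hC₃ (-y)
    exact ⟨P.N D', D', hdeg, by rw [hcls, neg_neg], rfl⟩
  refine ⟨q, l, nuOf P, max C₁ C₂, P.m / P.k, C₃, div_pos (m_pos P) (k_pos P), ?_, ?_, ?_, ?_, ?_⟩
  · exact fun x y => (hC₁ x y).trans (le_max_left _ _)
  · exact fun x y => (hC₂ x y).trans (le_max_right _ _)
  · intro x
    exact le_csInf (hne x) fun r ⟨D', _, _, h⟩ => h ▸ P.N_nonneg D'
  · intro B
    have hfin := P.northcott (P.m - P.d) (B + 1)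
    refine (hfin.image P.cls).subset ?_
    intro y hy
    have hy' : nuOf P y ≤ B := hy
    have hlt : sInf (repHeights P y) < B + 1 := lt_of_le_of_lt hy' (by linarith)
    obtain ⟨r, ⟨D', hdeg, hcls, hN⟩, hr⟩ := exists_lt_of_csInf_lt (hne y) hlt
    exact ⟨D', ⟨hdeg.le, by rw [hN]; exact hr.le⟩, hcls⟩
  · intro x
    obtain ⟨D', hdeg, hcls, hN⟩ := hC₃ x
    exact (csInf_le (repHeights_bddBelow P (-x)) ⟨D', hdeg, hcls, rfl⟩).trans hN

end Fermat.Agent.S17.H924

end
-- ===== PACK-END S17/H924/EndOf.lean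

-- ===== PACK-BEGIN S17/H380/AbsBound.lean
section



set_option linter.unusedSectionVars false

namespace Fermat.Agent.S17.H380

open NumberField Height Module MvPolynomial

section FinitePart

variable {K L : Type*} [Field K] [NumberField K] [Field L] [NumberField L] [Algebra K L]
variable {ι : Type*} [Finite ι]

theorem prod_infinitePlace_iSup_pos {x : ι → K} (hx : x ≠ 0) :
    0 < ∏ v : InfinitePlace K, (⨆ i, v (x i)) ^ v.mult := by
  obtain ⟨i₀, hi₀⟩ := Function.ne_iff.mp hx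
  refine Finset.prod_pos fun v _ => pow_pos ?_ _
  refine lt_of_lt_of_le ?_ (Finite.le_ciSup_of_le i₀ le_rfl)
  exact (InfinitePlace.pos_iff (w := v)).mpr hi₀

/-- **Degree formula, finite part**. -/
theorem finprod_finitePlace_iSup_algebraMap {x : ι → K} (hx : x ≠ 0) :
    ∏ᶠ w : FinitePlace L, ⨆ i, w (algebraMap K L (x i))
      = (∏ᶠ v : FinitePlace K, ⨆ i, v (x i)) ^ finrank K L := by
  have hx' : (fun i => algebraMap K L (x i)) ≠ 0 := by
    obtain ⟨i₀, hi₀⟩ := Function.ne_iff.mp hx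
    exact Function.ne_iff.mpr ⟨i₀, by simpa using hi₀⟩
  have h := mulHeight_algebraMap (L := L) x
  rw [NumberField.mulHeight_eq hx, NumberField.mulHeight_eq hx', mul_pow] at h
  have hinf : ∏ w : InfinitePlace L, (⨆ i, w (algebraMap K L (x i))) ^ w.mult
      = (∏ v : InfinitePlace K, (⨆ i, v (x i)) ^ v.mult) ^ finrank K L := by
    rw [← prod_infinitePlace_comap (L := L) (fun v : InfinitePlace K => ⨆ i, v (x i))]
    rfl
  rw [hinf] at h
  exact mul_left_cancel₀ (pow_pos (prod_infinitePlace_iSup_pos hx) _).ne' h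

end FinitePart


section Bound

variable {K L : Type*} [Field K] [NumberField K] [Field L] [NumberField L] [Algebra K L]
variable {ι ι' : Type*} [Finite ι']

/-- A supremum of maxima with `1` of suprema, as a single supremum over an `Option`-indexed
family. -/
theorem iSup_max_iSup_one_eq [Nonempty ι'] {S : ι' → Type*} [∀ j, Finite (S j)]
    (c : (j : ι') → S j → ℝ) :
    ⨆ j, max (⨆ s : S j, c j s) 1
      = ⨆ i : Option (Σ j, S j), Option.elim i 1 (fun a => c a.1 a.2) := by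
  refine le_antisymm (ciSup_le fun j => max_le ?_ ?_) (ciSup_le fun i => ?_)
  · refine Real.iSup_le (fun s => ?_) ?_
    · exact Finite.le_ciSup_of_le (some ⟨j, s⟩) le_rfl
    · exact le_trans zero_le_one (Finite.le_ciSup_of_le none le_rfl)
  · exact Finite.le_ciSup_of_le none le_rfl
  · obtain ⟨j₀⟩ := ‹Nonempty ι'›
    rcases i with _ | ⟨j, s⟩
    · exact Finite.le_ciSup_of_le j₀ (le_max_right _ _)
    · refine Finite.le_ciSup_of_le j (le_max_of_le_left ?_)
      exact Finite.le_ciSup_of_le s le_rfl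

/-- The tuple consisting of `1` and all the coefficients of a family of polynomials. -/
noncomputable def coeffTuple (p : ι' → MvPolynomial ι K) :
    Option (Σ j, (p j).support) → K :=
  fun i => Option.elim i 1 (fun a => coeff a.2.1 (p a.1))

theorem coeffTuple_ne_zero (p : ι' → MvPolynomial ι K) : coeffTuple p ≠ 0 :=
  Function.ne_iff.mpr ⟨none, by simp [coeffTuple]⟩

theorem iSup_support_map (w : AbsoluteValue L ℝ) (q : MvPolynomial ι K) :
    ⨆ s : (map (algebraMap K L) q).support, w (coeff s.1 (map (algebraMap K L) q))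
      = ⨆ s : q.support, w (algebraMap K L (coeff s.1 q)) := by
  have hsupp : (map (algebraMap K L) q).support = q.support :=
    support_map_of_injective q (algebraMap K L).injective
  refine Equiv.iSup_congr (Equiv.subtypeEquivRight (fun s => by rw [hsupp])) (fun s => ?_)
  simp [coeff_map]

/-- The nonarchimedean local factor of `mulHeightBound` as a supremum over `coeffTuple`. -/
theorem nonarch_factor_eq [Nonempty ι'] (v : AbsoluteValue K ℝ) (p : ι' → MvPolynomial ι K) :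
    ⨆ j, max (⨆ s : (p j).support, v (coeff s.1 (p j))) 1 = ⨆ i, v (coeffTuple p i) := by
  rw [iSup_max_iSup_one_eq (fun j (s : (p j).support) => v (coeff s.1 (p j)))]
  refine iSup_congr fun i => ?_
  rcases i with _ | a <;> simp [coeffTuple]

theorem nonarch_factor_map_eq [Nonempty ι'] (w : AbsoluteValue L ℝ)
    (p : ι' → MvPolynomial ι K) :
    ⨆ j, max (⨆ s : (map (algebraMap K L) (p j)).support,
        w (coeff s.1 (map (algebraMap K L) (p j)))) 1
      = ⨆ i, w (algebraMap K L (coeffTuple p i)) := by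
  simp_rw [iSup_support_map]
  rw [iSup_max_iSup_one_eq (fun j (s : (p j).support) => w (algebraMap K L (coeff s.1 (p j))))]
  refine iSup_congr fun i => ?_
  rcases i with _ | a <;> simp [coeffTuple]

theorem arch_term_map_eq (w : AbsoluteValue L ℝ) (q : MvPolynomial ι K) :
    (AddMonoidAlgebra.coeff (map (algebraMap K L) q)).sum (fun _ c => w c)
      = (AddMonoidAlgebra.coeff q).sum (fun _ c => w (algebraMap K L c)) := by
  have hsupp : (map (algebraMap K L) q).support = q.support :=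
    support_map_of_injective q (algebraMap K L).injective
  change ∑ s ∈ (map (algebraMap K L) q).support, w (coeff s (map (algebraMap K L) q))
    = ∑ s ∈ q.support, w (algebraMap K L (coeff s q))
  rw [hsupp]
  refine Finset.sum_congr rfl fun s _ => ?_
  rw [coeff_map]

/-- **Degree formula for `mulHeightBound`**. -/
theorem mulHeightBound_map [Nonempty ι'] (p : ι' → MvPolynomial ι K) :
    mulHeightBound (fun j => map (algebraMap K L) (p j)) = mulHeightBound p ^ finrank K L := by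
  rw [mulHeightBound_eq, mulHeightBound_eq, mul_pow, prod_archAbsVal_eq, prod_archAbsVal_eq,
    prod_nonarchAbsVal_eq (fun v => ⨆ j, max (⨆ s : (p j).support, v (coeff s.1 (p j))) 1),
    prod_nonarchAbsVal_eq (fun w => ⨆ j, max (⨆ s : (map (algebraMap K L) (p j)).support,
      w (coeff s.1 (map (algebraMap K L) (p j)))) 1)]
  congr 1
  · rw [← prod_infinitePlace_comap (L := L)
      (fun v : InfinitePlace K => ⨆ j, (AddMonoidAlgebra.coeff (p j)).sum (fun _ c => v.val c))]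
    refine Finset.prod_congr rfl fun w _ => ?_
    congr 1
    refine iSup_congr fun j => ?_
    rw [arch_term_map_eq]
    rfl
  · simp_rw [nonarch_factor_map_eq, nonarch_factor_eq]
    exact finprod_finitePlace_iSup_algebraMap (L := L) (coeffTuple_ne_zero p)

end Bound

end Fermat.Agent.S17.H380

end
-- ===== PACK-END S17/H380/AbsBound.lean

-- ===== PACK-BEGIN S41/H221/PDHeisCocycle.lean
section



/-!
# S41, block PD, leaf HEIS, part 1 (helper221): Heisenberg cocycles on `SL(2,ℤ)`-sets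

`Heis(R) = R³`, `(a, b, c) (a', b', c') = (a + a', b + b', c + c' + a b')`.  A Heisenberg cocycle on an
`SL(2,ℤ)`-set `X` is a triple `a b c : SL(2,ℤ) → X → R` with `C (g h) x = C g (h x) · C h x`, i.e.
`a, b` additive cocycles and `c (g h) x = c h x + c g (h x) + a g (h x) * b h x`.

* `exists_heisCocycle` : existence with prescribed values on `S` (trivial) and `S T`
  (from the presentation of `SL(2,ℤ)`, `Fermat.Agent.S21.H585.exists_hom_of_sq_cube`).
* `addCocycle_ext`     : additive cocycles are determined by their values on `S`, `S T`.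
-/

set_option autoImplicit false

namespace Fermat.Agent.S41.H221

open Matrix ModularGroup
open scoped MatrixGroups

section

variable {X : Type*} [MulAction SL(2, ℤ) X] {R : Type*} [CommRing R]

/-- The permutation `(x, t) ↦ (g • x, (a x, b x, c x) · t)` of `X × Heis(R)`. -/
def heisPerm (g : SL(2, ℤ)) (a b c : X → R) : Equiv.Perm (X × R × R × R) where
  toFun z := (g • z.1, z.2.1 + a z.1, z.2.2.1 + b z.1, z.2.2.2 + c z.1 + a z.1 * z.2.2.1)
  invFun z := (g⁻¹ • z.1, z.2.1 - a (g⁻¹ • z.1), z.2.2.1 - b (g⁻¹ • z.1),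
    z.2.2.2 - c (g⁻¹ • z.1) - a (g⁻¹ • z.1) * (z.2.2.1 - b (g⁻¹ • z.1)))
  left_inv z := by
    rcases z with ⟨x, t₁, t₂, t₃⟩
    simp only [inv_smul_smul]
    refine Prod.ext rfl (Prod.ext ?_ (Prod.ext ?_ ?_)) <;> first | (simp; done) | (simp; ring)
  right_inv z := by
    rcases z with ⟨x, t₁, t₂, t₃⟩
    simp only [smul_inv_smul]
    refine Prod.ext rfl (Prod.ext ?_ (Prod.ext ?_ ?_)) <;> first | (simp; done) | (simp; ring)

@[simp] lemma heisPerm_apply (g : SL(2, ℤ)) (a b c : X → R) (x : X) (t₁ t₂ t₃ : R) :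
    heisPerm g a b c (x, t₁, t₂, t₃) = (g • x, t₁ + a x, t₂ + b x, t₃ + c x + a x * t₂) := rfl

/-- Heisenberg cocycles. -/
structure IsHeisCocycle (a b c : SL(2, ℤ) → X → R) : Prop where
  a_mul : ∀ g h x, a (g * h) x = a h x + a g (h • x)
  b_mul : ∀ g h x, b (g * h) x = b h x + b g (h • x)
  c_mul : ∀ g h x, c (g * h) x = c h x + c g (h • x) + a g (h • x) * b h x

lemma closure_S_ST_eq_top : Subgroup.closure ({S, S * T} : Set SL(2, ℤ)) = ⊤ := by
  rw [eq_top_iff, ← _root_.SpecialLinearGroup.SL2Z_generators, Subgroup.closure_le]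
  rintro x (rfl | rfl)
  · exact Subgroup.subset_closure (by simp)
  · have h1 : S ∈ Subgroup.closure ({S, S * T} : Set SL(2, ℤ)) :=
      Subgroup.subset_closure (by simp)
    have h2 : S * T ∈ Subgroup.closure ({S, S * T} : Set SL(2, ℤ)) :=
      Subgroup.subset_closure (by simp)
    have h3 := mul_mem (inv_mem h1) h2
    rwa [inv_mul_cancel_left] at h3

lemma S_mul_S_eq_neg_one' : (S * S : SL(2, ℤ)) = -1 := by
  apply Subtype.ext
  rw [Matrix.SpecialLinearGroup.coe_mul, Matrix.SpecialLinearGroup.coe_neg,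
    Matrix.SpecialLinearGroup.coe_one, S_mul_S_eq]

lemma ST_cube_eq_neg_one' : ((S * T) * (S * T) * (S * T) : SL(2, ℤ)) = -1 := by
  apply Subtype.ext
  rw [Matrix.SpecialLinearGroup.coe_mul, Matrix.SpecialLinearGroup.coe_mul,
    Matrix.SpecialLinearGroup.coe_mul, Matrix.SpecialLinearGroup.coe_neg,
    Matrix.SpecialLinearGroup.coe_one, coe_S, coe_T]
  ext i j
  fin_cases i <;> fin_cases j <;> simp [Matrix.mul_apply, Fin.sum_univ_two]

/-- **Existence of Heisenberg cocycles** with prescribed values on `S` (trivial) and `S * T`. -/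
theorem exists_heisCocycle (hneg : ∀ x : X, (-1 : SL(2, ℤ)) • x = x) (u v z : X → R)
    (hu : ∀ x, u x + u ((S * T) • x) + u ((S * T) • (S * T) • x) = 0)
    (hv : ∀ x, v x + v ((S * T) • x) + v ((S * T) • (S * T) • x) = 0)
    (hz : ∀ x, z x + z ((S * T) • x) + z ((S * T) • (S * T) • x) + u ((S * T) • x) * v x
      + u ((S * T) • (S * T) • x) * (v x + v ((S * T) • x)) = 0) :
    ∃ a b c : SL(2, ℤ) → X → R, IsHeisCocycle a b c ∧
      a S = 0 ∧ b S = 0 ∧ c S = 0 ∧ a (S * T) = u ∧ b (S * T) = v ∧ c (S * T) = z := by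
  have hs : (heisPerm S (0 : X → R) 0 0 : Equiv.Perm (X × R × R × R)) ^ 2 = 1 := by
    ext ⟨x, t₁, t₂, t₃⟩ : 1
    rw [pow_two, Equiv.Perm.mul_apply, heisPerm_apply, heisPerm_apply, Equiv.Perm.one_apply,
      ← mul_smul, S_mul_S_eq_neg_one', hneg]
    simp
  have hU : (heisPerm (S * T) u v z : Equiv.Perm (X × R × R × R)) ^ 3 = 1 := by
    ext ⟨x, t₁, t₂, t₃⟩ : 1
    rw [pow_succ, pow_two, Equiv.Perm.mul_apply, Equiv.Perm.mul_apply, heisPerm_apply,
      heisPerm_apply, heisPerm_apply, Equiv.Perm.one_apply]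
    have h1 : (S * T) • (S * T) • (S * T) • x = x := by
      rw [smul_smul, smul_smul, ST_cube_eq_neg_one', hneg]
    rw [h1]
    refine Prod.ext rfl (Prod.ext ?_ (Prod.ext ?_ ?_))
    · show t₁ + u x + u ((S * T) • x) + u ((S * T) • (S * T) • x) = t₁
      linear_combination hu x
    · show t₂ + v x + v ((S * T) • x) + v ((S * T) • (S * T) • x) = t₂
      linear_combination hv x
    · show t₃ + z x + u x * t₂ + z ((S * T) • x) + u ((S * T) • x) * (t₂ + v x)
        + z ((S * T) • (S * T) • x) + u ((S * T) • (S * T) • x) * (t₂ + v x + v ((S * T) • x))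
        = t₃
      linear_combination hz x + t₂ * hu x
  obtain ⟨Φ, hΦS, hΦU⟩ := Fermat.Agent.S21.H585.exists_hom_of_sq_cube _ _ hs hU
  -- every `Φ g` has the Heisenberg shape over `g`
  have hP : ∀ g : SL(2, ℤ), ∃ a b c : X → R, ∀ x t₁ t₂ t₃,
      Φ g (x, t₁, t₂, t₃) = (g • x, t₁ + a x, t₂ + b x, t₃ + c x + a x * t₂) := by
    intro g
    have hg : g ∈ Subgroup.closure ({S, S * T} : Set SL(2, ℤ)) := by
      rw [closure_S_ST_eq_top]; trivial
    induction hg using Subgroup.closure_induction with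
    | mem x hx =>
      rcases hx with rfl | rfl
      · exact ⟨0, 0, 0, fun x t₁ t₂ t₃ => by rw [hΦS, heisPerm_apply]⟩
      · exact ⟨u, v, z, fun x t₁ t₂ t₃ => by rw [hΦU, heisPerm_apply]⟩
    | one => exact ⟨0, 0, 0, fun x t₁ t₂ t₃ => by simp⟩
    | mul g h _ _ hg hh =>
      obtain ⟨a, b, c, hm⟩ := hg
      obtain ⟨a', b', c', hn⟩ := hh
      refine ⟨fun x => a' x + a (h • x), fun x => b' x + b (h • x),
        fun x => c' x + c (h • x) + a (h • x) * b' x, fun x t₁ t₂ t₃ => ?_⟩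
      rw [map_mul, Equiv.Perm.mul_apply, hn, hm, mul_smul]
      refine Prod.ext rfl (Prod.ext ?_ (Prod.ext ?_ ?_))
      · show t₁ + a' x + a (h • x) = t₁ + (a' x + a (h • x))
        ring
      · show t₂ + b' x + b (h • x) = t₂ + (b' x + b (h • x))
        ring
      · show t₃ + c' x + a' x * t₂ + c (h • x) + a (h • x) * (t₂ + b' x) =
          t₃ + (c' x + c (h • x) + a (h • x) * b' x) + (a' x + a (h • x)) * t₂
        ring
    | inv g _ hg =>
      obtain ⟨a, b, c, hm⟩ := hg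
      refine ⟨fun x => - a (g⁻¹ • x), fun x => - b (g⁻¹ • x),
        fun x => - c (g⁻¹ • x) + a (g⁻¹ • x) * b (g⁻¹ • x), fun x t₁ t₂ t₃ => ?_⟩
      rw [map_inv, Equiv.Perm.inv_eq_iff_eq, hm, smul_inv_smul]
      refine Prod.ext rfl (Prod.ext ?_ (Prod.ext ?_ ?_))
      · show t₁ = t₁ + -a (g⁻¹ • x) + a (g⁻¹ • x)
        ring
      · show t₂ = t₂ + -b (g⁻¹ • x) + b (g⁻¹ • x)
        ring
      · show t₃ = t₃ + (-c (g⁻¹ • x) + a (g⁻¹ • x) * b (g⁻¹ • x)) + -a (g⁻¹ • x) * t₂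
          + c (g⁻¹ • x) + a (g⁻¹ • x) * (t₂ + -b (g⁻¹ • x))
        ring
  choose a b c habc using hP
  have key : ∀ g h x, (a (g * h) x, b (g * h) x, c (g * h) x) =
      (a h x + a g (h • x), b h x + b g (h • x), c h x + c g (h • x) + a g (h • x) * b h x) := by
    intro g h x
    have h1 := habc (g * h) x 0 0 0
    rw [map_mul, Equiv.Perm.mul_apply, habc h, habc g] at h1
    have h2 := (congrArg Prod.snd h1).symm
    simpa using h2
  refine ⟨a, b, c, ⟨fun g h x => ?_, fun g h x => ?_, fun g h x => ?_⟩, ?_, ?_, ?_, ?_, ?_, ?_⟩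
  · exact congrArg Prod.fst (key g h x)
  · exact congrArg (fun p => p.2.1) (key g h x)
  · exact congrArg (fun p => p.2.2) (key g h x)
  all_goals
    funext x
    first
    | (have h1 := habc S x 0 0 0
       rw [hΦS, heisPerm_apply] at h1
       have h2 := (congrArg Prod.snd h1).symm
       simp only [Prod.mk.injEq] at h2
       simpa using h2.1)
    | (have h1 := habc S x 0 0 0
       rw [hΦS, heisPerm_apply] at h1
       have h2 := (congrArg Prod.snd h1).symm
       simp only [Prod.mk.injEq] at h2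
       simpa using h2.2.1)
    | (have h1 := habc S x 0 0 0
       rw [hΦS, heisPerm_apply] at h1
       have h2 := (congrArg Prod.snd h1).symm
       simp only [Prod.mk.injEq] at h2
       simpa using h2.2.2)
    | (have h1 := habc (S * T) x 0 0 0
       rw [hΦU, heisPerm_apply] at h1
       have h2 := (congrArg Prod.snd h1).symm
       simp only [Prod.mk.injEq] at h2
       simpa using h2.1)
    | (have h1 := habc (S * T) x 0 0 0
       rw [hΦU, heisPerm_apply] at h1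
       have h2 := (congrArg Prod.snd h1).symm
       simp only [Prod.mk.injEq] at h2
       simpa using h2.2.1)
    | (have h1 := habc (S * T) x 0 0 0
       rw [hΦU, heisPerm_apply] at h1
       have h2 := (congrArg Prod.snd h1).symm
       simp only [Prod.mk.injEq] at h2
       simpa using h2.2.2)

end

section Additive

variable {X : Type*} [MulAction SL(2, ℤ) X] {A : Type*} [AddCommGroup A]

lemma addCocycle_one {f : SL(2, ℤ) → X → A} (hf : ∀ g h x, f (g * h) x = f h x + f g (h • x))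
    (x : X) : f 1 x = 0 := by
  have := hf 1 1 x
  rw [one_mul, one_smul] at this
  exact left_eq_add.mp this

lemma addCocycle_inv {f : SL(2, ℤ) → X → A} (hf : ∀ g h x, f (g * h) x = f h x + f g (h • x))
    (g : SL(2, ℤ)) (x : X) : f g⁻¹ x = - f g (g⁻¹ • x) := by
  have := hf g g⁻¹ x
  rw [mul_inv_cancel, addCocycle_one hf] at this
  exact eq_neg_of_add_eq_zero_left this.symm

/-- Additive cocycles are determined by their values on `S` and `S * T`. -/
theorem addCocycle_ext {f f' : SL(2, ℤ) → X → A}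
    (hf : ∀ g h x, f (g * h) x = f h x + f g (h • x))
    (hf' : ∀ g h x, f' (g * h) x = f' h x + f' g (h • x))
    (hS : f S = f' S) (hU : f (S * T) = f' (S * T)) : f = f' := by
  funext g
  have hg : g ∈ Subgroup.closure ({S, S * T} : Set SL(2, ℤ)) := by
    rw [closure_S_ST_eq_top]; trivial
  induction hg using Subgroup.closure_induction with
  | mem x hx =>
    rcases hx with rfl | rfl
    · exact hS
    · exact hU
  | one =>
    funext x
    rw [addCocycle_one hf, addCocycle_one hf']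
  | mul g h _ _ hg hh =>
    funext x
    rw [hf, hf', hg, hh]
  | inv g _ hg =>
    funext x
    rw [addCocycle_inv hf, addCocycle_inv hf', hg]

end Additive

end Fermat.Agent.S41.H221

end
-- ===== PACK-END S41/H221/PDHeisCocycle.lean

-- ===== PACK-BEGIN S15/H542/ModBSpec.lean
section


/-!
# S15, piece MOD-B (architect helper542): the complex bridge, sub-interface

`VeluModularPairStatement` (see `ModSpec.lean`) is split as follows.

* `VeluMapStatement` (B0): Vélu's curve commutes with field embeddings.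
* `IsModularPairMapStatement` (B0'): `IsModularPair` is insensitive to field embeddings.
* `Uniformization E` / `UniformizationStatement` (B2 + B3): every elliptic curve over `ℂ` is
  `ℂ/Λ`, via `z ↦ (℘(z) - b₂/12, (℘'(z) - a₁ x - a₃)/2)`, an additive surjection with kernel `Λ`.
* `LatticeVeluStatement` (B4): for `Λ' = Λ + ℤ z₀` (`p z₀ ∈ Λ`, `z₀ ∉ Λ`),
  `g₂(Λ') = g₂(Λ) + 10 ∑_{k=1}^{p-1} ℘''(k z₀)`, `g₃(Λ') = g₃(Λ) + (7/6) ∑_{k=1}^{p-1} ℘''''(k z₀)`,
  with `℘'' = 6℘² - g₂/2`, `℘'''' = 120 ℘³ - 18 g₂ ℘ - 12 g₃`.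
* `LatticeModularPairStatement` (B5): for such `Λ ⊂ Λ'`, `Δ(Λ') ≠ 0` and
  `(j(Λ), j(Λ'))` is a point of the plane model of `X₀(p)`.
* `VeluModularPairComplexStatement` (B-ℂ): the bridge over `ℂ`.
-/

set_option autoImplicit false

noncomputable section

open WeierstrassCurve AlgebraicCurve ModularCurve
open scoped WeierstrassCurve.Affine

namespace Fermat.Agent.S15.H542

/-- **B0.**  Vélu's curve commutes with field embeddings. -/
def VeluMapStatement : Prop :=
  ∀ {K L : Type} [Field K] [Field L] [DecidableEq K] [DecidableEq L] [Algebra K L]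
    (W : WeierstrassCurve K) (Q : W.toAffine.Point) (p : ℕ),
    veluCurve (W⁄L) (WeierstrassCurve.Affine.Point.map (W' := W) (Algebra.ofId K L) Q) p =
      (veluCurve W Q p).map (algebraMap K L)

/-- **B0'.**  `IsModularPair` only depends on the pair up to field embeddings. -/
def IsModularPairMapStatement : Prop :=
  ∀ {K L : Type} [Field K] [Field L] [Algebra ℚ K] [Algebra ℚ L] (f : K →+* L)
    (N : ℕ) [NeZero N] (a a' : K),
    IsModularPair N (f a) (f a') ↔ IsModularPair N a a'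

/-- The lattice `j`-invariant `1728 g₂³ / (g₂³ - 27 g₃²)`. -/
def latticeJ (L : PeriodPair) : ℂ := 1728 * L.g₂ ^ 3 / (L.g₂ ^ 3 - 27 * L.g₃ ^ 2)

/-- Complex uniformisation data for an elliptic curve over `ℂ`. -/
structure Uniformization [DecidableEq ℂ] (E : WeierstrassCurve ℂ) where
  /-- the period lattice -/
  L : PeriodPair
  g₂_eq : L.g₂ = E.c₄ / 12
  g₃_eq : L.g₃ = E.c₆ / 216
  /-- the parametrisation -/
  φ : ℂ →+ E.toAffine.Point
  φ_surjective : Function.Surjective φ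
  φ_eq_zero_iff : ∀ z : ℂ, φ z = 0 ↔ z ∈ L.lattice
  xOf_φ : ∀ z : ℂ, z ∉ L.lattice → xOf (φ z) = L.weierstrassP z - E.b₂ / 12
  yOf_φ : ∀ z : ℂ, z ∉ L.lattice →
    2 * yOf (φ z) + E.a₁ * xOf (φ z) + E.a₃ = L.derivWeierstrassP z

/-- **B2 + B3.**  Every elliptic curve over `ℂ` has a uniformisation. -/
def UniformizationStatement : Prop :=
  ∀ [DecidableEq ℂ] (E : WeierstrassCurve ℂ), E.Δ ≠ 0 → Nonempty (Uniformization E)

/-- `Λ' = Λ + ℤ z₀`. -/
def IsSuperLattice (L L' : PeriodPair) (z₀ : ℂ) : Prop :=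
  ∀ z : ℂ, z ∈ L'.lattice ↔ ∃ k : ℤ, z - k * z₀ ∈ L.lattice

/-- **B4.**  The lattice form of Vélu's formulas. -/
def LatticeVeluStatement : Prop :=
  ∀ (L : PeriodPair) (p : ℕ) (_hp : p.Prime) (_hp2 : p ≠ 2) (z₀ : ℂ)
    (_h0 : z₀ ∉ L.lattice) (_hpz : (p : ℂ) * z₀ ∈ L.lattice),
    ∃ L' : PeriodPair, IsSuperLattice L L' z₀ ∧
      L'.g₂ = L.g₂ + 10 * ∑ k ∈ Finset.Icc 1 (p - 1),
        (6 * L.weierstrassP (k * z₀) ^ 2 - L.g₂ / 2) ∧
      L'.g₃ = L.g₃ + 7 / 6 * ∑ k ∈ Finset.Icc 1 (p - 1),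
        (120 * L.weierstrassP (k * z₀) ^ 3 - 18 * L.g₂ * L.weierstrassP (k * z₀) - 12 * L.g₃)

/-- **B5.**  Lattices of index `p` give points of the plane model of `X₀(p)`. -/
def LatticeModularPairStatement : Prop :=
  ∀ (p : ℕ) [NeZero p] (_hp : p.Prime) (L L' : PeriodPair) (z₀ : ℂ)
    (_h0 : z₀ ∉ L.lattice) (_hpz : (p : ℂ) * z₀ ∈ L.lattice) (_hL' : IsSuperLattice L L' z₀),
    L.g₂ ^ 3 - 27 * L.g₃ ^ 2 ≠ 0 ∧ L'.g₂ ^ 3 - 27 * L'.g₃ ^ 2 ≠ 0 ∧
      IsModularPair p (latticeJ L) (latticeJ L')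

/-- **B-ℂ.**  The bridge over `ℂ`. -/
def VeluModularPairComplexStatement : Prop :=
  ∀ [DecidableEq ℂ] (p : ℕ) [NeZero p] (_hp : p.Prime) (_hp2 : p ≠ 2)
    (E : WeierstrassCurve ℂ) (_hΔ : E.Δ ≠ 0)
    (Q : E.toAffine.Point) (_hQord : addOrderOf Q = p),
    (veluCurve E Q p).Δ ≠ 0 ∧ IsModularPair p (jInv E) (jInv (veluCurve E Q p))

end Fermat.Agent.S15.H542

end
end
-- ===== PACK-END S15/H542/ModBSpec.lean

-- ===== PACK-BEGIN S12/H291/Jacobi.lean
section



/-!
# Jacobi's identity for a cyclic subgroup of odd order (helper291, row S12)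

`W` a Weierstrass curve over a field `K` of characteristic `≠ 2` with full rational `2`-torsion:
`4x³ + b₂x² + 2b₄x + b₆ = 4 (x - e)(x - f)(x - g)`, `e, f, g` distinct.  `T₀` a point of odd order
`n`.  With `Π_r := ∏_{k ∈ Ico 1 n} (x(k • T₀) - r)`:

  `(g - e)ⁿ Π_f² - (g - f)ⁿ Π_e² - (f - e)ⁿ Π_g² = 0`        (`jacobi_identity`).

This is the relation `λ² + λ'² = 1` between the transformed moduli in Jacobi's `n`-th order
transformation (equivalently: the quotient curve `E/⟨T₀⟩` has `2`-torsion differences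
`(e_k - e_j)ⁿ Π_l / (Π_j Π_k)`), proved here WITHOUT constructing the isogeny: the polynomial
`(X - e) M_e - (X - f) M_f - c D` of degree `≤ n` has the `n + 1` roots `x(T + E_e)`, `x(T + E_f)`
(`T ∈ ⟨T₀⟩`).
-/

set_option autoImplicit false
set_option linter.unusedSectionVars false

namespace Fermat.Agent.S12.H291

open WeierstrassCurve WeierstrassCurve.Affine
open Fermat.Agent.S05.XId

variable {K : Type*} [Field K] [DecidableEq K] {W : Affine K}

/-- The `x`-coordinate of a point (`0` at infinity). -/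
def xc : W.Point → K
  | .zero => 0
  | .some x _ _ => x

@[simp] lemma xc_some {x y : K} (h : W.Nonsingular x y) : xc (Point.some x y h) = x := rfl

lemma xc_neg (P : W.Point) : xc (-P) = xc P := by
  cases P with
  | zero => rfl
  | some x y h => rfl

lemma exists_some_of_ne_zero {P : W.Point} (hP : P ≠ 0) :
    ∃ (x y : K) (h : W.Nonsingular x y), P = Point.some x y h := by
  cases P with
  | zero => exact absurd rfl hP
  | some x y h => exact ⟨x, y, h, rfl⟩

/-- Two affine points with the same `x`-coordinate are equal or opposite. -/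
lemma eq_or_eq_neg_of_xc_eq {P Q : W.Point} (hP : P ≠ 0) (hQ : Q ≠ 0) (h : xc P = xc Q) :
    P = Q ∨ P = -Q := by
  obtain ⟨x₁, y₁, h₁, rfl⟩ := exists_some_of_ne_zero hP
  obtain ⟨x₂, y₂, h₂, rfl⟩ := exists_some_of_ne_zero hQ
  simp only [xc_some] at h
  subst h
  rcases Y_eq_of_X_eq h₁.1 h₂.1 rfl with hy | hy
  · left; subst hy; rfl
  · right
    rw [Point.neg_some]
    subst hy
    rfl

/-- Full rational `2`-torsion: `4x³ + b₂x² + 2b₄x + b₆ = 4 (x - e)(x - f)(x - g)`. -/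
structure FullTwo (W : Affine K) (e f g : K) : Prop where
  two_ne : (2 : K) ≠ 0
  hb₂ : W.b₂ = -4 * (e + f + g)
  hb₄ : W.b₄ = 2 * (e * f + e * g + f * g)
  hb₆ : W.b₆ = -4 * (e * f * g)
  hef : e ≠ f
  heg : e ≠ g
  hfg : f ≠ g

namespace FullTwo

variable {e f g : K}

lemma swap23 (h : FullTwo W e f g) : FullTwo W e g f where
  two_ne := h.two_ne
  hb₂ := by rw [h.hb₂]; ring
  hb₄ := by rw [h.hb₄]; ring
  hb₆ := by rw [h.hb₆]; ring
  hef := h.heg
  heg := h.hef
  hfg := h.hfg.symm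

lemma swap12 (h : FullTwo W e f g) : FullTwo W f e g where
  two_ne := h.two_ne
  hb₂ := by rw [h.hb₂]; ring
  hb₄ := by rw [h.hb₄]; ring
  hb₆ := by rw [h.hb₆]; ring
  hef := h.hef.symm
  heg := h.hfg
  hfg := h.heg

lemma rot (h : FullTwo W e f g) : FullTwo W f g e := h.swap12.swap23

lemma rot' (h : FullTwo W e f g) : FullTwo W g e f := h.swap23.swap12

lemma four_ne (h : FullTwo W e f g) : (4 : K) ≠ 0 := by
  have : (4 : K) = 2 * 2 := by norm_num
  rw [this]
  exact mul_ne_zero h.two_ne h.two_ne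

lemma hb₈ (h : FullTwo W e f g) :
    W.b₈ = (W.b₂ * W.b₆ - W.b₄ ^ 2) / 4 := by
  rw [eq_div_iff h.four_ne, mul_comm]
  exact W.b_relation

lemma dblDen_eq (h : FullTwo W e f g) (x : K) :
    dblDen W x = 4 * ((x - e) * (x - f) * (x - g)) := by
  simp only [dblDen, h.hb₂, h.hb₄, h.hb₆]
  ring

/-- The `y`-coordinate of the `2`-torsion point with `x = e`. -/
def yTwo (W : Affine K) (e : K) : K := -(W.a₁ * e + W.a₃) / 2

lemma equation_two (h : FullTwo W e f g) : W.Equation e (yTwo W e) := by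
  rw [Affine.equation_iff]
  have h0 := h.dblDen_eq e
  simp only [dblDen, WeierstrassCurve.b₂, WeierstrassCurve.b₄, WeierstrassCurve.b₆, sub_self,
    zero_mul, mul_zero] at h0
  have h2 := h.two_ne
  simp only [yTwo]
  field_simp
  linear_combination (-1) * h0

lemma nonsingular_two (h : FullTwo W e f g) : W.Nonsingular e (yTwo W e) := by
  rw [Affine.nonsingular_iff]
  refine ⟨h.equation_two, Or.inl ?_⟩
  have h2 := h.two_ne
  have hb2 := h.hb₂
  have hb4 := h.hb₄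
  simp only [WeierstrassCurve.b₂, WeierstrassCurve.b₄] at hb2 hb4
  have key : W.a₁ * yTwo W e - (3 * e ^ 2 + 2 * W.a₂ * e + W.a₄) = -((e - f) * (e - g)) := by
    simp only [yTwo]
    field_simp
    linear_combination (-e) * hb2 - hb4
  intro h0
  have : (e - f) * (e - g) = 0 := by linear_combination key - h0
  rcases mul_eq_zero.mp this with h1 | h1
  · exact h.hef (sub_eq_zero.mp h1)
  · exact h.heg (sub_eq_zero.mp h1)

/-- The `2`-torsion point `(e, -(a₁e + a₃)/2)`. -/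
def twoPt (h : FullTwo W e f g) : W.Point := Point.some e (yTwo W e) h.nonsingular_two

lemma twoPt_ne_zero (h : FullTwo W e f g) : h.twoPt ≠ 0 := by
  intro h0
  exact Point.some_ne_zero _ h0

@[simp] lemma xc_twoPt (h : FullTwo W e f g) : xc h.twoPt = e := rfl

lemma negY_two (h : FullTwo W e f g) : W.negY e (yTwo W e) = yTwo W e := by
  have h2 := h.two_ne
  simp only [negY, yTwo]
  field_simp
  ring

lemma neg_twoPt (h : FullTwo W e f g) : -h.twoPt = h.twoPt := by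
  simp only [twoPt, Point.neg_some]
  congr 1
  exact h.negY_two

lemma two_nsmul_twoPt (h : FullTwo W e f g) : h.twoPt + h.twoPt = 0 := by
  have := h.neg_twoPt
  calc h.twoPt + h.twoPt = h.twoPt + -h.twoPt := by rw [this]
    _ = 0 := add_neg_cancel _

lemma hb₈' (h : FullTwo W e f g) :
    W.b₈ = 4 * (e + f + g) * (e * f * g) - (e * f + e * g + f * g) ^ 2 := by
  rw [h.hb₈, h.hb₂, h.hb₄, h.hb₆, div_eq_iff h.four_ne]
  ring

/-- `F_e(x₁, x₂) = (x₁ - e)(x₂ - e) - (e - f)(e - g)`. -/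
def FF (e f g : K) (x₁ x₂ : K) : K := (x₁ - e) * (x₂ - e) - (e - f) * (e - g)

/-- **Product formula**: `(x(P+T) - e)(x(P-T) - e)(x_P - x_T)² = F_e(x_P, x_T)²`. -/
lemma prod_formula (h : FullTwo W e f g) {P T : W.Point} (hP : P ≠ 0) (hT : T ≠ 0)
    (hx : xc P ≠ xc T) :
    (xc (P + T) - e) * (xc (P - T) - e) * (xc P - xc T) ^ 2 = FF e f g (xc P) (xc T) ^ 2 := by
  obtain ⟨x₁, y₁, h₁, rfl⟩ := exists_some_of_ne_zero hP
  obtain ⟨x₂, y₂, h₂, rfl⟩ := exists_some_of_ne_zero hT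
  simp only [xc_some] at hx ⊢
  obtain ⟨x₃, y₃, x₄, y₄, h₃, h₄, hadd, hsub, hsum, hprod⟩ := add_sub_some h₁ h₂ hx
  rw [hadd, hsub]
  simp only [xc_some]
  simp only [sumNum, prodNum, h.hb₈', h.hb₂, h.hb₄, h.hb₆] at hsum hprod
  simp only [FF]
  linear_combination hprod - e * hsum

/-- **Translation by a `2`-torsion point**: `(x(P + E_e) - e)(x_P - e) = (e - f)(e - g)`. -/
lemma translate_formula (h : FullTwo W e f g) {P : W.Point} (hP : P ≠ 0) (hx : xc P ≠ e) :
    P + h.twoPt ≠ 0 ∧ (xc (P + h.twoPt) - e) * (xc P - e) = (e - f) * (e - g) := by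
  obtain ⟨x₁, y₁, h₁, rfl⟩ := exists_some_of_ne_zero hP
  simp only [xc_some] at hx ⊢
  obtain ⟨x₃, y₃, x₄, y₄, h₃, h₄, hadd, hsub, hsum, hprod⟩ :=
    add_sub_some h₁ h.nonsingular_two hx
  have hadd' : Point.some x₁ y₁ h₁ + h.twoPt = Point.some x₃ y₃ h₃ := hadd
  have hsub' : Point.some x₁ y₁ h₁ - h.twoPt = Point.some x₄ y₄ h₄ := hsub
  rw [sub_eq_add_neg, h.neg_twoPt, hadd'] at hsub'
  have h34 : x₃ = x₄ := by
    have := congrArg xc hsub'
    simpa using this
  subst h34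
  rw [hadd']
  refine ⟨Point.some_ne_zero _, ?_⟩
  simp only [xc_some]
  simp only [sumNum, h.hb₂, h.hb₄, h.hb₆] at hsum
  have h2 := h.two_ne
  have hne : x₁ - e ≠ 0 := sub_ne_zero.mpr hx
  have h2ne : 2 * (x₁ - e) ≠ 0 := mul_ne_zero h2 hne
  apply mul_left_cancel₀ h2ne
  linear_combination hsum

end FullTwo

/-! ### Products over the nonzero elements of `ZMod n`, `n` odd -/

section Pairing

variable {n : ℕ} [NeZero n]

/-- The nonzero elements of `ZMod n`. -/
abbrev nz (n : ℕ) [NeZero n] : Finset (ZMod n) := (Finset.univ : Finset (ZMod n)).erase 0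

lemma mem_nz {a : ZMod n} : a ∈ nz n ↔ a ≠ 0 := by simp [nz]

lemma neg_mem_nz {a : ZMod n} (ha : a ∈ nz n) : -a ∈ nz n := by
  rw [mem_nz] at ha ⊢
  simpa using ha

lemma neg_ne_self_of_odd (hn : Odd n) {a : ZMod n} (ha : a ≠ 0) : -a ≠ a := by
  intro h
  rcases (ZMod.neg_eq_self_iff a).mp h with h0 | h0
  · exact ha h0
  · obtain ⟨k, hk⟩ := hn
    omega

lemma card_nz : (nz n).card = n - 1 := by
  rw [nz, Finset.card_erase_of_mem (Finset.mem_univ _), Finset.card_univ, ZMod.card]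

/-- If `φ(a) φ(-a) = ψ(a) ψ(-a)` for all `a ≠ 0` then `∏ φ = ∏ ψ` over the nonzero elements of
`ZMod n`, `n` odd. -/
lemma prod_nz_eq_of_pair (hn : Odd n) (φ ψ : ZMod n → K)
    (hpair : ∀ a : ZMod n, a ≠ 0 → φ a * φ (-a) = ψ a * ψ (-a)) :
    ∏ a ∈ nz n, φ a = ∏ a ∈ nz n, ψ a := by
  classical
  by_cases hψ : ∀ a ∈ nz n, ψ a ≠ 0
  · have hne : ∏ a ∈ nz n, ψ a ≠ 0 := Finset.prod_ne_zero_iff.mpr hψ
    have key : ∏ a ∈ nz n, (φ a / ψ a) = 1 := by
      refine Finset.prod_involution (fun a _ => -a) ?_ ?_ ?_ ?_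
      · intro a ha
        have ha0 : a ≠ 0 := mem_nz.mp ha
        have h1 := hψ a ha
        have h2 := hψ (-a) (neg_mem_nz ha)
        rw [div_mul_div_comm, hpair a ha0, div_self (mul_ne_zero h1 h2)]
      · intro a ha _
        exact neg_ne_self_of_odd hn (mem_nz.mp ha)
      · intro a ha
        exact neg_mem_nz ha
      · intro a ha
        simp
    rw [Finset.prod_div_distrib, div_eq_one_iff_eq hne] at key
    exact key
  · push Not at hψ
    obtain ⟨a₀, ha₀, h0⟩ := hψ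
    have hR : ∏ a ∈ nz n, ψ a = 0 := Finset.prod_eq_zero ha₀ h0
    have hp := hpair a₀ (mem_nz.mp ha₀)
    rw [h0, zero_mul] at hp
    rcases mul_eq_zero.mp hp with h1 | h1
    · rw [hR, Finset.prod_eq_zero ha₀ h1]
    · rw [hR, Finset.prod_eq_zero (neg_mem_nz ha₀) h1]

end Pairing

/-! ### A cyclic subgroup of odd order -/

section Cyclic

variable {n : ℕ} [NeZero n] {e f g : K} (T : ZMod n →+ W.Point)

/-- `Π_r = ∏_{a ≠ 0} (x(T a) - r)`. -/
noncomputable def piP (r : K) : K := ∏ a ∈ nz n, (xc (T a) - r)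

variable {T}

lemma T_ne_zero (hT : Function.Injective T) {a : ZMod n} (ha : a ≠ 0) : T a ≠ 0 := by
  intro h
  exact ha (hT (h.trans (map_zero T).symm))

lemma eq_zero_of_two_torsion_mem (hT : Function.Injective T) (hn : Odd n) {Q : W.Point}
    (hQ : Q + Q = 0) {c : ZMod n} (hc : Q = T c) : Q = 0 := by
  have h1 : T (c + c) = 0 := by rw [map_add, ← hc, hQ]
  have h2 : c + c = 0 := hT (h1.trans (map_zero T).symm)
  have h3 : -c = c := by
    rw [neg_eq_iff_add_eq_zero]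
    exact h2
  by_cases hc0 : c = 0
  · rw [hc, hc0, map_zero]
  · exact absurd h3 (neg_ne_self_of_odd hn hc0)

lemma twoPt_ne_T (hT : Function.Injective T) (hn : Odd n) (h : FullTwo W e f g) (c : ZMod n) :
    h.twoPt ≠ T c := fun hc =>
  h.twoPt_ne_zero (eq_zero_of_two_torsion_mem hT hn h.two_nsmul_twoPt hc)

lemma T_add_twoPt_ne_zero (hT : Function.Injective T) (hn : Odd n) (h : FullTwo W e f g)
    (a : ZMod n) : T a + h.twoPt ≠ 0 := by
  intro h0
  have : h.twoPt = T (-a) := by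
    rw [map_neg]
    exact (neg_eq_of_add_eq_zero_right h0).symm ▸ rfl
  exact twoPt_ne_T hT hn h _ this

lemma T_add_twoPt_ne_T (hT : Function.Injective T) (hn : Odd n) (h : FullTwo W e f g)
    (a b : ZMod n) : T a + h.twoPt ≠ T b := by
  intro h0
  have : h.twoPt = T (b - a) := by
    rw [map_sub, ← h0]
    abel
  exact twoPt_ne_T hT hn h _ this

lemma xc_T_ne (hT : Function.Injective T) (hn : Odd n) (h : FullTwo W e f g) {a : ZMod n}
    (ha : a ≠ 0) : xc (T a) ≠ e := by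
  intro hx
  have hx' : xc (T a) = xc h.twoPt := by rw [hx, FullTwo.xc_twoPt]
  rcases eq_or_eq_neg_of_xc_eq (T_ne_zero hT ha) h.twoPt_ne_zero hx' with h1 | h1
  · exact twoPt_ne_T hT hn h a h1.symm
  · rw [h.neg_twoPt] at h1
    exact twoPt_ne_T hT hn h a h1.symm

lemma piP_ne_zero (hT : Function.Injective T) (hn : Odd n) (h : FullTwo W e f g) :
    piP T e ≠ 0 := by
  rw [piP, Finset.prod_ne_zero_iff]
  intro a ha
  exact sub_ne_zero.mpr (xc_T_ne hT hn h (mem_nz.mp ha))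

lemma xc_ne_xc_T (hT : Function.Injective T) {P : W.Point} (hP0 : P ≠ 0)
    (hPN : ∀ a, P ≠ T a) {a : ZMod n} (ha : a ≠ 0) : xc P ≠ xc (T a) := by
  intro hx
  rcases eq_or_eq_neg_of_xc_eq hP0 (T_ne_zero hT ha) hx with h1 | h1
  · exact hPN a h1
  · rw [← map_neg] at h1
    exact hPN _ h1

/-- **Pair-product lemma.** -/
lemma prod_FF (hT : Function.Injective T) (hn : Odd n) (h : FullTwo W e f g) {P : W.Point}
    (hP0 : P ≠ 0) (hPN : ∀ a, P ≠ T a) :
    ∏ a ∈ nz n, FullTwo.FF e f g (xc P) (xc (T a)) =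
      (∏ a ∈ nz n, (xc (P + T a) - e)) * ∏ a ∈ nz n, (xc P - xc (T a)) := by
  rw [← Finset.prod_mul_distrib]
  apply prod_nz_eq_of_pair hn
  intro a ha
  have hx := xc_ne_xc_T hT hP0 hPN ha
  have hpf := h.prod_formula hP0 (T_ne_zero hT ha) hx
  rw [map_neg, xc_neg, ← sub_eq_add_neg]
  linear_combination -hpf

/-- **Evaluation lemma.**  For `ξ = x(T a₀ + E_f)`:
`(ξ - e) ∏_{a ≠ 0} (ξ - x(T a + E_e)) · Π_e Π_f = (f - e)ⁿ Π_g ∏_{a ≠ 0} (ξ - x(T a))`. -/
lemma eval_key (hT : Function.Injective T) (hn : Odd n) (h : FullTwo W e f g) (a₀ : ZMod n) :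
    (xc (T a₀ + h.swap12.twoPt) - e) *
        (∏ a ∈ nz n, (xc (T a₀ + h.swap12.twoPt) - xc (T a + h.twoPt))) *
        (piP T e * piP T f)
      = (f - e) ^ n * piP T g * ∏ a ∈ nz n, (xc (T a₀ + h.swap12.twoPt) - xc (T a)) := by
  set P : W.Point := T a₀ + h.swap12.twoPt with hPdef
  set ξ : K := xc P with hξ
  have hP0 : P ≠ 0 := T_add_twoPt_ne_zero hT hn h.swap12 a₀
  have hPN : ∀ a, P ≠ T a := fun a => T_add_twoPt_ne_T hT hn h.swap12 a₀ a
  -- Step 1
  have h1 : (∏ a ∈ nz n, (ξ - xc (T a + h.twoPt))) * piP T e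
      = (∏ a ∈ nz n, (xc (P + T a) - e)) * ∏ a ∈ nz n, (ξ - xc (T a)) := by
    rw [← prod_FF hT hn h hP0 hPN, piP, ← Finset.prod_mul_distrib]
    refine Finset.prod_congr rfl fun a ha => ?_
    have htr := (h.translate_formula (T_ne_zero hT (mem_nz.mp ha))
      (xc_T_ne hT hn h (mem_nz.mp ha))).2
    simp only [FullTwo.FF]
    linear_combination -htr
  -- Step 2
  have h2 : (ξ - e) * ∏ a ∈ nz n, (xc (P + T a) - e)
      = (f - e) * ∏ b ∈ nz n, (xc (T b + h.swap12.twoPt) - e) := by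
    have e1 : (ξ - e) * ∏ a ∈ nz n, (xc (P + T a) - e)
        = ∏ a : ZMod n, (xc (P + T a) - e) := by
      have := Finset.mul_prod_erase (Finset.univ : Finset (ZMod n))
        (fun a => xc (P + T a) - e) (Finset.mem_univ 0)
      simp only [map_zero, add_zero] at this
      exact this
    have e2 : ∏ a : ZMod n, (xc (P + T a) - e)
        = ∏ b : ZMod n, (xc (T b + h.swap12.twoPt) - e) := by
      refine Fintype.prod_equiv (Equiv.addLeft a₀) _ _ fun a => ?_
      simp only [Equiv.coe_addLeft, map_add, hPdef]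
      congr 2
      abel
    have e3 : (f - e) * ∏ b ∈ nz n, (xc (T b + h.swap12.twoPt) - e)
        = ∏ b : ZMod n, (xc (T b + h.swap12.twoPt) - e) := by
      have := Finset.mul_prod_erase (Finset.univ : Finset (ZMod n))
        (fun b => xc (T b + h.swap12.twoPt) - e) (Finset.mem_univ 0)
      simp only [map_zero, zero_add, FullTwo.xc_twoPt] at this
      exact this
    rw [e1, e2, e3]
  -- Step 3
  have h3 : (∏ b ∈ nz n, (xc (T b + h.swap12.twoPt) - e)) * piP T f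
      = (f - e) ^ (n - 1) * piP T g := by
    rw [piP, piP, ← Finset.prod_mul_distrib, ← card_nz (n := n), ← Finset.prod_const,
      ← Finset.prod_mul_distrib]
    refine Finset.prod_congr rfl fun b hb => ?_
    have htr := (h.swap12.translate_formula (T_ne_zero hT (mem_nz.mp hb))
      (xc_T_ne hT hn h.swap12 (mem_nz.mp hb))).2
    linear_combination htr
  have hn1 : (f - e) ^ n = (f - e) * (f - e) ^ (n - 1) := by
    rw [← pow_succ']
    congr 1
    have := NeZero.ne n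
    omega
  rw [hn1]
  calc (ξ - e) * (∏ a ∈ nz n, (ξ - xc (T a + h.twoPt))) * (piP T e * piP T f)
      = (ξ - e) * ((∏ a ∈ nz n, (ξ - xc (T a + h.twoPt))) * piP T e) * piP T f := by ring
    _ = ((ξ - e) * ∏ a ∈ nz n, (xc (P + T a) - e)) * (∏ a ∈ nz n, (ξ - xc (T a))) * piP T f := by
        rw [h1]; ring
    _ = (f - e) * ((∏ b ∈ nz n, (xc (T b + h.swap12.twoPt) - e)) * piP T f) *
          (∏ a ∈ nz n, (ξ - xc (T a))) := by
        rw [h2]; ring
    _ = (f - e) * (f - e) ^ (n - 1) * piP T g * ∏ a ∈ nz n, (ξ - xc (T a)) := by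
        rw [h3]; ring

/-! ### The polynomial with too many roots -/

open Polynomial

variable (T)

/-- `M_e = ∏_{a ≠ 0} (X - x(T a + E_e))`. -/
noncomputable def polyM (h : FullTwo W e f g) : K[X] :=
  ∏ a ∈ nz n, (X - C (xc (T a + h.twoPt)))

/-- `D = ∏_{a ≠ 0} (X - x(T a))`. -/
noncomputable def polyD : K[X] := ∏ a ∈ nz n, (X - C (xc (T a)))

/-- `L = Π_e Π_f ((X - e) M_e - (X - f) M_f) - (f - e)ⁿ Π_g D`. -/
noncomputable def polyL (h : FullTwo W e f g) : K[X] :=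
  C (piP T e * piP T f) * ((X - C e) * polyM T h - (X - C f) * polyM T h.swap12)
    - C ((f - e) ^ n * piP T g) * polyD T

variable {T}

lemma natDegree_polyM (h : FullTwo W e f g) : (polyM T h).natDegree = n - 1 := by
  rw [polyM, natDegree_finsetProd_X_sub_C_eq_card, card_nz]

lemma natDegree_polyD : (polyD T).natDegree = n - 1 := by
  rw [polyD, natDegree_finsetProd_X_sub_C_eq_card, card_nz]

lemma natDegree_polyL_le (h : FullTwo W e f g) : (polyL T h).natDegree ≤ n := by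
  have hn0 := NeZero.ne n
  have hM : ∀ (r : K) (Q : K[X]), Q.natDegree = n - 1 → ((X - C r) * Q).natDegree ≤ n := by
    intro r Q hQ
    refine (natDegree_mul_le).trans ?_
    rw [natDegree_X_sub_C, hQ]
    omega
  have h1 : ((X - C e) * polyM T h - (X - C f) * polyM T h.swap12).natDegree ≤ n :=
    (natDegree_sub_le _ _).trans (max_le (hM e _ (natDegree_polyM h))
      (hM f _ (natDegree_polyM h.swap12)))
  have h2 : (C (piP T e * piP T f) *
      ((X - C e) * polyM T h - (X - C f) * polyM T h.swap12)).natDegree ≤ n :=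
    (natDegree_C_mul_le _ _).trans h1
  have h3 : (C ((f - e) ^ n * piP T g) * polyD T).natDegree ≤ n := by
    refine (natDegree_C_mul_le _ _).trans ?_
    rw [natDegree_polyD]
    omega
  exact (natDegree_sub_le _ _).trans (max_le h2 h3)

lemma eval_polyM (h : FullTwo W e f g) (ξ : K) :
    (polyM T h).eval ξ = ∏ a ∈ nz n, (ξ - xc (T a + h.twoPt)) := by
  simp [polyM, eval_prod]

lemma eval_polyD (ξ : K) : (polyD T).eval ξ = ∏ a ∈ nz n, (ξ - xc (T a)) := by
  simp [polyD, eval_prod]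

lemma eval_polyL (h : FullTwo W e f g) (ξ : K) :
    (polyL T h).eval ξ = piP T e * piP T f *
        ((ξ - e) * (polyM T h).eval ξ - (ξ - f) * (polyM T h.swap12).eval ξ)
      - (f - e) ^ n * piP T g * (polyD T).eval ξ := by
  simp [polyL]

/-- `(ξ - e) M_e(ξ) = 0` at `ξ = x(T a₀ + E_e)`. -/
lemma eval_self_eq_zero (h : FullTwo W e f g) (a₀ : ZMod n) :
    (xc (T a₀ + h.twoPt) - e) * (polyM T h).eval (xc (T a₀ + h.twoPt)) = 0 := by
  by_cases ha : a₀ = 0
  · subst ha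
    simp
  · rw [eval_polyM]
    have : ∏ a ∈ nz n, (xc (T a₀ + h.twoPt) - xc (T a + h.twoPt)) = 0 :=
      Finset.prod_eq_zero (i := a₀) (mem_nz.mpr ha) (sub_self _)
    rw [this, mul_zero]

lemma eval_polyL_root_f (hT : Function.Injective T) (hn : Odd n) (h : FullTwo W e f g)
    (a₀ : ZMod n) : (polyL T h).eval (xc (T a₀ + h.swap12.twoPt)) = 0 := by
  have hk := eval_key hT hn h a₀
  have h0 := eval_self_eq_zero (T := T) h.swap12 a₀
  rw [eval_polyL, h0, eval_polyM, eval_polyD]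
  linear_combination hk

lemma eval_polyL_root_e (hT : Function.Injective T) (hn : Odd n) (h : FullTwo W e f g)
    (a₀ : ZMod n) : (polyL T h).eval (xc (T a₀ + h.twoPt)) = 0 := by
  have hk := eval_key hT hn h.swap12 a₀
  have h0 := eval_self_eq_zero (T := T) h a₀
  have hodd : (e - f) ^ n = -(f - e) ^ n := by
    rw [← Odd.neg_pow hn, neg_sub]
  rw [hodd] at hk
  rw [eval_polyL, h0, eval_polyM, eval_polyD]
  linear_combination -hk

lemma twoPt_congr {f' g' : K} (h : FullTwo W e f g) (h' : FullTwo W e f' g') :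
    h'.twoPt = h.twoPt := rfl

lemma two_mul_card_image_ge (hT : Function.Injective T) (hn : Odd n) (h : FullTwo W e f g) :
    n ≤ 2 * ((Finset.univ : Finset (ZMod n)).image fun a => xc (T a + h.twoPt)).card := by
  have key := Finset.card_le_mul_card_image (f := fun a : ZMod n => xc (T a + h.twoPt))
    Finset.univ 2 ?_
  · simpa [ZMod.card] using key
  · intro y hy
    obtain ⟨a₁, -, rfl⟩ := Finset.mem_image.mp hy
    refine (Finset.card_le_card (?_ : _ ⊆ ({a₁, -a₁} : Finset (ZMod n)))).trans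
      Finset.card_le_two
    intro a ha
    simp only [Finset.mem_filter, Finset.mem_univ, true_and] at ha
    rcases eq_or_eq_neg_of_xc_eq (T_add_twoPt_ne_zero hT hn h a)
      (T_add_twoPt_ne_zero hT hn h a₁) ha with h1 | h1
    · have : T a = T a₁ := add_right_cancel h1
      simp [hT this]
    · have : T a = T (-a₁) := by
        rw [neg_add, h.neg_twoPt, ← map_neg] at h1
        exact add_right_cancel h1
      simp [hT this]

lemma disjoint_images (hT : Function.Injective T) (hn : Odd n) (h : FullTwo W e f g) :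
    Disjoint ((Finset.univ : Finset (ZMod n)).image fun a => xc (T a + h.twoPt))
      ((Finset.univ : Finset (ZMod n)).image fun a => xc (T a + h.swap12.twoPt)) := by
  rw [Finset.disjoint_left]
  intro x hx hx'
  obtain ⟨a, -, rfl⟩ := Finset.mem_image.mp hx
  obtain ⟨b, -, hb⟩ := Finset.mem_image.mp hx'
  have hQ2 : (h.twoPt + h.swap12.twoPt) + (h.twoPt + h.swap12.twoPt) = 0 := by
    have h1 := h.two_nsmul_twoPt
    have h2 := h.swap12.two_nsmul_twoPt
    calc (h.twoPt + h.swap12.twoPt) + (h.twoPt + h.swap12.twoPt)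
        = (h.twoPt + h.twoPt) + (h.swap12.twoPt + h.swap12.twoPt) := by abel
      _ = 0 := by rw [h1, h2, add_zero]
  have hmem : ∃ c : ZMod n, h.twoPt + h.swap12.twoPt = T c := by
    rcases eq_or_eq_neg_of_xc_eq (T_add_twoPt_ne_zero hT hn h.swap12 b)
      (T_add_twoPt_ne_zero hT hn h a) hb with h1 | h1
    · refine ⟨b - a, ?_⟩
      rw [map_sub]
      have h3 : h.twoPt = T b + h.swap12.twoPt - T a := by rw [h1]; abel
      have h4 := h.swap12.neg_twoPt
      calc h.twoPt + h.swap12.twoPt = (T b + h.swap12.twoPt - T a) + h.swap12.twoPt := by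
            rw [← h3]
        _ = T b - T a + (h.swap12.twoPt + h.swap12.twoPt) := by abel
        _ = T b - T a := by rw [h.swap12.two_nsmul_twoPt, add_zero]
    · refine ⟨-(a + b), ?_⟩
      rw [map_neg, map_add]
      have h3 : h.swap12.twoPt = -(T a + h.twoPt) - T b := by rw [← h1]; abel
      have h4 := h.neg_twoPt
      calc h.twoPt + h.swap12.twoPt = h.twoPt + (-(T a + h.twoPt) - T b) := by rw [← h3]
        _ = -(T a + T b) := by abel
  obtain ⟨c, hc⟩ := hmem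
  have h0 := eq_zero_of_two_torsion_mem hT hn hQ2 hc
  have h5 : h.twoPt = -h.swap12.twoPt := eq_neg_of_add_eq_zero_left h0
  rw [h.swap12.neg_twoPt] at h5
  have := congrArg xc h5
  simp only [FullTwo.xc_twoPt] at this
  exact h.hef this

/-- The polynomial `L` vanishes identically. -/
lemma polyL_eq_zero (hT : Function.Injective T) (hn : Odd n) (h : FullTwo W e f g) :
    polyL T h = 0 := by
  classical
  refine eq_zero_of_natDegree_lt_card_of_eval_eq_zero' (polyL T h)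
    (((Finset.univ : Finset (ZMod n)).image fun a => xc (T a + h.twoPt)) ∪
      ((Finset.univ : Finset (ZMod n)).image fun a => xc (T a + h.swap12.twoPt))) ?_ ?_
  · intro ξ hξ
    rcases Finset.mem_union.mp hξ with h1 | h1
    · obtain ⟨a, -, rfl⟩ := Finset.mem_image.mp h1
      exact eval_polyL_root_e hT hn h a
    · obtain ⟨a, -, rfl⟩ := Finset.mem_image.mp h1
      exact eval_polyL_root_f hT hn h a
  · rw [Finset.card_union_of_disjoint (disjoint_images hT hn h)]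
    have h1 := two_mul_card_image_ge hT hn h
    have h2 := two_mul_card_image_ge hT hn h.swap12
    have h3 := natDegree_polyL_le (T := T) h
    obtain ⟨k, hk⟩ := hn
    omega

/-- **Jacobi's identity** (indexed by `ZMod n`). -/
theorem jacobi_zmod (hT : Function.Injective T) (hn : Odd n) (h : FullTwo W e f g) :
    (g - e) ^ n * piP T f ^ 2 - (g - f) ^ n * piP T e ^ 2 - (f - e) ^ n * piP T g ^ 2 = 0 := by
  have hL := congrArg (Polynomial.eval g) (polyL_eq_zero hT hn h)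
  rw [eval_polyL, eval_polyM, eval_polyM, eval_polyD, eval_zero] at hL
  have hk1 := eval_key hT hn h.swap23 (0 : ZMod n)
  have hk2 := eval_key hT hn h.rot (0 : ZMod n)
  simp only [map_zero, zero_add, FullTwo.xc_twoPt] at hk1 hk2
  rw [twoPt_congr h h.swap23] at hk1
  rw [twoPt_congr h.swap12 h.rot] at hk2
  have hD : ∏ a ∈ nz n, (g - xc (T a)) ≠ 0 := by
    rw [Finset.prod_ne_zero_iff]
    intro a ha
    exact sub_ne_zero.mpr (xc_T_ne hT hn h.rot' (mem_nz.mp ha)).symm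
  apply mul_left_cancel₀ hD
  rw [mul_zero]
  linear_combination (-piP T f) * hk1 + piP T e * hk2 + piP T g * hL

end Cyclic

/-! ### The statement for a point of odd order -/

section Final

variable {e f g : K}

/-- `Π_r(T₀, n) = ∏_{k ∈ Ico 1 n} (x(k • T₀) - r)`. -/
noncomputable def piProd (T₀ : W.Point) (n : ℕ) (r : K) : K :=
  ∏ k ∈ Finset.Ico 1 n, (xc (k • T₀) - r)

/-- The homomorphism `ZMod n →+ W.Point`, `a ↦ a • T₀`, for `n • T₀ = 0`. -/
noncomputable def zmodHom {n : ℕ} (T₀ : W.Point) (h : n • T₀ = 0) : ZMod n →+ W.Point :=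
  ZMod.lift n ⟨zmultiplesHom W.Point T₀, by
    rw [zmultiplesHom_apply, natCast_zsmul]
    exact h⟩

lemma zmodHom_natCast {n : ℕ} (T₀ : W.Point) (h : n • T₀ = 0) (k : ℕ) :
    zmodHom T₀ h (k : ZMod n) = k • T₀ := by
  have := ZMod.lift_coe n (⟨zmultiplesHom W.Point T₀, by
    rw [zmultiplesHom_apply, natCast_zsmul]
    exact h⟩ : {f : ℤ →+ W.Point // f n = 0}) (k : ℤ)
  simp only [Int.cast_natCast, zmultiplesHom_apply, natCast_zsmul] at this
  exact this

lemma zmodHom_apply {n : ℕ} [NeZero n] (T₀ : W.Point) (h : n • T₀ = 0) (a : ZMod n) :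
    zmodHom T₀ h a = a.val • T₀ := by
  conv_lhs => rw [← ZMod.natCast_zmod_val a]
  exact zmodHom_natCast T₀ h a.val

lemma zmodHom_injective {n : ℕ} [NeZero n] {T₀ : W.Point} (hT₀ : addOrderOf T₀ = n) :
    Function.Injective (zmodHom T₀ (hT₀ ▸ addOrderOf_nsmul_eq_zero T₀)) := by
  rw [injective_iff_map_eq_zero]
  intro a ha
  rw [zmodHom_apply] at ha
  have h1 : n ∣ a.val := by
    have := addOrderOf_dvd_of_nsmul_eq_zero ha
    rwa [hT₀] at this
  have h2 := ZMod.val_lt a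
  have h3 : a.val = 0 := Nat.eq_zero_of_dvd_of_lt h1 h2
  exact (ZMod.val_eq_zero a).mp h3

lemma piP_zmodHom {n : ℕ} [NeZero n] (T₀ : W.Point) (h : n • T₀ = 0) (r : K) :
    piP (zmodHom T₀ h) r = piProd T₀ n r := by
  rw [piP, piProd]
  refine Finset.prod_nbij' (fun a => a.val) (fun k => (k : ZMod n)) ?_ ?_ ?_ ?_ ?_
  · intro a ha
    have ha0 : a ≠ 0 := mem_nz.mp ha
    rw [Finset.mem_Ico]
    exact ⟨ZMod.val_pos.mpr ha0, ZMod.val_lt a⟩
  · intro k hk
    rw [Finset.mem_Ico] at hk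
    rw [mem_nz]
    intro h0
    rw [ZMod.natCast_eq_zero_iff] at h0
    have := Nat.le_of_dvd (by omega) h0
    omega
  · intro a _
    exact ZMod.natCast_zmod_val a
  · intro k hk
    rw [Finset.mem_Ico] at hk
    exact ZMod.val_natCast_of_lt hk.2
  · intro a _
    rw [zmodHom_apply]

/-- **Jacobi's identity** for a point `T₀` of odd order `n` on a Weierstrass curve with full
rational `2`-torsion `e, f, g`:
`(g - e)ⁿ Π_f² - (g - f)ⁿ Π_e² - (f - e)ⁿ Π_g² = 0`, `Π_r = ∏_{k=1}^{n-1} (x(k T₀) - r)`. -/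
theorem jacobi_identity (h : FullTwo W e f g) {n : ℕ} (hn : Odd n) {T₀ : W.Point}
    (hT₀ : addOrderOf T₀ = n) :
    (g - e) ^ n * piProd T₀ n f ^ 2 - (g - f) ^ n * piProd T₀ n e ^ 2
      - (f - e) ^ n * piProd T₀ n g ^ 2 = 0 := by
  have : NeZero n := ⟨by obtain ⟨k, hk⟩ := hn; omega⟩
  have h0 : n • T₀ = 0 := hT₀ ▸ addOrderOf_nsmul_eq_zero T₀
  have key := jacobi_zmod (T := zmodHom T₀ h0) (zmodHom_injective hT₀) hn h
  rw [piP_zmodHom, piP_zmodHom, piP_zmodHom] at key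
  exact key

end Final

end Fermat.Agent.S12.H291

end
-- ===== PACK-END S12/H291/Jacobi.lean

-- ===== PACK-BEGIN Ribet/H164/FreyModelAtP.lean
section


/-!
# RIBET piece G1a (helper164): `FreyModelAtPStatement`

The integral Frey curve `P.freyCurveInt` is an integral model of `P.freyCurve`, has nonzero
discriminant, is semistable at `p` (in fact at every prime: `c₄ = A² + AB + B²`,
`2⁸ Δ = (ABC)²` with `A = aᵖ`, `B = bᵖ`, `C = cᵖ` pairwise coprime) and is peu ramifié at `p`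
(`v_p(Δ) = 2p · v_p(abc)`).  The hypothesis `p ∣ abc` is not needed.
-/

set_option autoImplicit false

namespace Fermat.Agent.Ribet.H164

open WeierstrassCurve

variable (P : FreyPackage)

lemma g1a_four_dvd : (4 : ℤ) ∣ P.b ^ P.p - 1 - P.a ^ P.p := by
  have hp := P.hp5
  have hb : (2 : ℤ) ∣ P.b := (ZMod.intCast_zmod_eq_zero_iff_dvd P.b 2).1 P.hb2
  have hb4 : (4 : ℤ) ∣ P.b ^ P.p := by
    obtain ⟨k, hk⟩ := hb
    obtain ⟨j, hj⟩ : ∃ j, P.p = j + 2 := ⟨P.p - 2, by omega⟩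
    have : P.b ^ P.p = 4 * (2 ^ j * k ^ P.p) := by
      rw [hk, hj]
      ring
    exact ⟨_, this⟩
  have ha : ((P.a ^ P.p : ℤ) : ZMod 4) = 3 := by
    push_cast
    rw [P.ha4]
    obtain ⟨m, hm⟩ := P.hp_odd
    rw [hm, pow_succ, pow_mul]
    have : (3 : ZMod 4) ^ 2 = 1 := by decide
    rw [this, one_pow, one_mul]
  have hb' : ((P.b ^ P.p : ℤ) : ZMod 4) = 0 :=
    (ZMod.intCast_zmod_eq_zero_iff_dvd _ 4).2 hb4
  apply (ZMod.intCast_zmod_eq_zero_iff_dvd _ 4).1
  push_cast at ha hb' ⊢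
  rw [ha, hb']
  decide

lemma g1a_sixteen_dvd : (16 : ℤ) ∣ -(P.a ^ P.p) * P.b ^ P.p := by
  have hp := P.hp5
  have hb : (2 : ℤ) ∣ P.b := (ZMod.intCast_zmod_eq_zero_iff_dvd P.b 2).1 P.hb2
  obtain ⟨k, hk⟩ := hb
  obtain ⟨j, hj⟩ : ∃ j, P.p = j + 4 := ⟨P.p - 4, by omega⟩
  have : -(P.a ^ P.p) * P.b ^ P.p = 16 * (-(P.a ^ P.p) * (2 ^ j * k ^ P.p)) := by
    rw [hk, hj]
    ring
  exact ⟨_, this⟩

lemma g1a_four_mul_a₂ : 4 * P.freyCurveInt.a₂ = P.b ^ P.p - 1 - P.a ^ P.p := by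
  simp only [FreyPackage.freyCurveInt]
  exact Int.mul_ediv_cancel' (g1a_four_dvd P)

lemma g1a_sixteen_mul_a₄ : 16 * P.freyCurveInt.a₄ = -(P.a ^ P.p) * P.b ^ P.p := by
  simp only [FreyPackage.freyCurveInt]
  exact Int.mul_ediv_cancel' (g1a_sixteen_dvd P)

/-- The Frey curve over `ℚ` is the base change of the integral Frey curve. -/
theorem g1a_freyCurve_eq_map : P.freyCurve = P.freyCurveInt.map (Int.castRingHom ℚ) := by
  have h4 := g1a_four_dvd P
  have h16 := g1a_sixteen_dvd P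
  ext
  · simp [FreyPackage.freyCurve, FreyPackage.freyCurveInt, WeierstrassCurve.map]
  · simp only [FreyPackage.freyCurve, FreyPackage.freyCurveInt, WeierstrassCurve.map,
      eq_intCast]
    rw [Int.cast_div h4 (by norm_num)]
    push_cast
    ring
  · simp [FreyPackage.freyCurve, FreyPackage.freyCurveInt, WeierstrassCurve.map]
  · simp only [FreyPackage.freyCurve, FreyPackage.freyCurveInt, WeierstrassCurve.map,
      eq_intCast]
    rw [Int.cast_div h16 (by norm_num)]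
    push_cast
    ring
  · simp [FreyPackage.freyCurve, FreyPackage.freyCurveInt, WeierstrassCurve.map]

theorem g1a_isIntegralModelOf : P.freyCurveInt.IsIntegralModelOf P.freyCurve :=
  ⟨1, by rw [one_smul, g1a_freyCurve_eq_map]⟩

/-- `c₄ = A² + AB + B²`. -/
theorem g1a_c₄ : P.freyCurveInt.c₄ =
    (P.a ^ P.p) ^ 2 + P.a ^ P.p * P.b ^ P.p + (P.b ^ P.p) ^ 2 := by
  have h2 := g1a_four_mul_a₂ P
  have h4 := g1a_sixteen_mul_a₄ P
  have e1 : P.freyCurveInt.a₁ = 1 := rfl
  have e3 : P.freyCurveInt.a₃ = 0 := rfl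
  simp only [WeierstrassCurve.c₄, WeierstrassCurve.b₂, WeierstrassCurve.b₄, e1, e3]
  linear_combination (1 + 4 * P.freyCurveInt.a₂ + P.b ^ P.p - P.a ^ P.p) * h2 - 3 * h4

/-- `2⁸ Δ = (abc)^{2p}`. -/
theorem g1a_Δ : 2 ^ 8 * P.freyCurveInt.Δ = (P.a * P.b * P.c) ^ (2 * P.p) := by
  have h2 := g1a_four_mul_a₂ P
  have h4 := g1a_sixteen_mul_a₄ P
  have e1 : P.freyCurveInt.a₁ = 1 := rfl
  have e3 : P.freyCurveInt.a₃ = 0 := rfl
  have e6 : P.freyCurveInt.a₆ = 0 := rfl
  have hb2 : P.freyCurveInt.b₂ = P.b ^ P.p - P.a ^ P.p := by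
    simp only [WeierstrassCurve.b₂, e1]; linear_combination h2
  have hΔ : P.freyCurveInt.Δ =
      P.freyCurveInt.a₄ ^ 2 * ((P.b ^ P.p - P.a ^ P.p) ^ 2 - 64 * P.freyCurveInt.a₄) := by
    simp only [WeierstrassCurve.Δ, WeierstrassCurve.b₄, WeierstrassCurve.b₆,
      WeierstrassCurve.b₈, hb2, e1, e3, e6]
    ring
  rw [hΔ, pow_mul', mul_pow, mul_pow, ← P.hFLT]
  linear_combination
    ((P.b ^ P.p - P.a ^ P.p) ^ 2 * (16 * P.freyCurveInt.a₄ - P.a ^ P.p * P.b ^ P.p)
      - 4 * ((16 * P.freyCurveInt.a₄) ^ 2 - 16 * P.freyCurveInt.a₄ * (P.a ^ P.p * P.b ^ P.p)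
        + (P.a ^ P.p * P.b ^ P.p) ^ 2)) * h4

theorem g1a_Δ_ne_zero : P.freyCurveInt.Δ ≠ 0 := by
  intro h
  have := g1a_Δ P
  rw [h, mul_zero] at this
  exact pow_ne_zero _ P.habc0 this.symm

/-- The integral Frey curve is semistable (at every prime). -/
theorem g1a_semistable (q : ℕ) (hq : q.Prime) (hΔ : (q : ℤ) ∣ P.freyCurveInt.Δ) :
    ¬ (q : ℤ) ∣ P.freyCurveInt.c₄ := by
  intro hc4
  have hq' : Prime (q : ℤ) := Nat.prime_iff_prime_int.mp hq
  have hp0 : P.p ≠ 0 := P.hp0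
  -- `q ∣ abc`
  have h1 : (q : ℤ) ∣ (P.a * P.b * P.c) ^ (2 * P.p) := by
    rw [← g1a_Δ]; exact dvd_mul_of_dvd_right hΔ _
  have h2 : (q : ℤ) ∣ P.a * P.b * P.c := hq'.dvd_of_dvd_pow h1
  rw [g1a_c₄] at hc4
  have hnot : ∀ x y : ℤ, gcd x y = 1 → (q : ℤ) ∣ x → (q : ℤ) ∣ y → False := by
    intro x y hxy hx hy
    have : (q : ℤ) ∣ gcd x y := dvd_gcd hx hy
    rw [hxy] at this
    exact hq'.not_dvd_one this
  have hab : (q : ℤ) ∣ P.a → (q : ℤ) ∣ P.b → False := hnot _ _ P.hgcdab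
  have hac : (q : ℤ) ∣ P.a → (q : ℤ) ∣ P.c → False := hnot _ _ P.hgcdac
  have hbc : (q : ℤ) ∣ P.b → (q : ℤ) ∣ P.c → False := hnot _ _ P.hgcdbc
  rcases hq'.dvd_or_dvd h2 with h3 | hc
  · rcases hq'.dvd_or_dvd h3 with ha | hb
    · -- `q ∣ a`, so `q ∣ B²`
      have hA : (q : ℤ) ∣ P.a ^ P.p := dvd_pow ha hp0
      have : (q : ℤ) ∣ (P.b ^ P.p) ^ 2 := by
        have e : (P.b ^ P.p) ^ 2 = ((P.a ^ P.p) ^ 2 + P.a ^ P.p * P.b ^ P.p + (P.b ^ P.p) ^ 2)
            - P.a ^ P.p * (P.a ^ P.p + P.b ^ P.p) := by ring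
        rw [e]
        exact dvd_sub hc4 (dvd_mul_of_dvd_left hA _)
      exact hab ha (hq'.dvd_of_dvd_pow (hq'.dvd_of_dvd_pow this))
    · have hB : (q : ℤ) ∣ P.b ^ P.p := dvd_pow hb hp0
      have : (q : ℤ) ∣ (P.a ^ P.p) ^ 2 := by
        have e : (P.a ^ P.p) ^ 2 = ((P.a ^ P.p) ^ 2 + P.a ^ P.p * P.b ^ P.p + (P.b ^ P.p) ^ 2)
            - P.b ^ P.p * (P.a ^ P.p + P.b ^ P.p) := by ring
        rw [e]
        exact dvd_sub hc4 (dvd_mul_of_dvd_left hB _)
      exact hab (hq'.dvd_of_dvd_pow (hq'.dvd_of_dvd_pow this)) hb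
  · -- `q ∣ c`, so `q ∣ A + B` and `q ∣ AB`
    have hC : (q : ℤ) ∣ P.a ^ P.p + P.b ^ P.p := by rw [P.hFLT]; exact dvd_pow hc hp0
    have : (q : ℤ) ∣ P.a ^ P.p * P.b ^ P.p := by
      have e : P.a ^ P.p * P.b ^ P.p = (P.a ^ P.p + P.b ^ P.p) * (P.a ^ P.p + P.b ^ P.p)
          - ((P.a ^ P.p) ^ 2 + P.a ^ P.p * P.b ^ P.p + (P.b ^ P.p) ^ 2) := by ring
      rw [e]
      exact dvd_sub (dvd_mul_of_dvd_left hC _) hc4
    rcases hq'.dvd_or_dvd this with hA | hB
    · exact hac (hq'.dvd_of_dvd_pow hA) hc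
    · exact hbc (hq'.dvd_of_dvd_pow hB) hc

lemma g1a_padicValInt_pow (q : ℕ) (hq : q.Prime) (n : ℕ) {x : ℤ} (hx : x ≠ 0) :
    padicValInt q (x ^ n) = n * padicValInt q x := by
  have : Fact q.Prime := ⟨hq⟩
  induction n with
  | zero => simp
  | succ n ih =>
    rw [pow_succ, padicValInt.mul (pow_ne_zero _ hx) hx, ih]
    ring

/-- `v_q(Δ) = 2p · v_q(abc)` for every odd prime `q`. -/
theorem g1a_padicValInt_Δ (q : ℕ) (hq : q.Prime) (hq2 : q ≠ 2) :
    padicValInt q P.freyCurveInt.Δ = 2 * P.p * padicValInt q (P.a * P.b * P.c) := by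
  have : Fact q.Prime := ⟨hq⟩
  have h := congrArg (padicValInt q) (g1a_Δ P)
  rw [padicValInt.mul (by norm_num) (g1a_Δ_ne_zero P), g1a_padicValInt_pow q hq _ P.habc0] at h
  have h0 : padicValInt q ((2 : ℤ) ^ 8) = 0 := by
    apply padicValInt.eq_zero_of_not_dvd
    intro hd
    have hq' : Prime (q : ℤ) := Nat.prime_iff_prime_int.mp hq
    have h2 : (q : ℤ) ∣ 2 := hq'.dvd_of_dvd_pow hd
    have h3 : q ∣ 2 := by exact_mod_cast h2
    exact hq2 ((Nat.prime_dvd_prime_iff_eq hq Nat.prime_two).mp h3)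
  rw [h0, zero_add] at h
  exact h

/-- The integral Frey curve is peu ramifié at `p` (and at every odd prime). -/
theorem g1a_peuRamifiee (q : ℕ) (hq : q.Prime) (hq2 : q ≠ 2) :
    (P.freyCurveInt.map (Int.castRingHom ℚ)).IsPeuRamifieeAt P.p q := by
  unfold WeierstrassCurve.IsPeuRamifieeAt
  rw [WeierstrassCurve.map_Δ, eq_intCast, padicValRat.of_int, g1a_padicValInt_Δ P q hq hq2]
  push_cast
  exact ⟨2 * (padicValInt q (P.a * P.b * P.c) : ℤ), by ring⟩

/-- **G1a.**  `Spec.FreyModelAtPStatement`. -/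
theorem freyModelAtP : Spec.FreyModelAtPStatement := by
  intro P _
  refine ⟨P.freyCurveInt, g1a_isIntegralModelOf P, g1a_Δ_ne_zero P,
    g1a_semistable P P.p P.pp, g1a_peuRamifiee P P.p P.pp ?_⟩
  have := P.hp5
  omega

end Fermat.Agent.Ribet.H164

end
-- ===== PACK-END Ribet/H164/FreyModelAtP.lean

-- ===== PACK-BEGIN S10/FLTOfKummer.lean
section




/-!
# S10: Fermat's Last Theorem for an odd prime `p` from Case I, the PID property of `ℤ[ζ_p]`
and Kummer's lemma.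
-/

set_option autoImplicit false

namespace Fermat.Agent.S10

open NumberField

/-- Fermat's Last Theorem for the odd prime `p`, from Case I, the PID property of the ring of
integers of a `p`-th cyclotomic field `K`, and Kummer's lemma for `K`. -/
theorem flt_of_kummer (p : ℕ) [hp : Fact p.Prime] (hp2 : p ≠ 2)
    (hcaseI : ∀ a b c : ℤ, IsCoprime a b → a ^ p + b ^ p = c ^ p → (p : ℤ) ∣ a * b * c)
    (K : Type*) [Field K] [NumberField K] [IsCyclotomicExtension {p} ℚ K]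
    (hpid : IsPrincipalIdealRing (𝓞 K))
    (hkummer : ∀ u : (𝓞 K)ˣ, (∃ m : ℤ, (p : 𝓞 K) ∣ (u : 𝓞 K) - (m : 𝓞 K)) →
      ∃ v : (𝓞 K)ˣ, u = v ^ p) :
    FermatLastTheoremFor p :=
  flt_of_caseI_caseII hp.out hp2 hcaseI
    (fun _ _ _ hc ha hb hpc hab ↦
      X11.CaseII.caseII_int (K := K) hp2 hkummer hc ha hb hpc hab)

end Fermat.Agent.S10

end
-- ===== PACK-END S10/FLTOfKummer.lean

-- ===== PACK-BEGIN S48/H188/Gamma.lean
section


set_option autoImplicit false

open scoped MatrixGroups ModularForm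
open UpperHalfPlane CongruenceSubgroup Matrix

namespace Fermat.Agent.S48.H188

noncomputable section

variable {k : ℤ} {N : ℕ}

/-- `F` is invariant under `Γ₁(N)` in weight `k`. -/
def Inv1 (N : ℕ) (k : ℤ) (F : ℍ → ℂ) : Prop := ∀ γ ∈ Gamma1 N, F ∣[k] γ = F

/-- Value of the character `Γ₀(N) → (ℤ/N)ˣ`, `γ ↦ d`. -/
def dd (N : ℕ) (g : SL(2, ℤ)) : ZMod N := ((g 1 1 : ℤ) : ZMod N)

lemma dd_mul {g g' : SL(2, ℤ)} (hg : g ∈ Gamma0 N) :
    dd N (g * g') = dd N g * dd N g' := by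
  have h := (Matrix.two_mul_expl g.1 g'.1).2.2.2
  have hc : ((g 1 0 : ℤ) : ZMod N) = 0 := Gamma0_mem.mp hg
  simp only [dd, Matrix.SpecialLinearGroup.coe_mul]
  rw [h]
  push_cast
  rw [hc]; ring

lemma dd_one : dd N (1 : SL(2, ℤ)) = 1 := by simp [dd]

lemma dd_inv_mul {g : SL(2, ℤ)} (hg : g ∈ Gamma0 N) : dd N g⁻¹ * dd N g = 1 := by
  rw [← dd_mul ((Gamma0 N).inv_mem hg), inv_mul_cancel, dd_one]

lemma dd_mul_inv {g : SL(2, ℤ)} (hg : g ∈ Gamma0 N) : dd N g * dd N g⁻¹ = 1 := by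
  rw [mul_comm, dd_inv_mul hg]

lemma mem_Gamma1_iff {g : SL(2, ℤ)} : g ∈ Gamma1 N ↔ g ∈ Gamma0 N ∧ dd N g = 1 := by
  rw [Gamma1_mem, Gamma0_mem]
  constructor
  · rintro ⟨-, h2, h3⟩; exact ⟨h3, h2⟩
  · rintro ⟨h3, h2⟩
    refine ⟨?_, h2, h3⟩
    have hdet := SL_det_eq g
    have : (((g 0 0) * (g 1 1) - (g 0 1) * (g 1 0) : ℤ) : ZMod N) = 1 := by rw [hdet]; simp
    push_cast at this
    rw [h3] at this
    have h2' : ((g 1 1 : ℤ) : ZMod N) = 1 := h2
    rw [h2'] at this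
    simpa using this

lemma dd_pow {g : SL(2, ℤ)} (hg : g ∈ Gamma0 N) (n : ℕ) : dd N (g ^ n) = dd N g ^ n := by
  induction n with
  | zero => simp [dd_one]
  | succ n ih => rw [pow_succ, dd_mul ((Gamma0 N).pow_mem hg n), ih, pow_succ]

/-- The diamond operator is well defined. -/
lemma Inv1.slash_eq_of_dd_eq {F : ℍ → ℂ} (hF : Inv1 N k F) {g g' : SL(2, ℤ)}
    (hg : g ∈ Gamma0 N) (hg' : g' ∈ Gamma0 N) (h : dd N g = dd N g') :
    F ∣[k] g = F ∣[k] g' := by
  have hmem : g' * g⁻¹ ∈ Gamma1 N := by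
    rw [mem_Gamma1_iff]
    refine ⟨(Gamma0 N).mul_mem hg' ((Gamma0 N).inv_mem hg), ?_⟩
    rw [dd_mul hg', ← h, dd_mul_inv hg]
  have : g' = (g' * g⁻¹) * g := by group
  rw [this, SlashAction.slash_mul, hF _ hmem]

/-- `Γ₁(N)` is normal in `Γ₀(N)`. -/
lemma conj_mem_Gamma1 {g γ : SL(2, ℤ)} (hg : g ∈ Gamma0 N) (hγ : γ ∈ Gamma1 N) :
    g * γ * g⁻¹ ∈ Gamma1 N := by
  rw [mem_Gamma1_iff] at hγ ⊢
  refine ⟨(Gamma0 N).mul_mem ((Gamma0 N).mul_mem hg hγ.1) ((Gamma0 N).inv_mem hg), ?_⟩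
  rw [dd_mul ((Gamma0 N).mul_mem hg hγ.1), dd_mul hg, hγ.2, mul_one, dd_mul_inv hg]

lemma Inv1.slash {F : ℍ → ℂ} (hF : Inv1 N k F) {g : SL(2, ℤ)} (hg : g ∈ Gamma0 N) :
    Inv1 N k (F ∣[k] g) := by
  intro γ hγ
  have : g * γ = (g * γ * g⁻¹) * g := by group
  rw [← SlashAction.slash_mul, this, SlashAction.slash_mul, hF _ (conj_mem_Gamma1 hg hγ)]

lemma Inv1.slash_eq_self_of_dd {F : ℍ → ℂ} (hF : Inv1 N k F) {g : SL(2, ℤ)}
    (hg : g ∈ Gamma0 N) (h : dd N g = 1) : F ∣[k] g = F :=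
  hF g (mem_Gamma1_iff.mpr ⟨hg, h⟩)

lemma Inv1.add {F G : ℍ → ℂ} (hF : Inv1 N k F) (hG : Inv1 N k G) : Inv1 N k (F + G) := by
  intro γ hγ
  rw [SlashAction.add_slash, hF γ hγ, hG γ hγ]

lemma Inv1.smul {F : ℍ → ℂ} (hF : Inv1 N k F) (c : ℂ) : Inv1 N k (c • F) := by
  intro γ hγ
  rw [ModularForm.SL_smul_slash, hF γ hγ]

lemma Inv1.sub {F G : ℍ → ℂ} (hF : Inv1 N k F) (hG : Inv1 N k G) : Inv1 N k (F - G) := by
  intro γ hγ
  rw [sub_eq_add_neg, SlashAction.add_slash, SlashAction.neg_slash, hF γ hγ, hG γ hγ]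

end

end Fermat.Agent.S48.H188

end
-- ===== PACK-END S48/H188/Gamma.lean

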