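import Mathlib
import Fermat.Prelude.Def_ModularCurve_X0
import Mathlib.Tactic
import Mathlib.Algebra.MvPolynomial.Funext
import Mathlib.RingTheory.MvPolynomial.Homogeneous
import Mathlib.RingTheory.GradedAlgebra.Homogeneous.Ideal
import Mathlib.Algebra.Polynomial.Roots
import Fermat.Statements.S10
import Fermat.Prelude.Def_CuspForm_IntegralLattice
import Fermat.Agent.Pack.L1.E1L3
import Fermat.Agent.Pack.L1.E0L3
import Fermat.Agent.Pack.L1.E0L2
import Fermat.Agent.Pack.L1.E0L1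
import Fermat.Agent.Pack.L1.E0L0
import Fermat.Agent.Pack.L1.E1L1
import Fermat.Agent.Pack.L1.E1L0
import Fermat.Agent.Pack.L1.E1L2
import Fermat.Agent.Pack.S44C.G0E1L0

-- ===== PACK-BEGIN S52/B/B1/H170/Family.lean
section
/-
S52 / B1 (helper170): the LINE FAMILY over `ℚ[s]` joining two integral models `W` (at `s = 0`) and
`W'` (at `s = 1`) inside the 5-congruent family:

  `a₁, a₂, a₃` interpolated linearly,  `c₄(s) = C4h c₄ c₆ (M s) (1 + (n-1) s)`,  `c₆(s)` likewise,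
  `a₄(s), a₆(s)` determined by `(a₁, a₂, a₃, c₄, c₆)(s)`.

If `c₄(W') = C4h c₄(W) c₆(W) M n` and `c₆(W') = C6h …` then the fibres are exactly `W_ℚ` and `W'_ℚ`.
-/



set_option autoImplicit false
set_option linter.unusedSimpArgs false

namespace Fermat.Agent.S52.B.B1.H170

open Polynomial Fermat.Agent.S52.B

/-- the numerator parameter `m(s) = M s`. -/
noncomputable def mP {k : Type*} [Field k] (M : k) : k[X] := C M * X

/-- the denominator parameter `n(s) = 1 + (n - 1) s`. -/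
noncomputable def nP {k : Type*} [Field k] (n : k) : k[X] := 1 + C (n - 1) * X

lemma nP_ne_zero {k : Type*} [Field k] (n : k) : nP n ≠ 0 := by
  intro h
  have := congrArg (Polynomial.eval 0) h
  simp [nP] at this

@[simp] lemma mP_eval_zero {k : Type*} [Field k] (M : k) : (mP M).eval 0 = 0 := by simp [mP]
@[simp] lemma nP_eval_zero {k : Type*} [Field k] (n : k) : (nP n).eval 0 = 1 := by simp [nP]
@[simp] lemma mP_eval_one {k : Type*} [Field k] (M : k) : (mP M).eval 1 = M := by simp [mP]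
@[simp] lemma nP_eval_one {k : Type*} [Field k] (n : k) : (nP n).eval 1 = n := by simp [nP]

lemma map_mP {k K : Type*} [Field k] [Field K] (f : k →+* K) (M : k) :
    (mP M).map f = mP (f M) := by simp [mP]

lemma map_nP {k K : Type*} [Field k] [Field K] (f : k →+* K) (n : k) :
    (nP n).map f = nP (f n) := by simp [nP]

/-- data of the line family. -/
structure LineData where
  a₁ : ℚ
  a₂ : ℚ
  a₃ : ℚ
  a₁' : ℚ
  a₂' : ℚ
  a₃' : ℚ
  c₄ : ℚ
  c₆ : ℚ
  M : ℚ
  n : ℚ

namespace LineData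

variable (d : LineData)

noncomputable def A1 : ℚ[X] := C d.a₁ + C (d.a₁' - d.a₁) * X
noncomputable def A2 : ℚ[X] := C d.a₂ + C (d.a₂' - d.a₂) * X
noncomputable def A3 : ℚ[X] := C d.a₃ + C (d.a₃' - d.a₃) * X
noncomputable def c4P : ℚ[X] := C4h (C d.c₄) (C d.c₆) (mP d.M) (nP d.n)
noncomputable def c6P : ℚ[X] := C6h (C d.c₄) (C d.c₆) (mP d.M) (nP d.n)
noncomputable def b2P : ℚ[X] := d.A1 ^ 2 + 4 * d.A2
noncomputable def b4P : ℚ[X] := C (1 / 24) * (d.b2P ^ 2 - d.c4P)
noncomputable def A4 : ℚ[X] := C (1 / 2) * (d.b4P - d.A1 * d.A3)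
noncomputable def b6P : ℚ[X] := C (1 / 216) * (-d.b2P ^ 3 + 36 * d.b2P * d.b4P - d.c6P)
noncomputable def A6 : ℚ[X] := C (1 / 4) * (d.b6P - d.A3 ^ 2)

/-- **the line family**. -/
noncomputable def fam : WeierstrassCurve ℚ[X] := ⟨d.A1, d.A2, d.A3, d.A4, d.A6⟩

lemma hC2 : (C (1 / 2 : ℚ) : ℚ[X]) * 2 = 1 := by
  rw [← map_ofNat (C : ℚ →+* ℚ[X]) 2, ← C_mul]; norm_num

lemma hC4 : (C (1 / 4 : ℚ) : ℚ[X]) * 4 = 1 := by
  rw [← map_ofNat (C : ℚ →+* ℚ[X]) 4, ← C_mul]; norm_num

lemma hC24 : (C (1 / 24 : ℚ) : ℚ[X]) * 24 = 1 := by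
  rw [← map_ofNat (C : ℚ →+* ℚ[X]) 24, ← C_mul]; norm_num

lemma hC216 : (C (1 / 216 : ℚ) : ℚ[X]) * 216 = 1 := by
  rw [← map_ofNat (C : ℚ →+* ℚ[X]) 216, ← C_mul]; norm_num

@[simp] lemma fam_a₁ : d.fam.a₁ = d.A1 := rfl
@[simp] lemma fam_a₂ : d.fam.a₂ = d.A2 := rfl
@[simp] lemma fam_a₃ : d.fam.a₃ = d.A3 := rfl
@[simp] lemma fam_a₄ : d.fam.a₄ = d.A4 := rfl
@[simp] lemma fam_a₆ : d.fam.a₆ = d.A6 := rfl

lemma fam_b₂ : d.fam.b₂ = d.b2P := by
  rw [WeierstrassCurve.b₂, fam_a₁, fam_a₂, b2P]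

lemma fam_b₄ : d.fam.b₄ = d.b4P := by
  have h2 := hC2
  rw [WeierstrassCurve.b₄, fam_a₁, fam_a₃, fam_a₄, A4]
  generalize d.b4P = p at *
  generalize d.A1 = q at *
  generalize d.A3 = r at *
  generalize (C (1 / 2 : ℚ) : ℚ[X]) = α at *
  linear_combination (p - q * r) * h2

lemma fam_b₆ : d.fam.b₆ = d.b6P := by
  have h4 := hC4
  rw [WeierstrassCurve.b₆, fam_a₃, fam_a₆, A6]
  generalize d.b6P = p at *
  generalize d.A3 = r at *
  generalize (C (1 / 4 : ℚ) : ℚ[X]) = α at *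
  linear_combination (p - r ^ 2) * h4

lemma fam_c₄ : d.fam.c₄ = d.c4P := by
  have h24 := hC24
  rw [WeierstrassCurve.c₄, fam_b₂, fam_b₄, b4P]
  generalize d.b2P = p at *
  generalize d.c4P = q at *
  generalize (C (1 / 24 : ℚ) : ℚ[X]) = α at *
  linear_combination (-(p ^ 2 - q)) * h24

lemma fam_c₆ : d.fam.c₆ = d.c6P := by
  have h216 := hC216
  rw [WeierstrassCurve.c₆, fam_b₂, fam_b₄, fam_b₆, b6P]
  generalize d.b2P = p at *
  generalize d.b4P = q at *
  generalize d.c6P = r at *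
  generalize (C (1 / 216 : ℚ) : ℚ[X]) = α at *
  linear_combination (-(-p ^ 3 + 36 * p * q - r)) * h216

lemma eval_c4P (a : ℚ) : d.c4P.eval a = C4h d.c₄ d.c₆ ((mP d.M).eval a) ((nP d.n).eval a) := by
  have := map_C4h (Polynomial.evalRingHom a) (C d.c₄) (C d.c₆) (mP d.M) (nP d.n)
  simpa [c4P] using this

lemma eval_c6P (a : ℚ) : d.c6P.eval a = C6h d.c₄ d.c₆ ((mP d.M).eval a) ((nP d.n).eval a) := by
  have := map_C6h (Polynomial.evalRingHom a) (C d.c₄) (C d.c₆) (mP d.M) (nP d.n)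
  simpa [c6P] using this

/-- a Weierstrass curve over `ℚ` is determined by `a₁, a₂, a₃, c₄, c₆`. -/
lemma ext_of_c₄_c₆ {E E' : WeierstrassCurve ℚ} (h1 : E.a₁ = E'.a₁) (h2 : E.a₂ = E'.a₂)
    (h3 : E.a₃ = E'.a₃) (h4 : E.c₄ = E'.c₄) (h6 : E.c₆ = E'.c₆) : E = E' := by
  have hb2 : E.b₂ = E'.b₂ := by simp only [WeierstrassCurve.b₂, h1, h2]
  have hb4 : E.b₄ = E'.b₄ := by
    simp only [WeierstrassCurve.c₄, hb2] at h4
    linarith
  have ha4 : E.a₄ = E'.a₄ := by
    simp only [WeierstrassCurve.b₄, h1, h3] at hb4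
    linarith
  have hb6 : E.b₆ = E'.b₆ := by
    simp only [WeierstrassCurve.c₆, hb2, hb4] at h6
    linarith
  have ha6 : E.a₆ = E'.a₆ := by
    simp only [WeierstrassCurve.b₆, h3] at hb6
    linarith
  exact WeierstrassCurve.ext h1 h2 h3 ha4 ha6

lemma fibre_eq (a : ℚ) (E : WeierstrassCurve ℚ)
    (h1 : d.A1.eval a = E.a₁) (h2 : d.A2.eval a = E.a₂) (h3 : d.A3.eval a = E.a₃)
    (h4 : C4h d.c₄ d.c₆ ((mP d.M).eval a) ((nP d.n).eval a) = E.c₄)
    (h6 : C6h d.c₄ d.c₆ ((mP d.M).eval a) ((nP d.n).eval a) = E.c₆) :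
    d.fam.map (Polynomial.evalRingHom a) = E := by
  apply ext_of_c₄_c₆
  · exact h1
  · exact h2
  · exact h3
  · rw [WeierstrassCurve.map_c₄, fam_c₄, ← h4, ← eval_c4P]; rfl
  · rw [WeierstrassCurve.map_c₆, fam_c₆, ← h6, ← eval_c6P]; rfl

end LineData

/-- the line data attached to two integral models and `M, n`. -/
noncomputable def lineData (W W' : WeierstrassCurve ℤ) (M n : ℤ) : LineData where
  a₁ := W.a₁
  a₂ := W.a₂
  a₃ := W.a₃
  a₁' := W'.a₁
  a₂' := W'.a₂
  a₃' := W'.a₃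
  c₄ := W.c₄
  c₆ := W.c₆
  M := M
  n := n

theorem lineData_fibre_zero (W W' : WeierstrassCurve ℤ) (M n : ℤ) :
    (lineData W W' M n).fam.map (Polynomial.evalRingHom 0) = W.map (Int.castRingHom ℚ) := by
  apply LineData.fibre_eq
  · simp [LineData.A1, lineData]
  · simp [LineData.A2, lineData]
  · simp [LineData.A3, lineData]
  · rw [mP_eval_zero, nP_eval_zero, C4h_zero_left, WeierstrassCurve.map_c₄]
    simp [lineData]
  · rw [mP_eval_zero, nP_eval_zero, C6h_zero_left, WeierstrassCurve.map_c₆]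
    simp [lineData]

theorem lineData_fibre_one (W W' : WeierstrassCurve ℤ) (M n : ℤ)
    (hc4 : W'.c₄ = C4h W.c₄ W.c₆ M n) (hc6 : W'.c₆ = C6h W.c₄ W.c₆ M n) :
    (lineData W W' M n).fam.map (Polynomial.evalRingHom 1) = W'.map (Int.castRingHom ℚ) := by
  apply LineData.fibre_eq
  · simp [LineData.A1, lineData]
  · simp [LineData.A2, lineData]
  · simp [LineData.A3, lineData]
  · rw [mP_eval_one, nP_eval_one, WeierstrassCurve.map_c₄, hc4, map_C4h]
    simp [lineData]
  · rw [mP_eval_one, nP_eval_one, WeierstrassCurve.map_c₆, hc6, map_C6h]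
    simp [lineData]

end Fermat.Agent.S52.B.B1.H170

end
-- ===== PACK-END S52/B/B1/H170/Family.lean

-- ===== PACK-BEGIN S24/H902/EtaBridge.lean
section



/-!
# The Euler product: formal power series versus analytic function

The formal product `ModularCurve.etaProd = ∏' n, (1 - X^(n+1)) : ℤ⟦X⟧` (Pi topology) evaluates,
for `‖q‖ < 1`, to the analytic infinite product `∏' n, (1 - q^(n+1))`.
-/

set_option autoImplicit false

noncomputable section

namespace Fermat.Agent.S24.H902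

open Complex PowerSeries Filter Topology ModularCurve
open scoped PowerSeries.WithPiTopology

/-- The Euler function `q ↦ ∏ (1 - q^(n+1))` on `ℂ` (meaningful for `‖q‖ < 1`). -/
def eulerFn (q : ℂ) : ℂ := ∏' n : ℕ, (1 - q ^ (n + 1))

theorem differentiableOn_eulerFn : DifferentiableOn ℂ eulerFn (Metric.ball 0 1) :=
  ModularForm.differentiableOn_tprod_one_sub_pow

theorem eulerFn_ne_zero {q : ℂ} (hq : ‖q‖ < 1) : eulerFn q ≠ 0 := by
  unfold eulerFn
  have hs : Summable fun n : ℕ => ‖-q ^ (n + 1)‖ := by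
    simpa using (summable_nat_add_iff 1).mpr (summable_geometric_of_lt_one (norm_nonneg q) hq)
  have := tprod_one_add_ne_zero_of_summable (f := fun n : ℕ => -q ^ (n + 1)) ?_ hs
  · simpa [sub_eq_add_neg] using this
  · intro i
    have hlt : ‖q ^ (i + 1)‖ < 1 := by
      rw [norm_pow]
      exact pow_lt_one₀ (norm_nonneg q) hq (Nat.succ_ne_zero i)
    intro h0
    have h0' : 1 + -q ^ (i + 1) = 0 := h0
    have : q ^ (i + 1) = 1 := by
      linear_combination -h0'
    rw [this] at hlt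
    simp at hlt

/-- Partial products as polynomials. -/
def partialPoly (s : Finset ℕ) : Polynomial ℂ := ∏ i ∈ s, (1 - Polynomial.X ^ (i + 1))

theorem eval_partialPoly (s : Finset ℕ) (q : ℂ) :
    (partialPoly s).eval q = ∏ i ∈ s, (1 - q ^ (i + 1)) := by
  simp [partialPoly, Polynomial.eval_prod]

theorem iteratedDeriv_polynomial_eval (p : Polynomial ℂ) (n : ℕ) :
    iteratedDeriv n (fun x => p.eval x) = fun x => ((Polynomial.derivative)^[n] p).eval x := by
  induction n with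
  | zero => simp
  | succ n ih =>
    rw [iteratedDeriv_succ, ih]
    funext x
    rw [Polynomial.deriv, Function.iterate_succ_apply']

theorem tendstoLocallyUniformlyOn_partialPoly :
    TendstoLocallyUniformlyOn (fun (s : Finset ℕ) (q : ℂ) => (partialPoly s).eval q) eulerFn
      atTop (Metric.ball 0 1) := by
  have h := ModularForm.multipliableLocallyUniformlyOn_one_sub_pow.hasProdLocallyUniformlyOn
  unfold HasProdLocallyUniformlyOn at h
  have e : (fun (s : Finset ℕ) (q : ℂ) => (partialPoly s).eval q)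
      = fun (s : Finset ℕ) (q : ℂ) => ∏ i ∈ s, (1 - q ^ (i + 1)) := by
    funext s q
    exact eval_partialPoly s q
  rw [e]
  exact h

theorem tendstoLocallyUniformlyOn_iteratedDeriv_partialPoly (n : ℕ) :
    TendstoLocallyUniformlyOn
      (fun (s : Finset ℕ) => iteratedDeriv n (fun q : ℂ => (partialPoly s).eval q))
      (iteratedDeriv n eulerFn) atTop (Metric.ball 0 1) := by
  induction n with
  | zero =>
    simp only [iteratedDeriv_zero]
    exact tendstoLocallyUniformlyOn_partialPoly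
  | succ n ih =>
    have hd : ∀ᶠ s : Finset ℕ in atTop, DifferentiableOn ℂ
        (iteratedDeriv n (fun q : ℂ => (partialPoly s).eval q)) (Metric.ball 0 1) := by
      refine Eventually.of_forall fun s => ?_
      rw [iteratedDeriv_polynomial_eval]
      exact (Polynomial.differentiable _).differentiableOn
    have h := ih.deriv hd Metric.isOpen_ball
    have e : (deriv ∘ fun (s : Finset ℕ) => iteratedDeriv n (fun q : ℂ => (partialPoly s).eval q))
        = fun (s : Finset ℕ) => iteratedDeriv (n + 1) (fun q : ℂ => (partialPoly s).eval q) := by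
      funext s
      simp only [Function.comp_apply]
      rw [iteratedDeriv_succ]
    rw [e, ← iteratedDeriv_succ] at h
    exact h

theorem iteratedDeriv_partialPoly_zero (s : Finset ℕ) (n : ℕ) :
    iteratedDeriv n (fun q : ℂ => (partialPoly s).eval q) 0
      = (n.factorial : ℂ) * (partialPoly s).coeff n := by
  rw [iteratedDeriv_polynomial_eval]
  simp only []
  rw [← Polynomial.coeff_zero_eq_eval_zero, Polynomial.coeff_iterate_derivative, zero_add,
    Nat.descFactorial_self, nsmul_eq_mul]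

/-- Partial products as integral formal power series. -/
theorem coeff_partialPoly (s : Finset ℕ) (n : ℕ) :
    (partialPoly s).coeff n
      = ((PowerSeries.coeff n (∏ i ∈ s, (1 - PowerSeries.X ^ (i + 1)) : PowerSeries ℤ) : ℤ) : ℂ) := by
  have h1 : ((partialPoly s : Polynomial ℂ) : PowerSeries ℂ)
      = PowerSeries.map (Int.castRingHom ℂ) (∏ i ∈ s, (1 - PowerSeries.X ^ (i + 1))) := by
    rw [partialPoly, ← Polynomial.coeToPowerSeries.ringHom_apply, map_prod, map_prod]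
    refine Finset.prod_congr rfl fun i _ => ?_
    simp
  have h2 := congrArg (PowerSeries.coeff n) h1
  rw [Polynomial.coeff_coe, PowerSeries.coeff_map] at h2
  simpa using h2

theorem tendsto_coeff_formal (n : ℕ) :
    Tendsto (fun s : Finset ℕ =>
      (PowerSeries.coeff n (∏ i ∈ s, (1 - PowerSeries.X ^ (i + 1)) : PowerSeries ℤ)))
      atTop (𝓝 (PowerSeries.coeff n etaProd)) := by
  have h := (PowerSeries.WithPiTopology.multipliable_one_sub_X_pow ℤ).hasProd
  have h' : Tendsto (fun s : Finset ℕ => (∏ i ∈ s, (1 - PowerSeries.X ^ (i + 1)) : PowerSeries ℤ))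
      atTop (𝓝 etaProd) := by
    simpa [HasProd, etaProd] using h
  exact ((PowerSeries.WithPiTopology.continuous_coeff ℤ n).tendsto _).comp h'

/-- **Taylor coefficients of the Euler function are the coefficients of the formal product.** -/
theorem taylor0_eulerFn : taylor0 eulerFn = PowerSeries.map (Int.castRingHom ℂ) etaProd := by
  ext n
  rw [coeff_taylor0, PowerSeries.coeff_map]
  have h1 : Tendsto (fun s : Finset ℕ => iteratedDeriv n (fun q : ℂ => (partialPoly s).eval q) 0)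
      atTop (𝓝 (iteratedDeriv n eulerFn 0)) :=
    (tendstoLocallyUniformlyOn_iteratedDeriv_partialPoly n).tendsto_at
      (Metric.mem_ball_self one_pos)
  have h2 : Tendsto (fun s : Finset ℕ => iteratedDeriv n (fun q : ℂ => (partialPoly s).eval q) 0)
      atTop (𝓝 ((n.factorial : ℂ) * ((PowerSeries.coeff n etaProd : ℤ) : ℂ))) := by
    have h3 : Tendsto (fun s : Finset ℕ => (n.factorial : ℂ) *
        ((PowerSeries.coeff n (∏ i ∈ s, (1 - PowerSeries.X ^ (i + 1)) : PowerSeries ℤ) : ℤ) : ℂ))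
        atTop (𝓝 ((n.factorial : ℂ) * ((PowerSeries.coeff n etaProd : ℤ) : ℂ))) := by
      refine Tendsto.const_mul _ ?_
      exact ((continuous_of_discreteTopology (f := fun k : ℤ => (k : ℂ))).tendsto _).comp
        (tendsto_coeff_formal n)
    refine h3.congr fun s => ?_
    rw [iteratedDeriv_partialPoly_zero, coeff_partialPoly]
  have h4 := tendsto_nhds_unique h1 h2
  rw [h4]
  have hn : (n.factorial : ℂ) ≠ 0 := by exact_mod_cast n.factorial_ne_zero
  simp [hn]

/-- The formal Euler product evaluates to the analytic Euler product on the unit disc. -/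
theorem ev_etaProd {q : ℂ} (hq : ‖q‖ < 1) :
    Ev (PowerSeries.map (Int.castRingHom ℂ) etaProd) q (∏' n : ℕ, (1 - q ^ (n + 1))) := by
  rw [← taylor0_eulerFn]
  exact ev_taylor0 differentiableOn_eulerFn hq

/-- `dedekindEtaUnit = etaProd ^ 24` evaluates to `(∏ (1 - q^(n+1)))^24`. -/
theorem ev_dedekindEtaUnit {q : ℂ} (hq : ‖q‖ < 1) :
    Ev (PowerSeries.map (Int.castRingHom ℂ) dedekindEtaUnit) q
      ((∏' n : ℕ, (1 - q ^ (n + 1))) ^ 24) := by
  rw [dedekindEtaUnit, map_pow]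
  exact (ev_etaProd hq).pow 24

/-- The formal inverse `dedekindEtaUnitInv` evaluates to `1 / (∏ (1 - q^(n+1)))^24`. -/
theorem ev_dedekindEtaUnitInv {q : ℂ} (hq : ‖q‖ < 1) :
    Ev (PowerSeries.map (Int.castRingHom ℂ) dedekindEtaUnitInv) q
      ((∏' n : ℕ, (1 - q ^ (n + 1))) ^ 24)⁻¹ := by
  have hmul : PowerSeries.map (Int.castRingHom ℂ) dedekindEtaUnit
      * PowerSeries.map (Int.castRingHom ℂ) dedekindEtaUnitInv = 1 := by
    rw [← map_mul, dedekindEtaUnit_mul_inv, map_one]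
  exact ev_of_mul_eq_one (U := fun q => (∏' n : ℕ, (1 - q ^ (n + 1))) ^ 24) one_pos
    (fun q hq => ev_dedekindEtaUnit hq)
    (fun q hq => pow_ne_zero 24 (eulerFn_ne_zero hq)) hmul hq

end Fermat.Agent.S24.H902

end
end
-- ===== PACK-END S24/H902/EtaBridge.lean

-- ===== PACK-BEGIN S24/H902/JBridge.lean
section


/-!
# Analytic `q`-expansion of `j = E₄³/Δ` equals the Prelude's formal `jNum`

Main result `hasSum_jNum`: for `τ ∈ ℍ` and `q = exp(2πiτ)`,
`∑ (jNum.coeff n) qⁿ = q · E₄(τ)³ / Δ(τ)`.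
-/

set_option autoImplicit false

noncomputable section

namespace Fermat.Agent.S24.H902

open Complex PowerSeries Filter Topology ModularCurve UpperHalfPlane ModularForm
  EisensteinSeries
open scoped MatrixGroups Real

local notation "𝕢" => Function.Periodic.qParam

local notation "Δ" => ModularForm.discriminant

/-- The `q`-expansion of `E₄` is the (image of the) Prelude's integral series `eisenstein4`. -/
theorem qExpansion_E4_eq :
    qExpansion 1 E₄ = PowerSeries.map (Int.castRingHom ℂ) eisenstein4 := by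
  ext m
  rw [E_qExpansion_coeff _ ⟨2, rfl⟩, PowerSeries.coeff_map, eisenstein4, PowerSeries.coeff_mk]
  by_cases hm : m = 0
  · simp [hm]
  · simp only [hm, if_false]
    rw [ArithmeticFunction.sigma_apply]
    norm_num [show bernoulli 4 = -1 / 30 by decide +kernel]

theorem norm_qParam_one_lt_one (τ : ℍ) : ‖𝕢 1 (τ : ℂ)‖ < 1 :=
  Function.Periodic.norm_qParam_lt_one one_pos τ.im_pos

theorem ev_eisenstein4 (τ : ℍ) :
    Ev (PowerSeries.map (Int.castRingHom ℂ) eisenstein4) (𝕢 1 (τ : ℂ)) (E₄ τ) := by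
  have h := ModularForm.hasSum_qExpansion E₄ one_pos one_mem_strictPeriods_SL τ
  rw [qExpansion_E4_eq] at h
  exact h

theorem discriminant_eq_q_mul_eulerFn_pow (τ : ℍ) :
    Δ τ = 𝕢 1 (τ : ℂ) * (∏' n : ℕ, (1 - (𝕢 1 (τ : ℂ)) ^ (n + 1))) ^ 24 := by
  rw [discriminant_eq_q_prod]
  congr 1
  exact (ModularForm.multipliable_one_sub_pow (norm_qParam_one_lt_one τ)).tprod_pow 24

/-- **Bridge.** The Prelude's formal series `jNum` (so that `jq = q⁻¹ · jNum`) evaluates at
`q = exp(2πiτ)` to `q · E₄(τ)³/Δ(τ)`. -/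
theorem ev_jNum (τ : ℍ) :
    Ev (PowerSeries.map (Int.castRingHom ℂ) jNum) (𝕢 1 (τ : ℂ))
      (𝕢 1 (τ : ℂ) * (E₄ τ ^ 3 / Δ τ)) := by
  have hq := norm_qParam_one_lt_one τ
  have hq0 : 𝕢 1 (τ : ℂ) ≠ 0 := Function.Periodic.qParam_ne_zero _
  have hP : (∏' n : ℕ, (1 - (𝕢 1 (τ : ℂ)) ^ (n + 1))) ^ 24 ≠ 0 :=
    pow_ne_zero 24 (eulerFn_ne_zero hq)
  have h := ((ev_eisenstein4 τ).pow 3).mul (ev_dedekindEtaUnitInv hq)
  rw [jNum, map_mul, map_pow]
  refine h.congr_val ?_
  rw [discriminant_eq_q_mul_eulerFn_pow]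
  field_simp

/-- The same statement as a plain `HasSum` with integer coefficients. -/
theorem hasSum_jNum (τ : ℍ) :
    HasSum (fun n : ℕ => ((PowerSeries.coeff n jNum : ℤ) : ℂ) * (𝕢 1 (τ : ℂ)) ^ n)
      (𝕢 1 (τ : ℂ) * (E₄ τ ^ 3 / Δ τ)) := by
  have h := ev_jNum τ
  unfold Ev at h
  simpa [PowerSeries.coeff_map] using h

/-- Variant with `cexp (2πiτ)` written out. -/
theorem hasSum_jNum_cexp (τ : ℍ) :
    HasSum (fun n : ℕ => ((PowerSeries.coeff n jNum : ℤ) : ℂ) * cexp (2 * π * Complex.I * τ) ^ n)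
      (cexp (2 * π * Complex.I * τ) * (E₄ τ ^ 3 / Δ τ)) := by
  have h := hasSum_jNum τ
  have e : 𝕢 1 (τ : ℂ) = cexp (2 * π * Complex.I * τ) := by
    simp [Function.Periodic.qParam]
  rw [e] at h
  exact h

end Fermat.Agent.S24.H902

end
end
-- ===== PACK-END S24/H902/JBridge.lean

-- ===== PACK-BEGIN S17/H199/Ell.lean
section


/-!
# S17 / tower H, formal leaf F-ELL (helper199)

`theorem ell (P : PairingPackage A) : ∃ l, P.EllStatement l`.

From `gauss`, `e3` (with `E := Rt`), `bez`, `mov1`, `mov2` (with `T := Rt`):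

* `L D := pr Rt D - (deg Rt / m) N D` is additive on divisors disjoint from `Rt` (`L_add`);
* `L (Z a) = N Rt + O(1)` uniformly in `a` (`L_Z_bound`);
* hence `L D₁ - L D₂ = O(1)` for linearly equivalent `D₁, D₂` of equal degree `≤ m - 2g`
  disjoint from `Rt` (`L_class_bound`);
* `K D - ((2g-2)/m) N D = L D + O(deg D)` for good `D` (`K_sub_L_bound`);
* `l x := L (D_x)` for a chosen good representative `D_x` of degree `d`.
-/

set_option autoImplicit false

namespace Fermat.Agent.S17.H199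

open Fermat.Agent.S17.H500

variable {A : Type} [AddCommGroup A] (P : PairingPackage A)

theorem m_pos_h199 : 0 < P.m := by
  have h1 := P.one_le_g
  have h2 := P.four_d_le_m
  omega

theorem m_pos_real_h199 : (0 : ℝ) < P.m := by
  exact_mod_cast m_pos_h199 P

/-- `L` is additive on divisors disjoint from `Rt`. -/
theorem L_add_h199 (D E : P.Dv) (h : P.Disj (D + E) P.Rt) :
    P.L (D + E) = P.L D + P.L E := by
  unfold PairingPackage.L
  rw [P.pr_symm P.Rt (D + E), P.pr_add D E P.Rt h, P.N_add, P.pr_symm D, P.pr_symm E]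
  ring

/-- `L (Z a) = N Rt + O(1)`, uniformly in the hyperplane `a`. -/
theorem L_Z_bound_h199 :
    ∃ C : ℝ, ∀ a, P.Disj (P.Z a) P.Rt → |P.L (P.Z a) - P.N P.Rt| ≤ C := by
  obtain ⟨C₁, h₁⟩ := P.e3
  obtain ⟨C₂, h₂⟩ := P.bez
  refine ⟨C₁ * P.deg P.Rt + ((P.deg P.Rt : ℝ) / P.m) * C₂, fun a ha => ?_⟩
  have e := h₁ a P.Rt ha
  have b := h₂ a
  have hm : (0 : ℝ) < P.m := m_pos_real_h199 P
  have hr : (0 : ℝ) ≤ (P.deg P.Rt : ℝ) / P.m := div_nonneg (Nat.cast_nonneg _) hm.le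
  have key : P.L (P.Z a) - P.N P.Rt
      = (P.pr (P.Z a) P.Rt - ((P.deg P.Rt : ℝ) * P.ht a + P.N P.Rt))
        - ((P.deg P.Rt : ℝ) / P.m) * (P.N (P.Z a) - P.m * P.ht a) := by
    unfold PairingPackage.L
    rw [P.pr_symm P.Rt (P.Z a)]
    field_simp
    ring
  rw [key]
  calc |(P.pr (P.Z a) P.Rt - ((P.deg P.Rt : ℝ) * P.ht a + P.N P.Rt))
        - ((P.deg P.Rt : ℝ) / P.m) * (P.N (P.Z a) - P.m * P.ht a)|
      ≤ |P.pr (P.Z a) P.Rt - ((P.deg P.Rt : ℝ) * P.ht a + P.N P.Rt)|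
        + |((P.deg P.Rt : ℝ) / P.m) * (P.N (P.Z a) - P.m * P.ht a)| := abs_sub _ _
    _ = |P.pr (P.Z a) P.Rt - ((P.deg P.Rt : ℝ) * P.ht a + P.N P.Rt)|
        + ((P.deg P.Rt : ℝ) / P.m) * |P.N (P.Z a) - P.m * P.ht a| := by
      rw [abs_mul, abs_of_nonneg hr]
    _ ≤ C₁ * P.deg P.Rt + ((P.deg P.Rt : ℝ) / P.m) * C₂ :=
      add_le_add e (mul_le_mul_of_nonneg_left b hr)

/-- `L` is a class function up to `O(1)` on divisors disjoint from `Rt` of equal degree
`≤ m - 2g`. -/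
theorem L_class_bound_h199 :
    ∃ C : ℝ, ∀ D₁ D₂ : P.Dv, P.deg D₁ = P.deg D₂ → P.deg D₁ + 2 * P.g ≤ P.m →
      P.cls D₁ = P.cls D₂ → P.Disj D₁ P.Rt → P.Disj D₂ P.Rt → |P.L D₁ - P.L D₂| ≤ C := by
  obtain ⟨C, hC⟩ := L_Z_bound_h199 P
  refine ⟨C + C, fun D₁ D₂ hdeg hm hcls h₁ h₂ => ?_⟩
  obtain ⟨R, a₁, a₂, hZ₁, hZ₂, hR⟩ := P.mov2 D₁ D₂ hdeg hm hcls P.Rt
  have hd₁ : P.Disj (D₁ + R) P.Rt := (P.disj_add_left D₁ R P.Rt).mpr ⟨h₁, hR⟩
  have hd₂ : P.Disj (D₂ + R) P.Rt := (P.disj_add_left D₂ R P.Rt).mpr ⟨h₂, hR⟩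
  have e₁ := hC a₁ (by rw [hZ₁]; exact hd₁)
  have e₂ := hC a₂ (by rw [hZ₂]; exact hd₂)
  rw [hZ₁, L_add_h199 P D₁ R hd₁] at e₁
  rw [hZ₂, L_add_h199 P D₂ R hd₂] at e₂
  have key : P.L D₁ - P.L D₂
      = (P.L D₁ + P.L R - P.N P.Rt) - (P.L D₂ + P.L R - P.N P.Rt) := by ring
  rw [key]
  exact (abs_sub _ _).trans (add_le_add e₁ e₂)

/-- (GAUSS) rewritten: `K D - ((2g-2)/m) N D = L D + O(deg D)` for good `D`. -/
theorem K_sub_L_bound_h199 :
    ∃ C : ℝ, ∀ D : P.Dv, P.Good D →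
      |P.L D - (P.K D - ((2 * (P.g : ℝ) - 2) / P.m) * P.N D)| ≤ C * P.deg D := by
  obtain ⟨C, hC⟩ := P.gauss
  refine ⟨C, fun D hD => ?_⟩
  have h := hC D hD
  have hm : (0 : ℝ) < P.m := m_pos_real_h199 P
  have key : P.L D - (P.K D - ((2 * (P.g : ℝ) - 2) / P.m) * P.N D)
      = -(P.K D - (P.pr P.Rt D - (((P.deg P.Rt : ℝ) - (2 * P.g - 2)) / P.m) * P.N D)) := by
    unfold PairingPackage.L
    field_simp
    ring
  rw [key, abs_neg]
  exact h

/-- **F-ELL.** -/
theorem ell (P : PairingPackage A) : ∃ l : A → ℝ, P.EllStatement l := by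
  classical
  -- chosen good representatives of degree `d`
  have hrep : ∀ x : A, ∃ D : P.Dv, P.deg D = P.d ∧ P.cls D = x ∧ P.Disj D P.Rt ∧ P.Good D :=
    fun x => P.mov1 x P.Rt
  choose rep hdeg hcls hdisj hgood using hrep
  obtain ⟨C₁, h₁⟩ := L_class_bound_h199 P
  obtain ⟨C₂, h₂⟩ := K_sub_L_bound_h199 P
  have hnum := P.four_d_le_m
  refine ⟨fun x => P.L (rep x), ⟨C₁ + C₂ * P.d, fun x D hD hx hg => ?_⟩,
    ⟨C₁ + |P.L (rep 0)|, fun x y => ?_⟩⟩
  · -- `l x = L (rep x) = L D + O(1) = K D - ((2g-2)/m) N D + O(1)`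
    have e₁ := h₁ (rep x) D (by rw [hdeg, hD]) (by rw [hdeg]; omega) (by rw [hcls, hx])
      (hdisj x) (P.good_disj_Rt D hg)
    have e₂ := h₂ D hg
    rw [hD] at e₂
    have key : P.L (rep x) - (P.K D - ((2 * (P.g : ℝ) - 2) / P.m) * P.N D)
        = (P.L (rep x) - P.L D) + (P.L D - (P.K D - ((2 * (P.g : ℝ) - 2) / P.m) * P.N D)) := by
      ring
    show |P.L (rep x) - (P.K D - ((2 * (P.g : ℝ) - 2) / P.m) * P.N D)| ≤ C₁ + C₂ * P.d
    rw [key]
    exact (abs_add_le _ _).trans (add_le_add e₁ e₂)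
  · -- quasi-additivity through `rep (x+y) + rep 0 ∼ rep x + rep y`
    have hd₁ : P.Disj (rep (x + y) + rep 0) P.Rt :=
      (P.disj_add_left _ _ _).mpr ⟨hdisj _, hdisj _⟩
    have hd₂ : P.Disj (rep x + rep y) P.Rt :=
      (P.disj_add_left _ _ _).mpr ⟨hdisj _, hdisj _⟩
    have e := h₁ (rep (x + y) + rep 0) (rep x + rep y)
      (by simp only [map_add, hdeg])
      (by simp only [map_add, hdeg]; omega)
      (by simp only [map_add, hcls, add_zero]) hd₁ hd₂
    rw [L_add_h199 P _ _ hd₁, L_add_h199 P _ _ hd₂] at e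
    have key : P.L (rep (x + y)) - P.L (rep x) - P.L (rep y)
        = (P.L (rep (x + y)) + P.L (rep 0) - (P.L (rep x) + P.L (rep y))) - P.L (rep 0) := by
      ring
    show |P.L (rep (x + y)) - P.L (rep x) - P.L (rep y)| ≤ C₁ + |P.L (rep 0)|
    rw [key]
    exact (abs_sub _ _).trans (add_le_add e le_rfl)

end Fermat.Agent.S17.H199

end
-- ===== PACK-END S17/H199/Ell.lean

-- ===== PACK-BEGIN S17/H924/Key.lean
section



/-!
# S17 / tower H, formal leaf F-KEY (helper924)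

`key : P.KeyStatement` — the self-pairing formula
`N D - δ D = -B(D,D₁)/2 - K D / 2 + (1 - d/m) N D + O(1)`.

Proof: `mov2` for `D, D₁` with `T := D + D₁` gives `Z a = D + R`, `Z a₁ = D₁ + R`, `R` disjoint
from `D + D₁`.  `adj (a, D, R)`, `e3 (a₁, E := D)` and `bez (a)`, `bez (a₁)` give
`2 δ D = K D + pr D D₁ + (d/m)(N D - N D₁) + O(1)`.
-/

set_option autoImplicit false

namespace Fermat.Agent.S17.H924

open Fermat.Agent.S17.H500

variable {A : Type} [AddCommGroup A]

theorem m_pos' (P : PairingPackage A) : (0 : ℝ) < P.m := by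
  have h1 := P.one_le_g
  have h2 := P.two_g_le_d
  have h3 := P.four_d_le_m
  have : 0 < P.m := by omega
  exact_mod_cast this

/-- **F-KEY.** -/
theorem key (P : PairingPackage A) : P.KeyStatement := by
  obtain ⟨Ca, hCa⟩ := P.adj
  obtain ⟨Ce, hCe⟩ := P.e3
  obtain ⟨Cb, hCb⟩ := P.bez
  have hm := m_pos' P
  have hdm : (P.d : ℝ) ≤ P.m := by
    have h3 := P.four_d_le_m
    have : P.d ≤ P.m := by omega
    exact_mod_cast this
  have hd0 : (0 : ℝ) ≤ P.d := Nat.cast_nonneg _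
  refine ⟨(Ca * P.d + Ce * P.d) / 2 + Cb, ?_⟩
  intro D D₁ hD hD₁ hcls hG _ hdisj
  -- moving lemma
  have hdeg : P.deg D = P.deg D₁ := by rw [hD, hD₁]
  have hle : P.deg D + 2 * P.g ≤ P.m := by
    have h3 := P.four_d_le_m
    rw [hD]; omega
  obtain ⟨R, a, a₁, hZa, hZa₁, hRT⟩ := P.mov2 D D₁ hdeg hle hcls (D + D₁)
  have hT := (P.disj_add_left D D₁ R).1 (P.disj_symm _ _ hRT)
  have hDR : P.Disj D R := hT.1
  have hD₁R : P.Disj D₁ R := hT.2
  have hRD : P.Disj R D := P.disj_symm _ _ hDR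
  have hD₁D : P.Disj D₁ D := P.disj_symm _ _ hdisj
  -- (ADJ)
  have h1 := hCa a D R hG hZa hDR
  -- (E3) with `a₁`, `E := D`
  have hdisjZ : P.Disj (D₁ + R) D := (P.disj_add_left D₁ R D).2 ⟨hD₁D, hRD⟩
  have h2 := hCe a₁ D (by rw [hZa₁]; exact hdisjZ)
  rw [hZa₁, P.pr_add D₁ R D hdisjZ] at h2
  -- (BEZ)
  have h3 := hCb a
  have h4 := hCb a₁
  rw [hZa, P.N_add] at h3
  rw [hZa₁, P.N_add] at h4
  rw [hD] at h1 h2
  have hCb0 : 0 ≤ Cb := le_trans (abs_nonneg _) h3
  -- notation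
  set r : ℝ := (P.d : ℝ) / P.m with hr
  have hrm : r * P.m = P.d := by rw [hr]; field_simp
  have hr0 : 0 ≤ r := div_nonneg hd0 hm.le
  have hr1 : r ≤ 1 := (div_le_one hm).2 hdm
  set e3 : ℝ := P.N D + P.N R - P.m * P.ht a with he3
  set e4 : ℝ := P.N D₁ + P.N R - P.m * P.ht a₁ with he4
  have hre3 : |r * e3| ≤ Cb := by
    rw [abs_mul, abs_of_nonneg hr0]
    calc r * |e3| ≤ 1 * |e3| := mul_le_mul_of_nonneg_right hr1 (abs_nonneg _)
      _ = |e3| := one_mul _
      _ ≤ Cb := h3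
  have hre4 : |r * e4| ≤ Cb := by
    rw [abs_mul, abs_of_nonneg hr0]
    calc r * |e4| ≤ 1 * |e4| := mul_le_mul_of_nonneg_right hr1 (abs_nonneg _)
      _ = |e4| := one_mul _
      _ ≤ Cb := h4
  -- `d * ht a = r * (N D + N R - e3)` etc.
  have ha : (P.d : ℝ) * P.ht a = r * (P.N D + P.N R) - r * e3 := by
    rw [← hrm, he3]; ring
  have ha₁ : (P.d : ℝ) * P.ht a₁ = r * (P.N D₁ + P.N R) - r * e4 := by
    rw [← hrm, he4]; ring
  rw [ha] at h1
  rw [ha₁] at h2
  have hB : P.B D D₁ = P.pr D₁ D - r * P.N D₁ - r * P.N D := by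
    unfold PairingPackage.B
    rw [hD, hD₁, P.pr_symm D D₁]
  rw [hB]
  rw [abs_le] at h1 h2 hre3 hre4 ⊢
  constructor <;> nlinarith [h1.1, h1.2, h2.1, h2.2, hre3.1, hre3.2, hre4.1, hre4.2]

end Fermat.Agent.S17.H924

end
-- ===== PACK-END S17/H924/Key.lean

-- ===== PACK-BEGIN S17/H934/Pos.lean
section



/-!
# S17 / tower H, formal leaf F-POS (helper934): the positivity inequality

`pos : P.WDStatement q → P.EllStatement l → P.KeyStatement → P.PosStatement q l`
for an arbitrary pairing package `P` (architect helper500, `H500/Package.lean`).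

Proof.  For `x : A` pick good representatives `D₁`, `D` of degree `d` with `D` disjoint from `D₁`
(`mov1`), and a small section `a` through `D` (`mink`), `Z a = D + D'`.  Then
`N D + N D' = N (Z a) ≤ m ht a + C ≤ (m/k) (Pl D + C) ≤ (m/k) (N D - δ D + C')` (`bez`, `vdm`), and
`N D - δ D ≤ (q x - l x / 2) + (k/m) N D + C''` by the key formula, `WD` and `Ell`; the `N D` terms
cancel.
-/

set_option autoImplicit false

namespace Fermat.Agent.S17.H934

open Fermat.Agent.S17.H500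

variable {A : Type} [AddCommGroup A]

/-- **F-POS.** -/
theorem pos (P : PairingPackage A) (q l : A → ℝ) (hq : P.WDStatement q)
    (hl : P.EllStatement l) (hKey : P.KeyStatement) : P.PosStatement q l := by
  obtain ⟨Cq, hq⟩ := hq
  obtain ⟨⟨Cl, hl⟩, -⟩ := hl
  obtain ⟨Ck, hKey⟩ := hKey
  obtain ⟨Cb, hbez⟩ := P.bez
  obtain ⟨Cv, hvdm⟩ := P.vdm
  obtain ⟨Cm, hmink⟩ := P.mink
  -- numerics
  have hg : (1 : ℝ) ≤ P.g := by exact_mod_cast P.one_le_g
  have hgd : (2 : ℝ) * P.g ≤ P.d := by exact_mod_cast P.two_g_le_d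
  have hdm : (4 : ℝ) * P.d + 2 * P.g ≤ P.m := by exact_mod_cast P.four_d_le_m
  have hm : (0 : ℝ) < P.m := by linarith
  have hk : (0 : ℝ) < P.k := by unfold PairingPackage.k; linarith
  have hkdef : P.k = (P.m : ℝ) - P.d + 1 - P.g := rfl
  have hmk : (0 : ℝ) ≤ P.m / P.k := (div_pos hm hk).le
  refine ⟨P.m / P.k * (Cv + Cm + (Cq + Cl / 2 + Ck)) + Cb, fun x => ?_⟩
  obtain ⟨D₁, hD₁deg, hD₁cls, -, hD₁good⟩ := P.mov1 x 0
  obtain ⟨D, hDdeg, hDcls, hDdisj, hDgood⟩ := P.mov1 x D₁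
  obtain ⟨a, D', hZ, hht⟩ := hmink D hDgood hDdeg
  have hdegZ := P.deg_Z a
  rw [hZ, map_add, hDdeg] at hdegZ
  have hclsZ := P.cls_Z a
  rw [hZ, map_add, hDcls] at hclsZ
  refine ⟨D', by omega, eq_neg_of_add_eq_zero_right hclsZ, ?_⟩
  -- the chain of inequalities
  have h1 : P.N D + P.N D' ≤ P.m * P.ht a + Cb := by
    have := hbez a
    rw [hZ, P.N_add] at this
    have := (abs_le.1 this).2
    linarith
  have h2 : P.k * P.ht a ≤ P.N D - P.δ D + Cv + Cm := by
    have := hvdm D hDgood hDdeg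
    rw [hkdef]
    linarith
  have h3 := (abs_le.1 (hKey D D₁ hDdeg hD₁deg (hDcls.trans hD₁cls.symm) hDgood hD₁good
    hDdisj)).2
  have h4 := (abs_le.1 (hq x D D₁ hDdeg hD₁deg hDcls hD₁cls hDgood hD₁good hDdisj)).1
  have h5 := (abs_le.1 (hl x D hDdeg hDcls hDgood)).2
  -- `N D - δ D ≤ (q x - l x / 2) + (k/m) N D + C''`
  have hkm : (1 - (P.d : ℝ) / P.m) * P.N D - ((2 * (P.g : ℝ) - 2) / P.m) * P.N D / 2 =
      P.k / P.m * P.N D := by
    rw [hkdef]
    field_simp
    ring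
  have h6 : P.N D - P.δ D ≤ (q x - l x / 2) + P.k / P.m * P.N D + (Cq + Cl / 2 + Ck) := by
    rw [← hkm]
    linarith
  -- `m ht a ≤ (m/k) (N D - δ D + C')`
  have h7 : P.m * P.ht a ≤ P.m / P.k * (P.N D - P.δ D + Cv + Cm) := by
    have h := mul_le_mul_of_nonneg_left h2 hmk
    have e : P.m / P.k * (P.k * P.ht a) = P.m * P.ht a := by
      field_simp
    rw [e] at h
    exact h
  have h8 : P.m / P.k * (P.N D - P.δ D + Cv + Cm) ≤
      P.m / P.k * ((q x - l x / 2) + P.k / P.m * P.N D + (Cq + Cl / 2 + Ck) + Cv + Cm) :=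
    mul_le_mul_of_nonneg_left (by linarith) hmk
  have e9 : P.m / P.k * ((q x - l x / 2) + P.k / P.m * P.N D + (Cq + Cl / 2 + Ck) + Cv + Cm) =
      P.m / P.k * (q x - l x / 2) + P.N D + P.m / P.k * (Cv + Cm + (Cq + Cl / 2 + Ck)) := by
    field_simp
    ring
  rw [e9] at h8
  linarith

end Fermat.Agent.S17.H934

end
-- ===== PACK-END S17/H934/Pos.lean

-- ===== PACK-BEGIN S17/H740/MultiHomFun.lean
section






/-!
# Functional multihomogeneity ⟹ formal multihomogeneity (over an infinite field)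

* `coeff_aeval_scale` : coefficients of `q (c_s X_s)`;
* `isMultiHom_of_forall_eval` : if `q (c_{s.1} y_s) = (∏ l, c l ^ N) q (y)` for all points `y` and
  all scalings `c` of the slots (an infinite field), then every monomial of `q` has degree `N` in
  each slot (`IsMultiHom q fun _ => N`).
-/

set_option autoImplicit false

noncomputable section

namespace Fermat.Agent.S17.H740

open MvPolynomial

section Scale

variable {K : Type*} [CommSemiring K] {σ : Type*}

theorem aeval_scale_monomial (c : σ → K) (e : σ →₀ ℕ) (a : K) :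
    aeval (fun s => C (c s) * X s) (monomial e a) =
      monomial e ((e.prod fun s k => c s ^ k) * a) := by
  rw [aeval_monomial]
  simp only [Finsupp.prod, mul_pow, Finset.prod_mul_distrib, ← C_pow, ← map_prod]
  rw [algebraMap_eq, ← mul_assoc, ← C_mul, mul_comm a, monomial_eq (a := _ * a)]
  simp [Finsupp.prod]

theorem coeff_aeval_scale (c : σ → K) (q : MvPolynomial σ K) (e : σ →₀ ℕ) :
    coeff e (aeval (fun s => C (c s) * X s) q) = (e.prod fun s k => c s ^ k) * coeff e q := by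
  classical
  induction q using MvPolynomial.induction_on' with
  | monomial e' a =>
    rw [aeval_scale_monomial, coeff_monomial, coeff_monomial]
    split_ifs with h
    · rw [h]
    · rw [mul_zero]
  | add p q hp hq =>
    rw [map_add, coeff_add, coeff_add, hp, hq, mul_add]

theorem eval_aeval_scale (c : σ → K) (q : MvPolynomial σ K) (x : σ → K) :
    eval x (aeval (fun s => C (c s) * X s) q) = eval (fun s => c s * x s) q := by
  induction q using MvPolynomial.induction_on with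
  | C a => simp
  | add p q hp hq => rw [map_add, map_add, map_add, hp, hq]
  | mul_X p s hp => rw [map_mul, map_mul, map_mul, hp, aeval_X, eval_X, map_mul, eval_C, eval_X]

end Scale

section Pow

variable {K : Type*} [Field K] [Infinite K]

theorem eq_of_forall_pow_eq {m n : ℕ} (h : ∀ t : K, t ^ m = t ^ n) : m = n := by
  have h1 : (Polynomial.X ^ m : Polynomial K) = Polynomial.X ^ n :=
    Polynomial.funext (by simpa using h)
  simpa using congrArg Polynomial.natDegree h1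

end Pow

section Main

variable {K : Type*} [Field K] [Infinite K] {α : Type*} [Fintype α] [DecidableEq α]
variable {ι : α → Type*}

/-- **Functional multihomogeneity implies formal multihomogeneity** over an infinite field. -/
theorem isMultiHom_of_forall_eval {N : ℕ} (q : MvPolynomial (Σ a, ι a) K)
    (h : ∀ (y : (a : α) → ι a → K) (c : α → K),
      eval (fun s : Σ a, ι a => c s.1 * y s.1 s.2) q = (∏ l, c l ^ N) * eval (sigmaPt y) q) :
    IsMultiHom q (fun _ => N) := by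
  classical
  intro e he
  funext a
  rw [weight_slotW_apply]
  refine eq_of_forall_pow_eq (K := K) fun t => ?_
  set c : α → K := fun l => if l = a then t else 1 with hc
  have h1 : aeval (fun s : Σ a, ι a => C (c s.1) * X s) q = C (∏ l, c l ^ N) * q := by
    refine MvPolynomial.funext fun x => ?_
    rw [eval_aeval_scale, map_mul, eval_C]
    exact h (fun a i => x ⟨a, i⟩) c
  have h2 := congrArg (coeff e) h1
  rw [coeff_aeval_scale, coeff_C_mul] at h2
  have h3 := mul_right_cancel₀ he h2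
  have h4 : (e.prod fun s k => c s.1 ^ k) =
      t ^ ∑ s ∈ e.support, if s.1 = a then e s else 0 := by
    rw [Finsupp.prod, ← Finset.prod_pow_eq_pow_sum]
    refine Finset.prod_congr rfl fun s _ => ?_
    simp only [hc]
    split_ifs <;> simp
  have h5 : (∏ l, c l ^ N) = t ^ N := by
    simp only [hc, ite_pow, one_pow]
    rw [Finset.prod_ite_eq' Finset.univ a (fun _ => t ^ N)]
    simp
  rw [h4, h5] at h3
  exact h3

end Main

section Span

variable {k : Type*} [Field k] {ι : Type*}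

attribute [local instance] MvPolynomial.gradedAlgebra

/-- The ideal generated by homogeneous polynomials is closed under homogeneous components. -/
theorem homogeneousComponent_mem_span {rel : Set (MvPolynomial ι k)}
    (h : ∀ G ∈ rel, ∃ e : ℕ, G.IsHomogeneous e) {f : MvPolynomial ι k}
    (hf : f ∈ Ideal.span rel) (n : ℕ) : homogeneousComponent n f ∈ Ideal.span rel := by
  have hI : (Ideal.span rel).IsHomogeneous (homogeneousSubmodule ι k) :=
    Ideal.homogeneous_span _ _ (fun G hG => by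
      obtain ⟨e, he⟩ := h G hG
      exact ⟨e, he⟩)
  exact (mem_iff_homogeneousComponent_mem hI f).mp hf n

end Span

end Fermat.Agent.S17.H740

end
end
-- ===== PACK-END S17/H740/MultiHomFun.lean

-- ===== PACK-BEGIN S17/H830/AbsFin.lean
section



/-!
# S17 / tower H, piece ABS (helper830), part 2: the finite part of the height via embeddings

`K` a number field, `Ω` an algebraically closed field of characteristic zero, and for every prime
`p` a nonarchimedean absolute value `v p` on `Ω` with `v p p = p⁻¹`.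

Main result `prod_embeddings_finprod_iSup_eq` : for an integral tuple `x : ι → 𝓞 K`, `x ≠ 0`,

  `∏ τ : K →+* Ω, ∏ᶠ p, ⨆ i, v p (τ (x i)) = (absNorm (span (range x)))⁻¹`.

Together with Mathlib's `NumberField.absNorm_mul_finprod_finitePlace_eq_one` this identifies the
finite part of Mathlib's height on `K` with a sum of local terms on `Ω` over all embeddings.
-/

set_option autoImplicit false

noncomputable section

namespace Fermat.Agent.S17.H830

open NumberField

section NF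

variable {K : Type*} [Field K]
variable {Ω : Type*} [Field Ω]

/-- Integers of `K` have absolute value `≤ 1` under every embedding. -/
theorem abv_embedding_le_one {v : AbsoluteValue Ω ℝ} (hv : IsNonarchimedean v)
    (τ : K →+* Ω) (a : 𝓞 K) : v (τ (a : K)) ≤ 1 :=
  abv_le_one_of_isIntegral hv (map_isIntegral_int τ (RingOfIntegers.isIntegral_coe a))

/-- The ideal of integers of absolute value `≤ r` under an embedding. -/
def ballIdeal {v : AbsoluteValue Ω ℝ} (hv : IsNonarchimedean v) (τ : K →+* Ω) (r : ℝ)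
    (hr : 0 ≤ r) : Ideal (𝓞 K) where
  carrier := {a | v (τ (a : K)) ≤ r}
  add_mem' := by
    intro a b ha hb
    simp only [Set.mem_ofPred_eq] at ha hb ⊢
    push_cast
    rw [map_add]
    exact (hv _ _).trans (max_le ha hb)
  zero_mem' := by
    simp only [Set.mem_ofPred_eq, map_zero]
    exact hr
  smul_mem' := by
    intro c a ha
    simp only [Set.mem_ofPred_eq] at ha ⊢
    rw [smul_eq_mul]
    push_cast
    rw [map_mul, map_mul]
    calc v (τ (c : K)) * v (τ (a : K)) ≤ 1 * r :=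
          mul_le_mul (abv_embedding_le_one hv τ c) ha (by positivity) zero_le_one
      _ = r := one_mul r

theorem mem_ballIdeal {v : AbsoluteValue Ω ℝ} (hv : IsNonarchimedean v) (τ : K →+* Ω) {r : ℝ}
    (hr : 0 ≤ r) (a : 𝓞 K) : a ∈ ballIdeal hv τ r hr ↔ v (τ (a : K)) ≤ r := Iff.rfl

theorem ballIdeal_mul_le {v : AbsoluteValue Ω ℝ} (hv : IsNonarchimedean v) (τ : K →+* Ω)
    {r s : ℝ} (hr : 0 ≤ r) (hs : 0 ≤ s) :
    ballIdeal hv τ r hr * ballIdeal hv τ s hs ≤ ballIdeal hv τ (r * s) (mul_nonneg hr hs) := by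
  rw [Ideal.mul_le]
  intro a ha b hb
  rw [mem_ballIdeal] at ha hb ⊢
  push_cast
  rw [map_mul, map_mul]
  exact mul_le_mul ha hb (by positivity) hr

theorem pow_le_ballIdeal {v : AbsoluteValue Ω ℝ} (hv : IsNonarchimedean v) (τ : K →+* Ω)
    {r : ℝ} (hr : 0 ≤ r) (I : Ideal (𝓞 K)) (hI : I ≤ ballIdeal hv τ r hr) (h : ℕ) :
    I ^ h ≤ ballIdeal hv τ (r ^ h) (pow_nonneg hr h) := by
  induction h with
  | zero =>
    intro a _
    rw [mem_ballIdeal, pow_zero]
    exact abv_embedding_le_one hv τ a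
  | succ n ih =>
    rw [pow_succ]
    refine (Ideal.mul_mono ih hI).trans ?_
    refine (ballIdeal_mul_le hv τ (pow_nonneg hr n) hr).trans ?_
    intro a ha
    rw [mem_ballIdeal] at ha ⊢
    rwa [pow_succ]

variable {ι : Type*} [Finite ι]

/-- Key local identity: if `(span (range x)) ^ h = (c)`, then
`(⨆ i, v (τ (x i))) ^ h = v (τ c)`. -/
theorem iSup_abv_pow_eq {v : AbsoluteValue Ω ℝ} (hv : IsNonarchimedean v) (τ : K →+* Ω)
    [Nonempty ι] (x : ι → 𝓞 K) {h : ℕ} {c : 𝓞 K}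
    (hc : Ideal.span (Set.range x) ^ h = Ideal.span {c}) :
    (⨆ i, v (τ (x i : K))) ^ h = v (τ (c : K)) := by
  have hbdd : BddAbove (Set.range fun i => v (τ (x i : K))) := Set.finite_range _ |>.bddAbove
  have hN0 : 0 ≤ ⨆ i, v (τ (x i : K)) := Real.iSup_nonneg fun i => by positivity
  refine le_antisymm ?_ ?_
  · -- `N ^ h ≤ v (τ c)`
    obtain ⟨i₀, hi₀⟩ := exists_eq_ciSup_of_finite (f := fun i => v (τ (x i : K)))
    rw [← hi₀]
    have hmem : x i₀ ^ h ∈ Ideal.span (Set.range x) ^ h :=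
      Ideal.pow_mem_pow (Ideal.subset_span (Set.mem_range_self i₀)) h
    rw [hc, Ideal.mem_span_singleton'] at hmem
    obtain ⟨a, ha⟩ := hmem
    have h1 : (v (τ (x i₀ : K))) ^ h = v (τ (a : K)) * v (τ (c : K)) := by
      rw [← map_pow, ← map_pow, ← map_mul, ← map_mul]
      congr 2
      have := congrArg (fun z : 𝓞 K => (z : K)) ha
      push_cast at this
      exact this.symm
    show v (τ (x i₀ : K)) ^ h ≤ v (τ (c : K))
    rw [h1]
    calc v (τ (a : K)) * v (τ (c : K)) ≤ 1 * v (τ (c : K)) :=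
          mul_le_mul_of_nonneg_right (abv_embedding_le_one hv τ a) (by positivity)
      _ = v (τ (c : K)) := one_mul _
  · -- `v (τ c) ≤ N ^ h`
    have hI : Ideal.span (Set.range x) ≤ ballIdeal hv τ (⨆ i, v (τ (x i : K))) hN0 := by
      rw [Ideal.span_le]
      rintro _ ⟨i, rfl⟩
      exact le_ciSup hbdd i
    have := pow_le_ballIdeal hv τ hN0 _ hI h
    have hcmem : c ∈ Ideal.span (Set.range x) ^ h := by
      rw [hc]; exact Ideal.mem_span_singleton_self c
    exact this hcmem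

end NF

section Global

variable {K : Type*} [Field K] [NumberField K]
variable {Ω : Type*} [Field Ω] [CharZero Ω] [IsAlgClosed Ω]

/-- The product of all conjugates of `c` in `Ω` is the norm of `c`. -/
theorem prod_embeddings_eq_norm (c : K) :
    ∏ τ : K →+* Ω, τ c = algebraMap ℚ Ω (Algebra.norm ℚ c) := by
  rw [Algebra.norm_eq_prod_embeddings ℚ Ω c]
  exact Fintype.prod_equiv (RingHom.equivRatAlgHom K Ω) _ _ (fun τ => rfl)

omit [CharZero Ω] [IsAlgClosed Ω] in
theorem abv_intCast_eq_natAbs (v : AbsoluteValue Ω ℝ) (z : ℤ) :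
    v (z : Ω) = v ((z.natAbs : ℕ) : Ω) := by
  rcases Int.natAbs_eq z with h | h
  · conv_lhs => rw [h]
    simp
  · conv_lhs => rw [h]
    simp

/-- The product over all embeddings of the `p`-adic absolute values of an integer `c ≠ 0`
is the `p`-part of the inverse of the absolute norm of `(c)`. -/
theorem prod_embeddings_abv_eq {v : AbsoluteValue Ω ℝ} (hv : IsNonarchimedean v)
    {p : ℕ} (hp : p.Prime) (hvp : v (p : Ω) = (p : ℝ)⁻¹) {c : 𝓞 K} (hc : c ≠ 0) :
    ∏ τ : K →+* Ω, v (τ (c : K)) =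
      ((p : ℝ)⁻¹) ^ ((Ideal.absNorm (Ideal.span {c})).factorization p) := by
  rw [← map_prod, prod_embeddings_eq_norm, ← Algebra.coe_norm_int c]
  have h1 : algebraMap ℚ Ω ((Algebra.norm ℤ c : ℤ) : ℚ) = ((Algebra.norm ℤ c : ℤ) : Ω) := by
    simp
  rw [h1, abv_intCast_eq_natAbs, ← Ideal.absNorm_span_singleton]
  refine abv_natCast_eq hv hp hvp ?_
  rw [Ne, Ideal.absNorm_eq_zero_iff, Ideal.span_singleton_eq_bot]
  exact hc

/-- For `p` not dividing the norm of `c`, all conjugates of `c` are `p`-adic units. -/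
theorem abv_embedding_eq_one_of_not_dvd {v : AbsoluteValue Ω ℝ} (hv : IsNonarchimedean v)
    {p : ℕ} (hp : p.Prime) (hvp : v (p : Ω) = (p : ℝ)⁻¹) {c : 𝓞 K} (hc : c ≠ 0)
    (hdvd : ¬ p ∣ Ideal.absNorm (Ideal.span {c})) (τ : K →+* Ω) : v (τ (c : K)) = 1 := by
  have h := prod_embeddings_abv_eq (K := K) hv hp hvp hc
  rw [Nat.factorization_eq_zero_of_not_dvd hdvd, pow_zero] at h
  exact eq_one_of_prod_eq_one Finset.univ (fun τ : K →+* Ω => v (τ (c : K)))
    (fun _ _ => by positivity) (fun τ _ => abv_embedding_le_one hv τ c) h τ (Finset.mem_univ τ)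

variable (v : Nat.Primes → AbsoluteValue Ω ℝ)

/-- For an integer `c ≠ 0` of `K` and an embedding `τ`, `v p (τ c) = 1` for almost all `p`. -/
theorem hasFiniteMulSupport_abv_embedding (hv : ∀ p, IsNonarchimedean (v p))
    (hvp : ∀ p : Nat.Primes, v p ((p : ℕ) : Ω) = ((p : ℕ) : ℝ)⁻¹) {c : 𝓞 K} (hc : c ≠ 0)
    (τ : K →+* Ω) : (Function.mulSupport fun p : Nat.Primes => v p (τ (c : K))).Finite := by
  have hn : Ideal.absNorm (Ideal.span {c}) ≠ 0 := by
    rw [Ne, Ideal.absNorm_eq_zero_iff, Ideal.span_singleton_eq_bot]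
    exact hc
  have hfin : {p : Nat.Primes | (p : ℕ) ∣ Ideal.absNorm (Ideal.span {c})}.Finite := by
    have h1 : ((Ideal.absNorm (Ideal.span {c})).primeFactors : Set ℕ).Finite :=
      Finset.finite_toSet _
    refine Set.Finite.of_finite_image (f := fun p : Nat.Primes => (p : ℕ)) (h1.subset ?_) ?_
    · rintro _ ⟨p, hp, rfl⟩
      exact Nat.mem_primeFactors.mpr ⟨p.2, hp, hn⟩
    · intro a _ b _ hab
      exact Subtype.ext hab
  refine hfin.subset ?_
  intro p hp
  simp only [Function.mem_mulSupport, ne_eq] at hp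
  by_contra hdvd
  exact hp (abv_embedding_eq_one_of_not_dvd (hv p) p.2 (hvp p) hc hdvd τ)

/-- Product formula for integers of `K`, finite part, in embedding form. -/
theorem prod_embeddings_finprod_abv_eq (hv : ∀ p, IsNonarchimedean (v p))
    (hvp : ∀ p : Nat.Primes, v p ((p : ℕ) : Ω) = ((p : ℕ) : ℝ)⁻¹) {c : 𝓞 K} (hc : c ≠ 0) :
    ∏ τ : K →+* Ω, ∏ᶠ p : Nat.Primes, v p (τ (c : K)) =
      ((Ideal.absNorm (Ideal.span {c}) : ℕ) : ℝ)⁻¹ := by
  have hn : Ideal.absNorm (Ideal.span {c}) ≠ 0 := by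
    rw [Ne, Ideal.absNorm_eq_zero_iff, Ideal.span_singleton_eq_bot]
    exact hc
  rw [prod_finprod_comm Finset.univ (fun (τ : K →+* Ω) (p : Nat.Primes) => v p (τ (c : K)))
    (fun τ _ => hasFiniteMulSupport_abv_embedding v hv hvp hc τ)]
  rw [← finprod_primes_inv_pow_factorization hn]
  refine finprod_congr fun p => ?_
  exact prod_embeddings_abv_eq (hv p) p.2 (hvp p) hc

omit [CharZero Ω] [IsAlgClosed Ω] in
/-- Some positive power of a nonzero ideal of `𝓞 K` is principal (finiteness of the class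
group). -/
theorem exists_pow_eq_span_singleton (I : Ideal (𝓞 K)) (hI : I ≠ ⊥) :
    ∃ h : ℕ, h ≠ 0 ∧ ∃ c : 𝓞 K, c ≠ 0 ∧ I ^ h = Ideal.span {c} := by
  classical
  have hI' : I ∈ nonZeroDivisors (Ideal (𝓞 K)) := mem_nonZeroDivisors_iff_ne_zero.mpr hI
  refine ⟨Fintype.card (ClassGroup (𝓞 K)), Fintype.card_ne_zero, ?_⟩
  have h1 : (ClassGroup.mk0 ⟨I, hI'⟩) ^ Fintype.card (ClassGroup (𝓞 K)) = 1 := pow_card_eq_one
  rw [← map_pow] at h1
  have hpow : I ^ Fintype.card (ClassGroup (𝓞 K)) ∈ nonZeroDivisors (Ideal (𝓞 K)) :=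
    pow_mem hI' _
  have h2 : (⟨I, hI'⟩ : nonZeroDivisors (Ideal (𝓞 K))) ^ Fintype.card (ClassGroup (𝓞 K)) =
      ⟨I ^ Fintype.card (ClassGroup (𝓞 K)), hpow⟩ := Subtype.ext (by simp)
  rw [h2, ClassGroup.mk0_eq_one_iff] at h1
  obtain ⟨c, hc⟩ := h1
  refine ⟨c, ?_, ?_⟩
  · rintro rfl
    have hne : I ^ Fintype.card (ClassGroup (𝓞 K)) ≠ ⊥ := pow_ne_zero _ hI
    apply hne
    rw [hc]
    simp
  · rw [hc]

variable {ι : Type*} [Finite ι]

/-- For an integral tuple `x ≠ 0` and an embedding `τ`, `⨆ i, v p (τ (x i)) = 1` for almost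
all primes `p`. -/
theorem hasFiniteMulSupport_iSup_abv (hv : ∀ p, IsNonarchimedean (v p))
    (hvp : ∀ p : Nat.Primes, v p ((p : ℕ) : Ω) = ((p : ℕ) : ℝ)⁻¹) (x : ι → 𝓞 K) (hx : x ≠ 0)
    (τ : K →+* Ω) :
    Function.HasFiniteMulSupport (fun p : Nat.Primes => ⨆ i, v p (τ (x i : K))) := by
  obtain ⟨i₀, hi₀⟩ := Function.ne_iff.mp hx
  have : Nonempty ι := ⟨i₀⟩
  have hi₀' : x i₀ ≠ 0 := hi₀
  refine (hasFiniteMulSupport_abv_embedding v hv hvp hi₀' τ).subset ?_
  intro p hp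
  simp only [Function.mem_mulSupport, ne_eq] at hp ⊢
  intro h1
  apply hp
  have hbdd : BddAbove (Set.range fun i => v p (τ (x i : K))) := Set.finite_range _ |>.bddAbove
  refine le_antisymm ?_ ?_
  · exact ciSup_le fun i => abv_embedding_le_one (hv p) τ (x i)
  · rw [← h1]
    exact le_ciSup hbdd i₀

/-- **Finite part of the height in embedding form.**  For an integral tuple `x ≠ 0`, the
product over all embeddings `τ : K →+* Ω` and all primes `p` of `⨆ i, v p (τ (x i))` is the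
inverse of the absolute norm of the ideal generated by the `x i`. -/
theorem prod_embeddings_finprod_iSup_eq (hv : ∀ p, IsNonarchimedean (v p))
    (hvp : ∀ p : Nat.Primes, v p ((p : ℕ) : Ω) = ((p : ℕ) : ℝ)⁻¹) (x : ι → 𝓞 K) (hx : x ≠ 0) :
    ∏ τ : K →+* Ω, ∏ᶠ p : Nat.Primes, ⨆ i, v p (τ (x i : K)) =
      ((Ideal.absNorm (Ideal.span (Set.range x)) : ℕ) : ℝ)⁻¹ := by
  obtain ⟨i₀, hi₀⟩ := Function.ne_iff.mp hx
  have : Nonempty ι := ⟨i₀⟩
  have hI : Ideal.span (Set.range x) ≠ ⊥ := by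
    intro h
    apply hi₀
    have : x i₀ ∈ Ideal.span (Set.range x) := Ideal.subset_span (Set.mem_range_self i₀)
    rw [h] at this
    simpa using this
  obtain ⟨h, hh, c, hc0, hc⟩ := exists_pow_eq_span_singleton _ hI
  have key : ∀ (τ : K →+* Ω) (p : Nat.Primes),
      (⨆ i, v p (τ (x i : K))) ^ h = v p (τ (c : K)) :=
    fun τ p => iSup_abv_pow_eq (hv p) τ x hc
  have hnn : ∀ (τ : K →+* Ω) (p : Nat.Primes), 0 ≤ ⨆ i, v p (τ (x i : K)) :=
    fun τ p => Real.iSup_nonneg fun i => by positivity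
  have hA : 0 ≤ ∏ τ : K →+* Ω, ∏ᶠ p : Nat.Primes, ⨆ i, v p (τ (x i : K)) :=
    Finset.prod_nonneg fun τ _ => finprod_nonneg fun p => hnn τ p
  have hB : (0 : ℝ) ≤ ((Ideal.absNorm (Ideal.span (Set.range x)) : ℕ) : ℝ)⁻¹ := by positivity
  refine (pow_left_inj₀ hA hB hh).mp ?_
  rw [← Finset.prod_pow]
  calc ∏ τ : K →+* Ω, (∏ᶠ p : Nat.Primes, ⨆ i, v p (τ (x i : K))) ^ h
      = ∏ τ : K →+* Ω, ∏ᶠ p : Nat.Primes, v p (τ (c : K)) := by
        refine Finset.prod_congr rfl fun τ _ => ?_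
        rw [finprod_pow (hasFiniteMulSupport_iSup_abv v hv hvp x hx τ)]
        exact finprod_congr fun p => key τ p
    _ = ((Ideal.absNorm (Ideal.span {c}) : ℕ) : ℝ)⁻¹ :=
        prod_embeddings_finprod_abv_eq v hv hvp hc0
    _ = (((Ideal.absNorm (Ideal.span (Set.range x)) : ℕ) : ℝ)⁻¹) ^ h := by
        rw [← hc, map_pow, Nat.cast_pow, inv_pow]

end Global

end Fermat.Agent.S17.H830

end
end
-- ===== PACK-END S17/H830/AbsFin.lean

-- ===== PACK-BEGIN S15/H226/WpAdd.lean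
section


/-!
# S15 / MOD-B3 U3 (helper226): the addition theorem for the Weierstrass `℘`-function

Mathlib-only (through `WpDeriv`).  Main results, for `L : PeriodPair`:

* `addRel226_eq_zero` : for `z, w, z + w ∉ Λ`,
  `4 ℘(z+w) (℘ z - ℘ w)² = 4 ℘ z ℘ w (℘ z + ℘ w) - g₂ (℘ z + ℘ w) - 2 g₃ - 2 ℘' z ℘' w`.
* `weierstrassP_add226` : if moreover `℘ z ≠ ℘ w`,
  `℘(z+w) = ((℘' z - ℘' w)/(℘ z - ℘ w))² / 4 - ℘ z - ℘ w`.
-/

set_option autoImplicit false

open Filter Topology

noncomputable section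

namespace Fermat.Agent.S15.H226

open PeriodPair

/-- The addition relation, as a function of `z` for fixed `w`.  It vanishes identically on the
regular locus (`addRel226_eq_zero`). -/
def addRel226 (L : PeriodPair) (w z : ℂ) : ℂ :=
  4 * ℘[L] z * ℘[L] w * (℘[L] z + ℘[L] w) - L.g₂ * (℘[L] z + ℘[L] w) - 2 * L.g₃
    - 2 * ℘'[L] z * ℘'[L] w - 4 * ℘[L] (z + w) * (℘[L] z - ℘[L] w) ^ 2

theorem addRel226_symm (L : PeriodPair) (w z : ℂ) : addRel226 L w z = addRel226 L z w := by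
  simp only [addRel226, add_comm w z]
  ring

theorem addRel226_add_coe (L : PeriodPair) (w z : ℂ) (l : ℂ) (hl : l ∈ L.lattice) :
    addRel226 L w (z + l) = addRel226 L w z := by
  have h1 := L.weierstrassP_add_coe z ⟨l, hl⟩
  have h2 := L.derivWeierstrassP_add_coe z ⟨l, hl⟩
  have h3 := L.weierstrassP_add_coe (z + w) ⟨l, hl⟩
  simp only at h1 h2 h3
  simp only [addRel226, h1, h2, add_right_comm z l w, h3]

theorem addRel226_self (L : PeriodPair) {w : ℂ} (hw : w ∉ L.lattice) : addRel226 L w w = 0 := by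
  have h := L.derivWeierstrassP_sq w hw
  simp only [addRel226]
  linear_combination (-2 : ℂ) * h

theorem meromorphic_shift226 (L : PeriodPair) (w : ℂ) : Meromorphic fun z => ℘[L] (z + w) := by
  intro x
  exact (L.meromorphic_weierstrassP (x + w)).comp_analyticAt (g := fun z => z + w) (by fun_prop)

theorem meromorphic_addRel226 (L : PeriodPair) (w : ℂ) : Meromorphic (addRel226 L w) := by
  have h1 := L.meromorphic_weierstrassP
  have h2 := L.meromorphic_derivWeierstrassP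
  have h3 := meromorphic_shift226 L w
  unfold addRel226
  fun_prop

theorem analyticAt_shift226 (L : PeriodPair) {w z : ℂ} (hzw : z + w ∉ L.lattice) :
    AnalyticAt ℂ (fun y => ℘[L] (y + w)) z := by
  have h : AnalyticAt ℂ ℘[L] (z + w) := L.analyticOnNhd_weierstrassP _ hzw
  exact h.comp_of_eq (g := ℘[L]) (f := fun y => y + w) (by fun_prop) rfl

theorem analyticAt_addRel226 (L : PeriodPair) {w z : ℂ} (hz : z ∉ L.lattice)
    (hzw : z + w ∉ L.lattice) : AnalyticAt ℂ (addRel226 L w) z := by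
  have h1 : AnalyticAt ℂ ℘[L] z := L.analyticOnNhd_weierstrassP _ hz
  have h2 : AnalyticAt ℂ ℘'[L] z := L.analyticOnNhd_derivWeierstrassP _ hz
  have h3 := analyticAt_shift226 L hzw
  unfold addRel226
  fun_prop

/-! ### Local expansions at `0` -/

theorem weierstrassPExcept_zero_zero226 (L : PeriodPair) : ℘[L - (0 : ℂ)] 0 = 0 := by
  simp

/-- The regular part of `℘` at `0` vanishes to second order. -/
theorem exists_sq_factor226 (L : PeriodPair) :
    ∃ e : ℂ → ℂ, AnalyticAt ℂ e 0 ∧ ∀ᶠ z in 𝓝 (0 : ℂ), ℘[L - (0 : ℂ)] z = z ^ 2 * e z := by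
  have han : AnalyticAt ℂ ℘[L - (0 : ℂ)] 0 := L.analyticAt_weierstrassPExcept 0
  have h2 : ((2 : ℕ) : ℕ∞) ≤ analyticOrderAt ℘[L - (0 : ℂ)] 0 := by
    rw [natCast_le_analyticOrderAt_iff_iteratedDeriv_eq_zero han]
    intro i hi
    rw [L.iteratedDeriv_weierstrassPExcept_self]
    interval_cases i
    · simp
    · simp [L.G_eq_zero_of_odd 3 (by decide)]
  obtain ⟨g, hg, hgz⟩ := (natCast_le_analyticOrderAt han).mp h2
  exact ⟨g, hg, by simpa using hgz⟩

theorem weierstrassP_eq_except226 (L : PeriodPair) (z : ℂ) :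
    ℘[L] z = ℘[L - (0 : ℂ)] z + 1 / z ^ 2 := by
  have h1 := L.weierstrassPExcept_def (0 : L.lattice) z
  simp only [ZeroMemClass.coe_zero, sub_zero, ne_eq, OfNat.ofNat_ne_zero, not_false_eq_true,
    zero_pow, div_zero, zero_sub] at h1
  rw [h1]; ring

theorem derivWeierstrassP_eq_except226 (L : PeriodPair) (z : ℂ) :
    ℘'[L] z = ℘'[L - (0 : ℂ)] z - 2 / z ^ 3 := by
  have h2 := L.derivWeierstrassPExcept_def (0 : L.lattice) z
  simp only [ZeroMemClass.coe_zero, sub_zero] at h2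
  rw [h2]; ring

theorem iteratedDeriv_succ_of_hasDerivAt226 {f f' : ℂ → ℂ} {z₀ : ℂ} (n : ℕ)
    (h : ∀ᶠ z in 𝓝 z₀, HasDerivAt f (f' z) z) :
    iteratedDeriv (n + 1) f z₀ = iteratedDeriv n f' z₀ := by
  rw [iteratedDeriv_succ']
  apply Filter.EventuallyEq.iteratedDeriv_eq
  filter_upwards [h] with z hz using hz.deriv

theorem eventually_add_notMem226 (L : PeriodPair) {w z₀ : ℂ} (hw : z₀ + w ∉ L.lattice) :
    ∀ᶠ z in 𝓝 z₀, z + w ∉ L.lattice := by
  have ht : Tendsto (fun y : ℂ => y + w) (𝓝 z₀) (𝓝 (z₀ + w)) :=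
    (continuous_id.add continuous_const).continuousAt
  exact ht.eventually (L.isClosed_lattice.isOpen_compl.mem_nhds hw)

/-- Third-order Taylor expansion of `℘` at a point `w` off the lattice. -/
theorem exists_taylor226 (L : PeriodPair) {w : ℂ} (hw : w ∉ L.lattice) :
    ∃ R : ℂ → ℂ, AnalyticAt ℂ R 0 ∧ ∀ᶠ z in 𝓝 (0 : ℂ),
      ℘[L] (z + w) = ℘[L] w + ℘'[L] w * z + (3 * ℘[L] w ^ 2 - L.g₂ / 4) * z ^ 2
        + 2 * ℘[L] w * ℘'[L] w * z ^ 3 + z ^ 4 * R z := by
  set a := ℘[L] w with ha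
  set b := ℘'[L] w with hb
  have hw0 : (0 : ℂ) + w ∉ L.lattice := by simpa using hw
  have hev := eventually_add_notMem226 L hw0
  -- the successive derivatives
  let f₀ : ℂ → ℂ := fun z => ℘[L] (z + w) -
    (a + b * z + (3 * a ^ 2 - L.g₂ / 4) * z ^ 2 + 2 * a * b * z ^ 3)
  let f₁ : ℂ → ℂ := fun z => ℘'[L] (z + w) -
    (b + 2 * (3 * a ^ 2 - L.g₂ / 4) * z + 6 * a * b * z ^ 2)
  let f₂ : ℂ → ℂ := fun z => (6 * ℘[L] (z + w) ^ 2 - L.g₂ / 2) -
    (2 * (3 * a ^ 2 - L.g₂ / 4) + 12 * a * b * z)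
  let f₃ : ℂ → ℂ := fun z => 12 * ℘[L] (z + w) * ℘'[L] (z + w) - 12 * a * b
  have hP : ∀ z, z + w ∉ L.lattice → HasDerivAt (fun y => ℘[L] (y + w)) (℘'[L] (z + w)) z := by
    intro z hz
    exact (hasDerivAt_weierstrassP226 L hz).comp_add_const z w
  have hP' : ∀ z, z + w ∉ L.lattice →
      HasDerivAt (fun y => ℘'[L] (y + w)) (6 * ℘[L] (z + w) ^ 2 - L.g₂ / 2) z := by
    intro z hz
    have := (hasDerivAt_derivWeierstrassP226 L hz).comp_add_const z w
    rwa [deriv_derivWeierstrassP226 L hz] at this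
  have h01 : ∀ᶠ z in 𝓝 (0 : ℂ), HasDerivAt f₀ (f₁ z) z := by
    filter_upwards [hev] with z hz
    have h1 : HasDerivAt (fun y : ℂ => a + b * y + (3 * a ^ 2 - L.g₂ / 4) * y ^ 2
        + 2 * a * b * y ^ 3) (b + 2 * (3 * a ^ 2 - L.g₂ / 4) * z + 6 * a * b * z ^ 2) z := by
      have hid : HasDerivAt (fun y : ℂ => y) 1 z := hasDerivAt_id z
      have := (((hid.const_mul b).const_add a).fun_add ((hid.fun_pow 2).const_mul
        (3 * a ^ 2 - L.g₂ / 4))).fun_add ((hid.fun_pow 3).const_mul (2 * a * b))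
      refine this.congr_deriv ?_
      push_cast
      ring
    exact (hP z hz).sub h1
  have h12 : ∀ᶠ z in 𝓝 (0 : ℂ), HasDerivAt f₁ (f₂ z) z := by
    filter_upwards [hev] with z hz
    have h1 : HasDerivAt (fun y : ℂ => b + 2 * (3 * a ^ 2 - L.g₂ / 4) * y + 6 * a * b * y ^ 2)
        (2 * (3 * a ^ 2 - L.g₂ / 4) + 12 * a * b * z) z := by
      have hid : HasDerivAt (fun y : ℂ => y) 1 z := hasDerivAt_id z
      have := ((hid.const_mul (2 * (3 * a ^ 2 - L.g₂ / 4))).const_add b).fun_add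
        ((hid.fun_pow 2).const_mul (6 * a * b))
      refine this.congr_deriv ?_
      push_cast
      ring
    exact (hP' z hz).sub h1
  have h23 : ∀ᶠ z in 𝓝 (0 : ℂ), HasDerivAt f₂ (f₃ z) z := by
    filter_upwards [hev] with z hz
    have h1 : HasDerivAt (fun y : ℂ => 2 * (3 * a ^ 2 - L.g₂ / 4) + 12 * a * b * y)
        (12 * a * b) z := by
      have hid : HasDerivAt (fun y : ℂ => y) 1 z := hasDerivAt_id z
      have := (hid.const_mul (12 * a * b)).const_add (2 * (3 * a ^ 2 - L.g₂ / 4))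
      simpa using this
    have h2 : HasDerivAt (fun y : ℂ => 6 * ℘[L] (y + w) ^ 2 - L.g₂ / 2)
        (12 * ℘[L] (z + w) * ℘'[L] (z + w)) z := by
      have := (((hP z hz).fun_pow 2).const_mul 6).sub_const (L.g₂ / 2)
      refine this.congr_deriv ?_
      push_cast
      ring
    exact h2.sub h1
  have han : AnalyticAt ℂ f₀ 0 := by
    have h3 := analyticAt_shift226 L hw0
    show AnalyticAt ℂ (fun z => ℘[L] (z + w) -
      (a + b * z + (3 * a ^ 2 - L.g₂ / 4) * z ^ 2 + 2 * a * b * z ^ 3)) 0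
    fun_prop
  have h4 : ((4 : ℕ) : ℕ∞) ≤ analyticOrderAt f₀ 0 := by
    rw [natCast_le_analyticOrderAt_iff_iteratedDeriv_eq_zero han]
    intro i hi
    interval_cases i
    · simp [f₀, ha]
    · rw [iteratedDeriv_succ_of_hasDerivAt226 0 h01]
      simp [f₁, hb]
    · rw [iteratedDeriv_succ_of_hasDerivAt226 1 h01, iteratedDeriv_succ_of_hasDerivAt226 0 h12]
      simp [f₂, ha]; ring
    · rw [iteratedDeriv_succ_of_hasDerivAt226 2 h01, iteratedDeriv_succ_of_hasDerivAt226 1 h12,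
        iteratedDeriv_succ_of_hasDerivAt226 0 h23]
      simp [f₃, ha, hb]
  obtain ⟨g, hg, hgz⟩ := (natCast_le_analyticOrderAt han).mp h4
  refine ⟨g, hg, ?_⟩
  filter_upwards [hgz] with z hz
  simp only [f₀, sub_zero, smul_eq_mul] at hz
  linear_combination hz

/-- The addition relation has a removable singularity at `0`. -/
theorem exists_analytic_at_zero226 (L : PeriodPair) {w : ℂ} (hw : w ∉ L.lattice) :
    ∃ H : ℂ → ℂ, AnalyticAt ℂ H 0 ∧ addRel226 L w =ᶠ[𝓝[≠] (0 : ℂ)] H := by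
  obtain ⟨e, he, hez⟩ := exists_sq_factor226 L
  obtain ⟨R, hR, hRz⟩ := exists_taylor226 L hw
  have hp : AnalyticAt ℂ ℘'[L - (0 : ℂ)] 0 := L.analyticAt_derivWeierstrassPExcept 0
  set a := ℘[L] w with ha
  set b := ℘'[L] w with hb
  refine ⟨fun z => 8 * a * e z + 4 * a * z ^ 4 * e z ^ 2 + (4 * a ^ 2 - L.g₂) * z ^ 2 * e z
      - (L.g₂ * a + 2 * L.g₃) - 2 * b * ℘'[L - (0 : ℂ)] z + 8 * a * (3 * a ^ 2 - L.g₂ / 4)
      + 8 * a * (2 * a * b) * z
      - 4 * (a + b * z + (3 * a ^ 2 - L.g₂ / 4) * z ^ 2 + 2 * a * b * z ^ 3)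
          * (a ^ 2 + 2 * (1 - a * z ^ 2) * e z + z ^ 4 * e z ^ 2)
      - 4 * R z * (1 - 2 * a * z ^ 2 + z ^ 4 * (a ^ 2 + 2 * (1 - a * z ^ 2) * e z
          + z ^ 4 * e z ^ 2)), by fun_prop, ?_⟩
  filter_upwards [hez.filter_mono nhdsWithin_le_nhds, hRz.filter_mono nhdsWithin_le_nhds,
    self_mem_nhdsWithin] with z h1 h2 hz0
  have hz0' : z ≠ 0 := hz0
  have e1 : ℘[L] z = z ^ 2 * e z + 1 / z ^ 2 := by
    rw [weierstrassP_eq_except226, h1]
  have e2 : ℘'[L] z = ℘'[L - (0 : ℂ)] z - 2 / z ^ 3 := derivWeierstrassP_eq_except226 L z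
  simp only [addRel226, e1, e2, h2, ← ha, ← hb]
  field_simp
  ring

theorem weierstrassP_eq_of_add_mem226 (L : PeriodPair) {w z₀ : ℂ} (hz₀ : z₀ + w ∈ L.lattice) :
    ℘[L] z₀ = ℘[L] w := by
  have h := L.weierstrassP_add_coe (-w) ⟨z₀ + w, hz₀⟩
  simp only [neg_add_cancel_comm_assoc, weierstrassP_neg] at h
  exact h

/-- The addition relation has a removable singularity at the points of `-w + Λ`. -/
theorem exists_analytic_at_pole226 (L : PeriodPair) {w z₀ : ℂ} (hw : w ∉ L.lattice)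
    (hz₀ : z₀ + w ∈ L.lattice) :
    ∃ H : ℂ → ℂ, AnalyticAt ℂ H z₀ ∧ addRel226 L w =ᶠ[𝓝[≠] z₀] H := by
  have hz₀' : z₀ ∉ L.lattice := fun h => hw (by simpa using sub_mem hz₀ h)
  have hx : ℘[L] z₀ = ℘[L] w := weierstrassP_eq_of_add_mem226 L hz₀
  set a := ℘[L] w with ha
  set b := ℘'[L] w with hb
  have h1 : AnalyticAt ℂ ℘[L] z₀ := L.analyticOnNhd_weierstrassP _ hz₀'
  have h2 : AnalyticAt ℂ ℘'[L] z₀ := L.analyticOnNhd_derivWeierstrassP _ hz₀'
  -- `℘ z - a = (z - z₀) u z`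
  have hf : AnalyticAt ℂ (fun z => ℘[L] z - a) z₀ := by fun_prop
  have hord : ((1 : ℕ) : ℕ∞) ≤ analyticOrderAt (fun z => ℘[L] z - a) z₀ := by
    rw [natCast_le_analyticOrderAt_iff_iteratedDeriv_eq_zero hf]
    intro i hi
    interval_cases i
    simp [hx]
  obtain ⟨u, hu, huz⟩ := (natCast_le_analyticOrderAt hf).mp hord
  -- the regular part of `℘ (z + w)`
  have h3 : AnalyticAt ℂ (fun z => ℘[L - (z₀ + w)] (z + w)) z₀ := by
    have h : AnalyticAt ℂ ℘[L - (z₀ + w)] (z₀ + w) := L.analyticAt_weierstrassPExcept (z₀ + w)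
    exact h.comp_of_eq (g := ℘[L - (z₀ + w)]) (f := fun y => y + w) (by fun_prop) rfl
  refine ⟨fun z => 4 * ℘[L] z * a * (℘[L] z + a) - L.g₂ * (℘[L] z + a) - 2 * L.g₃
      - 2 * ℘'[L] z * b
      - 4 * ((z - z₀) ^ 2 * (℘[L - (z₀ + w)] (z + w) - 1 / (z₀ + w) ^ 2) + 1) * u z ^ 2,
    by fun_prop, ?_⟩
  filter_upwards [huz.filter_mono nhdsWithin_le_nhds, self_mem_nhdsWithin] with z hz hz0
  have hz0' : z - z₀ ≠ 0 := sub_ne_zero.mpr hz0
  have e3 : ℘[L] (z + w) = ℘[L - (z₀ + w)] (z + w) + (1 / (z - z₀) ^ 2 - 1 / (z₀ + w) ^ 2) := by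
    have := L.weierstrassPExcept_add ⟨z₀ + w, hz₀⟩ (z + w)
    simp only at this
    rw [← this]
    congr 3
    ring
  simp only [pow_one, smul_eq_mul] at hz
  simp only [addRel226, ← ha, ← hb, e3, hz]
  field_simp
  ring

/-- All orders of the addition relation are nonnegative. -/
theorem meromorphicOrderAt_addRel226_nonneg (L : PeriodPair) {w : ℂ} (hw : w ∉ L.lattice)
    (z₀ : ℂ) : 0 ≤ meromorphicOrderAt (addRel226 L w) z₀ := by
  by_cases h0 : z₀ ∈ L.lattice
  · -- reduce to `0` by periodicity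
    have hper : addRel226 L w ∘ (· - z₀) = addRel226 L w := by
      funext z
      have := addRel226_add_coe L w (z - z₀) z₀ h0
      simpa using this.symm
    have h := meromorphicOrderAt_comp_sub_const_eq_meromorphicOrderAt
      (f := addRel226 L w) (c := z₀) (x := z₀)
    rw [hper, sub_self] at h
    rw [h]
    obtain ⟨H, hH, hHz⟩ := exists_analytic_at_zero226 L hw
    exact ((meromorphic_addRel226 L w) 0).meromorphicOrderAt_nonneg_iff.mpr ⟨H, hH, hHz⟩
  · by_cases h1 : z₀ + w ∈ L.lattice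
    · obtain ⟨H, hH, hHz⟩ := exists_analytic_at_pole226 L hw h1
      exact ((meromorphic_addRel226 L w) z₀).meromorphicOrderAt_nonneg_iff.mpr ⟨H, hH, hHz⟩
    · exact (analyticAt_addRel226 L h0 h1).meromorphicOrderAt_nonneg

/-- The addition relation is constant on the regular locus. -/
theorem exists_addRel226_const (L : PeriodPair) {w : ℂ} (hw : w ∉ L.lattice) :
    ∃ c, ∀ z, z ∉ L.lattice → z + w ∉ L.lattice → addRel226 L w z = c := by
  obtain ⟨c, hc⟩ := elliptic_const226 L (meromorphic_addRel226 L w)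
    (meromorphicOrderAt_addRel226_nonneg L hw) (fun z l hl => addRel226_add_coe L w z l hl)
  exact ⟨c, fun z hz hzw => hc z (analyticAt_addRel226 L hz hzw).continuousAt⟩

theorem addRel226_eq_zero_of_two (L : PeriodPair) {w z : ℂ} (hw : w ∉ L.lattice)
    (h2w : w + w ∉ L.lattice) (hz : z ∉ L.lattice) (hzw : z + w ∉ L.lattice) :
    addRel226 L w z = 0 := by
  obtain ⟨c, hc⟩ := exists_addRel226_const L hw
  rw [hc z hz hzw, ← hc w hw h2w]
  exact addRel226_self L hw

/-- **The addition relation** for `℘`: for `z, w, z + w ∉ Λ`,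
`4 ℘(z+w) (℘ z - ℘ w)² = 4 ℘ z ℘ w (℘ z + ℘ w) - g₂ (℘ z + ℘ w) - 2 g₃ - 2 ℘' z ℘' w`. -/
theorem addRel226_eq_zero (L : PeriodPair) {w z : ℂ} (hw : w ∉ L.lattice)
    (hz : z ∉ L.lattice) (hzw : z + w ∉ L.lattice) : addRel226 L w z = 0 := by
  by_cases h2w : w + w ∈ L.lattice
  · -- `w` is a half-period: use the symmetry and the point `w / 2`
    obtain ⟨c, hc⟩ := exists_addRel226_const L hw
    have hv : w / 2 ∉ L.lattice := fun h => hw (by simpa using add_mem h h)
    have hvv : w / 2 + w / 2 ∉ L.lattice := by simpa using hw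
    have hvw : w / 2 + w ∉ L.lattice := by
      intro h
      apply hv
      have := sub_mem h2w h
      have e : w + w - (w / 2 + w) = w / 2 := by ring
      rwa [e] at this
    have hwv : w + w / 2 ∉ L.lattice := by rwa [add_comm]
    rw [hc z hz hzw, ← hc (w / 2) hv hvw, addRel226_symm]
    exact addRel226_eq_zero_of_two L hv hvv hw hwv
  · exact addRel226_eq_zero_of_two L hw h2w hz hzw

/-- The same relation, spelled out. -/
theorem weierstrassP_add_mul226 (L : PeriodPair) {w z : ℂ} (hw : w ∉ L.lattice)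
    (hz : z ∉ L.lattice) (hzw : z + w ∉ L.lattice) :
    4 * ℘[L] (z + w) * (℘[L] z - ℘[L] w) ^ 2 =
      (℘'[L] z - ℘'[L] w) ^ 2 - 4 * (℘[L] z + ℘[L] w) * (℘[L] z - ℘[L] w) ^ 2 := by
  have h := addRel226_eq_zero L hw hz hzw
  have h1 := L.derivWeierstrassP_sq z hz
  have h2 := L.derivWeierstrassP_sq w hw
  simp only [addRel226] at h
  linear_combination -h - h1 - h2

/-- **Addition theorem** for `℘`. -/
theorem weierstrassP_add226 (L : PeriodPair) {w z : ℂ} (hw : w ∉ L.lattice)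
    (hz : z ∉ L.lattice) (hzw : z + w ∉ L.lattice) (hne : ℘[L] z ≠ ℘[L] w) :
    ℘[L] (z + w) =
      ((℘'[L] z - ℘'[L] w) / (℘[L] z - ℘[L] w)) ^ 2 / 4 - ℘[L] z - ℘[L] w := by
  have h := weierstrassP_add_mul226 L hw hz hzw
  have hne' : ℘[L] z - ℘[L] w ≠ 0 := sub_ne_zero.mpr hne
  field_simp
  linear_combination h

/-- Pure algebra behind `derivWeierstrassP_add226`. -/
theorem chord_algebra226 {x y a b g2 g3 s s' : ℂ} (hD : x - a ≠ 0)
    (h1 : y ^ 2 = 4 * x ^ 3 - g2 * x - g3) (h2 : b ^ 2 = 4 * a ^ 3 - g2 * a - g3)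
    (hs : s = ((y - b) / (x - a)) ^ 2 / 4 - x - a)
    (key : s' = 2 * ((y - b) / (x - a)) *
      (((6 * x ^ 2 - g2 / 2) * (x - a) - (y - b) * y) / (x - a) ^ 2) / 4 - y) :
    s' = -((y - b) / (x - a) * (s - x) + y) := by
  have hpoly : 2 * (6 * x ^ 2 - g2 / 2) * (x - a) - (y ^ 2 - b ^ 2)
      - (8 * x + 4 * a) * (x - a) ^ 2 = 0 := by
    linear_combination -h1 + h2
  have e : (2 * ((y - b) / (x - a)) *
      (((6 * x ^ 2 - g2 / 2) * (x - a) - (y - b) * y) / (x - a) ^ 2) / 4 - y)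
      - -((y - b) / (x - a) * ((((y - b) / (x - a)) ^ 2 / 4 - x - a) - x) + y)
      = ((y - b) / (x - a) / (4 * (x - a) ^ 2)) *
        (2 * (6 * x ^ 2 - g2 / 2) * (x - a) - (y ^ 2 - b ^ 2)
          - (8 * x + 4 * a) * (x - a) ^ 2) := by
    field_simp
    ring
  rw [hpoly, mul_zero, sub_eq_zero] at e
  rw [key, hs]
  exact e

/-- **Addition theorem** for `℘'`: the third point of the chord. -/
theorem derivWeierstrassP_add226 (L : PeriodPair) {w z : ℂ} (hw : w ∉ L.lattice)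
    (hz : z ∉ L.lattice) (hzw : z + w ∉ L.lattice) (hne : ℘[L] z ≠ ℘[L] w) :
    ℘'[L] (z + w) =
      -((℘'[L] z - ℘'[L] w) / (℘[L] z - ℘[L] w) * (℘[L] (z + w) - ℘[L] z) + ℘'[L] z) := by
  have hne' : ℘[L] z - ℘[L] w ≠ 0 := sub_ne_zero.mpr hne
  -- the two sides of the addition theorem agree near `z`
  have hcont : ContinuousAt ℘[L] z := (L.analyticOnNhd_weierstrassP z hz).continuousAt
  have hev : (fun y => ℘[L] (y + w)) =ᶠ[𝓝 z]
      fun y => ((℘'[L] y - ℘'[L] w) / (℘[L] y - ℘[L] w)) ^ 2 / 4 - ℘[L] y - ℘[L] w := by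
    filter_upwards [L.isClosed_lattice.isOpen_compl.mem_nhds hz, eventually_add_notMem226 L hzw,
      hcont.eventually_ne hne] with y hy hyw hyne
    exact weierstrassP_add226 L hw hy hyw hyne
  have hP := hasDerivAt_weierstrassP226 L hz
  have hP' := hasDerivAt_derivWeierstrassP226 L hz
  rw [deriv_derivWeierstrassP226 L hz] at hP'
  have hl : HasDerivAt (fun y => (℘'[L] y - ℘'[L] w) / (℘[L] y - ℘[L] w))
      (((6 * ℘[L] z ^ 2 - L.g₂ / 2) * (℘[L] z - ℘[L] w) - (℘'[L] z - ℘'[L] w) * ℘'[L] z)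
        / (℘[L] z - ℘[L] w) ^ 2) z :=
    (hP'.sub_const (℘'[L] w)).fun_div (hP.sub_const (℘[L] w)) hne'
  have hR : HasDerivAt
      (fun y => ((℘'[L] y - ℘'[L] w) / (℘[L] y - ℘[L] w)) ^ 2 / 4 - ℘[L] y - ℘[L] w)
      (2 * ((℘'[L] z - ℘'[L] w) / (℘[L] z - ℘[L] w)) *
        (((6 * ℘[L] z ^ 2 - L.g₂ / 2) * (℘[L] z - ℘[L] w) - (℘'[L] z - ℘'[L] w) * ℘'[L] z)
        / (℘[L] z - ℘[L] w) ^ 2) / 4 - ℘'[L] z) z := by
    have := (((hl.fun_pow 2).div_const 4).fun_sub hP).sub_const (℘[L] w)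
    refine this.congr_deriv ?_
    push_cast
    ring
  have hLd : HasDerivAt (fun y => ℘[L] (y + w)) (℘'[L] (z + w)) z :=
    (hasDerivAt_weierstrassP226 L hzw).comp_add_const z w
  have key := (hLd.congr_of_eventuallyEq hev.symm).unique hR
  exact chord_algebra226 hne' (L.derivWeierstrassP_sq z hz) (L.derivWeierstrassP_sq w hw)
    (weierstrassP_add226 L hw hz hzw hne) key

end Fermat.Agent.S15.H226

end
end
-- ===== PACK-END S15/H226/WpAdd.lean

-- ===== PACK-BEGIN S10/Final.lean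
section



set_option autoImplicit false
open WeierstrassCurve WeierstrassCurve.Affine WeierstrassCurve.Affine.Point
open CuspForm ModularFormClass UpperHalfPlane
open FreyPackage

namespace Fermat.Agent.S10

/-- A Frey package with exponent `p` contradicts Fermat's Last Theorem for exponent `p`. -/
theorem freyPackage_false_of_flt (P : FreyPackage) (h : FermatLastTheoremFor P.p) : False :=
  (fermatLastTheoremFor_iff_int.mp h) P.a P.b P.c P.ha0 P.hb0 P.hc0 P.hFLT

/-- S10 from Fermat's Last Theorem for the exponents 5, 7, 13. -/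
theorem result_of_flt (h5 : FermatLastTheoremFor 5) (h7 : FermatLastTheoremFor 7)
    (h13 : FermatLastTheoremFor 13) (P : FreyPackage) (hp : P.p = 5 ∨ P.p = 7 ∨ P.p = 13) :
    ¬ HasGaloisStableCofixedLine (K := AlgebraicClosure ℚ) ℚ P.freyCurve P.p := by
  intro _
  rcases hp with hp | hp | hp
  · exact freyPackage_false_of_flt P (hp ▸ h5)
  · exact freyPackage_false_of_flt P (hp ▸ h7)
  · exact freyPackage_false_of_flt P (hp ▸ h13)

end Fermat.Agent.S10

end
-- ===== PACK-END S10/Final.lean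

-- ===== PACK-BEGIN Glue/Chain.lean
section


/-!
# Row GLUE — the conditional chain, hypothesis-parametrised (row-lead helper120)

Mathlib + Prelude only.  Every landed statement enters as a hypothesis `SnnStatement`.

    mlcAll_of_chain : S51 → S52 → S59 → S50 → G1 → MlcAllStatement
    s60_of          : MlcAllStatement → S60Statement
    s04_of, s06_of  : FreyIntStatement → MlcAllStatement → S04Statement / S06Statement
    s45_of          : S06 → S43 → S44 → S05 → S08 → S45Statement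
    s03_of          : S06 → S09 → S43 → S44 → S05 → S07 → S08 → S03Statement
    s01_of          : S02 → S03 → S01Statement
    s01_of_all      : everything → S01Statement

Sources: `S60/Glue.lean` (helper120), `S06/H211/Glue.lean` (helper211),
`S45/H404/Glue.lean` (helper404), re-based on the Props of `Glue/Spec.lean`.
-/

set_option autoImplicit false
open WeierstrassCurve WeierstrassCurve.Affine WeierstrassCurve.Affine.Point
open CuspForm ModularFormClass UpperHalfPlane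
open scoped WeierstrassCurve.Affine

namespace Fermat.Agent.Glue

/-! ## T60: exact conductor-level modularity of every semistable model -/

/-- Exact conductor-level modularity implies modularity of the generic fibre. -/
theorem isModular_of_mlc1 {W : WeierstrassCurve ℤ}
    (h : Mlc1IsModularModelOfExactConductorLevel W) :
    (W.map (Int.castRingHom ℚ)).IsModular := by
  obtain ⟨N, hN, -, -, hmod⟩ := h
  exact ⟨W, ⟨1, one_smul _ _⟩, N, hN, hmod⟩

/-- The `3`-branch: irreducible mod `3` + S50 + G1 + S59. -/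
theorem mlc1_of_irreducible_three (h59 : S59Statement) (h50 : S50Statement) (hG1 : G1Statement)
    (W : WeierstrassCurve ℤ) (hΔ : W.Δ ≠ 0) (hW : W.IsSemistableModel)
    (h3 : W.ModRepIsIrreducible 3) : Mlc1IsModularModelOfExactConductorLevel W := by
  obtain ⟨M, hM, hres, hM3, hfix⟩ := h50 W hΔ hW h3
  by_cases h9 : 3 ^ 2 ∣ M
  · obtain ⟨M₀, hM₀, hres₀, h9₀, hM₀3⟩ := hG1 W hΔ hW h3 M hM hres hM3 h9 (hfix h9)
    have : NeZero M₀ := ⟨hM₀.ne'⟩
    exact h59 3 (Or.inl rfl) W hΔ hW h3 M₀ hres₀ h9₀ hM₀3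
  · have : NeZero M := ⟨hM.ne'⟩
    exact h59 3 (Or.inl rfl) W hΔ hW h3 M hres h9 hM3

/-- Transfer of modularity along a mod-`5` congruence. -/
theorem resMod_five_of_congruent {W W' : WeierstrassCurve ℤ}
    (h : Mlc1IsModularModelOfExactConductorLevel W')
    (hcong : ∀ ℓ : ℕ, ℓ.Prime → W.IsGoodPrimeFor ℓ → W'.IsGoodPrimeFor ℓ → ℓ ≠ 5 →
      (5 : ℤ) ∣ (W'.apOfModel ℓ - W.apOfModel ℓ)) :
    ∃ N : ℕ, 0 < N ∧ Squarefree N ∧ W.IsResiduallyModularOfLevel 5 N := by
  obtain ⟨N, hN, hsq, hbad, f, hf, hap⟩ := h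
  obtain ⟨𝔪, h𝔪, h5⟩ := FLTPrelim.exists_maximalIdeal_natCast_prime_mem (p := 5) (by norm_num)
  refine ⟨N, hN, hsq, f, 𝔪, hf, h𝔪, h5, ?_⟩
  intro ℓ hℓ hgoodW hℓN hℓ5
  have hgoodW' : W'.IsGoodPrimeFor ℓ := fun hdvd => hℓN ((hbad ℓ hℓ).2 hdvd)
  refine ⟨((W'.apOfModel ℓ : ℤ) : integralClosure ℤ ℂ), ?_, ?_⟩
  · rw [hap ℓ hℓ hgoodW' hℓN]
    simp
  · obtain ⟨c, hc⟩ := hcong ℓ hℓ hgoodW hgoodW' hℓ5
    have : ((W'.apOfModel ℓ : ℤ) : integralClosure ℤ ℂ) - ((W.apOfModel ℓ : ℤ) : integralClosure ℤ ℂ)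
        = ((5 : ℕ) : integralClosure ℤ ℂ) * ((c : ℤ) : integralClosure ℤ ℂ) := by
      rw [← Int.cast_sub, hc]
      push_cast
      ring
    rw [this]
    exact Ideal.mul_mem_right _ _ h5

/-- **T60.** -/
theorem mlcAll_of_chain (h51 : S51Statement) (h52 : S52Statement) (h59 : S59Statement)
    (h50 : S50Statement) (hG1 : G1Statement) : MlcAllStatement := by
  intro W hΔ hW
  rcases h51 W hΔ hW with h3 | h5
  · exact mlc1_of_irreducible_three h59 h50 hG1 W hΔ hW h3
  · obtain ⟨W', hΔ', hW', h3', hcong⟩ := h52 W hΔ hW h5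
    have hmod' := mlc1_of_irreducible_three h59 h50 hG1 W' hΔ' hW' h3'
    obtain ⟨N, hN, hsq, hres⟩ := resMod_five_of_congruent hmod' hcong
    have : NeZero N := ⟨hN.ne'⟩
    have hnot_sq : ∀ q : ℕ, q.Prime → ∀ k : ℕ, 2 ≤ k → ¬ q ^ k ∣ N := by
      intro q hq k hk hdvd
      have h2 : q * q ∣ N := by
        have : q ^ 2 ∣ q ^ k := pow_dvd_pow q hk
        rw [pow_two] at this
        exact this.trans hdvd
      exact hq.not_isUnit (hsq q h2)
    exact h59 5 (Or.inr rfl) W hΔ hW h5 N hres (hnot_sq 5 (by norm_num) 2 le_rfl)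
      (fun q hq _ => hnot_sq q hq 3 (by norm_num))

theorem s60_of (h : MlcAllStatement) : S60Statement :=
  fun W hΔ hW => isModular_of_mlc1 (h W hΔ hW)

/-! ## T04, T06: the Frey curve -/

theorem s04_of (hF : FreyIntStatement) (h : MlcAllStatement) : S04Statement := by
  intro P
  obtain ⟨hss, hΔ, hmap, -⟩ := hF P
  have := isModular_of_mlc1 (h P.freyCurveInt hΔ hss)
  rwa [hmap] at this

theorem s06_of (hF : FreyIntStatement) (h : MlcAllStatement) : S06Statement := by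
  intro P
  obtain ⟨hss, hΔ, hmap, hbad⟩ := hF P
  obtain ⟨N, hN, hsq, hsupp, f, hf, hcoef⟩ := h P.freyCurveInt hΔ hss
  refine ⟨N, ⟨hN, hsq, fun q hq hqN => hbad q hq ((hsupp q hq).1 hqN)⟩, ?_⟩
  obtain ⟨𝔪, h𝔪, hp𝔪⟩ := FLTPrelim.exists_maximalIdeal_natCast_prime_mem P.pp
  refine ⟨f, P.freyCurveInt, 𝔪, hf, ⟨1, ?_⟩, h𝔪, hp𝔪, ?_⟩
  · rw [one_smul, hmap]
  · intro ℓ hℓ hgood hℓN _
    refine ⟨((P.freyCurveInt.apOfModel ℓ : ℤ) : integralClosure ℤ ℂ), ?_, ?_⟩
    · rw [hcoef ℓ hℓ hgood hℓN]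
      push_cast
      rfl
    · rw [sub_self]
      exact 𝔪.zero_mem

/-! ## T45, T03: level lowering to a divisor of `2` -/

/-- Descent of the level to a divisor of `2` (helper404). -/
theorem exists_level_dvd_two (h43 : S43Statement) (h44 : S44Statement) (h05 : S05Statement)
    (P : FreyPackage)
    (hirr : GaloisRepIsIrreducible (K := AlgebraicClosure ℚ) ℚ P.freyCurve P.p) :
    ∀ N : ℕ, P.IsConductorLevel N → P.ModularRepOfLevel N →
      ∃ M : ℕ, M ∣ 2 ∧ P.ModularRepOfLevel M := by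
  intro N
  induction N using Nat.strong_induction_on with
  | _ N ih =>
    intro hcond hmod
    by_cases hall : ∀ q : ℕ, q.Prime → q ∣ N → q = 2
    · refine ⟨N, ?_, hmod⟩
      have hN0 : N ≠ 0 := hcond.pos.ne'
      by_cases h2 : 2 ∣ N
      · obtain ⟨k, hk⟩ := h2
        have hk1 : k = 1 := by
          by_contra hk1
          obtain ⟨q, hq, hqk⟩ := Nat.exists_prime_and_dvd hk1
          have hq2 : q = 2 := hall q hq (hk ▸ Dvd.dvd.mul_left hqk 2)
          subst hq2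
          have h4 : 2 * 2 ∣ N := by
            obtain ⟨j, hj⟩ := hqk
            exact ⟨j, by rw [hk, hj]; ring⟩
          exact Nat.prime_two.not_isUnit (hcond.squarefree 2 h4)
        rw [hk, hk1]
      · have hN1 : N = 1 := by
          by_contra hN1
          obtain ⟨q, hq, hqN⟩ := Nat.exists_prime_and_dvd hN1
          exact h2 (hall q hq hqN ▸ hqN)
        rw [hN1]
        exact one_dvd 2
    · push Not at hall
      obtain ⟨q, hq, hqN, hq2⟩ := hall
      have hstep : ∃ M : ℕ, M ∣ N ∧ ¬ q ∣ M ∧ P.ModularRepOfLevel M := by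
        by_cases hqp : q = P.p
        · subst hqp
          exact h44 P hcond hqN hirr hmod
        · exact h43 P hcond hq hq2 hqp hqN hirr hmod (h05 P hq hq2 hqp)
      obtain ⟨M, hMN, hqM, hMmod⟩ := hstep
      have hMpos : 0 < M := Nat.pos_of_dvd_of_pos hMN hcond.pos
      have hMlt : M < N := by
        refine lt_of_le_of_ne (Nat.le_of_dvd hcond.pos hMN) ?_
        rintro rfl
        exact hqM hqN
      exact ih M hMlt (hcond.of_dvd hMN hMpos) hMmod

/-- **T45.** -/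
theorem s45_of (h06 : S06Statement) (h43 : S43Statement) (h44 : S44Statement)
    (h05 : S05Statement) (h08 : S08Statement) : S45Statement := by
  intro P _ hirr
  obtain ⟨N, hcond, hmod⟩ := h06 P
  obtain ⟨M, hM2, f, W, 𝔪, hf, -⟩ := exists_level_dvd_two h43 h44 h05 P hirr N hcond hmod
  rcases (Nat.dvd_prime Nat.prime_two).mp hM2 with rfl | rfl
  · exact absurd (h08 f) hf.ne_zero
  · exact ⟨f, hf.ne_zero⟩

/-- **T03.** -/
theorem s03_of (h06 : S06Statement) (h09 : S09Statement) (h43 : S43Statement)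
    (h44 : S44Statement) (h05 : S05Statement) (h07 : S07Statement) (h08 : S08Statement) :
    S03Statement := by
  intro P
  obtain ⟨N, hcond, hmod⟩ := h06 P
  obtain ⟨M, hM2, f, W, 𝔪, hf, -⟩ := exists_level_dvd_two h43 h44 h05 P (h09 P) N hcond hmod
  rcases (Nat.dvd_prime Nat.prime_two).mp hM2 with rfl | rfl
  · exact hf.ne_zero (h08 f)
  · exact hf.ne_zero (h07 f)

/-! ## T01: Fermat's Last Theorem -/

/-- **T01.** -/
theorem s01_of (h02 : S02Statement) (h03 : S03Statement) : S01Statement := by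
  have hFLT : FermatLastTheorem := by
    apply FermatLastTheorem.of_odd_primes
    intro p hp hodd
    by_cases hp3 : p = 3
    · subst hp3
      exact fermatLastTheoremThree
    · have hp5 : 5 ≤ p := by
        have h2 : 2 ≤ p := hp.two_le
        have hne2 : p ≠ 2 := by
          rintro rfl
          exact absurd hodd (by decide)
        have hne4 : p ≠ 4 := by
          rintro rfl
          exact absurd hodd (by decide)
        omega
      intro a b c ha hb hc H
      have H' : (a : ℤ) ^ p + (b : ℤ) ^ p = (c : ℤ) ^ p := by exact_mod_cast H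
      obtain ⟨P⟩ := h02 (a : ℤ) (b : ℤ) (c : ℤ) (by exact_mod_cast ha) (by exact_mod_cast hb)
        (by exact_mod_cast hc) p hp hp5 H'
      exact h03 P
  intro n hn a b c ha hb hc
  exact hFLT n hn a b c ha.ne' hb.ne' hc.ne'

/-- **The conditional chain**: S01 from the landed statements, S50 and G1. -/
theorem s01_of_all (hF : FreyIntStatement) (h02 : S02Statement) (h05 : S05Statement)
    (h07 : S07Statement) (h08 : S08Statement) (h09 : S09Statement) (h43 : S43Statement)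
    (h44 : S44Statement) (h51 : S51Statement) (h52 : S52Statement) (h59 : S59Statement)
    (h50 : S50Statement) (hG1 : G1Statement) : S01Statement :=
  s01_of h02 (s03_of (s06_of hF (mlcAll_of_chain h51 h52 h59 h50 hG1)) h09 h43 h44 h05 h07 h08)

end Fermat.Agent.Glue

end
-- ===== PACK-END Glue/Chain.lean

-- ===== PACK-BEGIN LT/H952/Bridge.lean
section


/-!
# Row LT, block GLUE2, leaf G2b-GRP (owner helper952): bridge `GL (Fin 2) (ZMod 3)` ↔ `M2`
-/

set_option autoImplicit false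

open Matrix
open scoped MatrixGroups

namespace Fermat.Agent.LT.H952

/-- Entries of an invertible matrix. -/
def toM2 (g : GL (Fin 2) (ZMod 3)) : M2 :=
  ⟨(g : Matrix (Fin 2) (Fin 2) (ZMod 3)) 0 0, (g : Matrix (Fin 2) (Fin 2) (ZMod 3)) 0 1,
   (g : Matrix (Fin 2) (Fin 2) (ZMod 3)) 1 0, (g : Matrix (Fin 2) (Fin 2) (ZMod 3)) 1 1⟩

theorem toM2_mul (g h : GL (Fin 2) (ZMod 3)) : toM2 (g * h) = M2.mul (toM2 g) (toM2 h) := by
  simp [toM2, M2.mul, Units.val_mul, Matrix.mul_apply, Fin.sum_univ_two]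

theorem toM2_one : toM2 1 = M2.one := by
  simp [toM2, M2.one]

theorem toM2_injective : Function.Injective toM2 := by
  intro g h e
  apply Matrix.GeneralLinearGroup.ext
  intro i j
  have h1 : (g : Matrix (Fin 2) (Fin 2) (ZMod 3)) 0 0 = (h : Matrix (Fin 2) (Fin 2) (ZMod 3)) 0 0 :=
    congrArg M2.a e
  have h2 : (g : Matrix (Fin 2) (Fin 2) (ZMod 3)) 0 1 = (h : Matrix (Fin 2) (Fin 2) (ZMod 3)) 0 1 :=
    congrArg M2.b e
  have h3 : (g : Matrix (Fin 2) (Fin 2) (ZMod 3)) 1 0 = (h : Matrix (Fin 2) (Fin 2) (ZMod 3)) 1 0 :=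
    congrArg M2.c e
  have h4 : (g : Matrix (Fin 2) (Fin 2) (ZMod 3)) 1 1 = (h : Matrix (Fin 2) (Fin 2) (ZMod 3)) 1 1 :=
    congrArg M2.d e
  fin_cases i <;> fin_cases j
  · exact h1
  · exact h2
  · exact h3
  · exact h4

theorem toM2_eq_one_iff (g : GL (Fin 2) (ZMod 3)) : toM2 g = M2.one ↔ g = 1 :=
  ⟨fun h => toM2_injective (h.trans toM2_one.symm), fun h => h ▸ toM2_one⟩

theorem det_toM2 (g : GL (Fin 2) (ZMod 3)) :
    ((Matrix.GeneralLinearGroup.det g : (ZMod 3)ˣ) : ZMod 3) = M2.det (toM2 g) := by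
  rw [Matrix.GeneralLinearGroup.val_det_apply, Matrix.det_fin_two]
  rfl

theorem det_toM2_ne_zero (g : GL (Fin 2) (ZMod 3)) : M2.det (toM2 g) ≠ 0 := by
  rw [← det_toM2]
  exact Units.ne_zero _

theorem toM2_inv (g : GL (Fin 2) (ZMod 3)) : toM2 g⁻¹ = M2.inv (toM2 g) := by
  have h : M2.mul (toM2 g) (toM2 g⁻¹) = M2.one := by
    rw [← toM2_mul, mul_inv_cancel, toM2_one]
  exact M2.inv_spec _ _ _ _ _ _ _ _ h

theorem toM2_pow (g : GL (Fin 2) (ZMod 3)) (k : Fin 3) :
    toM2 (g ^ (k : ℕ)) = M2.pw (toM2 g) k := by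
  fin_cases k
  · simp [M2.pw, toM2_one]
  · simp [M2.pw]
  · simp [M2.pw, pow_two, toM2_mul]

theorem toM2_cube (g : GL (Fin 2) (ZMod 3)) :
    toM2 (g ^ 3) = M2.mul (M2.mul (toM2 g) (toM2 g)) (toM2 g) := by
  rw [← toM2_mul, ← toM2_mul]
  congr 1
  rw [pow_succ, pow_two]

theorem isOrd3_iff (g : GL (Fin 2) (ZMod 3)) : M2.IsOrd3 (toM2 g) ↔ g ^ 3 = 1 ∧ g ≠ 1 := by
  unfold M2.IsOrd3
  rw [← toM2_cube, toM2_eq_one_iff, Ne, toM2_eq_one_iff]

theorem units_cases (u : (ZMod 3)ˣ) : u = 1 ∨ u = -1 := by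
  rcases M2.unit_cases (u : ZMod 3) u.ne_zero with h | h
  · left
    exact Units.ext h
  · right
    apply Units.ext
    rw [h]
    simp

theorem units_one_ne_neg_one : (1 : (ZMod 3)ˣ) ≠ -1 := by
  intro h
  have := congrArg (fun u : (ZMod 3)ˣ => (u : ZMod 3)) h
  simp only [Units.val_one, Units.val_neg] at this
  exact M2.one_ne_neg_one this

theorem det_eq_one_iff (g : GL (Fin 2) (ZMod 3)) :
    Matrix.GeneralLinearGroup.det g = 1 ↔ M2.det (toM2 g) = 1 := by
  rw [← det_toM2]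
  constructor
  · intro h
    rw [h]
    rfl
  · intro h
    exact Units.ext h

theorem det_eq_neg_one_iff (g : GL (Fin 2) (ZMod 3)) :
    Matrix.GeneralLinearGroup.det g = -1 ↔ M2.det (toM2 g) = -1 := by
  rw [← det_toM2]
  constructor
  · intro h
    rw [h]
    simp
  · intro h
    apply Units.ext
    rw [h]
    simp

theorem mulVec_eq (g : GL (Fin 2) (ZMod 3)) (x y : ZMod 3) :
    (g : Matrix (Fin 2) (Fin 2) (ZMod 3)).mulVec ![x, y] =
      ![(toM2 g).a * x + (toM2 g).b * y, (toM2 g).c * x + (toM2 g).d * y] := by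
  funext i
  fin_cases i <;> simp [toM2, Matrix.mulVec, dotProduct, Fin.sum_univ_two]

theorem vec_ne_zero {x y : ZMod 3} (h : x ≠ 0 ∨ y ≠ 0) : (![x, y] : Fin 2 → ZMod 3) ≠ 0 := by
  intro e
  have h0 : x = 0 := by simpa using congrFun e 0
  have h1 : y = 0 := by simpa using congrFun e 1
  rcases h with h | h
  · exact h h0
  · exact h h1

theorem moves_of (g : GL (Fin 2) (ZMod 3)) (x y : ZMod 3)
    (h : ∀ c : ZMod 3, (g : Matrix (Fin 2) (Fin 2) (ZMod 3)).mulVec ![x, y] ≠ c • ![x, y]) :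
    M2.Moves (toM2 g) x y := by
  intro t ht
  apply h t
  rw [mulVec_eq]
  funext i
  fin_cases i
  · simpa using ht.1
  · simpa using ht.2

end Fermat.Agent.LT.H952

end
-- ===== PACK-END LT/H952/Bridge.lean

-- ===== PACK-BEGIN S48/H796/ZetaSum.lean
section



/-!
# S48 / P2-EIS (helper796): the Weierstrass zeta sum and the function `P`

`zetaT τ w = ∑_{ω ∈ ℤτ+ℤ} (1/(w+ω) - 1/ω + w/ω²)` (absolutely convergent, with `1/0 = 0` at `ω = 0`),
its rows, and the identity `zetaT τ w = P τ w + w G₂(τ)`.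
-/

set_option autoImplicit false

noncomputable section

namespace Fermat.Agent.S48.H796

open UpperHalfPlane hiding I
open Complex Filter Topology Asymptotics EisensteinSeries
open scoped Real

/-- The lattice point `m τ + n`. -/
def lat (τ : ℍ) (p : ℤ × ℤ) : ℂ := (p.1 : ℂ) * (τ : ℂ) + (p.2 : ℂ)

/-- The summand of the Weierstrass zeta function (junk value `1/w` at `ω = 0`). -/
def zt (τ : ℍ) (w : ℂ) (p : ℤ × ℤ) : ℂ :=
  1 / (w + lat τ p) - 1 / lat τ p + w / (lat τ p) ^ 2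

lemma lat_im (τ : ℍ) (p : ℤ × ℤ) : (lat τ p).im = p.1 * τ.im := by
  simp [lat, Complex.add_im, Complex.mul_im]

lemma lat_eq_zero_iff (τ : ℍ) (p : ℤ × ℤ) : lat τ p = 0 ↔ p = 0 := by
  constructor
  · intro h
    have him := congrArg Complex.im h
    rw [lat_im] at him
    simp only [Complex.zero_im, mul_eq_zero] at him
    have h1 : p.1 = 0 := by
      rcases him with h1 | h1
      · exact_mod_cast h1
      · exact absurd h1 τ.im_ne_zero
    have h2 : p.2 = 0 := by
      simp only [lat, h1, Int.cast_zero, zero_mul, zero_add] at h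
      exact_mod_cast h
    exact Prod.ext h1 h2
  · rintro rfl
    simp [lat]

lemma lat_injective (τ : ℍ) : Function.Injective (lat τ) := by
  intro p q h
  have : lat τ (p - q) = 0 := by
    simp only [lat, Prod.fst_sub, Prod.snd_sub, Int.cast_sub] at h ⊢
    linear_combination h
  have := (lat_eq_zero_iff τ _).mp this
  exact sub_eq_zero.mp this

lemma zt_eq {τ : ℍ} {w : ℂ} {p : ℤ × ℤ} (h1 : lat τ p ≠ 0) (h2 : w + lat τ p ≠ 0) :
    zt τ w p = w ^ 2 * ((lat τ p)⁻¹ * (lat τ p)⁻¹ * (w + lat τ p)⁻¹) := by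
  rw [zt]
  field_simp
  ring

/-- `1/(m τ + n) = O(1/‖(m,n)‖)`. -/
lemma isBigO_lat_inv (τ : ℍ) :
    (fun x : Fin 2 → ℤ => (lat τ (x 0, x 1))⁻¹) =O[cofinite] fun x => ‖x‖⁻¹ := by
  have := isBigO_linear_add_const_vec τ 0 0
  simpa [lat] using this

lemma tendsto_norm_inv_cofinite :
    Tendsto (fun x : Fin 2 → ℤ => ‖x‖⁻¹) cofinite (𝓝 0) := by
  have h : Tendsto (fun x : Fin 2 → ℤ => ‖x‖) cofinite atTop :=
    tendsto_norm_comp_cofinite_atTop_of_isClosedEmbedding IsClosedEmbedding.id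
  exact tendsto_inv_atTop_zero.comp h

/-- `1/(w + m τ + n) = O(1/‖(m,n)‖)` for every `w`. -/
lemma isBigO_add_lat_inv (τ : ℍ) (w : ℂ) :
    (fun x : Fin 2 → ℤ => (w + lat τ (x 0, x 1))⁻¹) =O[cofinite] fun x => ‖x‖⁻¹ := by
  have hA := isBigO_lat_inv τ
  have hA0 : Tendsto (fun x : Fin 2 → ℤ => (lat τ (x 0, x 1))⁻¹) cofinite (𝓝 0) :=
    hA.trans_tendsto tendsto_norm_inv_cofinite
  have hwA : Tendsto (fun x : Fin 2 → ℤ => w * (lat τ (x 0, x 1))⁻¹) cofinite (𝓝 0) := by
    simpa using hA0.const_mul w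
  have hev : ∀ᶠ x : Fin 2 → ℤ in cofinite, ‖w * (lat τ (x 0, x 1))⁻¹‖ < 1 / 2 := by
    have := (tendsto_order.mp (tendsto_zero_iff_norm_tendsto_zero.mp hwA)).2 (1 / 2) (by norm_num)
    exact this
  have hne : ∀ᶠ x : Fin 2 → ℤ in cofinite, x ≠ 0 := eventually_cofinite_ne 0
  refine IsBigO.trans (IsBigO.of_bound 2 ?_) hA
  filter_upwards [hev, hne] with x hx hx0
  have hl : lat τ (x 0, x 1) ≠ 0 := by
    intro h
    have := (lat_eq_zero_iff τ _).mp h
    apply hx0
    ext i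
    fin_cases i
    · simpa using congrArg Prod.fst this
    · simpa using congrArg Prod.snd this
  have e : w + lat τ (x 0, x 1) = lat τ (x 0, x 1) * (1 + w * (lat τ (x 0, x 1))⁻¹) := by
    field_simp
    ring
  have hge : (1 : ℝ) / 2 ≤ ‖1 + w * (lat τ (x 0, x 1))⁻¹‖ := by
    have := norm_sub_norm_le (1 : ℂ) (-(w * (lat τ (x 0, x 1))⁻¹))
    rw [norm_one, norm_neg, sub_neg_eq_add] at this
    linarith
  rw [e, mul_inv, norm_mul, norm_inv (1 + _), mul_comm]
  have hpos : (0 : ℝ) < ‖1 + w * (lat τ (x 0, x 1))⁻¹‖ := by linarith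
  have : ‖1 + w * (lat τ (x 0, x 1))⁻¹‖⁻¹ ≤ 2 := by
    rw [inv_le_comm₀ hpos (by norm_num)]
    linarith
  gcongr

theorem summable_zt (τ : ℍ) (w : ℂ) : Summable (zt τ w) := by
  refine (finTwoArrowEquiv ℤ).summable_iff.mp ?_
  apply summable_of_isBigO_rpow_norm (a := 3) (by norm_num)
  have hA := isBigO_lat_inv τ
  have hB := isBigO_add_lat_inv τ w
  have hprod := ((hA.mul hA).mul hB).const_mul_left (w ^ 2)
  have hev : (zt τ w ∘ (finTwoArrowEquiv ℤ)) =ᶠ[cofinite] fun x : Fin 2 → ℤ =>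
      w ^ 2 * ((lat τ (x 0, x 1))⁻¹ * (lat τ (x 0, x 1))⁻¹ * (w + lat τ (x 0, x 1))⁻¹) := by
    have hne : ∀ᶠ x : Fin 2 → ℤ in cofinite, x ≠ 0 := eventually_cofinite_ne 0
    have hB0 : Tendsto (fun x : Fin 2 → ℤ => (w + lat τ (x 0, x 1))⁻¹) cofinite (𝓝 0) :=
      hB.trans_tendsto tendsto_norm_inv_cofinite
    by_cases hw : ∃ x : Fin 2 → ℤ, w + lat τ (x 0, x 1) = 0
    · obtain ⟨x₀, hx₀⟩ := hw
      filter_upwards [hne, eventually_cofinite_ne x₀] with x hx hxx
      have hl : lat τ (x 0, x 1) ≠ 0 := by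
        intro h
        have := (lat_eq_zero_iff τ _).mp h
        apply hx
        ext i
        fin_cases i
        · simpa using congrArg Prod.fst this
        · simpa using congrArg Prod.snd this
      have hl2 : w + lat τ (x 0, x 1) ≠ 0 := by
        intro h
        have h3 : lat τ (x 0, x 1) = lat τ (x₀ 0, x₀ 1) := by
          linear_combination h - hx₀
        have := lat_injective τ h3
        apply hxx
        ext i
        fin_cases i
        · simpa using congrArg Prod.fst this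
        · simpa using congrArg Prod.snd this
      simpa [Function.comp_def, finTwoArrowEquiv] using zt_eq hl hl2
    · push Not at hw
      filter_upwards [hne] with x hx
      have hl : lat τ (x 0, x 1) ≠ 0 := by
        intro h
        have := (lat_eq_zero_iff τ _).mp h
        apply hx
        ext i
        fin_cases i
        · simpa using congrArg Prod.fst this
        · simpa using congrArg Prod.snd this
      simpa [Function.comp_def, finTwoArrowEquiv] using zt_eq hl (hw x)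
  refine (hev.trans_isBigO hprod).trans ?_
  apply IsBigO.of_bound 1
  filter_upwards with x
  simp only [norm_mul, norm_inv, norm_norm, one_mul]
  have : ‖x‖ ^ (3 : ℝ) = ‖x‖ * ‖x‖ * ‖x‖ := by
    rw [show (3 : ℝ) = ((3 : ℕ) : ℝ) by norm_num, Real.rpow_natCast]
    ring
  rw [this, Real.norm_of_nonneg (by positivity), mul_inv, mul_inv]

/-! ## Rows -/

/-- `w ∉ ℤτ + ℤ`. -/
def OffLattice (τ : ℍ) (w : ℂ) : Prop := ∀ p : ℤ × ℤ, w + lat τ p ≠ 0

lemma OffLattice.mem_integerComplement {τ : ℍ} {w : ℂ} (h : OffLattice τ w) (m : ℤ) :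
    w + (m : ℂ) * τ ∈ integerComplement := by
  rw [mem_integerComplement_iff]
  rintro ⟨n, hn⟩
  apply h (m, -n)
  simp only [lat, Int.cast_neg]
  linear_combination -hn

lemma mul_mem_integerComplement (τ : ℍ) {m : ℤ} (hm : m ≠ 0) :
    (m : ℂ) * τ ∈ integerComplement := by
  rw [mem_integerComplement_iff]
  rintro ⟨n, hn⟩
  have him := congrArg Complex.im hn
  simp only [Complex.intCast_im, Complex.mul_im, Complex.intCast_re, zero_mul, add_zero] at him
  have h1 : (m : ℝ) * τ.im ≠ 0 := mul_ne_zero (by exact_mod_cast hm) τ.im_ne_zero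
  exact h1 him.symm

/-- The Weierstrass zeta sum. -/
def zetaT (τ : ℍ) (w : ℂ) : ℂ := ∑' p : ℤ × ℤ, zt τ w p

/-- The `m`-th row of `zetaT`. -/
def row (τ : ℍ) (w : ℂ) (m : ℤ) : ℂ :=
  (if m = 0 then cotPi w else cotPi (w + m * τ) - cotPi (m * τ)) + w * e2Summand m τ

theorem hasSum_row {τ : ℍ} {w : ℂ} (h : OffLattice τ w) (m : ℤ) :
    HasSum (fun n : ℤ => zt τ w (m, n)) (row τ w m) := by
  have he : HasSum (fun n : ℤ => w * eisSummand 2 ![m, n] τ) (w * e2Summand m τ) :=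
    (e2Summand_summable m τ).hasSum.mul_left w
  have hz : ∀ n : ℤ, zt τ w (m, n) =
      (1 / (w + m * τ + n) - 1 / ((m : ℂ) * τ + n)) + w * eisSummand 2 ![m, n] τ := by
    intro n
    simp only [zt, lat, eisSummand, Matrix.cons_val_zero, Matrix.cons_val_one,
      Matrix.cons_val_fin_one]
    rw [show (-(2 : ℤ)) = -((2 : ℕ) : ℤ) by norm_num, zpow_neg, zpow_natCast, div_eq_mul_inv w,
      add_assoc]
  simp_rw [hz]
  unfold row
  refine HasSum.add ?_ he
  by_cases hm : m = 0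
  · subst hm
    simp only [Int.cast_zero, zero_mul, add_zero, zero_add, if_true]
    exact hasSum_inv_sub_inv_zero (by simpa using h.mem_integerComplement 0)
  · simp only [hm, if_false]
    exact hasSum_inv_sub_inv (h.mem_integerComplement m) (mul_mem_integerComplement τ hm)

theorem hasSum_row_zetaT {τ : ℍ} {w : ℂ} (h : OffLattice τ w) :
    HasSum (row τ w) (zetaT τ w) :=
  (summable_zt τ w).hasSum.prod_fiberwise (hasSum_row h)

/-! ## Symmetric partial sums -/

lemma sum_Icc_neg (f : ℤ → ℂ) (M : ℕ) :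
    ∑ m ∈ Finset.Icc (-(M : ℤ)) M, f m =
      f 0 + ∑ k ∈ Finset.range M, (f ((k : ℤ) + 1) + f (-((k : ℤ) + 1))) := by
  induction M with
  | zero => simp
  | succ M ih =>
    have hd : Disjoint (Finset.Icc (-(M : ℤ)) M) {-((M : ℤ) + 1), (M : ℤ) + 1} := by
      rw [Finset.disjoint_left]
      intro a ha hb
      simp only [Finset.mem_Icc] at ha
      simp only [Finset.mem_insert, Finset.mem_singleton] at hb
      omega
    have hne : (-((M : ℤ) + 1)) ≠ (M : ℤ) + 1 := by omega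
    push_cast
    rw [Finset.Icc_succ_succ, Finset.sum_union hd, ih, Finset.sum_range_succ,
      Finset.sum_pair hne]
    ring

lemma tendsto_Icc_atTop :
    Tendsto (fun N : ℕ => Finset.Icc (-(N : ℤ)) N) atTop (atTop : Filter (Finset ℤ)) := by
  rw [Tendsto, ← SummationFilter.symmetricIcc_eq_map_Icc_nat]
  exact SummationFilter.le_atTop

lemma tendsto_sum_e2Summand (τ : ℍ) :
    Tendsto (fun N : ℕ => ∑ m ∈ Finset.Icc (-(N : ℤ)) N, e2Summand m τ) atTop (𝓝 (G2 τ)) := by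
  have h := hasSum_e2Summand_symmetricIcc τ
  rw [← G2_eq_tsum_cexp] at h
  rw [HasSum, SummationFilter.symmetricIcc_eq_map_Icc_nat, tendsto_map'_iff] at h
  exact h

/-! ## The function `P` -/

/-- The `k`-th pair of `P`. -/
def pairP (τ : ℍ) (w : ℂ) (k : ℕ) : ℂ :=
  cotPi (w + ((k : ℂ) + 1) * τ) + cotPi (w - ((k : ℂ) + 1) * τ)

/-- `P(w, τ) = π cot πw + ∑_{k ≥ 1} (π cot π(w + kτ) + π cot π(w - kτ))`. -/
def Pfun (τ : ℍ) (w : ℂ) : ℂ := cotPi w + ∑' k : ℕ, pairP τ w k

/-- Uniform version of `norm_cotPi_add_le`. -/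
lemma norm_cotPi_add_le' {x : ℂ} {δ : ℝ} (hδ : 0 < δ) (hx : δ ≤ x.im) :
    ‖cotPi x + π * I‖ ≤
      2 * π / (1 - Real.exp (-2 * π * δ)) * Real.exp (-2 * π * x.im) := by
  have hxpos : 0 < x.im := lt_of_lt_of_le hδ hx
  refine (norm_cotPi_add_le hxpos).trans ?_
  have hπ := Real.pi_pos
  have h1 : Real.exp (-2 * π * x.im) ≤ Real.exp (-2 * π * δ) := by
    apply Real.exp_le_exp.mpr
    nlinarith
  have h2 : Real.exp (-2 * π * δ) < 1 := by
    rw [Real.exp_lt_one_iff]
    nlinarith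
  have h3 : 0 < 1 - Real.exp (-2 * π * δ) := by linarith
  have h4 : 0 < 1 - Real.exp (-2 * π * x.im) := by linarith
  rw [div_mul_eq_mul_div, mul_div_assoc]
  have h5 : Real.exp (-2 * π * x.im) / (1 - Real.exp (-2 * π * x.im)) ≤
      Real.exp (-2 * π * x.im) / (1 - Real.exp (-2 * π * δ)) := by
    apply div_le_div_of_nonneg_left (Real.exp_pos _).le h3
    linarith
  have : (0 : ℝ) ≤ 2 * π := by positivity
  exact mul_le_mul_of_nonneg_left h5 this

lemma norm_cotPi_sub_le' {x : ℂ} {δ : ℝ} (hδ : 0 < δ) (hx : x.im ≤ -δ) :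
    ‖cotPi x - π * I‖ ≤
      2 * π / (1 - Real.exp (-2 * π * δ)) * Real.exp (2 * π * x.im) := by
  have h := norm_cotPi_add_le' (x := -x) hδ (by simpa using (by linarith : δ ≤ -x.im))
  rw [cotPi_neg] at h
  have e : -cotPi x + π * I = -(cotPi x - π * I) := by ring
  rw [e, norm_neg] at h
  simpa using h

/-- Key bound for a pair, when `w` is between the two shifted lines. -/
lemma norm_pairP_le {τ : ℍ} {w : ℂ} {k : ℕ} {δ : ℝ} (hδ : 0 < δ)
    (h1 : δ ≤ w.im + ((k : ℝ) + 1) * τ.im) (h2 : δ ≤ ((k : ℝ) + 1) * τ.im - w.im) :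
    ‖pairP τ w k‖ ≤ 2 * π / (1 - Real.exp (-2 * π * δ)) *
      (Real.exp (-2 * π * (w.im + ((k : ℝ) + 1) * τ.im)) +
        Real.exp (-2 * π * (((k : ℝ) + 1) * τ.im - w.im))) := by
  have im1 : (w + ((k : ℂ) + 1) * τ).im = w.im + ((k : ℝ) + 1) * τ.im := by
    simp [Complex.add_im, Complex.mul_im]
  have im2 : (w - ((k : ℂ) + 1) * τ).im = w.im - ((k : ℝ) + 1) * τ.im := by
    simp [Complex.sub_im, Complex.mul_im]
  have b1 := norm_cotPi_add_le' (x := w + ((k : ℂ) + 1) * τ) hδ (by rw [im1]; exact h1)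
  have b2 := norm_cotPi_sub_le' (x := w - ((k : ℂ) + 1) * τ) hδ (by rw [im2]; linarith)
  rw [im1] at b1
  rw [im2] at b2
  have e : pairP τ w k = (cotPi (w + ((k : ℂ) + 1) * τ) + π * I) +
      (cotPi (w - ((k : ℂ) + 1) * τ) - π * I) := by
    rw [pairP]; ring
  rw [e, mul_add]
  refine (norm_add_le _ _).trans (add_le_add b1 ?_)
  have e2 : -2 * π * (((k : ℝ) + 1) * τ.im - w.im) = 2 * π * (w.im - ((k : ℝ) + 1) * τ.im) := by
    ring
  rw [e2]
  exact b2

lemma exp_neg_mul_le (y s : ℝ) (k : ℕ) (a : ℝ) (ha : -s ≤ a) :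
    Real.exp (-2 * π * (a + ((k : ℝ) + 1) * y)) ≤
      Real.exp (2 * π * s) * Real.exp (-2 * π * y) ^ (k + 1) := by
  rw [← Real.exp_nat_mul, ← Real.exp_add]
  apply Real.exp_le_exp.mpr
  have hπ := Real.pi_pos
  push_cast
  nlinarith

theorem summable_pairP (τ : ℍ) (w : ℂ) : Summable (pairP τ w) := by
  have hy : 0 < τ.im := τ.im_pos
  have hπ := Real.pi_pos
  have hlt : Real.exp (-2 * π * τ.im) < 1 := by
    rw [Real.exp_lt_one_iff]
    nlinarith
  set C : ℝ := 2 * π / (1 - Real.exp (-2 * π * τ.im)) * (2 * Real.exp (2 * π * |w.im|)) with hC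
  have hgeo : Summable (fun k : ℕ => C * Real.exp (-2 * π * τ.im) ^ (k + 1)) :=
    ((summable_nat_add_iff 1).mpr
      (summable_geometric_of_lt_one (Real.exp_pos _).le hlt)).mul_left C
  refine Summable.of_norm_bounded_eventually_nat hgeo ?_
  obtain ⟨K, hK⟩ := exists_nat_ge (|w.im| / τ.im)
  filter_upwards [eventually_ge_atTop K] with k hk
  have hky : |w.im| ≤ k * τ.im := by
    have h1 : |w.im| / τ.im ≤ k := hK.trans (by exact_mod_cast hk)
    rwa [div_le_iff₀ hy] at h1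
  have h1 : τ.im ≤ w.im + ((k : ℝ) + 1) * τ.im := by
    nlinarith [neg_abs_le w.im]
  have h2 : τ.im ≤ ((k : ℝ) + 1) * τ.im - w.im := by
    nlinarith [le_abs_self w.im]
  refine (norm_pairP_le hy h1 h2).trans ?_
  have b1 := exp_neg_mul_le τ.im |w.im| k w.im (neg_abs_le w.im)
  have b2 := exp_neg_mul_le τ.im |w.im| k (-w.im) (by
    have := le_abs_self w.im
    linarith)
  have e2 : -2 * π * (((k : ℝ) + 1) * τ.im - w.im) = -2 * π * (-w.im + ((k : ℝ) + 1) * τ.im) := by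
    ring
  rw [e2, hC]
  have hpos : 0 ≤ 2 * π / (1 - Real.exp (-2 * π * τ.im)) := by
    apply div_nonneg (by positivity)
    linarith
  calc 2 * π / (1 - Real.exp (-2 * π * τ.im)) *
        (Real.exp (-2 * π * (w.im + ((k : ℝ) + 1) * τ.im)) +
          Real.exp (-2 * π * (-w.im + ((k : ℝ) + 1) * τ.im)))
      ≤ 2 * π / (1 - Real.exp (-2 * π * τ.im)) *
        (Real.exp (2 * π * |w.im|) * Real.exp (-2 * π * τ.im) ^ (k + 1) +
          Real.exp (2 * π * |w.im|) * Real.exp (-2 * π * τ.im) ^ (k + 1)) :=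
        mul_le_mul_of_nonneg_left (add_le_add b1 b2) hpos
    _ = _ := by ring

lemma row_pair (τ : ℍ) (w : ℂ) (k : ℕ) :
    row τ w ((k : ℤ) + 1) + row τ w (-((k : ℤ) + 1)) =
      pairP τ w k + w * (e2Summand ((k : ℤ) + 1) τ + e2Summand (-((k : ℤ) + 1)) τ) := by
  have h1 : ((k : ℤ) + 1) ≠ 0 := by positivity
  have h2 : (-((k : ℤ) + 1)) ≠ 0 := by omega
  simp only [row, h1, h2, if_false, pairP]
  push_cast
  have e : cotPi (-((k : ℂ) + 1) * τ) = -cotPi (((k : ℂ) + 1) * τ) := by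
    rw [neg_mul, cotPi_neg]
  rw [e]
  ring_nf

/-- `ζ(w; τ) = P(w, τ) + w G₂(τ)`. -/
theorem zetaT_eq {τ : ℍ} {w : ℂ} (h : OffLattice τ w) :
    zetaT τ w = Pfun τ w + w * G2 τ := by
  have T1 : Tendsto (fun M : ℕ => ∑ m ∈ Finset.Icc (-(M : ℤ)) M, row τ w m) atTop
      (𝓝 (zetaT τ w)) := (hasSum_row_zetaT h).comp tendsto_Icc_atTop
  have T2 : ∀ M : ℕ, ∑ m ∈ Finset.Icc (-(M : ℤ)) M, row τ w m =
      cotPi w + ∑ k ∈ Finset.range M, pairP τ w k +
        w * ∑ m ∈ Finset.Icc (-(M : ℤ)) M, e2Summand m τ := by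
    intro M
    rw [sum_Icc_neg, sum_Icc_neg (fun m => e2Summand m τ)]
    simp_rw [row_pair]
    rw [Finset.sum_add_distrib, ← Finset.mul_sum]
    simp only [row, if_true]
    ring
  have T3 := tendsto_sum_e2Summand τ
  have T4 : Tendsto (fun M : ℕ => ∑ k ∈ Finset.range M, pairP τ w k) atTop
      (𝓝 (∑' k, pairP τ w k)) := (summable_pairP τ w).hasSum.tendsto_sum_nat
  have T5 : Tendsto (fun M : ℕ => ∑ m ∈ Finset.Icc (-(M : ℤ)) M, row τ w m) atTop
      (𝓝 (cotPi w + ∑' k, pairP τ w k + w * G2 τ)) := by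
    simp_rw [T2]
    exact (tendsto_const_nhds.add T4).add (T3.const_mul w)
  exact tendsto_nhds_unique T1 T5

end Fermat.Agent.S48.H796

end
end
-- ===== PACK-END S48/H796/ZetaSum.lean

-- ===== PACK-BEGIN LT/H49/Conj.lean
section




/-!
# Row LT, block GLUE2, leaf W2A (helper49): rational structure and coefficientwise conjugation

If `S₂(Γ₀(M))` is spanned by forms with integral `q`-expansion (`HasIntegralBasis M`), then the
coefficientwise complex conjugate of a cusp form is again a cusp form (`exists_conj_form`).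
Consequently a form with coefficients `x_n + y_n s` (`x_n, y_n ∈ ℤ`, `s` purely imaginary, `s ≠ 0`)
splits, and `x_n - y_n` are the coefficients of a form in `qIntegralSet M` (`exists_split_form`).
-/

set_option autoImplicit false

noncomputable section

namespace Fermat.Agent.LT.H49

open CuspForm CongruenceSubgroup ModularFormClass UpperHalfPlane
open Fermat.Agent.S49
open scoped ComplexConjugate

variable {M : ℕ}

theorem glue_qCoeff_zero_form (n : ℕ) : qCoeff ⇑(0 : CuspForm (Gamma0 M) 2) n = 0 := by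
  have h := glue_qCoeff_smul (0 : ℂ) (0 : CuspForm (Gamma0 M) 2) n
  rw [zero_smul, zero_mul] at h
  exact h

/-- Coefficientwise complex conjugation preserves `S₂(Γ₀(M))` when it has an integral basis. -/
theorem exists_conj_form (h : HasIntegralBasis M) (F : CuspForm (Gamma0 M) 2) :
    ∃ G : CuspForm (Gamma0 M) 2, ∀ n : ℕ, qCoeff ⇑G n = conj (qCoeff ⇑F n) := by
  have hF : F ∈ Submodule.span ℂ (qIntegralSet M) := by
    rw [h]; exact Submodule.mem_top
  induction hF using Submodule.span_induction with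
  | mem g hg =>
    refine ⟨g, fun n => ?_⟩
    obtain ⟨k, hk⟩ := Subring.mem_bot.mp (hg n)
    rw [← hk]
    simp
  | zero =>
    refine ⟨0, fun n => ?_⟩
    rw [glue_qCoeff_zero_form]
    simp
  | add f g _ _ ihf ihg =>
    obtain ⟨f', hf'⟩ := ihf
    obtain ⟨g', hg'⟩ := ihg
    refine ⟨f' + g', fun n => ?_⟩
    rw [glue_qCoeff_add, glue_qCoeff_add, hf', hg', map_add]
  | smul c f _ ihf =>
    obtain ⟨f', hf'⟩ := ihf
    refine ⟨conj c • f', fun n => ?_⟩
    rw [glue_qCoeff_smul, glue_qCoeff_smul, hf', map_mul]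

/-- Splitting a form with coefficients in `ℤ + ℤ s`, `s` purely imaginary. -/
theorem exists_split_form (h : HasIntegralBasis M) (F : CuspForm (Gamma0 M) 2)
    {s : ℂ} (hs0 : s ≠ 0) (hsre : s.re = 0) (x y : ℕ → ℤ)
    (hF : ∀ n : ℕ, qCoeff ⇑F n = (x n : ℂ) + (y n : ℂ) * s) :
    ∃ g : CuspForm (Gamma0 M) 2, g ∈ qIntegralSet M ∧
      ∀ n : ℕ, qCoeff ⇑g n = ((x n - y n : ℤ) : ℂ) := by
  obtain ⟨G, hG⟩ := exists_conj_form h F
  have hsc : conj s = -s := by
    apply Complex.ext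
    · simp [hsre]
    · simp
  have hcoef : ∀ n : ℕ,
      qCoeff ⇑(((1 / 2 : ℂ) • (F + G)) - ((1 / (2 * s) : ℂ) • (F - G))) n
        = ((x n - y n : ℤ) : ℂ) := by
    intro n
    rw [glue_qCoeff_sub, glue_qCoeff_smul, glue_qCoeff_smul, glue_qCoeff_add, glue_qCoeff_sub,
      hG, hF, map_add, map_mul, map_intCast, map_intCast, hsc]
    push_cast
    field_simp
    ring
  refine ⟨((1 / 2 : ℂ) • (F + G)) - ((1 / (2 * s) : ℂ) • (F - G)), fun n => ?_, hcoef⟩
  rw [hcoef n]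
  exact Subring.mem_bot.mpr ⟨_, rfl⟩

end Fermat.Agent.LT.H49

end
end
-- ===== PACK-END LT/H49/Conj.lean

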