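import Mathlib.NumberTheory.Height.MvPolynomial
import Mathlib
import Fermat.Statements.S10
import Fermat.Agent.Pack.L1.E2L1
import Fermat.Agent.Pack.L1.E0L3
import Fermat.Agent.Pack.L1.E2L2
import Fermat.Agent.Pack.L1.E0L1
import Fermat.Agent.Pack.L1.E2L0
import Fermat.Agent.Pack.L1.E2L3
import Fermat.Agent.Pack.L1.E1L3
import Fermat.Agent.Pack.L1.E1L2
import Fermat.Agent.Pack.L1.E1L0
import Fermat.Agent.Pack.S43GC.G0E6L2

-- ===== PACK-BEGIN S52/Fam/Cert.lean
section


/-!
# S52 / Fam: factorisation of the twisted Klein form in Tate coordinates and Bezout certificates.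

With `X = c * q5 c τ`, `Z = q5' c τ`, `q2 c τ = 1 - 2(c²+1)τ + (c⁴-178c²+1)τ²`:
* `Fk_tate_one`   : `Fk (tc4 c) (tc6 c) τ = q5 c τ * q5' c τ * q2 c τ`
* `quad_tate_one` : `X² - 11XZ - Z² = (c² - 11c - 1) * q2 c τ ^ 5`
* `cert_affine`   : `U0 * q2 + V0 * q5' = κ * c^10 * (c²-11c-1)`   (so `q2`, `q5'` have no common zero)
* `cert_infty`    : the same for the leading coefficients in `τ`.
-/

set_option autoImplicit false
set_option linter.unusedVariables false

namespace Fermat.Agent.S52.Fam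

open Fermat.Agent.S52.Refl

variable {R : Type*} [CommRing R]

/-- the quadratic factor of the twisted Klein form in Tate coordinates. -/
def q2 (c τ : R) : R := 1 - 2 * (c^2 + 1) * τ + (c^4 - 178 * c^2 + 1) * τ^2

/-- table of `q2`. -/
def q2L : List (List ℤ) := [[1], [-2, 0, -2], [1, 0, -178, 0, 1]]

lemma q2_eq_beval (c τ : R) : q2 c τ = beval c τ q2L := by
  simp only [q2, q2L, beval, ueval]; push_cast; ring

/-- Bezout cofactor of `q2` (affine chart). -/
def U0L : List (List ℤ) :=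
  [[0, 0, 0, 0, 5, 396, 13458, 239580, 2440515, 13547160, 16708060, -150681960, 14950875, 239580, -30030, 396, -67],
   [0, 0, 0, 0, -20, -1848, -74540, -1664784, -22232148, -180556200, -852227980, -1912241760, -538201180, -189632520, 11640540, 4075632, -293180, 7656, -548],
   [0, 0, 0, 0, 30, 3168, 148416, 3986928, 67039608, 725535360, 4976724192, 19972933200, 36034696740, -1022868000, 3323598720, 40149648, -3021864, -8978112, 600288, -23760, 1902],
   [0, 0, 0, 0, -20, -2376, -127044, -3985344, -80568720, -1087907040, -9839163408, -57922869312, -205276574232, -359419270320, -147436949880, -24679803456, -2358392784, 773711136, -51472080, 9852480, -658548, 22968, -1892],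
   [0, 0, 0, 0, 5, 660, 39710, 1423620, 33560505, 543114000, 6123808680, 47750305680, 248637700410, 795294834840, 1268646324660, 423492541560, 142848874410, 7359984720, 1107280680, -614631600, 39797505, -4334220, 303710, -7260, 605]]

/-- Bezout cofactor of `q5'` (affine chart). -/
def V0L : List (List ℤ) :=
  [[0, 0, 0, 0, -5, -396, -13458, -239580, -2440515, -13547160, -31637980, -13547160, -20955, -239580, 30030, -396, 67],
   [0, 0, 0, 0, 5, 330, 8075, 61380, -780555, -19003050, -144693725, -423040200, -71232425, -19003050, 2685705, 61380, -3025, 330, -55]]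

/-- Bezout cofactor of the leading coefficient of `q2` (chart at infinity). -/
def A6L : List ℤ := [0, 0, 0, 0, 5, 264, 5516, 49896, 241950, 906840, -81268, 1848, -187]

/-- Bezout cofactor of the leading coefficient of `q5'` (chart at infinity). -/
def B6L : List ℤ := [0, 0, 0, 0, 5, -66, 17]

/-- `κ * c^10 * (c² - 11c - 1)` with `κ = 14929920 = 2^12 * 3^6 * 5`. -/
def R2L : List ℤ := [0, 0, 0, 0, 0, 0, 0, 0, 0, 0, -14929920, -164229120, 14929920]

/-- the constant `κ = 2^12 * 3^6 * 5`. -/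
def κ2 : ℤ := 14929920

/-- Bezout cofactor of `q2` (affine chart), as a function. -/
def U0 (c τ : R) : R := beval c τ U0L

/-- Bezout cofactor of `q5'` (affine chart), as a function. -/
def V0 (c τ : R) : R := beval c τ V0L

/-- cofactor at infinity -/
def A6 (c : R) : R := ueval c A6L

/-- cofactor at infinity -/
def B6 (c : R) : R := ueval c B6L

theorem check_Fk : beq (tsubst tc4L tc6L FkT) (bmul q5L (bmul q5L' q2L)) = true := by
  decide +kernel

theorem check_quad :
    beq (badd (bpow XL 2) (badd (bzsmul (-11) (bmul XL q5L')) (bzsmul (-1) (bpow q5L' 2))))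
      (bsmul [-1, -11, 1] (bpow q2L 5)) = true := by
  decide +kernel

theorem check_cert0 : beq (badd (bmul U0L q2L) (bmul V0L q5L')) [R2L] = true := by
  decide +kernel

theorem check_cert6 :
    uzero (uadd (uadd (umul A6L [1, 0, -178, 0, 1]) (umul B6L [-1, -66, -1793, -24024, -163042, -475596, -80938, -24024, 2563, -66, 11])) (usmul (-1) R2L)) = true := by
  decide +kernel

lemma ueval_R2L (c : R) : ueval c R2L = (κ2 : R) * c ^ 10 * (c ^ 2 - 11 * c - 1) := by
  simp only [R2L, κ2, ueval]; push_cast; ring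

/-- **Klein form in Tate coordinates.** -/
theorem Fk_tate_one (c τ : R) :
    Fk (tc4 c) (tc6 c) τ = q5 c τ * q5' c τ * q2 c τ := by
  rw [Fk_eq_teval, tc4_eq_ueval, tc6_eq_ueval, ← beval_tsubst,
    beval_eq_of_beq c τ _ _ check_Fk, beval_bmul, beval_bmul, ← q5_eq_beval, ← q5'_eq_beval,
    ← q2_eq_beval]
  ring

/-- **The quadratic form `X² - 11XZ - Z²` is a fifth power.** -/
theorem quad_tate_one (c τ : R) :
    (c * q5 c τ) ^ 2 - 11 * (c * q5 c τ) * q5' c τ - q5' c τ ^ 2 =
      (c ^ 2 - 11 * c - 1) * q2 c τ ^ 5 := by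
  have h := beval_eq_of_beq c τ _ _ check_quad
  simp only [beval_badd, beval_bzsmul, beval_bmul, beval_bpow, beval_bsmul, beval_XL,
    ← q5'_eq_beval, ← q2_eq_beval, ueval] at h
  push_cast at h
  linear_combination h

/-- **Bezout certificate, affine chart.** -/
theorem cert_affine (c τ : R) :
    U0 c τ * q2 c τ + V0 c τ * q5' c τ = (κ2 : R) * c ^ 10 * (c ^ 2 - 11 * c - 1) := by
  have h := beval_eq_of_beq c τ _ _ check_cert0
  simp only [beval_badd, beval_bmul, ← q5'_eq_beval, ← q2_eq_beval, beval_cons, beval_nil,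
    ueval_R2L] at h
  simp only [U0, V0]
  linear_combination h

/-- **Bezout certificate, chart at infinity** (leading coefficients in `τ`). -/
theorem cert_infty (c : R) :
    A6 c * (c ^ 4 - 178 * c ^ 2 + 1) + B6 c * q5'_5 c =
      (κ2 : R) * c ^ 10 * (c ^ 2 - 11 * c - 1) := by
  have h := ueval_of_uzero c _ check_cert6
  simp only [ueval_uadd, ueval_umul, ueval_usmul, ueval_R2L] at h
  have e1 : ueval c [1, 0, -178, 0, 1] = c ^ 4 - 178 * c ^ 2 + 1 := by
    simp only [ueval]; push_cast; ring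
  have e2 : ueval c [-1, -66, -1793, -24024, -163042, -475596, -80938, -24024, 2563, -66, 11] = q5'_5 c := by
    simp only [q5'_5, ueval]; push_cast; ring
  rw [e1, e2] at h
  simp only [A6, B6]
  push_cast at h
  linear_combination h

end Fermat.Agent.S52.Fam

end
-- ===== PACK-END S52/Fam/Cert.lean

-- ===== PACK-BEGIN S52/H531/Prep.lean
section
/-
S52 / piece B3 (Hilbert irreducibility by hand), helper531.
Part 5: arithmetic preparations (homogenisation, rational roots have denominator dividing 3,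
values `T/n` eventually avoid the roots of a nonzero polynomial).
-/



namespace Fermat.Agent.S52.H531

open Polynomial Finset

/-- `n^d * p(T/n)` as an integer: the value at `(T, n)` of the degree-`d` homogenisation. -/
def homEval (p : ℤ[X]) (d : ℕ) (T n : ℤ) : ℤ :=
  ∑ j ∈ range (d + 1), p.coeff j * T ^ j * n ^ (d - j)

theorem homEval_eq {K : Type*} [Field K] (p : ℤ[X]) (d : ℕ) (hp : p.natDegree ≤ d)
    (T n : ℤ) (hn : (n : K) ≠ 0) :
    ((homEval p d T n : ℤ) : K)
      = (n : K) ^ d * (p.map (Int.castRingHom K)).eval ((T : K) / n) := by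
  unfold homEval
  have hdeg : (p.map (Int.castRingHom K)).natDegree < d + 1 :=
    lt_of_le_of_lt (natDegree_map_le) (Nat.lt_succ_of_le hp)
  rw [eval_eq_sum_range' hdeg, Finset.mul_sum]
  push_cast
  apply Finset.sum_congr rfl
  intro j hj
  have hjd : j ≤ d := Nat.lt_succ_iff.mp (Finset.mem_range.mp hj)
  rw [coeff_map, div_pow]
  have : (n : K) ^ d = (n : K) ^ (d - j) * (n : K) ^ j := by
    rw [← pow_add, Nat.sub_add_cancel hjd]
  rw [this]
  have hnj : (n : K) ^ j ≠ 0 := pow_ne_zero _ hn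
  simp only [eq_intCast]
  field_simp

/-- A rational root of `3X⁴ + aX² + bX + c` with integer `a b c` has `3X ∈ ℤ`. -/
theorem three_mul_int_of_root (a b c : ℤ) (X : ℚ)
    (h : quart (a : ℚ) (b : ℚ) (c : ℚ) X = 0) : ∃ N : ℤ, (N : ℚ) = 3 * X := by
  unfold quart at h
  set p := X.num with hp
  set q := X.den with hq
  have hq0 : (q : ℚ) ≠ 0 := by
    rw [hq]; exact_mod_cast X.den_ne_zero
  have hX : X = (p : ℚ) / (q : ℚ) := by
    rw [hp, hq]; exact (Rat.num_div_den X).symm
  -- clear denominators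
  have hZ : 3 * p ^ 4 + a * p ^ 2 * (q : ℤ) ^ 2 + b * p * (q : ℤ) ^ 3 + c * (q : ℤ) ^ 4 = 0 := by
    have : (3 * (p : ℚ) ^ 4 + a * p ^ 2 * (q : ℚ) ^ 2 + b * p * (q : ℚ) ^ 3 + c * (q : ℚ) ^ 4)
        = 0 := by
      rw [hX] at h
      field_simp at h
      linear_combination h
    exact_mod_cast this
  have hdvd : (q : ℤ) ∣ 3 * p ^ 4 := by
    refine ⟨-(a * p ^ 2 * (q : ℤ) + b * p * (q : ℤ) ^ 2 + c * (q : ℤ) ^ 3), ?_⟩
    linear_combination hZ
  have hcop : IsCoprime (q : ℤ) (p ^ 4) := by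
    apply IsCoprime.pow_right
    have := X.reduced
    rw [Int.isCoprime_iff_gcd_eq_one]
    rw [Int.gcd_comm]
    simpa [Int.gcd, hp, hq] using this
  have hq3 : (q : ℤ) ∣ 3 := by
    have := hcop.dvd_of_dvd_mul_right hdvd
    exact this
  obtain ⟨s, hs⟩ := hq3
  refine ⟨s * p, ?_⟩
  rw [hX]
  have h3 : (3 : ℚ) = (q : ℚ) * (s : ℚ) := by exact_mod_cast hs
  push_cast
  rw [h3]
  field_simp

/-- The values `T/n` eventually avoid the roots of a nonzero polynomial. -/
theorem eventually_not_root (g : ℚ[X]) (hg : g ≠ 0) (T : ℤ) (hT : T ≠ 0) :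
    ∃ N : ℕ, ∀ n : ℕ, N ≤ n → g.eval ((T : ℚ) / n) ≠ 0 := by
  set s : Set ℕ := {n : ℕ | 0 < n ∧ g.eval ((T : ℚ) / n) = 0} with hs
  have hfin : s.Finite := by
    apply Set.Finite.of_finite_image (f := fun n : ℕ => (T : ℚ) / n)
    · apply Set.Finite.subset (Polynomial.finite_setOfPred_isRoot hg)
      rintro x ⟨n, hn, rfl⟩
      exact hn.2
    · intro a ha b hb hab
      simp only at hab
      have hT' : (T : ℚ) ≠ 0 := by exact_mod_cast hT
      have ha0 : (a : ℚ) ≠ 0 := by exact_mod_cast ha.1.ne'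
      have hb0 : (b : ℚ) ≠ 0 := by exact_mod_cast hb.1.ne'
      have : (a : ℚ) = b := by
        field_simp at hab
        exact hab.symm
      exact_mod_cast this
  obtain ⟨N, hN⟩ := hfin.bddAbove
  refine ⟨N + 1, fun n hn h0 => ?_⟩
  have hmem : n ∈ s := ⟨by omega, h0⟩
  have := hN hmem
  omega

end Fermat.Agent.S52.H531

end
-- ===== PACK-END S52/H531/Prep.lean

-- ===== PACK-BEGIN S17/H380/AbsBasic.lean
section


set_option linter.unusedSectionVars false
set_option linter.style.haveILetI false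

namespace Fermat.Agent.S17.H380

open NumberField Height Module IntermediateField

section Basic

variable {A : Type*} [Field A] [CharZero A] {ι : Type*} [Finite ι]

/-- The absolute height can be computed in any number subfield containing the entries. -/
theorem absLogHeight_of_mem (F : IntermediateField ℚ A) [NumberField F] (x : ι → A)
    (hx : ∀ i, x i ∈ F) :
    absLogHeight x = (finrank ℚ F : ℝ)⁻¹ * logHeight (fun i => (⟨x i, hx i⟩ : F)) :=
  absLogHeight_eq (algebraMap F A) (fun i => (⟨x i, hx i⟩ : F))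

theorem absLogHeight_nonneg (x : ι → A) : 0 ≤ absLogHeight x := by
  by_cases hx : ∀ i, IsIntegral ℚ (x i)
  · haveI := tupleField_numberField x hx
    rw [absLogHeight_def x hx]
    have h1 : (0 : ℝ) ≤ (finrank ℚ (tupleField x) : ℝ)⁻¹ := by positivity
    exact mul_nonneg h1 (logHeight_nonneg _)
  · unfold absLogHeight
    rw [dif_neg hx]

theorem absLogHeight_of_not_isIntegral (x : ι → A) (hx : ¬ ∀ i, IsIntegral ℚ (x i)) :
    absLogHeight x = 0 := by
  unfold absLogHeight
  rw [dif_neg hx]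

/-- The absolute height is invariant under ring homomorphisms (in particular under
field automorphisms: **Galois invariance**). -/
theorem absLogHeight_ringHom {B : Type*} [Field B] [CharZero B] (ρ : A →+* B) (x : ι → A) :
    absLogHeight (fun i => ρ (x i)) = absLogHeight x := by
  by_cases hx : ∀ i, IsIntegral ℚ (x i)
  · haveI := tupleField_numberField x hx
    rw [absLogHeight_def x hx]
    exact absLogHeight_eq (ρ.comp (algebraMap (tupleField x) A)) (tupleLift x)
  · rw [absLogHeight_of_not_isIntegral x hx, absLogHeight_of_not_isIntegral]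
    intro h
    apply hx
    intro i
    exact (isIntegral_algHom_iff ρ.toRatAlgHom ρ.injective).mp (h i)

theorem absLogHeight_zero : absLogHeight (0 : ι → A) = 0 := by
  have h := absLogHeight_eq (A := A) (algebraMap ℚ A) (0 : ι → ℚ)
  simp only [Pi.zero_apply, map_zero, logHeight_zero, mul_zero] at h
  exact h

/-- The absolute height is invariant under scaling by a nonzero algebraic number. -/
theorem absLogHeight_smul (x : ι → A) (hx : ∀ i, IsIntegral ℚ (x i)) {c : A} (hc : c ≠ 0)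
    (hci : IsIntegral ℚ c) : absLogHeight (c • x) = absLogHeight x := by
  -- a number field containing `c` and the `x i`
  let u : Option ι → A := fun o => Option.elim o c x
  have hu : ∀ o, IsIntegral ℚ (u o) := by
    rintro (_ | i)
    · exact hci
    · exact hx i
  haveI := tupleField_numberField u hu
  have hxm : ∀ i, x i ∈ tupleField u := fun i => subset_adjoin ℚ _ ⟨some i, rfl⟩
  have hcm : c ∈ tupleField u := subset_adjoin ℚ _ ⟨none, rfl⟩
  have hcx : ∀ i, (c • x) i ∈ tupleField u := fun i => by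
    simpa using (tupleField u).mul_mem hcm (hxm i)
  rw [absLogHeight_of_mem (tupleField u) x hxm, absLogHeight_of_mem (tupleField u) (c • x) hcx]
  congr 1
  have hc' : (⟨c, hcm⟩ : tupleField u) ≠ 0 := by
    intro h
    apply hc
    exact congrArg Subtype.val h
  rw [← logHeight_smul_eq_logHeight (fun i => (⟨x i, hxm i⟩ : tupleField u)) hc']
  congr 1

end Basic

end Fermat.Agent.S17.H380

end
-- ===== PACK-END S17/H380/AbsBasic.lean

-- ===== PACK-BEGIN S17/H50/AbsNorthcott.lean
section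



/-!
# S17 / tower H, piece ABS (4) (helper50): Northcott for the absolute height

On top of the absolute logarithmic height `H380.absLogHeight` of tuples over `ℚ̄`:

* `ah x = absLogHeight ![x, 1]`, `ah_eq`, `ah_rat`, `ah_sub_le`, `ah_mul_le`;
* `absLogHeight_comp_le` : the height of a sub-tuple is at most the height of the tuple;
* `ah_le_absLogHeight` : `ah (y i) ≤ absLogHeight y` if some coordinate of `y` is `1`;
* `ah_coeff_rootPoly_le` : the coefficients of `∏ (X - a)` have height `≤ (2^n - 1)(log 2 + H)`;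
* `finite_rat_ah_le` : Northcott on `ℚ`;
* `northcott_cycle_abs` : **Northcott for Galois-stable cycles**: finitely many Galois-stable
  multisets `S` of points `y : ι → ℚ̄` (normalised by some coordinate `= 1`) with
  `card S ≤ d` and `∑_{y ∈ S} absLogHeight y ≤ B`;
* `northcott_alg_abs` : finitely many `α ∈ ℚ̄` of degree `≤ d` and `ah α ≤ B`;
* `northcott_point_abs` : finitely many normalised points with coordinates of degree `≤ d` and
  `absLogHeight ≤ B`.
-/

set_option autoImplicit false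
set_option linter.unusedSectionVars false
set_option linter.style.haveILetI false

open Polynomial Height NumberField Module IntermediateField
open Fermat.Agent.S17.H380

noncomputable section

namespace Fermat.Agent.S17.H50

section general

variable {A : Type*} [Field A] [CharZero A]

/-- the absolute logarithmic height of an algebraic number -/
def ah (x : A) : ℝ := absLogHeight ![x, 1]

theorem ah_nonneg (x : A) : 0 ≤ ah x := absLogHeight_nonneg _

/-- `ah` can be computed in any number field mapping to `A` -/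
theorem ah_eq {F : Type*} [Field F] [NumberField F] (σ : F →+* A) (y : F) :
    ah (σ y) = (finrank ℚ F : ℝ)⁻¹ * logHeight₁ y := by
  have h := absLogHeight_eq σ ![y, 1]
  rw [logHeight₁_eq_logHeight, ← h]
  unfold ah
  congr 1
  ext i
  fin_cases i <;> simp

theorem ah_rat (q : ℚ) : ah (algebraMap ℚ A q) = logHeight₁ q := by
  rw [ah_eq (algebraMap ℚ A) q]
  simp

theorem ah_zero : ah (0 : A) = 0 := by
  have := ah_rat (A := A) 0
  simpa using this

theorem ah_one : ah (1 : A) = 0 := by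
  have := ah_rat (A := A) 1
  simpa using this

/-- two algebraic numbers lie in a common number field -/
theorem exists_numberField_pair (x y : A) (hx : IsIntegral ℚ x) (hy : IsIntegral ℚ y) :
    ∃ F : IntermediateField ℚ A, NumberField F ∧ x ∈ F ∧ y ∈ F := by
  refine ⟨tupleField ![x, y], tupleField_numberField _ ?_, ?_, ?_⟩
  · intro i
    fin_cases i
    · simpa using hx
    · simpa using hy
  · exact subset_adjoin ℚ _ ⟨0, rfl⟩
  · exact subset_adjoin ℚ _ ⟨1, rfl⟩

theorem ah_mul_le (x y : A) (hx : IsIntegral ℚ x) (hy : IsIntegral ℚ y) :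
    ah (x * y) ≤ ah x + ah y := by
  obtain ⟨F, hF, hxF, hyF⟩ := exists_numberField_pair x y hx hy
  haveI := hF
  have h1 := ah_eq (algebraMap F A) (⟨x, hxF⟩ : F)
  have h2 := ah_eq (algebraMap F A) (⟨y, hyF⟩ : F)
  have h3 := ah_eq (algebraMap F A) ((⟨x, hxF⟩ : F) * ⟨y, hyF⟩)
  rw [map_mul] at h3
  change ah x = _ at h1
  change ah y = _ at h2
  change ah (x * y) = _ at h3
  rw [h1, h2, h3, ← mul_add]
  have hpos : (0 : ℝ) ≤ (finrank ℚ F : ℝ)⁻¹ := by positivity
  exact mul_le_mul_of_nonneg_left (logHeight₁_mul_le _ _) hpos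

theorem ah_sub_le (x y : A) (hx : IsIntegral ℚ x) (hy : IsIntegral ℚ y) :
    ah (x - y) ≤ Real.log 2 + ah x + ah y := by
  obtain ⟨F, hF, hxF, hyF⟩ := exists_numberField_pair x y hx hy
  haveI := hF
  have h1 := ah_eq (algebraMap F A) (⟨x, hxF⟩ : F)
  have h2 := ah_eq (algebraMap F A) (⟨y, hyF⟩ : F)
  have h3 := ah_eq (algebraMap F A) ((⟨x, hxF⟩ : F) - ⟨y, hyF⟩)
  rw [map_sub] at h3
  change ah x = _ at h1
  change ah y = _ at h2
  change ah (x - y) = _ at h3
  rw [h1, h2, h3]
  have hF0 : (0 : ℝ) < finrank ℚ F := by exact_mod_cast Module.finrank_pos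
  have h4 := logHeight₁_sub_le (⟨x, hxF⟩ : F) ⟨y, hyF⟩
  rw [totalWeight_eq_finrank] at h4
  have hpos : (0 : ℝ) ≤ (finrank ℚ F : ℝ)⁻¹ := by positivity
  have h5 := mul_le_mul_of_nonneg_left h4 hpos
  have h6 : (finrank ℚ F : ℝ)⁻¹ * ((finrank ℚ F : ℝ) * Real.log 2
      + logHeight₁ (⟨x, hxF⟩ : F) + logHeight₁ (⟨y, hyF⟩ : F))
      = Real.log 2 + (finrank ℚ F : ℝ)⁻¹ * logHeight₁ (⟨x, hxF⟩ : F)
        + (finrank ℚ F : ℝ)⁻¹ * logHeight₁ (⟨y, hyF⟩ : F) := by
    field_simp
  rw [h6] at h5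
  exact h5

variable {ι ι' : Type*} [Finite ι] [Finite ι']

/-- the absolute height of a sub-tuple is at most the absolute height of the tuple -/
theorem absLogHeight_comp_le (f : ι' → ι) (x : ι → A) (hx : ∀ i, IsIntegral ℚ (x i)) :
    absLogHeight (x ∘ f) ≤ absLogHeight x := by
  haveI := tupleField_numberField x hx
  rw [absLogHeight_def x hx]
  have h := absLogHeight_eq (algebraMap (tupleField x) A) (tupleLift x ∘ f)
  have h' : (fun i => algebraMap (tupleField x) A ((tupleLift x ∘ f) i)) = x ∘ f := by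
    funext i
    rfl
  rw [h'] at h
  rw [h]
  have hpos : (0 : ℝ) ≤ (finrank ℚ (tupleField x) : ℝ)⁻¹ := by positivity
  exact mul_le_mul_of_nonneg_left (logHeight_comp_le f (tupleLift x)) hpos

/-- the height of a coordinate of a normalised point is at most the height of the point -/
theorem ah_le_absLogHeight (y : ι → A) (hy : ∀ i, IsIntegral ℚ (y i)) (i₀ : ι) (h1 : y i₀ = 1)
    (i : ι) : ah (y i) ≤ absLogHeight y := by
  have h := _root_.Fermat.Agent.S17.H50.absLogHeight_comp_le ![i, i₀] y hy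
  have h' : y ∘ ![i, i₀] = ![y i, 1] := by
    funext j
    fin_cases j
    · rfl
    · simpa using h1
  rw [h'] at h
  exact h

/-- **Heights of the coefficients of a polynomial in terms of the heights of its roots**
(crude bound, sufficient for Northcott). -/
theorem ah_coeff_rootPoly_le (s : Multiset A) (hs : ∀ a ∈ s, IsIntegral ℚ a) (H : ℝ)
    (hH : ∀ a ∈ s, ah a ≤ H) (k : ℕ) :
    IsIntegral ℚ ((rootPoly s).coeff k) ∧
      ah ((rootPoly s).coeff k) ≤ (2 ^ s.card - 1) * (Real.log 2 + H) := by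
  induction s using Multiset.induction_on generalizing k with
  | empty =>
    rw [coeff_rootPoly_zero]
    split_ifs
    · exact ⟨isIntegral_one, by simp [ah_one]⟩
    · exact ⟨isIntegral_zero, by simp [ah_zero]⟩
  | cons a s ih =>
    have hs' : ∀ b ∈ s, IsIntegral ℚ b := fun b hb => hs b (Multiset.mem_cons_of_mem hb)
    have hH' : ∀ b ∈ s, ah b ≤ H := fun b hb => hH b (Multiset.mem_cons_of_mem hb)
    have ha : IsIntegral ℚ a := hs a (Multiset.mem_cons_self a s)
    have haH : ah a ≤ H := hH a (Multiset.mem_cons_self a s)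
    have hH0 : 0 ≤ H := (ah_nonneg a).trans haH
    have hlog : 0 ≤ Real.log 2 := Real.log_nonneg (by norm_num)
    have hM0 : (0 : ℝ) ≤ (2 ^ s.card - 1) * (Real.log 2 + H) := by
      refine mul_nonneg ?_ (by linarith)
      have : (1 : ℝ) ≤ 2 ^ s.card := one_le_pow₀ (by norm_num)
      linarith
    rw [coeff_rootPoly_cons, Multiset.card_cons]
    obtain ⟨hi2, hb2⟩ := ih hs' hH' k
    have hu : IsIntegral ℚ (if k = 0 then (0 : A) else (rootPoly s).coeff (k - 1)) ∧
        ah (if k = 0 then (0 : A) else (rootPoly s).coeff (k - 1))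
          ≤ (2 ^ s.card - 1) * (Real.log 2 + H) := by
      split_ifs
      · exact ⟨isIntegral_zero, by rw [ah_zero]; exact hM0⟩
      · exact ih hs' hH' (k - 1)
    obtain ⟨hi1, hb1⟩ := hu
    have hiw : IsIntegral ℚ (a * (rootPoly s).coeff k) := ha.mul hi2
    refine ⟨hi1.sub hiw, ?_⟩
    have h1 := ah_sub_le _ _ hi1 hiw
    have h2 := ah_mul_le _ _ ha hi2
    have h3 : ((2 : ℝ) ^ (s.card + 1) - 1) * (Real.log 2 + H)
        = Real.log 2 + H + 2 * ((2 ^ s.card - 1) * (Real.log 2 + H)) := by ring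
    rw [h3]
    linarith

end general

/-! ### Northcott -/

theorem isIntegral_Qb (x : Qb) : IsIntegral ℚ x :=
  (Algebra.IsAlgebraic.isAlgebraic (R := ℚ) x).isIntegral

/-- **Northcott on `ℚ`** for the absolute height. -/
theorem finite_rat_ah_le (B : ℝ) : {q : ℚ | ah (algebraMap ℚ Qb q) ≤ B}.Finite := by
  have h := finite_setOfPred_logHeight₁_le ℚ B
  refine h.subset ?_
  intro q hq
  simp only [Set.mem_ofPred_eq] at hq ⊢
  rw [ah_rat] at hq
  exact hq

variable {ι : Type*} [Finite ι]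

/-- the naive height of a cycle w.r.t. the absolute height -/
def cycAbs (S : Multiset (ι → Qb)) : ℝ := (S.map fun y => absLogHeight y).sum

theorem cycAbs_nonneg (S : Multiset (ι → Qb)) : 0 ≤ cycAbs S :=
  Multiset.sum_nonneg (by
    intro x hx
    obtain ⟨y, -, rfl⟩ := Multiset.mem_map.1 hx
    exact absLogHeight_nonneg y)

theorem absLogHeight_le_cycAbs (S : Multiset (ι → Qb)) (y : ι → Qb) (hy : y ∈ S) :
    absLogHeight y ≤ cycAbs S := by
  obtain ⟨T, rfl⟩ := Multiset.exists_cons_of_mem hy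
  unfold cycAbs
  rw [Multiset.map_cons, Multiset.sum_cons]
  have := cycAbs_nonneg T
  unfold cycAbs at this
  linarith

theorem cycAbs_add (S T : Multiset (ι → Qb)) : cycAbs (S + T) = cycAbs S + cycAbs T := by
  simp [cycAbs]

/-- **Northcott for Galois-stable cycles** (absolute height): there are only finitely many
Galois-stable multisets `S` of normalised points of `ℚ̄^ι` with `card S ≤ d` and
`∑_{y ∈ S} absLogHeight y ≤ B`. -/
theorem northcott_cycle_abs (d : ℕ) (B : ℝ) :
    {S : Multiset (ι → Qb) | S.card ≤ d ∧ IsGStable S ∧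
      ((∀ y ∈ S, ∃ i, y i = 1) ∧ cycAbs S ≤ B)}.Finite := by
  refine northcott_of_coeff_bound ah finite_rat_ah_le
    (fun S => (∀ y ∈ S, ∃ i, y i = 1) ∧ cycAbs S ≤ B) d
    ((2 ^ d - 1) * (Real.log 2 + max B 0)) ?_
  rintro S hcard - ⟨hnorm, hB⟩ i k
  have hH : ∀ a ∈ S.map (fun y => y i), ah a ≤ max B 0 := by
    intro a ha
    obtain ⟨y, hy, rfl⟩ := Multiset.mem_map.1 ha
    obtain ⟨i₀, hi₀⟩ := hnorm y hy
    calc ah (y i) ≤ absLogHeight y := ah_le_absLogHeight y (fun j => isIntegral_Qb _) i₀ hi₀ i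
      _ ≤ cycAbs S := absLogHeight_le_cycAbs S y hy
      _ ≤ B := hB
      _ ≤ max B 0 := le_max_left _ _
  obtain ⟨-, h⟩ := ah_coeff_rootPoly_le (S.map fun y => y i) (fun a _ => isIntegral_Qb a)
    (max B 0) hH k
  refine h.trans ?_
  rw [Multiset.card_map]
  have hlog : 0 ≤ Real.log 2 := Real.log_nonneg (by norm_num)
  have h0 : 0 ≤ Real.log 2 + max B 0 := add_nonneg hlog (le_max_right _ _)
  refine mul_le_mul_of_nonneg_right ?_ h0
  have : (2 : ℝ) ^ S.card ≤ 2 ^ d := pow_le_pow_right₀ (by norm_num) hcard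
  linarith

/-- Galois conjugates have the same height -/
theorem ah_galois (σ : GQ) (x : Qb) : ah (σ x) = ah x := by
  unfold ah
  have h := absLogHeight_ringHom (σ : Qb →+* Qb) ![x, 1]
  rw [← h]
  congr 1
  ext i
  fin_cases i <;> simp

/-- **Northcott for algebraic numbers of bounded degree.** -/
theorem northcott_alg_abs (d : ℕ) (B : ℝ) :
    {α : Qb | (minpoly ℚ α).natDegree ≤ d ∧ ah α ≤ B}.Finite := by
  classical
  set M : ℝ := (2 ^ d - 1) * (Real.log 2 + max B 0) with hM
  set T : Set ℚ := {q | ah (algebraMap ℚ Qb q) ≤ M} with hTdef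
  have hT : T.Finite := finite_rat_ah_le M
  refine (finite_roots_of_coeff_mem T hT d).subset ?_
  rintro α ⟨hdeg, hB⟩
  have hα : IsIntegral ℚ α := isIntegral_Qb α
  set p : ℚ[X] := minpoly ℚ α with hp
  set P : Qb[X] := p.map (algebraMap ℚ Qb) with hP
  have hPmonic : P.Monic := (minpoly.monic hα).map _
  have hsplit : P.Splits := IsAlgClosed.splits P
  have hPeq : P = rootPoly P.roots := by
    have := hsplit.eq_prod_roots_of_monic hPmonic
    exact this
  have hPdeg : P.natDegree = p.natDegree := Polynomial.natDegree_map _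
  have hcard : P.roots.card ≤ d := by
    have h1 : P.roots.card = P.natDegree := by
      have := congrArg Polynomial.natDegree hPeq
      rw [rootPoly_natDegree] at this
      exact this.symm
    rw [h1, hPdeg]
    exact hdeg
  have hnormal : Normal ℚ Qb := by
    have := isGalois_Qb
    infer_instance
  have hH : ∀ a ∈ P.roots, ah a ≤ max B 0 := by
    intro a ha
    have hroot : Polynomial.aeval a (minpoly ℚ α) = 0 := by
      have h1 := (Polynomial.mem_roots hPmonic.ne_zero).1 ha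
      rw [Polynomial.IsRoot.def, hP, Polynomial.eval_map_algebraMap] at h1
      exact h1
    obtain ⟨σ, hσ⟩ := minpoly.exists_algEquiv_of_root' (K := ℚ) (L := Qb)
      (Algebra.IsAlgebraic.isAlgebraic α) hroot
    rw [← hσ, ah_galois]
    exact hB.trans (le_max_left _ _)
  refine ⟨P, hPmonic.ne_zero, by rw [hPdeg]; exact hdeg, ?_, ?_⟩
  · intro k
    refine ⟨p.coeff k, ?_, by rw [hP, Polynomial.coeff_map]⟩
    simp only [hTdef, Set.mem_ofPred_eq]
    have hcoef : algebraMap ℚ Qb (p.coeff k) = (rootPoly P.roots).coeff k := by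
      rw [← hPeq, hP, Polynomial.coeff_map]
    rw [hcoef]
    obtain ⟨-, h⟩ := ah_coeff_rootPoly_le P.roots (fun a _ => isIntegral_Qb a) (max B 0) hH k
    refine h.trans ?_
    have hlog : 0 ≤ Real.log 2 := Real.log_nonneg (by norm_num)
    have h0 : 0 ≤ Real.log 2 + max B 0 := add_nonneg hlog (le_max_right _ _)
    refine mul_le_mul_of_nonneg_right ?_ h0
    have : (2 : ℝ) ^ P.roots.card ≤ 2 ^ d := pow_le_pow_right₀ (by norm_num) hcard
    linarith
  · rw [Polynomial.IsRoot.def, hP, Polynomial.eval_map_algebraMap]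
    exact minpoly.aeval ℚ α

/-- **Northcott for points of bounded degree**: finitely many normalised points of `ℚ̄^ι` with
coordinates of degree `≤ d` and absolute height `≤ B`. -/
theorem northcott_point_abs (d : ℕ) (B : ℝ) :
    {y : ι → Qb | (∃ i, y i = 1) ∧ (∀ i, (minpoly ℚ (y i)).natDegree ≤ d) ∧
      absLogHeight y ≤ B}.Finite := by
  have h := Set.Finite.pi (t := fun _ : ι => {α : Qb | (minpoly ℚ α).natDegree ≤ d ∧ ah α ≤ B})
    (fun _ => northcott_alg_abs d B)
  refine h.subset ?_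
  rintro y ⟨⟨i₀, hi₀⟩, hdeg, hB⟩
  rw [Set.mem_pi]
  intro i _
  exact ⟨hdeg i, (ah_le_absLogHeight y (fun j => isIntegral_Qb _) i₀ hi₀ i).trans hB⟩

end Fermat.Agent.S17.H50

end
end
-- ===== PACK-END S17/H50/AbsNorthcott.lean

-- ===== PACK-BEGIN S17/H380/AbsSegre.lean
section



set_option linter.unusedSectionVars false
set_option linter.style.haveILetI false

namespace Fermat.Agent.S17.H380

open NumberField Height Module IntermediateField

section Two

variable {A : Type*} [Field A] [CharZero A] {ι ι' : Type*} [Finite ι] [Finite ι']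

/-- The number field generated by the entries of two tuples. -/
noncomputable def pairField (x : ι → A) (y : ι' → A) : IntermediateField ℚ A :=
  tupleField (Sum.elim x y)

theorem pairField_numberField (x : ι → A) (y : ι' → A) (hx : ∀ i, IsIntegral ℚ (x i))
    (hy : ∀ j, IsIntegral ℚ (y j)) : NumberField (pairField x y) :=
  tupleField_numberField _ (by rintro (i | j); exacts [hx i, hy j])

theorem mem_pairField_left (x : ι → A) (y : ι' → A) (i : ι) : x i ∈ pairField x y :=
  subset_adjoin ℚ _ ⟨Sum.inl i, rfl⟩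

theorem mem_pairField_right (x : ι → A) (y : ι' → A) (j : ι') : y j ∈ pairField x y :=
  subset_adjoin ℚ _ ⟨Sum.inr j, rfl⟩

/-- **Segre formula** for absolute heights: the height of the multiplication table of two
nonzero tuples is the sum of their heights. -/
theorem absLogHeight_fun_mul_eq {x : ι → A} {y : ι' → A} (hx : ∀ i, IsIntegral ℚ (x i))
    (hy : ∀ j, IsIntegral ℚ (y j)) (hx0 : x ≠ 0) (hy0 : y ≠ 0) :
    absLogHeight (fun a : ι × ι' => x a.1 * y a.2) = absLogHeight x + absLogHeight y := by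
  haveI := pairField_numberField x y hx hy
  set F := pairField x y
  have hxm := mem_pairField_left x y
  have hym := mem_pairField_right x y
  rw [absLogHeight_of_mem F x hxm, absLogHeight_of_mem F y hym,
    absLogHeight_of_mem F (fun a : ι × ι' => x a.1 * y a.2)
      (fun a => F.mul_mem (hxm a.1) (hym a.2)), ← mul_add]
  congr 1
  have hx0' : (fun i => (⟨x i, hxm i⟩ : F)) ≠ 0 := by
    obtain ⟨i, hi⟩ := Function.ne_iff.mp hx0
    exact Function.ne_iff.mpr ⟨i, fun h => hi (congrArg Subtype.val h)⟩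
  have hy0' : (fun j => (⟨y j, hym j⟩ : F)) ≠ 0 := by
    obtain ⟨j, hj⟩ := Function.ne_iff.mp hy0
    exact Function.ne_iff.mpr ⟨j, fun h => hj (congrArg Subtype.val h)⟩
  rw [← logHeight_fun_mul_eq hx0' hy0']
  rfl

/-- Absolute heights do not increase when passing to a subtuple (or reindexing). -/
theorem absLogHeight_comp_le (f : ι → ι') (y : ι' → A) (hy : ∀ j, IsIntegral ℚ (y j)) :
    absLogHeight (y ∘ f) ≤ absLogHeight y := by
  haveI := tupleField_numberField y hy
  have hym : ∀ j, y j ∈ tupleField y := fun j => subset_adjoin ℚ _ ⟨j, rfl⟩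
  rw [absLogHeight_of_mem (tupleField y) y hym,
    absLogHeight_of_mem (tupleField y) (y ∘ f) (fun i => hym (f i))]
  refine mul_le_mul_of_nonneg_left ?_ (by positivity)
  exact logHeight_comp_le f (fun j => (⟨y j, hym j⟩ : tupleField y))

/-- Absolute heights are invariant under reindexing. -/
theorem absLogHeight_comp_equiv (e : ι ≃ ι') (y : ι' → A) :
    absLogHeight (y ∘ e) = absLogHeight y := by
  by_cases hy : ∀ j, IsIntegral ℚ (y j)
  · haveI := tupleField_numberField y hy
    have hym : ∀ j, y j ∈ tupleField y := fun j => subset_adjoin ℚ _ ⟨j, rfl⟩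
    rw [absLogHeight_of_mem (tupleField y) y hym,
      absLogHeight_of_mem (tupleField y) (y ∘ e) (fun i => hym (e i))]
    congr 1
    exact logHeight_comp_equiv e (fun j => (⟨y j, hym j⟩ : tupleField y))
  · rw [absLogHeight_of_not_isIntegral y hy, absLogHeight_of_not_isIntegral]
    intro h
    apply hy
    intro j
    have := h (e.symm j)
    simpa using this

/-- **Linear maps**: the absolute height of `M x` is at most
`log #ι + absLogHeight M + absLogHeight x`. -/
theorem absLogHeight_linearMap_apply_le [Fintype ι] (M : ι' × ι → A) (x : ι → A)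
    (hM : ∀ a, IsIntegral ℚ (M a)) (hx : ∀ i, IsIntegral ℚ (x i)) :
    absLogHeight (fun j => ∑ i, M (j, i) * x i)
      ≤ Real.log (Nat.card ι) + absLogHeight M + absLogHeight x := by
  haveI := pairField_numberField M x hM hx
  set F := pairField M x
  have hMm := mem_pairField_left M x
  have hxm := mem_pairField_right M x
  have hval : ∀ j, (∑ i, M (j, i) * x i) ∈ F := fun j =>
    F.sum_mem (fun i _ => F.mul_mem (hMm (j, i)) (hxm i))
  rw [absLogHeight_of_mem F M hMm, absLogHeight_of_mem F x hxm,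
    absLogHeight_of_mem F _ hval]
  have h := logHeight_linearMap_apply_le (fun a => (⟨M a, hMm a⟩ : F))
    (fun i => (⟨x i, hxm i⟩ : F))
  have hD : (0 : ℝ) < finrank ℚ F := by exact_mod_cast Module.finrank_pos
  rw [NumberField.totalWeight_eq_finrank] at h
  have heq : (fun j => (⟨∑ i, M (j, i) * x i, hval j⟩ : F))
      = fun j => ∑ i, (⟨M (j, i), hMm (j, i)⟩ : F) * (⟨x i, hxm i⟩ : F) := by
    funext j
    apply Subtype.ext
    push_cast
    rfl
  rw [heq]
  have key : Real.log (Nat.card ι) + (finrank ℚ F : ℝ)⁻¹ * logHeight (fun a => (⟨M a, hMm a⟩ : F))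
      + (finrank ℚ F : ℝ)⁻¹ * logHeight (fun i => (⟨x i, hxm i⟩ : F))
      = (finrank ℚ F : ℝ)⁻¹ * ((finrank ℚ F : ℝ) * Real.log (Nat.card ι)
          + logHeight (fun a => (⟨M a, hMm a⟩ : F)) + logHeight (fun i => (⟨x i, hxm i⟩ : F))) := by
    field_simp
  rw [key]
  exact mul_le_mul_of_nonneg_left h (by positivity)

end Two


section Many

universe u v

variable {A : Type*} [Field A] [CharZero A]
variable {α : Type u} [Fintype α] {ι : α → Type v} [∀ a, Finite (ι a)]

/-- **Segre formula** for absolute heights, finite families: the height of the multiplication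
table of a finite family of nonzero tuples is the sum of their heights. -/
theorem absLogHeight_fun_prod_eq {x : (a : α) → ι a → A} (hx : ∀ a i, IsIntegral ℚ (x a i))
    (hx0 : ∀ a, x a ≠ 0) :
    absLogHeight (fun I : (a : α) → ι a => ∏ a, x a (I a)) = ∑ a, absLogHeight (x a) := by
  classical
  let u : (Σ a, ι a) → A := fun s => x s.1 s.2
  have hu : ∀ s, IsIntegral ℚ (u s) := fun s => hx s.1 s.2
  haveI := tupleField_numberField u hu
  set F := tupleField u
  have hm : ∀ a i, x a i ∈ F := fun a i => subset_adjoin ℚ _ ⟨⟨a, i⟩, rfl⟩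
  have hval : ∀ I : (a : α) → ι a, (∏ a, x a (I a)) ∈ F := fun I =>
    F.prod_mem (fun a _ => hm a (I a))
  rw [absLogHeight_of_mem F _ hval,
    Finset.sum_congr rfl (fun a _ => absLogHeight_of_mem F (x a) (hm a)), ← Finset.mul_sum]
  congr 1
  have hx0' : ∀ a, (fun i => (⟨x a i, hm a i⟩ : F)) ≠ 0 := by
    intro a
    obtain ⟨i, hi⟩ := Function.ne_iff.mp (hx0 a)
    exact Function.ne_iff.mpr ⟨i, fun h => hi (congrArg Subtype.val h)⟩
  rw [← logHeight_fun_prod_eq (x := fun a i => (⟨x a i, hm a i⟩ : F)) hx0']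
  congr 1
  funext I
  apply Subtype.ext
  push_cast
  rfl

end Many

end Fermat.Agent.S17.H380

end
-- ===== PACK-END S17/H380/AbsSegre.lean

-- ===== PACK-BEGIN S17/H380/AbsEval.lean
section



set_option linter.unusedSectionVars false
set_option linter.style.haveILetI false

namespace Fermat.Agent.S17.H380

open NumberField Height Module IntermediateField MvPolynomial

section Common

variable {K₀ A : Type*} [Field K₀] [NumberField K₀] [Field A] [CharZero A] [Algebra K₀ A]
variable {ι : Type*} [Finite ι]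

/-- The number field generated inside `A` by the image of a number field `K₀` and the entries
of a tuple of algebraic elements. -/
noncomputable def commonField (K₀ : Type*) [Field K₀] [NumberField K₀] [Algebra K₀ A]
    (x : ι → A) : IntermediateField ℚ A :=
  tupleField x ⊔ (algebraMap K₀ A).toRatAlgHom.fieldRange

theorem commonField_numberField (x : ι → A) (hx : ∀ i, IsIntegral ℚ (x i)) :
    NumberField (commonField K₀ x) := by
  haveI := tupleField_finiteDimensional x hx
  haveI : FiniteDimensional ℚ (algebraMap K₀ A).toRatAlgHom.fieldRange :=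
    (AlgHom.equivFieldRange (algebraMap K₀ A).toRatAlgHom).toLinearEquiv.finiteDimensional
  haveI : FiniteDimensional ℚ (commonField K₀ x) := by
    unfold commonField; infer_instance
  exact {}

theorem mem_commonField (x : ι → A) (i : ι) : x i ∈ commonField K₀ x :=
  (le_sup_left : tupleField x ≤ commonField K₀ x) (subset_adjoin ℚ _ ⟨i, rfl⟩)

theorem algebraMap_mem_commonField (x : ι → A) (k : K₀) :
    algebraMap K₀ A k ∈ commonField K₀ x :=
  (le_sup_right : (algebraMap K₀ A).toRatAlgHom.fieldRange ≤ commonField K₀ x) ⟨k, rfl⟩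

/-- The tuple as a tuple in the common field. -/
noncomputable def commonLift (K₀ : Type*) [Field K₀] [NumberField K₀] [Algebra K₀ A]
    (x : ι → A) : ι → commonField K₀ x := fun i => ⟨x i, mem_commonField x i⟩

/-- The structure map of `K₀` into the common field. -/
noncomputable def commonMap (K₀ : Type*) [Field K₀] [NumberField K₀] [Algebra K₀ A]
    (x : ι → A) : K₀ →+* commonField K₀ x :=
  (algebraMap K₀ A).codRestrict (commonField K₀ x).toSubfield.toSubring
    (fun k => algebraMap_mem_commonField x k)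

theorem commonMap_coe (x : ι → A) (k : K₀) :
    ((commonMap K₀ x k : commonField K₀ x) : A) = algebraMap K₀ A k := rfl

theorem coe_eval_commonLift (x : ι → A) (q : MvPolynomial ι K₀) :
    ((eval (commonLift K₀ x) (map (commonMap K₀ x) q) : commonField K₀ x) : A) = aeval x q := by
  rw [eval_map, aeval_def]
  have := eval₂_comp_left (algebraMap (commonField K₀ x) A) (commonMap K₀ x) (commonLift K₀ x) q
  exact this

end Common


section Eval

variable {K₀ A : Type*} [Field K₀] [NumberField K₀] [Field A] [CharZero A] [Algebra K₀ A]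
variable {ι ι' : Type*} [Finite ι]

theorem mulHeightBound_nonneg {K : Type*} [Field K] [AdmissibleAbsValues K]
    (p : ι' → MvPolynomial ι K) : 0 ≤ mulHeightBound p := by
  rw [mulHeightBound_eq]
  refine mul_nonneg (Multiset.prod_map_nonneg fun v _ => ?_) (finprod_nonneg fun v => ?_)
  · exact Real.iSup_nonneg fun j => Finsupp.sum_nonneg fun s _ => v.nonneg _
  · exact Real.iSup_nonneg fun j => le_trans zero_le_one (le_max_right _ _)

theorem log_max_pow_one {B : ℝ} (hB : 0 ≤ B) (d : ℕ) :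
    Real.log (max (B ^ d) 1) = d * Real.log (max B 1) := by
  have h : max (B ^ d) 1 = (max B 1) ^ d := by
    rcases le_total B 1 with h1 | h1
    · rw [max_eq_right h1, max_eq_right (pow_le_one₀ hB h1), one_pow]
    · rw [max_eq_left h1, max_eq_left (one_le_pow₀ h1)]
  rw [h, Real.log_pow]

theorem finrank_commonField (x : ι → A) (hx : ∀ i, IsIntegral ℚ (x i)) :
    haveI := commonField_numberField (K₀ := K₀) x hx
    letI := (commonMap K₀ x).toAlgebra
    (finrank ℚ K₀ : ℝ) * (finrank K₀ (commonField K₀ x) : ℝ)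
      = (finrank ℚ (commonField K₀ x) : ℝ) := by
  haveI := commonField_numberField (K₀ := K₀) x hx
  letI := (commonMap K₀ x).toAlgebra
  rw [← Nat.cast_mul, Module.finrank_mul_finrank ℚ K₀ (commonField K₀ x)]

theorem absLogHeight_empty [IsEmpty ι'] (y : ι' → A) : absLogHeight y = 0 := by
  rw [show y = 0 from Subsingleton.elim _ _]
  exact absLogHeight_zero

/-- **Upper bound for the absolute height of the image under a polynomial map**, with an
explicit constant depending only on the polynomials. -/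
theorem absLogHeight_eval_le [Finite ι'] {N : ℕ} {p : ι' → MvPolynomial ι K₀}
    (hp : ∀ j, (p j).IsHomogeneous N) (x : ι → A) (hx : ∀ i, IsIntegral ℚ (x i)) :
    absLogHeight (fun j => aeval x (p j))
      ≤ (finrank ℚ K₀ : ℝ)⁻¹ * Real.log (max (mulHeightBound p) 1) + N * absLogHeight x := by
  have hd₀ : (0 : ℝ) < finrank ℚ K₀ := by exact_mod_cast Module.finrank_pos
  rcases isEmpty_or_nonempty ι' with hι' | hι'
  · rw [absLogHeight_empty]
    have h1 : 0 ≤ Real.log (max (mulHeightBound p) 1) := Real.log_nonneg (le_max_right _ _)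
    have h2 := absLogHeight_nonneg x
    positivity
  haveI := commonField_numberField (K₀ := K₀) x hx
  letI := (commonMap K₀ x).toAlgebra
  have hM := logHeight_eval_le (K := commonField K₀ x)
    (p := fun j => map (commonMap K₀ x) (p j)) (fun j => (hp j).map _) (commonLift K₀ x)
  have hB : mulHeightBound (fun j => map (commonMap K₀ x) (p j))
      = mulHeightBound p ^ finrank K₀ (commonField K₀ x) :=
    mulHeightBound_map (K := K₀) (L := commonField K₀ x) p
  have h1 : absLogHeight (fun j => aeval x (p j)) = (finrank ℚ (commonField K₀ x) : ℝ)⁻¹ *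
      logHeight (fun j => eval (commonLift K₀ x) (map (commonMap K₀ x) (p j))) := by
    rw [← absLogHeight_eq (algebraMap (commonField K₀ x) A)]
    congr 1
    funext j
    exact (coe_eval_commonLift x (p j)).symm
  have h2 : absLogHeight x = (finrank ℚ (commonField K₀ x) : ℝ)⁻¹ *
      logHeight (commonLift K₀ x) :=
    absLogHeight_eq (algebraMap (commonField K₀ x) A) (commonLift K₀ x)
  have hD := finrank_commonField (K₀ := K₀) x hx
  have hDpos : (0 : ℝ) < finrank ℚ (commonField K₀ x) := by exact_mod_cast Module.finrank_pos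
  have hdpos : (0 : ℝ) < finrank K₀ (commonField K₀ x) := by
    have : (0:ℝ) < (finrank ℚ K₀ : ℝ) * (finrank K₀ (commonField K₀ x) : ℝ) := by
      rw [hD]; exact hDpos
    exact (mul_pos_iff_of_pos_left hd₀).mp this
  rw [hB, log_max_pow_one (mulHeightBound_nonneg p)] at hM
  rw [h1, h2, ← hD]
  have key : ((finrank ℚ K₀ : ℝ) * (finrank K₀ (commonField K₀ x) : ℝ))⁻¹ *
      ((finrank K₀ (commonField K₀ x) : ℝ) * Real.log (max (mulHeightBound p) 1)
        + N * logHeight (commonLift K₀ x))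
      = (finrank ℚ K₀ : ℝ)⁻¹ * Real.log (max (mulHeightBound p) 1) +
        N * (((finrank ℚ K₀ : ℝ) * (finrank K₀ (commonField K₀ x) : ℝ))⁻¹ *
          logHeight (commonLift K₀ x)) := by
    field_simp
  rw [← key]
  exact mul_le_mul_of_nonneg_left hM (by positivity)


/-- **Lower bound for the absolute height of the image under a polynomial map** in the presence
of a Nullstellensatz certificate (valid at the point `x`), with an explicit constant depending
only on the certificate. -/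
theorem absLogHeight_eval_ge [Fintype ι'] {M N : ℕ} {q : ι × ι' → MvPolynomial ι K₀}
    (hq : ∀ a, (q a).IsHomogeneous M) (p : ι' → MvPolynomial ι K₀) {x : ι → A}
    (hx : ∀ i, IsIntegral ℚ (x i))
    (h : ∀ k, ∑ j, aeval x (q (k, j)) * aeval x (p j) = (x k) ^ (M + N)) :
    -(Real.log (Nat.card ι') + (finrank ℚ K₀ : ℝ)⁻¹ * Real.log (max (mulHeightBound q) 1))
        + N * absLogHeight x
      ≤ absLogHeight (fun j => aeval x (p j)) := by
  have hd₀ : (0 : ℝ) < finrank ℚ K₀ := by exact_mod_cast Module.finrank_pos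
  have hlogB : 0 ≤ Real.log (max (mulHeightBound q) 1) := Real.log_nonneg (le_max_right _ _)
  have hlogc : 0 ≤ Real.log (Nat.card ι') := Real.log_natCast_nonneg _
  have hC : 0 ≤ Real.log (Nat.card ι') +
      (finrank ℚ K₀ : ℝ)⁻¹ * Real.log (max (mulHeightBound q) 1) := by positivity
  rcases isEmpty_or_nonempty ι' with hι' | hι'
  · have hx0 : x = 0 := by
      funext k
      have := h k
      simp only [Finset.univ_eq_empty, Finset.sum_empty] at this
      exact eq_zero_of_pow_eq_zero this.symm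
    rw [absLogHeight_empty (fun j => aeval x (p j)), hx0, absLogHeight_zero]
    simp only [mul_zero, add_zero, neg_nonpos]
    exact hC
  rcases isEmpty_or_nonempty ι with hι | hι
  · rw [absLogHeight_empty x]
    have := absLogHeight_nonneg (fun j => aeval x (p j))
    simp only [mul_zero, add_zero]
    linarith
  haveI := commonField_numberField (K₀ := K₀) x hx
  letI := (commonMap K₀ x).toAlgebra
  have hlift : ∀ k, ∑ j, (map (commonMap K₀ x) (q (k, j))).eval (commonLift K₀ x) *
      (map (commonMap K₀ x) (p j)).eval (commonLift K₀ x) = (commonLift K₀ x k) ^ (M + N) := by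
    intro k
    apply Subtype.ext
    have := h k
    simp only [← coe_eval_commonLift] at this
    push_cast
    rw [this]
    rfl
  have hM := logHeight_eval_ge (K := commonField K₀ x)
    (q := fun a => map (commonMap K₀ x) (q a)) (fun a => (hq a).map _)
    (fun j => map (commonMap K₀ x) (p j)) hlift
  have hB : mulHeightBound (fun a => map (commonMap K₀ x) (q a))
      = mulHeightBound q ^ finrank K₀ (commonField K₀ x) :=
    mulHeightBound_map (K := K₀) (L := commonField K₀ x) q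
  have h1 : absLogHeight (fun j => aeval x (p j)) = (finrank ℚ (commonField K₀ x) : ℝ)⁻¹ *
      logHeight (fun j => eval (commonLift K₀ x) (map (commonMap K₀ x) (p j))) := by
    rw [← absLogHeight_eq (algebraMap (commonField K₀ x) A)]
    congr 1
    funext j
    exact (coe_eval_commonLift x (p j)).symm
  have h2 : absLogHeight x = (finrank ℚ (commonField K₀ x) : ℝ)⁻¹ *
      logHeight (commonLift K₀ x) :=
    absLogHeight_eq (algebraMap (commonField K₀ x) A) (commonLift K₀ x)
  have hD := finrank_commonField (K₀ := K₀) x hx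
  have hDpos : (0 : ℝ) < finrank ℚ (commonField K₀ x) := by exact_mod_cast Module.finrank_pos
  have hdpos : (0 : ℝ) < finrank K₀ (commonField K₀ x) := by
    have : (0:ℝ) < (finrank ℚ K₀ : ℝ) * (finrank K₀ (commonField K₀ x) : ℝ) := by
      rw [hD]; exact hDpos
    exact (mul_pos_iff_of_pos_left hd₀).mp this
  have hcard : (0 : ℝ) < Nat.card ι' := by exact_mod_cast Nat.card_pos
  have hmaxpos : (0 : ℝ) < max (mulHeightBound q ^ finrank K₀ (commonField K₀ x)) 1 :=
    lt_of_lt_of_le zero_lt_one (le_max_right _ _)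
  rw [hB, NumberField.totalWeight_eq_finrank, Real.log_mul (pow_pos hcard _).ne' hmaxpos.ne',
    Real.log_pow, log_max_pow_one (mulHeightBound_nonneg q), ← hD] at hM
  rw [h1, h2, ← hD]
  have key : ((finrank ℚ K₀ : ℝ) * (finrank K₀ (commonField K₀ x) : ℝ))⁻¹ *
      (-(((finrank ℚ K₀ : ℝ) * (finrank K₀ (commonField K₀ x) : ℝ)) * Real.log (Nat.card ι')
          + (finrank K₀ (commonField K₀ x) : ℝ) * Real.log (max (mulHeightBound q) 1))
        + N * logHeight (commonLift K₀ x))
      = -(Real.log (Nat.card ι') +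
            (finrank ℚ K₀ : ℝ)⁻¹ * Real.log (max (mulHeightBound q) 1)) +
        N * (((finrank ℚ K₀ : ℝ) * (finrank K₀ (commonField K₀ x) : ℝ))⁻¹ *
          logHeight (commonLift K₀ x)) := by
    field_simp
  rw [← key]
  refine mul_le_mul_of_nonneg_left ?_ (by positivity)
  exact hM

end Eval

end Fermat.Agent.S17.H380

end
-- ===== PACK-END S17/H380/AbsEval.lean

-- ===== PACK-BEGIN S17/H740/SegreCert.lean
section


/-!
# Multi-projective Nullstellensatz certificates and height bounds (leaf SEGRE of S17/H)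

Slots `a : α` with variables `ι a` and homogeneous ideals `I a`; `p j` multihomogeneous of
multidegree `(N, …, N)` in the variables `Σ a, ι a`, without common zero on the product of the
punctured cones of the `I a` (checked over an algebraically closed extension `L`).

* `exists_segre_certificate` : there are `M` and homogeneous `Q (f, j)` of degree `M` in the
  Segre variables with `∑ j, Q (f, j)(z) * p j (u) = z f ^ (M + N)`, `z = segrePt u`, for every
  `L`-point `u` of the product of the cones;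
* `exists_segre_certificate_eval` : the same at `k`-points, together with Segre lifts `P j` of
  the `p j` (`eval (segrePt u) (P j) = eval (sigmaPt u) (p j)`), i.e. exactly the hypothesis of
  Mathlib's `Height.logHeight_eval_ge`;
* `logHeight_multi_eval_ge`, `logHeight_multi_eval_le`, `abs_logHeight_multi_eval_sub_le` :
  `|logHeight (p j (u))_j - N * ∑ a, logHeight (u a)| ≤ C` on the product of the cones
  (all `u a ≠ 0`).
-/

set_option autoImplicit false

noncomputable section

namespace Fermat.Agent.S17.H740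

open MvPolynomial
open Fermat.Agent.S17.H500 (HomIdeal)

variable {k : Type*} [Field k] {α : Type*} [Fintype α] {ι : α → Type*} {ι' : Type*}

theorem segrePt_eq_zero_of {R : Type*} [CommMonoidWithZero R] {u : (a : α) → ι a → R} {a : α}
    (h : u a = 0) : segrePt u = 0 := by
  funext f
  simp only [segrePt, Pi.zero_apply]
  exact Finset.prod_eq_zero (Finset.mem_univ a) (by rw [h]; rfl)

/-- **Multi-projective Nullstellensatz certificate** (evaluated at the `L`-points). -/
theorem exists_segre_certificate [Nonempty α] [∀ a, Finite (ι a)] [Fintype ι']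
    (L : Type*) [Field L] [Algebra k L] [IsAlgClosed L]
    (I : ∀ a, Ideal (MvPolynomial (ι a) k)) (hI : ∀ a, HomIdeal (I a)) {N : ℕ}
    (p : ι' → MvPolynomial (Σ a, ι a) k)
    (hp : ∀ j, ∃ P : MvPolynomial ((a : α) → ι a) k, P.IsHomogeneous N ∧ segreSubst k P = p j)
    (h0 : ∀ u : (a : α) → ι a → L, InCones L I u → (∀ j, aeval (sigmaPt u) (p j) = 0) →
      ∃ a, u a = 0) :
    ∃ (M : ℕ) (Q : ((a : α) → ι a) × ι' → MvPolynomial ((a : α) → ι a) k),
      (∀ c, (Q c).IsHomogeneous M) ∧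
      ∀ u : (a : α) → ι a → L, InCones L I u → ∀ f,
        ∑ j, aeval (segrePt u) (Q (f, j)) * aeval (sigmaPt u) (p j) = segrePt u f ^ (M + N) := by
  classical
  choose P hPhom hPp using hp
  have hcert := H500.exists_certificate L (segreIdeal L I) (homIdeal_segreIdeal hI) P hPhom (by
    intro z hzJ hzP
    by_contra hz0
    obtain ⟨u, rfl⟩ := exists_segrePt_eq hzJ hz0
    have hu0 : ∀ a, u a ≠ 0 := fun a h => hz0 (segrePt_eq_zero_of h)
    have hu := inCones_of_segrePt hI hu0 hzJ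
    obtain ⟨a, ha⟩ := h0 u hu (fun j => by
      rw [← hPp j, aeval_sigmaPt_segreSubst]; exact hzP j)
    exact hu0 a ha)
  obtain ⟨M, Q, hQ, hQJ⟩ := hcert
  refine ⟨M, Q, hQ, fun u hu f => ?_⟩
  have := hQJ f u hu
  rw [map_sub, map_sum, map_pow, aeval_X, sub_eq_zero] at this
  rw [← this]
  refine Finset.sum_congr rfl fun j _ => ?_
  rw [map_mul, ← hPp j, aeval_sigmaPt_segreSubst]

/-- Version of `exists_segre_certificate` whose hypothesis is multihomogeneity. -/
theorem exists_segre_certificate' [DecidableEq α] [Nonempty α] [∀ a, Finite (ι a)] [Fintype ι']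
    (L : Type*) [Field L] [Algebra k L] [IsAlgClosed L]
    (I : ∀ a, Ideal (MvPolynomial (ι a) k)) (hI : ∀ a, HomIdeal (I a)) {N : ℕ}
    (p : ι' → MvPolynomial (Σ a, ι a) k) (hp : ∀ j, IsMultiHom (p j) (fun _ => N))
    (h0 : ∀ u : (a : α) → ι a → L, InCones L I u → (∀ j, aeval (sigmaPt u) (p j) = 0) →
      ∃ a, u a = 0) :
    ∃ (M : ℕ) (Q : ((a : α) → ι a) × ι' → MvPolynomial ((a : α) → ι a) k),
      (∀ c, (Q c).IsHomogeneous M) ∧
      ∀ u : (a : α) → ι a → L, InCones L I u → ∀ f,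
        ∑ j, aeval (segrePt u) (Q (f, j)) * aeval (sigmaPt u) (p j) = segrePt u f ^ (M + N) :=
  exists_segre_certificate L I hI p (fun j => exists_segre_lift (hp j)) h0

section KPoints

variable (L : Type*) [Field L] [Algebra k L]

theorem aeval_algebraMap_comp {σ : Type*} (v : σ → k) (f : MvPolynomial σ k) :
    aeval (fun i => algebraMap k L (v i)) f = algebraMap k L (eval v f) := by
  have := comp_aeval_apply (f := v) (Algebra.ofId k L) f
  simpa [Algebra.ofId_apply] using this.symm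

omit [Fintype α] in
theorem inCones_algebraMap {I : ∀ a, Ideal (MvPolynomial (ι a) k)} {u : (a : α) → ι a → k}
    (hu : ∀ a, ∀ f ∈ I a, eval (u a) f = 0) :
    InCones L I (fun a j => algebraMap k L (u a j)) := by
  intro a f hf
  rw [aeval_algebraMap_comp, hu a f hf, map_zero]

theorem segrePt_algebraMap (u : (a : α) → ι a → k) :
    segrePt (fun a j => algebraMap k L (u a j)) = fun f => algebraMap k L (segrePt u f) := by
  funext f
  simp [segrePt]

omit [Fintype α] in
theorem sigmaPt_algebraMap (u : (a : α) → ι a → k) :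
    sigmaPt (fun a j => algebraMap k L (u a j)) = fun s => algebraMap k L (sigmaPt u s) := rfl

end KPoints

/-- **Certificate at `k`-points**, in the exact shape of the hypothesis of
`Height.logHeight_eval_ge`: `P j` are Segre lifts of the `p j`. -/
theorem exists_segre_certificate_eval [Nonempty α] [∀ a, Finite (ι a)] [Fintype ι']
    (L : Type*) [Field L] [Algebra k L] [IsAlgClosed L]
    (I : ∀ a, Ideal (MvPolynomial (ι a) k)) (hI : ∀ a, HomIdeal (I a)) {N : ℕ}
    (p : ι' → MvPolynomial (Σ a, ι a) k)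
    (hp : ∀ j, ∃ P : MvPolynomial ((a : α) → ι a) k, P.IsHomogeneous N ∧ segreSubst k P = p j)
    (h0 : ∀ u : (a : α) → ι a → L, InCones L I u → (∀ j, aeval (sigmaPt u) (p j) = 0) →
      ∃ a, u a = 0) :
    ∃ (M : ℕ) (Q : ((a : α) → ι a) × ι' → MvPolynomial ((a : α) → ι a) k)
      (P : ι' → MvPolynomial ((a : α) → ι a) k),
      (∀ c, (Q c).IsHomogeneous M) ∧ (∀ j, (P j).IsHomogeneous N) ∧
      (∀ j, segreSubst k (P j) = p j) ∧
      (∀ (u : (a : α) → ι a → k) (j : ι'), eval (segrePt u) (P j) = eval (sigmaPt u) (p j)) ∧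
      ∀ u : (a : α) → ι a → k, (∀ a, ∀ f ∈ I a, eval (u a) f = 0) → ∀ f,
        ∑ j, eval (segrePt u) (Q (f, j)) * eval (segrePt u) (P j) = segrePt u f ^ (M + N) := by
  classical
  obtain ⟨M, Q, hQ, hcert⟩ := exists_segre_certificate L I hI p hp h0
  choose P hPhom hPp using hp
  have hPeval : ∀ (u : (a : α) → ι a → k) (j : ι'),
      eval (segrePt u) (P j) = eval (sigmaPt u) (p j) := by
    intro u j
    have := aeval_sigmaPt_segreSubst (k := k) (R := k) u (P j)
    rw [hPp j] at this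
    simpa using this.symm
  refine ⟨M, Q, P, hQ, hPhom, hPp, hPeval, fun u hu f => ?_⟩
  have h1 := hcert _ (inCones_algebraMap L hu) f
  rw [segrePt_algebraMap, sigmaPt_algebraMap] at h1
  simp only [aeval_algebraMap_comp] at h1
  rw [← map_pow] at h1
  simp only [← map_mul, ← map_sum] at h1
  have h2 := (algebraMap k L).injective h1
  rw [← h2]
  exact Finset.sum_congr rfl fun j _ => by rw [hPeval]

/-- **Certificate at `L`-points with Segre lifts**: the shape needed to feed a height lower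
bound over `L` (e.g. an absolute height on `ℚ̄`) with polynomials defined over `k`. -/
theorem exists_segre_certificate_aeval [Nonempty α] [∀ a, Finite (ι a)] [Fintype ι']
    (L : Type*) [Field L] [Algebra k L] [IsAlgClosed L]
    (I : ∀ a, Ideal (MvPolynomial (ι a) k)) (hI : ∀ a, HomIdeal (I a)) {N : ℕ}
    (p : ι' → MvPolynomial (Σ a, ι a) k)
    (hp : ∀ j, ∃ P : MvPolynomial ((a : α) → ι a) k, P.IsHomogeneous N ∧ segreSubst k P = p j)
    (h0 : ∀ u : (a : α) → ι a → L, InCones L I u → (∀ j, aeval (sigmaPt u) (p j) = 0) →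
      ∃ a, u a = 0) :
    ∃ (M : ℕ) (Q : ((a : α) → ι a) × ι' → MvPolynomial ((a : α) → ι a) k)
      (P : ι' → MvPolynomial ((a : α) → ι a) k),
      (∀ c, (Q c).IsHomogeneous M) ∧ (∀ j, (P j).IsHomogeneous N) ∧
      (∀ j, segreSubst k (P j) = p j) ∧
      (∀ (u : (a : α) → ι a → L) (j : ι'),
        aeval (segrePt u) (P j) = aeval (sigmaPt u) (p j)) ∧
      ∀ u : (a : α) → ι a → L, InCones L I u → ∀ f,
        ∑ j, aeval (segrePt u) (Q (f, j)) * aeval (segrePt u) (P j) = segrePt u f ^ (M + N) := by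
  classical
  obtain ⟨M, Q, hQ, hcert⟩ := exists_segre_certificate L I hI p hp h0
  choose P hPhom hPp using hp
  have hPeval : ∀ (u : (a : α) → ι a → L) (j : ι'),
      aeval (segrePt u) (P j) = aeval (sigmaPt u) (p j) := by
    intro u j
    rw [← hPp j, aeval_sigmaPt_segreSubst]
  refine ⟨M, Q, P, hQ, hPhom, hPp, hPeval, fun u hu f => ?_⟩
  rw [← hcert u hu f]
  exact Finset.sum_congr rfl fun j _ => by rw [hPeval]

/-! ### Height bounds -/

section Heights

variable [Height.AdmissibleAbsValues k]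

/-- **Lower bound for multihomogeneous maps without common zero on a product of cones.** -/
theorem logHeight_multi_eval_ge [Nonempty α] [∀ a, Finite (ι a)] [Fintype ι']
    (L : Type*) [Field L] [Algebra k L] [IsAlgClosed L]
    (I : ∀ a, Ideal (MvPolynomial (ι a) k)) (hI : ∀ a, HomIdeal (I a)) {N : ℕ}
    (p : ι' → MvPolynomial (Σ a, ι a) k)
    (hp : ∀ j, ∃ P : MvPolynomial ((a : α) → ι a) k, P.IsHomogeneous N ∧ segreSubst k P = p j)
    (h0 : ∀ u : (a : α) → ι a → L, InCones L I u → (∀ j, aeval (sigmaPt u) (p j) = 0) →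
      ∃ a, u a = 0) :
    ∃ C : ℝ, ∀ u : (a : α) → ι a → k, (∀ a, ∀ f ∈ I a, eval (u a) f = 0) → (∀ a, u a ≠ 0) →
      C + N * ∑ a, Height.logHeight (u a) ≤
        Height.logHeight (fun j => eval (sigmaPt u) (p j)) := by
  obtain ⟨M, Q, P, hQ, -, -, hPeval, hcert⟩ := exists_segre_certificate_eval L I hI p hp h0
  obtain ⟨C, hC⟩ := Height.logHeight_eval_ge' (K := k) (M := M) (N := N) hQ
  refine ⟨C, fun u hu hu0 => ?_⟩
  have h1 := hC P (x := segrePt u) (hcert u hu)
  have h2 : Height.logHeight (segrePt u) = ∑ a, Height.logHeight (u a) :=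
    Height.logHeight_fun_prod_eq hu0
  rw [h2] at h1
  simpa only [hPeval] using h1

/-- **Upper bound for multihomogeneous maps of multidegree `(N, …, N)`.** -/
theorem logHeight_multi_eval_le [∀ a, Finite (ι a)] [Fintype ι'] {N : ℕ}
    (p : ι' → MvPolynomial (Σ a, ι a) k)
    (hp : ∀ j, ∃ P : MvPolynomial ((a : α) → ι a) k, P.IsHomogeneous N ∧ segreSubst k P = p j) :
    ∃ C : ℝ, ∀ u : (a : α) → ι a → k, (∀ a, u a ≠ 0) →
      Height.logHeight (fun j => eval (sigmaPt u) (p j)) ≤
        C + N * ∑ a, Height.logHeight (u a) := by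
  choose P hPhom hPp using hp
  obtain ⟨C, hC⟩ := Height.logHeight_eval_le' (K := k) hPhom
  refine ⟨C, fun u hu0 => ?_⟩
  have h1 := hC (segrePt u)
  have h2 : Height.logHeight (segrePt u) = ∑ a, Height.logHeight (u a) :=
    Height.logHeight_fun_prod_eq hu0
  rw [h2] at h1
  have hPeval : ∀ j, eval (segrePt u) (P j) = eval (sigmaPt u) (p j) := by
    intro j
    have := aeval_sigmaPt_segreSubst (k := k) (R := k) u (P j)
    rw [hPp j] at this
    simpa using this.symm
  simpa only [hPeval] using h1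

/-- Two-sided bound. -/
theorem abs_logHeight_multi_eval_sub_le [Nonempty α] [∀ a, Finite (ι a)] [Fintype ι']
    (L : Type*) [Field L] [Algebra k L] [IsAlgClosed L]
    (I : ∀ a, Ideal (MvPolynomial (ι a) k)) (hI : ∀ a, HomIdeal (I a)) {N : ℕ}
    (p : ι' → MvPolynomial (Σ a, ι a) k)
    (hp : ∀ j, ∃ P : MvPolynomial ((a : α) → ι a) k, P.IsHomogeneous N ∧ segreSubst k P = p j)
    (h0 : ∀ u : (a : α) → ι a → L, InCones L I u → (∀ j, aeval (sigmaPt u) (p j) = 0) →
      ∃ a, u a = 0) :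
    ∃ C : ℝ, ∀ u : (a : α) → ι a → k, (∀ a, ∀ f ∈ I a, eval (u a) f = 0) → (∀ a, u a ≠ 0) →
      |Height.logHeight (fun j => eval (sigmaPt u) (p j)) - N * ∑ a, Height.logHeight (u a)| ≤
        C := by
  obtain ⟨C₁, hC₁⟩ := logHeight_multi_eval_le (k := k) p hp
  obtain ⟨C₂, hC₂⟩ := logHeight_multi_eval_ge L I hI p hp h0
  refine ⟨max C₁ (-C₂), fun u hu hu0 => abs_sub_le_iff.mpr ⟨?_, ?_⟩⟩
  · have := hC₁ u hu0
    have h2 := le_max_left C₁ (-C₂)
    linarith
  · have := hC₂ u hu hu0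
    have h2 := le_max_right C₁ (-C₂)
    linarith

end Heights

end Fermat.Agent.S17.H740

end
end
-- ===== PACK-END S17/H740/SegreCert.lean

-- ===== PACK-BEGIN S17/H830/AbsGlobal.lean
section



/-!
# S17 / tower H, piece ABS (helper830), part 3: Mathlib heights as sums of local terms over
embeddings

`Ω` is an algebraically closed field of characteristic zero (in the application `ℚ̄`) with a
system `S : AbsSystem Ω` of absolute values: one embedding `S.inf : Ω →+* ℂ` and, for every prime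
`p`, a nonarchimedean absolute value `S.fin p` with `S.fin p p = p⁻¹`.

For a tuple `x : ι → Ω` put
  `S.locInf x = ⨆ i, ‖S.inf (x i)‖`,   `S.locFin p x = ⨆ i, S.fin p (x i)`,
  `S.locMul x = S.locInf x * ∏ᶠ p, S.locFin p x`.

Main results, for a number field `K` and `y : ι → K`, `y ≠ 0`:

* `mulHeight_eq_prod_locMul` : `Height.mulHeight y = ∏ τ : K →+* Ω, S.locMul (τ ∘ y)`;
* `logHeight_eq_sum_log_locMul` : the logarithmic version;
* `hasFiniteMulSupport_locFin` : `S.locFin p (τ ∘ y) = 1` for almost all `p`;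
* `prod_locMul_singleton` : product formula in embedding form.
-/

set_option autoImplicit false

noncomputable section

namespace Fermat.Agent.S17.H830

open NumberField

/-- A system of absolute values on `Ω` extending the standard absolute values of `ℚ`. -/
structure AbsSystem (Ω : Type*) [Field Ω] where
  /-- the archimedean embedding -/
  inf : Ω →+* ℂ
  /-- the `p`-adic absolute values -/
  fin : Nat.Primes → AbsoluteValue Ω ℝ
  nonarch : ∀ p, IsNonarchimedean (fin p)
  fin_p : ∀ p : Nat.Primes, fin p ((p : ℕ) : Ω) = ((p : ℕ) : ℝ)⁻¹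

namespace AbsSystem

variable {Ω : Type*} [Field Ω] (S : AbsSystem Ω) {ι : Type*}

/-- archimedean local factor of a tuple -/
def locInf (x : ι → Ω) : ℝ := ⨆ i, ‖S.inf (x i)‖

/-- `p`-adic local factor of a tuple -/
def locFin (p : Nat.Primes) (x : ι → Ω) : ℝ := ⨆ i, S.fin p (x i)

/-- the product of all local factors of a tuple -/
def locMul (x : ι → Ω) : ℝ := S.locInf x * ∏ᶠ p : Nat.Primes, S.locFin p x

theorem locInf_nonneg (x : ι → Ω) : 0 ≤ S.locInf x :=
  Real.iSup_nonneg fun _ => norm_nonneg _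

theorem locFin_nonneg (p : Nat.Primes) (x : ι → Ω) : 0 ≤ S.locFin p x :=
  Real.iSup_nonneg fun _ => by positivity

theorem locInf_smul [Finite ι] (c : Ω) (x : ι → Ω) :
    S.locInf (fun i => c * x i) = ‖S.inf c‖ * S.locInf x := by
  unfold locInf
  simp only [map_mul, norm_mul]
  rw [Real.mul_iSup_of_nonneg (norm_nonneg _)]

theorem locFin_smul [Finite ι] (p : Nat.Primes) (c : Ω) (x : ι → Ω) :
    S.locFin p (fun i => c * x i) = S.fin p c * S.locFin p x := by
  unfold locFin
  simp only [map_mul]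
  rw [Real.mul_iSup_of_nonneg (by positivity)]

end AbsSystem

section Arch

variable {K : Type*} [Field K] [NumberField K] {ι : Type*}

/-- The archimedean part of Mathlib's height as a product over complex embeddings. -/
theorem prod_infinitePlace_iSup_eq (x : ι → K) :
    ∏ w : InfinitePlace K, (⨆ i, w (x i)) ^ w.mult = ∏ φ : K →+* ℂ, ⨆ i, ‖φ (x i)‖ := by
  classical
  rw [← Finset.prod_fiberwise Finset.univ (fun φ : K →+* ℂ => InfinitePlace.mk φ)
    (fun φ => ⨆ i, ‖φ (x i)‖)]
  refine Finset.prod_congr rfl fun w _ => ?_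
  rw [← InfinitePlace.card_filter_mk_eq w, ← Finset.prod_const]
  refine Finset.prod_congr rfl fun φ hφ => ?_
  have hw : InfinitePlace.mk φ = w := (Finset.mem_filter.mp hφ).2
  simp only [← hw, InfinitePlace.apply]

variable {Ω : Type*} [Field Ω] [CharZero Ω] [IsAlgClosed Ω]

/-- Composition with an embedding `Ω →+* ℂ` is a bijection between the embeddings of `K` into
`Ω` and into `ℂ`. -/
theorem prod_embeddings_comp (ψ : Ω →+* ℂ) {M : Type*} [CommMonoid M] (g : (K →+* ℂ) → M) :
    ∏ τ : K →+* Ω, g (ψ.comp τ) = ∏ φ : K →+* ℂ, g φ := by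
  refine Fintype.prod_bijective (fun τ : K →+* Ω => ψ.comp τ) ?_ _ _ (fun _ => rfl)
  rw [Fintype.bijective_iff_injective_and_card]
  refine ⟨?_, ?_⟩
  · intro τ₁ τ₂ h
    ext a
    exact ψ.injective (RingHom.congr_fun h a)
  · rw [Embeddings.card K Ω, Embeddings.card K ℂ]

end Arch

section Main

variable {K : Type*} [Field K] [NumberField K]
variable {Ω : Type*} [Field Ω] [CharZero Ω] [IsAlgClosed Ω] (S : AbsSystem Ω)
variable {ι : Type*} [Finite ι]

/-- The height formula for integral tuples. -/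
theorem mulHeight_eq_prod_locMul_int (x : ι → 𝓞 K) (hx : x ≠ 0) :
    Height.mulHeight (fun i => (x i : K)) = ∏ τ : K →+* Ω, S.locMul (fun i => τ (x i : K)) := by
  have hx' : (fun i => (x i : K)) ≠ 0 := by
    intro h
    apply hx
    funext i
    have := congrFun h i
    simpa using this
  rw [NumberField.mulHeight_eq hx']
  have hfin := NumberField.absNorm_mul_finprod_finitePlace_eq_one hx
  have hn : ((Ideal.absNorm (Ideal.span (Set.range x)) : ℕ) : ℝ) ≠ 0 := by
    intro h
    rw [h, zero_mul] at hfin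
    exact zero_ne_one hfin
  have hfin' : ∏ᶠ v : FinitePlace K, ⨆ i, v (x i : K) =
      ((Ideal.absNorm (Ideal.span (Set.range x)) : ℕ) : ℝ)⁻¹ :=
    eq_inv_of_mul_eq_one_right hfin
  rw [hfin', prod_infinitePlace_iSup_eq]
  unfold AbsSystem.locMul
  rw [Finset.prod_mul_distrib]
  congr 1
  · exact (prod_embeddings_comp S.inf (fun φ : K →+* ℂ => ⨆ i, ‖φ (x i : K)‖)).symm
  · exact (prod_embeddings_finprod_iSup_eq S.fin S.nonarch S.fin_p x hx).symm

/-- Product formula for nonzero integers of `K` in embedding form. -/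
theorem prod_locMul_singleton_int {b : 𝓞 K} (hb : b ≠ 0) :
    ∏ τ : K →+* Ω, (‖S.inf (τ (b : K))‖ * ∏ᶠ p : Nat.Primes, S.fin p (τ (b : K))) = 1 := by
  have h := mulHeight_eq_prod_locMul_int S (fun _ : Unit => b)
    (by intro h; exact hb (congrFun h ()))
  rw [Height.mulHeight_eq_one_of_subsingleton] at h
  rw [h]
  refine Finset.prod_congr rfl fun τ _ => ?_
  unfold AbsSystem.locMul AbsSystem.locInf AbsSystem.locFin
  simp only [ciSup_unique]

/-- Clearing denominators of a finite tuple. -/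
theorem exists_integral_multiple (y : ι → K) (hy : y ≠ 0) :
    ∃ b : 𝓞 K, b ≠ 0 ∧ ∃ a : ι → 𝓞 K, a ≠ 0 ∧ ∀ i, (a i : K) = (b : K) * y i := by
  obtain ⟨b, hb⟩ := IsLocalization.exist_integer_multiples_of_finite (nonZeroDivisors (𝓞 K)) y
  have hb0 : (b : 𝓞 K) ≠ 0 := nonZeroDivisors.coe_ne_zero b
  choose a ha using hb
  refine ⟨b, hb0, a, ?_, ?_⟩
  · obtain ⟨i₀, hi₀⟩ := Function.ne_iff.mp hy
    intro h
    have h1 := ha i₀
    rw [h] at h1
    simp only [Pi.zero_apply, map_zero] at h1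
    rw [Algebra.smul_def] at h1
    rcases mul_eq_zero.mp h1.symm with h2 | h2
    · apply hb0
      have h3 : (((b : 𝓞 K) : 𝓞 K) : K) = 0 := h2
      exact_mod_cast h3
    · exact hi₀ h2
  · intro i
    have h1 := ha i
    rw [Algebra.smul_def] at h1
    exact h1

/-- For a tuple `y ≠ 0` over `K` and an embedding `τ`, the `p`-adic local factor of `τ ∘ y` is
`1` for almost all primes `p`. -/
theorem hasFiniteMulSupport_locFin (y : ι → K) (hy : y ≠ 0) (τ : K →+* Ω) :
    Function.HasFiniteMulSupport (fun p : Nat.Primes => S.locFin p (fun i => τ (y i))) := by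
  obtain ⟨b, hb0, a, ha0, hab⟩ := exists_integral_multiple y hy
  have h1 := hasFiniteMulSupport_iSup_abv S.fin S.nonarch S.fin_p a ha0 τ
  have h2 := hasFiniteMulSupport_abv_embedding S.fin S.nonarch S.fin_p hb0 τ
  have hτb : τ (b : K) ≠ 0 := by
    rw [Ne, map_eq_zero]
    exact_mod_cast hb0
  refine (h1.union h2).subset ?_
  intro p hp
  simp only [Function.mem_mulSupport, ne_eq, Set.mem_union] at hp ⊢
  by_contra hcon
  rw [not_or, not_not, not_not] at hcon
  apply hp
  have h3 : (⨆ i, S.fin p (τ (a i : K))) = S.fin p (τ (b : K)) * S.locFin p (fun i => τ (y i)) := by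
    rw [← AbsSystem.locFin_smul]
    unfold AbsSystem.locFin
    congr 1
    funext i
    rw [hab i, map_mul]
  rw [hcon.1, hcon.2, one_mul] at h3
  exact h3.symm

/-- **Mathlib's height on a number field as a product of local terms over all embeddings into
`Ω`.** -/
theorem mulHeight_eq_prod_locMul (y : ι → K) (hy : y ≠ 0) :
    Height.mulHeight y = ∏ τ : K →+* Ω, S.locMul (fun i => τ (y i)) := by
  obtain ⟨b, hb0, a, ha0, hab⟩ := exists_integral_multiple y hy
  have hbK : (b : K) ≠ 0 := by exact_mod_cast hb0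
  have h1 : Height.mulHeight y = Height.mulHeight (fun i => (a i : K)) := by
    rw [← Height.mulHeight_smul_eq_mulHeight y hbK]
    congr 1
    funext i
    rw [hab i]
    rfl
  rw [h1, mulHeight_eq_prod_locMul_int S a ha0]
  have h2 : ∀ τ : K →+* Ω, S.locMul (fun i => τ (a i : K)) =
      (‖S.inf (τ (b : K))‖ * ∏ᶠ p : Nat.Primes, S.fin p (τ (b : K))) *
        S.locMul (fun i => τ (y i)) := by
    intro τ
    have h3 : (fun i => τ (a i : K)) = fun i => τ (b : K) * τ (y i) := by
      funext i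
      rw [hab i, map_mul]
    rw [h3]
    unfold AbsSystem.locMul
    rw [AbsSystem.locInf_smul]
    have h4 : (fun p : Nat.Primes => S.locFin p (fun i => τ (b : K) * τ (y i))) =
        fun p => S.fin p (τ (b : K)) * S.locFin p (fun i => τ (y i)) := by
      funext p
      rw [AbsSystem.locFin_smul]
    rw [h4, finprod_mul_distrib
      (hasFiniteMulSupport_abv_embedding S.fin S.nonarch S.fin_p hb0 τ)
      (hasFiniteMulSupport_locFin S y hy τ)]
    ring
  rw [Finset.prod_congr rfl (fun τ _ => h2 τ), Finset.prod_mul_distrib,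
    prod_locMul_singleton_int S hb0, one_mul]

/-- Product formula in embedding form: for `c ≠ 0` in `K`. -/
theorem prod_locMul_singleton {c : K} (hc : c ≠ 0) :
    ∏ τ : K →+* Ω, (‖S.inf (τ c)‖ * ∏ᶠ p : Nat.Primes, S.fin p (τ c)) = 1 := by
  have h := mulHeight_eq_prod_locMul S (fun _ : Unit => c)
    (by intro h; exact hc (congrFun h ()))
  rw [Height.mulHeight_eq_one_of_subsingleton] at h
  rw [h]
  refine Finset.prod_congr rfl fun τ _ => ?_
  unfold AbsSystem.locMul AbsSystem.locInf AbsSystem.locFin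
  simp only [ciSup_unique]

omit [CharZero Ω] [IsAlgClosed Ω] in
theorem AbsSystem.locInf_pos (x : ι → Ω) (hx : x ≠ 0) : 0 < S.locInf x := by
  obtain ⟨i₀, hi₀⟩ := Function.ne_iff.mp hx
  have hbdd : BddAbove (Set.range fun i => ‖S.inf (x i)‖) := Set.finite_range _ |>.bddAbove
  have h1 : 0 < ‖S.inf (x i₀)‖ := by
    rw [norm_pos_iff, Ne, map_eq_zero]
    exact hi₀
  exact lt_of_lt_of_le h1 (le_ciSup hbdd i₀)

omit [CharZero Ω] [IsAlgClosed Ω] in
theorem AbsSystem.locFin_pos (p : Nat.Primes) (x : ι → Ω) (hx : x ≠ 0) : 0 < S.locFin p x := by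
  obtain ⟨i₀, hi₀⟩ := Function.ne_iff.mp hx
  have hbdd : BddAbove (Set.range fun i => S.fin p (x i)) := Set.finite_range _ |>.bddAbove
  have h1 : 0 < S.fin p (x i₀) := (S.fin p).pos hi₀
  exact lt_of_lt_of_le h1 (le_ciSup hbdd i₀)

omit [CharZero Ω] [IsAlgClosed Ω] in
theorem AbsSystem.finprod_locFin_pos (x : ι → Ω) (hx : x ≠ 0) :
    0 < ∏ᶠ p : Nat.Primes, S.locFin p x :=
  finprod_induction (fun r : ℝ => 0 < r) one_pos (fun _ _ ha hb => mul_pos ha hb)
    (fun p => S.locFin_pos p x hx)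

omit [CharZero Ω] [IsAlgClosed Ω] in
theorem AbsSystem.locMul_pos (x : ι → Ω) (hx : x ≠ 0) : 0 < S.locMul x :=
  mul_pos (S.locInf_pos x hx) (S.finprod_locFin_pos x hx)

/-- the sum of all logarithmic local factors of a tuple -/
def AbsSystem.locLog {ι : Type*} (S : AbsSystem Ω) (x : ι → Ω) : ℝ :=
  Real.log (S.locInf x) + ∑ᶠ p : Nat.Primes, Real.log (S.locFin p x)

omit [NumberField K] [CharZero Ω] [IsAlgClosed Ω] [Finite ι] in
theorem comp_ne_zero (τ : K →+* Ω) {y : ι → K} (hy : y ≠ 0) : (fun i => τ (y i)) ≠ 0 := by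
  obtain ⟨i₀, hi₀⟩ := Function.ne_iff.mp hy
  intro h
  have := congrFun h i₀
  simp only [Pi.zero_apply, map_eq_zero] at this
  exact hi₀ this

omit [CharZero Ω] [IsAlgClosed Ω] in
theorem AbsSystem.log_locMul_eq (x : ι → Ω) (hx : x ≠ 0)
    (hfs : Function.HasFiniteMulSupport (fun p : Nat.Primes => S.locFin p x)) :
    Real.log (S.locMul x) = S.locLog x := by
  unfold AbsSystem.locMul AbsSystem.locLog
  rw [Real.log_mul (S.locInf_pos x hx).ne' (S.finprod_locFin_pos x hx).ne']
  congr 1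
  have hfs' : (Function.mulSupport (fun p : Nat.Primes => S.locFin p x)).Finite := hfs
  have hsub : Function.mulSupport (fun p : Nat.Primes => S.locFin p x) ⊆
      ((Set.Finite.toFinset hfs' : Finset Nat.Primes) : Set Nat.Primes) := by
    intro p hp
    rw [Set.Finite.coe_toFinset]
    exact hp
  have hsub' : Function.support (fun p : Nat.Primes => Real.log (S.locFin p x)) ⊆
      ((Set.Finite.toFinset hfs' : Finset Nat.Primes) : Set Nat.Primes) := by
    intro p hp
    rw [Set.Finite.coe_toFinset]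
    simp only [Function.mem_support, ne_eq] at hp
    simp only [Function.mem_mulSupport, ne_eq]
    intro h1
    apply hp
    rw [h1, Real.log_one]
  rw [finprod_eq_prod_of_mulSupport_subset _ hsub, finsum_eq_sum_of_support_subset _ hsub',
    Real.log_prod]
  intro p _
  exact (S.locFin_pos p x hx).ne'

/-- Logarithmic version of `mulHeight_eq_prod_locMul`. -/
theorem logHeight_eq_sum_log_locMul (y : ι → K) (hy : y ≠ 0) :
    Height.logHeight y = ∑ τ : K →+* Ω, Real.log (S.locMul (fun i => τ (y i))) := by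
  rw [Height.logHeight_eq_log_mulHeight, mulHeight_eq_prod_locMul S y hy, Real.log_prod]
  intro τ _
  exact (S.locMul_pos _ (comp_ne_zero τ hy)).ne'

/-- **Mathlib's logarithmic height as a sum of logarithmic local terms** over all embeddings
`τ : K →+* Ω` and all places of `ℚ`. -/
theorem logHeight_eq_sum_locLog (y : ι → K) (hy : y ≠ 0) :
    Height.logHeight y = ∑ τ : K →+* Ω, S.locLog (fun i => τ (y i)) := by
  rw [logHeight_eq_sum_log_locMul S y hy]
  refine Finset.sum_congr rfl fun τ _ => ?_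
  exact S.log_locMul_eq _ (comp_ne_zero τ hy) (hasFiniteMulSupport_locFin S y hy τ)

end Main

end Fermat.Agent.S17.H830

end
end
-- ===== PACK-END S17/H830/AbsGlobal.lean

-- ===== PACK-BEGIN S17/H380/LocalGlobal.lean
section



set_option linter.unusedSectionVars false
set_option linter.style.haveILetI false

namespace Fermat.Agent.S17.H380

open NumberField Height Module IntermediateField Fermat.Agent.S17.H830

section LG

variable {Ω : Type*} [Field Ω] [CharZero Ω] [IsAlgClosed Ω] [Algebra.IsAlgebraic ℚ Ω]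
variable (S : AbsSystem Ω)

/-- Every embedding of a subfield of `Ω` into `Ω` extends to a ring endomorphism of `Ω`. -/
theorem exists_ringHom_extension (F : IntermediateField ℚ Ω) (τ : F →+* Ω) :
    ∃ σ : Ω →+* Ω, ∀ x : F, σ x = τ x := by
  obtain ⟨φ, hφ⟩ := IntermediateField.exists_algHom_of_splits (F := ℚ) (E := Ω) (K := Ω)
    (fun s => ⟨Algebra.IsIntegral.isIntegral s, IsAlgClosed.splits _⟩) (L := F) τ.toRatAlgHom
  refine ⟨φ, fun x => ?_⟩
  have := DFunLike.congr_fun hφ x
  exact this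

/-- a chosen extension -/
noncomputable def extHom (F : IntermediateField ℚ Ω) (τ : F →+* Ω) : Ω →+* Ω :=
  (exists_ringHom_extension F τ).choose

theorem extHom_apply (F : IntermediateField ℚ Ω) (τ : F →+* Ω) (x : F) :
    extHom F τ x = τ x := (exists_ringHom_extension F τ).choose_spec x

variable {ι : Type*} [Finite ι]

/-- The absolute height as an average over embeddings of sums of local terms. -/
theorem absLogHeight_eq_sum_locLog (F : IntermediateField ℚ Ω) [NumberField F] (y : ι → Ω)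
    (hy : y ≠ 0) (hmem : ∀ i, y i ∈ F) :
    absLogHeight y = (finrank ℚ F : ℝ)⁻¹ *
      ∑ τ : F →+* Ω, S.locLog (fun i => extHom F τ (y i)) := by
  rw [absLogHeight_of_mem F y hmem]
  congr 1
  have hy' : (fun i => (⟨y i, hmem i⟩ : F)) ≠ 0 := by
    obtain ⟨i, hi⟩ := Function.ne_iff.mp hy
    exact Function.ne_iff.mpr ⟨i, fun h => hi (congrArg Subtype.val h)⟩
  rw [logHeight_eq_sum_locLog S _ hy']
  refine Finset.sum_congr rfl fun τ _ => ?_
  congr 1
  funext i
  exact (extHom_apply F τ ⟨y i, hmem i⟩).symm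


/-! ### From uniform local bounds to global bounds for absolute heights -/

omit [CharZero Ω] [IsAlgClosed Ω] [Algebra.IsAlgebraic ℚ Ω] in
theorem abs_log_eq_log_max_add (v : AbsoluteValue Ω ℝ) {t : Ω} (ht : t ≠ 0) :
    |Real.log (v t)| = Real.log (⨆ i, v ((![t, 1] : Fin 2 → Ω) i)) +
      Real.log (⨆ i, v ((![t⁻¹, 1] : Fin 2 → Ω) i)) := by
  have hpos : 0 < v t := v.pos ht
  have h1 : (⨆ i, v ((![t, 1] : Fin 2 → Ω) i)) = max (v t) 1 := by
    refine le_antisymm (ciSup_le fun i => ?_) (max_le ?_ ?_)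
    · fin_cases i <;> simp
    · exact Finite.le_ciSup_of_le (0 : Fin 2) (by simp)
    · exact Finite.le_ciSup_of_le (1 : Fin 2) (by simp)
  have h2 : (⨆ i, v ((![t⁻¹, 1] : Fin 2 → Ω) i)) = max (v t)⁻¹ 1 := by
    refine le_antisymm (ciSup_le fun i => ?_) (max_le ?_ ?_)
    · fin_cases i <;> simp
    · exact Finite.le_ciSup_of_le (0 : Fin 2) (by simp)
    · exact Finite.le_ciSup_of_le (1 : Fin 2) (by simp)
  rw [h1, h2]
  rcases le_total (v t) 1 with h | h
  · have hinv : 1 ≤ (v t)⁻¹ := (one_le_inv₀ hpos).mpr h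
    rw [max_eq_right h, max_eq_left hinv, Real.log_one, zero_add, Real.log_inv,
      abs_of_nonpos (Real.log_nonpos hpos.le h)]
  · have hinv : (v t)⁻¹ ≤ 1 := inv_le_one_of_one_le₀ h
    rw [max_eq_left h, max_eq_right hinv, Real.log_one, add_zero,
      abs_of_nonneg (Real.log_nonneg h)]

/-- The archimedean absolute value of the system, twisted by a ring endomorphism. -/
noncomputable def twInf (σ : Ω →+* Ω) : AbsoluteValue Ω ℝ :=
  (NormedField.toAbsoluteValue ℂ).comp (f := S.inf.comp σ) (RingHom.injective _)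

/-- The `p`-adic absolute value of the system, twisted by a ring endomorphism. -/
noncomputable def twFin (σ : Ω →+* Ω) (p : Nat.Primes) : AbsoluteValue Ω ℝ :=
  (S.fin p).comp (f := σ) σ.injective

omit [CharZero Ω] [IsAlgClosed Ω] [Algebra.IsAlgebraic ℚ Ω] in
theorem twInf_apply (σ : Ω →+* Ω) (x : Ω) : twInf S σ x = ‖S.inf (σ x)‖ := rfl

omit [CharZero Ω] [IsAlgClosed Ω] [Algebra.IsAlgebraic ℚ Ω] in
theorem twFin_apply (σ : Ω →+* Ω) (p : Nat.Primes) (x : Ω) : twFin S σ p x = S.fin p (σ x) := rfl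

omit [CharZero Ω] [IsAlgClosed Ω] [Algebra.IsAlgebraic ℚ Ω] in
theorem twFin_isNonarchimedean (σ : Ω →+* Ω) (p : Nat.Primes) :
    IsNonarchimedean (twFin S σ p) := by
  intro x y
  simp only [twFin_apply, map_add]
  exact S.nonarch p _ _

/-- The class of absolute values for which local bounds are assumed: nonarchimedean ones and
those induced by a complex embedding (same as `HWall.IsGoodAbs`). -/
def IsGoodAbsV (v : AbsoluteValue Ω ℝ) : Prop :=
  IsNonarchimedean v ∨ ∃ φ : Ω →+* ℂ, ∀ c : Ω, v c = ‖φ c‖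

open Classical in
/-- The shape of the local constants (same as `HWall.bnd`). -/
noncomputable def bndV (v : AbsoluteValue Ω ℝ) (T : Finset Ω) (N : ℝ) : ℝ :=
  (if IsNonarchimedean v then 0 else N) + ∑ c ∈ T, |Real.log (v c)|

omit [CharZero Ω] [IsAlgClosed Ω] [Algebra.IsAlgebraic ℚ Ω] in
/-- `locLog` of a twisted tuple as a finite sum of local terms. -/
theorem locLog_comp_eq (σ : Ω →+* Ω) (P₀ : Finset Nat.Primes) {ι' : Type*} (z : ι' → Ω)
    (hz : ∀ p ∉ P₀, S.locFin p (fun i => σ (z i)) = 1) :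
    S.locLog (fun i => σ (z i)) = Real.log (⨆ i, twInf S σ (z i)) +
      ∑ p ∈ P₀, Real.log (⨆ i, twFin S σ p (z i)) := by
  unfold AbsSystem.locLog
  congr 1
  rw [finsum_eq_sum_of_support_subset]
  · rfl
  · intro p hp
    by_contra hcon
    simp only [Function.mem_support, ne_eq] at hp
    apply hp
    rw [hz p (by simpa using hcon), Real.log_one]

section PerSigma

variable {κ : Type*} [Fintype κ] {ι : κ → Type*} [∀ k, Finite (ι k)]

omit [CharZero Ω] [IsAlgClosed Ω] [Algebra.IsAlgebraic ℚ Ω] in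
/-- The local-to-global estimate for one extension `σ`. -/
theorem abs_sum_locLog_le (σ : Ω →+* Ω) (y : (k : κ) → ι k → Ω) (c : κ → ℝ) (T : Finset Ω)
    (hT : ∀ t ∈ T, t ≠ 0) (N : ℝ) (P₀ : Finset Nat.Primes)
    (hP : ∀ k, ∀ p ∉ P₀, S.locFin p (fun i => σ (y k i)) = 1)
    (hPT : ∀ t ∈ T, ∀ p ∉ P₀, S.fin p (σ t) = 1)
    (hloc : ∀ v : AbsoluteValue Ω ℝ, IsGoodAbsV v →
      |∑ k, c k * Real.log (⨆ i, v (y k i))| ≤ bndV v T N) :
    |∑ k, c k * S.locLog (fun i => σ (y k i))| ≤
      max N 0 + ∑ t ∈ T, (S.locLog (fun i => σ ((![t, 1] : Fin 2 → Ω) i)) +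
        S.locLog (fun i => σ ((![t⁻¹, 1] : Fin 2 → Ω) i))) := by
  classical
  have hT1 : ∀ t ∈ T, ∀ p ∉ P₀, S.locFin p (fun i => σ ((![t, 1] : Fin 2 → Ω) i)) = 1 := by
    intro t ht p hp
    unfold AbsSystem.locFin
    refine le_antisymm (ciSup_le fun i => ?_) (Finite.le_ciSup_of_le (1 : Fin 2) (by simp))
    fin_cases i
    · simp [hPT t ht p hp]
    · simp
  have hT2 : ∀ t ∈ T, ∀ p ∉ P₀, S.locFin p (fun i => σ ((![t⁻¹, 1] : Fin 2 → Ω) i)) = 1 := by
    intro t ht p hp
    unfold AbsSystem.locFin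
    refine le_antisymm (ciSup_le fun i => ?_) (Finite.le_ciSup_of_le (1 : Fin 2) (by simp))
    fin_cases i
    · simp [hPT t ht p hp]
    · simp
  -- left hand side
  have hL : ∑ k, c k * S.locLog (fun i => σ (y k i)) =
      ∑ k, c k * Real.log (⨆ i, twInf S σ (y k i)) +
        ∑ p ∈ P₀, ∑ k, c k * Real.log (⨆ i, twFin S σ p (y k i)) := by
    rw [Finset.sum_comm, ← Finset.sum_add_distrib]
    refine Finset.sum_congr rfl fun k _ => ?_
    rw [locLog_comp_eq S σ P₀ (y k) (hP k), mul_add, Finset.mul_sum]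
  -- right hand side
  have hR : ∑ t ∈ T, (S.locLog (fun i => σ ((![t, 1] : Fin 2 → Ω) i)) +
        S.locLog (fun i => σ ((![t⁻¹, 1] : Fin 2 → Ω) i))) =
      ∑ t ∈ T, |Real.log (twInf S σ t)| + ∑ p ∈ P₀, ∑ t ∈ T, |Real.log (twFin S σ p t)| := by
    rw [Finset.sum_comm, ← Finset.sum_add_distrib]
    refine Finset.sum_congr rfl fun t ht => ?_
    rw [locLog_comp_eq S σ P₀ _ (hT1 t ht), locLog_comp_eq S σ P₀ _ (hT2 t ht),
      abs_log_eq_log_max_add _ (hT t ht),
      Finset.sum_congr rfl (fun p _ => abs_log_eq_log_max_add (twFin S σ p) (hT t ht)),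
      Finset.sum_add_distrib]
    ring
  rw [hL, hR]
  -- the local bounds
  have hinf : |∑ k, c k * Real.log (⨆ i, twInf S σ (y k i))| ≤
      max N 0 + ∑ t ∈ T, |Real.log (twInf S σ t)| := by
    refine (hloc (twInf S σ) (Or.inr ⟨S.inf.comp σ, fun _ => rfl⟩)).trans ?_
    unfold bndV
    gcongr
    split_ifs
    · exact le_max_right _ _
    · exact le_max_left _ _
  have hfin : ∀ p ∈ P₀, |∑ k, c k * Real.log (⨆ i, twFin S σ p (y k i))| ≤
      ∑ t ∈ T, |Real.log (twFin S σ p t)| := by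
    intro p _
    refine (hloc (twFin S σ p) (Or.inl (twFin_isNonarchimedean S σ p))).trans ?_
    unfold bndV
    rw [if_pos (twFin_isNonarchimedean S σ p), zero_add]
  calc |∑ k, c k * Real.log (⨆ i, twInf S σ (y k i)) +
        ∑ p ∈ P₀, ∑ k, c k * Real.log (⨆ i, twFin S σ p (y k i))|
      ≤ |∑ k, c k * Real.log (⨆ i, twInf S σ (y k i))| +
        |∑ p ∈ P₀, ∑ k, c k * Real.log (⨆ i, twFin S σ p (y k i))| := abs_add_le _ _
    _ ≤ (max N 0 + ∑ t ∈ T, |Real.log (twInf S σ t)|) +
        ∑ p ∈ P₀, ∑ t ∈ T, |Real.log (twFin S σ p t)| := by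
      refine add_le_add hinf ?_
      exact (Finset.abs_sum_le_sum_abs _ _).trans (Finset.sum_le_sum hfin)
    _ = max N 0 + (∑ t ∈ T, |Real.log (twInf S σ t)| +
        ∑ p ∈ P₀, ∑ t ∈ T, |Real.log (twFin S σ p t)|) := by ring

end PerSigma


section Global

variable {κ : Type*} [Fintype κ] {ι : κ → Type*} [∀ k, Finite (ι k)]

omit [CharZero Ω] [IsAlgClosed Ω] [Algebra.IsAlgebraic ℚ Ω] in
theorem vec_one_ne_zero (t : Ω) : (![t, 1] : Fin 2 → Ω) ≠ 0 :=
  Function.ne_iff.mpr ⟨1, by simp⟩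

include S in
/-- **Local-to-global principle for absolute heights.**  Let `y k` be finitely many nonzero
tuples over `Ω = ℚ̄` and `c k` real coefficients.  If the local expression
`∑ k, c k * log (sup_i v (y k i))` is bounded by `[v archimedean] * N + ∑_{t ∈ T} |log v t|`
for EVERY absolute value `v` of `Ω` which is nonarchimedean or induced by a complex embedding,
then `|∑ k, c k * absLogHeight (y k)| ≤ max N 0 + ∑_{t ∈ T} (h(t) + h(t⁻¹))`. -/
theorem abs_sum_absLogHeight_le (y : (k : κ) → ι k → Ω) (hy : ∀ k, y k ≠ 0) (c : κ → ℝ)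
    (T : Finset Ω) (hT : ∀ t ∈ T, t ≠ 0) (N : ℝ)
    (hloc : ∀ v : AbsoluteValue Ω ℝ, IsGoodAbsV v →
      |∑ k, c k * Real.log (⨆ i, v (y k i))| ≤ bndV v T N) :
    |∑ k, c k * absLogHeight (y k)| ≤
      max N 0 + ∑ t ∈ T, (absLogHeight (![t, 1] : Fin 2 → Ω) +
        absLogHeight (![t⁻¹, 1] : Fin 2 → Ω)) := by
  classical
  -- a number field containing everything
  let u : ((Σ k, ι k) ⊕ T) → Ω := Sum.elim (fun s => y s.1 s.2) (fun t => t.1)
  have hu : ∀ j, IsIntegral ℚ (u j) := fun j => Algebra.IsIntegral.isIntegral _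
  haveI := tupleField_numberField u hu
  set F := tupleField u with hF
  have hmy : ∀ k i, y k i ∈ F := fun k i => subset_adjoin ℚ _ ⟨Sum.inl ⟨k, i⟩, rfl⟩
  have hmt : ∀ t ∈ T, t ∈ F := fun t ht => subset_adjoin ℚ _ ⟨Sum.inr ⟨t, ht⟩, rfl⟩
  have hm1 : ∀ t ∈ T, ∀ i, (![t, 1] : Fin 2 → Ω) i ∈ F := by
    intro t ht i
    fin_cases i
    · exact hmt t ht
    · exact F.one_mem
  have hm2 : ∀ t ∈ T, ∀ i, (![t⁻¹, 1] : Fin 2 → Ω) i ∈ F := by
    intro t ht i
    fin_cases i
    · exact F.inv_mem (hmt t ht)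
    · exact F.one_mem
  have hD : (0 : ℝ) < finrank ℚ F := by exact_mod_cast Module.finrank_pos
  -- heights as averages
  have hyk : ∀ k, absLogHeight (y k) = (finrank ℚ F : ℝ)⁻¹ *
      ∑ τ : F →+* Ω, S.locLog (fun i => extHom F τ (y k i)) :=
    fun k => absLogHeight_eq_sum_locLog S F (y k) (hy k) (hmy k)
  have ht1 : ∀ t ∈ T, absLogHeight (![t, 1] : Fin 2 → Ω) = (finrank ℚ F : ℝ)⁻¹ *
      ∑ τ : F →+* Ω, S.locLog (fun i => extHom F τ ((![t, 1] : Fin 2 → Ω) i)) :=
    fun t ht => absLogHeight_eq_sum_locLog S F _ (vec_one_ne_zero t) (hm1 t ht)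
  have ht2 : ∀ t ∈ T, absLogHeight (![t⁻¹, 1] : Fin 2 → Ω) = (finrank ℚ F : ℝ)⁻¹ *
      ∑ τ : F →+* Ω, S.locLog (fun i => extHom F τ ((![t⁻¹, 1] : Fin 2 → Ω) i)) :=
    fun t ht => absLogHeight_eq_sum_locLog S F _ (vec_one_ne_zero t⁻¹) (hm2 t ht)
  -- the estimate for each embedding
  have hτ : ∀ τ : F →+* Ω, |∑ k, c k * S.locLog (fun i => extHom F τ (y k i))| ≤
      max N 0 + ∑ t ∈ T, (S.locLog (fun i => extHom F τ ((![t, 1] : Fin 2 → Ω) i)) +
        S.locLog (fun i => extHom F τ ((![t⁻¹, 1] : Fin 2 → Ω) i))) := by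
    intro τ
    -- finite set of primes
    have hfy : ∀ k, (Function.mulSupport
        (fun p : Nat.Primes => S.locFin p (fun i => extHom F τ (y k i)))).Finite := by
      intro k
      have hy' : (fun i => (⟨y k i, hmy k i⟩ : F)) ≠ 0 := by
        obtain ⟨i, hi⟩ := Function.ne_iff.mp (hy k)
        exact Function.ne_iff.mpr ⟨i, fun h => hi (congrArg Subtype.val h)⟩
      have := hasFiniteMulSupport_locFin S (fun i => (⟨y k i, hmy k i⟩ : F)) hy' τ
      have heq : (fun i => τ (⟨y k i, hmy k i⟩ : F)) = fun i => extHom F τ (y k i) := by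
        funext i
        exact (extHom_apply F τ ⟨y k i, hmy k i⟩).symm
      rw [heq] at this
      exact this
    have hft : ∀ t : T, (Function.mulSupport
        (fun p : Nat.Primes => S.fin p (extHom F τ t.1))).Finite := by
      intro t
      have ht0 : (fun _ : Unit => (⟨t.1, hmt t.1 t.2⟩ : F)) ≠ 0 := by
        intro h
        have := congrFun h ()
        exact hT t.1 t.2 (congrArg Subtype.val this)
      have := hasFiniteMulSupport_locFin S (fun _ : Unit => (⟨t.1, hmt t.1 t.2⟩ : F)) ht0 τ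
      have heq : (fun p : Nat.Primes => S.locFin p (fun _ : Unit => τ (⟨t.1, hmt t.1 t.2⟩ : F)))
          = fun p : Nat.Primes => S.fin p (extHom F τ t.1) := by
        funext p
        unfold AbsSystem.locFin
        rw [ciSup_const, extHom_apply F τ ⟨t.1, hmt t.1 t.2⟩]
      rw [heq] at this
      exact this
    let P₀ : Finset Nat.Primes :=
      (Finset.univ.biUnion fun k => (hfy k).toFinset) ∪
        (Finset.univ.biUnion fun t : T => (hft t).toFinset)
    refine abs_sum_locLog_le S (extHom F τ) y c T hT N P₀ ?_ ?_ hloc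
    · intro k p hp
      by_contra hne
      apply hp
      refine Finset.mem_union_left _ (Finset.mem_biUnion.mpr ⟨k, Finset.mem_univ _, ?_⟩)
      rw [Set.Finite.mem_toFinset]
      exact hne
    · intro t ht p hp
      by_contra hne
      apply hp
      refine Finset.mem_union_right _ (Finset.mem_biUnion.mpr ⟨⟨t, ht⟩, Finset.mem_univ _, ?_⟩)
      rw [Set.Finite.mem_toFinset]
      exact hne
  -- assemble
  have hcard : (Fintype.card (F →+* Ω) : ℝ) = finrank ℚ F := by
    exact_mod_cast NumberField.Embeddings.card F Ω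
  have hLHS : ∑ k, c k * absLogHeight (y k) = (finrank ℚ F : ℝ)⁻¹ *
      ∑ τ : F →+* Ω, ∑ k, c k * S.locLog (fun i => extHom F τ (y k i)) := by
    rw [Finset.sum_comm, Finset.mul_sum]
    refine Finset.sum_congr rfl fun k _ => ?_
    rw [hyk k, Finset.mul_sum, Finset.mul_sum, Finset.mul_sum]
    refine Finset.sum_congr rfl fun τ _ => ?_
    ring
  have hRHS : max N 0 + ∑ t ∈ T, (absLogHeight (![t, 1] : Fin 2 → Ω) +
        absLogHeight (![t⁻¹, 1] : Fin 2 → Ω)) = (finrank ℚ F : ℝ)⁻¹ *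
      ∑ τ : F →+* Ω, (max N 0 +
        ∑ t ∈ T, (S.locLog (fun i => extHom F τ ((![t, 1] : Fin 2 → Ω) i)) +
          S.locLog (fun i => extHom F τ ((![t⁻¹, 1] : Fin 2 → Ω) i)))) := by
    have e1 : ∑ τ : F →+* Ω, (max N 0 +
        ∑ t ∈ T, (S.locLog (fun i => extHom F τ ((![t, 1] : Fin 2 → Ω) i)) +
          S.locLog (fun i => extHom F τ ((![t⁻¹, 1] : Fin 2 → Ω) i)))) =
        (finrank ℚ F : ℝ) * max N 0 + ∑ t ∈ T, ∑ τ : F →+* Ω,
          (S.locLog (fun i => extHom F τ ((![t, 1] : Fin 2 → Ω) i)) +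
            S.locLog (fun i => extHom F τ ((![t⁻¹, 1] : Fin 2 → Ω) i))) := by
      rw [Finset.sum_add_distrib, Finset.sum_const, Finset.card_univ, nsmul_eq_mul, hcard,
        Finset.sum_comm]
    rw [e1, mul_add, ← mul_assoc, inv_mul_cancel₀ hD.ne', one_mul, Finset.mul_sum]
    congr 1
    refine Finset.sum_congr rfl fun t ht => ?_
    rw [ht1 t ht, ht2 t ht, ← mul_add, ← Finset.sum_add_distrib]
  rw [hLHS, hRHS, abs_mul, abs_of_pos (inv_pos.mpr hD)]
  refine mul_le_mul_of_nonneg_left ?_ (inv_pos.mpr hD).le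
  exact (Finset.abs_sum_le_sum_abs _ _).trans (Finset.sum_le_sum fun τ _ => hτ τ)

end Global

end LG

end Fermat.Agent.S17.H380

end
-- ===== PACK-END S17/H380/LocalGlobal.lean

-- ===== PACK-BEGIN S10.lean
section








set_option autoImplicit false
open WeierstrassCurve WeierstrassCurve.Affine WeierstrassCurve.Affine.Point
open CuspForm ModularFormClass UpperHalfPlane
open FreyPackage

namespace Fermat.Agent.S10

open NumberField



set_option backward.isDefEq.respectTransparency false in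
/-- Fermat's Last Theorem for exponent `5`. -/
theorem flt_five : FermatLastTheoremFor 5 := by
  have hp : Fact (Nat.Prime 5) := ⟨by norm_num⟩
  have : NumberField (CyclotomicField 5 ℚ) := IsCyclotomicExtension.numberField {5} ℚ _
  refine flt_of_kummer 5 (by norm_num) (fun a b c hab h ↦ caseI_five_of_isCoprime hab h)
    (CyclotomicField 5 ℚ) (IsCyclotomicExtension.Rat.five_pid _) ?_
  intro u hu
  exact Kummer.kummer_five _ u (by simpa using hu)

set_option backward.isDefEq.respectTransparency false in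
/-- Fermat's Last Theorem for exponent `7`. -/
theorem flt_seven : FermatLastTheoremFor 7 := by
  have hp : Fact (Nat.Prime 7) := ⟨by norm_num⟩
  have : NumberField (CyclotomicField 7 ℚ) := IsCyclotomicExtension.numberField {7} ℚ _
  refine flt_of_kummer 7 (by norm_num) (fun a b c hab h ↦ caseI_seven_of_isCoprime hab h)
    (CyclotomicField 7 ℚ) (R378.seven_pid _) ?_
  intro u hu
  exact Kummer.kummer_seven _ u (by simpa using hu)

set_option backward.isDefEq.respectTransparency false in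
/-- Fermat's Last Theorem for exponent `13`. -/
theorem flt_thirteen : FermatLastTheoremFor 13 := by
  have hp : Fact (Nat.Prime 13) := ⟨by norm_num⟩
  have : NumberField (CyclotomicField 13 ℚ) := IsCyclotomicExtension.numberField {13} ℚ _
  refine flt_of_kummer 13 (by norm_num) (fun a b c hab h ↦ caseI_thirteen_of_isCoprime hab h)
    (CyclotomicField 13 ℚ) (thirteen_pid_h430 _) ?_
  intro u hu
  exact Kummer.kummer_thirteen _ u (by simpa using hu)

theorem result (P : FreyPackage) (hp : P.p = 5 ∨ P.p = 7 ∨ P.p = 13) : ¬ HasGaloisStableCofixedLine (K := AlgebraicClosure ℚ) ℚ P.freyCurve P.p :=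
  result_of_flt flt_five flt_seven flt_thirteen P hp

end Fermat.Agent.S10

end
-- ===== PACK-END S10.lean

-- ===== PACK-BEGIN G1/X/Spec.lean
section



/-!
# Row GLUE, G1 block X (twist exclusion) — frozen interfaces  (acting architect helper60)

Target: `Fermat.Agent.Glue.TwistExclStatement` (board v1.2 of helper120, neat levels).

Route (memos of helper899, helper299, helper483, helper59, helper599, helper61): the twisted system
`χ₋₃(ℓ) a_ℓ(W)` is the system of the HONEST curve `W'` = quadratic twist of `W` by `-3`, so every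
landed `W`-form tool applies to `W'` (they need `Δ ≠ 0`, `p` odd, `W'[3]` irreducible, NOT
semistability).  At a level `N` with `2 ∣ N`, `9 ∤ N` the modular side shows that `W'[3]` is
FLAT at `3` or `ω`-ORDINARY at `3`; the local side shows that both are impossible when `W` is
semistable with `W[3]^{I₃} = 0`.

    TwistCurveStatement (TWC) ─┐
    ModSideStatement    (MOD) ─┤        MOD ⇐ ModFlatStatement + ModThreeStatement
    LocalExclStatement  (LOC) ─┼─→ Glue.TwistExclStatement        (`X/Top.lean`, proved)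
    OrdExclStatement    (ORD) ─┘        LOC ⇐ LocWStatement + FlatTwistStatement
                                        ORD ⇐ landed NMT-W + Places (closed in `X/Closed.lean`)

Definitions only (no `sorry`).
-/

set_option autoImplicit false

open scoped WeierstrassCurve.Affine

namespace Fermat.Agent.G1.X

/-- The absolute Galois group of `ℚ`. -/
abbrev GQ : Type := AlgebraicClosure ℚ ≃ₐ[ℚ] AlgebraicClosure ℚ

/-- `W[3]`, the `3`-torsion of `W_ℚ` over `ℚ̄` (the carrier used by the frozen S50). -/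
abbrev T3 (W : WeierstrassCurve ℤ) : Type :=
  Submodule.torsionBy ℤ ((W.map (Int.castRingHom ℚ))⁄(AlgebraicClosure ℚ)).Point (3 : ℕ)

/-- `σ` acts on the cube roots of unity as the `c`-th power (`c = ω(σ)`; this is
`Ribet.H944.Wall.CycloAt 3 σ c`, unfolded). -/
def Cyclo3 (σ : GQ) (c : ℕ) : Prop :=
  ∀ ζ : AlgebraicClosure ℚ, ζ ^ 3 = 1 → σ ζ = ζ ^ c

/-- `W'[3] ≅ W[3] ⊗ ω`: an additive bijection `T : W[3] → W'[3]` with
`T (σ x) = ω(σ) · σ (T x)`. -/
def IsOmegaTwist3 (W W' : WeierstrassCurve ℤ) : Prop :=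
  ∃ T : T3 W ≃+ T3 W', ∀ (σ : GQ) (c : ℕ), Cyclo3 σ c →
    ∀ x : T3 W, T (σ • x) = c • (σ • T x)

/-- `W'[3]` is FLAT at `3`: it carries a Hopf lattice over `ℤ_(3)` (`S19.H435.IsHopfLattice`,
the carrier of the landed toolkit S19 / S56 FLAT-O / S59 ResFlat). -/
def FlatAt3 (W' : WeierstrassCurve ℤ) : Prop :=
  ∃ Λ : Subalgebra (Fermat.Agent.S19.H435.Zl 3) (T3 W' → Fermat.Agent.S19.H435.Qb),
    Fermat.Agent.S19.H435.IsHopfLattice 3 (fun (σ : GQ) (x : T3 W') => σ • x) Λ

/-- `W'[3]` is `ω`-ORDINARY at `3`: for every place `A` over `3`, inertia acts through `ω` on all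
the elements `σ x - x` (`σ ∈ I_A`), i.e. `I_A` acts by `ω` on a subgroup `L` and trivially on
`W'[3] / L`.  (Shape of the `3`-new forms of level `3 M'`: landed (S1) + (S2) at READY levels.) -/
def OmegaOrdAt3 (W' : WeierstrassCurve ℤ) : Prop :=
  ∀ A : ValuationSubring (AlgebraicClosure ℚ), A.LiesOverPrime 3 →
    ∀ σ ∈ A.inertiaSubgroupIn ℚ, ∀ τ ∈ A.inertiaSubgroupIn ℚ, ∀ c : ℕ, Cyclo3 τ c →
      ∀ x : T3 W', τ • (σ • x - x) = c • (σ • x - x)

/-- **(TWC) the twisted curve.**  For `W` with `Δ ≠ 0` and `W[3]` irreducible there is an integral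
curve `W'` (the twist by `-3`: `⟨0, -3 b₂, 0, 72 b₄, -432 b₆⟩`) with `Δ ≠ 0`, `W'[3]` irreducible,
`W'[3] ≅ W[3] ⊗ ω`, whose system is the twisted system of `W`. -/
def TwistCurveStatement : Prop :=
  ∀ (W : WeierstrassCurve ℤ), W.Δ ≠ 0 → W.ModRepIsIrreducible 3 →
    ∃ W' : WeierstrassCurve ℤ, W'.Δ ≠ 0 ∧ W'.ModRepIsIrreducible 3 ∧ IsOmegaTwist3 W W' ∧
      ∀ N : ℕ, Fermat.Agent.Glue.IsResModTw W true N → W'.IsResiduallyModularOfLevel 3 N

/-- **(MOD) the modular side.**  An irreducible `W'[3]` which is residually modular of a level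
`N` with `2 ∣ N` (READY) and `9 ∤ N` is flat at `3` or `ω`-ordinary at `3`.
(`3 ∤ N`: BLR-W + S19 + Hopf sublattice.  `3 ∥ N`: new ⟹ (S1) + (S2); not new ⟹ (W0) + R3S +
R3'-W give the level `N / 3`.) -/
def ModSideStatement : Prop :=
  ∀ (W' : WeierstrassCurve ℤ), W'.Δ ≠ 0 → W'.ModRepIsIrreducible 3 →
    ∀ N : ℕ, 0 < N → 2 ∣ N → ¬ 3 ^ 2 ∣ N → W'.IsResiduallyModularOfLevel 3 N →
      FlatAt3 W' ∨ OmegaOrdAt3 W'

/-- **(LOC) the local side, flat case.**  `W` semistable with `W[3]^{I₃} = 0`; then an `ω`-twist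
of `W[3]` is not flat at `3`.  (`W` good at `3` ⟹ `W[3]` flat; `W` multiplicative at `3` ⟹
`W[3]` has an inertia-stable line: S59 layer E.  Then: tame characters `ψ^{n}`, `n ∈ {1, 3}` against
`ψ^{n + 4}`, resp. landed (FI).) -/
def LocalExclStatement : Prop :=
  ∀ (W : WeierstrassCurve ℤ), W.Δ ≠ 0 → W.IsSemistableModel → W.ModRepIsIrreducible 3 →
    Fermat.Agent.Glue.NoFix3 W →
    ∀ W' : WeierstrassCurve ℤ, W'.Δ ≠ 0 → IsOmegaTwist3 W W' → ¬ FlatAt3 W'

/-- **(ORD) the local side, ordinary case.**  If `W[3]^{I₃} = 0` then an `ω`-twist of `W[3]` is not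
`ω`-ordinary at `3`.  (Elementary: `ω(σ) σ u - u` is inertia-fixed in `W[3]`, hence `0`, so
inertia acts on `W[3]` by the scalar `ω`, against landed NMT-W.) -/
def OrdExclStatement : Prop :=
  ∀ (W : WeierstrassCurve ℤ), W.Δ ≠ 0 → W.ModRepIsIrreducible 3 →
    Fermat.Agent.Glue.NoFix3 W →
    ∀ W' : WeierstrassCurve ℤ, IsOmegaTwist3 W W' → ¬ OmegaOrdAt3 W'

/-! ## Sub-blocks of MOD -/

/-- **(MOD-FLAT)** level prime to `3`: an irreducible `W'[3]` which is residually modular of a
level `N`, `3 ∤ N`, is flat at `3`.  (BLR-W `Ribet.H823.embedW` + S19 + Hopf sublattice; or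
`S59.H294.resFlat_of_dict294` + the general dictionary + `IsFlatAt` ⟹ Hopf lattice.) -/
def ModFlatStatement : Prop :=
  ∀ (W' : WeierstrassCurve ℤ), W'.Δ ≠ 0 → W'.ModRepIsIrreducible 3 →
    ∀ N : ℕ, 0 < N → ¬ 3 ∣ N → W'.IsResiduallyModularOfLevel 3 N → FlatAt3 W'

/-- **(MOD-3)** level `3 M'`, `3 ∤ M'`, `2 ∣ M'` (READY): an irreducible `W'[3]` which is
residually modular of level `3 M'` is `ω`-ordinary at `3` (NEW: `Ribet.H884.s1` +
`S33.H558.s2Ready`) or residually modular of level `M'` (OLD: `H944.Wall.occursIn_of_not_new` +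
R3S + R3'-W). -/
def ModThreeStatement : Prop :=
  ∀ (W' : WeierstrassCurve ℤ), W'.Δ ≠ 0 → W'.ModRepIsIrreducible 3 →
    ∀ M' : ℕ, 0 < M' → 2 ∣ M' → ¬ 3 ∣ M' → W'.IsResiduallyModularOfLevel 3 (3 * M') →
      OmegaOrdAt3 W' ∨ W'.IsResiduallyModularOfLevel 3 M'

/-! ## Sub-blocks of LOC -/

/-- `W[3]` has a nonzero vector spanning an inertia-stable line at some place over `3`. -/
def HasInertiaLine3 (W : WeierstrassCurve ℤ) : Prop :=
  ∃ A : ValuationSubring (AlgebraicClosure ℚ), A.LiesOverPrime 3 ∧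
    ∃ x : T3 W, x ≠ 0 ∧ ∀ σ ∈ A.inertiaSubgroupIn ℚ, ∃ n : ℕ, σ • x = n • x

/-- `W[3]` has a nonzero inertia-fixed vector at some place over `3`. -/
def HasInertiaFixed3 (W : WeierstrassCurve ℤ) : Prop :=
  ∃ A : ValuationSubring (AlgebraicClosure ℚ), A.LiesOverPrime 3 ∧
    ∃ x : T3 W, x ≠ 0 ∧ ∀ σ ∈ A.inertiaSubgroupIn ℚ, σ • x = x

/-- **(LOC-W)** the local type of a semistable curve at `3`: `W[3]` is flat at `3` (good
reduction: `3 ∤ Δ`) or has an inertia-stable line (multiplicative reduction).  (S59 layer E: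
`S59.H127` FlatInput / OrdInput, `curveRepStatement`.) -/
def LocWStatement : Prop :=
  ∀ (W : WeierstrassCurve ℤ), W.Δ ≠ 0 → W.IsSemistableModel → W.ModRepIsIrreducible 3 →
    FlatAt3 W ∨ HasInertiaLine3 W

/-- **(LOC-FT)** the finite flat core: `V = W[3]` irreducible (so `det = ω`), `V ⊗ ω = W'[3]` flat
at `3`, and `V` flat at `3` or with an inertia-stable line; then `V` has a nonzero inertia-fixed
vector.  (Reducible case: landed (FT) + (FI).  Irreducible case: leading-term characters `ψ^n`,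
`n ∈ {1, 3}` for both `V` and `V ⊗ ω = ψ^{n+4}`: impossible.) -/
def FlatTwistStatement : Prop :=
  ∀ (W W' : WeierstrassCurve ℤ), W.Δ ≠ 0 → W.ModRepIsIrreducible 3 → W'.Δ ≠ 0 →
    IsOmegaTwist3 W W' → FlatAt3 W' → (FlatAt3 W ∨ HasInertiaLine3 W) → HasInertiaFixed3 W

/-- Landed NMT-W at `p = 3` (`Ribet.H883.notMultTypeW`), as a hypothesis-Prop: inertia at `3`
does not act on an irreducible `W[3]` through the scalar `ω`. -/
def NotMultType3Statement : Prop :=
  ∀ (W : WeierstrassCurve ℤ), W.Δ ≠ 0 → W.ModRepIsIrreducible 3 →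
    ∀ A : ValuationSubring (AlgebraicClosure ℚ), A.LiesOverPrime 3 →
      ¬ ∀ σ ∈ A.inertiaSubgroupIn ℚ, ∀ c : ℕ, Cyclo3 σ c → ∀ x : T3 W, σ • x = c • x

/-- Existence of a place over `3` (landed `Ribet.Spec.PlacesStatement` at `p = 3`). -/
def Place3Statement : Prop :=
  ∃ A : ValuationSubring (AlgebraicClosure ℚ), A.LiesOverPrime 3

end Fermat.Agent.G1.X

end
-- ===== PACK-END G1/X/Spec.lean

-- ===== PACK-BEGIN LT/H772/Section.lean
section


/-!
# Row LT, block GLUE2, leaf G2c `SectionC` (helper772), OFF-MAIN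

The explicit section `Ψ : GL₂(𝔽₃) →* GL₂(ℤ[√-2])` of the reduction `red` (`√-2 ↦ -1`).
The 48 matrices of the group generated by the Prelude matrices `Slift`, `Tlift` are listed in a
table indexed by the entries of the reduced matrix; multiplicativity and the section property
are finite checks over tuples in `(ZMod 3)^4`, done by kernel evaluation of `Decidable` instances.
-/

set_option autoImplicit false

open Matrix FLT.ExplicitLift

namespace Fermat.Agent.LT.H772

/-- Coordinates `(re₀₀, im₀₀, re₀₁, im₀₁, re₁₀, im₁₀, re₁₁, im₁₁)` of a `2 × 2` matrix over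
`ℤ[√-2]`. -/
structure Row where
  /-- real part of the entry `(0, 0)` -/
  r00 : ℤ
  /-- imaginary part of the entry `(0, 0)` -/
  i00 : ℤ
  /-- real part of the entry `(0, 1)` -/
  r01 : ℤ
  /-- imaginary part of the entry `(0, 1)` -/
  i01 : ℤ
  /-- real part of the entry `(1, 0)` -/
  r10 : ℤ
  /-- imaginary part of the entry `(1, 0)` -/
  i10 : ℤ
  /-- real part of the entry `(1, 1)` -/
  r11 : ℤ
  /-- imaginary part of the entry `(1, 1)` -/
  i11 : ℤ
  deriving DecidableEq

/-- The table: row number `27 a + 9 b + 3 c + d` is the lift of `!![a, b; c, d]`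
(zero for the singular matrices). -/
def rows : List Row := [
  ⟨0, 0, 0, 0, 0, 0, 0, 0⟩, ⟨0, 0, 0, 0, 0, 0, 0, 0⟩, ⟨0, 0, 0, 0, 0, 0, 0, 0⟩,
  ⟨0, 0, 0, 0, 0, 0, 0, 0⟩, ⟨0, 0, 0, 0, 0, 0, 0, 0⟩, ⟨0, 0, 0, 0, 0, 0, 0, 0⟩,
  ⟨0, 0, 0, 0, 0, 0, 0, 0⟩, ⟨0, 0, 0, 0, 0, 0, 0, 0⟩, ⟨0, 0, 0, 0, 0, 0, 0, 0⟩,
  ⟨0, 0, 0, 0, 0, 0, 0, 0⟩, ⟨0, 0, 0, 0, 0, 0, 0, 0⟩, ⟨0, 0, 0, 0, 0, 0, 0, 0⟩,
  ⟨-1, -1, -1, 1, -2, 0, 1, 1⟩, ⟨0, 0, 1, 0, 1, 0, 0, -1⟩, ⟨1, 1, 0, -1, 1, 0, -1, 0⟩,
  ⟨1, 1, 0, -1, 2, 0, -1, -1⟩, ⟨0, 0, 1, 0, -1, 0, 1, 0⟩, ⟨-1, -1, -1, 1, -1, 0, 0, 1⟩,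
  ⟨0, 0, 0, 0, 0, 0, 0, 0⟩, ⟨0, 0, 0, 0, 0, 0, 0, 0⟩, ⟨0, 0, 0, 0, 0, 0, 0, 0⟩,
  ⟨-1, -1, 0, 1, -2, 0, 1, 1⟩, ⟨1, 1, 1, -1, 1, 0, 0, -1⟩, ⟨0, 0, -1, 0, 1, 0, -1, 0⟩,
  ⟨1, 1, 1, -1, 2, 0, -1, -1⟩, ⟨-1, -1, 0, 1, -1, 0, 1, 0⟩, ⟨0, 0, -1, 0, -1, 0, 0, 1⟩,
  ⟨0, 0, 0, 0, 0, 0, 0, 0⟩, ⟨1, 0, 0, 0, 0, 0, 1, 0⟩, ⟨1, 0, -1, -1, 0, 0, -1, 0⟩,
  ⟨0, 0, 0, 0, 0, 0, 0, 0⟩, ⟨-2, 0, 1, 1, -1, 1, 1, 0⟩, ⟨-2, 0, 1, 1, -1, 1, 2, 0⟩,
  ⟨0, 0, 0, 0, 0, 0, 0, 0⟩, ⟨1, 0, -1, -1, 1, -1, -2, 0⟩, ⟨1, 0, 0, 0, 1, -1, -1, 0⟩,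
  ⟨0, 0, 0, 0, 0, 0, 0, 0⟩, ⟨-1, 1, 1, 0, 1, 1, 0, -1⟩, ⟨0, -1, -1, 1, -1, -1, 0, 1⟩,
  ⟨1, 0, 0, -1, 1, 0, -1, -1⟩, ⟨0, 0, 0, 0, 0, 0, 0, 0⟩, ⟨1, 0, 0, -1, 0, -1, -1, 0⟩,
  ⟨0, -1, -1, 1, -1, 0, 1, 1⟩, ⟨-1, 1, 1, 0, 0, 1, 1, 0⟩, ⟨0, 0, 0, 0, 0, 0, 0, 0⟩,
  ⟨0, 0, 0, 0, 0, 0, 0, 0⟩, ⟨0, -1, -1, 0, -1, -1, -1, 1⟩, ⟨-1, 1, 2, 0, 1, 1, 1, -1⟩,
  ⟨1, 0, -1, 0, 1, 0, 0, 0⟩, ⟨1, 0, -1, 0, 0, -1, -1, 1⟩, ⟨0, 0, 0, 0, 0, 0, 0, 0⟩,
  ⟨0, -1, -1, 0, -1, 0, 0, 0⟩, ⟨0, 0, 0, 0, 0, 0, 0, 0⟩, ⟨-1, 1, 2, 0, 0, 1, 1, -1⟩,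
  ⟨0, 0, 0, 0, 0, 0, 0, 0⟩, ⟨-1, 0, 1, 1, 0, 0, 1, 0⟩, ⟨-1, 0, 0, 0, 0, 0, -1, 0⟩,
  ⟨0, 0, 0, 0, 0, 0, 0, 0⟩, ⟨-1, 0, 0, 0, -1, 1, 1, 0⟩, ⟨-1, 0, 1, 1, -1, 1, 2, 0⟩,
  ⟨0, 0, 0, 0, 0, 0, 0, 0⟩, ⟨2, 0, -1, -1, 1, -1, -2, 0⟩, ⟨2, 0, -1, -1, 1, -1, -1, 0⟩,
  ⟨0, 0, 0, 0, 0, 0, 0, 0⟩, ⟨1, -1, -2, 0, -1, -1, -1, 1⟩, ⟨0, 1, 1, 0, 1, 1, 1, -1⟩,
  ⟨0, 1, 1, 0, 1, 0, 0, 0⟩, ⟨1, -1, -2, 0, 0, -1, -1, 1⟩, ⟨0, 0, 0, 0, 0, 0, 0, 0⟩,
  ⟨-1, 0, 1, 0, -1, 0, 0, 0⟩, ⟨0, 0, 0, 0, 0, 0, 0, 0⟩, ⟨-1, 0, 1, 0, 0, 1, 1, -1⟩,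
  ⟨0, 0, 0, 0, 0, 0, 0, 0⟩, ⟨0, 1, 1, -1, 1, 1, 0, -1⟩, ⟨1, -1, -1, 0, -1, -1, 0, 1⟩,
  ⟨0, 1, 1, -1, 1, 0, -1, -1⟩, ⟨0, 0, 0, 0, 0, 0, 0, 0⟩, ⟨1, -1, -1, 0, 0, -1, -1, 0⟩,
  ⟨-1, 0, 0, 1, -1, 0, 1, 1⟩, ⟨-1, 0, 0, 1, 0, 1, 1, 0⟩, ⟨0, 0, 0, 0, 0, 0, 0, 0⟩
]

/-- The row of the lift of `!![a, b; c, d]`. -/
def row (a b c d : ZMod 3) : Row :=
  rows.getD (27 * a.val + 9 * b.val + 3 * c.val + d.val) ⟨0, 0, 0, 0, 0, 0, 0, 0⟩

/-- Product of two matrices over `ℤ[√-2]` in coordinates. -/
def mulRow (x y : Row) : Row :=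
  ⟨(x.r00 * y.r00 + -2 * x.i00 * y.i00) + (x.r01 * y.r10 + -2 * x.i01 * y.i10),
   (x.r00 * y.i00 + x.i00 * y.r00) + (x.r01 * y.i10 + x.i01 * y.r10),
   (x.r00 * y.r01 + -2 * x.i00 * y.i01) + (x.r01 * y.r11 + -2 * x.i01 * y.i11),
   (x.r00 * y.i01 + x.i00 * y.r01) + (x.r01 * y.i11 + x.i01 * y.r11),
   (x.r10 * y.r00 + -2 * x.i10 * y.i00) + (x.r11 * y.r10 + -2 * x.i11 * y.i10),
   (x.r10 * y.i00 + x.i10 * y.r00) + (x.r11 * y.i10 + x.i11 * y.r10),
   (x.r10 * y.r01 + -2 * x.i10 * y.i01) + (x.r11 * y.r11 + -2 * x.i11 * y.i11),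
   (x.r10 * y.i01 + x.i10 * y.r01) + (x.r11 * y.i11 + x.i11 * y.r11)⟩

/-- Reduction of a row modulo `1 + √-2` (`√-2 ↦ -1`). -/
def redRow (x : Row) : ZMod 3 × ZMod 3 × ZMod 3 × ZMod 3 :=
  (((x.r00 - x.i00 : ℤ) : ZMod 3), ((x.r01 - x.i01 : ℤ) : ZMod 3),
   ((x.r10 - x.i10 : ℤ) : ZMod 3), ((x.r11 - x.i11 : ℤ) : ZMod 3))

set_option maxRecDepth 1000000 in
/-- Finite check 1: the table is multiplicative on the invertible matrices. -/
theorem row_mul : ∀ a b c d a' b' c' d' : ZMod 3,
    a * d - b * c ≠ 0 → a' * d' - b' * c' ≠ 0 →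
    mulRow (row a b c d) (row a' b' c' d') =
      row (a * a' + b * c') (a * b' + b * d') (c * a' + d * c') (c * b' + d * d') := by
  decide +kernel

set_option maxRecDepth 1000000 in
/-- Finite check 2: the table is a section of the reduction. -/
theorem row_red : ∀ a b c d : ZMod 3, a * d - b * c ≠ 0 →
    redRow (row a b c d) = (a, b, c, d) := by
  decide +kernel

/-- Finite check 3: the row of the identity. -/
theorem row_one : row 1 0 0 1 = ⟨1, 0, 0, 0, 0, 0, 1, 0⟩ := by
  decide +kernel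

/-- The matrix over `ℤ[√-2]` with given coordinates. -/
def toMat (x : Row) : Matrix (Fin 2) (Fin 2) (ℤ√(-2)) :=
  !![⟨x.r00, x.i00⟩, ⟨x.r01, x.i01⟩; ⟨x.r10, x.i10⟩, ⟨x.r11, x.i11⟩]

theorem toMat_mulRow (x y : Row) : toMat (mulRow x y) = toMat x * toMat y := by
  apply Matrix.ext
  intro i j
  fin_cases i <;> fin_cases j <;>
    simp [toMat, mulRow, Matrix.mul_apply, Fin.sum_univ_two, Zsqrtd.ext_iff]

/-- The lift of a `2 × 2` matrix over `𝔽₃` (meaningful on the invertible ones). -/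
def liftMat (A : Matrix (Fin 2) (Fin 2) (ZMod 3)) : Matrix (Fin 2) (Fin 2) (ℤ√(-2)) :=
  toMat (row (A 0 0) (A 0 1) (A 1 0) (A 1 1))

theorem liftMat_mul (A B : Matrix (Fin 2) (Fin 2) (ZMod 3)) (hA : A.det ≠ 0) (hB : B.det ≠ 0) :
    liftMat (A * B) = liftMat A * liftMat B := by
  rw [Matrix.det_fin_two] at hA hB
  unfold liftMat
  rw [← toMat_mulRow, row_mul _ _ _ _ _ _ _ _ hA hB]
  simp [Matrix.mul_apply, Fin.sum_univ_two]

theorem liftMat_one : liftMat 1 = 1 := by
  unfold liftMat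
  have h : row ((1 : Matrix (Fin 2) (Fin 2) (ZMod 3)) 0 0) ((1 : Matrix (Fin 2) (Fin 2) (ZMod 3)) 0 1)
      ((1 : Matrix (Fin 2) (Fin 2) (ZMod 3)) 1 0) ((1 : Matrix (Fin 2) (Fin 2) (ZMod 3)) 1 1)
      = ⟨1, 0, 0, 0, 0, 0, 1, 0⟩ := by
    simpa using row_one
  rw [h]
  apply Matrix.ext
  intro i j
  fin_cases i <;> fin_cases j <;> simp [toMat, Zsqrtd.ext_iff]

theorem det_coe_ne_zero (g : GL (Fin 2) (ZMod 3)) :
    (g : Matrix (Fin 2) (Fin 2) (ZMod 3)).det ≠ 0 :=
  ((Matrix.isUnit_iff_isUnit_det _).mp g.isUnit).ne_zero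

/-- The lift as a monoid homomorphism into the matrix monoid. -/
def liftHom : GL (Fin 2) (ZMod 3) →* Matrix (Fin 2) (Fin 2) (ℤ√(-2)) where
  toFun g := liftMat (g : Matrix (Fin 2) (Fin 2) (ZMod 3))
  map_one' := by
    rw [Matrix.GeneralLinearGroup.coe_one]
    exact liftMat_one
  map_mul' g h := by
    rw [Matrix.GeneralLinearGroup.coe_mul]
    exact liftMat_mul _ _ (det_coe_ne_zero g) (det_coe_ne_zero h)

/-- The explicit section `Ψ`. -/
def Psi : GL (Fin 2) (ZMod 3) →* GL (Fin 2) (ℤ√(-2)) :=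
  liftHom.toHomUnits

theorem coe_Psi (g : GL (Fin 2) (ZMod 3)) :
    ((Psi g : GL (Fin 2) (ℤ√(-2))) : Matrix (Fin 2) (Fin 2) (ℤ√(-2))) =
      liftMat (g : Matrix (Fin 2) (Fin 2) (ZMod 3)) :=
  rfl

theorem red_mk (x y : ℤ) : red ⟨x, y⟩ = ((x - y : ℤ) : ZMod 3) := by
  simp only [red, Zsqrtd.lift_apply_apply]
  push_cast
  ring

theorem red_liftMat (A : Matrix (Fin 2) (Fin 2) (ZMod 3)) (hA : A.det ≠ 0) (i j : Fin 2) :
    red (liftMat A i j) = A i j := by
  rw [Matrix.det_fin_two] at hA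
  have h := row_red (A 0 0) (A 0 1) (A 1 0) (A 1 1) hA
  simp only [redRow, Prod.mk.injEq] at h
  obtain ⟨h00, h01, h10, h11⟩ := h
  fin_cases i <;> fin_cases j
  · simpa [liftMat, toMat, red_mk] using h00
  · simpa [liftMat, toMat, red_mk] using h01
  · simpa [liftMat, toMat, red_mk] using h10
  · simpa [liftMat, toMat, red_mk] using h11

/-- **G2c** `SectionC`: the explicit section of the reduction exists. -/
theorem sectionC : Fermat.Agent.LT.H670.SectionC := by
  refine ⟨Psi, fun g => ?_⟩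
  apply Matrix.GeneralLinearGroup.ext
  intro i j
  rw [Matrix.GeneralLinearGroup.map_apply, coe_Psi]
  exact red_liftMat _ (det_coe_ne_zero g) i j

end Fermat.Agent.LT.H772

end
-- ===== PACK-END LT/H772/Section.lean

-- ===== PACK-BEGIN LT/H952/Grp.lean
section



/-!
# Row LT, block GLUE2, leaf G2b-GRP (owner helper952): `grpC : LT.H670.GrpC`

A subgroup `G ≤ GL₂(𝔽₃)` acting irreducibly on `𝔽₃²` and containing an involution `c` of
determinant `-1` is everything as soon as (i) it contains an element of order 3, or (ii) every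
homomorphism `G → 𝔽₃ˣ` is trivial or the determinant.

* (i): an element `g` of order 3 fixes a line; irreducibility gives `h ∈ G` moving that line;
  `g` and `g₂ = h g h⁻¹` do not commute and every matrix of determinant 1 is a word
  `g^i g₂^j g^k g₂^l` (`M2.word_of_det_one`, kernel `decide`); `c` gives the other coset.
* (ii) without elements of order 3: `G ⊆ Q₈ ∪ c Q₈`; the block character
  (`g ↦ 1` iff `g c g⁻¹ = ± c`) is a homomorphism on `G` with value `1 ≠ det c` at `c`, hence trivial;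
  then the swap character (`g ↦ 1` iff `g c = c g`) is a homomorphism, hence trivial; so `G`
  centralises `c` and stabilises the line fixed by `c`: contradiction with irreducibility.
-/

set_option autoImplicit false

open Matrix
open scoped MatrixGroups

namespace Fermat.Agent.LT.H952

/-- Case (i): an element of order 3. -/
theorem top_of_ord3 (G : Subgroup (GL (Fin 2) (ZMod 3)))
    (hirr : ∀ v : Fin 2 → ZMod 3, v ≠ 0 → ∃ g ∈ G, ∀ c : ZMod 3,
      ((g : GL (Fin 2) (ZMod 3)) : Matrix (Fin 2) (Fin 2) (ZMod 3)).mulVec v ≠ c • v)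
    (hc : ∃ c ∈ G, c * c = 1 ∧ Matrix.GeneralLinearGroup.det c = -1)
    (h3 : ∃ g ∈ G, g ^ 3 = 1 ∧ g ≠ 1) : G = ⊤ := by
  obtain ⟨c, hcG, -, hcdet⟩ := hc
  obtain ⟨g, hgG, hg3⟩ := h3
  have hg3' : M2.IsOrd3 (toM2 g) := (isOrd3_iff g).mpr hg3
  obtain ⟨x, y, hfix⟩ := M2.fixed_of_ord3 _ _ _ _ hg3'
  obtain ⟨h, hhG, hmove⟩ := hirr ![x, y] (vec_ne_zero hfix.1)
  have hmv : M2.Moves (toM2 h) x y := moves_of h x y hmove
  have key := M2.conj_spec _ _ _ _ hg3' x y hfix _ _ _ _ (det_toM2_ne_zero h) hmv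
  have hg₂G : h * g * h⁻¹ ∈ G := G.mul_mem (G.mul_mem hhG hgG) (G.inv_mem hhG)
  have e₂ : toM2 (h * g * h⁻¹) = M2.mul (M2.mul (toM2 h) (toM2 g)) (M2.inv (toM2 h)) := by
    rw [toM2_mul, toM2_mul, toM2_inv]
  have k1 : M2.IsOrd3 (toM2 (h * g * h⁻¹)) := by
    rw [e₂]
    exact key.1
  have k2 : M2.mul (toM2 g) (toM2 (h * g * h⁻¹)) ≠ M2.mul (toM2 (h * g * h⁻¹)) (toM2 g) := by
    rw [e₂]
    exact key.2
  have hSL : ∀ z : GL (Fin 2) (ZMod 3), Matrix.GeneralLinearGroup.det z = 1 → z ∈ G := by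
    intro z hz
    have hz' : M2.det (toM2 z) = 1 := (det_eq_one_iff z).mp hz
    obtain ⟨i, j, k, l, hw⟩ :=
      M2.word_of_det_one _ _ _ _ hg3' _ _ _ _ k1 k2 _ _ _ _ hz'
    have hz2 : z = g ^ (i : ℕ) * (h * g * h⁻¹) ^ (j : ℕ) *
        (g ^ (k : ℕ) * (h * g * h⁻¹) ^ (l : ℕ)) := by
      apply toM2_injective
      rw [toM2_mul, toM2_mul, toM2_mul, toM2_pow, toM2_pow, toM2_pow, toM2_pow]
      exact hw
    rw [hz2]
    exact G.mul_mem (G.mul_mem (G.pow_mem hgG _) (G.pow_mem hg₂G _))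
      (G.mul_mem (G.pow_mem hgG _) (G.pow_mem hg₂G _))
  rw [eq_top_iff]
  intro z _
  rcases units_cases (Matrix.GeneralLinearGroup.det z) with hz | hz
  · exact hSL z hz
  · have h1 : c * z ∈ G := by
      apply hSL
      rw [map_mul, hcdet, hz]
      simp
    have h2 : z = c⁻¹ * (c * z) := by group
    rw [h2]
    exact G.mul_mem (G.inv_mem hcG) h1

/-- The sign attached to a decidable proposition. -/
noncomputable def sgn (p : Prop) [Decidable p] : (ZMod 3)ˣ := if p then 1 else -1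

theorem sgn_mul {p q r : Prop} [Decidable p] [Decidable q] [Decidable r]
    (h : r ↔ (p ↔ q)) : sgn r = sgn p * sgn q := by
  unfold sgn
  by_cases hp : p <;> by_cases hq : q <;> simp [hp, hq, h]

theorem sgn_eq_one_iff {p : Prop} [Decidable p] : sgn p = 1 ↔ p := by
  unfold sgn
  by_cases hp : p
  · simp [hp]
  · simp only [hp, if_false, iff_false]
    exact fun h => units_one_ne_neg_one h.symm

/-- Case (ii): no element of order 3 and only the characters `1`, `det`: impossible. -/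
theorem false_of_no_ord3 (G : Subgroup (GL (Fin 2) (ZMod 3)))
    (hirr : ∀ v : Fin 2 → ZMod 3, v ≠ 0 → ∃ g ∈ G, ∀ c : ZMod 3,
      ((g : GL (Fin 2) (ZMod 3)) : Matrix (Fin 2) (Fin 2) (ZMod 3)).mulVec v ≠ c • v)
    (hc : ∃ c ∈ G, c * c = 1 ∧ Matrix.GeneralLinearGroup.det c = -1)
    (hno : ¬ ∃ g ∈ G, g ^ 3 = 1 ∧ g ≠ 1)
    (hχ : ∀ χ : G →* (ZMod 3)ˣ, χ = 1 ∨
      ∀ g : G, χ g = Matrix.GeneralLinearGroup.det (g : GL (Fin 2) (ZMod 3))) : False := by
  obtain ⟨c, hcG, hc2, hcdet⟩ := hc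
  have hc' : M2.IsInv2 (toM2 c) := by
    refine ⟨?_, (det_eq_neg_one_iff c).mp hcdet⟩
    rw [← toM2_mul, hc2, toM2_one]
  have hno' : ∀ g ∈ G, ¬ M2.IsOrd3 (toM2 g) := fun g hg h =>
    hno ⟨g, hg, (isOrd3_iff g).mp h⟩
  -- `G ⊆ Q₈ ∪ c Q₈`
  have hQ : ∀ g ∈ G, Matrix.GeneralLinearGroup.det g = 1 → M2.pow4 (toM2 g) = M2.one := by
    intro g hg hdet
    rcases M2.order_cases _ _ _ _ ((det_eq_one_iff g).mp hdet) with h | h | h
    · exact h
    · exact absurd h (hno' g hg)
    · have h' : M2.IsOrd3 (toM2 (g * g)) := by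
        rw [toM2_mul]
        exact h
      exact absurd h' (hno' (g * g) (G.mul_mem hg hg))
  have hP : ∀ g ∈ G, M2.InP (toM2 c) (toM2 g) := by
    intro g hg
    rcases units_cases (Matrix.GeneralLinearGroup.det g) with h | h
    · exact Or.inl ⟨(det_eq_one_iff g).mp h, hQ g hg h⟩
    · refine Or.inr ⟨(det_eq_neg_one_iff g).mp h, ?_⟩
      have h1 : Matrix.GeneralLinearGroup.det (c * g) = 1 := by
        rw [map_mul, hcdet, h]
        simp
      have := hQ (c * g) (G.mul_mem hcG hg) h1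
      rwa [toM2_mul] at this
  -- the block character
  let χ₁ : G →* (ZMod 3)ˣ := MonoidHom.mk' (fun g => sgn (M2.Norm (toM2 c) (toM2 (g : GL (Fin 2) (ZMod 3)))))
    (by
      intro g h
      apply sgn_mul
      have := M2.block_mul _ _ _ _ hc' _ _ _ _ (hP g.1 g.2) _ _ _ _ (hP h.1 h.2)
      rw [Subgroup.coe_mul, toM2_mul]
      exact this)
  have hN : ∀ g ∈ G, M2.Norm (toM2 c) (toM2 g) := by
    rcases hχ χ₁ with h | h
    · intro g hg
      have := DFunLike.congr_fun h ⟨g, hg⟩
      exact sgn_eq_one_iff.mp this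
    · exfalso
      have h1 := h ⟨c, hcG⟩
      have h2 : χ₁ ⟨c, hcG⟩ = 1 := sgn_eq_one_iff.mpr (Or.inl rfl)
      rw [h2] at h1
      exact units_one_ne_neg_one (h1.trans hcdet)
  -- the swap character
  let χ₂ : G →* (ZMod 3)ˣ := MonoidHom.mk' (fun g => sgn (M2.Comm (toM2 c) (toM2 (g : GL (Fin 2) (ZMod 3)))))
    (by
      intro g h
      apply sgn_mul
      have := M2.swap_mul _ _ _ _ hc' _ _ _ _ (det_toM2_ne_zero g.1) (hN g.1 g.2)
        _ _ _ _ (det_toM2_ne_zero h.1) (hN h.1 h.2)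
      rw [Subgroup.coe_mul, toM2_mul]
      exact this)
  have hC : ∀ g ∈ G, M2.Comm (toM2 c) (toM2 g) := by
    rcases hχ χ₂ with h | h
    · intro g hg
      have := DFunLike.congr_fun h ⟨g, hg⟩
      exact sgn_eq_one_iff.mp this
    · exfalso
      have h1 := h ⟨c, hcG⟩
      have h2 : χ₂ ⟨c, hcG⟩ = 1 := sgn_eq_one_iff.mpr rfl
      rw [h2] at h1
      exact units_one_ne_neg_one (h1.trans hcdet)
  -- `G` stabilises the line fixed by `c`
  obtain ⟨x, y, hfix⟩ := M2.fixed_of_inv2 _ _ _ _ hc'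
  obtain ⟨g, hgG, hmove⟩ := hirr ![x, y] (vec_ne_zero hfix.1)
  exact M2.comm_stab _ _ _ _ hc' x y hfix _ _ _ _ (hC g hgG) (moves_of g x y hmove)

/-- **G2b-GRP**: the frozen leaf `GrpC` of block GLUE2 (architect helper670). -/
theorem grpC : Fermat.Agent.LT.H670.GrpC := by
  intro G hirr hc h3
  by_cases hord : ∃ g ∈ G, g ^ 3 = 1 ∧ g ≠ 1
  · exact top_of_ord3 G hirr hc hord
  · exact (false_of_no_ord3 G hirr hc hord (h3.resolve_left hord)).elim

end Fermat.Agent.LT.H952

end
-- ===== PACK-END LT/H952/Grp.lean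

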