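import Fermat.Prelude.Def_GaloisRep_ComplexConjugation
import Mathlib
import Fermat.Agent.Pack.L1.E2L0
import Fermat.Agent.Pack.L1.E2L2
import Fermat.Agent.Pack.S44C.G0E0L3
import Fermat.Agent.Pack.S44C.G0E7L1
import Fermat.Agent.Pack.S43MC.G0E10L2
import Fermat.Agent.Pack.S43MC.G0E10L3
import Fermat.Agent.Pack.L1.E2L3
import Fermat.Agent.Pack.S44C.G0E3L3
import Fermat.Agent.Pack.S44C.G0E5L1
import Fermat.Agent.Pack.L1.E1L3
import Fermat.Agent.Pack.L1.E2L1

-- ===== PACK-BEGIN S51/H780/Galois.lean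
section


/-!
# S51 helper: Galois action on `x`-coordinates, and descent of Galois-fixed elements
-/

set_option autoImplicit false

namespace Fermat.Agent.S51.H780

open WeierstrassCurve Polynomial
open scoped WeierstrassCurve.Affine

section Galois

variable (E : WeierstrassCurve.Affine ℚ)

local notation "Qbar" => AlgebraicClosure ℚ

lemma xc_smul (σ : Qbar ≃ₐ[ℚ] Qbar) (P : (E⁄Qbar).Point) :
    xc (E⁄Qbar) (σ • P) = σ (xc (E⁄Qbar) P) := by
  match P with
  | .zero => exact (map_zero σ).symm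
  | .some x y h => rfl

lemma smul_point_ne_zero (σ : Qbar ≃ₐ[ℚ] Qbar) {P : (E⁄Qbar).Point} (hP : P ≠ 0) :
    σ • P ≠ 0 := by
  match P with
  | .zero => exact absurd rfl hP
  | .some x y h => exact Affine.Point.some_ne_zero _

lemma coe_smul_torsion {n : ℕ} (σ : Qbar ≃ₐ[ℚ] Qbar)
    (P : Submodule.torsionBy ℤ (E⁄Qbar).Point n) :
    ((σ • P : Submodule.torsionBy ℤ (E⁄Qbar).Point n) : (E⁄Qbar).Point) =
      σ • (P : (E⁄Qbar).Point) := rfl

lemma coe_zmod_smul_torsion {n : ℕ} [NeZero n] (k : ZMod n)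
    (P : Submodule.torsionBy ℤ (E⁄Qbar).Point n) :
    ((k • P : Submodule.torsionBy ℤ (E⁄Qbar).Point n) : (E⁄Qbar).Point) =
      k.val • (P : (E⁄Qbar).Point) := by
  conv_lhs => rw [← ZMod.natCast_zmod_val k, Nat.cast_smul_eq_nsmul]
  rfl

theorem isGalois_Qbar : IsGalois ℚ Qbar := by
  have h : @IsGalois ℚ _ Qbar _ (AlgebraicClosure.instAlgebra ℚ) :=
    @IsSepClosure.isGalois ℚ _ Qbar _ (AlgebraicClosure.instAlgebra ℚ) inferInstance
  have e : (AlgebraicClosure.instAlgebra ℚ) =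
      (DivisionRing.toRatAlgebra : Algebra ℚ Qbar) := Subsingleton.elim _ _
  rw [e] at h
  exact h

lemma exists_rat_of_fixed {x : Qbar} (hx : ∀ σ : Qbar ≃ₐ[ℚ] Qbar, σ x = x) :
    ∃ q : ℚ, algebraMap ℚ Qbar q = x :=
  haveI := isGalois_Qbar
  (InfiniteGalois.mem_range_algebraMap_iff_fixed x).mpr hx

lemma psi3_baseChange (q : ℚ) :
    psi3 (E⁄Qbar) (algebraMap ℚ Qbar q) = algebraMap ℚ Qbar (psi3 E q) := by
  simp only [psi3, WeierstrassCurve.baseChange, WeierstrassCurve.map_b₂, WeierstrassCurve.map_b₄,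
    WeierstrassCurve.map_b₆, WeierstrassCurve.map_b₈, map_add, map_mul, map_pow, map_ofNat]

lemma dupDen_baseChange (q : ℚ) :
    dupDen (E⁄Qbar) (algebraMap ℚ Qbar q) = algebraMap ℚ Qbar (dupDen E q) := by
  simp only [dupDen, WeierstrassCurve.baseChange, WeierstrassCurve.map_b₂, WeierstrassCurve.map_b₄,
    WeierstrassCurve.map_b₆, map_add, map_mul, map_pow, map_ofNat]

lemma dupNum_baseChange (q : ℚ) :
    dupNum (E⁄Qbar) (algebraMap ℚ Qbar q) = algebraMap ℚ Qbar (dupNum E q) := by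
  simp only [dupNum, WeierstrassCurve.baseChange, WeierstrassCurve.map_b₄,
    WeierstrassCurve.map_b₆, WeierstrassCurve.map_b₈, map_sub, map_mul, map_pow, map_ofNat]

lemma Δ_baseChange_ne_zero (hΔ : E.Δ ≠ 0) : (E⁄Qbar).Δ ≠ 0 := by
  simp only [WeierstrassCurve.baseChange, WeierstrassCurve.map_Δ]
  exact (map_ne_zero_iff _ (algebraMap ℚ Qbar).injective).mpr hΔ

/-- If the mod-`3` representation of `E/ℚ` is reducible, then `ψ₃` has a rational root `x`
(the `x`-coordinate of the points of a Galois-stable line), and `ψ₂²(x) ≠ 0`. -/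
theorem exists_rat_root_psi3 (hΔ : E.Δ ≠ 0)
    (h : ¬ Affine.Point.GaloisRepIsIrreducible (K := Qbar) ℚ E 3) :
    ∃ x : ℚ, psi3 E x = 0 ∧ dupDen E x ≠ 0 := by
  have h3K : (3 : Qbar) ≠ 0 := by norm_num
  have hΔK := Δ_baseChange_ne_zero E hΔ
  obtain ⟨hfin, hcard⟩ := finite_card_torsion3 (E⁄Qbar) h3K
  -- nontriviality
  have hnt : Nontrivial (Submodule.torsionBy ℤ (E⁄Qbar).Point (3 : ℕ)) := by
    obtain ⟨P, hP0, hP3⟩ := exists_three_torsion (E⁄Qbar) h3K hΔK
    refine ⟨⟨⟨P, (mem_torsionBy_iff_nsmul _ P).mpr hP3⟩, 0, ?_⟩⟩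
    intro h0
    exact hP0 (congrArg Subtype.val h0)
  unfold Affine.Point.GaloisRepIsIrreducible at h
  push Not at h
  obtain ⟨N, hstable, hbot, htop⟩ := h hnt
  have : Fact (Nat.Prime 3) := ⟨Nat.prime_three⟩
  obtain ⟨P, hPN, hP0⟩ := Submodule.exists_mem_ne_zero_of_ne_bot hbot
  have hP0' : (P : (E⁄Qbar).Point) ≠ 0 := fun h0 => hP0 (Subtype.ext h0)
  have hP3 : (3 : ℕ) • (P : (E⁄Qbar).Point) = 0 := (mem_torsionBy_iff_nsmul _ _).mp P.2
  -- the x-coordinate is Galois-fixed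
  have hfix : ∀ σ : Qbar ≃ₐ[ℚ] Qbar, σ (xc (E⁄Qbar) P) = xc (E⁄Qbar) P := by
    intro σ
    obtain ⟨k, hk⟩ := exists_smul_of_card_lt hcard N htop hPN hP0 (hstable σ P hPN)
    have hk' : σ • (P : (E⁄Qbar).Point) = k.val • (P : (E⁄Qbar).Point) := by
      rw [← coe_smul_torsion, hk, coe_zmod_smul_torsion]
    rw [← xc_smul, hk']
    have hne : k.val • (P : (E⁄Qbar).Point) ≠ 0 := hk' ▸ smul_point_ne_zero E σ hP0'
    have hlt : k.val < 3 := ZMod.val_lt k
    interval_cases hv : k.val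
    · simp at hne
    · simp
    · have h2 : (2 : ℕ) • (P : (E⁄Qbar).Point) = -(P : (E⁄Qbar).Point) := by
        have : (2 : ℕ) • (P : (E⁄Qbar).Point) + (P : (E⁄Qbar).Point) = 0 := by
          rw [← hP3, succ_nsmul (P : (E⁄Qbar).Point) 2]
        exact eq_neg_of_add_eq_zero_left this
      rw [h2, xc_neg]
  obtain ⟨q, hq⟩ := exists_rat_of_fixed hfix
  obtain ⟨hψ, hD⟩ := psi3_of_three_nsmul (E⁄Qbar) hP0' hP3
  rw [← hq, psi3_baseChange] at hψ
  rw [← hq, dupDen_baseChange] at hD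
  have hψ' : psi3 E q = 0 := (map_eq_zero_iff _ (algebraMap ℚ Qbar).injective).mp hψ
  have hD' : dupDen E q ≠ 0 := fun h0 => hD (by rw [h0, map_zero])
  exact ⟨q, hψ', hD'⟩

/-- **(I1)**: if the mod-`3` representation of `E/ℚ` is reducible, then `j(E)` lies in the image
of `X₀(3)(ℚ)`: there is `t ∈ ℚ`, `t ≠ 0`, with `c₄³ t = Δ (t + 27) (t + 3)³`. -/
theorem exists_param3 (hΔ : E.Δ ≠ 0)
    (h : ¬ Affine.Point.GaloisRepIsIrreducible (K := Qbar) ℚ E 3) :
    ∃ t : ℚ, t ≠ 0 ∧ E.c₄ ^ 3 * t = E.Δ * ((t + 27) * (t + 3) ^ 3) := by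
  obtain ⟨q, hψ', hD'⟩ := exists_rat_root_psi3 E hΔ h
  refine ⟨E.Δ / dupDen E q ^ 2, div_ne_zero hΔ (pow_ne_zero 2 hD'), ?_⟩
  exact param3_identity E q hψ' hD'

end Galois

end Fermat.Agent.S51.H780

end
-- ===== PACK-END S51/H780/Galois.lean

-- ===== PACK-BEGIN S15/H975/DescSpec2.lean
section




/-!
# Row S15, node DESC-CORE: FROZEN SKELETON, OFFICIAL ROUTE (row-lead helper975, 21:10Z)

Route of helper208 (no T7) + the REAL place for COUNT (helpers 111/302/591/646/784/886/915):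

    SelStatement  <==  FLAG + COUNT + CNT + STEP          (`SelAsmStatement`, pure algebra)

with, for `g ∈ Gal(ℚ̄/ℚ)`,  `cocImage p S r g := (g - 1) Y(W_E)`  (a subgroup of `W_E`), and

* `K  := cocImage p S r complexConjugation`   (the real place),
* `U₀ := cocImage p S r τ₀`, `τ₀` in the inertia group of a place over `p`,
* COUNT : `|K|² ≤ |W_E|`                      (CONJ + EPS + Manin pairing; odd `r` and `r = 2`),
* CNT   : `|U₀|² ≤ [Y(W_E) : A]`              (`H208.card_tauSub_YE_sq_le` + T6'' + DIV),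
* STEP  : the step bounds `StepBound p r K U₀ F' F` for all Eisenstein pieces, for a suitable
          `τ₀` (BASE + G3 + PEU; class field theory of `ℚ`).

The old nodes `LocalStatement`, `LocPStatement`, `T6Statement`, `T7Statement`,
`CountOddStatement`, `LocR2Statement` of `DescSpec.lean` are the BACKUP route.
-/

set_option autoImplicit false

noncomputable section

namespace Fermat.Agent.S15.H975

open ModularCurve

/-- `(g - 1) Y(W_E)`: the values at `g` of the cocycles of the points of `Y(W_E)`. -/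
def cocImage (p : ℕ) [NeZero p] (S : Set ℕ) (r : ℕ) (g : _root_.Fermat.Agent.S15.H975.Gal) : AddSubgroup (JZero p) :=
  (sel p r (eis p S r)).map (Fermat.Agent.S15.H208.tauSub g)

theorem mem_cocImage {p : ℕ} [NeZero p] {S : Set ℕ} {r : ℕ} {g : _root_.Fermat.Agent.S15.H975.Gal} {w : JZero p} :
    w ∈ cocImage p S r g ↔ ∃ y ∈ sel p r (eis p S r), g • y - y = w :=
  Iff.rfl

theorem cocImage_le (p : ℕ) [NeZero p] (S : Set ℕ) (r : ℕ) (g : _root_.Fermat.Agent.S15.H975.Gal) :
    cocImage p S r g ≤ eis p S r := by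
  rintro w ⟨y, hy, rfl⟩
  exact hy.2 g

/-- **SEL**: the Selmer bound for every prime `r ∣ p - 1`. -/
def SelStatement : Prop :=
  ∀ (p : ℕ) [NeZero p], p.Prime → ∀ (S : Finset ℕ) (r : ℕ), r.Prime → r ∣ p - 1 →
    SelBound p (S : Set ℕ) r

/-- **COUNT** (real place, all `r`): `|(c - 1) Y(W_E)|² ≤ |W_E|`. -/
def CountStatement : Prop :=
  ∀ (p : ℕ) [NeZero p], p.Prime → ∀ (S : Finset ℕ) (r : ℕ), r.Prime → r ∣ p - 1 →
    Nat.card ↥(cocImage p (S : Set ℕ) r complexConjugation) ^ 2 ≤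
      Nat.card ↥(eis p (S : Set ℕ) r)

/-- **CNT** (place `p`, route 208): `|(τ₀ - 1) Y(W_E)|² ≤ [Y(W_E) : A]` for every inertia element
`τ₀` at a place over `p`, as soon as the index is finite. -/
def CntStatement : Prop :=
  ∀ (p : ℕ) [NeZero p], p.Prime → ∀ (S : Finset ℕ) (r : ℕ), r.Prime → r ∣ p - 1 →
    ∀ A : ValuationSubring Qb, A.LiesOverPrime p → ∀ τ₀ ∈ A.inertiaSubgroupIn ℚ,
      (rat p).relIndex (sel p r (eis p (S : Set ℕ) r)) ≠ 0 →
      Nat.card ↥(cocImage p (S : Set ℕ) r τ₀) ^ 2 ≤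
        (rat p).relIndex (sel p r (eis p (S : Set ℕ) r))

/-- **STEP** (BASE + G3 + PEU): for a suitable inertia element `τ₀` at `p` every Eisenstein
piece satisfies the step bound relative to `K = (c - 1) Y(W_E)` and `U₀ = (τ₀ - 1) Y(W_E)`. -/
def StepStatement : Prop :=
  ∀ (p : ℕ) [NeZero p], p.Prime → ∀ (S : Finset ℕ) (r : ℕ), r.Prime → r ∣ p - 1 →
    ∃ A : ValuationSubring Qb, A.LiesOverPrime p ∧ ∃ τ₀ ∈ A.inertiaSubgroupIn ℚ,
      ∀ F' F : AddSubgroup (JZero p), F ≤ eis p (S : Set ℕ) r → IsEisPiece p r F' F →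
        StepBound p r (cocImage p (S : Set ℕ) r complexConjugation)
          (cocImage p (S : Set ℕ) r τ₀) F' F

/-- **SEL-ASM** (pure algebra: `H51`/`H842` engine + `H208.selfImproving`). -/
def SelAsmStatement : Prop :=
  FlagStatement → CountStatement → CntStatement → StepStatement → SelStatement

/-- Route 1 (backup): SEL from ENGINE + FLAG + LOCAL. -/
theorem selStatement_of_local (hE : EngineStatement) (hFlag : FlagStatement)
    (hLoc : LocalStatement) (hFin : FinStatement) : SelStatement := by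
  intro p _ hp S r hr hrp
  have hW : Finite ↥(tors p r) := hFin p r hr.pos
  obtain ⟨D, F, hF⟩ := hFlag p hp S r hr hrp
  obtain ⟨K, U, hK, hU, hKU, hstep⟩ := hLoc p hp S r hr hrp
  have hmono : ∀ j, j ≤ D → ∀ i, i ≤ j → F i ≤ F j := by
    intro j
    induction j with
    | zero =>
      intro _ i hi
      rw [Nat.le_zero.mp hi]
    | succ j ih =>
      intro hj i hi
      rcases Nat.lt_or_ge i (j + 1) with h | h
      · exact (ih (Nat.le_of_succ_le hj) i (Nat.lt_succ_iff.mp h)).trans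
          (hF.2.2 j (Nat.lt_of_succ_le hj)).1
      · rw [le_antisymm hi h]
  exact hE p (S : Set ℕ) r hr hW K U hK hU hKU D F hF fun i hi =>
    hstep (F i) (F (i + 1)) (by rw [← hF.2.1]; exact hmono D le_rfl (i + 1) hi) (hF.2.2 i hi)

end Fermat.Agent.S15.H975

end

end
-- ===== PACK-END S15/H975/DescSpec2.lean

-- ===== PACK-BEGIN S24/H84/SubKD.lean
section



/-!
# KD sub-interface statements of helper984's `Alg/Sub.lean`, proved (helper84)

Exact shapes of `sub_exists_smul_D`, `sub_ordDifferential_smul`, and `sub_ordDifferential_D`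
(the latter modulo the local theorem LT2 "every place over `t = 0` is induced by some `σ x`",
taken as an explicit hypothesis).
-/

set_option autoImplicit false

noncomputable section

open AlgebraicCurve KaehlerDifferential

namespace Fermat.Agent.S24.H84

variable {K F : Type*} [Field K] [Field F] [Algebra K F] [IsAlgClosed K] [CharZero K]
variable {C : Type*} [Field C] [CharZero C] {X : Type*}

omit [IsAlgClosed K] in
/-- KD1: `Ω[F/K]` is spanned by `D j`. -/
theorem kd_exists_smul_D (j : F)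
    [FiniteDimensional ↥(IntermediateField.adjoin K {j}) F] (ω : Ω[F⁄K]) :
    ∃ f : F, ω = f • D K F j := by
  have hA : Algebra.IsAlgebraic ↥(IntermediateField.adjoin K {j}) F :=
    Algebra.IsAlgebraic.of_finite _ _
  have hω : ω ∈ Submodule.span F {D K F j} := by rw [span_D_eq_top j]; trivial
  obtain ⟨f, hf⟩ := Submodule.mem_span_singleton.1 hω
  exact ⟨f, hf.symm⟩

/-- KD2: `ordDifferential` is additive in the coefficient. -/
theorem kd_ordDifferential_smul (j : F)
    [FiniteDimensional ↥(IntermediateField.adjoin K {j}) F] (v : Place K F)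
    (f : F) (hf : f ≠ 0) (ω : Ω[F⁄K]) (hω : ω ≠ 0) :
    v.ordDifferential (f • ω) = v.ord f + v.ordDifferential ω := by
  have : v.DCoordGenerates := place_dCoordGenerates j v
  have : Nontrivial Ω[F⁄K] := ⟨⟨ω, 0, hω⟩⟩
  refine v.ordDifferential_smul hf ?_
  intro h
  apply hω
  rw [← v.differentialCoeff_smul_dCoord ω, h, zero_smul]

/-- `differentialCoeff` of a nonzero differential is nonzero. -/
theorem kd_differentialCoeff_ne_zero (j : F)
    [FiniteDimensional ↥(IntermediateField.adjoin K {j}) F] (v : Place K F)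
    (ω : Ω[F⁄K]) (hω : ω ≠ 0) : v.differentialCoeff ω ≠ 0 := by
  have : v.DCoordGenerates := place_dCoordGenerates j v
  intro h
  apply hω
  rw [← v.differentialCoeff_smul_dCoord ω, h, zero_smul]

/-- LT + KD4, with LT2 as an explicit hypothesis: order of `dt` at a zero of `t`. -/
theorem kd_ordDifferential_D_of_induced (t : F)
    [FiniteDimensional ↥(IntermediateField.adjoin K {t}) F]
    (d : LocalData K F C X t) (v : Place K F) (hv : 0 < v.ord t)
    (hind : ∃ (x : X) (g : ℕ), 0 < g ∧ ∀ f : F, f ≠ 0 → (d.σ x f).order = g * v.ord f) :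
    v.ordDifferential (D K F t) = v.ord t - 1 := by
  have : v.DCoordGenerates := place_dCoordGenerates t v
  obtain ⟨x, g, hg, hord⟩ := hind
  exact place_ordDifferential_D_of_ord_ne_zero v (d.σ x) d.ι (d.σ_const x) g hg hord t hv.ne'

/-- Variant: the order of `dj` at a place over `j = a`, resp. over `j = ∞`, from local data at
`t = j - a`, resp. `t = j⁻¹`. -/
theorem kd_ordDifferential_D_sub (j : F) (a : K)
    [FiniteDimensional ↥(IntermediateField.adjoin K {j}) F]
    (d : LocalData K F C X (j - algebraMap K F a)) (v : Place K F)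
    (hv : 0 < v.ord (j - algebraMap K F a))
    (hind : ∃ (x : X) (g : ℕ), 0 < g ∧ ∀ f : F, f ≠ 0 → (d.σ x f).order = g * v.ord f) :
    v.ordDifferential (D K F j) = v.ord (j - algebraMap K F a) - 1 := by
  have : v.DCoordGenerates := place_dCoordGenerates j v
  obtain ⟨x, g, hg, hord⟩ := hind
  exact place_ordDifferential_D_of_ord_sub_ne_zero v (d.σ x) d.ι (d.σ_const x) g hg hord j a
    hv.ne'

theorem kd_ordDifferential_D_inv (j : F)
    [FiniteDimensional ↥(IntermediateField.adjoin K {j}) F]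
    (d : LocalData K F C X j⁻¹) (v : Place K F) (hv : 0 < v.ord j⁻¹)
    (hind : ∃ (x : X) (g : ℕ), 0 < g ∧ ∀ f : F, f ≠ 0 → (d.σ x f).order = g * v.ord f) :
    v.ordDifferential (D K F j) = - v.ord j⁻¹ - 1 := by
  have : v.DCoordGenerates := place_dCoordGenerates j v
  obtain ⟨x, g, hg, hord⟩ := hind
  exact place_ordDifferential_D_of_ord_inv_ne_zero v (d.σ x) d.ι (d.σ_const x) g hg hord j
    hv.ne'

end Fermat.Agent.S24.H84

end
end
-- ===== PACK-END S24/H84/SubKD.lean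

-- ===== PACK-BEGIN S17/H980/SiegelHeight.lean
section


/-!
# Siegel's lemma in Plücker form, height version (piece MINK of S17 / tower H, helper980)

For a rational matrix `B` (`d × n`, `d < n`, `k = n - d`) with a non-vanishing maximal minor there
is a non-zero integer vector `a` with `B a = 0` and

  `log ‖a‖_∞ ≤ (1 / k) * logHeight (maximal minors of B) + log k`.

`logHeight` is Mathlib's logarithmic Weil height of a tuple (`Height.logHeight`), here the height
of the Plücker point of the row space of `B`; the minors are indexed by `ι₁ ↪ ι`.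
-/

set_option autoImplicit false

open Matrix

namespace Fermat.Agent.S17.H980

section Height

variable {ι₁ ι : Type*} [Fintype ι₁] [DecidableEq ι₁] [Fintype ι] [DecidableEq ι]

/-- The maximal minors of a rational matrix (Plücker coordinates of its row space). -/
noncomputable def minorQ (B : Matrix ι₁ ι ℚ) (e : ι₁ ↪ ι) : ℚ := (B.submatrix id e).det

/-- Clearing denominators. -/
theorem exists_int_matrix (B : Matrix ι₁ ι ℚ) :
    ∃ (N : ℤ) (BZ : Matrix ι₁ ι ℤ), N ≠ 0 ∧ ∀ r i, ((BZ r i : ℤ) : ℚ) = N * B r i := by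
  classical
  obtain ⟨b, hb⟩ := IsLocalization.exist_integer_multiples (nonZeroDivisors ℤ)
    (Finset.univ : Finset (ι₁ × ι)) (fun x => B x.1 x.2)
  have hb' : ∀ r i, ∃ z : ℤ, (z : ℚ) = (b : ℤ) * B r i := by
    intro r i
    obtain ⟨z, hz⟩ := hb (r, i) (Finset.mem_univ _)
    refine ⟨z, ?_⟩
    have h1 : ((z : ℤ) : ℚ) = algebraMap ℤ ℚ z := rfl
    rw [h1, hz]
    simp [Algebra.smul_def]
  choose BZ hBZ using hb'
  exact ⟨b, Matrix.of BZ, nonZeroDivisors.coe_ne_zero b, fun r i => hBZ r i⟩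

theorem minor_cast_eq (B : Matrix ι₁ ι ℚ) (N : ℤ) (BZ : Matrix ι₁ ι ℤ)
    (h : ∀ r i, ((BZ r i : ℤ) : ℚ) = N * B r i) (e : ι₁ ↪ ι) :
    ((minor BZ e : ℤ) : ℚ) = (N : ℚ) ^ Fintype.card ι₁ * minorQ B e := by
  unfold minor minorQ
  rw [← Matrix.det_smul]
  have h1 : ((N : ℚ) • B.submatrix id e) = (BZ.submatrix id e).map (Int.castRingHom ℚ) := by
    ext r j
    simp [h r (e j)]
  rw [h1, ← RingHom.mapMatrix_apply, ← RingHom.map_det]
  rfl

theorem mulVec_cast_eq (B : Matrix ι₁ ι ℚ) (N : ℤ) (BZ : Matrix ι₁ ι ℤ)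
    (h : ∀ r i, ((BZ r i : ℤ) : ℚ) = N * B r i) (hN : N ≠ 0) (a : ι → ℤ) (ha : BZ *ᵥ a = 0) :
    B *ᵥ (fun i => (a i : ℚ)) = 0 := by
  funext r
  have h1 := congrFun ha r
  simp only [Matrix.mulVec, dotProduct, Pi.zero_apply] at h1 ⊢
  have h2 : ((∑ i, BZ r i * a i : ℤ) : ℚ) = N * ∑ i, B r i * (a i : ℚ) := by
    push_cast
    rw [Finset.mul_sum]
    apply Finset.sum_congr rfl
    intro i _
    rw [h r i]; ring
  rw [h1] at h2
  have h3 : (N : ℚ) ≠ 0 := by exact_mod_cast hN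
  have := mul_eq_zero.mp h2.symm
  rcases this with h4 | h4
  · exact absurd h4 h3
  · exact h4

/-- For a primitive integer matrix the height of the Plücker point is the logarithm of the
largest maximal minor. -/
theorem logHeight_minorQ_eq (B : Matrix ι₁ ι ℚ) (B₀ : Matrix ι₁ ι ℤ) (lam : ℚ) (hlam : lam ≠ 0)
    (hprop : ∀ e : ι₁ ↪ ι, ((minor B₀ e : ℤ) : ℚ) = lam * minorQ B e)
    (hne : Nonempty (ι₁ ↪ ι))
    (hgcd : (Finset.univ : Finset (ι₁ ↪ ι)).gcd (minor B₀) = 1) :
    Height.logHeight (minorQ B) = Real.log ((⨆ e : ι₁ ↪ ι, |minor B₀ e| : ℤ) : ℝ) := by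
  have h1 := Rat.logHeight_eq_max_abs_of_gcd_eq_one (x := minor B₀) hgcd
  rw [← h1]
  have h2 : ((↑) : ℤ → ℚ) ∘ minor B₀ = lam • minorQ B := by
    funext e
    simp [hprop e]
  rw [h2, Height.logHeight_smul_eq_logHeight _ hlam]

/-- **Siegel's lemma in Plücker form** (height version).  A rational matrix `B` with fewer rows
than columns and a non-vanishing maximal minor kills a non-zero integer vector `a` with
`log |a i| ≤ (1 / k) * logHeight (maximal minors of B) + log k`, `k = #columns - #rows`. -/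
theorem exists_small_kernel_logHeight (B : Matrix ι₁ ι ℚ)
    (hcard : Fintype.card ι₁ < Fintype.card ι) (hne : ∃ e : ι₁ ↪ ι, minorQ B e ≠ 0) :
    ∃ a : ι → ℤ, a ≠ 0 ∧ B *ᵥ (fun i => (a i : ℚ)) = 0 ∧
      ∀ i, Real.log |(a i : ℝ)| ≤
        (1 / ((Fintype.card ι - Fintype.card ι₁ : ℕ) : ℝ)) * Height.logHeight (minorQ B) +
          Real.log ((Fintype.card ι - Fintype.card ι₁ : ℕ) : ℝ) := by
  classical
  set k := Fintype.card ι - Fintype.card ι₁ with hk
  have hk1 : 1 ≤ k := by omega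
  have hkR : (1 : ℝ) ≤ (k : ℝ) := by exact_mod_cast hk1
  have hkpos : (0 : ℝ) < (k : ℝ) := lt_of_lt_of_le one_pos hkR
  obtain ⟨N, BZ, hN, hBZ⟩ := exists_int_matrix B
  have hNQ : (N : ℚ) ≠ 0 := by exact_mod_cast hN
  have hneZ : ∃ e : ι₁ ↪ ι, minor BZ e ≠ 0 := by
    obtain ⟨e, he⟩ := hne
    refine ⟨e, fun h0 => ?_⟩
    have := minor_cast_eq B N BZ hBZ e
    rw [h0, Int.cast_zero] at this
    exact (mul_ne_zero (pow_ne_zero _ hNQ) he) this.symm
  obtain ⟨B₀, num, den, hnum, hden, hprop, hker, hgcd⟩ := exists_primitive BZ hneZ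
  have hnumQ : (num : ℚ) ≠ 0 := by exact_mod_cast hnum
  have hdenQ : (den : ℚ) ≠ 0 := by exact_mod_cast hden
  have hprop' : ∀ e : ι₁ ↪ ι, ((minor B₀ e : ℤ) : ℚ) =
      ((num : ℚ) / den * (N : ℚ) ^ Fintype.card ι₁) * minorQ B e := by
    intro e
    have h1 : ((den * minor B₀ e : ℤ) : ℚ) = ((num * minor BZ e : ℤ) : ℚ) := by rw [hprop e]
    push_cast at h1
    rw [minor_cast_eq B N BZ hBZ e] at h1
    field_simp
    linear_combination h1
  have hne₀ : ∃ e : ι₁ ↪ ι, minor B₀ e ≠ 0 := by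
    obtain ⟨e, he⟩ := hne
    refine ⟨e, fun h0 => ?_⟩
    have := hprop' e
    rw [h0, Int.cast_zero] at this
    exact (mul_ne_zero (mul_ne_zero (div_ne_zero hnumQ hdenQ) (pow_ne_zero _ hNQ)) he) this.symm
  haveI : Nonempty (ι₁ ↪ ι) := ⟨hne₀.choose⟩
  have hheight := logHeight_minorQ_eq B B₀ _
    (mul_ne_zero (div_ne_zero hnumQ hdenQ) (pow_ne_zero _ hNQ)) hprop' ‹_› hgcd
  -- the largest minor
  set Hz : ℤ := ⨆ e : ι₁ ↪ ι, |minor B₀ e| with hHz
  have hle : ∀ e : ι₁ ↪ ι, |minor B₀ e| ≤ Hz := fun e =>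
    le_ciSup (Set.finite_range (fun e : ι₁ ↪ ι => |minor B₀ e|)).bddAbove e
  have hHz1 : 1 ≤ Hz := by
    obtain ⟨e, he⟩ := hne₀
    have : 1 ≤ |minor B₀ e| := Int.one_le_abs he
    exact le_trans this (hle e)
  set H : ℕ := Hz.toNat with hH
  have hHcast : (H : ℤ) = Hz := Int.toNat_of_nonneg (by omega)
  have hH1 : 1 ≤ H := by
    have : (1 : ℤ) ≤ (H : ℤ) := by rw [hHcast]; exact hHz1
    exact_mod_cast this
  have hHR : (1 : ℝ) ≤ (H : ℝ) := by exact_mod_cast hH1
  have hHzR : ((Hz : ℤ) : ℝ) = (H : ℝ) := by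
    rw [← hHcast]; simp
  -- the size of the box
  set x : ℝ := (H : ℝ) ^ ((1 : ℝ) / k) with hx
  have hx0 : 0 ≤ x := Real.rpow_nonneg (by positivity) _
  have hx1 : 1 ≤ x := Real.one_le_rpow hHR (by positivity)
  have hxk : x ^ k = (H : ℝ) := by
    rw [hx, ← Real.rpow_natCast, ← Real.rpow_mul (by positivity)]
    rw [one_div, inv_mul_cancel₀ (ne_of_gt hkpos), Real.rpow_one]
  set T : ℕ := ⌊x⌋₊ with hT
  have hTle : (T : ℝ) ≤ x := Nat.floor_le hx0
  have hTlt : x < (T : ℝ) + 1 := Nat.lt_floor_add_one x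
  have hT1 : 1 ≤ T := Nat.le_floor (by simpa using hx1)
  have hbox : H < (T + 1) ^ k := by
    have h1 : (H : ℝ) < ((T : ℝ) + 1) ^ k := by
      rw [← hxk]
      exact pow_lt_pow_left₀ hTlt hx0 (by omega)
    exact_mod_cast h1
  obtain ⟨a, ha0, hakerB₀, habd⟩ := exists_small_kernel B₀ hcard hne₀ H
    (fun e => by rw [hHcast]; exact hle e) T hbox
  refine ⟨a, ha0, mulVec_cast_eq B N BZ hBZ hN a (hker a hakerB₀), ?_⟩
  intro i
  rw [hheight, hHzR]
  have hlogH : 0 ≤ Real.log (H : ℝ) := Real.log_nonneg hHR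
  have hlogk : 0 ≤ Real.log (k : ℝ) := Real.log_nonneg hkR
  have hlogx : Real.log x = (1 / (k : ℝ)) * Real.log (H : ℝ) := by
    rw [hx, Real.log_rpow (by positivity)]
  by_cases hai : a i = 0
  · rw [hai]
    simp only [Int.cast_zero, abs_zero, Real.log_zero]
    positivity
  · have h1 : (1 : ℝ) ≤ |(a i : ℝ)| := by
      have : (1 : ℤ) ≤ |a i| := Int.one_le_abs hai
      exact_mod_cast this
    have h2 : |(a i : ℝ)| ≤ (k : ℝ) * T := by
      have := habd i
      have h3 : ((|a i| : ℤ) : ℝ) ≤ (((k : ℕ) : ℤ) * (T : ℤ) : ℤ) := by exact_mod_cast this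
      push_cast at h3
      exact h3
    have h4 : |(a i : ℝ)| ≤ (k : ℝ) * x := le_trans h2 (by gcongr)
    calc Real.log |(a i : ℝ)| ≤ Real.log ((k : ℝ) * x) :=
          Real.log_le_log (by linarith) h4
      _ = Real.log (k : ℝ) + Real.log x :=
          Real.log_mul (ne_of_gt hkpos) (by linarith)
      _ = (1 / (k : ℝ)) * Real.log (H : ℝ) + Real.log (k : ℝ) := by rw [hlogx]; ring

omit [DecidableEq ι] in
/-- The height of a non-zero integer vector is at most the logarithm of its sup-norm. -/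
theorem logHeight_intCast_le (a : ι → ℤ) (ha : a ≠ 0) (C : ℝ)
    (h : ∀ i, Real.log |(a i : ℝ)| ≤ C) :
    Height.logHeight (fun i => (a i : ℚ)) ≤ C := by
  classical
  obtain ⟨i₀, hi₀⟩ : ∃ i, a i ≠ 0 := by
    by_contra hcon
    exact ha (funext fun i => not_not.mp fun hi => hcon ⟨i, hi⟩)
  haveI : Nonempty ι := ⟨i₀⟩
  obtain ⟨a', ha', hgcd⟩ := Finset.extract_gcd a (Finset.univ_nonempty (α := ι))
  set g := (Finset.univ : Finset ι).gcd a with hg
  have hg0 : g ≠ 0 := by
    intro h0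
    exact hi₀ ((Finset.gcd_eq_zero_iff.mp h0) i₀ (Finset.mem_univ _))
  have hgQ : (g : ℚ) ≠ 0 := by exact_mod_cast hg0
  have h1 : (fun i => (a i : ℚ)) = (g : ℚ) • (((↑) : ℤ → ℚ) ∘ a') := by
    funext i
    simp [ha' i (Finset.mem_univ _)]
  rw [h1, Height.logHeight_smul_eq_logHeight _ hgQ, Rat.logHeight_eq_max_abs_of_gcd_eq_one hgcd]
  obtain ⟨j, hj⟩ := exists_eq_ciSup_of_finite (f := fun i => |a' i|)
  rw [← hj]
  have haj : a j = g * a' j := ha' j (Finset.mem_univ _)
  by_cases h0 : a' j = 0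
  · rw [h0]
    simp only [abs_zero, Int.cast_zero, Real.log_zero]
    have := h j
    rw [haj, h0] at this
    simpa using this
  · refine le_trans ?_ (h j)
    have h2 : (1 : ℤ) ≤ |a' j| := Int.one_le_abs h0
    have h3 : (1 : ℤ) ≤ |g| := Int.one_le_abs hg0
    have h4 : |a' j| ≤ |a j| := by
      rw [haj, abs_mul]
      nlinarith [abs_nonneg (a' j)]
    have h5 : ((|a' j| : ℤ) : ℝ) ≤ |(a j : ℝ)| := by
      have : ((|a' j| : ℤ) : ℝ) ≤ ((|a j| : ℤ) : ℝ) := by exact_mod_cast h4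
      simpa using this
    apply Real.log_le_log _ h5
    have : (0 : ℤ) < |a' j| := by omega
    exact_mod_cast this

/-- **Siegel's lemma in Plücker form** (projective version): the kernel of `B` contains a non-zero
integer vector `a` with `logHeight a ≤ (1 / k) * logHeight (Plücker point of B) + log k`. -/
theorem exists_kernel_logHeight_le (B : Matrix ι₁ ι ℚ)
    (hcard : Fintype.card ι₁ < Fintype.card ι) (hne : ∃ e : ι₁ ↪ ι, minorQ B e ≠ 0) :
    ∃ a : ι → ℤ, a ≠ 0 ∧ B *ᵥ (fun i => (a i : ℚ)) = 0 ∧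
      Height.logHeight (fun i => (a i : ℚ)) ≤
        (1 / ((Fintype.card ι - Fintype.card ι₁ : ℕ) : ℝ)) * Height.logHeight (minorQ B) +
          Real.log ((Fintype.card ι - Fintype.card ι₁ : ℕ) : ℝ) := by
  obtain ⟨a, ha0, hker, hbd⟩ := exists_small_kernel_logHeight B hcard hne
  exact ⟨a, ha0, hker, logHeight_intCast_le a ha0 _ hbd⟩

end Height

end Fermat.Agent.S17.H980

end
-- ===== PACK-END S17/H980/SiegelHeight.lean

-- ===== PACK-BEGIN S17/H980/MinkAdapter.lean
section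


/-!
# Adapter for Siegel's lemma: from points over `Q̄` to a rational form (S17 / tower H, helper980)

Situation of route (H-D), positivity step: `v : Matrix ι₁ ι L` has the (linearly independent)
coordinate vectors `x(P_i)` of the points of a Galois-stable reduced divisor `D` as rows
(`L = Q̄`), and `Λ ⊆ ℚ^ι` is the space of rational linear forms vanishing at all `P_i`
(`Λ = L(m∞ - D)(ℚ)`), known to have dimension `≥ n - d` (Riemann–Roch + Galois descent).

* `exists_rat_matrix_of_annihilator` : there is a RATIONAL matrix `B` with `ker B = Λ` whose maximal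
  minors are a common non-zero multiple of the maximal minors of `v` (no Plücker duality needed).
* `exists_mem_logHeight_le` : hence `Λ` contains a non-zero integer vector `a` with
  `logHeight a ≤ (1/k) * absH (maximal minors of v) + log k`, `k = n - d`, for ANY function `absH`
  on tuples over `L` which is invariant under scaling and restricts to `Height.logHeight` on
  rational tuples (e.g. an absolute logarithmic height on `Q̄`).
-/

set_option autoImplicit false

open Matrix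

namespace Fermat.Agent.S17.H980

section Adapter

variable {ι₁ ι κ : Type*} [Fintype ι₁] [DecidableEq ι₁] [Fintype ι] [DecidableEq ι]
  [Fintype κ] [DecidableEq κ]
variable {K : Type*} [Field K]

omit [Fintype ι] [DecidableEq ι] in
/-- A matrix with a non-vanishing maximal minor has linearly independent rows. -/
theorem linearIndependent_row_of_det_submatrix_ne_zero (M : Matrix ι₁ ι K) (e : ι₁ ↪ ι)
    (h : (M.submatrix id e).det ≠ 0) : LinearIndependent K M.row := by
  have h1 : LinearIndependent K (M.submatrix id e).row :=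
    Matrix.linearIndependent_rows_iff_isUnit.mpr
      ((Matrix.isUnit_iff_isUnit_det _).mpr h.isUnit)
  have h2 : (M.submatrix id e).row = (LinearMap.funLeft K K e) ∘ M.row := by
    ext i j
    rfl
  rw [h2] at h1
  exact h1.of_comp _

omit [DecidableEq ι₁] [DecidableEq ι] in
/-- Rank–nullity for a matrix with independent rows. -/
theorem finrank_ker_mulVecLin_add (M : Matrix ι₁ ι K) (h : LinearIndependent K M.row) :
    Module.finrank K (LinearMap.ker M.mulVecLin) + Fintype.card ι₁ = Fintype.card ι := by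
  have h1 := LinearMap.finrank_range_add_finrank_ker M.mulVecLin
  have h2 : Module.finrank K (LinearMap.range M.mulVecLin) = Fintype.card ι₁ := h.rank_matrix
  rw [h2, Module.finrank_fintype_fun_eq_card] at h1
  omega

omit [DecidableEq ι₁] [DecidableEq ι] [DecidableEq κ] in
/-- A basis of the kernel of a matrix with independent rows, as a matrix. -/
theorem exists_kernel_matrix (A : Matrix κ ι K) (hA : LinearIndependent K A.row)
    (hcard : Fintype.card κ + Fintype.card ι₁ = Fintype.card ι) :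
    ∃ B : Matrix ι₁ ι K, LinearIndependent K B.row ∧ ∀ i, A *ᵥ (B i) = 0 := by
  have h1 := finrank_ker_mulVecLin_add A hA
  have h2 : Module.finrank K (LinearMap.ker A.mulVecLin) = Fintype.card ι₁ := by omega
  let b := (Module.finBasisOfFinrankEq K (LinearMap.ker A.mulVecLin) h2).reindex
    (Fintype.equivFinOfCardEq rfl).symm
  refine ⟨fun i => (b i : ι → K), ?_, ?_⟩
  · have : LinearIndependent K (fun i => (b i : ι → K)) :=
      b.linearIndependent.map' (LinearMap.ker A.mulVecLin).subtype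
        (Submodule.ker_subtype _)
    exact this
  · intro i
    have := (b i).2
    rwa [LinearMap.mem_ker] at this

/-- **Rational model of the row space.**  `v` has independent rows over `L ⊇ ℚ`; `Λ ⊆ ℚ^ι` is a
rational subspace of dimension `≥ n - d` annihilated by the rows of `v`.  Then there is a rational
matrix `B` of the same shape with `ker B = Λ` whose maximal minors are `c` times those of `v`. -/
theorem exists_rat_matrix_of_annihilator {L : Type*} [Field L] [Algebra ℚ L]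
    (v : Matrix ι₁ ι L) (hv : LinearIndependent L v.row)
    (Λ : Submodule ℚ (ι → ℚ))
    (hΛ : ∀ a ∈ Λ, v *ᵥ (fun j => algebraMap ℚ L (a j)) = 0)
    (hdim : Fintype.card ι ≤ Module.finrank ℚ Λ + Fintype.card ι₁) :
    ∃ (B : Matrix ι₁ ι ℚ) (c : L), c ≠ 0 ∧
      (∀ e : ι₁ ↪ ι, algebraMap ℚ L (minorQ B e) = c * (v.submatrix id e).det) ∧
      (∃ e : ι₁ ↪ ι, minorQ B e ≠ 0) ∧
      (∀ a : ι → ℚ, B *ᵥ a = 0 ↔ a ∈ Λ) := by
  classical
  set k := Module.finrank ℚ Λ with hk
  let bΛ := Module.finBasis ℚ Λ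
  let A : Matrix (Fin k) ι ℚ := fun j => (bΛ j : ι → ℚ)
  have hA : LinearIndependent ℚ A.row :=
    bΛ.linearIndependent.map' Λ.subtype (Submodule.ker_subtype _)
  let AL : Matrix (Fin k) ι L := A.map (algebraMap ℚ L)
  obtain ⟨f, hf⟩ := exists_det_submatrix_ne_zero A hA
  have hALdet : (AL.submatrix id f).det ≠ 0 := by
    have h1 : AL.submatrix id f = (algebraMap ℚ L).mapMatrix (A.submatrix id f) := rfl
    rw [h1, ← RingHom.map_det]
    exact (map_ne_zero (algebraMap ℚ L)).mpr hf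
  have hAL : LinearIndependent L AL.row :=
    linearIndependent_row_of_det_submatrix_ne_zero AL f hALdet
  have hALv : ∀ j, v *ᵥ (AL j) = 0 := fun j => hΛ _ (bΛ j).2
  -- dimension count
  have hkd : k + Fintype.card ι₁ ≤ Fintype.card ι := by
    have h1 := finrank_ker_mulVecLin_add v hv
    have h2 : k ≤ Module.finrank L (LinearMap.ker v.mulVecLin) := by
      have hli : LinearIndependent L (fun j : Fin k =>
          (⟨AL j, by rw [LinearMap.mem_ker]; exact hALv j⟩ : LinearMap.ker v.mulVecLin)) := by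
        apply LinearIndependent.of_comp (LinearMap.ker v.mulVecLin).subtype
        exact hAL
      have := hli.fintype_card_le_finrank
      simpa using this
    omega
  have hkd' : k + Fintype.card ι₁ = Fintype.card ι := by omega
  obtain ⟨B, hB, hAB⟩ := exists_kernel_matrix (ι₁ := ι₁) A hA
    (by rw [Fintype.card_fin]; exact hkd')
  obtain ⟨e₀, he₀⟩ := exists_det_submatrix_ne_zero B hB
  -- `Λ ≤ ker B`
  have hΛspan : Λ = Submodule.span ℚ (Set.range A.row) := by
    have h := congrArg (Submodule.map Λ.subtype) bΛ.span_eq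
    rw [Submodule.map_span, Submodule.map_top, Submodule.range_subtype, ← Set.range_comp] at h
    exact h.symm
  have hdot : ∀ i j, B i ⬝ᵥ A j = 0 := by
    intro i j
    have := congrFun (hAB i) j
    rw [dotProduct_comm]
    exact this
  have hle : Λ ≤ LinearMap.ker B.mulVecLin := by
    rw [hΛspan, Submodule.span_le]
    rintro _ ⟨j, rfl⟩
    rw [SetLike.mem_coe, LinearMap.mem_ker]
    ext i
    exact hdot i j
  have hkerB : LinearMap.ker B.mulVecLin = Λ := by
    symm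
    apply Submodule.eq_of_le_of_finrank_eq hle
    have h1 := finrank_ker_mulVecLin_add B hB
    omega
  -- the rows of `v` span the kernel of `AL`
  let BL : Matrix ι₁ ι L := B.map (algebraMap ℚ L)
  have hvAL : ∀ i, AL *ᵥ (v i) = 0 := by
    intro i
    ext j
    have := congrFun (hALv j) i
    simp only [mulVec, Pi.zero_apply] at this ⊢
    rw [dotProduct_comm]
    exact this
  have hBLAL : ∀ i, AL *ᵥ (BL i) = 0 := by
    intro i
    ext j
    have := hdot i j
    rw [dotProduct_comm] at this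
    have h2 := congrArg (algebraMap ℚ L) this
    simp only [dotProduct, map_sum, map_mul, map_zero] at h2
    simpa [mulVec, dotProduct, AL, BL] using h2
  have hspan : Submodule.span L (Set.range v.row) = LinearMap.ker AL.mulVecLin := by
    apply Submodule.eq_of_le_of_finrank_eq
    · rw [Submodule.span_le]
      rintro _ ⟨i, rfl⟩
      rw [SetLike.mem_coe, LinearMap.mem_ker]
      exact hvAL i
    · have h1 := finrank_ker_mulVecLin_add AL hAL
      have h2 : Module.finrank L (Submodule.span L (Set.range v.row)) = Fintype.card ι₁ :=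
        finrank_span_eq_card hv
      simp only [Fintype.card_fin] at h1
      omega
  have hM : ∀ i, ∃ c : ι₁ → L, ∑ j, c j • v.row j = BL i := by
    intro i
    have h1 : BL i ∈ Submodule.span L (Set.range v.row) := by
      rw [hspan, LinearMap.mem_ker]
      exact hBLAL i
    exact (Submodule.mem_span_range_iff_exists_fun L).mp h1
  choose M hMspec using hM
  have hBLM : BL = (Matrix.of M) * v := by
    ext i l
    have := congrFun (hMspec i) l
    simp only [Finset.sum_apply, Pi.smul_apply, smul_eq_mul] at this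
    rw [← this]
    simp [Matrix.mul_apply, Matrix.row]
  have hminor : ∀ e : ι₁ ↪ ι,
      algebraMap ℚ L (minorQ B e) = (Matrix.of M).det * (v.submatrix id e).det := by
    intro e
    have h1 : algebraMap ℚ L (minorQ B e) = (BL.submatrix id e).det := by
      unfold minorQ
      rw [RingHom.map_det]
      rfl
    have h2 : BL.submatrix id e = (Matrix.of M) * (v.submatrix id e) := by
      rw [hBLM]
      ext i j
      simp [Matrix.mul_apply]
    rw [h1, h2, Matrix.det_mul]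
  refine ⟨B, (Matrix.of M).det, ?_, hminor, ⟨e₀, he₀⟩, ?_⟩
  · intro h0
    have := hminor e₀
    rw [h0, zero_mul] at this
    exact he₀ ((map_eq_zero (algebraMap ℚ L)).mp this)
  · intro a
    rw [← hkerB, LinearMap.mem_ker]
    rfl

/-- **Siegel's lemma for a Galois-stable point configuration**, weakest form of the height
hypothesis: `habs` says that `absH` of the Plücker vector of `v` may be computed from any rational
tuple proportional to it. -/
theorem exists_mem_logHeight_le_of_proportional {L : Type*} [Field L] [Algebra ℚ L]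
    (v : Matrix ι₁ ι L) (hv : LinearIndependent L v.row)
    (Λ : Submodule ℚ (ι → ℚ))
    (hΛ : ∀ a ∈ Λ, v *ᵥ (fun j => algebraMap ℚ L (a j)) = 0)
    (hdim : Fintype.card ι ≤ Module.finrank ℚ Λ + Fintype.card ι₁)
    (hcard : Fintype.card ι₁ < Fintype.card ι)
    (H : ℝ)
    (habs : ∀ (c : L) (w : (ι₁ ↪ ι) → ℚ), c ≠ 0 →
      (∀ e, algebraMap ℚ L (w e) = c * (v.submatrix id e).det) → Height.logHeight w = H) :
    ∃ a : ι → ℤ, a ≠ 0 ∧ (fun i => (a i : ℚ)) ∈ Λ ∧
      Height.logHeight (fun i => (a i : ℚ)) ≤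
        (1 / ((Fintype.card ι - Fintype.card ι₁ : ℕ) : ℝ)) * H +
          Real.log ((Fintype.card ι - Fintype.card ι₁ : ℕ) : ℝ) := by
  obtain ⟨B, c, hc, hminor, hne, hker⟩ := exists_rat_matrix_of_annihilator v hv Λ hΛ hdim
  obtain ⟨a, ha0, hBa, hle⟩ := exists_kernel_logHeight_le B hcard hne
  refine ⟨a, ha0, (hker _).mp hBa, ?_⟩
  rw [← habs c (minorQ B) hc hminor]
  exact hle

/-- **Siegel's lemma for a Galois-stable point configuration.**  `absH` is any function on tuples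
over `L` (an absolute logarithmic height) which is invariant under scaling and restricts to
`Height.logHeight` on rational tuples.  Then the rational space `Λ` of linear forms vanishing on
the rows of `v` contains a non-zero integer vector of height at most
`(1/k) * absH (Plücker vector of v) + log k`, `k = n - d`. -/
theorem exists_mem_logHeight_le {L : Type*} [Field L] [Algebra ℚ L]
    (v : Matrix ι₁ ι L) (hv : LinearIndependent L v.row)
    (Λ : Submodule ℚ (ι → ℚ))
    (hΛ : ∀ a ∈ Λ, v *ᵥ (fun j => algebraMap ℚ L (a j)) = 0)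
    (hdim : Fintype.card ι ≤ Module.finrank ℚ Λ + Fintype.card ι₁)
    (hcard : Fintype.card ι₁ < Fintype.card ι)
    (absH : ((ι₁ ↪ ι) → L) → ℝ)
    (habs_smul : ∀ (c : L) (w : (ι₁ ↪ ι) → L), c ≠ 0 → absH (c • w) = absH w)
    (habs_rat : ∀ w : (ι₁ ↪ ι) → ℚ,
      absH (fun e => algebraMap ℚ L (w e)) = Height.logHeight w) :
    ∃ a : ι → ℤ, a ≠ 0 ∧ (fun i => (a i : ℚ)) ∈ Λ ∧
      Height.logHeight (fun i => (a i : ℚ)) ≤
        (1 / ((Fintype.card ι - Fintype.card ι₁ : ℕ) : ℝ)) *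
            absH (fun e => (v.submatrix id e).det) +
          Real.log ((Fintype.card ι - Fintype.card ι₁ : ℕ) : ℝ) := by
  apply exists_mem_logHeight_le_of_proportional v hv Λ hΛ hdim hcard
  intro c w hc hw
  rw [← habs_rat w, ← habs_smul c (fun e => (v.submatrix id e).det) hc]
  congr 1
  ext e
  rw [hw e]
  rfl

end Adapter

end Fermat.Agent.S17.H980

end
-- ===== PACK-END S17/H980/MinkAdapter.lean

-- ===== PACK-BEGIN S41/H581/PDDictB.lean
section




/-!
# Row S41, block PD, leaves DICT-b (helper581)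

* `maninRepRealize : Spec.ManinRepRealizeStatement` (D3): every Manin symbol represents a class;
* `maninRepTorsion_of : Spec.TorsionClassStatement → Spec.ManinRepTorsionStatement` (D3'):
  represented classes kill the elements of finite order;
* `maninRepParabolic : Spec.ManinRepParabolicStatement` (D4): `φ` is parabolic iff `m` admits
  parabolic data.

Everything is cocycle algebra on `X = SL(2,ℤ) ⧸ Γ` (`Fermat.Agent.S21.H585`).
-/

set_option autoImplicit false

namespace Fermat.Agent.S41.H581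

open CongruenceSubgroup Matrix.SpecialLinearGroup ModularCurve.Period ModularGroup
open Fermat.Agent.S41.Spec Fermat.Agent.S21.H585
open scoped MatrixGroups

universe u

section Basic

variable {Γ : Subgroup SL(2, ℤ)} {A : Type*} [AddCommGroup A]

theorem isManinCocycle_isCocycle {f : SL(2, ℤ) → SL(2, ℤ) ⧸ Γ → A} {m : SL(2, ℤ) ⧸ Γ → A}
    (hf : IsManinCocycle Γ f m) : IsCocycle f := hf.1

theorem smul_basePt_eq_iff (g : SL(2, ℤ)) : g • basePt Γ = basePt Γ ↔ g ∈ Γ := by
  rw [smul_basePt_eq, basePt, QuotientGroup.eq, mul_one, inv_mem_iff]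

/-- `ST` cubed acts trivially on `X` when `-1 ∈ Γ`. -/
theorem ST_cube_smul (hneg : (-1 : SL(2, ℤ)) ∈ Γ) (x : SL(2, ℤ) ⧸ Γ) :
    (S * T) • (S * T) • (S * T) • x = x := by
  rw [smul_smul, smul_smul, ST_cube_eq_neg_one, neg_one_smul_quot hneg]

theorem S_sq_smul (hneg : (-1 : SL(2, ℤ)) ∈ Γ) (x : SL(2, ℤ) ⧸ Γ) : S • S • x = x := by
  rw [smul_smul, S_mul_S_eq_neg_one, neg_one_smul_quot hneg]

/-- For a normalised cocycle, `f (-1) = 0`. -/
theorem maninCocycle_neg_one {f : SL(2, ℤ) → SL(2, ℤ) ⧸ Γ → A} {m : SL(2, ℤ) ⧸ Γ → A}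
    (hf : IsManinCocycle Γ f m) (x : SL(2, ℤ) ⧸ Γ) : f (-1) x = 0 := by
  rw [← S_mul_S_eq_neg_one, hf.1, hf.2.1, hf.2.1, add_zero]

/-- For a normalised cocycle, `f (-g) = f g`. -/
theorem maninCocycle_neg {f : SL(2, ℤ) → SL(2, ℤ) ⧸ Γ → A} {m : SL(2, ℤ) ⧸ Γ → A}
    (hf : IsManinCocycle Γ f m) (g : SL(2, ℤ)) (x : SL(2, ℤ) ⧸ Γ) : f (-g) x = f g x := by
  have h : (-g : SL(2, ℤ)) = (-1) * g := by simp
  rw [h, hf.1, maninCocycle_neg_one hf, add_zero]

/-- For a normalised cocycle, `f T = f (S T)`. -/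
theorem maninCocycle_T {f : SL(2, ℤ) → SL(2, ℤ) ⧸ Γ → A} {m : SL(2, ℤ) ⧸ Γ → A}
    (hf : IsManinCocycle Γ f m) (x : SL(2, ℤ) ⧸ Γ) : f T x = m ((S * T) • x) - m x := by
  have h1 : T = S⁻¹ * (S * T) := by rw [inv_mul_cancel_left]
  have hc : IsCocycle f := hf.1
  conv_lhs => rw [h1]
  rw [hf.1, hc.map_inv', hf.2.1, hf.2.2, neg_zero, add_zero]

/-- Transport of a value of the class along a conjugation. -/
theorem maninRep_conj {φ : Additive Γ →+ A} {f : SL(2, ℤ) → SL(2, ℤ) ⧸ Γ → A}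
    (hf : IsCocycle f)
    (hφ : ∀ γ : Γ, φ (Additive.ofMul γ) = f (γ : SL(2, ℤ)) ((1 : SL(2, ℤ)) : SL(2, ℤ) ⧸ Γ))
    (γ : Γ) (h t : SL(2, ℤ)) (ht : h * (γ : SL(2, ℤ)) * h⁻¹ = t) :
    φ (Additive.ofMul γ) = f t (h • basePt Γ) ∧ t • (h • basePt Γ) = h • basePt Γ := by
  have hγ : (γ : SL(2, ℤ)) = h⁻¹ * t * h⁻¹⁻¹ := by
    rw [← ht]; group
  have hfix : (h⁻¹ * t * h⁻¹⁻¹) • basePt Γ = basePt Γ := by
    rw [← hγ]; exact smul_basePt_of_mem Γ γ.2
  refine ⟨?_, ?_⟩
  · rw [hφ γ]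
    show f (γ : SL(2, ℤ)) (basePt Γ) = _
    rw [hγ, hf.conj_apply h⁻¹ t hfix, inv_inv]
  · rw [← ht, ← mul_smul, inv_mul_cancel_right, mul_smul, smul_basePt_of_mem Γ γ.2]

end Basic

/-- (D3) every Manin symbol represents a class. -/
theorem maninRepRealize : Spec.ManinRepRealizeStatement.{u} := by
  intro Γ _ hneg A _ m
  have hn := neg_one_smul_quot hneg
  obtain ⟨f, hf, hfS, hfU⟩ := exists_cocycle (X := SL(2, ℤ) ⧸ Γ) hn (0 : SL(2, ℤ) ⧸ Γ → A)
    (fun x => m ((S * T) • x) - m x) (fun x => by simp)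
    (fun x => by
      rw [ST_cube_smul hneg]
      abel)
  refine ⟨homOfCocycle Γ f hf, f, ⟨hf, fun x => by rw [hfS]; rfl, fun x => by rw [hfU]⟩,
    fun γ => rfl⟩

/-- (D3') represented classes are torsion-trivial, given the classification of torsion. -/
theorem maninRepTorsion_of (tors : Spec.TorsionClassStatement) :
    Spec.ManinRepTorsionStatement.{u} := by
  intro Γ _ hneg A _ φ m hrep γ hγ
  obtain ⟨f, hf, hφ⟩ := hrep
  have hc : IsCocycle f := hf.1
  have hn := neg_one_smul_quot hneg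
  have hγ' : IsOfFinOrder (γ : SL(2, ℤ)) := Γ.subtype.isOfFinOrder hγ
  obtain ⟨h, ht⟩ := tors (γ : SL(2, ℤ)) hγ'
  -- values of `f` on the eight torsion elements at a fixed point
  have hU : ∀ y : SL(2, ℤ) ⧸ Γ, (S * T) • y = y → f (S * T) y = 0 := by
    intro y hy
    rw [hf.2.2, hy, sub_self]
  have hU2 : ∀ y : SL(2, ℤ) ⧸ Γ, (S * T) ^ 2 • y = y → f ((S * T) ^ 2) y = 0 := by
    intro y hy
    rw [pow_two] at hy ⊢
    rw [hf.1, hf.2.2, hf.2.2, ← mul_smul, hy]
    abel
  have hnegsmul : ∀ (g : SL(2, ℤ)) (y : SL(2, ℤ) ⧸ Γ), (-g) • y = g • y := by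
    intro g y
    have h1 : (-g : SL(2, ℤ)) = (-1) * g := by simp
    rw [h1, mul_smul, hn]
  rcases ht with ht | ht | ht | ht | ht | ht | ht | ht
  · rw [(maninRep_conj hc hφ γ h _ ht).1, hc.map_one]
  · rw [(maninRep_conj hc hφ γ h _ ht).1, maninCocycle_neg_one hf]
  · rw [(maninRep_conj hc hφ γ h _ ht).1, hf.2.1]
  · rw [(maninRep_conj hc hφ γ h _ ht).1, maninCocycle_neg hf, hf.2.1]
  · obtain ⟨h1, h2⟩ := maninRep_conj hc hφ γ h _ ht
    rw [h1, hU _ h2]
  · obtain ⟨h1, h2⟩ := maninRep_conj hc hφ γ h _ ht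
    rw [h1, maninCocycle_neg hf, hU _ (by rw [← hnegsmul]; exact h2)]
  · obtain ⟨h1, h2⟩ := maninRep_conj hc hφ γ h _ ht
    rw [h1, hU2 _ h2]
  · obtain ⟨h1, h2⟩ := maninRep_conj hc hφ γ h _ ht
    rw [h1, maninCocycle_neg hf, hU2 _ (by rw [← hnegsmul]; exact h2)]

section Parabolic

variable {Γ : Subgroup SL(2, ℤ)} {A : Type*} [AddCommGroup A]

theorem trace_T_zpow (k : ℤ) : ((T ^ k : SL(2, ℤ)) : Matrix (Fin 2) (Fin 2) ℤ).trace = 2 := by
  rw [coe_T_zpow, Matrix.trace_fin_two_of]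
  norm_num

theorem trace_conj_sl' (t x : SL(2, ℤ)) :
    ((t * x * t⁻¹ : SL(2, ℤ)) : Matrix (Fin 2) (Fin 2) ℤ).trace =
      (x : Matrix (Fin 2) (Fin 2) ℤ).trace := by
  rw [mul_assoc, Matrix.SpecialLinearGroup.coe_mul, Matrix.trace_mul_comm,
    ← Matrix.SpecialLinearGroup.coe_mul, mul_assoc, inv_mul_cancel, mul_one]

/-- If `φ` is parabolic, the cocycle vanishes on `T ^ k` at the fixed points of `T ^ k`. -/
theorem cocycle_T_zpow_fixed {φ : Additive Γ →+ A} {f : SL(2, ℤ) → SL(2, ℤ) ⧸ Γ → A}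
    (hf : IsCocycle f)
    (hφ : ∀ γ : Γ, φ (Additive.ofMul γ) = f (γ : SL(2, ℤ)) ((1 : SL(2, ℤ)) : SL(2, ℤ) ⧸ Γ))
    (hpar : IsParabolicHom Γ φ) (k : ℤ) (y : SL(2, ℤ) ⧸ Γ) (hy : T ^ k • y = y) :
    f (T ^ k) y = 0 := by
  set g : SL(2, ℤ) := Quotient.out y with hg
  have hgy : g • basePt Γ = y := out_smul_basePt Γ y
  have hmem : g⁻¹ * T ^ k * g ∈ Γ := by
    rw [← smul_basePt_eq_iff, mul_smul, mul_smul, hgy, hy, ← hgy, inv_smul_smul]
  have h1 := maninRep_conj hf hφ ⟨g⁻¹ * T ^ k * g, hmem⟩ g (T ^ k) (by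
    show g * (g⁻¹ * T ^ k * g) * g⁻¹ = T ^ k
    group)
  rw [hgy] at h1
  rw [← h1.1]
  apply hpar
  show ((g⁻¹ * T ^ k * g : SL(2, ℤ)) : Matrix (Fin 2) (Fin 2) ℤ).trace ^ 2 = 4
  have h2 := trace_conj_sl' g⁻¹ (T ^ k)
  rw [inv_inv] at h2
  rw [h2, trace_T_zpow]
  norm_num

end Parabolic

/-- (D4) `φ` is parabolic iff `m` admits parabolic data. -/
theorem maninRepParabolic : Spec.ManinRepParabolicStatement.{u} := by
  intro Γ _ hneg A _ φ m hrep
  obtain ⟨f, hf, hφ⟩ := hrep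
  have hc : IsCocycle f := hf.1
  have hn := neg_one_smul_quot hneg
  have hfT := maninCocycle_T hf
  constructor
  · -- parabolic ⇒ parabolic data
    intro hpar
    have hfix := cocycle_T_zpow_fixed hc hφ hpar
    -- orbit representatives
    have hex : ∀ x : SL(2, ℤ) ⧸ Γ, ∃ k : ℤ, T ^ k • Quotient.out (orbMk T x) = x := by
      intro x
      have h1 : orbMk T (Quotient.out (orbMk T x)) = orbMk T x := Quotient.out_eq' _
      obtain ⟨k, hk⟩ := (orbMk_eq_iff T _ _).mp h1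
      refine ⟨-k, ?_⟩
      rw [← hk, ← mul_smul, ← zpow_add, neg_add_cancel, zpow_zero, one_smul]
    choose k hk using hex
    refine ⟨fun x => f (T ^ k x) (Quotient.out (orbMk T x)), fun x => ?_⟩
    show f (T ^ k (T • x)) (Quotient.out (orbMk T (T • x))) -
      f (T ^ k x) (Quotient.out (orbMk T x)) = m ((S * T) • x) - m x
    rw [← hfT x]
    have hr : orbMk T (T • x) = orbMk T x := orbMk_smul T x
    rw [hr]
    set r := Quotient.out (orbMk T x) with hrdef
    have h1 : T ^ k (T • x) • r = T • x := by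
      have := hk (T • x)
      rwa [hr] at this
    have h2 : T ^ k x • r = x := hk x
    -- `T ^ (k' - k - 1)` fixes `T • x`
    have e1 : (T * T ^ k x) • r = T • x := by rw [mul_smul, h2]
    have e2 : T ^ k (T • x) = T ^ (k (T • x) - (k x + 1)) * (T * T ^ k x) := by
      rw [← zpow_one_add, ← zpow_add]
      congr 1
      ring
    have h3 : T ^ (k (T • x) - (k x + 1)) • (T • x) = T • x := by
      have e3 := h1
      rw [e2, mul_smul, e1] at e3
      exact e3
    have h4 := hfix _ _ h3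
    have h5 : f (T ^ k (T • x)) r = f (T ^ k x) r + f T x := by
      rw [e2, hc, e1, h4, add_zero, hc, h2]
    rw [h5]
    abel
  · -- parabolic data ⇒ parabolic
    rintro ⟨e, he⟩
    have hT : ∀ x, f T x = e (T • x) - e x := fun x => by rw [hfT, he]
    have hzpow := hc.zpow_of_cobd T e hT
    intro γ hγ
    have key : ∀ (g : SL(2, ℤ)) (k : ℤ), (g * T ^ k * g⁻¹) • basePt Γ = basePt Γ →
        f (g * T ^ k * g⁻¹) (basePt Γ) = 0 := by
      intro g k hfix
      rw [hc.conj_apply g (T ^ k) hfix, hzpow]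
      have h1 : T ^ k • g⁻¹ • basePt Γ = g⁻¹ • basePt Γ := by
        calc T ^ k • g⁻¹ • basePt Γ = g⁻¹ • (g * T ^ k * g⁻¹) • basePt Γ := by
              simp only [mul_smul, inv_smul_smul]
          _ = g⁻¹ • basePt Γ := by rw [hfix]
      rw [h1, sub_self]
    rw [hφ γ]
    show f (γ : SL(2, ℤ)) (basePt Γ) = 0
    obtain ⟨g, k, h | h⟩ := exists_conj_T_zpow (γ : SL(2, ℤ)) hγ
    · rw [h]
      apply key
      rw [← h]
      exact smul_basePt_of_mem Γ γ.2
    · have h2 : (g * T ^ k * g⁻¹) • basePt Γ = basePt Γ := by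
        have h3 : g * T ^ k * g⁻¹ = (-1) * (γ : SL(2, ℤ)) := by
          rw [h]; simp
        rw [h3, mul_smul, smul_basePt_of_mem Γ γ.2, hn]
      rw [h, maninCocycle_neg hf]
      exact key g k h2

end Fermat.Agent.S41.H581

end
-- ===== PACK-END S41/H581/PDDictB.lean

-- ===== PACK-BEGIN S15/H226/WpInj.lean
section


/-!
# S15 / MOD-B3 (helper226): `℘ z = ℘ w ↔ z ≡ ± w mod Λ`

Mathlib-only (through `WpAdd`).  Consequence of the addition relation.
-/

set_option autoImplicit false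

open Filter Topology

noncomputable section

namespace Fermat.Agent.S15.H226

open PeriodPair

theorem eventually_nhdsNE_add_notMem226 (L : PeriodPair) (c z₀ : ℂ) :
    ∀ᶠ u in 𝓝[≠] z₀, u + c ∉ L.lattice := by
  have ht : Tendsto (fun y : ℂ => y + c) (𝓝 z₀) (𝓝 (z₀ + c)) :=
    (continuous_id.add continuous_const).continuousAt
  have h1 := ht.eventually (L.compl_lattice_sdiff_singleton_mem_nhds (z₀ + c))
  rw [eventually_nhdsWithin_iff]
  filter_upwards [h1] with u hu hne hmem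
  exact hu ⟨hmem, fun h' => hne (by simpa using h')⟩

theorem meromorphicOrderAt_shift226 (L : PeriodPair) {c z₀ : ℂ} (h : z₀ + c ∈ L.lattice) :
    meromorphicOrderAt (fun u => ℘[L] (u + c)) z₀ = -2 := by
  have := meromorphicOrderAt_comp_add_const_eq_meromorphicOrderAt
    (f := ℘[L]) (c := c) (x := z₀)
  rw [L.order_weierstrassP _ h] at this
  exact this

/-- If `℘ z = ℘ w` and `z + w ∉ Λ` then `℘' z = ℘' w`. -/
theorem derivWeierstrassP_eq_of_eq226 (L : PeriodPair) {z w : ℂ} (hz : z ∉ L.lattice)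
    (hw : w ∉ L.lattice) (hzw : z + w ∉ L.lattice) (h : ℘[L] z = ℘[L] w) :
    ℘'[L] z = ℘'[L] w := by
  have h0 := addRel226_eq_zero L hw hz hzw
  have h1 := L.derivWeierstrassP_sq z hz
  have h2 := L.derivWeierstrassP_sq w hw
  simp only [addRel226, h] at h0
  rw [h] at h1
  have hsq : (℘'[L] z - ℘'[L] w) ^ 2 = 0 := by
    linear_combination h0 + h1 + h2
  exact sub_eq_zero.mp ((pow_eq_zero_iff (two_ne_zero)).mp hsq)

/-- **Injectivity of `℘` modulo `± 1` and the lattice.** -/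
theorem weierstrassP_eq_iff226 (L : PeriodPair) {z w : ℂ} (hz : z ∉ L.lattice)
    (hw : w ∉ L.lattice) :
    ℘[L] z = ℘[L] w ↔ z - w ∈ L.lattice ∨ z + w ∈ L.lattice := by
  constructor
  swap
  · rintro (h | h)
    · have := L.weierstrassP_add_coe w ⟨z - w, h⟩
      simpa using this
    · exact weierstrassP_eq_of_add_mem226 L h
  intro hx
  by_contra hcon
  rw [not_or] at hcon
  obtain ⟨hzw', hzw⟩ := hcon
  -- Step 1: `℘' z = ℘' w`
  have hy : ℘'[L] z = ℘'[L] w := derivWeierstrassP_eq_of_eq226 L hz hw hzw hx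
  -- Step 2: the product relation on the regular locus
  set S : Set ℂ := (L.lattice : Set ℂ) ∪ ((fun u : ℂ => u + z) ⁻¹' (L.lattice : Set ℂ))
    ∪ ((fun u : ℂ => u + w) ⁻¹' (L.lattice : Set ℂ)) with hS
  have hSclosed : IsClosed S := by
    refine (L.isClosed_lattice.union ?_).union ?_
    · exact L.isClosed_lattice.preimage (by fun_prop)
    · exact L.isClosed_lattice.preimage (by fun_prop)
  have hScount : S.Countable := by
    refine ((countable_lattice226 L).union ?_).union ?_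
    · exact (countable_lattice226 L).preimage (add_left_injective z)
    · exact (countable_lattice226 L).preimage (add_left_injective w)
  have hconn : IsPreconnected Sᶜ := by
    have h : 1 < Module.rank ℝ ℂ := by
      rw [Complex.rank_real_complex]; norm_num
    exact (hScount.isConnected_compl_of_one_lt_rank h).isPreconnected
  have hmemS : ∀ u, u ∈ Sᶜ ↔ u ∉ L.lattice ∧ u + z ∉ L.lattice ∧ u + w ∉ L.lattice := by
    intro u
    simp only [hS, Set.mem_compl_iff, Set.mem_union, Set.mem_preimage, SetLike.mem_coe, not_or]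
    tauto
  have hprod : ∀ u ∈ Sᶜ, (℘[L] (u + z) - ℘[L] (u + w)) * (℘[L] u - ℘[L] w) ^ 2 = 0 := by
    intro u hu
    obtain ⟨hu0, huz, huw⟩ := (hmemS u).mp hu
    have e1 := weierstrassP_add_mul226 L hz hu0 huz
    have e2 := weierstrassP_add_mul226 L hw hu0 huw
    rw [hx, hy] at e1
    linear_combination (1 / 4 : ℂ) * e1 - (1 / 4 : ℂ) * e2
  have han1 : AnalyticOnNhd ℂ (fun u => ℘[L] (u + z) - ℘[L] (u + w)) Sᶜ := by
    intro u hu
    obtain ⟨hu0, huz, huw⟩ := (hmemS u).mp hu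
    have h1 := analyticAt_shift226 L huz
    have h2 := analyticAt_shift226 L huw
    fun_prop
  have han2 : AnalyticOnNhd ℂ (fun u => (℘[L] u - ℘[L] w) ^ 2) Sᶜ := by
    intro u hu
    obtain ⟨hu0, huz, huw⟩ := (hmemS u).mp hu
    have h1 : AnalyticAt ℂ ℘[L] u := L.analyticOnNhd_weierstrassP _ hu0
    fun_prop
  rcases AnalyticOnNhd.eq_zero_or_eq_zero_of_mul_eq_zero han1 han2 hprod hconn with hA | hB
  · -- Case A: `℘ (u + z) = ℘ (u + w)` near `-z`, contradiction with the pole at `u = -z`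
    have hz0 : -z + z ∈ L.lattice := by simp
    have hzL : -z ∉ L.lattice := fun h => hz (by simpa using neg_mem h)
    have hwz : -z + w ∉ L.lattice := fun h => hzw' (by
      have := neg_mem h
      simpa [sub_eq_add_neg, add_comm] using this)
    have hev : (fun u => ℘[L] (u + z)) =ᶠ[𝓝[≠] (-z)] fun u => ℘[L] (u + w) := by
      filter_upwards [eventually_nhdsNE_add_notMem226 L z (-z),
        mem_nhdsWithin_of_mem_nhds (L.isClosed_lattice.isOpen_compl.mem_nhds hzL),
        mem_nhdsWithin_of_mem_nhds (eventually_add_notMem226 L hwz)] with u h1 h2 h3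
      exact sub_eq_zero.mp (hA u ((hmemS u).mpr ⟨h2, h1, h3⟩))
    have h1 := meromorphicOrderAt_congr hev
    rw [meromorphicOrderAt_shift226 L hz0] at h1
    have h2 := (analyticAt_shift226 L hwz).meromorphicOrderAt_nonneg
    rw [← h1] at h2
    exact absurd h2 (by decide)
  · -- Case B: `℘ = ℘ w` near `0`, contradiction with the pole at `0`
    have hz' : (0 : ℂ) + z ∉ L.lattice := by simpa using hz
    have hw' : (0 : ℂ) + w ∉ L.lattice := by simpa using hw
    have hev : ℘[L] =ᶠ[𝓝[≠] (0 : ℂ)] fun _ => ℘[L] w := by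
      filter_upwards [eventually_nhdsNE_add_notMem226 L 0 0,
        mem_nhdsWithin_of_mem_nhds (eventually_add_notMem226 L hz'),
        mem_nhdsWithin_of_mem_nhds (eventually_add_notMem226 L hw')] with u h1 h2 h3
      have := hB u ((hmemS u).mpr ⟨by simpa using h1, h2, h3⟩)
      exact sub_eq_zero.mp ((pow_eq_zero_iff (two_ne_zero)).mp this)
    have h1 := meromorphicOrderAt_congr hev
    rw [L.order_weierstrassP 0 (zero_mem _)] at h1
    have h2 : (0 : WithTop ℤ) ≤ meromorphicOrderAt (fun _ : ℂ => ℘[L] w) 0 :=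
      (analyticAt_const).meromorphicOrderAt_nonneg
    rw [← h1] at h2
    exact absurd h2 (by decide)

end Fermat.Agent.S15.H226

end
end
-- ===== PACK-END S15/H226/WpInj.lean

-- ===== PACK-BEGIN S15/H902/LatticeExists.lean
section




/-!
# S15 / MOD-B2 (helper902): a lattice with prescribed invariants

`exists_periodPair_g₂_g₃` : for `g₂³ - 27 g₃² ≠ 0` there is a `PeriodPair` `L` with
`L.g₂ = g₂` and `L.g₃ = g₃`.

Proof: `j : ℍ → ℂ` is surjective (`S24.M7.H47.jFun_surjective`, on main), the invariants of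
`ℤ + ℤ τ` are `(4/3) π⁴ E₄ τ`, `(8/27) π⁶ E₆ τ` (`S20.T2h423`, on main), and scaling.
-/

set_option autoImplicit false

open UpperHalfPlane ModularForm EisensteinSeries

noncomputable section

namespace Fermat.Agent.S15.H902

open Fermat.Agent.S20.T2h423 Fermat.Agent.S24.M7.H47 Fermat.Agent.S20.L1

/-- algebra: from `a³ b'² = a'³ b²` with `a³ ≠ 27 b²`, `a'³ ≠ 27 b'²`, find `μ ≠ 0` with
`a' = μ⁴ a`, `b' = μ⁶ b`. -/
theorem exists_scale_h902 (a b a' b' : ℂ) (hd : a ^ 3 - 27 * b ^ 2 ≠ 0)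
    (hd' : a' ^ 3 - 27 * b' ^ 2 ≠ 0) (h : a ^ 3 * b' ^ 2 = a' ^ 3 * b ^ 2) :
    ∃ μ : ℂ, μ ≠ 0 ∧ a' = μ ^ 4 * a ∧ b' = μ ^ 6 * b := by
  by_cases ha : a = 0
  · subst ha
    have hb : b ≠ 0 := by
      intro hb; apply hd; simp [hb]
    have ha' : a' = 0 := by
      have : a' ^ 3 * b ^ 2 = 0 := by rw [← h]; simp
      rcases mul_eq_zero.mp this with h1 | h1
      · exact pow_eq_zero_iff (by norm_num) |>.mp h1
      · exact absurd (pow_eq_zero_iff (by norm_num) |>.mp h1) hb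
    subst ha'
    have hb' : b' ≠ 0 := by
      intro hb'; apply hd'; simp [hb']
    obtain ⟨μ, hμ⟩ := IsAlgClosed.exists_pow_nat_eq (b' / b) (n := 6) (by norm_num)
    refine ⟨μ, ?_, by simp, ?_⟩
    · rintro rfl
      have : b' / b = 0 := by rw [← hμ]; simp
      exact div_ne_zero hb' hb this
    · rw [hμ]; field_simp
  by_cases hb : b = 0
  · subst hb
    have hb' : b' = 0 := by
      have : a ^ 3 * b' ^ 2 = 0 := by rw [h]; simp
      rcases mul_eq_zero.mp this with h1 | h1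
      · exact absurd (pow_eq_zero_iff (by norm_num) |>.mp h1) ha
      · exact pow_eq_zero_iff (by norm_num) |>.mp h1
    subst hb'
    have ha' : a' ≠ 0 := by
      intro ha'; apply hd'; simp [ha']
    obtain ⟨μ, hμ⟩ := IsAlgClosed.exists_pow_nat_eq (a' / a) (n := 4) (by norm_num)
    refine ⟨μ, ?_, ?_, by simp⟩
    · rintro rfl
      have : a' / a = 0 := by rw [← hμ]; simp
      exact div_ne_zero ha' ha this
    · rw [hμ]; field_simp
  have ha' : a' ≠ 0 := by
    rintro rfl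
    have : a ^ 3 * b' ^ 2 = 0 := by rw [h]; simp
    rcases mul_eq_zero.mp this with h1 | h1
    · exact absurd (pow_eq_zero_iff (by norm_num) |>.mp h1) ha
    · have hb' : b' = 0 := pow_eq_zero_iff (by norm_num) |>.mp h1
      apply hd'; simp [hb']
  have hb' : b' ≠ 0 := by
    rintro rfl
    have : a' ^ 3 * b ^ 2 = 0 := by rw [← h]; simp
    rcases mul_eq_zero.mp this with h1 | h1
    · exact absurd (pow_eq_zero_iff (by norm_num) |>.mp h1) ha'
    · exact absurd (pow_eq_zero_iff (by norm_num) |>.mp h1) hb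
  obtain ⟨μ, hμ⟩ := IsAlgClosed.exists_pow_nat_eq (a * b' / (a' * b)) (n := 2) (by norm_num)
  have hμ0 : μ ≠ 0 := by
    rintro rfl
    have : a * b' / (a' * b) = 0 := by rw [← hμ]; simp
    exact div_ne_zero (mul_ne_zero ha hb') (mul_ne_zero ha' hb) this
  have h4 : μ ^ 4 = a' / a := by
    have : μ ^ 4 = (μ ^ 2) ^ 2 := by ring
    rw [this, hμ]
    field_simp
    exact h
  refine ⟨μ, hμ0, ?_, ?_⟩
  · rw [h4]; field_simp
  · have : μ ^ 6 = μ ^ 4 * μ ^ 2 := by ring
    rw [this, h4, hμ]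
    field_simp

/-- the discriminant of the lattice `ℤ + ℤ τ` is not zero -/
theorem g₂_cube_sub_g₃_sq_pairOf_ne_zero (τ : ℍ) :
    (pairOf τ).g₂ ^ 3 - 27 * (pairOf τ).g₃ ^ 2 ≠ 0 := by
  rw [g₂_cube_sub_g₃_sq_pairOf]
  refine mul_ne_zero (pow_ne_zero _ (mul_ne_zero two_ne_zero ?_)) (discriminant_ne_zero τ)
  exact_mod_cast Real.pi_ne_zero

/-- `j(τ) (g₂³ - 27 g₃²) = 1728 g₂³` for the lattice `ℤ + ℤ τ`. -/
theorem jFun_mul_pairOf (τ : ℍ) :
    jFun τ * ((pairOf τ).g₂ ^ 3 - 27 * (pairOf τ).g₃ ^ 2) = 1728 * (pairOf τ).g₂ ^ 3 := by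
  rw [g₂_cube_sub_g₃_sq_pairOf, g₂_pairOf, jFun]
  have hΔ := discriminant_ne_zero τ
  field_simp
  ring

/-- **MOD-B2.** A lattice with prescribed invariants `g₂, g₃`, `g₂³ - 27 g₃² ≠ 0`. -/
theorem exists_periodPair_g₂_g₃ (g2 g3 : ℂ) (h : g2 ^ 3 - 27 * g3 ^ 2 ≠ 0) :
    ∃ L : PeriodPair, L.g₂ = g2 ∧ L.g₃ = g3 := by
  obtain ⟨τ, hτ⟩ := jFun_surjective (1728 * g2 ^ 3 / (g2 ^ 3 - 27 * g3 ^ 2))
  have h0 := g₂_cube_sub_g₃_sq_pairOf_ne_zero τ
  have hj := jFun_mul_pairOf τ
  rw [hτ] at hj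
  set a := (pairOf τ).g₂ with ha
  set b := (pairOf τ).g₃ with hb
  have hrel : a ^ 3 * g3 ^ 2 = g2 ^ 3 * b ^ 2 := by
    field_simp at hj
    linear_combination (1 / 27 : ℂ) * hj
  obtain ⟨μ, hμ0, h2, h3⟩ := exists_scale_h902 a b g2 g3 h0 h hrel
  refine ⟨scalePair μ⁻¹ (inv_ne_zero hμ0) (pairOf τ), ?_, ?_⟩
  · rw [g₂_scalePair, h2, inv_pow, inv_inv]
  · rw [g₃_scalePair, h3, inv_pow, inv_inv]

end Fermat.Agent.S15.H902

end

end
-- ===== PACK-END S15/H902/LatticeExists.lean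

-- ===== PACK-BEGIN S15/H902/Uniformization.lean
section




/-!
# S15 / MOD-B3 assembly (helper902): complex uniformisation of elliptic curves

`uniformization : H542.UniformizationStatement` : every Weierstrass curve `E` over `ℂ` with
`Δ ≠ 0` is `ℂ/Λ`, via `z ↦ (℘(z) - b₂/12, (℘'(z) - a₁ x - a₃)/2)`.

Inputs (on main): the lattice with prescribed invariants (`LatticeExists`, B2), the addition
theorem for `℘`, `℘'` and `℘ z = ℘ w ↔ z ≡ ± w` (helper226, `H226/WpAdd`, `H226/WpInj`).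
The non-generic cases of the group law are obtained by the translation trick
`Φ(2z) = Φ(z + t) + Φ(z - t)`; no duplication formula is used.
-/

set_option autoImplicit false

open Filter Topology

noncomputable section

namespace Fermat.Agent.S15.H902

open PeriodPair WeierstrassCurve Fermat.Agent.S15.H226 Fermat.Agent.S15.H542

/-! ### Elementary lattice facts -/

theorem neg_notMem_h902 (L : PeriodPair) {z : ℂ} (hz : z ∉ L.lattice) : -z ∉ L.lattice :=
  fun h => hz (by simpa using neg_mem h)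

theorem add_mem_iff_h902 (L : PeriodPair) {z l : ℂ} (hl : l ∈ L.lattice) :
    z + l ∈ L.lattice ↔ z ∈ L.lattice :=
  ⟨fun h => by simpa using sub_mem h hl, fun h => add_mem h hl⟩

theorem weierstrassP_add_mem_h902 (L : PeriodPair) (z : ℂ) {l : ℂ} (hl : l ∈ L.lattice) :
    ℘[L] (z + l) = ℘[L] z :=
  L.weierstrassP_add_coe z ⟨l, hl⟩

theorem derivWeierstrassP_add_mem_h902 (L : PeriodPair) (z : ℂ) {l : ℂ} (hl : l ∈ L.lattice) :
    ℘'[L] (z + l) = ℘'[L] z :=
  L.derivWeierstrassP_add_coe z ⟨l, hl⟩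

/-! ### `℘` takes every value -/

/-- **U2.** `℘ - c` has a zero off the lattice. -/
theorem exists_weierstrassP_eq_h902 (L : PeriodPair) (c : ℂ) :
    ∃ z, z ∉ L.lattice ∧ ℘[L] z = c := by
  by_contra hcon
  push Not at hcon
  have hmer : Meromorphic fun z => (℘[L] z - c)⁻¹ := by
    have := L.meromorphic_weierstrassP
    fun_prop
  have hord : ∀ z, 0 ≤ meromorphicOrderAt (fun z => (℘[L] z - c)⁻¹) z := by
    intro z
    by_cases hz : z ∈ L.lattice
    · have h1 : meromorphicOrderAt (fun z => ℘[L] z - c) z = -2 := by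
        have hP := L.order_weierstrassP z hz
        have hcm : MeromorphicAt (fun _ : ℂ => -c) z :=
          (analyticAt_const (𝕜 := ℂ) (v := -c) (x := z)).meromorphicAt
        have hc : (0 : WithTop ℤ) ≤ meromorphicOrderAt (fun _ : ℂ => -c) z :=
          (analyticAt_const (𝕜 := ℂ) (v := -c) (x := z)).meromorphicOrderAt_nonneg
        have hlt : meromorphicOrderAt ℘[L] z < meromorphicOrderAt (fun _ : ℂ => -c) z := by
          rw [hP]
          exact lt_of_lt_of_le (by decide) hc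
        have := meromorphicOrderAt_add_eq_left_of_lt (f₁ := ℘[L]) (f₂ := fun _ : ℂ => -c)
          hcm hlt
        rw [hP] at this
        rw [← this]
        rfl
      have h2 := meromorphicOrderAt_inv (f := fun z => ℘[L] z - c) (x := z)
      have h3 : meromorphicOrderAt (fun z => (℘[L] z - c)⁻¹) z = 2 := by
        have : (fun z => (℘[L] z - c)⁻¹) = (fun z => ℘[L] z - c)⁻¹ := rfl
        rw [this, h2, h1]
        rfl
      rw [h3]
      decide
    · have han : AnalyticAt ℂ (fun z => (℘[L] z - c)⁻¹) z := by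
        have h1 : AnalyticAt ℂ ℘[L] z := L.analyticOnNhd_weierstrassP z hz
        have h2 : ℘[L] z - c ≠ 0 := sub_ne_zero.mpr (hcon z hz)
        fun_prop (disch := exact h2)
      exact han.meromorphicOrderAt_nonneg
  have hper : ∀ z, ∀ l ∈ L.lattice, (fun z => (℘[L] z - c)⁻¹) (z + l) =
      (fun z => (℘[L] z - c)⁻¹) z := by
    intro z l hl
    simp only [weierstrassP_add_mem_h902 L z hl]
  obtain ⟨k, hk⟩ := elliptic_const226 L hmer hord hper
  -- `℘` is constant off the lattice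
  have hconst : ∀ z, z ∉ L.lattice → ℘[L] z = c + k⁻¹ := by
    intro z hz
    have hcont : ContinuousAt (fun z => (℘[L] z - c)⁻¹) z := by
      have h1 : ContinuousAt ℘[L] z := (L.analyticOnNhd_weierstrassP z hz).continuousAt
      have h2 : ℘[L] z - c ≠ 0 := sub_ne_zero.mpr (hcon z hz)
      exact (h1.sub continuousAt_const).inv₀ h2
    have h : (℘[L] z - c)⁻¹ = k := hk z hcont
    rw [← h, inv_inv]
    ring
  refine not_forall_derivWeierstrassP_eq_zero226 L fun z hz => ?_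
  have hz' : z ∉ L.lattice := hz
  have h1 := hasDerivAt_weierstrassP226 L hz'
  have h2 : HasDerivAt ℘[L] 0 z := by
    refine (hasDerivAt_const z (c + k⁻¹)).congr_of_eventuallyEq ?_
    filter_upwards [L.isClosed_lattice.isOpen_compl.mem_nhds hz'] with y hy
    exact hconst y hy
  exact h1.unique h2

/-! ### The parametrisation -/

section Param

variable (E : WeierstrassCurve ℂ) (L : PeriodPair)

/-- the `x`-coordinate of the point with parameter `z` -/
def uX (z : ℂ) : ℂ := ℘[L] z - E.b₂ / 12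

/-- the `y`-coordinate of the point with parameter `z` -/
def uY (z : ℂ) : ℂ := (℘'[L] z - E.a₁ * uX E L z - E.a₃) / 2

theorem two_uY (z : ℂ) : 2 * uY E L z + E.a₁ * uX E L z + E.a₃ = ℘'[L] z := by
  simp only [uY]; ring

variable {E L}

theorem equation_u (h2 : L.g₂ = E.c₄ / 12) (h3 : L.g₃ = E.c₆ / 216) {z : ℂ}
    (hz : z ∉ L.lattice) : E.toAffine.Equation (uX E L z) (uY E L z) := by
  rw [WeierstrassCurve.Affine.equation_iff]
  have h := L.derivWeierstrassP_sq z hz
  rw [h2, h3] at h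
  simp only [uY, uX, WeierstrassCurve.c₄, WeierstrassCurve.c₆, WeierstrassCurve.b₂,
    WeierstrassCurve.b₄, WeierstrassCurve.b₆] at h ⊢
  linear_combination (1 / 4 : ℂ) * h

theorem nonsingular_u (hΔ : E.Δ ≠ 0) (h2 : L.g₂ = E.c₄ / 12) (h3 : L.g₃ = E.c₆ / 216) {z : ℂ}
    (hz : z ∉ L.lattice) : E.toAffine.Nonsingular (uX E L z) (uY E L z) :=
  (WeierstrassCurve.Affine.equation_iff_nonsingular_of_Δ_ne_zero hΔ).mp (equation_u h2 h3 hz)

open Classical in
/-- the point with parameter `z` -/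
def uPt (hΔ : E.Δ ≠ 0) (h2 : L.g₂ = E.c₄ / 12) (h3 : L.g₃ = E.c₆ / 216) (z : ℂ) :
    E.toAffine.Point :=
  if hz : z ∈ L.lattice then 0 else .some _ _ (nonsingular_u hΔ h2 h3 hz)

variable (hΔ : E.Δ ≠ 0) (h2 : L.g₂ = E.c₄ / 12) (h3 : L.g₃ = E.c₆ / 216)

theorem uPt_of_mem {z : ℂ} (hz : z ∈ L.lattice) : uPt hΔ h2 h3 z = 0 := by
  simp only [uPt, dif_pos hz]

theorem uPt_of_notMem {z : ℂ} (hz : z ∉ L.lattice) :
    uPt hΔ h2 h3 z = .some _ _ (nonsingular_u hΔ h2 h3 hz) := by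
  simp only [uPt, dif_neg hz]

theorem uPt_eq_zero_iff (z : ℂ) : uPt hΔ h2 h3 z = 0 ↔ z ∈ L.lattice := by
  constructor
  · intro h
    by_contra hz
    rw [uPt_of_notMem hΔ h2 h3 hz] at h
    exact WeierstrassCurve.Affine.Point.some_ne_zero _ h
  · exact uPt_of_mem hΔ h2 h3

/-- two points with the same coordinates are equal -/
theorem some_eq_some_h902 {x y x' y' : ℂ} (h : E.toAffine.Nonsingular x y)
    (h' : E.toAffine.Nonsingular x' y') (hx : x = x') (hy : y = y') :
    (WeierstrassCurve.Affine.Point.some x y h : E.toAffine.Point) =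
      WeierstrassCurve.Affine.Point.some x' y' h' := by
  subst hx; subst hy; rfl

theorem uPt_add_mem (z : ℂ) {l : ℂ} (hl : l ∈ L.lattice) :
    uPt hΔ h2 h3 (z + l) = uPt hΔ h2 h3 z := by
  by_cases hz : z ∈ L.lattice
  · rw [uPt_of_mem hΔ h2 h3 hz, uPt_of_mem hΔ h2 h3 (add_mem hz hl)]
  · have hzl : z + l ∉ L.lattice := fun h => hz ((add_mem_iff_h902 L hl).mp h)
    rw [uPt_of_notMem hΔ h2 h3 hz, uPt_of_notMem hΔ h2 h3 hzl]
    refine some_eq_some_h902 _ _ ?_ ?_
    · simp only [uX, weierstrassP_add_mem_h902 L z hl]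
    · simp only [uY, uX, weierstrassP_add_mem_h902 L z hl, derivWeierstrassP_add_mem_h902 L z hl]

theorem uPt_neg (z : ℂ) : uPt hΔ h2 h3 (-z) = -uPt hΔ h2 h3 z := by
  by_cases hz : z ∈ L.lattice
  · rw [uPt_of_mem hΔ h2 h3 hz, uPt_of_mem hΔ h2 h3 (neg_mem hz)]
    rfl
  · rw [uPt_of_notMem hΔ h2 h3 hz, uPt_of_notMem hΔ h2 h3 (neg_notMem_h902 L hz),
      WeierstrassCurve.Affine.Point.neg_some]
    refine some_eq_some_h902 _ _ ?_ ?_
    · simp only [uX, L.weierstrassP_neg]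
    · simp only [uY, uX, L.weierstrassP_neg, L.derivWeierstrassP_neg,
        WeierstrassCurve.Affine.negY]
      ring

variable [DecidableEq ℂ]

/-- the generic case of the addition theorem, in the group of points -/
theorem uPt_add_generic {z w : ℂ} (hz : z ∉ L.lattice) (hw : w ∉ L.lattice)
    (hzw : z + w ∉ L.lattice) (hne : ℘[L] z ≠ ℘[L] w) :
    uPt hΔ h2 h3 (z + w) = uPt hΔ h2 h3 z + uPt hΔ h2 h3 w := by
  have hx : uX E L z ≠ uX E L w := by
    simp only [uX]
    intro h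
    exact hne (by linear_combination h)
  rw [uPt_of_notMem hΔ h2 h3 hz, uPt_of_notMem hΔ h2 h3 hw, uPt_of_notMem hΔ h2 h3 hzw,
    WeierstrassCurve.Affine.Point.add_of_X_ne hx]
  have hP := weierstrassP_add226 L hw hz hzw hne
  have hP' := derivWeierstrassP_add226 L hw hz hzw hne
  have hne' : ℘[L] z - ℘[L] w ≠ 0 := sub_ne_zero.mpr hne
  have hlam' : (℘'[L] z - ℘'[L] w) / (℘[L] z - ℘[L] w) * (℘[L] z - ℘[L] w) =
      ℘'[L] z - ℘'[L] w := div_mul_cancel₀ _ hne'
  have hsl : E.toAffine.slope (uX E L z) (uX E L w) (uY E L z) (uY E L w) =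
      ((℘'[L] z - ℘'[L] w) / (℘[L] z - ℘[L] w) - E.a₁) / 2 := by
    rw [WeierstrassCurve.Affine.slope_of_X_ne hx,
      div_eq_div_iff (sub_ne_zero.mpr hx) two_ne_zero]
    simp only [uY, uX]
    linear_combination (-1 : ℂ) * hlam'
  set lam := (℘'[L] z - ℘'[L] w) / (℘[L] z - ℘[L] w) with hlam
  have hX : uX E L (z + w) =
      E.toAffine.addX (uX E L z) (uX E L w)
        (E.toAffine.slope (uX E L z) (uX E L w) (uY E L z) (uY E L w)) := by
    rw [hsl]
    simp only [WeierstrassCurve.Affine.addX, uX, hP, WeierstrassCurve.b₂]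
    ring
  refine some_eq_some_h902 _ _ hX ?_
  rw [WeierstrassCurve.Affine.addY, WeierstrassCurve.Affine.negAddY,
    WeierstrassCurve.Affine.negY, ← hX, hsl]
  simp only [uY, hP']
  simp only [uX]
  ring

/-- doubling, by the translation trick -/
theorem uPt_two {z : ℂ} (h2z : z + z ∉ L.lattice) :
    uPt hΔ h2 h3 (z + z) = uPt hΔ h2 h3 z + uPt hΔ h2 h3 z := by
  have hz : z ∉ L.lattice := fun h => h2z (add_mem h h)
  -- a generic translation `t`
  obtain ⟨t, ht2, hzt, hzt'⟩ : ∃ t : ℂ, t + t ∉ L.lattice ∧ z + t ∉ L.lattice ∧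
      z - t ∉ L.lattice := by
    by_cases h : z + z / 2 ∈ L.lattice
    · refine ⟨z / 3, ?_, ?_, ?_⟩
      · intro h'
        apply h2z
        have := add_mem (add_mem h' h') h'
        convert this using 1
        ring
      · intro h'
        apply hz
        have h4 : z + z + (z + z) ∈ L.lattice := by
          have := add_mem (add_mem h' h') h'
          convert this using 1
          ring
        have h3z : z + z + z ∈ L.lattice := by
          have := add_mem h h
          convert this using 1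
          ring
        have := sub_mem h4 h3z
        convert this using 1
        ring
      · intro h'
        apply h2z
        have := add_mem (add_mem h' h') h'
        convert this using 1
        ring
    · refine ⟨z / 2, ?_, h, ?_⟩
      · intro h'
        apply hz
        convert h' using 1
        ring
      · intro h'
        apply hz
        have := add_mem h' h'
        convert this using 1
        ring
  have ht : t ∉ L.lattice := fun h => ht2 (add_mem h h)
  have hnt : -t ∉ L.lattice := neg_notMem_h902 L ht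
  have hzt'' : z + -t ∉ L.lattice := by rwa [← sub_eq_add_neg]
  -- `℘ z ≠ ℘ t`
  have hne1 : ℘[L] z ≠ ℘[L] t := by
    intro h
    rcases (weierstrassP_eq_iff226 L hz ht).mp h with h' | h'
    · exact hzt' h'
    · exact hzt h'
  have hne2 : ℘[L] z ≠ ℘[L] (-t) := by rwa [L.weierstrassP_neg]
  -- `℘ (z + t) ≠ ℘ (z - t)`
  have hne3 : ℘[L] (z + t) ≠ ℘[L] (z + -t) := by
    intro h
    rcases (weierstrassP_eq_iff226 L hzt hzt'').mp h with h' | h'
    · apply ht2
      convert h' using 1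
      ring
    · apply h2z
      convert h' using 1
      ring
  have hsum : z + t + (z + -t) = z + z := by ring
  have e1 := uPt_add_generic hΔ h2 h3 hzt hzt'' (by rwa [hsum]) hne3
  have e2 := uPt_add_generic hΔ h2 h3 hz ht hzt hne1
  have e3 := uPt_add_generic hΔ h2 h3 hz hnt hzt'' hne2
  rw [hsum] at e1
  rw [e1, e2, e3, uPt_neg]
  abel

/-- **the parametrisation is additive** -/
theorem uPt_add (z w : ℂ) :
    uPt hΔ h2 h3 (z + w) = uPt hΔ h2 h3 z + uPt hΔ h2 h3 w := by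
  by_cases hz : z ∈ L.lattice
  · rw [add_comm z w, uPt_add_mem hΔ h2 h3 w hz, uPt_of_mem hΔ h2 h3 hz, zero_add]
  by_cases hw : w ∈ L.lattice
  · rw [uPt_add_mem hΔ h2 h3 z hw, uPt_of_mem hΔ h2 h3 hw, add_zero]
  by_cases hzw : z + w ∈ L.lattice
  · have e : w = -z + (z + w) := by ring
    have hw' : uPt hΔ h2 h3 w = -uPt hΔ h2 h3 z := by
      conv_lhs => rw [e]
      rw [uPt_add_mem hΔ h2 h3 (-z) hzw, uPt_neg]
    rw [uPt_of_mem hΔ h2 h3 hzw, hw', add_neg_cancel]
  by_cases hne : ℘[L] z = ℘[L] w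
  · rcases (weierstrassP_eq_iff226 L hz hw).mp hne with h | h
    · -- `w = z - l`
      have hl : -(z - w) ∈ L.lattice := neg_mem h
      have e : w = z + -(z - w) := by ring
      have e' : z + w = z + z + -(z - w) := by ring
      have h2z : z + z ∉ L.lattice := by
        intro h'
        apply hzw
        rw [e']
        exact add_mem h' hl
      have hw' : uPt hΔ h2 h3 w = uPt hΔ h2 h3 z := by
        conv_lhs => rw [e]
        exact uPt_add_mem hΔ h2 h3 z hl
      rw [hw', e', uPt_add_mem hΔ h2 h3 (z + z) hl]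
      exact uPt_two hΔ h2 h3 h2z
    · exact absurd h hzw
  · exact uPt_add_generic hΔ h2 h3 hz hw hzw hne

/-- the parametrisation as a homomorphism -/
def uHom : ℂ →+ E.toAffine.Point :=
  AddMonoidHom.mk' (uPt hΔ h2 h3) (uPt_add hΔ h2 h3)

theorem uHom_apply (z : ℂ) : uHom hΔ h2 h3 z = uPt hΔ h2 h3 z := rfl

theorem uHom_surjective : Function.Surjective (uHom hΔ h2 h3) := by
  intro P
  rcases P with _ | ⟨x, y, hxy⟩
  · exact ⟨0, by rw [uHom_apply, uPt_of_mem hΔ h2 h3 (zero_mem _)]; rfl⟩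
  · obtain ⟨z, hz, hzx⟩ := exists_weierstrassP_eq_h902 L (x + E.b₂ / 12)
    have hX : uX E L z = x := by simp only [uX, hzx]; ring
    have heq := (WeierstrassCurve.Affine.equation_iff _ _).mp hxy.1
    have heq' := (WeierstrassCurve.Affine.equation_iff _ _).mp (equation_u h2 h3 hz)
    rw [hX] at heq'
    have hy : (uY E L z - y) * (uY E L z - E.toAffine.negY x y) = 0 := by
      simp only [WeierstrassCurve.Affine.negY]
      linear_combination heq' - heq
    rcases mul_eq_zero.mp hy with h | h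
    · refine ⟨z, ?_⟩
      rw [uHom_apply, uPt_of_notMem hΔ h2 h3 hz]
      exact some_eq_some_h902 _ _ hX (sub_eq_zero.mp h)
    · refine ⟨-z, ?_⟩
      rw [uHom_apply, uPt_neg, uPt_of_notMem hΔ h2 h3 hz,
        WeierstrassCurve.Affine.Point.neg_some]
      refine some_eq_some_h902 _ _ hX ?_
      rw [sub_eq_zero.mp h, hX]
      simp only [WeierstrassCurve.Affine.negY]
      ring

end Param

/-- **MOD-B2 + B3.**  Every elliptic curve over `ℂ` has a uniformisation. -/
theorem uniformization : UniformizationStatement := by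
  intro _ E hΔ
  have hd : (E.c₄ / 12) ^ 3 - 27 * (E.c₆ / 216) ^ 2 ≠ 0 := by
    have h := E.c_relation
    intro h0
    apply hΔ
    linear_combination (1 : ℂ) * h0 + (1 / 1728 : ℂ) * h
  obtain ⟨L, h2, h3⟩ := exists_periodPair_g₂_g₃ (E.c₄ / 12) (E.c₆ / 216) hd
  refine ⟨⟨L, h2, h3, uHom hΔ h2 h3, uHom_surjective hΔ h2 h3, ?_, ?_, ?_⟩⟩
  · intro z
    rw [uHom_apply]
    exact uPt_eq_zero_iff hΔ h2 h3 z
  · intro z hz
    rw [uHom_apply, uPt_of_notMem hΔ h2 h3 hz]
    rfl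
  · intro z hz
    rw [uHom_apply, uPt_of_notMem hΔ h2 h3 hz]
    show 2 * uY E L z + E.a₁ * uX E L z + E.a₃ = ℘'[L] z
    exact two_uY E L z

end Fermat.Agent.S15.H902

end

end
-- ===== PACK-END S15/H902/Uniformization.lean

-- ===== PACK-BEGIN Glue/Gap.lean
section


/-!
# Row GLUE, phase 2 — the gap between the output of row LT (`S47`) and `S01`  (row-lead helper120)

Mathlib + Prelude + `Glue/Spec`, `Glue/Chain` only.  Everything here is hypothesis-parametrised.

The wall of row LT gives the frozen S47; `LTB.Glue2` (closed) turns it into `RM3Statement`: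
residual modularity at `3` of SOME level, with NO control of the level.  The frozen S50 asks for
more (level cube-free away from `3`, and `9 ∤ M` unless `W[3]` has no inertia-fixed vector at `3`).
The second clause is a companion-form statement when `W[3]` is split at `3`; it is NOT needed for
`S01`.  This file proves

    s01_of_gap : RM3Statement → QStatement → FreyRouteStatement → (landed statements) → S01Statement

* `QStatement`         (block Q): the level can be made cube-free away from `3`;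
* `FreyRouteStatement` (block F): for every Frey package, EITHER the Frey curve `E` has irreducible
  `E[3]` without inertia-fixed vector at `3`, OR `E[5]` is irreducible and `E` has a semistable
  partner `W'` with `W'[3]` irreducible, `NoFix3 W'` and `a_ℓ(W') ≡ a_ℓ(E) mod 5`.
-/

set_option autoImplicit false
open WeierstrassCurve WeierstrassCurve.Affine WeierstrassCurve.Affine.Point
open CuspForm ModularFormClass UpperHalfPlane
open scoped WeierstrassCurve.Affine

namespace Fermat.Agent.Glue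

/-- **Output of row LT** (`LTB.Glue2` applied to the frozen S47): every semistable `W` with
irreducible `W[3]` is residually modular at `3` of SOME level. -/
def RM3Statement : Prop :=
  ∀ (W : WeierstrassCurve ℤ) (_hΔ : W.Δ ≠ 0) (_hW : W.IsSemistableModel)
    (_h3 : W.ModRepIsIrreducible 3), W.IsResiduallyModular 3

/-- **Block Q** (level optimisation away from `3`): a level of residual modularity at `3` can be
replaced by one which is cube-free away from `3`. -/
def QStatement : Prop :=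
  ∀ (W : WeierstrassCurve ℤ) (_hΔ : W.Δ ≠ 0) (_hW : W.IsSemistableModel)
    (_h3 : W.ModRepIsIrreducible 3) (M : ℕ) (_hM : 0 < M)
    (_hres : W.IsResiduallyModularOfLevel 3 M),
    ∃ M' : ℕ, 0 < M' ∧ W.IsResiduallyModularOfLevel 3 M' ∧
      ∀ q : ℕ, q.Prime → q ≠ 3 → ¬ q ^ 3 ∣ M'

/-- A semistable partner of `W` for the prime `5`: `W'[3]` irreducible, no inertia-fixed vector
in `W'[3]` at `3`, and `a_ℓ(W') ≡ a_ℓ(W) mod 5` at the common good primes `ℓ ≠ 5`. -/
def HasNoFixPartner (W : WeierstrassCurve ℤ) : Prop :=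
  ∃ W' : WeierstrassCurve ℤ, W'.Δ ≠ 0 ∧ W'.IsSemistableModel ∧ W'.ModRepIsIrreducible 3 ∧
    NoFix3 W' ∧
    ∀ ℓ : ℕ, ℓ.Prime → W.IsGoodPrimeFor ℓ → W'.IsGoodPrimeFor ℓ → ℓ ≠ 5 →
      (5 : ℤ) ∣ (W'.apOfModel ℓ - W.apOfModel ℓ)

/-- The two routes to the modularity of a semistable model `W`. -/
def HasRoute (W : WeierstrassCurve ℤ) : Prop :=
  (W.ModRepIsIrreducible 3 ∧ NoFix3 W) ∨ (W.ModRepIsIrreducible 5 ∧ HasNoFixPartner W)

/-- **Block F**: every Frey curve has a route. -/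
def FreyRouteStatement : Prop :=
  ∀ P : FreyPackage, HasRoute P.freyCurveInt

/-- The same for every semistable model (gives S60 as well; not needed for S01). -/
def AllRouteStatement : Prop :=
  ∀ (W : WeierstrassCurve ℤ) (_hΔ : W.Δ ≠ 0) (_hW : W.IsSemistableModel), HasRoute W

/-- The frozen S50 restricted to the curves without inertia-fixed `3`-torsion. -/
theorem concl50_of_noFix3 (hRM : RM3Statement) (hQ : QStatement)
    (W : WeierstrassCurve ℤ) (hΔ : W.Δ ≠ 0) (hW : W.IsSemistableModel)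
    (h3 : W.ModRepIsIrreducible 3) (hfix : NoFix3 W) :
    ∃ M : ℕ, 0 < M ∧ W.IsResiduallyModularOfLevel 3 M ∧
      (∀ q : ℕ, q.Prime → q ≠ 3 → ¬ q ^ 3 ∣ M) ∧ (3 ^ 2 ∣ M → NoFix3 W) := by
  obtain ⟨M, hM, hres⟩ := hRM W hΔ hW h3
  obtain ⟨M', hM', hres', hcf⟩ := hQ W hΔ hW h3 M hM hres
  exact ⟨M', hM', hres', hcf, fun _ => hfix⟩

/-- The `3`-route: exact conductor-level modularity of a semistable `W` with `W[3]` irreducible
and without inertia-fixed vector at `3`. -/
theorem mlc1_of_noFix3 (h59 : S59Statement) (hG1 : G1Statement) (hRM : RM3Statement)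
    (hQ : QStatement) (W : WeierstrassCurve ℤ) (hΔ : W.Δ ≠ 0) (hW : W.IsSemistableModel)
    (h3 : W.ModRepIsIrreducible 3) (hfix : NoFix3 W) :
    Mlc1IsModularModelOfExactConductorLevel W := by
  obtain ⟨M, hM, hres, hcf, -⟩ := concl50_of_noFix3 hRM hQ W hΔ hW h3 hfix
  by_cases h9 : 3 ^ 2 ∣ M
  · obtain ⟨M₀, hM₀, hres₀, h9₀, hM₀3⟩ := hG1 W hΔ hW h3 M hM hres hcf h9 hfix
    have : NeZero M₀ := ⟨hM₀.ne'⟩
    exact h59 3 (Or.inl rfl) W hΔ hW h3 M₀ hres₀ h9₀ hM₀3
  · have : NeZero M := ⟨hM.ne'⟩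
    exact h59 3 (Or.inl rfl) W hΔ hW h3 M hres h9 hcf

/-- The `5`-route: exact conductor-level modularity of a semistable `W` with `W[5]` irreducible
and a partner. -/
theorem mlc1_of_partner (h59 : S59Statement) (hG1 : G1Statement) (hRM : RM3Statement)
    (hQ : QStatement) (W : WeierstrassCurve ℤ) (hΔ : W.Δ ≠ 0) (hW : W.IsSemistableModel)
    (h5 : W.ModRepIsIrreducible 5) (hP : HasNoFixPartner W) :
    Mlc1IsModularModelOfExactConductorLevel W := by
  obtain ⟨W', hΔ', hW', h3', hfix', hcong⟩ := hP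
  have hmod' := mlc1_of_noFix3 h59 hG1 hRM hQ W' hΔ' hW' h3' hfix'
  obtain ⟨N, hN, hsq, hres⟩ := resMod_five_of_congruent hmod' hcong
  have : NeZero N := ⟨hN.ne'⟩
  have hnot_sq : ∀ q : ℕ, q.Prime → ∀ k : ℕ, 2 ≤ k → ¬ q ^ k ∣ N := by
    intro q hq k hk hdvd
    have h2 : q * q ∣ N := by
      have : q ^ 2 ∣ q ^ k := pow_dvd_pow q hk
      rw [pow_two] at this
      exact this.trans hdvd
    exact hq.not_isUnit (hsq q h2)
  exact h59 5 (Or.inr rfl) W hΔ hW h5 N hres (hnot_sq 5 (by norm_num) 2 le_rfl)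
    (fun q hq _ => hnot_sq q hq 3 (by norm_num))

/-- Exact conductor-level modularity along a route. -/
theorem mlc1_of_route (h59 : S59Statement) (hG1 : G1Statement) (hRM : RM3Statement)
    (hQ : QStatement) (W : WeierstrassCurve ℤ) (hΔ : W.Δ ≠ 0) (hW : W.IsSemistableModel)
    (hR : HasRoute W) : Mlc1IsModularModelOfExactConductorLevel W := by
  rcases hR with ⟨h3, hfix⟩ | ⟨h5, hP⟩
  · exact mlc1_of_noFix3 h59 hG1 hRM hQ W hΔ hW h3 hfix
  · exact mlc1_of_partner h59 hG1 hRM hQ W hΔ hW h5 hP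

/-- `MlcAll` from routes for all semistable models. -/
theorem mlcAll_of_routes (h59 : S59Statement) (hG1 : G1Statement) (hRM : RM3Statement)
    (hQ : QStatement) (hA : AllRouteStatement) : MlcAllStatement :=
  fun W hΔ hW => mlc1_of_route h59 hG1 hRM hQ W hΔ hW (hA W hΔ hW)

/-- **S06 from the gap blocks** (Frey curves only). -/
theorem s06_of_gap (hF : FreyIntStatement) (h59 : S59Statement) (hG1 : G1Statement)
    (hRM : RM3Statement) (hQ : QStatement) (hFR : FreyRouteStatement) : S06Statement := by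
  intro P
  obtain ⟨hss, hΔ, hmap, hbad⟩ := hF P
  obtain ⟨N, hN, hsq, hsupp, f, hf, hcoef⟩ :=
    mlc1_of_route h59 hG1 hRM hQ P.freyCurveInt hΔ hss (hFR P)
  refine ⟨N, ⟨hN, hsq, fun q hq hqN => hbad q hq ((hsupp q hq).1 hqN)⟩, ?_⟩
  obtain ⟨𝔪, h𝔪, hp𝔪⟩ := FLTPrelim.exists_maximalIdeal_natCast_prime_mem P.pp
  refine ⟨f, P.freyCurveInt, 𝔪, hf, ⟨1, ?_⟩, h𝔪, hp𝔪, ?_⟩
  · rw [one_smul, hmap]
  · intro ℓ hℓ hgood hℓN _
    refine ⟨((P.freyCurveInt.apOfModel ℓ : ℤ) : integralClosure ℤ ℂ), ?_, ?_⟩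
    · rw [hcoef ℓ hℓ hgood hℓN]
      push_cast
      rfl
    · rw [sub_self]
      exact 𝔪.zero_mem

/-- **S04 from the gap blocks.** -/
theorem s04_of_gap (hF : FreyIntStatement) (h59 : S59Statement) (hG1 : G1Statement)
    (hRM : RM3Statement) (hQ : QStatement) (hFR : FreyRouteStatement) : S04Statement := by
  intro P
  obtain ⟨hss, hΔ, hmap, -⟩ := hF P
  have := isModular_of_mlc1 (mlc1_of_route h59 hG1 hRM hQ P.freyCurveInt hΔ hss (hFR P))
  rwa [hmap] at this

/-- **S03 from the gap blocks.** -/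
theorem s03_of_gap (hF : FreyIntStatement) (h05 : S05Statement) (h07 : S07Statement)
    (h08 : S08Statement) (h09 : S09Statement) (h43 : S43Statement) (h44 : S44Statement)
    (h59 : S59Statement) (hG1 : G1Statement) (hRM : RM3Statement) (hQ : QStatement)
    (hFR : FreyRouteStatement) : S03Statement :=
  s03_of (s06_of_gap hF h59 hG1 hRM hQ hFR) h09 h43 h44 h05 h07 h08

/-- **S01 from the gap blocks**: Fermat's Last Theorem from the output `RM3` of row LT, block Q,
block F and landed statements. -/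
theorem s01_of_gap (hF : FreyIntStatement) (h02 : S02Statement) (h05 : S05Statement)
    (h07 : S07Statement) (h08 : S08Statement) (h09 : S09Statement) (h43 : S43Statement)
    (h44 : S44Statement) (h59 : S59Statement) (hG1 : G1Statement) (hRM : RM3Statement)
    (hQ : QStatement) (hFR : FreyRouteStatement) : S01Statement :=
  s01_of h02 (s03_of_gap hF h05 h07 h08 h09 h43 h44 h59 hG1 hRM hQ hFR)

/-- With routes for ALL semistable models the frozen S50 follows as well (the `9`-clause comes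
for free from exact conductor-level modularity). -/
theorem s50_of_routes (h59 : S59Statement) (hG1 : G1Statement) (hRM : RM3Statement)
    (hQ : QStatement) (hA : AllRouteStatement) : S50Statement := by
  intro W hΔ hW _h3
  obtain ⟨N, hN, hsq, -, f, hf, hap⟩ := mlc1_of_route h59 hG1 hRM hQ W hΔ hW (hA W hΔ hW)
  obtain ⟨𝔪, h𝔪, h3𝔪⟩ := FLTPrelim.exists_maximalIdeal_natCast_prime_mem (p := 3) (by norm_num)
  have hnot_sq : ∀ q : ℕ, q.Prime → ∀ k : ℕ, 2 ≤ k → ¬ q ^ k ∣ N := by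
    intro q hq k hk hdvd
    have h2 : q * q ∣ N := by
      have : q ^ 2 ∣ q ^ k := pow_dvd_pow q hk
      rw [pow_two] at this
      exact this.trans hdvd
    exact hq.not_isUnit (hsq q h2)
  refine ⟨N, hN, ⟨f, 𝔪, hf, h𝔪, h3𝔪, ?_⟩, fun q hq _ => hnot_sq q hq 3 (by norm_num),
    fun h9 => absurd h9 (hnot_sq 3 (by norm_num) 2 le_rfl)⟩
  intro ℓ hℓ hgood hℓN _
  refine ⟨((W.apOfModel ℓ : ℤ) : integralClosure ℤ ℂ), ?_, ?_⟩
  · rw [hap ℓ hℓ hgood hℓN]
    simp
  · rw [sub_self]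
    exact 𝔪.zero_mem

end Fermat.Agent.Glue

end
-- ===== PACK-END Glue/Gap.lean

-- ===== PACK-BEGIN Glue/FSpec.lean
section



/-!
# Row GLUE, phase 2, block F — frozen Props of the leaves and the proved top  (row-lead helper120)

`freyRoute_of_leaves : (leaves) → FreyRouteStatement` (`Glue/Gap.lean`).

Plain world: Mathlib + Prelude + `Glue/{Spec,Chain,Gap}` + the plain file `S52/Top.lean` of main
(`FiveCongruent`, `PartA`).  Every leaf is a TRUE statement of elementary arithmetic; see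
`coord/GLUE2.md` on `origin/helper120` for the proofs on paper.

* `SSCritStatement`  (L1): good supersingular reduction at `3` ⟹ `NoFix3`.
* `MUCritStatement`  (L2): multiplicative reduction at `3` with `3 ∤ v₃(Δ)` ⟹ `NoFix3`.
* `FreyLocStatement` (F0): the local type at `2` and `3` of the integral Frey model.
* `SwitchVStatement` (SW): the landed `3–5` switch keeps `v₃(Δ)`.
* `FiveCongrIrrStatement` (FC5): `FiveCongruent` transports irreducibility mod `5`.
* `CuspSwitchStatement` (C): multiplicative at `3`, `3 ∣ v₃(Δ)`, `v₃(Δ) ≥ 30` ⟹ a `5`-congruent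
  semistable model with `3 ∤ v₃(Δ)`.
* `Frey5Statement`   (F5): the Frey curve has irreducible `5`-torsion (`X₀(20)(ℚ)` = cusps).
-/

set_option autoImplicit false
open WeierstrassCurve WeierstrassCurve.Affine WeierstrassCurve.Affine.Point
open scoped WeierstrassCurve.Affine

namespace Fermat.Agent.Glue

open Fermat.Agent.S52 (FiveCongruent PartA)

/-! ## The leaves -/

/-- **L1** (supersingular criterion): `3 ∣ b₂`, `3 ∤ Δ` ⟹ no inertia-fixed `3`-torsion at `3`.
(`ψ₃ = 3x⁴ + b₂x³ + 3b₄x² + 3b₆x + b₈` with `b₈` a `3`-unit: every root has `4 v(x) = -v(3)`.) -/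
def SSCritStatement : Prop :=
  ∀ W : WeierstrassCurve ℤ, (3 : ℤ) ∣ W.b₂ → ¬ (3 : ℤ) ∣ W.Δ → NoFix3 W

/-- **L2** (multiplicative criterion): `3 ∣ Δ`, `3 ∤ c₄`, `3 ∤ v₃(Δ)` ⟹ no inertia-fixed
`3`-torsion at `3`.  (The three integral roots of `ψ₃` have `3 v(x - r) = v₃(Δ)`; the fourth
has `v(x) = -1` and `2 v(y) = -3`.) -/
def MUCritStatement : Prop :=
  ∀ W : WeierstrassCurve ℤ, W.Δ ≠ 0 → (3 : ℤ) ∣ W.Δ → ¬ (3 : ℤ) ∣ W.c₄ →
    ¬ 3 ∣ padicValInt 3 W.Δ → NoFix3 W

/-- **F0** (local type of the integral Frey model): `2` is bad; if `3` is good then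
`3 ∣ b₂ = b^p - a^p` (supersingular); if `3` is bad and `3 ∣ v₃(Δ) = 2 p v₃(abc)` then
`v₃(Δ) ≥ 6 p ≥ 30`. -/
def FreyLocStatement : Prop :=
  ∀ P : FreyPackage,
    (2 : ℤ) ∣ P.freyCurveInt.Δ ∧
    (¬ (3 : ℤ) ∣ P.freyCurveInt.Δ → (3 : ℤ) ∣ P.freyCurveInt.b₂) ∧
    ((3 : ℤ) ∣ P.freyCurveInt.Δ → 3 ∣ padicValInt 3 P.freyCurveInt.Δ →
      30 ≤ padicValInt 3 P.freyCurveInt.Δ)

/-- **SW** (the landed `3–5` switch, with the `3`-adic valuation of `Δ` kept): the statement
`Fermat.Agent.S52.Switch` of main with one more conclusion.  (`Δ' = Δ · Fkh⁵`, `Fkh ≡ 1 mod M`,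
`3 ∣ M`.) -/
def SwitchVStatement : Prop :=
  ∀ (W : WeierstrassCurve ℤ), W.Δ ≠ 0 → W.IsSemistableModel → W.ModRepIsIrreducible 5 →
    ¬ W.ModRepIsIrreducible 3 →
    ∃ W' : WeierstrassCurve ℤ, W'.Δ ≠ 0 ∧ W'.IsSemistableModel ∧ W'.ModRepIsIrreducible 3 ∧
      W'.reductionMod 3 = W.reductionMod 3 ∧
      padicValInt 3 W'.Δ = padicValInt 3 W.Δ ∧
      FiveCongruent W W'

/-- **FC5**: a `5`-congruence transports irreducibility of the `5`-torsion. -/
def FiveCongrIrrStatement : Prop :=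
  ∀ (W W' : WeierstrassCurve ℤ), W.Δ ≠ 0 → W'.Δ ≠ 0 → FiveCongruent W W' →
    W.ModRepIsIrreducible 5 → W'.ModRepIsIrreducible 5

/-- **C** (cusp switch): a semistable model, multiplicative at `3` with `3 ∣ v₃(Δ)`,
`v₃(Δ) ≥ 30`, has a `5`-congruent semistable model, multiplicative at `3`, with
`3 ∤ v₃(Δ'')` (in fact `v₃(Δ'') = v₃(Δ) + 5`). -/
def CuspSwitchStatement : Prop :=
  ∀ (W : WeierstrassCurve ℤ), W.Δ ≠ 0 → W.IsSemistableModel → (3 : ℤ) ∣ W.Δ →
    3 ∣ padicValInt 3 W.Δ → 30 ≤ padicValInt 3 W.Δ →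
    ∃ W'' : WeierstrassCurve ℤ, W''.Δ ≠ 0 ∧ W''.IsSemistableModel ∧ (3 : ℤ) ∣ W''.Δ ∧
      ¬ 3 ∣ padicValInt 3 W''.Δ ∧ FiveCongruent W W''

/-- **F5**: the `5`-torsion of a Frey curve is irreducible. -/
def Frey5Statement : Prop :=
  ∀ P : FreyPackage, P.freyCurveInt.ModRepIsIrreducible 5

/-! ## Glue -/

/-- `FiveCongruent` is transitive. -/
theorem fiveCongruent_trans {W₁ W₂ W₃ : WeierstrassCurve ℤ} (h₁₂ : FiveCongruent W₁ W₂)
    (h₂₃ : FiveCongruent W₂ W₃) : FiveCongruent W₁ W₃ := by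
  obtain ⟨θ, hθ, hθσ⟩ := h₁₂
  obtain ⟨η, hη, hησ⟩ := h₂₃
  refine ⟨η.comp θ, hη.comp hθ, fun σ P => ?_⟩
  simp only [AddMonoidHom.comp_apply]
  rw [hθσ, hησ]

/-- Equal reductions mod `3`: the same divisibility of `Δ` by `3`. -/
theorem three_dvd_Δ_iff_of_reductionMod_eq {W W' : WeierstrassCurve ℤ}
    (h : W'.reductionMod 3 = W.reductionMod 3) : (3 : ℤ) ∣ W'.Δ ↔ (3 : ℤ) ∣ W.Δ := by
  have hΔ : (W'.reductionMod 3).Δ = (W.reductionMod 3).Δ := by rw [h]
  simp only [WeierstrassCurve.reductionMod, WeierstrassCurve.map_Δ, eq_intCast] at hΔ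
  have e : ∀ z : ℤ, (3 : ℤ) ∣ z ↔ ((z : ℤ) : ZMod 3) = 0 := fun z =>
    (ZMod.intCast_zmod_eq_zero_iff_dvd z 3).symm
  rw [e, e, hΔ]

/-- Equal reductions mod `3`: the same divisibility of `b₂` by `3`. -/
theorem three_dvd_b₂_iff_of_reductionMod_eq {W W' : WeierstrassCurve ℤ}
    (h : W'.reductionMod 3 = W.reductionMod 3) : (3 : ℤ) ∣ W'.b₂ ↔ (3 : ℤ) ∣ W.b₂ := by
  have hb : (W'.reductionMod 3).b₂ = (W.reductionMod 3).b₂ := by rw [h]
  simp only [WeierstrassCurve.reductionMod, WeierstrassCurve.map_b₂, eq_intCast] at hb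
  have e : ∀ z : ℤ, (3 : ℤ) ∣ z ↔ ((z : ℤ) : ZMod 3) = 0 := fun z =>
    (ZMod.intCast_zmod_eq_zero_iff_dvd z 3).symm
  rw [e, e, hb]

/-- The congruences of the `a_ℓ` from a `5`-congruence, when `2` is bad for `W` and `3` is bad
for `W` or the reductions mod `3` agree. -/
theorem cong_of_fiveCongruent (hA : PartA) {W W' : WeierstrassCurve ℤ} (hΔ : W.Δ ≠ 0)
    (h : FiveCongruent W W') (h2 : (2 : ℤ) ∣ W.Δ)
    (h3 : (3 : ℤ) ∣ W.Δ ∨ W'.reductionMod 3 = W.reductionMod 3) :
    ∀ ℓ : ℕ, ℓ.Prime → W.IsGoodPrimeFor ℓ → W'.IsGoodPrimeFor ℓ → ℓ ≠ 5 →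
      (5 : ℤ) ∣ (W'.apOfModel ℓ - W.apOfModel ℓ) := by
  intro ℓ hℓ hg hg' hℓ5
  by_cases h7 : 7 ≤ ℓ
  · exact hA W W' hΔ h ℓ hℓ h7 hg hg'
  · have hlt : ℓ < 7 := not_le.mp h7
    have h2le := hℓ.two_le
    have hcases : ℓ = 2 ∨ ℓ = 3 := by
      interval_cases ℓ
      · exact Or.inl rfl
      · exact Or.inr rfl
      · exact absurd hℓ (by decide)
      · exact absurd rfl hℓ5
      · exact absurd hℓ (by decide)
    rcases hcases with rfl | rfl
    · exact absurd (by exact_mod_cast h2) hg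
    · rcases h3 with h3 | h3
      · exact absurd (by exact_mod_cast h3) hg
      · have : W'.apOfModel 3 = W.apOfModel 3 := by
          unfold WeierstrassCurve.apOfModel
          rw [h3]
        simp [this]

/-- **F-TOP**: every Frey curve has a route. -/
theorem freyRoute_of_leaves (hF : FreyIntStatement) (h51 : S51Statement) (hA : PartA)
    (hL1 : SSCritStatement) (hL2 : MUCritStatement) (hF0 : FreyLocStatement)
    (hSW : SwitchVStatement) (hIrr : FiveCongrIrrStatement) (hC : CuspSwitchStatement)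
    (hF5 : Frey5Statement) : FreyRouteStatement := by
  intro P
  obtain ⟨hss, hΔ, -, -⟩ := hF P
  obtain ⟨h2bad, hb₂, hbound⟩ := hF0 P
  set E := P.freyCurveInt with hE
  -- the switch applied to a model `W` which is `5`-congruent to `E` and has `NoFix3`-type at `3`
  by_cases h3Δ : (3 : ℤ) ∣ E.Δ
  · -- multiplicative at `3`
    have hc₄ : ¬ (3 : ℤ) ∣ E.c₄ := hss 3 Nat.prime_three (by exact_mod_cast h3Δ)
    by_cases hv : 3 ∣ padicValInt 3 E.Δ
    · -- F3: the hard case
      have h5 : E.ModRepIsIrreducible 5 := hF5 P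
      obtain ⟨W'', hΔ'', hss'', h3Δ'', hv'', hfc⟩ := hC E hΔ hss h3Δ hv (hbound h3Δ hv)
      have hc₄'' : ¬ (3 : ℤ) ∣ W''.c₄ := hss'' 3 Nat.prime_three (by exact_mod_cast h3Δ'')
      have hfix'' : NoFix3 W'' := hL2 W'' hΔ'' h3Δ'' hc₄'' hv''
      have h5'' : W''.ModRepIsIrreducible 5 := hIrr E W'' hΔ hΔ'' hfc h5
      by_cases h3'' : W''.ModRepIsIrreducible 3
      · exact Or.inr ⟨h5, W'', hΔ'', hss'', h3'', hfix'',
          cong_of_fiveCongruent hA hΔ hfc h2bad (Or.inl h3Δ)⟩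
      · obtain ⟨W₂, hΔ₂, hss₂, h3₂, hred₂, hv₂, hfc₂⟩ := hSW W'' hΔ'' hss'' h5'' h3''
        have h3Δ₂ : (3 : ℤ) ∣ W₂.Δ := (three_dvd_Δ_iff_of_reductionMod_eq hred₂).2 h3Δ''
        have hc₄₂ : ¬ (3 : ℤ) ∣ W₂.c₄ := hss₂ 3 Nat.prime_three (by exact_mod_cast h3Δ₂)
        have hfix₂ : NoFix3 W₂ := hL2 W₂ hΔ₂ h3Δ₂ hc₄₂ (by rw [hv₂]; exact hv'')
        exact Or.inr ⟨h5, W₂, hΔ₂, hss₂, h3₂, hfix₂,
          cong_of_fiveCongruent hA hΔ (fiveCongruent_trans hfc hfc₂) h2bad (Or.inl h3Δ)⟩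
    · -- F2
      have hfix : NoFix3 E := hL2 E hΔ h3Δ hc₄ hv
      by_cases h3 : E.ModRepIsIrreducible 3
      · exact Or.inl ⟨h3, hfix⟩
      · have h5 : E.ModRepIsIrreducible 5 := (h51 E hΔ hss).resolve_left h3
        obtain ⟨W', hΔ', hss', h3', hred', hv', hfc'⟩ := hSW E hΔ hss h5 h3
        have h3Δ' : (3 : ℤ) ∣ W'.Δ := (three_dvd_Δ_iff_of_reductionMod_eq hred').2 h3Δ
        have hc₄' : ¬ (3 : ℤ) ∣ W'.c₄ := hss' 3 Nat.prime_three (by exact_mod_cast h3Δ')
        have hfix' : NoFix3 W' := hL2 W' hΔ' h3Δ' hc₄' (by rw [hv']; exact hv)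
        exact Or.inr ⟨h5, W', hΔ', hss', h3', hfix',
          cong_of_fiveCongruent hA hΔ hfc' h2bad (Or.inl h3Δ)⟩
  · -- F1: good supersingular at `3`
    have hfix : NoFix3 E := hL1 E (hb₂ h3Δ) h3Δ
    by_cases h3 : E.ModRepIsIrreducible 3
    · exact Or.inl ⟨h3, hfix⟩
    · have h5 : E.ModRepIsIrreducible 5 := (h51 E hΔ hss).resolve_left h3
      obtain ⟨W', hΔ', hss', h3', hred', -, hfc'⟩ := hSW E hΔ hss h5 h3
      have h3Δ' : ¬ (3 : ℤ) ∣ W'.Δ := fun h => h3Δ ((three_dvd_Δ_iff_of_reductionMod_eq hred').1 h)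
      have hb₂' : (3 : ℤ) ∣ W'.b₂ := (three_dvd_b₂_iff_of_reductionMod_eq hred').2 (hb₂ h3Δ)
      have hfix' : NoFix3 W' := hL1 W' hb₂' h3Δ'
      exact Or.inr ⟨h5, W', hΔ', hss', h3', hfix',
        cong_of_fiveCongruent hA hΔ hfc' h2bad (Or.inr hred')⟩

end Fermat.Agent.Glue

end
-- ===== PACK-END Glue/FSpec.lean

-- ===== PACK-BEGIN S48/H188/Cosets.lean
section


set_option autoImplicit false

open scoped MatrixGroups ModularForm
open UpperHalfPlane CongruenceSubgroup Matrix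

namespace Fermat.Agent.S48.H188

noncomputable section

variable {k : ℤ} {N : ℕ} {p : ℕ}

lemma slash_gl_congr (F : ℍ → ℂ) {a b c d a' b' c' d' : ℤ} (ha : a = a') (hb : b = b')
    (hc : c = c') (hd : d = d') : F ∣[k] gl a b c d = F ∣[k] gl a' b' c' d' := by
  subst ha hb hc hd; rfl

/-- Case (a): `β_j γ ∈ Γ₁(N) β_{j'}`. -/
lemma slash_beta_gamma_finite (hp : 0 < p) {F : ℍ → ℂ} (hF : Inv1 N k F) {γ : SL(2, ℤ)}
    (hγ : γ ∈ Gamma1 N) (j j' : ℤ)
    (hdiv : (p : ℤ) ∣ (γ 0 1 + j * γ 1 1) - j' * (γ 0 0 + j * γ 1 0)) :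
    (F ∣[k] gl 1 j 0 p) ∣[k] γ = F ∣[k] gl 1 j' 0 p := by
  obtain ⟨y, hy⟩ := hdiv
  have hdet := SL_det_eq γ
  obtain ⟨hγ0, hγ1⟩ := mem_Gamma1_iff.mp hγ
  have hc : ((γ 1 0 : ℤ) : ZMod N) = 0 := Gamma0_mem.mp hγ0
  have hd : ((γ 1 1 : ℤ) : ZMod N) = 1 := hγ1
  set a := γ 0 0
  set b := γ 0 1
  set c := γ 1 0
  set d := γ 1 1
  have hdet1 : (a + j * c) * (d - j' * c) - y * (p * c) = 1 := by
    linear_combination hdet + c * hy
  have hg1 : sl (a + j * c) y (p * c) (d - j' * c) hdet1 ∈ Gamma1 N := by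
    rw [mem_Gamma1_iff, Gamma0_mem]
    refine ⟨?_, ?_⟩
    · simp only [sl_10]; push_cast; rw [hc]; ring
    · simp only [dd, sl_11]; push_cast; rw [hc, hd]; ring
  have hpne : (1 : ℤ) * (p : ℤ) - j * 0 ≠ 0 := by simp; exact hp.ne'
  have hpne' : (1 : ℤ) * (p : ℤ) - j' * 0 ≠ 0 := by simp; exact hp.ne'
  rw [slash_gl_SL F γ hpne]
  conv_rhs => rw [← hF _ hg1, slash_SL_gl F _ hpne']
  simp only [sl_00, sl_01, sl_10, sl_11]
  apply slash_gl_congr
  · ring
  · linear_combination hy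
  · ring
  · ring

/-- Case (b): `β_j γ ∈ Γ₀(N)_p α`. -/
lemma slash_beta_gamma_infty (hp : 0 < p) {F : ℍ → ℂ} (hF : Inv1 N k F) {γ : SL(2, ℤ)}
    (hγ : γ ∈ Gamma1 N) {γp : SL(2, ℤ)} (hγp : γp ∈ Gamma0 N) (hdp : dd N γp = (p : ZMod N))
    (j : ℤ) (hdiv : (p : ℤ) ∣ (γ 0 0 + j * γ 1 0)) :
    (F ∣[k] gl 1 j 0 p) ∣[k] γ = (F ∣[k] γp) ∣[k] gl p 0 0 1 := by
  obtain ⟨x, hx⟩ := hdiv
  have hdet := SL_det_eq γ
  obtain ⟨hγ0, hγ1⟩ := mem_Gamma1_iff.mp hγ
  have hc : ((γ 1 0 : ℤ) : ZMod N) = 0 := Gamma0_mem.mp hγ0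
  have hd : ((γ 1 1 : ℤ) : ZMod N) = 1 := hγ1
  set a := γ 0 0
  set b := γ 0 1
  set c := γ 1 0
  set d := γ 1 1
  have hdet0 : x * (p * d) - (b + j * d) * c = 1 := by
    linear_combination hdet - d * hx
  have hg0 : sl x (b + j * d) c (p * d) hdet0 ∈ Gamma0 N := by
    rw [Gamma0_mem]; simpa using hc
  have hdd : dd N (sl x (b + j * d) c (p * d) hdet0) = dd N γp := by
    rw [hdp]; simp only [dd, sl_11]; push_cast; rw [hd]; ring
  have hpne : (1 : ℤ) * (p : ℤ) - j * 0 ≠ 0 := by simp; exact hp.ne'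
  have hpne' : ((p : ℤ)) * 1 - 0 * 0 ≠ 0 := by simp; exact hp.ne'
  rw [slash_gl_SL F γ hpne, ← hF.slash_eq_of_dd_eq hg0 hγp hdd, slash_SL_gl F _ hpne']
  simp only [sl_00, sl_01, sl_10, sl_11]
  apply slash_gl_congr
  · linear_combination hx
  · ring
  · ring
  · ring

/-- Case (c): `α γ ∈ Γ₀(N)_{1/p} β_{j'}`. -/
lemma slash_alpha_gamma_finite (hp : 0 < p) {F : ℍ → ℂ} (hF : Inv1 N k F) {γ : SL(2, ℤ)}
    (hγ : γ ∈ Gamma1 N) {γp : SL(2, ℤ)} (hγp : γp ∈ Gamma0 N) (hdp : dd N γp = (p : ZMod N))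
    (j' : ℤ) (hdiv : (p : ℤ) ∣ (γ 1 1 - j' * γ 1 0)) :
    ((F ∣[k] γp) ∣[k] gl p 0 0 1) ∣[k] γ = F ∣[k] gl 1 j' 0 p := by
  obtain ⟨z, hz⟩ := hdiv
  have hdet := SL_det_eq γ
  obtain ⟨hγ0, hγ1⟩ := mem_Gamma1_iff.mp hγ
  have hc : ((γ 1 0 : ℤ) : ZMod N) = 0 := Gamma0_mem.mp hγ0
  have hd : ((γ 1 1 : ℤ) : ZMod N) = 1 := hγ1
  set a := γ 0 0
  set b := γ 0 1
  set c := γ 1 0
  set d := γ 1 1
  have hdet3 : (p * a) * z - (b - j' * a) * c = 1 := by
    linear_combination hdet - a * hz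
  have hg3 : sl (p * a) (b - j' * a) c z hdet3 ∈ Gamma0 N := by
    rw [Gamma0_mem]; simpa using hc
  have hpz : (p : ZMod N) * (z : ZMod N) = 1 := by
    have : (((d - j' * c : ℤ)) : ZMod N) = ((p * z : ℤ) : ZMod N) := by rw [hz]
    push_cast at this
    rw [hc, hd] at this
    rw [← this]; ring
  have hprod : dd N (γp * sl (p * a) (b - j' * a) c z hdet3) = 1 := by
    rw [dd_mul hγp, hdp]
    simpa [dd] using hpz
  have hpne : (1 : ℤ) * (p : ℤ) - j' * 0 ≠ 0 := by simp; exact hp.ne'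
  have hpne' : ((p : ℤ)) * 1 - 0 * 0 ≠ 0 := by simp; exact hp.ne'
  rw [slash_gl_SL _ γ hpne']
  conv_rhs => rw [← hF.slash_eq_self_of_dd ((Gamma0 N).mul_mem hγp hg3) hprod,
    SlashAction.slash_mul, slash_SL_gl _ _ hpne]
  simp only [sl_00, sl_01, sl_10, sl_11]
  apply slash_gl_congr
  · ring
  · ring
  · ring
  · linear_combination hz

/-- Case (d): `α γ ∈ Γ₁(N) α` when `p ∣ c`. -/
lemma slash_alpha_gamma_infty (hp : 0 < p) (hpN : Nat.Coprime p N) {F : ℍ → ℂ}
    (hF : Inv1 N k F) {γ : SL(2, ℤ)}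
    (hγ : γ ∈ Gamma1 N) (hdiv : (p : ℤ) ∣ γ 1 0) :
    (F ∣[k] gl p 0 0 1) ∣[k] γ = F ∣[k] gl p 0 0 1 := by
  obtain ⟨c', hc'⟩ := hdiv
  have hdet := SL_det_eq γ
  obtain ⟨hγ0, hγ1⟩ := mem_Gamma1_iff.mp hγ
  have hc : ((γ 1 0 : ℤ) : ZMod N) = 0 := Gamma0_mem.mp hγ0
  have hd : ((γ 1 1 : ℤ) : ZMod N) = 1 := hγ1
  set a := γ 0 0
  set b := γ 0 1
  set c := γ 1 0
  set d := γ 1 1
  have hdet2 : a * d - (p * b) * c' = 1 := by
    linear_combination hdet + b * hc'
  have hunit : IsUnit ((p : ℕ) : ZMod N) := (ZMod.isUnit_iff_coprime p N).mpr hpN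
  have hc'0 : ((c' : ℤ) : ZMod N) = 0 := by
    have : ((p * c' : ℤ) : ZMod N) = 0 := by rw [← hc', hc]
    push_cast at this
    exact (hunit.mul_right_eq_zero).mp this
  have hg2 : sl a (p * b) c' d hdet2 ∈ Gamma1 N := by
    rw [mem_Gamma1_iff, Gamma0_mem]
    exact ⟨by simpa using hc'0, by simpa [dd] using hd⟩
  have hpne' : ((p : ℤ)) * 1 - 0 * 0 ≠ 0 := by simp; exact hp.ne'
  rw [slash_gl_SL _ γ hpne']
  conv_rhs => rw [← hF _ hg2, slash_SL_gl _ _ hpne']
  simp only [sl_00, sl_01, sl_10, sl_11]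
  apply slash_gl_congr
  · ring
  · ring
  · linear_combination hc'
  · ring

end

end Fermat.Agent.S48.H188

end
-- ===== PACK-END S48/H188/Cosets.lean

-- ===== PACK-BEGIN S48/H796/PTransform.lean
section



/-!
# S48 / P2-EIS (helper796): transformation laws of `P`

* `Pfun_S` : `P(w/τ, -1/τ) = τ P(w, τ) + 2πi w`
* `Pfun_T` : `P(w, τ+1) = P(w, τ)`
* `Pfun_add_lat` : `P(w + mτ + n, τ) = P(w, τ) - 2πi m`
-/

set_option autoImplicit false

noncomputable section

namespace Fermat.Agent.S48.H796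

open UpperHalfPlane hiding I
open Complex Filter Topology EisensteinSeries ModularGroup
open scoped Real

theorem coe_S_smul (τ : ℍ) : ((S • τ : ℍ) : ℂ) = -1 / (τ : ℂ) := by
  rw [UpperHalfPlane.modular_S_smul]
  simp [neg_div, inv_neg]

theorem coe_T_smul (τ : ℍ) : ((T • τ : ℍ) : ℂ) = (τ : ℂ) + 1 := by
  rw [UpperHalfPlane.modular_T_smul]
  simp [add_comm]

lemma lat_S (τ : ℍ) (p : ℤ × ℤ) : lat (S • τ) p = lat τ (p.2, -p.1) / τ := by
  have hτ : (τ : ℂ) ≠ 0 := ne_zero τ
  simp only [lat, coe_S_smul, Int.cast_neg]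
  field_simp
  ring

lemma zt_S (τ : ℍ) (w : ℂ) (p : ℤ × ℤ) :
    zt (S • τ) (w / τ) p = τ * zt τ w (p.2, -p.1) := by
  have hτ : (τ : ℂ) ≠ 0 := ne_zero τ
  simp only [zt, lat_S]
  generalize lat τ (p.2, -p.1) = L
  rw [← add_div, one_div_div, one_div_div, div_pow, div_div_eq_mul_div, div_mul_eq_mul_div,
    div_div]
  have e : w * (τ : ℂ) ^ 2 / (τ * L ^ 2) = τ * (w / L ^ 2) := by
    rw [pow_two, mul_div_assoc, mul_div_mul_left _ _ hτ]
    ring
  rw [e]
  ring

/-- The rotation `(m, n) ↦ (n, -m)` of `ℤ²`. -/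
def rotEquiv : ℤ × ℤ ≃ ℤ × ℤ where
  toFun p := (p.2, -p.1)
  invFun p := (-p.2, p.1)
  left_inv p := by simp
  right_inv p := by simp

theorem zetaT_S (τ : ℍ) (w : ℂ) : zetaT (S • τ) (w / τ) = τ * zetaT τ w := by
  unfold zetaT
  simp_rw [zt_S]
  rw [tsum_mul_left]
  congr 1
  exact rotEquiv.tsum_eq (zt τ w)

lemma OffLattice.S {τ : ℍ} {w : ℂ} (h : OffLattice τ w) : OffLattice (S • τ) (w / τ) := by
  intro p
  rw [lat_S, ← add_div]
  exact div_ne_zero (h _) (ne_zero τ)

lemma G2_S (τ : ℍ) : G2 (S • τ) = (τ : ℂ) ^ 2 * G2 τ - 2 * π * I * τ := by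
  have h := G2_S_transform τ
  have hτ : (τ : ℂ) ≠ 0 := ne_zero τ
  have : G2 (S • τ) = (τ : ℂ) ^ 2 * (G2 τ + -2 * π * I / τ) := by
    rw [h]
    field_simp
    ring
  rw [this]
  field_simp
  ring

/-- **S-law** of `P`. -/
theorem Pfun_S {τ : ℍ} {w : ℂ} (h : OffLattice τ w) :
    Pfun (S • τ) (w / τ) = τ * Pfun τ w + 2 * π * I * w := by
  have h1 := zetaT_eq h
  have h2 := zetaT_eq h.S
  have h3 := zetaT_S τ w
  have hτ : (τ : ℂ) ≠ 0 := ne_zero τ
  rw [h1, h2, G2_S] at h3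
  have e : w / (τ : ℂ) * ((τ : ℂ) ^ 2 * G2 τ - 2 * π * I * τ) = w * τ * G2 τ - 2 * π * I * w := by
    field_simp
  rw [e] at h3
  linear_combination h3

lemma pairP_T (τ : ℍ) (w : ℂ) (k : ℕ) : pairP (T • τ) w k = pairP τ w k := by
  simp only [pairP, coe_T_smul]
  have e1 : w + ((k : ℂ) + 1) * ((τ : ℂ) + 1) = (w + ((k : ℂ) + 1) * τ) + ((k + 1 : ℕ) : ℤ) := by
    push_cast; ring
  have e2 : w - ((k : ℂ) + 1) * ((τ : ℂ) + 1) = (w - ((k : ℂ) + 1) * τ) - ((k + 1 : ℕ) : ℤ) := by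
    push_cast; ring
  rw [e1, e2, cotPi_add_int, cotPi_sub_int]

/-- **T-law** of `P`. -/
theorem Pfun_T (τ : ℍ) (w : ℂ) : Pfun (T • τ) w = Pfun τ w := by
  simp only [Pfun, pairP_T]

lemma pairP_add_int (τ : ℍ) (w : ℂ) (n : ℤ) (k : ℕ) : pairP τ (w + n) k = pairP τ w k := by
  simp only [pairP]
  have e1 : w + n + ((k : ℂ) + 1) * (τ : ℂ) = (w + ((k : ℂ) + 1) * τ) + n := by ring
  have e2 : w + n - ((k : ℂ) + 1) * (τ : ℂ) = (w - ((k : ℂ) + 1) * τ) + n := by ring
  rw [e1, e2, cotPi_add_int, cotPi_add_int]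

theorem Pfun_add_int (τ : ℍ) (w : ℂ) (n : ℤ) : Pfun τ (w + n) = Pfun τ w := by
  simp only [Pfun, pairP_add_int, cotPi_add_int]

lemma OffLattice.add_lat {τ : ℍ} {w : ℂ} (h : OffLattice τ w) (q : ℤ × ℤ) :
    OffLattice τ (w + lat τ q) := by
  intro p
  have := h (p + q)
  simp only [lat, Prod.fst_add, Prod.snd_add, Int.cast_add] at this ⊢
  intro h0
  apply this
  linear_combination h0

lemma OffLattice.of_add_lat {τ : ℍ} {w : ℂ} (q : ℤ × ℤ) (h : OffLattice τ (w + lat τ q)) :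
    OffLattice τ w := by
  have := h.add_lat (-q)
  have e : w + lat τ q + lat τ (-q) = w := by
    simp only [lat, Prod.fst_neg, Prod.snd_neg, Int.cast_neg]
    ring
  rwa [e] at this

theorem Pfun_add_tau {τ : ℍ} {w : ℂ} (h : OffLattice τ w) :
    Pfun τ (w + τ) = Pfun τ w - 2 * π * I := by
  have hτ : (τ : ℂ) ≠ 0 := ne_zero τ
  have h' : OffLattice τ (w + τ) := by
    have := h.add_lat (1, 0)
    simpa [lat] using this
  have h1 := Pfun_S h
  have h2 := Pfun_S h'
  have e : (w + (τ : ℂ)) / τ = w / τ + ((1 : ℤ) : ℂ) := by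
    field_simp
    push_cast
    ring
  rw [e, Pfun_add_int, h1] at h2
  have h3 : (τ : ℂ) * (Pfun τ (w + τ) - (Pfun τ w - 2 * π * I)) = 0 := by
    linear_combination -h2
  rcases mul_eq_zero.mp h3 with h4 | h4
  · exact absurd h4 hτ
  · exact sub_eq_zero.mp h4

theorem Pfun_add_mul_tau {τ : ℍ} {w : ℂ} (h : OffLattice τ w) (m : ℤ) :
    Pfun τ (w + m * τ) = Pfun τ w - 2 * π * I * m := by
  induction m using Int.induction_on with
  | zero => simp
  | succ i ih =>
    have h' : OffLattice τ (w + (i : ℂ) * τ) := by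
      have := h.add_lat ((i : ℤ), 0)
      simpa [lat] using this
    have := Pfun_add_tau h'
    have e : w + ((i : ℤ) + 1 : ℤ) * (τ : ℂ) = w + (i : ℂ) * τ + τ := by push_cast; ring
    rw [e, this]
    push_cast at ih ⊢
    rw [ih]
    ring
  | pred i ih =>
    have h' : OffLattice τ (w + ((-(i : ℤ) - 1 : ℤ) : ℂ) * τ) := by
      have := h.add_lat ((-(i : ℤ) - 1), 0)
      simpa [lat] using this
    have := Pfun_add_tau h'
    have e : w + ((-(i : ℤ) - 1 : ℤ) : ℂ) * (τ : ℂ) + τ = w + ((-(i : ℤ) : ℤ) : ℂ) * τ := by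
      push_cast; ring
    rw [e, ih] at this
    push_cast at this ⊢
    linear_combination -this

theorem Pfun_add_lat {τ : ℍ} {w : ℂ} (h : OffLattice τ w) (m n : ℤ) :
    Pfun τ (w + lat τ (m, n)) = Pfun τ w - 2 * π * I * m := by
  have e : w + lat τ (m, n) = (w + (m : ℂ) * τ) + n := by
    simp only [lat]; ring
  rw [e, Pfun_add_int, Pfun_add_mul_tau h]

end Fermat.Agent.S48.H796

end
end
-- ===== PACK-END S48/H796/PTransform.lean

-- ===== PACK-BEGIN G2/H723/Cusp.lean
section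



/-!
# Row GLUE, phase 2, block F, leaf C (cusp switch) -- the family at the cusp  (helper723)

On the cuspidal cubic `c₄ = t²`, `c₆ = t³` (i.e. `c₄³ = c₆²`) the `5`-congruent family of main
(`S52/Fam/Defs.lean`, homogenised in `S52/B/Hom.lean`) degenerates to

    C4h t² t³ m n = t² (n + m t)²⁰,   C6h t² t³ m n = t³ (n + m t)³⁰,
    Fkh t² t³ m n = (n + m t)¹¹ (n - 11 m t).

Polynomial identities over any commutative ring; also the homogeneity of `C4h`, `C6h`, `Fkh`.
-/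

set_option autoImplicit false

namespace Fermat.Agent.G2.H723

open Fermat.Agent.S52.Fam Fermat.Agent.S52.B

variable {R : Type*} [CommRing R]

/-- `C4h` on the cuspidal cubic. -/
theorem C4h_cusp723 (t m n : R) : C4h (t ^ 2) (t ^ 3) m n = t ^ 2 * (n + m * t) ^ 20 := by
  simp only [C4h, C4_0, C4_1, C4_2, C4_3, C4_4, C4_5, C4_6, C4_7, C4_8, C4_9, C4_10, C4_11, C4_12, C4_13, C4_14, C4_15, C4_16, C4_17, C4_18, C4_19, C4_20]
  ring

/-- `C6h` on the cuspidal cubic. -/
theorem C6h_cusp723 (t m n : R) : C6h (t ^ 2) (t ^ 3) m n = t ^ 3 * (n + m * t) ^ 30 := by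
  simp only [C6h, C6_0, C6_1, C6_2, C6_3, C6_4, C6_5, C6_6, C6_7, C6_8, C6_9, C6_10, C6_11, C6_12, C6_13, C6_14, C6_15, C6_16, C6_17, C6_18, C6_19, C6_20, C6_21, C6_22, C6_23, C6_24, C6_25, C6_26, C6_27, C6_28, C6_29, C6_30]
  ring

/-- `Fkh` on the cuspidal cubic. -/
theorem Fkh_cusp723 (t m n : R) :
    Fkh (t ^ 2) (t ^ 3) m n = (n + m * t) ^ 11 * (n - 11 * m * t) := by
  simp only [Fkh, Fk_0, Fk_2, Fk_3, Fk_4, Fk_5, Fk_6, Fk_7, Fk_8, Fk_9, Fk_10, Fk_11, Fk_12]
  ring

/-- `C4h` is homogeneous of degree `20` in `(m, n)`. -/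
theorem C4h_smul723 (c₄ c₆ a m n : R) : C4h c₄ c₆ (a * m) (a * n) = a ^ 20 * C4h c₄ c₆ m n := by
  simp only [C4h]
  ring

/-- `C6h` is homogeneous of degree `30` in `(m, n)`. -/
theorem C6h_smul723 (c₄ c₆ a m n : R) : C6h c₄ c₆ (a * m) (a * n) = a ^ 30 * C6h c₄ c₆ m n := by
  simp only [C6h]
  ring

/-- `Fkh` is homogeneous of degree `12` in `(m, n)`. -/
theorem Fkh_smul723 (c₄ c₆ a m n : R) : Fkh c₄ c₆ (a * m) (a * n) = a ^ 12 * Fkh c₄ c₆ m n := by
  simp only [Fkh]
  ring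

end Fermat.Agent.G2.H723

end
-- ===== PACK-END G2/H723/Cusp.lean

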