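import Mathlib
import Fermat.Prelude.Def_FLTPrelim_GaloisRep
import Fermat.Prelude.Def_FLTPrelim_ModularRep
import Fermat.Prelude.Def_FLTPrelim_Ramification
import Fermat.Prelude.Def_FLTPrelim_FreyPackage
import Fermat.Agent.Pack.L1.E2L1
import Fermat.Agent.Pack.L1.E1L3
import Fermat.Agent.Pack.L1.E0L1
import Fermat.Agent.Pack.L1.E2L0
import Fermat.Agent.Pack.L1.E2L2
import Fermat.Agent.Pack.L1.E0L0
import Fermat.Agent.Pack.S43MC.G0E10L2
import Fermat.Agent.Pack.S44C.G0E7L1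
import Fermat.Agent.Pack.S44C.G0E3L3
import Fermat.Agent.Pack.S44C.G0E3L2
import Fermat.Agent.Pack.S44C.G0E5L1
import Fermat.Agent.Pack.L1.E1L1
import Fermat.Agent.Pack.L1.E1L2
import Fermat.Agent.Pack.L1.E1L0
import Fermat.Agent.Pack.S44C.G0E6L2
import Fermat.Agent.Pack.S44C.G0E10L2
import Fermat.Agent.Pack.S43MC.G0E5L3

-- ===== PACK-BEGIN S52/B/B1/H170/HomTate.lean
section
/-
S52 / B1 (helper170): homogenised Tate sections and the HOMOGENISED family identities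

  `C4h (u⁴·tc4 c) (u⁶·tc6 c) m n = u⁴ · C4hom (c·q5h c (u²m) n) (q5h' c (u²m) n)`   (any comm. ring),

same for `C6h`; derived from helper952's `(I1)`, `(I2)` (`Fam/Ident.lean`).
-/




set_option autoImplicit false
set_option linter.unusedSimpArgs false

namespace Fermat.Agent.S52.B.B1.H170

open Fermat.Agent.S52.Fam Fermat.Agent.S52.B

variable {R : Type*} [CommRing R]

/-- `n⁵ · q5 c (m/n)`. -/
def q5h (c m n : R) : R :=
  q5_0 c * n^5
  + q5_1 c * m * n^4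
  + q5_2 c * m^2 * n^3
  + q5_3 c * m^3 * n^2
  + q5_4 c * m^4 * n
  + q5_5 c * m^5

/-- `n⁵ · q5' c (m/n)`. -/
def q5h' (c m n : R) : R :=
  q5'_0 c * n^5
  + q5'_1 c * m * n^4
  + q5'_2 c * m^2 * n^3
  + q5'_3 c * m^3 * n^2
  + q5'_4 c * m^4 * n
  + q5'_5 c * m^5

theorem q5h_zero_one (c : R) : q5h c 0 1 = 1 := by
  simp only [q5h, q5_0]; ring

theorem q5h'_zero_one (c : R) : q5h' c 0 1 = 1 := by
  simp only [q5h', q5'_0]; ring

section Maps

variable {S : Type*} [CommRing S] (f : R →+* S)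

theorem map_q5h (c m n : R) : f (q5h c m n) = q5h (f c) (f m) (f n) := by
  simp only [q5h, q5_0, q5_1, q5_2, q5_3, q5_4, q5_5, map_add, map_sub, map_mul, map_pow, map_neg, map_ofNat, map_one]

theorem map_q5h' (c m n : R) : f (q5h' c m n) = q5h' (f c) (f m) (f n) := by
  simp only [q5h', q5'_0, q5'_1, q5'_2, q5'_3, q5'_4, q5'_5, map_add, map_sub, map_mul, map_pow, map_neg, map_ofNat,
    map_one]

theorem map_tc4 (c : R) : f (tc4 c) = tc4 (f c) := by
  simp only [tc4, map_add, map_sub, map_mul, map_pow, map_neg, map_ofNat, map_one]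

theorem map_tc6 (c : R) : f (tc6 c) = tc6 (f c) := by
  simp only [tc6, map_add, map_sub, map_mul, map_pow, map_neg, map_ofNat, map_one]

theorem map_C4hom (x z : R) : f (C4hom x z) = C4hom (f x) (f z) := by
  simp only [C4hom, map_add, map_sub, map_mul, map_pow, map_neg, map_ofNat, map_one]

theorem map_C6hom (x z : R) : f (C6hom x z) = C6hom (f x) (f z) := by
  simp only [C6hom, map_add, map_sub, map_mul, map_pow, map_neg, map_ofNat, map_one]

end Maps

/-- weighted homogeneity of `C4` (weights `c₄ : 4`, `c₆ : 6`, `τ : -2`). -/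
theorem C4_weight (u a b t : R) : C4 (u ^ 4 * a) (u ^ 6 * b) t = u ^ 4 * C4 a b (u ^ 2 * t) := by
  simp only [C4, C4_0, C4_1, C4_2, C4_3, C4_4, C4_5, C4_6, C4_7, C4_8, C4_9, C4_10, C4_11, C4_12, C4_13, C4_14, C4_15, C4_16, C4_17, C4_18, C4_19, C4_20]
  ring

/-- weighted homogeneity of `C6`. -/
theorem C6_weight (u a b t : R) : C6 (u ^ 4 * a) (u ^ 6 * b) t = u ^ 6 * C6 a b (u ^ 2 * t) := by
  simp only [C6, C6_0, C6_1, C6_2, C6_3, C6_4, C6_5, C6_6, C6_7, C6_8, C6_9, C6_10, C6_11, C6_12, C6_13, C6_14, C6_15, C6_16, C6_17, C6_18, C6_19, C6_20, C6_21, C6_22, C6_23, C6_24, C6_25, C6_26, C6_27, C6_28, C6_29, C6_30]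
  ring

theorem C4hom_smul (l x z : R) : C4hom (l * x) (l * z) = l ^ 4 * C4hom x z := by
  simp only [C4hom]; ring

theorem C6hom_smul (l x z : R) : C6hom (l * x) (l * z) = l ^ 6 * C6hom x z := by
  simp only [C6hom]; ring

section Field

variable {k : Type*} [Field k]

theorem q5h_eq_pow_mul (c m : k) {n : k} (hn : n ≠ 0) : q5h c m n = n ^ 5 * q5 c (m / n) := by
  simp only [q5h, q5]; field_simp

theorem q5h'_eq_pow_mul (c m : k) {n : k} (hn : n ≠ 0) :
    q5h' c m n = n ^ 5 * q5' c (m / n) := by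
  simp only [q5h', q5']; field_simp

theorem hI1_field (c u m : k) {n : k} (hn : n ≠ 0) :
    C4h (u ^ 4 * tc4 c) (u ^ 6 * tc6 c) m n =
      u ^ 4 * C4hom (c * q5h c (u ^ 2 * m) n) (q5h' c (u ^ 2 * m) n) := by
  rw [C4h_eq_pow_mul _ _ _ hn, _root_.Fermat.Agent.S52.B.B1.H170.C4_weight, C4_tate_one, q5h_eq_pow_mul _ _ hn,
    q5h'_eq_pow_mul _ _ hn]
  have e : u ^ 2 * m / n = u ^ 2 * (m / n) := by ring
  rw [e, show c * (n ^ 5 * q5 c (u ^ 2 * (m / n))) = n ^ 5 * (c * q5 c (u ^ 2 * (m / n))) by ring,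
    C4hom_smul]
  ring

theorem hI2_field (c u m : k) {n : k} (hn : n ≠ 0) :
    C6h (u ^ 4 * tc4 c) (u ^ 6 * tc6 c) m n =
      u ^ 6 * C6hom (c * q5h c (u ^ 2 * m) n) (q5h' c (u ^ 2 * m) n) := by
  rw [C6h_eq_pow_mul _ _ _ hn, _root_.Fermat.Agent.S52.B.B1.H170.C6_weight, C6_tate_one, q5h_eq_pow_mul _ _ hn,
    q5h'_eq_pow_mul _ _ hn]
  have e : u ^ 2 * m / n = u ^ 2 * (m / n) := by ring
  rw [e, show c * (n ^ 5 * q5 c (u ^ 2 * (m / n))) = n ^ 5 * (c * q5 c (u ^ 2 * (m / n))) by ring,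
    C6hom_smul]
  ring

end Field

section Domain

variable {D : Type*} [CommRing D] [IsDomain D]

theorem hI1_domain (c u m : D) {n : D} (hn : n ≠ 0) :
    C4h (u ^ 4 * tc4 c) (u ^ 6 * tc6 c) m n =
      u ^ 4 * C4hom (c * q5h c (u ^ 2 * m) n) (q5h' c (u ^ 2 * m) n) := by
  apply IsFractionRing.injective D (FractionRing D)
  have hn' : algebraMap D (FractionRing D) n ≠ 0 := by
    intro h
    exact hn ((IsFractionRing.injective D (FractionRing D)) (h.trans (map_zero _).symm))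
  simp only [map_C4h, map_mul, map_pow, map_tc4, map_tc6, map_C4hom, map_q5h, map_q5h']
  exact hI1_field _ _ _ hn'

theorem hI2_domain (c u m : D) {n : D} (hn : n ≠ 0) :
    C6h (u ^ 4 * tc4 c) (u ^ 6 * tc6 c) m n =
      u ^ 6 * C6hom (c * q5h c (u ^ 2 * m) n) (q5h' c (u ^ 2 * m) n) := by
  apply IsFractionRing.injective D (FractionRing D)
  have hn' : algebraMap D (FractionRing D) n ≠ 0 := by
    intro h
    exact hn ((IsFractionRing.injective D (FractionRing D)) (h.trans (map_zero _).symm))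
  simp only [map_C6h, map_mul, map_pow, map_tc4, map_tc6, map_C6hom, map_q5h, map_q5h']
  exact hI2_field _ _ _ hn'

end Domain

end Fermat.Agent.S52.B.B1.H170

end
-- ===== PACK-END S52/B/B1/H170/HomTate.lean

-- ===== PACK-BEGIN S15/H466/SelAbs.lean
section




/-!
# S15 / DESC — the consumer of route 208 (helper466): SEL-BOUND from the self-improving count

Abstract form (Mathlib + `H842.Engine` + `H208.CountInst` only).

`Γ` acts on `J`; `F 0 = ⊥ ≤ F 1 ≤ … ≤ F D = W` a flag of `Γ`-stable subgroups with all indices a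
prime `r`; `K, U ≤ W`.  Put `A = cocSub Γ ⊥ = J^Γ`, `Y = cocSub Γ W`,
`jmp F X i = [F (i+1) ⊓ X ≰ F i]` (`= 1` iff the flag of `X` jumps at `i`).  If

* (STEP)  `|Sel_i| ≠ 0` and `|Sel_i| * r ^ (1 - jmp F K i) ≤ r ^ (jmp F U i) * |P_i^Γ|`,
* (COUNT) `|K|² ≤ |W|`,
* (CNT)   `|U|² ≤ [Y : A]`   (as soon as this index is finite),

then `[Y : A + W]` is finite and `≤ |W ∩ A|`   (`selBound_abs`).

No bound `|K| |U| ≤ |W|` is needed: this is helper208's self-improving count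
(`coord/S15-LOCp-helper208.md`), with the exact ENGINE formula of helper842.
-/

set_option autoImplicit false

namespace Fermat.Agent.S15.H466

open Fermat.Agent.S15.H842.Engine
open scoped BigOperators

section Chain

variable {J : Type*} [AddCommGroup J]

/-- `1` if the induced flag `F i ⊓ X` jumps at `i`, else `0`. -/
noncomputable def jmp (F : ℕ → AddSubgroup J) (X : AddSubgroup J) (i : ℕ) : ℕ := by
  classical
  exact if F (i + 1) ⊓ X ≤ F i then 0 else 1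

theorem jmp_le_one (F : ℕ → AddSubgroup J) (X : AddSubgroup J) (i : ℕ) : jmp F X i ≤ 1 := by
  classical
  unfold jmp
  split_ifs <;> omega

theorem jmp_eq_zero {F : ℕ → AddSubgroup J} {X : AddSubgroup J} {i : ℕ}
    (h : F (i + 1) ⊓ X ≤ F i) : jmp F X i = 0 := by
  classical
  unfold jmp
  rw [if_pos h]

theorem jmp_eq_one {F : ℕ → AddSubgroup J} {X : AddSubgroup J} {i : ℕ}
    (h : ¬ F (i + 1) ⊓ X ≤ F i) : jmp F X i = 1 := by
  classical
  unfold jmp
  rw [if_neg h]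

/-- In a commutative group the relative index is monotone for divisibility in the right
argument. -/
theorem relIndex_dvd_of_le_right_h466 (H L L' : AddSubgroup J) (hL : L ≤ L') :
    H.relIndex L ∣ H.relIndex L' := by
  have h1 : (H ⊓ L').relIndex ((H ⊓ L') ⊔ L) * ((H ⊓ L') ⊔ L).relIndex L' =
      (H ⊓ L').relIndex L' :=
    AddSubgroup.relIndex_mul_relIndex _ _ _ le_sup_left (sup_le inf_le_right hL)
  have h2 : (H ⊓ L').relIndex ((H ⊓ L') ⊔ L) = H.relIndex L := by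
    rw [AddSubgroup.relIndex_sup_left, ← AddSubgroup.inf_relIndex_right (H ⊓ L') L,
      inf_assoc, inf_eq_right.2 hL, AddSubgroup.inf_relIndex_right]
  rw [h2, AddSubgroup.inf_relIndex_right] at h1
  exact Dvd.intro _ h1

/-- The order of `F k ⊓ X` is `r ^ (number of jumps below k)`. -/
theorem card_inf_flag (r : ℕ) (hr : r.Prime) (F : ℕ → AddSubgroup J) (X : AddSubgroup J)
    (h0 : F 0 = ⊥) (k : ℕ) (hmono : ∀ i, i < k → F i ≤ F (i + 1))
    (hidx : ∀ i, i < k → (F i).relIndex (F (i + 1)) = r) :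
    Nat.card ↥(F k ⊓ X) = r ^ (∑ i ∈ Finset.range k, jmp F X i) := by
  induction k with
  | zero =>
    rw [h0, bot_inf_eq, Finset.range_zero, Finset.sum_empty, pow_zero]
    exact AddSubgroup.card_bot
  | succ k ih =>
    have hk := ih (fun i hi => hmono i (Nat.lt_succ_of_lt hi))
      (fun i hi => hidx i (Nat.lt_succ_of_lt hi))
    have hle : F k ⊓ X ≤ F (k + 1) ⊓ X := inf_le_inf_right X (hmono k (Nat.lt_succ_self k))
    have h1 : Nat.card ↥(F k ⊓ X) * (F k ⊓ X).relIndex (F (k + 1) ⊓ X) =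
        Nat.card ↥(F (k + 1) ⊓ X) := by
      have := AddSubgroup.relIndex_mul_relIndex (⊥ : AddSubgroup J) (F k ⊓ X) (F (k + 1) ⊓ X)
        bot_le hle
      rwa [AddSubgroup.relIndex_bot_left, AddSubgroup.relIndex_bot_left] at this
    have h2 : (F k ⊓ X).relIndex (F (k + 1) ⊓ X) = (F k).relIndex (F (k + 1) ⊓ X) := by
      rw [← AddSubgroup.inf_relIndex_right (F k) (F (k + 1) ⊓ X),
        ← AddSubgroup.inf_relIndex_right (F k ⊓ X) (F (k + 1) ⊓ X)]
      congr 1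
      rw [inf_eq_left.2 hle, ← inf_assoc, inf_eq_left.2 (hmono k (Nat.lt_succ_self k))]
    have h3 : (F k).relIndex (F (k + 1) ⊓ X) = r ^ jmp F X k := by
      by_cases hj : F (k + 1) ⊓ X ≤ F k
      · rw [jmp_eq_zero hj, pow_zero]
        exact AddSubgroup.relIndex_eq_one.2 hj
      · rw [jmp_eq_one hj, pow_one]
        have hd : (F k).relIndex (F (k + 1) ⊓ X) ∣ r := by
          rw [← hidx k (Nat.lt_succ_self k)]
          exact relIndex_dvd_of_le_right_h466 _ _ _ inf_le_left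
        rcases (Nat.dvd_prime hr).1 hd with h | h
        · exact absurd (AddSubgroup.relIndex_eq_one.1 h) hj
        · exact h
    rw [Finset.sum_range_succ, pow_add, ← hk, ← h3, ← h2, h1]

/-- The order of `F k` is `r ^ k`. -/
theorem card_flag (r : ℕ) (F : ℕ → AddSubgroup J)
    (h0 : F 0 = ⊥) (k : ℕ) (hmono : ∀ i, i < k → F i ≤ F (i + 1))
    (hidx : ∀ i, i < k → (F i).relIndex (F (i + 1)) = r) :
    Nat.card ↥(F k) = r ^ k := by
  induction k with
  | zero =>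
    rw [h0, pow_zero]
    exact AddSubgroup.card_bot
  | succ k ih =>
    have hk := ih (fun i hi => hmono i (Nat.lt_succ_of_lt hi))
      (fun i hi => hidx i (Nat.lt_succ_of_lt hi))
    have h1 : Nat.card ↥(F k) * (F k).relIndex (F (k + 1)) = Nat.card ↥(F (k + 1)) := by
      have := AddSubgroup.relIndex_mul_relIndex (⊥ : AddSubgroup J) (F k) (F (k + 1))
        bot_le (hmono k (Nat.lt_succ_self k))
      rwa [AddSubgroup.relIndex_bot_left, AddSubgroup.relIndex_bot_left] at this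
    rw [← h1, hk, hidx k (Nat.lt_succ_self k), pow_succ]

end Chain

section Abs

variable {Γ : Type*} [Group Γ] {J : Type*} [AddCommGroup J] [DistribMulAction Γ J]

/-- **SEL-BOUND from the self-improving count (abstract form).** -/
theorem selBound_abs (r : ℕ) (hr : r.Prime) (F : ℕ → AddSubgroup J) (D : ℕ) (h0 : F 0 = ⊥)
    (hmono : ∀ i, i < D → F i ≤ F (i + 1)) (hst : ∀ i, i ≤ D → IsStable Γ (F i))
    (hidx : ∀ i, i < D → (F i).relIndex (F (i + 1)) = r)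
    (K U : AddSubgroup J) (hK : K ≤ F D) (hU : U ≤ F D)
    (hKc : Nat.card ↥K ^ 2 ≤ Nat.card ↥(F D))
    (hstep : ∀ i, i < D → sel Γ F i ≠ 0 ∧
      sel Γ F i * r ^ (1 - jmp F K i) ≤ r ^ jmp F U i * pG Γ F i)
    (hCNT : (cocSub Γ (⊥ : AddSubgroup J)).relIndex (cocSub Γ (F D)) ≠ 0 →
      Nat.card ↥U ^ 2 ≤ (cocSub Γ (⊥ : AddSubgroup J)).relIndex (cocSub Γ (F D))) :
    (cocSub Γ (⊥ : AddSubgroup J) ⊔ F D).relIndex (cocSub Γ (F D)) ≠ 0 ∧
      (cocSub Γ (⊥ : AddSubgroup J) ⊔ F D).relIndex (cocSub Γ (F D)) ≤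
        Nat.card ↥(F D ⊓ cocSub Γ (⊥ : AddSubgroup J)) := by
  classical
  set A : AddSubgroup J := cocSub Γ (⊥ : AddSubgroup J) with hA
  set W : AddSubgroup J := F D with hW
  set Y : AddSubgroup J := cocSub Γ W with hY
  set a : ℕ := (A ⊔ W).relIndex Y with ha
  set b : ℕ := Nat.card ↥(W ⊓ A) with hb
  have hrpos : 0 < r := hr.pos
  -- sizes
  have hcardW : Nat.card ↥W = r ^ D := card_flag r F h0 D hmono hidx
  have hfinW : Finite ↥W := by
    have : Nat.card ↥W ≠ 0 := by rw [hcardW]; exact pow_ne_zero _ hrpos.ne'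
    exact (Nat.card_pos_iff.1 (Nat.pos_of_ne_zero this)).2
  have hcardK : Nat.card ↥K = r ^ (∑ i ∈ Finset.range D, jmp F K i) := by
    have := card_inf_flag r hr F K h0 D hmono hidx
    rwa [inf_eq_right.2 hK] at this
  have hcardU : Nat.card ↥U = r ^ (∑ i ∈ Finset.range D, jmp F U i) := by
    have := card_inf_flag r hr F U h0 D hmono hidx
    rwa [inf_eq_right.2 hU] at this
  have hsum : (∑ i ∈ Finset.range D, (1 - jmp F K i)) + (∑ i ∈ Finset.range D, jmp F K i) = D := by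
    rw [← Finset.sum_add_distrib]
    have : ∀ i ∈ Finset.range D, (1 - jmp F K i) + jmp F K i = 1 := by
      intro i _
      have := jmp_le_one F K i
      omega
    rw [Finset.sum_congr rfl this]
    simp
  set E : ℕ := r ^ (∑ i ∈ Finset.range D, (1 - jmp F K i)) with hE
  have hEpos : 0 < E := pow_pos hrpos _
  have hwE : Nat.card ↥W = E * Nat.card ↥K := by
    rw [hcardW, hcardK, hE, ← pow_add, hsum]
  have hKpos : 0 < Nat.card ↥K := by rw [hcardK]; exact pow_pos hrpos _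
  -- (COUNT)
  have hCOUNT : Nat.card ↥W ≤ E ^ 2 := by
    have h1 : Nat.card ↥K * Nat.card ↥K ≤ E * Nat.card ↥K := by
      rw [← hwE, ← sq]
      exact hKc
    have h2 : Nat.card ↥K ≤ E := Nat.le_of_mul_le_mul_right h1 hKpos
    rw [hwE, sq]
    exact Nat.mul_le_mul_left _ h2
  -- the engine
  have heng : (∏ i ∈ Finset.range D, sel Γ F i) * b = a * ∏ i ∈ Finset.range D, pG Γ F i :=
    engine_bot (Γ := Γ) F D h0 hmono hst
  have hle : ∀ j, j ≤ D → F j ≤ W := by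
    intro j hj
    have hle' : ∀ n, j + n ≤ D → F j ≤ F (j + n) := by
      intro n
      induction n with
      | zero => intro _; exact le_rfl
      | succ n ihn =>
        intro hn
        exact (ihn (by omega)).trans (hmono (j + n) (by omega))
    have := hle' (D - j) (by omega)
    rwa [Nat.add_sub_cancel' hj] at this
  have hpGne : ∀ i, i < D → pG Γ F i ≠ 0 := by
    intro i hi
    have hfin : Finite ↥(F (i + 1) ⊓ cocSub Γ (F i)) :=
      Finite.of_injective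
        (fun x : ↥(F (i + 1) ⊓ cocSub Γ (F i)) => (⟨x.1, hle (i + 1) hi x.2.1⟩ : ↥W))
        (fun x y hxy => Subtype.ext (congrArg (fun z : ↥W => (z : J)) hxy))
    exact relIndex_ne_zero_of_finite _ _
  have hPg : 0 < ∏ i ∈ Finset.range D, pG Γ F i :=
    Finset.prod_pos fun i hi => Nat.pos_of_ne_zero (hpGne i (Finset.mem_range.1 hi))
  have hPs : 0 < ∏ i ∈ Finset.range D, sel Γ F i :=
    Finset.prod_pos fun i hi => Nat.pos_of_ne_zero (hstep i (Finset.mem_range.1 hi)).1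
  have hbpos : 0 < b := by
    have hfin : Finite ↥(W ⊓ A) :=
      Finite.of_injective (fun x : ↥(W ⊓ A) => (⟨x.1, x.2.1⟩ : ↥W))
        (fun x y hxy => Subtype.ext (congrArg (fun z : ↥W => (z : J)) hxy))
    exact Nat.card_pos
  have hapos : 0 < a := by
    have h1 : 0 < (∏ i ∈ Finset.range D, sel Γ F i) * b := Nat.mul_pos hPs hbpos
    rw [heng] at h1
    exact Nat.pos_of_ne_zero fun h => by rw [h, zero_mul] at h1; exact lt_irrefl _ h1
  -- (SEL)
  have hprod : (∏ i ∈ Finset.range D, sel Γ F i) * E ≤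
      r ^ (∑ i ∈ Finset.range D, jmp F U i) * ∏ i ∈ Finset.range D, pG Γ F i := by
    have h1 : ∏ i ∈ Finset.range D, (sel Γ F i * r ^ (1 - jmp F K i)) ≤
        ∏ i ∈ Finset.range D, (r ^ jmp F U i * pG Γ F i) :=
      Finset.prod_le_prod (fun i _ => Nat.zero_le _)
        (fun i hi => (hstep i (Finset.mem_range.1 hi)).2)
    rwa [Finset.prod_mul_distrib, Finset.prod_mul_distrib, Finset.prod_pow_eq_pow_sum,
      Finset.prod_pow_eq_pow_sum] at h1
  have hSEL : a * E ≤ b * Nat.card ↥U := by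
    have h1 : (a * E) * (∏ i ∈ Finset.range D, pG Γ F i) ≤
        (b * Nat.card ↥U) * ∏ i ∈ Finset.range D, pG Γ F i := by
      calc (a * E) * (∏ i ∈ Finset.range D, pG Γ F i)
          = (a * ∏ i ∈ Finset.range D, pG Γ F i) * E := by ring
        _ = ((∏ i ∈ Finset.range D, sel Γ F i) * b) * E := by rw [← heng]
        _ = b * ((∏ i ∈ Finset.range D, sel Γ F i) * E) := by ring
        _ ≤ b * (r ^ (∑ i ∈ Finset.range D, jmp F U i) * ∏ i ∈ Finset.range D, pG Γ F i) :=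
            Nat.mul_le_mul_left _ hprod
        _ = (b * Nat.card ↥U) * ∏ i ∈ Finset.range D, pG Γ F i := by rw [hcardU]; ring
    exact Nat.le_of_mul_le_mul_right h1 hPg
  -- (CNT)
  have hAW : A ≤ A ⊔ W := le_sup_left
  have hWY : W ≤ Y := le_cocSub_of_isStable (hst D le_rfl)
  have hAY : A ≤ Y := cocSub_mono bot_le
  have hAWY : A ⊔ W ≤ Y := sup_le hAY hWY
  have hidxAY : A.relIndex Y = A.relIndex W * a := by
    rw [← AddSubgroup.relIndex_mul_relIndex A (A ⊔ W) Y hAW hAWY, AddSubgroup.relIndex_sup_left]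
  have hidxW : A.relIndex W * b = Nat.card ↥W := by
    have := AddSubgroup.relIndex_mul_relIndex (⊥ : AddSubgroup J) (W ⊓ A) W bot_le inf_le_left
    rw [AddSubgroup.relIndex_bot_left, AddSubgroup.relIndex_bot_left, inf_comm,
      AddSubgroup.inf_relIndex_right] at this
    rw [hb, inf_comm, mul_comm]
    exact this
  have hAWne : A.relIndex W ≠ 0 := relIndex_ne_zero_of_finite _ _
  have hAYne : A.relIndex Y ≠ 0 := by
    rw [hidxAY]
    exact Nat.mul_ne_zero hAWne hapos.ne'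
  have hCNT' : Nat.card ↥U ^ 2 * b ≤ a * Nat.card ↥W := by
    calc Nat.card ↥U ^ 2 * b ≤ A.relIndex Y * b := Nat.mul_le_mul_right _ (hCNT hAYne)
      _ = a * (A.relIndex W * b) := by rw [hidxAY]; ring
      _ = a * Nat.card ↥W := by rw [hidxW]
  exact ⟨hapos.ne', Fermat.Agent.S15.H208.selfImproving a b (Nat.card ↥U) (Nat.card ↥W) E hapos hEpos
    hSEL hCNT' hCOUNT⟩

end Abs

end Fermat.Agent.S15.H466

end
-- ===== PACK-END S15/H466/SelAbs.lean

-- ===== PACK-BEGIN S15/H466/SelAsm.lean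
section




/-!
# S15 / DESC — SEL-BOUND on route 208, in the language of the frozen skeleton (helper466)

`H975.DescSpec` asks (node LOCAL) for subgroups `K, U ≤ W_E` with `|K| |U| ≤ |W_E|`; on
helper208's route (`coord/S15-LOCp-helper208.md`: no T7) the subgroup `U₀ = (τ₀ - 1) Y_E` is only
known to satisfy `|U₀|² ≤ [Y_E : A]`.  This file is the consumer:

* `selBound_of_cnt`  : flag + `|K|² ≤ |W_E|` + step bounds w.r.t. `(K, U)` + (CNT) `|U|² ≤ [Y_E : A]`
                       ⟹ `H975.SelBound p S r`                (pure algebra);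
* `cnt_ramSub`       : (CNT) for `U = ramSub p S r τ₀ = (τ₀ - 1) Y_E` from (DIV), (PROJ), (T6''),
                       finiteness                              (instance of `H208.card_tauSub_YE_sq_le`);
* `selBound_route208`: the two together;
* `Local208Statement`, `descCoreTarget_route208` : the skeleton top for route 208
  (replaces `H975.LocalStatement` + `H975.EngineStatement`; T6, T7, LOCP are not used).
-/

set_option autoImplicit false
set_option linter.unusedSectionVars false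

noncomputable section

namespace Fermat.Agent.S15.H466

open ModularCurve Fermat.Agent.S15.H975
open Fermat.Agent.S15.H842.Engine (cocSub)

section Dict

variable (p : ℕ) [NeZero p]

/-! The Prelude `SMul` instance of `Gal` on `JZero p` is not syntactically the one of its
`DistribMulAction`: the usual lemmas are restated once. -/

theorem gal_smul_zero_h466 (σ : _root_.Fermat.Agent.S15.H975.Gal) : σ • (0 : JZero p) = 0 := smul_zero (A := JZero p) σ

theorem gal_smul_add_h466 (σ : _root_.Fermat.Agent.S15.H975.Gal) (x y : JZero p) : σ • (x + y) = σ • x + σ • y :=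
  smul_add (A := JZero p) σ x y

theorem gal_smul_sub_h466 (σ : _root_.Fermat.Agent.S15.H975.Gal) (x y : JZero p) : σ • (x - y) = σ • x - σ • y :=
  smul_sub (A := JZero p) σ x y

theorem gal_smul_neg_h466 (σ : _root_.Fermat.Agent.S15.H975.Gal) (x : JZero p) : σ • (-x) = -(σ • x) :=
  smul_neg (A := JZero p) σ x

theorem gal_smul_nsmul_h466 (σ : _root_.Fermat.Agent.S15.H975.Gal) (r : ℕ) (y : JZero p) : σ • (r • y) = r • (σ • y) :=
  map_nsmul (DistribSMul.toAddMonoidHom (JZero p) σ) r y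

theorem gal_smul_zsmul_h466 (σ : _root_.Fermat.Agent.S15.H975.Gal) (r : ℤ) (y : JZero p) : σ • (r • y) = r • (σ • y) :=
  map_zsmul (DistribSMul.toAddMonoidHom (JZero p) σ) r y

theorem rat_eq_cocSub : rat p = cocSub _root_.Fermat.Agent.S15.H975.Gal (⊥ : AddSubgroup (JZero p)) := by
  ext x
  rw [Fermat.Agent.S15.H842.Engine.mem_cocSub_bot]
  exact Iff.rfl

theorem rat_eq_fixedPoints : rat p = FixedPoints.addSubgroup _root_.Fermat.Agent.S15.H975.Gal (JZero p) := by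
  ext x
  exact Iff.rfl

theorem eis_le_tors (S : Set ℕ) (r : ℕ) : eis p S r ≤ tors p r := fun _ hw => hw.1

theorem sel_eq_cocSub (r : ℕ) (F : AddSubgroup (JZero p)) (hF : F ≤ tors p r) :
    _root_.Fermat.Agent.S15.H975.sel p r F = cocSub _root_.Fermat.Agent.S15.H975.Gal F := by
  ext y
  constructor
  · intro h σ
    exact h.2 σ
  · intro h
    refine ⟨fun σ => ?_, fun σ => h σ⟩
    have h1 : r • (σ • y - y) = 0 := hF (h σ)
    have h2 : σ • (r • y) - r • y = r • (σ • y - y) := by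
      rw [nsmul_sub, gal_smul_nsmul_h466]
    exact sub_eq_zero.1 (h2.trans h1)

theorem isStable_iff (F : AddSubgroup (JZero p)) :
    H975.IsStable p F ↔ Fermat.Agent.S15.H842.Engine.IsStable _root_.Fermat.Agent.S15.H975.Gal F :=
  ⟨fun h σ f hf => h σ f hf, fun h σ f hf => h σ f hf⟩

end Dict

section Main

variable (p : ℕ) [NeZero p]

/-- monotonicity of a flag -/
theorem flag_le {S : Set ℕ} {r D : ℕ} {F : ℕ → AddSubgroup (JZero p)} (hF : IsFlag p S r D F)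
    (j : ℕ) (hj : j ≤ D) : F j ≤ eis p S r := by
  have hle' : ∀ n, j + n ≤ D → F j ≤ F (j + n) := by
    intro n
    induction n with
    | zero => intro _; exact le_rfl
    | succ n ihn =>
      intro hn
      exact (ihn (by omega)).trans (hF.2.2 (j + n) (by omega)).1
  have := hle' (D - j) (by omega)
  rw [Nat.add_sub_cancel' hj, hF.2.1] at this
  exact this

/-- **SEL-BOUND from step bounds and (CNT)** (pure algebra, route 208).  No bound
`|K| |U| ≤ |W_E|` is required. -/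
theorem selBound_of_cnt (S : Set ℕ) (r : ℕ) (hr : r.Prime)
    (D : ℕ) (F : ℕ → AddSubgroup (JZero p)) (hF : IsFlag p S r D F)
    (K U : AddSubgroup (JZero p)) (hK : K ≤ eis p S r) (hU : U ≤ eis p S r)
    (hKc : Nat.card ↥K ^ 2 ≤ Nat.card ↥(eis p S r))
    (hstep : ∀ i, i < D → StepBound p r K U (F i) (F (i + 1)))
    (hCNT : (rat p).relIndex (_root_.Fermat.Agent.S15.H975.sel p r (eis p S r)) ≠ 0 →
      Nat.card ↥U ^ 2 ≤ (rat p).relIndex (_root_.Fermat.Agent.S15.H975.sel p r (eis p S r))) :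
    SelBound p S r := by
  classical
  have hFD : F D = eis p S r := hF.2.1
  have hFt : ∀ j, j ≤ D → F j ≤ tors p r := fun j hj =>
    (flag_le p hF j hj).trans (eis_le_tors p S r)
  have hst : ∀ i, i ≤ D → Fermat.Agent.S15.H842.Engine.IsStable _root_.Fermat.Agent.S15.H975.Gal (F i) := by
    intro i hi
    rcases Nat.eq_zero_or_pos i with h | h
    · rw [h, hF.1]
      exact Fermat.Agent.S15.H842.Engine.isStable_bot
    · obtain ⟨j, rfl⟩ : ∃ j, i = j + 1 := ⟨i - 1, by omega⟩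
      exact (isStable_iff p _).1 (hF.2.2 j (by omega)).2.2.1
  have hsel : ∀ i, i < D → selIndex p r (F i) (F (i + 1)) =
      Fermat.Agent.S15.H842.Engine.sel _root_.Fermat.Agent.S15.H975.Gal F i := by
    intro i hi
    unfold selIndex Fermat.Agent.S15.H842.Engine.sel
    rw [sel_eq_cocSub p r (F i) (hFt i hi.le), sel_eq_cocSub p r (F (i + 1)) (hFt (i + 1) hi)]
  have hfix : ∀ i, i < D → fixIndex p r (F i) (F (i + 1)) =
      Fermat.Agent.S15.H842.Engine.pG _root_.Fermat.Agent.S15.H975.Gal F i := by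
    intro i hi
    unfold fixIndex Fermat.Agent.S15.H842.Engine.pG
    rw [sel_eq_cocSub p r (F i) (hFt i hi.le)]
  have hmain := selBound_abs (Γ := _root_.Fermat.Agent.S15.H975.Gal) r hr F D hF.1 (fun i hi => (hF.2.2 i hi).1) hst
    (fun i hi => (hF.2.2 i hi).2.2.2.1) K U (hFD ▸ hK) (hFD ▸ hU) (hFD ▸ hKc)
    (fun i hi => by
      obtain ⟨h0, h1, h2, h3, h4⟩ := hstep i hi
      rw [hsel i hi] at h0 h1 h2 h3 h4
      rw [hfix i hi] at h1 h2 h3 h4
      refine ⟨h0, ?_⟩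
      by_cases hk : F (i + 1) ⊓ K ≤ F i <;> by_cases hu : F (i + 1) ⊓ U ≤ F i
      · rw [jmp_eq_zero hk, jmp_eq_zero hu]
        simpa using h1 hk hu
      · rw [jmp_eq_zero hk, jmp_eq_one hu]
        have := h2 hk hu
        simp only [Nat.sub_zero, pow_one]
        rw [mul_comm]
        exact Nat.mul_le_mul_left r this
      · rw [jmp_eq_one hk, jmp_eq_zero hu]
        simpa using h3 hk hu
      · rw [jmp_eq_one hk, jmp_eq_one hu]
        simpa using h4 hk hu)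
    (by
      rw [hFD, ← rat_eq_cocSub, ← sel_eq_cocSub p r (eis p S r) (eis_le_tors p S r)]
      exact hCNT)
  rw [hFD, ← rat_eq_cocSub, ← sel_eq_cocSub p r (eis p S r) (eis_le_tors p S r)] at hmain
  exact hmain

/-- The Eisenstein part of `J₀(p)[r^∞]`. -/
def eisInf (S : Set ℕ) (r : ℕ) : AddSubgroup (JZero p) where
  carrier := {w | (∃ k : ℕ, r ^ k • w = 0) ∧ IsEis p S w}
  zero_mem' := ⟨⟨0, smul_zero _⟩, isEis_zero p S⟩
  add_mem' := by
    rintro a b ⟨⟨k, hk⟩, ha⟩ ⟨⟨l, hl⟩, hb⟩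
    refine ⟨⟨k + l, ?_⟩, ha.add p hb⟩
    have h1 : r ^ (k + l) • a = 0 := by
      rw [add_comm, pow_add, mul_smul, hk, smul_zero]
    have h2 : r ^ (k + l) • b = 0 := by
      rw [pow_add, mul_smul, hl, smul_zero]
    rw [nsmul_add, h1, h2, add_zero]
  neg_mem' := by
    rintro a ⟨⟨k, hk⟩, ha⟩
    exact ⟨⟨k, by rw [neg_nsmul, hk, neg_zero]⟩, ha.neg p⟩

/-- `U₀ = (τ₀ - 1) Y_E`, the ramification subgroup of route 208. -/
def ramSub (S : Set ℕ) (r : ℕ) (τ₀ : _root_.Fermat.Agent.S15.H975.Gal) : AddSubgroup (JZero p) :=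
  (_root_.Fermat.Agent.S15.H975.sel p r (eis p S r)).map (Fermat.Agent.S15.H208.tauSub τ₀)

theorem mem_ramSub {S : Set ℕ} {r : ℕ} {τ₀ : _root_.Fermat.Agent.S15.H975.Gal} {u : JZero p} :
    u ∈ ramSub p S r τ₀ ↔ ∃ y ∈ _root_.Fermat.Agent.S15.H975.sel p r (eis p S r), τ₀ • y - y = u := Iff.rfl

theorem ramSub_le (S : Set ℕ) (r : ℕ) (τ₀ : _root_.Fermat.Agent.S15.H975.Gal) : ramSub p S r τ₀ ≤ eis p S r := by
  rintro u ⟨y, hy, rfl⟩
  exact hy.2 τ₀

theorem sub_mem_ramSub {S : Set ℕ} {r : ℕ} (τ₀ : _root_.Fermat.Agent.S15.H975.Gal) {y : JZero p}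
    (hy : y ∈ _root_.Fermat.Agent.S15.H975.sel p r (eis p S r)) : τ₀ • y - y ∈ ramSub p S r τ₀ :=
  ⟨y, hy, rfl⟩

theorem YE_eisInf_eq_sel (S : Set ℕ) (r : ℕ) :
    Fermat.Agent.S15.H208.YE _root_.Fermat.Agent.S15.H975.Gal r (eisInf p S r) = _root_.Fermat.Agent.S15.H975.sel p r (eis p S r) := by
  ext y
  constructor
  · rintro ⟨h1, h2⟩
    have h1' : ∀ σ : _root_.Fermat.Agent.S15.H975.Gal, σ • (r • y) = r • y := h1
    have h2' : ∀ σ : _root_.Fermat.Agent.S15.H975.Gal, σ • y - y ∈ eisInf p S r := h2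
    refine ⟨h1', fun σ => ⟨?_, (h2' σ).2⟩⟩
    have h3 : σ • (r • y) - r • y = r • (σ • y - y) := by
      rw [nsmul_sub, gal_smul_nsmul_h466]
    rw [← h3, h1' σ, sub_self]
  · rintro ⟨h1, h2⟩
    exact ⟨h1, fun σ => ⟨⟨1, by rw [pow_one]; exact (h2 σ).1⟩, (h2 σ).2⟩⟩

/-- Galois-stability of `eisInf` from the Galois-equivariance of the Hecke operators. -/
theorem eisInf_stable (S : Set ℕ) (r : ℕ)
    (hTG : ∀ (ℓ : Nat.Primes) (σ : _root_.Fermat.Agent.S15.H975.Gal) (x : JZero p),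
      heckeOperatorBar p ℓ (σ • x) = σ • heckeOperatorBar p ℓ x)
    (σ : _root_.Fermat.Agent.S15.H975.Gal) (x : JZero p) (hx : x ∈ eisInf p S r) : σ • x ∈ eisInf p S r := by
  obtain ⟨⟨k, hk⟩, hE⟩ := hx
  refine ⟨⟨k, by rw [← gal_smul_nsmul_h466, hk, gal_smul_zero_h466]⟩, fun ℓ h1 h2 => ?_⟩
  obtain ⟨n, hn⟩ := hE ℓ h1 h2
  refine ⟨n, ?_⟩
  have heta : ∀ z : JZero p, eta p ℓ (σ • z) = σ • eta p ℓ z := by
    intro z
    unfold eta
    simp only [LinearMap.sub_apply, LinearMap.smul_apply, Module.End.one_apply]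
    rw [hTG, gal_smul_sub_h466, gal_smul_zsmul_h466]
  have hpow : ∀ (m : ℕ) (z : JZero p), (eta p ℓ ^ m) (σ • z) = σ • (eta p ℓ ^ m) z := by
    intro m
    induction m with
    | zero => intro z; simp
    | succ m ih =>
      intro z
      rw [pow_succ, Module.End.mul_apply, heta, ih, Module.End.mul_apply]
  rw [hpow, hn, gal_smul_zero_h466]

/-- **(CNT) for `U₀ = (τ₀ - 1) Y_E`**: `|U₀|² ≤ [Y_E : A]` (instance of
`H208.card_tauSub_YE_sq_le` for `M = eisInf p S r`). -/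
theorem cnt_ramSub (S : Set ℕ) (r : ℕ) (τ₀ : _root_.Fermat.Agent.S15.H975.Gal)
    (hTG : ∀ (ℓ : Nat.Primes) (σ : _root_.Fermat.Agent.S15.H975.Gal) (x : JZero p),
      heckeOperatorBar p ℓ (σ • x) = σ • heckeOperatorBar p ℓ x)
    (hDIV : ∀ x : JZero p, ∃ y : JZero p, r • y = x)
    (hPROJ : ∀ k : ℕ, ∃ e : JZero p →+ JZero p, (∀ (σ : _root_.Fermat.Agent.S15.H975.Gal) (x : JZero p), e (σ • x) = σ • e x) ∧
      (∀ x ∈ eisInf p S r, r ^ k • x = 0 → e x = x) ∧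
      (∀ x : JZero p, r ^ k • x = 0 → e x ∈ eisInf p S r))
    (hT6 : ∀ k : ℕ, Fermat.Agent.S15.H208.T6ppAt p (r ^ k) τ₀)
    (hfinA : Finite ↥(rat p ⊓ eisInf p S r))
    (hfinY : (rat p).relIndex (_root_.Fermat.Agent.S15.H975.sel p r (eis p S r)) ≠ 0) :
    Nat.card ↥(ramSub p S r τ₀) ^ 2 ≤ (rat p).relIndex (_root_.Fermat.Agent.S15.H975.sel p r (eis p S r)) := by
  have hMt : ∀ x ∈ eisInf p S r, ∃ k : ℕ, r ^ k • x = 0 := fun x hx => hx.1
  have hMG : ∀ (σ : _root_.Fermat.Agent.S15.H975.Gal), ∀ x ∈ eisInf p S r, σ • x ∈ eisInf p S r :=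
    fun σ x hx => eisInf_stable p S r hTG σ x hx
  have hdiv := Fermat.Agent.S15.H208.hullE_divisible (G := _root_.Fermat.Agent.S15.H975.Gal) r (eisInf p S r) hDIV hPROJ
  have hT : ∀ h ∈ Fermat.Agent.S15.H208.hullE _root_.Fermat.Agent.S15.H975.Gal r (eisInf p S r),
      τ₀ • (τ₀ • h - h) - (τ₀ • h - h) = 0 := by
    rintro h ⟨⟨k, hk⟩, -⟩
    have h1 := hT6 k h hk
    have h2 : τ₀ • (τ₀ • h - h) - (τ₀ • h - h) = τ₀ • (τ₀ • h) + h - 2 • (τ₀ • h) := by
      rw [gal_smul_sub_h466, two_nsmul]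
      abel
    rw [h2, h1, sub_self]
  have hfinA' : Finite ↥(FixedPoints.addSubgroup _root_.Fermat.Agent.S15.H975.Gal (JZero p) ⊓ eisInf p S r) := by
    rw [← rat_eq_fixedPoints]
    exact hfinA
  have hfinY' : (FixedPoints.addSubgroup _root_.Fermat.Agent.S15.H975.Gal (JZero p)).relIndex
      (Fermat.Agent.S15.H208.YE _root_.Fermat.Agent.S15.H975.Gal r (eisInf p S r)) ≠ 0 := by
    rw [← rat_eq_fixedPoints, YE_eisInf_eq_sel]
    exact hfinY
  have h := Fermat.Agent.S15.H208.card_tauSub_YE_sq_le (G := _root_.Fermat.Agent.S15.H975.Gal) r (eisInf p S r) τ₀ hMt hMG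
    hdiv hT hfinA' hfinY'
  rw [← rat_eq_fixedPoints, YE_eisInf_eq_sel] at h
  exact h

/-- **SEL-BOUND on route 208.** -/
theorem selBound_route208 (S : Set ℕ) (r : ℕ) (hr : r.Prime)
    (hTG : ∀ (ℓ : Nat.Primes) (σ : _root_.Fermat.Agent.S15.H975.Gal) (x : JZero p),
      heckeOperatorBar p ℓ (σ • x) = σ • heckeOperatorBar p ℓ x)
    (hDIV : ∀ x : JZero p, ∃ y : JZero p, r • y = x)
    (hPROJ : ∀ k : ℕ, ∃ e : JZero p →+ JZero p, (∀ (σ : _root_.Fermat.Agent.S15.H975.Gal) (x : JZero p), e (σ • x) = σ • e x) ∧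
      (∀ x ∈ eisInf p S r, r ^ k • x = 0 → e x = x) ∧
      (∀ x : JZero p, r ^ k • x = 0 → e x ∈ eisInf p S r))
    (hfinA : Finite ↥(rat p ⊓ eisInf p S r))
    (D : ℕ) (F : ℕ → AddSubgroup (JZero p)) (hF : IsFlag p S r D F)
    (K : AddSubgroup (JZero p)) (hK : K ≤ eis p S r)
    (hKc : Nat.card ↥K ^ 2 ≤ Nat.card ↥(eis p S r))
    (τ₀ : _root_.Fermat.Agent.S15.H975.Gal) (hT6 : ∀ k : ℕ, Fermat.Agent.S15.H208.T6ppAt p (r ^ k) τ₀)
    (hstep : ∀ i, i < D → StepBound p r K (ramSub p S r τ₀) (F i) (F (i + 1))) :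
    SelBound p S r :=
  selBound_of_cnt p S r hr D F hF K (ramSub p S r τ₀) hK (ramSub_le p S r τ₀) hKc hstep
    (cnt_ramSub p S r τ₀ hTG hDIV hPROJ hT6 hfinA)

end Main

/-! ## The skeleton top on route 208 -/

/-- **HECKE-GAL** (on main: `S29.H571`): the Hecke operators commute with the Galois action. -/
def HeckeGalStatement : Prop :=
  ∀ (p : ℕ) [NeZero p] (ℓ : Nat.Primes) (σ : _root_.Fermat.Agent.S15.H975.Gal) (x : JZero p),
    heckeOperatorBar p ℓ (σ • x) = σ • heckeOperatorBar p ℓ x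

/-- **PROJ**: for every `k` a Galois-equivariant endomorphism of `J₀(p)` which is the identity
on the Eisenstein part of `J₀(p)[r^k]` and maps `J₀(p)[r^k]` into the Eisenstein part of
`J₀(p)[r^∞]` (a polynomial in the Hecke operators; pure algebra from FIN + commutativity). -/
def ProjStatement : Prop :=
  ∀ (p : ℕ) [NeZero p], p.Prime → ∀ (S : Finset ℕ) (r : ℕ), r.Prime → ∀ k : ℕ,
    ∃ e : JZero p →+ JZero p, (∀ (σ : _root_.Fermat.Agent.S15.H975.Gal) (x : JZero p), e (σ • x) = σ • e x) ∧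
      (∀ x ∈ eisInf p (S : Set ℕ) r, r ^ k • x = 0 → e x = x) ∧
      (∀ x : JZero p, r ^ k • x = 0 → e x ∈ eisInf p (S : Set ℕ) r)

/-- **T6''** at level `p`, inertia at `p`, all moduli `r^k` (`H208.T6ppStatement`;
owner helper608). -/
def T6ppAllStatement : Prop :=
  ∀ (p : ℕ) [NeZero p], p.Prime → ∀ r : ℕ, r.Prime → r ∣ p - 1 → ∀ k : ℕ,
    Fermat.Agent.S15.H208.T6ppStatement p p (r ^ k)

/-- **LOCAL on route 208** (replaces `H975.LocalStatement`): an inertia element `τ₀` at `p` and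
a subgroup `K ≤ W_E` with `|K|² ≤ |W_E|` such that every Eisenstein piece satisfies the step bound
relative to `K` and `U₀ = (τ₀ - 1) Y_E`.  NO bound on `|U₀|` is asked.
(`K = W_E^{cc = -1}` for `r` odd, `K = W_E ∩ (cc - 1) J[4]` for `r = 2`; `τ₀` non-trivial on the
degree-`r` subfield of `ℚ(ζ_p)` and on `p^{1/r}`.) -/
def Local208Statement : Prop :=
  ∀ (p : ℕ) [NeZero p], p.Prime → ∀ (S : Finset ℕ) (r : ℕ), r.Prime → r ∣ p - 1 →
    ∃ (A : ValuationSubring Qb) (τ₀ : _root_.Fermat.Agent.S15.H975.Gal) (K : AddSubgroup (JZero p)),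
      A.LiesOverPrime p ∧ τ₀ ∈ A.inertiaSubgroupIn ℚ ∧
      K ≤ eis p (S : Set ℕ) r ∧ Nat.card ↥K ^ 2 ≤ Nat.card ↥(eis p (S : Set ℕ) r) ∧
      ∀ F' F : AddSubgroup (JZero p), F ≤ eis p (S : Set ℕ) r → IsEisPiece p r F' F →
        StepBound p r K (ramSub p (S : Set ℕ) r τ₀) F' F

/-- **SEL-BOUND on route 208 from the nodes.** -/
theorem selBound_of_nodes208 (hDiv : DivStatement) (hFin : FinStatement) (hRtf : RtfStatement)
    (hFlag : FlagStatement) (hLoc : Local208Statement) (hT6 : T6ppAllStatement)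
    (hTG : HeckeGalStatement) (hProj : ProjStatement)
    (p : ℕ) [NeZero p] (hp : p.Prime) (S : Finset ℕ) (r : ℕ) (hr : r.Prime) (hrp : r ∣ p - 1) :
    SelBound p (S : Set ℕ) r := by
  obtain ⟨D, F, hF⟩ := hFlag p hp S r hr hrp
  obtain ⟨A, τ₀, K, hA, hτ, hK, hKc, hstep⟩ := hLoc p hp S r hr hrp
  obtain ⟨e, he, hexp⟩ := hRtf p hp
  have hfinA : Finite ↥(rat p ⊓ eisInf p (S : Set ℕ) r) := by
    have : Finite ↥(tors p e) := hFin p e he
    refine Finite.of_injective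
      (fun x : ↥(rat p ⊓ eisInf p (S : Set ℕ) r) => (⟨x.1, ?_⟩ : ↥(tors p e))) ?_
    · obtain ⟨k, hk⟩ := x.2.2.1
      exact hexp x.1 x.2.1 ⟨r ^ k, pow_pos hr.pos k, hk⟩
    · intro a b hab
      exact Subtype.ext (congrArg (fun z : ↥(tors p e) => (z : JZero p)) hab)
  exact selBound_route208 p (S : Set ℕ) r hr (hTG p) (hDiv p hp r hr) (hProj p hp S r hr) hfinA
    D F hF K hK hKc τ₀ (fun k => hT6 p hp r hr hrp k A hA τ₀ hτ)
    (fun i hi => hstep (F i) (F (i + 1)) (flag_le p hF (i + 1) hi) (hF.2.2 i hi))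

/-- **The descent core on route 208** (assembly; `DescCoreTarget = H302.DescCoreAt`). -/
theorem descCoreTarget_route208 (hA : Alg0Statement) (hDiv : DivStatement) (hFin : FinStatement)
    (hRtf : RtfStatement) (hFlag : FlagStatement) (hLoc : Local208Statement)
    (hT6 : T6ppAllStatement) (hTG : HeckeGalStatement) (hProj : ProjStatement)
    (p : ℕ) [NeZero p] (hp : p.Prime) (S : Finset ℕ) (r : ℕ) (hr : r.Prime) (hrp : r ∣ p - 1) :
    DescCoreTarget p (S : Set ℕ) r :=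
  hA p (S : Set ℕ) r hp hr (hDiv p hp r hr) (fun n hn => hFin p n hn) (hRtf p hp)
    (selBound_of_nodes208 hDiv hFin hRtf hFlag hLoc hT6 hTG hProj p hp S r hr hrp)

end Fermat.Agent.S15.H466

end
end
-- ===== PACK-END S15/H466/SelAsm.lean

-- ===== PACK-BEGIN S41/H683/PDTr.lean
section




/-!
# Row S41, block PD, leaf TR (helper683): the four `Spec/PD.lean` statements

* `transferAlongEquiv : Spec.TransferAlongEquivStatement` (TR-4)
* `maninRepRes        : Spec.ManinRepResStatement`        (TR-1)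
* `maninRepCores      : Spec.ManinRepCoresStatement`      (TR-2)
* `maninFormAdjoint   : Spec.ManinFormAdjointStatement`   (TR-3)

Thin wrappers around the `Spec`-independent cores of `H683/PDTrCore.lean`
(`Spec/PD.lean` v3, built on `Spec/HK.lean`).
-/

set_option autoImplicit false

namespace Fermat.Agent.S41.H683

open Matrix.SpecialLinearGroup ModularGroup
open scoped MatrixGroups

universe u

theorem trf_eq_trfH {G H : Type*} [Group G] [Group H] {A : Type*} [AddCommGroup A]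
    (ι : H →* G) (ψ : Additive H →+ A) : Spec.transferAlong ι ψ = trfH ι ψ := rfl

/-- **TR-4**. -/
theorem transferAlongEquiv : Spec.TransferAlongEquivStatement.{u} := by
  intro H H' G _ _ _ e f' A _ ψ
  rw [trf_eq_trfH, trf_eq_trfH]
  exact trfH_comp_equiv e f' ψ

/-- **TR-1**. -/
theorem maninRepRes : Spec.ManinRepResStatement.{u} := by
  intro Γ' Γ hle A _ φ m hm
  obtain ⟨f, ⟨hf, hS, hU⟩, hφ⟩ := hm
  refine ⟨fun g x' => f g (Subgroup.quotientMapOfLE hle x'), ⟨?_, ?_, ?_⟩, ?_⟩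
  · exact cocycle_res hle f hf
  · intro x
    exact hS _
  · intro x
    show f (S * T) (Subgroup.quotientMapOfLE hle x) =
      m (Subgroup.quotientMapOfLE hle ((S * T) • x)) - m (Subgroup.quotientMapOfLE hle x)
    rw [hU, quotientMapOfLE_smul]
  · intro γ
    exact hφ (Subgroup.inclusion hle γ)

/-- **TR-2**. -/
theorem maninRepCores : Spec.ManinRepCoresStatement.{u} := by
  intro Γ' Γ _ hle A _ ψ m' hm'
  obtain ⟨f', ⟨hf', hS, hU⟩, hψ⟩ := hm'
  haveI : Finite (SL(2, ℤ) ⧸ Γ') := Subgroup.finite_quotient_of_finiteIndex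
  refine ⟨fun g x => pushFwd hle (f' g) x, ⟨?_, ?_, ?_⟩, ?_⟩
  · exact cocycle_pushFwd hle f' hf'
  · intro x
    show pushFwd hle (f' S) x = 0
    have : f' S = fun _ => 0 := funext hS
    rw [this, pushFwd_zero]
  · intro x
    show pushFwd hle (f' (S * T)) x = pushFwd hle m' ((S * T) • x) - pushFwd hle m' x
    have : f' (S * T) = fun y => m' ((S * T) • y) - m' y := funext hU
    rw [this, pushFwd_cobd]
  · intro γ
    rw [trf_eq_trfH]
    exact trfH_inclusion_apply hle ψ f' hf' hψ γ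

/-- **TR-3**. -/
theorem maninFormAdjoint : Spec.ManinFormAdjointStatement.{u} := by
  intro Γ' Γ _ hle R _ m m' e' hpar
  haveI : Finite (SL(2, ℤ) ⧸ Γ') := Subgroup.finite_quotient_of_finiteIndex
  refine ⟨?_, ?_⟩
  · exact parData_pushFwd hle T (S * T) m' e' hpar
  · exact finsum_pullback_mul_eq hle S m e'

end Fermat.Agent.S41.H683

end
-- ===== PACK-END S41/H683/PDTr.lean

-- ===== PACK-BEGIN S41/H236/PDHeisU.lean
section



/-!
# Row S41, block PD, leaf HEIS-U (helper236)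

`cuspSumZero : Spec.ManinRepExistsStatement → Spec.CuspSumZeroStatement`:
a torsion-trivial homomorphism `χ : Γ → A` sums to `0` over every `T`-orbit system.

Proof: `χ = φ_f` for a Manin cocycle `f` (D1); `χ (h⁻¹ T^w h) = f (T^w) (h x₀) = ∑_{j<w} f T (T^j h x₀)`;
the points `T^j hᵢ x₀` enumerate `X` exactly once, and `∑ₓ f T x = ∑ₓ (m (U x) - m x) = 0`.
-/

set_option autoImplicit false

namespace Fermat.Agent.S41.H236

open CongruenceSubgroup Matrix.SpecialLinearGroup ModularGroup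
open scoped MatrixGroups
open Fermat.Agent.S41.Spec

universe u

section Cocycle

variable {G : Type*} [Group G] {X : Type*} [MulAction G X] {A : Type*} [AddCommGroup A]

theorem cocycle_one_h236 (f : G → X → A)
    (hcoc : ∀ (g h : G) (x : X), f (g * h) x = f h x + f g (h • x)) (x : X) : f 1 x = 0 := by
  have h1 := hcoc 1 1 x
  rw [one_mul, one_smul] at h1
  exact left_eq_add.mp h1

theorem cocycle_inv_h236 (f : G → X → A)
    (hcoc : ∀ (g h : G) (x : X), f (g * h) x = f h x + f g (h • x)) (g : G) (x : X) :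
    f g x + f g⁻¹ (g • x) = 0 := by
  rw [← hcoc, inv_mul_cancel, cocycle_one_h236 f hcoc]

theorem cocycle_pow_h236 (f : G → X → A)
    (hcoc : ∀ (g h : G) (x : X), f (g * h) x = f h x + f g (h • x)) (t : G) (k : ℕ) (x : X) :
    f (t ^ k) x = ∑ j ∈ Finset.range k, f t (t ^ j • x) := by
  induction k with
  | zero => rw [pow_zero, Finset.sum_range_zero, cocycle_one_h236 f hcoc]
  | succ k ih =>
    rw [pow_succ', hcoc, ih, Finset.sum_range_succ]

/-- The value of a cocycle on a conjugate `h⁻¹ t h` fixing `x`. -/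
theorem cocycle_conj_h236 (f : G → X → A)
    (hcoc : ∀ (g h : G) (x : X), f (g * h) x = f h x + f g (h • x)) (h t : G) (x : X)
    (hfix : (h⁻¹ * t * h) • x = x) : f (h⁻¹ * t * h) x = f t (h • x) := by
  have h1 : t • h • x = h • x := by
    have h2 : h • (h⁻¹ * t * h) • x = h • x := by rw [hfix]
    rwa [smul_smul, ← mul_assoc, ← mul_assoc, mul_inv_cancel, one_mul, mul_smul] at h2
  rw [hcoc, hcoc, h1]
  have h3 := cocycle_inv_h236 f hcoc h x
  rw [add_comm (f t (h • x)), ← add_assoc, h3, zero_add]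

end Cocycle

/-- **HEIS-U**: a torsion-trivial homomorphism sums to `0` over a `T`-orbit system. -/
theorem cuspSumZero (d1 : Spec.ManinRepExistsStatement.{u}) : Spec.CuspSumZeroStatement.{u} := by
  classical
  intro Γ _ hneg A _ χ htors ι _ γ h w hsys
  obtain ⟨hwpos, hγ, huniq⟩ := hsys
  obtain ⟨m, f, ⟨hcoc, hS, hU⟩, hχ⟩ := d1 Γ hneg A χ htors
  let _ : Fintype (SL(2, ℤ) ⧸ Γ) := Subgroup.fintypeQuotientOfFiniteIndex
  -- `f S⁻¹ = 0`
  have hSinv : ∀ y : SL(2, ℤ) ⧸ Γ, f S⁻¹ y = 0 := by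
    intro y
    have h1 := cocycle_inv_h236 f hcoc S (S⁻¹ • y)
    rw [hS, zero_add, smul_inv_smul] at h1
    exact h1
  -- `f T = f (S * T)`
  have hT : ∀ y : SL(2, ℤ) ⧸ Γ, f T y = m ((S * T) • y) - m y := by
    intro y
    have h1 := hcoc S⁻¹ (S * T) y
    rw [inv_mul_cancel_left, hSinv, add_zero, hU] at h1
    exact h1
  -- the value at `γ i`
  have hval : ∀ i : ι, χ (Additive.ofMul (γ i)) =
      ∑ j : Fin (w i), f T (((T ^ (j : ℕ) * h i : SL(2, ℤ)) : SL(2, ℤ) ⧸ Γ)) := by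
    intro i
    rw [hχ, hγ i]
    have hfix : ((h i)⁻¹ * T ^ (w i) * h i) • (((1 : SL(2, ℤ)) : SL(2, ℤ) ⧸ Γ)) =
        (((1 : SL(2, ℤ)) : SL(2, ℤ) ⧸ Γ)) := by
      show ((((h i)⁻¹ * T ^ (w i) * h i) * 1 : SL(2, ℤ)) : SL(2, ℤ) ⧸ Γ) = _
      rw [QuotientGroup.eq, mul_one, mul_one, ← hγ i]
      exact Γ.inv_mem (γ i).2
    rw [cocycle_conj_h236 f hcoc (h i) (T ^ (w i)) _ hfix, cocycle_pow_h236 f hcoc,
      ← Fin.sum_univ_eq_sum_range (fun j => f T (T ^ j • h i • (((1 : SL(2, ℤ)) : SL(2, ℤ) ⧸ Γ))))]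
    refine Finset.sum_congr rfl fun j _ => ?_
    congr 1
    show ((T ^ (j : ℕ) * (h i * 1) : SL(2, ℤ)) : SL(2, ℤ) ⧸ Γ) = _
    rw [mul_one]
  -- enumerate `X`
  have hbij : Function.Bijective
      (fun p : (Σ i, Fin (w i)) => ((T ^ (p.2 : ℕ) * h p.1 : SL(2, ℤ)) : SL(2, ℤ) ⧸ Γ)) := by
    constructor
    · intro p p' hpp
      obtain ⟨p₀, -, hp₀⟩ := huniq ((T ^ (p.2 : ℕ) * h p.1 : SL(2, ℤ)) : SL(2, ℤ) ⧸ Γ)
      rw [hp₀ p rfl, hp₀ p' hpp]
    · intro x
      obtain ⟨p₀, hp, -⟩ := huniq x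
      exact ⟨p₀, hp.symm⟩
  rw [Finset.sum_congr rfl fun i _ => hval i, ← Fintype.sum_sigma
    (fun p : (Σ i, Fin (w i)) => f T (((T ^ (p.2 : ℕ) * h p.1 : SL(2, ℤ)) : SL(2, ℤ) ⧸ Γ)))]
  rw [Fintype.sum_bijective _ hbij _ (fun x => f T x) (fun _ => rfl)]
  rw [Finset.sum_congr rfl fun x _ => hT x, Finset.sum_sub_distrib, sub_eq_zero]
  exact Equiv.sum_comp (MulAction.toPerm (S * T) : Equiv.Perm (SL(2, ℤ) ⧸ Γ)) m

end Fermat.Agent.S41.H236

end
-- ===== PACK-END S41/H236/PDHeisU.lean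

-- ===== PACK-BEGIN S18/H725/RedBasic.lean
section


/-!
# S18 endgame (helper725), part 1: abstract constant reductions of function fields

`Reduction K F k Fk`: a valuation subring `R` of `F` with residue field `Fk` (via `ρ`), whose value
group is that of `K ∩ R`, together with a map `r` on places such that
`r_* div(y) = div(ρ y)` for every unit `y` of `R`.
-/

set_option autoImplicit false

noncomputable section

open AlgebraicCurve

namespace Fermat.Agent.S18.H725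

open Fermat.Agent.Lib.RR

/-- An abstract "constant reduction" of the function field `F/K` to `Fk/k`. -/
structure Reduction (K F k Fk : Type*) [Field K] [Field F] [Algebra K F] [Field k] [Field Fk]
    [Algebra k Fk] where
  /-- the valuation ring of the constant reduction -/
  R : ValuationSubring F
  /-- the residue map -/
  ρ : R →+* Fk
  ρ_surj : Function.Surjective ρ
  /-- the kernel of `ρ` is the maximal ideal -/
  isUnit_of_ρ_ne_zero : ∀ y : R, ρ y ≠ 0 → IsUnit y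
  /-- constants reduce to constants -/
  const : ∀ (c : K) (hc : algebraMap K F c ∈ R), ∃ c' : k, ρ ⟨algebraMap K F c, hc⟩ = algebraMap k Fk c'
  /-- the value group of `R` is that of `K ∩ R` -/
  scale : ∀ f : F, f ≠ 0 → ∃ c : K, c ≠ 0 ∧ ∃ h : algebraMap K F c * f ∈ R,
    ρ ⟨algebraMap K F c * f, h⟩ ≠ 0
  /-- the specialisation map on places -/
  r : Place K F → Place k Fk
  /-- compatibility of divisors of units with reduction -/
  red : ∀ y : R, ρ y ≠ 0 → ∀ D : Divisor K F, (∀ P, D P = P.ord (y : F)) →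
    ∀ Q, Finsupp.mapDomain r D Q = Q.ord (ρ y)

variable {K F k Fk : Type*} [Field K] [Field F] [Algebra K F] [Field k] [Field Fk] [Algebra k Fk]

/-- Evaluation of `mapDomain` at a point as a filtered sum. -/
theorem mapDomain_apply_eq_sum {α β : Type*} [DecidableEq β] (r : α → β) (D : α →₀ ℤ) (Q : β) :
    Finsupp.mapDomain r D Q = ∑ P ∈ D.support, if r P = Q then D P else 0 := by
  rw [Finsupp.mapDomain, Finsupp.sum, Finsupp.finsetSum_apply]
  refine Finset.sum_congr rfl fun P _ => ?_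
  rw [Finsupp.single_apply]

theorem mapDomain_nonneg {α β : Type*} (r : α → β) (D : α →₀ ℤ) {Q : β}
    (hD : ∀ P, r P = Q → 0 ≤ D P) : 0 ≤ Finsupp.mapDomain r D Q := by
  classical
  rw [mapDomain_apply_eq_sum]
  refine Finset.sum_nonneg fun P _ => ?_
  split_ifs with h
  · exact hD P h
  · exact le_refl _

theorem mapDomain_pos {α β : Type*} (r : α → β) (D : α →₀ ℤ) {Q : β}
    (hD : ∀ P, r P = Q → 0 ≤ D P) {P₀ : α} (hP₀ : r P₀ = Q) (h₀ : 0 < D P₀) :
    0 < Finsupp.mapDomain r D Q := by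
  classical
  rw [mapDomain_apply_eq_sum]
  have hnn : ∀ P' ∈ D.support, (0 : ℤ) ≤ if r P' = Q then D P' else 0 := fun P' _ => by
    split_ifs with h
    · exact hD P' h
    · exact le_refl _
  have hmem : P₀ ∈ D.support := Finsupp.mem_support_iff.mpr (ne_of_gt h₀)
  have h1 := Finset.single_le_sum hnn hmem
  rw [if_pos hP₀] at h1
  omega

/-- If a divisor which is effective over `Q` has `r_* E (Q) = 0` then no point of `E` lies
over `Q`. -/
theorem eq_zero_of_mapDomain_eq_zero {α β : Type*} (r : α → β) (D : α →₀ ℤ) {Q : β}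
    (hD : ∀ P, r P = Q → 0 ≤ D P)
    (h : Finsupp.mapDomain r D Q = 0) {P : α} (hP : r P = Q) : D P = 0 := by
  by_contra hne
  have := mapDomain_pos r D hD hP (lt_of_le_of_ne (hD P hP) (Ne.symm hne))
  omega

/-- If a divisor which is effective over `Q` has `r_* E (Q) = 1` and a point `P₀` over `Q`
in its support, then `P₀` has multiplicity one and is the only point of `E` over `Q`. -/
theorem unique_of_mapDomain_eq_one {α β : Type*} (r : α → β) (D : α →₀ ℤ) {Q : β}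
    (hD : ∀ P, r P = Q → 0 ≤ D P) (h : Finsupp.mapDomain r D Q = 1)
    {P₀ : α} (hP₀ : r P₀ = Q) (h₀ : 0 < D P₀) :
    D P₀ = 1 ∧ ∀ P, r P = Q → P ≠ P₀ → D P = 0 := by
  classical
  rw [mapDomain_apply_eq_sum] at h
  have hnn : ∀ P' ∈ D.support, (0 : ℤ) ≤ if r P' = Q then D P' else 0 := fun P' _ => by
    split_ifs with h
    · exact hD P' h
    · exact le_refl _
  have hmem₀ : P₀ ∈ D.support := Finsupp.mem_support_iff.mpr (ne_of_gt h₀)
  have hsplit := Finset.add_sum_erase D.support (fun P => if r P = Q then D P else 0) hmem₀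
  simp only [if_pos hP₀] at hsplit
  have hrest : 0 ≤ ∑ P ∈ D.support.erase P₀, (if r P = Q then D P else 0) :=
    Finset.sum_nonneg fun P hP => hnn P (Finset.mem_of_mem_erase hP)
  have h1 : D P₀ = 1 := by omega
  have h0 : ∑ P ∈ D.support.erase P₀, (if r P = Q then D P else 0) = 0 := by omega
  refine ⟨h1, fun P hP hne => ?_⟩
  by_contra hDP
  have hmem : P ∈ D.support.erase P₀ :=
    Finset.mem_erase.mpr ⟨hne, Finsupp.mem_support_iff.mpr hDP⟩
  have := (Finset.sum_eq_zero_iff_of_nonneg (fun P' hP' =>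
    hnn P' (Finset.mem_of_mem_erase hP'))).mp h0 P hmem
  rw [if_pos hP] at this
  exact hDP this

/-- If a divisor which is effective over `Q` has `r_* E (Q) = 1` then exactly one point of `E`
lies over `Q`, with multiplicity one. -/
theorem exists_unique_of_mapDomain_eq_one {α β : Type*} (r : α → β) (D : α →₀ ℤ) {Q : β}
    (hD : ∀ P, r P = Q → 0 ≤ D P) (h : Finsupp.mapDomain r D Q = 1) :
    ∃ P₁, r P₁ = Q ∧ D P₁ = 1 ∧ ∀ P, r P = Q → P ≠ P₁ → D P = 0 := by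
  classical
  have hex : ∃ P₁, r P₁ = Q ∧ D P₁ ≠ 0 := by
    by_contra hcon
    push Not at hcon
    have h' := h
    rw [mapDomain_apply_eq_sum] at h'
    have : ∑ P ∈ D.support, (if r P = Q then D P else 0) = 0 :=
      Finset.sum_eq_zero fun P _ => by
        split_ifs with hr
        · exact hcon P hr
        · rfl
    omega
  obtain ⟨P₁, hrP₁, hne⟩ := hex
  have hpos : 0 < D P₁ := lt_of_le_of_ne (hD P₁ hrP₁) (Ne.symm hne)
  obtain ⟨h1, h2⟩ := unique_of_mapDomain_eq_one r D hD h hrP₁ hpos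
  exact ⟨P₁, hrP₁, h1, h2⟩

namespace Reduction

variable (Φ : Reduction K F k Fk)

theorem ρ_ne_zero_of_isUnit {y : Φ.R} (hy : IsUnit y) : Φ.ρ y ≠ 0 :=
  (hy.map Φ.ρ).ne_zero

theorem ρ_eq_zero_iff {y : Φ.R} : Φ.ρ y = 0 ↔ ¬ IsUnit y :=
  ⟨fun h hu => Φ.ρ_ne_zero_of_isUnit hu h, fun h => by
    by_contra hne; exact h (Φ.isUnit_of_ρ_ne_zero y hne)⟩

theorem coe_ne_zero {y : Φ.R} (hy : Φ.ρ y ≠ 0) : (y : F) ≠ 0 := by
  intro h
  apply hy
  have : y = 0 := Subtype.ext h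
  rw [this, map_zero]

/-- The inverse of a unit of `R`, as an element of `R`. -/
theorem inv_mem {y : Φ.R} (hy : Φ.ρ y ≠ 0) : (y : F)⁻¹ ∈ Φ.R := by
  obtain ⟨u, hu⟩ := Φ.isUnit_of_ρ_ne_zero y hy
  have h1 : ((u⁻¹ : Φ.Rˣ) : Φ.R) * y = 1 := by rw [← hu]; exact Units.inv_mul u
  have h2 : (((u⁻¹ : Φ.Rˣ) : Φ.R) : F) * (y : F) = 1 := by
    have := congrArg (Subtype.val) h1
    simpa using this
  have h3 : (y : F)⁻¹ = (((u⁻¹ : Φ.Rˣ) : Φ.R) : F) := by
    rw [eq_comm, ← mul_eq_one_iff_eq_inv₀ (Φ.coe_ne_zero hy)]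
    exact h2
  rw [h3]
  exact Subtype.mem _

theorem mul_inv_eq_one {y : Φ.R} (hy : Φ.ρ y ≠ 0) :
    y * ⟨(y : F)⁻¹, Φ.inv_mem hy⟩ = (1 : Φ.R) :=
  Subtype.ext (by simpa using mul_inv_cancel₀ (Φ.coe_ne_zero hy))

theorem ρ_inv {y : Φ.R} (hy : Φ.ρ y ≠ 0) : Φ.ρ ⟨(y : F)⁻¹, Φ.inv_mem hy⟩ = (Φ.ρ y)⁻¹ := by
  have h1 : Φ.ρ y * Φ.ρ ⟨(y : F)⁻¹, Φ.inv_mem hy⟩ = 1 := by
    rw [← map_mul, Φ.mul_inv_eq_one hy, map_one]
  exact eq_inv_of_mul_eq_one_right h1

/-- An element of `F` not in `R` has its inverse in `R`, reducing to `0`. -/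
theorem inv_mem_of_not_mem {f : F} (hf : f ∉ Φ.R) :
    ∃ h : f⁻¹ ∈ Φ.R, Φ.ρ ⟨f⁻¹, h⟩ = 0 := by
  have h := (Φ.R.mem_or_inv_mem f).resolve_left hf
  refine ⟨h, ?_⟩
  by_contra hne
  apply hf
  have := Φ.inv_mem (y := ⟨f⁻¹, h⟩) hne
  simpa using this

/-! ### Consequences of `red` -/

section Red

variable [HasPrincipalDivisors K F]

/-- The divisor of a nonzero function. -/
theorem exists_div {f : F} (hf : f ≠ 0) :
    ∃ D : Divisor K F, (∀ P, D P = P.ord f) ∧ Divisor.degree D = 0 :=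
  HasPrincipalDivisors.exists_divisor (K := K) f hf

theorem ord_ρ_nonneg {y : Φ.R} (hy : Φ.ρ y ≠ 0) {Q : Place k Fk}
    (h : ∀ P, Φ.r P = Q → 0 ≤ P.ord (y : F)) : 0 ≤ Q.ord (Φ.ρ y) := by
  obtain ⟨D, hD, -⟩ := exists_div (K := K) (Φ.coe_ne_zero hy)
  rw [← Φ.red y hy D hD Q]
  exact mapDomain_nonneg Φ.r D fun P hP => by rw [hD]; exact h P hP

theorem ord_ρ_pos {y : Φ.R} (hy : Φ.ρ y ≠ 0) {Q : Place k Fk}
    (h : ∀ P, Φ.r P = Q → 0 ≤ P.ord (y : F)) {P₀ : Place K F} (hP₀ : Φ.r P₀ = Q)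
    (h₀ : 0 < P₀.ord (y : F)) : 0 < Q.ord (Φ.ρ y) := by
  obtain ⟨D, hD, -⟩ := exists_div (K := K) (Φ.coe_ne_zero hy)
  rw [← Φ.red y hy D hD Q]
  exact mapDomain_pos Φ.r D (fun P hP => by rw [hD]; exact h P hP) hP₀ (by rw [hD]; exact h₀)

theorem ord_unique {y : Φ.R} (hy : Φ.ρ y ≠ 0) {Q : Place k Fk} (hQ : Q.ord (Φ.ρ y) = 1)
    (h : ∀ P, Φ.r P = Q → 0 ≤ P.ord (y : F)) {P₀ : Place K F} (hP₀ : Φ.r P₀ = Q)
    (h₀ : 0 < P₀.ord (y : F)) :
    P₀.ord (y : F) = 1 ∧ ∀ P, Φ.r P = Q → P ≠ P₀ → P.ord (y : F) = 0 := by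
  obtain ⟨D, hD, -⟩ := exists_div (K := K) (Φ.coe_ne_zero hy)
  have h1 := Φ.red y hy D hD Q
  rw [hQ] at h1
  have := unique_of_mapDomain_eq_one Φ.r D (fun P hP => by rw [hD]; exact h P hP) h1 hP₀
    (by rw [hD]; exact h₀)
  simpa only [hD] using this

end Red

end Reduction

end Fermat.Agent.S18.H725

end
end
-- ===== PACK-END S18/H725/RedBasic.lean

-- ===== PACK-BEGIN S18/H725/Value.lean
section


/-!
# S18 endgame (helper725), part 2: the value lemma
-/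

set_option autoImplicit false

noncomputable section

open AlgebraicCurve

namespace Fermat.Agent.S18.H725

open Fermat.Agent.Lib.RR

variable {K F k Fk : Type*} [Field K] [Field F] [Algebra K F] [Field k] [Field Fk] [Algebra k Fk]

/-- `0 ≤ ord (f - g)` if `0 ≤ ord f` and `0 ≤ ord g`. -/
theorem ord_sub_nonneg (v : Place K F) {f g : F} (hf : 0 ≤ v.ord f) (hg : 0 ≤ v.ord g) :
    0 ≤ v.ord (f - g) := by
  have := sub_mem (mem_of_ord_nonneg v hf) (mem_of_ord_nonneg v hg)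
  exact ord_nonneg_of_mem v this

theorem ord_add_nonneg (v : Place K F) {f g : F} (hf : 0 ≤ v.ord f) (hg : 0 ≤ v.ord g) :
    0 ≤ v.ord (f + g) := by
  have := add_mem (mem_of_ord_nonneg v hf) (mem_of_ord_nonneg v hg)
  exact ord_nonneg_of_mem v this

theorem ord_mul_nonneg (v : Place K F) {f g : F} (hf : 0 ≤ v.ord f) (hg : 0 ≤ v.ord g) :
    0 ≤ v.ord (f * g) := by
  have := mul_mem (mem_of_ord_nonneg v hf) (mem_of_ord_nonneg v hg)
  exact ord_nonneg_of_mem v this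

/-- `ord (c * f) = ord f` for a nonzero constant `c`. -/
theorem ord_const_mul (v : Place K F) {c : K} (hc : c ≠ 0) (f : F) :
    v.ord (algebraMap K F c * f) = v.ord f := by
  rcases eq_or_ne f 0 with rfl | hf
  · simp
  rw [v.ord_mul ((map_ne_zero _).mpr hc) hf, ord_algebraMap, zero_add]

theorem ord_mul_const (v : Place K F) {c : K} (hc : c ≠ 0) (f : F) :
    v.ord (f * algebraMap K F c) = v.ord f := by
  rw [mul_comm, ord_const_mul v hc]

/-- the order of a difference with a term of positive order -/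
theorem ord_eq_zero_of_sub_pos (v : Place K F) {f : F} {c : K} (hc : c ≠ 0)
    (h : f - algebraMap K F c = 0 ∨ 0 < v.ord (f - algebraMap K F c)) : v.ord f = 0 := by
  rcases h with h | h
  · rw [sub_eq_zero] at h
    rw [h, ord_algebraMap]
  · have hne : f - algebraMap K F c ≠ 0 := ne_zero_of_ord_ne_zero v (ne_of_gt h)
    have hcne : algebraMap K F c ≠ 0 := (map_ne_zero _).mpr hc
    have := ord_add_eq_of_lt v hcne hne (by rw [ord_algebraMap]; exact h)
    rw [add_sub_cancel, ord_algebraMap] at this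
    exact this

namespace Reduction

variable (Φ : Reduction K F k Fk) [HasPrincipalDivisors K F]

/-- **Value lemma.** If `x ∈ R` has no pole over `Q` and `x - c` vanishes at a place `P` over
`Q`, then `c ∈ R` and `ρ x - ρ c` vanishes at `Q`. -/
theorem value_lemma {x : Φ.R} {Q : Place k Fk} {P : Place K F} (hP : Φ.r P = Q)
    (hreg : ∀ P', Φ.r P' = Q → 0 ≤ P'.ord (x : F)) {c : K}
    (hc : (x : F) - algebraMap K F c = 0 ∨ 0 < P.ord ((x : F) - algebraMap K F c)) :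
    ∃ h : algebraMap K F c ∈ Φ.R,
      Φ.ρ x - Φ.ρ ⟨algebraMap K F c, h⟩ = 0 ∨
        0 < Q.ord (Φ.ρ x - Φ.ρ ⟨algebraMap K F c, h⟩) := by
  by_cases hmem : algebraMap K F c ∈ Φ.R
  · refine ⟨hmem, ?_⟩
    set y : Φ.R := x - ⟨algebraMap K F c, hmem⟩ with hy
    have hycoe : (y : F) = (x : F) - algebraMap K F c := rfl
    rw [← map_sub]
    by_cases hρ : Φ.ρ y = 0
    · exact Or.inl hρ
    · right
      have hyne : (y : F) ≠ 0 := Φ.coe_ne_zero hρ
      refine Φ.ord_ρ_pos hρ (fun P' hP' => ?_) hP ?_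
      · rw [hycoe]
        exact ord_sub_nonneg P' (hreg P' hP') (by rw [ord_algebraMap])
      · rw [hycoe]
        rw [hycoe] at hyne
        exact hc.resolve_left hyne
  · exfalso
    obtain ⟨hinv, hρinv⟩ := Φ.inv_mem_of_not_mem hmem
    have hc0 : c ≠ 0 := by
      rintro rfl
      apply hmem
      rw [map_zero]
      exact zero_mem _
    set ci : Φ.R := ⟨(algebraMap K F c)⁻¹, hinv⟩ with hci
    set y : Φ.R := 1 - ci * x with hy
    have hycoe : (y : F) = 1 - (algebraMap K F c)⁻¹ * (x : F) := rfl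
    have hρy : Φ.ρ y = 1 := by
      rw [hy, map_sub, map_one, map_mul, hρinv, zero_mul, sub_zero]
    have hρy0 : Φ.ρ y ≠ 0 := by rw [hρy]; exact one_ne_zero
    have hyne : (y : F) ≠ 0 := Φ.coe_ne_zero hρy0
    have hcF : algebraMap K F c ≠ 0 := (map_ne_zero _).mpr hc0
    have hfac : (y : F) = -((algebraMap K F c)⁻¹ * ((x : F) - algebraMap K F c)) := by
      rw [hycoe]; field_simp; ring
    have hxc : (x : F) - algebraMap K F c ≠ 0 := by
      intro h0
      rw [hfac, h0, mul_zero, neg_zero] at hyne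
      exact hyne rfl
    have hpos : 0 < P.ord (y : F) := by
      rw [hfac, ord_neg, ← map_inv₀, ord_const_mul P (inv_ne_zero hc0)]
      exact hc.resolve_left hxc
    have hnn : ∀ P', Φ.r P' = Q → 0 ≤ P'.ord (y : F) := by
      intro P' hP'
      rw [hycoe]
      refine ord_sub_nonneg P' (by rw [P'.ord_one]) ?_
      rw [← map_inv₀, ord_const_mul P' (inv_ne_zero hc0)]
      exact hreg P' hP'
    have := Φ.ord_ρ_pos hρy0 hnn hP hpos
    rw [hρy, Q.ord_one] at this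
    exact lt_irrefl _ this

/-- **Value lemma, vanishing form.** If moreover `ρ x` vanishes at `Q`, then `ρ c = 0`. -/
theorem value_lemma_zero {x : Φ.R} {Q : Place k Fk} {P : Place K F} (hP : Φ.r P = Q)
    (hreg : ∀ P', Φ.r P' = Q → 0 ≤ P'.ord (x : F)) (hQ : 0 < Q.ord (Φ.ρ x)) {c : K}
    (hc : (x : F) - algebraMap K F c = 0 ∨ 0 < P.ord ((x : F) - algebraMap K F c)) :
    ∃ h : algebraMap K F c ∈ Φ.R, Φ.ρ ⟨algebraMap K F c, h⟩ = 0 := by
  obtain ⟨h, hval⟩ := Φ.value_lemma hP hreg hc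
  refine ⟨h, ?_⟩
  obtain ⟨c', hc'⟩ := Φ.const c h
  by_contra hne
  have hc'0 : c' ≠ 0 := by
    rintro rfl
    rw [map_zero] at hc'
    exact hne hc'
  rw [hc'] at hval
  have hρx : Φ.ρ x ≠ 0 := ne_zero_of_ord_ne_zero Q (ne_of_gt hQ)
  have hord : Q.ord (Φ.ρ x - algebraMap k Fk c') = 0 := by
    have hcne : -algebraMap k Fk c' ≠ 0 := neg_ne_zero.mpr ((map_ne_zero _).mpr hc'0)
    have := ord_add_eq_of_lt Q hcne hρx (by rw [ord_neg, ord_algebraMap]; exact hQ)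
    rw [ord_neg, ord_algebraMap, add_comm, ← sub_eq_add_neg] at this
    exact this
  rcases hval with h0 | hpos
  · rw [sub_eq_zero] at h0
    rw [h0, ord_algebraMap] at hQ
    exact lt_irrefl _ hQ
  · omega

end Reduction

end Fermat.Agent.S18.H725

end
end
-- ===== PACK-END S18/H725/Value.lean

-- ===== PACK-BEGIN S15/H215/LatticeJ.lean
section





/-!
# S15, piece MOD-B2 (helper215): lattices and the `j`-function

* `G_congr_h215`, `g₂_congr_h215`, `g₃_congr_h215` : the lattice invariants only depend on the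
  lattice (not on the basis);
* `exists_pairOf_lattice_h215` : every lattice is `c (ℤ + ℤ τ)`, `τ ∈ ℍ`;
* `disc_ne_zero_h215` : `g₂³ - 27 g₃² ≠ 0` for every period pair;
* `latticeJ_pairOf_h215` : `latticeJ (ℤ + ℤ τ) = E₄(τ)³ / Δ(τ)`;
* `latticeJ_scalePair_h215`, `latticeJ_congr_h215`;
* **B2** `exists_periodPair_h215` : every `(g₂, g₃)` with `g₂³ - 27 g₃² ≠ 0` comes from a lattice.

Inputs (on main): S20 `T2h423` (`g₂_pairOf`, `scalePair`), S20 `JInjective.exists_scale`,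
S24 `M7.H47.jFun_surjective`.
-/

set_option autoImplicit false

noncomputable section

open UpperHalfPlane ModularForm EisensteinSeries

namespace Fermat.Agent.S15.H215

open Fermat.Agent.S15.H542
open Fermat.Agent.S20.T2h423 (pairOf scalePair)

local notation "Δ" => ModularForm.discriminant

/-! ## Independence of the basis -/

theorem G_congr_h215 {L L' : PeriodPair} (h : L.lattice = L'.lattice) (n : ℕ) :
    L.G n = L'.G n := by
  unfold PeriodPair.G
  have h' : (L.lattice : Set ℂ) = (L'.lattice : Set ℂ) := by rw [h]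
  exact tsum_congr_set_coe (fun l : ℂ => (l ^ n)⁻¹) h'

theorem g₂_congr_h215 {L L' : PeriodPair} (h : L.lattice = L'.lattice) : L.g₂ = L'.g₂ := by
  unfold PeriodPair.g₂; rw [G_congr_h215 h]

theorem g₃_congr_h215 {L L' : PeriodPair} (h : L.lattice = L'.lattice) : L.g₃ = L'.g₃ := by
  unfold PeriodPair.g₃; rw [G_congr_h215 h]

theorem latticeJ_congr_h215 {L L' : PeriodPair} (h : L.lattice = L'.lattice) :
    latticeJ L = latticeJ L' := by
  unfold latticeJ; rw [g₂_congr_h215 h, g₃_congr_h215 h]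

/-! ## Scaling -/

theorem disc_scalePair_h215 (c : ℂ) (hc : c ≠ 0) (L : PeriodPair) :
    (scalePair c hc L).g₂ ^ 3 - 27 * (scalePair c hc L).g₃ ^ 2 =
      (c ^ 12)⁻¹ * (L.g₂ ^ 3 - 27 * L.g₃ ^ 2) := by
  rw [Fermat.Agent.S20.T2h423.g₂_scalePair, Fermat.Agent.S20.T2h423.g₃_scalePair]
  field_simp

theorem latticeJ_scalePair_h215 (c : ℂ) (hc : c ≠ 0) (L : PeriodPair) :
    latticeJ (scalePair c hc L) = latticeJ L := by
  unfold latticeJ
  rw [disc_scalePair_h215, Fermat.Agent.S20.T2h423.g₂_scalePair]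
  field_simp

/-! ## The lattices `ℤ + ℤ τ` -/

theorem disc_pairOf_ne_zero_h215 (τ : ℍ) :
    (pairOf τ).g₂ ^ 3 - 27 * (pairOf τ).g₃ ^ 2 ≠ 0 := by
  rw [Fermat.Agent.S20.T2h423.g₂_cube_sub_g₃_sq_pairOf]
  refine mul_ne_zero (pow_ne_zero _ (mul_ne_zero two_ne_zero ?_)) (discriminant_ne_zero τ)
  exact_mod_cast Real.pi_ne_zero

theorem latticeJ_pairOf_h215 (τ : ℍ) : latticeJ (pairOf τ) = E₄ τ ^ 3 / Δ τ := by
  unfold latticeJ
  rw [Fermat.Agent.S20.T2h423.g₂_cube_sub_g₃_sq_pairOf, Fermat.Agent.S20.T2h423.g₂_pairOf]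
  have hπ : (Real.pi : ℂ) ≠ 0 := by exact_mod_cast Real.pi_ne_zero
  have hΔ := discriminant_ne_zero τ
  field_simp
  ring

/-- Every lattice is homothetic to some `ℤ + ℤ τ`. -/
theorem exists_pairOf_lattice_h215 (L : PeriodPair) :
    ∃ (τ : ℍ) (c : ℂ) (hc : c ≠ 0), L.lattice = (scalePair c hc (pairOf τ)).lattice := by
  have hind := L.indep
  rw [LinearIndependent.pair_iff] at hind
  have h1 : L.ω₁ ≠ 0 := by
    intro h
    have := hind 1 0 (by simp [h])
    exact one_ne_zero this.1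
  have him : (L.ω₂ / L.ω₁).im ≠ 0 := by
    intro h
    -- `ω₂ = t ω₁` with `t` real
    have ht : L.ω₂ / L.ω₁ = (((L.ω₂ / L.ω₁).re : ℝ) : ℂ) := by
      apply Complex.ext <;> simp [h]
    have h2 : (-(L.ω₂ / L.ω₁).re) • L.ω₁ + (1 : ℝ) • L.ω₂ = 0 := by
      simp only [Complex.real_smul]
      push_cast
      rw [← ht]
      field_simp
      ring
    exact one_ne_zero (hind _ _ h2).2
  rcases lt_or_gt_of_ne him with hneg | hpos
  · -- `Im (ω₂/ω₁) < 0`: use `τ = - ω₂ / ω₁`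
    have hpos' : 0 < (-(L.ω₂ / L.ω₁)).im := by simpa using hneg
    refine ⟨UpperHalfPlane.mk (-(L.ω₂ / L.ω₁)) hpos', L.ω₁, h1, ?_⟩
    show Submodule.span ℤ {L.ω₁, L.ω₂} =
      Submodule.span ℤ {L.ω₁ * 1, L.ω₁ * (-(L.ω₂ / L.ω₁))}
    have e2 : L.ω₁ * (-(L.ω₂ / L.ω₁)) = -L.ω₂ := by field_simp
    rw [mul_one, e2]
    ext z
    simp only [Submodule.mem_span_pair, zsmul_eq_mul]
    constructor
    · rintro ⟨a, b, rfl⟩
      exact ⟨a, -b, by push_cast; ring⟩
    · rintro ⟨a, b, rfl⟩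
      exact ⟨a, -b, by push_cast; ring⟩
  · refine ⟨UpperHalfPlane.mk (L.ω₂ / L.ω₁) hpos, L.ω₁, h1, ?_⟩
    show Submodule.span ℤ {L.ω₁, L.ω₂} =
      Submodule.span ℤ {L.ω₁ * 1, L.ω₁ * (L.ω₂ / L.ω₁)}
    have e2 : L.ω₁ * (L.ω₂ / L.ω₁) = L.ω₂ := by field_simp
    rw [mul_one, e2]

/-- `g₂³ - 27 g₃² ≠ 0` for every lattice. -/
theorem disc_ne_zero_h215 (L : PeriodPair) : L.g₂ ^ 3 - 27 * L.g₃ ^ 2 ≠ 0 := by
  obtain ⟨τ, c, hc, h⟩ := exists_pairOf_lattice_h215 L
  rw [g₂_congr_h215 h, g₃_congr_h215 h, disc_scalePair_h215]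
  exact mul_ne_zero (inv_ne_zero (pow_ne_zero _ hc)) (disc_pairOf_ne_zero_h215 τ)

/-! ## B2 -/

/-- **B2.**  Every pair `(g₂, g₃)` with `g₂³ - 27 g₃² ≠ 0` is the pair of invariants of a lattice. -/
theorem exists_periodPair_h215 (g₂ g₃ : ℂ) (h : g₂ ^ 3 - 27 * g₃ ^ 2 ≠ 0) :
    ∃ L : PeriodPair, L.g₂ = g₂ ∧ L.g₃ = g₃ := by
  obtain ⟨τ, hτ⟩ := Fermat.Agent.S24.M7.H47.jFun_surjective
    (1728 * g₂ ^ 3 / (g₂ ^ 3 - 27 * g₃ ^ 2))
  have hJ : latticeJ (pairOf τ) = 1728 * g₂ ^ 3 / (g₂ ^ 3 - 27 * g₃ ^ 2) := by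
    rw [latticeJ_pairOf_h215]
    exact hτ
  set G₂ := (pairOf τ).g₂ with hG₂
  set G₃ := (pairOf τ).g₃ with hG₃
  have hD : G₂ ^ 3 - 27 * G₃ ^ 2 ≠ 0 := disc_pairOf_ne_zero_h215 τ
  have hcross : G₂ ^ 3 * g₃ ^ 2 = g₂ ^ 3 * G₃ ^ 2 := by
    unfold latticeJ at hJ
    rw [div_eq_div_iff hD h] at hJ
    linear_combination (-1 / (1728 * 27) : ℂ) * hJ
  have hd1 : (G₂ / 3) ^ 3 - G₃ ^ 2 ≠ 0 := by
    intro h0
    apply hD
    linear_combination (27 : ℂ) * h0
  have hd2 : (g₂ / 3) ^ 3 - g₃ ^ 2 ≠ 0 := by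
    intro h0
    apply h
    linear_combination (27 : ℂ) * h0
  obtain ⟨μ, hμ, h4, h6⟩ := Fermat.Agent.S20.JInjective.exists_scale (G₂ / 3) G₃ (g₂ / 3) g₃
    hd1 hd2 (by linear_combination (1 / 27 : ℂ) * hcross)
  refine ⟨scalePair μ⁻¹ (inv_ne_zero hμ) (pairOf τ), ?_, ?_⟩
  · rw [Fermat.Agent.S20.T2h423.g₂_scalePair, ← hG₂]
    have : g₂ = μ ^ 4 * G₂ := by linear_combination (3 : ℂ) * h4
    rw [this, inv_pow, inv_inv]
  · rw [Fermat.Agent.S20.T2h423.g₃_scalePair, ← hG₃, h6, inv_pow, inv_inv]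

end Fermat.Agent.S15.H215

end
end
-- ===== PACK-END S15/H215/LatticeJ.lean

-- ===== PACK-BEGIN S11/EchKummer11.lean
section




/-!
# Kummer's lemma for `p = 11` (echelon method)

Every unit of `ℤ[ζ₁₁]` congruent to a rational integer modulo `11` is an `11`-th power.
-/

set_option autoImplicit false
set_option linter.unusedSectionVars false

open NumberField

namespace Fermat.Agent.S11.Ech

theorem fact_prime_eleven : Fact (Nat.Prime 11) := ⟨by norm_num⟩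

attribute [local instance] fact_prime_eleven

variable {K : Type*} [Field K] [NumberField K] [IsCyclotomicExtension {11} ℚ K]
  {ζ : K} (hζ : IsPrimitiveRoot ζ 11)

theorem intMod_of_level {j : ℕ} {g : 𝓞 K} {a b : ℤ}
    (hg : (hζ.toInteger - 1) ^ (j + 2) ∣ g - a - b * (hζ.toInteger - 1) ^ (j + 1)) :
    IntMod hζ (j + 1) g := by
  obtain ⟨q, hq⟩ := hg
  refine ⟨a, b + (hζ.toInteger - 1) * q, ?_⟩
  linear_combination hq

theorem intMod_zpow_of_dvd {k : ℕ} (hk : k ≤ 10) (g : (𝓞 K)ˣ) {n : ℤ} (hn : (11 : ℤ) ∣ n) :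
    IntMod hζ k ((g ^ n : (𝓞 K)ˣ) : 𝓞 K) := by
  obtain ⟨c, rfl⟩ := hn
  have : (g ^ ((11 : ℤ) * c) : (𝓞 K)ˣ) = (g ^ c) ^ 11 := by
    rw [mul_comm, zpow_mul]
    norm_cast
  rw [this, Units.val_pow_eq_pow_val]
  exact IntMod.pow_p (p := 11) hζ (by simpa using hk) _

/-- The submonoid of units congruent to a rational integer modulo `11`. -/
def intUnits (K : Type*) [Field K] [NumberField K] : Submonoid (𝓞 K)ˣ where
  carrier := {u | ∃ N : ℤ, (11 : 𝓞 K) ∣ (u : 𝓞 K) - N}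
  one_mem' := ⟨1, by simp⟩
  mul_mem' := by
    rintro x y ⟨N, s, hs⟩ ⟨M, t, ht⟩
    refine ⟨N * M, s * y + N * t, ?_⟩
    push_cast
    linear_combination (y : 𝓞 K) * hs + (N : 𝓞 K) * ht

theorem mem_intUnits {u : (𝓞 K)ˣ} :
    u ∈ intUnits K ↔ ∃ N : ℤ, (11 : 𝓞 K) ∣ (u : 𝓞 K) - N := Iff.rfl

include hζ in
theorem pow_mem_intUnits (x : (𝓞 K)ˣ) : x ^ 11 ∈ intUnits K := by
  obtain ⟨n, hn⟩ := exists_int_sub_pow_prime_dvd (p := 11) hζ (x : 𝓞 K)
  exact ⟨n, by simpa using hn⟩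

theorem intMod_ten_of_mem {u : (𝓞 K)ˣ} (hu : u ∈ intUnits K) : IntMod hζ 10 (u : 𝓞 K) := by
  obtain ⟨N, hN⟩ := hu
  have := intMod_of_p_dvd (p := 11) hζ (x := (u : 𝓞 K)) ⟨N, by simpa using hN⟩
  simpa using this

/-- The five echelon units are independent modulo units congruent to integers. -/
theorem echelon_independent (n0 n1 n2 n3 n4 : ℤ)
    (h : zetaU hζ ^ n0 * ech2 hζ ^ n1 * ech4 hζ ^ n2 * ech6 hζ ^ n3 * ech8 hζ ^ n4 ∈ intUnits K) :
    (11 : ℤ) ∣ n0 ∧ (11 : ℤ) ∣ n1 ∧ (11 : ℤ) ∣ n2 ∧ (11 : ℤ) ∣ n3 ∧ (11 : ℤ) ∣ n4 := by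
  have h10 := intMod_ten_of_mem hζ h
  have i2 : IntMod hζ 2 ((ech2 hζ : (𝓞 K)ˣ) : 𝓞 K) := intMod_of_level hζ (ech2_level hζ)
  have i4 : IntMod hζ 4 ((ech4 hζ : (𝓞 K)ˣ) : 𝓞 K) := intMod_of_level hζ (ech4_level hζ)
  have i6 : IntMod hζ 6 ((ech6 hζ : (𝓞 K)ˣ) : 𝓞 K) := intMod_of_level hζ (ech6_level hζ)
  have i8 : IntMod hζ 8 ((ech8 hζ : (𝓞 K)ˣ) : 𝓞 K) := intMod_of_level hζ (ech8_level hζ)
  have zp : ∀ {k : ℕ} (_ : k ≤ 10) {l : ℕ} (_ : k ≤ l) {u : (𝓞 K)ˣ} (_ : IntMod hζ l (u : 𝓞 K))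
      (n : ℤ), IntMod hζ k ((u ^ n : (𝓞 K)ˣ) : 𝓞 K) := fun hk _ hkl _ hu n =>
    IntMod.unit_zpow (p := 11) hζ (by simpa using hk) (hu.mono hζ hkl) n
  -- step A
  have hn0 : (11 : ℤ) ∣ n0 := by
    refine step_int (p := 11) hζ (j := 0) (by norm_num) (zeta_level hζ) (by norm_num)
      (R := ech2 hζ ^ n1 * ech4 hζ ^ n2 * ech6 hζ ^ n3 * ech8 hζ ^ n4) ?_ n0 ?_
    · simp only [Units.val_mul]
      exact (((zp (by norm_num) (by norm_num) i2 n1).mul hζ
        (zp (by norm_num) (by norm_num) i4 n2)).mul hζ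
        (zp (by norm_num) (by norm_num) i6 n3)).mul hζ
        (zp (by norm_num) (by norm_num) i8 n4)
    · have : zetaU hζ ^ n0 * (ech2 hζ ^ n1 * ech4 hζ ^ n2 * ech6 hζ ^ n3 * ech8 hζ ^ n4)
          = zetaU hζ ^ n0 * ech2 hζ ^ n1 * ech4 hζ ^ n2 * ech6 hζ ^ n3 * ech8 hζ ^ n4 := by
        simp only [mul_assoc]
      rw [this]
      exact h10.mono hζ (by norm_num)
  have p0 : ∀ {k : ℕ} (_ : k ≤ 10), IntMod hζ k ((zetaU hζ ^ n0 : (𝓞 K)ˣ) : 𝓞 K) :=
    fun hk => intMod_zpow_of_dvd hζ hk _ hn0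
  -- step B
  have hn1 : (11 : ℤ) ∣ n1 := by
    refine step_int (p := 11) hζ (j := 1) (by norm_num) (ech2_level hζ) (by norm_num)
      (R := zetaU hζ ^ n0 * ech4 hζ ^ n2 * ech6 hζ ^ n3 * ech8 hζ ^ n4) ?_ n1 ?_
    · simp only [Units.val_mul]
      exact (((p0 (by norm_num)).mul hζ
        (zp (by norm_num) (by norm_num) i4 n2)).mul hζ
        (zp (by norm_num) (by norm_num) i6 n3)).mul hζ
        (zp (by norm_num) (by norm_num) i8 n4)
    · have : ech2 hζ ^ n1 * (zetaU hζ ^ n0 * ech4 hζ ^ n2 * ech6 hζ ^ n3 * ech8 hζ ^ n4)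
          = zetaU hζ ^ n0 * ech2 hζ ^ n1 * ech4 hζ ^ n2 * ech6 hζ ^ n3 * ech8 hζ ^ n4 := by
        simp only [mul_assoc, mul_left_comm, mul_comm]
      rw [this]
      exact h10.mono hζ (by norm_num)
  have p1 : ∀ {k : ℕ} (_ : k ≤ 10), IntMod hζ k ((ech2 hζ ^ n1 : (𝓞 K)ˣ) : 𝓞 K) :=
    fun hk => intMod_zpow_of_dvd hζ hk _ hn1
  -- step C
  have hn2 : (11 : ℤ) ∣ n2 := by
    refine step_int (p := 11) hζ (j := 3) (by norm_num) (ech4_level hζ) (by norm_num)
      (R := zetaU hζ ^ n0 * ech2 hζ ^ n1 * ech6 hζ ^ n3 * ech8 hζ ^ n4) ?_ n2 ?_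
    · simp only [Units.val_mul]
      exact (((p0 (by norm_num)).mul hζ
        (p1 (by norm_num))).mul hζ
        (zp (by norm_num) (by norm_num) i6 n3)).mul hζ
        (zp (by norm_num) (by norm_num) i8 n4)
    · have : ech4 hζ ^ n2 * (zetaU hζ ^ n0 * ech2 hζ ^ n1 * ech6 hζ ^ n3 * ech8 hζ ^ n4)
          = zetaU hζ ^ n0 * ech2 hζ ^ n1 * ech4 hζ ^ n2 * ech6 hζ ^ n3 * ech8 hζ ^ n4 := by
        simp only [mul_assoc, mul_left_comm, mul_comm]
      rw [this]
      exact h10.mono hζ (by norm_num)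
  have p2 : ∀ {k : ℕ} (_ : k ≤ 10), IntMod hζ k ((ech4 hζ ^ n2 : (𝓞 K)ˣ) : 𝓞 K) :=
    fun hk => intMod_zpow_of_dvd hζ hk _ hn2
  -- step D
  have hn3 : (11 : ℤ) ∣ n3 := by
    refine step_int (p := 11) hζ (j := 5) (by norm_num) (ech6_level hζ) (by norm_num)
      (R := zetaU hζ ^ n0 * ech2 hζ ^ n1 * ech4 hζ ^ n2 * ech8 hζ ^ n4) ?_ n3 ?_
    · simp only [Units.val_mul]
      exact (((p0 (by norm_num)).mul hζ
        (p1 (by norm_num))).mul hζ
        (p2 (by norm_num))).mul hζ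
        (zp (by norm_num) (by norm_num) i8 n4)
    · have : ech6 hζ ^ n3 * (zetaU hζ ^ n0 * ech2 hζ ^ n1 * ech4 hζ ^ n2 * ech8 hζ ^ n4)
          = zetaU hζ ^ n0 * ech2 hζ ^ n1 * ech4 hζ ^ n2 * ech6 hζ ^ n3 * ech8 hζ ^ n4 := by
        simp only [mul_assoc, mul_left_comm, mul_comm]
      rw [this]
      exact h10.mono hζ (by norm_num)
  have p3 : ∀ {k : ℕ} (_ : k ≤ 10), IntMod hζ k ((ech6 hζ ^ n3 : (𝓞 K)ˣ) : 𝓞 K) :=
    fun hk => intMod_zpow_of_dvd hζ hk _ hn3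
  -- step E
  have hn4 : (11 : ℤ) ∣ n4 := by
    refine step_int (p := 11) hζ (j := 7) (by norm_num) (ech8_level hζ) (by norm_num)
      (R := zetaU hζ ^ n0 * ech2 hζ ^ n1 * ech4 hζ ^ n2 * ech6 hζ ^ n3) ?_ n4 ?_
    · simp only [Units.val_mul]
      exact (((p0 (by norm_num)).mul hζ
        (p1 (by norm_num))).mul hζ
        (p2 (by norm_num))).mul hζ
        (p3 (by norm_num))
    · have : ech8 hζ ^ n4 * (zetaU hζ ^ n0 * ech2 hζ ^ n1 * ech4 hζ ^ n2 * ech6 hζ ^ n3)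
          = zetaU hζ ^ n0 * ech2 hζ ^ n1 * ech4 hζ ^ n2 * ech6 hζ ^ n3 * ech8 hζ ^ n4 := by
        simp only [mul_assoc, mul_left_comm, mul_comm]
      rw [this]
      exact h10.mono hζ (by norm_num)
  exact ⟨hn0, hn1, hn2, hn3, hn4⟩

/-- **Kummer's lemma for `p = 11`.** -/
theorem kummer_lemma_eleven' (u : (𝓞 K)ˣ) (h : ∃ n : ℤ, (11 : 𝓞 K) ∣ (u : 𝓞 K) - n) :
    ∃ v : (𝓞 K)ˣ, u = v ^ 11 := by
  have hζ := IsCyclotomicExtension.zeta_spec 11 ℚ K
  obtain ⟨gens, hgens⟩ := units_generated K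
  refine exists_pow_eq_of_counting 11 (ι := Option (Fin (Units.rank K))) (κ := Fin 5)
    (by rw [card_option_rank_eleven K]; simp) gens hgens (intUnits K) (pow_mem_intUnits hζ)
    ![zetaU hζ, ech2 hζ, ech4 hζ, ech6 hζ, ech8 hζ] ?_ u h
  intro n hn
  rw [Fin.prod_univ_five] at hn
  simp only [Matrix.cons_val_zero, Matrix.cons_val_one, Matrix.cons_val] at hn
  obtain ⟨h0, h1, h2, h3, h4⟩ := echelon_independent hζ _ _ _ _ _ hn
  intro i
  fin_cases i <;> simpa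

end Fermat.Agent.S11.Ech

end
-- ===== PACK-END S11/EchKummer11.lean

-- ===== PACK-BEGIN S11/Kummer11.lean
section


/-!
# Kummer's lemma for `p = 11` — public interface
-/

set_option autoImplicit false

open NumberField

namespace Fermat.Agent.S11

/-- **Kummer's lemma for `p = 11`**: a unit of `ℤ[ζ₁₁]` congruent to a rational integer
modulo `11` is an `11`-th power. -/
theorem kummer_lemma_eleven (K : Type*) [Field K] [NumberField K]
    [IsCyclotomicExtension {11} ℚ K] (u : (𝓞 K)ˣ)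
    (h : ∃ m : ℤ, (11 : 𝓞 K) ∣ (u : 𝓞 K) - (m : 𝓞 K)) :
    ∃ v : (𝓞 K)ˣ, u = v ^ 11 :=
  Ech.kummer_lemma_eleven' u h

end Fermat.Agent.S11

end
-- ===== PACK-END S11/Kummer11.lean

-- ===== PACK-BEGIN G1/H899/TwistIso.lean
section





/-!
# G1.c, leaf TWC (helper899), part 2: the twist isomorphism on points

Over a field `F` (`2 ≠ 0`) containing `sd = √d`, the change of variables
`C = (u, r, s, t) = ((2√d)⁻¹, 0, -a₁/2, -a₃/2)` carries `E` to its twist `twcTwist899 d E`; so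
`twcPhi899 : E'.Point ≃+ E.Point`, `(x, y) ↦ (x / 4d, y / (8d√d) - a₁x/(8d) - a₃/2)`.

A field automorphism `σ` fixing the coefficients of `E` and `d` satisfies
`σ (Φ P) = Φ (σ P)` if `σ √d = √d` and `σ (Φ P) = Φ (- σ P)` if `σ √d = -√d`.
-/

set_option autoImplicit false
set_option linter.unusedSectionVars false

namespace Fermat.Agent.G1.H899

open WeierstrassCurve WeierstrassCurve.Affine Fermat.Agent.Lib.VC

section Field

variable {F : Type} [Field F]

/-- The change of variables `((2√d)⁻¹, 0, -a₁/2, -a₃/2)`. -/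
def twcVC899 (E : WeierstrassCurve F) (sd : F) (hsd : sd ≠ 0) (h2 : (2 : F) ≠ 0) :
    VariableChange F where
  u := Units.mk0 ((2 * sd)⁻¹) (inv_ne_zero (mul_ne_zero h2 hsd))
  r := 0
  s := -E.a₁ / 2
  t := -E.a₃ / 2

lemma twcVC_u899 (E : WeierstrassCurve F) (sd : F) (hsd : sd ≠ 0) (h2 : (2 : F) ≠ 0) :
    ((twcVC899 E sd hsd h2).u : F) = (2 * sd)⁻¹ := rfl

/-- `C • E` is the twist of `E` by `d = sd²`. -/
theorem twcVC_smul899 (E : WeierstrassCurve F) (sd d : F) (hsd : sd ≠ 0) (h2 : (2 : F) ≠ 0)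
    (hd : sd ^ 2 = d) :
    (twcVC899 E sd hsd h2) • E = twcTwist899 d E := by
  have hu : ((twcVC899 E sd hsd h2).u : F)⁻¹ = 2 * sd := by
    rw [twcVC_u899, inv_inv]
  ext
  · rw [a₁_smul, hu]
    show 2 * sd * (E.a₁ + 2 * (-E.a₁ / 2)) = 0
    field_simp
    ring
  · rw [a₂_smul, hu]
    show (2 * sd) ^ 2 * (E.a₂ - (-E.a₁ / 2) * E.a₁ + 3 * 0 - (-E.a₁ / 2) ^ 2) = d * E.b₂
    rw [WeierstrassCurve.b₂, ← hd]
    field_simp
    ring
  · rw [a₃_smul, hu]
    show (2 * sd) ^ 3 * (E.a₃ + 0 * E.a₁ + 2 * (-E.a₃ / 2)) = 0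
    field_simp
    ring
  · rw [a₄_smul, hu]
    show (2 * sd) ^ 4 * (E.a₄ - (-E.a₁ / 2) * E.a₃ + 2 * 0 * E.a₂
      - ((-E.a₃ / 2) + 0 * (-E.a₁ / 2)) * E.a₁ + 3 * 0 ^ 2 - 2 * (-E.a₁ / 2) * (-E.a₃ / 2))
      = 8 * d ^ 2 * E.b₄
    rw [WeierstrassCurve.b₄, ← hd]
    field_simp
    ring
  · rw [a₆_smul, hu]
    show (2 * sd) ^ 6 * (E.a₆ + 0 * E.a₄ + 0 ^ 2 * E.a₂ + 0 ^ 3
      - (-E.a₃ / 2) * E.a₃ - (-E.a₃ / 2) ^ 2 - 0 * (-E.a₃ / 2) * E.a₁) = 16 * d ^ 3 * E.b₆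
    rw [WeierstrassCurve.b₆, ← hd]
    field_simp
    ring

variable [DecidableEq F]

/-- **The twist isomorphism** `E'.Point ≃+ E.Point`, `E' = twcTwist899 d E`, `d = sd²`. -/
noncomputable def twcPhi899 (E : WeierstrassCurve F) (sd d : F) (hsd : sd ≠ 0) (h2 : (2 : F) ≠ 0)
    (hd : sd ^ 2 = d) : (twcTwist899 d E).toAffine.Point ≃+ E.toAffine.Point :=
  (pointCongr (twcVC_smul899 E sd d hsd h2 hd).symm).trans (vcPoint E (twcVC899 E sd hsd h2))

lemma twcPhi_zero899 (E : WeierstrassCurve F) (sd d : F) (hsd : sd ≠ 0) (h2 : (2 : F) ≠ 0)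
    (hd : sd ^ 2 = d) : twcPhi899 E sd d hsd h2 hd 0 = 0 := map_zero _

/-- The coordinates of `Φ (x, y)`. -/
lemma twcPhi_some899 (E : WeierstrassCurve F) (sd d : F) (hsd : sd ≠ 0) (h2 : (2 : F) ≠ 0)
    (hd : sd ^ 2 = d) {x y : F} (h : (twcTwist899 d E).toAffine.Nonsingular x y) :
    ∃ h' : E.toAffine.Nonsingular ((2 * sd)⁻¹ ^ 2 * x)
        ((2 * sd)⁻¹ ^ 3 * y + (2 * sd)⁻¹ ^ 2 * (-E.a₁ / 2) * x + -E.a₃ / 2),
      twcPhi899 E sd d hsd h2 hd (Point.some x y h) = Point.some _ _ h' := by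
  have key : twcPhi899 E sd d hsd h2 hd (Point.some x y h) =
      Point.some (vcX (twcVC899 E sd hsd h2) x) (vcY (twcVC899 E sd hsd h2) x y)
        ((nonsingular_smul_iff E (twcVC899 E sd hsd h2) x y).mp
          ((twcVC_smul899 E sd d hsd h2 hd).symm ▸ h)) := by
    simp only [twcPhi899, AddEquiv.trans_apply, pointCongr_some, vcPoint_some]
  have hX : vcX (twcVC899 E sd hsd h2) x = (2 * sd)⁻¹ ^ 2 * x := by
    unfold vcX
    rw [twcVC_u899]
    show (2 * sd)⁻¹ ^ 2 * x + 0 = _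
    rw [add_zero]
  have hY : vcY (twcVC899 E sd hsd h2) x y =
      (2 * sd)⁻¹ ^ 3 * y + (2 * sd)⁻¹ ^ 2 * (-E.a₁ / 2) * x + -E.a₃ / 2 := by
    unfold vcY
    rw [twcVC_u899]
    rfl
  rw [key]
  refine ⟨hX ▸ hY ▸ ((nonsingular_smul_iff E (twcVC899 E sd hsd h2) x y).mp
          ((twcVC_smul899 E sd d hsd h2 hd).symm ▸ h)), ?_⟩
  simp only [Point.some.injEq]
  exact ⟨hX, hY⟩

end Field

/-! ## Over `ℚ̄`, with the Galois action -/

section Galois

local notation "Qb" => AlgebraicClosure ℚ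

variable (W : WeierstrassCurve ℤ)

/-- The base change of the twisted integral model is the twist of the base change. -/
theorem twc_baseChange899 :
    ((twistNegThree899 W).map (Int.castRingHom ℚ))⁄Qb =
      twcTwist899 (-3 : Qb) ((W.map (Int.castRingHom ℚ))⁄Qb) := by
  show ((twcTwist899 (-3) W).map (Int.castRingHom ℚ)).map (algebraMap ℚ Qb) = _
  rw [twcTwist_map899, twcTwist_map899]
  congr 1
  simp

variable (sd : Qb) (hsd : sd ^ 2 = -3)

include hsd in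
lemma twc_sd_ne_zero899 : sd ≠ 0 := by
  rintro rfl
  norm_num at hsd

lemma twc_two_ne_zero899 : (2 : Qb) ≠ 0 := two_ne_zero

/-- **The twist isomorphism over `ℚ̄`**: `W'(ℚ̄) ≃+ W(ℚ̄)`. -/
noncomputable def twcPhiQ899 :
    (((twistNegThree899 W).map (Int.castRingHom ℚ))⁄Qb).Point ≃+
      ((W.map (Int.castRingHom ℚ))⁄Qb).Point :=
  (pointCongr (twc_baseChange899 W)).trans
    (twcPhi899 ((W.map (Int.castRingHom ℚ))⁄Qb) sd (-3) (twc_sd_ne_zero899 sd hsd)
      twc_two_ne_zero899 hsd)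

/-- Coordinates of `Φ (x, y)`. -/
lemma twcPhiQ_some899 {x y : Qb}
    (h : (((twistNegThree899 W).map (Int.castRingHom ℚ))⁄Qb).Nonsingular x y) :
    ∃ h' : ((W.map (Int.castRingHom ℚ))⁄Qb).Nonsingular ((2 * sd)⁻¹ ^ 2 * x)
        ((2 * sd)⁻¹ ^ 3 * y + (2 * sd)⁻¹ ^ 2 * (-((W.map (Int.castRingHom ℚ))⁄Qb).a₁ / 2) * x
          + -((W.map (Int.castRingHom ℚ))⁄Qb).a₃ / 2),
      twcPhiQ899 W sd hsd (Point.some x y h) = Point.some _ _ h' := by
  obtain ⟨h', e⟩ := twcPhi_some899 ((W.map (Int.castRingHom ℚ))⁄Qb) sd (-3)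
    (twc_sd_ne_zero899 sd hsd) twc_two_ne_zero899 hsd (x := x) (y := y)
    ((twc_baseChange899 W) ▸ h)
  refine ⟨h', ?_⟩
  rw [← e]
  simp only [twcPhiQ899, AddEquiv.trans_apply, pointCongr_some]

/-- The Galois action on an affine point. -/
lemma twc_smul_some899 (V : WeierstrassCurve ℚ) (σ : Qb ≃ₐ[ℚ] Qb) {x y : Qb}
    (h : (V⁄Qb).Nonsingular x y) :
    σ • Point.some x y h = Point.some (σ x) (σ y)
      ((WeierstrassCurve.Affine.baseChange_nonsingular V σ.toAlgHom.injective x y).mpr h) :=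
  rfl

lemma twc_some_congr899 {V : WeierstrassCurve Qb} {x x' y y' : Qb} (hx : x = x') (hy : y = y')
    (h : V.toAffine.Nonsingular x y) (h' : V.toAffine.Nonsingular x' y') :
    Point.some x y h = Point.some x' y' h' := by
  subst hx hy; rfl

lemma twc_a₁_fixed899 (σ : Qb ≃ₐ[ℚ] Qb) :
    σ ((W.map (Int.castRingHom ℚ))⁄Qb).a₁ = ((W.map (Int.castRingHom ℚ))⁄Qb).a₁ :=
  σ.commutes _

lemma twc_a₃_fixed899 (σ : Qb ≃ₐ[ℚ] Qb) :
    σ ((W.map (Int.castRingHom ℚ))⁄Qb).a₃ = ((W.map (Int.castRingHom ℚ))⁄Qb).a₃ :=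
  σ.commutes _

lemma twc_twist_a₁899 : (((twistNegThree899 W).map (Int.castRingHom ℚ))⁄Qb).a₁ = 0 := by
  rw [twc_baseChange899]; rfl

lemma twc_twist_a₃899 : (((twistNegThree899 W).map (Int.castRingHom ℚ))⁄Qb).a₃ = 0 := by
  rw [twc_baseChange899]; rfl

/-- **Semi-equivariance, case `σ √-3 = √-3`.** -/
theorem twcPhiQ_smul_pos899 (σ : Qb ≃ₐ[ℚ] Qb) (hσ : σ sd = sd)
    (P : (((twistNegThree899 W).map (Int.castRingHom ℚ))⁄Qb).Point) :
    σ • twcPhiQ899 W sd hsd P = twcPhiQ899 W sd hsd (σ • P) := by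
  rcases P with _ | ⟨x, y, h⟩
  · show σ • twcPhiQ899 W sd hsd 0 = twcPhiQ899 W sd hsd (σ • 0)
    rw [map_zero]
    exact (map_zero (twcPhiQ899 W sd hsd)).symm
  · obtain ⟨h₁, e₁⟩ := twcPhiQ_some899 W sd hsd h
    have hσh : (((twistNegThree899 W).map (Int.castRingHom ℚ))⁄Qb).Nonsingular (σ x) (σ y) :=
      (WeierstrassCurve.Affine.baseChange_nonsingular
        ((twistNegThree899 W).map (Int.castRingHom ℚ)) σ.toAlgHom.injective x y).mpr h
    have e₀ : σ • (Point.some x y h :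
        (((twistNegThree899 W).map (Int.castRingHom ℚ))⁄Qb).Point) =
        Point.some (σ x) (σ y) hσh := rfl
    obtain ⟨h₂, e₂⟩ := twcPhiQ_some899 W sd hsd hσh
    rw [e₁, e₀, e₂, twc_smul_some899]
    apply twc_some_congr899
    · simp only [map_mul, map_pow, map_inv₀, hσ, map_ofNat]
    · simp only [map_add, map_mul, map_pow, map_inv₀, hσ, map_ofNat, map_div₀, map_neg,
        twc_a₁_fixed899, twc_a₃_fixed899]

/-- **Semi-equivariance, case `σ √-3 = -√-3`.** -/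
theorem twcPhiQ_smul_neg899 (σ : Qb ≃ₐ[ℚ] Qb) (hσ : σ sd = -sd)
    (P : (((twistNegThree899 W).map (Int.castRingHom ℚ))⁄Qb).Point) :
    σ • twcPhiQ899 W sd hsd P = twcPhiQ899 W sd hsd (-(σ • P)) := by
  rcases P with _ | ⟨x, y, h⟩
  · show σ • twcPhiQ899 W sd hsd 0 = twcPhiQ899 W sd hsd (-(σ • 0))
    rw [map_zero]
    exact (map_zero (twcPhiQ899 W sd hsd)).symm
  · obtain ⟨h₁, e₁⟩ := twcPhiQ_some899 W sd hsd h
    have hσh : (((twistNegThree899 W).map (Int.castRingHom ℚ))⁄Qb).Nonsingular (σ x) (σ y) :=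
      (WeierstrassCurve.Affine.baseChange_nonsingular
        ((twistNegThree899 W).map (Int.castRingHom ℚ)) σ.toAlgHom.injective x y).mpr h
    have hneg : (((twistNegThree899 W).map (Int.castRingHom ℚ))⁄Qb).Nonsingular (σ x)
        ((((twistNegThree899 W).map (Int.castRingHom ℚ))⁄Qb).negY (σ x) (σ y)) :=
      (nonsingular_neg _ _).mpr hσh
    have e₀ : -(σ • (Point.some x y h :
        (((twistNegThree899 W).map (Int.castRingHom ℚ))⁄Qb).Point)) =
        Point.some (σ x) ((((twistNegThree899 W).map (Int.castRingHom ℚ))⁄Qb).negY (σ x) (σ y))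
          hneg := rfl
    obtain ⟨h₂, e₂⟩ := twcPhiQ_some899 W sd hsd hneg
    rw [e₁, e₀, e₂, twc_smul_some899]
    apply twc_some_congr899
    · simp only [map_mul, map_pow, map_inv₀, hσ, map_ofNat]
      ring
    · simp only [map_add, map_mul, map_pow, map_inv₀, hσ, map_ofNat, map_div₀, map_neg,
        twc_a₁_fixed899, twc_a₃_fixed899, negY, twc_twist_a₁899, twc_twist_a₃899]
      field_simp
      ring

include hsd in
/-- Every automorphism maps `√-3` to `±√-3`. -/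
lemma twc_sd_cases899 (σ : Qb ≃ₐ[ℚ] Qb) : σ sd = sd ∨ σ sd = -sd := by
  have h : (σ sd) ^ 2 = sd ^ 2 := by
    rw [← map_pow, hsd, map_neg, map_ofNat]
  have h' : (σ sd - sd) * (σ sd + sd) = 0 := by linear_combination h
  rcases mul_eq_zero.mp h' with h1 | h1
  · exact Or.inl (sub_eq_zero.mp h1)
  · exact Or.inr (eq_neg_of_add_eq_zero_left h1)

/-- Semi-equivariance in one statement: `σ (Φ P) = ± Φ (σ P)`. -/
theorem twcPhiQ_smul899 (σ : Qb ≃ₐ[ℚ] Qb)
    (P : (((twistNegThree899 W).map (Int.castRingHom ℚ))⁄Qb).Point) :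
    (σ sd = sd ∧ σ • twcPhiQ899 W sd hsd P = twcPhiQ899 W sd hsd (σ • P)) ∨
      (σ sd = -sd ∧ σ • twcPhiQ899 W sd hsd P = -twcPhiQ899 W sd hsd (σ • P)) := by
  rcases twc_sd_cases899 sd hsd σ with h | h
  · exact Or.inl ⟨h, twcPhiQ_smul_pos899 W sd hsd σ h P⟩
  · refine Or.inr ⟨h, ?_⟩
    rw [twcPhiQ_smul_neg899 W sd hsd σ h P, map_neg]

/-- There is a square root of `-3` in `ℚ̄`. -/
theorem twc_exists_sd899 : ∃ sd : Qb, sd ^ 2 = -3 := by
  obtain ⟨z, hz⟩ := IsAlgClosed.exists_pow_nat_eq (-3 : Qb) (n := 2) (by norm_num)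
  exact ⟨z, hz⟩

/-! ## Torsion and irreducibility -/

/-- `Φ` preserves `n`-torsion. -/
lemma twcPhiQ_mem_torsion899 (n : ℕ)
    (P : (((twistNegThree899 W).map (Int.castRingHom ℚ))⁄Qb).Point) :
    twcPhiQ899 W sd hsd P ∈
        Submodule.torsionBy ℤ ((W.map (Int.castRingHom ℚ))⁄Qb).Point n ↔
      P ∈ Submodule.torsionBy ℤ
        (((twistNegThree899 W).map (Int.castRingHom ℚ))⁄Qb).Point n := by
  rw [Submodule.mem_torsionBy_iff, Submodule.mem_torsionBy_iff, ← map_zsmul]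
  exact (twcPhiQ899 W sd hsd).map_eq_zero_iff

/-- `Φ` on `n`-torsion, as an additive equivalence. -/
noncomputable def twcPhiTors899 (n : ℕ) :
    Submodule.torsionBy ℤ (((twistNegThree899 W).map (Int.castRingHom ℚ))⁄Qb).Point n ≃+
      Submodule.torsionBy ℤ ((W.map (Int.castRingHom ℚ))⁄Qb).Point n where
  toFun x := ⟨twcPhiQ899 W sd hsd x.1, (twcPhiQ_mem_torsion899 W sd hsd n x.1).mpr x.2⟩
  invFun y := ⟨(twcPhiQ899 W sd hsd).symm y.1, by
    rw [← twcPhiQ_mem_torsion899 W sd hsd n, AddEquiv.apply_symm_apply]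
    exact y.2⟩
  left_inv x := Subtype.ext ((twcPhiQ899 W sd hsd).symm_apply_apply x.1)
  right_inv y := Subtype.ext ((twcPhiQ899 W sd hsd).apply_symm_apply y.1)
  map_add' x y := Subtype.ext (map_add (twcPhiQ899 W sd hsd) x.1 y.1)

lemma twcPhiTors_coe899 (n : ℕ)
    (x : Submodule.torsionBy ℤ (((twistNegThree899 W).map (Int.castRingHom ℚ))⁄Qb).Point n) :
    ((twcPhiTors899 W sd hsd n x : Submodule.torsionBy ℤ
      ((W.map (Int.castRingHom ℚ))⁄Qb).Point n) : ((W.map (Int.castRingHom ℚ))⁄Qb).Point) =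
      twcPhiQ899 W sd hsd x.1 := rfl

/-- Semi-equivariance on torsion: `σ (Φ x) = ± Φ (σ x)`, the sign being `σ √-3 / √-3`. -/
theorem twcPhiTors_smul899 (n : ℕ) (σ : Qb ≃ₐ[ℚ] Qb)
    (x : Submodule.torsionBy ℤ (((twistNegThree899 W).map (Int.castRingHom ℚ))⁄Qb).Point n) :
    (σ sd = sd ∧ σ • twcPhiTors899 W sd hsd n x = twcPhiTors899 W sd hsd n (σ • x)) ∨
      (σ sd = -sd ∧ σ • twcPhiTors899 W sd hsd n x = -twcPhiTors899 W sd hsd n (σ • x)) := by
  rcases twcPhiQ_smul899 W sd hsd σ x.1 with ⟨h, e⟩ | ⟨h, e⟩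
  · exact Or.inl ⟨h, Subtype.ext e⟩
  · exact Or.inr ⟨h, Subtype.ext e⟩

/-- **Irreducibility passes to the twist.** -/
theorem twc_irreducible899 (n : ℕ) (h : W.ModRepIsIrreducible n) :
    (twistNegThree899 W).ModRepIsIrreducible n := by
  obtain ⟨sd, hsd⟩ := twc_exists_sd899
  obtain ⟨hnt, hirr⟩ := h
  let Φ := twcPhiTors899 W sd hsd n
  let L : Submodule.torsionBy ℤ (((twistNegThree899 W).map (Int.castRingHom ℚ))⁄Qb).Point n
      →ₗ[ZMod n] Submodule.torsionBy ℤ ((W.map (Int.castRingHom ℚ))⁄Qb).Point n :=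
    AddMonoidHom.toZModLinearMap n Φ.toAddMonoidHom
  have hL : ∀ x, L x = Φ x := fun _ => rfl
  refine ⟨?_, fun N' hN' => ?_⟩
  · have := hnt
    exact Φ.symm.injective.nontrivial
  · have hstable : WeierstrassCurve.Affine.Point.IsGaloisStable ℚ (Submodule.map L N') := by
      rintro σ _ ⟨x', hx', rfl⟩
      rw [hL]
      rcases twcPhiTors_smul899 W sd hsd n σ x' with ⟨-, e⟩ | ⟨-, e⟩
      · rw [e]
        exact ⟨σ • x', hN' σ x' hx', rfl⟩
      · rw [e]
        exact ⟨-(σ • x'), N'.neg_mem (hN' σ x' hx'), by rw [hL, map_neg]⟩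
    rcases hirr _ hstable with h0 | h1
    · left
      rw [eq_bot_iff]
      intro x' hx'
      have : L x' ∈ Submodule.map L N' := ⟨x', hx', rfl⟩
      rw [h0, Submodule.mem_bot, hL] at this
      rw [Submodule.mem_bot]
      exact Φ.map_eq_zero_iff.mp this
    · right
      rw [eq_top_iff]
      intro x' _
      have : L x' ∈ Submodule.map L N' := by rw [h1]; exact Submodule.mem_top
      obtain ⟨y', hy', hyx⟩ := this
      rw [hL, hL] at hyx
      rw [← Φ.injective hyx]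
      exact hy'

end Galois

end Fermat.Agent.G1.H899

end
-- ===== PACK-END G1/H899/TwistIso.lean

-- ===== PACK-BEGIN G1/H899/NewCore.lean
section



/-!
# G1.c, leaf NEWX (helper899), abstract core

`W` an integral Weierstrass curve, `W' = twistNegThree899 W` its twist by `-3`, `A` a place of `ℚ̄`
over `3`, `I = A.inertiaSubgroupIn ℚ`.

Hypothesis `(⋆)` (what (S1) + (S2) of the wall at `3` give on the NEW part of `J₀(3M')[3]`):
for `x' ∈ W'[3]`, `σ, τ ∈ I`:  `τ (σ x' - x') = χ(τ) (σ x' - x')`.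

Conclusion (`newx_core899`): if `W[3]` has no nonzero inertia-fixed point, then `I` acts on `W[3]`
through the cyclotomic character, i.e. `W[3]` is of multiplicative type at `3` (which contradicts
the landed NMT-W for irreducible `W[3]`).

The cyclotomic character is encoded as in `Ribet.H944.Wall.CycloAt`: `σ ζ = ζ ^ c` for all `ζ` with
`ζ ^ 3 = 1`.  Mathlib + Prelude + `TwistIso` only.
-/

set_option autoImplicit false

namespace Fermat.Agent.G1.H899

open WeierstrassCurve WeierstrassCurve.Affine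

local notation "Qb" => AlgebraicClosure ℚ

/-- `σ ζ = ζ ^ c` for all cube roots of unity (`Ribet.H944.Wall.CycloAt 3 σ c`, unfolded). -/
def Cyclo3At899 (σ : Qb ≃ₐ[ℚ] Qb) (c : ℕ) : Prop :=
  ∀ ζ : Qb, ζ ^ 3 = 1 → σ ζ = ζ ^ c

section Roots

variable (sd : Qb) (hsd : sd ^ 2 = -3)

include hsd in
/-- `ζ = (-1 + √-3)/2` is a cube root of unity. -/
lemma cyc_zeta_pow899 : ((-1 + sd) / 2) ^ 3 = 1 := by
  have : ((-1 + sd) / 2) ^ 3 = (-1 + 3 * sd - 3 * sd ^ 2 + sd * sd ^ 2) / 8 := by ring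
  rw [this, hsd]
  ring

include hsd in
/-- `ζ² = (-1 - √-3)/2`. -/
lemma cyc_zeta_sq899 : ((-1 + sd) / 2) ^ 2 = (-1 - sd) / 2 := by
  have : ((-1 + sd) / 2) ^ 2 = (1 - 2 * sd + sd ^ 2) / 4 := by ring
  rw [this, hsd]
  ring

include hsd in
/-- The cube roots of unity are `1, ζ, ζ²`. -/
lemma cyc_roots899 (z : Qb) (hz : z ^ 3 = 1) :
    z = 1 ∨ z = (-1 + sd) / 2 ∨ z = (-1 - sd) / 2 := by
  have h : (z - 1) * ((z - (-1 + sd) / 2) * (z - (-1 - sd) / 2)) = 0 := by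
    have e : (z - 1) * ((z - (-1 + sd) / 2) * (z - (-1 - sd) / 2)) =
        z ^ 3 - 1 - (z - 1) * (sd ^ 2 + 3) / 4 := by ring
    rw [e, hz, hsd]
    ring
  rcases mul_eq_zero.mp h with h1 | h1
  · exact Or.inl (sub_eq_zero.mp h1)
  · rcases mul_eq_zero.mp h1 with h2 | h2
    · exact Or.inr (Or.inl (sub_eq_zero.mp h2))
    · exact Or.inr (Or.inr (sub_eq_zero.mp h2))

include hsd in
lemma cyc_sd_ne_zero899 : sd ≠ 0 := by
  rintro rfl
  norm_num at hsd

include hsd in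
/-- `σ √-3 = √-3` ⇒ `χ(σ) = 1`. -/
lemma cyclo_one_of_pos899 (σ : Qb ≃ₐ[ℚ] Qb) (hσ : σ sd = sd) : Cyclo3At899 σ 1 := by
  intro z hz
  rw [pow_one]
  rcases cyc_roots899 sd hsd z hz with rfl | rfl | rfl
  · exact map_one σ
  · simp only [map_div₀, map_add, map_neg, map_one, hσ, map_ofNat]
  · simp only [map_div₀, map_sub, map_neg, map_one, hσ, map_ofNat]

include hsd in
/-- `σ √-3 = -√-3` ⇒ `χ(σ) = 2`. -/
lemma cyclo_two_of_neg899 (σ : Qb ≃ₐ[ℚ] Qb) (hσ : σ sd = -sd) : Cyclo3At899 σ 2 := by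
  intro z hz
  rcases cyc_roots899 sd hsd z hz with rfl | rfl | rfl
  · rw [map_one, one_pow]
  · rw [cyc_zeta_sq899 sd hsd]
    simp only [map_div₀, map_add, map_neg, map_one, hσ, map_ofNat]
    ring
  · have : ((-1 - sd) / 2) ^ 2 = (1 + 2 * sd + sd ^ 2) / 4 := by ring
    rw [this, hsd]
    simp only [map_div₀, map_sub, map_neg, map_one, hσ, map_ofNat]
    ring

include hsd in
/-- `χ(σ) = c` and `σ √-3 = √-3` ⇒ `c ≡ 1 mod 3`. -/
lemma cyclo_mod_of_pos899 (σ : Qb ≃ₐ[ℚ] Qb) (hσ : σ sd = sd) (c : ℕ) (hc : Cyclo3At899 σ c) :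
    c % 3 = 1 := by
  have hz := hc _ (cyc_zeta_pow899 sd hsd)
  have hfix : σ ((-1 + sd) / 2) = (-1 + sd) / 2 := by
    simp only [map_div₀, map_add, map_neg, map_one, hσ, map_ofNat]
  rw [hfix] at hz
  have h0 := cyc_sd_ne_zero899 sd hsd
  have hpow : ((-1 + sd) / 2) ^ c = ((-1 + sd) / 2) ^ (c % 3) := by
    conv_lhs => rw [← Nat.div_add_mod c 3, pow_add, pow_mul, cyc_zeta_pow899 sd hsd, one_pow,
      one_mul]
  rw [hpow] at hz
  have h3 : c % 3 < 3 := Nat.mod_lt _ (by norm_num)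
  interval_cases hcm : c % 3
  · exfalso
    rw [pow_zero] at hz
    have : sd = 3 := by linear_combination 2 * hz
    rw [this] at hsd
    norm_num at hsd
  · rfl
  · exfalso
    rw [cyc_zeta_sq899 sd hsd] at hz
    have : sd = 0 := by linear_combination hz
    exact h0 this

include hsd in
/-- `χ(σ) = c` and `σ √-3 = -√-3` ⇒ `c ≡ 2 mod 3`. -/
lemma cyclo_mod_of_neg899 (σ : Qb ≃ₐ[ℚ] Qb) (hσ : σ sd = -sd) (c : ℕ) (hc : Cyclo3At899 σ c) :
    c % 3 = 2 := by
  have hz := hc _ (cyc_zeta_pow899 sd hsd)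
  have hfix : σ ((-1 + sd) / 2) = (-1 - sd) / 2 := by
    simp only [map_div₀, map_add, map_neg, map_one, hσ, map_ofNat]
    ring
  rw [hfix] at hz
  have h0 := cyc_sd_ne_zero899 sd hsd
  have hpow : ((-1 + sd) / 2) ^ c = ((-1 + sd) / 2) ^ (c % 3) := by
    conv_lhs => rw [← Nat.div_add_mod c 3, pow_add, pow_mul, cyc_zeta_pow899 sd hsd, one_pow,
      one_mul]
  rw [hpow] at hz
  have h3 : c % 3 < 3 := Nat.mod_lt _ (by norm_num)
  interval_cases hcm : c % 3
  · exfalso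
    rw [pow_zero] at hz
    have : sd = -3 := by linear_combination -2 * hz
    rw [this] at hsd
    norm_num at hsd
  · exfalso
    rw [pow_one] at hz
    have : sd = 0 := by linear_combination -hz
    exact h0 this
  · rfl

end Roots

section Tors

variable {M : Type*} [AddCommGroup M]

lemma tors_nsmul899 (n : ℕ) (x : Submodule.torsionBy ℤ M (n : ℤ)) : n • x = 0 := by
  apply Subtype.ext
  have h := x.2
  rw [Submodule.mem_torsionBy_iff] at h
  rw [AddSubmonoidClass.coe_nsmul, ZeroMemClass.coe_zero, ← natCast_zsmul]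
  exact h

lemma tors_nsmul_mod899 (n c : ℕ) (x : Submodule.torsionBy ℤ M (n : ℤ)) :
    c • x = (c % n) • x := by
  calc c • x = (n * (c / n) + c % n) • x := by rw [Nat.div_add_mod]
    _ = (c / n) • (n • x) + (c % n) • x := by rw [add_nsmul, mul_nsmul]
    _ = (c % n) • x := by rw [tors_nsmul899, nsmul_zero, zero_add]

end Tors

section Core

variable (W : WeierstrassCurve ℤ) (A : ValuationSubring Qb)

/-- **NEWX, abstract core.**  If `(⋆)` holds on `W'[3]` and `W[3]` has no nonzero inertia-fixed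
point, then inertia acts on `W[3]` through the cyclotomic character. -/
theorem newx_core899
    (hfix : ∀ x : Submodule.torsionBy ℤ ((W.map (Int.castRingHom ℚ))⁄Qb).Point (3 : ℕ),
      (∀ σ ∈ A.inertiaSubgroupIn ℚ, σ • x = x) → x = 0)
    (hstar : ∀ x' : Submodule.torsionBy ℤ
        (((twistNegThree899 W).map (Int.castRingHom ℚ))⁄Qb).Point (3 : ℕ),
      ∀ σ ∈ A.inertiaSubgroupIn ℚ, ∀ τ ∈ A.inertiaSubgroupIn ℚ, ∀ c : ℕ, Cyclo3At899 τ c →
        τ • (σ • x' - x') = c • (σ • x' - x')) :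
    ∀ σ ∈ A.inertiaSubgroupIn ℚ, ∀ c : ℕ, Cyclo3At899 σ c →
      ∀ x : Submodule.torsionBy ℤ ((W.map (Int.castRingHom ℚ))⁄Qb).Point (3 : ℕ),
        σ • x = c • x := by
  obtain ⟨sd, hsd⟩ := twc_exists_sd899
  set Φ := twcPhiTors899 W sd hsd 3 with hΦ
  -- Step A: inertia acts trivially on `W'[3]`
  have hA : ∀ x' : Submodule.torsionBy ℤ
      (((twistNegThree899 W).map (Int.castRingHom ℚ))⁄Qb).Point (3 : ℕ),
      ∀ σ ∈ A.inertiaSubgroupIn ℚ, σ • x' = x' := by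
    intro x' σ hσ
    have hy : Φ (σ • x' - x') = 0 := by
      apply hfix
      intro τ hτ
      rcases twcPhiTors_smul899 W sd hsd 3 τ (σ • x' - x') with ⟨hs, e⟩ | ⟨hs, e⟩
      · rw [e, hstar x' σ hσ τ hτ 1 (cyclo_one_of_pos899 sd hsd τ hs), one_nsmul]
      · rw [e, hstar x' σ hσ τ hτ 2 (cyclo_two_of_neg899 sd hsd τ hs), map_nsmul]
        have h3 := tors_nsmul899 3 (Φ (σ • x' - x'))
        have h3' : 2 • Φ (σ • x' - x') + Φ (σ • x' - x') = 0 :=
          (succ_nsmul (Φ (σ • x' - x')) 2).symm.trans h3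
        exact neg_eq_of_add_eq_zero_right h3'
    have := Φ.map_eq_zero_iff.mp hy
    exact sub_eq_zero.mp this
  -- Step B
  intro σ hσ c hc x
  obtain ⟨x', rfl⟩ := Φ.surjective x
  rcases twcPhiTors_smul899 W sd hsd 3 σ x' with ⟨hs, e⟩ | ⟨hs, e⟩
  · rw [e, hA x' σ hσ, tors_nsmul_mod899 3 c, cyclo_mod_of_pos899 sd hsd σ hs c hc, one_nsmul]
  · rw [e, hA x' σ hσ, tors_nsmul_mod899 3 c, cyclo_mod_of_neg899 sd hsd σ hs c hc]
    have h3 := tors_nsmul899 3 (Φ x')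
    have h3' : 2 • Φ x' + Φ x' = 0 := (succ_nsmul (Φ x') 2).symm.trans h3
    exact (eq_neg_of_add_eq_zero_left h3').symm

end Core

end Fermat.Agent.G1.H899

end
-- ===== PACK-END G1/H899/NewCore.lean

-- ===== PACK-BEGIN G2/H304/FreyLoc.lean
section




/-!
# Row GLUE, phase 2, block F, leaf F0 (FREY-LOC): the local type at `3` of the integral Frey curve

`W = P.freyCurveInt : Y² + XY = X³ + ((B - 1 - A)/4) X² - (AB/16) X`, `A = a ^ p`, `B = b ^ p`.

* `b₂_eq`                 : `W.b₂ = B - A`;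
* `padicValInt_three_Δ`   : `v₃(W.Δ) = 2 · p · v₃(a b c)`;
* `three_dvd_Δ_iff`       : `3 ∣ W.Δ ↔ 3 ∣ a b c`;
* F1 `three_dvd_b₂_of_not_dvd_abc`, `not_three_dvd_Δ_of_not_dvd_abc`
     (`3 ∤ abc`: `3 ∣ b₂`, `3 ∤ Δ`: good supersingular reduction at `3`);
* F2/F3 `three_dvd_Δ_of_dvd_abc`, `not_three_dvd_c₄_of_dvd_abc`
     (`3 ∣ abc`: `3 ∣ Δ`, `3 ∤ c₄`: multiplicative reduction at `3`);
* `three_dvd_padicValInt_Δ_iff` : `3 ∣ v₃(W.Δ) ↔ 3 ∣ v₃(abc)`   (the split F2 / F3);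
* `freyLoc`               : the three cases F1 / F2 / F3 in one statement.

Mathlib + Prelude + `Glue/FreyInt.lean` (row trunk) only.  OFF-MAIN (helper304).
-/

set_option autoImplicit false

namespace Fermat.Agent.G2.H304

open WeierstrassCurve Fermat.Agent.Glue.FreyInt

variable (P : FreyPackage)

/-- `b₂ = B - A`. -/
theorem b₂_eq : P.freyCurveInt.b₂ = P.b ^ P.p - P.a ^ P.p := by
  have h2 := four_mul_a₂ P
  simp only [WeierstrassCurve.b₂, a₁_eq]
  linear_combination h2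

/-- `3 ∣ Δ ↔ 3 ∣ abc`. -/
theorem three_dvd_Δ_iff : (3 : ℤ) ∣ P.freyCurveInt.Δ ↔ (3 : ℤ) ∣ P.a * P.b * P.c := by
  have h3 : Prime (3 : ℤ) := Int.prime_three
  constructor
  · intro h
    exact dvd_abc_of_dvd_Δ P h3 h
  · intro h
    have hpow : (3 : ℤ) ∣ (P.a * P.b * P.c) ^ (2 * P.p) :=
      dvd_pow h (by have := P.hp0; omega)
    rw [← two_pow_mul_Δ] at hpow
    rcases h3.dvd_or_dvd hpow with h2 | hΔ
    · exfalso
      have : (3 : ℤ) ∣ 2 := h3.dvd_of_dvd_pow h2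
      omega
    · exact hΔ

/-- **F2/F3**: if `3 ∣ abc` then `3 ∣ Δ`. -/
theorem three_dvd_Δ_of_dvd_abc (h : (3 : ℤ) ∣ P.a * P.b * P.c) : (3 : ℤ) ∣ P.freyCurveInt.Δ :=
  (three_dvd_Δ_iff P).2 h

/-- **F1**: if `3 ∤ abc` then `3 ∤ Δ`. -/
theorem not_three_dvd_Δ_of_not_dvd_abc (h : ¬ (3 : ℤ) ∣ P.a * P.b * P.c) :
    ¬ (3 : ℤ) ∣ P.freyCurveInt.Δ :=
  fun hΔ => h ((three_dvd_Δ_iff P).1 hΔ)

/-- **F2/F3**: if `3 ∣ abc` then `3 ∤ c₄` (multiplicative reduction at `3`). -/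
theorem not_three_dvd_c₄_of_dvd_abc (h : (3 : ℤ) ∣ P.a * P.b * P.c) :
    ¬ (3 : ℤ) ∣ P.freyCurveInt.c₄ :=
  fun hc₄ => not_dvd_abc_of_dvd_c₄ P Int.prime_three hc₄ h

/-- An odd power is congruent to its base modulo `3`. -/
theorem pow_odd_mod_three (x : ℤ) {n : ℕ} (hn : Odd n) : (3 : ℤ) ∣ x ^ n - x := by
  obtain ⟨m, rfl⟩ := hn
  have h1 : (3 : ℤ) ∣ x ^ 3 - x := by
    have : x ^ 3 - x = (x - 1) * x * (x + 1) := by ring
    rw [this]
    have h := Int.emod_emod_of_dvd x (by norm_num : (3 : ℤ) ∣ 3)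
    have hx : x % 3 = 0 ∨ x % 3 = 1 ∨ x % 3 = 2 := by omega
    rcases hx with h0 | h1 | h2
    · exact Dvd.dvd.mul_right (Dvd.dvd.mul_left (Int.dvd_of_emod_eq_zero h0) _) _
    · exact Dvd.dvd.mul_right (Dvd.dvd.mul_right (Int.dvd_of_emod_eq_zero (by omega)) _) _
    · exact Dvd.dvd.mul_left (Int.dvd_of_emod_eq_zero (by omega)) _
  induction m with
  | zero => simp
  | succ k ih =>
    have : x ^ (2 * (k + 1) + 1) - x = x ^ (2 * k) * (x ^ 3 - x) + (x ^ (2 * k + 1) - x) := by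
      ring
    rw [this]
    exact dvd_add (Dvd.dvd.mul_left h1 _) ih

/-- **F1**: if `3 ∤ abc` then `3 ∣ b₂` (so the reduction at `3` is good supersingular:
`a ≡ b mod 3`, `b₂ = B - A`). -/
theorem three_dvd_b₂_of_not_dvd_abc (h : ¬ (3 : ℤ) ∣ P.a * P.b * P.c) :
    (3 : ℤ) ∣ P.freyCurveInt.b₂ := by
  rw [b₂_eq]
  have h3 : Prime (3 : ℤ) := Int.prime_three
  have ha : ¬ (3 : ℤ) ∣ P.a := fun ha => h (Dvd.dvd.mul_right (Dvd.dvd.mul_right ha _) _)
  have hb : ¬ (3 : ℤ) ∣ P.b := fun hb => h (Dvd.dvd.mul_right (Dvd.dvd.mul_left hb _) _)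
  have hc : ¬ (3 : ℤ) ∣ P.c := fun hc => h (Dvd.dvd.mul_left hc _)
  have hA := pow_odd_mod_three P.a P.hp_odd
  have hB := pow_odd_mod_three P.b P.hp_odd
  have hC := pow_odd_mod_three P.c P.hp_odd
  have hFLT := P.hFLT
  -- `a + b ≡ c mod 3`
  have hsum : (3 : ℤ) ∣ P.a + P.b - P.c := by
    have : P.a + P.b - P.c = (P.c ^ P.p - P.c) - (P.a ^ P.p - P.a) - (P.b ^ P.p - P.b) := by
      rw [← hFLT]; ring
    rw [this]
    exact dvd_sub (dvd_sub hC hA) hB
  -- hence `a ≡ b mod 3`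
  have ha' : P.a % 3 = 1 ∨ P.a % 3 = 2 := by omega
  have hb' : P.b % 3 = 1 ∨ P.b % 3 = 2 := by omega
  have hc' : P.c % 3 = 1 ∨ P.c % 3 = 2 := by omega
  have hab : (3 : ℤ) ∣ P.b - P.a := by
    rcases ha' with ha' | ha' <;> rcases hb' with hb' | hb' <;> rcases hc' with hc' | hc' <;>
      omega
  have : P.b ^ P.p - P.a ^ P.p = (P.b ^ P.p - P.b) - (P.a ^ P.p - P.a) + (P.b - P.a) := by ring
  rw [this]
  exact dvd_add (dvd_sub hB hA) hab

/-- `v₃(Δ) = 2 p · v₃(abc)`. -/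
theorem padicValInt_three_Δ :
    padicValInt 3 P.freyCurveInt.Δ = 2 * P.p * padicValInt 3 (P.a * P.b * P.c) := by
  have : Fact (Nat.Prime 3) := ⟨Nat.prime_three⟩
  have hΔ := Δ_ne_zero P
  have habc := abc_ne_zero P
  have h := congrArg (padicValInt 3) (two_pow_mul_Δ P)
  rw [padicValInt.mul (by norm_num) hΔ] at h
  have h256 : padicValInt 3 ((2 : ℤ) ^ 8) = 0 := by
    apply padicValInt.eq_zero_of_not_dvd
    norm_num
  rw [h256, zero_add] at h
  rw [h]
  unfold padicValInt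
  rw [Int.natAbs_pow, padicValNat.pow]

/-- `3 ∣ v₃(Δ) ↔ 3 ∣ v₃(abc)` (`p ≥ 5` is a prime). -/
theorem three_dvd_padicValInt_Δ_iff :
    3 ∣ padicValInt 3 P.freyCurveInt.Δ ↔ 3 ∣ padicValInt 3 (P.a * P.b * P.c) := by
  rw [padicValInt_three_Δ]
  have hp3 : Nat.Coprime 3 (2 * P.p) := by
    have h32 : Nat.Coprime 3 2 := by norm_num
    have h3p : Nat.Coprime 3 P.p := by
      rw [Nat.coprime_primes Nat.prime_three P.pp]
      have := P.hp5
      omega
    exact Nat.Coprime.mul_right h32 h3p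
  constructor
  · intro h
    exact hp3.dvd_of_dvd_mul_left h
  · intro h
    exact Dvd.dvd.mul_left h _

/-- **Leaf F0 (FREY-LOC)**: the local type at `3` of the integral Frey curve.
* F1: `3 ∤ abc`, `3 ∣ b₂`, `3 ∤ Δ` (good supersingular);
* F2: `3 ∣ abc`, `3 ∣ Δ`, `3 ∤ c₄`, `3 ∤ v₃(Δ)` (multiplicative, `E[3]` ramified at `3`);
* F3: `3 ∣ abc`, `3 ∣ Δ`, `3 ∤ c₄`, `3 ∣ v₃(Δ)`, `30 ≤ v₃(Δ)`. -/
theorem freyLoc :
    ((3 : ℤ) ∣ P.freyCurveInt.b₂ ∧ ¬ (3 : ℤ) ∣ P.freyCurveInt.Δ) ∨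
    ((3 : ℤ) ∣ P.freyCurveInt.Δ ∧ ¬ (3 : ℤ) ∣ P.freyCurveInt.c₄ ∧
      ¬ 3 ∣ padicValInt 3 P.freyCurveInt.Δ) ∨
    ((3 : ℤ) ∣ P.freyCurveInt.Δ ∧ ¬ (3 : ℤ) ∣ P.freyCurveInt.c₄ ∧
      3 ∣ padicValInt 3 P.freyCurveInt.Δ ∧ 30 ≤ padicValInt 3 P.freyCurveInt.Δ) := by
  by_cases h : (3 : ℤ) ∣ P.a * P.b * P.c
  · right
    by_cases hv : 3 ∣ padicValInt 3 P.freyCurveInt.Δ
    · right
      refine ⟨three_dvd_Δ_of_dvd_abc P h, not_three_dvd_c₄_of_dvd_abc P h, hv, ?_⟩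
      have : Fact (Nat.Prime 3) := ⟨Nat.prime_three⟩
      have hv' := (three_dvd_padicValInt_Δ_iff P).1 hv
      have hpos : 0 < padicValInt 3 (P.a * P.b * P.c) := by
        unfold padicValInt
        have hne : (P.a * P.b * P.c).natAbs ≠ 0 := Int.natAbs_ne_zero.mpr (abc_ne_zero P)
        have hd : 3 ∣ (P.a * P.b * P.c).natAbs := Int.natCast_dvd.mp (by exact_mod_cast h)
        exact Nat.pos_of_ne_zero
          (fun h0 => by
            rcases padicValNat.eq_zero_iff.mp h0 with h1 | h1 | h1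
            · omega
            · exact hne h1
            · exact h1 hd)
      have h3le : 3 ≤ padicValInt 3 (P.a * P.b * P.c) := Nat.le_of_dvd hpos hv'
      rw [padicValInt_three_Δ]
      have := P.hp5
      nlinarith
    · left
      exact ⟨three_dvd_Δ_of_dvd_abc P h, not_three_dvd_c₄_of_dvd_abc P h, hv⟩
  · left
    exact ⟨three_dvd_b₂_of_not_dvd_abc P h, not_three_dvd_Δ_of_not_dvd_abc P h⟩

end Fermat.Agent.G2.H304

end
-- ===== PACK-END G2/H304/FreyLoc.lean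

-- ===== PACK-BEGIN G2/H6/Frey5.lean
section
/-
GLUE phase 2, block F, leaf F5 (helper6): the `5`-torsion of every Frey curve is irreducible.

`frey5 : ∀ P : FreyPackage, P.freyCurveInt.ModRepIsIrreducible 5`
(this is `Fermat.Agent.Glue.Frey5Statement` of `Glue/FSpec.lean`, unfolded).

Proof: if `E[5]` is reducible, `five_side_h` (S51, plain file of main) gives a rational `h ≠ 0`
with `c₄³ h = Δ (h² + 10 h + 5)³`; for the integral Frey model `c₄ = A² + A B + B²` and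
`2⁸ Δ = (A B (A + B))²` (`A = a ^ p`, `B = b ^ p`; Ribet/H104, plain file of main); this
contradicts `x20_core` (`X₀(20)(ℚ)` = cusps, `G2/H6/X20.lean`).
-/




set_option autoImplicit false

namespace Fermat.Agent.G2.H6

/-- **F5**: the `5`-torsion of a Frey curve is irreducible. -/
theorem frey5 : ∀ P : FreyPackage, P.freyCurveInt.ModRepIsIrreducible 5 := by
  intro P
  by_contra h5
  obtain ⟨h, hh, heq⟩ :=
    Fermat.Agent.S51.Five.five_side_h P.freyCurveInt (Fermat.Agent.Ribet.H104.Δ_ne_zero P) h5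
  have hc4 := Fermat.Agent.Ribet.H104.c₄_eq P
  have hΔ := Fermat.Agent.Ribet.H104.two_pow_mul_Δ P
  have hFLT := P.hFLT
  obtain ⟨A, hA⟩ : ∃ A : ℚ, A = (P.a : ℚ) ^ P.p := ⟨_, rfl⟩
  obtain ⟨B, hB⟩ : ∃ B : ℚ, B = (P.b : ℚ) ^ P.p := ⟨_, rfl⟩
  have hA0 : A ≠ 0 := by
    rw [hA]
    exact pow_ne_zero _ (by exact_mod_cast P.ha0)
  have hB0 : B ≠ 0 := by
    rw [hB]
    exact pow_ne_zero _ (by exact_mod_cast P.hb0)
  have hC : A + B = (P.c : ℚ) ^ P.p := by
    rw [hA, hB]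
    exact_mod_cast hFLT
  have hC0 : A + B ≠ 0 := by
    rw [hC]
    exact pow_ne_zero _ (by exact_mod_cast P.hc0)
  have hc4Q : (P.freyCurveInt.c₄ : ℚ) = A ^ 2 + A * B + B ^ 2 := by
    rw [hc4, hA, hB]
    push_cast
    ring
  have hΔQ : 2 ^ 8 * (P.freyCurveInt.Δ : ℚ) = A ^ 2 * B ^ 2 * (A + B) ^ 2 := by
    have h1 : ((2 ^ 8 * P.freyCurveInt.Δ : ℤ) : ℚ) = (((P.a * P.b * P.c) ^ (2 * P.p) : ℤ) : ℚ) := by
      rw [hΔ]
    push_cast at h1
    have h2 : (2 : ℚ) ^ 8 = 256 := by norm_num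
    rw [h2, h1, hC, hA, hB]
    ring
  refine x20_core A B h hh (mul_ne_zero (mul_ne_zero hA0 hB0) hC0) ?_
  rw [← hc4Q, ← hΔQ]
  linear_combination 2 ^ 8 * heq

end Fermat.Agent.G2.H6

end
-- ===== PACK-END G2/H6/Frey5.lean

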