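import Mathlib
import Fermat.Prelude.Def_AlgebraicCurve_DivisorPushPull
import Fermat.Prelude.Def_AlgebraicCurve_DivisorClassGroup
import Fermat.Prelude.Def_FLTPrelim_FreyPackage
import Fermat.Prelude.Def_FLTPrelim_GaloisRep
import Fermat.Prelude.Def_FLTPrelim_Ramification
import Fermat.Prelude.Def_FLTPrelim_CofixedLine
import Fermat.Statements.S49
import Fermat.Agent.Pack.S59C.E0L3
import Fermat.Agent.Pack.S44C.G0E10L2
import Fermat.Agent.Pack.S44C.G0E6L1
import Fermat.Agent.Pack.L1.E0L0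
import Fermat.Agent.Pack.L1.E0L3
import Fermat.Agent.Pack.S44C.G0E7L1
import Fermat.Agent.Pack.L1.E2L1
import Fermat.Agent.Pack.L1.E2L0
import Fermat.Agent.Pack.L1.E0L1
import Fermat.Agent.Pack.S44C.G0E6L2
import Fermat.Agent.Pack.L1.E1L1
import Fermat.Agent.Pack.L1.E1L0
import Fermat.Agent.Pack.S44C.G0E3L2
import Fermat.Agent.Pack.S44C.G0E12L2
import Fermat.Agent.Pack.L1.E2L2
import Fermat.Agent.Pack.S43MC.G0E3L2
import Fermat.Agent.Pack.L1.E2L3

-- ===== PACK-BEGIN S52/H170/RedAt.lean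
section
/-
S52 / piece (B1d), part P3 (helper170): reduction of a Weierstrass curve over `K[t]` at the
place `t = a` of `K(t)`, obtained from the frozen interface `Lib.Red.GoodReduction`.
-/







set_option autoImplicit false

namespace Fermat.Agent.S52.H170

open Polynomial WeierstrassCurve WeierstrassCurve.Affine

universe u

variable {K : Type u} [Field K]

/-- polynomials are regular everywhere. -/
noncomputable def polyToPlace (a : K) : K[X] →+* placeAt a :=
  (algebraMap K[X] (RatFunc K)).codRestrict (placeAt a) (fun p => regAt_algebraMap a p)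

@[simp] lemma polyToPlace_coe (a : K) (p : K[X]) :
    ((polyToPlace a p : placeAt a) : RatFunc K) = algebraMap K[X] (RatFunc K) p := rfl

lemma algebraMap_comp_polyToPlace (a : K) :
    (algebraMap (placeAt a) (RatFunc K)).comp (polyToPlace a) = algebraMap K[X] (RatFunc K) := by
  ext p <;> rfl

lemma evalAt_comp_polyToPlace (a : K) :
    (evalAt a).comp (polyToPlace a) = Polynomial.evalRingHom a := by
  apply RingHom.ext
  intro p
  simp [evalAt_apply]

/-- the residue field of the place `t = a` is `K`. -/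
noncomputable def resToK (a : K) : IsLocalRing.ResidueField (placeAt a) →+* K :=
  IsLocalRing.ResidueField.lift (evalAt a)

lemma resToK_residue (a : K) (f : placeAt a) :
    resToK a (IsLocalRing.residue (placeAt a) f) = valAt a f.1 := by
  unfold resToK
  rw [IsLocalRing.ResidueField.lift_residue_apply]
  rfl

lemma resToK_comp (a : K) :
    ((resToK a).comp (algebraMap (placeAt a) (IsLocalRing.ResidueField (placeAt a)))).comp
      (polyToPlace a) = Polynomial.evalRingHom a := by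
  apply RingHom.ext
  intro p
  show resToK a (IsLocalRing.residue (placeAt a) (polyToPlace a p)) = _
  rw [resToK_residue]
  simp

/-- the family curve over `K(t)`. -/
noncomputable abbrev famL (𝕎 : WeierstrassCurve K[X]) : Affine (RatFunc K) :=
  (𝕎.map (algebraMap K[X] (RatFunc K))).toAffine

/-- the fibre of the family at `t = a`. -/
noncomputable abbrev fibre (𝕎 : WeierstrassCurve K[X]) (a : K) : Affine K :=
  (𝕎.map (Polynomial.evalRingHom a)).toAffine

/-- properties characterising the reduction map at `t = a`. -/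
structure IsRedAt [DecidableEq K] [DecidableEq (RatFunc K)] (𝕎 : WeierstrassCurve K[X]) (a : K)
    (red : (famL 𝕎).Point →+ (fibre 𝕎 a).Point) : Prop where
  some_reg : ∀ (x y : RatFunc K) (h : (famL 𝕎).Nonsingular x y), RegAt a x → RegAt a y →
    ∃ h' : (fibre 𝕎 a).Nonsingular (valAt a x) (valAt a y),
      red (Point.some x y h) = Point.some (valAt a x) (valAt a y) h'
  some_not_reg : ∀ (x y : RatFunc K) (h : (famL 𝕎).Nonsingular x y), ¬ RegAt a x →
    red (Point.some x y h) = 0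

theorem exists_isRedAt [DecidableEq K] [DecidableEq (RatFunc K)]
    (GR : Fermat.Agent.Lib.Red.GoodReduction.{u})
    (𝕎 : WeierstrassCurve K[X]) (a : K) (hΔ : 𝕎.Δ.eval a ≠ 0) :
    ∃ red : (famL 𝕎).Point →+ (fibre 𝕎 a).Point, IsRedAt 𝕎 a red := by
  classical
  set W₀ : WeierstrassCurve (placeAt a) := 𝕎.map (polyToPlace a) with hW₀
  have hunit : IsUnit W₀.Δ := by
    rw [hW₀, WeierstrassCurve.map_Δ]
    apply isUnit_of_map_unit (evalAt a)
    rw [isUnit_iff_ne_zero]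
    simpa [evalAt_apply] using hΔ
  obtain ⟨red, hred1, hred2⟩ := GR (RatFunc K) (placeAt a) W₀ hunit
  have h₁ : famL 𝕎 = (W₀⁄(RatFunc K)) := by
    show 𝕎.map _ = (𝕎.map _).map _
    rw [WeierstrassCurve.map_map, algebraMap_comp_polyToPlace]
  have h₂ : (W₀⁄(IsLocalRing.ResidueField (placeAt a))).map (resToK a) = fibre 𝕎 a := by
    show ((𝕎.map _).map _).map _ = 𝕎.map _
    rw [WeierstrassCurve.map_map, WeierstrassCurve.map_map, resToK_comp]
  refine ⟨(ptMapTo (resToK a) h₂).comp (red.comp (ptCongr h₁).toAddMonoidHom), ?_, ?_⟩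
  · intro x y h hx hy
    have e1 : (ptCongr h₁) (Point.some x y h) = Point.some x y (h₁ ▸ h) := ptCongr_some h₁ h
    obtain ⟨h', e2⟩ := hred1 x y (h₁ ▸ h) hx hy
    obtain ⟨h'', e3⟩ := ptMapTo_some (resToK a) h₂ h'
    have hvx : resToK a (IsLocalRing.residue (placeAt a) ⟨x, hx⟩) = valAt a x :=
      resToK_residue a ⟨x, hx⟩
    have hvy : resToK a (IsLocalRing.residue (placeAt a) ⟨y, hy⟩) = valAt a y :=
      resToK_residue a ⟨y, hy⟩
    have h''' : (fibre 𝕎 a).Nonsingular (valAt a x) (valAt a y) := by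
      rw [← hvx, ← hvy]; exact h''
    refine ⟨h''', ?_⟩
    simp only [AddMonoidHom.comp_apply, AddEquiv.toAddMonoidHom_eq_coe, AddMonoidHom.coe_coe]
    rw [e1, e2, e3]
    simp only [Point.some.injEq]
    exact ⟨hvx, hvy⟩
  · intro x y h hx
    have e1 : (ptCongr h₁) (Point.some x y h) = Point.some x y (h₁ ▸ h) := ptCongr_some h₁ h
    have e2 := hred2 x y (h₁ ▸ h) hx
    simp only [AddMonoidHom.comp_apply, AddEquiv.toAddMonoidHom_eq_coe, AddMonoidHom.coe_coe]
    rw [e1, e2, map_zero]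

end Fermat.Agent.S52.H170

end
-- ===== PACK-END S52/H170/RedAt.lean

-- ===== PACK-BEGIN S37/H100/EvPlace.lean
section




/-!
# S37 / E2 (helper100): evaluation at a place of degree one

For a place `v` of `F/K` of degree one, `evPlace v hv : O_v →+* K` is the residue map
("value of a function at the point `v`").
-/

set_option autoImplicit false

open AlgebraicCurve

namespace Fermat.Agent.S37.H100

variable {K F : Type*} [Field K] [Field F] [Algebra K F]

theorem bijective_algebraMap_residueField (v : Place K F) (hv : v.deg = 1) :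
    Function.Bijective (algebraMap K v.ResidueField) := by
  refine ⟨(algebraMap K v.ResidueField).injective, fun y => ?_⟩
  have h1 : (1 : v.ResidueField) ≠ 0 := one_ne_zero
  have hspan := (finrank_eq_one_iff_of_nonzero' (1 : v.ResidueField) h1).mp hv
  obtain ⟨c, hc⟩ := hspan y
  exact ⟨c, by rw [← hc, Algebra.smul_def, mul_one]⟩

/-- The value at a place of degree one. -/
noncomputable def evPlace (v : Place K F) (hv : v.deg = 1) : v.toValuationSubring →+* K :=
  ((RingEquiv.ofBijective (algebraMap K v.ResidueField)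
    (bijective_algebraMap_residueField v hv)).symm : v.ResidueField →+* K).comp
    (IsLocalRing.residue v.toValuationSubring)

theorem algebraMap_evPlace (v : Place K F) (hv : v.deg = 1) (x : v.toValuationSubring) :
    algebraMap K v.ResidueField (evPlace v hv x) = IsLocalRing.residue v.toValuationSubring x := by
  unfold evPlace
  exact (RingEquiv.ofBijective (algebraMap K v.ResidueField)
    (bijective_algebraMap_residueField v hv)).apply_symm_apply _

@[simp]
theorem evPlace_algebraMap (v : Place K F) (hv : v.deg = 1) (c : K) :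
    evPlace v hv (algebraMap K v.toValuationSubring c) = c := by
  apply (algebraMap K v.ResidueField).injective
  rw [algebraMap_evPlace, IsScalarTower.algebraMap_apply K v.toValuationSubring v.ResidueField]
  rfl

theorem evPlace_eq_zero_iff (v : Place K F) (hv : v.deg = 1) (x : v.toValuationSubring) :
    evPlace v hv x = 0 ↔ x ∈ IsLocalRing.maximalIdeal v.toValuationSubring := by
  rw [← IsLocalRing.residue_eq_zero_iff, ← algebraMap_evPlace v hv x]
  constructor
  · intro h; rw [h, map_zero]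
  · intro h
    exact (algebraMap K v.ResidueField).injective (by rw [h, map_zero])

theorem evPlace_eq_zero_iff_ord (v : Place K F) (hv : v.deg = 1) (x : v.toValuationSubring) :
    evPlace v hv x = 0 ↔ ((x : F) = 0 ∨ 0 < v.ord (x : F)) := by
  rw [evPlace_eq_zero_iff, Fermat.Agent.Lib.RR.mem_maximalIdeal_iff]

theorem sub_algebraMap_evPlace_mem (v : Place K F) (hv : v.deg = 1) (x : v.toValuationSubring) :
    x - algebraMap K v.toValuationSubring (evPlace v hv x)
      ∈ IsLocalRing.maximalIdeal v.toValuationSubring := by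
  rw [← evPlace_eq_zero_iff v hv, map_sub, evPlace_algebraMap, sub_self]

/-- `evPlace` is characterised by congruence modulo the maximal ideal. -/
theorem evPlace_eq_of_sub_mem (v : Place K F) (hv : v.deg = 1) (x : v.toValuationSubring)
    (c : K) (h : ((x : F) - algebraMap K F c = 0 ∨ 0 < v.ord ((x : F) - algebraMap K F c))) :
    evPlace v hv x = c := by
  have h1 : evPlace v hv (x - algebraMap K v.toValuationSubring c) = 0 := by
    rw [evPlace_eq_zero_iff_ord]
    exact h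
  rw [map_sub, evPlace_algebraMap, sub_eq_zero] at h1
  exact h1

end Fermat.Agent.S37.H100

end
-- ===== PACK-END S37/H100/EvPlace.lean

-- ===== PACK-BEGIN S17/H890/Val.lean
section




/-!
# S17 / H / CHOW (helper890): values of functions at places

`IsVal v f b` : the function `f` is regular at the place `v` with value `b ∈ K`
(`f - b = 0` or `ord_v (f - b) > 0`; this is the shape used by `S37.H100.fibre_charpoly`).
`pval v f` : the value (junk value `0` if `f` has no value at `v`).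
-/

set_option autoImplicit false

noncomputable section

namespace Fermat.Agent.S17.H890

open AlgebraicCurve Fermat.Agent.Lib.RR

variable {K F : Type*} [Field K] [Field F] [Algebra K F]

/-- `f` is regular at `v` with value `b`. -/
def IsVal (v : Place K F) (f : F) (b : K) : Prop :=
  f - algebraMap K F b = 0 ∨ 0 < v.ord (f - algebraMap K F b)

theorem isVal_const (v : Place K F) (b : K) : IsVal v (algebraMap K F b) b :=
  Or.inl (sub_self _)

theorem isVal_zero (v : Place K F) : IsVal v (0 : F) 0 := by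
  simpa using isVal_const v (0 : K)

theorem isVal_one (v : Place K F) : IsVal v (1 : F) 1 := by
  simpa using isVal_const v (1 : K)

theorem isVal_zero_iff (v : Place K F) (f : F) : IsVal v f 0 ↔ f = 0 ∨ 0 < v.ord f := by
  unfold IsVal
  rw [map_zero, sub_zero]

theorem isVal_of_ord_pos (v : Place K F) {f : F} (h : 0 < v.ord f) : IsVal v f 0 :=
  (isVal_zero_iff v f).mpr (Or.inr h)

/-- a function with a value is regular -/
theorem IsVal.ord_nonneg {v : Place K F} {f : F} {b : K} (h : IsVal v f b) :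
    f = 0 ∨ 0 ≤ v.ord f := by
  have h1 : f - algebraMap K F b = 0 ∨ (0 : ℤ) ≤ v.ord (f - algebraMap K F b) := by
    rcases h with h | h
    · exact Or.inl h
    · exact Or.inr h.le
  have h2 : algebraMap K F b = 0 ∨ (0 : ℤ) ≤ v.ord (algebraMap K F b) :=
    Or.inr (ord_algebraMap v b).ge
  have h3 := ord_add_of_le v h1 h2
  rwa [sub_add_cancel] at h3

theorem IsVal.mem {v : Place K F} {f : F} {b : K} (h : IsVal v f b) :
    f ∈ v.toValuationSubring := by
  rcases h.ord_nonneg with h0 | h0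
  · rw [h0]; exact zero_mem _
  · exact mem_of_ord_nonneg v h0

theorem IsVal.add {v : Place K F} {f g : F} {b c : K} (hf : IsVal v f b) (hg : IsVal v g c) :
    IsVal v (f + g) (b + c) := by
  unfold IsVal at *
  have h1 : f - algebraMap K F b = 0 ∨ (1 : ℤ) ≤ v.ord (f - algebraMap K F b) := by
    rcases hf with h | h
    · exact Or.inl h
    · exact Or.inr h
  have h2 : g - algebraMap K F c = 0 ∨ (1 : ℤ) ≤ v.ord (g - algebraMap K F c) := by
    rcases hg with h | h
    · exact Or.inl h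
    · exact Or.inr h
  have h3 := ord_add_of_le v h1 h2
  have e : f + g - algebraMap K F (b + c) = (f - algebraMap K F b) + (g - algebraMap K F c) := by
    rw [map_add]; ring
  rw [e]
  rcases h3 with h | h
  · exact Or.inl h
  · exact Or.inr h

theorem IsVal.neg {v : Place K F} {f : F} {b : K} (hf : IsVal v f b) : IsVal v (-f) (-b) := by
  unfold IsVal at *
  have e : -f - algebraMap K F (-b) = -(f - algebraMap K F b) := by
    rw [map_neg]; ring
  rw [e, ord_neg, neg_eq_zero]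
  exact hf

theorem IsVal.sub {v : Place K F} {f g : F} {b c : K} (hf : IsVal v f b) (hg : IsVal v g c) :
    IsVal v (f - g) (b - c) := by
  have := hf.add hg.neg
  rwa [← sub_eq_add_neg, ← sub_eq_add_neg] at this

/-- product of a regular function with a function vanishing at `v` -/
theorem isVal_zero_mul (v : Place K F) {f g : F} (hf : IsVal v f 0) (hg : g = 0 ∨ 0 ≤ v.ord g) :
    IsVal v (f * g) 0 := by
  rw [isVal_zero_iff] at hf ⊢
  rcases eq_or_ne f 0 with rfl | hf0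
  · left; simp
  rcases eq_or_ne g 0 with rfl | hg0
  · left; simp
  right
  rw [v.ord_mul hf0 hg0]
  have h1 := hf.resolve_left hf0
  have h2 := hg.resolve_left hg0
  omega

theorem IsVal.mul {v : Place K F} {f g : F} {b c : K} (hf : IsVal v f b) (hg : IsVal v g c) :
    IsVal v (f * g) (b * c) := by
  have e : f * g = (f - algebraMap K F b) * g + algebraMap K F b * (g - algebraMap K F c)
      + algebraMap K F (b * c) := by
    rw [map_mul]; ring
  have h1 : IsVal v ((f - algebraMap K F b) * g) 0 :=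
    isVal_zero_mul v ((isVal_zero_iff v _).mpr hf) hg.ord_nonneg
  have h2 : IsVal v (algebraMap K F b * (g - algebraMap K F c)) 0 := by
    rw [mul_comm]
    exact isVal_zero_mul v ((isVal_zero_iff v _).mpr hg) (Or.inr (ord_algebraMap v b).ge)
  have h3 := (h1.add h2).add (isVal_const v (b * c))
  rw [← e] at h3
  simpa using h3

theorem IsVal.unique {v : Place K F} {f : F} {b c : K} (hb : IsVal v f b) (hc : IsVal v f c) :
    b = c := by
  by_contra hne
  have h := hb.sub hc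
  rw [sub_self] at h
  unfold IsVal at h
  rw [zero_sub, ord_neg, neg_eq_zero] at h
  have hcb : b - c ≠ 0 := sub_ne_zero.mpr hne
  rcases h with h0 | h0
  · exact hcb ((map_eq_zero _).mp h0)
  · rw [ord_algebraMap] at h0
    exact lt_irrefl _ h0

/-- a function with nonzero value is a unit at `v` -/
theorem IsVal.ne_zero {v : Place K F} {f : F} {b : K} (h : IsVal v f b) (hb : b ≠ 0) :
    f ≠ 0 := by
  rintro rfl
  exact hb (h.unique (isVal_zero v))

theorem IsVal.ord_eq_zero {v : Place K F} {f : F} {b : K} (h : IsVal v f b) (hb : b ≠ 0) :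
    v.ord f = 0 := by
  have hf0 := h.ne_zero hb
  have h1 := h.ord_nonneg.resolve_left hf0
  by_contra hne
  have hpos : 0 < v.ord f := lt_of_le_of_ne h1 (Ne.symm hne)
  exact hb (h.unique (isVal_of_ord_pos v hpos))

theorem IsVal.inv {v : Place K F} {f : F} {b : K} (h : IsVal v f b) (hb : b ≠ 0) :
    IsVal v f⁻¹ b⁻¹ := by
  have hf0 := h.ne_zero hb
  have hord := h.ord_eq_zero hb
  have hbF : algebraMap K F b ≠ 0 := (map_ne_zero _).mpr hb
  have e : f⁻¹ - algebraMap K F b⁻¹ = -(f - algebraMap K F b) * (f⁻¹ * algebraMap K F b⁻¹) := by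
    rw [map_inv₀]
    field_simp
    ring
  unfold IsVal
  rw [e]
  have h0 : IsVal v (-(f - algebraMap K F b)) 0 := by
    have := ((isVal_zero_iff v _).mpr h).neg
    simpa using this
  have hreg : f⁻¹ * algebraMap K F b⁻¹ = 0 ∨ 0 ≤ v.ord (f⁻¹ * algebraMap K F b⁻¹) := by
    right
    rw [v.ord_mul (inv_ne_zero hf0) ((map_ne_zero _).mpr (inv_ne_zero hb)), v.ord_inv, hord,
      ord_algebraMap]
    simp
  exact (isVal_zero_iff v _).mp (isVal_zero_mul v h0 hreg)

theorem IsVal.div {v : Place K F} {f g : F} {b c : K} (hf : IsVal v f b) (hg : IsVal v g c)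
    (hc : c ≠ 0) : IsVal v (f / g) (b / c) := by
  rw [div_eq_mul_inv, div_eq_mul_inv]
  exact hf.mul (hg.inv hc)

theorem IsVal.pow {v : Place K F} {f : F} {b : K} (h : IsVal v f b) (n : ℕ) :
    IsVal v (f ^ n) (b ^ n) := by
  induction n with
  | zero => simpa using isVal_one v
  | succ n ih => rw [pow_succ, pow_succ]; exact ih.mul h

theorem IsVal.zpow {v : Place K F} {f : F} {b : K} (h : IsVal v f b) (hb : b ≠ 0) (n : ℤ) :
    IsVal v (f ^ n) (b ^ n) := by
  cases n with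
  | ofNat n => simpa using h.pow n
  | negSucc n =>
    rw [zpow_negSucc, zpow_negSucc]
    exact (h.pow (n + 1)).inv (pow_ne_zero _ hb)

theorem isVal_prod {ι : Type*} (v : Place K F) (s : Finset ι) (f : ι → F) (b : ι → K)
    (h : ∀ i ∈ s, IsVal v (f i) (b i)) : IsVal v (∏ i ∈ s, f i) (∏ i ∈ s, b i) := by
  classical
  induction s using Finset.induction_on with
  | empty => simpa using isVal_one v
  | insert i s hi ih =>
    rw [Finset.prod_insert hi, Finset.prod_insert hi]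
    exact (h i (Finset.mem_insert_self i s)).mul
      (ih fun j hj => h j (Finset.mem_insert_of_mem hj))

/-- at a place of degree one every regular function has a value -/
theorem exists_isVal (v : Place K F) (hv : v.deg = 1) {f : F} (hf : f = 0 ∨ 0 ≤ v.ord f) :
    ∃ b : K, IsVal v f b := by
  rcases eq_or_ne f 0 with rfl | hf0
  · exact ⟨0, isVal_zero v⟩
  · exact exists_const_sub v hv (hf.resolve_left hf0)

/-- the value of `f` at `v` (junk value `0` if `f` has no value at `v`) -/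
def pval (v : Place K F) (f : F) : K :=
  haveI := Classical.propDecidable
  if h : ∃ b, IsVal v f b then h.choose else 0

theorem isVal_pval {v : Place K F} {f : F} (h : ∃ b, IsVal v f b) : IsVal v f (pval v f) := by
  unfold pval
  rw [dif_pos h]
  exact h.choose_spec

theorem IsVal.pval_eq {v : Place K F} {f : F} {b : K} (h : IsVal v f b) : pval v f = b :=
  (isVal_pval ⟨b, h⟩).unique h

theorem isVal_pval_of_ord_nonneg (v : Place K F) (hv : v.deg = 1) {f : F}
    (hf : f = 0 ∨ 0 ≤ v.ord f) : IsVal v f (pval v f) :=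
  isVal_pval (exists_isVal v hv hf)

/-- a unit at `v` has a nonzero value -/
theorem pval_ne_zero_of_ord_eq_zero (v : Place K F) (hv : v.deg = 1) {f : F} (hf0 : f ≠ 0)
    (hf : v.ord f = 0) : pval v f ≠ 0 := by
  intro h0
  have h := isVal_pval_of_ord_nonneg v hv (Or.inr hf.ge)
  rw [h0, isVal_zero_iff] at h
  rcases h with h | h
  · exact hf0 h
  · omega

theorem pval_const (v : Place K F) (b : K) : pval v (algebraMap K F b) = b :=
  (isVal_const v b).pval_eq

end Fermat.Agent.S17.H890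

end
end
-- ===== PACK-END S17/H890/Val.lean

-- ===== PACK-BEGIN S15/H542/ModGlueCore.lean
section


/-!
# S15, piece MOD, GLUE (helper542)

`moduliPlace_of_pieces :
  PlaceOfModularPairStatement → PlaceUniqueStatement → VeluModularPairStatement →
    ModuliPlaceStatement`

(`VeluRationalStatement` is proved in `ModV.lean`).  The place `P` is produced by MOD-A1 from the
modular pair of MOD-B; for every `σ` the place `σ • P` has the same two (rational) values, so
`σ • P = P` by MOD-A2.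
-/

set_option autoImplicit false

noncomputable section

open WeierstrassCurve AlgebraicCurve ModularCurve
open scoped WeierstrassCurve.Affine

namespace Fermat.Agent.S15.H542

/-- An element of `F` whose `q`-expansion has rational coefficients is fixed by the arithmetic
Galois action. -/
theorem arithmeticGalois_smul_coeffEmb {L : Type*} [Field L] [Algebra ℚ L]
    (F₀ : IntermediateField ℚ (LaurentSeries ℚ)) (σ : L ≃ₐ[ℚ] L)
    (x : laurentBaseChange L F₀) (x₀ : LaurentSeries ℚ)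
    (hx : (x : LaurentSeries L) = coeffEmb L x₀) :
    arithmeticGalois F₀ σ • x = x := by
  apply Subtype.ext
  rw [coe_arithmeticGalois_smul, hx, coeffEmb, coeffMap_coeffMap]
  exact coeffMap_congr (RingHom.ext fun c => by simp) x₀

/-- Values at rational numbers of functions with rational `q`-expansion are preserved by the
arithmetic Galois action on places. -/
theorem hasValueAt_smul_of_rational {N : ℕ}
    (σ : AlgebraicClosure ℚ ≃ₐ[ℚ] AlgebraicClosure ℚ)
    (P : Place (AlgebraicClosure ℚ) (modularFunctionFieldBar N))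
    (f : modularFunctionFieldBar N) (f₀ : LaurentSeries ℚ)
    (hf : (f : LaurentSeries (AlgebraicClosure ℚ)) = coeffEmb (AlgebraicClosure ℚ) f₀)
    (r : ℚ) (h : HasValueAt P f (algebraMap ℚ (AlgebraicClosure ℚ) r)) :
    HasValueAt (arithmeticGalois (modularFunctionFieldFull N) σ • P) f
      (algebraMap ℚ (AlgebraicClosure ℚ) r) := by
  unfold HasValueAt at h ⊢
  set g := arithmeticGalois (modularFunctionFieldFull N) σ with hg
  have h1 : g • f = f := arithmeticGalois_smul_coeffEmb _ σ f f₀ hf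
  have h2 : g • (algebraMap (AlgebraicClosure ℚ) (modularFunctionFieldBar N)
      (algebraMap ℚ (AlgebraicClosure ℚ) r)) =
      algebraMap (AlgebraicClosure ℚ) (modularFunctionFieldBar N)
        (algebraMap ℚ (AlgebraicClosure ℚ) r) := by
    rw [SemilinearAut.smul_algebraMap]
    congr 1
    exact σ.commutes r
  have h3 : g • (f - algebraMap (AlgebraicClosure ℚ) (modularFunctionFieldBar N)
      (algebraMap ℚ (AlgebraicClosure ℚ) r)) =
      f - algebraMap (AlgebraicClosure ℚ) (modularFunctionFieldBar N)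
        (algebraMap ℚ (AlgebraicClosure ℚ) r) := by
    rw [smul_sub, h1, h2]
  rw [← h3, SemilinearAut.ord_smul]
  exact h

/-- `j(E)` of the base change of an integral curve is the image of a rational number. -/
theorem jInv_curveBar (W : WeierstrassCurve ℤ) :
    jInv (curveBar W) =
      algebraMap ℚ (AlgebraicClosure ℚ) ((W.c₄ : ℚ) ^ 3 / (W.Δ : ℚ)) := by
  have h1 : (curveBar W).c₄ = algebraMap ℚ (AlgebraicClosure ℚ) (W.c₄ : ℚ) := by
    change ((W.map (Int.castRingHom ℚ)).map (algebraMap ℚ (AlgebraicClosure ℚ))).c₄ = _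
    rw [WeierstrassCurve.map_c₄, WeierstrassCurve.map_c₄]
    simp
  have h2 : (curveBar W).Δ = algebraMap ℚ (AlgebraicClosure ℚ) (W.Δ : ℚ) := by
    change ((W.map (Int.castRingHom ℚ)).map (algebraMap ℚ (AlgebraicClosure ℚ))).Δ = _
    rw [WeierstrassCurve.map_Δ, WeierstrassCurve.map_Δ]
    simp
  rw [jInv, h1, h2, map_div₀, map_pow]

theorem Δ_curveBar_ne_zero (W : WeierstrassCurve ℤ) (hΔ : W.Δ ≠ 0) : (curveBar W).Δ ≠ 0 := by
  have h2 : (curveBar W).Δ = algebraMap ℚ (AlgebraicClosure ℚ) (W.Δ : ℚ) := by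
    change ((W.map (Int.castRingHom ℚ)).map (algebraMap ℚ (AlgebraicClosure ℚ))).Δ = _
    rw [WeierstrassCurve.map_Δ, WeierstrassCurve.map_Δ]
    simp
  rw [h2]
  simpa using hΔ

/-- `v₂(j) < 0` when `2 ∣ Δ`, `2 ∤ c₄`. -/
theorem padicValRat_two_j_neg (W : WeierstrassCurve ℤ) (hΔ : W.Δ ≠ 0)
    (h2Δ : (2 : ℤ) ∣ W.Δ) (h2c₄ : ¬ (2 : ℤ) ∣ W.c₄) :
    padicValRat 2 ((W.c₄ : ℚ) ^ 3 / (W.Δ : ℚ)) < 0 := by
  haveI : Fact (Nat.Prime 2) := ⟨Nat.prime_two⟩
  have hc : W.c₄ ≠ 0 := fun h => h2c₄ (h ▸ dvd_zero _)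
  have hcq : (W.c₄ : ℚ) ≠ 0 := by exact_mod_cast hc
  have hΔq : (W.Δ : ℚ) ≠ 0 := by exact_mod_cast hΔ
  rw [padicValRat.div (pow_ne_zero 3 hcq) hΔq, padicValRat.pow]
  have h1 : padicValRat 2 (W.c₄ : ℚ) = 0 := by
    rw [padicValRat.of_int]
    have : padicValInt 2 W.c₄ = 0 := padicValInt.eq_zero_of_not_dvd (by exact_mod_cast h2c₄)
    simp [this]
  have h2 : 0 < padicValRat 2 (W.Δ : ℚ) := by
    rw [padicValRat.of_int]
    have : 1 ≤ padicValInt 2 W.Δ := by
      have := (padicValInt_dvd_iff (p := 2) 1 W.Δ).mp (by simpa using h2Δ)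
      rcases this with h | h
      · exact absurd h hΔ
      · exact h
    exact_mod_cast this
  rw [h1]
  linarith

/-- **GLUE.**  The MOD node from its pieces. -/
theorem moduliPlace_of_pieces (hA1 : PlaceOfModularPairStatement)
    (hA2 : PlaceUniqueStatement) (hB : VeluModularPairStatement) : ModuliPlaceStatement := by
  intro p _ hp hp5 W hΔ Q hQfix hQord h2Δ h2c₄
  have hp2 : p ≠ 2 := by omega
  obtain ⟨hΔ', hpair⟩ := hB p hp hp2 (curveBar W) (Δ_curveBar_ne_zero W hΔ) Q hQord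
  obtain ⟨r', hr'⟩ := veluRational p W Q hQfix
  refine ⟨hΔ', ⟨r', hr'⟩, ?_⟩
  obtain ⟨P, hP1, hP2⟩ := hA1 p hp _ _ hpair
  refine ⟨P, ?_, hP1, hP2⟩
  intro σ
  have hj := jInv_curveBar W
  rw [hj] at hP1
  rw [← hr'] at hP2
  have hr := padicValRat_two_j_neg W hΔ h2Δ h2c₄
  refine hA2 p hp hp2 _ hr (algebraMap ℚ (AlgebraicClosure ℚ) r') _ _ ?_ ?_ hP1 hP2
  · exact hasValueAt_smul_of_rational σ P (jBar p) jq rfl _ hP1
  · exact hasValueAt_smul_of_rational σ P (jNBar p) (qExpand ℚ p jq) rfl _ hP2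

end Fermat.Agent.S15.H542

end
end
-- ===== PACK-END S15/H542/ModGlueCore.lean

-- ===== PACK-BEGIN S15/H215/LatticeVelu.lean
section



/-!
# S15, piece MOD-B4 (helper215): the lattice form of Vélu's formulas

`latticeVelu : LatticeVeluStatement` (exact type of `Fermat/Agent/S15/H542/ModBSpec.lean`).

For a period pair `L`, a prime `p` and `z₀ ∉ L` with `p z₀ ∈ L`:

* `exists_superLattice_h215` : there is a period pair `L'` with lattice `L + ℤ z₀`
  (explicit basis from a Bézout relation);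
* `G_superLattice_h215` : for ANY such `L'` and `n > 2`,
  `G_n(L') = ∑_{k < p} ∑_{l ∈ L} (l + k z₀)⁻ⁿ` (coset decomposition of the lattice sum);
* `g₂_superLattice_h215`, `g₃_superLattice_h215` : for ANY such `L'`,
  `g₂(L') = g₂(L) + 10 ∑_{k=1}^{p-1} (6 ℘(k z₀)² - g₂/2)`,
  `g₃(L') = g₃(L) + (7/6) ∑_{k=1}^{p-1} (120 ℘(k z₀)³ - 18 g₂ ℘(k z₀) - 12 g₃)`.
-/

set_option autoImplicit false

namespace Fermat.Agent.S15.H215

open Filter Topology
open Fermat.Agent.S15.H542

variable {L L' : PeriodPair} {z₀ : ℂ} {p : ℕ}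

theorem intCast_mul_mem_h215 (L : PeriodPair) (m : ℤ) {x : ℂ} (hx : x ∈ L.lattice) :
    (m : ℂ) * x ∈ L.lattice := by
  have := L.lattice.smul_mem m hx
  rwa [zsmul_eq_mul] at this

theorem mul_mem_lattice_iff_h215 (hp : p.Prime) (h0 : z₀ ∉ L.lattice)
    (hpz : (p : ℂ) * z₀ ∈ L.lattice) (d : ℤ) :
    (d : ℂ) * z₀ ∈ L.lattice ↔ (p : ℤ) ∣ d := by
  constructor
  · intro hd
    by_contra hnd
    have hcop : IsCoprime d (p : ℤ) :=
      ((Nat.prime_iff_prime_int.mp hp).coprime_iff_not_dvd.mpr hnd).symm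
    obtain ⟨u, v, huv⟩ := hcop
    apply h0
    have h1 := intCast_mul_mem_h215 L u hd
    have h2 := intCast_mul_mem_h215 L v hpz
    have h3 := L.lattice.add_mem h1 h2
    have h4 : (u : ℂ) * ((d : ℂ) * z₀) + (v : ℂ) * ((p : ℂ) * z₀) = z₀ := by
      have : ((u * d + v * (p : ℤ) : ℤ) : ℂ) = 1 := by rw [huv]; simp
      push_cast at this
      linear_combination z₀ * this
    rwa [h4] at h3
  · rintro ⟨m, rfl⟩
    have := intCast_mul_mem_h215 L m hpz
    have h4 : (m : ℂ) * ((p : ℂ) * z₀) = ((p : ℤ) * m : ℤ) * z₀ := by push_cast; ring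
    rwa [h4] at this

/-- The coset map `(k, l) ↦ l + k z₀`. -/
noncomputable def cosetMapH215 (hL' : IsSuperLattice L L' z₀) (p : ℕ) :
    Fin p × L.lattice → L'.lattice :=
  fun x => ⟨(x.2 : ℂ) + (x.1.val : ℂ) * z₀, (hL' _).mpr ⟨(x.1.val : ℤ), by
    have : (x.2 : ℂ) + (x.1.val : ℂ) * z₀ - ((x.1.val : ℤ) : ℂ) * z₀ = (x.2 : ℂ) := by
      push_cast; ring
    rw [this]; exact x.2.2⟩⟩

theorem cosetMapH215_bijective (hp : p.Prime) (h0 : z₀ ∉ L.lattice)
    (hpz : (p : ℂ) * z₀ ∈ L.lattice) (hL' : IsSuperLattice L L' z₀) :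
    Function.Bijective (cosetMapH215 hL' p) := by
  constructor
  · rintro ⟨k, l⟩ ⟨k', l'⟩ h
    have h1 : (l : ℂ) + (k.val : ℂ) * z₀ = (l' : ℂ) + (k'.val : ℂ) * z₀ := congrArg Subtype.val h
    have h2 : (((k.val : ℤ) - (k'.val : ℤ) : ℤ) : ℂ) * z₀ ∈ L.lattice := by
      have h3 : (((k.val : ℤ) - (k'.val : ℤ) : ℤ) : ℂ) * z₀ = (l' : ℂ) - (l : ℂ) := by
        push_cast; linear_combination h1
      rw [h3]
      exact L.lattice.sub_mem l'.2 l.2
    have h4 := (mul_mem_lattice_iff_h215 hp h0 hpz _).mp h2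
    have h5 : ((k.val : ℤ) - (k'.val : ℤ)) = 0 := by
      apply Int.eq_zero_of_abs_lt_dvd h4
      have := k.isLt
      have := k'.isLt
      rw [abs_lt]
      constructor <;> omega
    have h6 : k = k' := by
      apply Fin.ext
      omega
    subst h6
    have h7 : (l : ℂ) = (l' : ℂ) := by linear_combination h1
    rw [Subtype.ext h7]
  · rintro ⟨z, hz⟩
    obtain ⟨k, hk⟩ := (hL' z).mp hz
    have hp0 : (0 : ℤ) < p := by exact_mod_cast hp.pos
    have hr0 : 0 ≤ k % (p : ℤ) := Int.emod_nonneg _ hp0.ne'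
    have hr1 : k % (p : ℤ) < p := Int.emod_lt_of_pos _ hp0
    have hkd : k = (p : ℤ) * (k / p) + k % p := (Int.mul_ediv_add_emod k p).symm
    have hmem : z - ((k % (p : ℤ) : ℤ) : ℂ) * z₀ ∈ L.lattice := by
      have h1 := intCast_mul_mem_h215 L (k / p) hpz
      have h2 := L.lattice.add_mem hk h1
      have h3 : z - (k : ℂ) * z₀ + ((k / (p : ℤ) : ℤ) : ℂ) * ((p : ℂ) * z₀) =
          z - ((k % (p : ℤ) : ℤ) : ℂ) * z₀ := by
        have : (k : ℂ) = ((p : ℤ) : ℂ) * ((k / (p : ℤ) : ℤ) : ℂ) + ((k % (p : ℤ) : ℤ) : ℂ) := by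
          exact_mod_cast congrArg (Int.cast : ℤ → ℂ) hkd
        rw [this]; push_cast; ring
      rwa [h3] at h2
    refine ⟨(⟨(k % (p : ℤ)).toNat, by omega⟩, ⟨_, hmem⟩), ?_⟩
    apply Subtype.ext
    show z - ((k % (p : ℤ) : ℤ) : ℂ) * z₀ + (((k % (p : ℤ)).toNat : ℕ) : ℂ) * z₀ = z
    have : (((k % (p : ℤ)).toNat : ℕ) : ℂ) = ((k % (p : ℤ) : ℤ) : ℂ) := by
      have h := Int.toNat_of_nonneg hr0
      exact_mod_cast congrArg (Int.cast : ℤ → ℂ) h
    rw [this]; ring

/-- Coset decomposition of the Eisenstein sums of the superlattice. -/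
theorem G_superLattice_h215 (hp : p.Prime) (h0 : z₀ ∉ L.lattice)
    (hpz : (p : ℂ) * z₀ ∈ L.lattice) (hL' : IsSuperLattice L L' z₀) {n : ℕ} (hn : 2 < n) :
    L'.G n = ∑ k : Fin p, L.sumInvPow (-((k.val : ℂ) * z₀)) n := by
  have hS' : HasSum (fun l : L'.lattice => (((l : ℂ)) ^ n)⁻¹) (L'.G n) := by
    have := L'.hasSum_sumInvPow 0 hn
    simpa using this
  have hS : HasSum (fun x : Fin p × L.lattice => ((((cosetMapH215 hL' p x : L'.lattice) : ℂ)) ^ n)⁻¹)
      (L'.G n) :=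
    (Equiv.ofBijective _ (cosetMapH215_bijective hp h0 hpz hL')).hasSum_iff.mpr hS'
  have hfib : ∀ k : Fin p, HasSum
      (fun l : L.lattice => ((((cosetMapH215 hL' p (k, l) : L'.lattice) : ℂ)) ^ n)⁻¹)
      (L.sumInvPow (-((k.val : ℂ) * z₀)) n) := by
    intro k
    have := L.hasSum_sumInvPow (-((k.val : ℂ) * z₀)) hn
    simpa [cosetMapH215, sub_neg_eq_add] using this
  have := hS.prod_fiberwise hfib
  exact this.unique (hasSum_fintype _)


/-- Abstract construction of a basis of `ℤω₁ + ℤω₂ + ℤz₀` when `p z₀ = a ω₁ + b ω₂`, `(b, p) = 1`. -/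
theorem exists_basis_aux_h215 (ω₁ ω₂ z₀ : ℂ) (indep : LinearIndependent ℝ ![ω₁, ω₂]) (p : ℕ)
    (hp0 : p ≠ 0) (a b : ℤ) (h : (p : ℂ) * z₀ = a * ω₁ + b * ω₂) (hb : IsCoprime b (p : ℤ)) :
    ∃ w : ℂ, LinearIndependent ℝ ![ω₁, w] ∧
      ∀ z : ℂ, z ∈ Submodule.span ℤ {ω₁, w} ↔
        ∃ k : ℤ, z - k * z₀ ∈ Submodule.span ℤ {ω₁, ω₂} := by
  obtain ⟨u, v, huv⟩ := hb
  have huvC : (u : ℂ) * b + v * p = 1 := by exact_mod_cast congrArg (Int.cast : ℤ → ℂ) huv
  have hpC : (p : ℂ) ≠ 0 := by exact_mod_cast hp0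
  set w : ℂ := u * z₀ + v * ω₂ with hw
  have hpw : (p : ℂ) * w = u * a * ω₁ + ω₂ := by
    rw [hw]
    linear_combination (u : ℂ) * h + ω₂ * huvC
  have hz₀ : z₀ = b * w + v * a * ω₁ := by
    rw [hw]
    linear_combination (-z₀) * huvC + (v : ℂ) * h
  refine ⟨w, ?_, ?_⟩
  · rw [LinearIndependent.pair_iff] at indep ⊢
    intro s t hst
    have hw' : w = ((u * a / p : ℝ) : ℂ) * ω₁ + ((1 / p : ℝ) : ℂ) * ω₂ := by
      push_cast
      field_simp
      linear_combination hpw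
    have h1 : (s + t * (u * a / p) : ℝ) • ω₁ + (t * (1 / p) : ℝ) • ω₂ = 0 := by
      simp only [Complex.real_smul] at hst ⊢
      rw [hw'] at hst
      push_cast at hst ⊢
      linear_combination hst
    obtain ⟨h2, h3⟩ := indep _ _ h1
    have hpR : (p : ℝ) ≠ 0 := by exact_mod_cast hp0
    have ht : t = 0 := by
      have := mul_eq_zero.mp h3
      rcases this with h | h
      · exact h
      · exfalso; exact (one_div_ne_zero hpR) h
    refine ⟨?_, ht⟩
    rw [ht] at h2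
    simpa using h2
  · intro z
    simp only [Submodule.mem_span_pair, zsmul_eq_mul]
    constructor
    · rintro ⟨m, n, rfl⟩
      refine ⟨n * u, m, n * v, ?_⟩
      rw [hw]; push_cast; ring
    · rintro ⟨k, m, n, hmn⟩
      refine ⟨k * v * a + m - n * u * a, k * b + n * p, ?_⟩
      have hz : z = k * z₀ + (m * ω₁ + n * ω₂) := by linear_combination -hmn
      rw [hz]
      push_cast
      have hω₂ : ω₂ = p * w - u * a * ω₁ := by linear_combination -hpw
      calc (↑k * ↑v * ↑a + ↑m - ↑n * ↑u * ↑a) * ω₁ + (↑k * ↑b + ↑n * ↑p) * w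
          = k * (b * w + v * a * ω₁) + (m * ω₁ + n * (p * w - u * a * ω₁)) := by ring
        _ = k * z₀ + (m * ω₁ + n * ω₂) := by rw [← hz₀, ← hω₂]


/-- `∑ (l + x)⁻ⁿ = ∑ (l - x)⁻ⁿ` for even `n`. -/
theorem sumInvPow_neg_h215 (L : PeriodPair) (x : ℂ) {n : ℕ} (hn : Even n) :
    L.sumInvPow (-x) n = L.sumInvPow x n := by
  unfold PeriodPair.sumInvPow
  rw [← (Equiv.neg L.lattice).tsum_eq]
  congr 1
  ext l
  simp only [Equiv.neg_apply, NegMemClass.coe_neg, sub_neg_eq_add]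
  have : (-(l : ℂ) + x) = -((l : ℂ) - x) := by ring
  rw [this, hn.neg_pow]

theorem natCast_mul_notMem_h215 (hp : p.Prime) (h0 : z₀ ∉ L.lattice)
    (hpz : (p : ℂ) * z₀ ∈ L.lattice) {k : ℕ} (hk : k ∈ Finset.Icc 1 (p - 1)) :
    (k : ℂ) * z₀ ∉ L.lattice := by
  intro hmem
  have h1 : ((k : ℤ) : ℂ) * z₀ ∈ L.lattice := by simpa using hmem
  have h2 := (mul_mem_lattice_iff_h215 hp h0 hpz _).mp h1
  have h3 : p ∣ k := by exact_mod_cast h2
  rw [Finset.mem_Icc] at hk
  have := Nat.le_of_dvd (by omega) h3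
  have := hp.pos
  omega

/-- Coset decomposition, second form: `G_n(L') = G_n(L) + ∑_{k=1}^{p-1} ∑_l (l - k z₀)⁻ⁿ`
for even `n > 2`. -/
theorem G_superLattice_Icc_h215 (hp : p.Prime) (h0 : z₀ ∉ L.lattice)
    (hpz : (p : ℂ) * z₀ ∈ L.lattice) (hL' : IsSuperLattice L L' z₀) {n : ℕ} (hn : 2 < n)
    (hev : Even n) :
    L'.G n = L.G n + ∑ k ∈ Finset.Icc 1 (p - 1), L.sumInvPow ((k : ℂ) * z₀) n := by
  rw [G_superLattice_h215 hp h0 hpz hL' hn]
  simp_rw [sumInvPow_neg_h215 L _ hev]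
  rw [Fin.sum_univ_eq_sum_range (fun k : ℕ => L.sumInvPow ((k : ℂ) * z₀) n) p,
    Finset.range_eq_Ico, Finset.sum_eq_sum_Ico_succ_bot hp.pos]
  have h1 : L.sumInvPow (((0 : ℕ) : ℂ) * z₀) n = L.G n := by
    rw [Nat.cast_zero, zero_mul, PeriodPair.sumInvPow_zero]
  have h2 : Finset.Ico (0 + 1) p = Finset.Icc 1 (p - 1) := by
    ext k
    have := hp.pos
    simp only [Finset.mem_Ico, Finset.mem_Icc]
    omega
  rw [h1, h2]

/-- **Vélu, lattice form, `g₂`** (for any period pair `L'` with lattice `L + ℤ z₀`). -/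
theorem g₂_superLattice_h215 (hp : p.Prime) (h0 : z₀ ∉ L.lattice)
    (hpz : (p : ℂ) * z₀ ∈ L.lattice) (hL' : IsSuperLattice L L' z₀) :
    L'.g₂ = L.g₂ + 10 * ∑ k ∈ Finset.Icc 1 (p - 1),
      (6 * L.weierstrassP (k * z₀) ^ 2 - L.g₂ / 2) := by
  have hG := G_superLattice_Icc_h215 hp h0 hpz hL' (n := 4) (by norm_num) (by decide)
  have hsum : ∑ k ∈ Finset.Icc 1 (p - 1), (6 * L.weierstrassP (k * z₀) ^ 2 - L.g₂ / 2) =
      6 * ∑ k ∈ Finset.Icc 1 (p - 1), L.sumInvPow ((k : ℂ) * z₀) 4 := by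
    rw [Finset.mul_sum]
    refine Finset.sum_congr rfl fun k hk => ?_
    exact (six_mul_sumInvPow_four_h215 L _ (natCast_mul_notMem_h215 hp h0 hpz hk)).symm
  rw [hsum]
  unfold PeriodPair.g₂
  rw [hG]
  ring

/-- **Vélu, lattice form, `g₃`** (for any period pair `L'` with lattice `L + ℤ z₀`). -/
theorem g₃_superLattice_h215 (hp : p.Prime) (h0 : z₀ ∉ L.lattice)
    (hpz : (p : ℂ) * z₀ ∈ L.lattice) (hL' : IsSuperLattice L L' z₀) :
    L'.g₃ = L.g₃ + 7 / 6 * ∑ k ∈ Finset.Icc 1 (p - 1),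
      (120 * L.weierstrassP (k * z₀) ^ 3 - 18 * L.g₂ * L.weierstrassP (k * z₀) - 12 * L.g₃) := by
  have hG := G_superLattice_Icc_h215 hp h0 hpz hL' (n := 6) (by norm_num) (by decide)
  have hsum : ∑ k ∈ Finset.Icc 1 (p - 1),
      (120 * L.weierstrassP (k * z₀) ^ 3 - 18 * L.g₂ * L.weierstrassP (k * z₀) - 12 * L.g₃) =
      120 * ∑ k ∈ Finset.Icc 1 (p - 1), L.sumInvPow ((k : ℂ) * z₀) 6 := by
    rw [Finset.mul_sum]
    refine Finset.sum_congr rfl fun k hk => ?_
    exact (mul_sumInvPow_six_h215 L _ (natCast_mul_notMem_h215 hp h0 hpz hk)).symm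
  rw [hsum]
  unfold PeriodPair.g₃
  rw [hG]
  ring

/-- Existence of a period pair with lattice `L + ℤ z₀`. -/
theorem exists_superLattice_h215 (L : PeriodPair) (hp : p.Prime) (h0 : z₀ ∉ L.lattice)
    (hpz : (p : ℂ) * z₀ ∈ L.lattice) : ∃ L' : PeriodPair, IsSuperLattice L L' z₀ := by
  obtain ⟨a, b, hab⟩ := PeriodPair.mem_lattice.mp hpz
  by_cases hb : (p : ℤ) ∣ b
  · -- then `p ∤ a`
    have ha : ¬ (p : ℤ) ∣ a := by
      rintro ⟨a', rfl⟩
      obtain ⟨b', rfl⟩ := hb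
      apply h0
      rw [PeriodPair.mem_lattice]
      refine ⟨a', b', ?_⟩
      have hpC : (p : ℂ) ≠ 0 := by exact_mod_cast hp.ne_zero
      apply mul_left_cancel₀ hpC
      rw [← hab]; push_cast; ring
    have hcop : IsCoprime a (p : ℤ) :=
      ((Nat.prime_iff_prime_int.mp hp).coprime_iff_not_dvd.mpr ha).symm
    have hindep : LinearIndependent ℝ ![L.ω₂, L.ω₁] := by
      have h := L.indep
      rw [LinearIndependent.pair_iff] at h ⊢
      intro s t hst
      have := h t s (by rw [← hst]; ring)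
      exact ⟨this.2, this.1⟩
    obtain ⟨w, hw, hspan⟩ := exists_basis_aux_h215 L.ω₂ L.ω₁ z₀ hindep p hp.ne_zero b a
      (by rw [← hab]; ring) hcop
    refine ⟨⟨L.ω₂, w, hw⟩, fun z => ?_⟩
    show z ∈ Submodule.span ℤ {L.ω₂, w} ↔ ∃ k : ℤ, z - k * z₀ ∈ Submodule.span ℤ {L.ω₁, L.ω₂}
    rw [hspan z, Set.pair_comm L.ω₂ L.ω₁]
  · have hcop : IsCoprime b (p : ℤ) :=
      ((Nat.prime_iff_prime_int.mp hp).coprime_iff_not_dvd.mpr hb).symm
    obtain ⟨w, hw, hspan⟩ := exists_basis_aux_h215 L.ω₁ L.ω₂ z₀ L.indep p hp.ne_zero a b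
      hab.symm hcop
    refine ⟨⟨L.ω₁, w, hw⟩, fun z => ?_⟩
    show z ∈ Submodule.span ℤ {L.ω₁, w} ↔ ∃ k : ℤ, z - k * z₀ ∈ Submodule.span ℤ {L.ω₁, L.ω₂}
    exact hspan z

/-- **MOD-B4.**  The lattice form of Vélu's formulas. -/
theorem latticeVelu : LatticeVeluStatement := by
  intro L p hp _ z₀ h0 hpz
  obtain ⟨L', hL'⟩ := exists_superLattice_h215 L hp h0 hpz
  exact ⟨L', hL', g₂_superLattice_h215 hp h0 hpz hL', g₃_superLattice_h215 hp h0 hpz hL'⟩

end Fermat.Agent.S15.H215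

end
-- ===== PACK-END S15/H215/LatticeVelu.lean

-- ===== PACK-BEGIN S15/H215/ModBMap.lean
section


/-!
# S15, piece MOD-B0 / MOD-B0' (helper215): Vélu's curve and `IsModularPair` under field embeddings

* `veluMap : VeluMapStatement`
* `isModularPairMap : IsModularPairMapStatement`
(exact types of `Fermat/Agent/S15/H542/ModBSpec.lean`).
-/

set_option autoImplicit false

noncomputable section

open WeierstrassCurve
open scoped WeierstrassCurve.Affine

namespace Fermat.Agent.S15.H215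

open Fermat.Agent.S15.H542

section Velu

variable {K L : Type} [Field K] [Field L] [DecidableEq K] [DecidableEq L] [Algebra K L]

theorem xOf_map_h215 (W : WeierstrassCurve K) (P : W.toAffine.Point) :
    xOf (WeierstrassCurve.Affine.Point.map (W' := W) (Algebra.ofId K L) P) =
      algebraMap K L (xOf P) := by
  cases P with
  | zero => simp [xOf]; rfl
  | some x y h => rfl

theorem yOf_map_h215 (W : WeierstrassCurve K) (P : W.toAffine.Point) :
    yOf (WeierstrassCurve.Affine.Point.map (W' := W) (Algebra.ofId K L) P) =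
      algebraMap K L (yOf P) := by
  cases P with
  | zero => simp [yOf]; rfl
  | some x y h => rfl

theorem veluT1_map_h215 (W : WeierstrassCurve K) (x : K) :
    veluT1 (W⁄L) (algebraMap K L x) = algebraMap K L (veluT1 W x) := by
  simp [veluT1, WeierstrassCurve.baseChange, map_ofNat]

theorem veluU1_map_h215 (W : WeierstrassCurve K) (x : K) :
    veluU1 (W⁄L) (algebraMap K L x) = algebraMap K L (veluU1 W x) := by
  simp [veluU1, WeierstrassCurve.baseChange, map_ofNat]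

theorem nsmul_map_h215 (W : WeierstrassCurve K) (Q : W.toAffine.Point) (k : ℕ) :
    k • WeierstrassCurve.Affine.Point.map (W' := W) (Algebra.ofId K L) Q =
      WeierstrassCurve.Affine.Point.map (W' := W) (Algebra.ofId K L) (k • Q) :=
  (map_nsmul (WeierstrassCurve.Affine.Point.map (W' := W) (Algebra.ofId K L)) k Q).symm

theorem xOf_nsmul_map_h215 (W : WeierstrassCurve K) (Q : W.toAffine.Point) (k : ℕ) :
    xOf (k • WeierstrassCurve.Affine.Point.map (W' := W) (Algebra.ofId K L) Q) =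
      algebraMap K L (xOf (k • Q)) := by
  rw [nsmul_map_h215, xOf_map_h215]

theorem veluT_map_h215 (W : WeierstrassCurve K) (Q : W.toAffine.Point) (p : ℕ) :
    veluT (W⁄L) (WeierstrassCurve.Affine.Point.map (W' := W) (Algebra.ofId K L) Q) p =
      algebraMap K L (veluT W Q p) := by
  unfold veluT
  rw [map_sum]
  refine Finset.sum_congr rfl fun k _ => ?_
  rw [xOf_nsmul_map_h215, veluT1_map_h215]

theorem veluW_map_h215 (W : WeierstrassCurve K) (Q : W.toAffine.Point) (p : ℕ) :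
    veluW (W⁄L) (WeierstrassCurve.Affine.Point.map (W' := W) (Algebra.ofId K L) Q) p =
      algebraMap K L (veluW W Q p) := by
  unfold veluW
  rw [map_sum]
  refine Finset.sum_congr rfl fun k _ => ?_
  rw [xOf_nsmul_map_h215, veluT1_map_h215, veluU1_map_h215, map_add, map_mul]

end Velu

/-- **B0.**  Vélu's curve commutes with field embeddings. -/
theorem veluMap : VeluMapStatement := by
  intro K L _ _ _ _ _ W Q p
  ext
  · rfl
  · rfl
  · rfl
  · show (W⁄L).a₄ - 5 * veluT (W⁄L) _ p = algebraMap K L (W.a₄ - 5 * veluT W Q p)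
    rw [veluT_map_h215]
    simp [WeierstrassCurve.baseChange, map_ofNat]
  · show (W⁄L).a₆ - (W⁄L).b₂ * veluT (W⁄L) _ p - 7 * veluW (W⁄L) _ p =
      algebraMap K L (W.a₆ - W.b₂ * veluT W Q p - 7 * veluW W Q p)
    rw [veluT_map_h215, veluW_map_h215]
    simp [WeierstrassCurve.baseChange, map_ofNat]

/-- **B0'.**  `IsModularPair` only depends on the pair up to field embeddings. -/
theorem isModularPairMap : IsModularPairMapStatement := by
  intro K L _ _ _ _ f N _ a a'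
  have hcomm : ∀ r : ℚ, f (algebraMap ℚ K r) = algebraMap ℚ L r := fun r => by
    simp
  have key : ∀ G : MvPolynomial (Fin 2) ℚ,
      MvPolynomial.aeval ![f a, f a'] G = f (MvPolynomial.aeval ![a, a'] G) := by
    intro G
    induction G using MvPolynomial.induction_on with
    | C r => simp
    | add p q hp hq => simp only [map_add, hp, hq]
    | mul_X p i hp =>
      simp only [map_mul, hp, MvPolynomial.aeval_X]
      congr 1
      fin_cases i <;> simp
  unfold IsModularPair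
  constructor
  · intro h G hG
    have := h G hG
    rw [key] at this
    exact (map_eq_zero f).mp this
  · intro h G hG
    rw [key, h G hG, map_zero]

end Fermat.Agent.S15.H215

end
end
-- ===== PACK-END S15/H215/ModBMap.lean

-- ===== PACK-BEGIN S15/H215/ModBGlue.lean
section




/-!
# S15, piece MOD-B-ℂ (helper215): the bridge over `ℂ` from uniformisation + lattice statements

* `veluModularPairComplex_of :
    UniformizationStatement → LatticeModularPairStatement → VeluModularPairComplexStatement`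
  (B4 = `latticeVelu` is used in its strong form `g₂_superLattice_h215`, `g₃_superLattice_h215`).

Algebra: with `x_k = ℘(k z₀) - b₂/12`, `g₂ = c₄/12`, `g₃ = c₆/216`,
`6 ℘² - g₂/2 = 6 x² + b₂ x + b₄` and
`120 ℘³ - 18 g₂ ℘ - 12 g₃ = b₂ (6 x² + b₂ x + b₄) + 12 (10 x³ + 2 b₂ x² + 3 b₄ x + b₆)`, hence
`c₄(E') = 12 g₂(Λ')`, `c₆(E') = 216 g₃(Λ')` for Vélu's curve `E'`.
-/

set_option autoImplicit false

noncomputable section

open WeierstrassCurve
open scoped WeierstrassCurve.Affine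

namespace Fermat.Agent.S15.H215

open Fermat.Agent.S15.H542

/-- Folding a symmetric sum: `∑_{k=1}^{2m} g k = 2 ∑_{k=1}^{m} g k` if `g (2m+1-k) = g k`. -/
theorem sum_Icc_fold_h215 (m : ℕ) (g : ℕ → ℂ)
    (hg : ∀ k ∈ Finset.Icc 1 m, g (2 * m + 1 - k) = g k) :
    ∑ k ∈ Finset.Icc 1 (2 * m), g k = 2 * ∑ k ∈ Finset.Icc 1 m, g k := by
  have e1 : Finset.Icc 1 (2 * m) = Finset.Ico 1 (2 * m + 1) := by
    ext k; simp only [Finset.mem_Icc, Finset.mem_Ico]; omega
  have e2 : Finset.Icc 1 m = Finset.Ico 1 (m + 1) := by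
    ext k; simp only [Finset.mem_Icc, Finset.mem_Ico]; omega
  have h1 : ∑ k ∈ Finset.Ico 1 (2 * m + 1), g k =
      ∑ k ∈ Finset.Ico 1 (m + 1), g k + ∑ k ∈ Finset.Ico (m + 1) (2 * m + 1), g k :=
    (Finset.sum_Ico_consecutive g (by omega) (by omega)).symm
  have h2 := Finset.sum_Ico_reflect g 1 (m := m + 1) (n := 2 * m + 1) (by omega)
  have e3 : 2 * m + 1 + 1 - (m + 1) = m + 1 := by omega
  have e4 : 2 * m + 1 + 1 - 1 = 2 * m + 1 := by omega
  rw [e3, e4] at h2
  have h3 : ∑ j ∈ Finset.Ico 1 (m + 1), g (2 * m + 1 - j) = ∑ j ∈ Finset.Ico 1 (m + 1), g j := by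
    refine Finset.sum_congr rfl fun k hk => ?_
    exact hg k (by rw [e2]; exact hk)
  rw [e1, h1, ← h2, h3, ← e2]
  ring

/-- `℘((p - k) z₀) = ℘(k z₀)` if `p z₀` is a period. -/
theorem weierstrassP_reflect_h215 (L : PeriodPair) {z₀ : ℂ} {p : ℕ}
    (hpz : (p : ℂ) * z₀ ∈ L.lattice) {k : ℕ} (hk : k ≤ p) :
    L.weierstrassP (((p - k : ℕ) : ℂ) * z₀) = L.weierstrassP ((k : ℂ) * z₀) := by
  have h1 : ((p - k : ℕ) : ℂ) * z₀ = -((k : ℂ) * z₀) + ((⟨_, hpz⟩ : L.lattice) : ℂ) := by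
    rw [Nat.cast_sub hk]; ring
  rw [h1, L.weierstrassP_add_coe, L.weierstrassP_neg]

/-- **B-ℂ from B3 and B5.** -/
theorem veluModularPairComplex_of (h3 : UniformizationStatement)
    (h5 : LatticeModularPairStatement) : VeluModularPairComplexStatement := by
  intro _ p _ hp hp2 E hΔ Q hQord
  obtain ⟨U⟩ := h3 E hΔ
  obtain ⟨z₀, rfl⟩ := U.φ_surjective Q
  -- `z₀ ∉ Λ`, `p z₀ ∈ Λ`
  have h0 : z₀ ∉ U.L.lattice := by
    intro hz
    have : U.φ z₀ = 0 := (U.φ_eq_zero_iff z₀).mpr hz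
    rw [this, addOrderOf_zero] at hQord
    exact hp.one_lt.ne hQord
  have hpz : (p : ℂ) * z₀ ∈ U.L.lattice := by
    rw [← U.φ_eq_zero_iff]
    have h1 : U.φ ((p : ℂ) * z₀) = p • U.φ z₀ := by
      rw [← nsmul_eq_mul, map_nsmul]
    rw [h1, ← hQord]
    exact addOrderOf_nsmul_eq_zero _
  obtain ⟨L', hL'⟩ := exists_superLattice_h215 U.L hp h0 hpz
  have hg2 := g₂_superLattice_h215 hp h0 hpz hL'
  have hg3 := g₃_superLattice_h215 hp h0 hpz hL'
  obtain ⟨hΔL, hΔL', hmod⟩ := h5 p hp U.L L' z₀ h0 hpz hL'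
  -- `p = 2 m + 1`
  obtain ⟨m, hm⟩ : ∃ m, p = 2 * m + 1 := by
    rcases hp.eq_two_or_odd' with h | h
    · exact absurd h hp2
    · exact h
  have hm2 : (p - 1) / 2 = m := by omega
  have hm1 : p - 1 = 2 * m := by omega
  -- `x`-coordinates of the multiples
  have hx : ∀ k ∈ Finset.Icc 1 m,
      xOf (k • U.φ z₀) = U.L.weierstrassP ((k : ℂ) * z₀) - E.b₂ / 12 := by
    intro k hk
    have hk' : k ∈ Finset.Icc 1 (p - 1) := by
      rw [Finset.mem_Icc] at hk ⊢; omega
    have hnot := natCast_mul_notMem_h215 hp h0 hpz hk'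
    have h1 : k • U.φ z₀ = U.φ ((k : ℂ) * z₀) := by
      rw [← nsmul_eq_mul, map_nsmul]
    rw [h1, U.xOf_φ _ hnot]
  -- folding the sums
  have hfold2 : ∑ k ∈ Finset.Icc 1 (p - 1),
      (6 * U.L.weierstrassP (k * z₀) ^ 2 - U.L.g₂ / 2) =
      2 * ∑ k ∈ Finset.Icc 1 m, (6 * U.L.weierstrassP (k * z₀) ^ 2 - U.L.g₂ / 2) := by
    rw [hm1]
    refine sum_Icc_fold_h215 m
      (fun k => 6 * U.L.weierstrassP ((k : ℂ) * z₀) ^ 2 - U.L.g₂ / 2) fun k hk => ?_
    have hkp : k ≤ p := by rw [Finset.mem_Icc] at hk; omega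
    have := weierstrassP_reflect_h215 U.L hpz hkp
    rw [hm] at this
    simp only [this]
  have hfold3 : ∑ k ∈ Finset.Icc 1 (p - 1),
      (120 * U.L.weierstrassP (k * z₀) ^ 3 - 18 * U.L.g₂ * U.L.weierstrassP (k * z₀) -
        12 * U.L.g₃) =
      2 * ∑ k ∈ Finset.Icc 1 m,
        (120 * U.L.weierstrassP (k * z₀) ^ 3 - 18 * U.L.g₂ * U.L.weierstrassP (k * z₀) -
          12 * U.L.g₃) := by
    rw [hm1]
    refine sum_Icc_fold_h215 m
      (fun k => 120 * U.L.weierstrassP ((k : ℂ) * z₀) ^ 3 -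
        18 * U.L.g₂ * U.L.weierstrassP ((k : ℂ) * z₀) - 12 * U.L.g₃) fun k hk => ?_
    have hkp : k ≤ p := by rw [Finset.mem_Icc] at hk; omega
    have := weierstrassP_reflect_h215 U.L hpz hkp
    rw [hm] at this
    simp only [this]
  -- Vélu's sums in terms of `℘`
  have hT : veluT E (U.φ z₀) p =
      ∑ k ∈ Finset.Icc 1 m, (6 * U.L.weierstrassP (k * z₀) ^ 2 - U.L.g₂ / 2) := by
    unfold veluT
    rw [hm2]
    refine Finset.sum_congr rfl fun k hk => ?_
    rw [hx k hk, U.g₂_eq]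
    simp only [veluT1, WeierstrassCurve.c₄]
    ring
  have hW : E.b₂ * veluT E (U.φ z₀) p + 12 * veluW E (U.φ z₀) p =
      ∑ k ∈ Finset.Icc 1 m,
        (120 * U.L.weierstrassP (k * z₀) ^ 3 - 18 * U.L.g₂ * U.L.weierstrassP (k * z₀) -
          12 * U.L.g₃) := by
    unfold veluT veluW
    rw [hm2, Finset.mul_sum, Finset.mul_sum, ← Finset.sum_add_distrib]
    refine Finset.sum_congr rfl fun k hk => ?_
    rw [hx k hk, U.g₂_eq, U.g₃_eq]
    simp only [veluT1, veluU1, WeierstrassCurve.c₄, WeierstrassCurve.c₆]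
    ring
  -- invariants of Vélu's curve
  have hc4 : (veluCurve E (U.φ z₀) p).c₄ = 12 * L'.g₂ := by
    rw [hg2, hfold2, ← hT, U.g₂_eq]
    simp only [veluCurve, WeierstrassCurve.c₄, WeierstrassCurve.b₂, WeierstrassCurve.b₄]
    ring
  have hc6 : (veluCurve E (U.φ z₀) p).c₆ = 216 * L'.g₃ := by
    rw [hg3, hfold3, ← hW, U.g₃_eq]
    simp only [veluCurve, WeierstrassCurve.c₆, WeierstrassCurve.b₂, WeierstrassCurve.b₄,
      WeierstrassCurve.b₆]
    ring
  have hΔ' : (veluCurve E (U.φ z₀) p).Δ = L'.g₂ ^ 3 - 27 * L'.g₃ ^ 2 := by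
    have := (veluCurve E (U.φ z₀) p).c_relation
    rw [hc4, hc6] at this
    linear_combination (1 / 1728 : ℂ) * this
  have hΔE : E.Δ = U.L.g₂ ^ 3 - 27 * U.L.g₃ ^ 2 := by
    have := E.c_relation
    rw [U.g₂_eq, U.g₃_eq]
    linear_combination (1 / 1728 : ℂ) * this
  refine ⟨by rw [hΔ']; exact hΔL', ?_⟩
  have hj : jInv E = latticeJ U.L := by
    unfold jInv latticeJ
    rw [hΔE, U.g₂_eq]
    ring
  have hj' : jInv (veluCurve E (U.φ z₀) p) = latticeJ L' := by
    unfold jInv latticeJ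
    rw [hΔ', hc4]
    ring
  rw [hj, hj']
  exact hmod

end Fermat.Agent.S15.H215

end
end
-- ===== PACK-END S15/H215/ModBGlue.lean

-- ===== PACK-BEGIN S15/H662/Roots.lean
section



/-!
# Row S15, piece I1 (helper662): the half-period values `e₁, e₂, e₃`

* `halfPeriod_const_ne_zero` : the constant `κ` of the half-period translation formula is `≠ 0`;
* `weierstrassP_ne_of_halfPeriod` : `℘` separates distinct half-periods;
* `e₁ e₂ e₃`, Vieta relations, and `g₂³ - 27 g₃² = 16 ∏ (e_i - e_j)²`.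

Mathlib-only.
-/

set_option autoImplicit false

open Filter Topology
open scoped PeriodPair

noncomputable section

namespace Fermat.Agent.S15.H662

/-- the lattice is countable -/
theorem countable_lattice' (L : PeriodPair) : (L.lattice : Set ℂ).Countable := by
  have : Countable L.lattice := L.latticeEquivProd.toEquiv.countable_iff.mpr inferInstance
  exact Set.countable_coe_iff.mp this

/-- `℘` is not eventually constant near `0` -/
theorem weierstrassP_not_eventually_const (L : PeriodPair) (e : ℂ) :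
    ¬ (℘[L] =ᶠ[𝓝[≠] (0 : ℂ)] fun _ => e) := by
  classical
  intro h
  have h1 := meromorphicOrderAt_congr h
  rw [L.order_weierstrassP 0 (zero_mem _), meromorphicOrderAt_const] at h1
  split_ifs at h1
  · exact absurd h1 (by simp)
  · have : ((-2 : ℤ) : WithTop ℤ) = ((0 : ℤ) : WithTop ℤ) := h1
    exact absurd (WithTop.coe_injective this) (by norm_num)

/-- The constant in the half-period translation formula is nonzero. -/
theorem halfPeriod_const_ne_zero (L : PeriodPair) {h : ℂ} (hh : h ∉ L.lattice)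
    (hh2 : 2 * h ∈ L.lattice) {κ : ℂ}
    (hκ : ∀ z : ℂ, z ∉ L.lattice → z - h ∉ L.lattice →
      (℘[L] z - ℘[L] h) * (℘[L] (z - h) - ℘[L] h) = κ) : κ ≠ 0 := by
  intro h0
  subst h0
  set e := ℘[L] h with he
  set S : Set ℂ := (L.lattice : Set ℂ) ∪ (fun z => z + h) '' (L.lattice : Set ℂ) with hS
  have hScount : S.Countable := (countable_lattice' L).union ((countable_lattice' L).image _)
  have hU : IsPreconnected Sᶜ := by
    refine (Set.Countable.isPathConnected_compl_of_one_lt_rank ?_ hScount).isConnected.isPreconnected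
    rw [Complex.rank_real_complex]
    norm_num
  have hmem : ∀ z, z ∈ Sᶜ ↔ z ∉ L.lattice ∧ z - h ∉ L.lattice := by
    intro z
    simp only [hS, Set.mem_compl_iff, Set.mem_union, SetLike.mem_coe, Set.mem_image, not_or]
    constructor
    · rintro ⟨h1, h2⟩
      exact ⟨h1, fun h3 => h2 ⟨z - h, h3, by ring⟩⟩
    · rintro ⟨h1, h2⟩
      refine ⟨h1, ?_⟩
      rintro ⟨x, hx, rfl⟩
      exact h2 (by simpa using hx)
  have hnegh : -h ∉ L.lattice := fun hm => hh (by simpa using L.lattice.neg_mem hm)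
  have han1 : AnalyticOnNhd ℂ (fun z => ℘[L] z - e) Sᶜ := fun z hz =>
    (L.analyticOnNhd_weierstrassP z ((hmem z).mp hz).1).sub analyticAt_const
  have han2 : AnalyticOnNhd ℂ (fun z => ℘[L] (z - h) - e) Sᶜ := fun z hz =>
    (analyticAt_weierstrassP_sub L ((hmem z).mp hz).2).sub analyticAt_const
  have hprod : ∀ z ∈ Sᶜ, (℘[L] z - e) * (℘[L] (z - h) - e) = 0 := fun z hz =>
    hκ z ((hmem z).mp hz).1 ((hmem z).mp hz).2
  -- in both cases `℘ = e` on `Sᶜ`
  have hconst : ∀ z ∈ Sᶜ, ℘[L] z = e := by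
    rcases AnalyticOnNhd.eq_zero_or_eq_zero_of_mul_eq_zero han1 han2 hprod hU with h1 | h1
    · exact fun z hz => sub_eq_zero.mp (h1 z hz)
    · intro z hz
      have hz' : z + h ∈ Sᶜ := by
        rw [hmem] at hz ⊢
        refine ⟨?_, by simpa using hz.1⟩
        intro h3
        apply hz.2
        have : z - h = (z + h) - 2 * h := by ring
        rw [this]
        exact L.lattice.sub_mem h3 hh2
      have := h1 (z + h) hz'
      simpa [sub_eq_zero] using this
  -- but `℘` is not constant near `0`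
  apply weierstrassP_not_eventually_const L e
  have hev1 := eventually_nhdsNE_zero_notMem L
  have hev2 : ∀ᶠ z in 𝓝[≠] (0 : ℂ), z - h ∉ L.lattice := by
    have hopen : IsOpen {z : ℂ | z - h ∉ L.lattice} := by
      have : {z : ℂ | z - h ∉ L.lattice} = (fun z => z - h) ⁻¹' (L.lattice : Set ℂ)ᶜ := rfl
      rw [this]
      exact L.isClosed_lattice.isOpen_compl.preimage (by fun_prop)
    exact mem_nhdsWithin_of_mem_nhds (hopen.mem_nhds (by simpa using hnegh))
  filter_upwards [hev1, hev2] with z hz1 hz2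
  exact hconst z ((hmem z).mpr ⟨hz1, hz2⟩)

/-- the value of `κ`: for half-periods `h, h'` with `h' ∉ L`, `h' - h ∉ L` we get
`κ = (℘ h' - ℘ h) (℘ (h' - h) - ℘ h)`, and in particular `℘ h' ≠ ℘ h`. -/
theorem weierstrassP_ne_of_halfPeriod (L : PeriodPair) {h h' : ℂ} (hh : h ∉ L.lattice)
    (hh2 : 2 * h ∈ L.lattice) (hh' : h' ∉ L.lattice) (hd : h' - h ∉ L.lattice) :
    ℘[L] h' ≠ ℘[L] h := by
  obtain ⟨κ, hκ⟩ := exists_halfPeriod_translate L hh hh2
  have hne := halfPeriod_const_ne_zero L hh hh2 hκ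
  intro heq
  apply hne
  rw [← hκ h' hh' hd, heq, sub_self, zero_mul]

/-! ### The three half-periods -/

/-- `e₁ = ℘(ω₁/2)` -/
def e₁ (L : PeriodPair) : ℂ := ℘[L] (L.ω₁ / 2)
/-- `e₂ = ℘(ω₂/2)` -/
def e₂ (L : PeriodPair) : ℂ := ℘[L] (L.ω₂ / 2)
/-- `e₃ = ℘(ω₁/2 + ω₂/2)` -/
def e₃ (L : PeriodPair) : ℂ := ℘[L] (L.ω₁ / 2 + L.ω₂ / 2)

theorem half_add_half_notMem (L : PeriodPair) : L.ω₁ / 2 + L.ω₂ / 2 ∉ L.lattice := by
  have := (L.mul_ω₁_add_mul_ω₂_mem_lattice (α := 1 / 2) (β := 1 / 2)).not.mpr (by norm_num)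
  have h : L.ω₁ / 2 + L.ω₂ / 2 = ((1 / 2 : ℚ) : ℂ) * L.ω₁ + ((1 / 2 : ℚ) : ℂ) * L.ω₂ := by
    push_cast; ring
  rw [h]; exact this

theorem half_sub_half_notMem (L : PeriodPair) : L.ω₁ / 2 - L.ω₂ / 2 ∉ L.lattice := by
  have := (L.mul_ω₁_add_mul_ω₂_mem_lattice (α := 1 / 2) (β := -1 / 2)).not.mpr (by norm_num)
  have h : L.ω₁ / 2 - L.ω₂ / 2 = ((1 / 2 : ℚ) : ℂ) * L.ω₁ + ((-1 / 2 : ℚ) : ℂ) * L.ω₂ := by
    push_cast; ring
  rw [h]; exact this

theorem two_mul_half₁ (L : PeriodPair) : 2 * (L.ω₁ / 2) ∈ L.lattice := by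
  rw [mul_div_cancel₀ _ (two_ne_zero)]; exact L.ω₁_mem_lattice

theorem two_mul_half₂ (L : PeriodPair) : 2 * (L.ω₂ / 2) ∈ L.lattice := by
  rw [mul_div_cancel₀ _ (two_ne_zero)]; exact L.ω₂_mem_lattice

theorem two_mul_half₃ (L : PeriodPair) : 2 * (L.ω₁ / 2 + L.ω₂ / 2) ∈ L.lattice := by
  have : 2 * (L.ω₁ / 2 + L.ω₂ / 2) = L.ω₁ + L.ω₂ := by ring
  rw [this]; exact L.lattice.add_mem L.ω₁_mem_lattice L.ω₂_mem_lattice

theorem e₁_ne_e₂ (L : PeriodPair) : e₁ L ≠ e₂ L :=
  weierstrassP_ne_of_halfPeriod L L.ω₂_div_two_notMem_lattice (two_mul_half₂ L)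
    L.ω₁_div_two_notMem_lattice (half_sub_half_notMem L)

theorem e₃_ne_e₁ (L : PeriodPair) : e₃ L ≠ e₁ L :=
  weierstrassP_ne_of_halfPeriod L L.ω₁_div_two_notMem_lattice (two_mul_half₁ L)
    (half_add_half_notMem L) (by
      have : L.ω₁ / 2 + L.ω₂ / 2 - L.ω₁ / 2 = L.ω₂ / 2 := by ring
      rw [this]; exact L.ω₂_div_two_notMem_lattice)

theorem e₃_ne_e₂ (L : PeriodPair) : e₃ L ≠ e₂ L :=
  weierstrassP_ne_of_halfPeriod L L.ω₂_div_two_notMem_lattice (two_mul_half₂ L)
    (half_add_half_notMem L) (by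
      have : L.ω₁ / 2 + L.ω₂ / 2 - L.ω₂ / 2 = L.ω₁ / 2 := by ring
      rw [this]; exact L.ω₁_div_two_notMem_lattice)

/-- `℘ h` is a root of the cubic `4 x³ - g₂ x - g₃` for a half-period `h ∉ L` -/
theorem cubic_halfPeriod (L : PeriodPair) {h : ℂ} (hh : h ∉ L.lattice)
    (hh2 : 2 * h ∈ L.lattice) : 4 * ℘[L] h ^ 3 - L.g₂ * ℘[L] h - L.g₃ = 0 := by
  have := L.derivWeierstrassP_sq h hh
  rw [derivWeierstrassP_halfPeriod L hh2] at this
  simpa using this.symm

theorem cubic_e₁ (L : PeriodPair) : 4 * e₁ L ^ 3 - L.g₂ * e₁ L - L.g₃ = 0 :=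
  cubic_halfPeriod L L.ω₁_div_two_notMem_lattice (two_mul_half₁ L)
theorem cubic_e₂ (L : PeriodPair) : 4 * e₂ L ^ 3 - L.g₂ * e₂ L - L.g₃ = 0 :=
  cubic_halfPeriod L L.ω₂_div_two_notMem_lattice (two_mul_half₂ L)
theorem cubic_e₃ (L : PeriodPair) : 4 * e₃ L ^ 3 - L.g₂ * e₃ L - L.g₃ = 0 :=
  cubic_halfPeriod L (half_add_half_notMem L) (two_mul_half₃ L)

/-- Vieta: `e₁ + e₂ + e₃ = 0`. -/
theorem e_sum (L : PeriodPair) : e₁ L + e₂ L + e₃ L = 0 := by
  have h1 := cubic_e₁ L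
  have h2 := cubic_e₂ L
  have h3 := cubic_e₃ L
  have h12 : e₁ L - e₂ L ≠ 0 := sub_ne_zero.mpr (e₁_ne_e₂ L)
  have h31 : e₃ L - e₁ L ≠ 0 := sub_ne_zero.mpr (e₃_ne_e₁ L)
  have h32 : e₃ L - e₂ L ≠ 0 := sub_ne_zero.mpr (e₃_ne_e₂ L)
  -- g₂ = 4 (e₁² + e₁ e₂ + e₂²) = 4 (e₁² + e₁ e₃ + e₃²)
  have a : L.g₂ = 4 * (e₁ L ^ 2 + e₁ L * e₂ L + e₂ L ^ 2) := by
    apply mul_left_cancel₀ h12
    linear_combination h2 - h1
  have b : L.g₂ = 4 * (e₁ L ^ 2 + e₁ L * e₃ L + e₃ L ^ 2) := by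
    apply mul_left_cancel₀ h31
    linear_combination h1 - h3
  apply mul_left_cancel₀ h32
  linear_combination (-1 / 4 : ℂ) * (b - a)

/-- Vieta: `g₂ = -4 (e₁ e₂ + e₁ e₃ + e₂ e₃)`. -/
theorem g₂_eq_e (L : PeriodPair) :
    L.g₂ = -4 * (e₁ L * e₂ L + e₁ L * e₃ L + e₂ L * e₃ L) := by
  have h1 := cubic_e₁ L
  have h2 := cubic_e₂ L
  have h12 : e₁ L - e₂ L ≠ 0 := sub_ne_zero.mpr (e₁_ne_e₂ L)
  have a : L.g₂ = 4 * (e₁ L ^ 2 + e₁ L * e₂ L + e₂ L ^ 2) := by
    apply mul_left_cancel₀ h12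
    linear_combination h2 - h1
  have hs := e_sum L
  have h3 : e₃ L = -(e₁ L + e₂ L) := by linear_combination hs
  rw [a, h3]; ring

/-- Vieta: `g₃ = 4 e₁ e₂ e₃`. -/
theorem g₃_eq_e (L : PeriodPair) : L.g₃ = 4 * e₁ L * e₂ L * e₃ L := by
  have h1 := cubic_e₁ L
  have hg := g₂_eq_e L
  have hs := e_sum L
  have h3 : e₃ L = -(e₁ L + e₂ L) := by linear_combination hs
  rw [hg, h3] at h1
  rw [h3]
  linear_combination -h1

/-- factorisation of the Weierstrass cubic -/
theorem cubic_factor (L : PeriodPair) (x : ℂ) :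
    4 * x ^ 3 - L.g₂ * x - L.g₃ = 4 * (x - e₁ L) * (x - e₂ L) * (x - e₃ L) := by
  have hs := e_sum L
  have h3 : e₃ L = -(e₁ L + e₂ L) := by linear_combination hs
  rw [g₂_eq_e L, g₃_eq_e L, h3]
  ring

/-- the lattice discriminant `g₂³ - 27 g₃²` -/
def latDisc (L : PeriodPair) : ℂ := L.g₂ ^ 3 - 27 * L.g₃ ^ 2

/-- `g₂³ - 27 g₃² = 16 (e₁ - e₂)² (e₁ - e₃)² (e₂ - e₃)²` -/
theorem latDisc_eq_e (L : PeriodPair) :
    latDisc L = 16 * ((e₁ L - e₂ L) * (e₁ L - e₃ L) * (e₂ L - e₃ L)) ^ 2 := by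
  have hs := e_sum L
  have h3 : e₃ L = -(e₁ L + e₂ L) := by linear_combination hs
  rw [latDisc, g₂_eq_e L, g₃_eq_e L, h3]
  ring

theorem latDisc_ne_zero (L : PeriodPair) : latDisc L ≠ 0 := by
  rw [latDisc_eq_e]
  have h12 : e₁ L - e₂ L ≠ 0 := sub_ne_zero.mpr (e₁_ne_e₂ L)
  have h13 : e₁ L - e₃ L ≠ 0 := sub_ne_zero.mpr (e₃_ne_e₁ L).symm
  have h23 : e₂ L - e₃ L ≠ 0 := sub_ne_zero.mpr (e₃_ne_e₂ L).symm
  exact mul_ne_zero (by norm_num) (pow_ne_zero _ (mul_ne_zero (mul_ne_zero h12 h13) h23))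

/-- `℘'(z)² = 4 (℘ z - e₁)(℘ z - e₂)(℘ z - e₃)` -/
theorem derivWeierstrassP_sq_factor (L : PeriodPair) {z : ℂ} (hz : z ∉ L.lattice) :
    ℘'[L] z ^ 2 = 4 * (℘[L] z - e₁ L) * (℘[L] z - e₂ L) * (℘[L] z - e₃ L) := by
  rw [L.derivWeierstrassP_sq z hz, cubic_factor]

end Fermat.Agent.S15.H662

end

end
-- ===== PACK-END S15/H662/Roots.lean

-- ===== PACK-BEGIN S15/H662/SubLattice.lean
section



/-!
# Row S15, piece I1 (helper662): the lattice `L' = L + ℤ ω₁/p`

`divPair L p` is the period pair `(ω₁ / p, ω₂)`; its lattice contains the lattice of `L` with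
index `p`.  Membership lemmas for the `p`-division points `k ω₁ / p` and the half-periods.

Mathlib-only.
-/

set_option autoImplicit false

open Filter Topology
open scoped PeriodPair

noncomputable section

namespace Fermat.Agent.S15.H662

/-- the period pair `(ω₁ / p, ω₂)` -/
def divPair (L : PeriodPair) (p : ℕ) (hp : p ≠ 0) : PeriodPair where
  ω₁ := L.ω₁ / p
  ω₂ := L.ω₂
  indep := by
    have h := L.indep
    rw [LinearIndependent.pair_iff] at h ⊢
    intro s t hst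
    have hp' : (p : ℝ) ≠ 0 := by exact_mod_cast hp
    have hpc : (p : ℂ) ≠ 0 := by exact_mod_cast hp
    have key := h (s / p) t (by
      rw [← hst]
      simp only [Complex.real_smul]
      push_cast
      field_simp)
    refine ⟨?_, key.2⟩
    have := key.1
    rw [div_eq_zero_iff] at this
    exact this.resolve_right hp'

@[simp] lemma divPair_ω₁ (L : PeriodPair) (p : ℕ) (hp : p ≠ 0) :
    (divPair L p hp).ω₁ = L.ω₁ / p := rfl
@[simp] lemma divPair_ω₂ (L : PeriodPair) (p : ℕ) (hp : p ≠ 0) :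
    (divPair L p hp).ω₂ = L.ω₂ := rfl

variable (L : PeriodPair) (p : ℕ) (hp : p ≠ 0)

/-- the `p`-division point `ω₁ / p` lies in the big lattice -/
theorem div_mem_divPair : L.ω₁ / p ∈ (divPair L p hp).lattice :=
  (divPair L p hp).ω₁_mem_lattice

/-- `L ≤ L'` -/
theorem lattice_le_divPair : L.lattice ≤ (divPair L p hp).lattice := by
  have hpc : (p : ℂ) ≠ 0 := by exact_mod_cast hp
  rw [PeriodPair.lattice, Submodule.span_le]
  rintro x (rfl | rfl)
  · have h1 : ((p : ℤ) : ℂ) * (L.ω₁ / p) = L.ω₁ := by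
      push_cast; field_simp
    have := (divPair L p hp).lattice.smul_mem (p : ℤ) (div_mem_divPair L p hp)
    rw [zsmul_eq_mul, h1] at this
    exact this
  · exact (divPair L p hp).ω₂_mem_lattice

/-- integer multiples of `ω₁ / p` lie in `L'` -/
theorem mul_div_mem_divPair (k : ℤ) : (k : ℂ) * (L.ω₁ / p) ∈ (divPair L p hp).lattice := by
  have := (divPair L p hp).lattice.smul_mem k (div_mem_divPair L p hp)
  rwa [zsmul_eq_mul] at this

theorem natMul_div_mem_divPair (k : ℕ) : (k : ℂ) * (L.ω₁ / p) ∈ (divPair L p hp).lattice := by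
  have := mul_div_mem_divPair L p hp (k : ℤ)
  simpa using this

/-- rational combinations: membership in `L'` -/
theorem rat_mem_divPair_iff {α β : ℚ} :
    (α : ℂ) * L.ω₁ + (β : ℂ) * L.ω₂ ∈ (divPair L p hp).lattice ↔
      (α * p).den = 1 ∧ β.den = 1 := by
  have hpc : (p : ℂ) ≠ 0 := by exact_mod_cast hp
  have h := (divPair L p hp).mul_ω₁_add_mul_ω₂_mem_lattice (α := α * p) (β := β)
  rw [← h]
  have : ((α * p : ℚ) : ℂ) * (divPair L p hp).ω₁ + (β : ℂ) * (divPair L p hp).ω₂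
      = (α : ℂ) * L.ω₁ + (β : ℂ) * L.ω₂ := by
    simp only [divPair_ω₁, divPair_ω₂]
    push_cast
    field_simp
  rw [this]

/-- `k / p` is not an integer for `0 < k < p` -/
theorem den_div_ne_one {p k : ℕ} (hk0 : 0 < k) (hkp : k < p) : ((k : ℚ) / p).den ≠ 1 := by
  intro hq
  have hp : p ≠ 0 := by omega
  have hpq : (p : ℚ) ≠ 0 := by exact_mod_cast hp
  obtain ⟨m, hm⟩ : ∃ m : ℤ, ((k : ℚ) / p) = m := ⟨((k : ℚ) / p).num, by
    conv_lhs => rw [← Rat.num_div_den ((k : ℚ) / p), hq]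
    simp⟩
  have hkm : (k : ℚ) = m * p := by
    field_simp at hm
    linear_combination hm
  have hkm' : (k : ℤ) = m * p := by exact_mod_cast hkm
  have hm0 : 0 < m := by
    by_contra hneg
    have hneg' : m ≤ 0 := not_lt.mp hneg
    have : (k : ℤ) ≤ 0 := by
      rw [hkm']
      exact mul_nonpos_of_nonpos_of_nonneg hneg' (by positivity)
    omega
  have : (p : ℤ) ≤ k := by
    rw [hkm']
    nlinarith
  omega

/-- `k ω₁ / p ∉ L` for `0 < k < p` -/
theorem natMul_div_notMem {k : ℕ} (hk0 : 0 < k) (hkp : k < p) :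
    (k : ℂ) * (L.ω₁ / p) ∉ L.lattice := by
  have hp : p ≠ 0 := by omega
  have hpc : (p : ℂ) ≠ 0 := by exact_mod_cast hp
  have h := (L.mul_ω₁_add_mul_ω₂_mem_lattice (α := (k : ℚ) / p) (β := 0)).not.mpr
    (fun h1 => den_div_ne_one hk0 hkp h1.1)
  have e : (k : ℂ) * (L.ω₁ / p) = (((k : ℚ) / p : ℚ) : ℂ) * L.ω₁ + ((0 : ℚ) : ℂ) * L.ω₂ := by
    push_cast
    field_simp
    ring
  rw [e]
  exact h

end Fermat.Agent.S15.H662

end

end
-- ===== PACK-END S15/H662/SubLattice.lean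

-- ===== PACK-BEGIN S12/H651/NodalGm.lean
section


/-!
# S12 / QUOT-Q3 (helper651), part 1: the multiplicative parametrisation of a split nodal cubic

Let `W` be a Weierstrass cubic over a field `k` with a singular point `(x₀, y₀)` whose two tangent
slopes `α ≠ β` lie in `k` (`SplitNode W`).  Then

  `u(P) = ((y - y₀) - α (x - x₀)) / ((y - y₀) - β (x - x₀))`,  `u(0) = 1`,

is an injective homomorphism from the group `W.Point` of nonsingular points to `kˣ`
(`nodeU_add`, `nodeU_ne_zero`, `nodeU_eq_one_iff`), and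
`x(P) = x₀ + (α - β)² u / (1 - u)²` (`x_eq_of_nodeU`).

Mathlib + the slope parametrisation `exists_param` of `S15.H242.NodalCount`.
-/

set_option autoImplicit false

namespace Fermat.Agent.S12.H651

open WeierstrassCurve WeierstrassCurve.Affine
open Fermat.Agent.S15.H242 (nodeQuad exists_param)

variable {k : Type*} [Field k]

/-- A split node of a Weierstrass cubic: the singular point `(x₀, y₀)` and the two distinct
tangent slopes `α`, `β` at it. -/
structure SplitNode (W : Affine k) where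
  /-- `x`-coordinate of the node -/
  x₀ : k
  /-- `y`-coordinate of the node -/
  y₀ : k
  /-- first tangent slope -/
  α : k
  /-- second tangent slope -/
  β : k
  hF : W.Equation x₀ y₀
  hFx : W.a₁ * y₀ - (3 * x₀ ^ 2 + 2 * W.a₂ * x₀ + W.a₄) = 0
  hFy : 2 * y₀ + W.a₁ * x₀ + W.a₃ = 0
  hsum : α + β = -W.a₁
  hprod : α * β = -(3 * x₀ + W.a₂)
  hne : α ≠ β

namespace SplitNode

variable {W : Affine k} (N : SplitNode W)

lemma a₁_eq : W.a₁ = -(N.α + N.β) := by rw [N.hsum]; ring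

lemma a₂_eq : W.a₂ = -(N.α * N.β) - 3 * N.x₀ := by rw [N.hprod]; ring

lemma a₃_eq : W.a₃ = -2 * N.y₀ + (N.α + N.β) * N.x₀ := by
  have h := N.hFy
  rw [N.a₁_eq] at h
  linear_combination h

lemma a₄_eq : W.a₄ = -(N.α + N.β) * N.y₀ + 3 * N.x₀ ^ 2 + 2 * (N.α * N.β) * N.x₀ := by
  have h := N.hFx
  rw [N.a₁_eq, N.a₂_eq] at h
  linear_combination -h

lemma nodeQuad_eq (t : k) : nodeQuad W N.x₀ t = (t - N.α) * (t - N.β) := by
  unfold nodeQuad
  rw [N.a₁_eq, N.a₂_eq]
  ring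

/-- `c₄ = (α - β)⁴`. -/
lemma c₄_eq : W.c₄ = ((N.α - N.β) ^ 2) ^ 2 := by
  rw [Fermat.Agent.S15.H242.c₄_eq_of_singular W N.hFx N.hFy]
  simp only [WeierstrassCurve.b₂]
  rw [N.a₁_eq, N.a₂_eq]
  ring

/-- The slope parametrisation of the nonsingular points. -/
lemma param {x y : k} (h : W.Nonsingular x y) :
    ∃ t : k, t ≠ N.α ∧ t ≠ N.β ∧ x = N.x₀ + (t - N.α) * (t - N.β) ∧
      y = N.y₀ + t * ((t - N.α) * (t - N.β)) := by
  obtain ⟨t, ht, hx, hy⟩ := exists_param N.hF N.hFx N.hFy h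
  rw [N.nodeQuad_eq] at ht hx hy
  refine ⟨t, ?_, ?_, hx, hy⟩
  · rintro rfl
    exact ht (by ring)
  · rintro rfl
    exact ht (by ring)

/-- Numerator of `u`. -/
def uNum (x y : k) : k := (y - N.y₀) - N.α * (x - N.x₀)

/-- Denominator of `u`. -/
def uDen (x y : k) : k := (y - N.y₀) - N.β * (x - N.x₀)

lemma uNum_param (t : k) :
    N.uNum (N.x₀ + (t - N.α) * (t - N.β)) (N.y₀ + t * ((t - N.α) * (t - N.β))) =
      (t - N.α) ^ 2 * (t - N.β) := by
  unfold uNum; ring

lemma uDen_param (t : k) :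
    N.uDen (N.x₀ + (t - N.α) * (t - N.β)) (N.y₀ + t * ((t - N.α) * (t - N.β))) =
      (t - N.α) * (t - N.β) ^ 2 := by
  unfold uDen; ring

lemma uNum_ne_zero {x y : k} (h : W.Nonsingular x y) : N.uNum x y ≠ 0 := by
  obtain ⟨t, hα, hβ, rfl, rfl⟩ := N.param h
  rw [N.uNum_param]
  exact mul_ne_zero (pow_ne_zero _ (sub_ne_zero.mpr hα)) (sub_ne_zero.mpr hβ)

lemma uDen_ne_zero {x y : k} (h : W.Nonsingular x y) : N.uDen x y ≠ 0 := by
  obtain ⟨t, hα, hβ, rfl, rfl⟩ := N.param h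
  rw [N.uDen_param]
  exact mul_ne_zero (sub_ne_zero.mpr hα) (pow_ne_zero _ (sub_ne_zero.mpr hβ))

/-- The multiplicative coordinate of a point of the nodal cubic. -/
def nodeU : W.Point → k
  | .zero => 1
  | .some x y _ => N.uNum x y / N.uDen x y

@[simp] lemma nodeU_zero : N.nodeU (0 : W.Point) = 1 := rfl

lemma nodeU_some {x y : k} (h : W.Nonsingular x y) :
    N.nodeU (Point.some x y h) = N.uNum x y / N.uDen x y := rfl

lemma nodeU_ne_zero (P : W.Point) : N.nodeU P ≠ 0 := by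
  rcases P with _ | ⟨x, y, h⟩
  · exact one_ne_zero
  · rw [nodeU_some]
    exact div_ne_zero (N.uNum_ne_zero h) (N.uDen_ne_zero h)

lemma nodeU_some_ne_one {x y : k} (h : W.Nonsingular x y) : N.nodeU (Point.some x y h) ≠ 1 := by
  obtain ⟨t, hα, hβ, rfl, rfl⟩ := N.param h
  rw [nodeU_some, N.uNum_param, N.uDen_param]
  intro hu
  have hα' := sub_ne_zero.mpr hα
  have hβ' := sub_ne_zero.mpr hβ
  rw [div_eq_one_iff_eq (mul_ne_zero hα' (pow_ne_zero _ hβ'))] at hu
  have h1 : (t - N.α) * (t - N.β) * (N.β - N.α) = 0 := by linear_combination hu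
  rcases mul_eq_zero.mp h1 with h2 | h2
  · exact (mul_ne_zero hα' hβ') h2
  · exact N.hne (sub_eq_zero.mp h2).symm

lemma nodeU_eq_one_iff (P : W.Point) : N.nodeU P = 1 ↔ P = 0 := by
  rcases P with _ | ⟨x, y, h⟩
  · exact ⟨fun _ => rfl, fun _ => rfl⟩
  · exact ⟨fun hu => absurd hu (N.nodeU_some_ne_one h), fun h0 => absurd h0 (Point.some_ne_zero _)⟩

/-- The `x`-coordinate in terms of `u`. -/
lemma x_eq_of_nodeU {x y : k} (h : W.Nonsingular x y) :
    x = N.x₀ + (N.α - N.β) ^ 2 * N.nodeU (Point.some x y h) /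
      (1 - N.nodeU (Point.some x y h)) ^ 2 := by
  have hne := N.nodeU_some_ne_one h
  obtain ⟨t, hα, hβ, rfl, rfl⟩ := N.param h
  rw [nodeU_some, N.uNum_param, N.uDen_param] at hne ⊢
  have hα' := sub_ne_zero.mpr hα
  have hβ' := sub_ne_zero.mpr hβ
  have hαβ : N.α - N.β ≠ 0 := sub_ne_zero.mpr N.hne
  have hu : (t - N.α) ^ 2 * (t - N.β) / ((t - N.α) * (t - N.β) ^ 2) = (t - N.α) / (t - N.β) := by
    field_simp
  rw [hu]
  have h1 : 1 - (t - N.α) / (t - N.β) = (N.α - N.β) / (t - N.β) := by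
    field_simp; ring
  rw [h1]
  field_simp

lemma uNum_negY (x y : k) : N.uNum x (W.negY x y) = -N.uDen x y := by
  unfold uNum uDen
  simp only [Affine.negY]
  rw [N.a₁_eq, N.a₃_eq]
  ring

lemma uDen_negY (x y : k) : N.uDen x (W.negY x y) = -N.uNum x y := by
  unfold uNum uDen
  simp only [Affine.negY]
  rw [N.a₁_eq, N.a₃_eq]
  ring

/-- The key identity behind the multiplicativity of `u`: `L` is the slope of the chord (or
tangent) through the points with slope parameters `t₁`, `t₂`. -/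
lemma key_add (t₁ t₂ L : k) (hs : t₁ + t₂ - N.α - N.β ≠ 0)
    (hL : L * (t₁ + t₂ - N.α - N.β) =
      t₁ ^ 2 + t₁ * t₂ + t₂ ^ 2 - (N.α + N.β) * (t₁ + t₂) + N.α * N.β) :
    N.uNum
        (W.addX (N.x₀ + (t₁ - N.α) * (t₁ - N.β)) (N.x₀ + (t₂ - N.α) * (t₂ - N.β)) L)
        (W.addY (N.x₀ + (t₁ - N.α) * (t₁ - N.β)) (N.x₀ + (t₂ - N.α) * (t₂ - N.β))
          (N.y₀ + t₁ * ((t₁ - N.α) * (t₁ - N.β))) L) *
      ((t₁ - N.β) * (t₂ - N.β)) =
    N.uDen
        (W.addX (N.x₀ + (t₁ - N.α) * (t₁ - N.β)) (N.x₀ + (t₂ - N.α) * (t₂ - N.β)) L)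
        (W.addY (N.x₀ + (t₁ - N.α) * (t₁ - N.β)) (N.x₀ + (t₂ - N.α) * (t₂ - N.β))
          (N.y₀ + t₁ * ((t₁ - N.α) * (t₁ - N.β))) L) *
      ((t₁ - N.α) * (t₂ - N.α)) := by
  have hLe : L = (t₁ ^ 2 + t₁ * t₂ + t₂ ^ 2 - (N.α + N.β) * (t₁ + t₂) + N.α * N.β) /
      (t₁ + t₂ - N.α - N.β) := by
    rw [eq_div_iff hs]; exact hL
  unfold uNum uDen
  simp only [Affine.addY, Affine.negAddY, Affine.negY, Affine.addX]
  rw [N.a₁_eq, N.a₂_eq, N.a₃_eq, hLe]
  field_simp
  ring

/-- The slope of the chord or tangent, in terms of the slope parameters. -/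
lemma slope_param [DecidableEq k] {t₁ t₂ : k} (h₁α : t₁ ≠ N.α) (h₁β : t₁ ≠ N.β)
    (h₂α : t₂ ≠ N.α) (h₂β : t₂ ≠ N.β)
    (hxy : ¬(N.x₀ + (t₁ - N.α) * (t₁ - N.β) = N.x₀ + (t₂ - N.α) * (t₂ - N.β) ∧
      N.y₀ + t₁ * ((t₁ - N.α) * (t₁ - N.β)) =
        W.negY (N.x₀ + (t₂ - N.α) * (t₂ - N.β)) (N.y₀ + t₂ * ((t₂ - N.α) * (t₂ - N.β))))) :
    t₁ + t₂ - N.α - N.β ≠ 0 ∧
    W.slope (N.x₀ + (t₁ - N.α) * (t₁ - N.β)) (N.x₀ + (t₂ - N.α) * (t₂ - N.β))
        (N.y₀ + t₁ * ((t₁ - N.α) * (t₁ - N.β))) (N.y₀ + t₂ * ((t₂ - N.α) * (t₂ - N.β))) *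
      (t₁ + t₂ - N.α - N.β) =
      t₁ ^ 2 + t₁ * t₂ + t₂ ^ 2 - (N.α + N.β) * (t₁ + t₂) + N.α * N.β := by
  have h₁α' := sub_ne_zero.mpr h₁α
  have h₁β' := sub_ne_zero.mpr h₁β
  have h₂α' := sub_ne_zero.mpr h₂α
  have h₂β' := sub_ne_zero.mpr h₂β
  by_cases hx : N.x₀ + (t₁ - N.α) * (t₁ - N.β) = N.x₀ + (t₂ - N.α) * (t₂ - N.β)
  · -- tangent case
    have hy : N.y₀ + t₁ * ((t₁ - N.α) * (t₁ - N.β)) ≠
        W.negY (N.x₀ + (t₂ - N.α) * (t₂ - N.β)) (N.y₀ + t₂ * ((t₂ - N.α) * (t₂ - N.β))) :=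
      fun hy => hxy ⟨hx, hy⟩
    have hg : (t₁ - N.α) * (t₁ - N.β) = (t₂ - N.α) * (t₂ - N.β) := add_left_cancel hx
    -- `t₁ = t₂`
    have hfac : (t₁ - t₂) * (t₁ + t₂ - N.α - N.β) = 0 := by linear_combination hg
    have hs : t₁ + t₂ - N.α - N.β ≠ 0 := by
      intro hs
      apply hy
      simp only [Affine.negY]
      rw [N.a₁_eq, N.a₃_eq]
      linear_combination t₁ * hg + (t₂ - N.α) * (t₂ - N.β) * hs
    have ht : t₁ = t₂ := by
      rcases mul_eq_zero.mp hfac with h | h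
      · exact sub_eq_zero.mp h
      · exact absurd h hs
    subst ht
    refine ⟨hs, ?_⟩
    rw [Affine.slope_of_Y_ne rfl hy]
    have e2 : t₁ + t₁ - N.α - N.β = 2 * t₁ - N.α - N.β := by ring
    rw [e2] at hs ⊢
    have hden : N.y₀ + t₁ * ((t₁ - N.α) * (t₁ - N.β)) -
        W.negY (N.x₀ + (t₁ - N.α) * (t₁ - N.β)) (N.y₀ + t₁ * ((t₁ - N.α) * (t₁ - N.β))) =
        (t₁ - N.α) * (t₁ - N.β) * (2 * t₁ - N.α - N.β) := by
      simp only [Affine.negY]
      rw [N.a₁_eq, N.a₃_eq]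
      ring
    have hnum : 3 * (N.x₀ + (t₁ - N.α) * (t₁ - N.β)) ^ 2 +
        2 * W.a₂ * (N.x₀ + (t₁ - N.α) * (t₁ - N.β)) + W.a₄ -
        W.a₁ * (N.y₀ + t₁ * ((t₁ - N.α) * (t₁ - N.β))) =
        (t₁ - N.α) * (t₁ - N.β) *
          (t₁ ^ 2 + t₁ * t₁ + t₁ ^ 2 - (N.α + N.β) * (t₁ + t₁) + N.α * N.β) := by
      rw [N.a₁_eq, N.a₂_eq, N.a₄_eq]
      ring
    rw [hden, hnum, mul_div_mul_left _ _ (mul_ne_zero h₁α' h₁β'), div_mul_cancel₀ _ hs]
  · -- chord case
    have hg : (t₁ - N.α) * (t₁ - N.β) - (t₂ - N.α) * (t₂ - N.β) ≠ 0 := by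
      intro h
      exact hx (by linear_combination h)
    have hfac : (t₁ - N.α) * (t₁ - N.β) - (t₂ - N.α) * (t₂ - N.β) =
        (t₁ - t₂) * (t₁ + t₂ - N.α - N.β) := by ring
    rw [hfac] at hg
    have ht : t₁ - t₂ ≠ 0 := left_ne_zero_of_mul hg
    have hs : t₁ + t₂ - N.α - N.β ≠ 0 := right_ne_zero_of_mul hg
    refine ⟨hs, ?_⟩
    rw [Affine.slope_of_X_ne hx]
    have hden : N.x₀ + (t₁ - N.α) * (t₁ - N.β) - (N.x₀ + (t₂ - N.α) * (t₂ - N.β)) =
        (t₁ - t₂) * (t₁ + t₂ - N.α - N.β) := by ring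
    rw [hden]
    field_simp
    ring

/-- **`u` is multiplicative.** -/
theorem nodeU_add [DecidableEq k] (P Q : W.Point) :
    N.nodeU (P + Q) = N.nodeU P * N.nodeU Q := by
  rcases P with _ | ⟨x₁, y₁, h₁⟩
  · change N.nodeU (0 + Q) = N.nodeU 0 * N.nodeU Q
    rw [zero_add, nodeU_zero, one_mul]
  rcases Q with _ | ⟨x₂, y₂, h₂⟩
  · change N.nodeU (_ + 0) = N.nodeU _ * N.nodeU 0
    rw [add_zero, nodeU_zero, mul_one]
  by_cases hxy : x₁ = x₂ ∧ y₁ = W.negY x₂ y₂
  · rw [Point.add_of_Y_eq hxy.1 hxy.2, nodeU_zero, nodeU_some, nodeU_some]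
    obtain ⟨hx, hy⟩ := hxy
    subst hx hy
    rw [N.uNum_negY, N.uDen_negY]
    have hn := N.uNum_ne_zero h₂
    have hd := N.uDen_ne_zero h₂
    field_simp
  · rw [Point.add_some hxy, nodeU_some, nodeU_some, nodeU_some]
    have h₃ := Affine.nonsingular_add h₁ h₂ hxy
    have hd₃ := N.uDen_ne_zero h₃
    obtain ⟨t₁, h₁α, h₁β, rfl, rfl⟩ := N.param h₁
    obtain ⟨t₂, h₂α, h₂β, rfl, rfl⟩ := N.param h₂
    obtain ⟨hs, hL⟩ := N.slope_param h₁α h₁β h₂α h₂β hxy
    have hkey := N.key_add t₁ t₂ _ hs hL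
    rw [N.uNum_param, N.uDen_param, N.uNum_param, N.uDen_param]
    have h₁α' := sub_ne_zero.mpr h₁α
    have h₁β' := sub_ne_zero.mpr h₁β
    have h₂α' := sub_ne_zero.mpr h₂α
    have h₂β' := sub_ne_zero.mpr h₂β
    rw [div_eq_iff hd₃]
    have e : (t₁ - N.α) ^ 2 * (t₁ - N.β) / ((t₁ - N.α) * (t₁ - N.β) ^ 2) *
        ((t₂ - N.α) ^ 2 * (t₂ - N.β) / ((t₂ - N.α) * (t₂ - N.β) ^ 2)) =
        ((t₁ - N.α) * (t₂ - N.α)) / ((t₁ - N.β) * (t₂ - N.β)) := by
      field_simp
    rw [e, div_mul_eq_mul_div, eq_div_iff (mul_ne_zero h₁β' h₂β')]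
    linear_combination hkey

theorem nodeU_nsmul [DecidableEq k] (n : ℕ) (P : W.Point) :
    N.nodeU (n • P) = N.nodeU P ^ n := by
  induction n with
  | zero => simp
  | succ n ih => rw [succ_nsmul, nodeU_add, ih, pow_succ]

theorem nodeU_injective [DecidableEq k] : Function.Injective N.nodeU := by
  intro P Q h
  have h1 : N.nodeU (P - Q) = 1 := by
    have h2 : N.nodeU (P - Q) * N.nodeU Q = N.nodeU P := by
      rw [← nodeU_add, sub_add_cancel]
    rw [h] at h2
    exact mul_right_cancel₀ (N.nodeU_ne_zero Q) (by rw [h2, one_mul])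
  exact sub_eq_zero.mp ((N.nodeU_eq_one_iff _).mp h1)

end SplitNode

end Fermat.Agent.S12.H651

end
-- ===== PACK-END S12/H651/NodalGm.lean

-- ===== PACK-BEGIN S12/H651/NodalVelu.lean
section




/-!
# S12 / QUOT-Q3 (helper651), part 3: Vélu's quotient of a nodal cubic by `μ_p`

`W` a Weierstrass cubic over a field `k` with a split node, `Q` a nonsingular point of exact order
`p` (a prime `> 5`).  Then Vélu's curve `H542.veluCurve W Q p` (helper542's definition) has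

  `c₄(W') = p⁴ · c₄(W)`                       (`c₄_veluCurve_of_splitNode`).

Also general facts on Vélu's sums for any Weierstrass cubic:
`c₄_veluCurve : c₄(W') = c₄(W) + 240 t`  and  `two_mul_veluT : 2 t = ∑_{k=1}^{p-1} t₁(x(kQ))`.
-/

set_option autoImplicit false

namespace Fermat.Agent.S12.H651

open WeierstrassCurve WeierstrassCurve.Affine
open Fermat.Agent.S15.H542 (xOf yOf veluT1 veluU1 veluT veluW veluCurve)

variable {k : Type*} [Field k] [DecidableEq k]

section General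

variable (W : WeierstrassCurve k)

omit [DecidableEq k] in
lemma xOf_neg (P : W.toAffine.Point) : xOf (-P) = xOf P := by
  rcases P with _ | ⟨x, y, h⟩
  · rfl
  · rw [Point.neg_some]; rfl

/-- `c₄` of Vélu's curve. -/
theorem c₄_veluCurve (Q : W.toAffine.Point) (p : ℕ) :
    (veluCurve W Q p).c₄ = W.c₄ + 240 * veluT W Q p := by
  simp only [WeierstrassCurve.c₄, WeierstrassCurve.b₂, WeierstrassCurve.b₄, veluCurve]
  ring

/-- The half sum defining Vélu's `t`, doubled, is the sum over all nonzero multiples. -/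
theorem two_mul_veluT {Q : W.toAffine.Point} {p : ℕ} (hodd : Odd p) (hQ : p • Q = 0) :
    2 * veluT W Q p = ∑ j ∈ Finset.Icc 1 (p - 1), veluT1 W (xOf (j • Q)) := by
  obtain ⟨m, rfl⟩ := hodd
  have hm : (2 * m + 1 - 1) / 2 = m := by omega
  unfold veluT
  rw [hm]
  have e1 : Finset.Icc 1 (2 * m + 1 - 1) = Finset.Ico 1 (2 * m + 1) := by
    ext j; simp only [Finset.mem_Icc, Finset.mem_Ico]; omega
  have e2 : Finset.Icc 1 m = Finset.Ico 1 (m + 1) := by
    ext j; simp only [Finset.mem_Icc, Finset.mem_Ico]; omega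
  rw [e1, e2, ← Finset.sum_Ico_consecutive _ (by omega : 1 ≤ m + 1) (by omega : m + 1 ≤ 2 * m + 1)]
  have hrefl := Finset.sum_Ico_reflect (fun j => veluT1 W (xOf (j • Q))) 1
    (by omega : m + 1 ≤ 2 * m + 1 + 1)
  have e3 : 2 * m + 1 + 1 - (m + 1) = m + 1 := by omega
  have e4 : 2 * m + 1 + 1 - 1 = 2 * m + 1 := by omega
  rw [e3, e4] at hrefl
  rw [← hrefl, two_mul]
  congr 1
  refine Finset.sum_congr rfl fun j hj => ?_
  rw [Finset.mem_Ico] at hj
  have hle : j ≤ 2 * m + 1 := by omega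
  have : (2 * m + 1 - j) • Q = -(j • Q) := by
    rw [sub_nsmul Q hle, hQ, zero_add]
  rw [this, xOf_neg]

end General

section Nodal

variable {W : WeierstrassCurve k} (N : SplitNode W.toAffine)

omit [DecidableEq k] in
/-- Vélu's `t₁` in coordinates centred at the node. -/
lemma veluT1_eq (x : k) :
    veluT1 W x = 6 * (x - N.x₀) ^ 2 + (N.α - N.β) ^ 2 * (x - N.x₀) := by
  unfold veluT1
  simp only [WeierstrassCurve.b₂, WeierstrassCurve.b₄]
  have h1 := N.a₁_eq
  have h2 := N.a₂_eq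
  have h3 := N.a₃_eq
  have h4 := N.a₄_eq
  simp only [WeierstrassCurve.toAffine] at h1 h2 h3 h4
  rw [h1, h2, h3, h4]
  ring

omit [DecidableEq k] in
/-- Vélu's `t₁` at a nonzero point, in terms of the multiplicative coordinate. -/
lemma veluT1_xOf {P : W.toAffine.Point} (hP : P ≠ 0) :
    veluT1 W (xOf P) = ((N.α - N.β) ^ 2) ^ 2 *
      (6 * (N.nodeU P / (1 - N.nodeU P) ^ 2) ^ 2 + N.nodeU P / (1 - N.nodeU P) ^ 2) := by
  rcases P with _ | ⟨x, y, h⟩
  · exact absurd rfl hP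
  · have hx := N.x_eq_of_nodeU h
    have hx' : x - N.x₀ = (N.α - N.β) ^ 2 *
        (N.nodeU (Point.some x y h) / (1 - N.nodeU (Point.some x y h)) ^ 2) := by
      rw [mul_div_assoc] at hx
      linear_combination hx
    change veluT1 W x = _
    rw [veluT1_eq N, hx']
    ring

omit [DecidableEq k] in
/-- `240 ∣ p⁴ - 1` for a prime `p > 5`, in the form needed in characteristic `2, 3, 5`. -/
lemma pow_four_eq_one_of_thirty_eq_zero {p : ℕ} (hp : p.Prime) (hp5 : 5 < p)
    (h30 : (30 : k) = 0) : (p : k) ^ 4 = 1 := by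
  have h2 : ¬ 2 ∣ p := fun h => by
    have := (Nat.prime_dvd_prime_iff_eq Nat.prime_two hp).mp h; omega
  have h3 : ¬ 3 ∣ p := fun h => by
    have := (Nat.prime_dvd_prime_iff_eq Nat.prime_three hp).mp h; omega
  have h5 : ¬ 5 ∣ p := fun h => by
    have := (Nat.prime_dvd_prime_iff_eq Nat.prime_five hp).mp h; omega
  have key : ∀ r : ℕ, r < 30 → ¬ 2 ∣ r → ¬ 3 ∣ r → ¬ 5 ∣ r → r ^ 4 % 30 = 1 := by decide
  have hr := key (p % 30) (Nat.mod_lt _ (by norm_num))
    (fun h => h2 ((Nat.dvd_mod_iff (by norm_num : 2 ∣ 30)).mp h))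
    (fun h => h3 ((Nat.dvd_mod_iff (by norm_num : 3 ∣ 30)).mp h))
    (fun h => h5 ((Nat.dvd_mod_iff (by norm_num : 5 ∣ 30)).mp h))
  have hmod : p ^ 4 % 30 = 1 := by
    rw [Nat.pow_mod, hr]
  have hdecomp : p ^ 4 = 30 * (p ^ 4 / 30) + 1 := by
    have := Nat.div_add_mod (p ^ 4) 30
    omega
  have hc := congrArg (Nat.cast : ℕ → k) hdecomp
  push_cast at hc
  rw [hc, h30, zero_mul, zero_add]

/-- In characteristic `2`, `3`, `5` Vélu's curve has `c₄' = c₄ = p⁴ c₄` (any cubic). -/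
theorem c₄_veluCurve_of_thirty_eq_zero (W : WeierstrassCurve k) {p : ℕ} (hp : p.Prime)
    (hp5 : 5 < p) (Q : W.toAffine.Point) (h30 : (30 : k) = 0) :
    (veluCurve W Q p).c₄ = (p : k) ^ 4 * W.c₄ := by
  rw [c₄_veluCurve]
  have h240 : (240 : k) = 0 := by
    have : (240 : k) = 8 * 30 := by norm_num
    rw [this, h30, mul_zero]
  rw [h240, zero_mul, add_zero, pow_four_eq_one_of_thirty_eq_zero hp hp5 h30, one_mul]

/-- **Vélu's quotient of a split nodal cubic by a subgroup of prime order `p > 5` multiplies `c₄`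
by `p⁴`.** -/
theorem c₄_veluCurve_of_splitNode (N : SplitNode W.toAffine) {p : ℕ} (hp : p.Prime)
    (hp5 : 5 < p) {Q : W.toAffine.Point} (hQ : addOrderOf Q = p) :
    (veluCurve W Q p).c₄ = (p : k) ^ 4 * W.c₄ := by
  by_cases h30 : (30 : k) = 0
  · exact c₄_veluCurve_of_thirty_eq_zero W hp hp5 Q h30
  · rw [c₄_veluCurve]
    have h2 : (2 : k) ≠ 0 := fun h => h30 (by
      have : (30 : k) = 2 * 15 := by norm_num
      rw [this, h, zero_mul])
    have h3 : (3 : k) ≠ 0 := fun h => h30 (by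
      have : (30 : k) = 3 * 10 := by norm_num
      rw [this, h, zero_mul])
    have h5 : (5 : k) ≠ 0 := fun h => h30 (by
      have : (30 : k) = 5 * 6 := by norm_num
      rw [this, h, zero_mul])
    have hpQ : p • Q = 0 := by rw [← hQ]; exact addOrderOf_nsmul_eq_zero Q
    have hodd : Odd p := hp.odd_of_ne_two (by omega)
    have hQ0 : Q ≠ 0 := by
      rintro rfl
      rw [addOrderOf_zero] at hQ
      exact hp.one_lt.ne hQ
    -- `u` is a primitive `p`-th root of unity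
    have hu1 : N.nodeU Q ^ p = 1 := by rw [← N.nodeU_nsmul, hpQ, SplitNode.nodeU_zero]
    have hune : N.nodeU Q ≠ 1 := fun h => hQ0 ((N.nodeU_eq_one_iff Q).mp h)
    have hprim : IsPrimitiveRoot (N.nodeU Q) p := by
      have hord : orderOf (N.nodeU Q) ∣ p := orderOf_dvd_of_pow_eq_one hu1
      rcases (Nat.dvd_prime hp).mp hord with h | h
      · exact absurd (orderOf_eq_one_iff.mp h) hune
      · rw [← h]; exact IsPrimitiveRoot.orderOf _
    have hsum := root_sum (by omega : 5 ≤ p) hprim h2 h3 h5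
    have h2t := two_mul_veluT W hodd hpQ
    have hterm : ∀ j ∈ Finset.Icc 1 (p - 1), veluT1 W (xOf (j • Q)) =
        ((N.α - N.β) ^ 2) ^ 2 * (6 * (N.nodeU Q ^ j / (1 - N.nodeU Q ^ j) ^ 2) ^ 2 +
          N.nodeU Q ^ j / (1 - N.nodeU Q ^ j) ^ 2) := by
      intro j hj
      rw [Finset.mem_Icc] at hj
      have hj0 : j • Q ≠ 0 := by
        intro h0
        have hd : addOrderOf Q ∣ j := addOrderOf_dvd_of_nsmul_eq_zero h0
        rw [hQ] at hd
        have := Nat.le_of_dvd (by omega) hd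
        omega
      rw [veluT1_xOf N hj0, N.nodeU_nsmul]
    rw [Finset.sum_congr rfl hterm, ← Finset.mul_sum] at h2t
    have hc4 : W.c₄ = ((N.α - N.β) ^ 2) ^ 2 := N.c₄_eq
    rw [hc4]
    linear_combination 120 * h2t + ((N.α - N.β) ^ 2) ^ 2 * hsum

omit [DecidableEq k] in
/-- A split node from a square root of the discriminant `b₂ + 12 x₀` of the tangent cone
(characteristic `≠ 2`). -/
noncomputable def SplitNode.ofSqrt (hc : W.c₄ ≠ 0) (hΔ : W.Δ = 0) (h2 : (2 : k) ≠ 0) {d : k}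
    (hd : d ^ 2 = W.b₂ + 12 * Fermat.Agent.S15.H242.singX W.toAffine) :
    SplitNode W.toAffine where
  x₀ := Fermat.Agent.S15.H242.singX W.toAffine
  y₀ := Fermat.Agent.S15.H242.singY W.toAffine
  α := (-W.a₁ + d) / 2
  β := (-W.a₁ - d) / 2
  hF := Fermat.Agent.S15.H242.sing_F W.toAffine hc hΔ
  hFx := Fermat.Agent.S15.H242.sing_Fx W.toAffine hc hΔ
  hFy := Fermat.Agent.S15.H242.sing_Fy W.toAffine hc
  hsum := by
    show (-W.a₁ + d) / 2 + (-W.a₁ - d) / 2 = -W.a₁
    field_simp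
    ring
  hprod := by
    show (-W.a₁ + d) / 2 * ((-W.a₁ - d) / 2) =
      -(3 * Fermat.Agent.S15.H242.singX W.toAffine + W.a₂)
    have hb : W.b₂ = W.a₁ ^ 2 + 4 * W.a₂ := rfl
    rw [hb] at hd
    field_simp
    linear_combination -hd
  hne := by
    intro h
    have hd0 : d = 0 := by
      have h' : (-W.a₁ + d) = (-W.a₁ - d) := by
        have := congrArg (fun z => z * 2) h
        simpa [div_mul_cancel₀ _ h2] using this
      have h'' : 2 * d = 0 := by linear_combination h'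
      rcases mul_eq_zero.mp h'' with h3 | h3
      · exact absurd h3 h2
      · exact h3
    apply hc
    have hc4 := Fermat.Agent.S15.H242.c₄_eq_of_singular W.toAffine
      (Fermat.Agent.S15.H242.sing_Fx W.toAffine hc hΔ)
      (Fermat.Agent.S15.H242.sing_Fy W.toAffine hc)
    rw [hd0] at hd
    rw [hc4]
    have : W.toAffine.b₂ = W.b₂ := rfl
    rw [this, ← hd]
    ring

/-- **Vélu's quotient of a nodal cubic (`Δ = 0`, `c₄ ≠ 0`) by a subgroup of prime order `p > 5`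
multiplies `c₄` by `p⁴`**, provided the tangent slopes at the node are rational over `k`. -/
theorem c₄_veluCurve_of_nodal (hc : W.c₄ ≠ 0) (hΔ : W.Δ = 0)
    (hsq : ∃ d : k, d ^ 2 = W.b₂ + 12 * Fermat.Agent.S15.H242.singX W.toAffine)
    {p : ℕ} (hp : p.Prime) (hp5 : 5 < p) {Q : W.toAffine.Point} (hQ : addOrderOf Q = p) :
    (veluCurve W Q p).c₄ = (p : k) ^ 4 * W.c₄ := by
  by_cases h30 : (30 : k) = 0
  · exact c₄_veluCurve_of_thirty_eq_zero W hp hp5 Q h30
  · have h2 : (2 : k) ≠ 0 := fun h => h30 (by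
      have : (30 : k) = 2 * 15 := by norm_num
      rw [this, h, zero_mul])
    obtain ⟨d, hd⟩ := hsq
    exact c₄_veluCurve_of_splitNode (SplitNode.ofSqrt hc hΔ h2 hd) hp hp5 hQ

end Nodal

end Fermat.Agent.S12.H651

end
-- ===== PACK-END S12/H651/NodalVelu.lean

-- ===== PACK-BEGIN S12/H291/OneStep.lean
section








/-!
# S12 — the ONE-STEP route: TOP assembly (helper291)

`s12_of_piRat : PiRatStatement → frozen S12`.

For a cofixed line `N` of the Frey curve `E : y² + xy = x³ + ((Y - 1 - X)/4) x² - (XY/16) x`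
(`X = a^p`, `Y = b^p`; `2`-torsion `ε₁ = 0`, `ε₂ = X/4`, `ε₃ = -Y/4`) and a generator `T₀` of `N`
put `Π_j := ∏_{k ∈ Ico 1 p} (x(k • T₀) - ε_j)`.

* Jacobi's identity (`Jacobi.lean`, proved):  `(X+Y)^p Π₁² = X^p Π₃² + Y^p Π₂²`.
* `PiRatStatement` (NODE): the `Π_j` are rational, `Π₃² = Π₁²` and `Π₁² = 16^(p-1) Π₂²`
  (i.e. `N` is the toric line at every prime; this is where frozen S15 enters).
* Endgame (`Endgame.lean`, proved): `16^(p-1) ((X+Y)^p - X^p) = Y^p` is impossible `2`-adically.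
-/

set_option autoImplicit false
set_option linter.unusedSectionVars false

noncomputable section

open WeierstrassCurve WeierstrassCurve.Affine WeierstrassCurve.Affine.Point

namespace Fermat.Agent.S12.H291

/-- `ℚ̄`. -/
abbrev Qb : Type := AlgebraicClosure ℚ

/-- The `ℚ̄`-points of the Frey curve (Prelude shape). -/
abbrev FreyPt (P : FreyPackage) : Type := (P.freyCurve⁄Qb).Point

/-- `ε₂ = a^p / 4`. -/
def eps₂ (P : FreyPackage) : Qb := algebraMap ℚ Qb ((P.a : ℚ) ^ P.p / 4)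

/-- `ε₃ = - b^p / 4`. -/
def eps₃ (P : FreyPackage) : Qb := algebraMap ℚ Qb (-((P.b : ℚ) ^ P.p) / 4)

/-- The Frey curve over `ℚ̄` has full `2`-torsion `ε₃, 0, ε₂`. -/
lemma frey_fullTwo (P : FreyPackage) : FullTwo (P.freyCurve⁄Qb) (eps₃ P) 0 (eps₂ P) := by
  have ha : ((P.a : ℚ) ^ P.p) ≠ 0 := pow_ne_zero _ (by exact_mod_cast P.ha0)
  have hb : ((P.b : ℚ) ^ P.p) ≠ 0 := pow_ne_zero _ (by exact_mod_cast P.hb0)
  have hc : ((P.a : ℚ) ^ P.p) + ((P.b : ℚ) ^ P.p) ≠ 0 := by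
    have h := P.hFLT
    have h' : ((P.a : ℚ) ^ P.p) + ((P.b : ℚ) ^ P.p) = (P.c : ℚ) ^ P.p := by exact_mod_cast h
    rw [h']
    exact pow_ne_zero _ (by exact_mod_cast P.hc0)
  have inj := (algebraMap ℚ Qb).injective
  refine ⟨two_ne_zero, ?_, ?_, ?_, ?_, ?_, ?_⟩
  · have : (P.freyCurve⁄Qb).b₂ = algebraMap ℚ Qb P.freyCurve.b₂ := by
      simp [WeierstrassCurve.baseChange]
    rw [this, eps₂, eps₃]
    simp only [WeierstrassCurve.b₂, FreyPackage.freyCurve]
    rw [show (-4 : Qb) = algebraMap ℚ Qb (-4) by simp, show (0 : Qb) = algebraMap ℚ Qb 0 by simp,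
      ← map_add, ← map_add, ← map_mul]
    congr 1
    ring
  · have : (P.freyCurve⁄Qb).b₄ = algebraMap ℚ Qb P.freyCurve.b₄ := by
      simp [WeierstrassCurve.baseChange]
    rw [this, eps₂, eps₃]
    simp only [WeierstrassCurve.b₄, FreyPackage.freyCurve]
    rw [show (2 : Qb) = algebraMap ℚ Qb 2 by simp, show (0 : Qb) = algebraMap ℚ Qb 0 by simp,
      ← map_mul, ← map_mul, ← map_mul, ← map_add, ← map_add, ← map_mul]
    congr 1
    ring
  · have : (P.freyCurve⁄Qb).b₆ = algebraMap ℚ Qb P.freyCurve.b₆ := by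
      simp [WeierstrassCurve.baseChange]
    rw [this]
    simp [WeierstrassCurve.b₆, FreyPackage.freyCurve]
  · rw [eps₃, ← map_zero (algebraMap ℚ Qb)]
    intro h
    have := inj h
    field_simp at this
    exact hb (by linarith)
  · rw [eps₃, eps₂]
    intro h
    have := inj h
    field_simp at this
    exact hc (by linarith)
  · rw [eps₂, ← map_zero (algebraMap ℚ Qb)]
    intro h
    have := inj h
    field_simp at this
    exact ha (by linarith)

/-- **NODE PiRat** (this is where frozen S15 enters, through "the cofixed line is the toric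
line at every prime"): for a cofixed line of the Frey representation, `17 ≤ p`, there is a point
`T₀` of order `p` (a generator of the line) such that the three products
`Π_j = ∏_{k ∈ Ico 1 p} (x(k • T₀) - ε_j)` are rational numbers `r₁, r₂, r₃` (for
`ε₁ = 0`, `ε₂ = a^p/4`, `ε₃ = -b^p/4`) with `r₃² = r₁²` and `r₁² = 16^(p-1) r₂²`. -/
def PiRatStatement : Prop :=
  ∀ (P : FreyPackage), 17 ≤ P.p →
    ∀ N : Submodule (ZMod P.p) (Submodule.torsionBy ℤ (FreyPt P) P.p),
      IsGaloisStable (K := Qb) ℚ N → N ≠ ⊥ → N ≠ ⊤ →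
      (∀ σ : Qb ≃ₐ[ℚ] Qb, ∀ x : Submodule.torsionBy ℤ (FreyPt P) P.p, σ • x - x ∈ N) →
      ∃ T₀ : Submodule.torsionBy ℤ (FreyPt P) P.p, T₀ ∈ N ∧ T₀ ≠ 0 ∧
        ∃ r₁ r₂ r₃ : ℚ, r₁ ≠ 0 ∧
          piProd (T₀ : FreyPt P) P.p 0 = algebraMap ℚ Qb r₁ ∧
          piProd (T₀ : FreyPt P) P.p (eps₂ P) = algebraMap ℚ Qb r₂ ∧
          piProd (T₀ : FreyPt P) P.p (eps₃ P) = algebraMap ℚ Qb r₃ ∧
          r₃ ^ 2 = r₁ ^ 2 ∧ r₁ ^ 2 = 16 ^ (P.p - 1) * r₂ ^ 2

lemma frey_a_pow_odd (P : FreyPackage) : Odd (P.a ^ P.p) := by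
  apply Odd.pow
  have h := P.ha4
  have h3 : ((P.a : ℤ) : ZMod 4) = ((3 : ℤ) : ZMod 4) := by rw [h]; rfl
  rw [ZMod.intCast_eq_intCast_iff_dvd_sub] at h3
  obtain ⟨k, hk⟩ := h3
  exact ⟨-2 * k + 1, by push_cast at hk; linarith⟩

lemma frey_b_pow_dvd (P : FreyPackage) : (32 : ℤ) ∣ P.b ^ P.p := by
  have h2 : (2 : ℤ) ∣ P.b := (ZMod.intCast_zmod_eq_zero_iff_dvd P.b 2).1 P.hb2
  have h5 : (2 : ℤ) ^ 5 ∣ P.b ^ 5 := pow_dvd_pow_of_dvd h2 5
  have h6 : P.b ^ 5 ∣ P.b ^ P.p := pow_dvd_pow _ P.hp5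
  exact (by norm_num : (32 : ℤ) = 2 ^ 5) ▸ h5.trans h6

/-- **Row S12, ONE-STEP TOP.**  The frozen statement S12 from the node `PiRatStatement`. -/
theorem s12_of_piRat (hPi : PiRatStatement) (P : FreyPackage) (hp : 17 ≤ P.p) :
    ¬ HasGaloisStableCofixedLine (K := AlgebraicClosure ℚ) ℚ P.freyCurve P.p := by
  rintro ⟨N, hstab, hbot, htop, hcof⟩
  obtain ⟨T₀, -, hT₀, r₁, r₂, r₃, hr₁, h1, h2, h3, h31, h12⟩ :=
    hPi P hp N hstab hbot htop hcof
  -- `T₀` has exact order `p`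
  have hord : addOrderOf (T₀ : FreyPt P) = P.p := by
    have hp0 : P.p • (T₀ : FreyPt P) = 0 := by
      have := T₀.2
      rw [Submodule.mem_torsionBy_iff] at this
      rw [← natCast_zsmul]
      exact this
    have hne : (T₀ : FreyPt P) ≠ 0 := fun h => hT₀ (Subtype.ext h)
    have hdvd := addOrderOf_dvd_of_nsmul_eq_zero hp0
    rcases (Nat.dvd_prime P.pp).mp hdvd with h | h
    · exact absurd (AddMonoid.addOrderOf_eq_one_iff.mp h) hne
    · exact h
  have hJ := jacobi_identity (frey_fullTwo P) P.hp_odd hord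
  rw [h1, h2, h3, eps₂, eps₃] at hJ
  rw [show (0 : Qb) = algebraMap ℚ Qb 0 by simp] at hJ
  simp only [← map_sub, ← map_pow, ← map_mul] at hJ
  have hQ := (algebraMap ℚ Qb).injective hJ
  -- the identity over `ℚ`
  have hr₂ : r₂ ≠ 0 := by
    rintro rfl
    apply hr₁
    have : r₁ ^ 2 = 0 := by rw [h12]; ring
    exact pow_eq_zero_iff (two_ne_zero) |>.mp this
  have h4p : ((4 : ℚ) ^ P.p) ≠ 0 := pow_ne_zero _ (by norm_num)
  have key : (16 : ℚ) ^ (P.p - 1) * (((P.a : ℚ) ^ P.p + (P.b : ℚ) ^ P.p) ^ P.p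
      - ((P.a : ℚ) ^ P.p) ^ P.p) = ((P.b : ℚ) ^ P.p) ^ P.p := by
    have hr₂2 : r₂ ^ 2 ≠ 0 := pow_ne_zero _ hr₂
    apply mul_right_cancel₀ hr₂2
    have e1 : ((P.a : ℚ) ^ P.p / 4 - -((P.b : ℚ) ^ P.p) / 4) ^ P.p
        = ((P.a : ℚ) ^ P.p + (P.b : ℚ) ^ P.p) ^ P.p / 4 ^ P.p := by
      rw [← div_pow]; congr 1; ring
    have e2 : ((P.a : ℚ) ^ P.p / 4 - 0) ^ P.p = ((P.a : ℚ) ^ P.p) ^ P.p / 4 ^ P.p := by
      rw [sub_zero, div_pow]
    have e3 : ((0 : ℚ) - -((P.b : ℚ) ^ P.p) / 4) ^ P.p = ((P.b : ℚ) ^ P.p) ^ P.p / 4 ^ P.p := by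
      rw [← div_pow]; congr 1; ring
    rw [e1, e2, e3, h31, h12] at hQ
    field_simp at hQ
    linear_combination hQ
  have keyZ : (16 : ℤ) ^ (P.p - 1) * ((P.a ^ P.p + P.b ^ P.p) ^ P.p - (P.a ^ P.p) ^ P.p)
      = (P.b ^ P.p) ^ P.p := by
    exact_mod_cast key
  exact endgame P.hp_odd (by have := P.hp5; omega) (frey_a_pow_odd P) (frey_b_pow_dvd P)
    (pow_ne_zero _ P.hb0) keyZ

end Fermat.Agent.S12.H291

end
end
-- ===== PACK-END S12/H291/OneStep.lean

-- ===== PACK-BEGIN LT/H670/Glue2Top.lean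
section


/-!
# Row LT, block GLUE2 (architect helper670) -- the proved assembly

* `surjC_of : KWC → ConjC → GrpC → SurjC`
* `matFormC_of : RepC → DetC → TraceC → IrrC → UnipC → MatFormC`
* `glue2_of_matForm : MatFormC → SurjC → SectionC → FrobC → W2C → IntBasisC → LiftC → LTB.Glue2`
* `glue2_of_leaves` : all thirteen leaves `→ LTB.Glue2`
-/

set_option autoImplicit false

open AutomorphicForm FLT.ExplicitLift EisensteinWeightOne
open WeierstrassCurve WeierstrassCurve.Affine WeierstrassCurve.Affine.Point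
open CongruenceSubgroup
open scoped MatrixGroups
open scoped WeierstrassCurve.Affine

noncomputable section

namespace Fermat.Agent.LT.H670

local notation "Γℚ" => (AlgebraicClosure ℚ ≃ₐ[ℚ] AlgebraicClosure ℚ)

/-- **G2b** from Kronecker--Weber for quadratic characters, complex conjugation and finite
group theory. -/
theorem surjC_of (hKW : KWC) (hcc : ConjC) (hG : GrpC) : SurjC := by
  intro ρ hρ hdet hirr hin
  have htop : ρ.range = ⊤ := by
    apply hG ρ.range
    · intro v hv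
      obtain ⟨σ, hσ⟩ := hirr v hv
      exact ⟨ρ σ, ⟨σ, rfl⟩, hσ⟩
    · refine ⟨ρ complexConjugation, ⟨_, rfl⟩, ?_, ?_⟩
      · rw [← map_mul, hcc.1, map_one]
      · rw [hdet, hcc.2]
    · by_cases h3 : ∃ g ∈ ρ.range, g ^ 3 = 1 ∧ g ≠ 1
      · exact Or.inl h3
      · right
        intro χ
        have hcont : Continuous (χ.comp ρ.rangeRestrict) := by
          have h1 : Continuous (ρ.rangeRestrict : Γℚ → ρ.range) :=
            hρ.subtype_mk _
          exact (continuous_of_discreteTopology (f := (χ : ρ.range → (ZMod 3)ˣ))).comp h1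
        have hunr : ∀ q : ℕ, q.Prime → q ≠ 3 →
            ∀ A : ValuationSubring (AlgebraicClosure ℚ), A.LiesOverPrime q →
              ∀ σ ∈ A.inertiaSubgroupIn ℚ, (χ.comp ρ.rangeRestrict) σ = 1 := by
          intro q hq hq3 A hA σ hσ
          have h1 : ρ σ = 1 := by
            by_contra hne
            exact h3 ⟨ρ σ, ⟨σ, rfl⟩, hin q hq hq3 A hA σ hσ, hne⟩
          have h2 : ρ.rangeRestrict σ = 1 := Subtype.ext h1
          rw [MonoidHom.comp_apply, h2, map_one]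
        rcases hKW (χ.comp ρ.rangeRestrict) hcont hunr with h | h
        · left
          refine MonoidHom.ext ?_
          rintro ⟨g, σ, rfl⟩
          have e := DFunLike.congr_fun h σ
          rw [MonoidHom.one_apply]
          exact e
        · right
          rintro ⟨g, σ, rfl⟩
          have e := DFunLike.congr_fun h σ
          rw [hdet σ]
          exact e
  intro g
  have : g ∈ ρ.range := by rw [htop]; exact Subgroup.mem_top g
  exact this

/-- reduction commutes with the trace of the lift. -/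
theorem red_trace_lift (Ψ : GL (Fin 2) (ZMod 3) →* GL (Fin 2) (ℤ√(-2)))
    (hΨ : ∀ g, Matrix.GeneralLinearGroup.map red (Ψ g) = g) (g : GL (Fin 2) (ZMod 3)) :
    red (((Ψ g : GL (Fin 2) (ℤ√(-2))) : Matrix (Fin 2) (Fin 2) (ℤ√(-2))).trace)
      = ((g : GL (Fin 2) (ZMod 3)) : Matrix (Fin 2) (Fin 2) (ZMod 3)).trace := by
  have e4 : ((Matrix.GeneralLinearGroup.map red (Ψ g) : GL (Fin 2) (ZMod 3)) :
      Matrix (Fin 2) (Fin 2) (ZMod 3)).trace
        = ((g : GL (Fin 2) (ZMod 3)) : Matrix (Fin 2) (Fin 2) (ZMod 3)).trace := by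
    rw [hΨ g]
  rw [← e4]
  simp [Matrix.trace, Matrix.GeneralLinearGroup.map, map_add]

/-- **G2a** from the five sub-leaves attached to a basis of `W[3]`. -/
theorem matFormC_of (hRep : RepC) (hDet : DetC) (hTr : TraceC) (hIrr : IrrC)
    (hUnip : UnipC) : MatFormC := by
  intro W hΔ hss h3
  obtain ⟨ρ, hρ, hmod⟩ := hRep W hΔ
  have hdet := hDet W ρ hΔ hmod
  exact ⟨ρ, hρ, hdet, hTr W ρ hΔ hmod hdet, hIrr W ρ hmod h3, hUnip W ρ hΔ hss hmod⟩

/-- **GLUE2** from `MatFormC` and the other leaves. -/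
theorem glue2_of_matForm (hMat : MatFormC) (hSurj : SurjC) (hSec : SectionC) (hFrob : FrobC)
    (hW2 : W2C) (hIB : IntBasisC) (hLift : LiftC) : LTB.Glue2 := by
  intro h47 W hW
  obtain ⟨hΔ, hss, h3⟩ := hW
  obtain ⟨ρ, hρ, hdet, htr, hirr, hin⟩ := hMat W hΔ hss h3
  have hsurj := hSurj ρ hρ hdet hirr hin
  obtain ⟨Ψ, hΨ⟩ := hSec
  obtain ⟨N, hN, b, hb, hreal, hbtr⟩ := h47 ρ hρ hsurj hdet Ψ hΨ
  obtain ⟨M', hM', a, hNM', ha, hlat, hab⟩ := hW2 hIB N hN b hb hreal
  have hIBM : CuspForm.HasIntegralBasis M' := hIB M'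
  obtain ⟨f, hf, 𝔪, hmax, h3𝔪, hcong⟩ := hLift M' hIBM a ha hlat
  refine ⟨M', Nat.pos_of_ne_zero hM'.out, f, 𝔪, hf, hmax, h3𝔪, ?_⟩
  intro ℓ hℓ hgood hℓM' hℓ3
  obtain ⟨c, hc, hc𝔪⟩ := hcong ℓ hℓ hℓM'
  refine ⟨c, hc, ?_⟩
  -- `a ℓ ≡ a_ℓ(W)` modulo 3
  obtain ⟨A, σ, hA, hσ⟩ := hFrob ℓ hℓ
  have hℓN : ¬ ℓ ∣ N := fun h => hℓM' (h.trans hNM')
  have h3N : ¬ ℓ ∣ 3 * N := by
    intro hd
    rcases (Nat.Prime.dvd_mul hℓ).1 hd with h | h
    · exact hℓ3 ((Nat.prime_dvd_prime_iff_eq hℓ Nat.prime_three).1 h)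
    · exact hℓN h
  have e1 := hbtr ℓ hℓ h3N A hA σ hσ
  have e2 := htr ℓ hℓ hgood hℓ3 A hA σ hσ
  have e3 : ((a ℓ : ℤ) : ZMod 3) = ((W.apOfModel ℓ : ℤ) : ZMod 3) := by
    rw [hab ℓ hℓ hℓM', e1, red_trace_lift Ψ hΨ, e2]
  have hdvd : (3 : ℤ) ∣ a ℓ - W.apOfModel ℓ := by
    have : (((a ℓ - W.apOfModel ℓ : ℤ)) : ZMod 3) = 0 := by
      push_cast
      rw [e3]
      ring
    exact (ZMod.intCast_zmod_eq_zero_iff_dvd _ 3).1 this
  obtain ⟨k, hk⟩ := hdvd
  have hsplit : c - ((W.apOfModel ℓ : ℤ) : integralClosure ℤ ℂ)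
      = (c - (a ℓ : integralClosure ℤ ℂ))
        + ((3 : ℕ) : integralClosure ℤ ℂ) * ((k : ℤ) : integralClosure ℤ ℂ) := by
    have : ((a ℓ : ℤ) : integralClosure ℤ ℂ) - ((W.apOfModel ℓ : ℤ) : integralClosure ℤ ℂ)
        = ((3 : ℕ) : integralClosure ℤ ℂ) * ((k : ℤ) : integralClosure ℤ ℂ) := by
      rw [← Int.cast_sub, hk]
      push_cast
      ring
    linear_combination this
  rw [hsplit]
  exact 𝔪.add_mem hc𝔪 (𝔪.mul_mem_right _ h3𝔪)

/-- **GLUE2** from all the leaves. -/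
theorem glue2_of_leaves (hRep : RepC) (hDet : DetC) (hTr : TraceC) (hIrr : IrrC)
    (hUnip : UnipC) (hKW : KWC) (hcc : ConjC) (hG : GrpC) (hSec : SectionC) (hFrob : FrobC)
    (hW2 : W2C) (hIB : IntBasisC) (hLift : LiftC) : LTB.Glue2 :=
  glue2_of_matForm (matFormC_of hRep hDet hTr hIrr hUnip) (surjC_of hKW hcc hG) hSec hFrob
    hW2 hIB hLift

/-- The Prelude Prop implies the leaf `W2C`. -/
theorem w2C_of_prelude (h : CuspForm.WeightTwoModThreeCongruenceLift) : W2C := by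
  intro hIB M hM b hb hreal
  obtain ⟨⟨a, ha, hlat, hab⟩, -⟩ := h M hM b hb (hIB M) hreal
  exact ⟨M, hM, a, dvd_rfl, ha, hlat, fun ℓ _ _ => hab ℓ⟩

end Fermat.Agent.LT.H670

end

end
-- ===== PACK-END LT/H670/Glue2Top.lean

-- ===== PACK-BEGIN S49.lean
section
-- Statement S49 (row 44): Deligne–Serre lifting lemma for lattice-realised eigensystems.







set_option autoImplicit false
open CuspForm EisensteinWeightOne CongruenceSubgroup ModularFormClass
open FLT FLT.AbstractIntegralStructure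

namespace Fermat.Agent.S49

theorem result
    {N : ℕ} [NeZero N] (h : CuspForm.HasIntegralBasis N) {a : ℕ → ℤ}
    (heig : FormalHecke.IsEigensystem
      (fun ℓ => if ℓ ∣ N then 0 else ((chiNegThree ℓ : ℤ) : ℤ)) a)
    (hreal : CuspForm.IsLatticeRealized N a) :
    ∃ (f : CuspForm (Gamma0 N) 2) (_ : f.IsNormalizedEigenform)
      (𝔪' : Ideal (integralClosure ℤ ℂ)), 𝔪'.IsMaximal ∧
      ((3 : ℕ) : integralClosure ℤ ℂ) ∈ 𝔪' ∧
      ∀ (ℓ : ℕ) (_ : ℓ.Prime) (_ : ¬ ℓ ∣ N),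
        ∃ c : integralClosure ℤ ℂ, (c : ℂ) = ModularFormClass.qCoeff f ℓ ∧
          c - (a ℓ : integralClosure ℤ ℂ) ∈ 𝔪' := by
  classical
  obtain ⟨𝔫, h𝔫max, h3, hT⟩ := exists_maximal_ideal_mod_three heig hreal
  have := finiteDimensional_of_hasIntegralBasis h
  have : 𝔫.IsPrime := h𝔫max.isPrime
  obtain ⟨g, χ, hg, hχ, hker⟩ := exists_eigenvector_ker_le
    (K := ℂ) (V := CuspForm (Gamma0 N) 2)
    ((heckeAlgebra N 2 (∅ : Set ℕ)).val.toRingHom) Subtype.val_injective 𝔫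
  -- the eigencharacter takes values in the integral closure
  have hint : ∀ t, χ t ∈ integralClosure ℤ ℂ := fun t =>
    (isIntegral_heckeAlgebra h t).map χ.toIntAlgHom
  let χ' : heckeAlgebra N 2 (∅ : Set ℕ) →+* integralClosure ℤ ℂ :=
    χ.codRestrict (integralClosure ℤ ℂ).toSubring hint
  have hχ' : ∀ t, ((χ' t : integralClosure ℤ ℂ) : ℂ) = χ t := fun t => rfl
  have hker' : RingHom.ker χ' ≤ 𝔫 := by
    intro t ht
    apply hker
    rw [RingHom.mem_ker] at ht ⊢
    rw [← hχ', ht]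
    rfl
  obtain ⟨𝔪', h𝔪', hover⟩ := exists_maximal_over χ' 𝔫 hker'
  obtain ⟨f, hf, hfℓ⟩ := exists_normalized_eigenform g hg χ hχ
  refine ⟨f, hf, 𝔪', h𝔪', ?_, ?_⟩
  · have h3' := hover _ h3
    rw [map_ofNat] at h3'
    simpa using h3'
  · intro ℓ hℓ hℓN
    refine ⟨χ' (heckeAlgebra.T hℓ hℓN (Set.notMem_empty _)), ?_, ?_⟩
    · rw [hχ', hfℓ ℓ hℓ hℓN]
    · have := hover _ (hT ℓ hℓ hℓN)
      simpa using this

end Fermat.Agent.S49

end
-- ===== PACK-END S49.lean

-- ===== PACK-BEGIN S58/H825/Frob.lean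
section



/-!
# S58, leaf FROB: `FrobExistsStatement` (verbatim, unconditional)
-/

set_option autoImplicit false

namespace Fermat.Agent.S58.H825

/-- **Leaf FROB.** Frobenius elements exist at every prime. -/
theorem frobExists : Fermat.Agent.S58.FrobExistsStatement := by
  intro ℓ hℓ
  exact Fermat.Agent.S54.exists_frobenius ℓ hℓ

end Fermat.Agent.S58.H825

end
-- ===== PACK-END S58/H825/Frob.lean

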