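import Fermat.Prelude.Def_FLTPrelim_ModularRep
import Fermat.Statements.S51
import Mathlib
import Fermat.Agent.Pack.L1.E3L1
import Fermat.Agent.Pack.L1.E1L3
import Fermat.Agent.Pack.L1.E1L0
import Fermat.Agent.Pack.S44C.G0E10L2
import Fermat.Agent.Pack.L1.E3L0
import Fermat.Agent.Pack.L1.E0L2
import Fermat.Agent.Pack.L1.E0L0
import Fermat.Agent.Pack.L1.E2L2
import Fermat.Agent.Pack.L1.E0L1
import Fermat.Agent.Pack.S44C.G0E19L0
import Fermat.Agent.Pack.L1.E0L3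
import Fermat.Agent.Pack.L1.E3L2
import Fermat.Agent.Pack.L1.E2L0
import Fermat.Agent.Pack.L1.E3L3

-- ===== PACK-BEGIN S51/H780/I1.lean
section



/-!
# S51, part (I1) / `Three.main`

If the mod-`3` representation of `W` is reducible then
* `three_main`: `ψ₃` of `W ⊗ ℚ` has a rational root (captain's interface `Three.main`),
  `three_main'` adds `ψ₂²(x) ≠ 0`;
* `I1`: there is `t ∈ ℚ`, `t ≠ 0`, with `c₄³ t = Δ (t + 27) (t + 3)³`
  (interface of `Fermat.Agent.S51.H591.S51_of_parts`).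
-/

set_option autoImplicit false

namespace Fermat.Agent.S51.H780

open WeierstrassCurve

lemma Δ_map_ne_zero (W : WeierstrassCurve ℤ) (hΔ : W.Δ ≠ 0) :
    (W.map (Int.castRingHom ℚ)).Δ ≠ 0 := by
  rw [WeierstrassCurve.map_Δ]; simpa using hΔ

/-- `Three.main` with the extra information `ψ₂²(x) ≠ 0`. -/
theorem three_main' (W : WeierstrassCurve ℤ) (hΔ : W.Δ ≠ 0) (h : ¬ W.ModRepIsIrreducible 3) :
    ∃ x : ℚ, 3 * x ^ 4 + (W.b₂ : ℚ) * x ^ 3 + 3 * (W.b₄ : ℚ) * x ^ 2 + 3 * (W.b₆ : ℚ) * x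
        + (W.b₈ : ℚ) = 0 ∧
      4 * x ^ 3 + (W.b₂ : ℚ) * x ^ 2 + 2 * (W.b₄ : ℚ) * x + (W.b₆ : ℚ) ≠ 0 := by
  obtain ⟨x, hx, hD⟩ := exists_rat_root_psi3 (W.map (Int.castRingHom ℚ)) (Δ_map_ne_zero W hΔ) h
  refine ⟨x, ?_, ?_⟩
  · simpa [psi3, WeierstrassCurve.map_b₂, WeierstrassCurve.map_b₄, WeierstrassCurve.map_b₆,
      WeierstrassCurve.map_b₈] using hx
  · simpa [dupDen, WeierstrassCurve.map_b₂, WeierstrassCurve.map_b₄, WeierstrassCurve.map_b₆]
      using hD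

/-- `Three.main` (captain's interface): a reducible mod-`3` representation gives a rational root
of the `3`-division polynomial. -/
theorem three_main (W : WeierstrassCurve ℤ) (hΔ : W.Δ ≠ 0) (h : ¬ W.ModRepIsIrreducible 3) :
    ∃ x : ℚ, 3 * x ^ 4 + (W.b₂ : ℚ) * x ^ 3 + 3 * (W.b₄ : ℚ) * x ^ 2 + 3 * (W.b₆ : ℚ) * x
        + (W.b₈ : ℚ) = 0 := by
  obtain ⟨x, hx, -⟩ := three_main' W hΔ h
  exact ⟨x, hx⟩

/-- **(I1)** in the interface of `Fermat.Agent.S51.H591.S51_of_parts`. -/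
theorem I1 : ∀ W : WeierstrassCurve ℤ, W.Δ ≠ 0 → ¬ W.ModRepIsIrreducible 3 →
    ∃ t : ℚ, t ≠ 0 ∧ (W.c₄ : ℚ) ^ 3 * t = (W.Δ : ℚ) * ((t + 27) * (t + 3) ^ 3) := by
  intro W hΔ h3
  obtain ⟨t, ht, h⟩ := exists_param3 (W.map (Int.castRingHom ℚ)) (Δ_map_ne_zero W hΔ) h3
  refine ⟨t, ht, ?_⟩
  simpa [WeierstrassCurve.map_Δ, WeierstrassCurve.map_c₄] using h

end Fermat.Agent.S51.H780

end
-- ===== PACK-END S51/H780/I1.lean

-- ===== PACK-BEGIN S51.lean
section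
-- Template for statement S51 (row 45; see the milestone table for weights).
-- Copy to Fermat/Agent/S51.lean and replace the sorry. The statement below is byte-identical to the frozen
-- statement WeierstrassCurve.FermatFrozen.S51 (Fermat/Statements/S51.lean; the theorem WeierstrassCurve.modThreeOrFiveIrreducible);
-- the grader kernel-checks Fermat.Agent.S51.result against that frozen type. Keep the theorem IN THIS FILE
-- (a `result` declared elsewhere and merely imported here is not credited); helpers may live anywhere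
-- under Fermat/Agent/.






set_option autoImplicit false
open WeierstrassCurve WeierstrassCurve.Affine WeierstrassCurve.Affine.Point
open CuspForm ModularFormClass UpperHalfPlane
open WeierstrassCurve

namespace Fermat.Agent.S51

theorem result (W : WeierstrassCurve ℤ) (hΔ : W.Δ ≠ 0) (hW : W.IsSemistableModel) : W.ModRepIsIrreducible 3 ∨ W.ModRepIsIrreducible 5 := by
  exact H591.S51_of_parts H471.descent15' H780.I1 Five.five_side_h W hΔ hW

end Fermat.Agent.S51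

end
-- ===== PACK-END S51.lean

-- ===== PACK-BEGIN S52/Fam/Syz.lean
section


/-!
# S52 / Fam: weights, the syzygy `C4³ - C6² = (c₄³ - c₆²) Fk⁵`, the Hessian identity and the
symmetry `q5' c τ = q5 (-1/c) (c² τ)`.
-/

set_option autoImplicit false
set_option linter.unusedVariables false

namespace Fermat.Agent.S52.Fam

open Fermat.Agent.S52.Refl

variable {R : Type*} [CommRing R]

/-! ### weights -/

theorem C4_weight (c₄ c₆ τ u : R) : C4 (u^4 * c₄) (u^6 * c₆) τ = u^4 * C4 c₄ c₆ (u^2 * τ) := by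
  simp only [C4, C4_0, C4_1, C4_2, C4_3, C4_4, C4_5, C4_6, C4_7, C4_8, C4_9, C4_10, C4_11, C4_12, C4_13, C4_14, C4_15, C4_16, C4_17, C4_18, C4_19, C4_20]; ring

set_option maxHeartbeats 1000000 in
theorem C6_weight (c₄ c₆ τ u : R) : C6 (u^4 * c₄) (u^6 * c₆) τ = u^6 * C6 c₄ c₆ (u^2 * τ) := by
  simp only [C6, C6_0, C6_1, C6_2, C6_3, C6_4, C6_5, C6_6, C6_7, C6_8, C6_9, C6_10, C6_11, C6_12, C6_13, C6_14, C6_15, C6_16, C6_17, C6_18, C6_19, C6_20, C6_21, C6_22, C6_23, C6_24, C6_25, C6_26, C6_27, C6_28, C6_29, C6_30]; ring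

theorem Fk_weight (c₄ c₆ τ u : R) : Fk (u^4 * c₄) (u^6 * c₆) τ = Fk c₄ c₆ (u^2 * τ) := by
  simp only [Fk, Fk_0, Fk_2, Fk_3, Fk_4, Fk_5, Fk_6, Fk_7, Fk_8, Fk_9, Fk_10, Fk_11, Fk_12]; ring

theorem C4_dehom (c₄ c₆ τ : R) : C4 (c₄ * τ^2) (c₆ * τ^3) 1 = τ^2 * C4 c₄ c₆ τ := by
  simp only [C4, C4_0, C4_1, C4_2, C4_3, C4_4, C4_5, C4_6, C4_7, C4_8, C4_9, C4_10, C4_11, C4_12, C4_13, C4_14, C4_15, C4_16, C4_17, C4_18, C4_19, C4_20]; ring

set_option maxHeartbeats 1000000 in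
theorem C6_dehom (c₄ c₆ τ : R) : C6 (c₄ * τ^2) (c₆ * τ^3) 1 = τ^3 * C6 c₄ c₆ τ := by
  simp only [C6, C6_0, C6_1, C6_2, C6_3, C6_4, C6_5, C6_6, C6_7, C6_8, C6_9, C6_10, C6_11, C6_12, C6_13, C6_14, C6_15, C6_16, C6_17, C6_18, C6_19, C6_20, C6_21, C6_22, C6_23, C6_24, C6_25, C6_26, C6_27, C6_28, C6_29, C6_30]; ring

theorem Fk_dehom (c₄ c₆ τ : R) : Fk (c₄ * τ^2) (c₆ * τ^3) 1 = Fk c₄ c₆ τ := by
  simp only [Fk, Fk_0, Fk_2, Fk_3, Fk_4, Fk_5, Fk_6, Fk_7, Fk_8, Fk_9, Fk_10, Fk_11, Fk_12]; ring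

@[simp] theorem C4_zero (c₄ c₆ : R) : C4 c₄ c₆ 0 = c₄ := by
  simp only [C4, C4_0, C4_1, C4_2, C4_3, C4_4, C4_5, C4_6, C4_7, C4_8, C4_9, C4_10, C4_11, C4_12, C4_13, C4_14, C4_15, C4_16, C4_17, C4_18, C4_19, C4_20]; ring

@[simp] theorem C6_zero (c₄ c₆ : R) : C6 c₄ c₆ 0 = c₆ := by
  simp only [C6, C6_0, C6_1, C6_2, C6_3, C6_4, C6_5, C6_6, C6_7, C6_8, C6_9, C6_10, C6_11, C6_12, C6_13, C6_14, C6_15, C6_16, C6_17, C6_18, C6_19, C6_20, C6_21, C6_22, C6_23, C6_24, C6_25, C6_26, C6_27, C6_28, C6_29, C6_30]; ring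

@[simp] theorem Fk_zero (c₄ c₆ : R) : Fk c₄ c₆ 0 = 1 := by
  simp only [Fk, Fk_0, Fk_2, Fk_3, Fk_4, Fk_5, Fk_6, Fk_7, Fk_8, Fk_9, Fk_10, Fk_11, Fk_12]; ring

@[simp] theorem q5_zero (c : R) : q5 c 0 = 1 := by
  simp only [q5, q5_0, q5_1, q5_2, q5_3, q5_4, q5_5]; ring

@[simp] theorem q5'_zero (c : R) : q5' c 0 = 1 := by
  simp only [q5', q5'_0, q5'_1, q5'_2, q5'_3, q5'_4, q5'_5]; ring

@[simp] theorem q2_zero (c : R) : q2 c 0 = 1 := by
  simp only [q2]; ring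

/-! ### the syzygy -/

theorem check_syz :
    beq (badd (bpow (tflat C4T) 3) (bzsmul (-1) (bpow (tflat C6T) 2)))
      (bmul [[0, 0, 0, 1], [], [-1]] (bpow (tflat FkT) 5)) = true := by
  decide +kernel

/-- the syzygy at `τ = 1`. -/
theorem syzygy_one (x y : R) :
    C4 x y 1 ^ 3 - C6 x y 1 ^ 2 = (x ^ 3 - y ^ 2) * Fk x y 1 ^ 5 := by
  have h := beval_eq_of_beq x y _ _ check_syz
  simp only [beval_badd, beval_bzsmul, beval_bmul, beval_bpow, beval_tflat, ← C4_eq_teval,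
    ← C6_eq_teval, ← Fk_eq_teval, beval_cons, beval_nil, ueval] at h
  push_cast at h
  linear_combination h

/-- **The syzygy** `C4³ - C6² = (c₄³ - c₆²) Fk⁵`, i.e. `Δ(E_τ) = Δ(E) Fk(τ)⁵`. -/
theorem syzygy [IsDomain R] (c₄ c₆ τ : R) :
    C4 c₄ c₆ τ ^ 3 - C6 c₄ c₆ τ ^ 2 = (c₄ ^ 3 - c₆ ^ 2) * Fk c₄ c₆ τ ^ 5 := by
  by_cases hτ : τ = 0
  · subst hτ; simp
  · have h := syzygy_one (c₄ * τ ^ 2) (c₆ * τ ^ 3)
    rw [C4_dehom, C6_dehom, Fk_dehom] at h
    have h6 : τ ^ 6 ≠ 0 := pow_ne_zero _ hτ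
    apply mul_left_cancel₀ h6
    linear_combination h

/-! ### the Hessian identity -/

/-- `∂Fk/∂τ`. -/
def dFk (c₄ c₆ τ : R) : R :=
  (-132*c₄)*τ
  + (-1320*c₆)*τ^2
  + (-5940*c₄^2)*τ^3
  + (-15840*c₄*c₆)*τ^4
  + (35640*c₄^3 - 63360*c₆^2)*τ^5
  + (-33264*c₄^2*c₆)*τ^6
  + (-534600*c₄^4 + 506880*c₄*c₆^2)*τ^7
  + (-1283040*c₄^3*c₆ + 1267200*c₆^3)*τ^8
  + (-1336500*c₄^5 + 1330560*c₄^2*c₆^2)*τ^9
  + (-677160*c₄^4*c₆ + 675840*c₄*c₆^3)*τ^10
  + (1093500*c₄^6 - 2322432*c₄^3*c₆^2 + 1228800*c₆^4)*τ^11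

/-- `∂²Fk/∂τ²`. -/
def ddFk (c₄ c₆ τ : R) : R :=
  (-132*c₄)
  + (-2640*c₆)*τ
  + (-17820*c₄^2)*τ^2
  + (-63360*c₄*c₆)*τ^3
  + (178200*c₄^3 - 316800*c₆^2)*τ^4
  + (-199584*c₄^2*c₆)*τ^5
  + (-3742200*c₄^4 + 3548160*c₄*c₆^2)*τ^6
  + (-10264320*c₄^3*c₆ + 10137600*c₆^3)*τ^7
  + (-12028500*c₄^5 + 11975040*c₄^2*c₆^2)*τ^8
  + (-6771600*c₄^4*c₆ + 6758400*c₄*c₆^3)*τ^9
  + (12028500*c₄^6 - 25546752*c₄^3*c₆^2 + 13516800*c₆^4)*τ^10

set_option maxHeartbeats 2000000 in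
/-- **Hessian identity**: `C4` is the Hessian of the Klein form. In particular a double root of `Fk`
is a root of `C4` (when `1584 = 2⁴·3²·11` is invertible). -/
theorem hessian (c₄ c₆ τ : R) :
    1584 * C4 c₄ c₆ τ = 11 * dFk c₄ c₆ τ ^ 2 - 12 * Fk c₄ c₆ τ * ddFk c₄ c₆ τ := by
  simp only [C4, C4_0, C4_1, C4_2, C4_3, C4_4, C4_5, C4_6, C4_7, C4_8, C4_9, C4_10, C4_11, C4_12, C4_13, C4_14, C4_15, C4_16, C4_17, C4_18, C4_19, C4_20, Fk, Fk_0, Fk_2, Fk_3, Fk_4, Fk_5, Fk_6, Fk_7, Fk_8, Fk_9, Fk_10, Fk_11, Fk_12, dFk, ddFk]; ring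

/-! ### the symmetry `c ↦ -1/c` (Tate parameter of `2P`) -/

theorem q5'_symm {K : Type*} [Field K] (c τ : K) (hc : c ≠ 0) :
    q5' c τ = q5 (-c⁻¹) (c ^ 2 * τ) := by
  simp only [q5, q5_0, q5_1, q5_2, q5_3, q5_4, q5_5, q5', q5'_0, q5'_1, q5'_2, q5'_3, q5'_4, q5'_5]
  field_simp
  ring

theorem q5_symm {K : Type*} [Field K] (c τ : K) (hc : c ≠ 0) :
    q5 c τ = q5' (-c⁻¹) (c ^ 2 * τ) := by
  simp only [q5, q5_0, q5_1, q5_2, q5_3, q5_4, q5_5, q5', q5'_0, q5'_1, q5'_2, q5'_3, q5'_4, q5'_5]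
  field_simp
  ring

end Fermat.Agent.S52.Fam

end
-- ===== PACK-END S52/Fam/Syz.lean

-- ===== PACK-BEGIN S52/B/B2/H352/SS.lean
section




/-!
# S52 / B2 (helper352): Lemma SS — `C4h` and `Fkh` have no common zero

`k` a field in which `2, 3, 5` are invertible, `c₄³ ≠ c₆²`, `(m, n) ≠ (0, 0)`:
`¬ (C4h c₄ c₆ m n = 0 ∧ Fkh c₄ c₆ m n = 0)`.

Route (helper952, `coord/S52-B1-data.md`): Tate parameters over the algebraic closure
(helper890 `exists_tate_params`), the Tate-chart identities `C4_tate_one`, `Fk_tate_one`,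
`quad_tate_one` and the Bezout certificates `cert_affine`, `cert_infty` (helper952, `Fam/`).
-/

set_option autoImplicit false

namespace Fermat.Agent.S52.B.B2.H352

open Fermat.Agent.S52.Fam Fermat.Agent.S52.B

section Core

variable {k : Type*} [Field k]

theorem C4hom_split (X Z : k) :
    C4hom X Z = 5 * X ^ 2 * Z ^ 2 + (X ^ 2 - 11 * X * Z - Z ^ 2) * (X ^ 2 - X * Z - Z ^ 2) := by
  simp only [C4hom]; ring

theorem kappa2_ne_zero (h2 : (2 : k) ≠ 0) (h3 : (3 : k) ≠ 0) (h5 : (5 : k) ≠ 0) :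
    ((κ2 : ℤ) : k) ≠ 0 := by
  have : ((κ2 : ℤ) : k) = 2 ^ 12 * 3 ^ 6 * 5 := by
    simp only [κ2]; push_cast; norm_num
  rw [this]
  exact mul_ne_zero (mul_ne_zero (pow_ne_zero _ h2) (pow_ne_zero _ h3)) h5

/-- The common core of both charts. -/
theorem core_false (h2 : (2 : k) ≠ 0) (h3 : (3 : k) ≠ 0) (h5 : (5 : k) ≠ 0)
    {c X' Z q U V : k} (hc : c ≠ 0) (hcq : c ^ 2 - 11 * c - 1 ≠ 0)
    (hquad : (c * X') ^ 2 - 11 * (c * X') * Z - Z ^ 2 = (c ^ 2 - 11 * c - 1) * q ^ 5)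
    (hcert : U * q + V * Z = ((κ2 : ℤ) : k) * c ^ 10 * (c ^ 2 - 11 * c - 1))
    (hC4 : C4hom (c * X') Z = 0) (hF : X' * Z * q = 0) : False := by
  have hκ := kappa2_ne_zero h2 h3 h5
  -- it suffices to show `Z = 0` and `q = 0`
  suffices h : Z = 0 ∧ q = 0 by
    obtain ⟨hZ, hq⟩ := h
    rw [hZ, hq] at hcert
    have : ((κ2 : ℤ) : k) * c ^ 10 * (c ^ 2 - 11 * c - 1) = 0 := by
      rw [← hcert]; ring
    exact mul_ne_zero (mul_ne_zero hκ (pow_ne_zero _ hc)) hcq this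
  have hq_of (hX : X' = 0) (hZ : Z = 0) : q = 0 := by
    rw [hX, hZ] at hquad
    have : (c ^ 2 - 11 * c - 1) * q ^ 5 = 0 := by rw [← hquad]; ring
    rcases mul_eq_zero.mp this with h | h
    · exact absurd h hcq
    · exact pow_eq_zero_iff (by norm_num) |>.mp h
  have hXZ : X' = 0 ∧ Z = 0 := by
    rcases mul_eq_zero.mp hF with h | hq
    · rcases mul_eq_zero.mp h with hX | hZ
      · refine ⟨hX, ?_⟩
        rw [hX] at hC4
        have : Z ^ 4 = 0 := by rw [← hC4]; simp only [C4hom]; ring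
        exact pow_eq_zero_iff (by norm_num) |>.mp this
      · refine ⟨?_, hZ⟩
        rw [hZ] at hC4
        have : (c * X') ^ 4 = 0 := by rw [← hC4]; simp only [C4hom]; ring
        have h' : c * X' = 0 := pow_eq_zero_iff (by norm_num) |>.mp this
        exact (mul_eq_zero.mp h').resolve_left hc
    · -- `q = 0`: the quadratic form vanishes
      have hQ : (c * X') ^ 2 - 11 * (c * X') * Z - Z ^ 2 = 0 := by
        rw [hquad, hq]; ring
      have h5' : 5 * (c * X') ^ 2 * Z ^ 2 = 0 := by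
        have := C4hom_split (c * X') Z
        rw [hC4, hQ] at this
        rw [this]; ring
      have hprod : (c * X') ^ 2 * Z ^ 2 = 0 := by
        rcases mul_eq_zero.mp (by rw [mul_assoc] at h5'; exact h5') with h | h
        · exact absurd h h5
        · exact h
      rcases mul_eq_zero.mp hprod with h | h
      · have hX0 : c * X' = 0 := pow_eq_zero_iff (by norm_num) |>.mp h
        have hZ2 : Z ^ 2 = 0 := by
          rw [hX0] at hQ
          have : -(Z ^ 2) = 0 := by rw [← hQ]; ring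
          exact neg_eq_zero.mp this
        exact ⟨(mul_eq_zero.mp hX0).resolve_left hc, pow_eq_zero_iff (by norm_num) |>.mp hZ2⟩
      · have hZ0 : Z = 0 := pow_eq_zero_iff (by norm_num) |>.mp h
        have hX2 : (c * X') ^ 2 = 0 := by
          rw [hZ0] at hQ
          rw [← hQ]; ring
        have hX0 : c * X' = 0 := pow_eq_zero_iff (by norm_num) |>.mp hX2
        exact ⟨(mul_eq_zero.mp hX0).resolve_left hc, hZ0⟩
  exact ⟨hXZ.2, hq_of hXZ.1 hXZ.2⟩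

end Core

section Infinity

variable {R : Type*} [CommRing R]

/-- leading coefficient of `C4` in Tate coordinates -/
theorem C4_20_tate (c : R) : C4_20 (tc4 c) (tc6 c) = C4hom (c * q5_5 c) (q5'_5 c) := by
  simp only [C4_20, tc4, tc6, C4hom, q5_5, q5'_5]; ring

/-- leading coefficient of `Fk` in Tate coordinates -/
theorem Fk_12_tate (c : R) :
    Fk_12 (tc4 c) (tc6 c) = q5_5 c * q5'_5 c * (c ^ 4 - 178 * c ^ 2 + 1) := by
  simp only [Fk_12, tc4, tc6, q5_5, q5'_5]; ring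

/-- leading coefficient of the quadratic-form identity -/
theorem quad_top_tate (c : R) :
    (c * q5_5 c) ^ 2 - 11 * (c * q5_5 c) * q5'_5 c - q5'_5 c ^ 2 =
      (c ^ 2 - 11 * c - 1) * (c ^ 4 - 178 * c ^ 2 + 1) ^ 5 := by
  simp only [q5_5, q5'_5]; ring

theorem C4_20_weight (x y u : R) : C4_20 (u ^ 4 * x) (u ^ 6 * y) = u ^ 44 * C4_20 x y := by
  simp only [C4_20]; ring

theorem Fk_12_weight (x y u : R) : Fk_12 (u ^ 4 * x) (u ^ 6 * y) = u ^ 24 * Fk_12 x y := by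
  simp only [Fk_12]; ring

theorem C4h_zero_right (c₄ c₆ m : R) : C4h c₄ c₆ m 0 = C4_20 c₄ c₆ * m ^ 20 := by
  simp only [C4h]; ring

theorem Fkh_zero_right (c₄ c₆ m : R) : Fkh c₄ c₆ m 0 = Fk_12 c₄ c₆ * m ^ 12 := by
  simp only [Fkh]; ring

end Infinity

section Closed

variable {K : Type*} [Field K]

theorem tc4_eq_H5 (c : K) : Fermat.Agent.S52.H890.H5 c 1 = tc4 c := by
  simp only [Fermat.Agent.S52.H890.H5, tc4]; ring

theorem tc6_eq_T5 (c : K) : Fermat.Agent.S52.H890.T5 c 1 = tc6 c := by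
  simp only [Fermat.Agent.S52.H890.T5, tc6]; ring

/-- Lemma SS over an algebraically closed field. -/
theorem lemmaSS_closed [IsAlgClosed K] (h2 : (2 : K) ≠ 0) (h3 : (3 : K) ≠ 0) (h5 : (5 : K) ≠ 0)
    (c₄ c₆ m n : K) (hΔ : c₄ ^ 3 - c₆ ^ 2 ≠ 0) (hmn : m ≠ 0 ∨ n ≠ 0) :
    ¬ (C4h c₄ c₆ m n = 0 ∧ Fkh c₄ c₆ m n = 0) := by
  rintro ⟨hC, hF⟩
  obtain ⟨c, lam, hlam, hc, hcq, h4, h6⟩ :=
    Fermat.Agent.S52.H890.exists_tate_params h2 h3 h5 c₄ c₆ hΔ
  rw [tc4_eq_H5] at h4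
  rw [tc6_eq_T5] at h6
  by_cases hn : n = 0
  · -- chart at infinity
    subst hn
    have hm : m ≠ 0 := hmn.resolve_right (by simp)
    rw [C4h_zero_right] at hC
    rw [Fkh_zero_right] at hF
    have hC' : C4_20 c₄ c₆ = 0 := (mul_eq_zero.mp hC).resolve_right (pow_ne_zero _ hm)
    have hF' : Fk_12 c₄ c₆ = 0 := (mul_eq_zero.mp hF).resolve_right (pow_ne_zero _ hm)
    rw [h4, h6, C4_20_weight] at hC'
    rw [h4, h6, Fk_12_weight] at hF'
    have hC'' : C4_20 (tc4 c) (tc6 c) = 0 :=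
      (mul_eq_zero.mp hC').resolve_left (pow_ne_zero _ hlam)
    have hF'' : Fk_12 (tc4 c) (tc6 c) = 0 :=
      (mul_eq_zero.mp hF').resolve_left (pow_ne_zero _ hlam)
    rw [C4_20_tate] at hC''
    rw [Fk_12_tate] at hF''
    exact core_false h2 h3 h5 hc hcq (quad_top_tate c) (cert_infty c) hC'' hF''
  · -- affine chart
    rw [C4h_eq_pow_mul _ _ _ hn] at hC
    rw [Fkh_eq_pow_mul _ _ _ hn] at hF
    have hC' : C4 c₄ c₆ (m / n) = 0 := (mul_eq_zero.mp hC).resolve_left (pow_ne_zero _ hn)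
    have hF' : Fk c₄ c₆ (m / n) = 0 := (mul_eq_zero.mp hF).resolve_left (pow_ne_zero _ hn)
    rw [h4, h6, C4_weight] at hC'
    rw [h4, h6, Fk_weight] at hF'
    have hC'' : C4 (tc4 c) (tc6 c) (lam ^ 2 * (m / n)) = 0 :=
      (mul_eq_zero.mp hC').resolve_left (pow_ne_zero _ hlam)
    rw [C4_tate_one] at hC''
    rw [Fk_tate_one] at hF'
    exact core_false h2 h3 h5 hc hcq (quad_tate_one c _) (cert_affine c _) hC'' hF'

end Closed

section Field

variable {k : Type*} [Field k]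

/-- **Lemma SS.** -/
theorem lemmaSS (h2 : (2 : k) ≠ 0) (h3 : (3 : k) ≠ 0) (h5 : (5 : k) ≠ 0)
    (c₄ c₆ m n : k) (hΔ : c₄ ^ 3 - c₆ ^ 2 ≠ 0) (hmn : m ≠ 0 ∨ n ≠ 0) :
    ¬ (C4h c₄ c₆ m n = 0 ∧ Fkh c₄ c₆ m n = 0) := by
  rintro ⟨hC, hF⟩
  let φ : k →+* AlgebraicClosure k := algebraMap k (AlgebraicClosure k)
  have hφ : Function.Injective φ := (algebraMap k (AlgebraicClosure k)).injective
  have hne : ∀ x : k, x ≠ 0 → φ x ≠ 0 := fun x hx h => hx (hφ (by rw [h, map_zero]))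
  refine lemmaSS_closed (K := AlgebraicClosure k) ?_ ?_ ?_ (φ c₄) (φ c₆) (φ m) (φ n) ?_ ?_ ⟨?_, ?_⟩
  · have := hne 2 h2; rwa [map_ofNat] at this
  · have := hne 3 h3; rwa [map_ofNat] at this
  · have := hne 5 h5; rwa [map_ofNat] at this
  · have := hne _ hΔ; simpa using this
  · rcases hmn with h | h
    · exact Or.inl (hne _ h)
    · exact Or.inr (hne _ h)
  · rw [← map_C4h, hC, map_zero]
  · rw [← map_Fkh, hF, map_zero]

end Field

end Fermat.Agent.S52.B.B2.H352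

end
-- ===== PACK-END S52/B/B2/H352/SS.lean

-- ===== PACK-BEGIN S52/B/B2/H352/Main.lean
section



/-!
# S52 / B2 (helper352): the integral semistable model `W'` with invariants `(C4h, C6h)`

For a semistable integral model `W` with `Δ ≠ 0` we choose an auxiliary prime `p₀ ≥ 7`, `p₀ ∤ Δ`,
`K = 30·p₀·|Δ|` and `M = 1728·K`.  For every `n ≡ 1 mod M` the model `W'` of helper172
(`a₄, a₆` shifted by multiples of `K`) has invariants `C4h c₄ c₆ M n`, `C6h c₄ c₆ M n`,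
`Δ(W') = Δ(W)·Fkh⁵ ≠ 0`, is congruent to `W` modulo `K` (hence modulo every PRIME dividing `M`)
and is semistable (Lemma SS at the new primes).

NOTE.  `W' ≡ W mod M` itself is false in general for this model (`C4h − c₄ ≡ 20·M·(c₄k + c₆)`
modulo `M²` for `n = 1 + Mk`, whereas `48·M ∣ C4h − c₄` would be needed); therefore the reduction
clause is stated for prime divisors of `M` (`IntegralModelP`), which is all that `Switch` uses.
-/

set_option autoImplicit false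

namespace Fermat.Agent.S52.B.B2.H352

open WeierstrassCurve Fermat.Agent.S52.Fam Fermat.Agent.S52.B

/-- **Piece B2**, reductions at the prime divisors of `M`. -/
def IntegralModelP : Prop :=
  ∀ (W : WeierstrassCurve ℤ), W.Δ ≠ 0 → W.IsSemistableModel →
    ∃ (M : ℤ) (p₀ : ℕ), 0 < M ∧ (6 : ℤ) ∣ M ∧ p₀.Prime ∧ 7 ≤ p₀ ∧ ¬ (p₀ : ℤ) ∣ W.Δ ∧ (p₀ : ℤ) ∣ M ∧
      ∀ n : ℤ, n ≡ 1 [ZMOD M] →
        ∃ W' : WeierstrassCurve ℤ,
          W'.c₄ = C4h W.c₄ W.c₆ M n ∧ W'.c₆ = C6h W.c₄ W.c₆ M n ∧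
          W'.Δ ≠ 0 ∧ W'.IsSemistableModel ∧
          ∀ ℓ : ℕ, ℓ.Prime → (ℓ : ℤ) ∣ M → W'.reductionMod ℓ = W.reductionMod ℓ

/-! ### the homogenised syzygy over `ℤ` -/

theorem syzygy_hom_rat (c₄ c₆ m n : ℚ) (hn : n ≠ 0) :
    C4h c₄ c₆ m n ^ 3 - C6h c₄ c₆ m n ^ 2 = (c₄ ^ 3 - c₆ ^ 2) * Fkh c₄ c₆ m n ^ 5 := by
  rw [C4h_eq_pow_mul _ _ _ hn, C6h_eq_pow_mul _ _ _ hn, Fkh_eq_pow_mul _ _ _ hn]
  have h := syzygy c₄ c₆ (m / n)
  linear_combination n ^ 60 * h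

theorem syzygy_hom_int (c₄ c₆ m n : ℤ) (hn : n ≠ 0) :
    C4h c₄ c₆ m n ^ 3 - C6h c₄ c₆ m n ^ 2 = (c₄ ^ 3 - c₆ ^ 2) * Fkh c₄ c₆ m n ^ 5 := by
  have h := syzygy_hom_rat (c₄ : ℚ) (c₆ : ℚ) (m : ℚ) (n : ℚ) (by exact_mod_cast hn)
  have e4 := map_C4h (Int.castRingHom ℚ) c₄ c₆ m n
  have e6 := map_C6h (Int.castRingHom ℚ) c₄ c₆ m n
  have eF := map_Fkh (Int.castRingHom ℚ) c₄ c₆ m n
  simp only [eq_intCast] at e4 e6 eF
  rw [← e4, ← e6, ← eF] at h
  exact_mod_cast h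

/-! ### congruences -/

theorem pow_sub_one_dvd {M n : ℤ} (hn : n ≡ 1 [ZMOD M]) (k : ℕ) : M ∣ n ^ k - 1 := by
  have h := (hn.pow k)
  rw [one_pow] at h
  exact (Int.modEq_iff_dvd.mp h.symm)

theorem dvd_C4h_sub (c₄ c₆ : ℤ) {M n : ℤ} (hn : n ≡ 1 [ZMOD M]) :
    M ∣ C4h c₄ c₆ M n - c₄ := by
  have h1 := C4h_sub_dvd c₄ c₆ M n
  have h2 : M ∣ c₄ * (n ^ 20 - 1) := Dvd.dvd.mul_left (pow_sub_one_dvd hn 20) c₄
  have := dvd_add h1 h2
  have e : C4h c₄ c₆ M n - c₄ * n ^ 20 + c₄ * (n ^ 20 - 1) = C4h c₄ c₆ M n - c₄ := by ring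
  rwa [e] at this

theorem dvd_C6h_sub (c₄ c₆ : ℤ) {M n : ℤ} (hn : n ≡ 1 [ZMOD M]) :
    M ∣ C6h c₄ c₆ M n - c₆ := by
  have h1 := C6h_sub_dvd c₄ c₆ M n
  have h2 : M ∣ c₆ * (n ^ 30 - 1) := Dvd.dvd.mul_left (pow_sub_one_dvd hn 30) c₆
  have := dvd_add h1 h2
  have e : C6h c₄ c₆ M n - c₆ * n ^ 30 + c₆ * (n ^ 30 - 1) = C6h c₄ c₆ M n - c₆ := by ring
  rwa [e] at this

theorem dvd_Fkh_sub_one (c₄ c₆ : ℤ) {M n : ℤ} (hn : n ≡ 1 [ZMOD M]) :
    M ∣ Fkh c₄ c₆ M n - 1 := by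
  have h1 := Fkh_sub_dvd c₄ c₆ M n
  have h2 : M ∣ n ^ 12 - 1 := pow_sub_one_dvd hn 12
  have := dvd_add h1 h2
  have e : Fkh c₄ c₆ M n - n ^ 12 + (n ^ 12 - 1) = Fkh c₄ c₆ M n - 1 := by ring
  rwa [e] at this

theorem Fkh_ne_zero (c₄ c₆ : ℤ) {M n : ℤ} (hM : 2 ≤ M) (hn : n ≡ 1 [ZMOD M]) :
    Fkh c₄ c₆ M n ≠ 0 := by
  intro h0
  have h := dvd_Fkh_sub_one c₄ c₆ hn
  rw [h0, zero_sub] at h
  have h1 : M ∣ 1 := (dvd_neg.mp h)
  have := Int.le_of_dvd one_pos h1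
  omega

theorem ne_zero_of_modEq_one {M n : ℤ} (hM : 2 ≤ M) (hn : n ≡ 1 [ZMOD M]) : n ≠ 0 := by
  rintro rfl
  have h := Int.modEq_iff_dvd.mp hn
  have h1 : M ∣ 1 := by simpa using h
  have := Int.le_of_dvd one_pos h1
  omega

/-! ### the new primes -/

/-- At a prime `ℓ ∤ 30·Δ(W)·M`, `ℓ ∣ Fkh` implies `ℓ ∤ C4h`. -/
theorem not_dvd_C4h_of_dvd_Fkh (c₄ c₆ M n : ℤ) {ℓ : ℕ} (hℓ : ℓ.Prime)
    (h2 : ¬ (ℓ : ℤ) ∣ 2) (h3 : ¬ (ℓ : ℤ) ∣ 3) (h5 : ¬ (ℓ : ℤ) ∣ 5)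
    (hΔ : ¬ (ℓ : ℤ) ∣ c₄ ^ 3 - c₆ ^ 2) (hM : ¬ (ℓ : ℤ) ∣ M)
    (hF : (ℓ : ℤ) ∣ Fkh c₄ c₆ M n) : ¬ (ℓ : ℤ) ∣ C4h c₄ c₆ M n := by
  intro hC
  have : Fact ℓ.Prime := ⟨hℓ⟩
  let φ : ℤ →+* ZMod ℓ := Int.castRingHom (ZMod ℓ)
  have hφ : ∀ x : ℤ, φ x = 0 ↔ (ℓ : ℤ) ∣ x := fun x => by
    simp only [φ, eq_intCast]
    exact ZMod.intCast_zmod_eq_zero_iff_dvd x ℓ
  have k2 : (2 : ZMod ℓ) ≠ 0 := by
    intro h
    apply h2
    rw [← hφ]
    simpa [φ] using h
  have k3 : (3 : ZMod ℓ) ≠ 0 := by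
    intro h
    apply h3
    rw [← hφ]
    simpa [φ] using h
  have k5 : (5 : ZMod ℓ) ≠ 0 := by
    intro h
    apply h5
    rw [← hφ]
    simpa [φ] using h
  have kΔ : (φ c₄) ^ 3 - (φ c₆) ^ 2 ≠ 0 := by
    intro h
    apply hΔ
    rw [← hφ]
    simpa using h
  have kM : φ M ≠ 0 := fun h => hM ((hφ M).mp h)
  refine lemmaSS k2 k3 k5 (φ c₄) (φ c₆) (φ M) (φ n) kΔ (Or.inl kM) ⟨?_, ?_⟩
  · rw [← map_C4h]; exact (hφ _).mpr hC
  · rw [← map_Fkh]; exact (hφ _).mpr hF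

/-! ### the model -/

theorem exists_aux_prime (D : ℤ) (hD : D ≠ 0) :
    ∃ p₀ : ℕ, p₀.Prime ∧ 7 ≤ p₀ ∧ ¬ (p₀ : ℤ) ∣ D := by
  obtain ⟨p, hp, hpp⟩ := Nat.exists_infinite_primes (max 7 (D.natAbs + 1))
  refine ⟨p, hpp, le_trans (le_max_left _ _) hp, ?_⟩
  intro h
  have h1 : p ∣ D.natAbs := Int.natCast_dvd.mp h
  have h2 : p ≤ D.natAbs := Nat.le_of_dvd (Int.natAbs_pos.mpr hD) h1
  have h3 : D.natAbs + 1 ≤ p := le_trans (le_max_right _ _) hp
  omega

/-- The strong form: the model is congruent to `W` modulo `K`, where `M = 1728·K`. -/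
theorem exists_model (W : WeierstrassCurve ℤ) (hΔ : W.Δ ≠ 0) (hW : W.IsSemistableModel) :
    ∃ (K : ℤ) (p₀ : ℕ), 0 < K ∧ (30 : ℤ) ∣ K ∧ W.Δ ∣ K ∧ p₀.Prime ∧ 7 ≤ p₀ ∧
      ¬ (p₀ : ℤ) ∣ W.Δ ∧ (p₀ : ℤ) ∣ K ∧
      ∀ n : ℤ, n ≡ 1 [ZMOD (1728 * K)] →
        ∃ W' : WeierstrassCurve ℤ,
          W'.c₄ = C4h W.c₄ W.c₆ (1728 * K) n ∧ W'.c₆ = C6h W.c₄ W.c₆ (1728 * K) n ∧
          W'.Δ = W.Δ * Fkh W.c₄ W.c₆ (1728 * K) n ^ 5 ∧
          W'.Δ ≠ 0 ∧ W'.IsSemistableModel ∧ CongrMod K W W' := by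
  obtain ⟨p₀, hp₀, hp₀7, hp₀Δ⟩ := exists_aux_prime W.Δ hΔ
  have hp₀pos : (0 : ℤ) < p₀ := by exact_mod_cast hp₀.pos
  have hΔpos : (0 : ℤ) < |W.Δ| := abs_pos.mpr hΔ
  set K : ℤ := 30 * p₀ * |W.Δ| with hK
  have hKpos : 0 < K := by positivity
  have h30K : (30 : ℤ) ∣ K := ⟨p₀ * |W.Δ|, by rw [hK]; ring⟩
  have hΔK : W.Δ ∣ K := Dvd.dvd.mul_left ((dvd_abs _ _).mpr dvd_rfl) _
  have hp₀K : (p₀ : ℤ) ∣ K := ⟨30 * |W.Δ|, by rw [hK]; ring⟩
  refine ⟨K, p₀, hKpos, h30K, hΔK, hp₀, hp₀7, hp₀Δ, hp₀K, ?_⟩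
  intro n hn
  set M : ℤ := 1728 * K with hM
  have hM2 : 2 ≤ M := by omega
  have hn0 : n ≠ 0 := ne_zero_of_modEq_one hM2 hn
  have h4 : 576 * K ∣ C4h W.c₄ W.c₆ M n - W.c₄ :=
    Dvd.dvd.trans ⟨3, by rw [hM]; ring⟩ (dvd_C4h_sub W.c₄ W.c₆ hn)
  have h6 : 864 * K ∣ C6h W.c₄ W.c₆ M n - W.c₆ :=
    Dvd.dvd.trans ⟨2, by rw [hM]; ring⟩ (dvd_C6h_sub W.c₄ W.c₆ hn)
  obtain ⟨W', hcong, hc4, hc6⟩ := exists_model_congrMod W K _ _ h4 h6
  have hsyz := syzygy_hom_int W.c₄ W.c₆ M n hn0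
  have hF0 : Fkh W.c₄ W.c₆ M n ≠ 0 := Fkh_ne_zero W.c₄ W.c₆ hM2 hn
  have hΔ' : W'.Δ = W.Δ * Fkh W.c₄ W.c₆ M n ^ 5 := by
    have h1 := W'.c_relation
    have h2 := W.c_relation
    rw [hc4, hc6, hsyz, ← h2] at h1
    have : (1728 : ℤ) * W'.Δ = 1728 * (W.Δ * Fkh W.c₄ W.c₆ M n ^ 5) := by
      rw [h1]; ring
    exact mul_left_cancel₀ (by norm_num) this
  have hΔ'0 : W'.Δ ≠ 0 := by
    rw [hΔ']
    exact mul_ne_zero hΔ (pow_ne_zero _ hF0)
  refine ⟨W', hc4, hc6, hΔ', hΔ'0, ?_, hcong⟩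
  apply hcong.isSemistableModel hW
  intro ℓ hℓ hℓK hℓΔ'
  have hℓp : Prime (ℓ : ℤ) := Nat.prime_iff_prime_int.mp hℓ
  have hnd : ∀ a : ℤ, a ∣ K → ¬ (ℓ : ℤ) ∣ a := fun a ha h => hℓK (h.trans ha)
  have h2 : ¬ (ℓ : ℤ) ∣ 2 := hnd 2 (Dvd.dvd.trans (by norm_num) h30K)
  have h3 : ¬ (ℓ : ℤ) ∣ 3 := hnd 3 (Dvd.dvd.trans (by norm_num) h30K)
  have h5 : ¬ (ℓ : ℤ) ∣ 5 := hnd 5 (Dvd.dvd.trans (by norm_num) h30K)
  have hℓΔ : ¬ (ℓ : ℤ) ∣ W.Δ := hnd _ hΔK
  have h1728 : ¬ (ℓ : ℤ) ∣ 1728 := by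
    intro h
    have e : (1728 : ℤ) = 2 ^ 6 * 3 ^ 3 := by norm_num
    rw [e] at h
    rcases hℓp.dvd_or_dvd h with h | h
    · exact h2 (hℓp.dvd_of_dvd_pow h)
    · exact h3 (hℓp.dvd_of_dvd_pow h)
  have hdisc : ¬ (ℓ : ℤ) ∣ W.c₄ ^ 3 - W.c₆ ^ 2 := by
    rw [← W.c_relation]
    intro h
    rcases hℓp.dvd_or_dvd h with h | h
    · exact h1728 h
    · exact hℓΔ h
  have hℓM : ¬ (ℓ : ℤ) ∣ M := by
    intro h
    rcases hℓp.dvd_or_dvd h with h | h
    · exact h1728 h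
    · exact hℓK h
  have hF : (ℓ : ℤ) ∣ Fkh W.c₄ W.c₆ M n := by
    rw [hΔ'] at hℓΔ'
    rcases hℓp.dvd_or_dvd hℓΔ' with h | h
    · exact absurd h hℓΔ
    · exact hℓp.dvd_of_dvd_pow h
  rw [hc4]
  exact not_dvd_C4h_of_dvd_Fkh W.c₄ W.c₆ M n hℓ h2 h3 h5 hdisc hℓM hF

/-- **B2, prime form.** -/
theorem integralModelP : IntegralModelP := by
  intro W hΔ hW
  obtain ⟨K, p₀, hK, h30, _hΔK, hp₀, hp₀7, hp₀Δ, hp₀K, hmod⟩ := exists_model W hΔ hW
  refine ⟨1728 * K, p₀, by positivity, ?_, hp₀, hp₀7, hp₀Δ, Dvd.dvd.mul_left hp₀K _, ?_⟩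
  · exact Dvd.dvd.mul_right (by norm_num) K
  intro n hn
  obtain ⟨W', hc4, hc6, _, hΔ', hss, hcong⟩ := hmod n hn
  refine ⟨W', hc4, hc6, hΔ', hss, ?_⟩
  intro ℓ hℓ hℓM
  have hℓp : Prime (ℓ : ℤ) := Nat.prime_iff_prime_int.mp hℓ
  have hℓK : (ℓ : ℤ) ∣ K := by
    rcases hℓp.dvd_or_dvd hℓM with h | h
    · have e : (1728 : ℤ) = 2 ^ 6 * 3 ^ 3 := by norm_num
      rw [e] at h
      rcases hℓp.dvd_or_dvd h with h | h
      · exact (hℓp.dvd_of_dvd_pow h).trans (Dvd.dvd.trans (by norm_num) h30)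
      · exact (hℓp.dvd_of_dvd_pow h).trans (Dvd.dvd.trans (by norm_num) h30)
    · exact h
  exact hcong.reductionMod_eq hℓK

end Fermat.Agent.S52.B.B2.H352

end
-- ===== PACK-END S52/B/B2/H352/Main.lean

-- ===== PACK-BEGIN S52/B/B2/H352/SwitchP.lean
section



/-!
# S52 / B (helper352): `Switch ⇐ IntegralModelP ∧ FamilyHIT ∧ TorsionMap`

Same proof as `Fermat.Agent.S52.B.switch_of_parts`, with the prime form `IntegralModelP` of B2
(reductions compared only at the PRIME divisors of `M`; `Switch` uses `2`, `3`, `p₀` only).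
-/

set_option autoImplicit false

namespace Fermat.Agent.S52.B.B2.H352

open WeierstrassCurve Fermat.Agent.S52.Fam Fermat.Agent.S52.B

/-- `Switch` from the prime form of B2 (same proof as `switch_of_parts`). -/
theorem switch_of_partsP (hB2 : IntegralModelP) (hB3 : FamilyHIT) (hB1 : TorsionMap) :
    Fermat.Agent.S52.Switch := by
  intro W hΔ hW _h5 h3
  obtain ⟨M, p₀, hM0, hM6, hp₀, hp₀7, hp₀Δ, hp₀M, hmod⟩ := hB2 W hΔ hW
  have hM2 : 2 ≤ M := by
    obtain ⟨k, hk⟩ := hM6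
    omega
  obtain ⟨n, hn, hirr⟩ := hB3 W hΔ hW h3 M hM2
  obtain ⟨W', hc4, hc6, hΔ', hss, hred⟩ := hmod n hn
  have h2M : ((2 : ℕ) : ℤ) ∣ M := Dvd.dvd.trans (by norm_num) hM6
  have h3M : ((3 : ℕ) : ℤ) ∣ M := Dvd.dvd.trans (by norm_num) hM6
  exact ⟨W', hΔ', hss, hirr W' hΔ' hc4 hc6, hred 2 Nat.prime_two h2M, hred 3 Nat.prime_three h3M,
    hB1 W W' M n p₀ hΔ hΔ' hM0 hn hp₀ hp₀7 hp₀Δ hp₀M (hred p₀ hp₀ hp₀M) hc4 hc6⟩

end Fermat.Agent.S52.B.B2.H352

end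
-- ===== PACK-END S52/B/B2/H352/SwitchP.lean

-- ===== PACK-BEGIN S52/B3/Statement.lean
section




/-!
# S52, piece B3 (Hilbert irreducibility by hand) — FROZEN INTERFACE (squad S52/S60, helper60)

`B3Goal ⇐ HIT` (`b3Goal_of_HIT`, proved in `Fermat/Agent/S52/B3/Glue.lean`, uses landed S51 `three_main`).

* `quartic a b x = 3x⁴ + 6ax² + 12bx − a²` is `ψ₃` of `y² = x³ + ax + b`.
* `NoPolyRoot A B` : the quartic of the family `(A(t), B(t))` has no root in `ℚ[t]`.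
* `HIT` (abstract, Mathlib only): if the fibre at `t = 0` is nonsingular and has a rational root, and
  `NoPolyRoot A B`, then along `t = T/(r + kM)` there are arbitrarily large `k` whose fibre has no
  rational root.
* `NoPolyRootAbs` (abstract B3n, Mathlib only): `4A³ + 27B² = d₀F⁵`, `F` squarefree nonconstant,
  `3 deg A ≤ 5 deg F`, `A ≠ 0`  ⇒ `NoPolyRoot A B`.
* `B3Goal` : what `Switch` consumes (integral models with prescribed `c₄`, `c₆`).
-/

set_option autoImplicit false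

open Polynomial

namespace Fermat.Agent.S52.B3

/-- `ψ₃` of `y² = x³ + a x + b`. -/
def quartic {R : Type*} [CommRing R] (a b x : R) : R :=
  3 * x ^ 4 + 6 * a * x ^ 2 + 12 * b * x - a ^ 2

/-- The quartic of the family `(A(t), B(t))` has no root in `ℚ[t]`. -/
def NoPolyRoot (A B : ℚ[X]) : Prop :=
  ∀ P : ℚ[X], quartic A B P ≠ 0

/-- **HIT** (abstract Hilbert irreducibility for the `ψ₃`-quartic; frozen). -/
def HIT : Prop :=
  ∀ (A B : ℚ[X]), 4 * (A.eval 0) ^ 3 + 27 * (B.eval 0) ^ 2 ≠ 0 →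
    (∃ x₀ : ℚ, quartic (A.eval 0) (B.eval 0) x₀ = 0) →
    NoPolyRoot A B →
    ∀ (T : ℚ), T ≠ 0 → ∀ (M : ℕ), 0 < M → ∀ (r N0 : ℕ),
      ∃ k : ℕ, N0 ≤ k ∧ ∀ z : ℚ,
        quartic (A.eval (T / ((r + k * M : ℕ) : ℚ))) (B.eval (T / ((r + k * M : ℕ) : ℚ))) z ≠ 0

/-- **B3n** (abstract generic irreducibility; frozen). -/
def NoPolyRootAbs : Prop :=
  ∀ (A B F : ℚ[X]) (d₀ : ℚ), d₀ ≠ 0 → 4 * A ^ 3 + 27 * B ^ 2 = C d₀ * F ^ 5 →
    Squarefree F → 3 * A.natDegree ≤ 5 * F.natDegree → 0 < F.natDegree → A ≠ 0 →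
    NoPolyRoot A B

/-- Homogenisation of an integer polynomial: `homEval P d M n = ∑_{k ≤ d} P_k M^k n^(d-k)`
(`= n^d · P(M/n)` if `natDegree P ≤ d`). -/
def homEval (P : ℤ[X]) (d : ℕ) (M n : ℤ) : ℤ :=
  ∑ k ∈ Finset.range (d + 1), P.coeff k * M ^ k * n ^ (d - k)

/-- The rational family attached to integer polynomials `C4`, `C6`:
`A = -27 C4`, `B = -54 C6` (short Weierstrass form `y² = x³ - 27 c₄ x - 54 c₆`). -/
noncomputable def famA (C4 : ℤ[X]) : ℚ[X] := C (-27 : ℚ) * C4.map (Int.castRingHom ℚ)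

noncomputable def famB (C6 : ℤ[X]) : ℚ[X] := C (-54 : ℚ) * C6.map (Int.castRingHom ℚ)

/-- **B3 deliverable** (frozen): along `t = M/n`, `n ≡ r mod m`, there are arbitrarily large `n` such
that EVERY integral model with `c₄ = n²⁰C4(M/n)`, `c₆ = n³⁰C6(M/n)` and `Δ ≠ 0` has irreducible
mod-3 representation. -/
def B3Goal : Prop :=
  ∀ (W : WeierstrassCurve ℤ), W.Δ ≠ 0 → ¬ W.ModRepIsIrreducible 3 →
  ∀ (C4 C6 : ℤ[X]), C4.natDegree ≤ 20 → C6.natDegree ≤ 30 →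
    C4.coeff 0 = W.c₄ → C6.coeff 0 = W.c₆ →
    NoPolyRoot (famA C4) (famB C6) →
  ∀ (M : ℕ), 0 < M → ∀ (m : ℕ), 0 < m → ∀ (r N0 : ℕ),
    ∃ n : ℕ, N0 ≤ n ∧ 0 < n ∧ n ≡ r [MOD m] ∧
      ∀ W' : WeierstrassCurve ℤ, W'.c₄ = homEval C4 20 M n → W'.c₆ = homEval C6 30 M n →
        W'.Δ ≠ 0 → W'.ModRepIsIrreducible 3

end Fermat.Agent.S52.B3

end
-- ===== PACK-END S52/B3/Statement.lean

-- ===== PACK-BEGIN S52/H531/Setup.lean
section
/-
S52 / piece B3 (Hilbert irreducibility by hand), helper531.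
Part 6: dictionary between the integral scaled quartic at `n` and the real quartic at `t = T/n`.
-/


namespace Fermat.Agent.S52.H531

open Polynomial Finset

/-- `C4` with coefficients in a field `K`. -/
noncomputable abbrev polyK (K : Type*) [Field K] (p : ℤ[X]) : K[X] := p.map (Int.castRingHom K)

theorem polyK_eval_zero (K : Type*) [Field K] (p : ℤ[X]) :
    (polyK K p).eval 0 = ((p.eval 0 : ℤ) : K) := by
  unfold polyK; rw [eval_zero_map]; simp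

theorem eval_cA {R : Type*} [CommRing R] (p : R[X]) (t : R) : (cA p).eval t = cA (p.eval t) := by
  unfold cA; simp

theorem eval_cB {R : Type*} [CommRing R] (p : R[X]) (t : R) : (cB p).eval t = cB (p.eval t) := by
  unfold cB; simp

theorem eval_cC {R : Type*} [CommRing R] (p : R[X]) (t : R) : (cC p).eval t = cC (p.eval t) := by
  unfold cC; simp

theorem map_cA {R S : Type*} [CommRing R] [CommRing S] (f : R →+* S) (x : R) :
    f (cA x) = cA (f x) := by unfold cA; simp [map_ofNat]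

theorem map_cB {R S : Type*} [CommRing R] [CommRing S] (f : R →+* S) (x : R) :
    f (cB x) = cB (f x) := by unfold cB; simp [map_ofNat]

theorem map_cC {R S : Type*} [CommRing R] [CommRing S] (f : R →+* S) (x : R) :
    f (cC x) = cC (f x) := by unfold cC; simp [map_ofNat]

theorem polyK_real_eq_map (p : ℤ[X]) :
    polyK ℝ p = (polyK ℚ p).map (algebraMap ℚ ℝ) := by
  unfold polyK
  rw [Polynomial.map_map]
  congr 1

/-- A rational root `X` of the integral scaled quartic at `n` gives the real root `X / n^w` of the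
quartic at `t = T / n`. -/
theorem root_scaled (w : ℕ) (C4 C6 : ℤ[X]) (h4 : C4.natDegree ≤ 2 * w) (h6 : C6.natDegree ≤ 3 * w)
    (T : ℤ) (n : ℕ) (hn : n ≠ 0) (X : ℚ)
    (hX : psiQ ((homEval C4 (2 * w) T n : ℤ) : ℚ) ((homEval C6 (3 * w) T n : ℤ) : ℚ) X = 0) :
    quart ((cA (polyK ℝ C4)).eval ((T : ℝ) / n)) ((cB (polyK ℝ C6)).eval ((T : ℝ) / n))
      ((cC (polyK ℝ C4)).eval ((T : ℝ) / n)) ((X : ℝ) / (n : ℝ) ^ w) = 0 := by
  have hnR : ((n : ℤ) : ℝ) ≠ 0 := by exact_mod_cast hn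
  have hn' : (n : ℝ) ≠ 0 := by exact_mod_cast hn
  have hnw : (n : ℝ) ^ w ≠ 0 := pow_ne_zero _ hn'
  have h1 : psiQ (((homEval C4 (2 * w) T n : ℤ) : ℚ) : ℝ) (((homEval C6 (3 * w) T n : ℤ) : ℚ) : ℝ)
      (X : ℝ) = 0 := by
    have := congrArg (algebraMap ℚ ℝ) hX
    rw [map_psiQ, map_zero] at this
    simpa using this
  have e4 := homEval_eq (K := ℝ) C4 (2 * w) h4 T n hnR
  have e6 := homEval_eq (K := ℝ) C6 (3 * w) h6 T n hnR
  simp only [Int.cast_natCast] at e4 e6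
  have c4 : (((homEval C4 (2 * w) T n : ℤ) : ℚ) : ℝ)
      = ((n : ℝ) ^ w) ^ 2 * (polyK ℝ C4).eval ((T : ℝ) / n) := by
    rw [← pow_mul, mul_comm w 2]
    rw [← e4]; norm_cast
  have c6 : (((homEval C6 (3 * w) T n : ℤ) : ℚ) : ℝ)
      = ((n : ℝ) ^ w) ^ 3 * (polyK ℝ C6).eval ((T : ℝ) / n) := by
    rw [← pow_mul, mul_comm w 3]
    rw [← e6]; norm_cast
  have cX : (X : ℝ) = (n : ℝ) ^ w * ((X : ℝ) / (n : ℝ) ^ w) := by
    field_simp
  rw [c4, c6, cX, psiQ_scale] at h1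
  have h2 : psiQ ((polyK ℝ C4).eval ((T : ℝ) / n)) ((polyK ℝ C6).eval ((T : ℝ) / n))
      ((X : ℝ) / (n : ℝ) ^ w) = 0 := by
    rcases mul_eq_zero.mp h1 with h | h
    · exact absurd h (pow_ne_zero _ hnw)
    · exact h
  rw [eval_cA, eval_cB, eval_cC]
  exact h2

/-- Common denominator for the values `n^w * P(T/n)`. -/
theorem exists_den (P : ℚ[X]) (w : ℕ) (hP : P.natDegree ≤ w) :
    ∃ D : ℕ, 0 < D ∧ ∀ (T : ℤ) (n : ℕ), n ≠ 0 →
      ∃ I : ℤ, (I : ℚ) = D * (n : ℚ) ^ w * P.eval ((T : ℚ) / n) := by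
  refine ⟨∏ j ∈ range (w + 1), (P.coeff j).den, ?_, ?_⟩
  · apply Finset.prod_pos
    intro j _
    exact (P.coeff j).den_pos
  · intro T n hn
    have hn' : (n : ℚ) ≠ 0 := by exact_mod_cast hn
    -- each D * coeff j is an integer
    have hc : ∀ j ∈ range (w + 1), ∃ c : ℤ,
        (c : ℚ) = ((∏ i ∈ range (w + 1), (P.coeff i).den : ℕ) : ℚ) * P.coeff j := by
      intro j hj
      obtain ⟨e, he⟩ := Finset.dvd_prod_of_mem (fun i => (P.coeff i).den) hj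
      refine ⟨(e : ℤ) * (P.coeff j).num, ?_⟩
      rw [he]
      push_cast
      have := Rat.mul_den_eq_num (P.coeff j)
      rw [← this]
      ring
    choose! c hc using hc
    refine ⟨∑ j ∈ range (w + 1), c j * T ^ j * (n : ℤ) ^ (w - j), ?_⟩
    have hdeg : P.natDegree < w + 1 := Nat.lt_succ_of_le hP
    rw [eval_eq_sum_range' hdeg, Finset.mul_sum]
    push_cast
    apply Finset.sum_congr rfl
    intro j hj
    have hjd : j ≤ w := Nat.lt_succ_iff.mp (Finset.mem_range.mp hj)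
    rw [hc j hj, div_pow]
    have : (n : ℚ) ^ w = (n : ℚ) ^ (w - j) * (n : ℚ) ^ j := by
      rw [← pow_add, Nat.sub_add_cancel hjd]
    rw [this]
    have hnj : (n : ℚ) ^ j ≠ 0 := pow_ne_zero _ hn'
    push_cast
    field_simp

end Fermat.Agent.S52.H531

end
-- ===== PACK-END S52/H531/Setup.lean

-- ===== PACK-BEGIN S52/H531/Step1.lean
section
/-
S52 / piece B3 (Hilbert irreducibility by hand), helper531.
Part 7 (rational branch): near a RATIONAL root of the quartic at `t = 0` there is no rational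
root of the scaled integral quartic at `n`, for all large `n`.
-/


namespace Fermat.Agent.S52.H531

open Polynomial Finset

theorem no_root_near_rational (w : ℕ) (C4 C6 : ℤ[X])
    (h4 : C4.natDegree ≤ 2 * w) (h6 : C6.natDegree ≤ 3 * w)
    (hΔ : (C4.eval 0) ^ 3 ≠ (C6.eval 0) ^ 2)
    (hgen : ∀ P : ℚ[X], psiQ (polyK ℚ C4) (polyK ℚ C6) P ≠ 0)
    (T : ℤ) (hT : T ≠ 0) (ρ : ℚ)
    (hρ : psiQ ((C4.eval 0 : ℤ) : ℚ) ((C6.eval 0 : ℤ) : ℚ) ρ = 0) :
    ∃ η : ℝ, 0 < η ∧ ∃ N1 : ℕ, ∀ n : ℕ, N1 ≤ n → ∀ X : ℚ,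
      psiQ ((homEval C4 (2 * w) T n : ℤ) : ℚ) ((homEval C6 (3 * w) T n : ℤ) : ℚ) X = 0 →
      ¬ |(X : ℝ) / (n : ℝ) ^ w - (ρ : ℝ)| ≤ η := by
  -- rational coefficient polynomials
  set Aq : ℚ[X] := cA (polyK ℚ C4) with hAq
  set Bq : ℚ[X] := cB (polyK ℚ C6) with hBq
  set Cq : ℚ[X] := cC (polyK ℚ C4) with hCq
  have hA0 : Aq.eval 0 = cA ((C4.eval 0 : ℤ) : ℚ) := by rw [hAq, eval_cA, polyK_eval_zero]
  have hB0 : Bq.eval 0 = cB ((C6.eval 0 : ℤ) : ℚ) := by rw [hBq, eval_cB, polyK_eval_zero]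
  have hC0 : Cq.eval 0 = cC ((C4.eval 0 : ℤ) : ℚ) := by rw [hCq, eval_cC, polyK_eval_zero]
  have hΔq : ((C4.eval 0 : ℤ) : ℚ) ^ 3 ≠ ((C6.eval 0 : ℤ) : ℚ) ^ 2 := by
    intro h; apply hΔ; exact_mod_cast h
  have hroot0 : quart (Aq.eval 0) (Bq.eval 0) (Cq.eval 0) ρ = 0 := by
    rw [hA0, hB0, hC0]; exact hρ
  have hsimple : quartD (Aq.eval 0) (Bq.eval 0) ρ ≠ 0 := by
    rw [hA0, hB0]; exact psiQ_deriv_ne_zero hΔq hρ
  obtain ⟨P, hP0, hPdeg, Gq, hGq⟩ := exists_newton_trunc Aq Bq Cq ρ hroot0 hsimple w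
  have hg : quart Aq Bq Cq P ≠ 0 := hgen P
  obtain ⟨Ng, hNg⟩ := eventually_not_root _ hg T hT
  obtain ⟨D, hD, hDint⟩ := exists_den P w hPdeg
  -- real versions
  set φ : ℚ[X] →+* ℝ[X] := Polynomial.mapRingHom (algebraMap ℚ ℝ) with hφ
  have hφA : φ Aq = cA (polyK ℝ C4) := by
    rw [hAq, map_cA, polyK_real_eq_map]; rfl
  have hφB : φ Bq = cB (polyK ℝ C6) := by
    rw [hBq, map_cB, polyK_real_eq_map]; rfl
  have hφC : φ Cq = cC (polyK ℝ C4) := by
    rw [hCq, map_cC, polyK_real_eq_map]; rfl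
  have hGR : quart (cA (polyK ℝ C4)) (cB (polyK ℝ C6)) (cC (polyK ℝ C4)) (φ P)
      = X ^ (w + 1) * φ Gq := by
    rw [← hφA, ← hφB, ← hφC, ← map_quart, hGq, map_mul, map_pow]
    congr 2
    simp [hφ]
  have hPR0 : (φ P).eval 0 = (ρ : ℝ) := by
    show (P.map (algebraMap ℚ ℝ)).eval 0 = (ρ : ℝ)
    rw [eval_zero_map, hP0]; rfl
  have hsimpleR : quartD ((cA (polyK ℝ C4)).eval 0) ((cB (polyK ℝ C6)).eval 0) (ρ : ℝ) ≠ 0 := by
    rw [← hφA, ← hφB]
    have e1 : (φ Aq).eval 0 = algebraMap ℚ ℝ (Aq.eval 0) := by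
      show (Aq.map (algebraMap ℚ ℝ)).eval 0 = _
      rw [eval_zero_map]
    have e2 : (φ Bq).eval 0 = algebraMap ℚ ℝ (Bq.eval 0) := by
      show (Bq.map (algebraMap ℚ ℝ)).eval 0 = _
      rw [eval_zero_map]
    rw [e1, e2]
    have : quartD (algebraMap ℚ ℝ (Aq.eval 0)) (algebraMap ℚ ℝ (Bq.eval 0)) (ρ : ℝ)
        = algebraMap ℚ ℝ (quartD (Aq.eval 0) (Bq.eval 0) ρ) := by
      rw [map_quartD]; rfl
    rw [this]
    intro h0
    apply hsimple
    exact (algebraMap ℚ ℝ).injective (by rw [h0, map_zero])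
  obtain ⟨η, hη, K, hK, hest⟩ := root_close_to_newton (cA (polyK ℝ C4)) (cB (polyK ℝ C6))
    (cC (polyK ℝ C4)) (φ P) (φ Gq) w (ρ : ℝ) hPR0 hGR hsimpleR
  refine ⟨η, hη, ?_⟩
  -- choose the threshold
  set Tabs : ℝ := |(T : ℝ)| with hTabs
  have hTpos : 0 < Tabs := abs_pos.mpr (by exact_mod_cast hT)
  obtain ⟨N2, hN2⟩ := exists_nat_gt (Tabs / η)
  obtain ⟨N3, hN3⟩ := exists_nat_gt (3 * D * K * Tabs ^ (w + 1))
  refine ⟨max (max Ng 1) (max N2 N3), fun n hn X hX hnear => ?_⟩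
  have hnNg : Ng ≤ n := le_trans (le_trans (le_max_left _ _) (le_max_left _ _)) hn
  have hn1 : 1 ≤ n := le_trans (le_trans (le_max_right _ _) (le_max_left _ _)) hn
  have hnN2 : N2 ≤ n := le_trans (le_trans (le_max_left _ _) (le_max_right _ _)) hn
  have hnN3 : N3 ≤ n := le_trans (le_trans (le_max_right _ _) (le_max_right _ _)) hn
  have hn0 : n ≠ 0 := by omega
  have hnR : (0 : ℝ) < n := by exact_mod_cast hn1
  have hnw : (0 : ℝ) < (n : ℝ) ^ w := by positivity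
  set t : ℝ := (T : ℝ) / n with ht
  set z : ℝ := (X : ℝ) / (n : ℝ) ^ w with hz
  have htabs : |t| = Tabs / n := by
    rw [ht, abs_div, abs_of_pos hnR]
  have htη : |t| ≤ η := by
    rw [htabs, div_le_iff₀ hnR]
    have : Tabs / η < n := lt_of_lt_of_le hN2 (by exact_mod_cast hnN2)
    rw [div_lt_iff₀ hη] at this
    linarith
  have hrootR := root_scaled w C4 C6 h4 h6 T n hn0 X hX
  have hclose := hest t z htη hnear hrootR
  -- the integers
  obtain ⟨N, hN⟩ := three_mul_int_of_root (-162 * homEval C4 (2 * w) T n)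
    (-648 * homEval C6 (3 * w) T n) (-729 * (homEval C4 (2 * w) T n) ^ 2) X (by
      have := hX
      unfold psiQ cA cB cC at this
      push_cast
      exact this)
  obtain ⟨I, hI⟩ := hDint T n hn0
  -- the small integer
  have hPt : (φ P).eval t = ((P.eval ((T : ℚ) / n) : ℚ) : ℝ) := by
    show (P.map (algebraMap ℚ ℝ)).eval t = _
    have : t = algebraMap ℚ ℝ ((T : ℚ) / n) := by
      rw [ht]; simp
    rw [this, eval_map_apply]; rfl
  have hdiff : (((D : ℤ) * N - 3 * I : ℤ) : ℝ) = 3 * D * (n : ℝ) ^ w * (z - (φ P).eval t) := by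
    have hNR : (N : ℝ) = 3 * (X : ℝ) := by exact_mod_cast congrArg (fun q : ℚ => (q : ℝ)) hN
    have hIR : (I : ℝ) = D * (n : ℝ) ^ w * ((P.eval ((T : ℚ) / n) : ℚ) : ℝ) := by
      exact_mod_cast congrArg (fun q : ℚ => (q : ℝ)) hI
    rw [hPt, hz]
    push_cast
    rw [hNR, hIR]
    field_simp
  have hsmall : |(((D : ℤ) * N - 3 * I : ℤ) : ℝ)| < 1 := by
    rw [hdiff, abs_mul, abs_mul, abs_mul]
    have hD' : (0 : ℝ) < D := by exact_mod_cast hD
    rw [abs_of_pos (by norm_num : (0 : ℝ) < 3), abs_of_pos hD', abs_of_pos hnw]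
    have h1 : |z - (φ P).eval t| ≤ K * (Tabs / n) ^ (w + 1) := by rw [← htabs]; exact hclose
    have h2 : (n : ℝ) ^ w * (Tabs / n) ^ (w + 1) = Tabs ^ (w + 1) / n := by
      rw [div_pow, pow_succ (n : ℝ) w]
      field_simp
    have h3 : 3 * D * K * Tabs ^ (w + 1) < n := lt_of_lt_of_le hN3 (by exact_mod_cast hnN3)
    calc 3 * (D : ℝ) * (n : ℝ) ^ w * |z - (φ P).eval t|
        ≤ 3 * (D : ℝ) * (n : ℝ) ^ w * (K * (Tabs / n) ^ (w + 1)) := by
          apply mul_le_mul_of_nonneg_left h1; positivity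
      _ = 3 * D * K * ((n : ℝ) ^ w * (Tabs / n) ^ (w + 1)) := by ring
      _ = 3 * D * K * Tabs ^ (w + 1) / n := by rw [h2]; ring
      _ < 1 := by rw [div_lt_one hnR]; exact h3
  have hzero : ((D : ℤ) * N - 3 * I : ℤ) = 0 := by
    have : |((D : ℤ) * N - 3 * I : ℤ)| < 1 := by exact_mod_cast hsmall
    exact Int.abs_lt_one_iff.mp this
  have hzP : z = (φ P).eval t := by
    rw [hzero] at hdiff
    have hD' : (D : ℝ) ≠ 0 := by exact_mod_cast hD.ne'
    have : 3 * (D : ℝ) * (n : ℝ) ^ w ≠ 0 := by positivity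
    have h0 : 3 * (D : ℝ) * (n : ℝ) ^ w * (z - (φ P).eval t) = 0 := by
      rw [← hdiff]; simp
    rcases mul_eq_zero.mp h0 with h | h
    · exact absurd h this
    · linarith
  -- so T/n is a root of g
  have hgt : (quart (cA (polyK ℝ C4)) (cB (polyK ℝ C6)) (cC (polyK ℝ C4)) (φ P)).eval t = 0 := by
    rw [eval_quart, ← hzP]; exact hrootR
  have hgq : (quart Aq Bq Cq P).eval ((T : ℚ) / n) = 0 := by
    have e : (φ (quart Aq Bq Cq P)).eval t = 0 := by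
      rw [map_quart, hφA, hφB, hφC]; exact hgt
    have : t = algebraMap ℚ ℝ ((T : ℚ) / n) := by
      rw [ht]; simp
    rw [this] at e
    have e' : ((quart Aq Bq Cq P).map (algebraMap ℚ ℝ)).eval (algebraMap ℚ ℝ ((T : ℚ) / n)) = 0 := e
    rw [eval_map_apply] at e'
    exact (algebraMap ℚ ℝ).injective (by rw [e', map_zero])
  exact hNg n hnNg hgq

end Fermat.Agent.S52.H531

end
-- ===== PACK-END S52/H531/Step1.lean

-- ===== PACK-BEGIN S52/H531/Step2.lean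
section
/-
S52 / piece B3 (Hilbert irreducibility by hand), helper531.
Part 8 (the other branch): if for ALL large `k` the scaled integral quartic at `n = r + m k` has a
rational root close to a real root `x1` of the quartic at `t = 0`, then `x1` is rational.
-/


namespace Fermat.Agent.S52.H531

open Polynomial Finset Filter Topology
open scoped Nat

/-- The polynomial `k ↦ 3 (r + m k)^w P(T / (r + m k))`. -/
noncomputable def Qpoly (P : ℝ[X]) (w : ℕ) (T : ℤ) (r m : ℕ) : ℝ[X] :=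
  ∑ j ∈ range (w + 1),
    Polynomial.C (3 * P.coeff j * (T : ℝ) ^ j) * (Polynomial.C (m : ℝ) * X + Polynomial.C (r : ℝ)) ^ (w - j)

theorem Qpoly_natDegree_le (P : ℝ[X]) (w : ℕ) (T : ℤ) (r m : ℕ) :
    (Qpoly P w T r m).natDegree ≤ w := by
  unfold Qpoly
  apply natDegree_sum_le_of_forall_le
  intro j _
  apply (natDegree_C_mul_le _ _).trans
  apply (natDegree_pow_le).trans
  calc (w - j) * (Polynomial.C (m : ℝ) * X + Polynomial.C (r : ℝ)).natDegree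
      ≤ (w - j) * 1 := Nat.mul_le_mul_left _ (natDegree_linear_le)
    _ ≤ w := by omega

theorem Qpoly_coeff (P : ℝ[X]) (w : ℕ) (T : ℤ) (r m : ℕ) :
    (Qpoly P w T r m).coeff w = 3 * P.coeff 0 * (m : ℝ) ^ w := by
  unfold Qpoly
  rw [finsetSum_coeff, Finset.sum_range_succ']
  have hzero : ∀ j ∈ range w, (Polynomial.C (3 * P.coeff (j + 1) * (T : ℝ) ^ (j + 1))
      * (Polynomial.C (m : ℝ) * X + Polynomial.C (r : ℝ)) ^ (w - (j + 1))).coeff w = 0 := by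
    intro j hj
    have hjw : j < w := Finset.mem_range.mp hj
    apply coeff_eq_zero_of_natDegree_lt
    apply lt_of_le_of_lt (natDegree_C_mul_le _ _)
    apply lt_of_le_of_lt (natDegree_pow_le)
    calc (w - (j + 1)) * (Polynomial.C (m : ℝ) * X + Polynomial.C (r : ℝ)).natDegree
        ≤ (w - (j + 1)) * 1 := Nat.mul_le_mul_left _ (natDegree_linear_le)
      _ < w := by omega
  rw [Finset.sum_eq_zero hzero, zero_add, coeff_C_mul]
  have h1 := coeff_pow_of_natDegree_le (p := Polynomial.C (m : ℝ) * X + Polynomial.C (r : ℝ))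
    (n := 1) (natDegree_linear_le) (m := w)
  rw [mul_one] at h1
  rw [Nat.sub_zero, h1]
  simp

theorem Qpoly_eval (P : ℝ[X]) (w : ℕ) (hP : P.natDegree ≤ w) (T : ℤ) (r m k : ℕ)
    (hn : r + m * k ≠ 0) :
    (Qpoly P w T r m).eval (k : ℝ)
      = 3 * ((r + m * k : ℕ) : ℝ) ^ w * P.eval ((T : ℝ) / ((r + m * k : ℕ) : ℝ)) := by
  have hn' : ((r + m * k : ℕ) : ℝ) ≠ 0 := by exact_mod_cast hn
  have hdeg : P.natDegree < w + 1 := Nat.lt_succ_of_le hP
  unfold Qpoly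
  rw [eval_finsetSum, eval_eq_sum_range' hdeg, Finset.mul_sum]
  apply Finset.sum_congr rfl
  intro j hj
  have hjd : j ≤ w := Nat.lt_succ_iff.mp (Finset.mem_range.mp hj)
  have hlin : (m : ℝ) * (k : ℝ) + (r : ℝ) = ((r + m * k : ℕ) : ℝ) := by push_cast; ring
  simp only [eval_mul, eval_C, eval_pow, eval_add, eval_X]
  rw [hlin, div_pow]
  have : ((r + m * k : ℕ) : ℝ) ^ w
      = ((r + m * k : ℕ) : ℝ) ^ (w - j) * ((r + m * k : ℕ) : ℝ) ^ j := by
    rw [← pow_add, Nat.sub_add_cancel hjd]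
  rw [this]
  have hnj : ((r + m * k : ℕ) : ℝ) ^ j ≠ 0 := pow_ne_zero _ hn'
  field_simp

theorem rational_of_branch (w : ℕ) (C4 C6 : ℤ[X])
    (h4 : C4.natDegree ≤ 2 * w) (h6 : C6.natDegree ≤ 3 * w)
    (hΔ : (C4.eval 0) ^ 3 ≠ (C6.eval 0) ^ 2)
    (T : ℤ) (m : ℕ) (hm : 0 < m) (r : ℕ) (x1 : ℝ)
    (hx1 : psiQ ((C4.eval 0 : ℤ) : ℝ) ((C6.eval 0 : ℤ) : ℝ) x1 = 0) :
    ∃ η : ℝ, 0 < η ∧ ∀ (Xs : ℕ → ℚ) (K2 : ℕ),
      (∀ k, K2 ≤ k →
        psiQ ((homEval C4 (2 * w) T ((r + m * k : ℕ) : ℤ) : ℤ) : ℚ)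
          ((homEval C6 (3 * w) T ((r + m * k : ℕ) : ℤ) : ℤ) : ℚ) (Xs k) = 0 ∧
        |(Xs k : ℝ) / ((r + m * k : ℕ) : ℝ) ^ w - x1| ≤ η) →
      ∃ q : ℚ, (q : ℝ) = x1 := by
  set A : ℝ[X] := cA (polyK ℝ C4) with hA
  set B : ℝ[X] := cB (polyK ℝ C6) with hB
  set C : ℝ[X] := cC (polyK ℝ C4) with hC
  have hA0 : A.eval 0 = cA ((C4.eval 0 : ℤ) : ℝ) := by rw [hA, eval_cA, polyK_eval_zero]
  have hB0 : B.eval 0 = cB ((C6.eval 0 : ℤ) : ℝ) := by rw [hB, eval_cB, polyK_eval_zero]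
  have hC0 : C.eval 0 = cC ((C4.eval 0 : ℤ) : ℝ) := by rw [hC, eval_cC, polyK_eval_zero]
  have hΔR : ((C4.eval 0 : ℤ) : ℝ) ^ 3 ≠ ((C6.eval 0 : ℤ) : ℝ) ^ 2 := by
    intro h; apply hΔ; exact_mod_cast h
  have hroot0 : quart (A.eval 0) (B.eval 0) (C.eval 0) x1 = 0 := by
    rw [hA0, hB0, hC0]; exact hx1
  have hsimple : quartD (A.eval 0) (B.eval 0) x1 ≠ 0 := by
    rw [hA0, hB0]; exact psiQ_deriv_ne_zero hΔR hx1
  obtain ⟨P, hP0, hPdeg, G, hG⟩ := exists_newton_trunc A B C x1 hroot0 hsimple w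
  obtain ⟨η, hη, K, hK, hest⟩ := root_close_to_newton A B C P G w x1 hP0 hG hsimple
  refine ⟨η, hη, fun Xs K2 hXs => ?_⟩
  set Tabs : ℝ := |(T : ℝ)| with hTabs
  have hTnn : 0 ≤ Tabs := abs_nonneg _
  -- the integers 3 * Xs k
  have hint : ∀ k, ∃ N : ℤ, K2 ≤ k → (N : ℚ) = 3 * Xs k := by
    intro k
    by_cases hk : K2 ≤ k
    · obtain ⟨N, hN⟩ := three_mul_int_of_root (-162 * homEval C4 (2 * w) T ((r + m * k : ℕ) : ℤ))
        (-648 * homEval C6 (3 * w) T ((r + m * k : ℕ) : ℤ))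
        (-729 * (homEval C4 (2 * w) T ((r + m * k : ℕ) : ℤ)) ^ 2) (Xs k) (by
          have := (hXs k hk).1
          unfold psiQ cA cB cC at this
          push_cast
          exact this)
      exact ⟨N, fun _ => hN⟩
    · exact ⟨0, fun h => absurd h hk⟩
  choose u hu using hint
  -- the limit
  have hlim : Tendsto (fun k : ℕ => (u k : ℝ) - (Qpoly P w T r m).eval (k : ℝ)) atTop (𝓝 0) := by
    rw [Metric.tendsto_atTop]
    intro ε hε
    obtain ⟨N2, hN2⟩ := exists_nat_gt (Tabs / η)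
    obtain ⟨N3, hN3⟩ := exists_nat_gt (3 * K * Tabs ^ (w + 1) / ε)
    refine ⟨max (max K2 1) (max N2 N3), fun k hk => ?_⟩
    have hkK2 : K2 ≤ k := le_trans (le_trans (le_max_left _ _) (le_max_left _ _)) hk
    have hk1 : 1 ≤ k := le_trans (le_trans (le_max_right _ _) (le_max_left _ _)) hk
    have hkN2 : N2 ≤ k := le_trans (le_trans (le_max_left _ _) (le_max_right _ _)) hk
    have hkN3 : N3 ≤ k := le_trans (le_trans (le_max_right _ _) (le_max_right _ _)) hk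
    have hkn : k ≤ r + m * k := by nlinarith
    have hn0 : r + m * k ≠ 0 := by omega
    set n : ℕ := r + m * k with hn
    have hnR : (0 : ℝ) < n := by exact_mod_cast Nat.pos_of_ne_zero hn0
    have hknR : (k : ℝ) ≤ n := by exact_mod_cast hkn
    have hkR : (0 : ℝ) < k := by exact_mod_cast hk1
    have hnw : (0 : ℝ) < (n : ℝ) ^ w := by positivity
    set t : ℝ := (T : ℝ) / n with ht
    set z : ℝ := (Xs k : ℝ) / (n : ℝ) ^ w with hz
    have htabs : |t| = Tabs / n := by rw [ht, abs_div, abs_of_pos hnR]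
    have htη : |t| ≤ η := by
      rw [htabs, div_le_iff₀ hnR]
      have h1 : Tabs / η < k := lt_of_lt_of_le hN2 (by exact_mod_cast hkN2)
      rw [div_lt_iff₀ hη] at h1
      nlinarith
    obtain ⟨hroot, hnear⟩ := hXs k hkK2
    have hrootR := root_scaled w C4 C6 h4 h6 T n hn0 (Xs k) (by exact_mod_cast hroot)
    have hclose := hest t z htη hnear hrootR
    have huR : (u k : ℝ) = 3 * (Xs k : ℝ) := by
      exact_mod_cast congrArg (fun q : ℚ => (q : ℝ)) (hu k hkK2)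
    have hQ : (Qpoly P w T r m).eval (k : ℝ) = 3 * (n : ℝ) ^ w * P.eval ((T : ℝ) / (n : ℝ)) :=
      Qpoly_eval P w hPdeg T r m k hn0
    rw [Real.dist_eq, sub_zero, hQ, huR]
    have hrew : 3 * (Xs k : ℝ) - 3 * (n : ℝ) ^ w * P.eval ((T : ℝ) / (n : ℝ))
        = 3 * (n : ℝ) ^ w * (z - P.eval t) := by
      rw [hz, ht]
      field_simp
    rw [hrew, abs_mul, abs_mul, abs_of_pos (by norm_num : (0 : ℝ) < 3), abs_of_pos hnw]
    have h1 : |z - P.eval t| ≤ K * (Tabs / n) ^ (w + 1) := by rw [← htabs]; exact hclose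
    have h2 : (n : ℝ) ^ w * (Tabs / n) ^ (w + 1) = Tabs ^ (w + 1) / n := by
      rw [div_pow, pow_succ (n : ℝ) w]
      field_simp
    have h3 : 3 * K * Tabs ^ (w + 1) / ε < k := lt_of_lt_of_le hN3 (by exact_mod_cast hkN3)
    have h4' : 3 * K * Tabs ^ (w + 1) < ε * n := by
      rw [div_lt_iff₀ hε] at h3
      nlinarith
    calc 3 * (n : ℝ) ^ w * |z - P.eval t|
        ≤ 3 * (n : ℝ) ^ w * (K * (Tabs / n) ^ (w + 1)) := by
          apply mul_le_mul_of_nonneg_left h1; positivity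
      _ = 3 * K * ((n : ℝ) ^ w * (Tabs / n) ^ (w + 1)) := by ring
      _ = 3 * K * Tabs ^ (w + 1) / n := by rw [h2]; ring
      _ < ε := by rw [div_lt_iff₀ hnR]; exact h4'
  obtain ⟨N, hN⟩ := factorial_mul_coeff_int w (Qpoly P w T r m) (Qpoly_natDegree_le P w T r m)
    u hlim
  rw [Qpoly_coeff, coeff_zero_eq_eval_zero, hP0] at hN
  refine ⟨(N : ℚ) / ((w ! : ℚ) * 3 * (m : ℚ) ^ w), ?_⟩
  have hm' : (m : ℝ) ≠ 0 := by exact_mod_cast hm.ne'
  have hw' : (w ! : ℝ) ≠ 0 := by exact_mod_cast (Nat.factorial_ne_zero w)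
  push_cast
  rw [hN]
  field_simp

end Fermat.Agent.S52.H531

end
-- ===== PACK-END S52/H531/Step2.lean

-- ===== PACK-BEGIN S52/H531/Main.lean
section
/-
S52 / piece B3 (Hilbert irreducibility by hand), helper531.  MAIN THEOREM.

Setting: `C4 C6 : ℤ[X]` of degrees `≤ 2w`, `≤ 3w` (for the Rubin–Silverberg family `w = 10`),
`ψ_t(x) = 3x⁴ - 162 C4(t) x² - 648 C6(t) x - 729 C4(t)²`
(= the 3-division polynomial of `y² = x³ - 27 C4(t) x - 54 C6(t)`).
Hypotheses: `ψ_0` has a rational root, `C4(0)³ ≠ C6(0)²`, and `ψ_t` has no root in `ℚ[t]`.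
Conclusion: in every arithmetic progression `n = r + m k` there are arbitrarily large `k` such
that the integral quartic `3X⁴ - 162 c4 X² - 648 c6 X - 729 c4²`,
`c4 = n^(2w) C4(T/n)`, `c6 = n^(3w) C6(T/n)`, has NO rational root.
-/



namespace Fermat.Agent.S52.H531

open Polynomial Finset

theorem exists_rootless (w : ℕ) (C4 C6 : ℤ[X])
    (h4 : C4.natDegree ≤ 2 * w) (h6 : C6.natDegree ≤ 3 * w)
    (hΔ : (C4.eval 0) ^ 3 ≠ (C6.eval 0) ^ 2)
    (x0 : ℚ) (hx0 : psiQ ((C4.eval 0 : ℤ) : ℚ) ((C6.eval 0 : ℤ) : ℚ) x0 = 0)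
    (hgen : ∀ P : ℚ[X], psiQ (polyK ℚ C4) (polyK ℚ C6) P ≠ 0)
    (T : ℤ) (hT : T ≠ 0) (m : ℕ) (hm : 0 < m) (r : ℕ) (K0 : ℕ) :
    ∃ k : ℕ, K0 ≤ k ∧ ∀ X : ℚ,
      psiQ ((homEval C4 (2 * w) T ((r + m * k : ℕ) : ℤ) : ℤ) : ℚ)
        ((homEval C6 (3 * w) T ((r + m * k : ℕ) : ℤ) : ℤ) : ℚ) X ≠ 0 := by
  by_contra hcon
  have hall : ∀ k : ℕ, ∃ X : ℚ, K0 ≤ k →
      psiQ ((homEval C4 (2 * w) T ((r + m * k : ℕ) : ℤ) : ℤ) : ℚ)
        ((homEval C6 (3 * w) T ((r + m * k : ℕ) : ℤ) : ℤ) : ℚ) X = 0 := by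
    intro k
    by_cases hk : K0 ≤ k
    · by_contra h
      apply hcon
      refine ⟨k, hk, fun X hX => h ⟨X, fun _ => hX⟩⟩
    · exact ⟨0, fun h => absurd h hk⟩
  choose Xs hXs using hall
  -- real data
  set A : ℝ[X] := cA (polyK ℝ C4) with hA
  set B : ℝ[X] := cB (polyK ℝ C6) with hB
  set C : ℝ[X] := cC (polyK ℝ C4) with hC
  have hA0 : A.eval 0 = cA ((C4.eval 0 : ℤ) : ℝ) := by rw [hA, eval_cA, polyK_eval_zero]
  have hB0 : B.eval 0 = cB ((C6.eval 0 : ℤ) : ℝ) := by rw [hB, eval_cB, polyK_eval_zero]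
  have hC0 : C.eval 0 = cC ((C4.eval 0 : ℤ) : ℝ) := by rw [hC, eval_cC, polyK_eval_zero]
  have hΔR : ((C4.eval 0 : ℤ) : ℝ) ^ 3 ≠ ((C6.eval 0 : ℤ) : ℝ) ^ 2 := by
    intro h; apply hΔ; exact_mod_cast h
  have hx0R : psiQ ((C4.eval 0 : ℤ) : ℝ) ((C6.eval 0 : ℤ) : ℝ) (x0 : ℝ) = 0 := by
    have := congrArg (algebraMap ℚ ℝ) hx0
    rw [map_psiQ, map_zero] at this
    simpa using this
  obtain ⟨x1, hx1, hpair⟩ := psiQ_roots_subset_pair hΔR hx0R
  obtain ⟨η0, hη0, N0, hstep0⟩ := no_root_near_rational w C4 C6 h4 h6 hΔ hgen T hT x0 hx0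
  obtain ⟨η1, hη1, hstep2⟩ := rational_of_branch w C4 C6 h4 h6 hΔ T m hm r x1 hx1
  set Tabs : ℝ := |(T : ℝ)| with hTabs
  -- common tool: for large k the root z_k is close to x0 or x1
  have hloc : ∀ ε : ℝ, 0 < ε → ∃ K1 : ℕ, ∀ k, K1 ≤ k → K0 ≤ k ∧ 1 ≤ k ∧
      (|(Xs k : ℝ) / ((r + m * k : ℕ) : ℝ) ^ w - (x0 : ℝ)| < ε ∨
        |(Xs k : ℝ) / ((r + m * k : ℕ) : ℝ) ^ w - x1| < ε) := by
    intro ε hε
    obtain ⟨δ, hδ, hnear⟩ := root_near_root A B C ε hε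
    obtain ⟨N2, hN2⟩ := exists_nat_gt (Tabs / δ)
    refine ⟨max (max K0 1) N2, fun k hk => ?_⟩
    have hkK0 : K0 ≤ k := le_trans (le_trans (le_max_left _ _) (le_max_left _ _)) hk
    have hk1 : 1 ≤ k := le_trans (le_trans (le_max_right _ _) (le_max_left _ _)) hk
    have hkN2 : N2 ≤ k := le_trans (le_max_right _ _) hk
    refine ⟨hkK0, hk1, ?_⟩
    have hkn : k ≤ r + m * k := by nlinarith
    have hn0 : r + m * k ≠ 0 := by omega
    have hnR : (0 : ℝ) < ((r + m * k : ℕ) : ℝ) := by exact_mod_cast Nat.pos_of_ne_zero hn0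
    have hknR : (k : ℝ) ≤ ((r + m * k : ℕ) : ℝ) := by exact_mod_cast hkn
    have htδ : |(T : ℝ) / ((r + m * k : ℕ) : ℝ)| ≤ δ := by
      rw [abs_div, abs_of_pos hnR, div_le_iff₀ hnR]
      have h1 : Tabs / δ < k := lt_of_lt_of_le hN2 (by exact_mod_cast hkN2)
      rw [div_lt_iff₀ hδ] at h1
      nlinarith
    have hrootR := root_scaled w C4 C6 h4 h6 T (r + m * k) hn0 (Xs k) (hXs k hkK0)
    obtain ⟨ρ, hρ, hρε⟩ := hnear _ _ htδ hrootR
    rw [hA0, hB0, hC0] at hρ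
    rcases hpair ρ hρ with h | h
    · left; rw [← h]; exact hρε
    · right; rw [← h]; exact hρε
  by_cases hrat : ∃ q : ℚ, (q : ℝ) = x1
  · -- both branches rational
    obtain ⟨q, hq⟩ := hrat
    have hqroot : psiQ ((C4.eval 0 : ℤ) : ℚ) ((C6.eval 0 : ℤ) : ℚ) q = 0 := by
      have h1 : algebraMap ℚ ℝ (psiQ ((C4.eval 0 : ℤ) : ℚ) ((C6.eval 0 : ℤ) : ℚ) q) = 0 := by
        rw [map_psiQ]
        have : (algebraMap ℚ ℝ) q = x1 := hq
        rw [this]
        simpa using hx1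
      exact (algebraMap ℚ ℝ).injective (by rw [h1, map_zero])
    obtain ⟨ηq, hηq, Nq, hstepq⟩ := no_root_near_rational w C4 C6 h4 h6 hΔ hgen T hT q hqroot
    obtain ⟨K1, hK1⟩ := hloc (min η0 ηq) (lt_min hη0 hηq)
    set k := max K1 (max N0 Nq) with hk
    obtain ⟨hkK0, hk1, hor⟩ := hK1 k (le_max_left _ _)
    have hkn : k ≤ r + m * k := by nlinarith
    have hN0 : N0 ≤ r + m * k :=
      le_trans (le_trans (le_max_left _ _) (le_max_right _ _)) hkn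
    have hNq : Nq ≤ r + m * k :=
      le_trans (le_trans (le_max_right _ _) (le_max_right _ _)) hkn
    rcases hor with h | h
    · exact hstep0 (r + m * k) hN0 (Xs k) (hXs k hkK0)
        (le_of_lt (lt_of_lt_of_le h (min_le_left _ _)))
    · refine hstepq (r + m * k) hNq (Xs k) (hXs k hkK0) ?_
      rw [hq]
      exact le_of_lt (lt_of_lt_of_le h (min_le_right _ _))
  · -- x1 irrational: all large k follow the branch of x1
    apply hrat
    obtain ⟨K1, hK1⟩ := hloc (min η0 η1) (lt_min hη0 hη1)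
    apply hstep2 Xs (max K1 N0)
    intro k hk
    have hkK1 : K1 ≤ k := le_trans (le_max_left _ _) hk
    have hkN0 : N0 ≤ k := le_trans (le_max_right _ _) hk
    obtain ⟨hkK0, hk1, hor⟩ := hK1 k hkK1
    have hkn : k ≤ r + m * k := by nlinarith
    refine ⟨hXs k hkK0, ?_⟩
    rcases hor with h | h
    · exfalso
      exact hstep0 (r + m * k) (le_trans hkN0 hkn) (Xs k) (hXs k hkK0)
        (le_of_lt (lt_of_lt_of_le h (min_le_left _ _)))
    · exact le_of_lt (lt_of_lt_of_le h (min_le_right _ _))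

/-- The same statement with `psiQ` unfolded. -/
theorem exists_rootless' (w : ℕ) (C4 C6 : ℤ[X])
    (h4 : C4.natDegree ≤ 2 * w) (h6 : C6.natDegree ≤ 3 * w)
    (hΔ : (C4.eval 0) ^ 3 ≠ (C6.eval 0) ^ 2)
    (x0 : ℚ) (hx0 : 3 * x0 ^ 4 - 162 * ((C4.eval 0 : ℤ) : ℚ) * x0 ^ 2
      - 648 * ((C6.eval 0 : ℤ) : ℚ) * x0 - 729 * ((C4.eval 0 : ℤ) : ℚ) ^ 2 = 0)
    (hgen : ∀ P : ℚ[X], 3 * P ^ 4 - 162 * C4.map (Int.castRingHom ℚ) * P ^ 2
      - 648 * C6.map (Int.castRingHom ℚ) * P - 729 * (C4.map (Int.castRingHom ℚ)) ^ 2 ≠ 0)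
    (T : ℤ) (hT : T ≠ 0) (m : ℕ) (hm : 0 < m) (r : ℕ) (K0 : ℕ) :
    ∃ k : ℕ, K0 ≤ k ∧ ∀ X : ℚ,
      3 * X ^ 4 - 162 * ((homEval C4 (2 * w) T ((r + m * k : ℕ) : ℤ) : ℤ) : ℚ) * X ^ 2
        - 648 * ((homEval C6 (3 * w) T ((r + m * k : ℕ) : ℤ) : ℤ) : ℚ) * X
        - 729 * ((homEval C4 (2 * w) T ((r + m * k : ℕ) : ℤ) : ℤ) : ℚ) ^ 2 ≠ 0 := by
  obtain ⟨k, hk, hroot⟩ := exists_rootless w C4 C6 h4 h6 hΔ x0 (by rw [psiQ_eq]; exact hx0)
    (fun P => by rw [psiQ_eq]; exact hgen P) T hT m hm r K0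
  refine ⟨k, hk, fun X => ?_⟩
  have := hroot X
  rw [psiQ_eq] at this
  exact this

end Fermat.Agent.S52.H531

end
-- ===== PACK-END S52/H531/Main.lean

-- ===== PACK-BEGIN S52/H531/Irr3.lean
section
/-
S52 / piece B3, helper531.  Bridge to the Prelude: if the quartic
`3X⁴ - 162 c₄ X² - 648 c₆ X - 729 c₄²` attached to an integral Weierstrass model `W` has no
rational root, then the mod-3 representation of `W` is irreducible
(via the landed S51 lemma `Fermat.Agent.S51.H780.three_main`).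
-/



set_option autoImplicit false

namespace Fermat.Agent.S52.H531

open WeierstrassCurve

/-- `ψ₃` of a long Weierstrass model in the variable `X = 36 x + 3 b₂`. -/
theorem psiQ_of_long (b2 b4 b6 b8 x : ℚ) (hb : 4 * b8 = b2 * b6 - b4 ^ 2) :
    psiQ (b2 ^ 2 - 24 * b4) (-b2 ^ 3 + 36 * b2 * b4 - 216 * b6) (36 * x + 3 * b2)
      = 1679616 * (3 * x ^ 4 + b2 * x ^ 3 + 3 * b4 * x ^ 2 + 3 * b6 * x + b8) := by
  rw [psiQ_eq]
  linear_combination (-419904 : ℚ) * hb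

/-- If the `(c₄, c₆)`-quartic of `W` has no rational root then `W[3]` is irreducible. -/
theorem irr3_of_rootless (W : WeierstrassCurve ℤ) (hΔ : W.Δ ≠ 0)
    (h : ∀ X : ℚ, psiQ (W.c₄ : ℚ) (W.c₆ : ℚ) X ≠ 0) : W.ModRepIsIrreducible 3 := by
  by_contra hirr
  obtain ⟨x, hx⟩ := Fermat.Agent.S51.H780.three_main W hΔ hirr
  apply h (36 * x + 3 * (W.b₂ : ℚ))
  have hb : 4 * (W.b₈ : ℚ) = (W.b₂ : ℚ) * (W.b₆ : ℚ) - (W.b₄ : ℚ) ^ 2 := by
    have := W.b_relation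
    exact_mod_cast this
  have hc4 : (W.c₄ : ℚ) = (W.b₂ : ℚ) ^ 2 - 24 * (W.b₄ : ℚ) := by
    simp only [WeierstrassCurve.c₄]; push_cast; ring
  have hc6 : (W.c₆ : ℚ) = -(W.b₂ : ℚ) ^ 3 + 36 * (W.b₂ : ℚ) * (W.b₄ : ℚ) - 216 * (W.b₆ : ℚ) := by
    simp only [WeierstrassCurve.c₆]; push_cast; ring
  rw [hc4, hc6, psiQ_of_long _ _ _ _ _ hb, hx, mul_zero]

/-- Unfolded variant. -/
theorem irr3_of_rootless' (W : WeierstrassCurve ℤ) (hΔ : W.Δ ≠ 0)
    (h : ∀ X : ℚ, 3 * X ^ 4 - 162 * (W.c₄ : ℚ) * X ^ 2 - 648 * (W.c₆ : ℚ) * X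
      - 729 * (W.c₄ : ℚ) ^ 2 ≠ 0) : W.ModRepIsIrreducible 3 :=
  irr3_of_rootless W hΔ (fun X => by rw [psiQ_eq]; exact h X)

/-- **B3, final form for the switch.**  Let `C4 C6 : ℤ[X]` (degrees `≤ 2w, 3w`) with
`C4(0) = c₄(W)`, `C6(0) = c₆(W)`, where `W[3]` is reducible and `Δ(W) ≠ 0`, and assume the
generic quartic has no root in `ℚ[X]`.  Then in every arithmetic progression `n = r + m k` there
are arbitrarily large `k` such that EVERY integral model `W'` with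
`c₄(W') = n^(2w) C4(T/n)`, `c₆(W') = n^(3w) C6(T/n)` and `Δ(W') ≠ 0` has `W'[3]` irreducible. -/
theorem exists_irr3 (w : ℕ) (C4 C6 : Polynomial ℤ)
    (h4 : C4.natDegree ≤ 2 * w) (h6 : C6.natDegree ≤ 3 * w)
    (W : WeierstrassCurve ℤ) (hΔ : W.Δ ≠ 0) (hred : ¬ W.ModRepIsIrreducible 3)
    (hC4 : C4.eval 0 = W.c₄) (hC6 : C6.eval 0 = W.c₆)
    (hgen : ∀ P : Polynomial ℚ, psiQ (polyK ℚ C4) (polyK ℚ C6) P ≠ 0)
    (T : ℤ) (hT : T ≠ 0) (m : ℕ) (hm : 0 < m) (r : ℕ) (K0 : ℕ) :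
    ∃ k : ℕ, K0 ≤ k ∧ ∀ W' : WeierstrassCurve ℤ, W'.Δ ≠ 0 →
      W'.c₄ = homEval C4 (2 * w) T ((r + m * k : ℕ) : ℤ) →
      W'.c₆ = homEval C6 (3 * w) T ((r + m * k : ℕ) : ℤ) →
      W'.ModRepIsIrreducible 3 := by
  -- the rational root of ψ₀
  obtain ⟨x, hx⟩ := Fermat.Agent.S51.H780.three_main W hΔ hred
  have hb : 4 * (W.b₈ : ℚ) = (W.b₂ : ℚ) * (W.b₆ : ℚ) - (W.b₄ : ℚ) ^ 2 := by
    have := W.b_relation
    exact_mod_cast this
  have hc4 : (W.c₄ : ℚ) = (W.b₂ : ℚ) ^ 2 - 24 * (W.b₄ : ℚ) := by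
    simp only [WeierstrassCurve.c₄]; push_cast; ring
  have hc6 : (W.c₆ : ℚ) = -(W.b₂ : ℚ) ^ 3 + 36 * (W.b₂ : ℚ) * (W.b₄ : ℚ) - 216 * (W.b₆ : ℚ) := by
    simp only [WeierstrassCurve.c₆]; push_cast; ring
  have hx0 : psiQ ((C4.eval 0 : ℤ) : ℚ) ((C6.eval 0 : ℤ) : ℚ) (36 * x + 3 * (W.b₂ : ℚ)) = 0 := by
    rw [hC4, hC6, hc4, hc6, psiQ_of_long _ _ _ _ _ hb, hx, mul_zero]
  have hdisc : (C4.eval 0) ^ 3 ≠ (C6.eval 0) ^ 2 := by
    rw [hC4, hC6]
    intro heq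
    apply hΔ
    have := W.c_relation
    rw [heq] at this
    omega
  obtain ⟨k, hk, hroot⟩ := exists_rootless w C4 C6 h4 h6 hdisc _ hx0 hgen T hT m hm r K0
  refine ⟨k, hk, fun W' hΔ' h4' h6' => ?_⟩
  apply irr3_of_rootless W' hΔ'
  rw [h4', h6']
  exact hroot

end Fermat.Agent.S52.H531

end
-- ===== PACK-END S52/H531/Irr3.lean

-- ===== PACK-BEGIN S52/B3/H240/Closed.lean
section


/-!
# S52 / B3n-fam: the `√5`-closed form of the Tate sections of the 5-congruent family (helper240)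

Polynomial identities (valid in every commutative ring) for helper952's family data
`Fermat.Agent.S52.Fam`:

* `q5_closed` : with `s² = 5`:
    `2·c·q5 − (11 + 5s)·q5' = (2c − 11 − 5s)·(1 − (c² + 1 + 6cs)τ)⁵`
* `q2_closed` : `(1 − (c²+1+6cs)τ)(1 − (c²+1−6cs)τ) = q2 c τ`
-/

set_option autoImplicit false

namespace Fermat.Agent.S52.B3.H240

open Fermat.Agent.S52.Fam

variable {R : Type*} [CommRing R]

theorem q5_closed (c τ s : R) (hs : s ^ 2 = 5) :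
    2 * (c * q5 c τ) - (11 + 5 * s) * q5' c τ
      = (2 * c - (11 + 5 * s)) * (1 - (c ^ 2 + 1 + 6 * c * s) * τ) ^ 5 := by
  simp only [q5, q5', q5_0, q5_1, q5_2, q5_3, q5_4, q5_5, q5'_0, q5'_1, q5'_2, q5'_3, q5'_4,
    q5'_5]
  linear_combination (-150*c*τ + 600*c*τ^2 - 900*c*τ^3 + 3960*c^2*τ^2 + 600*c*τ^4 + 1800*c^2*τ^2*s - 11880*c^2*τ^3 - 120*c^3*τ^2 - 150*c*τ^5 - 5400*c^2*τ^3*s + 11880*c^2*τ^4 - 53640*c^3*τ^3 + 5400*c^2*τ^4*s - 3960*c^2*τ^5 - 23760*c^3*τ^3*s + 107640*c^3*τ^4 - 11880*c^4*τ^3 - 1800*c^2*τ^5*s - 10800*c^3*τ^3*s^2 + 47520*c^3*τ^4*s - 53880*c^3*τ^5 - 1080*c^4*τ^3*s + 380160*c^4*τ^4 + 1260*c^5*τ^3 + 21600*c^3*τ^4*s^2 - 23760*c^3*τ^5*s + 164160*c^4*τ^4*s - 368280*c^4*τ^5 + 40680*c^5*τ^4 - 10800*c^3*τ^5*s^2 + 71280*c^4*τ^4*s^2 - 163080*c^4*τ^5*s + 47520*c^5*τ^4*s - 1013940*c^5*τ^5 + 11880*c^6*τ^4 + 32400*c^4*τ^4*s^3 - 71280*c^4*τ^5*s^2 + 8640*c^5*τ^4*s^2 - 475200*c^5*τ^5*s - 3240*c^6*τ^4*s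 - 368280*c^6*τ^5 - 1560*c^7*τ^4 - 32400*c^4*τ^5*s^3 - 203040*c^5*τ^5*s^2 - 81000*c^6*τ^5*s + 12360*c^7*τ^5 - 85536*c^5*τ^5*s^3 - 71280*c^6*τ^5*s^2 - 23760*c^7*τ^5*s - 3960*c^8*τ^5 - 38880*c^5*τ^5*s^4 - 16848*c^6*τ^5*s^3 + 2160*c^7*τ^5*s^2 + 2520*c^8*τ^5*s + 570*c^9*τ^5) * hs

theorem q2_closed (c τ s : R) (hs : s ^ 2 = 5) :
    (1 - (c ^ 2 + 1 + 6 * c * s) * τ) * (1 - (c ^ 2 + 1 - 6 * c * s) * τ) = q2 c τ := by
  simp only [q2]
  linear_combination (-36 * c ^ 2 * τ ^ 2) * hs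

end Fermat.Agent.S52.B3.H240

end
-- ===== PACK-END S52/B3/H240/Closed.lean

-- ===== PACK-BEGIN S52/B3/H240/Main.lean
section





/-!
# S52 / B3n-fam: the Klein form `Fk` of the 5-congruent family is separable (helper240)

`separable_Fk` : over an algebraically closed field of characteristic `0`, for `a³ ≠ b²`, the
polynomial `Fk (C a) (C b) X` (the Klein form of the family in the parameter `τ = X`) is separable.

Proof: Tate parameters `(c, λ)` (helper890), closed form `Fk = q5 · q5' · L₊ · L₋` (helper952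
`Fk_tate_one` + `q2_closed`), `2c·q5 − g±·q5' = κ±·L±⁵` (`q5_closed`), and the abstract lemma
`separable_icosa`.
-/

set_option autoImplicit false

namespace Fermat.Agent.S52.B3.H240

open Polynomial Fermat.Agent.S52.Fam

section naturality

variable {R S : Type*} [CommRing R] [CommRing S] (φ : R →+* S)

theorem map_tc4 (c : R) : φ (tc4 c) = tc4 (φ c) := by
  simp only [tc4, map_add, map_sub, map_mul, map_pow, map_ofNat, map_one]

theorem map_tc6 (c : R) : φ (tc6 c) = tc6 (φ c) := by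
  simp only [tc6, map_add, map_sub, map_neg, map_mul, map_pow, map_ofNat, map_one]

theorem map_Fk (a b t : R) : φ (Fk a b t) = Fk (φ a) (φ b) (φ t) := by
  simp only [Fk, Fk_0, Fk_2, Fk_3, Fk_4, Fk_5, Fk_6, Fk_7, Fk_8, Fk_9, Fk_10, Fk_11, Fk_12,
    map_add, map_sub, map_neg, map_mul, map_pow, map_ofNat, map_one]

theorem map_C4 (a b t : R) : φ (C4 a b t) = C4 (φ a) (φ b) (φ t) := by
  simp only [C4, C4_0, C4_1, C4_2, C4_3, C4_4, C4_5, C4_6, C4_7, C4_8, C4_9, C4_10, C4_11,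
    C4_12, C4_13, C4_14, C4_15, C4_16, C4_17, C4_18, C4_19, C4_20,
    map_add, map_sub, map_neg, map_mul, map_pow, map_ofNat]

theorem map_C6 (a b t : R) : φ (C6 a b t) = C6 (φ a) (φ b) (φ t) := by
  simp only [C6, C6_0, C6_1, C6_2, C6_3, C6_4, C6_5, C6_6, C6_7, C6_8, C6_9, C6_10, C6_11,
    C6_12, C6_13, C6_14, C6_15, C6_16, C6_17, C6_18, C6_19, C6_20, C6_21, C6_22, C6_23, C6_24,
    C6_25, C6_26, C6_27, C6_28, C6_29, C6_30,
    map_add, map_sub, map_neg, map_mul, map_pow, map_ofNat]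

end naturality

section closed

variable {K : Type*} [Field K]

theorem tc4_eq_H5 (c : K) : Fermat.Agent.S52.H890.H5 c 1 = tc4 c := by
  simp only [Fermat.Agent.S52.H890.H5, tc4]; ring

theorem tc6_eq_T5 (c : K) : Fermat.Agent.S52.H890.T5 c 1 = tc6 c := by
  simp only [Fermat.Agent.S52.H890.T5, tc6]; ring

/-- **Separability of the Klein form in Tate coordinates.** -/
theorem separable_Fk_tate (h2 : (2 : K) ≠ 0) (h3 : (3 : K) ≠ 0) (h5 : (5 : K) ≠ 0)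
    {c lam s : K} (hlam : lam ≠ 0) (hc : c ≠ 0) (hcc : c ^ 2 - 11 * c - 1 ≠ 0) (hs : s ^ 2 = 5) :
    (Fk (C (lam ^ 4 * tc4 c)) (C (lam ^ 6 * tc6 c)) (X : K[X])).Separable := by
  have hs0 : s ≠ 0 := by
    rintro rfl
    have : (0 : K) = 5 := by simpa using hs
    exact h5 this.symm
  -- the variable `τ = λ² X` and the constants
  set τ : K[X] := C (lam ^ 2) * X with hτ
  set a₁ : K := (c ^ 2 + 1 + 6 * c * s) * lam ^ 2 with ha₁
  set a₂ : K := (c ^ 2 + 1 - 6 * c * s) * lam ^ 2 with ha₂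
  have hCs : (C s : K[X]) ^ 2 = 5 := by
    rw [← C_pow, hs]; exact map_ofNat C 5
  have hCs' : (C (-s) : K[X]) ^ 2 = 5 := by
    rw [← C_pow, neg_sq, hs]; exact map_ofNat C 5
  have e2 : (C (2 : K) : K[X]) = 2 := map_ofNat C 2
  have e5 : (C (5 : K) : K[X]) = 5 := map_ofNat C 5
  have e6 : (C (6 : K) : K[X]) = 6 := map_ofNat C 6
  have e11 : (C (11 : K) : K[X]) = 11 := map_ofNat C 11
  have hL₁ : lin a₁ = 1 - (C c ^ 2 + 1 + 6 * C c * C s) * τ := by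
    simp only [lin, ha₁, hτ, C_mul, C_add, C_pow, C_1, e6]
    ring
  have hL₂ : lin a₂ = 1 - (C c ^ 2 + 1 + 6 * C c * C (-s)) * τ := by
    simp only [lin, ha₂, hτ, C_mul, C_add, C_sub, C_pow, C_1, C_neg, e6]
    ring
  have hL₂' : lin a₂ = 1 - (C c ^ 2 + 1 - 6 * C c * C s) * τ := by
    rw [hL₂, C_neg]; ring
  -- the Klein form in closed form
  have hF : Fk (C (lam ^ 4 * tc4 c)) (C (lam ^ 6 * tc6 c)) (X : K[X])
      = q5 (C c) τ * q5' (C c) τ * (lin a₁ * lin a₂) := by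
    have h1 : (C (lam ^ 4 * tc4 c) : K[X]) = C lam ^ 4 * tc4 (C c) := by
      rw [C_mul, C_pow, map_tc4 (C : K →+* K[X])]
    have h2' : (C (lam ^ 6 * tc6 c) : K[X]) = C lam ^ 6 * tc6 (C c) := by
      rw [C_mul, C_pow, map_tc6 (C : K →+* K[X])]
    rw [h1, h2', Fk_weight, Fk_tate_one, ← q2_closed (C c) _ (C s) hCs, hL₁, hL₂', hτ, C_pow]
  -- the two fifth-power relations
  have r₁ : C 2 * (C c * q5 (C c) τ) - C (11 + 5 * s) * q5' (C c) τ
      = C (2 * c - (11 + 5 * s)) * lin a₁ ^ 5 := by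
    have := q5_closed (C c) τ (C s) hCs
    rw [hL₁]
    simp only [C_mul, C_add, C_sub, e2, e5, e11]
    linear_combination this
  have r₂ : C 2 * (C c * q5 (C c) τ) - C (11 - 5 * s) * q5' (C c) τ
      = C (2 * c - (11 - 5 * s)) * lin a₂ ^ 5 := by
    have := q5_closed (C c) τ (C (-s)) hCs'
    rw [hL₂]
    simp only [C_mul, C_sub, C_neg, e2, e5, e11] at this ⊢
    linear_combination this
  -- nonvanishing of the constants
  have h12 : (12 : K) ≠ 0 := by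
    have : (12 : K) = 2 ^ 2 * 3 := by norm_num
    rw [this]; exact mul_ne_zero (pow_ne_zero _ h2) h3
  have h10 : (10 : K) ≠ 0 := by
    have : (10 : K) = 2 * 5 := by norm_num
    rw [this]; exact mul_ne_zero h2 h5
  have h4 : (4 : K) ≠ 0 := by
    have : (4 : K) = 2 ^ 2 := by norm_num
    rw [this]; exact pow_ne_zero _ h2
  have hab : a₁ ≠ a₂ := by
    intro h
    have : a₁ - a₂ = 12 * c * s * lam ^ 2 := by rw [ha₁, ha₂]; ring
    rw [h, sub_self] at this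
    exact (mul_ne_zero (mul_ne_zero (mul_ne_zero h12 hc) hs0) (pow_ne_zero _ hlam)) this.symm
  have hg : (11 + 5 * s) ≠ (11 - 5 * s) := by
    intro h
    have : 10 * s = 0 := by linear_combination h
    exact (mul_ne_zero h10 hs0) this
  have hgg : (11 + 5 * s) * (11 - 5 * s) = -4 := by linear_combination (-25 : K) * hs
  have hg₁ : (11 + 5 * s) ≠ 0 := by
    intro h; rw [h, zero_mul] at hgg; exact (neg_ne_zero.mpr h4) hgg.symm
  have hg₂ : (11 - 5 * s) ≠ 0 := by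
    intro h; rw [h, mul_zero] at hgg; exact (neg_ne_zero.mpr h4) hgg.symm
  have hκκ : (2 * c - (11 + 5 * s)) * (2 * c - (11 - 5 * s)) = 4 * (c ^ 2 - 11 * c - 1) := by
    linear_combination (-25 : K) * hs
  have hκ₁ : (2 * c - (11 + 5 * s)) ≠ 0 := by
    intro h; rw [h, zero_mul] at hκκ; exact (mul_ne_zero h4 hcc) hκκ.symm
  have hκ₂ : (2 * c - (11 - 5 * s)) ≠ 0 := by
    intro h; rw [h, mul_zero] at hκκ; exact (mul_ne_zero h4 hcc) hκκ.symm
  have key := separable_icosa h2 h5 hab hg hg₁ hg₂ hκ₁ hκ₂ r₁ r₂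
  have hfac : C c * q5 (C c) τ * q5' (C c) τ * lin a₁ * lin a₂
      = C c * Fk (C (lam ^ 4 * tc4 c)) (C (lam ^ 6 * tc6 c)) (X : K[X]) := by
    rw [hF]; ring
  rw [hfac] at key
  exact key.of_mul_right

/-- **Separability of the Klein form** `Fk(a, b, X)` over an algebraically closed field of
characteristic `0` (more generally: `2, 3, 5 ≠ 0`), for `a³ ≠ b²`. -/
theorem separable_Fk [IsAlgClosed K] (h2 : (2 : K) ≠ 0) (h3 : (3 : K) ≠ 0) (h5 : (5 : K) ≠ 0)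
    (a b : K) (hΔ : a ^ 3 - b ^ 2 ≠ 0) :
    (Fk (C a) (C b) (X : K[X])).Separable := by
  obtain ⟨c, lam, hlam, hc, hcc, h4, h6⟩ :=
    Fermat.Agent.S52.H890.exists_tate_params h2 h3 h5 a b hΔ
  obtain ⟨s, hs⟩ := IsAlgClosed.exists_pow_nat_eq (5 : K) (n := 2) (by norm_num)
  rw [tc4_eq_H5] at h4
  rw [tc6_eq_T5] at h6
  rw [h4, h6]
  exact separable_Fk_tate h2 h3 h5 hlam hc hcc hs

end closed

end Fermat.Agent.S52.B3.H240

end
-- ===== PACK-END S52/B3/H240/Main.lean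

-- ===== PACK-BEGIN S52/B3/H240/Fam.lean
section




/-!
# S52 / B3n-fam: `NoPolyRoot` for the explicit 5-congruent family (helper240)

For integers `c₄, c₆` with `c₄³ ≠ c₆²` let
`famC4 c₄ c₆ = C4 (C c₄) (C c₆) X`, `famC6 c₄ c₆ = C6 (C c₄) (C c₆) X ∈ ℤ[X]`
(helper952's family `Fermat.Agent.S52.Fam`, evaluated in `ℤ[X]`).  Then

* `noPolyRoot_fam : NoPolyRoot (famA (famC4 c₄ c₆)) (famB (famC6 c₄ c₆))`
  (the hypothesis of `B3Goal`, frozen interface of helper60), and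
* `natDegree_famC4_le`, `natDegree_famC6_le`, `famC4_coeff_zero`, `famC6_coeff_zero`
  (the remaining hypotheses of `B3Goal`).

Ingredients: `separable_Fk` (this directory), syzygy (helper952), `no_poly_root` (helper396),
and the arithmetic fact that `91125 x² − 193536 x y + 102400 y²` is anisotropic over `ℚ`
(its discriminant is `11 · 6912²`).
-/

set_option autoImplicit false

namespace Fermat.Agent.S52.B3.H240

open Polynomial Fermat.Agent.S52.Fam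

/-- `C4` of the family as a polynomial in `τ = X` over `ℤ`. -/
noncomputable def famC4 (c₄ c₆ : ℤ) : ℤ[X] := C4 (C c₄) (C c₆) X

/-- `C6` of the family as a polynomial in `τ = X` over `ℤ`. -/
noncomputable def famC6 (c₄ c₆ : ℤ) : ℤ[X] := C6 (C c₄) (C c₆) X

/-- The Klein form of the family as a polynomial in `τ = X` over `ℤ`. -/
noncomputable def famF (c₄ c₆ : ℤ) : ℤ[X] := Fk (C c₄) (C c₆) X

section maps

variable (c₄ c₆ : ℤ)

theorem famC4_map : (famC4 c₄ c₆).map (Int.castRingHom ℚ) = C4 (C (c₄ : ℚ)) (C (c₆ : ℚ)) X := by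
  have := map_C4 (mapRingHom (Int.castRingHom ℚ)) (C c₄) (C c₆) X
  simpa [famC4] using this

theorem famC6_map : (famC6 c₄ c₆).map (Int.castRingHom ℚ) = C6 (C (c₄ : ℚ)) (C (c₆ : ℚ)) X := by
  have := map_C6 (mapRingHom (Int.castRingHom ℚ)) (C c₄) (C c₆) X
  simpa [famC6] using this

theorem famF_map : (famF c₄ c₆).map (Int.castRingHom ℚ) = Fk (C (c₄ : ℚ)) (C (c₆ : ℚ)) X := by
  have := map_Fk (mapRingHom (Int.castRingHom ℚ)) (C c₄) (C c₆) X
  simpa [famF] using this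

end maps

/-! ### Squarefreeness of the Klein form over `ℚ` -/

theorem separable_famF (c₄ c₆ : ℤ) (h : c₄ ^ 3 ≠ c₆ ^ 2) :
    ((famF c₄ c₆).map (Int.castRingHom ℚ)).Separable := by
  rw [famF_map]
  set K := AlgebraicClosure ℚ
  have hmap : (Fk (C (c₄ : ℚ)) (C (c₆ : ℚ)) (X : ℚ[X])).map (algebraMap ℚ K)
      = Fk (C (algebraMap ℚ K (c₄ : ℚ))) (C (algebraMap ℚ K (c₆ : ℚ))) (X : K[X]) := by
    have := map_Fk (mapRingHom (algebraMap ℚ K)) (C (c₄ : ℚ)) (C (c₆ : ℚ)) X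
    simp only [coe_mapRingHom, map_C, map_X] at this
    exact this
  have hΔ : (algebraMap ℚ K (c₄ : ℚ)) ^ 3 - (algebraMap ℚ K (c₆ : ℚ)) ^ 2 ≠ 0 := by
    intro h0
    apply h
    have h1 : algebraMap ℚ K ((c₄ : ℚ) ^ 3 - (c₆ : ℚ) ^ 2) = 0 := by
      rw [map_sub, map_pow, map_pow]; exact h0
    have h2 : (c₄ : ℚ) ^ 3 - (c₆ : ℚ) ^ 2 = 0 :=
      (map_eq_zero_iff _ (algebraMap ℚ K).injective).mp h1
    have h3 : (c₄ : ℚ) ^ 3 = (c₆ : ℚ) ^ 2 := sub_eq_zero.mp h2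
    exact_mod_cast h3
  have hsep := separable_Fk (K := K) (by norm_num) (by norm_num) (by norm_num) _ _ hΔ
  rw [← hmap] at hsep
  exact (separable_map (algebraMap ℚ K)).mp hsep

theorem squarefree_famF (c₄ c₆ : ℤ) (h : c₄ ^ 3 ≠ c₆ ^ 2) :
    Squarefree ((famF c₄ c₆).map (Int.castRingHom ℚ)) :=
  (separable_famF c₄ c₆ h).squarefree

/-! ### The degree of the Klein form over `ℚ` -/

/-- `Z² = 11 W²` has only the trivial solution in integers. -/
theorem eq_zero_of_sq_eq_eleven_mul_sq {Z W : ℤ} (h : Z ^ 2 = 11 * W ^ 2) : W = 0 := by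
  by_contra hW
  have hirr : Irrational (√(11 : ℕ)) := Nat.Prime.irrational_sqrt (by norm_num)
  apply hirr
  refine ⟨|(Z : ℚ) / W|, ?_⟩
  have hWR : (W : ℝ) ≠ 0 := by exact_mod_cast hW
  have hR : (Z : ℝ) ^ 2 = 11 * (W : ℝ) ^ 2 := by exact_mod_cast h
  have hsq : (|(Z : ℝ) / W|) ^ 2 = 11 := by
    rw [sq_abs, div_pow, hR]
    field_simp
  have hnn : (0 : ℝ) ≤ |(Z : ℝ) / W| := abs_nonneg _
  have : √(11 : ℝ) = |(Z : ℝ) / W| := by
    rw [← hsq, Real.sqrt_sq hnn]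
  push_cast
  rw [this]

/-- The leading coefficient `Fk_12` of the Klein form does not vanish over `ℤ`. -/
theorem Fk_12_ne_zero (c₄ c₆ : ℤ) (h : c₄ ^ 3 ≠ c₆ ^ 2) : Fk_12 c₄ c₆ ≠ 0 := by
  intro h0
  simp only [Fk_12] at h0
  have key : (182250 * c₄ ^ 3 - 193536 * c₆ ^ 2) ^ 2 = 11 * (3456 * c₆ ^ 2) ^ 2 := by
    linear_combination (4 * 91125 : ℤ) * h0
  have hW := eq_zero_of_sq_eq_eleven_mul_sq key
  have hc₆ : c₆ = 0 := by
    have : c₆ ^ 2 = 0 := by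
      rcases mul_eq_zero.mp hW with h' | h'
      · norm_num at h'
      · exact h'
    exact pow_eq_zero_iff (two_ne_zero) |>.mp this
  rw [hc₆] at h0 h
  have hc₄ : c₄ = 0 := by
    have : (91125 : ℤ) * c₄ ^ 6 = 0 := by linear_combination h0
    rcases mul_eq_zero.mp this with h' | h'
    · norm_num at h'
    · exact pow_eq_zero_iff (by norm_num) |>.mp h'
  rw [hc₄] at h
  exact h (by norm_num)

theorem famF_eq (c₄ c₆ : ℤ) : famF c₄ c₆ =
    C (Fk_0 c₄ c₆) + C (Fk_2 c₄ c₆) * X ^ 2 + C (Fk_3 c₄ c₆) * X ^ 3 + C (Fk_4 c₄ c₆) * X ^ 4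
      + C (Fk_5 c₄ c₆) * X ^ 5 + C (Fk_6 c₄ c₆) * X ^ 6 + C (Fk_7 c₄ c₆) * X ^ 7
      + C (Fk_8 c₄ c₆) * X ^ 8 + C (Fk_9 c₄ c₆) * X ^ 9 + C (Fk_10 c₄ c₆) * X ^ 10
      + C (Fk_11 c₄ c₆) * X ^ 11 + C (Fk_12 c₄ c₆) * X ^ 12 := by
  simp only [famF, Fk, Fk_0, Fk_2, Fk_3, Fk_4, Fk_5, Fk_6, Fk_7, Fk_8, Fk_9, Fk_10, Fk_11, Fk_12,
    C_add, C_sub, C_mul, C_pow, C_neg, map_ofNat, C_1]

theorem famF_coeff_twelve (c₄ c₆ : ℤ) : (famF c₄ c₆).coeff 12 = Fk_12 c₄ c₆ := by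
  rw [famF_eq]
  simp [coeff_X_pow, Fk_0, coeff_one]

theorem natDegree_famF_le (c₄ c₆ : ℤ) : (famF c₄ c₆).natDegree ≤ 12 := by
  rw [famF_eq]
  compute_degree

theorem natDegree_famF_map (c₄ c₆ : ℤ) (h : c₄ ^ 3 ≠ c₆ ^ 2) :
    ((famF c₄ c₆).map (Int.castRingHom ℚ)).natDegree = 12 := by
  apply natDegree_eq_of_le_of_coeff_ne_zero
  · exact natDegree_map_le.trans (natDegree_famF_le c₄ c₆)
  · rw [coeff_map, famF_coeff_twelve]
    simpa using Fk_12_ne_zero c₄ c₆ h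

/-! ### The hypotheses of `B3Goal` for the family -/

theorem famC4_eq (c₄ c₆ : ℤ) : famC4 c₄ c₆ =
    C (C4_0 c₄ c₆) + C (C4_1 c₄ c₆) * X + C (C4_2 c₄ c₆) * X ^ 2 + C (C4_3 c₄ c₆) * X ^ 3
      + C (C4_4 c₄ c₆) * X ^ 4 + C (C4_5 c₄ c₆) * X ^ 5 + C (C4_6 c₄ c₆) * X ^ 6
      + C (C4_7 c₄ c₆) * X ^ 7 + C (C4_8 c₄ c₆) * X ^ 8 + C (C4_9 c₄ c₆) * X ^ 9
      + C (C4_10 c₄ c₆) * X ^ 10 + C (C4_11 c₄ c₆) * X ^ 11 + C (C4_12 c₄ c₆) * X ^ 12
      + C (C4_13 c₄ c₆) * X ^ 13 + C (C4_14 c₄ c₆) * X ^ 14 + C (C4_15 c₄ c₆) * X ^ 15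
      + C (C4_16 c₄ c₆) * X ^ 16 + C (C4_17 c₄ c₆) * X ^ 17 + C (C4_18 c₄ c₆) * X ^ 18
      + C (C4_19 c₄ c₆) * X ^ 19 + C (C4_20 c₄ c₆) * X ^ 20 := by
  simp only [famC4, C4, C4_0, C4_1, C4_2, C4_3, C4_4, C4_5, C4_6, C4_7, C4_8, C4_9, C4_10,
    C4_11, C4_12, C4_13, C4_14, C4_15, C4_16, C4_17, C4_18, C4_19, C4_20,
    C_add, C_sub, C_mul, C_pow, C_neg, map_ofNat]

theorem famC6_eq (c₄ c₆ : ℤ) : famC6 c₄ c₆ =
    C (C6_0 c₄ c₆) + C (C6_1 c₄ c₆) * X + C (C6_2 c₄ c₆) * X ^ 2 + C (C6_3 c₄ c₆) * X ^ 3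
      + C (C6_4 c₄ c₆) * X ^ 4 + C (C6_5 c₄ c₆) * X ^ 5 + C (C6_6 c₄ c₆) * X ^ 6
      + C (C6_7 c₄ c₆) * X ^ 7 + C (C6_8 c₄ c₆) * X ^ 8 + C (C6_9 c₄ c₆) * X ^ 9
      + C (C6_10 c₄ c₆) * X ^ 10 + C (C6_11 c₄ c₆) * X ^ 11 + C (C6_12 c₄ c₆) * X ^ 12
      + C (C6_13 c₄ c₆) * X ^ 13 + C (C6_14 c₄ c₆) * X ^ 14 + C (C6_15 c₄ c₆) * X ^ 15
      + C (C6_16 c₄ c₆) * X ^ 16 + C (C6_17 c₄ c₆) * X ^ 17 + C (C6_18 c₄ c₆) * X ^ 18
      + C (C6_19 c₄ c₆) * X ^ 19 + C (C6_20 c₄ c₆) * X ^ 20 + C (C6_21 c₄ c₆) * X ^ 21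
      + C (C6_22 c₄ c₆) * X ^ 22 + C (C6_23 c₄ c₆) * X ^ 23 + C (C6_24 c₄ c₆) * X ^ 24
      + C (C6_25 c₄ c₆) * X ^ 25 + C (C6_26 c₄ c₆) * X ^ 26 + C (C6_27 c₄ c₆) * X ^ 27
      + C (C6_28 c₄ c₆) * X ^ 28 + C (C6_29 c₄ c₆) * X ^ 29 + C (C6_30 c₄ c₆) * X ^ 30 := by
  simp only [famC6, C6, C6_0, C6_1, C6_2, C6_3, C6_4, C6_5, C6_6, C6_7, C6_8, C6_9, C6_10,
    C6_11, C6_12, C6_13, C6_14, C6_15, C6_16, C6_17, C6_18, C6_19, C6_20, C6_21, C6_22, C6_23,
    C6_24, C6_25, C6_26, C6_27, C6_28, C6_29, C6_30,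
    C_add, C_sub, C_mul, C_pow, C_neg, map_ofNat]

theorem natDegree_famC4_le (c₄ c₆ : ℤ) : (famC4 c₄ c₆).natDegree ≤ 20 := by
  rw [famC4_eq]
  compute_degree

theorem natDegree_famC6_le (c₄ c₆ : ℤ) : (famC6 c₄ c₆).natDegree ≤ 30 := by
  rw [famC6_eq]
  compute_degree

theorem famC4_coeff_zero (c₄ c₆ : ℤ) : (famC4 c₄ c₆).coeff 0 = c₄ := by
  rw [famC4_eq]
  simp [coeff_X_pow, C4_0]

theorem famC6_coeff_zero (c₄ c₆ : ℤ) : (famC6 c₄ c₆).coeff 0 = c₆ := by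
  rw [famC6_eq]
  simp [coeff_X_pow, C6_0]

/-! ### `NoPolyRoot` for the family -/

/-- **B3n-fam**: the `ψ₃`-quartic of the explicit 5-congruent family has no root in `ℚ[τ]`. -/
theorem noPolyRoot_fam (c₄ c₆ : ℤ) (h : c₄ ^ 3 ≠ c₆ ^ 2) :
    NoPolyRoot (famA (famC4 c₄ c₆)) (famB (famC6 c₄ c₆)) := by
  intro P
  have hd₀ : (-78732 * ((c₄ : ℚ) ^ 3 - (c₆ : ℚ) ^ 2)) ≠ 0 := by
    refine mul_ne_zero (by norm_num) ?_
    intro h0
    apply h
    have : (c₄ : ℚ) ^ 3 = (c₆ : ℚ) ^ 2 := sub_eq_zero.mp h0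
    exact_mod_cast this
  have hsyz := syzygy (C (c₄ : ℚ)) (C (c₆ : ℚ)) (X : ℚ[X])
  have hD : 4 * (famA (famC4 c₄ c₆)) ^ 3 + 27 * (famB (famC6 c₄ c₆)) ^ 2
      = C (-78732 * ((c₄ : ℚ) ^ 3 - (c₆ : ℚ) ^ 2))
        * ((famF c₄ c₆).map (Int.castRingHom ℚ)) ^ 5 := by
    simp only [famA, famB, famC4_map, famC6_map, famF_map, C_mul, C_sub, C_pow, C_neg, map_ofNat]
    linear_combination (-78732 : ℚ[X]) * hsyz
  have hdeg : 3 * (famA (famC4 c₄ c₆)).natDegree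
      ≤ 5 * ((famF c₄ c₆).map (Int.castRingHom ℚ)).natDegree := by
    rw [natDegree_famF_map c₄ c₆ h]
    have h1 : (famA (famC4 c₄ c₆)).natDegree ≤ 20 := by
      unfold famA
      refine (natDegree_C_mul_le _ _).trans (natDegree_map_le.trans (natDegree_famC4_le c₄ c₆))
    omega
  have hpos : 0 < ((famF c₄ c₆).map (Int.castRingHom ℚ)).natDegree := by
    rw [natDegree_famF_map c₄ c₆ h]; norm_num
  exact Fermat.Agent.S52.H396.no_poly_root_of_squarefree (by norm_num) (by norm_num)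
    (famA (famC4 c₄ c₆)) (famB (famC6 c₄ c₆)) ((famF c₄ c₆).map (Int.castRingHom ℚ)) _ hd₀ hD
    (squarefree_famF c₄ c₆ h) hdeg hpos P

end Fermat.Agent.S52.B3.H240

end
-- ===== PACK-END S52/B3/H240/Fam.lean

-- ===== PACK-BEGIN S17/H710/ConePoints.lean
section



/-!
# S17 / tower H, leaf (G1): the points of the projective cone of a curve are places

`K` algebraically closed, `F / K` a function field of one variable, `x : ι → F` any family of
functions (in the application: a basis of `L(m ∞)`).  A point `y : ι → K` lies *on the cone* of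
`x` if it satisfies every homogeneous polynomial relation of `x`.

`exists_place_of_onCone` : if `y` is on the cone and `y j ≠ 0`, then `x j ≠ 0` and there is a place
`P` of `F` at which every `x i / x j` is regular with value `y i / y j`; i.e. `y` is (a scalar
multiple of) the coordinate vector of `P`.

This is the geometric input needed to apply the Nullstellensatz certificate `H500.NullCert`
"on the curve" (and, slot by slot, on `C^m`): the cone cut out by the homogeneous relations has no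
points besides the places.  Proof: homogenise relations, Lang's place extension theorem
(`H377.exists_isKPlace_extends`), every valuation ring of `F / K` is a place (`H443`).
-/

set_option autoImplicit false

noncomputable section

namespace Fermat.Agent.S17.H710

open AlgebraicCurve MvPolynomial IntermediateField

variable {K F : Type*} [Field K] [Field F] [Algebra K F] {ι : Type*}

/-- `y` satisfies all homogeneous relations of the family `x`. -/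
def OnCone (x : ι → F) (y : ι → K) : Prop :=
  ∀ (d : ℕ) (G : MvPolynomial ι K), G.IsHomogeneous d → aeval x G = 0 → eval y G = 0

/-- Evaluation of a homogeneous polynomial at a rescaled point. -/
theorem aeval_mul_of_isHomogeneous {S : Type*} [CommRing S] [Algebra K S]
    {p : MvPolynomial ι K} {N : ℕ} (hp : p.IsHomogeneous N) (c : S) (z : ι → S) :
    aeval (fun i => c * z i) p = c ^ N * aeval z p := by
  rw [aeval_def, aeval_def, eval₂_eq, eval₂_eq, Finset.mul_sum]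
  refine Finset.sum_congr rfl fun m hm => ?_
  have hdeg : N = ∑ i ∈ m.support, m i := hp.degree_eq_sum_deg_support hm
  have : ∏ i ∈ m.support, (c * z i) ^ m i = c ^ N * ∏ i ∈ m.support, z i ^ m i := by
    simp_rw [mul_pow]
    rw [Finset.prod_mul_distrib, Finset.prod_pow_eq_pow_sum, ← hdeg]
  rw [this]
  ring

/-- The homogenisation of `R` in degree `d` with respect to the variable `j`. -/
def homogenizeAt (j : ι) (d : ℕ) (R : MvPolynomial ι K) : MvPolynomial ι K :=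
  ∑ k ∈ Finset.range (d + 1), homogeneousComponent k R * X j ^ (d - k)

theorem homogenizeAt_isHomogeneous (j : ι) (d : ℕ) (R : MvPolynomial ι K) :
    (homogenizeAt j d R).IsHomogeneous d := by
  unfold homogenizeAt
  refine IsHomogeneous.sum _ _ _ fun k hk => ?_
  have hk' : k ≤ d := Nat.lt_succ_iff.mp (Finset.mem_range.mp hk)
  have h1 := (homogeneousComponent_isHomogeneous k R).mul (isHomogeneous_X_pow (R := K) j (d - k))
  have : k + (d - k) = d := by omega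
  rwa [this] at h1

/-- Value of the homogenisation at a point with invertible `j`-th coordinate. -/
theorem aeval_homogenizeAt {S : Type*} [Field S] [Algebra K S] (j : ι) (d : ℕ)
    (R : MvPolynomial ι K) (hR : R.totalDegree ≤ d) (z : ι → S) (hz : z j ≠ 0) :
    aeval z (homogenizeAt j d R) = z j ^ d * aeval (fun i => z i / z j) R := by
  have hsum : R = ∑ k ∈ Finset.range (d + 1), homogeneousComponent k R := by
    conv_lhs => rw [← sum_homogeneousComponent R]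
    refine Finset.sum_subset ?_ ?_
    · intro k hk
      simp only [Finset.mem_range] at hk ⊢
      omega
    · intro k _ hk
      simp only [Finset.mem_range, not_lt] at hk
      exact homogeneousComponent_eq_zero _ _ (by omega)
  have hz' : (fun i => z j * (z i / z j)) = z := by
    funext i
    field_simp
  conv_rhs => rw [hsum]
  unfold homogenizeAt
  simp only [map_sum, map_mul, map_pow, aeval_X, Finset.mul_sum]
  refine Finset.sum_congr rfl fun k hk => ?_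
  have hk' : k ≤ d := Nat.lt_succ_iff.mp (Finset.mem_range.mp hk)
  have h1 := aeval_mul_of_isHomogeneous (homogeneousComponent_isHomogeneous k R) (z j)
    (fun i => z i / z j)
  rw [hz'] at h1
  rw [h1]
  have : z j ^ d = z j ^ k * z j ^ (d - k) := by
    rw [← pow_add]
    congr 1
    omega
  rw [this]
  ring

variable [IsAlgClosed K]

/-- **(G1)** A point of the cone of `x` is the coordinate vector of a place. -/
theorem exists_place_of_onCone {t : F} (ht : Transcendental K t) [FiniteDimensional K⟮t⟯ F]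
    (x : ι → F) (y : ι → K) (hy : OnCone x y) (j : ι) (hj : y j ≠ 0) :
    x j ≠ 0 ∧ ∃ P : Place K F, ∀ i,
      x i / x j - algebraMap K F (y i / y j) ∈ P.toValuationSubring.nonunits := by
  classical
  -- `x j ≠ 0`
  have hxj : x j ≠ 0 := by
    intro h0
    apply hj
    have := hy 1 (X j) (isHomogeneous_X K j) (by simp [h0])
    simpa using this
  refine ⟨hxj, ?_⟩
  -- the chart
  let ψ : MvPolynomial ι K →ₐ[K] F := aeval (fun i => x i / x j)
  let χ : MvPolynomial ι K →ₐ[K] K := aeval (fun i => y i / y j)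
  have hker : ∀ R : MvPolynomial ι K, ψ R = 0 → χ R = 0 := by
    intro R hR
    have h1 : aeval x (homogenizeAt j R.totalDegree R) = 0 := by
      rw [aeval_homogenizeAt j _ R le_rfl x hxj]
      show _ * ψ R = 0
      rw [hR, mul_zero]
    have h2 := hy _ _ (homogenizeAt_isHomogeneous j R.totalDegree R) h1
    have h3 : aeval y (homogenizeAt j R.totalDegree R) = 0 := by
      rw [← h2, MvPolynomial.aeval_eq_eval]
    rw [aeval_homogenizeAt j _ R le_rfl y hj] at h3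
    rcases mul_eq_zero.mp h3 with h | h
    · exact absurd h (pow_ne_zero _ hj)
    · exact h
  -- the induced hom on the range
  let B : Subalgebra K F := ψ.range
  have hφ : ∃ φ : B →ₐ[K] K, ∀ R : MvPolynomial ι K, φ ⟨ψ R, ⟨R, rfl⟩⟩ = χ R := by
    have hk : RingHom.ker (ψ.rangeRestrict : MvPolynomial ι K →+* B) ≤ RingHom.ker (χ : MvPolynomial ι K →+* K) := by
      intro R hR
      rw [RingHom.mem_ker] at hR ⊢
      apply hker
      have := congrArg Subtype.val hR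
      simpa using this
    refine ⟨AlgHom.liftOfSurjective ψ.rangeRestrict ψ.rangeRestrict_surjective χ hk, fun R => ?_⟩
    exact AlgHom.liftOfSurjective_apply ψ.rangeRestrict ψ.rangeRestrict_surjective χ hk R
  obtain ⟨φ, hφ⟩ := hφ
  obtain ⟨V, π, hVπ, hext⟩ := H377.exists_isKPlace_extends (K := K) B φ
  -- `V ≠ ⊤`
  have hV : V ≠ ⊤ := by
    intro htop
    have hall : ∀ z : F, z ∈ V := fun z => htop ▸ ValuationSubring.mem_top z
    have h0 := hVπ.sub_mem_maximalIdeal ⟨t, hall t⟩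
    set c : K := π ⟨t, hall t⟩ with hc
    have hne : t - algebraMap K F c ≠ 0 := by
      intro h
      apply ht
      rw [sub_eq_zero.mp h]
      exact isAlgebraic_algebraMap c
    have hu : IsUnit ((⟨t, hall t⟩ : V) - ⟨algebraMap K F c, hVπ.algebraMap_mem c⟩) := by
      rw [isUnit_iff_exists_inv]
      refine ⟨⟨(t - algebraMap K F c)⁻¹, hall _⟩, Subtype.ext ?_⟩
      show (t - algebraMap K F c) * (t - algebraMap K F c)⁻¹ = 1
      exact mul_inv_cancel₀ hne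
    exact (IsLocalRing.mem_maximalIdeal _).mp h0 hu
  obtain ⟨P, hP⟩ := Fermat.Agent.Lib.RR.H443.exists_place_eq V hVπ.algebraMap_mem hV ht
  refine ⟨P, fun i => ?_⟩
  have hb : ψ (X i) = x i / x j := by simp [ψ]
  obtain ⟨hmem, hval⟩ := hext ⟨ψ (X i), ⟨X i, rfl⟩⟩
  have hval' : π ⟨ψ (X i), hmem⟩ = y i / y j := by
    rw [hval, hφ]
    simp [χ]
  have h0 := hVπ.sub_mem_maximalIdeal ⟨ψ (X i), hmem⟩
  rw [hval'] at h0
  rw [hP]
  have : (x i / x j - algebraMap K F (y i / y j)) =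
      ((⟨ψ (X i), hmem⟩ - ⟨algebraMap K F (y i / y j), hVπ.algebraMap_mem _⟩ : V) : F) := by
    simp [hb]
  rw [this]
  exact ValuationSubring.coe_mem_nonunits_iff.mpr h0

end Fermat.Agent.S17.H710

end
end
-- ===== PACK-END S17/H710/ConePoints.lean

-- ===== PACK-BEGIN S17/H860/CramerHeight.lean
section
/-
helper860 — S17 / tower H — abstract core of (E3)-upper / (PART):
the height inequality that Cramer's identity gives.

`B : Matrix ρ γ A` of rank `≤ card κ`, `w j` (`j : J`) vectors in the row space of `B`,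
`y : γ → A` a point, `(S i, T i)` (`i : I`) a family of choices of `card κ` rows and columns.
If some minor `det B_{S i, T i}` is nonzero and some `w j ⬝ y` is nonzero then
  `h (minors) + h (w ⬝ y) ≤ h (w) + (card κ - 1) * h (B) + h (B y) + C`
with `C = cramerConst S T J` depending only on the index data.
-/




set_option linter.unusedSectionVars false

namespace Fermat.Agent.S17.H860

open Matrix MvPolynomial Fermat.Agent.S17.H380

section AdjPoly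

variable {κ ρ γ I : Type*} [Fintype κ] [DecidableEq κ]

/-- The entries of the adjugates of the generic `κ × κ` submatrices, as polynomials over `ℚ` in
the entries of a generic `ρ × γ` matrix. -/
noncomputable def adjPoly (S : I → κ → ρ) (T : I → κ → γ) (a : I × κ × κ) :
    MvPolynomial (ρ × γ) ℚ :=
  adjugate ((mvPolynomialX ρ γ ℚ).submatrix (S a.1) (T a.1)) a.2.1 a.2.2

theorem sum_ite_perm_eq (σ : Equiv.Perm κ) (s : κ) :
    ∑ i : κ, (if σ i = s then 0 else 1) = Fintype.card κ - 1 := by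
  have h1 : ∀ i : κ, (if σ i = s then 0 else 1) =
      if i ∈ Finset.univ.erase (σ.symm s) then 1 else 0 := by
    intro i
    by_cases h : σ i = s
    · have : i = σ.symm s := by rw [← h]; simp
      simp [this]
    · have : i ≠ σ.symm s := fun hi => h (by rw [hi]; simp)
      simp [h, this]
  simp_rw [h1]
  rw [Finset.sum_boole, Finset.filter_mem_eq_inter, Finset.univ_inter,
    Finset.card_erase_of_mem (Finset.mem_univ _), Finset.card_univ]
  simp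

theorem adjPoly_isHomogeneous (S : I → κ → ρ) (T : I → κ → γ) (a : I × κ × κ) :
    (adjPoly S T a).IsHomogeneous (Fintype.card κ - 1) := by
  unfold adjPoly
  rw [adjugate_apply, det_apply']
  apply IsHomogeneous.sum
  rintro σ -
  rw [show Fintype.card κ - 1 = 0 + ∑ i : κ, (if σ i = a.2.2 then 0 else 1) by
    rw [sum_ite_perm_eq, zero_add]]
  apply IsHomogeneous.mul
  · have : ((Equiv.Perm.sign σ : ℤ) : MvPolynomial (ρ × γ) ℚ) = C ((Equiv.Perm.sign σ : ℤ) : ℚ) := by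
      simp
    rw [this]
    exact isHomogeneous_C _ _
  · apply IsHomogeneous.prod
    rintro i -
    by_cases h : σ i = a.2.2
    · simp only [h, updateRow_self, if_true]
      by_cases h2 : i = a.2.1
      · subst h2
        simpa using isHomogeneous_one _ _
      · rw [Pi.single_eq_of_ne h2]
        exact isHomogeneous_zero _ _ _
    · simp only [h, if_false, updateRow_ne h, submatrix_apply, mvPolynomialX_apply]
      exact isHomogeneous_X _ _

variable {A : Type*} [Field A] [CharZero A]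

theorem aeval_adjPoly (S : I → κ → ρ) (T : I → κ → γ) (B : Matrix ρ γ A) (a : I × κ × κ) :
    aeval (fun p : ρ × γ => B p.1 p.2) (adjPoly S T a) =
      adjugate (B.submatrix (S a.1) (T a.1)) a.2.1 a.2.2 := by
  unfold adjPoly
  have h := AlgHom.map_adjugate (aeval (R := ℚ) fun p : ρ × γ => B p.1 p.2)
    ((mvPolynomialX ρ γ ℚ).submatrix (S a.1) (T a.1))
  have h2 : (aeval (R := ℚ) fun p : ρ × γ => B p.1 p.2).mapMatrix
      ((mvPolynomialX ρ γ ℚ).submatrix (S a.1) (T a.1)) = B.submatrix (S a.1) (T a.1) := by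
    ext r t
    simp [mvPolynomialX]
  rw [h2] at h
  rw [← h]
  rfl

end AdjPoly

section Main

variable {κ ρ γ I J : Type*} [Fintype κ] [DecidableEq κ] [Fintype ρ] [Fintype γ]
  [Finite I] [Finite J]

/-- The linear forms expressing the right-hand side of Cramer's identity in the coordinates of
the Segre product `w ⊗ adj ⊗ (B y)`. -/
noncomputable def cramerLin (S : I → κ → ρ) (T : I → κ → γ) (J : Type*) (a : I × J) :
    MvPolynomial ((J × γ) × (I × κ × κ) × ρ) ℚ :=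
  ∑ s : κ, ∑ j' : κ, X ((a.2, T a.1 j'), (a.1, j', s), S a.1 s)

theorem cramerLin_isHomogeneous (S : I → κ → ρ) (T : I → κ → γ) (a : I × J) :
    (cramerLin S T J a).IsHomogeneous 1 := by
  unfold cramerLin
  exact IsHomogeneous.sum _ _ _ fun s _ => IsHomogeneous.sum _ _ _ fun j' _ => isHomogeneous_X _ _

/-- The constant in `absLogHeight_cramer_le`; it depends only on the index data. -/
noncomputable def cramerConst (S : I → κ → ρ) (T : I → κ → γ) (J : Type*) [Finite J] : ℝ :=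
  Real.log (max (Height.mulHeightBound (adjPoly S T)) 1) +
    Real.log (max (Height.mulHeightBound (cramerLin S T J)) 1)

theorem cramerConst_nonneg (S : I → κ → ρ) (T : I → κ → γ) : 0 ≤ cramerConst S T J :=
  add_nonneg (Real.log_nonneg (le_max_right _ _)) (Real.log_nonneg (le_max_right _ _))

variable {A : Type*} [Field A] [CharZero A]

/-- Cramer's identity, evaluated at a point `y`. -/
theorem cramer_eval_of_rank_le (B : Matrix ρ γ A) (hrank : B.rank ≤ Fintype.card κ)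
    (w : γ → A) (hw : w ∈ Submodule.span A (Set.range B.row)) (y : γ → A)
    (S : κ → ρ) (T : κ → γ) :
    (B.submatrix S T).det * (w ⬝ᵥ y) =
      ∑ s, ∑ j', w (T j') * ((B.submatrix S T).adjugate j' s * (B *ᵥ y) (S s)) := by
  have h := fun t => cramer_adjugate_of_rank_le B hrank w hw S T t
  calc (B.submatrix S T).det * (w ⬝ᵥ y)
      = ∑ t, ((B.submatrix S T).det * w t) * y t := by
        simp only [dotProduct, Finset.mul_sum, mul_assoc]
    _ = ∑ t, ∑ s, ∑ j', w (T j') * (B.submatrix S T).adjugate j' s * B (S s) t * y t := by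
        refine Finset.sum_congr rfl fun t _ => ?_
        rw [h t, Finset.sum_mul]
        refine Finset.sum_congr rfl fun s _ => ?_
        rw [Finset.sum_mul]
    _ = ∑ s, ∑ t, ∑ j', w (T j') * (B.submatrix S T).adjugate j' s * B (S s) t * y t :=
        Finset.sum_comm
    _ = ∑ s, ∑ j', ∑ t, w (T j') * (B.submatrix S T).adjugate j' s * B (S s) t * y t := by
        refine Finset.sum_congr rfl fun s _ => ?_
        exact Finset.sum_comm
    _ = _ := by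
        refine Finset.sum_congr rfl fun s _ => Finset.sum_congr rfl fun j' _ => ?_
        simp only [mulVec, dotProduct, Finset.mul_sum]
        refine Finset.sum_congr rfl fun t _ => ?_
        ring

/-- **Height form of Cramer's identity**, core: `U` a matrix, `W j` row vectors, `ψu`, `ψw`
extra columns such that Cramer's identity
`det U_{S,T} * ψw j = ∑ s j', W j (T j') * (adj U_{S,T} j' s * ψu (S s))` holds.  If some minor
and some `ψw j` are nonzero then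
`h(minors) + h(ψw) ≤ h(W) + (card κ - 1) * h(U) + h(ψu) + cramerConst`. -/
theorem absLogHeight_cramer_core (S : I → κ → ρ) (T : I → κ → γ)
    (U : Matrix ρ γ A) (hU : ∀ r t, IsIntegral ℚ (U r t))
    (W : J → γ → A) (hWi : ∀ j t, IsIntegral ℚ (W j t))
    (ψu : ρ → A) (hψu : ∀ r, IsIntegral ℚ (ψu r))
    (ψw : J → A) (hψw : ∀ j, IsIntegral ℚ (ψw j))
    (hcr : ∀ i j, (U.submatrix (S i) (T i)).det * ψw j =
      ∑ s, ∑ j', W j (T i j') * ((U.submatrix (S i) (T i)).adjugate j' s * ψu (S i s)))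
    (hΔ : ∃ i, (U.submatrix (S i) (T i)).det ≠ 0) (hu : ∃ j, ψw j ≠ 0) :
    absLogHeight (fun i => (U.submatrix (S i) (T i)).det) + absLogHeight ψw
      ≤ absLogHeight (fun p : J × γ => W p.1 p.2)
        + ((Fintype.card κ - 1 : ℕ) : ℝ) * absLogHeight (fun p : ρ × γ => U p.1 p.2)
        + absLogHeight ψu + cramerConst S T J := by
  classical
  obtain ⟨i₀, hi₀⟩ := hΔ
  obtain ⟨j₀, hj₀⟩ := hu
  -- the vectors
  set Δ : I → A := fun i => (U.submatrix (S i) (T i)).det with hΔdef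
  set Wv : J × γ → A := fun p => W p.1 p.2 with hWdef
  set Bv : ρ × γ → A := fun p => U p.1 p.2 with hBvdef
  set Adj : I × κ × κ → A := fun a => adjugate (U.submatrix (S a.1) (T a.1)) a.2.1 a.2.2
    with hAdjdef
  set AB : (I × κ × κ) × ρ → A := fun q => Adj q.1 * ψu q.2 with hABdef
  set Z : (J × γ) × (I × κ × κ) × ρ → A := fun q => Wv q.1 * AB q.2 with hZdef
  -- integrality
  have hΔi : ∀ i, IsIntegral ℚ (Δ i) := fun i => IsIntegral.det fun _ _ => hU _ _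
  have hWvi : ∀ p, IsIntegral ℚ (Wv p) := fun p => hWi _ _
  have hBvi : ∀ p, IsIntegral ℚ (Bv p) := fun p => hU _ _
  have hAdji : ∀ a, IsIntegral ℚ (Adj a) := by
    intro a
    simp only [hAdjdef, adjugate_apply]
    refine IsIntegral.det fun r t => ?_
    by_cases hr : r = a.2.2
    · subst hr
      rw [updateRow_self]
      by_cases ht : t = a.2.1
      · subst ht
        simpa using isIntegral_one
      · rw [Pi.single_eq_of_ne ht]
        exact isIntegral_zero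
    · rw [updateRow_ne hr]
      exact hU _ _
  have hABi : ∀ q, IsIntegral ℚ (AB q) := fun q => (hAdji _).mul (hψu _)
  have hZi : ∀ q, IsIntegral ℚ (Z q) := fun q => (hWvi _).mul (hABi _)
  -- Cramer
  have hcr' : ∀ a : I × J, Δ a.1 * ψw a.2 = aeval Z (cramerLin S T J a) := by
    intro a
    rw [hΔdef]
    simp only
    rw [hcr a.1 a.2]
    simp only [cramerLin, map_sum, aeval_X, hZdef, hABdef, hWdef, hAdjdef]
  -- nonvanishing
  have hL0 : Δ i₀ * ψw j₀ ≠ 0 := mul_ne_zero hi₀ hj₀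
  have hZ0 : Z ≠ 0 := by
    intro hZ
    apply hL0
    have := hcr' (i₀, j₀)
    simp only at this
    rw [this, hZ]
    simp only [cramerLin, map_sum, aeval_X, Pi.zero_apply, Finset.sum_const_zero]
  obtain ⟨q₀, hq₀⟩ := Function.ne_iff.mp hZ0
  have hq₀' : Wv q₀.1 * (Adj q₀.2.1 * ψu q₀.2.2) ≠ 0 := hq₀
  have hW0 : Wv ≠ 0 := fun h => hq₀' (by rw [h]; simp)
  have hAdj0 : Adj ≠ 0 := fun h => hq₀' (by rw [h]; simp)
  have hψu0 : ψu ≠ 0 := fun h => hq₀' (by rw [h]; simp)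
  have hAB0 : AB ≠ 0 := by
    intro h
    apply hq₀'
    have : AB q₀.2 = 0 := by rw [h]; rfl
    have h2 : Adj q₀.2.1 * ψu q₀.2.2 = 0 := this
    rw [h2, mul_zero]
  have hΔ0 : Δ ≠ 0 := fun h => hi₀ (by have := congrFun h i₀; simpa using this)
  have hu0 : ψw ≠ 0 := fun h => hj₀ (by have := congrFun h j₀; simpa using this)
  -- heights
  have h1 : absLogHeight (fun a : I × J => Δ a.1 * ψw a.2) = absLogHeight Δ + absLogHeight ψw :=
    absLogHeight_fun_mul_eq hΔi hψw hΔ0 hu0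
  have h2 : absLogHeight Z = absLogHeight Wv + absLogHeight AB :=
    absLogHeight_fun_mul_eq hWvi hABi hW0 hAB0
  have h3 : absLogHeight AB = absLogHeight Adj + absLogHeight ψu :=
    absLogHeight_fun_mul_eq hAdji hψu hAdj0 hψu0
  have h4 := absLogHeight_eval_le (K₀ := ℚ) (A := A) (p := cramerLin S T J)
    (fun a => cramerLin_isHomogeneous S T a) Z hZi
  have h5 := absLogHeight_eval_le (K₀ := ℚ) (A := A) (p := adjPoly S T)
    (fun a => adjPoly_isHomogeneous S T a) Bv hBvi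
  have h5' : (fun a => aeval Bv (adjPoly S T a)) = Adj := by
    funext a
    exact aeval_adjPoly S T U a
  have h4' : (fun a => aeval Z (cramerLin S T J a)) = fun a : I × J => Δ a.1 * ψw a.2 := by
    funext a
    exact (hcr' a).symm
  rw [h5'] at h5
  rw [h4', h1, h2, h3] at h4
  simp only [Module.finrank_self, Nat.cast_one, inv_one, one_mul] at h4 h5
  unfold cramerConst
  linarith

/-- **Height form of Cramer's identity** (matrix and evaluation point).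
`B` a matrix of rank `≤ card κ` with algebraic entries, `w j` vectors in the row space of `B`,
`y` a point.  If some minor `det B_{S i,T i}` is nonzero and some `w j ⬝ y` is nonzero, then
`h(minors) + h(w ⬝ y) ≤ h(w) + (card κ - 1) * h(B) + h(B y) + cramerConst`. -/
theorem absLogHeight_cramer_le (S : I → κ → ρ) (T : I → κ → γ)
    (B : Matrix ρ γ A) (hB : ∀ r t, IsIntegral ℚ (B r t)) (hrank : B.rank ≤ Fintype.card κ)
    (w : J → γ → A) (hwi : ∀ j t, IsIntegral ℚ (w j t))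
    (hw : ∀ j, w j ∈ Submodule.span A (Set.range B.row))
    (y : γ → A) (hy : ∀ t, IsIntegral ℚ (y t))
    (hΔ : ∃ i, (B.submatrix (S i) (T i)).det ≠ 0) (hu : ∃ j, w j ⬝ᵥ y ≠ 0) :
    absLogHeight (fun i => (B.submatrix (S i) (T i)).det) + absLogHeight (fun j => w j ⬝ᵥ y)
      ≤ absLogHeight (fun p : J × γ => w p.1 p.2)
        + ((Fintype.card κ - 1 : ℕ) : ℝ) * absLogHeight (fun p : ρ × γ => B p.1 p.2)
        + absLogHeight (B *ᵥ y) + cramerConst S T J :=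
  absLogHeight_cramer_core S T B hB w hwi (B *ᵥ y)
    (fun r => IsIntegral.sum _ fun t _ => (hB r t).mul (hy t))
    (fun j => w j ⬝ᵥ y) (fun j => IsIntegral.sum _ fun t _ => (hwi j t).mul (hy t))
    (fun i j => cramer_eval_of_rank_le B hrank (w j) (hw j) y (S i) (T i)) hΔ hu

end Main

end Fermat.Agent.S17.H860

end
-- ===== PACK-END S17/H860/CramerHeight.lean

-- ===== PACK-BEGIN S15/H466/ProjInst.lean
section



/-!
# S15 / DESC — PROJ for `J₀(p)` (helper466)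

`projStatement_of : FinStatement → HeckeGalStatement → (∀ p, HeckeOperatorsCommuteBar p) →
ProjStatement` : the Hecke projector onto the Eisenstein part of `J₀(p)[r^k]`
(instance of `exists_projector_h466` for `η_ℓ = T_ℓ - (1 + ℓ)`, `X = J₀(p)[r^k]`).
The three inputs are on main (`S30.H810.torsion_finite`, `S29.H571`, `S29.heckeOperatorsCommuteBar`).

`descCoreTarget_route208'` : the top of route 208 with `ProjStatement` discharged.
-/

set_option autoImplicit false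
set_option linter.unusedSectionVars false

noncomputable section

namespace Fermat.Agent.S15.H466

open ModularCurve Fermat.Agent.S15.H975

section Inst

variable (p : ℕ) [NeZero p]

theorem eta_comm_h466 (hcomm : HeckeOperatorsCommuteBar p) (ℓ ℓ' : Nat.Primes) :
    Commute (eta p ℓ) (eta p ℓ') := by
  unfold eta
  have h1 : Commute (heckeOperatorBar p ℓ) (heckeOperatorBar p ℓ') := hcomm ℓ ℓ'
  have h2 : ∀ (a : Module.End ℤ (JZero p)) (n : ℤ),
      Commute a (n • (1 : Module.End ℤ (JZero p))) := fun a n => by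
    show a * (n • (1 : Module.End ℤ (JZero p))) = (n • (1 : Module.End ℤ (JZero p))) * a
    rw [mul_smul_comm, smul_mul_assoc, mul_one, one_mul]
  have h3 : ∀ (a : Module.End ℤ (JZero p)) (n : ℤ),
      Commute (n • (1 : Module.End ℤ (JZero p))) a := fun a n => (h2 a n).symm
  exact (h1.sub_right (h2 _ _)).sub_left ((h3 _ _).sub_right (h2 _ _))

/-- Galois-equivariance as a property of endomorphisms. -/
def IsGalEquiv_h466 (a : Module.End ℤ (JZero p)) : Prop :=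
  ∀ (σ : _root_.Fermat.Agent.S15.H975.Gal) (x : JZero p), a (σ • x) = σ • a x

theorem projStatement_at (hFinp : ∀ n : ℕ, 0 < n → Finite ↥(tors p n))
    (hTG : ∀ (ℓ : Nat.Primes) (σ : _root_.Fermat.Agent.S15.H975.Gal) (x : JZero p),
      heckeOperatorBar p ℓ (σ • x) = σ • heckeOperatorBar p ℓ x)
    (hcomm : HeckeOperatorsCommuteBar p) (S : Set ℕ) (r : ℕ) (hr : 0 < r) (k : ℕ) :
    ∃ e : JZero p →+ JZero p, (∀ (σ : _root_.Fermat.Agent.S15.H975.Gal) (x : JZero p), e (σ • x) = σ • e x) ∧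
      (∀ x ∈ eisInf p S r, r ^ k • x = 0 → e x = x) ∧
      (∀ x : JZero p, r ^ k • x = 0 → e x ∈ eisInf p S r) := by
  classical
  have : Finite ↥(tors p (r ^ k)) := hFinp (r ^ k) (pow_pos hr k)
  let ι : Type := {ℓ : Nat.Primes // (ℓ : ℕ) ≠ p ∧ (ℓ : ℕ) ∉ S}
  let η : ι → Module.End ℤ (JZero p) := fun i => eta p i.1
  have hX : ∀ i : ι, ∀ x ∈ tors p (r ^ k), η i x ∈ tors p (r ^ k) := by
    intro i x hx
    show r ^ k • (η i x) = 0
    rw [← map_nsmul, show r ^ k • x = 0 from hx, map_zero]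
  have hPη : ∀ i : ι, IsGalEquiv_h466 p (η i) := by
    intro i σ z
    show eta p i.1 (σ • z) = σ • eta p i.1 z
    unfold eta
    simp only [LinearMap.sub_apply, LinearMap.smul_apply, Module.End.one_apply]
    rw [hTG, gal_smul_sub_h466, gal_smul_zsmul_h466]
  obtain ⟨e, hPe, hfix, hkill⟩ := exists_projector_h466 η
    (fun i j => eta_comm_h466 p hcomm i.1 j.1) (tors p (r ^ k)) hX (IsGalEquiv_h466 p)
    (fun σ x => rfl) hPη
    (fun a b ha hb σ x => by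
      show a (b (σ • x)) = σ • a (b x)
      rw [hb, ha])
    (fun a b ha hb σ x => by
      show a (σ • x) - b (σ • x) = σ • (a x - b x)
      rw [ha, hb, gal_smul_sub_h466])
  refine ⟨e.toAddMonoidHom, fun σ x => hPe σ x, fun x hx hxk => ?_, fun x hxk => ?_⟩
  · exact hfix x hxk fun i => hx.2 i.1 i.2.1 i.2.2
  · obtain ⟨h1, h2⟩ := hkill x hxk
    exact ⟨⟨k, h1⟩, fun ℓ hℓp hℓS => h2 ⟨ℓ, hℓp, hℓS⟩⟩

end Inst

/-- **PROJ** from finiteness of torsion, Galois-equivariance and commutativity of the Hecke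
operators. -/
theorem projStatement_of (hFin : FinStatement) (hTG : HeckeGalStatement)
    (hcomm : ∀ (p : ℕ) [NeZero p], HeckeOperatorsCommuteBar p) : ProjStatement :=
  fun p _ _ S r hr k =>
    projStatement_at p (fun n hn => hFin p n hn) (hTG p) (hcomm p) (S : Set ℕ) r hr.pos k

/-- **The descent core on route 208**, with PROJ discharged. -/
theorem descCoreTarget_route208' (hA : Alg0Statement) (hDiv : DivStatement) (hFin : FinStatement)
    (hRtf : RtfStatement) (hFlag : FlagStatement) (hLoc : Local208Statement)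
    (hT6 : T6ppAllStatement) (hTG : HeckeGalStatement)
    (hcomm : ∀ (p : ℕ) [NeZero p], HeckeOperatorsCommuteBar p)
    (p : ℕ) [NeZero p] (hp : p.Prime) (S : Finset ℕ) (r : ℕ) (hr : r.Prime) (hrp : r ∣ p - 1) :
    DescCoreTarget p (S : Set ℕ) r :=
  descCoreTarget_route208 hA hDiv hFin hRtf hFlag hLoc hT6 hTG
    (projStatement_of hFin hTG hcomm) p hp S r hr hrp

end Fermat.Agent.S15.H466

end
end
-- ===== PACK-END S15/H466/ProjInst.lean

-- ===== PACK-BEGIN S15/H215/ModBTop.lean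
section



/-!
# S15, piece MOD-B (helper215): descent of the bridge from `ℂ` to `ℚ̄`

* `veluModularPair_of : VeluModularPairComplexStatement → VeluModularPairStatement`
* `veluModularPair_of_pieces :
    UniformizationStatement → LatticeModularPairStatement → VeluModularPairStatement`

(B0 = `veluMap`, B0' = `isModularPairMap`, B4 = `latticeVelu` are proved in this directory.)
-/

set_option autoImplicit false

noncomputable section

open WeierstrassCurve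
open scoped WeierstrassCurve.Affine

namespace Fermat.Agent.S15.H215

open Fermat.Agent.S15.H542

theorem jInv_map_h215 {K L : Type} [Field K] [Field L] (W : WeierstrassCurve K) (f : K →+* L) :
    jInv (W.map f) = f (jInv W) := by
  unfold jInv
  rw [WeierstrassCurve.map_c₄, WeierstrassCurve.map_Δ, map_div₀, map_pow]

/-- **B from B-ℂ** (via B0, B0'). -/
theorem veluModularPair_of (hC : VeluModularPairComplexStatement) : VeluModularPairStatement := by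
  intro p _ hp hp2 E hΔ Q hQord
  haveI : Algebra.IsAlgebraic ℚ (AlgebraicClosure ℚ) := AlgebraicClosure.isAlgebraic ℚ
  let ι : AlgebraicClosure ℚ →ₐ[ℚ] ℂ := IsAlgClosed.lift
  letI : Algebra (AlgebraicClosure ℚ) ℂ := ι.toRingHom.toAlgebra
  have hmap := veluMap (K := AlgebraicClosure ℚ) (L := ℂ) E Q p
  have hord : addOrderOf
      (WeierstrassCurve.Affine.Point.map (W' := E) (Algebra.ofId (AlgebraicClosure ℚ) ℂ) Q) = p := by
    rw [← hQord]
    exact addOrderOf_injective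
      (WeierstrassCurve.Affine.Point.map (W' := E) (Algebra.ofId (AlgebraicClosure ℚ) ℂ))
      (WeierstrassCurve.Affine.Point.map_injective _) Q
  have hinj : Function.Injective (algebraMap (AlgebraicClosure ℚ) ℂ) :=
    (algebraMap (AlgebraicClosure ℚ) ℂ).injective
  have hΔ' : (E⁄ℂ).Δ ≠ 0 := by
    show (E.map (algebraMap (AlgebraicClosure ℚ) ℂ)).Δ ≠ 0
    rw [WeierstrassCurve.map_Δ]
    exact (map_ne_zero_iff _ hinj).mpr hΔ
  obtain ⟨h1, h2⟩ := hC p hp hp2 (E⁄ℂ) hΔ' _ hord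
  rw [hmap] at h1 h2
  constructor
  · intro h
    apply h1
    rw [WeierstrassCurve.map_Δ, h, map_zero]
  · have hj : jInv (E⁄ℂ) = algebraMap (AlgebraicClosure ℚ) ℂ (jInv E) :=
      jInv_map_h215 E _
    rw [hj, jInv_map_h215] at h2
    exact (isModularPairMap (algebraMap (AlgebraicClosure ℚ) ℂ) p _ _).mp h2

/-- **B from B3 and B5.** -/
theorem veluModularPair_of_pieces (h3 : UniformizationStatement)
    (h5 : LatticeModularPairStatement) : VeluModularPairStatement :=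
  veluModularPair_of (veluModularPairComplex_of h3 h5)

end Fermat.Agent.S15.H215

end
end
-- ===== PACK-END S15/H215/ModBTop.lean

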