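import Mathlib
import Fermat.Agent.Pack.L1.E2L0
import Fermat.Agent.Pack.S44C.G0E16L2
import Fermat.Agent.Pack.S44C.G1E0L0
import Fermat.Agent.Pack.L1.E3L3
import Fermat.Agent.Pack.S44C.G0E18L3
import Fermat.Agent.Pack.L1.E3L0
import Fermat.Agent.Pack.L1.E0L3
import Fermat.Agent.Pack.S44C.G0E10L3
import Fermat.Agent.Pack.S43GC.G0E7L1
import Fermat.Agent.Pack.S44C.G0E14L2
import Fermat.Agent.Pack.L1.E3L1
import Fermat.Agent.Pack.L1.E3L2
import Fermat.Agent.Pack.L1.E2L1
import Fermat.Agent.Pack.S43GC.G0E9L3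
import Fermat.Agent.Pack.S59C.E1L2

-- ===== PACK-BEGIN S24/H324/FundIneq.lean
section




/-!
# S24 / ALG (helper324) — the fundamental inequality from `LocalData`, Dedekind-free

For `L : LocalData K F C X t` (`K` algebraically closed, `C` of characteristic zero, `F` finite
over `K(t)`):

* `card_fiber_le` : at most `v.ord t` of the embeddings `L.σ x` induce a given place `v`;
* `card_le_sum_ord` : `#X ≤ ∑_{v | t} v.ord t`  (= hypothesis `hsum` of `H117.localThm`);
* `local_count` : the statement `sub_local_count` of helper984's `Alg/Sub.lean`.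
-/

set_option autoImplicit false
set_option linter.style.haveILetI false

noncomputable section

open AlgebraicCurve HahnSeries IntermediateField
open Fermat.Agent.S24.H117

namespace Fermat.Agent.S24.H324

variable {K F : Type*} [Field K] [Field F] [Algebra K F]
variable {C : Type*} [Field C] {X : Type*}
variable {t : F}

/-- Residue field `= K`: first-order expansion of an integral element along a uniformiser. -/
theorem exists_decomp [IsAlgClosed K] [FiniteDimensional K⟮t⟯ F] (v : Place K F)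
    (ht : 0 < v.ord t) (π : F) (hπ : v.ord π = 1) (f : F) (hf : 0 ≤ v.ord f) :
    ∃ (c : K) (f₁ : F), 0 ≤ v.ord f₁ ∧ f = algebraMap K F c + π * f₁ := by
  have hπ0 : π ≠ 0 := ne_zero_of_ord_ne_zero v (by rw [hπ]; norm_num)
  have htr : Transcendental K t := by
    apply FF.transcendental_of_not_mem_range
    rintro ⟨a, rfl⟩
    rw [H117.ord_algebraMap] at ht
    exact lt_irrefl _ ht
  obtain ⟨a, ha⟩ := FF.exists_const_sub_mem_nonunits v htr (H117.mem_of_ord_nonneg v hf)
  refine ⟨a, (f - algebraMap K F a) / π, ?_, ?_⟩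
  · rcases eq_or_ne (f - algebraMap K F a) 0 with h0 | h0
    · rw [h0, zero_div, v.ord_zero]
    · have hpos := (FF.ord_pos_iff_mem_nonunits v h0).mpr ha
      rw [ord_div v h0 hπ0, hπ]
      omega
  · rw [mul_div_cancel₀ _ hπ0]; ring

variable (L : LocalData K F C X t)

/-- Two points of `X` inducing the same place give the hypotheses `SamePlace`. -/
theorem samePlace_of_placeOf_eq {x y : X} (hxy : placeOf L y = placeOf L x) :
    SamePlace (placeOf L x) (L.σ x) (L.σ y) (mult L x) where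
  g_pos := mult_pos L x
  ordσ := order_eq L x
  ordτ := by
    have hm : mult L y = mult L x := by
      have h1 := mult_mul_ord_t L x
      have h2 := mult_mul_ord_t L y
      rw [hxy] at h2
      have hpos := ord_t_pos L x
      have : (mult L y : ℤ) = mult L x :=
        mul_right_cancel₀ hpos.ne' (h2.trans h1.symm)
      exact_mod_cast this
    intro f
    rw [order_eq L y f, hxy, hm]
  const c := by rw [L.σ_const, L.σ_const]

variable [IsAlgClosed K] [CharZero C] [FiniteDimensional K⟮t⟯ F]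

/-- **Local bound**: at most `v.ord t` of the embeddings induce the place `v`. -/
theorem card_fiber_le [Fintype X] [DecidableEq (Place K F)] (v : Place K F)
    (hv : 0 ≤ v.ord t) :
    ((Finset.univ.filter (fun x => placeOf L x = v)).card : ℤ) ≤ v.ord t := by
  classical
  rcases (Finset.univ.filter (fun x => placeOf L x = v)).eq_empty_or_nonempty with hemp | hne
  · rw [hemp]; simpa using hv
  obtain ⟨x₀, hx₀⟩ := hne
  have hx₀v : placeOf L x₀ = v := (Finset.mem_filter.mp hx₀).2
  subst hx₀v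
  have ht : 0 < (placeOf L x₀).ord t := ord_t_pos L x₀
  obtain ⟨π, hπ0, hπ⟩ := exists_ord_eq_one (placeOf L x₀)
  obtain ⟨e, he⟩ : ∃ e : ℕ, (e : ℤ) = (placeOf L x₀).ord t :=
    ⟨((placeOf L x₀).ord t).toNat, Int.toNat_of_nonneg ht.le⟩
  have he0 : 0 < e := by
    have : (0 : ℤ) < e := by rw [he]; exact ht
    exact_mod_cast this
  have hres := exists_decomp (placeOf L x₀) ht π hπ
  set a : C := (L.σ x₀ π).leadingCoeff ^ e with ha
  have hmaps : Set.MapsTo (fun x => (L.σ x π).leadingCoeff)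
      (↑(Finset.univ.filter (fun x => placeOf L x = placeOf L x₀)))
      (↑(Polynomial.nthRootsFinset e a) : Set C) := by
    intro x hx
    have hxv : placeOf L x = placeOf L x₀ := (Finset.mem_filter.mp hx).2
    have hS := samePlace_of_placeOf_eq L hxv
    have := hS.leadingCoeff_pow_eq π hπ hres t ht (L.σ_t_eq x₀ x) e he
    simp only [Finset.mem_coe]
    rw [Polynomial.mem_nthRootsFinset he0]
    exact this.symm
  have hinj : Set.InjOn (fun x => (L.σ x π).leadingCoeff)
      (↑(Finset.univ.filter (fun x => placeOf L x = placeOf L x₀))) := by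
    intro x hx y hy hxy
    have hxv : placeOf L x = placeOf L x₀ := (Finset.mem_filter.mp hx).2
    have hyv : placeOf L y = placeOf L x₀ := (Finset.mem_filter.mp hy).2
    have hyx : placeOf L y = placeOf L x := hyv.trans hxv.symm
    have hS := samePlace_of_placeOf_eq L hyx
    have hπx : (placeOf L x).ord π = 1 := by rw [hxv]; exact hπ
    have htx : 0 < (placeOf L x).ord t := ord_t_pos L x
    have hresx := exists_decomp (placeOf L x) htx π hπx
    exact L.σ_inj (hS.eq_of_leadingCoeff_eq π hπx hresx t htx (L.σ_t_eq x y) hxy)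
  have h1 := Finset.card_le_card_of_injOn _ hmaps hinj
  have h2 : (Polynomial.nthRootsFinset e a).card ≤ e := by
    unfold Polynomial.nthRootsFinset
    exact (Multiset.toFinset_card_le _).trans (Polynomial.card_nthRoots e a)
  rw [← he]
  exact_mod_cast h1.trans h2

variable [Finite X]

include L in
/-- **Fundamental inequality**, Dedekind-free. -/
theorem card_le_sum_ord (s : Finset (Place K F)) (hs : ∀ v, v ∈ s ↔ 0 < v.ord t) :
    (Nat.card X : ℤ) ≤ ∑ v ∈ s, v.ord t := by
  classical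
  haveI : Fintype X := Fintype.ofFinite X
  have hmaps : Set.MapsTo (placeOf L) (↑(Finset.univ : Finset X)) (↑s : Set (Place K F)) := by
    intro x _
    exact Finset.mem_coe.mpr ((hs _).mpr (ord_t_pos L x))
  have hcard := Finset.card_eq_sum_card_fiberwise hmaps
  rw [Nat.card_eq_fintype_card, ← Finset.card_univ, hcard, Nat.cast_sum]
  refine Finset.sum_le_sum fun v hv => ?_
  exact card_fiber_le L v ((hs v).mp hv).le

/-- **LT** (statement `sub_local_count` of helper984's `Alg/Sub.lean`). -/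
theorem local_count [CharZero K]
    (hrank : Module.finrank ↥(IntermediateField.adjoin K {t}) F = Nat.card X) :
    {v : Place K F | 0 < v.ord t}.Finite ∧
      Nat.card ↥{v : Place K F | 0 < v.ord t} = numOrbits L.perm ∧
      ∑ᶠ v ∈ {v : Place K F | 0 < v.ord t}, v.ord t = (Nat.card X : ℤ) := by
  classical
  have hfin : {v : Place K F | 0 < v.ord t}.Finite :=
    finite_places_over L K⟮t⟯ le_rfl hrank
  set s := hfin.toFinset with hs
  have hmem : ∀ v, v ∈ s ↔ 0 < v.ord t := fun v => by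
    rw [hs, Set.Finite.mem_toFinset]; rfl
  obtain ⟨h1, -, h3⟩ := localThm L K⟮t⟯ le_rfl hrank s hmem (card_le_sum_ord L s hmem)
  refine ⟨hfin, ?_, ?_⟩
  · rw [← h1, Nat.card_eq_card_finite_toFinset hfin]
  · rw [finsum_mem_eq_finite_toFinset_sum _ hfin]
    exact h3

end Fermat.Agent.S24.H324

end
end
-- ===== PACK-END S24/H324/FundIneq.lean

-- ===== PACK-BEGIN S17/H440/GradedEv.lean
section



/-!
# S17 / tower H (helper440): graded evaluation at a place

`F / K` with `FF1 K F`, `∞ = vinf` a place.  For every place `P` and every degree `d` we define the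
`K`-linear **graded evaluation**

  `gev vinf P d : F → K`,   `f ↦ (f · w_P ^ d)(P)`,

where `w_P` is a local equation of `∞` at `P` (`w_P = 1` for `P ≠ ∞`, a fixed uniformiser at `∞`
for `P = ∞`).  On `L(d ∞)` it is the honest value `f(P)` for `P ≠ ∞` and the leading coefficient
for `P = ∞`.  It is

* `K`-linear on `L(d ∞)` (`gev_add`, `gev_smul`, `gev_sum`),
* multiplicative: `gev (d + e) (f g) = gev d f * gev e g` for `f ∈ L(d ∞)`, `g ∈ L(e ∞)`
  (`gev_mul`), `gev 0 1 = 1`, `gev_pow`, `gev_prod`,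
* its kernel on `L(d ∞)` is `L(d ∞ - P)` (`gev_eq_zero_iff`),
* compatible with polynomials: for `x i ∈ L(m ∞)` and `p` homogeneous of degree `k`,
  `eval (fun i => gev P m (x i)) p = gev P (k * m) (aeval x p)` (`eval_gev`).
-/

set_option autoImplicit false

noncomputable section

open AlgebraicCurve MvPolynomial

namespace Fermat.Agent.S17.H440

open Fermat.Agent.Lib.RR Fermat.Agent.S37.H100

variable {K F : Type*} [Field K] [Field F] [Algebra K F]

section LocEq

open Classical in
/-- A local equation of `∞ = vinf` at `P`: a fixed uniformiser at `∞` if `P = ∞`, and `1`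
otherwise. -/
def locEq (vinf P : Place K F) : F :=
  if P = vinf then Classical.choose (exists_ord_eq_one vinf) else 1

theorem ord_locEq (vinf P : Place K F) : P.ord (locEq vinf P) = prim vinf P := by
  classical
  unfold locEq prim
  by_cases h : P = vinf
  · subst h
    rw [if_pos rfl, Finsupp.single_eq_same]
    exact Classical.choose_spec (exists_ord_eq_one P)
  · rw [if_neg h, Finsupp.single_apply, if_neg (Ne.symm h), P.ord_one]

theorem locEq_ne_zero (vinf P : Place K F) : locEq vinf P ≠ 0 := by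
  classical
  unfold locEq
  by_cases h : P = vinf
  · rw [if_pos h]
    intro h0
    have := Classical.choose_spec (exists_ord_eq_one vinf)
    rw [h0, Place.ord_zero] at this
    exact zero_ne_one this
  · rw [if_neg h]; exact one_ne_zero

theorem ord_locEq_pow (vinf P : Place K F) (d : ℕ) :
    P.ord (locEq vinf P ^ d) = d * prim vinf P := by
  rw [ord_pow, ord_locEq]

theorem locEq_mem (vinf P : Place K F) : locEq vinf P ∈ P.toValuationSubring := by
  apply mem_of_ord_nonneg
  rw [ord_locEq]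
  unfold prim
  classical
  rw [Finsupp.single_apply]
  split_ifs <;> simp

/-- `f ∈ L(d ∞)` is regular at `P` after multiplication by `w_P ^ d`. -/
theorem mul_locEq_pow_mem (vinf P : Place K F) {d : ℕ} {f : F}
    (hf : f ∈ riemannRochSpace (d • prim vinf)) :
    f * locEq vinf P ^ d ∈ P.toValuationSubring := by
  by_cases h0 : f = 0
  · rw [h0, zero_mul]; exact P.toValuationSubring.zero_mem
  apply mem_of_ord_nonneg
  rw [P.ord_mul h0 (pow_ne_zero _ (locEq_ne_zero vinf P)), ord_locEq_pow]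
  rcases (mem_riemannRochSpace_iff.mp hf) P with h | h
  · exact absurd h h0
  · simp only [Finsupp.smul_apply, nsmul_eq_mul] at h
    linarith

variable (vinf : Place K F)

/-- products of elements of `L(d ∞)`, `L(e ∞)` lie in `L((d+e) ∞)` -/
theorem mul_mem_L {d e : ℕ} {f g : F} (hf : f ∈ riemannRochSpace (d • prim vinf))
    (hg : g ∈ riemannRochSpace (e • prim vinf)) :
    f * g ∈ riemannRochSpace ((d + e) • prim vinf) := by
  rw [mem_riemannRochSpace_iff]
  intro v
  by_cases hf0 : f = 0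
  · left; rw [hf0, zero_mul]
  by_cases hg0 : g = 0
  · left; rw [hg0, mul_zero]
  right
  rw [v.ord_mul hf0 hg0]
  rcases (mem_riemannRochSpace_iff.mp hf) v with h | h
  · exact absurd h hf0
  rcases (mem_riemannRochSpace_iff.mp hg) v with h' | h'
  · exact absurd h' hg0
  simp only [Finsupp.smul_apply, nsmul_eq_mul, Nat.cast_add] at h h' ⊢
  linarith

theorem one_mem_L : (1 : F) ∈ riemannRochSpace ((0 : ℕ) • prim vinf) := by
  rw [mem_riemannRochSpace_iff]
  intro v
  right
  simp [Place.ord_one]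

theorem pow_mem_L {m : ℕ} {f : F} (hf : f ∈ riemannRochSpace (m • prim vinf)) (k : ℕ) :
    f ^ k ∈ riemannRochSpace ((k * m) • prim vinf) := by
  induction k with
  | zero => rw [pow_zero, Nat.zero_mul]; exact one_mem_L vinf
  | succ k ih =>
    rw [pow_succ, Nat.succ_mul]
    exact mul_mem_L vinf ih hf

end LocEq

section Gev

variable [FF1 K F]

open Classical in
/-- The graded evaluation `f ↦ (f · w_P ^ d)(P)` (junk value `0` if this is not regular). -/
def gev (vinf P : Place K F) (d : ℕ) (f : F) : K :=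
  if h : f * locEq vinf P ^ d ∈ P.toValuationSubring then
    evPlace P (FF1.deg_eq_one P) ⟨_, h⟩ else 0

variable (vinf P : Place K F)

theorem gev_of_mem {d : ℕ} {f : F} (h : f * locEq vinf P ^ d ∈ P.toValuationSubring) :
    gev vinf P d f = evPlace P (FF1.deg_eq_one P) ⟨_, h⟩ := by
  unfold gev
  rw [dif_pos h]

theorem gev_zero (d : ℕ) : gev vinf P d 0 = 0 := by
  have h : (0 : F) * locEq vinf P ^ d ∈ P.toValuationSubring := by
    rw [zero_mul]; exact P.toValuationSubring.zero_mem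
  rw [gev_of_mem vinf P h]
  have : (⟨_, h⟩ : P.toValuationSubring) = 0 := Subtype.ext (zero_mul _)
  rw [this, map_zero]

theorem gev_add {d : ℕ} {f g : F} (hf : f ∈ riemannRochSpace (d • prim vinf))
    (hg : g ∈ riemannRochSpace (d • prim vinf)) :
    gev vinf P d (f + g) = gev vinf P d f + gev vinf P d g := by
  have h1 := mul_locEq_pow_mem vinf P hf
  have h2 := mul_locEq_pow_mem vinf P hg
  have h3 := mul_locEq_pow_mem vinf P (Submodule.add_mem _ hf hg)
  rw [gev_of_mem vinf P h1, gev_of_mem vinf P h2, gev_of_mem vinf P h3, ← map_add]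
  congr 1
  exact Subtype.ext (add_mul _ _ _)

theorem gev_smul {d : ℕ} (c : K) {f : F} (hf : f ∈ riemannRochSpace (d • prim vinf)) :
    gev vinf P d (c • f) = c * gev vinf P d f := by
  have h1 := mul_locEq_pow_mem vinf P hf
  have h3 := mul_locEq_pow_mem vinf P (Submodule.smul_mem _ c hf)
  rw [gev_of_mem vinf P h1, gev_of_mem vinf P h3]
  have : (⟨_, h3⟩ : P.toValuationSubring) =
      algebraMap K P.toValuationSubring c * ⟨_, h1⟩ := by
    apply Subtype.ext
    show c • f * locEq vinf P ^ d = algebraMap K F c * (f * locEq vinf P ^ d)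
    rw [Algebra.smul_def, mul_assoc]
  rw [this, map_mul, evPlace_algebraMap]

theorem gev_sum {d : ℕ} {ι : Type*} (s : Finset ι) (f : ι → F)
    (hf : ∀ i ∈ s, f i ∈ riemannRochSpace (d • prim vinf)) :
    gev vinf P d (∑ i ∈ s, f i) = ∑ i ∈ s, gev vinf P d (f i) := by
  classical
  induction s using Finset.induction_on with
  | empty => simp [gev_zero]
  | insert a s ha ih =>
    rw [Finset.sum_insert ha, Finset.sum_insert ha,
      gev_add vinf P (hf a (Finset.mem_insert_self a s))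
        (Submodule.sum_mem _ fun i hi => hf i (Finset.mem_insert_of_mem hi)),
      ih fun i hi => hf i (Finset.mem_insert_of_mem hi)]

theorem gev_mul {d e : ℕ} {f g : F} (hf : f ∈ riemannRochSpace (d • prim vinf))
    (hg : g ∈ riemannRochSpace (e • prim vinf)) :
    gev vinf P (d + e) (f * g) = gev vinf P d f * gev vinf P e g := by
  have h1 := mul_locEq_pow_mem vinf P hf
  have h2 := mul_locEq_pow_mem vinf P hg
  have h3 : f * g * locEq vinf P ^ (d + e) ∈ P.toValuationSubring := by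
    have := P.toValuationSubring.mul_mem _ _ h1 h2
    have e' : f * g * locEq vinf P ^ (d + e) =
        f * locEq vinf P ^ d * (g * locEq vinf P ^ e) := by rw [pow_add]; ring
    rw [e']; exact this
  rw [gev_of_mem vinf P h1, gev_of_mem vinf P h2, gev_of_mem vinf P h3, ← map_mul]
  congr 1
  apply Subtype.ext
  show f * g * locEq vinf P ^ (d + e) = f * locEq vinf P ^ d * (g * locEq vinf P ^ e)
  rw [pow_add]; ring

theorem gev_one : gev vinf P 0 1 = 1 := by
  have h : (1 : F) * locEq vinf P ^ 0 ∈ P.toValuationSubring := by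
    rw [pow_zero, mul_one]; exact P.toValuationSubring.one_mem
  rw [gev_of_mem vinf P h]
  have : (⟨_, h⟩ : P.toValuationSubring) = 1 := Subtype.ext (by simp)
  rw [this, map_one]

theorem gev_pow {m : ℕ} {f : F} (hf : f ∈ riemannRochSpace (m • prim vinf)) (k : ℕ) :
    gev vinf P (k * m) (f ^ k) = gev vinf P m f ^ k := by
  induction k with
  | zero => rw [pow_zero, pow_zero, Nat.zero_mul]; exact gev_one vinf P
  | succ k ih =>
    rw [pow_succ, pow_succ, Nat.succ_mul, gev_mul vinf P (pow_mem_L vinf hf k) hf, ih]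

/-- The kernel of the graded evaluation on `L(d ∞)`: the functions with a zero at `P`
(relative to `d ∞`). -/
theorem gev_eq_zero_iff {d : ℕ} {f : F} (hf : f ∈ riemannRochSpace (d • prim vinf))
    (hf0 : f ≠ 0) :
    gev vinf P d f = 0 ↔ -((d : ℤ) * prim vinf P) < P.ord f := by
  have h1 := mul_locEq_pow_mem vinf P hf
  rw [gev_of_mem vinf P h1, evPlace_eq_zero_iff_ord]
  have hne : f * locEq vinf P ^ d ≠ 0 := mul_ne_zero hf0 (pow_ne_zero _ (locEq_ne_zero vinf P))
  show (f * locEq vinf P ^ d = 0 ∨ 0 < P.ord (f * locEq vinf P ^ d)) ↔ _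
  rw [P.ord_mul hf0 (pow_ne_zero _ (locEq_ne_zero vinf P)), ord_locEq_pow]
  constructor
  · rintro (h | h)
    · exact absurd h hne
    · linarith
  · intro h; right; linarith

section Poly

variable {ι : Type*} {m : ℕ} {x : ι → F}

omit [FF1 K F] in
theorem monomial_mem_L (hx : ∀ i, x i ∈ riemannRochSpace (m • prim vinf)) (s : Finset ι)
    (e : ι → ℕ) :
    ∏ i ∈ s, x i ^ e i ∈ riemannRochSpace (((∑ i ∈ s, e i) * m) • prim vinf) := by
  classical
  induction s using Finset.induction_on with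
  | empty =>
    rw [Finset.prod_empty, Finset.sum_empty, Nat.zero_mul]
    exact one_mem_L vinf
  | insert a s ha ih =>
    rw [Finset.prod_insert ha, Finset.sum_insert ha, Nat.add_mul]
    exact mul_mem_L vinf (pow_mem_L vinf (hx a) (e a)) ih

theorem gev_monomial (hx : ∀ i, x i ∈ riemannRochSpace (m • prim vinf)) (s : Finset ι)
    (e : ι → ℕ) :
    gev vinf P ((∑ i ∈ s, e i) * m) (∏ i ∈ s, x i ^ e i) =
      ∏ i ∈ s, gev vinf P m (x i) ^ e i := by
  classical
  induction s using Finset.induction_on with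
  | empty =>
    rw [Finset.prod_empty, Finset.prod_empty, Finset.sum_empty, Nat.zero_mul]
    exact gev_one vinf P
  | insert a s ha ih =>
    rw [Finset.prod_insert ha, Finset.prod_insert ha, Finset.sum_insert ha, Nat.add_mul,
      gev_mul vinf P (pow_mem_L vinf (hx a) (e a)) (monomial_mem_L vinf hx s e),
      gev_pow vinf P (hx a), ih]

omit [FF1 K F] in
/-- A homogeneous polynomial of degree `k` in functions of `L(m ∞)` lies in `L(k m ∞)`. -/
theorem aeval_mem_L (hx : ∀ i, x i ∈ riemannRochSpace (m • prim vinf))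
    {p : MvPolynomial ι K} {k : ℕ} (hp : p.IsHomogeneous k) :
    aeval x p ∈ riemannRochSpace ((k * m) • prim vinf) := by
  classical
  rw [aeval_def, eval₂_eq]
  refine Submodule.sum_mem _ fun d hd => ?_
  have hdeg := hp (mem_support_iff.mp hd)
  have hsum : ∑ i ∈ d.support, d i = k := by
    rw [← hdeg, Finsupp.weight_apply, Finsupp.sum]
    simp
  have h1 := monomial_mem_L vinf hx d.support (fun i => d i)
  rw [hsum] at h1
  have h2 := Submodule.smul_mem _ (coeff d p) h1
  rwa [Algebra.smul_def] at h2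

/-- **Polynomials commute with the graded evaluation.** -/
theorem eval_gev (hx : ∀ i, x i ∈ riemannRochSpace (m • prim vinf))
    {p : MvPolynomial ι K} {k : ℕ} (hp : p.IsHomogeneous k) :
    eval (fun i => gev vinf P m (x i)) p = gev vinf P (k * m) (aeval x p) := by
  classical
  rw [aeval_def, eval₂_eq, eval_eq]
  have hsum : ∀ d ∈ p.support, ∑ i ∈ d.support, d i = k := by
    intro d hd
    have hdeg := hp (mem_support_iff.mp hd)
    rw [← hdeg, Finsupp.weight_apply, Finsupp.sum]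
    simp
  have hmem : ∀ d ∈ p.support, ∏ i ∈ d.support, x i ^ d i ∈
      riemannRochSpace ((k * m) • prim vinf) := by
    intro d hd
    have h1 := monomial_mem_L vinf hx d.support (fun i => d i)
    rwa [hsum d hd] at h1
  rw [gev_sum vinf P]
  · refine Finset.sum_congr rfl fun d hd => ?_
    have h1 := gev_monomial vinf P hx d.support (fun i => d i)
    rw [hsum d hd] at h1
    rw [← Algebra.smul_def, gev_smul vinf P _ (hmem d hd), h1]
  · intro d hd
    rw [← Algebra.smul_def]
    exact Submodule.smul_mem _ _ (hmem d hd)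

end Poly

section Quot

/-- If `f / g` is regular at `P` then `gev f = (f / g)(P) * gev g`. -/
theorem gev_eq_mul_of_div_mem {d : ℕ} {f g : F} (hg : g ∈ riemannRochSpace (d • prim vinf))
    (hg0 : g ≠ 0) (h : f / g ∈ P.toValuationSubring) :
    gev vinf P d f = evPlace P (FF1.deg_eq_one P) ⟨_, h⟩ * gev vinf P d g := by
  have h2 := mul_locEq_pow_mem vinf P hg
  have h1 : f * locEq vinf P ^ d ∈ P.toValuationSubring := by
    have := P.toValuationSubring.mul_mem _ _ h h2
    have e : f / g * (g * locEq vinf P ^ d) = f * locEq vinf P ^ d := by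
      field_simp
    rwa [e] at this
  rw [gev_of_mem vinf P h1, gev_of_mem vinf P h2, ← map_mul]
  congr 1
  apply Subtype.ext
  show f * locEq vinf P ^ d = f / g * (g * locEq vinf P ^ d)
  field_simp

/-- If `gev g ≠ 0` then `f / g` is regular at `P` for all `f ∈ L(d ∞)`. -/
theorem div_mem_of_gev_ne_zero {d : ℕ} {f g : F} (hf : f ∈ riemannRochSpace (d • prim vinf))
    (hg : g ∈ riemannRochSpace (d • prim vinf)) (hgev : gev vinf P d g ≠ 0) :
    f / g ∈ P.toValuationSubring := by
  have hg0 : g ≠ 0 := by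
    rintro rfl
    exact hgev (gev_zero vinf P d)
  by_cases hf0 : f = 0
  · rw [hf0, zero_div]; exact P.toValuationSubring.zero_mem
  have h1 : ¬ (-((d : ℤ) * prim vinf P) < P.ord g) := fun h =>
    hgev ((gev_eq_zero_iff vinf P hg hg0).mpr h)
  have h2 := (mem_riemannRochSpace_iff.mp hf P).resolve_left hf0
  rw [Finsupp.smul_apply, nsmul_eq_mul] at h2
  apply mem_of_ord_nonneg
  rw [div_eq_mul_inv, P.ord_mul hf0 (inv_ne_zero hg0), P.ord_inv]
  omega

/-- The value of `f / g` at `P` is `gev f / gev g`. -/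
theorem evPlace_div {d : ℕ} {f g : F} (hf : f ∈ riemannRochSpace (d • prim vinf))
    (hg : g ∈ riemannRochSpace (d • prim vinf)) (hgev : gev vinf P d g ≠ 0) :
    evPlace P (FF1.deg_eq_one P) ⟨_, div_mem_of_gev_ne_zero vinf P hf hg hgev⟩ =
      gev vinf P d f / gev vinf P d g := by
  have hg0 : g ≠ 0 := by
    rintro rfl
    exact hgev (gev_zero vinf P d)
  rw [eq_div_iff hgev]
  exact (gev_eq_mul_of_div_mem vinf P hg hg0 _).symm

/-- `f / g ≡ gev f / gev g` modulo the maximal ideal at `P`. -/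
theorem div_sub_mem_nonunits {d : ℕ} {f g : F} (hf : f ∈ riemannRochSpace (d • prim vinf))
    (hg : g ∈ riemannRochSpace (d • prim vinf)) (hgev : gev vinf P d g ≠ 0) :
    f / g - algebraMap K F (gev vinf P d f / gev vinf P d g) ∈
      P.toValuationSubring.nonunits := by
  have h := sub_algebraMap_evPlace_mem P (FF1.deg_eq_one P)
    ⟨_, div_mem_of_gev_ne_zero vinf P hf hg hgev⟩
  rw [evPlace_div vinf P hf hg hgev] at h
  exact ValuationSubring.coe_mem_nonunits_iff.mpr h

end Quot

end Gev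

end Fermat.Agent.S17.H440

end
end
-- ===== PACK-END S17/H440/GradedEv.lean

-- ===== PACK-BEGIN S17/H230/PlaceEval.lean
section


/-!
# S17 / tower H (helper230): values of functions at places, projective points of tuples

For a function field `F / K` with `FF1 K F` (all places of degree one):

* `valAt v f : K` — the value of `f` at the place `v` (junk value `0` if `f` has a pole);
  additive and multiplicative on functions regular at `v`, `valAt v f = 0 ↔ f = 0 ∨ 0 < ord_v f`.
* `unif v` — a chosen uniformizer at `v`.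
* `ptAt v e x : ι → K` — for a tuple `x : ι → F` all of whose entries have order `≥ e` at `v`,
  the vector of values of `x i * unif v ^ (-e)`: a representative of the projective point
  `(x_i)(v)`.  `dot_ptAt`: `∑ a_i (ptAt v e x)_i` is the value of `(∑ a_i x_i) * unif v ^ (-e)`,
  hence vanishes iff `∑ a_i x_i` is zero or has order `> e`; `ptAt_mul`: the point of the product
  tuple `(x_i y_j)` is the tensor product of the points.
-/

set_option autoImplicit false
set_option linter.unusedSectionVars false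

noncomputable section

open AlgebraicCurve

namespace Fermat.Agent.S17.H230

open Fermat.Agent.Lib.RR

variable {K F : Type*} [Field K] [Field F] [Algebra K F] [FF1 K F]

/-! ### The value of a function at a place -/

theorem algebraMap_residue_bijective (v : Place K F) :
    Function.Bijective (algebraMap K v.ResidueField) := by
  refine ⟨(algebraMap K v.ResidueField).injective, fun r ↦ ?_⟩
  have h1 : (1 : v.ResidueField) ≠ 0 := one_ne_zero
  have hspan := (finrank_eq_one_iff_of_nonzero' (1 : v.ResidueField) h1).mp (deg_eq_one v)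
  obtain ⟨c, hc⟩ := hspan r
  exact ⟨c, by rw [← hc, Algebra.smul_def, mul_one]⟩

/-- The residue field of a place is `K`. -/
def resEquiv (v : Place K F) : K ≃ₐ[K] v.ResidueField :=
  AlgEquiv.ofBijective (Algebra.ofId K v.ResidueField) (algebraMap_residue_bijective v)

/-- The value at `v`, on the valuation ring. -/
def valO (v : Place K F) : v.toValuationSubring →ₐ[K] K :=
  ((resEquiv v).symm : v.ResidueField →ₐ[K] K).comp
    (IsScalarTower.toAlgHom K v.toValuationSubring v.ResidueField)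

theorem valO_apply (v : Place K F) (a : v.toValuationSubring) :
    valO v a = (resEquiv v).symm (IsLocalRing.residue v.toValuationSubring a) := rfl

theorem valO_eq_zero_iff (v : Place K F) (a : v.toValuationSubring) :
    valO v a = 0 ↔ (a : F) = 0 ∨ 0 < v.ord (a : F) := by
  rw [← mem_maximalIdeal_iff, ← IsLocalRing.residue_eq_zero_iff, valO_apply]
  exact map_eq_zero_iff _ (resEquiv v).symm.injective

open Classical in
/-- The value of `f` at the place `v` (junk value `0` if `f` has a pole at `v`). -/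
def valAt (v : Place K F) (f : F) : K :=
  if h : f ∈ v.toValuationSubring then valO v ⟨f, h⟩ else 0

theorem valAt_of_mem (v : Place K F) {f : F} (h : f ∈ v.toValuationSubring) :
    valAt v f = valO v ⟨f, h⟩ := dif_pos h

/-- `f` is regular at `v`. -/
def RegAt (v : Place K F) (f : F) : Prop := f ∈ v.toValuationSubring

theorem regAt_iff (v : Place K F) (f : F) : RegAt v f ↔ 0 ≤ v.ord f := mem_iff_ord_nonneg v f

theorem regAt_zero (v : Place K F) : RegAt v (0 : F) := zero_mem _

theorem regAt_one (v : Place K F) : RegAt v (1 : F) := one_mem _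

theorem regAt_algebraMap (v : Place K F) (c : K) : RegAt v (algebraMap K F c) :=
  v.algebraMap_mem' c

theorem RegAt.add {v : Place K F} {f g : F} (hf : RegAt v f) (hg : RegAt v g) :
    RegAt v (f + g) := add_mem hf hg

theorem RegAt.mul {v : Place K F} {f g : F} (hf : RegAt v f) (hg : RegAt v g) :
    RegAt v (f * g) := mul_mem hf hg

theorem RegAt.smul {v : Place K F} {f : F} (c : K) (hf : RegAt v f) : RegAt v (c • f) := by
  rw [Algebra.smul_def]
  exact (regAt_algebraMap v c).mul hf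

theorem RegAt.sum {v : Place K F} {ι : Type*} (s : Finset ι) {f : ι → F}
    (hf : ∀ i ∈ s, RegAt v (f i)) : RegAt v (∑ i ∈ s, f i) := sum_mem hf

theorem RegAt.prod {v : Place K F} {ι : Type*} (s : Finset ι) {f : ι → F}
    (hf : ∀ i ∈ s, RegAt v (f i)) : RegAt v (∏ i ∈ s, f i) := prod_mem hf

@[simp] theorem valAt_zero (v : Place K F) : valAt v (0 : F) = 0 := by
  rw [valAt_of_mem v (regAt_zero v)]
  exact map_zero (valO v)

@[simp] theorem valAt_one (v : Place K F) : valAt v (1 : F) = 1 := by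
  rw [valAt_of_mem v (regAt_one v)]
  exact map_one (valO v)

@[simp] theorem valAt_algebraMap (v : Place K F) (c : K) : valAt v (algebraMap K F c) = c := by
  rw [valAt_of_mem v (regAt_algebraMap v c)]
  exact (valO v).commutes c

theorem valAt_add {v : Place K F} {f g : F} (hf : RegAt v f) (hg : RegAt v g) :
    valAt v (f + g) = valAt v f + valAt v g := by
  rw [valAt_of_mem v hf, valAt_of_mem v hg, valAt_of_mem v (hf.add hg), ← map_add]
  rfl

theorem valAt_mul {v : Place K F} {f g : F} (hf : RegAt v f) (hg : RegAt v g) :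
    valAt v (f * g) = valAt v f * valAt v g := by
  rw [valAt_of_mem v hf, valAt_of_mem v hg, valAt_of_mem v (hf.mul hg), ← map_mul]
  rfl

theorem valAt_smul {v : Place K F} (c : K) {f : F} (hf : RegAt v f) :
    valAt v (c • f) = c * valAt v f := by
  rw [Algebra.smul_def, valAt_mul (regAt_algebraMap v c) hf, valAt_algebraMap]

theorem valAt_sum {v : Place K F} {ι : Type*} (s : Finset ι) {f : ι → F}
    (hf : ∀ i ∈ s, RegAt v (f i)) : valAt v (∑ i ∈ s, f i) = ∑ i ∈ s, valAt v (f i) := by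
  classical
  induction s using Finset.induction_on with
  | empty => simp
  | insert a s ha ih =>
    have h1 : ∀ i ∈ s, RegAt v (f i) := fun i hi ↦ hf i (Finset.mem_insert_of_mem hi)
    rw [Finset.sum_insert ha, Finset.sum_insert ha,
      valAt_add (hf a (Finset.mem_insert_self a s)) (RegAt.sum s h1), ih h1]

theorem valAt_prod {v : Place K F} {ι : Type*} (s : Finset ι) {f : ι → F}
    (hf : ∀ i ∈ s, RegAt v (f i)) : valAt v (∏ i ∈ s, f i) = ∏ i ∈ s, valAt v (f i) := by
  classical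
  induction s using Finset.induction_on with
  | empty => simp
  | insert a s ha ih =>
    have h1 : ∀ i ∈ s, RegAt v (f i) := fun i hi ↦ hf i (Finset.mem_insert_of_mem hi)
    rw [Finset.prod_insert ha, Finset.prod_insert ha,
      valAt_mul (hf a (Finset.mem_insert_self a s)) (RegAt.prod s h1), ih h1]

theorem valAt_eq_zero_iff {v : Place K F} {f : F} (hf : RegAt v f) :
    valAt v f = 0 ↔ f = 0 ∨ 0 < v.ord f := by
  rw [valAt_of_mem v hf, valO_eq_zero_iff]

theorem valAt_ne_zero {v : Place K F} {f : F} (hf0 : f ≠ 0) (h : v.ord f = 0) :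
    valAt v f ≠ 0 := by
  have hf : RegAt v f := (regAt_iff v f).mpr h.ge
  rw [Ne, valAt_eq_zero_iff hf]
  rintro (h1 | h1)
  · exact hf0 h1
  · omega

/-! ### Uniformizers -/

/-- A chosen uniformizer at `v`. -/
def unif (v : Place K F) : F := Classical.choose (exists_ord_eq_one v)

theorem ord_unif (v : Place K F) : v.ord (unif v) = 1 := Classical.choose_spec (exists_ord_eq_one v)

theorem unif_ne_zero (v : Place K F) : unif v ≠ 0 :=
  ne_zero_of_ord_ne_zero v (by rw [ord_unif]; exact one_ne_zero)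

theorem ord_unif_zpow (v : Place K F) (n : ℤ) : v.ord (unif v ^ n) = n := by
  rw [v.ord_zpow, ord_unif, mul_one]

theorem ord_mul_unif_zpow (v : Place K F) {f : F} (hf : f ≠ 0) (n : ℤ) :
    v.ord (f * unif v ^ n) = v.ord f + n := by
  rw [v.ord_mul hf (zpow_ne_zero _ (unif_ne_zero v)), ord_unif_zpow]

/-! ### Projective points of tuples of functions -/

variable {ι ι' : Type*}

/-- All entries of `x` have order `≥ e` at `v` (or vanish). -/
def OrdGE (v : Place K F) (e : ℤ) (x : ι → F) : Prop := ∀ i, x i = 0 ∨ e ≤ v.ord (x i)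

theorem regAt_mul_unif {v : Place K F} {e : ℤ} {f : F} (hf : f = 0 ∨ e ≤ v.ord f) :
    RegAt v (f * unif v ^ (-e)) := by
  rcases eq_or_ne f 0 with rfl | hf0
  · simpa using regAt_zero v
  · rw [regAt_iff, ord_mul_unif_zpow v hf0]
    have := hf.resolve_left hf0
    omega

theorem regAt_normAt {v : Place K F} {e : ℤ} {x : ι → F} (hx : OrdGE v e x) (i : ι) :
    RegAt v (x i * unif v ^ (-e)) := regAt_mul_unif (hx i)

/-- A representative of the projective point `(x_i)(v)`: the values of `x i * unif v ^ (-e)`. -/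
def ptAt (v : Place K F) (e : ℤ) (x : ι → F) : ι → K := fun i ↦ valAt v (x i * unif v ^ (-e))

theorem ptAt_apply (v : Place K F) (e : ℤ) (x : ι → F) (i : ι) :
    ptAt v e x i = valAt v (x i * unif v ^ (-e)) := rfl

/-- The entry of `ptAt` at an index where the minimal order `e` is attained is nonzero. -/
theorem ptAt_ne_zero_at {v : Place K F} {e : ℤ} {x : ι → F} {i : ι} (hi0 : x i ≠ 0)
    (hi : v.ord (x i) = e) : ptAt v e x i ≠ 0 := by
  rw [ptAt_apply]
  refine valAt_ne_zero (mul_ne_zero hi0 (zpow_ne_zero _ (unif_ne_zero v))) ?_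
  rw [ord_mul_unif_zpow v hi0, hi]
  omega

theorem ptAt_ne_zero {v : Place K F} {e : ℤ} {x : ι → F}
    (h : ∃ i, x i ≠ 0 ∧ v.ord (x i) = e) : ptAt v e x ≠ 0 := by
  obtain ⟨i, hi0, hi⟩ := h
  intro h0
  exact ptAt_ne_zero_at hi0 hi (congrFun h0 i)

theorem ptAt_eq_zero_of_lt {v : Place K F} {e : ℤ} {x : ι → F} {i : ι}
    (hi : x i = 0 ∨ e < v.ord (x i)) : ptAt v e x i = 0 := by
  rcases eq_or_ne (x i) 0 with h0 | h0
  · simp [ptAt_apply, h0]
  · have hreg : RegAt v (x i * unif v ^ (-e)) :=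
      regAt_mul_unif (Or.inr (hi.resolve_left h0).le)
    rw [ptAt_apply, valAt_eq_zero_iff hreg]
    right
    rw [ord_mul_unif_zpow v h0]
    have := hi.resolve_left h0
    omega

/-- The order condition for linear combinations. -/
theorem ordGE_sum [Fintype ι] {v : Place K F} {e : ℤ} {x : ι → F} (hx : OrdGE v e x)
    (a : ι → K) : (∑ i, a i • x i) = 0 ∨ e ≤ v.ord (∑ i, a i • x i) := by
  by_cases h0 : (∑ i, a i • x i) = 0
  · exact Or.inl h0
  right
  have hreg : RegAt v ((∑ i, a i • x i) * unif v ^ (-e)) := by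
    rw [Finset.sum_mul]
    refine RegAt.sum _ fun i _ ↦ ?_
    rw [smul_mul_assoc]
    exact RegAt.smul _ (regAt_normAt hx i)
  rw [regAt_iff, ord_mul_unif_zpow v h0] at hreg
  omega

/-- **Evaluation of linear forms**: `⟨a, ptAt v e x⟩` is the value at `v` of
`(∑ a_i x_i) * unif v ^ (-e)`. -/
theorem dot_ptAt [Fintype ι] {v : Place K F} {e : ℤ} {x : ι → F} (hx : OrdGE v e x)
    (a : ι → K) :
    ∑ i, a i * ptAt v e x i = valAt v ((∑ i, a i • x i) * unif v ^ (-e)) := by
  rw [Finset.sum_mul, valAt_sum]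
  · refine Finset.sum_congr rfl fun i _ ↦ ?_
    rw [smul_mul_assoc, valAt_smul _ (regAt_normAt hx i), ptAt_apply]
  · intro i _
    rw [smul_mul_assoc]
    exact RegAt.smul _ (regAt_normAt hx i)

/-- A linear form vanishes at the point `ptAt v e x` iff the corresponding function
`∑ a_i x_i` vanishes to order `> e` at `v`. -/
theorem dot_ptAt_eq_zero_iff [Fintype ι] {v : Place K F} {e : ℤ} {x : ι → F}
    (hx : OrdGE v e x) (a : ι → K) :
    ∑ i, a i * ptAt v e x i = 0 ↔ (∑ i, a i • x i) = 0 ∨ e < v.ord (∑ i, a i • x i) := by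
  rw [dot_ptAt hx]
  rcases eq_or_ne (∑ i, a i • x i) 0 with h0 | h0
  · simp [h0]
  rw [valAt_eq_zero_iff (regAt_mul_unif (ordGE_sum hx a)), ord_mul_unif_zpow v h0]
  simp only [mul_eq_zero, h0, false_or, zpow_ne_zero _ (unif_ne_zero v), or_false]
  constructor <;> intro h <;> omega

/-- **Multiplicativity**: the point of the product tuple is the tensor product of the points. -/
theorem ptAt_mul {v : Place K F} {e e' : ℤ} {x : ι → F} {y : ι' → F} (hx : OrdGE v e x)
    (hy : OrdGE v e' y) (i : ι) (j : ι') :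
    ptAt v (e + e') (fun p : ι × ι' ↦ x p.1 * y p.2) (i, j) = ptAt v e x i * ptAt v e' y j := by
  simp only [ptAt_apply]
  rw [← valAt_mul (regAt_normAt hx i) (regAt_normAt hy j)]
  congr 1
  rw [neg_add, zpow_add₀ (unif_ne_zero v)]
  ring

theorem ordGE_mul {v : Place K F} {e e' : ℤ} {x : ι → F} {y : ι' → F} (hx : OrdGE v e x)
    (hy : OrdGE v e' y) : OrdGE v (e + e') (fun p : ι × ι' ↦ x p.1 * y p.2) := by
  intro p
  rcases eq_or_ne (x p.1) 0 with h1 | h1
  · left; simp [h1]
  rcases eq_or_ne (y p.2) 0 with h2 | h2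
  · left; simp [h2]
  right
  rw [v.ord_mul h1 h2]
  have := (hx p.1).resolve_left h1
  have := (hy p.2).resolve_left h2
  omega

/-- Multiplicativity of the value of a product of two functions of orders `≥ e`, `≥ e'`. -/
theorem valAt_mul_unif {v : Place K F} {e e' : ℤ} {f g : F} (hf : f = 0 ∨ e ≤ v.ord f)
    (hg : g = 0 ∨ e' ≤ v.ord g) :
    valAt v (f * g * unif v ^ (-(e + e'))) =
      valAt v (f * unif v ^ (-e)) * valAt v (g * unif v ^ (-e')) := by
  rw [← valAt_mul (regAt_mul_unif hf) (regAt_mul_unif hg)]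
  congr 1
  rw [neg_add, zpow_add₀ (unif_ne_zero v)]
  ring

end Fermat.Agent.S17.H230

end
end
-- ===== PACK-END S17/H230/PlaceEval.lean

-- ===== PACK-BEGIN S17/H230/PlacePoint.lean
section


/-!
# S17 / tower H (helper230): the point of a place under the map given by `L(D)`

For a divisor `D` and a tuple `x : ι → F` of elements of `L(D)`:

* `ptD D x v : ι → K := ptAt v (-D v) x` — a representative of the projective point `φ_x(v)`;
* `dot_ptD_eq_zero_iff` : `⟨a, ptD D x v⟩ = 0 ↔ ∑ a_i x_i ∈ L(D - v)` (**hyperplanes through the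
  point = sections vanishing at the place**; this is `pt_spec` of the wall interface);
* `ptD_ne_zero` : nonzero as soon as `v` is not a base point of the span of `x`;
* `ptD_mul` : `ptD (D + D') (x_i y_j) v = ptD D x v ⊗ ptD D' y v`;
* `ptD_structure` : if `x_i y_j = ∑_l c i j l • z_l` with `z ⊂ L(D + D')` then
  `(ptD D x v)_i (ptD D' y v)_j = ∑_l c i j l * (ptD (D + D') z v)_l`
  (the Segre product of the points in degrees `D`, `D'` is a FIXED linear image of the point in
  degree `D + D'`; conversely if the products span).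
-/

set_option autoImplicit false
set_option linter.unusedSectionVars false

noncomputable section

open AlgebraicCurve

namespace Fermat.Agent.S17.H230

open Fermat.Agent.Lib.RR

variable {K F : Type*} [Field K] [Field F] [Algebra K F] [FF1 K F] {ι ι' κ : Type*}

theorem ordGE_of_mem_L {D : Divisor K F} {x : ι → F} (hx : ∀ i, x i ∈ riemannRochSpace D)
    (v : Place K F) : OrdGE v (-D v) x := fun i ↦ (mem_L_iff.mp (hx i)) v

/-- The point of the place `v` under the map defined by the tuple `x ⊂ L(D)`. -/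
def ptD (D : Divisor K F) (x : ι → F) (v : Place K F) : ι → K := ptAt v (-D v) x

theorem ptD_apply (D : Divisor K F) (x : ι → F) (v : Place K F) (i : ι) :
    ptD D x v i = valAt v (x i * unif v ^ (D v)) := by
  rw [ptD, ptAt_apply, neg_neg]

/-- The value of a linear form at the point `ptD D x v`. -/
theorem dot_ptD [Fintype ι] {D : Divisor K F} {x : ι → F}
    (hx : ∀ i, x i ∈ riemannRochSpace D) (v : Place K F) (a : ι → K) :
    ∑ i, a i * ptD D x v i = valAt v ((∑ i, a i • x i) * unif v ^ (D v)) := by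
  rw [ptD, dot_ptAt (ordGE_of_mem_L hx v), neg_neg]

theorem mem_L_sub_prim_iff {D : Divisor K F} {f : F} (hf : f ∈ riemannRochSpace D)
    (v : Place K F) :
    f ∈ riemannRochSpace (D - prim v) ↔ f = 0 ∨ -D v < v.ord f := by
  classical
  rw [mem_L_iff]
  constructor
  · intro h
    rcases h v with h0 | h1
    · exact Or.inl h0
    · right
      have : (D - prim v) v = D v - 1 := by simp [prim]
      rw [this] at h1
      omega
  · rintro (h0 | h1) w
    · exact Or.inl h0
    · rcases eq_or_ne f 0 with h0 | h0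
      · exact Or.inl h0
      right
      by_cases hw : w = v
      · subst hw
        have : (D - prim w) w = D w - 1 := by simp [prim]
        rw [this]
        omega
      · have h2 := ((mem_L_iff.mp hf) w).resolve_left h0
        have : (D - prim v) w = D w := by
          simp [prim, Ne.symm hw]
        rw [this]
        exact h2

/-- **Hyperplanes through the point of `v` are the sections vanishing at `v`.** -/
theorem dot_ptD_eq_zero_iff [Fintype ι] {D : Divisor K F} {x : ι → F}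
    (hx : ∀ i, x i ∈ riemannRochSpace D) (v : Place K F) (a : ι → K) :
    ∑ i, a i * ptD D x v i = 0 ↔ (∑ i, a i • x i) ∈ riemannRochSpace (D - prim v) := by
  have hf : (∑ i, a i • x i) ∈ riemannRochSpace D :=
    Submodule.sum_mem _ fun i _ ↦ Submodule.smul_mem _ _ (hx i)
  rw [ptD, dot_ptAt_eq_zero_iff (ordGE_of_mem_L hx v), mem_L_sub_prim_iff hf]

/-- The point is nonzero if some entry has exact order `-D v`. -/
theorem ptD_ne_zero {D : Divisor K F} {x : ι → F} {v : Place K F}
    (h : ∃ i, x i ≠ 0 ∧ v.ord (x i) = -D v) : ptD D x v ≠ 0 := ptAt_ne_zero h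

/-- If the span of `x` contains a function of exact order `-D v` (`v` is not a base point), then
the point is nonzero. -/
theorem ptD_ne_zero_of_span [Fintype ι] {D : Divisor K F} {x : ι → F}
    (hx : ∀ i, x i ∈ riemannRochSpace D) {v : Place K F} {f : F}
    (hf : f ∈ Submodule.span K (Set.range x)) (hf0 : f ≠ 0) (hord : v.ord f = -D v) :
    ptD D x v ≠ 0 := by
  obtain ⟨a, rfl⟩ := (Submodule.mem_span_range_iff_exists_fun K).mp hf
  intro h0
  have h1 : ∑ i, a i * ptD D x v i = 0 := by simp [h0]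
  rw [ptD, dot_ptAt_eq_zero_iff (ordGE_of_mem_L hx v)] at h1
  rcases h1 with h1 | h1
  · exact hf0 h1
  · omega

/-- **Multiplicativity** of the points. -/
theorem ptD_mul {D D' : Divisor K F} {x : ι → F} {y : ι' → F}
    (hx : ∀ i, x i ∈ riemannRochSpace D) (hy : ∀ j, y j ∈ riemannRochSpace D')
    (v : Place K F) (i : ι) (j : ι') :
    ptD (D + D') (fun p : ι × ι' ↦ x p.1 * y p.2) v (i, j) = ptD D x v i * ptD D' y v j := by
  have := ptAt_mul (ordGE_of_mem_L hx v) (ordGE_of_mem_L hy v) i j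
  rw [ptD, ptD, ptD]
  rw [← this]
  congr 1
  simp only [Finsupp.coe_add, Pi.add_apply]
  ring

/-- **Structure constants**: a relation `x_i y_j = ∑_l c_l z_l` between functions gives the same
relation between the coordinates of the points. -/
theorem ptD_structure [Fintype κ] {D D' : Divisor K F} {x : ι → F} {y : ι' → F} {z : κ → F}
    (hx : ∀ i, x i ∈ riemannRochSpace D) (hy : ∀ j, y j ∈ riemannRochSpace D')
    (hz : ∀ l, z l ∈ riemannRochSpace (D + D')) (v : Place K F) (i : ι) (j : ι') (c : κ → K)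
    (h : x i * y j = ∑ l, c l • z l) :
    ptD D x v i * ptD D' y v j = ∑ l, c l * ptD (D + D') z v l := by
  rw [dot_ptD hz, ← h, ← ptD_mul hx hy v i j, ptD_apply]

/-- Linear relations: if `w_k = ∑_l c k l • z_l` (all in `L(D)`) then the points satisfy the same
relations. -/
theorem ptD_linear [Fintype κ] {D : Divisor K F} {w : ι → F} {z : κ → F}
    (hz : ∀ l, z l ∈ riemannRochSpace D) (v : Place K F) (i : ι) (c : κ → K)
    (h : w i = ∑ l, c l • z l) :
    ptD D w v i = ∑ l, c l * ptD D z v l := by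
  rw [dot_ptD hz, ← h, ptD_apply]

end Fermat.Agent.S17.H230

end
end
-- ===== PACK-END S17/H230/PlacePoint.lean

-- ===== PACK-BEGIN S17/H380/AbsNullCert.lean
section



set_option linter.unusedSectionVars false

namespace Fermat.Agent.S17.H380

open NumberField Height Module MvPolynomial

section OnCone

variable {K₀ A : Type*} [Field K₀] [NumberField K₀] [Field A] [CharZero A] [Algebra K₀ A]
variable {ι ι' : Type*} [Finite ι] [Fintype ι']

/-- **Absolute height lower bound on a closed cone.**  If the homogeneous polynomials `p j` of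
degree `N` (over a number field `K₀`) have no common zero other than the origin on the cone of
the homogeneous ideal `I` (over an algebraically closed extension `L`), then there is a constant
`C` such that for ALL algebraic points `x` of the cone (with coordinates in any field `A` of
characteristic zero over `K₀`)  `C + N * absLogHeight x ≤ absLogHeight (p j (x))_j`. -/
theorem absLogHeight_eval_ge_on (L : Type*) [Field L] [Algebra K₀ L] [IsAlgClosed L]
    (I : Ideal (MvPolynomial ι K₀)) (hI : H500.HomIdeal I) {N : ℕ}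
    (p : ι' → MvPolynomial ι K₀) (hp : ∀ j, (p j).IsHomogeneous N)
    (h0 : ∀ x : ι → L, (∀ f ∈ I, aeval x f = 0) → (∀ j, aeval x (p j) = 0) → x = 0) :
    ∃ C : ℝ, ∀ x : ι → A, (∀ i, IsIntegral ℚ (x i)) → (∀ f ∈ I, aeval x f = 0) →
      C + N * absLogHeight x ≤ absLogHeight (fun j => aeval x (p j)) := by
  obtain ⟨M, q, hq, hqI⟩ := H500.exists_certificate L I hI p hp h0
  refine ⟨-(Real.log (Nat.card ι') +
    (finrank ℚ K₀ : ℝ)⁻¹ * Real.log (max (mulHeightBound q) 1)), fun x hx hxI => ?_⟩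
  refine absLogHeight_eval_ge hq p hx (fun k => ?_)
  have := hxI _ (hqI k)
  simpa [sub_eq_zero] using this

/-- Two-sided version: `|absLogHeight (p (x)) - N * absLogHeight x| ≤ C` on the cone of `I`,
uniformly over all algebraic points. -/
theorem abs_absLogHeight_eval_sub_le_on (L : Type*) [Field L] [Algebra K₀ L] [IsAlgClosed L]
    (I : Ideal (MvPolynomial ι K₀)) (hI : H500.HomIdeal I) {N : ℕ}
    (p : ι' → MvPolynomial ι K₀) (hp : ∀ j, (p j).IsHomogeneous N)
    (h0 : ∀ x : ι → L, (∀ f ∈ I, aeval x f = 0) → (∀ j, aeval x (p j) = 0) → x = 0) :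
    ∃ C : ℝ, ∀ x : ι → A, (∀ i, IsIntegral ℚ (x i)) → (∀ f ∈ I, aeval x f = 0) →
      |absLogHeight (fun j => aeval x (p j)) - N * absLogHeight x| ≤ C := by
  obtain ⟨C₂, hC₂⟩ := absLogHeight_eval_ge_on (A := A) L I hI p hp h0
  set C₁ := (finrank ℚ K₀ : ℝ)⁻¹ * Real.log (max (mulHeightBound p) 1) with hC₁
  refine ⟨max C₁ (-C₂), fun x hx hxI => abs_sub_le_iff.mpr ⟨?_, ?_⟩⟩
  · have := absLogHeight_eval_le hp x hx
    have h2 := le_max_left C₁ (-C₂)
    linarith
  · have := hC₂ x hx hxI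
    have h2 := le_max_right C₁ (-C₂)
    linarith

end OnCone

end Fermat.Agent.S17.H380

end
-- ===== PACK-END S17/H380/AbsNullCert.lean

-- ===== PACK-BEGIN S17/H740/SegreAbs.lean
section




/-!
# Multi-slot Nullstellensatz bound for the ABSOLUTE height (leaf SEGRE, ABS form)

Foundation: helper380's `absLogHeight` (absolute logarithmic Weil height of a tuple of algebraic
numbers in any field `A` of characteristic zero).

* `aeval_segrePt_eq_zero_of_mem_segreIdeal` : DESCENT.  The Segre ideal `segreIdeal L I` is the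
  vanishing ideal of the `L`-points (`L` algebraically closed) of the Segre image of the product
  of the cones of the `I a`; it also vanishes at the ALGEBRAIC `A`-points of that product, for
  every field `A` over `k` (no map between `A` and `L` needed).
* `absLogHeight_multi_eval_ge_on` : `p j` multihomogeneous of multidegree `(N, …, N)` over a number
  field `K₀`, without common zero on the product of the punctured cones of the `I a` ⟹
  `C + N * ∑ a, absLogHeight (u a) ≤ absLogHeight (p j (u))_j` for all algebraic points `u` of the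
  product of the cones with all `u a ≠ 0`.
* `absLogHeight_multi_eval_le`, `abs_absLogHeight_multi_eval_sub_le_on` : upper and two-sided
  bound.
-/

set_option autoImplicit false
set_option linter.unusedSectionVars false

noncomputable section

namespace Fermat.Agent.S17.H740

open MvPolynomial
open Fermat.Agent.S17.H500 (HomIdeal)
open Fermat.Agent.S17.H380 (absLogHeight)

section Transfer

variable {k : Type*} [Field k] {α : Type*} [Fintype α] {ι : α → Type*}
variable {A : Type*} [Field A] [Algebra k A]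

omit [Fintype α] in
theorem coe_aeval_intermediateField {σ : Type*} (E : IntermediateField k A) (x : σ → E)
    (f : MvPolynomial σ k) : ((aeval x f : E) : A) = aeval (fun s => (x s : A)) f :=
  comp_aeval_apply (f := x) (IntermediateField.val E) f

/-- **Descent.**  The Segre ideal (defined through `L`-points) vanishes at the Segre image of
every ALGEBRAIC `A`-point of the product of the cones. -/
theorem aeval_segrePt_eq_zero_of_mem_segreIdeal (L : Type*) [Field L] [Algebra k L]
    [IsAlgClosed L] {I : ∀ a, Ideal (MvPolynomial (ι a) k)} {u : (a : α) → ι a → A}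
    (halg : ∀ a i, IsIntegral k (u a i)) (hu : ∀ a, ∀ f ∈ I a, aeval (u a) f = 0)
    {P : MvPolynomial ((a : α) → ι a) k} (hP : P ∈ segreIdeal L I) :
    aeval (segrePt u) P = 0 := by
  classical
  let E : IntermediateField k A := IntermediateField.adjoin k (Set.range (sigmaPt u))
  have hEalg : Algebra.IsAlgebraic k E :=
    IntermediateField.isAlgebraic_adjoin (by
      rintro x ⟨s, rfl⟩
      exact halg s.1 s.2)
  let φ : E →ₐ[k] L := IsAlgClosed.lift
  let w : (a : α) → ι a → E := fun a i =>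
    ⟨u a i, IntermediateField.subset_adjoin k _ ⟨⟨a, i⟩, rfl⟩⟩
  have hw : InCones L I (fun a i => φ (w a i)) := by
    intro a f hf
    have h1 : aeval (fun i => φ (w a i)) f = φ (aeval (w a) f) :=
      (comp_aeval_apply (f := w a) φ f).symm
    have h2 : aeval (w a) f = 0 := by
      apply Subtype.ext
      rw [coe_aeval_intermediateField]
      exact hu a f hf
    rw [h1, h2, map_zero]
  have h3 := hP _ hw
  have h4 : segrePt (fun a i => φ (w a i)) = fun f => φ (segrePt w f) := by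
    funext f
    simp only [segrePt, map_prod]
  rw [h4, ← comp_aeval_apply (f := segrePt w) φ P] at h3
  have h5 : aeval (segrePt w) P = 0 := (map_eq_zero φ).mp h3
  have h6 : (fun f => ((segrePt w f : E) : A)) = segrePt u := by
    funext f
    simp only [segrePt]
    push_cast
    rfl
  rw [← h6, ← coe_aeval_intermediateField, h5]
  rfl

end Transfer

section Abs

universe u v

variable {K₀ A : Type*} [Field K₀] [NumberField K₀] [Field A] [CharZero A] [Algebra K₀ A]
variable {α : Type u} [Fintype α] {ι : α → Type v} {ι' : Type*}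

theorem isIntegral_base_of_rat {x : A} (hx : IsIntegral ℚ x) : IsIntegral K₀ x :=
  hx.tower_top

theorem isIntegral_segrePt {u : (a : α) → ι a → A} (hu : ∀ a i, IsIntegral ℚ (u a i))
    (f : (a : α) → ι a) : IsIntegral ℚ (segrePt u f) := by
  simp only [segrePt]
  exact IsIntegral.prod _ fun a _ => hu a (f a)

theorem segrePt_ne_zero' {u : (a : α) → ι a → A} (hu : ∀ a, u a ≠ 0) : segrePt u ≠ 0 := by
  have hex : ∀ a, ∃ i : ι a, u a i ≠ 0 := fun a => by
    by_contra h
    exact hu a (_root_.funext fun j => by_contra fun hj => h ⟨j, hj⟩)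
  choose f hf using hex
  intro h
  have := congrFun h f
  simp only [segrePt, Pi.zero_apply] at this
  exact (Finset.prod_ne_zero_iff.mpr fun a _ => hf a) this

/-- **Absolute height, lower bound for multihomogeneous maps without common zero on a product
of cones.** -/
theorem absLogHeight_multi_eval_ge_on [Nonempty α] [∀ a, Finite (ι a)] [Fintype ι']
    (L : Type*) [Field L] [Algebra K₀ L] [IsAlgClosed L]
    (I : ∀ a, Ideal (MvPolynomial (ι a) K₀)) (hI : ∀ a, HomIdeal (I a)) {N : ℕ}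
    (p : ι' → MvPolynomial (Σ a, ι a) K₀)
    (hp : ∀ j, ∃ P : MvPolynomial ((a : α) → ι a) K₀, P.IsHomogeneous N ∧ segreSubst K₀ P = p j)
    (h0 : ∀ u : (a : α) → ι a → L, InCones L I u → (∀ j, aeval (sigmaPt u) (p j) = 0) →
      ∃ a, u a = 0) :
    ∃ C : ℝ, ∀ u : (a : α) → ι a → A, (∀ a i, IsIntegral ℚ (u a i)) →
      (∀ a, ∀ f ∈ I a, aeval (u a) f = 0) → (∀ a, u a ≠ 0) →
      C + N * ∑ a, absLogHeight (u a) ≤ absLogHeight (fun j => aeval (sigmaPt u) (p j)) := by
  classical
  choose P hPhom hPp using hp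
  obtain ⟨C, hC⟩ := H380.absLogHeight_eval_ge_on (A := A) L (segreIdeal L I)
    (homIdeal_segreIdeal hI) P hPhom (by
      intro z hzJ hzP
      by_contra hz0
      obtain ⟨u, rfl⟩ := exists_segrePt_eq hzJ hz0
      have hu0 : ∀ a, u a ≠ 0 := fun a h => hz0 (segrePt_eq_zero_of h)
      have hu := inCones_of_segrePt hI hu0 hzJ
      obtain ⟨a, ha⟩ := h0 u hu (fun j => by
        rw [← hPp j, aeval_sigmaPt_segreSubst]; exact hzP j)
      exact hu0 a ha)
  refine ⟨C, fun u hint hu hu0 => ?_⟩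
  have h1 := hC (segrePt u) (isIntegral_segrePt hint) (fun f hf =>
    aeval_segrePt_eq_zero_of_mem_segreIdeal L (fun a i => isIntegral_base_of_rat (hint a i)) hu hf)
  have h2 : absLogHeight (segrePt u) = ∑ a, absLogHeight (u a) :=
    H380.absLogHeight_fun_prod_eq hint hu0
  rw [h2] at h1
  have h3 : (fun j => aeval (segrePt u) (P j)) = fun j => aeval (sigmaPt u) (p j) := by
    funext j
    rw [← hPp j, aeval_sigmaPt_segreSubst]
  rwa [h3] at h1

/-- **Absolute height, upper bound for multihomogeneous maps of multidegree `(N, …, N)`.** -/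
theorem absLogHeight_multi_eval_le [∀ a, Finite (ι a)] [Finite ι'] {N : ℕ}
    (p : ι' → MvPolynomial (Σ a, ι a) K₀)
    (hp : ∀ j, ∃ P : MvPolynomial ((a : α) → ι a) K₀, P.IsHomogeneous N ∧ segreSubst K₀ P = p j) :
    ∃ C : ℝ, ∀ u : (a : α) → ι a → A, (∀ a i, IsIntegral ℚ (u a i)) → (∀ a, u a ≠ 0) →
      absLogHeight (fun j => aeval (sigmaPt u) (p j)) ≤ C + N * ∑ a, absLogHeight (u a) := by
  classical
  choose P hPhom hPp using hp
  refine ⟨(Module.finrank ℚ K₀ : ℝ)⁻¹ * Real.log (max (Height.mulHeightBound P) 1),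
    fun u hint hu0 => ?_⟩
  have h1 := H380.absLogHeight_eval_le hPhom (segrePt u) (isIntegral_segrePt hint)
  have h2 : absLogHeight (segrePt u) = ∑ a, absLogHeight (u a) :=
    H380.absLogHeight_fun_prod_eq hint hu0
  rw [h2] at h1
  have h3 : (fun j => aeval (segrePt u) (P j)) = fun j => aeval (sigmaPt u) (p j) := by
    funext j
    rw [← hPp j, aeval_sigmaPt_segreSubst]
  rwa [h3] at h1

/-- Two-sided bound for the absolute height on a product of cones. -/
theorem abs_absLogHeight_multi_eval_sub_le_on [Nonempty α] [∀ a, Finite (ι a)] [Fintype ι']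
    (L : Type*) [Field L] [Algebra K₀ L] [IsAlgClosed L]
    (I : ∀ a, Ideal (MvPolynomial (ι a) K₀)) (hI : ∀ a, HomIdeal (I a)) {N : ℕ}
    (p : ι' → MvPolynomial (Σ a, ι a) K₀)
    (hp : ∀ j, ∃ P : MvPolynomial ((a : α) → ι a) K₀, P.IsHomogeneous N ∧ segreSubst K₀ P = p j)
    (h0 : ∀ u : (a : α) → ι a → L, InCones L I u → (∀ j, aeval (sigmaPt u) (p j) = 0) →
      ∃ a, u a = 0) :
    ∃ C : ℝ, ∀ u : (a : α) → ι a → A, (∀ a i, IsIntegral ℚ (u a i)) →
      (∀ a, ∀ f ∈ I a, aeval (u a) f = 0) → (∀ a, u a ≠ 0) →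
      |absLogHeight (fun j => aeval (sigmaPt u) (p j)) - N * ∑ a, absLogHeight (u a)| ≤ C := by
  obtain ⟨C₁, hC₁⟩ := absLogHeight_multi_eval_le (A := A) p hp
  obtain ⟨C₂, hC₂⟩ := absLogHeight_multi_eval_ge_on (A := A) L I hI p hp h0
  refine ⟨max C₁ (-C₂), fun u hint hu hu0 => abs_sub_le_iff.mpr ⟨?_, ?_⟩⟩
  · have := hC₁ u hint hu0
    have h2 := le_max_left C₁ (-C₂)
    linarith
  · have := hC₂ u hint hu hu0
    have h2 := le_max_right C₁ (-C₂)
    linarith

end Abs

end Fermat.Agent.S17.H740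

end
end
-- ===== PACK-END S17/H740/SegreAbs.lean

-- ===== PACK-BEGIN S15/H322/BaseChar.lean
section




/-!
# Row S15 — DESC leaf BASE, part 1 (helper322): characters of `G_ℚ` unramified outside `p`

Blueprint `coord/S15-DESC-blueprint.md` §2, the pieces with trivial Galois action (`ψ_i = 1`).

`G = Gal(ℚ̄/ℚ)`, `p` a prime, `A` a valuation subring of `ℚ̄` over `p`.

* `exists_inertia_map_eq` : a homomorphism `χ` from `G` to a commutative group, of finite level and
  unramified at every prime `q ≠ p`, satisfies `χ(G) = χ(I_A)` (Minkowski, `S13.H175`).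
* `exists_generator_map` : if moreover the target is killed by a prime `r ≠ p`, then `χ(G)` is
  generated by `χ τ₀` for one `τ₀ ∈ I_A` (tame inertia is cyclic, `S56.H186`).
* `IsCharUnrOutside p c` : `c : G → P` is additive, of finite level, unramified outside `p`.
* `IsCharUnrOutside.eq_zero_of_unram` : unramified at `p` as well ⟹ `c = 0`.
* `IsCharUnrOutside.dichotomy` : `|P| = r` prime, `r ≠ p`:  `c₁ = 0` or `c₂ = m • c₁`.
* `IsCharUnrOutside.finite_and_ncard_le` : a set of such characters with values in a group of prime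
  order `r ≠ p` is finite with at most `r` elements.

Imports: `S13/H175/Minkowski`, `S56/H186/TameCyclic`, `Lib/Cheb/H476/FrobConj` (all on main).
-/

set_option autoImplicit false

namespace Fermat.Agent.S15.H322

/-- `ℚ̄` (local abbreviation). -/
local notation "Qb" => AlgebraicClosure ℚ

/-- `Gal(ℚ̄/ℚ)` (local abbreviation). -/
local notation "GQ" => (AlgebraicClosure ℚ ≃ₐ[ℚ] AlgebraicClosure ℚ)

section Mul

variable {H : Type*} [CommGroup H] (χ : GQ →* H)

/-- **The Galois group of an abelian extension unramified outside `p` is generated by inertia at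
`p`.**  For `χ` of finite level, unramified at all `q ≠ p`, and `A` over `p`: `χ(G) = χ(I_A)`. -/
theorem exists_inertia_map_eq
    (hlevel : ∃ s : Finset Qb, ∀ σ : GQ, (∀ x ∈ s, σ x = x) → χ σ = 1)
    {p : ℕ}
    (hunr : ∀ q : ℕ, q.Prime → q ≠ p → ∃ B : ValuationSubring Qb,
      B.LiesOverPrime q ∧ ∀ σ ∈ B.inertiaSubgroupIn ℚ, χ σ = 1)
    (A : ValuationSubring Qb) (hA : A.LiesOverPrime p) (σ : GQ) :
    ∃ τ ∈ A.inertiaSubgroupIn ℚ, χ σ = χ τ := by
  set N : Subgroup H := (A.inertiaSubgroupIn ℚ).map χ with hN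
  have key := Fermat.Agent.S13.H175.minkowski_character ((QuotientGroup.mk' N).comp χ)
    (by
      obtain ⟨s, hs⟩ := hlevel
      refine ⟨s, fun τ hτ => ?_⟩
      rw [MonoidHom.comp_apply, hs τ hτ, map_one])
    (by
      intro q hq
      by_cases hqp : q = p
      · subst hqp
        refine ⟨A, hA, fun τ hτ => ?_⟩
        rw [MonoidHom.comp_apply, QuotientGroup.mk'_apply, QuotientGroup.eq_one_iff]
        exact ⟨τ, hτ, rfl⟩
      · obtain ⟨B, hB, hBχ⟩ := hunr q hq hqp
        refine ⟨B, hB, fun τ hτ => ?_⟩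
        rw [MonoidHom.comp_apply, hBχ τ hτ, map_one])
    σ
  rw [MonoidHom.comp_apply, QuotientGroup.mk'_apply, QuotientGroup.eq_one_iff] at key
  obtain ⟨τ, hτ, h⟩ := key
  exact ⟨τ, hτ, h.symm⟩

/-- **An abelian extension of exponent `r` unramified outside `p ≠ r` is cyclic.**  There is
`τ₀ ∈ I_A` with `χ(G) ⊆ ⟨χ τ₀⟩`. -/
theorem exists_generator_map
    (hlevel : ∃ s : Finset Qb, ∀ σ : GQ, (∀ x ∈ s, σ x = x) → χ σ = 1)
    {p r : ℕ} (hp : p.Prime) (hr : r.Prime) (hrp : r ≠ p)
    (hHr : ∀ σ : GQ, χ σ ^ r = 1)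
    (hunr : ∀ q : ℕ, q.Prime → q ≠ p → ∃ B : ValuationSubring Qb,
      B.LiesOverPrime q ∧ ∀ σ ∈ B.inertiaSubgroupIn ℚ, χ σ = 1)
    (A : ValuationSubring Qb) (hA : A.LiesOverPrime p) :
    ∃ τ₀ ∈ A.inertiaSubgroupIn ℚ, ∀ σ : GQ, ∃ j : ℕ, χ σ = χ τ₀ ^ j := by
  have hlevel' : ∃ E : IntermediateField ℚ Qb, FiniteDimensional ℚ E ∧
      ∀ σ : GQ, (∀ x ∈ E, σ x = x) → χ σ = 1 := by
    obtain ⟨s, hs⟩ := hlevel
    refine ⟨IntermediateField.adjoin ℚ (s : Set Qb),
      IntermediateField.finiteDimensional_adjoin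
        (fun x _ => (AlgebraicClosure.isAlgebraic ℚ).isIntegral.isIntegral x),
      fun σ hσ => hs σ (fun x hx => hσ x (IntermediateField.subset_adjoin ℚ _ hx))⟩
  have halg : Algebra.IsAlgebraic ℚ Qb := AlgebraicClosure.isAlgebraic ℚ
  obtain ⟨τ₀, hτ₀, hgen⟩ := Fermat.Agent.S56.H186.exists_generator_inertia_image A χ hA hp
    hlevel' ((Nat.coprime_primes hr hp).mpr hrp)
    (fun σ _ => ⟨1, by rw [pow_one]; exact hHr σ⟩)
  refine ⟨τ₀, hτ₀, fun σ => ?_⟩
  obtain ⟨τ, hτ, h⟩ := exists_inertia_map_eq χ hlevel hunr A hA σ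
  obtain ⟨j, hj⟩ := hgen τ hτ
  exact ⟨j, h.trans hj⟩

end Mul

section Add

variable {P : Type*} [AddCommGroup P]

/-- `c : G_ℚ → P` is an additive character of finite level, unramified at every prime `q ≠ p`
(at ONE place over each `q`; for characters this does not depend on the place). -/
structure IsCharUnrOutside (p : ℕ) (c : GQ → P) : Prop where
  map_mul : ∀ σ τ : GQ, c (σ * τ) = c σ + c τ
  level : ∃ s : Finset Qb, ∀ σ : GQ, (∀ x ∈ s, σ x = x) → c σ = 0
  unram : ∀ q : ℕ, q.Prime → q ≠ p → ∃ B : ValuationSubring Qb,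
    B.LiesOverPrime q ∧ ∀ σ ∈ B.inertiaSubgroupIn ℚ, c σ = 0

namespace IsCharUnrOutside

variable {p : ℕ} {c c₁ c₂ : GQ → P}

theorem map_one (h : IsCharUnrOutside p c) : c 1 = 0 := by
  have := h.map_mul 1 1
  rw [mul_one] at this
  exact left_eq_add.mp this

/-- The multiplicative homomorphism attached to an additive character. -/
def toHom (h : IsCharUnrOutside p c) : GQ →* Multiplicative P where
  toFun σ := Multiplicative.ofAdd (c σ)
  map_one' := by rw [h.map_one]; rfl
  map_mul' σ τ := by rw [h.map_mul]; rfl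

theorem toHom_apply (h : IsCharUnrOutside p c) (σ : GQ) :
    h.toHom σ = Multiplicative.ofAdd (c σ) := rfl

/-- **Minkowski.**  A character unramified outside `p` and at `p` is trivial. -/
theorem eq_zero_of_unram (h : IsCharUnrOutside p c)
    (hp : ∃ A : ValuationSubring Qb, A.LiesOverPrime p ∧ ∀ σ ∈ A.inertiaSubgroupIn ℚ, c σ = 0)
    (σ : GQ) : c σ = 0 := by
  have key := Fermat.Agent.S13.H175.minkowski_character h.toHom
    (by
      obtain ⟨s, hs⟩ := h.level
      exact ⟨s, fun τ hτ => by rw [toHom_apply, hs τ hτ]; rfl⟩)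
    (by
      intro q hq
      by_cases hqp : q = p
      · subst hqp
        obtain ⟨A, hA, hAc⟩ := hp
        exact ⟨A, hA, fun τ hτ => by rw [toHom_apply, hAc τ hτ]; rfl⟩
      · obtain ⟨B, hB, hBc⟩ := h.unram q hq hqp
        exact ⟨B, hB, fun τ hτ => by rw [toHom_apply, hBc τ hτ]; rfl⟩)
    σ
  rw [toHom_apply] at key
  exact Multiplicative.ofAdd.injective key

/-- The pair of two characters, as a homomorphism. -/
def pairHom (h₁ : IsCharUnrOutside p c₁) (h₂ : IsCharUnrOutside p c₂) :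
    GQ →* Multiplicative (P × P) where
  toFun σ := Multiplicative.ofAdd (c₁ σ, c₂ σ)
  map_one' := by rw [h₁.map_one, h₂.map_one]; rfl
  map_mul' σ τ := by rw [h₁.map_mul, h₂.map_mul]; rfl

theorem pairHom_apply (h₁ : IsCharUnrOutside p c₁) (h₂ : IsCharUnrOutside p c₂) (σ : GQ) :
    pairHom h₁ h₂ σ = Multiplicative.ofAdd (c₁ σ, c₂ σ) := rfl

/-- Two characters unramified outside `p`, killed by a prime `r ≠ p`, take their values on
multiples of the values at ONE inertia element `τ₀` at `p`. -/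
theorem exists_common_generator (h₁ : IsCharUnrOutside p c₁) (h₂ : IsCharUnrOutside p c₂)
    {r : ℕ} (hp : p.Prime) (hr : r.Prime) (hrp : r ≠ p) (hPr : ∀ x : P, r • x = 0)
    (A : ValuationSubring Qb) (hA : A.LiesOverPrime p) :
    ∃ τ₀ ∈ A.inertiaSubgroupIn ℚ, ∀ σ : GQ, ∃ j : ℕ, c₁ σ = j • c₁ τ₀ ∧ c₂ σ = j • c₂ τ₀ := by
  classical
  obtain ⟨τ₀, hτ₀, hgen⟩ := exists_generator_map (pairHom h₁ h₂)
    (by
      obtain ⟨s₁, hs₁⟩ := h₁.level
      obtain ⟨s₂, hs₂⟩ := h₂.level
      refine ⟨s₁ ∪ s₂, fun σ hσ => ?_⟩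
      rw [pairHom_apply, hs₁ σ (fun x hx => hσ x (Finset.mem_union_left _ hx)),
        hs₂ σ (fun x hx => hσ x (Finset.mem_union_right _ hx))]
      rfl)
    hp hr hrp
    (by
      intro σ
      rw [pairHom_apply, ← ofAdd_nsmul]
      have : r • (c₁ σ, c₂ σ) = (0 : P × P) := by
        rw [Prod.smul_mk, hPr, hPr]; rfl
      rw [this]; rfl)
    (by
      intro q hq hqp
      obtain ⟨B, hB, hB₁⟩ := h₁.unram q hq hqp
      obtain ⟨B', hB', hB₂⟩ := h₂.unram q hq hqp
      refine ⟨B, hB, fun σ hσ => ?_⟩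
      have h2 : c₂ σ = 0 := by
        have := Fermat.Agent.Lib.Cheb.H476.map_inertia_eq_one_of_liesOver h₂.toHom hq hB' hB
          (fun τ hτ => by rw [toHom_apply, hB₂ τ hτ]; rfl) σ hσ
        rw [toHom_apply] at this
        exact Multiplicative.ofAdd.injective this
      rw [pairHom_apply, hB₁ σ hσ, h2]
      rfl)
    A hA
  refine ⟨τ₀, hτ₀, fun σ => ?_⟩
  obtain ⟨j, hj⟩ := hgen σ
  refine ⟨j, ?_⟩
  rw [pairHom_apply, pairHom_apply, ← ofAdd_nsmul] at hj
  have := Multiplicative.ofAdd.injective hj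
  rw [Prod.smul_mk] at this
  exact ⟨(Prod.ext_iff.mp this).1, (Prod.ext_iff.mp this).2⟩

/-- **Dimension ≤ 1.**  Two characters with values in a group of prime order `r ≠ p`, unramified
outside `p`: the first is zero or the second is a multiple of the first. -/
theorem dichotomy (h₁ : IsCharUnrOutside p c₁) (h₂ : IsCharUnrOutside p c₂)
    {r : ℕ} (hp : p.Prime) (hr : r.Prime) (hrp : r ≠ p) (hcard : Nat.card P = r) :
    (∀ σ, c₁ σ = 0) ∨ ∃ m : ℕ, m < r ∧ ∀ σ, c₂ σ = m • c₁ σ := by
  have : Fact r.Prime := ⟨hr⟩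
  have : Finite P := Nat.finite_of_card_ne_zero (by rw [hcard]; exact hr.ne_zero)
  have hPr : ∀ x : P, r • x = 0 := fun x => by
    rw [← hcard]; exact card_nsmul_eq_zero'
  obtain ⟨A, hA⟩ := Fermat.Agent.S54.exists_valuationSubring_liesOver p hp
  obtain ⟨τ₀, -, hgen⟩ := exists_common_generator h₁ h₂ hp hr hrp hPr A hA
  by_cases h0 : c₁ τ₀ = 0
  · left
    intro σ
    obtain ⟨j, hj, -⟩ := hgen σ
    rw [hj, h0, smul_zero]
  · right
    have hmem : c₂ τ₀ ∈ AddSubgroup.zmultiples (c₁ τ₀) :=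
      mem_zmultiples_of_prime_card hcard h0
    obtain ⟨m, hm⟩ := AddSubgroup.mem_zmultiples_iff.mp hmem
    -- reduce `m` modulo `r`
    have hr0 : (r : ℤ) ≠ 0 := by exact_mod_cast hr.ne_zero
    have hm0 : 0 ≤ m % (r : ℤ) := Int.emod_nonneg m hr0
    have hmr : m % (r : ℤ) < r := Int.emod_lt_of_pos m (by exact_mod_cast hr.pos)
    refine ⟨(m % (r : ℤ)).toNat, by omega, fun σ => ?_⟩
    obtain ⟨j, hj1, hj2⟩ := hgen σ
    have hm' : ((m % (r : ℤ)).toNat : ℤ) • c₁ τ₀ = c₂ τ₀ := by
      rw [Int.toNat_of_nonneg hm0, Int.emod_def, sub_smul, hm, mul_smul, natCast_zsmul, hPr,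
        sub_zero]
    rw [hj1, hj2, ← hm', natCast_zsmul, smul_comm]

/-- **Count.**  A set of characters of `G_ℚ` with values in a group of prime order `r ≠ p`, all
unramified outside `p`, is finite and has at most `r` elements. -/
theorem finite_and_ncard_le {r : ℕ} (hp : p.Prime) (hr : r.Prime) (hrp : r ≠ p)
    (hcard : Nat.card P = r) (S : Set (GQ → P)) (hS : ∀ c ∈ S, IsCharUnrOutside p c) :
    S.Finite ∧ S.ncard ≤ r := by
  classical
  by_cases hall : ∀ c ∈ S, c = 0
  · have hsub : S ⊆ {0} := fun c hc => hall c hc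
    refine ⟨(Set.finite_singleton _).subset hsub, ?_⟩
    calc S.ncard ≤ ({0} : Set (GQ → P)).ncard := Set.ncard_le_ncard hsub (Set.finite_singleton _)
      _ = 1 := Set.ncard_singleton _
      _ ≤ r := hr.one_lt.le
  · push Not at hall
    obtain ⟨c₁, hc₁, hc₁0⟩ := hall
    have h₁ := hS c₁ hc₁
    have hsub : S ⊆ (fun m : ℕ => m • c₁) '' (Finset.range r : Set ℕ) := by
      intro c hc
      rcases dichotomy h₁ (hS c hc) hp hr hrp hcard with h0 | ⟨m, hm, hmc⟩
      · exact absurd (funext h0) hc₁0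
      · exact ⟨m, Finset.mem_coe.mpr (Finset.mem_range.mpr hm), (funext hmc).symm⟩
    have hfin : ((fun m : ℕ => m • c₁) '' (Finset.range r : Set ℕ)).Finite :=
      (Finset.finite_toSet _).image _
    refine ⟨hfin.subset hsub, ?_⟩
    calc S.ncard ≤ ((fun m : ℕ => m • c₁) '' (Finset.range r : Set ℕ)).ncard :=
          Set.ncard_le_ncard hsub hfin
      _ ≤ (Finset.range r : Set ℕ).ncard := Set.ncard_image_le (Finset.finite_toSet _)
      _ = r := by rw [Set.ncard_coe_finset, Finset.card_range]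

end IsCharUnrOutside

end Add

end Fermat.Agent.S15.H322

end
-- ===== PACK-END S15/H322/BaseChar.lean

-- ===== PACK-BEGIN G2/H304/FreyLocTop.lean
section



/-!
# Row GLUE, phase 2, block F, leaf F0 — `FreyLocStatement` VERBATIM  (helper304)

Wiring of `G2/H304/FreyLoc.lean` to the frozen Prop of `Glue/FSpec.lean` (sha256 e10a66c0):

    theorem freyLocStatement : Fermat.Agent.Glue.FreyLocStatement

* `2 ∣ Δ`: `2 ^ 8 * Δ = (a b c) ^ (2 p)`, `2 ∣ b`, `2 p ≥ 10 > 8`;
* `3 ∤ Δ → 3 ∣ b₂`: case F1 of `freyLoc`;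
* `3 ∣ Δ → 3 ∣ v₃(Δ) → 30 ≤ v₃(Δ)`: case F3 of `freyLoc`.
-/

set_option autoImplicit false

namespace Fermat.Agent.G2.H304

open WeierstrassCurve Fermat.Agent.Glue.FreyInt

/-- `2` divides the discriminant of the integral Frey model. -/
theorem two_dvd_freyΔ (P : FreyPackage) : (2 : ℤ) ∣ P.freyCurveInt.Δ := by
  have h := two_pow_mul_Δ P
  have hp := P.hp5
  obtain ⟨k, hk⟩ := two_dvd_b P
  obtain ⟨j, hj⟩ : ∃ j, 2 * P.p = j + 9 := ⟨2 * P.p - 9, by omega⟩
  have h2 : (2 : ℤ) ^ 8 * P.freyCurveInt.Δ = 2 ^ 8 * (2 * (2 ^ j * (P.a * k * P.c) ^ (j + 9))) := by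
    rw [h, hj, hk]
    ring
  have h3 := mul_left_cancel₀ (by norm_num : (2 : ℤ) ^ 8 ≠ 0) h2
  exact ⟨_, h3⟩

/-- **F0**, verbatim. -/
theorem freyLocStatement : Fermat.Agent.Glue.FreyLocStatement := by
  intro P
  refine ⟨two_dvd_freyΔ P, fun h3 => ?_, fun h3 hv => ?_⟩
  · rcases freyLoc P with h | h | h
    · exact h.1
    · exact absurd h.1 h3
    · exact absurd h.1 h3
  · rcases freyLoc P with h | h | h
    · exact absurd h3 h.2
    · exact absurd hv h.2.2
    · exact h.2.2.2

end Fermat.Agent.G2.H304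

end
-- ===== PACK-END G2/H304/FreyLocTop.lean

-- ===== PACK-BEGIN G2/H6/Frey5V.lean
section
/-
GLUE phase 2, block F, leaf F5 (helper6): `Fermat.Agent.Glue.Frey5Statement`, VERBATIM against
`Fermat/Agent/Glue/FSpec.lean` (origin/helper120@b9a9ec29a, sha256 e10a66c0b24a98f9).
-/



set_option autoImplicit false

namespace Fermat.Agent.G2.H6

/-- **F5**, verbatim. -/
theorem frey5Statement : Fermat.Agent.Glue.Frey5Statement := frey5

end Fermat.Agent.G2.H6

end
-- ===== PACK-END G2/H6/Frey5V.lean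

-- ===== PACK-BEGIN LT/H51/CC.lean
section



/-!
# Row LT, block GLUE2, leaf G2b-CC (owner helper51), OFF-MAIN

`conjC : Fermat.Agent.LT.H670.ConjC`: complex conjugation is an involution and the mod-3
cyclotomic character takes the value `-1` on it.

Also: the characterisation `modThree_eq_of_roots` of the values of the mod-3 cyclotomic
character, and its triviality on inertia at the primes `q ≠ 3` (used by the leaf G2b-KW).
-/

set_option autoImplicit false

namespace Fermat.Agent.LT.H51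

open WeierstrassCurve

local notation "Γℚ" => (AlgebraicClosure ℚ ≃ₐ[ℚ] AlgebraicClosure ℚ)

/-- The value of the mod-3 cyclotomic character is determined by the action on the cube roots
of unity. -/
theorem modThree_eq_of_roots (σ : Γℚ) (c : (ZMod 3)ˣ)
    (h : ∀ t : AlgebraicClosure ℚ, t ^ 3 = 1 → σ t = t ^ (c : ZMod 3).val) :
    modThreeCyclotomicChar σ = c := by
  rw [modThreeCyclotomicChar_apply]
  apply Units.ext
  symm
  refine modularCyclotomicCharacter.unique (AlgebraicClosure ℚ) _ _ (fun t ht => ?_)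
  have ht3 : (t : AlgebraicClosure ℚ) ^ 3 = 1 := by
    have := (mem_rootsOfUnity 3 t).1 ht
    rw [← Units.val_pow_eq_pow_val, this, Units.val_one]
  exact h t ht3

/-- The defining property of the mod-3 cyclotomic character. -/
theorem modThree_spec (σ : Γℚ) {t : AlgebraicClosure ℚ} (ht : t ^ 3 = 1) :
    σ t = t ^ ((modThreeCyclotomicChar σ : (ZMod 3)ˣ) : ZMod 3).val := by
  have ht0 : t ≠ 0 := by
    rintro rfl
    norm_num at ht
  have hu : (Units.mk0 t ht0) ∈ rootsOfUnity 3 (AlgebraicClosure ℚ) := by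
    rw [mem_rootsOfUnity]
    apply Units.ext
    rw [Units.val_pow_eq_pow_val, Units.val_mk0, ht, Units.val_one]
  have := modularCyclotomicCharacter.spec (AlgebraicClosure ℚ)
    (IsAlgClosed.card_rootsOfUnity_eq (AlgebraicClosure ℚ) 3)
    (σ : AlgebraicClosure ℚ ≃+* AlgebraicClosure ℚ) hu
  simpa using this

/-- The mod-3 cyclotomic character is trivial on the automorphisms fixing the cube roots of
unity. -/
theorem modThree_eq_one_of_roots (σ : Γℚ)
    (h : ∀ t : AlgebraicClosure ℚ, t ^ 3 = 1 → σ t = t) :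
    modThreeCyclotomicChar σ = 1 := by
  refine modThree_eq_of_roots σ 1 (fun t ht => ?_)
  rw [h t ht, Units.val_one, ZMod.val_one, pow_one]

/-- The mod-3 cyclotomic character is `-1` on the automorphisms inverting the cube roots of
unity. -/
theorem modThree_eq_neg_one_of_roots (σ : Γℚ)
    (h : ∀ t : AlgebraicClosure ℚ, t ^ 3 = 1 → σ t = t⁻¹) :
    modThreeCyclotomicChar σ = -1 := by
  refine modThree_eq_of_roots σ (-1) (fun t ht => ?_)
  rw [h t ht]
  have hval : ((-1 : (ZMod 3)ˣ) : ZMod 3).val = 2 := by decide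
  rw [hval]
  apply inv_eq_of_mul_eq_one_right
  rw [← pow_succ', ht]

/-- The mod-3 cyclotomic character is trivial on the inertia groups at the primes `q ≠ 3`. -/
theorem modThree_inertia {q : ℕ} (hq : q.Prime) (hq3 : q ≠ 3)
    (A : ValuationSubring (AlgebraicClosure ℚ)) (hA : A.LiesOverPrime q)
    (σ : Γℚ) (hσ : σ ∈ A.inertiaSubgroupIn ℚ) : modThreeCyclotomicChar σ = 1 := by
  haveI : Fact (Nat.Prime 3) := ⟨Nat.prime_three⟩
  refine modThree_eq_one_of_roots σ (fun t ht => ?_)
  exact Fermat.Agent.S30.H870.inertia_root_eq 3 hq hq3 A hA σ hσ (n := 1)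
    (by rw [pow_one]; exact ht)

/-- The value of the mod-3 cyclotomic character at complex conjugation. -/
theorem modThree_complexConjugation : modThreeCyclotomicChar complexConjugation = -1 :=
  modThree_eq_neg_one_of_roots _ (fun _ ht =>
    Fermat.Agent.S30.H870.complexConjugation_root (by norm_num : (3 : ℕ) ≠ 0) ht)

/-- **Leaf G2b-CC.** -/
theorem conjC : Fermat.Agent.LT.H670.ConjC :=
  ⟨complexConjugation_mul_self, modThree_complexConjugation⟩

end Fermat.Agent.LT.H51

end
-- ===== PACK-END LT/H51/CC.lean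

-- ===== PACK-BEGIN LT/H51/KW.lean
section




/-!
# Row LT, block GLUE2, leaf G2b-KW (owner helper51), OFF-MAIN

`kwC : Fermat.Agent.LT.H670.KWC`: a continuous character `χ : Gal(ℚ̄/ℚ) → 𝔽₃ˣ` which is trivial
on the inertia groups at all primes `q ≠ 3` is trivial or the mod-3 cyclotomic character.

Proof.  Both `χ` and the mod-3 cyclotomic character `χ̄₃` are characters of finite level with
values in a group of order `2`, unramified outside `3`.  By Minkowski (no extension of `ℚ` is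
unramified everywhere) and the cyclicity of the tame inertia at `3`, the space of such characters
has at most `2` elements (`S15.H322.IsCharUnrOutside.dichotomy`, on main): as `χ̄₃ ≠ 1`
(complex conjugation), `χ` is a power of `χ̄₃`.
-/

set_option autoImplicit false

namespace Fermat.Agent.LT.H51

open WeierstrassCurve

local notation "Γℚ" => (AlgebraicClosure ℚ ≃ₐ[ℚ] AlgebraicClosure ℚ)
local notation "Qb" => AlgebraicClosure ℚ

/-- A homomorphism of `Gal(ℚ̄/ℚ)` with open kernel has finite level: it is trivial on the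
automorphisms fixing a suitable finite set. -/
theorem exists_level_of_isOpen_ker {G : Type*} [Group G] (χ : Γℚ →* G)
    (hχ : IsOpen (χ.ker : Set Γℚ)) :
    ∃ s : Finset Qb, ∀ σ : Γℚ, (∀ x ∈ s, σ x = x) → χ σ = 1 := by
  obtain ⟨E, hE, hEU⟩ := Fermat.Agent.Lib.Cheb.H956.exists_fixingSubgroup_le χ.ker hχ
  have hfg : E.toSubalgebra.FG :=
    Subalgebra.fg_of_fg_toSubmodule ((Submodule.fg_iff_finiteDimensional _).2 hE)
  obtain ⟨t, ht⟩ := hfg
  refine ⟨t, fun σ hσ => ?_⟩
  have hmem : σ ∈ E.fixingSubgroup := by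
    rw [IntermediateField.mem_fixingSubgroup_iff]
    intro x hx
    have hle : Algebra.adjoin ℚ (t : Set Qb)
        ≤ AlgHom.equalizer (σ : Qb →ₐ[ℚ] Qb) (AlgHom.id ℚ Qb) :=
      Algebra.adjoin_le (fun y hy => by
        show (σ : Qb →ₐ[ℚ] Qb) y = AlgHom.id ℚ Qb y
        exact hσ y hy)
    have hx' : x ∈ Algebra.adjoin ℚ (t : Set Qb) := by
      rw [ht]; exact hx
    exact hle hx'
  exact MonoidHom.mem_ker.mp (hEU hmem)

/-- A continuous homomorphism of `Gal(ℚ̄/ℚ)` to a discrete group has finite level. -/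
theorem exists_level_of_continuous {G : Type*} [Group G] [TopologicalSpace G]
    [DiscreteTopology G] (χ : Γℚ →* G) (hχ : Continuous χ) :
    ∃ s : Finset Qb, ∀ σ : Γℚ, (∀ x ∈ s, σ x = x) → χ σ = 1 :=
  exists_level_of_isOpen_ker χ (Fermat.Agent.Lib.Cheb.H956.isOpen_ker_of_continuous χ hχ)

/-- The mod-3 cyclotomic character has finite level (the cube roots of unity). -/
theorem modThree_level :
    ∃ s : Finset Qb, ∀ σ : Γℚ, (∀ x ∈ s, σ x = x) → modThreeCyclotomicChar σ = 1 := by
  classical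
  refine ⟨Polynomial.nthRootsFinset 3 (1 : Qb), fun σ hσ => ?_⟩
  refine modThree_eq_one_of_roots σ (fun t ht => hσ t ?_)
  exact (Polynomial.mem_nthRootsFinset (by norm_num) (1 : Qb)).2 ht

/-- A character with values in `𝔽₃ˣ`, written additively. -/
noncomputable def addChar51 (χ : Γℚ →* (ZMod 3)ˣ) : Γℚ → Additive (ZMod 3)ˣ :=
  fun σ => Additive.ofMul (χ σ)

theorem addChar51_apply (χ : Γℚ →* (ZMod 3)ˣ) (σ : Γℚ) :
    addChar51 χ σ = Additive.ofMul (χ σ) := rfl

/-- The additive form of a character of finite level, trivial on ONE inertia group at every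
prime `q ≠ 3`, is a character unramified outside `3` in the sense of `S15.H322`. -/
theorem isCharUnrOutside_addChar51 (χ : Γℚ →* (ZMod 3)ˣ)
    (hlevel : ∃ s : Finset Qb, ∀ σ : Γℚ, (∀ x ∈ s, σ x = x) → χ σ = 1)
    (hunr : ∀ q : ℕ, q.Prime → q ≠ 3 →
      ∀ A : ValuationSubring Qb, A.LiesOverPrime q →
        ∀ σ ∈ A.inertiaSubgroupIn ℚ, χ σ = 1) :
    Fermat.Agent.S15.H322.IsCharUnrOutside 3 (addChar51 χ) where
  map_mul σ τ := by
    rw [addChar51_apply, addChar51_apply, addChar51_apply, map_mul]; rfl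
  level := by
    obtain ⟨s, hs⟩ := hlevel
    exact ⟨s, fun σ hσ => by rw [addChar51_apply, hs σ hσ]; rfl⟩
  unram q hq hq3 := by
    obtain ⟨A, hA⟩ := Fermat.Agent.S54.exists_valuationSubring_liesOver q hq
    exact ⟨A, hA, fun σ hσ => by rw [addChar51_apply, hunr q hq hq3 A hA σ hσ]; rfl⟩

theorem card_additive_units_zmod_three : Nat.card (Additive (ZMod 3)ˣ) = 2 := by
  rw [Nat.card_eq_fintype_card]
  decide

/-- **Kronecker--Weber for quadratic characters unramified outside `3`**, in the form with a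
finite level instead of continuity. -/
theorem eq_one_or_eq_modThree_of_level (χ : Γℚ →* (ZMod 3)ˣ)
    (hlevel : ∃ s : Finset Qb, ∀ σ : Γℚ, (∀ x ∈ s, σ x = x) → χ σ = 1)
    (hunr : ∀ q : ℕ, q.Prime → q ≠ 3 →
      ∀ A : ValuationSubring Qb, A.LiesOverPrime q →
        ∀ σ ∈ A.inertiaSubgroupIn ℚ, χ σ = 1) :
    χ = 1 ∨ χ = modThreeCyclotomicChar := by
  have h₁ : Fermat.Agent.S15.H322.IsCharUnrOutside 3 (addChar51 modThreeCyclotomicChar) :=
    isCharUnrOutside_addChar51 modThreeCyclotomicChar modThree_level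
      (fun q hq hq3 A hA σ hσ => modThree_inertia hq hq3 A hA σ hσ)
  have h₂ : Fermat.Agent.S15.H322.IsCharUnrOutside 3 (addChar51 χ) :=
    isCharUnrOutside_addChar51 χ hlevel hunr
  rcases h₁.dichotomy h₂ Nat.prime_three Nat.prime_two (by decide)
    card_additive_units_zmod_three with h0 | ⟨m, hm, hmc⟩
  · exfalso
    have h := h0 complexConjugation
    rw [addChar51_apply, modThree_complexConjugation] at h
    have h' : (-1 : (ZMod 3)ˣ) = 1 := Additive.ofMul.injective h
    exact absurd h' (by decide)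
  · interval_cases m
    · left
      ext σ
      have h := hmc σ
      rw [zero_smul, addChar51_apply] at h
      have h' : χ σ = 1 := Additive.ofMul.injective h
      rw [h']; rfl
    · right
      ext σ
      have h := hmc σ
      rw [one_smul, addChar51_apply, addChar51_apply] at h
      have h' : χ σ = modThreeCyclotomicChar σ := Additive.ofMul.injective h
      rw [h']

/-- **Leaf G2b-KW.** -/
theorem kwC : Fermat.Agent.LT.H670.KWC := fun χ hχ hunr =>
  eq_one_or_eq_modThree_of_level χ (exists_level_of_continuous χ hχ) hunr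

end Fermat.Agent.LT.H51

end
-- ===== PACK-END LT/H51/KW.lean

-- ===== PACK-BEGIN S48/H796/Family.lean
section



/-!
# S48 / P2-EIS (helper796): the family `F_v` of weight-one "Eisenstein" functions

`Fv N v τ = P((aτ+b)/N, τ) + 2πi a/N` for `v = (a, b) ∉ Nℤ²` satisfies
`F_v ∣[1] γ = F_{vγ}` for all `γ ∈ SL₂(ℤ)` and `F_{v + N q} = F_v`.
-/

set_option autoImplicit false

noncomputable section

namespace Fermat.Agent.S48.H796

open UpperHalfPlane hiding I
open Complex Filter Topology EisensteinSeries ModularGroup ModularForm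
open scoped Real MatrixGroups

/-- The family of weight-one functions. -/
def Fv (N : ℕ) (v : ℤ × ℤ) (τ : ℍ) : ℂ :=
  Pfun τ (lat τ v / N) + 2 * π * I * v.1 / N

/-- `v ∉ Nℤ²`. -/
def NotDiv (N : ℕ) (v : ℤ × ℤ) : Prop := ¬ ((N : ℤ) ∣ v.1 ∧ (N : ℤ) ∣ v.2)

/-- Right action of `SL₂(ℤ)` on row vectors. -/
def vmul (v : ℤ × ℤ) (γ : SL(2, ℤ)) : ℤ × ℤ :=
  (v.1 * γ 0 0 + v.2 * γ 1 0, v.1 * γ 0 1 + v.2 * γ 1 1)

lemma vmul_one (v : ℤ × ℤ) : vmul v 1 = v := by
  simp [vmul]

lemma vmul_mul (v : ℤ × ℤ) (g h : SL(2, ℤ)) : vmul v (g * h) = vmul (vmul v g) h := by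
  simp only [vmul, Matrix.SpecialLinearGroup.coe_mul, Matrix.mul_apply, Fin.sum_univ_two]
  ext <;> ring

lemma vmul_S (v : ℤ × ℤ) : vmul v S = (v.2, -v.1) := by
  simp [vmul, ModularGroup.S]

lemma vmul_T (v : ℤ × ℤ) : vmul v T = (v.1, v.1 + v.2) := by
  simp [vmul, ModularGroup.T]

lemma NotDiv.vmul {N : ℕ} {v : ℤ × ℤ} (hv : NotDiv N v) (γ : SL(2, ℤ)) :
    NotDiv N (vmul v γ) := by
  intro h
  apply hv
  have e : v = Fermat.Agent.S48.H796.vmul (Fermat.Agent.S48.H796.vmul v γ) γ⁻¹ := by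
    rw [← vmul_mul, mul_inv_cancel, vmul_one]
  rw [e]
  obtain ⟨h1, h2⟩ := h
  constructor
  · exact dvd_add (Dvd.dvd.mul_right h1 _) (Dvd.dvd.mul_right h2 _)
  · exact dvd_add (Dvd.dvd.mul_right h1 _) (Dvd.dvd.mul_right h2 _)

lemma lat_add (τ : ℍ) (p q : ℤ × ℤ) : lat τ (p + q) = lat τ p + lat τ q := by
  simp only [lat, Prod.fst_add, Prod.snd_add, Int.cast_add]
  ring

lemma lat_smul (τ : ℍ) (n : ℤ) (p : ℤ × ℤ) : lat τ (n * p.1, n * p.2) = n * lat τ p := by
  simp only [lat, Int.cast_mul]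
  ring

theorem offLattice_of_notDiv {N : ℕ} (hN : N ≠ 0) {v : ℤ × ℤ} (hv : NotDiv N v) (τ : ℍ) :
    OffLattice τ (lat τ v / N) := by
  intro p h
  apply hv
  have hN' : (N : ℂ) ≠ 0 := by exact_mod_cast hN
  have h1 : lat τ (v + ((N : ℤ) * p.1, (N : ℤ) * p.2)) = 0 := by
    rw [lat_add, lat_smul]
    have : lat τ v + (N : ℂ) * lat τ p = N * (lat τ v / N + lat τ p) := by
      field_simp
    push_cast
    rw [this, h, mul_zero]
  have h2 := (lat_eq_zero_iff τ _).mp h1
  have h3 := congrArg Prod.fst h2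
  have h4 := congrArg Prod.snd h2
  simp only [Prod.fst_add, Prod.snd_add, Prod.fst_zero, Prod.snd_zero] at h3 h4
  exact ⟨⟨-p.1, by linarith⟩, ⟨-p.2, by linarith⟩⟩

/-- **S-law** of the family. -/
theorem Fv_S {N : ℕ} (hN : N ≠ 0) {v : ℤ × ℤ} (hv : NotDiv N v) (τ : ℍ) :
    Fv N v (S • τ) = τ * Fv N (v.2, -v.1) τ := by
  have hN' : (N : ℂ) ≠ 0 := by exact_mod_cast hN
  have hτ : (τ : ℂ) ≠ 0 := ne_zero τ
  have hv' : NotDiv N (v.2, -v.1) := by
    intro h
    apply hv
    exact ⟨(dvd_neg.mp h.2), h.1⟩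
  have hoff := offLattice_of_notDiv hN hv' τ
  have e : lat (S • τ) v / N = (lat τ (v.2, -v.1) / N) / τ := by
    rw [lat_S]
    field_simp
  rw [Fv, e, Pfun_S hoff, Fv]
  simp only [lat, Int.cast_neg]
  field_simp
  ring

/-- **T-law** of the family. -/
theorem Fv_T (N : ℕ) (v : ℤ × ℤ) (τ : ℍ) :
    Fv N v (T • τ) = Fv N (v.1, v.1 + v.2) τ := by
  have e : lat (T • τ) v = lat τ (v.1, v.1 + v.2) := by
    simp only [lat, coe_T_smul, Int.cast_add]
    ring
  rw [Fv, e, Pfun_T, Fv]

/-- **Periodicity** in `v`. -/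
theorem Fv_add {N : ℕ} (hN : N ≠ 0) {v : ℤ × ℤ} (hv : NotDiv N v) (q : ℤ × ℤ) (τ : ℍ) :
    Fv N (v.1 + N * q.1, v.2 + N * q.2) τ = Fv N v τ := by
  have hN' : (N : ℂ) ≠ 0 := by exact_mod_cast hN
  have hoff := offLattice_of_notDiv hN hv τ
  have e : lat τ (v.1 + N * q.1, v.2 + N * q.2) / N = lat τ v / N + lat τ (q.1, q.2) := by
    simp only [lat, Int.cast_add, Int.cast_mul, Int.cast_natCast]
    field_simp
    ring
  rw [Fv, e, Pfun_add_lat hoff, Fv]
  push_cast
  field_simp
  ring

/-- The family is permuted by the weight-one slash action of `SL₂(ℤ)`. -/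
theorem Fv_slash {N : ℕ} (hN : N ≠ 0) (γ : SL(2, ℤ)) :
    ∀ v : ℤ × ℤ, NotDiv N v → (Fv N v) ∣[(1 : ℤ)] γ = Fv N (vmul v γ) := by
  have hγ : γ ∈ Subgroup.closure {S, T} := by simp [SpecialLinearGroup.SL2Z_generators]
  induction hγ using Subgroup.closure_induction with
  | one =>
    intro v _
    rw [SlashAction.slash_one, vmul_one]
  | mem g hg =>
    intro v hv
    simp only [Set.mem_insert_iff, Set.mem_singleton_iff] at hg
    rcases hg with rfl | rfl
    · ext τ
      have hτ : (τ : ℂ) ≠ 0 := ne_zero τ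
      rw [SlashInvariantForm.slash_S_apply, ← modular_S_smul, Fv_S hN hv, vmul_S]
      rw [show (-(1 : ℤ)) = -((1 : ℕ) : ℤ) by norm_num, zpow_neg, zpow_natCast, pow_one]
      field_simp
    · ext τ
      rw [SL_slash_apply, Fv_T, vmul_T, ModularGroup.denom_apply]
      simp [ModularGroup.T]
  | mul g h _ _ ig ih =>
    intro v hv
    rw [SlashAction.slash_mul, ig v hv, ih _ (hv.vmul g), vmul_mul]
  | inv g _ ig =>
    intro v hv
    have h1 := ig (vmul v g⁻¹) (hv.vmul g⁻¹)
    rw [← vmul_mul, inv_mul_cancel, vmul_one] at h1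
    rw [← h1, ← SlashAction.slash_mul, mul_inv_cancel, SlashAction.slash_one]

end Fermat.Agent.S48.H796

end
end
-- ===== PACK-END S48/H796/Family.lean

-- ===== PACK-BEGIN S48/H796/QExp.lean
section



/-!
# S48 / P2-EIS (helper796): `q`-expansion of `F_(0,b)`

`P(b/N, τ) = π cot(πb/N) + ∑_{n ≥ 1} (∑_{j ∣ n} s_j) qⁿ`, `s_j = 2πi (ζ^{-j} - ζ^{j})`,
`ζ = e^{2πi b/N}`, `q = e^{2πiτ}`.
-/

set_option autoImplicit false

noncomputable section

namespace Fermat.Agent.S48.H796

open UpperHalfPlane hiding I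
open Complex Filter Topology
open scoped Real

/-- `q = e^{2πiτ}`. -/
def qq (τ : ℍ) : ℂ := cexp (2 * π * I * τ)

lemma norm_qq_lt_one (τ : ℍ) : ‖qq τ‖ < 1 := UpperHalfPlane.norm_exp_two_pi_I_lt_one τ

/-- The root of unity `e^{2πi b/N}`. -/
def zetaB (N : ℕ) (b : ℤ) : ℂ := cexp (2 * π * I * b / N)

lemma norm_zetaB (N : ℕ) (b : ℤ) : ‖zetaB N b‖ = 1 := by
  rw [zetaB, Complex.norm_exp]
  have : (2 * (π : ℂ) * I * b / N).re = 0 := by
    have e : 2 * (π : ℂ) * I * b / N = ((2 * π * b / N : ℝ) : ℂ) * I := by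
      push_cast; ring
    rw [e, Complex.re_ofReal_mul, Complex.I_re, mul_zero]
  rw [this, Real.exp_zero]

lemma zetaB_ne_zero (N : ℕ) (b : ℤ) : zetaB N b ≠ 0 := Complex.exp_ne_zero _

/-- `s_j = 2πi (ζ^{-j} - ζ^{j})`. -/
def sCoef (N : ℕ) (b : ℤ) (j : ℕ) : ℂ := 2 * π * I * ((zetaB N b)⁻¹ ^ j - zetaB N b ^ j)

lemma norm_sCoef_le (N : ℕ) (b : ℤ) (j : ℕ) : ‖sCoef N b j‖ ≤ 4 * π := by
  rw [sCoef, norm_mul, norm_mul, norm_mul, Complex.norm_I, mul_one]
  have h2 : ‖(2 : ℂ)‖ = 2 := by simp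
  have h3 : ‖(π : ℂ)‖ = π := by simp [abs_of_pos Real.pi_pos]
  rw [h2, h3]
  have h4 : ‖(zetaB N b)⁻¹ ^ j - zetaB N b ^ j‖ ≤ 2 := by
    refine (norm_sub_le _ _).trans ?_
    rw [norm_pow, norm_pow, norm_inv, norm_zetaB]
    norm_num
  nlinarith [Real.pi_pos]

lemma hasSum_geom_succ {u : ℂ} (hu : ‖u‖ < 1) :
    HasSum (fun j : ℕ => u ^ (j + 1)) (u / (1 - u)) := by
  have h := (hasSum_geometric_of_norm_lt_one hu).mul_left u
  rw [← div_eq_mul_inv] at h
  have e : (fun j : ℕ => u ^ (j + 1)) = fun i => u * u ^ i := by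
    funext j; rw [pow_succ']
  rw [e]; exact h

/-- Summability of a bounded-coefficient Lambert double series on `ℕ+ × ℕ+`. -/
lemma summable_lambert_pnat (s : ℕ → ℂ) (C : ℝ) (hs : ∀ j, ‖s j‖ ≤ C) {r : ℂ} (hr : ‖r‖ < 1) :
    Summable (fun c : ℕ+ × ℕ+ => s c.2 * r ^ ((c.1 : ℕ) * (c.2 : ℕ))) := by
  have h0 : Summable (fun c : ℕ+ × ℕ+ => (((c.2 : ℕ) : ℝ)) ^ 0 * ‖r‖ ^ ((c.1 : ℕ) * (c.2 : ℕ))) :=
    summable_prod_mul_pow (𝕜 := ℝ) 0 (r := ‖r‖) (by rwa [norm_norm])
  refine Summable.of_norm_bounded (h0.mul_left C) ?_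
  intro c
  rw [norm_mul, norm_pow, pow_zero, one_mul]
  exact mul_le_mul_of_nonneg_right (hs _) (by positivity)

/-- Regrouping a Lambert double series by `n = d * c`. -/
theorem hasSum_lambert_regroup (s : ℕ → ℂ) (C : ℝ) (hs : ∀ j, ‖s j‖ ≤ C) {r : ℂ} (hr : ‖r‖ < 1)
    (P : ℕ → ℂ) (hP : ∀ k : ℕ, HasSum (fun j : ℕ => s (j + 1) * r ^ ((k + 1) * (j + 1))) (P k)) :
    ∃ A, HasSum P A ∧
      HasSum (fun n : ℕ => (∑ j ∈ (n + 1).divisors, s j) * r ^ (n + 1)) A := by
  have hsum := summable_lambert_pnat s C hs hr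
  refine ⟨∑' c : ℕ+ × ℕ+, s c.2 * r ^ ((c.1 : ℕ) * (c.2 : ℕ)), ?_, ?_⟩
  · -- fibrewise
    have hfib : ∀ d : ℕ+, HasSum (fun c : ℕ+ => s c * r ^ ((d : ℕ) * (c : ℕ)))
        (P (Equiv.pnatEquivNat d)) := by
      intro d
      have h := hP (Equiv.pnatEquivNat d)
      rw [← Equiv.pnatEquivNat.hasSum_iff] at h
      convert h using 2 with c
      simp only [Function.comp_apply, Equiv.pnatEquivNat_apply, PNat.natPred_add_one]
    have h1 := hsum.hasSum.prod_fiberwise hfib
    rw [← Equiv.pnatEquivNat.hasSum_iff]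
    exact h1
  · have h2 := (sigmaAntidiagonalEquivProd.hasSum_iff).mpr hsum.hasSum
    have h3 := h2.sigma (g := fun n : ℕ+ => (∑ j ∈ (n : ℕ).divisors, s j) * r ^ (n : ℕ)) (by
      intro n
      have h4 := hasSum_fintype (fun x : (n : ℕ).divisorsAntidiagonal =>
        ((fun c : ℕ+ × ℕ+ => s c.2 * r ^ ((c.1 : ℕ) * (c.2 : ℕ))) ∘ sigmaAntidiagonalEquivProd)
          ⟨n, x⟩)
      convert h4 using 1
      rw [Finset.sum_mul]
      have e1 : ∀ x : (n : ℕ).divisorsAntidiagonal,
          ((fun c : ℕ+ × ℕ+ => s c.2 * r ^ ((c.1 : ℕ) * (c.2 : ℕ))) ∘ sigmaAntidiagonalEquivProd)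
            ⟨n, x⟩ = s x.1.2 * r ^ (n : ℕ) := by
        intro x
        have hx := (Nat.mem_divisorsAntidiagonal.mp x.2).1
        simp only [Function.comp_apply, sigmaAntidiagonalEquivProd, divisorsAntidiagonalFactors,
          Equiv.coe_fn_mk, PNat.mk_coe, hx]
      rw [Finset.sum_congr rfl (fun x _ => e1 x),
        Finset.sum_coe_sort (n : ℕ).divisorsAntidiagonal (fun x : ℕ × ℕ => s x.2 * r ^ (n : ℕ)),
        Nat.sum_divisorsAntidiagonal' (fun _ j => s j * r ^ (n : ℕ))])
    rw [← Equiv.pnatEquivNat.hasSum_iff]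
    convert h3 using 2 with n
    simp only [Function.comp_apply, Equiv.pnatEquivNat_apply, PNat.natPred_add_one]

lemma cexp_pair_add (N : ℕ) (b : ℤ) (τ : ℍ) (k : ℕ) :
    cexp (2 * π * I * ((b : ℂ) / N + ((k : ℂ) + 1) * τ)) = zetaB N b * qq τ ^ (k + 1) := by
  rw [zetaB, qq, ← Complex.exp_nat_mul, ← Complex.exp_add]
  congr 1
  push_cast
  ring

lemma cexp_pair_sub (N : ℕ) (b : ℤ) (τ : ℍ) (k : ℕ) :
    cexp (2 * π * I * (-((b : ℂ) / N - ((k : ℂ) + 1) * τ))) =
      (zetaB N b)⁻¹ * qq τ ^ (k + 1) := by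
  rw [zetaB, qq, ← Complex.exp_neg, ← Complex.exp_nat_mul, ← Complex.exp_add]
  congr 1
  push_cast
  ring

lemma norm_qq_pow_lt_one (τ : ℍ) (k : ℕ) : ‖qq τ ^ (k + 1)‖ < 1 := by
  rw [norm_pow]
  exact pow_lt_one₀ (norm_nonneg _) (norm_qq_lt_one τ) (by omega)

/-- Expansion of the `k`-th pair at a rational point `b/N`. -/
theorem hasSum_pairP (N : ℕ) (b : ℤ) (τ : ℍ) (k : ℕ) :
    HasSum (fun j : ℕ => sCoef N b (j + 1) * qq τ ^ ((k + 1) * (j + 1)))
      (pairP τ ((b : ℂ) / N) k) := by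
  have hq := norm_qq_pow_lt_one τ k
  have hu₁ : ‖zetaB N b * qq τ ^ (k + 1)‖ < 1 := by
    rw [norm_mul, norm_zetaB, one_mul]; exact hq
  have hu₂ : ‖(zetaB N b)⁻¹ * qq τ ^ (k + 1)‖ < 1 := by
    rw [norm_mul, norm_inv, norm_zetaB, inv_one, one_mul]; exact hq
  have h1 := hasSum_geom_succ hu₁
  have h2 := hasSum_geom_succ hu₂
  have h3 := (h2.sub h1).mul_left (2 * π * I)
  have hne1 : cexp (2 * π * I * ((b : ℂ) / N + ((k : ℂ) + 1) * τ)) ≠ 1 := by
    rw [cexp_pair_add]
    intro h
    rw [h, norm_one] at hu₁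
    exact lt_irrefl _ hu₁
  have hne2 : cexp (2 * π * I * (-((b : ℂ) / N - ((k : ℂ) + 1) * τ))) ≠ 1 := by
    rw [cexp_pair_sub]
    intro h
    rw [h, norm_one] at hu₂
    exact lt_irrefl _ hu₂
  have hv : pairP τ ((b : ℂ) / N) k =
      2 * π * I * ((zetaB N b)⁻¹ * qq τ ^ (k + 1) / (1 - (zetaB N b)⁻¹ * qq τ ^ (k + 1)) -
        zetaB N b * qq τ ^ (k + 1) / (1 - zetaB N b * qq τ ^ (k + 1))) := by
    have e2 : cotPi ((b : ℂ) / N - ((k : ℂ) + 1) * τ) =
        -cotPi (-((b : ℂ) / N - ((k : ℂ) + 1) * τ)) := by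
      rw [cotPi_neg, neg_neg]
    rw [pairP, cotPi_eq_of_ne hne1, e2, cotPi_eq_of_ne hne2, cexp_pair_add, cexp_pair_sub]
    ring
  rw [hv]
  have e3 : (fun j : ℕ => sCoef N b (j + 1) * qq τ ^ ((k + 1) * (j + 1))) =
      fun j : ℕ => 2 * π * I * (((zetaB N b)⁻¹ * qq τ ^ (k + 1)) ^ (j + 1) -
        (zetaB N b * qq τ ^ (k + 1)) ^ (j + 1)) := by
    funext j
    simp only [sCoef]
    rw [mul_pow, mul_pow, ← pow_mul]
    ring
  rw [e3]
  exact h3

/-- The `q`-expansion coefficients of `F_(0,b)`. -/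
def qCo (N : ℕ) (b : ℤ) (n : ℕ) : ℂ :=
  if n = 0 then cotPi ((b : ℂ) / N) else ∑ j ∈ n.divisors, sCoef N b j

@[simp] lemma qCo_zero (N : ℕ) (b : ℤ) : qCo N b 0 = cotPi ((b : ℂ) / N) := by simp [qCo]

lemma qCo_succ (N : ℕ) (b : ℤ) (n : ℕ) :
    qCo N b (n + 1) = ∑ j ∈ (n + 1).divisors, sCoef N b j := by simp [qCo]

lemma qCo_of_pos (N : ℕ) (b : ℤ) {n : ℕ} (hn : 1 ≤ n) :
    qCo N b n = ∑ j ∈ n.divisors, sCoef N b j := by
  rw [qCo, if_neg (by omega)]

lemma norm_qCo_succ_le (N : ℕ) (b : ℤ) (n : ℕ) : ‖qCo N b (n + 1)‖ ≤ 4 * π * (n + 1) := by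
  rw [qCo_succ]
  refine (norm_sum_le _ _).trans ?_
  refine (Finset.sum_le_sum (fun j _ => norm_sCoef_le N b j)).trans ?_
  rw [Finset.sum_const, nsmul_eq_mul, mul_comm]
  have h := Nat.card_divisors_le_self (n + 1)
  have hπ := Real.pi_pos
  have h' : (((n + 1).divisors.card : ℕ) : ℝ) ≤ (n : ℝ) + 1 := by exact_mod_cast h
  nlinarith

/-- **`q`-expansion of `P(b/N, τ)`**. -/
theorem hasSum_Pfun_rat (N : ℕ) (b : ℤ) (τ : ℍ) :
    HasSum (fun n : ℕ => qCo N b n * qq τ ^ n) (Pfun τ ((b : ℂ) / N)) := by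
  obtain ⟨A, hA1, hA2⟩ := hasSum_lambert_regroup (sCoef N b) (4 * π) (norm_sCoef_le N b)
    (norm_qq_lt_one τ) (pairP τ ((b : ℂ) / N)) (hasSum_pairP N b τ)
  have e : Pfun τ ((b : ℂ) / N) = cotPi ((b : ℂ) / N) + A := by rw [Pfun, hA1.tsum_eq]
  rw [e]
  have h := HasSum.zero_add (f := fun n => qCo N b n * qq τ ^ n) (m := A) (by
    convert hA2 using 2 with n
    rw [qCo_succ])
  simpa using h

lemma Fv_zero_left (N : ℕ) (b : ℤ) (τ : ℍ) : Fv N (0, b) τ = Pfun τ ((b : ℂ) / N) := by
  simp [Fv, lat]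

/-- **`q`-expansion of `F_(0,b)`**. -/
theorem hasSum_Fv_zero (N : ℕ) (b : ℤ) (τ : ℍ) :
    HasSum (fun n : ℕ => qCo N b n * qq τ ^ n) (Fv N (0, b) τ) := by
  rw [Fv_zero_left]
  exact hasSum_Pfun_rat N b τ

end Fermat.Agent.S48.H796

end
end
-- ===== PACK-END S48/H796/QExp.lean

-- ===== PACK-BEGIN S48/H796/Bound.lean
section



/-!
# S48 / P2-EIS (helper796): every `F_v` is bounded at `i∞`

Together with `Fv_slash` this gives boundedness at all cusps.
-/

set_option autoImplicit false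

noncomputable section

namespace Fermat.Agent.S48.H796

open UpperHalfPlane hiding I
open Complex Filter Topology
open scoped Real

/-- The constant `2π / (1 - e^{-2π/N})`. -/
def cBound (N : ℕ) : ℝ := 2 * π / (1 - Real.exp (-2 * π * (1 / (N : ℝ))))

lemma cBound_nonneg {N : ℕ} (hN : N ≠ 0) : 0 ≤ cBound N := by
  have hπ := Real.pi_pos
  have hNpos : (0 : ℝ) < N := by exact_mod_cast Nat.pos_of_ne_zero hN
  have h2 : Real.exp (-2 * π * (1 / (N : ℝ))) < 1 := by
    rw [Real.exp_lt_one_iff]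
    have : 0 < 1 / (N : ℝ) := by positivity
    nlinarith
  rw [cBound]
  apply div_nonneg (by positivity)
  linarith

lemma lat_div_im (N : ℕ) (τ : ℍ) (v : ℤ × ℤ) :
    (lat τ v / (N : ℂ)).im = v.1 * τ.im / N := by
  have e : lat τ v / (N : ℂ) = lat τ v * (((N : ℝ)⁻¹ : ℝ) : ℂ) := by
    rw [div_eq_mul_inv]; push_cast; rfl
  rw [e, Complex.im_mul_ofReal, lat_im]
  rw [div_eq_mul_inv]

lemma exp_neg_le_pow {x : ℝ} {k : ℕ} (h : (k : ℝ) ≤ x) :
    Real.exp (-2 * π * x) ≤ Real.exp (-2 * π) ^ k := by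
  rw [← Real.exp_nat_mul]
  apply Real.exp_le_exp.mpr
  have hπ := Real.pi_pos
  nlinarith

/-- The pair bound in the fundamental range `0 ≤ a < N`, `Im τ ≥ 1`. -/
lemma norm_pairP_le_of_range {N : ℕ} (hN : N ≠ 0) {a b : ℤ} (ha0 : 0 ≤ a) (haN : a < N)
    {τ : ℍ} (hτ : 1 ≤ τ.im) (k : ℕ) :
    ‖pairP τ (lat τ (a, b) / N) k‖ ≤ cBound N * 2 * Real.exp (-2 * π) ^ k := by
  have hπ := Real.pi_pos
  have hNpos : (0 : ℝ) < N := by exact_mod_cast Nat.pos_of_ne_zero hN
  have hδ : (0 : ℝ) < 1 / N := by positivity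
  have hk : (0 : ℝ) ≤ k := Nat.cast_nonneg k
  have ha0' : (0 : ℝ) ≤ a := by exact_mod_cast ha0
  have haN' : (a : ℝ) + 1 ≤ N := by exact_mod_cast haN
  set y := τ.im with hy
  set s := (lat τ (a, b) / (N : ℂ)).im with hs
  have hs_eq : s = a * y / N := lat_div_im N τ (a, b)
  have hs0 : 0 ≤ s := by rw [hs_eq]; positivity
  have hs1 : s + y / N ≤ y := by
    rw [hs_eq, ← add_div, div_le_iff₀ hNpos]
    nlinarith
  have hyN : 1 / (N : ℝ) ≤ y / N := by
    apply div_le_div_of_nonneg_right hτ hNpos.le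
  have h1 : 1 / (N : ℝ) ≤ s + ((k : ℝ) + 1) * y := by
    have : 1 / (N : ℝ) ≤ 1 := by
      rw [div_le_one hNpos]
      exact_mod_cast Nat.one_le_iff_ne_zero.mpr hN
    nlinarith
  have h2 : 1 / (N : ℝ) ≤ ((k : ℝ) + 1) * y - s := by
    nlinarith
  refine (norm_pairP_le hδ h1 h2).trans ?_
  have e1 : Real.exp (-2 * π * (s + ((k : ℝ) + 1) * y)) ≤ Real.exp (-2 * π) ^ k :=
    exp_neg_le_pow (by nlinarith)
  have e2 : Real.exp (-2 * π * (((k : ℝ) + 1) * y - s)) ≤ Real.exp (-2 * π) ^ k :=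
    exp_neg_le_pow (by nlinarith)
  have hC := cBound_nonneg hN
  rw [cBound] at hC ⊢
  calc 2 * π / (1 - Real.exp (-2 * π * (1 / (N : ℝ)))) *
        (Real.exp (-2 * π * (s + ((k : ℝ) + 1) * y)) +
          Real.exp (-2 * π * (((k : ℝ) + 1) * y - s)))
      ≤ 2 * π / (1 - Real.exp (-2 * π * (1 / (N : ℝ)))) *
        (Real.exp (-2 * π) ^ k + Real.exp (-2 * π) ^ k) :=
        mul_le_mul_of_nonneg_left (add_le_add e1 e2) hC
    _ = _ := by ring

lemma exp_neg_two_pi_lt_one : Real.exp (-2 * π) < 1 := by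
  rw [Real.exp_lt_one_iff]
  have := Real.pi_pos
  linarith

/-- Bound for the tail `∑ pairP` in the fundamental range. -/
lemma norm_tsum_pairP_le {N : ℕ} (hN : N ≠ 0) {a b : ℤ} (ha0 : 0 ≤ a) (haN : a < N)
    {τ : ℍ} (hτ : 1 ≤ τ.im) :
    ‖∑' k : ℕ, pairP τ (lat τ (a, b) / N) k‖ ≤ cBound N * 2 * (1 - Real.exp (-2 * π))⁻¹ := by
  have hgeo := (hasSum_geometric_of_lt_one (Real.exp_pos _).le exp_neg_two_pi_lt_one).mul_left
    (cBound N * 2)
  exact tsum_of_norm_bounded hgeo (fun k => norm_pairP_le_of_range hN ha0 haN hτ k)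

/-- Bound for the leading cotangent when `a ≥ 1`. -/
lemma norm_cotPi_lat_le {N : ℕ} (hN : N ≠ 0) {a b : ℤ} (ha1 : 1 ≤ a)
    {τ : ℍ} (hτ : 1 ≤ τ.im) :
    ‖cotPi (lat τ (a, b) / N)‖ ≤ cBound N + π := by
  have hπ := Real.pi_pos
  have hNpos : (0 : ℝ) < N := by exact_mod_cast Nat.pos_of_ne_zero hN
  have hδ : (0 : ℝ) < 1 / N := by positivity
  have ha1' : (1 : ℝ) ≤ a := by exact_mod_cast ha1
  have him : 1 / (N : ℝ) ≤ (lat τ (a, b) / (N : ℂ)).im := by
    rw [lat_div_im]
    apply div_le_div_of_nonneg_right _ hNpos.le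
    show (1 : ℝ) ≤ a * τ.im
    nlinarith
  have h := norm_cotPi_add_le' hδ him
  have hle : Real.exp (-2 * π * (lat τ (a, b) / (N : ℂ)).im) ≤ 1 := by
    rw [Real.exp_le_one_iff]
    have : 0 ≤ (lat τ (a, b) / (N : ℂ)).im := hδ.le.trans him
    nlinarith
  have hC := cBound_nonneg hN
  have h' : ‖cotPi (lat τ (a, b) / N) + π * I‖ ≤ cBound N := by
    refine h.trans ?_
    rw [cBound] at hC ⊢
    calc _ ≤ 2 * π / (1 - Real.exp (-2 * π * (1 / (N : ℝ)))) * 1 :=
          mul_le_mul_of_nonneg_left hle hC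
      _ = _ := mul_one _
  have e : cotPi (lat τ (a, b) / N) = (cotPi (lat τ (a, b) / N) + π * I) - π * I := by ring
  rw [e]
  refine (norm_sub_le _ _).trans ?_
  have : ‖(π : ℂ) * I‖ = π := by
    rw [norm_mul, Complex.norm_I, mul_one, Complex.norm_real, Real.norm_of_nonneg hπ.le]
  rw [this]
  linarith

/-- `F_v` is bounded on `Im τ ≥ 1` in the fundamental range. -/
lemma norm_Fv_le_of_range {N : ℕ} (hN : N ≠ 0) {a b : ℤ} (ha0 : 0 ≤ a) (haN : a < N)
    {τ : ℍ} (hτ : 1 ≤ τ.im) :
    ‖Fv N (a, b) τ‖ ≤ ‖cotPi ((b : ℂ) / N)‖ + (cBound N + π) +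
      cBound N * 2 * (1 - Real.exp (-2 * π))⁻¹ + ‖2 * π * I * a / N‖ := by
  rw [Fv, Pfun]
  refine (norm_add_le _ _).trans (add_le_add ?_ le_rfl)
  refine (norm_add_le _ _).trans (add_le_add ?_ (norm_tsum_pairP_le hN ha0 haN hτ))
  have hC := cBound_nonneg hN
  have hπ := Real.pi_pos
  rcases ha0.eq_or_lt with h0 | hpos
  · subst h0
    have e : lat τ (0, b) / (N : ℂ) = (b : ℂ) / N := by simp [lat]
    rw [e]
    have : 0 ≤ cBound N + π := by linarith
    linarith [norm_nonneg (cotPi ((b : ℂ) / N))]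
  · have := norm_cotPi_lat_le hN (a := a) (b := b) (by omega) hτ
    linarith [norm_nonneg (cotPi ((b : ℂ) / N))]

lemma notDiv_emod {N : ℕ} {v : ℤ × ℤ} (hv : NotDiv N v) : NotDiv N (v.1 % N, v.2) := by
  intro h
  apply hv
  refine ⟨?_, h.2⟩
  have := h.1
  exact (Int.dvd_iff_emod_eq_zero).mpr (by
    have h1 := (Int.dvd_iff_emod_eq_zero).mp this
    simpa using h1)

lemma Fv_emod {N : ℕ} (hN : N ≠ 0) {v : ℤ × ℤ} (hv : NotDiv N v) (τ : ℍ) :
    Fv N v τ = Fv N (v.1 % N, v.2) τ := by
  have h := Fv_add hN (notDiv_emod hv) (v.1 / N, 0) τ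
  simp only [mul_zero, add_zero] at h
  rw [Int.emod_add_mul_ediv] at h
  exact h

/-- **Boundedness at `i∞`** of every member of the family. -/
theorem isBoundedAtImInfty_Fv {N : ℕ} (hN : N ≠ 0) {v : ℤ × ℤ} (hv : NotDiv N v) :
    IsBoundedAtImInfty (Fv N v) := by
  rw [UpperHalfPlane.isBoundedAtImInfty_iff]
  have hNpos : (0 : ℤ) < N := by exact_mod_cast Nat.pos_of_ne_zero hN
  refine ⟨‖cotPi ((v.2 : ℂ) / N)‖ + (cBound N + π) +
      cBound N * 2 * (1 - Real.exp (-2 * π))⁻¹ + ‖2 * π * I * ((v.1 % N : ℤ) : ℂ) / N‖, 1,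
    fun τ hτ => ?_⟩
  rw [Fv_emod hN hv]
  exact norm_Fv_le_of_range hN (Int.emod_nonneg _ hNpos.ne') (Int.emod_lt_of_pos _ hNpos) hτ

end Fermat.Agent.S48.H796

end
end
-- ===== PACK-END S48/H796/Bound.lean

-- ===== PACK-BEGIN S48/H796/Holo.lean
section




/-!
# S48 / P2-EIS (helper796): holomorphy and `q`-expansion coefficients of `F_(0,b)`
-/

set_option autoImplicit false

noncomputable section

namespace Fermat.Agent.S48.H796

open UpperHalfPlane hiding I
open Complex Filter Topology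
open scoped Real Manifold

local notation "𝕢" => Function.Periodic.qParam

lemma norm_qCo_le (N : ℕ) (b : ℤ) (n : ℕ) : ‖qCo N b n‖ ≤ ‖qCo N b 0‖ + 4 * π * n := by
  have hπ := Real.pi_pos
  rcases n with _ | n
  · simp
  · have := norm_qCo_succ_le N b n
    push_cast
    linarith [norm_nonneg (qCo N b 0)]

lemma summable_affine_mul_pow (K : ℝ) {r : ℝ} (hr0 : 0 ≤ r) (hr : r < 1) :
    Summable (fun n : ℕ => (K + 4 * π * n) * r ^ n) := by
  have h1 : Summable (fun n : ℕ => K * r ^ n) :=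
    (summable_geometric_of_lt_one hr0 hr).mul_left _
  have h3 : Summable (fun n : ℕ => (n : ℝ) ^ 1 * r ^ n) :=
    summable_pow_mul_geometric_of_norm_lt_one 1 (by rwa [Real.norm_of_nonneg hr0])
  have h2 : Summable (fun n : ℕ => 4 * π * ((n : ℝ) ^ 1 * r ^ n)) := h3.mul_left _
  have e : (fun n : ℕ => (K + 4 * π * n) * r ^ n) =
      fun n : ℕ => K * r ^ n + 4 * π * ((n : ℝ) ^ 1 * r ^ n) := by
    funext n
    rw [pow_one]
    ring
  rw [e]
  exact h1.add h2

lemma summable_qCo_bound (N : ℕ) (b : ℤ) {r : ℝ} (hr0 : 0 ≤ r) (hr : r < 1) :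
    Summable (fun n : ℕ => (‖qCo N b 0‖ + 4 * π * n) * r ^ n) :=
  summable_affine_mul_pow _ hr0 hr

lemma differentiableOn_qCo_series (N : ℕ) (b : ℤ) :
    DifferentiableOn ℂ (fun z : ℂ => ∑' n : ℕ, qCo N b n * cexp (2 * π * I * z) ^ n)
      {z : ℂ | 0 < z.im} := by
  intro w₀ hw₀
  have hw₀' : 0 < w₀.im := hw₀
  have hπ := Real.pi_pos
  set ε : ℝ := w₀.im / 2 with hε
  have hεpos : 0 < ε := by positivity
  have hU : IsOpen {z : ℂ | ε < z.im} := isOpen_lt continuous_const Complex.continuous_im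
  have hmem : w₀ ∈ {z : ℂ | ε < z.im} := by
    show ε < w₀.im
    rw [hε]; linarith
  set r : ℝ := Real.exp (-2 * π * ε) with hr
  have hr0 : 0 ≤ r := (Real.exp_pos _).le
  have hr1 : r < 1 := by
    rw [hr, Real.exp_lt_one_iff]
    nlinarith
  have hdiff : DifferentiableOn ℂ
      (fun z : ℂ => ∑' n : ℕ, qCo N b n * cexp (2 * π * I * z) ^ n) {z : ℂ | ε < z.im} := by
    refine differentiableOn_tsum_of_summable_norm (summable_qCo_bound N b hr0 hr1)
      (fun n => ?_) hU (fun n w hw => ?_)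
    · fun_prop
    · rw [norm_mul, norm_pow, norm_cexp_two_pi_I]
      have h1 : Real.exp (-2 * π * w.im) ≤ r := by
        rw [hr]
        apply Real.exp_le_exp.mpr
        have : ε < w.im := hw
        nlinarith
      have h2 : Real.exp (-2 * π * w.im) ^ n ≤ r ^ n :=
        pow_le_pow_left₀ (Real.exp_pos _).le h1 n
      exact mul_le_mul (norm_qCo_le N b n) h2 (by positivity) (by positivity)
  exact ((hdiff w₀ hmem).differentiableAt (hU.mem_nhds hmem)).differentiableWithinAt

/-- **Holomorphy** of `F_(0,b)`. -/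
theorem mdifferentiable_Fv_zero (N : ℕ) (b : ℤ) : MDiff (Fv N (0, b)) := by
  rw [UpperHalfPlane.mdifferentiable_iff]
  refine (differentiableOn_qCo_series N b).congr fun w hw => ?_
  have hw' : 0 < w.im := hw
  simp only [Function.comp_apply]
  rw [ofComplex_apply_of_im_pos hw']
  exact ((hasSum_Fv_zero N b ⟨w, hw'⟩).tsum_eq).symm

lemma qParam_one_eq (τ : ℍ) : 𝕢 1 (τ : ℂ) = qq τ := by
  simp [Function.Periodic.qParam, qq]

theorem hasSum_Fv_zero_qParam (N : ℕ) (b : ℤ) (τ : ℍ) :
    HasSum (fun n => qCo N b n • 𝕢 1 (τ : ℂ) ^ n) (Fv N (0, b) τ) := by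
  simpa [qParam_one_eq, smul_eq_mul] using hasSum_Fv_zero N b τ

/-- **`q`-expansion coefficients** of `F_(0,b)`. -/
theorem qExpansion_Fv_zero_coeff (N : ℕ) (b : ℤ) (n : ℕ) :
    (qExpansion 1 (Fv N (0, b))).coeff n = qCo N b n :=
  Fermat.Agent.S22T.qExpansion_coeff_of_hasSum one_pos (hasSum_Fv_zero_qParam N b)
    (mdifferentiable_Fv_zero N b) n

end Fermat.Agent.S48.H796

end
end
-- ===== PACK-END S48/H796/Holo.lean

-- ===== PACK-BEGIN G2/H723/ThreeAdic.lean
section



/-!
# Row GLUE, phase 2, block F, leaf C (cusp switch) -- the `3`-adic computation  (helper723)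

`c₄ ≡ t²`, `c₆ ≡ t³` modulo `3³³` (a model which is multiplicative at `3` with `v₃(Δ) ≥ 30`),
parameters `m` and `n = 3 - m t` (so that `n + m t = 3`), `m t ≡ 1 mod 9`.  Then

    C4h c₄ c₆ m n ≡ 3²⁰ c₄,   C6h c₄ c₆ m n ≡ 3³⁰ c₆   (mod 3³³),
    Fkh c₄ c₆ m n = 3¹³ g  with  3 ∤ g.
-/

set_option autoImplicit false

namespace Fermat.Agent.G2.H723

open Fermat.Agent.S52.Fam Fermat.Agent.S52.B

theorem dvd_sub_iff_cast723 (N x y : ℤ) :
    N ∣ x - y ↔ Int.castRingHom (ZMod N.natAbs) x = Int.castRingHom (ZMod N.natAbs) y := by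
  simp only [eq_intCast]
  rw [ZMod.intCast_eq_intCast_iff_dvd_sub, Int.natAbs_dvd, ← dvd_neg, neg_sub]

/-- Congruent invariants give congruent values of `C4h`. -/
theorem C4h_congr723 {N c₄ c₆ d₄ d₆ : ℤ} (m n : ℤ) (h4 : N ∣ c₄ - d₄) (h6 : N ∣ c₆ - d₆) :
    N ∣ C4h c₄ c₆ m n - C4h d₄ d₆ m n := by
  rw [dvd_sub_iff_cast723] at h4 h6 ⊢
  rw [map_C4h, map_C4h, h4, h6]

/-- Congruent invariants give congruent values of `C6h`. -/
theorem C6h_congr723 {N c₄ c₆ d₄ d₆ : ℤ} (m n : ℤ) (h4 : N ∣ c₄ - d₄) (h6 : N ∣ c₆ - d₆) :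
    N ∣ C6h c₄ c₆ m n - C6h d₄ d₆ m n := by
  rw [dvd_sub_iff_cast723] at h4 h6 ⊢
  rw [map_C6h, map_C6h, h4, h6]

/-- Congruent invariants give congruent values of `Fkh`. -/
theorem Fkh_congr723 {N c₄ c₆ d₄ d₆ : ℤ} (m n : ℤ) (h4 : N ∣ c₄ - d₄) (h6 : N ∣ c₆ - d₆) :
    N ∣ Fkh c₄ c₆ m n - Fkh d₄ d₆ m n := by
  rw [dvd_sub_iff_cast723] at h4 h6 ⊢
  rw [map_Fkh, map_Fkh, h4, h6]

section

variable (c₄ c₆ t m : ℤ) (h4 : (3 : ℤ) ^ 33 ∣ c₄ - t ^ 2) (h6 : (3 : ℤ) ^ 33 ∣ c₆ - t ^ 3)
include h4 h6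

theorem C4h_three723 : (3 : ℤ) ^ 33 ∣ C4h c₄ c₆ m (3 - m * t) - 3 ^ 20 * c₄ := by
  have h := C4h_congr723 m (3 - m * t) h4 h6
  rw [C4h_cusp723] at h
  have e : (3 - m * t + m * t) = 3 := by ring
  rw [e] at h
  have e2 : C4h c₄ c₆ m (3 - m * t) - 3 ^ 20 * c₄ =
      (C4h c₄ c₆ m (3 - m * t) - t ^ 2 * 3 ^ 20) - 3 ^ 20 * (c₄ - t ^ 2) := by ring
  rw [e2]
  exact dvd_sub h (Dvd.dvd.mul_left h4 _)

theorem C6h_three723 : (3 : ℤ) ^ 33 ∣ C6h c₄ c₆ m (3 - m * t) - 3 ^ 30 * c₆ := by
  have h := C6h_congr723 m (3 - m * t) h4 h6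
  rw [C6h_cusp723] at h
  have e : (3 - m * t + m * t) = 3 := by ring
  rw [e] at h
  have e2 : C6h c₄ c₆ m (3 - m * t) - 3 ^ 30 * c₆ =
      (C6h c₄ c₆ m (3 - m * t) - t ^ 3 * 3 ^ 30) - 3 ^ 30 * (c₆ - t ^ 3) := by ring
  rw [e2]
  exact dvd_sub h (Dvd.dvd.mul_left h6 _)

theorem Fkh_three723 (hmt : (9 : ℤ) ∣ m * t - 1) :
    ∃ g : ℤ, Fkh c₄ c₆ m (3 - m * t) = 3 ^ 13 * g ∧ ¬ (3 : ℤ) ∣ g := by
  have h := Fkh_congr723 m (3 - m * t) h4 h6
  rw [Fkh_cusp723] at h
  have e : (3 - m * t + m * t) = 3 := by ring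
  rw [e] at h
  obtain ⟨z, hz⟩ := h
  obtain ⟨r, hr⟩ := hmt
  have hmt' : m * t = 1 + 9 * r := by linarith
  refine ⟨-(1 + 12 * r) + 3 ^ 20 * z, ?_, ?_⟩
  · have e3 : (3 - m * t - 11 * m * t) = -9 * (1 + 12 * r) := by
      have : 3 - m * t - 11 * m * t = 3 - 12 * (m * t) := by ring
      rw [this, hmt']; ring
    rw [e3] at hz
    have : Fkh c₄ c₆ m (3 - m * t) = 3 ^ 11 * (-9 * (1 + 12 * r)) + 3 ^ 33 * z := by linarith
    rw [this]; ring
  · intro hd
    have h1 : (3 : ℤ) ∣ 3 ^ 20 * z := Dvd.dvd.mul_right (dvd_pow_self 3 (by norm_num)) z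
    have h2 : (3 : ℤ) ∣ -(1 + 12 * r) := by
      have := dvd_sub hd h1
      simpa using this
    omega

end

end Fermat.Agent.G2.H723

end
-- ===== PACK-END G2/H723/ThreeAdic.lean

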