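import Mathlib
import Fermat.Prelude.Def_AlgebraicCurve_DivisorClassGroup
import Fermat.Prelude.Def_ModularCurve_ReductionModL
import Fermat.Agent.Pack.S59C.E0L3
import Fermat.Agent.Pack.S59C.E4L1
import Fermat.Agent.Pack.L1.E3L3
import Fermat.Agent.Pack.L1.E0L0
import Fermat.Agent.Pack.L1.E1L3
import Fermat.Agent.Pack.S44C.G0E19L0
import Fermat.Agent.Pack.S44C.G0E6L2
import Fermat.Agent.Pack.S44C.G0E1L2
import Fermat.Agent.Pack.S44C.G0E7L1
import Fermat.Agent.Pack.S44C.G0E14L2
import Fermat.Agent.Pack.S44C.G1E0L0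
import Fermat.Agent.Pack.L1.E3L0
import Fermat.Agent.Pack.L1.E3L2
import Fermat.Agent.Pack.S59C.E2L3
import Fermat.Agent.Pack.L1.E3L1

-- ===== PACK-BEGIN Lib/Red/Main.lean
section



/-!
# Shared library `Red`: the deliverable `goodReduction : GoodReduction` (piece GR of row S52)

Proof: `Fermat/Agent/Lib/Red/H290/*.lean` (helper290), on top of the landed S05 toolkit
(`SameRed`, `GoodRed`, `XId`, `C1b`).  The general form (any ring homomorphism `φ : V →+* κ` to a
field with kernel the maximal ideal, curves given by their coefficients) is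
`Fermat.Agent.Lib.Red.H290.redHom`, with `red_eq_zero_iff`, `red_neg`, `red_add`,
`eq_of_red_eq_of_nsmul` (injectivity on `n`-torsion, `n` a unit) and `inKer_add` (`E₁` is a
subgroup, any valuation).
-/

set_option autoImplicit false

namespace Fermat.Agent.Lib.Red

universe u

/-- **GR**: the reduction homomorphism for good reduction. -/
theorem goodReduction : GoodReduction.{u} := H290.goodReduction

end Fermat.Agent.Lib.Red

end
-- ===== PACK-END Lib/Red/Main.lean

-- ===== PACK-BEGIN S52/H170/RedAt2.lean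
section
/-
S52 / piece (B1d), part P4 (helper170): properties of the reduction at `t = a`
(injective on `n`-torsion, compatible with field homs acting on coefficients) and the
RIGIDITY THEOREM `exists_theta`.
-/




set_option autoImplicit false

namespace Fermat.Agent.S52.H170

open Polynomial WeierstrassCurve WeierstrassCurve.Affine

universe u

variable {K : Type u} [Field K]

lemma valuation_le_one_iff_regAt (a : K) (f : RatFunc K) :
    (placeAt a).valuation f ≤ 1 ↔ RegAt a f := by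
  rw [ValuationSubring.valuation_le_one_iff]; rfl

lemma integralCoeffs_famL (𝕎 : WeierstrassCurve K[X]) (a : K) :
    Fermat.Agent.S05.SameRed.IntegralCoeffs (famL 𝕎) (placeAt a).valuation where
  a₁ := (valuation_le_one_iff_regAt a _).2 (regAt_algebraMap a _)
  a₂ := (valuation_le_one_iff_regAt a _).2 (regAt_algebraMap a _)
  a₃ := (valuation_le_one_iff_regAt a _).2 (regAt_algebraMap a _)
  a₄ := (valuation_le_one_iff_regAt a _).2 (regAt_algebraMap a _)
  a₆ := (valuation_le_one_iff_regAt a _).2 (regAt_algebraMap a _)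

lemma regAt_natCast (a : K) (n : ℕ) : RegAt a ((n : RatFunc K)) := by
  have : ((n : RatFunc K)) = algebraMap K[X] (RatFunc K) (n : K[X]) := by simp
  rw [this]; exact regAt_algebraMap a _

lemma valAt_natCast (a : K) (n : ℕ) : valAt a ((n : RatFunc K)) = (n : K) := by
  have : ((n : RatFunc K)) = algebraMap K[X] (RatFunc K) (n : K[X]) := by simp
  rw [this, valAt_algebraMap]; simp

lemma valuation_natCast_eq_one (a : K) {n : ℕ} (hn : (n : K) ≠ 0) :
    (placeAt a).valuation ((n : RatFunc K)) = 1 := by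
  have hu : IsUnit (⟨(n : RatFunc K), regAt_natCast a n⟩ : placeAt a) := by
    apply isUnit_of_map_unit (evalAt a)
    rw [isUnit_iff_ne_zero, evalAt_apply]
    simpa [valAt_natCast] using hn
  exact (ValuationSubring.valuation_eq_one_iff (placeAt a) _).1 hu

/-- on the family curve, a point with `x` regular at `a` has `y` regular at `a`. -/
lemma regAt_y_of_regAt_x (𝕎 : WeierstrassCurve K[X]) (a : K) {x y : RatFunc K}
    (h : (famL 𝕎).Equation x y) (hx : RegAt a x) : RegAt a y := by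
  classical
  rw [← valuation_le_one_iff_regAt] at hx ⊢
  exact Fermat.Agent.S05.GoodRed.val_y_le_one (integralCoeffs_famL 𝕎 a) h hx

section
variable [DecidableEq K] [DecidableEq (RatFunc K)]

/-- **(C1 at the place `t = a`)**: reduction is injective on `n`-torsion, `n` invertible in `K`. -/
theorem IsRedAt.eq_zero_of_nsmul {𝕎 : WeierstrassCurve K[X]} {a : K}
    {red : (famL 𝕎).Point →+ (fibre 𝕎 a).Point} (hred : IsRedAt 𝕎 a red) {n : ℕ}
    (hn : (n : K) ≠ 0) (P : (famL 𝕎).Point) (hP : n • P = 0) (h0 : red P = 0) : P = 0 := by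
  rcases P with _ | ⟨x, y, h⟩
  · rfl
  · exfalso
    have hxy := Fermat.Agent.S05.C1b.val_x_le_one_of_nsmul_eq_zero (integralCoeffs_famL 𝕎 a)
      (valuation_natCast_eq_one a hn) h hP
    rw [valuation_le_one_iff_regAt, valuation_le_one_iff_regAt] at hxy
    obtain ⟨h', e⟩ := hred.some_reg x y h hxy.1 hxy.2
    rw [e] at h0
    exact Point.some_ne_zero _ h0

end

section Equivariance

variable (σ : K →+* K)

lemma not_regAt_ratMap {a : K} {f : RatFunc K} (hf : ¬ RegAt a f) :
    ¬ RegAt (σ a) (ratMap σ f) := by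
  intro hreg
  obtain ⟨h1, h2⟩ := regAt_inv_of_not_regAt hf
  have hf0 : f ≠ 0 := by rintro rfl; exact hf (regAt_zero a)
  have h3 := regAt_ratMap σ h1
  have h4 := valAt_ratMap σ h1
  rw [h2, map_zero] at h4
  have h5 := valAt_mul hreg h3
  rw [← map_mul, mul_inv_cancel₀ hf0, map_one, valAt_one, h4, mul_zero] at h5
  exact one_ne_zero h5

lemma ratMap_comp_algebraMap :
    (ratMap σ).comp (algebraMap K[X] (RatFunc K)) =
      (algebraMap K[X] (RatFunc K)).comp (Polynomial.mapRingHom σ) := by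
  apply RingHom.ext
  intro p
  simp [ratMap_algebraMap]

lemma comp_evalRingHom (a : K) :
    σ.comp (Polynomial.evalRingHom a) =
      (Polynomial.evalRingHom (σ a)).comp (Polynomial.mapRingHom σ) := by
  apply RingHom.ext
  intro p
  simp [Polynomial.eval_map]

lemma famL_map {𝕎 𝕎' : WeierstrassCurve K[X]} (h𝕎 : 𝕎.map (Polynomial.mapRingHom σ) = 𝕎') :
    (famL 𝕎).map (ratMap σ) = famL 𝕎' := by
  show (𝕎.map _).map _ = 𝕎'.map _
  rw [WeierstrassCurve.map_map, ratMap_comp_algebraMap, ← WeierstrassCurve.map_map, h𝕎]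

lemma fibre_map {𝕎 𝕎' : WeierstrassCurve K[X]} {a a' : K} (hσa : σ a = a')
    (h𝕎 : 𝕎.map (Polynomial.mapRingHom σ) = 𝕎') :
    (fibre 𝕎 a).map σ = fibre 𝕎' a' := by
  show (𝕎.map _).map _ = 𝕎'.map _
  rw [WeierstrassCurve.map_map, comp_evalRingHom, ← WeierstrassCurve.map_map, h𝕎, hσa]

variable [DecidableEq K] [DecidableEq (RatFunc K)]

/-- **Equivariance of reduction** under a field hom acting on coefficients. -/
theorem IsRedAt.equivariant {𝕎 𝕎' : WeierstrassCurve K[X]} {a a' : K} (hσa : σ a = a')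
    (h𝕎 : 𝕎.map (Polynomial.mapRingHom σ) = 𝕎')
    {red : (famL 𝕎).Point →+ (fibre 𝕎 a).Point} (hred : IsRedAt 𝕎 a red)
    {red' : (famL 𝕎').Point →+ (fibre 𝕎' a').Point} (hred' : IsRedAt 𝕎' a' red')
    (P : (famL 𝕎).Point) :
    red' (ptMapTo (ratMap σ) (famL_map σ h𝕎) P) = ptMapTo σ (fibre_map σ hσa h𝕎) (red P) := by
  rcases P with _ | ⟨x, y, h⟩
  · show red' (ptMapTo (ratMap σ) (famL_map σ h𝕎) 0) = ptMapTo σ (fibre_map σ hσa h𝕎) (red 0)
    simp
  · obtain ⟨hL, eL⟩ := ptMapTo_some (ratMap σ) (famL_map σ h𝕎) h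
    rw [eL]
    by_cases hx : RegAt a x
    · have hy : RegAt a y := regAt_y_of_regAt_x 𝕎 a h.1 hx
      obtain ⟨h1, e1⟩ := hred.some_reg x y h hx hy
      have hx' : RegAt a' (ratMap σ x) := hσa ▸ regAt_ratMap σ hx
      have hy' : RegAt a' (ratMap σ y) := hσa ▸ regAt_ratMap σ hy
      obtain ⟨h2, e2⟩ := hred'.some_reg _ _ hL hx' hy'
      obtain ⟨h3, e3⟩ := ptMapTo_some σ (fibre_map σ hσa h𝕎) h1
      rw [e1, e2, e3]
      simp only [Point.some.injEq]
      subst hσa
      exact ⟨valAt_ratMap σ hx, valAt_ratMap σ hy⟩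
    · have hx' : ¬ RegAt a' (ratMap σ x) := hσa ▸ not_regAt_ratMap σ hx
      rw [hred.some_not_reg x y h hx, hred'.some_not_reg _ _ hL hx', map_zero]

end Equivariance

end Fermat.Agent.S52.H170

end
-- ===== PACK-END S52/H170/RedAt2.lean

-- ===== PACK-BEGIN S52/H170/Theta.lean
section
/-
S52 / piece (B1d) (helper170): the RIGIDITY THEOREM.

`𝕎` a Weierstrass curve over `K[t]`, `a₀ a₁ : K` two parameters of good reduction
(`Δ(𝕎)(aᵢ) ≠ 0`), `n` invertible in `K`.  If every `n`-torsion point of the fibre at `a₀` lifts to an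
`n`-torsion point of `𝕎` over `K(t)` (regular at `a₀`), then there is an INJECTIVE ADDITIVE map
`θ : 𝕎_{a₀}[n] → 𝕎_{a₁}[n]` commuting with every field endomorphism `σ` of `K` fixing `a₀`, `a₁`
and the coefficients of `𝕎`.

No two-point identities, no equivariance of the Tate parameters are needed: `θ = red₁ ∘ red₀⁻¹`.
Input: the frozen interface `Lib.Red.GoodReduction` (as a hypothesis) and landed S05 (C1).
-/



set_option autoImplicit false

namespace Fermat.Agent.S52.H170

open Polynomial WeierstrassCurve WeierstrassCurve.Affine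

universe u

variable {K : Type u} [Field K] [DecidableEq K] [DecidableEq (RatFunc K)]

/-- the lifting hypothesis: every `n`-torsion point of the fibre at `a₀` is the value at `a₀` of an
`n`-torsion point of the family over `K(t)`. -/
def HasTorsionLifts (𝕎 : WeierstrassCurve K[X]) (a₀ : K) (n : ℕ) : Prop :=
  ∀ (x y : K) (h : (fibre 𝕎 a₀).Nonsingular x y), n • Point.some x y h = 0 →
    ∃ (X Y : RatFunc K) (H : (famL 𝕎).Nonsingular X Y),
      n • Point.some X Y H = 0 ∧ RegAt a₀ X ∧ valAt a₀ X = x ∧ valAt a₀ Y = y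

theorem rigidData_of_lifts {𝕎 : WeierstrassCurve K[X]} {a₀ a₁ : K} {n : ℕ} (hn : (n : K) ≠ 0)
    (hlift : HasTorsionLifts 𝕎 a₀ n)
    {red₀ : (famL 𝕎).Point →+ (fibre 𝕎 a₀).Point} (hred₀ : IsRedAt 𝕎 a₀ red₀)
    {red₁ : (famL 𝕎).Point →+ (fibre 𝕎 a₁).Point} (hred₁ : IsRedAt 𝕎 a₁ red₁) :
    RigidData n red₀ red₁ where
  inj0 := fun P hP h0 => hred₀.eq_zero_of_nsmul hn P hP h0
  inj1 := fun P hP h0 => hred₁.eq_zero_of_nsmul hn P hP h0
  lift := by
    rintro (_ | ⟨x, y, h⟩) hQ
    · exact ⟨0, by simp, by rw [map_zero]; rfl⟩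
    · obtain ⟨X, Y, H, hn0, hX, hx, hy⟩ := hlift x y h hQ
      refine ⟨Point.some X Y H, hn0, ?_⟩
      have hY : RegAt a₀ Y := regAt_y_of_regAt_x 𝕎 a₀ H.1 hX
      obtain ⟨h', e⟩ := hred₀.some_reg X Y H hX hY
      rw [e]
      subst hx; subst hy
      rfl

/-- **RIGIDITY (B1d).** -/
theorem exists_theta (GR : Fermat.Agent.Lib.Red.GoodReduction.{u})
    (𝕎 : WeierstrassCurve K[X]) (a₀ a₁ : K)
    (h₀ : 𝕎.Δ.eval a₀ ≠ 0) (h₁ : 𝕎.Δ.eval a₁ ≠ 0) (n : ℕ) (hn : (n : K) ≠ 0)
    (hlift : HasTorsionLifts 𝕎 a₀ n) :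
    ∃ θ : Submodule.torsionBy ℤ (fibre 𝕎 a₀).Point (n : ℤ) →+
        Submodule.torsionBy ℤ (fibre 𝕎 a₁).Point (n : ℤ),
      Function.Injective θ ∧
      ∀ (σ : K →+* K) (hσ0 : σ a₀ = a₀) (hσ1 : σ a₁ = a₁)
        (h𝕎 : 𝕎.map (Polynomial.mapRingHom σ) = 𝕎)
        (Q Q' : Submodule.torsionBy ℤ (fibre 𝕎 a₀).Point (n : ℤ)),
        (Q' : (fibre 𝕎 a₀).Point) = ptMapTo σ (fibre_map σ hσ0 h𝕎) (Q : (fibre 𝕎 a₀).Point) →
        ((θ Q' : Submodule.torsionBy ℤ (fibre 𝕎 a₁).Point (n : ℤ)) : (fibre 𝕎 a₁).Point) =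
          ptMapTo σ (fibre_map σ hσ1 h𝕎) (θ Q : (fibre 𝕎 a₁).Point) := by
  obtain ⟨red₀, hred₀⟩ := exists_isRedAt GR 𝕎 a₀ h₀
  obtain ⟨red₁, hred₁⟩ := exists_isRedAt GR 𝕎 a₁ h₁
  have hR := rigidData_of_lifts hn hlift hred₀ hred₁
  refine ⟨hR.theta, hR.theta_injective, ?_⟩
  intro σ hσ0 hσ1 h𝕎 Q Q' hQ
  exact hR.theta_equivariant (ptMapTo (ratMap σ) (famL_map σ h𝕎))
    (ptMapTo σ (fibre_map σ hσ0 h𝕎)) (ptMapTo σ (fibre_map σ hσ1 h𝕎))
    (fun P _ => hred₀.equivariant σ hσ0 h𝕎 hred₀ P)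
    (fun P _ => hred₁.equivariant σ hσ1 h𝕎 hred₁ P) Q Q' hQ

end Fermat.Agent.S52.H170

end
-- ===== PACK-END S52/H170/Theta.lean

-- ===== PACK-BEGIN S52/H170/Five.lean
section
/-
S52 / piece (B1) output (helper170): from a family `𝕎` over `ℚ̄[t]` with Galois-fixed coefficients,
fibres `W` (at `a₀`) and `W'` (at `a₁`) and 5-torsion lifts at `a₀`, to the frozen
`Fermat.Agent.S52.FiveCongruent W W'` of `Top.lean`.
GR is now discharged by the landed `Fermat.Agent.Lib.Red.goodReduction`.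
-/





set_option autoImplicit false

namespace Fermat.Agent.S52.H170

open Polynomial WeierstrassCurve WeierstrassCurve.Affine

universe u

section General

variable {K : Type u} [Field K] [DecidableEq K] [DecidableEq (RatFunc K)]

/-- `exists_theta` with GR discharged and prescribed fibres. -/
theorem exists_theta_to (𝕎 : WeierstrassCurve K[X]) (a₀ a₁ : K) (E₀ E₁ : Affine K)
    (hE₀ : fibre 𝕎 a₀ = E₀) (hE₁ : fibre 𝕎 a₁ = E₁)
    (h₀ : 𝕎.Δ.eval a₀ ≠ 0) (h₁ : 𝕎.Δ.eval a₁ ≠ 0) (n : ℕ) (hn : (n : K) ≠ 0)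
    (hlift : HasTorsionLifts 𝕎 a₀ n) :
    ∃ θ : Submodule.torsionBy ℤ E₀.Point (n : ℤ) →+ Submodule.torsionBy ℤ E₁.Point (n : ℤ),
      Function.Injective θ ∧
      ∀ (σ : K →+* K) (_ : σ a₀ = a₀) (_ : σ a₁ = a₁)
        (_ : 𝕎.map (Polynomial.mapRingHom σ) = 𝕎)
        (hE₀σ : E₀.map σ = E₀) (hE₁σ : E₁.map σ = E₁)
        (Q Q' : Submodule.torsionBy ℤ E₀.Point (n : ℤ)),
        (Q' : E₀.Point) = ptMapTo σ hE₀σ (Q : E₀.Point) →
        ((θ Q' : Submodule.torsionBy ℤ E₁.Point (n : ℤ)) : E₁.Point) =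
          ptMapTo σ hE₁σ (θ Q : E₁.Point) := by
  subst hE₀; subst hE₁
  obtain ⟨θ, hinj, heq⟩ :=
    exists_theta Fermat.Agent.Lib.Red.goodReduction 𝕎 a₀ a₁ h₀ h₁ n hn hlift
  exact ⟨θ, hinj, fun σ hσ0 hσ1 h𝕎 _ _ Q Q' hQ => heq σ hσ0 hσ1 h𝕎 Q Q' hQ⟩

end General

section Prelude

variable {R : Type*} {S : Type*} {K : Type*} [CommRing R] [CommRing S] [Field K]
  [DecidableEq K] {W' : Affine R} [Algebra R S] [Algebra R K] [Algebra S K]
  [IsScalarTower R S K]

lemma baseChange_map_algEquiv (σ : K ≃ₐ[S] K) :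
    (W'⁄K).map ((σ : K ≃ₐ[S] K) : K →+* K) = W'⁄K :=
  WeierstrassCurve.map_baseChange (W := W') σ.toAlgHom

/-- the Prelude Galois action on points is `ptMapTo`. -/
lemma smul_eq_ptMapTo (σ : K ≃ₐ[S] K) (h : (W'⁄K).map ((σ : K ≃ₐ[S] K) : K →+* K) = W'⁄K)
    (P : (W'⁄K).Point) : σ • P = ptMapTo ((σ : K ≃ₐ[S] K) : K →+* K) h P := by
  rcases P with _ | ⟨x, y, hxy⟩
  · show σ • (0 : (W'⁄K).Point) = ptMapTo _ h 0
    rw [smul_zero, map_zero]
  · obtain ⟨h', e⟩ := ptMapTo_some ((σ : K ≃ₐ[S] K) : K →+* K) h hxy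
    rw [e]
    rfl

end Prelude

section Final

open Fermat.Agent.Lib.Frob (Qb Pts)

/-- **B1 output.** -/
theorem fiveCongruent_of_family (W W' : WeierstrassCurve ℤ)
    (𝕎 : WeierstrassCurve Qb[X]) (a₀ a₁ : Qb)
    (hfix : ∀ σ : Qb ≃ₐ[ℚ] Qb, σ a₀ = a₀ ∧ σ a₁ = a₁ ∧
      𝕎.map (Polynomial.mapRingHom ((σ : Qb ≃ₐ[ℚ] Qb) : Qb →+* Qb)) = 𝕎)
    (hW : fibre 𝕎 a₀ = ((W.map (Int.castRingHom ℚ))⁄Qb))
    (hW' : fibre 𝕎 a₁ = ((W'.map (Int.castRingHom ℚ))⁄Qb))
    (h₀ : 𝕎.Δ.eval a₀ ≠ 0) (h₁ : 𝕎.Δ.eval a₁ ≠ 0)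
    (hlift : @HasTorsionLifts Qb _ _ (Classical.decEq _) 𝕎 a₀ 5) :
    Fermat.Agent.S52.FiveCongruent W W' := by
  letI : DecidableEq (RatFunc Qb) := Classical.decEq _
  have h5 : ((5 : ℕ) : Qb) ≠ 0 := by norm_num
  obtain ⟨θ, hinj, heq⟩ := exists_theta_to 𝕎 a₀ a₁ _ _ hW hW' h₀ h₁ 5 h5 hlift
  refine ⟨θ, hinj, ?_⟩
  intro σ P
  obtain ⟨hσ0, hσ1, h𝕎⟩ := hfix σ
  apply Subtype.ext
  have key := heq ((σ : Qb ≃ₐ[ℚ] Qb) : Qb →+* Qb) hσ0 hσ1 h𝕎
    (baseChange_map_algEquiv σ) (baseChange_map_algEquiv σ) P (σ • P)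
    (smul_eq_ptMapTo σ _ (P : Pts W))
  rw [key]
  exact (smul_eq_ptMapTo σ _ ((θ P : Fermat.Agent.S52.Tors W' 5) : Pts W')).symm

end Final

end Fermat.Agent.S52.H170

namespace Fermat.Agent.S52.H170

open Polynomial WeierstrassCurve WeierstrassCurve.Affine

section FinalRat

open Fermat.Agent.Lib.Frob (Qb Pts)

lemma evalRingHom_comp_mapRingHom {A B : Type*} [CommRing A] [CommRing B] (ι : A →+* B) (a : A) :
    (Polynomial.evalRingHom (ι a)).comp (Polynomial.mapRingHom ι) =
      ι.comp (Polynomial.evalRingHom a) := by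
  apply RingHom.ext
  intro p
  simp [Polynomial.eval_map]

/-- the family over `ℚ̄[t]` obtained from a family over `ℚ[t]`. -/
noncomputable abbrev famQb (𝕎 : WeierstrassCurve ℚ[X]) : WeierstrassCurve Qb[X] :=
  𝕎.map (Polynomial.mapRingHom (algebraMap ℚ Qb))

lemma fibre_famQb (𝕎 : WeierstrassCurve ℚ[X]) (a : ℚ) (E : WeierstrassCurve ℚ)
    (hE : 𝕎.map (Polynomial.evalRingHom a) = E) :
    fibre (famQb 𝕎) (algebraMap ℚ Qb a) = (E⁄Qb) := by
  show (𝕎.map _).map _ = E.map _
  rw [WeierstrassCurve.map_map, evalRingHom_comp_mapRingHom, ← WeierstrassCurve.map_map, hE]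

lemma famQb_fixed (𝕎 : WeierstrassCurve ℚ[X]) (σ : Qb ≃ₐ[ℚ] Qb) :
    (famQb 𝕎).map (Polynomial.mapRingHom ((σ : Qb ≃ₐ[ℚ] Qb) : Qb →+* Qb)) = famQb 𝕎 := by
  show (𝕎.map _).map _ = 𝕎.map _
  rw [WeierstrassCurve.map_map]
  congr 1
  apply RingHom.ext
  intro p
  simp only [RingHom.comp_apply, Polynomial.coe_mapRingHom, Polynomial.map_map]
  congr 1
  apply RingHom.ext
  intro q
  simp

lemma eval_Δ_famQb (𝕎 : WeierstrassCurve ℚ[X]) (a : ℚ) (E : WeierstrassCurve ℤ)
    (hE : 𝕎.map (Polynomial.evalRingHom a) = E.map (Int.castRingHom ℚ)) (hΔ : E.Δ ≠ 0) :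
    (famQb 𝕎).Δ.eval (algebraMap ℚ Qb a) ≠ 0 := by
  have h1 : (fibre (famQb 𝕎) (algebraMap ℚ Qb a)).Δ = (famQb 𝕎).Δ.eval (algebraMap ℚ Qb a) := by
    show (WeierstrassCurve.map _ _).Δ = _
    rw [WeierstrassCurve.map_Δ]; rfl
  rw [← h1, fibre_famQb 𝕎 a _ hE]
  show (WeierstrassCurve.map _ _).Δ ≠ 0
  rw [WeierstrassCurve.map_Δ, WeierstrassCurve.map_Δ]
  intro h
  have h2 := (algebraMap ℚ Qb).injective (h.trans (map_zero _).symm)
  exact hΔ (Int.cast_injective (h2.trans Int.cast_zero.symm))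

/-- **B1 output, family over `ℚ[t]`.**  A Weierstrass curve `𝕎` over `ℚ[t]` with fibres `W` at
`a₀` and `W'` at `a₁` (both of nonzero discriminant) such that every `5`-torsion point of `W(ℚ̄)`
lifts to a `5`-torsion point of `𝕎(ℚ̄(t))` regular at `a₀`, gives `FiveCongruent W W'`. -/
theorem fiveCongruent_of_family_rat (W W' : WeierstrassCurve ℤ) (hΔ : W.Δ ≠ 0) (hΔ' : W'.Δ ≠ 0)
    (𝕎 : WeierstrassCurve ℚ[X]) (a₀ a₁ : ℚ)
    (hW : 𝕎.map (Polynomial.evalRingHom a₀) = W.map (Int.castRingHom ℚ))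
    (hW' : 𝕎.map (Polynomial.evalRingHom a₁) = W'.map (Int.castRingHom ℚ))
    (hlift : @HasTorsionLifts Qb _ _ (Classical.decEq _) (famQb 𝕎) (algebraMap ℚ Qb a₀) 5) :
    Fermat.Agent.S52.FiveCongruent W W' := by
  refine fiveCongruent_of_family W W' (famQb 𝕎) (algebraMap ℚ Qb a₀) (algebraMap ℚ Qb a₁)
    (fun σ => ⟨σ.commutes a₀, σ.commutes a₁, famQb_fixed 𝕎 σ⟩)
    (fibre_famQb 𝕎 a₀ _ hW) (fibre_famQb 𝕎 a₁ _ hW')
    (eval_Δ_famQb 𝕎 a₀ W hW hΔ) (eval_Δ_famQb 𝕎 a₁ W' hW' hΔ') hlift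

end FinalRat

end Fermat.Agent.S52.H170

end
-- ===== PACK-END S52/H170/Five.lean

-- ===== PACK-BEGIN S15/TopWeak.lean
section




/-!
# Row S15 (row-lead helper975): TOP in its weakest form

`S15_of_weak : GeoWeak → DescWeakStatement → (frozen statement S15)`.

* `GeoWeak` is `GeoStatement` of `Skeleton.lean`, except that the kernel of the reduction map at
  `ℓ` only has to be stable under the `T_q` with `q ∉ S_ℓ ∪ {p}` for some FINITE set `S_ℓ` chosen
  by GEO (so auxiliary levels `2p`, `3p` are allowed at `ℓ = 3, 2`).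
* `DescWeakStatement` is the weak descent node proposed by helper302: ONE Hecke operator `t`
  away from `S` with `t · J₀(p)(ℚ)` torsion and `t c ≠ 0` for the given rational torsion Eisenstein
  vector `c ≠ 0`.

The strong nodes of `Skeleton.lean` imply the weak ones (`geoWeak_of_geoStatement`,
`descWeak_of_descStatement`), hence `S15_of_nodes`.  The local node LOC is
`Fermat.Agent.S15.H242.step3_of_pm_one` (on main).  Everything here is sorry-free.
-/

set_option autoImplicit false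

open WeierstrassCurve WeierstrassCurve.Affine

namespace Fermat.Agent.S15

/-- A reduction map for `J₀(p)` at the prime `ℓ`: additive, injective on torsion of order prime to
`ℓ`, with kernel stable under the `T_q`, `q ∉ S ∪ {p}`. -/
structure IsGoodRedAway (p ℓ : ℕ) [NeZero p] (S : Finset ℕ) {Y : Type} [AddCommGroup Y]
    (red : ModularCurve.JZero p →+ Y) : Prop where
  inj : ∀ (m : ℕ) (z : ModularCurve.JZero p), ¬ ℓ ∣ m → m • z = 0 → red z = 0 → z = 0
  hecke : ∀ q : Nat.Primes, (q : ℕ) ≠ p → (q : ℕ) ∉ S → ∀ z : ModularCurve.JZero p,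
    red z = 0 → red (ModularCurve.heckeOperatorBar p q z) = 0

theorem IsGoodRed.away {p ℓ : ℕ} [NeZero p] {Y : Type} [AddCommGroup Y]
    {red : ModularCurve.JZero p →+ Y} (h : IsGoodRed p ℓ red) : IsGoodRedAway p ℓ {ℓ} red :=
  ⟨h.inj, fun q hqp hq z hz => h.hecke q hqp (by simpa using hq) z hz⟩

/-- **NODE GEO, weak form.** -/
def GeoWeak : Prop :=
  ∀ (p : ℕ) [NeZero p] (_hp : p.Prime) (_hp' : p ∉ ({2, 3, 5, 7, 13} : Finset ℕ))
    (W : WeierstrassCurve ℤ) (_hΔ : W.Δ ≠ 0) (Q : Pts W)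
    (_hQfix : ∀ σ : Gal, σ • Q = Q) (_hQord : addOrderOf Q = p),
    ∃ c D : ModularCurve.JZero p,
      (∀ σ : Gal, σ • c = c) ∧ (∀ σ : Gal, σ • D = D) ∧ c ≠ 0 ∧ (p - 1) • c = 0 ∧
      IsEisensteinVector p c ∧
      ∀ (ℓ : ℕ) (_hℓ : ℓ.Prime) (_hℓp : ℓ ≠ p) (_hℓΔ : (ℓ : ℤ) ∣ W.Δ) (_hℓc₄ : ¬ (ℓ : ℤ) ∣ W.c₄)
        (A : ValuationSubring (AlgebraicClosure ℚ)) (_hA : A.LiesOverPrime ℓ),
        ∃ (S : Finset ℕ) (Y : Type) (_ : AddCommGroup Y) (red : ModularCurve.JZero p →+ Y),
          IsGoodRedAway p ℓ S red ∧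
          (¬ W.InZeroComponentAt A Q → red D = 0) ∧
          (W.InZeroComponentAt A Q → red D = red c ∨ red D = -red c)

/-- **NODE DESC, weak form** (helper302): for ONE non-zero rational torsion Eisenstein vector `c`
there is a Hecke operator `t` away from `S` which maps `J₀(p)(ℚ)` into torsion and does not kill
`c`. -/
def DescWeakStatement : Prop :=
  ∀ (p : ℕ) [NeZero p] (_hp : p.Prime) (_hp' : p ∉ ({2, 3, 5, 7, 13} : Finset ℕ))
    (S : Finset ℕ) (c : ModularCurve.JZero p) (_hc : ∀ σ : Gal, σ • c = c) (_hc0 : c ≠ 0)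
    (_hct : ∃ m : ℕ, 0 < m ∧ m • c = 0) (_hcE : IsEisensteinVector p c),
    ∃ t ∈ heckeRingAway p S,
      (∀ z : ModularCurve.JZero p, (∀ σ : Gal, σ • z = z) → ∃ m : ℕ, 0 < m ∧ m • t z = 0) ∧
      t c ≠ 0

theorem geoWeak_of_geoStatement (h : GeoStatement) : GeoWeak := by
  intro p _ hp hp' W hΔ Q hQfix hQord
  obtain ⟨c, D, h1, h2, h3, h4, h5, h6⟩ := h p hp hp' W hΔ Q hQfix hQord
  refine ⟨c, D, h1, h2, h3, h4, h5, fun ℓ hℓ hℓp hℓΔ hℓc₄ A hA => ?_⟩
  obtain ⟨Y, i, red, hg, h7, h8⟩ := h6 ℓ hℓ hℓp hℓΔ hℓc₄ A hA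
  exact ⟨{ℓ}, Y, i, red, hg.away, h7, h8⟩

theorem descWeakStatement_of_descStatement (h : DescStatement) : DescWeakStatement := by
  intro p _ hp hp' S c _ hc0 _ hcE
  obtain ⟨t, ht, h1, h2⟩ := h p hp hp' S
  exact ⟨t, ht, h1, by rw [h2 c hcE]; exact hc0⟩

theorem heckeRingAway_mono (p : ℕ) [NeZero p] {S S' : Finset ℕ} (h : S ⊆ S') :
    heckeRingAway p S' ≤ heckeRingAway p S := by
  unfold heckeRingAway
  apply Algebra.adjoin_mono
  rintro T ⟨q, hq, hqp, rfl⟩
  exact ⟨q, fun hqS => hq (h hqS), hqp, rfl⟩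

/-- The kernel of a good reduction map away from `S` is stable under the Hecke ring away from
`S`. -/
theorem red_eq_zero_of_mem_heckeRingAway' {p ℓ : ℕ} [NeZero p] {Y : Type} [AddCommGroup Y]
    {red : ModularCurve.JZero p →+ Y} {S : Finset ℕ} (hred : IsGoodRedAway p ℓ S red)
    {t : Module.End ℤ (ModularCurve.JZero p)} (ht : t ∈ heckeRingAway p S) :
    ∀ z : ModularCurve.JZero p, red z = 0 → red (t z) = 0 := by
  unfold heckeRingAway at ht
  induction ht using Algebra.adjoin_induction with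
  | mem T hT =>
    obtain ⟨q, hqS, hqp, rfl⟩ := hT
    intro z hz
    exact hred.hecke q hqp hqS z hz
  | algebraMap r =>
    intro z hz
    rw [Module.algebraMap_end_apply, map_zsmul, hz, smul_zero]
  | add a b _ _ ha hb =>
    intro z hz
    rw [LinearMap.add_apply, map_add, ha z hz, hb z hz, add_zero]
  | mul a b _ _ ha hb =>
    intro z hz
    rw [Module.End.mul_apply]
    exact ha _ (hb z hz)

/-- A torsion point killed by injective-on-torsion reduction maps at `2` and at `3` is zero. -/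
theorem eq_zero_of_red_two_three' {p : ℕ} [NeZero p] {Y₂ Y₃ : Type} [AddCommGroup Y₂]
    [AddCommGroup Y₃] {red₂ : ModularCurve.JZero p →+ Y₂} {red₃ : ModularCurve.JZero p →+ Y₃}
    {S₂ S₃ : Finset ℕ} (h₂ : IsGoodRedAway p 2 S₂ red₂) (h₃ : IsGoodRedAway p 3 S₃ red₃)
    (z : ModularCurve.JZero p) {m : ℕ} (hm0 : 0 < m) (hm : m • z = 0) (hz₂ : red₂ z = 0)
    (hz₃ : red₃ z = 0) : z = 0 := by
  obtain ⟨e, n', hn', rfl⟩ := Nat.exists_eq_pow_mul_and_not_dvd hm0.ne' 2 (by norm_num)
  have h1 : (2 ^ e) • z = 0 := by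
    refine h₂.inj n' ((2 ^ e) • z) hn' ?_ ?_
    · rw [← mul_smul, mul_comm]; exact hm
    · rw [map_nsmul, hz₂, smul_zero]
  refine h₃.inj (2 ^ e) z ?_ h1 hz₃
  intro h
  have := Nat.Prime.dvd_of_dvd_pow Nat.prime_three h
  omega

/-- `ℓ ∤ p - 1` when `p ∣ ℓ ∓ 1`, for primes `ℓ` and `p ≠ 2, 3`. -/
theorem not_dvd_pred_of_pm_one' {p ℓ : ℕ} (hp : p.Prime) (hℓ : ℓ.Prime) (hp2 : p ≠ 2)
    (hp3 : p ≠ 3) (hpm : p ∣ ℓ - 1 ∨ p ∣ ℓ + 1) : ¬ ℓ ∣ p - 1 := by
  intro h
  have hp1 := hp.two_le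
  have hℓ1 := hℓ.two_le
  have h1 : ℓ ≤ p - 1 := Nat.le_of_dvd (by omega) h
  rcases hpm with h2 | h2
  · have := Nat.le_of_dvd (by omega) h2
    omega
  · have h3 := Nat.le_of_dvd (by omega) h2
    have hpℓ : p = ℓ + 1 := by omega
    rcases hℓ.eq_two_or_odd with h4 | h4
    · omega
    · rcases hp.eq_two_or_odd with h5 | h5 <;> omega

/-- **S15 from the weak nodes.** -/
theorem S15_of_weak (hgeo : GeoWeak) (hdesc : DescWeakStatement)
    {p : ℕ} (hp : p.Prime) (hp' : p ∉ ({2, 3, 5, 7, 13} : Finset ℕ))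
    (W : WeierstrassCurve ℤ) (hΔ : W.Δ ≠ 0)
    (Q : ((W.map (Int.castRingHom ℚ))⁄(AlgebraicClosure ℚ)).Point)
    (hQfix : ∀ σ : AlgebraicClosure ℚ ≃ₐ[ℚ] AlgebraicClosure ℚ, σ • Q = Q)
    (hQord : addOrderOf Q = p)
    (h2Δ : (2 : ℤ) ∣ W.Δ) (h2c₄ : ¬ (2 : ℤ) ∣ W.c₄)
    (h2 : ∀ A : ValuationSubring (AlgebraicClosure ℚ), A.LiesOverPrime 2 →
      ¬ W.InZeroComponentAt A Q)
    (h3Δ : (3 : ℤ) ∣ W.Δ) (h3c₄ : ¬ (3 : ℤ) ∣ W.c₄)
    (h3 : ∀ A : ValuationSubring (AlgebraicClosure ℚ), A.LiesOverPrime 3 →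
      ¬ W.InZeroComponentAt A Q)
    {ℓ : ℕ} (hℓ : ℓ.Prime) (hℓp : ℓ ≠ p) (hℓΔ : (ℓ : ℤ) ∣ W.Δ) (hℓc₄ : ¬ (ℓ : ℤ) ∣ W.c₄)
    (A : ValuationSubring (AlgebraicClosure ℚ)) (hA : A.LiesOverPrime ℓ) :
    ¬ W.InZeroComponentAt A Q := by
  refine H242.step3_of_pm_one hp W Q hQfix hQord hℓ hℓp hℓΔ hℓc₄ A hA (fun hpm hQ0 => ?_)
  haveI : NeZero p := ⟨hp.ne_zero⟩
  have hp2 : (2 : ℕ) ≠ p := by rintro rfl; simp at hp'
  have hp3 : (3 : ℕ) ≠ p := by rintro rfl; simp at hp'
  obtain ⟨c, D, hcfix, hDfix, hc0, hcord, hcE, hred⟩ := hgeo p hp hp' W hΔ Q hQfix hQord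
  obtain ⟨A₂, hA₂⟩ := S54.exists_valuationSubring_liesOver 2 Nat.prime_two
  obtain ⟨A₃, hA₃⟩ := S54.exists_valuationSubring_liesOver 3 Nat.prime_three
  obtain ⟨S₂, Y₂, _, red₂, hg₂, hn₂, -⟩ :=
    hred 2 Nat.prime_two hp2 (by exact_mod_cast h2Δ) (by exact_mod_cast h2c₄) A₂ hA₂
  obtain ⟨S₃, Y₃, _, red₃, hg₃, hn₃, -⟩ :=
    hred 3 Nat.prime_three hp3 (by exact_mod_cast h3Δ) (by exact_mod_cast h3c₄) A₃ hA₃
  obtain ⟨Sℓ, Yℓ, _, redℓ, hgℓ, -, hzℓ⟩ := hred ℓ hℓ hℓp hℓΔ hℓc₄ A hA
  have hp1 : 0 < p - 1 := by have := hp.two_le; omega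
  obtain ⟨t, htmem, httors, htc⟩ :=
    hdesc p hp hp' (S₂ ∪ S₃ ∪ Sℓ) c hcfix hc0 ⟨p - 1, hp1, hcord⟩ hcE
  have ht₂ : t ∈ heckeRingAway p S₂ :=
    heckeRingAway_mono p (fun x hx => by simp [hx]) htmem
  have ht₃ : t ∈ heckeRingAway p S₃ :=
    heckeRingAway_mono p (fun x hx => by simp [hx]) htmem
  have htℓ : t ∈ heckeRingAway p Sℓ :=
    heckeRingAway_mono p (fun x hx => by simp [hx]) htmem
  -- `t D = 0`
  have htD₂ : red₂ (t D) = 0 :=
    red_eq_zero_of_mem_heckeRingAway' hg₂ ht₂ D (hn₂ (h2 A₂ hA₂))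
  have htD₃ : red₃ (t D) = 0 :=
    red_eq_zero_of_mem_heckeRingAway' hg₃ ht₃ D (hn₃ (h3 A₃ hA₃))
  obtain ⟨m, hm0, hm⟩ := httors D hDfix
  have htD : t D = 0 := eq_zero_of_red_two_three' hg₂ hg₃ (t D) hm0 hm htD₂ htD₃
  -- `red_ℓ (t c) = 0`
  have hcℓ : redℓ (t c) = 0 := by
    rcases hzℓ hQ0 with h | h
    · have h0 : redℓ (D - c) = 0 := by rw [map_sub, h, sub_self]
      have h1 := red_eq_zero_of_mem_heckeRingAway' hgℓ htℓ (D - c) h0
      rw [map_sub, htD, zero_sub, map_neg, neg_eq_zero] at h1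
      exact h1
    · have h0 : redℓ (D + c) = 0 := by rw [map_add, h, neg_add_cancel]
      have h1 := red_eq_zero_of_mem_heckeRingAway' hgℓ htℓ (D + c) h0
      rw [map_add, htD, zero_add] at h1
      exact h1
  have htc1 : (p - 1) • t c = 0 := by rw [← map_nsmul, hcord, map_zero]
  exact htc (hgℓ.inj (p - 1) (t c)
    (not_dvd_pred_of_pm_one' hp hℓ (Ne.symm hp2) (Ne.symm hp3) hpm) htc1 hcℓ)

/-- **S15 from the strong nodes of `Skeleton.lean`.** -/
theorem S15_of_strong (hgeo : GeoStatement) (hdesc : DescStatement)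
    {p : ℕ} (hp : p.Prime) (hp' : p ∉ ({2, 3, 5, 7, 13} : Finset ℕ))
    (W : WeierstrassCurve ℤ) (hΔ : W.Δ ≠ 0)
    (Q : ((W.map (Int.castRingHom ℚ))⁄(AlgebraicClosure ℚ)).Point)
    (hQfix : ∀ σ : AlgebraicClosure ℚ ≃ₐ[ℚ] AlgebraicClosure ℚ, σ • Q = Q)
    (hQord : addOrderOf Q = p)
    (h2Δ : (2 : ℤ) ∣ W.Δ) (h2c₄ : ¬ (2 : ℤ) ∣ W.c₄)
    (h2 : ∀ A : ValuationSubring (AlgebraicClosure ℚ), A.LiesOverPrime 2 →
      ¬ W.InZeroComponentAt A Q)
    (h3Δ : (3 : ℤ) ∣ W.Δ) (h3c₄ : ¬ (3 : ℤ) ∣ W.c₄)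
    (h3 : ∀ A : ValuationSubring (AlgebraicClosure ℚ), A.LiesOverPrime 3 →
      ¬ W.InZeroComponentAt A Q)
    {ℓ : ℕ} (hℓ : ℓ.Prime) (hℓp : ℓ ≠ p) (hℓΔ : (ℓ : ℤ) ∣ W.Δ) (hℓc₄ : ¬ (ℓ : ℤ) ∣ W.c₄)
    (A : ValuationSubring (AlgebraicClosure ℚ)) (hA : A.LiesOverPrime ℓ) :
    ¬ W.InZeroComponentAt A Q :=
  S15_of_weak (geoWeak_of_geoStatement hgeo) (descWeakStatement_of_descStatement hdesc)
    hp hp' W hΔ Q hQfix hQord h2Δ h2c₄ h2 h3Δ h3c₄ h3 hℓ hℓp hℓΔ hℓc₄ A hA

end Fermat.Agent.S15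

end
-- ===== PACK-END S15/TopWeak.lean

-- ===== PACK-BEGIN S17/H440/Cone.lean
section







/-!
# S17 / tower H, wall leaf G1 (helper440): points of the cone are places

`F / K` a function field of one variable (`FF1 K F`), `x : ι → F` a finite family of functions.
The *cone* of `x` is the set of `y : ι → K` killed by every homogeneous polynomial relation of
the `x i` (`OnCone x y`).

* `exists_place_of_onCone` (**G1**): if `y ≠ 0` is on the cone and `y j ≠ 0` then `x j ≠ 0` and there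
  is a place `P` at which all `x i / x j` are regular with value `y i / y j`:
  `x i / x j - y i / y j ∈ 𝔪_P` for all `i`.  (Dehomogenise, Chevalley, discreteness of the
  valuation rings of a function field.)
* `exists_valuationSubring_of_onCone`: the same without `FF1` (valuation subring instead of place).
* `onCone_of_place` (converse): if all `x i / x j` are regular at `P` with values `c i` then `c` is
  on the cone; `exists_regular_index`: such a `j` exists for every place and every `x ≠ 0`.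
-/

set_option autoImplicit false

noncomputable section

open AlgebraicCurve MvPolynomial

namespace Fermat.Agent.S17.H440

variable {K F : Type*} [Field K] [Field F] [Algebra K F] {ι : Type*}

/-- `y` is killed by all homogeneous polynomial relations (with coefficients in `K`) of the
family `x`. -/
def OnCone (x : ι → F) (y : ι → K) : Prop :=
  ∀ (n : ℕ) (p : MvPolynomial ι K), p.IsHomogeneous n → aeval x p = 0 → eval y p = 0

/-- Evaluation of a homogeneous polynomial at a scaled point. -/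
theorem aeval_mul_of_isHomogeneous {p : MvPolynomial ι K} {n : ℕ} (hp : p.IsHomogeneous n)
    {E : Type*} [CommRing E] [Algebra K E] (z : ι → E) (c : E) :
    aeval (fun i => c * z i) p = c ^ n * aeval z p := by
  classical
  rw [aeval_def, aeval_def, eval₂_eq, eval₂_eq, Finset.mul_sum]
  refine Finset.sum_congr rfl fun d hd => ?_
  have hdeg := hp (mem_support_iff.mp hd)
  have hsum : ∑ i ∈ d.support, d i = n := by
    rw [← hdeg, Finsupp.weight_apply, Finsupp.sum]
    simp
  simp only [mul_pow, Finset.prod_mul_distrib]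
  rw [Finset.prod_pow_eq_pow_sum, hsum]
  ring

/-- The homogenisation of `g` in degree `g.totalDegree` with respect to the variable `j`. -/
def homog (j : ι) (g : MvPolynomial ι K) : MvPolynomial ι K :=
  ∑ n ∈ Finset.range (g.totalDegree + 1), homogeneousComponent n g * X j ^ (g.totalDegree - n)

theorem homog_isHomogeneous (j : ι) (g : MvPolynomial ι K) :
    (homog j g).IsHomogeneous g.totalDegree := by
  unfold homog
  refine IsHomogeneous.sum _ _ _ fun n hn => ?_
  have hn' : n ≤ g.totalDegree := Nat.lt_succ_iff.mp (Finset.mem_range.mp hn)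
  have h := (homogeneousComponent_isHomogeneous n g).mul
    ((isHomogeneous_X K j).pow (g.totalDegree - n))
  have e : n + 1 * (g.totalDegree - n) = g.totalDegree := by omega
  rwa [e] at h

theorem aeval_homog {E : Type*} [Field E] [Algebra K E] (j : ι) (g : MvPolynomial ι K)
    (z : ι → E) (hz : z j ≠ 0) :
    aeval z (homog j g) = z j ^ g.totalDegree * aeval (fun i => z i / z j) g := by
  have key : aeval (fun i => z i / z j) g =
      ∑ n ∈ Finset.range (g.totalDegree + 1),
        aeval (fun i => z i / z j) (homogeneousComponent n g) := by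
    conv_lhs => rw [← sum_homogeneousComponent g]
    rw [map_sum]
  rw [key]
  unfold homog
  rw [map_sum, Finset.mul_sum]
  refine Finset.sum_congr rfl fun n hn => ?_
  have hn' : n ≤ g.totalDegree := Nat.lt_succ_iff.mp (Finset.mem_range.mp hn)
  have hz' : (fun i => z j * (z i / z j)) = z := funext fun i => by field_simp
  have h1 : aeval z (homogeneousComponent n g) =
      z j ^ n * aeval (fun i => z i / z j) (homogeneousComponent n g) := by
    rw [← aeval_mul_of_isHomogeneous (homogeneousComponent_isHomogeneous n g), hz']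
  rw [map_mul, map_pow, aeval_X, h1]
  have e : z j ^ g.totalDegree = z j ^ n * z j ^ (g.totalDegree - n) := by
    rw [← pow_add]; congr 1; omega
  rw [e]
  ring

section Cone

variable {x : ι → F} {y : ι → K}

theorem OnCone.ne_zero (hy : OnCone x y) {j : ι} (hj : y j ≠ 0) : x j ≠ 0 := by
  intro h
  apply hj
  have := hy 1 (X j) (isHomogeneous_X K j) (by simpa using h)
  simpa using this

/-- Dehomogenisation: an affine relation of the `x i / x j` kills `y i / y j`. -/
theorem OnCone.eval_div_eq_zero (hy : OnCone x y) {j : ι} (hj : y j ≠ 0)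
    (g : MvPolynomial ι K) (hg : aeval (fun i => x i / x j) g = 0) :
    eval (fun i => y i / y j) g = 0 := by
  have hxj := hy.ne_zero hj
  have h1 : aeval x (homog j g) = 0 := by
    rw [aeval_homog j g x hxj, hg, mul_zero]
  have h2 := hy _ _ (homog_isHomogeneous j g) h1
  have h3 : aeval y (homog j g) = y j ^ g.totalDegree * aeval (fun i => y i / y j) g :=
    aeval_homog (E := K) j g y hj
  rw [← aeval_eq_eval] at h2
  have h4 : (aeval y) (homog j g) = 0 := h2
  rw [h3] at h4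
  rcases mul_eq_zero.mp h4 with h | h
  · exact absurd h (pow_ne_zero _ hj)
  · rw [← aeval_eq_eval]; exact h

/-- **G1, valuation-ring form.**  A point of the cone with `y j ≠ 0` is the centre of a valuation
subring of `F` containing `K`. -/
theorem exists_valuationSubring_of_onCone (hy : OnCone x y) {j : ι} (hj : y j ≠ 0) :
    ∃ B : ValuationSubring F, (∀ a : K, algebraMap K F a ∈ B) ∧
      ∀ i, x i / x j - algebraMap K F (y i / y j) ∈ B.nonunits := by
  classical
  set ψ : MvPolynomial ι K →+* F :=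
    (aeval (fun i => x i / x j) : MvPolynomial ι K →ₐ[K] F).toRingHom with hψ
  set ev : MvPolynomial ι K →+* K := eval (fun i => y i / y j) with hev
  have hker : RingHom.ker ψ ≤ RingHom.ker ev := fun g hg =>
    hy.eval_div_eq_zero hj g hg
  set ψ' : MvPolynomial ι K →+* ψ.range := ψ.rangeRestrict with hψ'
  have hsurj : Function.Surjective ψ' := ψ.rangeRestrict_surjective
  set I : Ideal ψ.range := Ideal.map ψ' (RingHom.ker ev) with hI
  have hItop : I ≠ ⊤ := by
    intro h
    have h1 : Ideal.comap ψ' I = ⊤ := by rw [h]; exact Ideal.comap_top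
    rw [hI, Ideal.comap_map_of_surjective ψ' hsurj] at h1
    have hle : Ideal.comap ψ' ⊥ ≤ RingHom.ker ev := by
      intro g hg
      apply hker
      rw [Ideal.mem_comap, Ideal.mem_bot] at hg
      rw [RingHom.mem_ker]
      have := congrArg Subtype.val hg
      simpa [hψ'] using this
    rw [sup_eq_left.mpr hle] at h1
    have h2 : (1 : MvPolynomial ι K) ∈ RingHom.ker ev := by rw [h1]; trivial
    rw [RingHom.mem_ker, map_one] at h2
    exact one_ne_zero h2
  obtain ⟨B, hAB, hIB⟩ := Ideal.image_subset_nonunits_valuationSubring I hItop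
  refine ⟨B, fun a => hAB ⟨C a, by simp [hψ]⟩, fun i => ?_⟩
  apply hIB
  refine ⟨ψ' (X i - C (y i / y j)), Ideal.mem_map_of_mem _ ?_, ?_⟩
  · rw [RingHom.mem_ker, hev]; simp
  · simp [hψ', hψ]

end Cone

section Place

open Fermat.Agent.Lib.RR

variable {x : ι → F} {y : ι → K}

theorem eq_zero_of_mem_nonunits_top {e : F} (h : e ∈ (⊤ : ValuationSubring F).nonunits) : e = 0 := by
  by_contra hne
  have h1 : (⊤ : ValuationSubring F).valuation e < 1 :=
    (ValuationSubring.mem_nonunits_iff (⊤ : ValuationSubring F)).mp h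
  have hinv : e⁻¹ ∈ (⊤ : ValuationSubring F) := ValuationSubring.mem_top _
  have h2 : (⊤ : ValuationSubring F).valuation e⁻¹ ≤ 1 :=
    ((⊤ : ValuationSubring F).valuation_le_one_iff _).mpr hinv
  rw [map_inv₀] at h2
  have hv0 : (⊤ : ValuationSubring F).valuation e ≠ 0 := (Valuation.ne_zero_iff _).mpr hne
  have h3 : 1 ≤ (⊤ : ValuationSubring F).valuation e := (inv_le_one₀ (zero_lt_iff.mpr hv0)).mp h2
  exact absurd h1 (not_lt.mpr h3)

theorem finiteDimensional_of_ff1 [FF1 K F] :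
    ∀ t : F, Transcendental K t → FiniteDimensional (IntermediateField.adjoin K {t}) F := by
  obtain ⟨u, hu, hfin⟩ := FF1.exists_finite (K := K) (F := F)
  intro t ht
  exact Fermat.Agent.S24.FF.finiteDimensional_adjoin_of_transcendental hu ht

/-- **G1: points of the cone are places.**  If `y` is killed by all homogeneous relations of the
`x i` and `y j ≠ 0`, then there is a place `P` of `F / K` with
`x i / x j ≡ y i / y j  mod 𝔪_P` for all `i` (in particular all `x i / x j` are regular at `P`). -/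
theorem exists_place_of_onCone [FF1 K F] (hy : OnCone x y) {j : ι} (hj : y j ≠ 0) :
    ∃ P : Place K F,
      ∀ i, x i / x j - algebraMap K F (y i / y j) ∈ P.toValuationSubring.nonunits := by
  obtain ⟨B, hK, hB⟩ := exists_valuationSubring_of_onCone hy hj
  by_cases hB' : B = ⊤
  · obtain ⟨P⟩ := FF1.nonempty_place (K := K) (F := F)
    refine ⟨P, fun i => ?_⟩
    have h0 : x i / x j - algebraMap K F (y i / y j) = 0 :=
      eq_zero_of_mem_nonunits_top (hB' ▸ hB i)
    rw [h0]
    exact (ValuationSubring.mem_nonunits_iff _).mpr (by simp)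
  · exact ⟨⟨B, hK, hB', H383.isPrincipalIdealRing_of_finite B hK finiteDimensional_of_ff1⟩, hB⟩

/-- `G1` in terms of orders. -/
theorem exists_place_of_onCone_ord [FF1 K F] (hy : OnCone x y) {j : ι} (hj : y j ≠ 0) :
    ∃ P : Place K F, ∀ i, 0 ≤ P.ord (x i / x j) ∧
      (x i / x j - algebraMap K F (y i / y j) = 0 ∨
        0 < P.ord (x i / x j - algebraMap K F (y i / y j))) := by
  obtain ⟨P, hP⟩ := exists_place_of_onCone hy hj
  refine ⟨P, fun i => ?_⟩
  have hmem : x i / x j - algebraMap K F (y i / y j) ∈ P.toValuationSubring :=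
    ValuationSubring.nonunits_le (hP i)
  have hmem' : x i / x j ∈ P.toValuationSubring := by
    have := P.toValuationSubring.add_mem _ _ hmem (P.algebraMap_mem' (y i / y j))
    simpa using this
  refine ⟨ord_nonneg_of_mem P hmem', ?_⟩
  have h1 : (⟨_, hmem⟩ : P.toValuationSubring) ∈
      IsLocalRing.maximalIdeal P.toValuationSubring :=
    ValuationSubring.coe_mem_nonunits_iff.mp (hP i)
  exact (mem_maximalIdeal_iff P _).mp h1

/-- For every place and every nonzero family there is an index `j` with `x j ≠ 0` such that all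
`x i / x j` are regular at the place (`j` = an index of minimal order). -/
theorem exists_regular_index [Finite ι] (P : Place K F) (hx : x ≠ 0) :
    ∃ j, x j ≠ 0 ∧ ∀ i, x i / x j ∈ P.toValuationSubring := by
  classical
  have hne : ∃ i, x i ≠ 0 := by
    by_contra h
    exact hx (funext fun i => by
      by_contra hi
      exact h ⟨i, hi⟩)
  have hfin : {i | x i ≠ 0}.Finite := Set.toFinite _
  obtain ⟨j, hj, hmin⟩ := Set.exists_min_image {i | x i ≠ 0} (fun i => P.ord (x i)) hfin hne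
  refine ⟨j, hj, fun i => ?_⟩
  by_cases hi : x i = 0
  · rw [hi, zero_div]; exact P.toValuationSubring.zero_mem
  · apply mem_of_ord_nonneg
    rw [div_eq_mul_inv, P.ord_mul hi (inv_ne_zero hj), P.ord_inv]
    have := hmin i hi
    omega

/-- **Converse of G1**: the values at a place form a point of the cone. -/
theorem onCone_of_place (P : Place K F) {j : ι} {c : ι → K}
    (h : ∀ i, x i / x j - algebraMap K F (c i) ∈ P.toValuationSubring.nonunits) :
    OnCone x c := by
  intro n p hp hpx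
  have hmem : ∀ i, x i / x j ∈ P.toValuationSubring := fun i => by
    have := P.toValuationSubring.add_mem _ _ (ValuationSubring.nonunits_le (h i))
      (P.algebraMap_mem' (c i))
    simpa using this
  -- the point with coordinates in the valuation ring
  set w : ι → P.toValuationSubring := fun i => ⟨x i / x j, hmem i⟩ with hw
  have h1 : aeval (fun i => x i / x j) p = 0 := by
    have hz : (fun i => x i / x j) = fun i => (x j)⁻¹ * x i := funext fun i => by
      rw [div_eq_mul_inv, mul_comm]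
    rw [hz, aeval_mul_of_isHomogeneous hp, hpx, mul_zero]
  have h2 : aeval w p = 0 := by
    apply Subtype.ext
    have : ((aeval w p : P.toValuationSubring) : F) = aeval (fun i => x i / x j) p :=
      (MvPolynomial.aeval_algebraMap_apply (A := P.toValuationSubring) (B := F) w p).symm
    rw [this, h1]
    rfl
  have h3 : ∀ i, IsLocalRing.residue P.toValuationSubring (w i) =
      algebraMap K P.ResidueField (c i) := by
    intro i
    have hmem' : w i - algebraMap K P.toValuationSubring (c i) ∈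
        IsLocalRing.maximalIdeal P.toValuationSubring := by
      apply ValuationSubring.coe_mem_nonunits_iff.mp
      exact h i
    rw [← IsLocalRing.residue_eq_zero_iff, map_sub, sub_eq_zero] at hmem'
    rw [hmem']
    rfl
  have h4 : aeval (fun i => algebraMap K P.ResidueField (c i)) p = 0 := by
    have := congrArg (IsLocalRing.residue P.toValuationSubring) h2
    rw [map_zero] at this
    rw [← this]
    have hcomp := MvPolynomial.aeval_algebraMap_apply (A := P.toValuationSubring)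
      (B := P.ResidueField) w p
    rw [← funext h3]
    exact hcomp
  have h5 : aeval (fun i => algebraMap K P.ResidueField (c i)) p =
      algebraMap K P.ResidueField (eval c p) := by
    rw [← aeval_eq_eval]
    exact (MvPolynomial.aeval_algebraMap_apply (A := K) (B := P.ResidueField) c p)
  rw [h5] at h4
  exact (map_eq_zero (algebraMap K P.ResidueField)).mp h4

end Place

end Fermat.Agent.S17.H440

end
end
-- ===== PACK-END S17/H440/Cone.lean

-- ===== PACK-BEGIN S17/H380/AbsMulti.lean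
section


set_option linter.unusedSectionVars false
set_option linter.style.haveILetI false

namespace Fermat.Agent.S17.H380

open NumberField Height Module IntermediateField

section Multi

universe u v

variable {A : Type*} [Field A] [CharZero A]
variable {α : Type u} [Fintype α] {ι : α → Type v} [∀ a, Fintype (ι a)]
variable {ι' : Type*} [Finite ι']

/-- **Multilinear maps**: if `M` is the coefficient matrix of a family of multilinear forms in
the tuples `x a` (`a : α`), then
`h( (∑_I M (j, I) ∏_a x a (I a))_j ) ≤ log #{I} + h(M) + ∑_a h(x a)`.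
To bound a multihomogeneous map of multidegree `(d_a)`, repeat the slot `a` `d_a` times. -/
theorem absLogHeight_multilinear_apply_le [DecidableEq α]
    (M : ι' × ((a : α) → ι a) → A) (x : (a : α) → ι a → A)
    (hM : ∀ p, IsIntegral ℚ (M p)) (hx : ∀ a i, IsIntegral ℚ (x a i)) :
    absLogHeight (fun j => ∑ I : (a : α) → ι a, M (j, I) * ∏ a, x a (I a))
      ≤ Real.log (Nat.card ((a : α) → ι a)) + absLogHeight M + ∑ a, absLogHeight (x a) := by
  have ht : ∀ I : (a : α) → ι a, IsIntegral ℚ (∏ a, x a (I a)) := fun I =>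
    IsIntegral.prod _ (fun a _ => hx a (I a))
  have h1 := absLogHeight_linearMap_apply_le M (fun I : (a : α) → ι a => ∏ a, x a (I a)) hM ht
  refine h1.trans ?_
  by_cases h0 : ∀ a, x a ≠ 0
  · rw [absLogHeight_fun_prod_eq hx h0]
  · push_neg at h0
    obtain ⟨a₀, ha₀⟩ := h0
    have hz : (fun I : (a : α) → ι a => ∏ a, x a (I a)) = 0 := by
      funext I
      exact Finset.prod_eq_zero (Finset.mem_univ a₀) (by rw [ha₀]; rfl)
    rw [hz, absLogHeight_zero]
    have : 0 ≤ ∑ a, absLogHeight (x a) := Finset.sum_nonneg (fun a _ => absLogHeight_nonneg _)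
    linarith

end Multi

end Fermat.Agent.S17.H380

end
-- ===== PACK-END S17/H380/AbsMulti.lean

-- ===== PACK-BEGIN S15/H722/RedCore.lean
section


/-!
# S15 / COMPAT (helper722): abstract place reductions and the value lemma

`RedCore K F k Fk` is the minimal abstract form of the Prelude's `IsPlaceReductionAlong`:
a valuation ring `A` of the constant field `K` with a residue map `res : A → k`, a subring `O ⊆ F`
of "integral functions" with a reduction map `ρ : O → Fk`, and a map `r` on places such that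
`r_* div(y) = div(ρ y)` for every `y ∈ O` with `ρ y ≠ 0`.

Main results (all for a `RedCore` and `[HasPrincipalDivisors K F]`):
* `RedCore.ord_ρ_nonneg`, `ord_ρ_pos`, `exists_pos_of_ord_ρ_pos`, `exists_neg_of_ord_ρ_neg`;
* `RedCore.val_mem` : values of integral functions without poles over `Q` are integral;
* `RedCore.hasVal_ρ` : **value lemma**, `y(P) = c` implies `(ρ y)(r P) = res c`.
-/

set_option autoImplicit false

noncomputable section

open AlgebraicCurve

namespace Fermat.Agent.S15.H722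

open Fermat.Agent.Lib.RR Fermat.Agent.S18.H725

variable {K F k Fk : Type*} [Field K] [Field F] [Algebra K F] [Field k] [Field Fk] [Algebra k Fk]

/-- `f` is regular at `P` with value `c` (`f = c`, or `f - c` vanishes at `P`). -/
def HasVal (P : Place K F) (f : F) (c : K) : Prop :=
  f - algebraMap K F c = 0 ∨ 0 < P.ord (f - algebraMap K F c)

theorem HasVal.ord_nonneg {P : Place K F} {f : F} {c : K} (h : HasVal P f c) : 0 ≤ P.ord f := by
  rcases h with h | h
  · rw [sub_eq_zero] at h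
    rw [h, ord_algebraMap]
  · have h1 : 0 ≤ P.ord (f - algebraMap K F c) := h.le
    have h2 : 0 ≤ P.ord (algebraMap K F c) := by rw [ord_algebraMap]
    have := add_mem (mem_of_ord_nonneg P h1) (mem_of_ord_nonneg P h2)
    rw [sub_add_cancel] at this
    exact ord_nonneg_of_mem P this

/-- the value at a place is unique -/
theorem HasVal.unique {P : Place K F} {f : F} {c c' : K} (h : HasVal P f c) (h' : HasVal P f c') :
    c = c' := by
  by_contra hne
  have hd : c' - c ≠ 0 := sub_ne_zero.mpr (Ne.symm hne)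
  have hdF : algebraMap K F (c' - c) ≠ 0 := (map_ne_zero (algebraMap K F)).mpr hd
  have key : (f - algebraMap K F c) + -(f - algebraMap K F c') = algebraMap K F (c' - c) := by
    rw [map_sub]; ring
  have hord : P.ord ((f - algebraMap K F c) + -(f - algebraMap K F c')) = 0 := by
    rw [key, ord_algebraMap]
  rcases h with h | h
  · rw [h, zero_add, ord_neg] at hord
    rcases h' with h' | h'
    · rw [h, h', neg_zero, add_zero] at key
      exact hdF key.symm
    · omega
  · rcases h' with h' | h'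
    · rw [h', neg_zero, add_zero] at hord
      omega
    · have h1 : f - algebraMap K F c ≠ 0 := ne_zero_of_ord_ne_zero P (ne_of_gt h)
      have h2 : -(f - algebraMap K F c') ≠ 0 :=
        neg_ne_zero.mpr (ne_zero_of_ord_ne_zero P (ne_of_gt h'))
      have h3 : (f - algebraMap K F c) + -(f - algebraMap K F c') ≠ 0 := by rw [key]; exact hdF
      have := ord_add P h1 h2 h3
      rw [ord_neg, hord] at this
      rcases min_le_iff.mp this with h4 | h4 <;> omega

/-- at a place of degree one every regular function has a value -/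
theorem exists_hasVal (P : Place K F) (hP : P.deg = 1) {f : F} (hf : 0 ≤ P.ord f) :
    ∃ c : K, HasVal P f c :=
  exists_const_sub P hP hf

theorem hasVal_zero_of_ord_pos {P : Place K F} {f : F} (h : 0 < P.ord f) : HasVal P f 0 :=
  Or.inr (by rwa [map_zero, sub_zero])

theorem HasVal.ord_pos_of_zero {P : Place K F} {f : F} (h : HasVal P f 0) (hf : f ≠ 0) :
    0 < P.ord f := by
  rcases h with h | h
  · rw [map_zero, sub_zero] at h; exact absurd h hf
  · rwa [map_zero, sub_zero] at h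

/-- An abstract place reduction. -/
structure RedCore (K F k Fk : Type*) [Field K] [Field F] [Algebra K F] [Field k] [Field Fk]
    [Algebra k Fk] where
  /-- the valuation ring of the constant field -/
  A : ValuationSubring K
  /-- the residue map on constants -/
  res : A →+* k
  /-- non-units reduce to zero -/
  res_eq_zero : ∀ a : A, ¬ IsUnit a → res a = 0
  /-- the ring of integral functions -/
  O : Subring F
  /-- reduction of integral functions -/
  ρ : O →+* Fk
  const_mem : ∀ a : A, algebraMap K F (a : K) ∈ O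
  ρ_const : ∀ a : A, ρ ⟨algebraMap K F (a : K), const_mem a⟩ = algebraMap k Fk (res a)
  /-- the specialisation map on places -/
  r : Place K F → Place k Fk
  /-- compatibility of divisors with reduction -/
  red : ∀ y : O, ρ y ≠ 0 → ∀ D : Divisor K F, (∀ P, D P = P.ord (y : F)) →
    ∀ Q, Finsupp.mapDomain r D Q = Q.ord (ρ y)

namespace RedCore

variable (Φ : RedCore K F k Fk)

/-- the constant function of an integral constant, as an integral function -/
def const (a : Φ.A) : Φ.O := ⟨algebraMap K F (a : K), Φ.const_mem a⟩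

@[simp] theorem coe_const (a : Φ.A) : ((Φ.const a : Φ.O) : F) = algebraMap K F (a : K) := rfl

@[simp] theorem ρ_const' (a : Φ.A) : Φ.ρ (Φ.const a) = algebraMap k Fk (Φ.res a) := Φ.ρ_const a

theorem coe_ne_zero {y : Φ.O} (hy : Φ.ρ y ≠ 0) : (y : F) ≠ 0 := by
  intro h
  apply hy
  have : y = 0 := Subtype.ext h
  rw [this, map_zero]

section Red

variable [HasPrincipalDivisors K F]

theorem exists_div {f : F} (hf : f ≠ 0) :
    ∃ D : Divisor K F, (∀ P, D P = P.ord f) ∧ Divisor.degree D = 0 :=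
  HasPrincipalDivisors.exists_divisor (K := K) f hf

theorem ord_ρ_nonneg {y : Φ.O} (hy : Φ.ρ y ≠ 0) {Q : Place k Fk}
    (h : ∀ P, Φ.r P = Q → 0 ≤ P.ord (y : F)) : 0 ≤ Q.ord (Φ.ρ y) := by
  obtain ⟨D, hD, -⟩ := exists_div (K := K) (Φ.coe_ne_zero hy)
  rw [← Φ.red y hy D hD Q]
  exact mapDomain_nonneg Φ.r D fun P hP => by rw [hD]; exact h P hP

theorem ord_ρ_pos {y : Φ.O} (hy : Φ.ρ y ≠ 0) {Q : Place k Fk}
    (h : ∀ P, Φ.r P = Q → 0 ≤ P.ord (y : F)) {P₀ : Place K F} (hP₀ : Φ.r P₀ = Q)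
    (h₀ : 0 < P₀.ord (y : F)) : 0 < Q.ord (Φ.ρ y) := by
  obtain ⟨D, hD, -⟩ := exists_div (K := K) (Φ.coe_ne_zero hy)
  rw [← Φ.red y hy D hD Q]
  exact mapDomain_pos Φ.r D (fun P hP => by rw [hD]; exact h P hP) hP₀ (by rw [hD]; exact h₀)

/-- if `ρ y` has order `≤ 0` at `Q` and `y` vanishes somewhere over `Q`, then `y` has a pole
over `Q` -/
theorem exists_neg_of_ord_ρ_nonpos {y : Φ.O} (hy : Φ.ρ y ≠ 0) {Q : Place k Fk}
    (hQ : Q.ord (Φ.ρ y) ≤ 0) {P₀ : Place K F} (hP₀ : Φ.r P₀ = Q) (h₀ : 0 < P₀.ord (y : F)) :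
    ∃ P, Φ.r P = Q ∧ P.ord (y : F) < 0 := by
  by_contra hcon
  push Not at hcon
  have := Φ.ord_ρ_pos hy hcon hP₀ h₀
  omega

/-- if `ρ y` vanishes at `Q`, then `y` vanishes somewhere over `Q` -/
theorem exists_pos_of_ord_ρ_pos {y : Φ.O} (hy : Φ.ρ y ≠ 0) {Q : Place k Fk}
    (hQ : 0 < Q.ord (Φ.ρ y)) : ∃ P, Φ.r P = Q ∧ 0 < P.ord (y : F) := by
  classical
  obtain ⟨D, hD, -⟩ := exists_div (K := K) (Φ.coe_ne_zero hy)
  have hred := Φ.red y hy D hD Q
  by_contra hcon
  push Not at hcon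
  have hle : Finsupp.mapDomain Φ.r D Q ≤ 0 := by
    rw [mapDomain_apply_eq_sum]
    refine Finset.sum_nonpos fun P _ => ?_
    split_ifs with h
    · rw [hD]; exact hcon P h
    · exact le_refl _
  omega

/-- **Integrality of values.** If `y ∈ O` has no pole over `Q` and takes the value `c` at a place
`P` over `Q`, then `c` is integral. -/
theorem val_mem {y : Φ.O} {Q : Place k Fk} {P : Place K F} (hP : Φ.r P = Q)
    (hreg : ∀ P', Φ.r P' = Q → 0 ≤ P'.ord (y : F)) {c : K} (hc : HasVal P (y : F) c) :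
    c ∈ Φ.A := by
  by_contra hmem
  have hc0 : c ≠ 0 := by
    rintro rfl
    exact hmem (zero_mem _)
  have hinv : c⁻¹ ∈ Φ.A := (Φ.A.mem_or_inv_mem c).resolve_left hmem
  have hnu : ¬ IsUnit (⟨c⁻¹, hinv⟩ : Φ.A) := by
    intro hu
    apply hmem
    obtain ⟨u, hu⟩ := hu
    have h1 : ((u⁻¹ : Φ.Aˣ) : Φ.A) * ⟨c⁻¹, hinv⟩ = 1 := by rw [← hu]; exact Units.inv_mul u
    have h2 : (((u⁻¹ : Φ.Aˣ) : Φ.A) : K) * c⁻¹ = 1 := by
      have := congrArg Subtype.val h1
      simpa using this
    have h3 : (((u⁻¹ : Φ.Aˣ) : Φ.A) : K) = c := by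
      field_simp at h2
      exact h2
    rw [← h3]
    exact Subtype.mem _
  set ci : Φ.O := Φ.const ⟨c⁻¹, hinv⟩ with hci
  set z : Φ.O := 1 - ci * y with hz
  have hzcoe : (z : F) = 1 - algebraMap K F c⁻¹ * (y : F) := rfl
  have hρz : Φ.ρ z = 1 := by
    rw [hz, map_sub, map_one, map_mul, hci, Φ.ρ_const', Φ.res_eq_zero _ hnu, map_zero, zero_mul,
      sub_zero]
  have hρz0 : Φ.ρ z ≠ 0 := by rw [hρz]; exact one_ne_zero
  have hzne : (z : F) ≠ 0 := Φ.coe_ne_zero hρz0
  have hfac : (z : F) = -(algebraMap K F c⁻¹ * ((y : F) - algebraMap K F c)) := by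
    rw [hzcoe, mul_sub, ← map_mul, inv_mul_cancel₀ hc0, map_one]; ring
  have hyc : (y : F) - algebraMap K F c ≠ 0 := by
    intro h0
    rw [hfac, h0, mul_zero, neg_zero] at hzne
    exact hzne rfl
  have hpos : 0 < P.ord (z : F) := by
    rw [hfac, ord_neg, ord_const_mul P (inv_ne_zero hc0)]
    exact hc.resolve_left hyc
  have hnn : ∀ P', Φ.r P' = Q → 0 ≤ P'.ord (z : F) := by
    intro P' hP'
    rw [hzcoe]
    refine ord_sub_nonneg P' (by rw [P'.ord_one]) ?_
    rw [ord_const_mul P' (inv_ne_zero hc0)]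
    exact hreg P' hP'
  have := Φ.ord_ρ_pos hρz0 hnn hP hpos
  rw [hρz, Q.ord_one] at this
  exact lt_irrefl _ this

/-- **Value lemma.** If `y ∈ O` has no pole over `Q = r P` and `y(P) = c` (so `c ∈ A` by
`val_mem`), then `(ρ y)(Q) = res c`. -/
theorem hasVal_ρ {y : Φ.O} {Q : Place k Fk} {P : Place K F} (hP : Φ.r P = Q)
    (hreg : ∀ P', Φ.r P' = Q → 0 ≤ P'.ord (y : F)) {c : Φ.A} (hc : HasVal P (y : F) (c : K)) :
    HasVal Q (Φ.ρ y) (Φ.res c) := by
  set z : Φ.O := y - Φ.const c with hz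
  have hzcoe : (z : F) = (y : F) - algebraMap K F (c : K) := rfl
  have hρz : Φ.ρ z = Φ.ρ y - algebraMap k Fk (Φ.res c) := by
    rw [hz, map_sub, Φ.ρ_const']
  by_cases h0 : Φ.ρ z = 0
  · left; rw [← hρz, h0]
  · right
    rw [← hρz]
    refine Φ.ord_ρ_pos h0 (fun P' hP' => ?_) hP ?_
    · rw [hzcoe]
      exact ord_sub_nonneg P' (hreg P' hP') (by rw [ord_algebraMap])
    · rw [hzcoe]
      have hne : (y : F) - algebraMap K F (c : K) ≠ 0 := by
        rw [← hzcoe]; exact Φ.coe_ne_zero h0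
      exact hc.resolve_left hne

end Red

end RedCore

end Fermat.Agent.S15.H722

end
end
-- ===== PACK-END S15/H722/RedCore.lean

-- ===== PACK-BEGIN S15/H722/CuspCrit.lean
section


/-!
# S15 / COMPAT (helper722): the abstract cusp criterion

Setting: a place reduction `Φ : RedCore K F k Fk` and a "coordinate at infinity" `x ∈ O`
(in the application `x = 1 / j`) with integral inverse `xi` (`= j`) such that `r` maps zeros of
`x` to zeros of `ρ x` and poles of `x` to poles of `ρ x` (`InfCoord`; both follow from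
"`deg x = deg ρ x`").

* `InfCoord.ord_ρx_pos` : a place `W` with `x(W) ∈ 𝔪_A` reduces to a zero of `ρ x`
  (a place with non-integral `j`-value reduces to a cusp);
* `InfCoord.near_cusp` : such a `W` has the same reduction as some zero `C` of `x` (a cusp), and
  for every integral function `u` with poles only at poles of `x`, the values `u(W)`, `u(C)` are
  integral with the same residue;
* `InfCoord.r_eq_of_two_cusps` : if `x` has exactly two zeros `C₁, C₀` and `u` takes the values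
  `1` and `0` there, then `r W = r C₁` if `u(W)` is a unit and `r W = r C₀` otherwise.
-/

set_option autoImplicit false

noncomputable section

open AlgebraicCurve

namespace Fermat.Agent.S15.H722

open Fermat.Agent.Lib.RR Fermat.Agent.S18.H725

variable {K F k Fk : Type*} [Field K] [Field F] [Algebra K F] [Field k] [Field Fk] [Algebra k Fk]

/-- A coordinate at infinity for a place reduction. -/
structure InfCoord (Φ : RedCore K F k Fk) where
  /-- the coordinate (`1 / j`) -/
  x : Φ.O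
  /-- its inverse (`j`) -/
  xi : Φ.O
  mul_eq_one : (x : F) * (xi : F) = 1
  /-- zeros of `x` reduce to zeros of `ρ x` -/
  zero_to_zero : ∀ P : Place K F, 0 < P.ord (x : F) → 0 < (Φ.r P).ord (Φ.ρ x)
  /-- poles of `x` reduce to poles of `ρ x` -/
  pole_to_pole : ∀ P : Place K F, P.ord (x : F) < 0 → (Φ.r P).ord (Φ.ρ x) < 0

namespace InfCoord

variable {Φ : RedCore K F k Fk} (X : InfCoord Φ)

theorem x_mul_xi : X.x * X.xi = 1 := Subtype.ext X.mul_eq_one

theorem x_ne_zero : (X.x : F) ≠ 0 := left_ne_zero_of_mul_eq_one X.mul_eq_one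

theorem xi_ne_zero : (X.xi : F) ≠ 0 := right_ne_zero_of_mul_eq_one X.mul_eq_one

theorem xi_eq_inv : (X.xi : F) = (X.x : F)⁻¹ := eq_inv_of_mul_eq_one_right X.mul_eq_one

theorem ρx_mul_ρxi : Φ.ρ X.x * Φ.ρ X.xi = 1 := by
  rw [← map_mul, X.x_mul_xi, map_one]

theorem ρx_ne_zero : Φ.ρ X.x ≠ 0 := left_ne_zero_of_mul_eq_one X.ρx_mul_ρxi

theorem ord_xi (P : Place K F) : P.ord (X.xi : F) = -P.ord (X.x : F) := by
  rw [X.xi_eq_inv, P.ord_inv]

variable [HasPrincipalDivisors K F]

/-- A place at which `x` takes a non-unit value reduces to a zero of `ρ x`. -/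
theorem ord_ρx_pos {W : Place K F} {c : Φ.A} (hc : ¬ IsUnit c) (hW : HasVal W (X.x : F) (c : K)) :
    0 < (Φ.r W).ord (Φ.ρ X.x) := by
  by_cases hc0 : (c : K) = 0
  · rw [hc0] at hW
    exact X.zero_to_zero W (hW.ord_pos_of_zero X.x_ne_zero)
  -- `z = 1 - c * xi = (x - c) * xi` reduces to `1` and vanishes at `W`
  set z : Φ.O := 1 - Φ.const c * X.xi with hz
  have hzcoe : (z : F) = 1 - algebraMap K F (c : K) * (X.xi : F) := rfl
  have hρz : Φ.ρ z = 1 := by
    rw [hz, map_sub, map_one, map_mul, Φ.ρ_const', Φ.res_eq_zero c hc, map_zero, zero_mul,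
      sub_zero]
  have hρz0 : Φ.ρ z ≠ 0 := by rw [hρz]; exact one_ne_zero
  have hzne : (z : F) ≠ 0 := Φ.coe_ne_zero hρz0
  have hfac : (z : F) = ((X.x : F) - algebraMap K F (c : K)) * (X.xi : F) := by
    rw [hzcoe, sub_mul, X.mul_eq_one]
  have hxc : (X.x : F) - algebraMap K F (c : K) ≠ 0 := by
    intro h0
    rw [hfac, h0, zero_mul] at hzne
    exact hzne rfl
  have hordx : W.ord (X.x : F) = 0 := ord_eq_zero_of_sub_pos W hc0 hW
  have hpos : 0 < W.ord (z : F) := by
    rw [hfac, W.ord_mul hxc X.xi_ne_zero, X.ord_xi, hordx, neg_zero, add_zero]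
    exact hW.resolve_left hxc
  obtain ⟨P, hP, hPneg⟩ := Φ.exists_neg_of_ord_ρ_nonpos hρz0
    (by rw [hρz, (Φ.r W).ord_one]) rfl hpos
  -- `z` has a pole at `P`, hence `xi` has a pole at `P`, i.e. `x` vanishes at `P`
  have hxipole : P.ord (X.xi : F) < 0 := by
    by_contra hcon
    push Not at hcon
    have h1 : 0 ≤ P.ord (algebraMap K F (c : K) * (X.xi : F)) := by
      rw [ord_const_mul P hc0]; exact hcon
    have h2 : 0 ≤ P.ord (z : F) := by
      rw [hzcoe]
      exact ord_sub_nonneg P (by rw [P.ord_one]) h1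
    omega
  have hxzero : 0 < P.ord (X.x : F) := by
    have := X.ord_xi P
    omega
  have := X.zero_to_zero P hxzero
  rwa [hP] at this

omit [HasPrincipalDivisors K F] in
/-- A function with poles only at poles of `x` is regular over every zero of `ρ x`. -/
theorem regular_over {u : Φ.O} (hu : ∀ P : Place K F, P.ord (u : F) < 0 → P.ord (X.x : F) < 0)
    {Q : Place k Fk} (hQ : 0 < Q.ord (Φ.ρ X.x)) (P : Place K F) (hP : Φ.r P = Q) :
    0 ≤ P.ord (u : F) := by
  by_contra hcon
  push Not at hcon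
  have := X.pole_to_pole P (hu P hcon)
  rw [hP] at this
  omega

/-- **Value lemma near the cusps.** -/
theorem hasVal_near {u : Φ.O} (hu : ∀ P : Place K F, P.ord (u : F) < 0 → P.ord (X.x : F) < 0)
    {P : Place K F} (hP : 0 < (Φ.r P).ord (Φ.ρ X.x)) {b : K} (hb : HasVal P (u : F) b) :
    ∃ hbA : b ∈ Φ.A, HasVal (Φ.r P) (Φ.ρ u) (Φ.res ⟨b, hbA⟩) := by
  have hreg := X.regular_over hu hP
  have hbA : b ∈ Φ.A := Φ.val_mem rfl hreg hb
  exact ⟨hbA, Φ.hasVal_ρ (c := ⟨b, hbA⟩) rfl hreg hb⟩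

/-- **Cusp criterion, general form.** A place `W` at which `x` takes a non-unit value has the same
reduction as some zero `C` of `x`, and every integral function `u` with poles only at poles of `x`
takes at `W` and `C` integral values with the same residue. -/
theorem near_cusp {W : Place K F} {c : Φ.A} (hc : ¬ IsUnit c) (hW : HasVal W (X.x : F) (c : K)) :
    ∃ C : Place K F, 0 < C.ord (X.x : F) ∧ Φ.r C = Φ.r W ∧
      ∀ u : Φ.O, (∀ P : Place K F, P.ord (u : F) < 0 → P.ord (X.x : F) < 0) →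
        ∀ b β : K, HasVal W (u : F) b → HasVal C (u : F) β →
          ∃ (hb : b ∈ Φ.A) (hβ : β ∈ Φ.A), Φ.res ⟨b, hb⟩ = Φ.res ⟨β, hβ⟩ := by
  have hQ := X.ord_ρx_pos hc hW
  obtain ⟨C, hCr, hC⟩ := Φ.exists_pos_of_ord_ρ_pos X.ρx_ne_zero hQ
  refine ⟨C, hC, hCr, fun u hu b β hWu hCu => ?_⟩
  obtain ⟨hb, h1⟩ := X.hasVal_near hu hQ hWu
  have hQ' : 0 < (Φ.r C).ord (Φ.ρ X.x) := by rw [hCr]; exact hQ
  obtain ⟨hβ, h2⟩ := X.hasVal_near hu hQ' hCu
  rw [hCr] at h2
  exact ⟨hb, hβ, h1.unique h2⟩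

/-- **Cusp criterion for two cusps.** Suppose `x` has exactly the zeros `C₁` and `C₀`, and `u` is an
integral function with poles only at poles of `x` taking the values `1` at `C₁` and `0` at `C₀`.
Let `W` be a place at which `x` takes a non-unit value and `u` the value `b`.  Then `b` is integral,
`r W = r C₁` if `b` reduces to a nonzero element, and `r W = r C₀` if `b` reduces to `0`. -/
theorem r_eq_of_two_cusps {C₁ C₀ : Place K F}
    (hcusps : ∀ P : Place K F, 0 < P.ord (X.x : F) → P = C₁ ∨ P = C₀)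
    {u : Φ.O} (hu : ∀ P : Place K F, P.ord (u : F) < 0 → P.ord (X.x : F) < 0)
    (hu₁ : HasVal C₁ (u : F) 1) (hu₀ : HasVal C₀ (u : F) 0)
    {W : Place K F} {c : Φ.A} (hc : ¬ IsUnit c) (hW : HasVal W (X.x : F) (c : K))
    {b : K} (hb : HasVal W (u : F) b) :
    ∃ hbA : b ∈ Φ.A, (Φ.res ⟨b, hbA⟩ ≠ 0 → Φ.r W = Φ.r C₁) ∧
      (Φ.res ⟨b, hbA⟩ = 0 → Φ.r W = Φ.r C₀) := by
  obtain ⟨C, hC, hCr, hval⟩ := X.near_cusp hc hW
  have hbA : b ∈ Φ.A := by
    obtain ⟨h, -⟩ := X.hasVal_near hu (X.ord_ρx_pos hc hW) hb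
    exact h
  refine ⟨hbA, fun hne => ?_, fun h0 => ?_⟩
  · rcases hcusps C hC with rfl | rfl
    · exact hCr.symm
    · exfalso
      obtain ⟨hb', hβ, h⟩ := hval u hu b 0 hb hu₀
      apply hne
      have h0 : Φ.res ⟨0, hβ⟩ = 0 := map_zero Φ.res
      rw [← h0, ← h]
  · rcases hcusps C hC with rfl | rfl
    · exfalso
      obtain ⟨hb', hβ, h⟩ := hval u hu b 1 hb hu₁
      have h1 : Φ.res ⟨1, hβ⟩ = 1 := map_one Φ.res
      have h2 : Φ.res ⟨b, hb'⟩ = 0 := h0
      rw [h2, h1] at h
      exact zero_ne_one h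
    · exact hCr.symm

end InfCoord

end Fermat.Agent.S15.H722

end
end
-- ===== PACK-END S15/H722/CuspCrit.lean

-- ===== PACK-BEGIN S15/H722/ModRed.lean
section



/-!
# S15 / COMPAT (helper722): the modular instance of `RedCore`

From a place reduction `r` in the sense of the Prelude (`IsPlaceReductionAlong A π N r`) we build
`modRedCore : RedCore L F k F_k` with `O` = integral `q`-series of `F` whose reduction lies in
`F_k`, and we exhibit `j`, `1/j`, `j_d` (`d ∣ N`) as elements of `O`.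
-/

set_option autoImplicit false

noncomputable section

open AlgebraicCurve ModularCurve HahnSeries

namespace Fermat.Agent.S15.H722

section Series

variable {L : Type*} [Field L] (A : ValuationSubring L) {k : Type*} [Field k] (π : A →+* k)
variable (F : IntermediateField L (LaurentSeries L)) (Fk : IntermediateField k (LaurentSeries k))

theorem coeffMap_subtype_inj : Function.Injective (coeffMap A.subtype) := by
  intro x y h
  ext n
  have := congrArg (fun z : LaurentSeries L => z.coeff n) h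
  simp only [coeffMap_coeff] at this
  exact this

/-- `f ∈ F` is an integral `q`-series whose reduction lies in `F_k`. -/
def IsInt (f : F) : Prop :=
  ∃ y : LaurentSeries A, coeffMap A.subtype y = (f : LaurentSeries L) ∧ coeffMap π y ∈ Fk

/-- the ring of integral `q`-series of `F` with reduction in `F_k` -/
def intO : Subring F where
  carrier := {f | IsInt A π F Fk f}
  mul_mem' := by
    rintro f g ⟨y, hy, hyk⟩ ⟨z, hz, hzk⟩
    refine ⟨y * z, ?_, ?_⟩
    · rw [map_mul, hy, hz]; rfl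
    · rw [map_mul]; exact mul_mem hyk hzk
  one_mem' := ⟨1, by rw [map_one]; rfl, by rw [map_one]; exact one_mem _⟩
  add_mem' := by
    rintro f g ⟨y, hy, hyk⟩ ⟨z, hz, hzk⟩
    refine ⟨y + z, ?_, ?_⟩
    · rw [map_add, hy, hz]; rfl
    · rw [map_add]; exact add_mem hyk hzk
  zero_mem' := ⟨0, by rw [map_zero]; rfl, by rw [map_zero]; exact zero_mem _⟩
  neg_mem' := by
    rintro f ⟨y, hy, hyk⟩
    refine ⟨-y, ?_, ?_⟩
    · rw [map_neg, hy]; rfl
    · rw [map_neg]; exact neg_mem hyk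

/-- the integral series representing an element of `intO` -/
def ser (f : intO A π F Fk) : LaurentSeries A := (f.2 : IsInt A π F Fk f).choose

theorem coeffMap_ser (f : intO A π F Fk) :
    coeffMap A.subtype (ser A π F Fk f) = ((f : F) : LaurentSeries L) :=
  (f.2 : IsInt A π F Fk f).choose_spec.1

theorem coeffMap_ser_mem (f : intO A π F Fk) : coeffMap π (ser A π F Fk f) ∈ Fk :=
  (f.2 : IsInt A π F Fk f).choose_spec.2

theorem ser_eq (f : intO A π F Fk) {y : LaurentSeries A}
    (hy : coeffMap A.subtype y = ((f : F) : LaurentSeries L)) : ser A π F Fk f = y :=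
  coeffMap_subtype_inj A ((coeffMap_ser A π F Fk f).trans hy.symm)

/-- the reduction of integral series -/
def redO : intO A π F Fk →+* Fk where
  toFun f := ⟨coeffMap π (ser A π F Fk f), coeffMap_ser_mem A π F Fk f⟩
  map_one' := by
    apply Subtype.ext
    show coeffMap π (ser A π F Fk 1) = 1
    rw [ser_eq A π F Fk 1 (y := 1) (by rw [map_one]; rfl), map_one]
  map_mul' f g := by
    apply Subtype.ext
    show coeffMap π (ser A π F Fk (f * g))
      = coeffMap π (ser A π F Fk f) * coeffMap π (ser A π F Fk g)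
    rw [ser_eq A π F Fk (f * g) (y := ser A π F Fk f * ser A π F Fk g)
      (by rw [map_mul, coeffMap_ser, coeffMap_ser]; rfl), map_mul]
  map_zero' := by
    apply Subtype.ext
    show coeffMap π (ser A π F Fk 0) = 0
    rw [ser_eq A π F Fk 0 (y := 0) (by rw [map_zero]; rfl), map_zero]
  map_add' f g := by
    apply Subtype.ext
    show coeffMap π (ser A π F Fk (f + g))
      = coeffMap π (ser A π F Fk f) + coeffMap π (ser A π F Fk g)
    rw [ser_eq A π F Fk (f + g) (y := ser A π F Fk f + ser A π F Fk g)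
      (by rw [map_add, coeffMap_ser, coeffMap_ser]; rfl), map_add]

theorem coe_redO (f : intO A π F Fk) {y : LaurentSeries A}
    (hy : coeffMap A.subtype y = ((f : F) : LaurentSeries L)) :
    ((redO A π F Fk f : Fk) : LaurentSeries k) = coeffMap π y := by
  show coeffMap π (ser A π F Fk f) = coeffMap π y
  rw [ser_eq A π F Fk f hy]

theorem const_isInt (a : A) : IsInt A π F Fk (algebraMap L F (a : L)) := by
  refine ⟨HahnSeries.single 0 a, ?_, ?_⟩
  · rw [coeffMap_single]
    show HahnSeries.single 0 (a : L) = algebraMap L (LaurentSeries L) (a : L)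
    rw [algebraMap_laurentSeries_eq_single]
  · rw [coeffMap_single, ← algebraMap_laurentSeries_eq_single]
    exact Fk.algebraMap_mem _

theorem redO_const (a : A) :
    redO A π F Fk ⟨algebraMap L F (a : L), const_isInt A π F Fk a⟩ = algebraMap k Fk (π a) := by
  apply Subtype.ext
  rw [coe_redO A π F Fk ⟨_, const_isInt A π F Fk a⟩ (y := HahnSeries.single 0 a)]
  · rw [coeffMap_single, ← algebraMap_laurentSeries_eq_single]
    rfl
  · rw [coeffMap_single]
    show HahnSeries.single 0 (a : L) = algebraMap L (LaurentSeries L) (a : L)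
    rw [algebraMap_laurentSeries_eq_single]

/-- an element of `intO` from an integral series -/
def ofSer (y : LaurentSeries A) (hy : coeffMap A.subtype y ∈ F) (hyk : coeffMap π y ∈ Fk) :
    intO A π F Fk :=
  ⟨⟨coeffMap A.subtype y, hy⟩, y, rfl, hyk⟩

@[simp] theorem coe_ofSer (y : LaurentSeries A) (hy : coeffMap A.subtype y ∈ F)
    (hyk : coeffMap π y ∈ Fk) :
    ((ofSer A π F Fk y hy hyk : intO A π F Fk) : F) = ⟨coeffMap A.subtype y, hy⟩ := rfl

theorem redO_ofSer (y : LaurentSeries A) (hy : coeffMap A.subtype y ∈ F)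
    (hyk : coeffMap π y ∈ Fk) :
    redO A π F Fk (ofSer A π F Fk y hy hyk) = ⟨coeffMap π y, hyk⟩ :=
  Subtype.ext (coe_redO A π F Fk _ rfl)

end Series

section Instance

variable {L : Type*} [Field L] [Algebra ℚ L] (A : ValuationSubring L)
variable {k : Type*} [Field k] (π : A →+* k) (N : ℕ)

/-- **The modular instance of `RedCore`.** -/
def modRedCore (hπ : ∀ a : A, ¬ IsUnit a → π a = 0)
    (r : Place L (laurentBaseChange L (modularFunctionFieldFull N)) →
      Place k (modularFunctionFieldFullC k N))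
    (hr : IsPlaceReductionAlong A π N r) :
    RedCore L (laurentBaseChange L (modularFunctionFieldFull N)) k
      (modularFunctionFieldFullC k N) where
  A := A
  res := π
  res_eq_zero := hπ
  O := intO A π (laurentBaseChange L (modularFunctionFieldFull N)) (modularFunctionFieldFullC k N)
  ρ := redO A π (laurentBaseChange L (modularFunctionFieldFull N)) (modularFunctionFieldFullC k N)
  const_mem := const_isInt A π _ _
  ρ_const := redO_const A π _ _
  r := r
  red := by
    intro y hy D hD Q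
    have h1 := coeffMap_ser A π (laurentBaseChange L (modularFunctionFieldFull N))
      (modularFunctionFieldFullC k N) y
    have hmem : coeffMap A.subtype (ser A π _ _ y) ∈
        laurentBaseChange L (modularFunctionFieldFull N) := by
      rw [h1]; exact Subtype.mem _
    have hyeq : (⟨coeffMap A.subtype (ser A π _ _ y), hmem⟩ :
        laurentBaseChange L (modularFunctionFieldFull N)) = (y : laurentBaseChange L
          (modularFunctionFieldFull N)) := Subtype.ext h1
    have hne : coeffMap π (ser A π (laurentBaseChange L (modularFunctionFieldFull N))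
        (modularFunctionFieldFullC k N) y) ≠ 0 := by
      intro h0
      apply hy
      apply Subtype.ext
      exact h0
    have := hr.2 (ser A π _ _ y) hmem (coeffMap_ser_mem A π _ _ y) hne D
      (fun P => by rw [hD P, hyeq]) Q
    exact this

end Instance

end Fermat.Agent.S15.H722

end
end
-- ===== PACK-END S15/H722/ModRed.lean

-- ===== PACK-BEGIN S15/H722/HasValAlg.lean
section


/-!
# S15 / COMPAT (helper722): algebra of values at a place
-/

set_option autoImplicit false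

noncomputable section

open AlgebraicCurve

namespace Fermat.Agent.S15.H722

open Fermat.Agent.Lib.RR Fermat.Agent.S18.H725

variable {K F : Type*} [Field K] [Field F] [Algebra K F]

/-- `HasVal` in terms of the residue map. -/
theorem hasVal_iff_residue {P : Place K F} {f : F} {c : K} :
    HasVal P f c ↔ ∃ h : f ∈ P.toValuationSubring,
      IsLocalRing.residue P.toValuationSubring ⟨f, h⟩ = algebraMap K P.ResidueField c := by
  constructor
  · intro hv
    have hmem : f ∈ P.toValuationSubring := mem_of_ord_nonneg P hv.ord_nonneg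
    refine ⟨hmem, ?_⟩
    have hsub : (⟨f, hmem⟩ - algebraMap K P.toValuationSubring c : P.toValuationSubring) ∈
        IsLocalRing.maximalIdeal P.toValuationSubring := by
      rw [mem_maximalIdeal_iff]
      have hv' : f - algebraMap K F c = 0 ∨ 0 < P.ord (f - algebraMap K F c) := hv
      simpa using hv'
    have := (IsLocalRing.residue_eq_zero_iff _).mpr hsub
    rw [map_sub, sub_eq_zero] at this
    rw [this, IsScalarTower.algebraMap_apply K P.toValuationSubring P.ResidueField]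
    rfl
  · rintro ⟨hmem, hres⟩
    have hsub : IsLocalRing.residue P.toValuationSubring
        (⟨f, hmem⟩ - algebraMap K P.toValuationSubring c) = 0 := by
      rw [map_sub, hres, IsScalarTower.algebraMap_apply K P.toValuationSubring P.ResidueField]
      exact sub_self _
    rw [IsLocalRing.residue_eq_zero_iff, mem_maximalIdeal_iff] at hsub
    have hsub' : f - algebraMap K F c = 0 ∨ 0 < P.ord (f - algebraMap K F c) := by
      simpa using hsub
    exact hsub'

theorem hasVal_const (P : Place K F) (c : K) : HasVal P (algebraMap K F c) c :=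
  Or.inl (sub_self _)

theorem HasVal.mul {P : Place K F} {f g : F} {a b : K} (hf : HasVal P f a) (hg : HasVal P g b) :
    HasVal P (f * g) (a * b) := by
  rw [hasVal_iff_residue] at hf hg ⊢
  obtain ⟨hfm, hfr⟩ := hf
  obtain ⟨hgm, hgr⟩ := hg
  refine ⟨mul_mem hfm hgm, ?_⟩
  have : (⟨f * g, mul_mem hfm hgm⟩ : P.toValuationSubring) = ⟨f, hfm⟩ * ⟨g, hgm⟩ := rfl
  rw [this, map_mul, hfr, hgr, map_mul]

theorem HasVal.add {P : Place K F} {f g : F} {a b : K} (hf : HasVal P f a) (hg : HasVal P g b) :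
    HasVal P (f + g) (a + b) := by
  rw [hasVal_iff_residue] at hf hg ⊢
  obtain ⟨hfm, hfr⟩ := hf
  obtain ⟨hgm, hgr⟩ := hg
  refine ⟨add_mem hfm hgm, ?_⟩
  have : (⟨f + g, add_mem hfm hgm⟩ : P.toValuationSubring) = ⟨f, hfm⟩ + ⟨g, hgm⟩ := rfl
  rw [this, map_add, hfr, hgr, map_add]

theorem HasVal.pow {P : Place K F} {f : F} {a : K} (hf : HasVal P f a) (n : ℕ) :
    HasVal P (f ^ n) (a ^ n) := by
  induction n with
  | zero =>
    rw [pow_zero, pow_zero]
    have := hasVal_const P (1 : K)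
    rwa [map_one] at this
  | succ n ih =>
    rw [pow_succ, pow_succ]
    exact ih.mul hf

theorem HasVal.inv {P : Place K F} {f : F} {a : K} (hf : HasVal P f a) (ha : a ≠ 0) :
    HasVal P f⁻¹ a⁻¹ := by
  have hord : P.ord f = 0 := ord_eq_zero_of_sub_pos P ha hf
  have hf0 : f ≠ 0 := by
    rintro rfl
    rcases hf with h | h
    · rw [zero_sub, neg_eq_zero] at h
      exact ((map_ne_zero (algebraMap K F)).mpr ha) h
    · rw [zero_sub, ord_neg, ord_algebraMap] at h
      exact lt_irrefl _ h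
  have hinvm : f⁻¹ ∈ P.toValuationSubring := mem_of_ord_nonneg P (by rw [P.ord_inv, hord]; simp)
  have hfg := hf
  rw [hasVal_iff_residue] at hf ⊢
  obtain ⟨hfm, hfr⟩ := hf
  refine ⟨hinvm, ?_⟩
  have hmul : (⟨f, hfm⟩ : P.toValuationSubring) * ⟨f⁻¹, hinvm⟩ = 1 :=
    Subtype.ext (mul_inv_cancel₀ hf0)
  have h1 := congrArg (IsLocalRing.residue P.toValuationSubring) hmul
  rw [map_mul, map_one, hfr] at h1
  rw [map_inv₀]
  exact eq_inv_of_mul_eq_one_right h1

theorem HasVal.div {P : Place K F} {f g : F} {a b : K} (hf : HasVal P f a) (hg : HasVal P g b)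
    (hb : b ≠ 0) : HasVal P (f / g) (a / b) := by
  rw [div_eq_mul_inv, div_eq_mul_inv]
  exact hf.mul (hg.inv hb)

theorem HasVal.ord_eq_zero {P : Place K F} {f : F} {a : K} (hf : HasVal P f a) (ha : a ≠ 0) :
    P.ord f = 0 :=
  ord_eq_zero_of_sub_pos P ha hf

/-- a function vanishing at `P` has value `0` after multiplication by a regular function -/
theorem hasVal_zero_mul {P : Place K F} {f g : F} (hf : HasVal P f 0) (hg : 0 ≤ P.ord g) :
    HasVal P (f * g) 0 := by
  rcases eq_or_ne f 0 with rfl | hf0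
  · rw [zero_mul]; exact Or.inl (by simp)
  rcases eq_or_ne g 0 with rfl | hg0
  · rw [mul_zero]; exact Or.inl (by simp)
  right
  rw [map_zero, sub_zero, P.ord_mul hf0 hg0]
  have := hf.ord_pos_of_zero hf0
  omega

end Fermat.Agent.S15.H722

end
end
-- ===== PACK-END S15/H722/HasValAlg.lean

-- ===== PACK-BEGIN S15/H602/IdentCore.lean
section


/-!
# S15 / GEO-PARTS (b) IDENT (helper602): the abstract core

Pure `Finsupp` combinatorics and the type separation on an abstract place reduction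
(`H722.RedCore`, `H722.InfCoord`).

* `mapDomain_filter_eq_zero_of_saturated602` : if `r_* D = 0` and `S` is saturated for `r` on the
  support of `D`, then `r_* (D|_S) = 0`;
* `mapDomain_eq_of_parts602` : if moreover `E₀` is the polar part of `D|_S`, `0 ≤ E₁ ≤` the zero
  part of `D|_S` and `deg E₁ = deg E₀`, then `r_* E₁ = r_* E₀`;
* `NearCusp602`, `res_eq_of_r_eq602` : two places near the cusps (non-unit value of the
  coordinate `x = 1 / j`) with the same reduction give the same residue to every integral function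
  `u` with poles only at poles of `x`.
-/

set_option autoImplicit false

noncomputable section

open AlgebraicCurve

namespace Fermat.Agent.S15.H602

section Pure

variable {α β : Type*}

theorem mapDomain_apply_eq_sum602 [DecidableEq β] (r : α → β) (D : α →₀ ℤ) (Q : β) :
    Finsupp.mapDomain r D Q = ∑ a ∈ D.support, if r a = Q then D a else 0 := by
  classical
  rw [Finsupp.mapDomain, Finsupp.sum_apply, Finsupp.sum]
  refine Finset.sum_congr rfl fun a _ => ?_
  rw [Finsupp.single_apply]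

/-- If `r_* D = 0` and `S` is a union of fibres of `r` on the support of `D`, then
`r_* (D|_S) = 0`. -/
theorem mapDomain_filter_eq_zero_of_saturated602 (r : α → β) (D : α →₀ ℤ)
    (hD : Finsupp.mapDomain r D = 0) (S : α → Prop) [DecidablePred S]
    (hsat : ∀ a b, D a ≠ 0 → D b ≠ 0 → r a = r b → S a → S b) :
    Finsupp.mapDomain r (D.filter S) = 0 := by
  classical
  ext Q
  rw [Finsupp.zero_apply, mapDomain_apply_eq_sum602]
  by_cases hex : ∃ a, D a ≠ 0 ∧ S a ∧ r a = Q
  · obtain ⟨a₀, ha₀, hSa₀, hra₀⟩ := hex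
    have h0 : Finsupp.mapDomain r D Q = 0 := by rw [hD, Finsupp.zero_apply]
    rw [mapDomain_apply_eq_sum602] at h0
    have key : (∑ a ∈ (D.filter S).support, if r a = Q then (D.filter S) a else 0) =
        ∑ a ∈ D.support, if r a = Q then D a else 0 := by
      rw [Finsupp.support_filter, Finset.sum_filter]
      refine Finset.sum_congr rfl fun a ha => ?_
      have haD : D a ≠ 0 := Finsupp.mem_support_iff.mp ha
      by_cases hra : r a = Q
      · have hSa : S a := hsat a₀ a ha₀ haD (hra₀.trans hra.symm) hSa₀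
        rw [if_pos hSa, if_pos hra, if_pos hra, Finsupp.filter_apply_pos S D hSa]
      · rw [if_neg hra, if_neg hra]
        simp
    rw [key, h0]
  · push Not at hex
    refine Finset.sum_eq_zero fun a ha => ?_
    rw [Finsupp.support_filter, Finset.mem_filter, Finsupp.mem_support_iff] at ha
    by_cases hra : r a = Q
    · exact absurd hra (hex a ha.1 ha.2)
    · rw [if_neg hra]

/-- The weighted degree of a finitely supported function. -/
def wdeg602 (w : α → ℤ) : (α →₀ ℤ) →+ ℤ :=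
  Finsupp.liftAddHom fun a => AddMonoidHom.mulRight (w a)

@[simp] theorem wdeg602_single (w : α → ℤ) (a : α) (n : ℤ) :
    wdeg602 w (Finsupp.single a n) = n * w a := by
  simp [wdeg602]

theorem wdeg602_eq_sum (w : α → ℤ) (E : α →₀ ℤ) :
    wdeg602 w E = ∑ a ∈ E.support, E a * w a := by
  simp [wdeg602, Finsupp.liftAddHom_apply, Finsupp.sum]

/-- An effective `E` of weighted degree `0` (positive weights) is `0`. -/
theorem eq_zero_of_wdeg602_eq_zero (w : α → ℤ) (hw : ∀ a, 0 < w a) (E : α →₀ ℤ)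
    (hE : ∀ a, 0 ≤ E a) (h0 : wdeg602 w E = 0) : E = 0 := by
  classical
  rw [wdeg602_eq_sum] at h0
  have hnn : ∀ a ∈ E.support, 0 ≤ E a * w a := fun a _ => mul_nonneg (hE a) (hw a).le
  have hz := (Finset.sum_eq_zero_iff_of_nonneg hnn).mp h0
  ext a
  rw [Finsupp.zero_apply]
  by_contra hne
  have ha : a ∈ E.support := Finsupp.mem_support_iff.mpr hne
  have := hz a ha
  rcases mul_eq_zero.mp this with h | h
  · exact hne h
  · exact (hw a).ne' h

/-- **Core of IDENT.**  `D` with `r_* D = 0`, `S` saturated on the support of `D`, `E₀` the polar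
part of `D|_S`, `0 ≤ E₁ ≤` the zero part of `D|_S`, `deg E₁ = deg E₀`, and `r_*` detecting the
degree: then `r_* E₁ = r_* E₀`. -/
theorem mapDomain_eq_of_parts602 (r : α → β) (w : α → ℤ) (hw : ∀ a, 0 < w a)
    (hr0 : ∀ E : α →₀ ℤ, Finsupp.mapDomain r E = 0 → wdeg602 w E = 0)
    (D : α →₀ ℤ) (hD : Finsupp.mapDomain r D = 0) (S : α → Prop)
    (hsat : ∀ a b, D a ≠ 0 → D b ≠ 0 → r a = r b → S a → S b)
    (E₁ E₀ : α →₀ ℤ)
    (hE₀ : ∀ a, (S a → D a < 0 → E₀ a = - D a) ∧ (¬ (S a ∧ D a < 0) → E₀ a = 0))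
    (hE₁ : ∀ a, 0 ≤ E₁ a ∧ (E₁ a ≠ 0 → S a ∧ E₁ a ≤ D a))
    (hdeg : wdeg602 w E₁ = wdeg602 w E₀) :
    Finsupp.mapDomain r E₁ = Finsupp.mapDomain r E₀ := by
  classical
  have hDS := mapDomain_filter_eq_zero_of_saturated602 r D hD S hsat
  -- `G = D|_S + E₀` is the zero part of `D|_S`
  set G : α →₀ ℤ := D.filter S + E₀ with hG
  have hGa : ∀ a, G a = if S a ∧ 0 < D a then D a else 0 := by
    intro a
    rw [hG, Finsupp.add_apply]
    by_cases hS : S a
    · rw [Finsupp.filter_apply_pos S D hS]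
      rcases lt_trichotomy (D a) 0 with h | h | h
      · rw [(hE₀ a).1 hS h, if_neg (by rintro ⟨-, h'⟩; omega)]; ring
      · rw [(hE₀ a).2 (by rintro ⟨-, h'⟩; omega), if_neg (by rintro ⟨-, h'⟩; omega), h]; ring
      · rw [(hE₀ a).2 (by rintro ⟨-, h'⟩; omega), if_pos ⟨hS, h⟩]; ring
    · rw [Finsupp.filter_apply_neg S D hS, (hE₀ a).2 (fun h => hS h.1),
        if_neg (fun h => hS h.1)]; ring
  have hle : ∀ a, 0 ≤ (G - E₁) a := by
    intro a
    rw [Finsupp.sub_apply, hGa]
    by_cases h1 : E₁ a = 0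
    · rw [h1, sub_zero]
      split_ifs with h
      · exact h.2.le
      · exact le_rfl
    · obtain ⟨hS, hle⟩ := (hE₁ a).2 h1
      have hpos : 0 < E₁ a := lt_of_le_of_ne (hE₁ a).1 (Ne.symm h1)
      rw [if_pos ⟨hS, lt_of_lt_of_le hpos hle⟩]
      omega
  have hdegG : wdeg602 w (G - E₁) = 0 := by
    rw [map_sub, hG, map_add, hr0 _ hDS, zero_add, hdeg, sub_self]
  have hGE : G - E₁ = 0 := eq_zero_of_wdeg602_eq_zero w hw _ hle hdegG
  have hGE' : E₁ = G := (sub_eq_zero.mp hGE).symm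
  rw [hGE', hG, Finsupp.mapDomain_add, hDS, zero_add]

theorem wdeg602_mapDomain' (r : α → β) (w : α → ℤ) (w' : β → ℤ) (hww : ∀ a, w' (r a) = w a)
    (E : α →₀ ℤ) : wdeg602 w' (Finsupp.mapDomain r E) = wdeg602 w E := by
  induction E using Finsupp.induction_linear with
  | zero => simp
  | add f g hf hg => rw [Finsupp.mapDomain_add, map_add, map_add, hf, hg]
  | single a n => rw [Finsupp.mapDomain_single, wdeg602_single, wdeg602_single, hww]

end Pure

theorem degree_eq_wdeg602' {K F : Type*} [Field K] [Field F] [Algebra K F] (D : Divisor K F) :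
    Divisor.degree D = wdeg602 (fun v : Place K F => (v.deg : ℤ)) D := rfl

section Red

open Fermat.Agent.S15.H722 Fermat.Agent.Lib.RR

variable {K F k Fk : Type*} [Field K] [Field F] [Algebra K F] [Field k] [Field Fk] [Algebra k Fk]
variable {Φ : RedCore K F k Fk} (X : InfCoord Φ)

/-- `W` is near the cusps: the coordinate `x` takes a non-unit value of `A` at `W`. -/
def NearCusp602 (W : Place K F) : Prop :=
  ∃ c : Φ.A, ¬ IsUnit c ∧ HasVal W (X.x : F) (c : K)

variable [HasPrincipalDivisors K F]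

/-- Near the cusps, an integral function with poles only at poles of `x` has integral values,
and places with the same reduction give the same residue. -/
theorem res_eq_of_r_eq602 {u : Φ.O}
    (hu : ∀ P : Place K F, P.ord (u : F) < 0 → P.ord (X.x : F) < 0)
    {W W' : Place K F} (hW : NearCusp602 X W) (hW' : NearCusp602 X W')
    (hr : Φ.r W = Φ.r W') {b b' : K} (hb : HasVal W (u : F) b) (hb' : HasVal W' (u : F) b') :
    ∃ (h : b ∈ Φ.A) (h' : b' ∈ Φ.A), Φ.res ⟨b, h⟩ = Φ.res ⟨b', h'⟩ := by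
  obtain ⟨c, hc, hWc⟩ := hW
  obtain ⟨c', hc', hWc'⟩ := hW'
  have hQ := X.ord_ρx_pos hc hWc
  have hQ' := X.ord_ρx_pos hc' hWc'
  obtain ⟨h, h1⟩ := X.hasVal_near hu hQ hb
  obtain ⟨h', h2⟩ := X.hasVal_near hu hQ' hb'
  rw [← hr] at h2
  exact ⟨h, h', h1.unique h2⟩

omit [HasPrincipalDivisors K F] in
/-- Near the cusps, an integral function with poles only at poles of `x` is regular. -/
theorem ord_nonneg_of_nearCusp602 {u : Φ.O}
    (hu : ∀ P : Place K F, P.ord (u : F) < 0 → P.ord (X.x : F) < 0)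
    {W : Place K F} (hW : NearCusp602 X W) : 0 ≤ W.ord (u : F) := by
  obtain ⟨c, -, hWc⟩ := hW
  by_contra hcon
  push Not at hcon
  have := hu W hcon
  have := hWc.ord_nonneg
  omega

end Red

end Fermat.Agent.S15.H602

end

end
-- ===== PACK-END S15/H602/IdentCore.lean

-- ===== PACK-BEGIN G1/X/Top.lean
section


/-!
# Row GLUE, G1 block X (twist exclusion) — the proved top  (acting architect helper60)

* `ordExcl_of   : NotMultType3Statement → Place3Statement → OrdExclStatement`   (block ORD, closed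
  modulo two landed citations);
* `twistExcl_of : TwistCurveStatement → ModSideStatement → LocalExclStatement → OrdExclStatement →
                  Glue.TwistExclStatement`                                     (block TOP).

Imports `X/Spec.lean` only (Mathlib + Prelude + `Glue/Spec` + the definition file
`S19/H435/Lattice`).
-/

set_option autoImplicit false

open scoped WeierstrassCurve.Affine

namespace Fermat.Agent.G1.X

/-! ## The character `ω` through `Cyclo3` -/

theorem exists_primitiveRoot_three_h60 : ∃ ζ : AlgebraicClosure ℚ, IsPrimitiveRoot ζ 3 :=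
  HasEnoughRootsOfUnity.exists_primitiveRoot (AlgebraicClosure ℚ) 3

/-- Every `τ` has an exponent `d = ω(τ)`, and `d² ≡ 1 mod 3`. -/
theorem exists_cyclo3 (τ : GQ) : ∃ d : ℕ, Cyclo3 τ d ∧ d * d % 3 = 1 := by
  obtain ⟨ζ, hζ⟩ := exists_primitiveRoot_three_h60
  refine ⟨((hζ.autToPow ℚ τ : (ZMod 3)ˣ) : ZMod 3).val, ?_, ?_⟩
  · intro ξ hξ
    obtain ⟨i, -, rfl⟩ := hζ.eq_pow_of_pow_eq_one hξ
    rw [map_pow, ← hζ.autToPow_spec ℚ τ, ← pow_mul, ← pow_mul, mul_comm]
  · have key : ∀ u : (ZMod 3)ˣ, (u : ZMod 3).val * (u : ZMod 3).val % 3 = 1 := by decide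
    exact key _

/-- An exponent of `σ` on the cube roots of unity is prime to `3`: `c² ≡ 1 mod 3`. -/
theorem cyclo3_sq {σ : GQ} {c : ℕ} (hc : Cyclo3 σ c) : c * c % 3 = 1 := by
  obtain ⟨ζ, hζ⟩ := exists_primitiveRoot_three_h60
  have h1 : IsPrimitiveRoot (σ ζ) 3 := hζ.map_of_injective σ.injective
  rw [hc ζ hζ.pow_eq_one] at h1
  have hcop : c.Coprime 3 := (hζ.pow_iff_coprime (by norm_num) c).1 h1
  have h0 : c % 3 ≠ 0 := by
    intro h
    have h3 : 3 ∣ c := Nat.dvd_of_mod_eq_zero h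
    have h31 : 3 ∣ 1 := by
      have := Nat.dvd_gcd h3 (dvd_refl 3)
      rwa [Nat.Coprime.gcd_eq_one hcop] at this
    omega
  have h12 : c % 3 = 1 ∨ c % 3 = 2 := by omega
  rw [Nat.mul_mod]
  rcases h12 with h | h <;> rw [h]

/-! ## Scalars on `W[3]` -/

theorem three_nsmul_T3 {W : WeierstrassCurve ℤ} (x : T3 W) : 3 • x = 0 := by
  apply Subtype.ext
  have h := x.2
  rw [Submodule.mem_torsionBy_iff] at h
  rw [AddSubmonoidClass.coe_nsmul, ZeroMemClass.coe_zero, ← natCast_zsmul]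
  exact h

theorem nsmul_T3_of_mod {W : WeierstrassCurve ℤ} (x : T3 W) (n : ℕ) (hn : n % 3 = 1) :
    n • x = x := by
  have e : n = (n / 3) * 3 + 1 := by omega
  rw [e, add_nsmul, one_nsmul, mul_nsmul, three_nsmul_T3, zero_add]

/-! ## Block ORD -/

/-- **Block ORD**: if `W[3]` has no inertia-fixed vector, an `ω`-twist of `W[3]` is not
`ω`-ordinary at `3`. -/
theorem ordExcl_of (hNMT : NotMultType3Statement) (hPl : Place3Statement) : OrdExclStatement := by
  intro W hΔ h3 hfix W' hTw hord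
  obtain ⟨T, hT⟩ := hTw
  obtain ⟨A, hA⟩ := hPl
  apply hNMT W hΔ h3 A hA
  intro σ hσ c hc u
  have hcc : c * c % 3 = 1 := cyclo3_sq hc
  -- the image of `y = ω(σ) σ u - u` under `T`
  have hTy : T (c • (σ • u) - u) = σ • T u - T u := by
    rw [map_sub, map_nsmul, hT σ c hc u, ← mul_nsmul, nsmul_T3_of_mod _ _ hcc]
  -- `y` is inertia-fixed, hence zero
  have hy : c • (σ • u) - u = 0 := by
    apply hfix A hA
    intro τ hτ
    obtain ⟨d, hd, hdd⟩ := exists_cyclo3 τ
    apply T.injective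
    rw [hT τ d hd, hTy, hord A hA σ hσ τ hτ d hd (T u), ← mul_nsmul, nsmul_T3_of_mod _ _ hdd]
  have hcu : c • (σ • u) = u := sub_eq_zero.mp hy
  calc σ • u = (c * c) • (σ • u) := (nsmul_T3_of_mod _ _ hcc).symm
    _ = c • (c • (σ • u)) := mul_nsmul' _ _ _
    _ = c • u := by rw [hcu]

/-! ## Block TOP -/

/-- **Block X, top**: the twist exclusion from the four blocks. -/
theorem twistExcl_of (hTWC : TwistCurveStatement) (hMOD : ModSideStatement)
    (hLOC : LocalExclStatement) (hORD : OrdExclStatement) :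
    Fermat.Agent.Glue.TwistExclStatement := by
  intro W hΔ hW h3 hfix N r hneat h9 htw
  obtain ⟨W', hΔ', h3', hT, hres⟩ := hTWC W hΔ h3
  have h2 : 2 ∣ N := Dvd.dvd.trans (by norm_num) hneat.four_dvd
  rcases hMOD W' hΔ' h3' N hneat.pos h2 h9 (hres N htw) with hflat | hord
  · exact hLOC W hΔ hW h3 hfix W' hΔ' hT hflat
  · exact hORD W hΔ h3 hfix W' hT hord

/-- Block X from TWC, MOD, LOC and the two landed citations of ORD. -/
theorem twistExcl_of' (hTWC : TwistCurveStatement) (hMOD : ModSideStatement)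
    (hLOC : LocalExclStatement) (hNMT : NotMultType3Statement) (hPl : Place3Statement) :
    Fermat.Agent.Glue.TwistExclStatement :=
  twistExcl_of hTWC hMOD hLOC (ordExcl_of hNMT hPl)

/-! ## Glue of the sub-blocks -/

/-- **MOD from MOD-FLAT and MOD-3.** -/
theorem modSide_of (hF : ModFlatStatement) (h3 : ModThreeStatement) : ModSideStatement := by
  intro W' hΔ' hirr N hN h2 h9 hres
  by_cases h3N : 3 ∣ N
  · obtain ⟨M', rfl⟩ := h3N
    have hM' : 0 < M' := by omega
    have h3M' : ¬ 3 ∣ M' := by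
      rintro ⟨k, rfl⟩
      exact h9 ⟨k, by ring⟩
    have h2M' : 2 ∣ M' :=
      (Nat.Coprime.dvd_mul_left (by norm_num : Nat.Coprime 2 3)).1 h2
    rcases h3 W' hΔ' hirr M' hM' h2M' h3M' hres with hord | hlow
    · exact Or.inr hord
    · exact Or.inl (hF W' hΔ' hirr M' hM' h3M' hlow)
  · exact Or.inl (hF W' hΔ' hirr N hN h3N hres)

/-- **LOC from LOC-W and LOC-FT.** -/
theorem localExcl_of (hW : LocWStatement) (hFT : FlatTwistStatement) : LocalExclStatement := by
  intro W hΔ hss hirr hfix W' hΔ' hT hflat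
  obtain ⟨A, hA, x, hx, hfixed⟩ := hFT W W' hΔ hirr hΔ' hT hflat (hW W hΔ hss hirr)
  exact hx (hfix A hA x hfixed)

/-- **Block X from the five leaves** TWC, MOD-FLAT, MOD-3, LOC-W, LOC-FT and block ORD. -/
theorem twistExcl_of_leaves (hTWC : TwistCurveStatement) (hMF : ModFlatStatement)
    (hM3 : ModThreeStatement) (hLW : LocWStatement) (hFT : FlatTwistStatement)
    (hORD : OrdExclStatement) : Fermat.Agent.Glue.TwistExclStatement :=
  twistExcl_of hTWC (modSide_of hMF hM3) (localExcl_of hLW hFT) hORD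

end Fermat.Agent.G1.X

end
-- ===== PACK-END G1/X/Top.lean

-- ===== PACK-BEGIN LT/H595/SurjCore.lean
section



/-!
# Row LT (helper595): group-theoretic core of "irreducible ⟹ surjective" for `GL₂(𝔽₃)`

Let `rb : Γ →* M₂(𝔽₃)` be a representation of a group such that

* `rb` is odd: there is an involution `c` with `det (rb c) = -1`;
* `rb` is irreducible: no common eigenvector (`¬ HasLine rb`);
* (arithmetic input) IF every unipotent element of the image is trivial, THEN any two subgroups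
  of index `2` of `Γ` containing `ker rb` are equal.

Then every invertible matrix is in the image of `rb` (`surjective_core595`).

For `Γ = Gal(ℚ̄/ℚ)` and `rb` the mod `3` representation of a semistable elliptic curve the third
hypothesis holds: inertia at `q ≠ 3` is unipotent, and `ℚ` has only one quadratic extension
unramified outside `3` (`Fermat.Agent.S59.H405.index_two_eq_stab`, on main).

Steps: (I) the image contains a unipotent element `u ≠ 1` (else the image is a `2`-group with a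
unique subgroup of index `2`, hence cyclic, hence it fixes the eigenlines of `rb c`);
(II) `u` and a conjugate `u'` with another fixed line generate `SL₂(𝔽₃)`;
(III) `rb c` gives the other coset.
-/

set_option autoImplicit false

namespace Fermat.Agent.LT.H595

open Matrix Fermat.Agent.S59.H405

/-! ### Finite checks on the entries -/

theorem cube_unip595 : ∀ a b c d : ZMod 3,
    (!![a, b; c, d] : Matrix (Fin 2) (Fin 2) (ZMod 3)) * !![a, b; c, d] * !![a, b; c, d] = 1 →
    ((!![a, b; c, d] : Matrix (Fin 2) (Fin 2) (ZMod 3)) - 1) * (!![a, b; c, d] - 1) = 0 := by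
  decide

set_option synthInstance.maxSize 512 in
set_option synthInstance.maxHeartbeats 200000 in
theorem fixedVec_unip595 : ∀ a b c d : ZMod 3,
    ((!![a, b; c, d] : Matrix (Fin 2) (Fin 2) (ZMod 3)) - 1) * (!![a, b; c, d] - 1) = 0 →
    (!![a, b; c, d] : Matrix (Fin 2) (Fin 2) (ZMod 3)) ≠ 1 →
    ((a - 1 ≠ 0 ∨ c ≠ 0) ∧
      (!![a, b; c, d] : Matrix (Fin 2) (Fin 2) (ZMod 3)) *ᵥ ![a - 1, c] = ![a - 1, c]) ∨
    ((b ≠ 0 ∨ d - 1 ≠ 0) ∧
      (!![a, b; c, d] : Matrix (Fin 2) (Fin 2) (ZMod 3)) *ᵥ ![b, d - 1] = ![b, d - 1]) := by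
  decide

theorem upper_unip595 : ∀ a b c d : ZMod 3,
    ((!![a, b; c, d] : Matrix (Fin 2) (Fin 2) (ZMod 3)) - 1) * (!![a, b; c, d] - 1) = 0 →
    (!![a, b; c, d] : Matrix (Fin 2) (Fin 2) (ZMod 3)) ≠ 1 →
    (!![a, b; c, d] : Matrix (Fin 2) (Fin 2) (ZMod 3)) *ᵥ ![1, 0] = ![1, 0] →
    a = 1 ∧ c = 0 ∧ d = 1 ∧ b ≠ 0 := by
  decide

theorem lower_unip595 : ∀ a b c d : ZMod 3,
    ((!![a, b; c, d] : Matrix (Fin 2) (Fin 2) (ZMod 3)) - 1) * (!![a, b; c, d] - 1) = 0 →
    (!![a, b; c, d] : Matrix (Fin 2) (Fin 2) (ZMod 3)) ≠ 1 →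
    (!![a, b; c, d] : Matrix (Fin 2) (Fin 2) (ZMod 3)) *ᵥ ![0, 1] = ![0, 1] →
    a = 1 ∧ b = 0 ∧ d = 1 ∧ c ≠ 0 := by
  decide

/-- `SL₂(𝔽₃)` is generated by an upper and a lower elementary matrix: every element is a word
`U^i L^j U^k L^l`. -/
theorem sl2_words595 : ∀ α β : ZMod 3, α ≠ 0 → β ≠ 0 → ∀ p q r s : ZMod 3, p * s - q * r = 1 →
    ∃ i j k l : Fin 3, (!![p, q; r, s] : Matrix (Fin 2) (Fin 2) (ZMod 3))
      = (!![1, α; 0, 1] : Matrix (Fin 2) (Fin 2) (ZMod 3)) ^ (i : ℕ) * !![1, 0; β, 1] ^ (j : ℕ)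
        * !![1, α; 0, 1] ^ (k : ℕ) * !![1, 0; β, 1] ^ (l : ℕ) := by
  decide

theorem unit_cases595 : ∀ x : ZMod 3, x ≠ 0 → x = 1 ∨ x = -1 := by decide

theorem two_ne_zero595 : (2 : ZMod 3) ≠ 0 := by decide

theorem neg_one_ne_one595 : (-1 : ZMod 3) ≠ 1 := by decide

/-! ### Step I: a nontrivial unipotent element -/

section StepI

variable {Γ : Type*} [Group Γ] (rb : Γ →* Matrix (Fin 2) (Fin 2) (ZMod 3))

/-- the 16-th power of an invertible matrix over `𝔽₃` is unipotent -/
theorem pow16_unip595 (γ : Γ) : (rb (γ ^ 16) - 1) * (rb (γ ^ 16) - 1) = 0 := by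
  have h48 : rb γ ^ 48 = 1 := by
    have := pow_48_eq_one (MonoidHom.toHomUnits rb γ)
    have := congrArg Units.val this
    simpa using this
  have h3 : rb (γ ^ 16) * rb (γ ^ 16) * rb (γ ^ 16) = 1 := by
    rw [map_pow, ← pow_add, ← pow_add]
    exact h48
  have heta := Matrix.eta_fin_two (rb (γ ^ 16))
  rw [heta] at h3 ⊢
  exact cube_unip595 _ _ _ _ h3

variable {rb}

/-- a common fixed line of the centralizer of an odd involution -/
theorem hasLine_of_comm595 (c : Γ) (hcc : c * c = 1) (hdet : (rb c).det = -1)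
    (hcomm : ∀ σ, rb σ * rb c = rb c * rb σ) : HasLine rb := by
  have hC : rb c * rb c = 1 := by rw [← map_mul, hcc, map_one]
  obtain ⟨e₁, e₂, h₁, h₂, hcr⟩ := exists_eigen_of_invol two_ne_zero595 (rb c) hC hdet
  have he₁ : e₁ ≠ 0 := ne_zero_of_crs_left hcr
  have he₂ : e₂ ≠ 0 := ne_zero_of_crs_right hcr
  refine ⟨e₁, he₁, fun σ => ?_⟩
  rw [isEig_iff_crs he₁]
  -- `w = rb σ e₁` is fixed by `rb c`
  set w := rb σ *ᵥ e₁ with hw
  have hfix : rb c *ᵥ w = w := by
    rw [hw, Matrix.mulVec_mulVec, ← hcomm σ, ← Matrix.mulVec_mulVec, h₁]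
  have hE : IsEig ((rb c).map (RingHom.id (ZMod 3))) w := by
    refine ⟨1, ?_⟩
    have : (rb c).map (RingHom.id (ZMod 3)) = rb c := by
      ext i j; rfl
    rw [this, hfix, one_smul]
  rcases eig_invol (RingHom.id (ZMod 3)) two_ne_zero595 (rb c) hdet h₁ h₂ w hE with h | h
  · exact h
  · -- `w` is parallel to `e₂`, hence `w = -w`, hence `w = 0`
    have h' : crs w e₂ = 0 := h
    obtain ⟨t, ht⟩ := exists_smul_of_crs he₂ h'
    have h3 : w = -w := by
      conv_lhs => rw [← hfix, ht, Matrix.mulVec_smul, h₂]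
      rw [ht, smul_neg]
    have h4 : w = 0 := by
      have h5 : (2 : ZMod 3) • w = 0 := by
        rw [two_smul]
        nth_rewrite 1 [h3]
        exact neg_add_cancel w
      rcases smul_eq_zero.mp h5 with h6 | h6
      · exact absurd h6 two_ne_zero595
      · exact h6
    rw [h4]
    unfold crs
    simp

/-- **Step I.** -/
theorem exists_unip595 (c : Γ) (hcc : c * c = 1) (hdet : (rb c).det = -1)
    (hirr : ¬ HasLine rb)
    (huniq : (∀ γ, (rb γ - 1) * (rb γ - 1) = 0 → rb γ = 1) →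
      ∀ G₁ G₂ : Subgroup Γ, G₁.index = 2 → G₂.index = 2 →
        (∀ τ, rb τ = 1 → τ ∈ G₁) → (∀ τ, rb τ = 1 → τ ∈ G₂) → G₁ = G₂) :
    ∃ γ, (rb γ - 1) * (rb γ - 1) = 0 ∧ rb γ ≠ 1 := by
  by_contra hcon
  have htriv : ∀ γ, (rb γ - 1) * (rb γ - 1) = 0 → rb γ = 1 := by
    intro γ hγ
    by_contra hne
    exact hcon ⟨γ, hγ, hne⟩
  have huniq' := huniq htriv
  -- the image
  let φ : Γ →* (Matrix (Fin 2) (Fin 2) (ZMod 3))ˣ := MonoidHom.toHomUnits rb
  have hφ : ∀ σ, ((φ σ : (Matrix (Fin 2) (Fin 2) (ZMod 3))ˣ) :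
      Matrix (Fin 2) (Fin 2) (ZMod 3)) = rb σ := fun σ => rfl
  have hφ1 : ∀ σ, φ σ = 1 ↔ rb σ = 1 := by
    intro σ
    constructor
    · intro h
      rw [← hφ, h, Units.val_one]
    · intro h
      apply Units.ext
      rw [hφ, h, Units.val_one]
  let π : Γ →* φ.range := φ.rangeRestrict
  have hπsurj : Function.Surjective π := φ.rangeRestrict_surjective
  have hπ1 : ∀ σ, rb σ = 1 → π σ = 1 := by
    intro σ h
    apply Subtype.ext
    exact (hφ1 σ).2 h
  -- the image is a `2`-group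
  have hP : IsPGroup 2 φ.range := by
    intro g
    obtain ⟨γ, rfl⟩ := hπsurj g
    refine ⟨4, ?_⟩
    have h16 : rb (γ ^ 16) = 1 := htriv _ (pow16_unip595 rb γ)
    have : π γ ^ 2 ^ 4 = π (γ ^ 16) := by rw [map_pow]; norm_num
    rw [this]
    exact hπ1 _ h16
  -- the image is not trivial
  have hc1 : π c ≠ 1 := by
    intro h
    have h1 : rb c = 1 := by
      have := congrArg Subtype.val h
      exact (hφ1 c).1 this
    rw [h1, Matrix.det_one] at hdet
    exact neg_one_ne_one595 hdet.symm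
  -- a subgroup of index 2
  have hne_top : Subgroup.zpowers (1 : φ.range) ≠ ⊤ := by
    intro h
    apply hc1
    have hmem : π c ∈ Subgroup.zpowers (1 : φ.range) := by rw [h]; exact Subgroup.mem_top _
    rw [Subgroup.zpowers_one_eq_bot, Subgroup.mem_bot] at hmem
    exact hmem
  obtain ⟨K, hK, -⟩ := exists_index_two_of_ne_top hP 1 hne_top
  have hKtop : K ≠ ⊤ := by
    intro h
    rw [h, Subgroup.index_top] at hK
    omega
  obtain ⟨h₀, hh₀⟩ : ∃ h₀ : φ.range, h₀ ∉ K := by
    by_contra hall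
    exact hKtop (eq_top_iff.2 fun x _ => by
      by_contra hx
      exact hall ⟨x, hx⟩)
  by_cases hcyc : Subgroup.zpowers h₀ = ⊤
  · -- cyclic image: everything commutes with `rb c`
    apply hirr
    apply hasLine_of_comm595 c hcc hdet
    intro σ
    have h1 : π σ ∈ Subgroup.zpowers h₀ := by rw [hcyc]; exact Subgroup.mem_top _
    have h2 : π c ∈ Subgroup.zpowers h₀ := by rw [hcyc]; exact Subgroup.mem_top _
    obtain ⟨m, hm⟩ := Subgroup.mem_zpowers_iff.1 h1
    obtain ⟨n, hn⟩ := Subgroup.mem_zpowers_iff.1 h2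
    have h3 : π σ * π c = π c * π σ := by
      rw [← hm, ← hn, ← _root_.zpow_add, ← _root_.zpow_add, add_comm]
    have h4 := congrArg (fun x : φ.range =>
      (((x : (Matrix (Fin 2) (Fin 2) (ZMod 3))ˣ)) : Matrix (Fin 2) (Fin 2) (ZMod 3))) h3
    exact h4
  · obtain ⟨K', hK', hmem'⟩ := exists_index_two_of_ne_top hP h₀ hcyc
    have e1 : (K.comap π).index = 2 := by
      rw [Subgroup.index_comap_of_surjective K hπsurj]; exact hK
    have e2 : (K'.comap π).index = 2 := by
      rw [Subgroup.index_comap_of_surjective K' hπsurj]; exact hK'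
    have e3 : K.comap π = K'.comap π :=
      huniq' _ _ e1 e2
        (fun τ hτ => by rw [Subgroup.mem_comap, hπ1 τ hτ]; exact K.one_mem)
        (fun τ hτ => by rw [Subgroup.mem_comap, hπ1 τ hτ]; exact K'.one_mem)
    have e4 : K = K' := Subgroup.comap_injective hπsurj e3
    exact hh₀ (e4 ▸ hmem')

end StepI

/-! ### Conjugation by an invertible matrix -/

section Conj

variable (X : (Matrix (Fin 2) (Fin 2) (ZMod 3))ˣ)

/-- `M ↦ X⁻¹ M X` -/
def conj595 (M : Matrix (Fin 2) (Fin 2) (ZMod 3)) : Matrix (Fin 2) (Fin 2) (ZMod 3) :=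
  ((X⁻¹ : (Matrix (Fin 2) (Fin 2) (ZMod 3))ˣ) : Matrix (Fin 2) (Fin 2) (ZMod 3)) * M
    * (X : Matrix (Fin 2) (Fin 2) (ZMod 3))

theorem conj595_one : conj595 X 1 = 1 := by
  unfold conj595
  rw [mul_one, Units.inv_mul]

theorem conj595_mul (M N : Matrix (Fin 2) (Fin 2) (ZMod 3)) :
    conj595 X (M * N) = conj595 X M * conj595 X N := by
  unfold conj595
  have h : (X : Matrix (Fin 2) (Fin 2) (ZMod 3))
      * ((X⁻¹ : (Matrix (Fin 2) (Fin 2) (ZMod 3))ˣ) : Matrix (Fin 2) (Fin 2) (ZMod 3)) = 1 :=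
    Units.mul_inv X
  calc ((X⁻¹ : (Matrix (Fin 2) (Fin 2) (ZMod 3))ˣ) : Matrix (Fin 2) (Fin 2) (ZMod 3)) * (M * N)
        * (X : Matrix (Fin 2) (Fin 2) (ZMod 3))
      = ((X⁻¹ : (Matrix (Fin 2) (Fin 2) (ZMod 3))ˣ) : Matrix (Fin 2) (Fin 2) (ZMod 3)) * M
        * 1 * N * (X : Matrix (Fin 2) (Fin 2) (ZMod 3)) := by
          rw [mul_one]; simp only [mul_assoc]
    _ = _ := by rw [← h]; simp only [mul_assoc]

theorem conj595_pow (M : Matrix (Fin 2) (Fin 2) (ZMod 3)) (n : ℕ) :
    conj595 X (M ^ n) = conj595 X M ^ n := by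
  induction n with
  | zero => rw [pow_zero, pow_zero, conj595_one]
  | succ n ih => rw [pow_succ, pow_succ, conj595_mul, ih]

theorem conj595_sub_one (M : Matrix (Fin 2) (Fin 2) (ZMod 3)) :
    conj595 X M - 1 = conj595 X (M - 1) := by
  unfold conj595
  rw [mul_sub, sub_mul, mul_one, Units.inv_mul]

theorem conj595_zero : conj595 X 0 = 0 := by
  unfold conj595
  rw [mul_zero, zero_mul]

theorem conj595_injective : Function.Injective (conj595 X) := by
  intro M N h
  unfold conj595 at h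
  have h1 := congrArg (fun Z => (X : Matrix (Fin 2) (Fin 2) (ZMod 3)) * Z
    * ((X⁻¹ : (Matrix (Fin 2) (Fin 2) (ZMod 3))ˣ) : Matrix (Fin 2) (Fin 2) (ZMod 3))) h
  simp only [mul_assoc, Units.mul_inv, mul_one] at h1
  simp only [← mul_assoc, Units.mul_inv, one_mul] at h1
  exact h1

theorem conj595_det (M : Matrix (Fin 2) (Fin 2) (ZMod 3)) : (conj595 X M).det = M.det := by
  unfold conj595
  rw [Matrix.det_mul, Matrix.det_mul, mul_comm, ← mul_assoc, ← Matrix.det_mul, Units.mul_inv,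
    Matrix.det_one, one_mul]

theorem conj595_mulVec (M : Matrix (Fin 2) (Fin 2) (ZMod 3)) (e v : Fin 2 → ZMod 3)
    (hX : (X : Matrix (Fin 2) (Fin 2) (ZMod 3)) *ᵥ e = v) (hM : M *ᵥ v = v) :
    conj595 X M *ᵥ e = e := by
  unfold conj595
  rw [← Matrix.mulVec_mulVec, ← Matrix.mulVec_mulVec, hX, hM, ← hX, Matrix.mulVec_mulVec,
    Units.inv_mul, Matrix.one_mulVec]

theorem conj595_unip {M : Matrix (Fin 2) (Fin 2) (ZMod 3)} (hM : (M - 1) * (M - 1) = 0) :
    (conj595 X M - 1) * (conj595 X M - 1) = 0 := by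
  rw [conj595_sub_one, ← conj595_mul, hM, conj595_zero]

theorem conj595_ne_one {M : Matrix (Fin 2) (Fin 2) (ZMod 3)} (hM : M ≠ 1) : conj595 X M ≠ 1 := by
  intro h
  apply hM
  apply conj595_injective X
  rw [h, conj595_one]

end Conj

/-! ### Step II: `SL₂(𝔽₃)` is in the image -/

section StepII

variable {Γ : Type*} [Group Γ] {rb : Γ →* Matrix (Fin 2) (Fin 2) (ZMod 3)}

theorem exists_fixed_unip595 {u : Matrix (Fin 2) (Fin 2) (ZMod 3)}
    (hu : (u - 1) * (u - 1) = 0) (hne : u ≠ 1) :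
    ∃ v : Fin 2 → ZMod 3, v ≠ 0 ∧ u *ᵥ v = v := by
  have heta := Matrix.eta_fin_two u
  rw [heta] at hu hne
  rcases fixedVec_unip595 _ _ _ _ hu hne with ⟨h0, h1⟩ | ⟨h0, h1⟩
  · refine ⟨![u 0 0 - 1, u 1 0], ?_, ?_⟩
    · intro h
      have e0 := congrFun h 0
      have e1 := congrFun h 1
      simp only [Matrix.cons_val_zero, Matrix.cons_val_one, Pi.zero_apply] at e0 e1
      rcases h0 with h0 | h0
      · exact h0 e0
      · exact h0 e1
    · rw [heta]; exact h1
  · refine ⟨![u 0 1, u 1 1 - 1], ?_, ?_⟩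
    · intro h
      have e0 := congrFun h 0
      have e1 := congrFun h 1
      simp only [Matrix.cons_val_zero, Matrix.cons_val_one, Pi.zero_apply] at e0 e1
      rcases h0 with h0 | h0
      · exact h0 e0
      · exact h0 e1
    · rw [heta]; exact h1

/-- **Step II.**  If the image of an irreducible `rb` contains a nontrivial unipotent element, it
contains `SL₂(𝔽₃)`. -/
theorem sl2_le_range595 (hirr : ¬ HasLine rb) (γ : Γ)
    (hu : (rb γ - 1) * (rb γ - 1) = 0) (hne : rb γ ≠ 1)
    (y : Matrix (Fin 2) (Fin 2) (ZMod 3)) (hy : y.det = 1) : ∃ τ, rb τ = y := by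
  obtain ⟨v, hv, hfix⟩ := exists_fixed_unip595 hu hne
  -- an element moving the fixed line
  obtain ⟨σ, hσ⟩ : ∃ σ, ¬ IsEig (rb σ) v := by
    by_contra hall
    apply hirr
    refine ⟨v, hv, fun σ => ?_⟩
    by_contra hσ
    exact hall ⟨σ, hσ⟩
  rw [isEig_iff_crs hv] at hσ
  set v' : Fin 2 → ZMod 3 := rb σ *ᵥ v with hv'
  -- the second unipotent element
  set γ' : Γ := σ * γ * σ⁻¹ with hγ'
  have hinv : rb σ⁻¹ * rb σ = 1 := by rw [← map_mul, inv_mul_cancel, map_one]
  have hfix' : rb γ' *ᵥ v' = v' := by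
    rw [hγ', hv', map_mul, map_mul, Matrix.mulVec_mulVec, mul_assoc, mul_assoc, hinv, mul_one,
      ← Matrix.mulVec_mulVec, hfix]
  have hu' : (rb γ' - 1) * (rb γ' - 1) = 0 := by
    have h1 : rb γ' - 1 = rb σ * (rb γ - 1) * rb σ⁻¹ := by
      rw [hγ', map_mul, map_mul, mul_sub, sub_mul, mul_one, ← map_mul rb σ σ⁻¹, mul_inv_cancel,
        map_one]
    rw [h1]
    calc rb σ * (rb γ - 1) * rb σ⁻¹ * (rb σ * (rb γ - 1) * rb σ⁻¹)
        = rb σ * (rb γ - 1) * (rb σ⁻¹ * rb σ) * (rb γ - 1) * rb σ⁻¹ := by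
          simp only [mul_assoc]
      _ = rb σ * ((rb γ - 1) * (rb γ - 1)) * rb σ⁻¹ := by
          rw [hinv, mul_one]; simp only [mul_assoc]
      _ = 0 := by rw [hu, mul_zero, zero_mul]
  have hne' : rb γ' ≠ 1 := by
    intro h
    apply hne
    have h1 : rb γ = rb σ⁻¹ * rb γ' * rb σ := by
      rw [hγ', ← map_mul, ← map_mul]
      congr 1
      group
    rw [h1, h, mul_one, hinv]
  -- the base change matrix
  have hdetX : (!![v 0, v' 0; v 1, v' 1] : Matrix (Fin 2) (Fin 2) (ZMod 3)).det ≠ 0 := by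
    rw [Matrix.det_fin_two_of]
    intro h
    apply hσ
    unfold crs
    linear_combination -h
  set X : (Matrix (Fin 2) (Fin 2) (ZMod 3))ˣ :=
    Matrix.GeneralLinearGroup.mkOfDetNeZero _ hdetX with hX
  have hXm : (X : Matrix (Fin 2) (Fin 2) (ZMod 3)) = !![v 0, v' 0; v 1, v' 1] := rfl
  have hXe1 : (X : Matrix (Fin 2) (Fin 2) (ZMod 3)) *ᵥ ![1, 0] = v := by
    rw [hXm]
    funext i
    fin_cases i <;> simp [Matrix.mulVec, dotProduct, Fin.sum_univ_two]
  have hXe2 : (X : Matrix (Fin 2) (Fin 2) (ZMod 3)) *ᵥ ![0, 1] = v' := by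
    rw [hXm]
    funext i
    fin_cases i <;> simp [Matrix.mulVec, dotProduct, Fin.sum_univ_two]
  -- normal forms
  have hU := upper_unip595 _ _ _ _
    (by rw [← Matrix.eta_fin_two]; exact conj595_unip X hu)
    (by rw [← Matrix.eta_fin_two]; exact conj595_ne_one X hne)
    (by rw [← Matrix.eta_fin_two]; exact conj595_mulVec X _ _ _ hXe1 hfix)
  have hL := lower_unip595 _ _ _ _
    (by rw [← Matrix.eta_fin_two]; exact conj595_unip X hu')
    (by rw [← Matrix.eta_fin_two]; exact conj595_ne_one X hne')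
    (by rw [← Matrix.eta_fin_two]; exact conj595_mulVec X _ _ _ hXe2 hfix')
  obtain ⟨hU00, hU10, hU11, hU01⟩ := hU
  obtain ⟨hL00, hL01, hL11, hL10⟩ := hL
  have hUeq : conj595 X (rb γ) = !![1, conj595 X (rb γ) 0 1; 0, 1] := by
    conv_lhs => rw [Matrix.eta_fin_two (conj595 X (rb γ)), hU00, hU10, hU11]
  have hLeq : conj595 X (rb γ') = !![1, 0; conj595 X (rb γ') 1 0, 1] := by
    conv_lhs => rw [Matrix.eta_fin_two (conj595 X (rb γ')), hL00, hL01, hL11]
  -- the word
  have hdety : (conj595 X y) 0 0 * (conj595 X y) 1 1 - (conj595 X y) 0 1 * (conj595 X y) 1 0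
      = 1 := by
    rw [← Matrix.det_fin_two, conj595_det, hy]
  obtain ⟨i, j, k, l, hw⟩ := sl2_words595 _ _ hU01 hL10 _ _ _ _ hdety
  rw [← Matrix.eta_fin_two, ← hUeq, ← hLeq] at hw
  refine ⟨γ ^ (i : ℕ) * γ' ^ (j : ℕ) * γ ^ (k : ℕ) * γ' ^ (l : ℕ), ?_⟩
  apply conj595_injective X
  rw [hw, map_mul, map_mul, map_mul, map_pow, map_pow, map_pow, map_pow, conj595_mul, conj595_mul,
    conj595_mul, conj595_pow, conj595_pow, conj595_pow, conj595_pow]

end StepII

/-! ### Step III: the whole of `GL₂(𝔽₃)` -/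

section StepIII

variable {Γ : Type*} [Group Γ] {rb : Γ →* Matrix (Fin 2) (Fin 2) (ZMod 3)}

/-- **Irreducible + odd + (unique subgroup of index `2` in the `2`-group case) ⟹ surjective.** -/
theorem surjective_core595 (c : Γ) (hcc : c * c = 1) (hdet : (rb c).det = -1)
    (hirr : ¬ HasLine rb)
    (huniq : (∀ γ, (rb γ - 1) * (rb γ - 1) = 0 → rb γ = 1) →
      ∀ G₁ G₂ : Subgroup Γ, G₁.index = 2 → G₂.index = 2 →
        (∀ τ, rb τ = 1 → τ ∈ G₁) → (∀ τ, rb τ = 1 → τ ∈ G₂) → G₁ = G₂)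
    (y : Matrix (Fin 2) (Fin 2) (ZMod 3)) (hy : y.det ≠ 0) : ∃ τ, rb τ = y := by
  obtain ⟨γ, hu, hne⟩ := exists_unip595 c hcc hdet hirr huniq
  rcases unit_cases595 _ hy with h | h
  · exact sl2_le_range595 hirr γ hu hne y h
  · have h1 : (y * rb c).det = 1 := by
      rw [Matrix.det_mul, h, hdet]
      decide
    obtain ⟨τ, hτ⟩ := sl2_le_range595 hirr γ hu hne _ h1
    refine ⟨τ * c, ?_⟩
    rw [map_mul, hτ, mul_assoc, ← map_mul, hcc, map_one, mul_one]

end StepIII

end Fermat.Agent.LT.H595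

end
-- ===== PACK-END LT/H595/SurjCore.lean

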