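import Fermat.Prelude.Def_ModularCurve_ArithmeticGalois
import Mathlib
import Fermat.Statements.S11
import Fermat.Agent.Pack.S44C.G0E18L3
import Fermat.Agent.Pack.L1.E0L1
import Fermat.Agent.Pack.S44C.G0E19L1
import Fermat.Agent.Pack.L1.E2L2
import Fermat.Agent.Pack.S43MC.G0E18L0
import Fermat.Agent.Pack.L1.E2L0
import Fermat.Agent.Pack.S59C.E2L3
import Fermat.Agent.Pack.S59C.E3L0
import Fermat.Agent.Pack.S43MC.G0E12L2
import Fermat.Agent.Pack.S43MC.G0E12L3
import Fermat.Agent.Pack.S43MC.G0E12L1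
import Fermat.Agent.Pack.L1.E3L1
import Fermat.Agent.Pack.L1.E3L2
import Fermat.Agent.Pack.S59C.E2L1
import Fermat.Agent.Pack.S59C.E2L2
import Fermat.Agent.Pack.S59C.E4L0
import Fermat.Agent.Pack.S43MC.G0E10L2
import Fermat.Agent.Pack.L1.E3L3
import Fermat.Agent.Pack.L1.E1L1
import Fermat.Agent.Pack.L1.E1L2
import Fermat.Agent.Pack.L1.E1L0

-- ===== PACK-BEGIN S17/H77/StabAbstract.lean
section



/-!
# S17 / BASE-1 (helper77): every divisor class is defined over a number field — abstract form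

Setting: `F₀ ⊆ ℚ((q))` an intermediate field, `F = ℚ̄ · F₀ ⊆ ℚ̄((q))` its base change
(`laurentBaseChange`), with the coefficientwise action of `G_ℚ = Gal(ℚ̄/ℚ)`
(`ModularCurve.arithmeticGalois`).  Assume `FF1 ℚ̄ F` (Riemann's theorem is available).

* `exists_fixing_field` : every `f ∈ F` has its coefficients in a number field `K`, i.e. is fixed
  by every `σ` fixing `K` pointwise.
* `exists_pole_function` : every place `P` is the unique pole of some function (Riemann).
* `exists_field_fixing_place` : hence `P` is fixed by `Gal(ℚ̄/K)` for a number field `K`.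
* `stabilizer_open_of_ff1` : every class of `Pic⁰(F)` is fixed by `Gal(ℚ̄/K)` for a number field `K`.
-/

set_option autoImplicit false

noncomputable section

namespace Fermat.Agent.S17.H77

open ModularCurve AlgebraicCurve IntermediateField
open Fermat.Agent.Lib.RR

/-- `ℚ̄` -/
abbrev Qb : Type := AlgebraicClosure ℚ

/-- the absolute Galois group of `ℚ` -/
abbrev GQ : Type := Qb ≃ₐ[ℚ] Qb

/-- `ℚ̄` is algebraic over `ℚ` (for the ambient `Algebra ℚ ℚ̄` instance). -/
theorem isAlgebraic_Qb : @Algebra.IsAlgebraic ℚ Qb _ _ (inferInstance : Algebra ℚ Qb) := by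
  have h : (inferInstance : Algebra ℚ Qb) =
      (AlgebraicClosure.instAlgebra ℚ : Algebra ℚ (AlgebraicClosure ℚ)) := Subsingleton.elim _ _
  rw [h]
  exact AlgebraicClosure.isAlgebraic ℚ

theorem isIntegral_Qb (a : Qb) : IsIntegral ℚ a := by
  have := isAlgebraic_Qb
  exact (Algebra.IsAlgebraic.isAlgebraic a).isIntegral

variable (F₀ : IntermediateField ℚ (LaurentSeries ℚ))

/-! ### Step 1: the coefficient field of a function -/

/-- Every element of `ℚ̄ · F₀` is fixed by `Gal(ℚ̄/K)` for some number field `K`. -/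
theorem exists_fixing_field {f : LaurentSeries Qb} (hf : f ∈ laurentBaseChange Qb F₀) :
    ∃ K : IntermediateField ℚ Qb, FiniteDimensional ℚ K ∧
      ∀ σ : GQ, (∀ a ∈ K, σ a = a) → coeffMap (σ : Qb →+* Qb) f = f := by
  rw [mem_laurentBaseChange_iff] at hf
  induction hf using Subfield.closure_induction with
  | mem y hy =>
    rcases hy with ⟨a, rfl⟩ | ⟨z, hz, rfl⟩
    · have ha : IsIntegral ℚ a := isIntegral_Qb a
      refine ⟨ℚ⟮a⟯, IntermediateField.adjoin.finiteDimensional ha, fun σ hσ => ?_⟩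
      rw [coeffMap_algebraMap]
      congr 1
      exact hσ a (IntermediateField.mem_adjoin_simple_self ℚ a)
    · exact ⟨⊥, inferInstance, fun σ _ => coeffMap_coeffEmb σ z⟩
  | one => exact ⟨⊥, inferInstance, fun σ _ => map_one _⟩
  | add x y _ _ hx hy =>
    obtain ⟨K₁, hK₁, h₁⟩ := hx
    obtain ⟨K₂, hK₂, h₂⟩ := hy
    refine ⟨K₁ ⊔ K₂, IntermediateField.finiteDimensional_sup K₁ K₂, fun σ hσ => ?_⟩
    rw [map_add, h₁ σ fun a ha => hσ a ((le_sup_left : K₁ ≤ K₁ ⊔ K₂) ha),
      h₂ σ fun a ha => hσ a ((le_sup_right : K₂ ≤ K₁ ⊔ K₂) ha)]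
  | neg x _ hx =>
    obtain ⟨K₁, hK₁, h₁⟩ := hx
    exact ⟨K₁, hK₁, fun σ hσ => by rw [map_neg, h₁ σ hσ]⟩
  | inv x _ hx =>
    obtain ⟨K₁, hK₁, h₁⟩ := hx
    exact ⟨K₁, hK₁, fun σ hσ => by rw [map_inv₀, h₁ σ hσ]⟩
  | mul x y _ _ hx hy =>
    obtain ⟨K₁, hK₁, h₁⟩ := hx
    obtain ⟨K₂, hK₂, h₂⟩ := hy
    refine ⟨K₁ ⊔ K₂, IntermediateField.finiteDimensional_sup K₁ K₂, fun σ hσ => ?_⟩
    rw [map_mul, h₁ σ fun a ha => hσ a ((le_sup_left : K₁ ≤ K₁ ⊔ K₂) ha),
      h₂ σ fun a ha => hσ a ((le_sup_right : K₂ ≤ K₁ ⊔ K₂) ha)]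

/-- Version for elements of the field `ℚ̄ · F₀` with the `arithmeticGalois` action. -/
theorem exists_fixing_field' (f : laurentBaseChange Qb F₀) :
    ∃ K : IntermediateField ℚ Qb, FiniteDimensional ℚ K ∧
      ∀ σ : GQ, (∀ a ∈ K, σ a = a) → arithmeticGalois F₀ σ • f = f := by
  obtain ⟨K, hK, h⟩ := exists_fixing_field F₀ f.2
  exact ⟨K, hK, fun σ hσ => Subtype.ext (by rw [coe_arithmeticGalois_smul]; exact h σ hσ)⟩

/-! ### Step 2: every place is the unique pole of a function -/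

section Pole

variable {K F : Type*} [Field K] [Field F] [Algebra K F] [FF1 K F]

/-- Riemann: every place `P` is the only pole of some function. -/
theorem exists_pole_function (P : Place K F) :
    ∃ f : F, f ≠ 0 ∧ P.ord f < 0 ∧ ∀ v : Place K F, v ≠ P → 0 ≤ v.ord f := by
  classical
  set n : ℕ := genusR K F + 1 with hn
  set D : Divisor K F := (n : ℤ) • prim P with hD
  have hdeg : Divisor.degree D = n := by
    rw [hD, map_zsmul, degree_prim P (deg_eq_one P)]
    simp
  have h2 : 2 ≤ ell D := by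
    have := riemann_inequality D
    rw [hdeg] at this
    have : (2 : ℤ) ≤ ell D := by rw [hn] at this; push_cast at this; omega
    exact_mod_cast this
  have h0D : (0 : Divisor K F) ≤ D := by
    rw [hD]
    intro v
    simp only [Finsupp.coe_zero, Pi.zero_apply, Finsupp.coe_smul, Pi.smul_apply, smul_eq_mul]
    by_cases hv : v = P
    · subst hv
      simp [prim]
    · rw [prim_apply_of_ne hv]
      simp
  -- `L(D) ≠ L(0)`
  have hne : riemannRochSpace D ≠ riemannRochSpace (0 : Divisor K F) := by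
    intro h
    have : ell D = ell (0 : Divisor K F) := by unfold ell; rw [h]
    rw [ell_zero] at this
    omega
  have hle : riemannRochSpace (0 : Divisor K F) ≤ riemannRochSpace D := L_mono h0D
  obtain ⟨f, hfD, hf0⟩ : ∃ f, f ∈ riemannRochSpace D ∧ f ∉ riemannRochSpace (0 : Divisor K F) := by
    by_contra hcon
    refine hne (le_antisymm (fun f hf => ?_) hle)
    by_contra hf'
    exact hcon ⟨f, hf, hf'⟩
  have hfne : f ≠ 0 := by
    rintro rfl
    exact hf0 (Submodule.zero_mem _)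
  have hv : ∀ v : Place K F, v ≠ P → 0 ≤ v.ord f := by
    intro v hv
    have := (mem_L_iff.mp hfD v).resolve_left hfne
    rw [hD] at this
    simp only [Finsupp.coe_smul, Pi.smul_apply, smul_eq_mul, prim_apply_of_ne hv, mul_zero,
      neg_zero] at this
    exact this
  refine ⟨f, hfne, ?_, hv⟩
  by_contra hP'
  have hP : 0 ≤ P.ord f := not_lt.mp hP'
  apply hf0
  rw [mem_L_iff]
  intro v
  right
  by_cases hvP : v = P
  · subst hvP
    simpa using hP
  · simpa using hv v hvP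

end Pole

/-! ### Step 3: places, divisors and classes -/

section Stab

variable [FF1 Qb (laurentBaseChange Qb F₀)]

/-- Every place of `ℚ̄ · F₀` is fixed by `Gal(ℚ̄/K)` for a number field `K`. -/
theorem exists_field_fixing_place (P : Place Qb (laurentBaseChange Qb F₀)) :
    ∃ K : IntermediateField ℚ Qb, FiniteDimensional ℚ K ∧
      ∀ σ : GQ, (∀ a ∈ K, σ a = a) → arithmeticGalois F₀ σ • P = P := by
  obtain ⟨f, -, hP, hv⟩ := exists_pole_function P
  obtain ⟨K, hK, hσf⟩ := exists_fixing_field' F₀ f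
  refine ⟨K, hK, fun σ hσ => ?_⟩
  by_contra hne
  have h1 := hv _ hne
  have h2 := SemilinearAut.ord_smul (arithmeticGalois F₀ σ) P f
  rw [hσf σ hσ] at h2
  omega

/-- Every divisor of `ℚ̄ · F₀` is fixed by `Gal(ℚ̄/K)` for a number field `K`. -/
theorem exists_field_fixing_divisor (D : Divisor Qb (laurentBaseChange Qb F₀)) :
    ∃ K : IntermediateField ℚ Qb, FiniteDimensional ℚ K ∧
      ∀ σ : GQ, (∀ a ∈ K, σ a = a) → arithmeticGalois F₀ σ • D = D := by
  induction D using Finsupp.induction with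
  | zero => exact ⟨⊥, inferInstance, fun σ _ => smul_zero _⟩
  | single_add v n D _ _ ih =>
    obtain ⟨K₁, hK₁, h₁⟩ := exists_field_fixing_place F₀ v
    obtain ⟨K₂, hK₂, h₂⟩ := ih
    refine ⟨K₁ ⊔ K₂, IntermediateField.finiteDimensional_sup K₁ K₂, fun σ hσ => ?_⟩
    rw [smul_add, SemilinearAut.smul_single,
      h₁ σ fun a ha => hσ a ((le_sup_left : K₁ ≤ K₁ ⊔ K₂) ha),
      h₂ σ fun a ha => hσ a ((le_sup_right : K₂ ≤ K₁ ⊔ K₂) ha)]

/-- **BASE-1, abstract form.** Every class of `Pic⁰(ℚ̄ · F₀)` is fixed by `Gal(ℚ̄/K)` for a number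
field `K`. -/
theorem stabilizer_open_of_ff1 (x : Pic0 Qb (laurentBaseChange Qb F₀)) :
    ∃ K : IntermediateField ℚ Qb, FiniteDimensional ℚ K ∧
      ∀ σ : GQ, (∀ a ∈ K, σ a = a) → σ • x = x := by
  obtain ⟨D, rfl⟩ := Pic0.mk_surjective x
  obtain ⟨K, hK, h⟩ := exists_field_fixing_divisor F₀ (D : Divisor Qb (laurentBaseChange Qb F₀))
  refine ⟨K, hK, fun σ hσ => ?_⟩
  rw [galois_smul_pic0_def, SemilinearAut.pic0_smul_mk]
  congr 1
  exact Subtype.ext (by rw [SemilinearAut.coe_degZeroSMulHom]; exact h σ hσ)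

end Stab

end Fermat.Agent.S17.H77

end
end
-- ===== PACK-END S17/H77/StabAbstract.lean

-- ===== PACK-BEGIN S17/H497/HermiteMinkowski.lean
section



/-!
# S17 / W-HM (helper497): Hermite–Minkowski for subfields of `ℚ̄`

`finite_unramified_fields` : for a finite set `S` of primes and `d : ℕ` there are only finitely
many subfields `K ⊂ ℚ̄` with `[K : ℚ] ≤ d` such that all inertia groups (of valuation subrings of
`ℚ̄`) at primes `ℓ ∉ S` fix `K` pointwise.  (EXACT statement of `Skel.finite_unramified_fields`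
with `Skel.UnramifiedAt` unfolded.)

Proof: pass to the Galois closure `L` (degree `≤ d!`, still unramified outside `S`), translate
to ramification indices (S55 bridge, helper594), bound the discriminant (`DiscBound.lean`),
apply Hermite's theorem (`NumberField.finite_of_discr_bdd`), and use that a number field has
finitely many subfields.
-/

set_option autoImplicit false
set_option linter.style.haveILetI false

open NumberField IntermediateField
open scoped Pointwise

namespace Fermat.Agent.S17.H497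

open Fermat.Agent.S55.Bridge Fermat.Agent.S55.Bridge.H594

local notation "Qb" => AlgebraicClosure ℚ
local notation "GQ" => (AlgebraicClosure ℚ ≃ₐ[ℚ] AlgebraicClosure ℚ)

attribute [local instance] isAlgebraic_Qbar isGalois_Qbar numberField_of_finite

/-- The index of the normal core divides the factorial of the index. -/
theorem index_normalCore_dvd_factorial {G : Type*} [Group G] (H : Subgroup G)
    (hH : H.index ≠ 0) : H.normalCore.index ∣ H.index.factorial := by
  haveI : H.FiniteIndex := ⟨hH⟩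
  haveI : Finite (G ⧸ H) := Subgroup.finite_quotient_of_finiteIndex
  rw [Subgroup.normalCore_eq_ker, Subgroup.index_ker, Subgroup.index_eq_card, ← Nat.card_perm]
  exact Subgroup.card_subgroup_dvd_card (MulAction.toPermHom G (G ⧸ H)).range

/-- The Prelude-style unramifiedness condition outside `S`. -/
def IsUnrOut (S : Finset ℕ) (K : IntermediateField ℚ Qb) : Prop :=
  ∀ ℓ : ℕ, ℓ.Prime → ℓ ∉ S → ∀ A : ValuationSubring Qb, A.LiesOverPrime ℓ →
    ∀ σ ∈ A.inertiaSubgroupIn ℚ, ∀ a ∈ K, σ a = a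

theorem isUnrOut_iff (S : Finset ℕ) (K : IntermediateField ℚ Qb) :
    IsUnrOut S K ↔ ∀ ℓ : ℕ, ℓ.Prime → ℓ ∉ S → ∀ A : ValuationSubring Qb, A.LiesOverPrime ℓ →
      A.inertiaSubgroupIn ℚ ≤ K.fixingSubgroup := by
  unfold IsUnrOut
  refine forall_congr' fun ℓ => forall_congr' fun _ => forall_congr' fun _ =>
    forall_congr' fun A => forall_congr' fun _ => ?_
  constructor
  · intro h σ hσ
    rw [IntermediateField.mem_fixingSubgroup_iff]
    exact h σ hσ
  · intro h σ hσ
    exact (IntermediateField.mem_fixingSubgroup_iff K σ).1 (h hσ)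

/-- Galois closure with control of degree and ramification. -/
theorem exists_galois_closure (S : Finset ℕ) (K : IntermediateField ℚ Qb)
    [FiniteDimensional ℚ K] (hK : IsUnrOut S K) :
    ∃ L : IntermediateField ℚ Qb, FiniteDimensional ℚ L ∧ IsGalois ℚ L ∧ K ≤ L ∧
      Module.finrank ℚ L ∣ (Module.finrank ℚ K).factorial ∧ IsUnrOut S L := by
  rw [isUnrOut_iff] at hK
  haveI : (K.fixingSubgroup.normalCore).Normal := Subgroup.normalCore_normal _
  have hfinN : FiniteDimensional ℚ (IntermediateField.normalClosure ℚ K Qb) :=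
    normalClosure.is_finiteDimensional ℚ K Qb
  have hgalN : IsGalois ℚ (IntermediateField.normalClosure ℚ K Qb) :=
    IsGalois.normalClosure ℚ K Qb
  have hnormal : (IntermediateField.normalClosure ℚ K Qb).fixingSubgroup.Normal :=
    (InfiniteGalois.normal_iff_isGalois _).2 hgalN
  have hle : (IntermediateField.normalClosure ℚ K Qb).fixingSubgroup
      ≤ K.fixingSubgroup.normalCore := by
    rw [Subgroup.normal_le_normalCore]
    exact IntermediateField.fixingSubgroup_antitone (IntermediateField.le_normalClosure K)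
  classical
  let S' : Finset Nat.Primes := S.subtype Nat.Prime
  obtain ⟨L, hL, hgal, hfix, -⟩ := exists_galois_level_of_subgroup
    S' K.fixingSubgroup.normalCore
    (IntermediateField.normalClosure ℚ K Qb) hfinN hle
    (by
      intro q hq A hA σ hσ
      have hqS : (q : ℕ) ∉ S := fun h => hq (Finset.mem_subtype.2 h)
      rw [Subgroup.normalCore]
      intro b
      have h1 := conj_mem_inertiaSubgroupIn A b σ hσ
      exact hK q q.2 hqS (b • A) (liesOverPrime_smul A b q hA) h1)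
  have hKL : K ≤ L := by
    have h2 : L.fixingSubgroup ≤ K.fixingSubgroup := by
      rw [hfix]
      exact Subgroup.normalCore_le _
    rw [← InfiniteGalois.fixedField_fixingSubgroup K, ← InfiniteGalois.fixedField_fixingSubgroup L]
    exact IntermediateField.fixedField_antitone h2
  refine ⟨L, hL.1, hgal, hKL, ?_, ?_⟩
  · rw [IntermediateField.finrank_eq_fixingSubgroup_index Qb L,
      IntermediateField.finrank_eq_fixingSubgroup_index Qb K, hfix]
    apply index_normalCore_dvd_factorial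
    rw [← IntermediateField.finrank_eq_fixingSubgroup_index Qb K]
    exact Module.finrank_pos.ne'
  · rw [isUnrOut_iff]
    intro ℓ hℓ hℓS A hA
    exact hL.2 ⟨ℓ, hℓ⟩ (fun h => hℓS (Finset.mem_subtype.1 h)) A hA

/-- The discriminant bound `B(S, D) = (∏_{p ∈ S prime} p ^ D) ^ D`. -/
def discBound (S : Finset ℕ) (D : ℕ) : ℕ := (∏ p ∈ S.filter Nat.Prime, p ^ D) ^ D

theorem prod_pow_pow_le (S : Finset ℕ) {n D : ℕ} (h : n ≤ D) :
    (∏ p ∈ S.filter Nat.Prime, p ^ n) ^ n ≤ discBound S D := by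
  unfold discBound
  have hpos : ∀ p ∈ S.filter Nat.Prime, 1 ≤ p := fun p hp =>
    (Finset.mem_filter.1 hp).2.one_le
  have h1 : ∏ p ∈ S.filter Nat.Prime, p ^ n ≤ ∏ p ∈ S.filter Nat.Prime, p ^ D :=
    Finset.prod_le_prod' fun p hp => Nat.pow_le_pow_right (hpos p hp) h
  have h2 : 1 ≤ ∏ p ∈ S.filter Nat.Prime, p ^ D :=
    Finset.one_le_prod' fun p hp => Nat.one_le_pow _ _ (hpos p hp)
  calc (∏ p ∈ S.filter Nat.Prime, p ^ n) ^ n
      ≤ (∏ p ∈ S.filter Nat.Prime, p ^ D) ^ n := Nat.pow_le_pow_left h1 n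
    _ ≤ (∏ p ∈ S.filter Nat.Prime, p ^ D) ^ D := Nat.pow_le_pow_right h2 h

/-- Discriminant bound for a finite Galois subfield of `ℚ̄` unramified outside `S`. -/
theorem abs_discr_le (S : Finset ℕ) (D : ℕ) (L : IntermediateField ℚ Qb)
    [FiniteDimensional ℚ L] [IsGalois ℚ L] (hdeg : Module.finrank ℚ L ≤ D)
    (hL : IsUnrOut S L) : |discr L| ≤ (discBound S D : ℤ) := by
  have hur : ∀ q : ℕ, q.Prime → q ∉ S →
      (Ideal.span {(q : ℤ)}).ramificationIdxIn (𝓞 L) = 1 := fun q hq hqS =>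
    (inertia_le_fixingSubgroup_iff_ramificationIdxIn L hq).mp ((isUnrOut_iff S L).1 hL q hq hqS)
  have h1 := natAbs_discr_dvd_of_unramified_outside L S hur
  have hpos : 0 < (∏ p ∈ S.filter Nat.Prime, p ^ Module.finrank ℚ L) ^ Module.finrank ℚ L := by
    apply pow_pos
    exact Finset.prod_pos fun p hp => pow_pos (Finset.mem_filter.1 hp).2.pos _
  have h2 : (discr L).natAbs ≤ discBound S D :=
    (Nat.le_of_dvd hpos h1).trans (prod_pow_pow_le S hdeg)
  rw [Int.abs_eq_natAbs]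
  exact_mod_cast h2

/-- A finite extension of `ℚ` inside `ℚ̄` has finitely many subfields. -/
theorem finite_le (L : IntermediateField ℚ Qb) [FiniteDimensional ℚ L] :
    {K : IntermediateField ℚ Qb | K ≤ L}.Finite := by
  have hfin : Finite (IntermediateField ℚ L) :=
    Field.finite_intermediateField_of_exists_primitive_element ℚ L
      (Field.exists_primitive_element ℚ L)
  refine (@Set.finite_range _ _ (IntermediateField.lift (F := L)) hfin).subset ?_
  intro K hK
  exact ⟨IntermediateField.restrict hK, IntermediateField.lift_restrict hK⟩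

/-- **W-HM (Hermite–Minkowski).**  Finitely many subfields of `ℚ̄` of degree `≤ d` unramified
outside `S`.  (Exact statement of the S17 skeleton, `UnramifiedAt` unfolded.) -/
theorem finite_unramified_fields (S : Finset ℕ) (d : ℕ) :
    {K : IntermediateField ℚ Qb | FiniteDimensional ℚ K ∧ Module.finrank ℚ K ≤ d ∧
      ∀ ℓ : ℕ, ℓ.Prime → ℓ ∉ S → ∀ A : ValuationSubring Qb, A.LiesOverPrime ℓ →
        ∀ σ ∈ A.inertiaSubgroupIn ℚ, ∀ a ∈ K, σ a = a}.Finite := by
  have hfin := NumberField.finite_of_discr_bdd Qb (discBound S d.factorial)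
  refine (Set.Finite.biUnion hfin (fun L _ => by
    haveI := L.2
    exact finite_le L.1)).subset ?_
  rintro K ⟨hKfin, hKdeg, hK⟩
  haveI := hKfin
  obtain ⟨L, hLfin, hLgal, hKL, hdeg, hL⟩ := exists_galois_closure S K hK
  haveI := hLfin
  haveI := hLgal
  have hdeg' : Module.finrank ℚ L ≤ d.factorial :=
    (Nat.le_of_dvd (Nat.factorial_pos _) hdeg).trans (Nat.factorial_le hKdeg)
  refine Set.mem_iUnion₂.2 ⟨⟨L, hLfin⟩, ?_, hKL⟩
  exact abs_discr_le S d.factorial L hdeg' hL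

end Fermat.Agent.S17.H497

end
-- ===== PACK-END S17/H497/HermiteMinkowski.lean

-- ===== PACK-BEGIN S17/H617/HWallDefs.lean
section


/-!
# S17 / tower H — projective embedding datum of the curve (definitions only; helper617)

Sorry-free DEFINITIONS shared by the TOP / WALL contract of tower H (row S17):

* `dot a y = Σ aᵢ yᵢ` (`= dotProduct`), `wedge y z` = Plücker coordinates of `y ∧ z`
  (indexed by ALL ordered pairs), `lin x a = Σ aᵢ xᵢ ∈ F`;
* `hypDiv vinf m x a = div(Σ aᵢ xᵢ) + m∞` (junk `0` if `Σ aᵢ xᵢ = 0`);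
* `EmbData K F` : a place `∞`, a degree `m ≥ 2g + 1`, a `K`-basis `x₀, …, x_r` of `L(m∞)`,
  representatives `pt P ∈ K^(r+1)` of the points `φ(P) ∈ ℙ^r` of the projective embedding
  `φ = (x₀ : … : x_r)` and `tn P` of a second point on the tangent line at `φ(P)`.
  `pt`, `tn` are characterised PROJECTIVELY:
  - `pt_spec` : the hyperplanes through `φ(P)` are the hyperplane sections containing `P`;
  - `tn_spec` : the hyperplanes containing the tangent line at `φ(P)` are the hyperplane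
    sections containing `2P`.
  No normalisation is imposed (for `P ≠ ∞` one may take the values `xᵢ(P)` and the values of
  `(xᵢ - xᵢ(P))/t`, at `∞` the leading and subleading coefficient vectors).
* `E.Z a` : the hyperplane section `Z_a ≥ 0`, of degree `m`.
-/

set_option autoImplicit false

noncomputable section

open AlgebraicCurve

namespace Fermat.Agent.S17.HWall

open Fermat.Agent.Lib.RR

variable {K F : Type*} [Field K] [Field F] [Algebra K F]

/-- `⟨a, y⟩ = Σ aᵢ yᵢ`. -/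
abbrev dot {n : ℕ} (a y : Fin n → K) : K := dotProduct a y

/-- Plücker coordinates of `y ∧ z` (indexed by ALL ordered pairs). -/
def wedge {n : ℕ} (y z : Fin n → K) : Fin n × Fin n → K :=
  fun p => y p.1 * z p.2 - y p.2 * z p.1

/-- `Σ aᵢ xᵢ ∈ F`. -/
def lin {n : ℕ} (x : Fin n → F) (a : Fin n → K) : F := ∑ i, a i • x i

open Classical in
/-- The hyperplane section `Z_a = div(Σ aᵢ xᵢ) + m∞` (junk value `0` if `Σ aᵢ xᵢ = 0`). -/
def hypDiv [FF1 K F] (vinf : Place K F) (m : ℕ) {n : ℕ} (x : Fin n → F) (a : Fin n → K) :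
    Divisor K F :=
  if h : lin x a = 0 then 0 else divOf (lin x a) h + m • prim vinf

/-- A projective embedding of the curve by the complete linear system `|m∞|`, `m ≥ 2g + 1`,
together with representatives of the points and of the tangent lines. -/
structure EmbData (K F : Type*) [Field K] [Field F] [Algebra K F] [FF1 K F] where
  /-- the point at infinity -/
  vinf : Place K F
  /-- the degree of the embedding -/
  m : ℕ
  /-- the dimension of the ambient projective space -/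
  r : ℕ
  /-- a basis of `L(m∞)` -/
  x : Fin (r + 1) → F
  /-- a representative of the point `φ(P) ∈ ℙ^r` -/
  pt : Place K F → Fin (r + 1) → K
  /-- a second point on the tangent line at `φ(P)` -/
  tn : Place K F → Fin (r + 1) → K
  hm : 2 * genusR K F + 1 ≤ m
  x_li : LinearIndependent K x
  x_span : Submodule.span K (Set.range x) = riemannRochSpace (m • prim vinf)
  /-- the hyperplanes through `φ(P)` are the hyperplane sections containing `P` -/
  pt_spec : ∀ (P : Place K F) (a : Fin (r + 1) → K), a ≠ 0 →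
    (dot a (pt P) = 0 ↔ 0 < hypDiv vinf m x a P)
  /-- the hyperplanes containing the tangent line at `φ(P)` are the hyperplane sections
  containing `2P` -/
  tn_spec : ∀ (P : Place K F) (a : Fin (r + 1) → K), a ≠ 0 →
    ((dot a (pt P) = 0 ∧ dot a (tn P) = 0) ↔ 2 ≤ hypDiv vinf m x a P)

variable [FF1 K F]

/-- The hyperplane section `Z_a`. -/
def EmbData.Z (E : EmbData K F) (a : Fin (E.r + 1) → K) : Divisor K F :=
  hypDiv E.vinf E.m E.x a

theorem EmbData.lin_ne_zero (E : EmbData K F) {a : Fin (E.r + 1) → K} (ha : a ≠ 0) :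
    lin E.x a ≠ 0 := by
  intro h
  apply ha
  have := Fintype.linearIndependent_iff.mp E.x_li a h
  exact funext this

theorem EmbData.Z_eq (E : EmbData K F) {a : Fin (E.r + 1) → K} (ha : a ≠ 0) :
    E.Z a = divOf (lin E.x a) (E.lin_ne_zero ha) + E.m • prim E.vinf := by
  unfold EmbData.Z hypDiv
  rw [dif_neg (E.lin_ne_zero ha)]

theorem EmbData.Z_apply (E : EmbData K F) {a : Fin (E.r + 1) → K} (ha : a ≠ 0)
    (P : Place K F) :
    E.Z a P = P.ord (lin E.x a) + (E.m • prim E.vinf : Divisor K F) P := by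
  rw [E.Z_eq ha, Finsupp.add_apply, divOf_apply]

theorem EmbData.lin_mem (E : EmbData K F) (a : Fin (E.r + 1) → K) :
    lin E.x a ∈ riemannRochSpace (E.m • prim E.vinf) := by
  rw [← E.x_span]
  unfold lin
  exact Submodule.sum_mem _ fun i _ =>
    Submodule.smul_mem _ _ (Submodule.subset_span ⟨i, rfl⟩)

/-- `Z_a ≥ 0`. -/
theorem EmbData.Z_nonneg (E : EmbData K F) (a : Fin (E.r + 1) → K) : 0 ≤ E.Z a := by
  by_cases ha : a = 0
  · subst ha
    unfold EmbData.Z hypDiv
    rw [dif_pos (by simp [lin])]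
  · rw [Finsupp.le_def]
    intro P
    rw [E.Z_apply ha P, Finsupp.coe_zero, Pi.zero_apply]
    have h := (mem_riemannRochSpace_iff.mp (E.lin_mem a)) P
    rcases h with h | h
    · exact absurd h (E.lin_ne_zero ha)
    · linarith

/-- `deg Z_a = m`. -/
theorem EmbData.degree_Z (E : EmbData K F) {a : Fin (E.r + 1) → K} (ha : a ≠ 0) :
    Divisor.degree (E.Z a) = E.m := by
  rw [E.Z_eq ha, map_add, degree_divOf, zero_add, map_nsmul]
  unfold prim
  rw [Divisor.degree_single, FF1.deg_eq_one]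
  simp

end Fermat.Agent.S17.HWall

end
end
-- ===== PACK-END S17/H617/HWallDefs.lean

-- ===== PACK-BEGIN S17/H17/HContract.lean
section



/-!
# S17 / tower H — the CONTRACT between TOP and WALL (row-lead helper17)

Definitions only (no `sorry`).  All `def … : Prop` are FROZEN interfaces: the WALL produces them,
TOP consumes them.

* `E₁ : EmbData K F` — the embedding used for POINTS and DISTANCES (degree `n = E₁.m`);
* `E₂ : EmbData K F` — the embedding used for FORMS / hyperplane sections (degree `M = E₂.m`);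
  `E₁ = E₂` is allowed (route L1 of helper617/helper500), `M ≥ d n + 2 g` in route helper710.
* heights: `ht = Fermat.Agent.S17.H380.absLogHeight` (absolute logarithmic height of a tuple).

The five statements (`C` is ONE constant, uniform in everything quantified after it):

* `E3Statement`   : `| (Z_a . P) − h(a) − h_M(P) | ≤ C` for all forms `a ≠ 0` and `P ∉ Z_a`;
* `ADJStatement`  : `| (Z_a − P . P) − κ(P) − h(a) − h_M(P) | ≤ C` at a simple zero `P` of `a`,
                    `κ(P) = h(pt P ∧ tn P) − 2 h(pt P)` (degree `n`);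
* `VDMStatement`  : `h(PT P₁ ∧ … ∧ PT P_d) ≤ Σ h_M(P_i) − Σ_{i<j} hD(P_i, P_j) + C`
                    for distinct `P_1, …, P_d`, `d ≤ d₀`;
* `GAUSSStatement`: `| κ(P) − (K₀ . P) | ≤ C` for ONE divisor `K₀` of degree `2g − 2`, `P ∉ K₀`;
* `NCStatement`   : `| n · h_M(P) − M · h_n(P) | ≤ C`.

Here `(D . P) = Σ_A D(A) hD(A, P)` and `hD(A, P) = h_n(A) + h_n(P) − h(pt A ∧ pt P)`.
-/

set_option autoImplicit false

noncomputable section

open AlgebraicCurve

namespace Fermat.Agent.S17.HContract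

open Fermat.Agent.Lib.RR Fermat.Agent.S17.HWall

variable {K F : Type*} [Field K] [CharZero K] [Field F] [Algebra K F] [FF1 K F]

/-- the absolute logarithmic height of a tuple -/
abbrev ht {ι : Type*} [Finite ι] (y : ι → K) : ℝ := Fermat.Agent.S17.H380.absLogHeight y

/-- Plücker coordinates of `y₁ ∧ … ∧ y_d` (indexed as `Fermat.Agent.S17.H980.minorQ`). -/
def plucker {d n : ℕ} (y : Fin d → Fin n → K) (e : Fin d ↪ Fin n) : K :=
  Matrix.det (Matrix.of fun i j => y i (e j))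

/-- the diagonal height `hD(A, P) = h(pt A) + h(pt P) − h(pt A ∧ pt P)` in the embedding `E` -/
def hD (E : EmbData K F) (A P : Place K F) : ℝ :=
  ht (E.pt A) + ht (E.pt P) - ht (wedge (E.pt A) (E.pt P))

/-- `(D . P) = Σ_A D(A) hD(A, P)` -/
def pairPt (E : EmbData K F) (D : Divisor K F) (P : Place K F) : ℝ :=
  D.sum fun A n => (n : ℝ) * hD E A P

/-- `(D . D') = Σ_{A, P} D(A) D'(P) hD(A, P)` (to be used for divisors with disjoint supports) -/
def pair (E : EmbData K F) (D D' : Divisor K F) : ℝ :=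
  D'.sum fun P n => (n : ℝ) * pairPt E D P

/-- the adjunction term `κ(P) = h(pt P ∧ tn P) − 2 h(pt P)` -/
def kap (E : EmbData K F) (P : Place K F) : ℝ :=
  ht (wedge (E.pt P) (E.tn P)) - 2 * ht (E.pt P)

/-- the naive height `N(D) = Σ_P D(P) h(pt P)` of a divisor in the embedding `E` -/
def naive (E : EmbData K F) (D : Divisor K F) : ℝ :=
  D.sum fun P n => (n : ℝ) * ht (E.pt P)

/-- **(E3)** -/
def E3Statement (E₁ E₂ : EmbData K F) : Prop :=
  ∃ C : ℝ, ∀ (a : Fin (E₂.r + 1) → K) (P : Place K F), a ≠ 0 → dot a (E₂.pt P) ≠ 0 →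
    |pairPt E₁ (E₂.Z a) P - ht a - ht (E₂.pt P)| ≤ C

/-- **(ADJ)**: (E3) at a simple zero, with the self-pairing regularised by `−κ`. -/
def ADJStatement (E₁ E₂ : EmbData K F) : Prop :=
  ∃ C : ℝ, ∀ (a : Fin (E₂.r + 1) → K) (P : Place K F), a ≠ 0 → E₂.Z a P = 1 →
    |pairPt E₁ ((E₂.Z a).erase P) P - kap E₁ P - ht a - ht (E₂.pt P)| ≤ C

/-- **(VDM)**: Hadamard/Vandermonde with distances, for at most `d₀` distinct points. -/
def VDMStatement (E₁ E₂ : EmbData K F) (d₀ : ℕ) : Prop :=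
  ∃ C : ℝ, ∀ (d : ℕ) (P : Fin d → Place K F), d ≤ d₀ → Function.Injective P →
    ht (plucker fun i => E₂.pt (P i)) ≤
      (∑ i, ht (E₂.pt (P i))) - (∑ i, ∑ j, if i < j then hD E₁ (P i) (P j) else 0) + C

/-- **(GAUSS)**: `κ` is a height for a divisor of degree `2g − 2`. -/
def GAUSSStatement (E₁ : EmbData K F) : Prop :=
  ∃ (K₀ : Divisor K F) (C : ℝ), Divisor.degree K₀ = 2 * (genusR K F : ℤ) - 2 ∧
    ∀ P : Place K F, K₀ P = 0 → |kap E₁ P - pairPt E₁ K₀ P| ≤ C

/-- **(NC)**: comparison of the two embeddings. -/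
def NCStatement (E₁ E₂ : EmbData K F) : Prop :=
  ∃ C : ℝ, ∀ P : Place K F,
    |(E₁.m : ℝ) * ht (E₂.pt P) - (E₂.m : ℝ) * ht (E₁.pt P)| ≤ C

/-- **The contract**: everything TOP needs from the WALL. -/
structure Contract (E₁ E₂ : EmbData K F) (d₀ : ℕ) : Prop where
  vinf_eq : E₁.vinf = E₂.vinf
  e3 : E3Statement E₁ E₂
  adj : ADJStatement E₁ E₂
  vdm : VDMStatement E₁ E₂ d₀
  gauss : GAUSSStatement E₁
  nc : NCStatement E₁ E₂

end Fermat.Agent.S17.HContract

end
end
-- ===== PACK-END S17/H17/HContract.lean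

-- ===== PACK-BEGIN S17/H680/DescentRR.lean
section




/-!
# S17 / BASE-2 (helper680): Galois descent of Riemann–Roch spaces

`F = ℚ̄ · F₀ ⊆ ℚ̄((q))` with the coefficientwise Galois action.  For a Galois-invariant divisor
`D₀`, the space `L(D₀)` has a `ℚ̄`-basis of Galois-fixed functions (`exists_fixed_basis`); the
`ℚ`-space of fixed functions in `L(D₀)` has dimension `ℓ(D₀)` (`finrank_fixedL`).
-/

set_option autoImplicit false

noncomputable section

open AlgebraicCurve ModularCurve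

namespace Fermat.Agent.S17.H680

open Fermat.Agent.Lib.RR Fermat.Agent.S17.H77

variable (F₀ : IntermediateField ℚ (LaurentSeries ℚ))

theorem normal_Qb : @Normal ℚ Qb _ _ (inferInstance : Algebra ℚ Qb) := by
  have h : (inferInstance : Algebra ℚ Qb) =
      (AlgebraicClosure.instAlgebra ℚ : Algebra ℚ (AlgebraicClosure ℚ)) := Subsingleton.elim _ _
  rw [h]
  infer_instance

theorem isGalois_Qb : @IsGalois ℚ _ Qb _ (inferInstance : Algebra ℚ Qb) := by
  have h : (inferInstance : Algebra ℚ Qb) =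
      (AlgebraicClosure.instAlgebra ℚ : Algebra ℚ (AlgebraicClosure ℚ)) := Subsingleton.elim _ _
  rw [h]
  infer_instance

/-- The Galois action on the function field, as a `DistribMulAction` (not an instance). -/
@[reducible] def galoisAction : DistribMulAction GQ (laurentBaseChange Qb F₀) :=
  DistribMulAction.compHom (laurentBaseChange Qb F₀) (arithmeticGalois F₀)

theorem galoisAction_smul (σ : GQ) (f : laurentBaseChange Qb F₀) :
    (letI := galoisAction F₀; σ • f) = arithmeticGalois F₀ σ • f := rfl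

theorem arithmeticGalois_smul_smul (σ : GQ) (a : Qb) (f : laurentBaseChange Qb F₀) :
    arithmeticGalois F₀ σ • (a • f) = σ a • (arithmeticGalois F₀ σ • f) := by
  rw [Algebra.smul_def, Algebra.smul_def, smul_mul', SemilinearAut.smul_algebraMap]
  rfl

/-- The set of Galois-fixed functions. -/
def IsFixed (f : laurentBaseChange Qb F₀) : Prop :=
  ∀ σ : GQ, arithmeticGalois F₀ σ • f = f

/-- **Descent, spanning**: a Galois-stable `ℚ̄`-subspace of `F` is spanned by its fixed elements. -/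
theorem span_fixed_eq (V : Submodule Qb (laurentBaseChange Qb F₀))
    (hV : ∀ σ : GQ, ∀ f ∈ V, arithmeticGalois F₀ σ • f ∈ V) :
    Submodule.span Qb {f | f ∈ V ∧ IsFixed F₀ f} = V := by
  apply le_antisymm
  · rw [Submodule.span_le]
    exact fun f hf => hf.1
  · intro f hf
    obtain ⟨K, hK, hfix⟩ := exists_fixing_field' F₀ f
    let := galoisAction F₀
    have := normal_Qb
    exact mem_span_fixed (k := ℚ) (L := Qb) (M := laurentBaseChange Qb F₀)
      (fun σ a m => arithmeticGalois_smul_smul F₀ σ a m) V hV hf K hfix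

/-- **Descent, independence**: `ℚ`-independent fixed functions are `ℚ̄`-independent. -/
theorem linearIndependent_of_isFixed {ι : Type*} (w : ι → laurentBaseChange Qb F₀)
    (hw : ∀ i, IsFixed F₀ (w i)) (hli : LinearIndependent ℚ w) : LinearIndependent Qb w := by
  let := galoisAction F₀
  have := isGalois_Qb
  exact linearIndependent_of_fixed (k := ℚ) (L := Qb) (M := laurentBaseChange Qb F₀)
    (fun σ a m => arithmeticGalois_smul_smul F₀ σ a m) w (fun σ i => hw i σ) hli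

/-- The `ℚ`-subspace of Galois-fixed elements of a `ℚ̄`-subspace. -/
def fixedPart (V : Submodule Qb (laurentBaseChange Qb F₀)) :
    Submodule ℚ (laurentBaseChange Qb F₀) where
  carrier := {f | f ∈ V ∧ IsFixed F₀ f}
  zero_mem' := ⟨V.zero_mem, fun σ => smul_zero _⟩
  add_mem' := fun {f g} hf hg => ⟨V.add_mem hf.1 hg.1, fun σ => by
    rw [smul_add, hf.2 σ, hg.2 σ]⟩
  smul_mem' := fun c f hf => by
    refine ⟨?_, fun σ => ?_⟩
    · rw [← algebraMap_smul Qb c f]
      exact V.smul_mem _ hf.1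
    · rw [← algebraMap_smul Qb c f, arithmeticGalois_smul_smul, hf.2 σ, AlgEquiv.commutes]

theorem mem_fixedPart {V : Submodule Qb (laurentBaseChange Qb F₀)}
    {f : laurentBaseChange Qb F₀} : f ∈ fixedPart F₀ V ↔ f ∈ V ∧ IsFixed F₀ f := Iff.rfl

/-- A Galois-stable finite-dimensional subspace has a basis of fixed elements; the family is at
the same time a `ℚ`-basis of the fixed part. -/
theorem exists_fixed_basis (V : Submodule Qb (laurentBaseChange Qb F₀))
    [Module.Finite Qb V]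
    (hV : ∀ σ : GQ, ∀ f ∈ V, arithmeticGalois F₀ σ • f ∈ V) :
    ∃ b : Fin (Module.finrank Qb V) → laurentBaseChange Qb F₀,
      (∀ i, b i ∈ V) ∧ (∀ i, IsFixed F₀ (b i)) ∧ LinearIndependent Qb b ∧
      Submodule.span Qb (Set.range b) = V ∧
      Submodule.span ℚ (Set.range b) = fixedPart F₀ V := by
  classical
  -- a `ℚ`-basis of the fixed part
  set W := fixedPart F₀ V with hW
  let B := Module.Free.chooseBasis ℚ W
  have hBfix : ∀ i, IsFixed F₀ ((B i : W) : laurentBaseChange Qb F₀) := fun i => (B i).2.2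
  have hBV : ∀ i, ((B i : W) : laurentBaseChange Qb F₀) ∈ V := fun i => (B i).2.1
  have hliQ : LinearIndependent ℚ fun i => ((B i : W) : laurentBaseChange Qb F₀) := by
    have := B.linearIndependent
    exact this.map' (Submodule.subtype W) (Submodule.ker_subtype W)
  have hli : LinearIndependent Qb fun i => ((B i : W) : laurentBaseChange Qb F₀) :=
    linearIndependent_of_isFixed F₀ _ hBfix hliQ
  have hspanQ : Submodule.span ℚ (Set.range fun i => ((B i : W) : laurentBaseChange Qb F₀))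
      = W := by
    have h1 := B.span_eq
    have h2 := congrArg (Submodule.map (Submodule.subtype W)) h1
    rw [Submodule.map_span, Submodule.map_top, Submodule.range_subtype, ← Set.range_comp] at h2
    exact h2
  have hspan : Submodule.span Qb (Set.range fun i => ((B i : W) : laurentBaseChange Qb F₀))
      = V := by
    apply le_antisymm
    · rw [Submodule.span_le]
      rintro _ ⟨i, rfl⟩
      exact hBV i
    · rw [← span_fixed_eq F₀ V hV, Submodule.span_le]
      intro f hf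
      have hfW : f ∈ W := hf
      rw [← hspanQ] at hfW
      exact Submodule.span_le_restrictScalars ℚ Qb _ hfW
  -- the index type has the right cardinality
  have hfin : Finite (Module.Free.ChooseBasisIndex ℚ W) := by
    have hliV : LinearIndependent Qb fun i => (⟨_, hBV i⟩ : V) := by
      refine LinearIndependent.of_comp (Submodule.subtype V) ?_
      exact hli
    exact hliV.finite
  let := Fintype.ofFinite (Module.Free.ChooseBasisIndex ℚ W)
  have hcard : Fintype.card (Module.Free.ChooseBasisIndex ℚ W) = Module.finrank Qb V := by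
    have hliV : LinearIndependent Qb fun i => (⟨_, hBV i⟩ : V) := by
      refine LinearIndependent.of_comp (Submodule.subtype V) ?_
      exact hli
    have hspanV : Submodule.span Qb (Set.range fun i => (⟨_, hBV i⟩ : V)) = ⊤ := by
      apply Submodule.map_injective_of_injective (Submodule.injective_subtype V)
      rw [Submodule.map_span, Submodule.map_top, Submodule.range_subtype, ← Set.range_comp]
      exact hspan
    have bV : Module.Basis (Module.Free.ChooseBasisIndex ℚ W) Qb V :=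
      Module.Basis.mk hliV (le_of_eq hspanV.symm)
    rw [Module.finrank_eq_card_basis bV]
  let e : Fin (Module.finrank Qb V) ≃ Module.Free.ChooseBasisIndex ℚ W :=
    (Fintype.equivFinOfCardEq hcard).symm
  refine ⟨fun i => ((B (e i) : W) : laurentBaseChange Qb F₀), fun i => hBV _, fun i => hBfix _,
    hli.comp _ e.injective, ?_, ?_⟩
  · exact (congrArg (Submodule.span Qb)
      (e.surjective.range_comp fun i => ((B i : W) : laurentBaseChange Qb F₀))).trans hspan
  · exact (congrArg (Submodule.span ℚ)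
      (e.surjective.range_comp fun i => ((B i : W) : laurentBaseChange Qb F₀))).trans hspanQ

/-! ### Riemann–Roch spaces of invariant divisors -/

section RR

variable [FF1 Qb (laurentBaseChange Qb F₀)]

/-- A Galois-invariant divisor. -/
def IsInvariant (D : Divisor Qb (laurentBaseChange Qb F₀)) : Prop :=
  ∀ σ : GQ, arithmeticGalois F₀ σ • D = D

theorem smul_mem_L_of_isInvariant {D : Divisor Qb (laurentBaseChange Qb F₀)}
    (hD : IsInvariant F₀ D) (σ : GQ) {f : laurentBaseChange Qb F₀}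
    (hf : f ∈ riemannRochSpace D) : arithmeticGalois F₀ σ • f ∈ riemannRochSpace D := by
  have := smul_mem_L (arithmeticGalois F₀ σ) hf
  rwa [hD σ] at this

/-- **BASE-2**: for a Galois-invariant divisor `D`, the space `L(D)` has a basis of Galois-fixed
functions, which is also a `ℚ`-basis of the fixed part of `L(D)`. -/
theorem exists_fixed_basis_L {D : Divisor Qb (laurentBaseChange Qb F₀)}
    (hD : IsInvariant F₀ D) :
    ∃ b : Fin (ell D) → laurentBaseChange Qb F₀,
      (∀ i, b i ∈ riemannRochSpace D) ∧ (∀ i, IsFixed F₀ (b i)) ∧ LinearIndependent Qb b ∧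
      Submodule.span Qb (Set.range b) = riemannRochSpace D ∧
      Submodule.span ℚ (Set.range b) = fixedPart F₀ (riemannRochSpace D) :=
  exists_fixed_basis F₀ (riemannRochSpace D) fun σ _ hf => smul_mem_L_of_isInvariant F₀ hD σ hf

/-- The `ℚ`-dimension of the space of Galois-fixed functions in `L(D)` is `ℓ(D)`. -/
theorem finrank_fixedPart_L {D : Divisor Qb (laurentBaseChange Qb F₀)}
    (hD : IsInvariant F₀ D) :
    Module.finrank ℚ (fixedPart F₀ (riemannRochSpace D)) = ell D := by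
  classical
  obtain ⟨b, hbL, hbfix, hli, hspan, hspanQ⟩ := exists_fixed_basis_L F₀ hD
  have hliQ : LinearIndependent ℚ b := hli.restrict_scalars' ℚ
  rw [← hspanQ, finrank_span_eq_card hliQ, Fintype.card_fin]

/-- If `ℓ(D) ≥ 2` for an invariant divisor, `L(D)` contains a Galois-fixed non-constant
function. -/
theorem exists_fixed_nonconstant {D : Divisor Qb (laurentBaseChange Qb F₀)}
    (hD : IsInvariant F₀ D) (h2 : 2 ≤ ell D) :
    ∃ t : laurentBaseChange Qb F₀, t ∈ riemannRochSpace D ∧ IsFixed F₀ t ∧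
      t ∉ Set.range (algebraMap Qb (laurentBaseChange Qb F₀)) := by
  classical
  obtain ⟨b, hbL, hbfix, hli, -, -⟩ := exists_fixed_basis_L F₀ hD
  by_contra hcon
  have hconst : ∀ i, ∃ c : Qb, algebraMap Qb (laurentBaseChange Qb F₀) c = b i := by
    intro i
    by_contra hi
    exact hcon ⟨b i, hbL i, hbfix i, hi⟩
  choose c hc using hconst
  -- two constants are linearly dependent
  have h01 : (⟨0, by omega⟩ : Fin (ell D)) ≠ ⟨1, by omega⟩ := by
    intro h
    have := congrArg Fin.val h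
    simp at this
  have hrel : c ⟨1, by omega⟩ • b ⟨0, by omega⟩ - c ⟨0, by omega⟩ • b ⟨1, by omega⟩ = 0 := by
    rw [← hc ⟨0, by omega⟩, ← hc ⟨1, by omega⟩, Algebra.smul_def, Algebra.smul_def,
      mul_comm, sub_self]
  have hb0 : b ⟨0, by omega⟩ ≠ 0 := hli.ne_zero _
  have hc0 : c ⟨0, by omega⟩ ≠ 0 := by
    intro h
    apply hb0
    rw [← hc ⟨0, by omega⟩, h, map_zero]
  set i0 : Fin (ell D) := ⟨0, by omega⟩ with hi0
  set i1 : Fin (ell D) := ⟨1, by omega⟩ with hi1
  have hsum : ∑ i, (Pi.single i0 (c i1) - Pi.single i1 (c i0) : Fin (ell D) → Qb) i • b i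
      = 0 := by
    simp only [Pi.sub_apply, sub_smul, Finset.sum_sub_distrib]
    rw [Finset.sum_eq_single i0 (fun j _ hj => by rw [Pi.single_eq_of_ne hj, zero_smul])
        (fun h => absurd (Finset.mem_univ _) h),
      Finset.sum_eq_single i1 (fun j _ hj => by rw [Pi.single_eq_of_ne hj, zero_smul])
        (fun h => absurd (Finset.mem_univ _) h),
      Pi.single_eq_same, Pi.single_eq_same]
    exact hrel
  have h := (Fintype.linearIndependent_iff.mp hli) _ hsum i1
  rw [Pi.sub_apply, Pi.single_eq_of_ne (Ne.symm h01), Pi.single_eq_same, zero_sub,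
    neg_eq_zero] at h
  exact hc0 h

end RR

end Fermat.Agent.S17.H680

end
end
-- ===== PACK-END S17/H680/DescentRR.lean

-- ===== PACK-BEGIN S41/H221/PDHeis.lean
section




/-!
# S41, block PD, leaf HEIS (helper221): Heisenberg lifts and the β-formula

`heisLift : Spec.TorsionClassStatement → Spec.HeisLiftStatement`.

For Manin representatives `m, m'` of `φ, ψ` with parabolic data `e, e'` the Heisenberg cocycle
`C = (a, b, c)` with `C S = 1`, `C (S T) = (m|U - m, m'|U - m', z)`, `z x = m x * (m' x - m' (U⁻¹ x))`,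
gives `ζ γ = c γ x₀`, and along every `T`-orbit system `∑ᵢ ζ (γᵢ) = ∑ₓ (z x + (e (T x) - e x) * e' x)
= - maninForm m e'`.
-/

set_option autoImplicit false

namespace Fermat.Agent.S41.H221

open CongruenceSubgroup Matrix.SpecialLinearGroup ModularCurve.Period ModularGroup
open Fermat.Agent.S41.Spec
open scoped MatrixGroups

universe u

section Abstract

variable {X : Type*} [MulAction SL(2, ℤ) X] {R : Type*} [CommRing R]
variable {a b c : SL(2, ℤ) → X → R}

lemma IsHeisCocycle.a_one (h : IsHeisCocycle a b c) (x : X) : a 1 x = 0 :=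
  addCocycle_one h.a_mul x

lemma IsHeisCocycle.b_one (h : IsHeisCocycle a b c) (x : X) : b 1 x = 0 :=
  addCocycle_one h.b_mul x

lemma IsHeisCocycle.c_one (h : IsHeisCocycle a b c) (x : X) : c 1 x = 0 := by
  have := h.c_mul 1 1 x
  rw [one_mul, one_smul, h.a_one, zero_mul, add_zero] at this
  exact left_eq_add.mp this

lemma IsHeisCocycle.c_inv (h : IsHeisCocycle a b c) (g : SL(2, ℤ)) (x : X) :
    c g⁻¹ (g • x) = - c g x - a g⁻¹ (g • x) * b g x := by
  have := h.c_mul g⁻¹ g x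
  rw [inv_mul_cancel, h.c_one] at this
  linear_combination -this

/-- The value of `c` on a conjugate `h⁻¹ t h` fixing `x₀`, when `C t (h x₀)` is central. -/
lemma IsHeisCocycle.c_conj (h : IsHeisCocycle a b c) (g t : SL(2, ℤ)) (x₀ : X)
    (ha : a t (g • x₀) = 0) (hb : b t (g • x₀) = 0) (hfix : t • g • x₀ = g • x₀) :
    c (g⁻¹ * t * g) x₀ = c t (g • x₀) := by
  rw [mul_assoc, h.c_mul, h.c_mul t g, h.b_mul t g, mul_smul, hfix, ha, hb, h.c_inv]
  ring

lemma IsHeisCocycle.a_conj (h : IsHeisCocycle a b c) (g t : SL(2, ℤ)) (x₀ : X)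
    (hfix : t • g • x₀ = g • x₀) : a (g⁻¹ * t * g) x₀ = a t (g • x₀) := by
  rw [mul_assoc, h.a_mul, h.a_mul t g, mul_smul, hfix, addCocycle_inv h.a_mul, inv_smul_smul]
  abel

lemma addCocycle_pow {A : Type*} [AddCommGroup A] {f : SL(2, ℤ) → X → A}
    (hf : ∀ g h x, f (g * h) x = f h x + f g (h • x)) (t : SL(2, ℤ)) (e : X → A)
    (he : ∀ x, f t x = e (t • x) - e x) (k : ℕ) (y : X) :
    f (t ^ k) y = e (t ^ k • y) - e y := by
  induction k with
  | zero => simp [addCocycle_one hf]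
  | succ k ih =>
    rw [pow_succ', hf, ih, he, mul_smul]
    abel

lemma IsHeisCocycle.c_pow (h : IsHeisCocycle a b c) (t : SL(2, ℤ)) (e e' : X → R)
    (ha : ∀ x, a t x = e (t • x) - e x) (hb : ∀ x, b t x = e' (t • x) - e' x) (k : ℕ) (y : X) :
    c (t ^ k) y = ∑ j ∈ Finset.range k,
      (c t (t ^ j • y) + (e (t ^ (j + 1) • y) - e (t ^ j • y)) * (e' (t ^ j • y) - e' y)) := by
  induction k with
  | zero => simp [h.c_one]
  | succ k ih =>
    rw [pow_succ', h.c_mul, ih, Finset.sum_range_succ, ha, addCocycle_pow h.b_mul t e' hb,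
      ← mul_smul, ← pow_succ']
    exact add_assoc _ _ _

/-- The monodromy of a Heisenberg cocycle along a closed `t`-orbit. -/
lemma IsHeisCocycle.c_pow_of_fixed (h : IsHeisCocycle a b c) (t : SL(2, ℤ)) (e e' : X → R)
    (ha : ∀ x, a t x = e (t • x) - e x) (hb : ∀ x, b t x = e' (t • x) - e' x) (k : ℕ) (y : X)
    (hy : t ^ k • y = y) :
    c (t ^ k) y = ∑ j ∈ Finset.range k,
      (c t (t ^ j • y) + (e (t • t ^ j • y) - e (t ^ j • y)) * e' (t ^ j • y)) := by
  rw [h.c_pow t e e' ha hb]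
  have htel : ∑ j ∈ Finset.range k, (e (t ^ (j + 1) • y) - e (t ^ j • y)) = 0 := by
    rw [Finset.sum_range_sub (fun j => e (t ^ j • y)), hy, pow_zero, one_smul, sub_self]
  have : ∀ j, e (t • t ^ j • y) = e (t ^ (j + 1) • y) := by
    intro j
    rw [← mul_smul, ← pow_succ']
  simp only [this]
  have e1 : ∀ j, (c t (t ^ j • y) + (e (t ^ (j + 1) • y) - e (t ^ j • y)) * (e' (t ^ j • y) - e' y))
      = (c t (t ^ j • y) + (e (t ^ (j + 1) • y) - e (t ^ j • y)) * e' (t ^ j • y))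
        - (e (t ^ (j + 1) • y) - e (t ^ j • y)) * e' y := by
    intro j; ring
  simp only [e1, Finset.sum_sub_distrib, ← Finset.sum_mul, htel, zero_mul, sub_zero]

end Abstract

section Quot

variable {Γ : Subgroup SL(2, ℤ)}

lemma smul_one_coset_of_mem {γ : SL(2, ℤ)} (hγ : γ ∈ Γ) :
    γ • ((1 : SL(2, ℤ)) : SL(2, ℤ) ⧸ Γ) = ((1 : SL(2, ℤ)) : SL(2, ℤ) ⧸ Γ) := by
  rw [MulAction.Quotient.smul_mk, smul_eq_mul, mul_one, QuotientGroup.eq, mul_one]
  exact inv_mem hγ

lemma smul_one_coset (g : SL(2, ℤ)) :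
    g • ((1 : SL(2, ℤ)) : SL(2, ℤ) ⧸ Γ) = ((g : SL(2, ℤ)) : SL(2, ℤ) ⧸ Γ) := by
  rw [MulAction.Quotient.smul_mk, smul_eq_mul, mul_one]

lemma neg_one_smul_coset (hneg : (-1 : SL(2, ℤ)) ∈ Γ) (x : SL(2, ℤ) ⧸ Γ) :
    (-1 : SL(2, ℤ)) • x = x := by
  rw [← S_mul_S_eq_neg_one', mul_smul]
  exact S_smul_S_smul hneg x

lemma ST_cube_smul (hneg : (-1 : SL(2, ℤ)) ∈ Γ) (x : SL(2, ℤ) ⧸ Γ) :
    (S * T) • (S * T) • (S * T) • x = x := by
  rw [smul_smul, smul_smul, ST_cube_eq_neg_one', neg_one_smul_coset hneg]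

lemma ST_inv_smul (hneg : (-1 : SL(2, ℤ)) ∈ Γ) (x : SL(2, ℤ) ⧸ Γ) :
    (S * T)⁻¹ • x = (S * T) • (S * T) • x := by
  conv_lhs => rw [← ST_cube_smul hneg x]
  rw [inv_smul_smul]

end Quot

/-- **Leaf HEIS.** -/
theorem heisLift (tors : TorsionClassStatement) : HeisLiftStatement.{u} := by
  intro Γ _ hneg R _ φ ψ m m' e e' hm hm' he he'
  obtain ⟨f, ⟨hf, hfS, hfU⟩, hφ⟩ := hm
  obtain ⟨f', ⟨hf', hf'S, hf'U⟩, hψ⟩ := hm'
  have : Fintype (SL(2, ℤ) ⧸ Γ) := Fintype.ofFinite _
  have hnegX : ∀ x : SL(2, ℤ) ⧸ Γ, (-1 : SL(2, ℤ)) • x = x := neg_one_smul_coset hneg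
  have hU3 := ST_cube_smul (Γ := Γ) hneg
  have hUi := ST_inv_smul (Γ := Γ) hneg
  -- the Heisenberg cocycle
  obtain ⟨a, b, c, hC, haS, hbS, hcS, haU, hbU, hcU⟩ := exists_heisCocycle hnegX
    (fun x => m ((S * T) • x) - m x) (fun x => m' ((S * T) • x) - m' x)
    (fun x => m x * (m' x - m' ((S * T)⁻¹ • x)))
    (fun x => by simp only [hU3]; ring) (fun x => by simp only [hU3]; ring)
    (fun x => by
      simp only [hUi, hU3]
      ring)
  have haf : a = f := addCocycle_ext hC.a_mul hf (by rw [haS]; funext x; exact (hfS x).symm)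
    (by rw [haU]; funext x; exact (hfU x).symm)
  have hbf : b = f' := addCocycle_ext hC.b_mul hf' (by rw [hbS]; funext x; exact (hf'S x).symm)
    (by rw [hbU]; funext x; exact (hf'U x).symm)
  set x₀ : SL(2, ℤ) ⧸ Γ := ((1 : SL(2, ℤ)) : SL(2, ℤ) ⧸ Γ) with hx₀
  have hφa : ∀ γ : Γ, φ (Additive.ofMul γ) = a (γ : SL(2, ℤ)) x₀ := by
    intro γ; rw [haf]; exact hφ γ
  have hψb : ∀ γ : Γ, ψ (Additive.ofMul γ) = b (γ : SL(2, ℤ)) x₀ := by
    intro γ; rw [hbf]; exact hψ γ
  -- values at `S⁻¹`, `T`, `-1`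
  have haSi : ∀ y, a S⁻¹ y = 0 := fun y => by
    rw [addCocycle_inv hC.a_mul, haS]; simp
  have hbSi : ∀ y, b S⁻¹ y = 0 := fun y => by
    rw [addCocycle_inv hC.b_mul, hbS]; simp
  have hcSi : ∀ y, c S⁻¹ y = 0 := fun y => by
    have := hC.c_inv S (S⁻¹ • y)
    rw [smul_inv_smul, hcS, haSi] at this
    simpa using this
  have hT : (T : SL(2, ℤ)) = S⁻¹ * (S * T) := by rw [inv_mul_cancel_left]
  have haT : ∀ x, a T x = e (T • x) - e x := fun x => by
    rw [hT, hC.a_mul, haSi, add_zero, haU, ← hT]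
    exact (he x).symm
  have hbT : ∀ x, b T x = e' (T • x) - e' x := fun x => by
    rw [hT, hC.b_mul, hbSi, add_zero, hbU, ← hT]
    exact (he' x).symm
  have hcT : ∀ x, c T x = m x * (m' x - m' ((S * T)⁻¹ • x)) := fun x => by
    conv_lhs => rw [hT]
    rw [hC.c_mul, hcSi, haSi, hcU]
    ring
  have haN : ∀ y, a (-1) y = 0 := fun y => by
    rw [← S_mul_S_eq_neg_one', hC.a_mul, haS]; simp
  have hbN : ∀ y, b (-1) y = 0 := fun y => by
    rw [← S_mul_S_eq_neg_one', hC.b_mul, hbS]; simp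
  have hcN : ∀ y, c (-1) y = 0 := fun y => by
    rw [← S_mul_S_eq_neg_one', hC.c_mul, hcS, haS]; simp
  -- `C (-t) = C t`
  have hneg_mul : ∀ (t : SL(2, ℤ)) (y : SL(2, ℤ) ⧸ Γ),
      a (-t) y = a t y ∧ b (-t) y = b t y ∧ c (-t) y = c t y := by
    intro t y
    have e1 : -t = (-1) * t := by simp
    rw [e1, hC.a_mul, hC.b_mul, hC.c_mul, haN, hbN, hcN]
    simp
  -- `C (U²) = 1` at fixed points of `U`
  have hUfix : ∀ y : SL(2, ℤ) ⧸ Γ, (S * T) • y = y →
      a (S * T) y = 0 ∧ b (S * T) y = 0 ∧ c (S * T) y = 0 := by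
    intro y hy
    have hy' : (S * T)⁻¹ • y = y := by
      conv_lhs => rw [← hy]
      rw [inv_smul_smul]
    rw [haU, hbU, hcU]
    simp only [hy, hy', sub_self, mul_zero, and_self]
  have hU2fix : ∀ y : SL(2, ℤ) ⧸ Γ, (S * T) ^ 2 • y = y →
      a ((S * T) ^ 2) y = 0 ∧ b ((S * T) ^ 2) y = 0 ∧ c ((S * T) ^ 2) y = 0 := by
    intro y hy
    have hy1 : (S * T) • y = y := by
      have := hU3 y
      rw [pow_two, mul_smul] at hy
      rw [hy] at this
      exact this
    obtain ⟨h1, h2, h3⟩ := hUfix y hy1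
    rw [pow_two, hC.a_mul, hC.b_mul, hC.c_mul, hy1, h1, h2, h3]
    simp
  refine ⟨fun γ => c (γ : SL(2, ℤ)) x₀, ⟨fun γ γ' => ?_, fun γ hγ => ?_⟩, ?_⟩
  · -- the Heisenberg relation
    show c ((γ : SL(2, ℤ)) * (γ' : SL(2, ℤ))) x₀ = _
    rw [hC.c_mul, smul_one_coset_of_mem γ'.2, hφa, hψb]
    ring
  · -- torsion
    have hγ' : IsOfFinOrder (γ : SL(2, ℤ)) := Γ.subtype.isOfFinOrder hγ
    obtain ⟨g, hg⟩ := tors (γ : SL(2, ℤ)) hγ'
    set t := g * (γ : SL(2, ℤ)) * g⁻¹ with ht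
    have hγt : (γ : SL(2, ℤ)) = g⁻¹ * t * g := by
      rw [ht]; group
    have hfix : t • g • x₀ = g • x₀ := by
      rw [ht, ← mul_smul, inv_mul_cancel_right, mul_smul, smul_one_coset_of_mem γ.2]
    -- `C t (g x₀) = 1`
    have hCt : a t (g • x₀) = 0 ∧ b t (g • x₀) = 0 ∧ c t (g • x₀) = 0 := by
      have hfixn : ∀ s : SL(2, ℤ), (-s) • g • x₀ = g • x₀ → s • g • x₀ = g • x₀ := by
        intro s hs
        have e1 : -s = (-1) * s := by simp
        rw [e1, mul_smul, hnegX] at hs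
        exact hs
      rcases hg with h1 | h1 | h1 | h1 | h1 | h1 | h1 | h1
      · rw [h1]; exact ⟨hC.a_one _, hC.b_one _, hC.c_one _⟩
      · rw [h1]; exact ⟨haN _, hbN _, hcN _⟩
      · rw [h1, haS, hbS, hcS]; simp
      · rw [h1]
        obtain ⟨e1, e2, e3⟩ := hneg_mul S (g • x₀)
        rw [e1, e2, e3, haS, hbS, hcS]; simp
      · rw [h1]; rw [h1] at hfix; exact hUfix _ hfix
      · rw [h1]; rw [h1] at hfix
        obtain ⟨e1, e2, e3⟩ := hneg_mul (S * T) (g • x₀)
        rw [e1, e2, e3]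
        exact hUfix _ (hfixn _ hfix)
      · rw [h1]; rw [h1] at hfix; exact hU2fix _ hfix
      · rw [h1]; rw [h1] at hfix
        obtain ⟨e1, e2, e3⟩ := hneg_mul ((S * T) ^ 2) (g • x₀)
        rw [e1, e2, e3]
        exact hU2fix _ (hfixn _ hfix)
    show c (γ : SL(2, ℤ)) x₀ = 0
    rw [hγt, hC.c_conj g t x₀ hCt.1 hCt.2.1 hfix, hCt.2.2]
  · -- the β-formula
    intro ι _ γ h w hsys
    obtain ⟨hw, hγ, hbij⟩ := hsys
    -- the summand
    set G : SL(2, ℤ) ⧸ Γ → R := fun x =>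
      m x * (m' x - m' ((S * T)⁻¹ • x)) + (e (T • x) - e x) * e' x with hG
    have hone : ∀ i, c ((γ i : Γ) : SL(2, ℤ)) x₀ =
        ∑ j ∈ Finset.range (w i), G (T ^ j • h i • x₀) := by
      intro i
      have hfix : T ^ (w i) • h i • x₀ = h i • x₀ := by
        have := smul_one_coset_of_mem (γ i).2
        rw [hγ i, mul_smul, mul_smul] at this
        have h2 := congrArg (fun y => h i • y) this
        simp only [smul_inv_smul] at h2
        exact h2
      have ha0 : a (T ^ (w i)) (h i • x₀) = 0 := by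
        rw [addCocycle_pow hC.a_mul T e haT, hfix, sub_self]
      have hb0 : b (T ^ (w i)) (h i • x₀) = 0 := by
        rw [addCocycle_pow hC.b_mul T e' hbT, hfix, sub_self]
      rw [hγ i, hC.c_conj (h i) (T ^ (w i)) x₀ ha0 hb0 hfix,
        hC.c_pow_of_fixed T e e' haT hbT (w i) (h i • x₀) hfix]
      refine Finset.sum_congr rfl fun j _ => ?_
      rw [hcT]
    -- reindexing by the `T`-orbit system
    let Φ : (Σ i, Fin (w i)) → SL(2, ℤ) ⧸ Γ := fun p =>
      ((T ^ (p.2 : ℕ) * h p.1 : SL(2, ℤ)) : SL(2, ℤ) ⧸ Γ)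
    have hΦ : Function.Bijective Φ := by
      constructor
      · intro p p' hpp
        obtain ⟨p₀, -, hp₀⟩ := hbij (Φ p)
        rw [hp₀ p rfl, hp₀ p' hpp]
      · intro x
        obtain ⟨p, hp, -⟩ := hbij x
        exact ⟨p, hp.symm⟩
    have hsum : ∑ i, c ((γ i : Γ) : SL(2, ℤ)) x₀ = ∑ x : SL(2, ℤ) ⧸ Γ, G x := by
      rw [← Fintype.sum_bijective Φ hΦ (fun p => G (Φ p)) G (fun p => rfl), Fintype.sum_sigma]
      refine Finset.sum_congr rfl fun i _ => ?_
      rw [hone i, ← Fin.sum_univ_eq_sum_range (fun j => G (T ^ j • h i • x₀)) (w i)]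
      refine Finset.sum_congr rfl fun j _ => ?_
      show G (T ^ (j : ℕ) • h i • x₀) = G (((T ^ (j : ℕ) * h i : SL(2, ℤ)) : SL(2, ℤ) ⧸ Γ))
      rw [← mul_smul, smul_one_coset]
    show ∑ i, c ((γ i : Γ) : SL(2, ℤ)) x₀ = - maninForm Γ m e'
    rw [hsum, maninForm_eq_sum, eq_neg_iff_add_eq_zero, ← Finset.sum_add_distrib]
    -- the final computation
    have r1 : ∑ x : SL(2, ℤ) ⧸ Γ, m ((S * T) • x) * m' x =
        ∑ x : SL(2, ℤ) ⧸ Γ, m x * m' ((S * T)⁻¹ • x) := by
      rw [← Equiv.sum_comp (MulAction.toPerm (S * T : SL(2, ℤ)))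
        (fun x => m x * m' ((S * T)⁻¹ • x))]
      refine Finset.sum_congr rfl fun x _ => ?_
      simp only [MulAction.toPerm_apply, inv_smul_smul]
    have r2 : ∑ x : SL(2, ℤ) ⧸ Γ, m ((S * T) • x) * (m' x - e' x) =
        ∑ x : SL(2, ℤ) ⧸ Γ, m x * (m' x - e' (S • x)) := by
      rw [← Equiv.sum_comp (MulAction.toPerm (S * T : SL(2, ℤ)))
        (fun x => m x * (m' x - e' (S • x)))]
      refine Finset.sum_congr rfl fun x _ => ?_
      simp only [MulAction.toPerm_apply]
      rw [S_smul_ST_smul hneg]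
      have := he' x
      congr 1
      linear_combination this
    have key : ∀ x : SL(2, ℤ) ⧸ Γ, G x + m x * (e' x - e' (S • x)) =
        (m ((S * T) • x) * m' x - m x * m' ((S * T)⁻¹ • x)) +
          (m x * (m' x - e' (S • x)) - m ((S * T) • x) * (m' x - e' x)) := by
      intro x
      have := he x
      simp only [hG]
      linear_combination e' x * this
    simp only [key, Finset.sum_add_distrib, Finset.sum_sub_distrib, r1, r2, sub_self, add_zero]

end Fermat.Agent.S41.H221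

end
-- ===== PACK-END S41/H221/PDHeis.lean

-- ===== PACK-BEGIN S41/H221/PD.lean
section













/-!
# S41 — blocks PD and LIFT, CLOSED (helper221, final plug)

* `pd      : Spec.PDStatement`       — Poincaré duality family on the cuspidal classes of `Γ₀(n)`, any field;
* `pdHecke : Spec.PDHeckeStatement`  — the same with `T_l` self-adjoint (what Glue consumes);
* `lift    : Spec.LiftStatement`     — cuspidal classes mod `p` lift to `ℤ`.

Leaves: LA `H281`, TORS `H768`, DICT-a `H460`, DICT-b `H581`, TR `H683`, HEIS `H221`, HEIS-U `H236`,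
CUSP `H769`, PD-HECKE `H585`, HK-1a `H581`, HK-4 `H761`; assembly `H221/PDAsm1, PDAsm2`.
-/

set_option autoImplicit false

namespace Fermat.Agent.S41.H221

open Fermat.Agent.S41.Spec

universe u

/-- **Block PD.** -/
theorem pd : PDStatement.{u} :=
  pd_of_leaves H281.maninPerp H281.maninSkew H281.maninParDataOf
    H460.maninRepExists H460.maninRepZero H460.maninRepInvariant H460.maninRepLinear
    H581.maninRepRealize (H581.maninRepTorsion_of H768.torsionClass) H581.maninRepParabolic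
    H683.maninRepRes H683.maninRepCores H683.maninFormAdjoint H683.transferAlongEquiv
    (heisLift H768.torsionClass) (H236.cuspSumZero H460.maninRepExists)
    H769.tOrbitSystemExists H769.tOrbitCusp H769.cuspSumIndep H769.cuspSystemConjDelta

/-- **Block PD with self-adjoint Hecke operators.** -/
theorem pdHecke : PDHeckeStatement.{u} :=
  pdHecke_of_leaves pd H585.pdHeckeOfPD H581.restrictCusp H761.transferRestrictHecke

/-- **Block LIFT.** -/
theorem lift : LiftStatement :=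
  lift_of_leaves H460.maninRepExists H460.maninRepInvariant H460.maninRepLinear
    H581.maninRepRealize (H581.maninRepTorsion_of H768.torsionClass) H581.maninRepParabolic
    H281.parDataLift

end Fermat.Agent.S41.H221

end
-- ===== PACK-END S41/H221/PD.lean

-- ===== PACK-BEGIN S15/H662/NormFormula.lean
section



/-!
# Row S15, piece I1 (helper662): the norm formula for the isogeny `ℂ/L → ℂ/L'`

For `a = ω₁ / p`, `L' = L + ℤ a` and `h ∉ L'`:

  `∏_{k < p} (℘_L (z + k a) - ℘_L h) = (∏_{k < p - 1} (℘_L ((k+1) a) - ℘_L h)) · (℘_{L'} z - ℘_{L'} h)`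

for all `z ∉ L'` (`normProd_eq`).  Proof: Liouville on `ℂ / L'`.

Mathlib-only.
-/

set_option autoImplicit false

open Filter Topology
open scoped PeriodPair

noncomputable section

namespace Fermat.Agent.S15.H662

/-- `R(z) = ∏_{k<p} (℘_L(z + k a) - e)`, `a = ω₁ / p` -/
def normProd (L : PeriodPair) (p : ℕ) (e : ℂ) (z : ℂ) : ℂ :=
  ∏ k ∈ Finset.range p, (℘[L] (z + (k : ℂ) * (L.ω₁ / p)) - e)

/-- `B(z) = ∏_{k<p-1} (℘_L(z + (k+1) a) - e)`, `a = ω₁ / p` -/
def normProdTail (L : PeriodPair) (p : ℕ) (e : ℂ) (z : ℂ) : ℂ :=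
  ∏ k ∈ Finset.range (p - 1), (℘[L] (z + ((k + 1 : ℕ) : ℂ) * (L.ω₁ / p)) - e)

/-- the derivative of an even function vanishes at `0` -/
theorem deriv_zero_of_even {B : ℂ → ℂ} (h : ∀ z, B (-z) = B z) : deriv B 0 = 0 := by
  have h1 : deriv (fun x => B (-x)) 0 = -deriv B (-0) := deriv_comp_neg (f := B) (x := 0)
  have h2 : (fun x => B (-x)) = B := funext h
  rw [h2, neg_zero] at h1
  linear_combination (1 / 2 : ℂ) * h1

/-- periodicity with respect to both periods gives periodicity with respect to the lattice -/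
theorem periodic_of_periods (L : PeriodPair) (f : ℂ → ℂ) (h1 : ∀ z, f (z + L.ω₁) = f z)
    (h2 : ∀ z, f (z + L.ω₂) = f z) : ∀ z : ℂ, ∀ l ∈ L.lattice, f (z + l) = f z := by
  intro z l hl
  obtain ⟨m, n, rfl⟩ := PeriodPair.mem_lattice.mp hl
  have p1 : Function.Periodic f L.ω₁ := h1
  have p2 : Function.Periodic f L.ω₂ := h2
  exact ((p1.int_mul m).add_period (p2.int_mul n)) z

variable (L : PeriodPair) (p : ℕ) (e : ℂ)

theorem normProd_eq_tail_mul (hp : p ≠ 0) (z : ℂ) :
    normProd L p e z = normProdTail L p e z * (℘[L] z - e) := by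
  obtain ⟨n, rfl⟩ : ∃ n, p = n + 1 := ⟨p - 1, by omega⟩
  rw [normProd, normProdTail, Finset.prod_range_succ', Nat.add_sub_cancel]
  simp

theorem normProd_add_lattice (z : ℂ) {l : ℂ} (hl : l ∈ L.lattice) :
    normProd L p e (z + l) = normProd L p e z := by
  rw [normProd, normProd]
  refine Finset.prod_congr rfl fun k _ => ?_
  rw [show z + l + (k : ℂ) * (L.ω₁ / p) = (z + (k : ℂ) * (L.ω₁ / p)) + l by ring,
    L.weierstrassP_add_coe _ ⟨l, hl⟩]

theorem normProd_add_div (hp : p ≠ 0) (z : ℂ) :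
    normProd L p e (z + L.ω₁ / p) = normProd L p e z := by
  have hpc : (p : ℂ) ≠ 0 := by exact_mod_cast hp
  obtain ⟨n, rfl⟩ : ∃ n, p = n + 1 := ⟨p - 1, by omega⟩
  set G : ℕ → ℂ := fun k => ℘[L] (z + (k : ℂ) * (L.ω₁ / (n + 1 : ℕ))) - e with hG
  have hL : normProd L (n + 1) e (z + L.ω₁ / (n + 1 : ℕ)) = ∏ k ∈ Finset.range (n + 1), G (k + 1) := by
    rw [normProd]
    refine Finset.prod_congr rfl fun k _ => ?_
    simp only [hG]
    congr 2
    push_cast
    ring
  have hR : normProd L (n + 1) e z = ∏ k ∈ Finset.range (n + 1), G k := rfl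
  rw [hL, hR, Finset.prod_range_succ, Finset.prod_range_succ']
  congr 1
  simp only [hG]
  have : z + ((n + 1 : ℕ) : ℂ) * (L.ω₁ / (n + 1 : ℕ)) = z + L.ω₁ := by
    congr 1
    field_simp
  rw [this, L.weierstrassP_add_coe z ⟨L.ω₁, L.ω₁_mem_lattice⟩]
  simp

/-- `R` is periodic with respect to `L'` -/
theorem normProd_add_divPair (hp : p ≠ 0) (z : ℂ) {l : ℂ} (hl : l ∈ (divPair L p hp).lattice) :
    normProd L p e (z + l) = normProd L p e z := by
  refine periodic_of_periods (divPair L p hp) (normProd L p e) ?_ ?_ z l hl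
  · intro z
    exact normProd_add_div L p e hp z
  · intro z
    exact normProd_add_lattice L p e z L.ω₂_mem_lattice

/-- the tail `B` is even -/
theorem normProdTail_neg (hp : p ≠ 0) (z : ℂ) :
    normProdTail L p e (-z) = normProdTail L p e z := by
  have hpc : (p : ℂ) ≠ 0 := by exact_mod_cast hp
  rw [normProdTail, normProdTail]
  rw [← Finset.prod_range_reflect (fun k => ℘[L] (z + ((k + 1 : ℕ) : ℂ) * (L.ω₁ / p)) - e) (p - 1)]
  refine Finset.prod_congr rfl fun k hk => ?_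
  have hk' : k < p - 1 := Finset.mem_range.mp hk
  congr 1
  -- `℘ (-z + (k+1) a) = ℘ (z - (k+1) a) = ℘ (z - (k+1) a + ω₁)`
  have h1 : ℘[L] (-z + ((k + 1 : ℕ) : ℂ) * (L.ω₁ / p))
      = ℘[L] (z - ((k + 1 : ℕ) : ℂ) * (L.ω₁ / p)) := by
    rw [← L.weierstrassP_neg]
    congr 1
    ring
  rw [h1, ← L.weierstrassP_add_coe _ ⟨L.ω₁, L.ω₁_mem_lattice⟩]
  congr 1
  have hcast : ((p - 1 - 1 - k + 1 : ℕ) : ℂ) = (p : ℂ) - ((k + 1 : ℕ) : ℂ) := by
    have : p - 1 - 1 - k + 1 = p - (k + 1) := by omega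
    rw [this, Nat.cast_sub (by omega)]
  rw [hcast]
  field_simp
  ring

theorem analyticAt_normProdTail_zero (_hp : p ≠ 0) : AnalyticAt ℂ (normProdTail L p e) 0 := by
  unfold normProdTail
  refine Finset.analyticAt_fun_prod _ fun k hk => ?_
  have hk' : k < p - 1 := Finset.mem_range.mp hk
  have hnot : ((k + 1 : ℕ) : ℂ) * (L.ω₁ / p) ∉ L.lattice :=
    natMul_div_notMem L p (by omega) (by omega)
  have h1 : AnalyticAt ℂ ℘[L] (0 + ((k + 1 : ℕ) : ℂ) * (L.ω₁ / p)) := by
    rw [zero_add]; exact L.analyticOnNhd_weierstrassP _ hnot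
  have h2 : AnalyticAt ℂ (fun z : ℂ => z + ((k + 1 : ℕ) : ℂ) * (L.ω₁ / p)) 0 := by fun_prop
  exact (h1.comp (f := fun z : ℂ => z + ((k + 1 : ℕ) : ℂ) * (L.ω₁ / p)) h2).sub analyticAt_const

theorem analyticAt_normProd (hp : p ≠ 0) {z₀ : ℂ} (hz : z₀ ∉ (divPair L p hp).lattice) :
    AnalyticAt ℂ (normProd L p e) z₀ := by
  unfold normProd
  refine Finset.analyticAt_fun_prod _ fun k _ => ?_
  have hnot : z₀ + (k : ℂ) * (L.ω₁ / p) ∉ L.lattice := by
    intro hmem
    apply hz
    have h1 := lattice_le_divPair L p hp hmem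
    have h2 := natMul_div_mem_divPair L p hp k
    have := (divPair L p hp).lattice.sub_mem h1 h2
    simpa using this
  have h1 : AnalyticAt ℂ ℘[L] (z₀ + (k : ℂ) * (L.ω₁ / p)) := L.analyticOnNhd_weierstrassP _ hnot
  have h2 : AnalyticAt ℂ (fun z : ℂ => z + (k : ℂ) * (L.ω₁ / p)) z₀ := by fun_prop
  exact (h1.comp (f := fun z : ℂ => z + (k : ℂ) * (L.ω₁ / p)) h2).sub analyticAt_const

/-- **Norm formula.** -/
theorem normProd_eq (hp : p ≠ 0) {h : ℂ} (hh : h ∉ (divPair L p hp).lattice) {z : ℂ}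
    (hz : z ∉ (divPair L p hp).lattice) :
    normProd L p (℘[L] h) z =
      normProdTail L p (℘[L] h) 0 * (℘[divPair L p hp] z - ℘[divPair L p hp] h) := by
  set L' := divPair L p hp with hL'
  set e := ℘[L] h with he
  set e' := ℘[L'] h with he'
  set c := normProdTail L p e 0 with hc
  set f : ℂ → ℂ := fun z => normProd L p e z - c * (℘[L'] z - e') with hf
  have hper : ∀ z : ℂ, ∀ l ∈ L'.lattice, f (z + l) = f z := by
    intro z l hl
    simp only [hf]
    rw [normProd_add_divPair L p e hp z hl, L'.weierstrassP_add_coe z ⟨l, hl⟩]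
  have han : ∀ z₀ : ℂ, z₀ ∉ L'.lattice → AnalyticAt ℂ f z₀ := by
    intro z₀ hz₀
    have h1 := analyticAt_normProd L p e hp hz₀
    have h2 : AnalyticAt ℂ ℘[L'] z₀ := L'.analyticOnNhd_weierstrassP z₀ hz₀
    exact h1.sub (analyticAt_const.mul (h2.sub analyticAt_const))
  -- removable singularity at `0`
  have hrem0 : ∃ g : ℂ → ℂ, AnalyticAt ℂ g 0 ∧ f =ᶠ[𝓝[≠] (0 : ℂ)] g := by
    set w : ℂ → ℂ := fun z => normProdTail L p e z - c with hw
    have hBan := analyticAt_normProdTail_zero L p e hp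
    have hwan : AnalyticAt ℂ w 0 := hBan.sub analyticAt_const
    have hw0 : w 0 = 0 := by simp only [hw, hc, sub_self]
    have hw1 : deriv w 0 = 0 := by
      apply deriv_zero_of_even
      intro z
      simp only [hw]
      rw [normProdTail_neg L p e hp]
    have r1 := removable_weierstrassP_mul L hwan hw0 hw1
    have r2 := removable_const_mul c (removable_weierstrassP_sub L L')
    have r3 := removable_const_mul e (removable_of_analyticAt hBan)
    have r4 := removable_sub (removable_add r1 r2) r3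
    have r5 := removable_add r4 (removable_of_analyticAt (analyticAt_const (v := c * e') (x := (0 : ℂ))))
    obtain ⟨g, hg, hfg⟩ := r5
    refine ⟨g, hg, EventuallyEq.trans (Eventually.of_forall fun z => ?_) hfg⟩
    simp only [hf, hw]
    rw [normProd_eq_tail_mul L p e hp]
    ring
  have hrem : ∀ z : ℂ, ∃ g : ℂ → ℂ, AnalyticAt ℂ g z ∧ f =ᶠ[𝓝[≠] z] g := by
    intro z
    by_cases hz : z ∈ L'.lattice
    · have := removable_add_period (t := z) (z₀ := 0) (fun v => hper v z hz) hrem0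
      simpa using this
    · exact removable_of_analyticAt (han z hz)
  obtain ⟨d, hd⟩ := exists_const_of_periodic_of_removable' L' f hper hrem
  have hd0 : d = 0 := by
    rw [← hd h (han h hh).continuousAt]
    simp only [hf]
    rw [normProd_eq_tail_mul L p e hp, he, he']
    ring
  have := hd z (han z hz).continuousAt
  rw [hd0] at this
  simp only [hf] at this
  linear_combination this

end Fermat.Agent.S15.H662

end

end
-- ===== PACK-END S15/H662/NormFormula.lean

-- ===== PACK-BEGIN S15/H662/Isogeny.lean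
section



/-!
# Row S15, piece I1 (helper662): the discriminant of the quotient lattice

`latDisc_divPair` : for `p` odd, `a = ω₁ / p`, `L' = L + ℤ a`:

  `Δ(L') · (∏_{0 < k < p} ℘'_L (k a)) ^ 4 = Δ(L) ^ p`,     `Δ = g₂³ - 27 g₃²`.

Mathlib-only.
-/

set_option autoImplicit false

open Filter Topology
open scoped PeriodPair

noncomputable section

namespace Fermat.Agent.S15.H662

/-! ### explicit half-period translation formulas -/

/-- the constant of the half-period translation formula, computed at a second half-period -/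
theorem halfPeriod_translate_eq (L : PeriodPair) {h h' : ℂ} (hh : h ∉ L.lattice)
    (hh2 : 2 * h ∈ L.lattice) (hh' : h' ∉ L.lattice) (hd : h' - h ∉ L.lattice) {z : ℂ}
    (hz : z ∉ L.lattice) (hzh : z - h ∉ L.lattice) :
    (℘[L] z - ℘[L] h) * (℘[L] (z - h) - ℘[L] h) =
      (℘[L] h' - ℘[L] h) * (℘[L] (h' - h) - ℘[L] h) := by
  obtain ⟨κ, hκ⟩ := exists_halfPeriod_translate L hh hh2
  rw [hκ z hz hzh, hκ h' hh' hd]

theorem half_sub_half_notMem' (L : PeriodPair) : L.ω₂ / 2 - L.ω₁ / 2 ∉ L.lattice := by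
  intro h
  apply half_sub_half_notMem L
  have := L.lattice.neg_mem h
  simpa using this

theorem weierstrassP_half_sub_half (L : PeriodPair) : ℘[L] (L.ω₂ / 2 - L.ω₁ / 2) = e₃ L := by
  rw [← L.weierstrassP_add_coe _ ⟨L.ω₁, L.ω₁_mem_lattice⟩, e₃]
  congr 1
  ring

theorem weierstrassP_half_sub_half' (L : PeriodPair) : ℘[L] (L.ω₁ / 2 - L.ω₂ / 2) = e₃ L := by
  rw [← L.weierstrassP_add_coe _ ⟨L.ω₂, L.ω₂_mem_lattice⟩, e₃]
  congr 1
  ring

theorem translate₁ (L : PeriodPair) {z : ℂ} (hz : z ∉ L.lattice)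
    (hzh : z - L.ω₁ / 2 ∉ L.lattice) :
    (℘[L] z - e₁ L) * (℘[L] (z - L.ω₁ / 2) - e₁ L) = (e₁ L - e₂ L) * (e₁ L - e₃ L) := by
  have := halfPeriod_translate_eq L L.ω₁_div_two_notMem_lattice (two_mul_half₁ L)
    L.ω₂_div_two_notMem_lattice (half_sub_half_notMem' L) hz hzh
  rw [weierstrassP_half_sub_half] at this
  simp only [e₁, e₂] at this ⊢
  rw [this]; ring

theorem translate₂ (L : PeriodPair) {z : ℂ} (hz : z ∉ L.lattice)
    (hzh : z - L.ω₂ / 2 ∉ L.lattice) :
    (℘[L] z - e₂ L) * (℘[L] (z - L.ω₂ / 2) - e₂ L) = (e₂ L - e₁ L) * (e₂ L - e₃ L) := by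
  have := halfPeriod_translate_eq L L.ω₂_div_two_notMem_lattice (two_mul_half₂ L)
    L.ω₁_div_two_notMem_lattice (half_sub_half_notMem L) hz hzh
  rw [weierstrassP_half_sub_half'] at this
  simp only [e₁, e₂] at this ⊢
  rw [this]; ring

theorem translate₃ (L : PeriodPair) {z : ℂ} (hz : z ∉ L.lattice)
    (hzh : z - (L.ω₁ / 2 + L.ω₂ / 2) ∉ L.lattice) :
    (℘[L] z - e₃ L) * (℘[L] (z - (L.ω₁ / 2 + L.ω₂ / 2)) - e₃ L)
      = (e₃ L - e₁ L) * (e₃ L - e₂ L) := by
  have hd : L.ω₁ / 2 - (L.ω₁ / 2 + L.ω₂ / 2) ∉ L.lattice := by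
    intro h
    apply L.ω₂_div_two_notMem_lattice
    have := L.lattice.neg_mem h
    have e : -(L.ω₁ / 2 - (L.ω₁ / 2 + L.ω₂ / 2)) = L.ω₂ / 2 := by ring
    rwa [e] at this
  have := halfPeriod_translate_eq L (half_add_half_notMem L) (two_mul_half₃ L)
    L.ω₁_div_two_notMem_lattice hd hz hzh
  have e : ℘[L] (L.ω₁ / 2 - (L.ω₁ / 2 + L.ω₂ / 2)) = e₂ L := by
    rw [e₂, ← L.weierstrassP_neg]
    congr 1
    ring
  rw [e] at this
  simp only [e₁, e₃] at this ⊢
  rw [this]; ring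

/-! ### the core product computation -/

/-- one factor: `(℘(h + t) - e_j) (℘ t - e) = (e - e_j) (℘ t - e_m)` -/
theorem step_core (L : PeriodPair) {h e ej em : ℂ}
    (hκ : ∀ z : ℂ, z ∉ L.lattice → z - h ∉ L.lattice →
      (℘[L] z - e) * (℘[L] (z - h) - e) = (e - ej) * (e - em))
    {t : ℂ} (ht : t ∉ L.lattice) (hht : h + t ∉ L.lattice) :
    (℘[L] (h + t) - ej) * (℘[L] t - e) = (e - ej) * (℘[L] t - em) := by
  have := hκ (h + t) hht (by simpa using ht)
  rw [add_sub_cancel_left] at this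
  linear_combination this

/-- the product over the `p`-division points -/
theorem tail_prod (L : PeriodPair) (p : ℕ) {h e ej em : ℂ}
    (hκ : ∀ z : ℂ, z ∉ L.lattice → z - h ∉ L.lattice →
      (℘[L] z - e) * (℘[L] (z - h) - e) = (e - ej) * (e - em))
    (hh : ∀ k : ℕ, k < p - 1 → h + ((k + 1 : ℕ) : ℂ) * (L.ω₁ / p) ∉ L.lattice) :
    normProdTail L p ej h * normProdTail L p e 0
      = (e - ej) ^ (p - 1) * normProdTail L p em 0 := by
  simp only [normProdTail]
  rw [← Finset.prod_mul_distrib]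
  have : ∀ k ∈ Finset.range (p - 1),
      (℘[L] (h + ((k + 1 : ℕ) : ℂ) * (L.ω₁ / p)) - ej) *
        (℘[L] (0 + ((k + 1 : ℕ) : ℂ) * (L.ω₁ / p)) - e)
      = (e - ej) * (℘[L] (0 + ((k + 1 : ℕ) : ℂ) * (L.ω₁ / p)) - em) := by
    intro k hk
    have hk' : k < p - 1 := Finset.mem_range.mp hk
    rw [zero_add]
    exact step_core L hκ (natMul_div_notMem L p (by omega) (by omega)) (hh k hk')
  rw [Finset.prod_congr rfl this, Finset.prod_mul_distrib, Finset.prod_const, Finset.card_range]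

/-- the constants `c` are nonzero -/
theorem normProdTail_zero_ne_zero (L : PeriodPair) (p : ℕ) {h e ej em : ℂ}
    (hκ : ∀ z : ℂ, z ∉ L.lattice → z - h ∉ L.lattice →
      (℘[L] z - e) * (℘[L] (z - h) - e) = (e - ej) * (e - em))
    (hej : e ≠ ej) (hem : e ≠ em)
    (hh : ∀ k : ℕ, k < p - 1 → h + ((k + 1 : ℕ) : ℂ) * (L.ω₁ / p) ∉ L.lattice) :
    normProdTail L p e 0 ≠ 0 := by
  simp only [normProdTail]
  rw [Finset.prod_ne_zero_iff]
  intro k hk
  have hk' : k < p - 1 := Finset.mem_range.mp hk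
  rw [zero_add]
  set t := ((k + 1 : ℕ) : ℂ) * (L.ω₁ / p) with ht
  have htL : t ∉ L.lattice := natMul_div_notMem L p (by omega) (by omega)
  have := hκ (h + t) (hh k hk') (by simpa using htL)
  rw [add_sub_cancel_left] at this
  intro h0
  rw [h0, mul_zero] at this
  exact mul_ne_zero (sub_ne_zero.mpr hej) (sub_ne_zero.mpr hem) this.symm

/-- **(I-B)**: `c_e · c_{e_j} · (℘_{L'} h - ℘_{L'} h_j) = (e - e_j)^p · c_{e_m}`. -/
theorem diff_formula (L : PeriodPair) (p : ℕ) (hp : p ≠ 0) {h hj e ej em : ℂ}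
    (he : e = ℘[L] h) (hej : ej = ℘[L] hj)
    (hκ : ∀ z : ℂ, z ∉ L.lattice → z - h ∉ L.lattice →
      (℘[L] z - e) * (℘[L] (z - h) - e) = (e - ej) * (e - em))
    (hh : ∀ k : ℕ, k < p - 1 → h + ((k + 1 : ℕ) : ℂ) * (L.ω₁ / p) ∉ L.lattice)
    (hhL' : h ∉ (divPair L p hp).lattice) (hjL' : hj ∉ (divPair L p hp).lattice) :
    normProdTail L p e 0 * normProdTail L p ej 0 *
        (℘[divPair L p hp] h - ℘[divPair L p hp] hj)
      = (e - ej) ^ p * normProdTail L p em 0 := by
  have h1 := normProd_eq L p hp hjL' hhL'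
  rw [← hej, normProd_eq_tail_mul L p ej hp, ← he] at h1
  have h2 := tail_prod L p hκ hh
  obtain ⟨n, rfl⟩ : ∃ n, p = n + 1 := ⟨p - 1, by omega⟩
  rw [Nat.add_sub_cancel] at h2
  rw [pow_succ]
  linear_combination (normProdTail L (n + 1) e 0) * (-h1) + (e - ej) * h2

/-! ### arithmetic of the division points -/

theorem den_half_add_div_ne_one {p : ℕ} (hp : Odd p) (j : ℕ) :
    ((1 / 2 : ℚ) + (j : ℚ) / p).den ≠ 1 := by
  intro hq
  have hp0 : p ≠ 0 := by rintro rfl; simp at hp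
  have hpq : (p : ℚ) ≠ 0 := by exact_mod_cast hp0
  obtain ⟨m, hm⟩ : ∃ m : ℤ, ((1 / 2 : ℚ) + (j : ℚ) / p) = m :=
    ⟨((1 / 2 : ℚ) + (j : ℚ) / p).num, by
      conv_lhs => rw [← Rat.num_div_den ((1 / 2 : ℚ) + (j : ℚ) / p), hq]
      simp⟩
  have hkm : (p : ℚ) + 2 * j = 2 * m * p := by
    field_simp at hm
    linear_combination hm
  have hkm' : (p : ℤ) + 2 * j = 2 * m * p := by exact_mod_cast hkm
  obtain ⟨r, hr⟩ := hp
  have h2 : (2 : ℤ) ∣ (p : ℤ) := ⟨m * p - j, by linarith⟩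
  omega

theorem den_half_mul_ne_one {p : ℕ} (hp : Odd p) : ((1 / 2 : ℚ) * (p : ℚ)).den ≠ 1 := by
  intro hq
  obtain ⟨m, hm⟩ : ∃ m : ℤ, ((1 / 2 : ℚ) * (p : ℚ)) = m :=
    ⟨((1 / 2 : ℚ) * (p : ℚ)).num, by
      conv_lhs => rw [← Rat.num_div_den ((1 / 2 : ℚ) * (p : ℚ)), hq]
      simp⟩
  have hkm : (p : ℚ) = 2 * m := by linear_combination 2 * hm
  have hkm' : (p : ℤ) = 2 * m := by exact_mod_cast hkm
  obtain ⟨r, hr⟩ := hp
  omega

theorem den_half_ne_one : ((1 / 2 : ℚ)).den ≠ 1 := by norm_num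

variable (L : PeriodPair) (p : ℕ)

theorem half₁_add_notMem (hp : Odd p) (j : ℕ) :
    L.ω₁ / 2 + (j : ℂ) * (L.ω₁ / p) ∉ L.lattice := by
  have hp0 : p ≠ 0 := by rintro rfl; simp at hp
  have hpc : (p : ℂ) ≠ 0 := by exact_mod_cast hp0
  have h := (L.mul_ω₁_add_mul_ω₂_mem_lattice (α := (1 / 2 : ℚ) + (j : ℚ) / p) (β := 0)).not.mpr
    (fun h1 => den_half_add_div_ne_one hp j h1.1)
  have e : L.ω₁ / 2 + (j : ℂ) * (L.ω₁ / p)
      = (((1 / 2 : ℚ) + (j : ℚ) / p : ℚ) : ℂ) * L.ω₁ + ((0 : ℚ) : ℂ) * L.ω₂ := by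
    push_cast
    field_simp
    ring
  rw [e]
  exact h

theorem half₂_add_notMem (hp0 : p ≠ 0) (j : ℕ) :
    L.ω₂ / 2 + (j : ℂ) * (L.ω₁ / p) ∉ L.lattice := by
  have hpc : (p : ℂ) ≠ 0 := by exact_mod_cast hp0
  have h := (L.mul_ω₁_add_mul_ω₂_mem_lattice (α := (j : ℚ) / p) (β := 1 / 2)).not.mpr
    (fun h1 => den_half_ne_one h1.2)
  have e : L.ω₂ / 2 + (j : ℂ) * (L.ω₁ / p)
      = (((j : ℚ) / p : ℚ) : ℂ) * L.ω₁ + ((1 / 2 : ℚ) : ℂ) * L.ω₂ := by
    push_cast
    field_simp
    ring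
  rw [e]
  exact h

theorem half₃_add_notMem (hp0 : p ≠ 0) (j : ℕ) :
    (L.ω₁ / 2 + L.ω₂ / 2) + (j : ℂ) * (L.ω₁ / p) ∉ L.lattice := by
  have hpc : (p : ℂ) ≠ 0 := by exact_mod_cast hp0
  have h := (L.mul_ω₁_add_mul_ω₂_mem_lattice (α := (1 / 2 : ℚ) + (j : ℚ) / p)
    (β := 1 / 2)).not.mpr (fun h1 => den_half_ne_one h1.2)
  have e : (L.ω₁ / 2 + L.ω₂ / 2) + (j : ℂ) * (L.ω₁ / p)
      = (((1 / 2 : ℚ) + (j : ℚ) / p : ℚ) : ℂ) * L.ω₁ + ((1 / 2 : ℚ) : ℂ) * L.ω₂ := by
    push_cast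
    field_simp
    ring
  rw [e]
  exact h

theorem half₁_notMem_divPair (hp : Odd p) (hp0 : p ≠ 0) :
    L.ω₁ / 2 ∉ (divPair L p hp0).lattice := by
  have h := (rat_mem_divPair_iff L p hp0 (α := 1 / 2) (β := 0)).not.mpr
    (fun h1 => den_half_mul_ne_one hp h1.1)
  have e : L.ω₁ / 2 = (((1 / 2 : ℚ) : ℚ) : ℂ) * L.ω₁ + ((0 : ℚ) : ℂ) * L.ω₂ := by
    push_cast
    ring
  rw [e]
  exact h

theorem half₂_notMem_divPair (hp0 : p ≠ 0) :
    L.ω₂ / 2 ∉ (divPair L p hp0).lattice := by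
  have h := (rat_mem_divPair_iff L p hp0 (α := 0) (β := 1 / 2)).not.mpr
    (fun h1 => den_half_ne_one h1.2)
  have e : L.ω₂ / 2 = (((0 : ℚ) : ℚ) : ℂ) * L.ω₁ + ((1 / 2 : ℚ) : ℂ) * L.ω₂ := by
    push_cast
    ring
  rw [e]
  exact h

theorem half₃_notMem_divPair (hp0 : p ≠ 0) :
    L.ω₁ / 2 + L.ω₂ / 2 ∉ (divPair L p hp0).lattice := by
  have h := (rat_mem_divPair_iff L p hp0 (α := 1 / 2) (β := 1 / 2)).not.mpr
    (fun h1 => den_half_ne_one h1.2)
  have e : L.ω₁ / 2 + L.ω₂ / 2 = (((1 / 2 : ℚ) : ℚ) : ℂ) * L.ω₁ + ((1 / 2 : ℚ) : ℂ) * L.ω₂ := by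
    push_cast
    ring
  rw [e]
  exact h

/-- the half-period values of `L'` are the values of `℘_{L'}` at the half-periods of `L` -/
theorem e₁_divPair (hp : Odd p) (hp0 : p ≠ 0) :
    e₁ (divPair L p hp0) = ℘[divPair L p hp0] (L.ω₁ / 2) := by
  have hpc : (p : ℂ) ≠ 0 := by exact_mod_cast hp0
  obtain ⟨r, hr⟩ := hp
  have hmem := natMul_div_mem_divPair L p hp0 r
  rw [e₁, divPair_ω₁, ← (divPair L p hp0).weierstrassP_add_coe _ ⟨_, hmem⟩]
  congr 1
  have : (p : ℂ) = 2 * r + 1 := by rw [hr]; push_cast; ring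
  field_simp
  rw [this]
  ring

theorem e₂_divPair (hp0 : p ≠ 0) :
    e₂ (divPair L p hp0) = ℘[divPair L p hp0] (L.ω₂ / 2) := rfl

theorem e₃_divPair (hp : Odd p) (hp0 : p ≠ 0) :
    e₃ (divPair L p hp0) = ℘[divPair L p hp0] (L.ω₁ / 2 + L.ω₂ / 2) := by
  have hpc : (p : ℂ) ≠ 0 := by exact_mod_cast hp0
  obtain ⟨r, hr⟩ := hp
  have hmem := natMul_div_mem_divPair L p hp0 r
  rw [e₃, divPair_ω₁, divPair_ω₂, ← (divPair L p hp0).weierstrassP_add_coe _ ⟨_, hmem⟩]
  congr 1
  have : (p : ℂ) = 2 * r + 1 := by rw [hr]; push_cast; ring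
  field_simp
  rw [this]
  ring

end Fermat.Agent.S15.H662

end

end
-- ===== PACK-END S15/H662/Isogeny.lean

-- ===== PACK-BEGIN S15/H662/Disc.lean
section



/-!
# Row S15, piece I1 (helper662): `Δ(L') · (∏ ℘'_L(k ω₁/p))⁴ = Δ(L)^p`

`latDisc_divPair`: for `p` odd and `L' = L + ℤ ω₁/p` (`divPair L p`),

  `latDisc L' * (∏ k ∈ range (p - 1), ℘'[L] ((k + 1) * (ω₁ / p))) ^ 4 = latDisc L ^ p`

where `latDisc L = g₂³ - 27 g₃²`.  Also in the form with `Finset.Ico 1 p`.

Mathlib-only.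
-/

set_option autoImplicit false

open Filter Topology
open scoped PeriodPair

noncomputable section

namespace Fermat.Agent.S15.H662

/-- the product of the values of `℘'` at the nonzero multiples of `ω₁ / p` -/
def derivProd (L : PeriodPair) (p : ℕ) : ℂ :=
  ∏ k ∈ Finset.range (p - 1), ℘'[L] (((k + 1 : ℕ) : ℂ) * (L.ω₁ / p))

theorem derivProd_sq (L : PeriodPair) (p : ℕ) :
    derivProd L p ^ 2 = 4 ^ (p - 1) *
      (normProdTail L p (e₁ L) 0 * normProdTail L p (e₂ L) 0 * normProdTail L p (e₃ L) 0) := by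
  simp only [derivProd, normProdTail]
  rw [← Finset.prod_pow, ← Finset.prod_mul_distrib, ← Finset.prod_mul_distrib]
  have h4 : (4 : ℂ) ^ (p - 1) = ∏ _k ∈ Finset.range (p - 1), (4 : ℂ) := by
    rw [Finset.prod_const, Finset.card_range]
  rw [h4, ← Finset.prod_mul_distrib]
  refine Finset.prod_congr rfl fun k hk => ?_
  have hk' : k < p - 1 := Finset.mem_range.mp hk
  rw [zero_add, derivWeierstrassP_sq_factor L (natMul_div_notMem L p (by omega) (by omega))]
  ring

/-- the final algebraic step -/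
theorem final_alg (P P' c D : ℂ) (n : ℕ) (key : c * P' = P ^ (n + 1))
    (h4 : D = 16 ^ n * c ^ 2) : 16 * P' ^ 2 * D = (16 * P ^ 2) ^ (n + 1) := by
  rw [h4]
  have h5 : 16 * P' ^ 2 * (16 ^ n * c ^ 2) = 16 ^ (n + 1) * (c * P') ^ 2 := by ring1
  rw [h5, key]
  ring1

/-- **The discriminant of the quotient lattice.** -/
theorem latDisc_divPair (L : PeriodPair) (p : ℕ) (hp : Odd p) (hp0 : p ≠ 0) :
    latDisc (divPair L p hp0) * derivProd L p ^ 4 = latDisc L ^ p := by
  set L' := divPair L p hp0 with hL'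
  set c₁ := normProdTail L p (e₁ L) 0 with hc₁
  set c₂ := normProdTail L p (e₂ L) 0 with hc₂
  set c₃ := normProdTail L p (e₃ L) 0 with hc₃
  have h12 := e₁_ne_e₂ L
  have h31 := e₃_ne_e₁ L
  have h32 := e₃_ne_e₂ L
  -- the three translation formulas in the shape needed
  have κ₁ : ∀ z : ℂ, z ∉ L.lattice → z - L.ω₁ / 2 ∉ L.lattice →
      (℘[L] z - e₁ L) * (℘[L] (z - L.ω₁ / 2) - e₁ L) = (e₁ L - e₂ L) * (e₁ L - e₃ L) :=
    fun z hz hzh => translate₁ L hz hzh
  have κ₁' : ∀ z : ℂ, z ∉ L.lattice → z - L.ω₁ / 2 ∉ L.lattice →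
      (℘[L] z - e₁ L) * (℘[L] (z - L.ω₁ / 2) - e₁ L) = (e₁ L - e₃ L) * (e₁ L - e₂ L) :=
    fun z hz hzh => (translate₁ L hz hzh).trans (mul_comm _ _)
  have κ₂ : ∀ z : ℂ, z ∉ L.lattice → z - L.ω₂ / 2 ∉ L.lattice →
      (℘[L] z - e₂ L) * (℘[L] (z - L.ω₂ / 2) - e₂ L) = (e₂ L - e₃ L) * (e₂ L - e₁ L) :=
    fun z hz hzh => (translate₂ L hz hzh).trans (mul_comm _ _)
  have κ₃ : ∀ z : ℂ, z ∉ L.lattice → z - (L.ω₁ / 2 + L.ω₂ / 2) ∉ L.lattice →
      (℘[L] z - e₃ L) * (℘[L] (z - (L.ω₁ / 2 + L.ω₂ / 2)) - e₃ L)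
        = (e₃ L - e₁ L) * (e₃ L - e₂ L) :=
    fun z hz hzh => translate₃ L hz hzh
  have m₁ : ∀ k : ℕ, k < p - 1 → L.ω₁ / 2 + ((k + 1 : ℕ) : ℂ) * (L.ω₁ / p) ∉ L.lattice :=
    fun k _ => half₁_add_notMem L p hp (k + 1)
  have m₂ : ∀ k : ℕ, k < p - 1 → L.ω₂ / 2 + ((k + 1 : ℕ) : ℂ) * (L.ω₁ / p) ∉ L.lattice :=
    fun k _ => half₂_add_notMem L p hp0 (k + 1)
  have m₃ : ∀ k : ℕ, k < p - 1 →
      (L.ω₁ / 2 + L.ω₂ / 2) + ((k + 1 : ℕ) : ℂ) * (L.ω₁ / p) ∉ L.lattice :=
    fun k _ => half₃_add_notMem L p hp0 (k + 1)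
  have n₁ := half₁_notMem_divPair L p hp hp0
  have n₂ := half₂_notMem_divPair L p hp0
  have n₃ := half₃_notMem_divPair L p hp0
  -- (I-B) for the three pairs
  have d12 := diff_formula L p hp0 (h := L.ω₁ / 2) (hj := L.ω₂ / 2) (e := e₁ L) (ej := e₂ L)
    (em := e₃ L) rfl rfl κ₁ m₁ n₁ n₂
  have d13 := diff_formula L p hp0 (h := L.ω₁ / 2) (hj := L.ω₁ / 2 + L.ω₂ / 2) (e := e₁ L)
    (ej := e₃ L) (em := e₂ L) rfl rfl κ₁' m₁ n₁ n₃
  have d23 := diff_formula L p hp0 (h := L.ω₂ / 2) (hj := L.ω₁ / 2 + L.ω₂ / 2) (e := e₂ L)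
    (ej := e₃ L) (em := e₁ L) rfl rfl κ₂ m₂ n₂ n₃
  rw [← e₁_divPair L p hp hp0, ← e₂_divPair L p hp0] at d12
  rw [← e₁_divPair L p hp hp0, ← e₃_divPair L p hp hp0] at d13
  rw [← e₂_divPair L p hp0, ← e₃_divPair L p hp hp0] at d23
  -- nonvanishing of the constants
  have hc₁0 : c₁ ≠ 0 := normProdTail_zero_ne_zero L p κ₁ h12 h31.symm m₁
  have hc₂0 : c₂ ≠ 0 := normProdTail_zero_ne_zero L p κ₂ h32.symm h12.symm m₂
  have hc₃0 : c₃ ≠ 0 := normProdTail_zero_ne_zero L p κ₃ h31 h32 m₃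
  have hsq := derivProd_sq L p
  rw [← hc₁, ← hc₂, ← hc₃] at hsq
  -- put everything together
  set P := (e₁ L - e₂ L) * (e₁ L - e₃ L) * (e₂ L - e₃ L) with hP
  set P' := (e₁ L' - e₂ L') * (e₁ L' - e₃ L') * (e₂ L' - e₃ L') with hP'
  set c := c₁ * c₂ * c₃ with hc
  have hc0 : c ≠ 0 := mul_ne_zero (mul_ne_zero hc₁0 hc₂0) hc₃0
  have key : c * P' = P ^ p := by
    apply mul_left_cancel₀ hc0
    have : c * (c * P') = (c₁ * c₂ * (e₁ L' - e₂ L')) * (c₁ * c₃ * (e₁ L' - e₃ L')) *
        (c₂ * c₃ * (e₂ L' - e₃ L')) := by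
      simp only [hc, hP']; ring
    rw [this, d12, d13, d23]
    simp only [hc, hP, mul_pow]
    ring
  rw [latDisc_eq_e L', latDisc_eq_e L, ← hP, ← hP']
  obtain ⟨n, rfl⟩ : ∃ n, p = n + 1 := ⟨p - 1, by omega⟩
  rw [Nat.add_sub_cancel] at hsq
  have h4 : derivProd L (n + 1) ^ 4 = 16 ^ n * c ^ 2 := by
    have : derivProd L (n + 1) ^ 4 = (derivProd L (n + 1) ^ 2) ^ 2 := by ring
    rw [this, hsq, mul_pow, ← pow_mul]
    congr 1
    rw [show (16 : ℂ) = 4 ^ 2 by norm_num, ← pow_mul, mul_comm]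
  exact final_alg P P' c _ n key h4

/-- the same product indexed by `Finset.Ico 1 p` -/
theorem derivProd_eq_prod_Ico (L : PeriodPair) (p : ℕ) :
    derivProd L p = ∏ k ∈ Finset.Ico 1 p, ℘'[L] ((k : ℂ) * (L.ω₁ / p)) := by
  rcases Nat.eq_zero_or_pos p with rfl | hp
  · simp [derivProd]
  rw [derivProd, Finset.prod_Ico_eq_prod_range]
  refine Finset.prod_congr rfl fun k _ => ?_
  congr 2
  push_cast
  ring

end Fermat.Agent.S15.H662

end

end
-- ===== PACK-END S15/H662/Disc.lean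

-- ===== PACK-BEGIN S11/FLT11.lean
section







/-!
# Fermat's Last Theorem for exponent 11 (Kummer; class number one)
-/

set_option autoImplicit false

namespace Fermat.Agent.S11

open NumberField

set_option backward.isDefEq.respectTransparency false in
/-- Fermat's Last Theorem for exponent `11` (Kummer). -/
theorem flt_eleven : FermatLastTheoremFor 11 := by
  haveI : Fact (Nat.Prime 11) := ⟨by norm_num⟩
  haveI hcyc : IsCyclotomicExtension {11} ℚ (CyclotomicField 11 ℚ) :=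
    CyclotomicField.isCyclotomicExtension 11 ℚ
  haveI : NumberField (CyclotomicField 11 ℚ) := IsCyclotomicExtension.numberField {11} ℚ _
  have hζ := IsCyclotomicExtension.zeta_spec 11 ℚ (CyclotomicField 11 ℚ)
  haveI : IsPrincipalIdealRing (𝓞 (CyclotomicField 11 ℚ)) :=
    H791.eleven_pid (CyclotomicField 11 ℚ)
  refine GlueZ.flt_of_caseI_of_caseII (p := 11) (by norm_num) (by decide)
    (fun a b c hab h => caseI_eleven hab h) ?_
  refine GlueBridge.caseII_int_of_gen (p := 11) hζ ?_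
  intro a b c u hc ha hb hcdvd hab
  exact CaseII.caseII_gen hζ (by norm_num)
    (fun u hu => kummer_lemma_eleven (CyclotomicField 11 ℚ) u (by simpa using hu))
    a b c u hc ha hb hcdvd hab

end Fermat.Agent.S11

end
-- ===== PACK-END S11/FLT11.lean

-- ===== PACK-BEGIN S11.lean
section



set_option autoImplicit false
open WeierstrassCurve WeierstrassCurve.Affine WeierstrassCurve.Affine.Point
open CuspForm ModularFormClass UpperHalfPlane
open FreyPackage

namespace Fermat.Agent.S11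

theorem result (P : FreyPackage) (hp : P.p = 11) : ¬ HasGaloisStableCofixedLine (K := AlgebraicClosure ℚ) ℚ P.freyCurve P.p := by
  intro _
  have h := P.hFLT
  rw [hp] at h
  exact (fermatLastTheoremFor_iff_int.mp Fermat.Agent.S11.flt_eleven) P.a P.b P.c
    P.ha0 P.hb0 P.hc0 h

end Fermat.Agent.S11

end
-- ===== PACK-END S11.lean

-- ===== PACK-BEGIN G2/H781/FiveCongrIrr.lean
section



/-!
# Row GLUE, phase 2, block F, leaf FC5 (helper781): `FiveCongrIrrStatement`

OFF-MAIN.  Plain world: `Glue/FSpec.lean` (origin/helper120, sha256 e10a66c0...) and the plain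
file `S59/H127/CardTorsion.lean` of main (`card_torsion_eq : #E[n] = n²`).

`fiveCongrIrr781 : Fermat.Agent.Glue.FiveCongrIrrStatement`: an injective Galois-equivariant
additive map `θ : W[5] → W'[5]` is bijective (both groups have `25` elements), the preimage of a
Galois-stable `𝔽₅`-subspace is a Galois-stable `𝔽₅`-subspace, hence `⊥` or `⊤`.
-/

set_option autoImplicit false

open WeierstrassCurve WeierstrassCurve.Affine WeierstrassCurve.Affine.Point

namespace Fermat.Agent.G2.H781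

open Fermat.Agent.Lib.Frob (Qb Pts)
open Fermat.Agent.S52 (FiveCongruent Tors)

/-- The base change to `ℚ̄` of an integral model with `Δ ≠ 0` is an elliptic curve. -/
theorem isElliptic_baseChange781 (W : WeierstrassCurve ℤ) (hΔ : W.Δ ≠ 0) :
    WeierstrassCurve.IsElliptic ((W.map (Int.castRingHom ℚ))⁄Qb) := by
  refine ⟨?_⟩
  change IsUnit ((W.map (Int.castRingHom ℚ)).map (algebraMap ℚ Qb)).Δ
  rw [WeierstrassCurve.map_Δ, WeierstrassCurve.map_Δ]
  refine isUnit_iff_ne_zero.2 ?_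
  simpa using hΔ

/-- `#W[5](ℚ̄) = 25`. -/
theorem card_tors_five781 (W : WeierstrassCurve ℤ) (hΔ : W.Δ ≠ 0) :
    Nat.card (Tors W 5) = 25 := by
  have hE := isElliptic_baseChange781 W hΔ
  have h := Fermat.Agent.S59.H127.card_torsion_eq ((W.map (Int.castRingHom ℚ))⁄Qb) 5
  exact h

/-- **FC5**: a `5`-congruence transports irreducibility of the `5`-torsion. -/
theorem fiveCongrIrr781 : Fermat.Agent.Glue.FiveCongrIrrStatement := by
  intro W W' hΔ hΔ' hfc hirr
  obtain ⟨θ, hθinj, hθσ⟩ := hfc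
  have hc : Nat.card (Tors W 5) = 25 := card_tors_five781 W hΔ
  have hc' : Nat.card (Tors W' 5) = 25 := card_tors_five781 W' hΔ'
  have hfin : Finite (Tors W 5) := Nat.finite_of_card_ne_zero (by rw [hc]; norm_num)
  have hfin' : Finite (Tors W' 5) := Nat.finite_of_card_ne_zero (by rw [hc']; norm_num)
  have hbij : Function.Bijective θ :=
    hθinj.bijective_of_nat_card_le (by rw [hc, hc'])
  have hsurj : Function.Surjective θ := hbij.2
  obtain ⟨hnt, hN⟩ := hirr
  refine ⟨?_, fun N' hN' => ?_⟩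
  · have hnt' : Nontrivial (Tors W 5) := hnt
    exact hθinj.nontrivial
  · -- the preimage of `N'`
    set θl : Tors W 5 →ₗ[ZMod 5] Tors W' 5 := θ.toZModLinearMap 5 with hθl
    have hθl_apply : ∀ x, θl x = θ x := fun _ => rfl
    have hstab : IsGaloisStable ℚ (N'.comap θl) := by
      intro σ x hx
      rw [Submodule.mem_comap] at hx ⊢
      rw [hθl_apply, hθσ]
      exact hN' σ _ hx
    rcases hN _ hstab with h | h
    · left
      rw [eq_bot_iff]
      intro y hy
      obtain ⟨x, rfl⟩ := hsurj y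
      have hx : x ∈ N'.comap θl := hy
      rw [h, Submodule.mem_bot] at hx
      rw [hx, _root_.map_zero]
      exact Submodule.zero_mem _
    · right
      rw [eq_top_iff]
      intro y _
      obtain ⟨x, rfl⟩ := hsurj y
      have hx : x ∈ N'.comap θl := by rw [h]; exact Submodule.mem_top
      exact hx

end Fermat.Agent.G2.H781

end
-- ===== PACK-END G2/H781/FiveCongrIrr.lean

-- ===== PACK-BEGIN S48/H188/HeckeT.lean
section


set_option autoImplicit false

open scoped MatrixGroups ModularForm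
open UpperHalfPlane CongruenceSubgroup Matrix

namespace Fermat.Agent.S48.H188

noncomputable section

variable {k : ℤ} {N : ℕ} (p : ℕ) [hpf : Fact p.Prime]

/-- The matrix `(d b; c a)` mod `p` attached to `γ = (a b; c d)`; its Möbius action on
`ℙ¹(𝔽_p)` is the permutation of the cosets `Γ₁(N)\Γ₁(N)(1 0; 0 p)Γ₁(N)` induced by right
multiplication by `γ`. -/
def gmod (γ : SL(2, ℤ)) : GL (Fin 2) (ZMod p) :=
  Matrix.GeneralLinearGroup.mkOfDetNeZero
    !![((γ 1 1 : ℤ) : ZMod p), ((γ 0 1 : ℤ) : ZMod p); ((γ 1 0 : ℤ) : ZMod p), ((γ 0 0 : ℤ) : ZMod p)]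
    (by
      rw [Matrix.det_fin_two_of]
      have h := SL_det_eq γ
      have : (((γ 0 0) * (γ 1 1) - (γ 0 1) * (γ 1 0) : ℤ) : ZMod p) = 1 := by rw [h]; simp
      push_cast at this
      rw [show ((γ 1 1 : ℤ) : ZMod p) * ((γ 0 0 : ℤ) : ZMod p) - ((γ 0 1 : ℤ) : ZMod p) * ((γ 1 0 : ℤ) : ZMod p)
        = 1 by rw [← this]; ring]
      exact one_ne_zero)

@[simp] lemma gmod_00 (γ : SL(2, ℤ)) : (gmod p γ) 0 0 = ((γ 1 1 : ℤ) : ZMod p) := rfl
@[simp] lemma gmod_01 (γ : SL(2, ℤ)) : (gmod p γ) 0 1 = ((γ 0 1 : ℤ) : ZMod p) := rfl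
@[simp] lemma gmod_10 (γ : SL(2, ℤ)) : (gmod p γ) 1 0 = ((γ 1 0 : ℤ) : ZMod p) := rfl
@[simp] lemma gmod_11 (γ : SL(2, ℤ)) : (gmod p γ) 1 1 = ((γ 0 0 : ℤ) : ZMod p) := rfl

/-- The `p + 1` translates of `F` whose sum is `T_p F`. -/
def heckeFam (k : ℤ) (γp : SL(2, ℤ)) (F : ℍ → ℂ) (i : OnePoint (ZMod p)) : ℍ → ℂ :=
  Option.elim (i : Option (ZMod p)) ((F ∣[k] γp) ∣[k] gl p 0 0 1)
    (fun j => F ∣[k] gl 1 (j.val : ℤ) 0 p)

omit hpf in
@[simp] lemma heckeFam_infty (γp : SL(2, ℤ)) (F : ℍ → ℂ) :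
    heckeFam p k γp F OnePoint.infty = (F ∣[k] γp) ∣[k] gl p 0 0 1 := rfl

omit hpf in
@[simp] lemma heckeFam_coe (γp : SL(2, ℤ)) (F : ℍ → ℂ) (j : ZMod p) :
    heckeFam p k γp F (j : OnePoint (ZMod p)) = F ∣[k] gl 1 (j.val : ℤ) 0 p := rfl

lemma intCast_val_zmod (j : ZMod p) : ((j.val : ℕ) : ZMod p) = j := by
  have : NeZero p := ⟨hpf.out.ne_zero⟩
  simp

lemma gmod_smul_infty (γ : SL(2, ℤ)) :
    gmod p γ • (OnePoint.infty : OnePoint (ZMod p)) =
      if ((γ 1 0 : ℤ) : ZMod p) = 0 then OnePoint.infty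
      else ((((γ 1 1 : ℤ) : ZMod p) / ((γ 1 0 : ℤ) : ZMod p) : ZMod p) : OnePoint (ZMod p)) :=
  OnePoint.smul_infty_eq_ite _

lemma gmod_smul_coe (γ : SL(2, ℤ)) (j : ZMod p) :
    gmod p γ • (j : OnePoint (ZMod p)) =
      if ((γ 1 0 : ℤ) : ZMod p) * j + ((γ 0 0 : ℤ) : ZMod p) = 0 then OnePoint.infty
      else (((((γ 1 1 : ℤ) : ZMod p) * j + ((γ 0 1 : ℤ) : ZMod p)) /
        (((γ 1 0 : ℤ) : ZMod p) * j + ((γ 0 0 : ℤ) : ZMod p)) : ZMod p) : OnePoint (ZMod p)) :=
  OnePoint.smul_some_eq_ite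

/-- Right translation by `γ ∈ Γ₁(N)` permutes the family `heckeFam`. -/
lemma heckeFam_slash (hpN : Nat.Coprime p N) {F : ℍ → ℂ} (hF : Inv1 N k F)
    {γp : SL(2, ℤ)} (hγp : γp ∈ Gamma0 N) (hdp : dd N γp = (p : ZMod N))
    {γ : SL(2, ℤ)} (hγ : γ ∈ Gamma1 N) (i : OnePoint (ZMod p)) :
    (heckeFam p k γp F i) ∣[k] γ = heckeFam p k γp F (gmod p γ • i) := by
  have hp : 0 < p := hpf.out.pos
  induction i using OnePoint.rec with
  | infty =>
    rw [gmod_smul_infty]
    by_cases hc : ((γ 1 0 : ℤ) : ZMod p) = 0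
    · rw [if_pos hc, heckeFam_infty]
      exact slash_alpha_gamma_infty hp hpN (hF.slash hγp) hγ
        ((ZMod.intCast_zmod_eq_zero_iff_dvd _ p).mp hc)
    · rw [if_neg hc, heckeFam_infty, heckeFam_coe]
      apply slash_alpha_gamma_finite hp hF hγ hγp hdp
      rw [← ZMod.intCast_zmod_eq_zero_iff_dvd]
      push_cast
      rw [intCast_val_zmod, div_mul_cancel₀ _ hc, sub_self]
  | coe j =>
    rw [gmod_smul_coe]
    by_cases hc : ((γ 1 0 : ℤ) : ZMod p) * j + ((γ 0 0 : ℤ) : ZMod p) = 0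
    · rw [if_pos hc, heckeFam_infty, heckeFam_coe]
      apply slash_beta_gamma_infty hp hF hγ hγp hdp
      rw [← ZMod.intCast_zmod_eq_zero_iff_dvd]
      push_cast
      rw [intCast_val_zmod, ← hc]; ring
    · rw [if_neg hc, heckeFam_coe, heckeFam_coe]
      apply slash_beta_gamma_finite hp hF hγ
      rw [← ZMod.intCast_zmod_eq_zero_iff_dvd]
      push_cast
      rw [intCast_val_zmod, intCast_val_zmod]
      have := div_mul_cancel₀ (((γ 1 1 : ℤ) : ZMod p) * j + ((γ 0 1 : ℤ) : ZMod p)) hc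
      linear_combination -this

/-- The Hecke operator `T_p` on `Γ₁(N)`-invariant functions (normalised as in the classical
theory: `T_p F = ∑_j F∣(1 j; 0 p) + (⟨p⟩F)∣(p 0; 0 1)`). -/
def heckeT (k : ℤ) (γp : SL(2, ℤ)) (F : ℍ → ℂ) : ℍ → ℂ :=
  ∑ i : OnePoint (ZMod p), heckeFam p k γp F i

lemma heckeT_eq (γp : SL(2, ℤ)) (F : ℍ → ℂ) :
    _root_.Fermat.Agent.S48.H188.heckeT p k γp F =
      (F ∣[k] γp) ∣[k] gl p 0 0 1 + ∑ j : ZMod p, F ∣[k] gl 1 (j.val : ℤ) 0 p := by
  unfold _root_.Fermat.Agent.S48.H188.heckeT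
  exact Fintype.sum_option (heckeFam p k γp F)

/-- `T_p` preserves `Γ₁(N)`-invariance. -/
theorem heckeT_inv (hpN : Nat.Coprime p N) {F : ℍ → ℂ} (hF : Inv1 N k F)
    {γp : SL(2, ℤ)} (hγp : γp ∈ Gamma0 N) (hdp : dd N γp = (p : ZMod N)) :
    Inv1 N k (_root_.Fermat.Agent.S48.H188.heckeT p k γp F) := by
  intro γ hγ
  unfold _root_.Fermat.Agent.S48.H188.heckeT
  rw [ModularForm.SL_slash, SlashAction.sum_slash]
  simp_rw [← ModularForm.SL_slash]
  simp_rw [heckeFam_slash p hpN hF hγp hdp hγ]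
  exact Equiv.sum_comp (MulAction.toPerm (gmod p γ)) (heckeFam p k γp F)

end

end Fermat.Agent.S48.H188

end
-- ===== PACK-END S48/H188/HeckeT.lean

-- ===== PACK-BEGIN S48/H188/LemmaX.lean
section


set_option autoImplicit false

open scoped MatrixGroups ModularForm
open UpperHalfPlane CongruenceSubgroup Matrix

namespace Fermat.Agent.S48.H188

noncomputable section

variable {k : ℤ} {N : ℕ} {p : ℕ}

/-- A `Γ₁(N)`-invariant function is `1`-periodic. -/
lemma Inv1.periodic {F : ℍ → ℂ} (hF : Inv1 N k F) (σ σ' : ℍ) (n : ℤ)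
    (h : (σ' : ℂ) = σ + n) : F σ' = F σ := by
  have hT : sl 1 n 0 1 (by ring) ∈ Gamma1 N := by
    rw [mem_Gamma1_iff, Gamma0_mem]
    simp [dd]
  have h1 := congrFun (hF _ hT) σ
  rw [slash_SL_eq_gl] at h1
  simp only [sl_00, sl_01, sl_10, sl_11] at h1
  rw [slash_gl_upper_apply F one_pos one_pos] at h1
  have h2 : gl 1 n 0 1 • σ = σ' := by
    apply UpperHalfPlane.ext
    rw [coe_gl_upper_smul one_pos one_pos, h]
    push_cast; ring
  rw [h2] at h1
  simpa using h1

/-- The class of functions to which the vanishing lemma applies: `h` and `h∣(p 0; 0 1)` are both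
`Γ₁(N)`-invariant. -/
def Inv2 (N : ℕ) (p : ℕ) (k : ℤ) (h : ℍ → ℂ) : Prop :=
  Inv1 N k h ∧ Inv1 N k (h ∣[k] gl p 0 0 1)

/-- **Lemma X.**  If `h` and `h∣(p 0; 0 1)` are `Γ₁(N)`-invariant and `g ∈ Γ₀(N)` has
`p · d_g ≡ 1 mod N`, then `(h∣g)(w) = p^k h(p² w)`. -/
lemma Inv2.slash_apply (hp : 0 < p) (hpN : Nat.Coprime p N) {h : ℍ → ℂ} (hh : Inv2 N p k h)
    {g : SL(2, ℤ)} (hg : g ∈ Gamma0 N) (hdg : (p : ZMod N) * dd N g = 1)
    (w w' : ℍ) (hw : (w' : ℂ) = (p : ℂ) ^ 2 * w) :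
    (h ∣[k] g) w = (p : ℂ) ^ k * h w' := by
  obtain ⟨u, v, huv⟩ : IsCoprime (p : ℤ) (N : ℤ) := Nat.isCoprime_iff_coprime.mpr hpN
  -- `j₁ = v`, `z = u`
  have hdet0 : (p : ℤ) * u - (-v) * N = 1 := by linear_combination huv
  have hg0 : sl p (-v) N u hdet0 ∈ Gamma0 N := by
    rw [Gamma0_mem]; simp
  have hpu : (p : ZMod N) * (u : ZMod N) = 1 := by
    have : ((u * p + v * N : ℤ) : ZMod N) = 1 := by rw [huv]; simp
    push_cast at this
    rw [← this]; simp [mul_comm]
  have hdd : dd N (sl p (-v) N u hdet0) = dd N g := by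
    simp only [dd, sl_11]
    have h1 : dd N g = dd N g * ((p : ZMod N) * (u : ZMod N)) := by rw [hpu, mul_one]
    have h2 : (u : ZMod N) = (u : ZMod N) * ((p : ZMod N) * dd N g) := by rw [hdg, mul_one]
    rw [dd] at h1 h2
    rw [h2]
    conv_rhs => rw [h1]
    ring
  have hL : sl 1 0 N 1 (by ring) ∈ Gamma1 N := by
    rw [mem_Gamma1_iff, Gamma0_mem]
    simp [dd]
  have hpne : (1 : ℤ) * (p : ℤ) - v * 0 ≠ 0 := by simp; exact hp.ne'
  have hpne' : ((p : ℤ)) * 1 - 0 * 0 ≠ 0 := by simp; exact hp.ne'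
  have hpC : (p : ℂ) ≠ 0 := by exact_mod_cast hp.ne'
  have hp' : (0 : ℤ) < p := by exact_mod_cast hp
  -- the key identity of slash operators
  have key : h ∣[k] gl p 0 0 1 = (h ∣[k] g) ∣[k] gl 1 v 0 p := by
    rw [← hh.1.slash_eq_of_dd_eq hg0 hg hdd, slash_SL_gl _ _ hpne]
    conv_lhs => rw [← hh.2 _ hL, slash_gl_SL _ _ hpne']
    simp only [sl_00, sl_01, sl_10, sl_11]
    apply slash_gl_congr
    · ring
    · ring
    · ring
    · linear_combination -huv
  -- evaluate at `τ = p w - v`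
  have him : 0 < ((p : ℂ) * w - v).im := by
    have : ((p : ℂ) * w - v).im = p * w.im := by simp
    rw [this]
    exact mul_pos (by exact_mod_cast hp) w.im_pos
  set τ : ℍ := ⟨(p : ℂ) * w - v, him⟩ with hτ
  have hτc : (τ : ℂ) = (p : ℂ) * w - v := rfl
  have e1 : gl 1 v 0 p • τ = w := by
    apply UpperHalfPlane.ext
    rw [coe_gl_upper_smul one_pos hp', hτc]
    push_cast
    field_simp
    ring
  have e2 : ((gl p 0 0 1 • τ : ℍ) : ℂ) = w' + ((-(p * v) : ℤ) : ℂ) := by
    rw [coe_gl_upper_smul hp' one_pos, hτc, hw]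
    push_cast
    ring
  have e3 : h (gl p 0 0 1 • τ) = h w' := hh.1.periodic _ _ _ e2
  have := congrFun key τ
  rw [slash_gl_upper_apply _ hp' one_pos, slash_gl_upper_apply _ one_pos hp', e1, e3] at this
  -- `h w' * p^(k-1) * 1 = (h∣g) w * p^(k-1) * p^(-k)`
  have hpk : ((p : ℂ) * ((1 : ℤ) : ℂ)) ^ (k - 1) ≠ 0 := by
    apply zpow_ne_zero; simpa using hpC
  have hpk' : (((1 : ℤ) : ℂ) * (p : ℂ)) ^ (k - 1) = ((p : ℂ) * ((1 : ℤ) : ℂ)) ^ (k - 1) := by
    rw [mul_comm]
  simp only [Int.cast_natCast] at this hpk hpk'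
  rw [hpk'] at this
  have h3 : h w' * ((1 : ℤ) : ℂ) ^ (-k) = (h ∣[k] g) w * (p : ℂ) ^ (-k) := by
    have h4 : (h w' * ((1 : ℤ) : ℂ) ^ (-k)) * ((p : ℂ) * ((1 : ℤ) : ℂ)) ^ (k - 1)
        = ((h ∣[k] g) w * (p : ℂ) ^ (-k)) * ((p : ℂ) * ((1 : ℤ) : ℂ)) ^ (k - 1) := by
      linear_combination this
    exact mul_right_cancel₀ hpk h4
  rw [Int.cast_one, _root_.one_zpow, mul_one] at h3
  rw [h3, mul_comm, mul_assoc, ← zpow_add₀ hpC]
  simp

end

end Fermat.Agent.S48.H188

end
-- ===== PACK-END S48/H188/LemmaX.lean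

-- ===== PACK-BEGIN S48/H188/Iterate.lean
section


set_option autoImplicit false

open scoped MatrixGroups ModularForm
open UpperHalfPlane CongruenceSubgroup Matrix

namespace Fermat.Agent.S48.H188

noncomputable section

variable {k : ℤ} {N : ℕ} {p : ℕ}

/-- Closure of `Inv2` under the diamond operator attached to a matrix `(a pb; c d)`. -/
lemma Inv2.slash (hp : 0 < p) {h : ℍ → ℂ} (hh : Inv2 N p k h) {a b c d : ℤ}
    (hdet : a * d - (p * b) * c = 1) (hc : ((c : ℤ) : ZMod N) = 0) :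
    Inv2 N p k (h ∣[k] sl a (p * b) c d hdet) := by
  have hg : sl a (p * b) c d hdet ∈ Gamma0 N := by
    rw [Gamma0_mem]; simpa using hc
  have hdet' : a * d - b * (p * c) = 1 := by linear_combination hdet
  have hg' : sl a b (p * c) d hdet' ∈ Gamma0 N := by
    rw [Gamma0_mem]; simp only [sl_10]; push_cast; rw [hc, mul_zero]
  refine ⟨hh.1.slash hg, ?_⟩
  have hpne' : ((p : ℤ)) * 1 - 0 * 0 ≠ 0 := by simp; exact hp.ne'
  have : (h ∣[k] sl a (p * b) c d hdet) ∣[k] gl p 0 0 1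
      = (h ∣[k] gl p 0 0 1) ∣[k] sl a b (p * c) d hdet' := by
    rw [slash_SL_gl _ _ hpne', slash_gl_SL _ _ hpne']
    simp only [sl_00, sl_01, sl_10, sl_11]
    apply slash_gl_congr <;> ring
  rw [this]
  exact hh.2.slash hg'

/-- Existence of a matrix `(a pb; c d) ∈ Γ₀(N)` with `p d ≡ 1 mod N`. -/
lemma exists_ghat (hpN : Nat.Coprime p N) :
    ∃ a b c d : ℤ, a * d - (p * b) * c = 1 ∧ ((c : ℤ) : ZMod N) = 0 ∧
      (p : ZMod N) * ((d : ℤ) : ZMod N) = 1 := by
  obtain ⟨u, v, huv⟩ : IsCoprime (p : ℤ) (N : ℤ) := Nat.isCoprime_iff_coprime.mpr hpN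
  set d : ℤ := u ^ 2 * p + v * N with hd
  have h1 : IsCoprime d (p : ℤ) := ⟨1, -(u ^ 2 - u), by rw [hd]; linear_combination huv⟩
  have h2 : IsCoprime d (N : ℤ) :=
    ⟨p, 2 * v - v ^ 2 * N - v * p, by rw [hd]; linear_combination (u * p - v * N + 1) * huv⟩
  obtain ⟨a, b', hab⟩ := h1.mul_right h2
  refine ⟨a, -b', N, d, by linear_combination hab, by simp, ?_⟩
  have : ((u * p + v * N : ℤ) : ZMod N) = 1 := by rw [huv]; simp
  push_cast at this
  simp only [CharP.cast_eq_zero, mul_zero, add_zero] at this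
  rw [hd]; push_cast
  simp only [CharP.cast_eq_zero, mul_zero, add_zero]
  linear_combination ((u : ZMod N) * p + 1) * this

end

end Fermat.Agent.S48.H188

namespace Fermat.Agent.S48.H188

noncomputable section

open Filter Asymptotics

variable {k : ℤ} {N : ℕ} {p : ℕ}

/-- The point `n τ` of the upper half plane. -/
def scalePt (n : ℕ) (hn : 0 < n) (τ : ℍ) : ℍ :=
  ⟨(n : ℂ) * τ, by
    have : ((n : ℂ) * τ).im = n * τ.im := by simp
    rw [this]; exact mul_pos (by exact_mod_cast hn) τ.im_pos⟩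

lemma coe_scalePt (n : ℕ) (hn : 0 < n) (τ : ℍ) : ((scalePt n hn τ : ℍ) : ℂ) = (n : ℂ) * τ := rfl

lemma im_scalePt (n : ℕ) (hn : 0 < n) (τ : ℍ) : (scalePt n hn τ).im = n * τ.im := by
  change ((n : ℂ) * τ).im = _
  simp

/-- Iterating Lemma X. -/
lemma Inv2.iterate (hp : 0 < p) (hpN : Nat.Coprime p N) {h : ℍ → ℂ} (hh : Inv2 N p k h)
    {a b c d : ℤ} (hdet : a * d - (p * b) * c = 1) (hc : ((c : ℤ) : ZMod N) = 0)
    (hpd : (p : ZMod N) * ((d : ℤ) : ZMod N) = 1) (i : ℕ) :
    Inv2 N p k (h ∣[k] ((sl a (p * b) c d hdet) ^ i)) ∧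
    ∀ w w' : ℍ, (w' : ℂ) = (p : ℂ) ^ (2 * i) * w →
      (h ∣[k] ((sl a (p * b) c d hdet) ^ i)) w = ((p : ℂ) ^ k) ^ i * h w' := by
  have hg : sl a (p * b) c d hdet ∈ Gamma0 N := by
    rw [Gamma0_mem]; simpa using hc
  induction i with
  | zero =>
    refine ⟨by simpa using hh, ?_⟩
    intro w w' hw
    have : w' = w := by
      apply UpperHalfPlane.ext; rw [hw]; simp
    simp [this]
  | succ i ih =>
    obtain ⟨ih1, ih2⟩ := ih
    have hstep : h ∣[k] ((sl a (p * b) c d hdet) ^ (i + 1))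
        = (h ∣[k] ((sl a (p * b) c d hdet) ^ i)) ∣[k] (sl a (p * b) c d hdet) := by
      rw [pow_succ, SlashAction.slash_mul]
    rw [hstep]
    refine ⟨ih1.slash hp hdet hc, ?_⟩
    intro w w' hw
    have hp2 : 0 < p ^ 2 := pow_pos hp 2
    have hw1 : ((scalePt (p ^ 2) hp2 w : ℍ) : ℂ) = (p : ℂ) ^ 2 * w := by
      rw [coe_scalePt]; push_cast; rfl
    rw [ih1.slash_apply hp hpN hg (by simpa [dd] using hpd) w _ hw1,
      ih2 (scalePt (p ^ 2) hp2 w) w' (by rw [hw, hw1]; ring)]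
    ring

/-- If `h` and `h∣(p 0; 0 1)` are `Γ₁(N)`-invariant then `h(w) = p^{km} h(p^{2m} w)` with
`m = φ(N)`. -/
lemma Inv2.scaling [NeZero N] (hp : 0 < p) (hpN : Nat.Coprime p N) {h : ℍ → ℂ}
    (hh : Inv2 N p k h) (w w' : ℍ) (hw : (w' : ℂ) = ((p ^ (2 * N.totient) : ℕ) : ℂ) * w) :
    h w = ((p : ℂ) ^ k) ^ N.totient * h w' := by
  obtain ⟨a, b, c, d, hdet, hc, hpd⟩ := exists_ghat (N := N) hpN
  have hg : sl a (p * b) c d hdet ∈ Gamma0 N := by
    rw [Gamma0_mem]; simpa using hc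
  obtain ⟨-, h2⟩ := hh.iterate hp hpN hdet hc hpd N.totient
  have hmem : (sl a (p * b) c d hdet) ^ N.totient ∈ Gamma1 N := by
    rw [mem_Gamma1_iff]
    refine ⟨(Gamma0 N).pow_mem hg _, ?_⟩
    rw [dd_pow hg]
    simp only [dd, sl_11]
    have hu : IsUnit ((d : ℤ) : ZMod N) := .of_mul_eq_one_right _ hpd
    obtain ⟨x, hx⟩ := hu
    rw [← hx, ← Units.val_pow_eq_pow_val, ZMod.pow_totient, Units.val_one]
  have := h2 w w' (by rw [hw]; push_cast; rfl)
  rwa [hh.1 _ hmem] at this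

end

end Fermat.Agent.S48.H188

end
-- ===== PACK-END S48/H188/Iterate.lean

-- ===== PACK-BEGIN S48/H188/LemmaY.lean
section


set_option autoImplicit false

open scoped MatrixGroups ModularForm
open UpperHalfPlane CongruenceSubgroup Matrix Filter Asymptotics

namespace Fermat.Agent.S48.H188

noncomputable section

/-- **Lemma Y.**  A function on `ℍ` with exponential decay at `i∞` satisfying
`h(w) = c · h(M w)` for some integer `M ≥ 2` vanishes identically. -/
theorem eq_zero_of_scaling {h : ℍ → ℂ} {c : ℂ} {M : ℕ} (hM : 2 ≤ M) {a : ℝ} (ha : 0 < a)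
    (hscale : ∀ w w' : ℍ, (w' : ℂ) = (M : ℂ) * w → h w = c * h w')
    (hdecay : h =O[atImInfty] fun τ => Real.exp (-a * τ.im)) : h = 0 := by
  have hM0 : 0 < M := by omega
  have hM1 : (1 : ℝ) ≤ M - 1 := by
    have : (2 : ℝ) ≤ M := by exact_mod_cast hM
    linarith
  obtain ⟨K, hK⟩ := hdecay.bound
  obtain ⟨A, hA⟩ := (atImInfty_basis.eventually_iff).mp hK
  replace hA := hA.2
  -- choose `y₀`
  set B : ℝ := Real.log (2 * (‖c‖ + 1)) / (a * (M - 1)) with hB
  set y₀ : ℝ := max A B with hy₀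
  have hden : 0 < a * ((M : ℝ) - 1) := mul_pos ha (by linarith)
  have hsmall : ‖c‖ * Real.exp (-a * ((M : ℝ) - 1) * y₀) ≤ 1 / 2 := by
    have h1 : Real.log (2 * (‖c‖ + 1)) ≤ a * ((M : ℝ) - 1) * y₀ := by
      have : B ≤ y₀ := le_max_right _ _
      rw [hB, div_le_iff₀ hden] at this
      linarith
    have h2 : Real.exp (-a * ((M : ℝ) - 1) * y₀) ≤ 1 / (2 * (‖c‖ + 1)) := by
      have hpos : 0 < 2 * (‖c‖ + 1) := by positivity
      rw [show -a * ((M : ℝ) - 1) * y₀ = -(a * ((M : ℝ) - 1) * y₀) by ring, Real.exp_neg,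
        one_div]
      apply inv_anti₀ hpos
      calc 2 * (‖c‖ + 1) = Real.exp (Real.log (2 * (‖c‖ + 1))) := (Real.exp_log hpos).symm
        _ ≤ _ := Real.exp_le_exp.mpr h1
    calc ‖c‖ * Real.exp (-a * ((M : ℝ) - 1) * y₀) ≤ ‖c‖ * (1 / (2 * (‖c‖ + 1))) :=
          mul_le_mul_of_nonneg_left h2 (norm_nonneg _)
      _ ≤ 1 / 2 := by
          rw [mul_one_div, div_le_div_iff₀ (by positivity) (by norm_num)]
          nlinarith [norm_nonneg c]
  set K' : ℝ := max K 0 with hK'
  have hK'0 : 0 ≤ K' := le_max_right _ _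
  -- Claim 1
  have claim1 : ∀ n : ℕ, ∀ τ : ℍ, y₀ ≤ τ.im →
      ‖h τ‖ ≤ (1 / 2 : ℝ) ^ n * (K' * Real.exp (-a * τ.im)) := by
    intro n
    induction n with
    | zero =>
      intro τ hτ
      have := @hA τ (le_trans (le_max_left _ _) hτ)
      rw [Real.norm_of_nonneg (Real.exp_pos _).le] at this
      simp only [pow_zero, one_mul]
      exact this.trans (mul_le_mul_of_nonneg_right (le_max_left _ _) (Real.exp_pos _).le)
    | succ n ih =>
      intro τ hτ
      have hτ' : y₀ ≤ (scalePt M hM0 τ).im := by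
        rw [im_scalePt]
        have : (1 : ℝ) ≤ M := by exact_mod_cast hM0
        nlinarith [τ.im_pos]
      rw [hscale τ (scalePt M hM0 τ) (coe_scalePt _ _ _), norm_mul]
      have h1 := ih _ hτ'
      rw [im_scalePt] at h1
      have h2 : Real.exp (-a * (M * τ.im)) =
          Real.exp (-a * τ.im) * Real.exp (-a * ((M : ℝ) - 1) * τ.im) := by
        rw [← Real.exp_add]; congr 1; ring
      have h3 : Real.exp (-a * ((M : ℝ) - 1) * τ.im) ≤ Real.exp (-a * ((M : ℝ) - 1) * y₀) := by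
        apply Real.exp_le_exp.mpr
        have : a * ((M : ℝ) - 1) * y₀ ≤ a * ((M : ℝ) - 1) * τ.im :=
          mul_le_mul_of_nonneg_left hτ hden.le
        linarith
      rw [h2] at h1
      have hE : 0 ≤ Real.exp (-a * τ.im) := (Real.exp_pos _).le
      have hE2 : 0 ≤ Real.exp (-a * ((M : ℝ) - 1) * τ.im) := (Real.exp_pos _).le
      have hpow : (0 : ℝ) ≤ (1 / 2) ^ n := by positivity
      calc ‖c‖ * ‖h (scalePt M hM0 τ)‖
          ≤ ‖c‖ * ((1 / 2) ^ n * (K' * (Real.exp (-a * τ.im) *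
              Real.exp (-a * ((M : ℝ) - 1) * τ.im)))) :=
            mul_le_mul_of_nonneg_left h1 (norm_nonneg _)
        _ = ((1 / 2) ^ n * (K' * Real.exp (-a * τ.im))) *
              (‖c‖ * Real.exp (-a * ((M : ℝ) - 1) * τ.im)) := by ring
        _ ≤ ((1 / 2) ^ n * (K' * Real.exp (-a * τ.im))) * (1 / 2) := by
            apply mul_le_mul_of_nonneg_left _ (by positivity)
            exact (mul_le_mul_of_nonneg_left h3 (norm_nonneg _)).trans hsmall
        _ = (1 / 2) ^ (n + 1) * (K' * Real.exp (-a * τ.im)) := by ring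
  -- Claim 2
  have claim2 : ∀ τ : ℍ, y₀ ≤ τ.im → h τ = 0 := by
    intro τ hτ
    have hlim : Tendsto (fun n : ℕ => (1 / 2 : ℝ) ^ n * (K' * Real.exp (-a * τ.im))) atTop
        (nhds 0) := by
      have := (tendsto_pow_atTop_nhds_zero_of_lt_one (r := (1 / 2 : ℝ)) (by norm_num)
        (by norm_num)).mul_const (K' * Real.exp (-a * τ.im))
      simpa using this
    have : ‖h τ‖ ≤ 0 := ge_of_tendsto' hlim (fun n => claim1 n τ hτ)
    exact norm_le_zero_iff.mp this
  -- Claim 3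
  have claim3 : ∀ n : ℕ, ∀ τ : ℍ, y₀ ≤ (M : ℝ) ^ n * τ.im → h τ = 0 := by
    intro n
    induction n with
    | zero => intro τ hτ; exact claim2 τ (by simpa using hτ)
    | succ n ih =>
      intro τ hτ
      have : h (scalePt M hM0 τ) = 0 := by
        apply ih
        rw [im_scalePt]
        rw [pow_succ] at hτ
        linarith [mul_assoc ((M : ℝ) ^ n) (M : ℝ) τ.im]
      rw [hscale τ (scalePt M hM0 τ) (coe_scalePt _ _ _), this, mul_zero]
  funext τ
  obtain ⟨n, hn⟩ := pow_unbounded_of_one_lt (y₀ / τ.im) (show (1 : ℝ) < M by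
    have : (2 : ℝ) ≤ M := by exact_mod_cast hM
    linarith)
  apply claim3 n τ
  rw [div_lt_iff₀ τ.im_pos] at hn
  exact hn.le

end

end Fermat.Agent.S48.H188

end
-- ===== PACK-END S48/H188/LemmaY.lean

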