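import Mathlib
import Fermat.Prelude.Def_AlgebraicCurve_BaseChangeGalois
import Fermat.Prelude.Def_AlgebraicCurve_Correspondence
import Fermat.Prelude.Def_ModularCurve_LaurentCoeff
import Fermat.Prelude.Def_ModularCurve_ArithmeticGalois
import Fermat.Prelude.Def_GaloisRep_ComplexConjugation
import Fermat.Prelude.Def_FLTPrelim_FreyPackage
import Fermat.Prelude.Def_FLTPrelim_GaloisRep
import Fermat.Prelude.Def_FLTPrelim_Modularity
import Fermat.Prelude.Def_FLTPrelim_ModularRep
import Fermat.Prelude.Def_FLTPrelim_Ramification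
import Fermat.Prelude.Def_FreyPackage_IsConductorLevel
import Fermat.Agent.Pack.S44C.G0E21L2
import Fermat.Agent.Pack.L1.E4L3
import Fermat.Agent.Pack.L1.E3L1
import Fermat.Agent.Pack.L1.E3L0
import Fermat.Agent.Pack.L1.E4L1
import Fermat.Agent.Pack.S44C.G0E19L0
import Fermat.Agent.Pack.L1.E1L3
import Fermat.Agent.Pack.S44C.G0E21L3
import Fermat.Agent.Pack.S43GC.G0E4L0
import Fermat.Agent.Pack.S44C.G0E19L2
import Fermat.Agent.Pack.L1.E1L2
import Fermat.Agent.Pack.L1.E4L2
import Fermat.Agent.Pack.L1.E4L0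

-- ===== PACK-BEGIN S17/H980/PosLin.lean
section





/-!
# S17 / tower H, leaf POS-LIN: Siegel's lemma on `L(D₀ - D)` (helper980)

`[FF1 K F]`, `x₀, …, x_r` a `K`-basis of `L(D₀)`, `P₁, …, P_d` distinct places with
`deg D₀ - d > 2g - 2`, and `ξ i ∈ K^(r+1)` ANY representative of the point `φ(P_i) ∈ ℙ^r` of the
map `φ = (x₀ : … : x_r)`, characterised projectively:

  `⟨a, ξ i⟩ = 0 ↔ Σ aⱼ xⱼ ∈ L(D₀ - P_i)`.

* `linearIndependent_points` : the `ξ i` are linearly independent (Riemann–Roch: the points of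
  a reduced divisor of small degree impose independent conditions on `L(D₀)`).
* `dot_eq_zero_of_mem_L` : a form in `L(D₀ - Σ P_i)` vanishes at every `ξ i`.

Rational structure (`F = ℚ̄ · F₀`, Galois descent of helper680, `S17/H680/DescentRR.lean`):

* `finrank_rationalForms` : for a Galois-fixed basis `x` of `L(D₀)` and an invariant `E ≤ D₀`,
  `dim_ℚ {a ∈ ℚ^(r+1) : Σ aⱼ xⱼ ∈ L(E)} = ℓ(E)`.
* `exists_fixed_form_logHeight_le` / `exists_fixed_form_absLogHeight_le` : **(MINK) of route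
  (H-D)**: for `D = Σ P_i` invariant, reduced, there is a non-zero integral form `a` with
  `Σ aⱼ xⱼ ∈ L(D₀ - D)` and `logHeight a ≤ h(ξ₁ ∧ … ∧ ξ_d) / k + log k`, `k = r + 1 - d`.
-/

set_option autoImplicit false

noncomputable section

open AlgebraicCurve

namespace Fermat.Agent.S17.H980

open Fermat.Agent.Lib.RR

section Points

variable {K F : Type*} [Field K] [Field F] [Algebra K F]

/-- The reduced divisor `P₁ + … + P_d`. -/
def sumPrim {d : ℕ} (P : Fin d → Place K F) : Divisor K F := ∑ i, prim (P i)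

theorem prim_nonneg (v : Place K F) : 0 ≤ prim v := by
  rw [Finsupp.le_def]
  intro w
  by_cases h : w = v
  · subst h; simp
  · rw [prim_apply_of_ne h]; simp

theorem sumPrim_eq_add {d : ℕ} (P : Fin d → Place K F) (i : Fin d) :
    sumPrim P = prim (P i) + ∑ j ∈ Finset.univ.erase i, prim (P j) := by
  unfold sumPrim
  exact (Finset.add_sum_erase Finset.univ (fun j => prim (P j)) (Finset.mem_univ i)).symm

theorem prim_le_sumPrim {d : ℕ} (P : Fin d → Place K F) (i : Fin d) : prim (P i) ≤ sumPrim P := by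
  rw [sumPrim_eq_add P i]
  exact le_add_of_nonneg_right (Finset.sum_nonneg fun j _ => prim_nonneg _)

theorem prim_le_sum_erase {d : ℕ} (P : Fin d → Place K F) {i j : Fin d} (h : j ≠ i) :
    prim (P j) ≤ ∑ l ∈ Finset.univ.erase i, prim (P l) :=
  Finset.single_le_sum (f := fun l => prim (P l)) (fun _ _ => prim_nonneg _)
    (Finset.mem_erase.mpr ⟨h, Finset.mem_univ j⟩)

theorem sum_erase_apply_self {d : ℕ} (P : Fin d → Place K F) (hP : Function.Injective P)
    (i : Fin d) : (∑ l ∈ Finset.univ.erase i, prim (P l)) (P i) = 0 := by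
  rw [Finsupp.finsetSum_apply]
  apply Finset.sum_eq_zero
  intro l hl
  have hne : l ≠ i := (Finset.mem_erase.mp hl).1
  exact prim_apply_of_ne (fun h => hne (hP h).symm)

/-- `L(D₀ - D') ∩ L(D₀ - P) = L(D₀ - D' - P)` if `P ∉ supp D'`. -/
theorem mem_L_sub_add_prim {D₀ D' : Divisor K F} {v : Place K F} (hv : D' v = 0) {f : F}
    (h1 : f ∈ riemannRochSpace (D₀ - D')) (h2 : f ∈ riemannRochSpace (D₀ - prim v)) :
    f ∈ riemannRochSpace (D₀ - (prim v + D')) := by
  rw [mem_L_iff] at h1 h2 ⊢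
  intro w
  rcases h1 w with h0 | h1w
  · exact Or.inl h0
  rcases h2 w with h0 | h2w
  · exact Or.inl h0
  right
  by_cases hw : w = v
  · subst hw
    simp only [Finsupp.coe_sub, Finsupp.coe_add, Pi.sub_apply, Pi.add_apply, hv,
      prim_apply_self] at h1w h2w ⊢
    omega
  · simp only [Finsupp.coe_sub, Finsupp.coe_add, Pi.sub_apply, Pi.add_apply,
      prim_apply_of_ne hw] at h1w h2w ⊢
    omega

/-- A form in `L(D₀ - Σ P_i)` vanishes at all points `ξ i`. -/
theorem dot_eq_zero_of_mem_L {r d : ℕ} (D₀ : Divisor K F) (x : Fin (r + 1) → F)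
    (P : Fin d → Place K F) (ξ : Fin d → Fin (r + 1) → K)
    (hξ : ∀ (i : Fin d) (a : Fin (r + 1) → K),
      (∑ j, a j * ξ i j = 0 ↔ ∑ j, a j • x j ∈ riemannRochSpace (D₀ - prim (P i))))
    (a : Fin (r + 1) → K) (ha : ∑ j, a j • x j ∈ riemannRochSpace (D₀ - sumPrim P))
    (i : Fin d) : ∑ j, a j * ξ i j = 0 := by
  rw [hξ i a]
  exact L_mono (sub_le_sub_left (prim_le_sumPrim P i) D₀) ha

variable [FF1 K F]

theorem degree_sumPrim {d : ℕ} (P : Fin d → Place K F) : Divisor.degree (sumPrim P) = d := by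
  unfold sumPrim
  rw [map_sum]
  simp [degree_prim _ (deg_eq_one _)]

theorem degree_sum_erase {d : ℕ} (P : Fin d → Place K F) (i : Fin d) :
    Divisor.degree (∑ l ∈ Finset.univ.erase i, prim (P l)) = d - 1 := by
  have h := congrArg Divisor.degree (sumPrim_eq_add P i)
  rw [degree_sumPrim, map_add, degree_prim _ (deg_eq_one _)] at h
  omega

/-- **Independence of the points of a reduced divisor.** -/
theorem linearIndependent_points {r d : ℕ} (D₀ : Divisor K F) (x : Fin (r + 1) → F)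
    (hxspan : Submodule.span K (Set.range x) = riemannRochSpace D₀)
    (P : Fin d → Place K F) (hP : Function.Injective P)
    (hdeg : 2 * (genusFF K F : ℤ) - 2 < Divisor.degree D₀ - d)
    (ξ : Fin d → Fin (r + 1) → K)
    (hξ : ∀ (i : Fin d) (a : Fin (r + 1) → K),
      (∑ j, a j * ξ i j = 0 ↔ ∑ j, a j • x j ∈ riemannRochSpace (D₀ - prim (P i)))) :
    LinearIndependent K ξ := by
  classical
  -- for each `i` a form vanishing at the other points but not at `P i`
  have key : ∀ i : Fin d, ∃ a : Fin (r + 1) → K,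
      (∀ j, j ≠ i → ∑ l, a l * ξ j l = 0) ∧ ∑ l, a l * ξ i l ≠ 0 := by
    intro i
    set D' : Divisor K F := ∑ l ∈ Finset.univ.erase i, prim (P l) with hD'
    have hell1 : (ell (D₀ - D') : ℤ) = Divisor.degree (D₀ - D') + 1 - (genusFF K F : ℤ) :=
      ell_eq_of_degree_gt (by rw [map_sub, degree_sum_erase]; omega)
    have hell2 : (ell (D₀ - (prim (P i) + D')) : ℤ) =
        Divisor.degree (D₀ - (prim (P i) + D')) + 1 - (genusFF K F : ℤ) :=
      ell_eq_of_degree_gt (by
        rw [map_sub, map_add, degree_sum_erase, degree_prim _ (deg_eq_one _)]; omega)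
    have hlt : ell (D₀ - (prim (P i) + D')) < ell (D₀ - D') := by
      have h1 : Divisor.degree (D₀ - (prim (P i) + D')) < Divisor.degree (D₀ - D') := by
        rw [map_sub, map_sub, map_add, degree_prim _ (deg_eq_one _)]; omega
      omega
    have hle : riemannRochSpace (D₀ - (prim (P i) + D')) ≤ riemannRochSpace (D₀ - D') :=
      L_mono (sub_le_sub_left (le_add_of_nonneg_left (prim_nonneg _)) D₀)
    have hne : ∃ f ∈ riemannRochSpace (D₀ - D'), f ∉ riemannRochSpace (D₀ - (prim (P i) + D')) := by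
      by_contra hcon
      have hle' : riemannRochSpace (D₀ - D') ≤ riemannRochSpace (D₀ - (prim (P i) + D')) := by
        intro f hf
        by_contra hf'
        exact hcon ⟨f, hf, hf'⟩
      have := le_antisymm hle hle'
      unfold ell at hlt
      rw [this] at hlt
      exact lt_irrefl _ hlt
    obtain ⟨f, hf1, hf2⟩ := hne
    have hfD₀ : f ∈ Submodule.span K (Set.range x) := by
      rw [hxspan]
      exact L_mono (sub_le_self D₀ (Finset.sum_nonneg fun j _ => prim_nonneg _)) hf1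
    obtain ⟨a, ha⟩ := (Submodule.mem_span_range_iff_exists_fun K).mp hfD₀
    refine ⟨a, ?_, ?_⟩
    · intro j hj
      rw [hξ j a, ha]
      exact L_mono (sub_le_sub_left (prim_le_sum_erase P hj) D₀) hf1
    · intro h0
      rw [hξ i a, ha] at h0
      exact hf2 (mem_L_sub_add_prim (sum_erase_apply_self P hP i) hf1 h0)
  choose A hA1 hA2 using key
  rw [Fintype.linearIndependent_iff]
  intro c hc i
  have h1 : ∑ l, A i l * (∑ j, c j • ξ j) l = 0 := by rw [hc]; simp
  have h2 : ∑ l, A i l * (∑ j, c j • ξ j) l = ∑ j, c j * ∑ l, A i l * ξ j l := by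
    simp only [Finset.sum_apply, Pi.smul_apply, smul_eq_mul, Finset.mul_sum]
    rw [Finset.sum_comm]
    refine Finset.sum_congr rfl fun j _ => Finset.sum_congr rfl fun l _ => ?_
    ring
  rw [h2, Finset.sum_eq_single i (fun j _ hj => by rw [hA1 i j hj, mul_zero])
    (fun h => absurd (Finset.mem_univ _) h)] at h1
  rcases mul_eq_zero.mp h1 with h | h
  · exact h
  · exact absurd h (hA2 i)

end Points

/-! ## The rational structure -/

section Rational

open Fermat.Agent.S17.H77 Fermat.Agent.S17.H680 ModularCurve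

variable (F₀ : IntermediateField ℚ (LaurentSeries ℚ))

/-- The `ℚ`-space of rational coefficient vectors `a` with `Σ aⱼ xⱼ ∈ L(E)`. -/
def rationalForms {r : ℕ} (x : Fin (r + 1) → laurentBaseChange Qb F₀)
    (E : Divisor Qb (laurentBaseChange Qb F₀)) : Submodule ℚ (Fin (r + 1) → ℚ) :=
  ((riemannRochSpace E).restrictScalars ℚ).comap (Fintype.linearCombination ℚ x)

theorem mem_rationalForms {r : ℕ} (x : Fin (r + 1) → laurentBaseChange Qb F₀)
    (E : Divisor Qb (laurentBaseChange Qb F₀)) (a : Fin (r + 1) → ℚ) :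
    a ∈ rationalForms F₀ x E ↔ ∑ j, a j • x j ∈ riemannRochSpace E := by
  unfold rationalForms
  rw [Submodule.mem_comap, Submodule.restrictScalars_mem, Fintype.linearCombination_apply]

variable [FF1 Qb (laurentBaseChange Qb F₀)]

/-- A fixed `ℚ̄`-basis of `L(D₀)` is a `ℚ`-basis of the fixed part. -/
theorem span_rat_eq_fixedPart {r : ℕ} (x : Fin (r + 1) → laurentBaseChange Qb F₀)
    (hxfix : ∀ i, IsFixed F₀ (x i)) (hxli : LinearIndependent Qb x)
    (D₀ : Divisor Qb (laurentBaseChange Qb F₀)) (hD₀ : IsInvariant F₀ D₀)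
    (hxspan : Submodule.span Qb (Set.range x) = riemannRochSpace D₀) :
    Submodule.span ℚ (Set.range x) = fixedPart F₀ (riemannRochSpace D₀) := by
  classical
  obtain ⟨b, -, -, hbli, hbspan, hbspanQ⟩ := exists_fixed_basis_L F₀ hD₀
  have : Module.Finite ℚ (fixedPart F₀ (riemannRochSpace D₀)) := by
    rw [← hbspanQ]
    exact Module.Finite.span_of_finite ℚ (Set.finite_range b)
  apply Submodule.eq_of_le_of_finrank_eq
  · rw [Submodule.span_le]
    rintro _ ⟨i, rfl⟩
    refine ⟨?_, hxfix i⟩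
    rw [← hxspan]
    exact Submodule.subset_span ⟨i, rfl⟩
  · rw [finrank_fixedPart_L F₀ hD₀, finrank_span_eq_card (hxli.restrict_scalars' ℚ)]
    unfold ell
    rw [← hxspan, finrank_span_eq_card hxli]

/-- **Dimension of the space of rational forms**: `dim_ℚ {a ∈ ℚ^(r+1) : Σ aⱼ xⱼ ∈ L(E)} = ℓ(E)`
for a Galois-invariant divisor `E ≤ D₀`. -/
theorem finrank_rationalForms {r : ℕ} (x : Fin (r + 1) → laurentBaseChange Qb F₀)
    (hxfix : ∀ i, IsFixed F₀ (x i)) (hxli : LinearIndependent Qb x)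
    (D₀ E : Divisor Qb (laurentBaseChange Qb F₀)) (hD₀ : IsInvariant F₀ D₀)
    (hE : IsInvariant F₀ E) (hle : E ≤ D₀)
    (hxspan : Submodule.span Qb (Set.range x) = riemannRochSpace D₀) :
    Module.finrank ℚ (rationalForms F₀ x E) = ell E := by
  classical
  set φ := Fintype.linearCombination ℚ x with hφ
  have hinj : Function.Injective φ :=
    linearIndependent_iff_injective_fintypeLinearCombination.mp (hxli.restrict_scalars' ℚ)
  have hrange : LinearMap.range φ = fixedPart F₀ (riemannRochSpace D₀) := by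
    rw [hφ, Fintype.range_linearCombination]
    exact span_rat_eq_fixedPart F₀ x hxfix hxli D₀ hD₀ hxspan
  have hW : fixedPart F₀ (riemannRochSpace E) ≤ LinearMap.range φ := by
    rw [hrange]
    intro f hf
    exact ⟨L_mono hle hf.1, hf.2⟩
  have hcomap : rationalForms F₀ x E = (fixedPart F₀ (riemannRochSpace E)).comap φ := by
    ext a
    unfold rationalForms
    rw [Submodule.mem_comap, Submodule.mem_comap, Submodule.restrictScalars_mem, mem_fixedPart]
    constructor
    · intro h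
      refine ⟨h, ?_⟩
      have : φ a ∈ LinearMap.range φ := LinearMap.mem_range_self φ a
      rw [hrange] at this
      exact this.2
    · exact fun h => h.1
  rw [hcomap, ← finrank_fixedPart_L F₀ hE]
  have hmap : ((fixedPart F₀ (riemannRochSpace E)).comap φ).map φ =
      fixedPart F₀ (riemannRochSpace E) := Submodule.map_comap_eq_of_le hW
  have e := Submodule.equivMapOfInjective φ hinj ((fixedPart F₀ (riemannRochSpace E)).comap φ)
  rw [e.finrank_eq, hmap]

/-- **POS-LIN.**  `x` a Galois-fixed basis of `L(D₀)`, `D₀` invariant; `P₁, …, P_d` distinct places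
whose sum is Galois-invariant, `deg D₀ - d > 2g - 2`, `d < r + 1`; `ξ i` any representative of
the point `φ(P_i)`.  Then there is a non-zero INTEGRAL form `a` with `Σ aⱼ xⱼ ∈ L(D₀ - Σ P_i)` and
`logHeight a ≤ absH (ξ₁ ∧ … ∧ ξ_d) / k + log k`, `k = r + 1 - d = ℓ(D₀ - Σ P_i)`. -/
theorem exists_fixed_form_logHeight_le {r d : ℕ} (x : Fin (r + 1) → laurentBaseChange Qb F₀)
    (hxfix : ∀ i, IsFixed F₀ (x i)) (hxli : LinearIndependent Qb x)
    (D₀ : Divisor Qb (laurentBaseChange Qb F₀)) (hD₀ : IsInvariant F₀ D₀)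
    (hxspan : Submodule.span Qb (Set.range x) = riemannRochSpace D₀)
    (P : Fin d → Place Qb (laurentBaseChange Qb F₀)) (hP : Function.Injective P)
    (hPinv : IsInvariant F₀ (sumPrim P))
    (hdeg : 2 * (genusFF Qb (laurentBaseChange Qb F₀) : ℤ) - 2 < Divisor.degree D₀ - d)
    (hd : d < r + 1)
    (ξ : Fin d → Fin (r + 1) → Qb)
    (hξ : ∀ (i : Fin d) (a : Fin (r + 1) → Qb),
      (∑ j, a j * ξ i j = 0 ↔ ∑ j, a j • x j ∈ riemannRochSpace (D₀ - prim (P i))))
    (absH : ((Fin d ↪ Fin (r + 1)) → Qb) → ℝ)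
    (habs_smul : ∀ (c : Qb) (w : (Fin d ↪ Fin (r + 1)) → Qb), c ≠ 0 → absH (c • w) = absH w)
    (habs_rat : ∀ w : (Fin d ↪ Fin (r + 1)) → ℚ,
      absH (fun e => algebraMap ℚ Qb (w e)) = Height.logHeight w) :
    ∃ a : Fin (r + 1) → ℤ, a ≠ 0 ∧
      ∑ j, ((a j : ℤ) : ℚ) • x j ∈ riemannRochSpace (D₀ - sumPrim P) ∧
      Height.logHeight (fun j => ((a j : ℤ) : ℚ)) ≤
        (1 / ((r + 1 - d : ℕ) : ℝ)) * absH (fun e => ((Matrix.of ξ).submatrix id e).det) +
          Real.log ((r + 1 - d : ℕ) : ℝ) := by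
  classical
  have hE : IsInvariant F₀ (D₀ - sumPrim P) := by
    intro σ
    rw [smul_sub, hD₀ σ, hPinv σ]
  have hle : D₀ - sumPrim P ≤ D₀ :=
    sub_le_self D₀ (Finset.sum_nonneg fun j _ => prim_nonneg _)
  have hfin := finrank_rationalForms F₀ x hxfix hxli D₀ (D₀ - sumPrim P) hD₀ hE hle hxspan
  have hell : (ell (D₀ - sumPrim P) : ℤ) =
      Divisor.degree (D₀ - sumPrim P) + 1 - (genusFF Qb (laurentBaseChange Qb F₀) : ℤ) :=
    ell_eq_of_degree_gt (by rw [map_sub, degree_sumPrim]; exact hdeg)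
  have hell0 : (ell D₀ : ℤ) =
      Divisor.degree D₀ + 1 - (genusFF Qb (laurentBaseChange Qb F₀) : ℤ) :=
    ell_eq_of_degree_gt (by omega)
  have hr : ell D₀ = r + 1 := by
    unfold ell
    rw [← hxspan, finrank_span_eq_card hxli, Fintype.card_fin]
  have hv : LinearIndependent Qb (Matrix.of ξ).row :=
    linearIndependent_points D₀ x hxspan P hP hdeg ξ hξ
  have hΛ : ∀ a ∈ rationalForms F₀ x (D₀ - sumPrim P),
      (Matrix.of ξ).mulVec (fun j => algebraMap ℚ Qb (a j)) = 0 := by
    intro a ha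
    rw [mem_rationalForms] at ha
    ext i
    have h1 := dot_eq_zero_of_mem_L D₀ x P ξ hξ (fun j => algebraMap ℚ Qb (a j))
      (by simpa only [algebraMap_smul] using ha) i
    simp only [Matrix.mulVec, dotProduct, Matrix.of_apply, Pi.zero_apply]
    rw [← h1]
    exact Finset.sum_congr rfl fun j _ => mul_comm _ _
  have hdim : Fintype.card (Fin (r + 1)) ≤
      Module.finrank ℚ (rationalForms F₀ x (D₀ - sumPrim P)) + Fintype.card (Fin d) := by
    rw [hfin, Fintype.card_fin, Fintype.card_fin]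
    rw [map_sub, degree_sumPrim] at hell
    have : ((ell (D₀ - sumPrim P) : ℕ) : ℤ) + d = ((r + 1 : ℕ) : ℤ) := by
      rw [← hr]; omega
    omega
  obtain ⟨a, ha0, haΛ, hle'⟩ := exists_mem_logHeight_le (Matrix.of ξ) hv
    (rationalForms F₀ x (D₀ - sumPrim P)) hΛ hdim
    (by rw [Fintype.card_fin, Fintype.card_fin]; exact hd) absH habs_smul habs_rat
  refine ⟨a, ha0, (mem_rationalForms F₀ x _ _).mp haΛ, ?_⟩
  simpa only [Fintype.card_fin] using hle'

omit F₀ in
/-- Every element of `ℚ̄` is integral over `ℚ` (for the ambient `ℚ`-algebra structure). -/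
theorem isIntegral_Qb (c : Qb) : IsIntegral ℚ c :=
  Normal.isIntegral normal_Qb c

/-- **POS-LIN** for the absolute logarithmic height `H380.absLogHeight` on `ℚ̄`. -/
theorem exists_fixed_form_absLogHeight_le {r d : ℕ} (x : Fin (r + 1) → laurentBaseChange Qb F₀)
    (hxfix : ∀ i, IsFixed F₀ (x i)) (hxli : LinearIndependent Qb x)
    (D₀ : Divisor Qb (laurentBaseChange Qb F₀)) (hD₀ : IsInvariant F₀ D₀)
    (hxspan : Submodule.span Qb (Set.range x) = riemannRochSpace D₀)
    (P : Fin d → Place Qb (laurentBaseChange Qb F₀)) (hP : Function.Injective P)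
    (hPinv : IsInvariant F₀ (sumPrim P))
    (hdeg : 2 * (genusFF Qb (laurentBaseChange Qb F₀) : ℤ) - 2 < Divisor.degree D₀ - d)
    (hd : d < r + 1)
    (ξ : Fin d → Fin (r + 1) → Qb)
    (hξ : ∀ (i : Fin d) (a : Fin (r + 1) → Qb),
      (∑ j, a j * ξ i j = 0 ↔ ∑ j, a j • x j ∈ riemannRochSpace (D₀ - prim (P i)))) :
    ∃ a : Fin (r + 1) → ℤ, a ≠ 0 ∧
      ∑ j, ((a j : ℤ) : ℚ) • x j ∈ riemannRochSpace (D₀ - sumPrim P) ∧
      Height.logHeight (fun j => ((a j : ℤ) : ℚ)) ≤
        (1 / ((r + 1 - d : ℕ) : ℝ)) *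
            H380.absLogHeight (fun e : Fin d ↪ Fin (r + 1) =>
              ((Matrix.of ξ).submatrix id e).det) +
          Real.log ((r + 1 - d : ℕ) : ℝ) := by
  refine exists_fixed_form_logHeight_le F₀ x hxfix hxli D₀ hD₀ hxspan P hP hPinv hdeg hd ξ hξ
    H380.absLogHeight ?_ ?_
  · intro c w hc
    exact H380.absLogHeight_smul w (fun i => _root_.Fermat.Agent.S17.H980.isIntegral_Qb _) hc (_root_.Fermat.Agent.S17.H980.isIntegral_Qb _)
  · intro w
    have h := H380.absLogHeight_eq (algebraMap ℚ Qb) w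
    rw [Module.finrank_self, Nat.cast_one, inv_one, one_mul] at h
    exact h

end Rational

end Fermat.Agent.S17.H980

end
end
-- ===== PACK-END S17/H980/PosLin.lean

-- ===== PACK-BEGIN S17/H980/PosLinEmb.lean
section



/-!
# S17 / tower H: (MINK) in the language of the TOP/WALL contract (helper980)

`E : EmbData ℚ̄ F` an embedding datum whose basis `E.x` of `L(m∞)` consists of Galois-fixed
functions, `∞` Galois-invariant.  For distinct places `P₁, …, P_d` with Galois-invariant sum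
`D = Σ P_i` and `d + 2g ≤ m`:

* `pt_spec_iff_mem_L` : `⟨a, pt P⟩ = 0 ↔ Σ aⱼ xⱼ ∈ L(m∞ - P)` (all `a`);
* `linearIndependent_pt` : the points `E.pt (P i)` are linearly independent;
* `le_Z_iff_mem_L` : `D ≤ Z_a ↔ Σ aⱼ xⱼ ∈ L(m∞ - D)` for `a ≠ 0`;
* `exists_form_through` : **(MINK)** there is a non-zero INTEGRAL form `a` with `D ≤ Z_a` and
  `ht a ≤ ht (pt P₁ ∧ … ∧ pt P_d) / k + log k`, `k = r + 1 - d = m - d + 1 - g`,
  with `ht = HContract.ht = H380.absLogHeight` and `plucker = HContract.plucker`.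
-/

set_option autoImplicit false

noncomputable section

open AlgebraicCurve

namespace Fermat.Agent.S17.H980

open Fermat.Agent.Lib.RR Fermat.Agent.S17.HWall

section Emb

variable {K F : Type*} [Field K] [Field F] [Algebra K F] [FF1 K F]

/-- `pt_spec` for all `a`, in terms of Riemann–Roch spaces. -/
theorem pt_spec_iff_mem_L (E : EmbData K F) (P : Place K F) (a : Fin (E.r + 1) → K) :
    ∑ j, a j * E.pt P j = 0 ↔
      ∑ j, a j • E.x j ∈ riemannRochSpace (E.m • prim E.vinf - prim P) := by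
  by_cases ha : a = 0
  · subst ha
    simp
  have h1 := E.pt_spec P a ha
  have hdot : dot a (E.pt P) = ∑ j, a j * E.pt P j := rfl
  have hlin : lin E.x a = ∑ j, a j • E.x j := rfl
  rw [← hdot, h1, ← hlin]
  have hZ : hypDiv E.vinf E.m E.x a P = P.ord (lin E.x a) + (E.m • prim E.vinf : Divisor K F) P :=
    E.Z_apply ha P
  rw [hZ]
  have hmem := mem_L_iff.mp (E.lin_mem a)
  have hne := E.lin_ne_zero ha
  constructor
  · intro h
    rw [mem_L_iff]
    intro v
    right
    rcases hmem v with h0 | hv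
    · exact absurd h0 hne
    by_cases hvP : v = P
    · subst hvP
      simp only [Finsupp.coe_sub, Pi.sub_apply, prim_apply_self]
      omega
    · simp only [Finsupp.coe_sub, Pi.sub_apply, prim_apply_of_ne hvP]
      omega
  · intro h
    rw [mem_L_iff] at h
    rcases h P with h0 | hP
    · exact absurd h0 hne
    simp only [Finsupp.coe_sub, Pi.sub_apply, prim_apply_self] at hP
    omega

/-- `D ≤ Z_a ↔ Σ aⱼ xⱼ ∈ L(m∞ - D)` for `a ≠ 0`. -/
theorem le_Z_iff_mem_L (E : EmbData K F) (D : Divisor K F) {a : Fin (E.r + 1) → K}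
    (ha : a ≠ 0) :
    D ≤ E.Z a ↔ ∑ j, a j • E.x j ∈ riemannRochSpace (E.m • prim E.vinf - D) := by
  have hlin : lin E.x a = ∑ j, a j • E.x j := rfl
  have hne := E.lin_ne_zero ha
  rw [← hlin, mem_L_iff, Finsupp.le_def]
  constructor
  · intro h v
    right
    have := h v
    rw [E.Z_apply ha v] at this
    simp only [Finsupp.coe_sub, Pi.sub_apply]
    omega
  · intro h v
    rcases h v with h0 | hv
    · exact absurd h0 hne
    rw [E.Z_apply ha v]
    simp only [Finsupp.coe_sub, Pi.sub_apply] at hv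
    omega

/-- `r + 1 = m + 1 - g`. -/
theorem r_add_one_eq (E : EmbData K F) : ((E.r + 1 : ℕ) : ℤ) = E.m + 1 - (genusFF K F : ℤ) := by
  have h1 : ell (E.m • prim E.vinf) = E.r + 1 := by
    unfold ell
    rw [← E.x_span, finrank_span_eq_card E.x_li, Fintype.card_fin]
  have h2 : (ell (E.m • prim E.vinf) : ℤ) =
      Divisor.degree (E.m • prim E.vinf) + 1 - (genusFF K F : ℤ) := by
    apply ell_eq_of_degree_gt
    rw [map_nsmul, degree_prim _ (deg_eq_one _), genusFF_eq_genusR]
    have := E.hm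
    simp only [nsmul_eq_mul, mul_one]
    omega
  rw [map_nsmul, degree_prim _ (deg_eq_one _)] at h2
  rw [← h1, h2]
  simp

/-- The points of a reduced divisor of degree `d ≤ m - 2g + 1` are linearly independent. -/
theorem linearIndependent_pt (E : EmbData K F) {d : ℕ} (P : Fin d → Place K F)
    (hP : Function.Injective P) (hdeg : d + 2 * genusFF K F ≤ E.m + 1) :
    LinearIndependent K fun i => E.pt (P i) := by
  apply linearIndependent_points (E.m • prim E.vinf) E.x E.x_span P hP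
  · rw [map_nsmul, degree_prim _ (deg_eq_one _)]
    simp only [nsmul_eq_mul, mul_one]
    omega
  · intro i a
    exact pt_spec_iff_mem_L E (P i) a

end Emb

section Rational

open Fermat.Agent.S17.H77 Fermat.Agent.S17.H680 ModularCurve Fermat.Agent.S17.HContract

variable (F₀ : IntermediateField ℚ (LaurentSeries ℚ)) [FF1 Qb (laurentBaseChange Qb F₀)]

/-- **(MINK) in contract form.** -/
theorem exists_form_through (E : EmbData Qb (laurentBaseChange Qb F₀))
    (hxfix : ∀ i, IsFixed F₀ (E.x i)) (hinf : IsInvariant F₀ (prim E.vinf))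
    {d : ℕ} (P : Fin d → Place Qb (laurentBaseChange Qb F₀)) (hP : Function.Injective P)
    (hPinv : IsInvariant F₀ (sumPrim P))
    (hdeg : d + 2 * genusFF Qb (laurentBaseChange Qb F₀) ≤ E.m) :
    ∃ a : Fin (E.r + 1) → ℤ, a ≠ 0 ∧
      sumPrim P ≤ E.Z (fun j => ((a j : ℤ) : Qb)) ∧
      ht (fun j => ((a j : ℤ) : Qb)) ≤
        (1 / ((E.r + 1 - d : ℕ) : ℝ)) * ht (plucker fun i => E.pt (P i)) +
          Real.log ((E.r + 1 - d : ℕ) : ℝ) := by
  have hr := r_add_one_eq E
  have hD₀ : IsInvariant F₀ (E.m • prim E.vinf) := by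
    intro σ
    rw [smul_comm, hinf σ]
  obtain ⟨a, ha0, hmem, hle⟩ := exists_fixed_form_absLogHeight_le F₀ E.x hxfix E.x_li
    (E.m • prim E.vinf) hD₀ E.x_span P hP hPinv
    (by
      rw [map_nsmul, degree_prim _ (deg_eq_one _)]
      simp only [nsmul_eq_mul, mul_one]
      omega)
    (by omega) (fun i => E.pt (P i)) (fun i a => pt_spec_iff_mem_L E (P i) a)
  have hcast : ∀ j, (((a j : ℤ) : ℚ) : Qb) = ((a j : ℤ) : Qb) := fun j => by push_cast; rfl
  have ha0' : (fun j => ((a j : ℤ) : Qb)) ≠ 0 := by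
    intro h
    apply ha0
    funext j
    have := congrFun h j
    simpa using this
  refine ⟨a, ha0, ?_, ?_⟩
  · rw [le_Z_iff_mem_L E _ ha0']
    have : ∑ j, ((a j : ℤ) : Qb) • E.x j = ∑ j, ((a j : ℤ) : ℚ) • E.x j := by
      refine Finset.sum_congr rfl fun j _ => ?_
      rw [← hcast j, ← algebraMap_smul Qb ((a j : ℤ) : ℚ) (E.x j), eq_ratCast]
    rw [this]
    exact hmem
  · have h1 : ht (fun j => ((a j : ℤ) : Qb)) = Height.logHeight (fun j => ((a j : ℤ) : ℚ)) := by
      have h := H380.absLogHeight_eq (algebraMap ℚ Qb) (fun j => ((a j : ℤ) : ℚ))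
      rw [Module.finrank_self, Nat.cast_one, inv_one, one_mul] at h
      rw [← h]
      have h2 : (fun j => ((a j : ℤ) : Qb)) = fun j => algebraMap ℚ Qb ((a j : ℤ) : ℚ) := by
        funext j
        rw [eq_ratCast, hcast j]
      rw [h2]
    rw [h1]
    exact hle

end Rational

end Fermat.Agent.S17.H980

end
end
-- ===== PACK-END S17/H980/PosLinEmb.lean

-- ===== PACK-BEGIN S17/H980/PluckerStep.lean
section



/-!
# S17 / tower H, WALL leaf A10 (PLUCKER / LAPLACE) (helper980)

`ω = y₀ ∧ … ∧ y_{d-1}`.  The coordinates of `ω ∧ z` are linear forms `laplaceW y e` in `z`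
(Laplace expansion along the last row), which vanish at the `yᵢ` and are fixed integer
combinations of the coordinates of `ω`; hence `ht W ≤ ht (plucker y) + C(n, d)`.

* `dot_laplaceW` : `⟨laplaceW y e, z⟩ = plucker (Fin.snoc y z) e`;
* `dot_laplaceW_self` : `⟨laplaceW y e, y i⟩ = 0`;
* `pluckerStep` : the statement `Wall.PluckerStepStatement K` of `S17/H710/Wall/Defs.lean`
  (in unfolded form), for a field `K` of characteristic zero which is algebraic over `ℚ`.
-/

set_option autoImplicit false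

noncomputable section

namespace Fermat.Agent.S17.H980

open Fermat.Agent.S17.HWall Fermat.Agent.S17.HContract

section Laplace

variable {K : Type*} [Field K] {n d : ℕ}

/-- the embedding `e ∘ c.succAbove` (drop the column `c`) -/
def dropEmb (e : Fin (d + 1) ↪ Fin n) (c : Fin (d + 1)) : Fin d ↪ Fin n :=
  ⟨fun j => e (c.succAbove j), fun _ _ h => Fin.succAbove_right_injective (e.injective h)⟩

@[simp] theorem dropEmb_apply (e : Fin (d + 1) ↪ Fin n) (c : Fin (d + 1)) (j : Fin d) :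
    dropEmb e c j = e (c.succAbove j) := rfl

/-- the integer matrix of the Laplace expansion -/
def laplaceM (K : Type*) [Field K] (n d : ℕ) :
    ((Fin (d + 1) ↪ Fin n) × Fin n) × (Fin d ↪ Fin n) → K :=
  fun q => ∑ c : Fin (d + 1),
    if q.1.1 c = q.1.2 ∧ dropEmb q.1.1 c = q.2 then (-1 : K) ^ (d + (c : ℕ)) else 0

/-- the Laplace coefficient vector: `⟨laplaceW y e, z⟩ = (y₀ ∧ … ∧ y_{d-1} ∧ z)_e` -/
def laplaceW (y : Fin d → Fin n → K) (e : Fin (d + 1) ↪ Fin n) : Fin n → K :=
  fun j => ∑ c : Fin (d + 1),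
    if e c = j then (-1 : K) ^ (d + (c : ℕ)) * plucker y (dropEmb e c) else 0

theorem laplaceW_eq_sum (y : Fin d → Fin n → K) (e : Fin (d + 1) ↪ Fin n) (j : Fin n) :
    laplaceW y e j = ∑ e' : Fin d ↪ Fin n, laplaceM K n d ((e, j), e') * plucker y e' := by
  classical
  unfold laplaceW laplaceM
  simp only [Finset.sum_mul]
  rw [Finset.sum_comm]
  refine Finset.sum_congr rfl fun c _ => ?_
  by_cases h : e c = j
  · rw [if_pos h]
    rw [Finset.sum_eq_single (dropEmb e c)]
    · rw [if_pos ⟨h, rfl⟩]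
    · intro e' _ hne
      rw [if_neg (fun hh => hne hh.2.symm), zero_mul]
    · intro hh
      exact absurd (Finset.mem_univ _) hh
  · rw [if_neg h]
    symm
    apply Finset.sum_eq_zero
    intro e' _
    rw [if_neg (fun hh => h hh.1), zero_mul]

theorem dot_laplaceW (y : Fin d → Fin n → K) (z : Fin n → K) (e : Fin (d + 1) ↪ Fin n) :
    dot (laplaceW y e) z = plucker (Fin.snoc y z : Fin (d + 1) → Fin n → K) e := by
  classical
  have hL : dot (laplaceW y e) z =
      ∑ c : Fin (d + 1), (-1 : K) ^ (d + (c : ℕ)) * plucker y (dropEmb e c) * z (e c) := by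
    unfold laplaceW
    show ∑ j, (∑ c : Fin (d + 1), if e c = j then _ else 0) * z j = _
    simp only [Finset.sum_mul]
    rw [Finset.sum_comm]
    refine Finset.sum_congr rfl fun c _ => ?_
    rw [Finset.sum_eq_single (e c)]
    · rw [if_pos rfl]
    · intro j _ hne
      rw [if_neg (fun hh => hne hh.symm), zero_mul]
    · intro hh
      exact absurd (Finset.mem_univ _) hh
  rw [hL]
  unfold plucker
  rw [Matrix.det_succ_row _ (Fin.last d)]
  refine Finset.sum_congr rfl fun c _ => ?_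
  have h1 : (Matrix.of fun i j => (Fin.snoc y z : Fin (d + 1) → Fin n → K) i (e j))
      (Fin.last d) c = z (e c) := by
    simp [Matrix.of_apply]
  have h2 : (Matrix.of fun i j => (Fin.snoc y z : Fin (d + 1) → Fin n → K) i (e j)).submatrix
      (Fin.last d).succAbove c.succAbove = Matrix.of fun i j => y i (dropEmb e c j) := by
    ext i j
    simp [Matrix.submatrix_apply, Matrix.of_apply, Fin.succAbove_last]
  rw [h1, h2]
  simp only [Fin.val_last]
  ring

theorem dot_laplaceW_self (y : Fin d → Fin n → K) (e : Fin (d + 1) ↪ Fin n) (i : Fin d) :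
    dot (laplaceW y e) (y i) = 0 := by
  rw [dot_laplaceW]
  unfold plucker
  apply Matrix.det_zero_of_row_eq (i := i.castSucc) (j := Fin.last d)
  · exact (Fin.castSucc_lt_last i).ne
  · funext j
    simp [Matrix.of_apply]

end Laplace

section Height

variable (K : Type*) [Field K] [CharZero K]

/-- **A10** (`Wall.PluckerStepStatement K`, unfolded). -/
theorem pluckerStep (hK : ∀ a : K, IsIntegral ℚ a) (n d : ℕ) :
    ∃ C : ℝ, ∀ (y : Fin d → Fin n → K),
      ∃ W : (Fin (d + 1) ↪ Fin n) → Fin n → K,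
        (∀ e i, dot (W e) (y i) = 0) ∧
        (∀ (z : Fin n → K) e,
          dot (W e) z = plucker (Fin.snoc y z : Fin (d + 1) → Fin n → K) e) ∧
        ht (fun q : (Fin (d + 1) ↪ Fin n) × Fin n => W q.1 q.2) ≤ ht (plucker y) + C := by
  classical
  refine ⟨Real.log (Nat.card (Fin d ↪ Fin n)) + ht (laplaceM K n d), fun y => ?_⟩
  refine ⟨laplaceW y, fun e i => dot_laplaceW_self y e i, fun z e => dot_laplaceW y z e, ?_⟩
  have h := H380.absLogHeight_linearMap_apply_le (laplaceM K n d) (plucker y)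
    (fun a => hK _) (fun i => hK _)
  have heq : (fun q : (Fin (d + 1) ↪ Fin n) × Fin n => laplaceW y q.1 q.2) =
      fun q => ∑ e' : Fin d ↪ Fin n, laplaceM K n d (q, e') * plucker y e' := by
    funext q
    exact laplaceW_eq_sum y q.1 q.2
  unfold ht
  rw [heq]
  linarith

end Height

end Fermat.Agent.S17.H980

end
end
-- ===== PACK-END S17/H980/PluckerStep.lean

-- ===== PACK-BEGIN S15/H722/LevelP.lean
section



/-!
# S15 / COMPAT (helper722): the cusp criterion for `X₀(p)`

`F = L(X₀(N))` (`laurentBaseChange L (modularFunctionFieldFull N)`), `A ⊆ L` a valuation ring,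
`π : A → k`, `r` a place reduction (`IsPlaceReductionAlong A π N r`).

* `jF`, `jdF d` : the functions `j`, `j_d = j(q^d)` in `F`; `jFk`, `jdFk` in `F_k`;
* `r_eq_cusp` : **COMPAT-FF**.  Let `d ∣ N`, `d > 0` (in the application `d = N = p`).  Assume
  - (`hzero`, `hpole`) `r` maps zeros of `j` to zeros of `j̄` and poles of `j` to poles of `j̄`
    (degree preservation for `j`),
  - (`hcusps`) the poles of `j` are the places `Cinf`, `C0`,
  - (`hjd`) `j_d` has poles only at poles of `j`,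
  - (`hinf`, `h0`) `j_d / j ^ d` takes the value `1` at `Cinf` and `0` at `C0`.
  Let `W` be a place with `j(W) = a ∉ A`, `j_d(W) = b`.  Then `b / a ^ d ∈ A`;
  if `b / a ^ d` is a unit of `A` then `r W = r Cinf`; if it is a non-unit then `r W = r C0`.
* `reductionAlong_eq_zero` : consequently the class of `W - C` dies under `reductionAlong`.
-/

set_option autoImplicit false
set_option synthInstance.maxHeartbeats 400000

noncomputable section

open AlgebraicCurve ModularCurve HahnSeries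

namespace Fermat.Agent.S15.H722

open Fermat.Agent.Lib.RR Fermat.Agent.S18.H725

section Series

/-- the `q`-series of `1 / j` over any commutative ring -/
def jInvSer (R : Type*) [CommRing R] : LaurentSeries R :=
  HahnSeries.single (1 : ℤ) 1 *
    HahnSeries.ofPowerSeries ℤ R ((jNum.map (Int.castRingHom R)).invOfUnit 1)

theorem jqModC_mul_jInvSer (R : Type*) [CommRing R] : jqModC R * jInvSer R = 1 := by
  have hc : PowerSeries.constantCoeff (jNum.map (Int.castRingHom R)) = ((1 : Rˣ) : R) := by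
    rw [← PowerSeries.coeff_zero_eq_constantCoeff, PowerSeries.coeff_map,
      PowerSeries.coeff_zero_eq_constantCoeff, constantCoeff_jNum]
    simp
  have h1 := PowerSeries.mul_invOfUnit (jNum.map (Int.castRingHom R)) 1 hc
  have h2 : HahnSeries.ofPowerSeries ℤ R (jNum.map (Int.castRingHom R)) *
      HahnSeries.ofPowerSeries ℤ R ((jNum.map (Int.castRingHom R)).invOfUnit 1) = 1 := by
    rw [← map_mul, h1, map_one]
  have h3 : HahnSeries.single (-1 : ℤ) (1 : R) * HahnSeries.single (1 : ℤ) 1 = 1 := by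
    rw [HahnSeries.single_mul_single]
    simp
  calc jqModC R * jInvSer R
      = (HahnSeries.single (-1 : ℤ) (1 : R) * HahnSeries.single (1 : ℤ) 1) *
          (HahnSeries.ofPowerSeries ℤ R (jNum.map (Int.castRingHom R)) *
            HahnSeries.ofPowerSeries ℤ R ((jNum.map (Int.castRingHom R)).invOfUnit 1)) := by
        rw [jqModC, jInvSer]; ring
    _ = 1 := by rw [h2, h3, mul_one]

theorem coeffMap_jInvSer_mul {R S : Type*} [CommRing R] [CommRing S] (f : R →+* S) :
    jqModC S * coeffMap f (jInvSer R) = 1 := by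
  rw [← coeffMap_jqModC f, ← map_mul, jqModC_mul_jInvSer, map_one]

theorem jqModC_ne_zero' (S : Type*) [Field S] : jqModC S ≠ 0 := by
  intro h
  have := jqModC_mul_jInvSer S
  rw [h, zero_mul] at this
  exact zero_ne_one this

theorem coeffMap_jInvSer {R S : Type*} [CommRing R] [Field S] (f : R →+* S) :
    coeffMap f (jInvSer R) = (jqModC S)⁻¹ :=
  eq_inv_of_mul_eq_one_right (coeffMap_jInvSer_mul f)

end Series

section Functions

variable (L : Type*) [Field L] [Algebra ℚ L] (N : ℕ)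

theorem jd_mem_F {d : ℕ} [NeZero d] (hd : d ∣ N) :
    qExpand L d (jqModC L) ∈ laurentBaseChange L (modularFunctionFieldFull N) := by
  have h1 : qExpand ℚ d jq ∈ modularFunctionFieldFull N := jqd_mem_full N hd
  have h2 := coeffEmb_mem_laurentBaseChange L h1
  have h3 : coeffEmb L (qExpand ℚ d jq) = qExpand L d (jqModC L) := by
    rw [coeffEmb, ModularCurve.coeffMap_qExpand, ← jqModC_rat, coeffMap_jqModC]
  rwa [h3] at h2

theorem j_mem_F : jqModC L ∈ laurentBaseChange L (modularFunctionFieldFull N) := by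
  have := jd_mem_F L N (d := 1) (one_dvd N)
  rwa [qExpand_one_apply] at this

/-- `j` as an element of `F` -/
def jF : laurentBaseChange L (modularFunctionFieldFull N) := ⟨jqModC L, j_mem_F L N⟩

/-- `j_d` as an element of `F` -/
def jdF {d : ℕ} [NeZero d] (hd : d ∣ N) : laurentBaseChange L (modularFunctionFieldFull N) :=
  ⟨qExpand L d (jqModC L), jd_mem_F L N hd⟩

theorem jF_ne_zero : jF L N ≠ 0 := fun h =>
  jqModC_ne_zero' L (congrArg Subtype.val h)

end Functions

section FunctionsK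

variable (k : Type*) [Field k] (N : ℕ)

/-- `j` as an element of `F_k` -/
def jFk : modularFunctionFieldFullC k N := ⟨jqModC k, jqModC_mem_full k N⟩

/-- `j_d` as an element of `F_k` -/
def jdFk {d : ℕ} [NeZero d] (hd : d ∣ N) : modularFunctionFieldFullC k N :=
  ⟨qExpand k d (jqModC k), jqModCd_mem_full k N hd⟩

theorem jFk_ne_zero : jFk k N ≠ 0 := fun h =>
  jqModC_ne_zero' k (congrArg Subtype.val h)

end FunctionsK

section Integral

variable {L : Type*} [Field L] [Algebra ℚ L] (A : ValuationSubring L)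
variable {k : Type*} [Field k] (π : A →+* k) (N : ℕ)

local notation "FL" => laurentBaseChange L (modularFunctionFieldFull N)
local notation "Fk" => modularFunctionFieldFullC k N

/-- `j` as an integral function -/
def jO : intO A π FL Fk :=
  ofSer A π FL Fk (jqModC A) (by rw [coeffMap_jqModC]; exact j_mem_F L N)
    (by rw [coeffMap_jqModC]; exact jqModC_mem_full k N)

theorem coe_jO : ((jO A π N : intO A π FL Fk) : FL) = jF L N :=
  Subtype.ext (coeffMap_jqModC A.subtype)

theorem redO_jO : redO A π FL Fk (jO A π N) = jFk k N := by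
  rw [jO, redO_ofSer]
  exact Subtype.ext (coeffMap_jqModC π)

/-- `j_d` as an integral function -/
def jdO {d : ℕ} [NeZero d] (hd : d ∣ N) : intO A π FL Fk :=
  ofSer A π FL Fk (qExpand A d (jqModC A))
    (by rw [ModularCurve.coeffMap_qExpand, coeffMap_jqModC]; exact jd_mem_F L N hd)
    (by rw [ModularCurve.coeffMap_qExpand, coeffMap_jqModC]; exact jqModCd_mem_full k N hd)

theorem coe_jdO {d : ℕ} [NeZero d] (hd : d ∣ N) :
    ((jdO A π N hd : intO A π FL Fk) : FL) = jdF L N hd :=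
  Subtype.ext (by
    show coeffMap A.subtype (qExpand A d (jqModC A)) = qExpand L d (jqModC L)
    rw [ModularCurve.coeffMap_qExpand, coeffMap_jqModC])

/-- `1 / j` as an integral function -/
def xO : intO A π FL Fk :=
  ofSer A π FL Fk (jInvSer A)
    (by rw [coeffMap_jInvSer]; exact inv_mem (j_mem_F L N))
    (by rw [coeffMap_jInvSer]; exact inv_mem (jqModC_mem_full k N))

theorem coe_xO : ((xO A π N : intO A π FL Fk) : FL) = (jF L N)⁻¹ :=
  Subtype.ext (by
    show coeffMap A.subtype (jInvSer A) = ((jF L N)⁻¹ : FL)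
    rw [coeffMap_jInvSer]; rfl)

theorem redO_xO : redO A π FL Fk (xO A π N) = (jFk k N)⁻¹ := by
  rw [xO, redO_ofSer]
  exact Subtype.ext (by
    show coeffMap π (jInvSer A) = ((jFk k N)⁻¹ : Fk)
    rw [coeffMap_jInvSer]; rfl)

end Integral

section Main

variable {L : Type*} [Field L] [Algebra ℚ L] (A : ValuationSubring L)
variable {k : Type*} [Field k] (π : A →+* k) (N : ℕ)

local notation "FL" => laurentBaseChange L (modularFunctionFieldFull N)
local notation "Fk" => modularFunctionFieldFullC k N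

/-- the coordinate at infinity `x = 1 / j` of the modular place reduction -/
def modInfCoord (hπ : ∀ a : A, ¬ IsUnit a → π a = 0)
    (r : Place L FL → Place k Fk) (hr : IsPlaceReductionAlong A π N r)
    (hzero : ∀ P : Place L FL, 0 < P.ord (jF L N) → 0 < (r P).ord (jFk k N))
    (hpole : ∀ P : Place L FL, P.ord (jF L N) < 0 → (r P).ord (jFk k N) < 0) :
    InfCoord (modRedCore A π N hπ r hr) where
  x := xO A π N
  xi := jO A π N
  mul_eq_one := by
    rw [coe_xO, coe_jO]
    exact inv_mul_cancel₀ (jF_ne_zero L N)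
  zero_to_zero := by
    intro P hP
    rw [coe_xO, P.ord_inv] at hP
    show 0 < (r P).ord (redO A π FL Fk (xO A π N))
    rw [redO_xO, (r P).ord_inv]
    have := hpole P (by omega)
    omega
  pole_to_pole := by
    intro P hP
    rw [coe_xO, P.ord_inv] at hP
    show (r P).ord (redO A π FL Fk (xO A π N)) < 0
    rw [redO_xO, (r P).ord_inv]
    have := hzero P (by omega)
    omega

/-- **COMPAT-FF: the cusp criterion.** -/
theorem r_eq_cusp [HasPrincipalDivisors L FL] (hπ : ∀ a : A, ¬ IsUnit a → π a = 0)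
    (r : Place L FL → Place k Fk) (hr : IsPlaceReductionAlong A π N r)
    (hzero : ∀ P : Place L FL, 0 < P.ord (jF L N) → 0 < (r P).ord (jFk k N))
    (hpole : ∀ P : Place L FL, P.ord (jF L N) < 0 → (r P).ord (jFk k N) < 0)
    {d : ℕ} [NeZero d] (hd : d ∣ N)
    {Cinf C0 : Place L FL}
    (hcusps : ∀ P : Place L FL, P.ord (jF L N) < 0 → P = Cinf ∨ P = C0)
    (hjd : ∀ P : Place L FL, P.ord (jdF L N hd) < 0 → P.ord (jF L N) < 0)
    (hinf : HasVal Cinf (jdF L N hd / jF L N ^ d) 1)
    (h0 : HasVal C0 (jdF L N hd / jF L N ^ d) 0)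
    {W : Place L FL} {a b : L} (ha : HasVal W (jF L N) a) (hb : HasVal W (jdF L N hd) b)
    (haA : a ∉ A) :
    ∃ h : b / a ^ d ∈ A, (IsUnit (⟨b / a ^ d, h⟩ : A) → r W = r Cinf) ∧
      (¬ IsUnit (⟨b / a ^ d, h⟩ : A) → r W = r C0) := by
  classical
  set Φ := modRedCore A π N hπ r hr with hΦ
  set X := modInfCoord A π N hπ r hr hzero hpole with hX
  have ha0 : a ≠ 0 := by
    rintro rfl
    exact haA (zero_mem _)
  have hainv : a⁻¹ ∈ A := (A.mem_or_inv_mem a).resolve_left haA
  have hnu : ¬ IsUnit (⟨a⁻¹, hainv⟩ : A) := by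
    intro hu
    apply haA
    obtain ⟨u, hu⟩ := hu
    have h1 : ((u⁻¹ : Aˣ) : A) * ⟨a⁻¹, hainv⟩ = 1 := by rw [← hu]; exact Units.inv_mul u
    have h2 : (((u⁻¹ : Aˣ) : A) : L) * a⁻¹ = 1 := by
      have := congrArg Subtype.val h1
      simpa using this
    have h3 : (((u⁻¹ : Aˣ) : A) : L) = a := by
      field_simp at h2
      exact h2
    rw [← h3]
    exact Subtype.mem _
  -- the function `u = j_d * x ^ d`
  set u : intO A π FL Fk := jdO A π N hd * xO A π N ^ d with hu
  have hucoe : ((u : intO A π FL Fk) : FL) = jdF L N hd / jF L N ^ d := by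
    rw [hu]
    push_cast
    rw [coe_jdO, coe_xO, inv_pow, div_eq_mul_inv]
  have hxcoe : ((X.x : Φ.O) : FL) = (jF L N)⁻¹ := coe_xO A π N
  have hcusps' : ∀ P : Place L FL, 0 < P.ord ((X.x : Φ.O) : FL) → P = Cinf ∨ P = C0 := by
    intro P hP
    rw [hxcoe, P.ord_inv] at hP
    exact hcusps P (by omega)
  have hupoles : ∀ P : Place L FL, P.ord ((u : intO A π FL Fk) : FL) < 0 →
      P.ord ((X.x : Φ.O) : FL) < 0 := by
    intro P hP
    rw [hxcoe, P.ord_inv]
    by_contra hcon
    push Not at hcon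
    have hj : P.ord (jF L N) ≤ 0 := by omega
    rcases lt_or_eq_of_le hj with hlt | heq
    · -- `P` is a cusp, where `u` is regular
      rcases hcusps P hlt with rfl | rfl
      · have := hinf.ord_nonneg
        rw [← hucoe] at this
        omega
      · have := h0.ord_nonneg
        rw [← hucoe] at this
        omega
    · -- `j` is a unit at `P`, so `j_d` is regular at `P`
      have hjd' : 0 ≤ P.ord (jdF L N hd) := by
        by_contra hneg
        push Not at hneg
        have := hjd P hneg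
        omega
      rw [hucoe] at hP
      have hjne : jF L N ^ d ≠ 0 := pow_ne_zero _ (jF_ne_zero L N)
      rcases eq_or_ne (jdF L N hd) 0 with h0' | hne
      · rw [h0', zero_div, P.ord_zero] at hP
        exact lt_irrefl _ hP
      · rw [div_eq_mul_inv, P.ord_mul hne (inv_ne_zero hjne), P.ord_inv, ord_pow, heq] at hP
        omega
  have hW : HasVal W ((X.x : Φ.O) : FL) ((⟨a⁻¹, hainv⟩ : A) : L) := by
    rw [hxcoe]
    exact ha.inv ha0
  have hbu : HasVal W ((u : intO A π FL Fk) : FL) (b / a ^ d) := by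
    rw [hucoe]
    exact hb.div (ha.pow d) (pow_ne_zero _ ha0)
  have hu1 : HasVal Cinf ((u : intO A π FL Fk) : FL) 1 := by rw [hucoe]; exact hinf
  have hu0 : HasVal C0 ((u : intO A π FL Fk) : FL) 0 := by rw [hucoe]; exact h0
  obtain ⟨hbA, h1, h2⟩ := X.r_eq_of_two_cusps (C₁ := Cinf) (C₀ := C0) hcusps' (u := u) hupoles
    hu1 hu0 (c := ⟨a⁻¹, hainv⟩) hnu hW hbu
  refine ⟨hbA, fun hunit => ?_, fun hnunit => ?_⟩
  · refine h1 ?_
    show π ⟨b / a ^ d, hbA⟩ ≠ 0
    exact (hunit.map π).ne_zero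
  · refine h2 ?_
    show π ⟨b / a ^ d, hbA⟩ = 0
    exact hπ _ hnunit

end Main

end Fermat.Agent.S15.H722

end
end
-- ===== PACK-END S15/H722/LevelP.lean

-- ===== PACK-BEGIN S15/H602/PlaceOfPoint.lean
section




/-!
# Places of a function field `F = K(x, y)` over a simple point of the plane model
(helper602, row S15, piece FFu-ABS)

`K` a field, `F ⊇ K` a field, `x y : F`, `a b : K`.  Bivariate polynomials `G : K[X][X]`
(inner variable `↦ x`, outer variable `↦ y`) are evaluated by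

* `ev x y G = G(x, y) ∈ F`   and   `ev0 a b G = G(a, b) ∈ K`.

A place `P` is *centred at* `(a, b)` if `x - a, y - b ∈ 𝔪_P` (`IsCentredAt P x y a b`).

Main results:

* `IsCentredAt.ev_sub_mem` : `G(x,y) - G(a,b) ∈ 𝔪_P` for every `G`;
* `IsCentredAt.unique` : if `F = K(x,y)` and `(a,b)` is a simple point of some relation `Ψ`
  (`Ψ(x,y) = 0`, `∂Ψ/∂Y (a,b) ≠ 0`) then there is at most one place centred at `(a,b)`;
* `exists_isCentredAt` : `K` algebraically closed, `x` transcendental, `[F : K(x)] < ∞`, and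
  `(a, b)` a `K`-point of the plane model (`G(x,y) = 0 → G(a,b) = 0`): a place centred at `(a,b)`
  exists;
* `isPointOf_of_monic` : the last hypothesis follows from `Ψ(a,b) = 0` when `Ψ` is monic in `Y` and
  `y` satisfies no relation over `K[x]` of smaller `Y`-degree;
* `IsCentredAt.smul_eq` : the unique place is fixed by every semilinear automorphism fixing
  `x`, `y`, `a`, `b` (Galois-fixedness).
-/

set_option autoImplicit false

noncomputable section

namespace Fermat.Agent.S15.H602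

open Polynomial AlgebraicCurve

variable {K F : Type*} [Field K] [Field F] [Algebra K F]

/-- `G ↦ G(x, y)` for `G ∈ K[X][Y]`. -/
def ev (x y : F) : K[X][X] →+* F :=
  eval₂RingHom ((aeval x : K[X] →ₐ[K] F) : K[X] →+* F) y

/-- `G ↦ G(a, b)` for `G ∈ K[X][Y]`. -/
def ev0 (a b : K) : K[X][X] →+* K :=
  eval₂RingHom (evalRingHom a) b

section evLemmas

variable (x y : F) (a b : K)

@[simp] theorem ev_C (g : K[X]) : ev x y (C g) = aeval x g := by simp [ev]

@[simp] theorem ev_X : ev x y (X : K[X][X]) = y := by simp [ev]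

theorem ev_C_C (c : K) : ev x y (C (C c)) = algebraMap K F c := by simp

theorem ev_C_X : ev x y (C (X : K[X])) = x := by simp

@[simp] theorem ev0_C (g : K[X]) : ev0 a b (C g) = g.eval a := by simp [ev0]

@[simp] theorem ev0_X : ev0 a b (X : K[X][X]) = b := by simp [ev0]

theorem ev0_C_C (c : K) : ev0 a b (C (C c)) = c := by simp

theorem ev0_C_X : ev0 a b (C (X : K[X])) = a := by simp

theorem ev0_eq_evalEval (G : K[X][X]) : ev0 a b G = G.evalEval a b := by
  rw [ev0, coe_eval₂RingHom, eval₂_evalRingHom]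

/-- `ev0` through `map`: `G(a, Y)` evaluated at `b`. -/
theorem ev0_eq_eval_map (G : K[X][X]) : ev0 a b G = (G.map (evalRingHom a)).eval b := by
  rw [ev0, coe_eval₂RingHom, eval₂_eq_eval_map]

/-- `G = G(a,b) + A · (X - a) + B · (Y - b)`. -/
theorem exists_decomp (G : K[X][X]) :
    ∃ A B : K[X][X], G = C (C (ev0 a b G)) + A * C (X - C a) + B * (X - C (C b)) := by
  obtain ⟨B, hB⟩ : (X - C (C b) : K[X][X]) ∣ G - C (G.eval (C b)) := X_sub_C_dvd_sub_C_eval
  obtain ⟨A, hA⟩ : (X - C a : K[X]) ∣ G.eval (C b) - C ((G.eval (C b)).eval a) :=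
    X_sub_C_dvd_sub_C_eval
  refine ⟨C A, B, ?_⟩
  have h1 : ev0 a b G = (G.eval (C b)).eval a := ev0_eq_evalEval a b G
  have h2 : G = C (G.eval (C b)) + (X - C (C b)) * B := by rw [← hB]; ring
  have h3 : G.eval (C b) = C ((G.eval (C b)).eval a) + (X - C a) * A := by rw [← hA]; ring
  rw [h1]
  conv_lhs => rw [h2, h3]
  simp only [map_add, map_mul, map_sub]
  ring

end evLemmas

/-- `O · 𝔪 ⊆ 𝔪` for a valuation subring. -/
theorem mul_mem_nonunits (O : ValuationSubring F) {u m : F} (hu : u ∈ O)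
    (hm : m ∈ O.nonunits) : u * m ∈ O.nonunits := by
  rw [ValuationSubring.mem_nonunits_iff] at hm ⊢
  rw [map_mul]
  have hu' := (O.valuation_le_one_iff u).mpr hu
  calc O.valuation u * O.valuation m ≤ 1 * O.valuation m := mul_le_mul_left hu' _
    _ = O.valuation m := one_mul _
    _ < 1 := hm

/-- The place `P` is centred at the point `(a, b)` of the `(x, y)`-plane. -/
structure IsCentredAt (P : Place K F) (x y : F) (a b : K) : Prop where
  hx : x - algebraMap K F a ∈ P.toValuationSubring.nonunits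
  hy : y - algebraMap K F b ∈ P.toValuationSubring.nonunits

namespace IsCentredAt

variable {P : Place K F} {x y : F} {a b : K}

theorem x_mem (h : IsCentredAt P x y a b) : x ∈ P.toValuationSubring := by
  have := P.toValuationSubring.add_mem _ _ (ValuationSubring.nonunits_subset h.hx)
    (P.algebraMap_mem' a)
  simpa using this

theorem y_mem (h : IsCentredAt P x y a b) : y ∈ P.toValuationSubring := by
  have := P.toValuationSubring.add_mem _ _ (ValuationSubring.nonunits_subset h.hy)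
    (P.algebraMap_mem' b)
  simpa using this

theorem aeval_mem (h : IsCentredAt P x y a b) (g : K[X]) : aeval x g ∈ P.toValuationSubring := by
  induction g using Polynomial.induction_on' with
  | add p q hp hq => rw [map_add]; exact add_mem hp hq
  | monomial m c =>
    rw [← C_mul_X_pow_eq_monomial, map_mul, map_pow, aeval_C, aeval_X]
    exact mul_mem (P.algebraMap_mem' c) (pow_mem h.x_mem m)

/-- `G(x, y) ∈ O_P`. -/
theorem ev_mem (h : IsCentredAt P x y a b) (G : K[X][X]) : ev x y G ∈ P.toValuationSubring := by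
  induction G using Polynomial.induction_on' with
  | add p q hp hq => rw [map_add]; exact add_mem hp hq
  | monomial n g =>
    rw [← C_mul_X_pow_eq_monomial, map_mul, map_pow, ev_C, ev_X]
    exact mul_mem (h.aeval_mem g) (pow_mem h.y_mem n)

/-- `G(x, y) ≡ G(a, b)` modulo `𝔪_P`. -/
theorem ev_sub_mem (h : IsCentredAt P x y a b) (G : K[X][X]) :
    ev x y G - algebraMap K F (ev0 a b G) ∈ P.toValuationSubring.nonunits := by
  obtain ⟨A, B, hAB⟩ := exists_decomp a b G
  have key : ev x y G - algebraMap K F (ev0 a b G) =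
      ev x y A * (x - algebraMap K F a) + ev x y B * (y - algebraMap K F b) := by
    have e := congrArg (ev x y) hAB
    simp only [map_add, map_mul, map_sub, ev_C, ev_X, aeval_C, aeval_X] at e
    rw [e]
    ring
  rw [key]
  exact add_mem (mul_mem_nonunits _ (h.ev_mem A) h.hx) (mul_mem_nonunits _ (h.ev_mem B) h.hy)

/-- `G(a, b) = 0 → G(x, y) ∈ 𝔪_P`. -/
theorem ev_mem_nonunits (h : IsCentredAt P x y a b) {G : K[X][X]} (hG : ev0 a b G = 0) :
    ev x y G ∈ P.toValuationSubring.nonunits := by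
  have := h.ev_sub_mem G
  rwa [hG, map_zero, sub_zero] at this

/-- `G(a, b) ≠ 0 → G(x, y)` is a unit of `O_P`. -/
theorem ev_unit (h : IsCentredAt P x y a b) {G : K[X][X]} (hG : ev0 a b G ≠ 0) :
    ev x y G ≠ 0 ∧ (ev x y G)⁻¹ ∈ P.toValuationSubring := by
  have h1 : ev x y G ∉ P.toValuationSubring.nonunits := by
    intro hmem
    have h2 : algebraMap K F (ev0 a b G) ∈ P.toValuationSubring.nonunits := by
      have := sub_mem hmem (h.ev_sub_mem G)
      simpa using this
    rw [ValuationSubring.mem_nonunits_iff_or] at h2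
    rcases h2 with h2 | h2
    · exact hG ((map_eq_zero _).mp h2)
    · apply h2
      rw [← map_inv₀]
      exact P.algebraMap_mem' _
  rw [ValuationSubring.mem_nonunits_iff_or] at h1
  exact ⟨fun h0 => h1 (Or.inl h0), by_contra fun hc => h1 (Or.inr hc)⟩

theorem ord_ev_unit (h : IsCentredAt P x y a b) {G : K[X][X]} (hG : ev0 a b G ≠ 0) :
    P.ord (ev x y G) = 0 := by
  have h1 := Lib.RR.ord_nonneg_of_mem P (h.ev_mem G)
  have h2 := Lib.RR.ord_nonneg_of_mem P (h.ev_unit hG).2
  rw [P.ord_inv] at h2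
  omega

end IsCentredAt

/-- Data of a relation `Ψ(x, y) = 0` for which `(a, b)` is a simple point. -/
structure IsSimplePoint (x y : F) (a b : K) (Ψ : K[X][X]) : Prop where
  rel : ev x y Ψ = 0
  zero : ev0 a b Ψ = 0
  simple : ev0 a b (derivative Ψ) ≠ 0

/-- Key step: if `G(a,b) = 0` then `T(x,y) G(x,y) = (x - a) G₁(x,y)` with `T(a,b) ≠ 0`. -/
theorem IsSimplePoint.exists_mul_eq {x y : F} {a b : K} {Ψ : K[X][X]}
    (hΨ : IsSimplePoint x y a b Ψ) {G : K[X][X]} (hG : ev0 a b G = 0) :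
    ∃ T G₁ : K[X][X], ev0 a b T ≠ 0 ∧
      ev x y T * ev x y G = (x - algebraMap K F a) * ev x y G₁ := by
  obtain ⟨A₀, B₀, h0⟩ := exists_decomp a b Ψ
  obtain ⟨A, B, h1⟩ := exists_decomp a b G
  rw [hΨ.zero, map_zero, map_zero, zero_add] at h0
  rw [hG, map_zero, map_zero, zero_add] at h1
  have hB₀ : ev0 a b B₀ ≠ 0 := by
    have hd : derivative Ψ = derivative A₀ * C (X - C a) + (derivative B₀ * (X - C (C b)) + B₀) := by
      conv_lhs => rw [h0]
      simp only [derivative_add, derivative_mul, derivative_C, derivative_sub, derivative_X,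
        mul_zero, add_zero, sub_zero, mul_one]
    have := hΨ.simple
    rw [hd] at this
    simpa using this
  have hrel : ev x y A₀ * (x - algebraMap K F a) + ev x y B₀ * (y - algebraMap K F b) = 0 := by
    have := hΨ.rel
    rw [h0] at this
    simpa using this
  refine ⟨B₀, B₀ * A - B * A₀, hB₀, ?_⟩
  conv_lhs => rw [h1]
  simp only [map_add, map_mul, map_sub, ev_C, ev_X, aeval_C, aeval_X]
  linear_combination (ev x y B) * hrel

/-- Every nonzero `G(x,y)` is `(x - a)^n` times a unit of the local ring at `(a, b)`. -/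
theorem IsSimplePoint.exists_pow_mul_eq {x y : F} {a b : K} {Ψ : K[X][X]}
    (hΨ : IsSimplePoint x y a b Ψ) {P : Place K F} (h : IsCentredAt P x y a b)
    (G : K[X][X]) (hG : ev x y G ≠ 0) :
    ∃ (n : ℕ) (S T : K[X][X]), ev0 a b S ≠ 0 ∧ ev0 a b T ≠ 0 ∧
      ev x y T * ev x y G = (x - algebraMap K F a) ^ n * ev x y S := by
  induction hk : (P.ord (ev x y G)).toNat using Nat.strong_induction_on generalizing G with
  | _ k ih =>
    by_cases hG0 : ev0 a b G = 0
    · obtain ⟨T₁, G₁, hT₁, hmul⟩ := hΨ.exists_mul_eq (x := x) (y := y) hG0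
      have hT₁u := h.ev_unit hT₁
      have hxa : x - algebraMap K F a ≠ 0 := by
        intro h0
        rw [h0, zero_mul] at hmul
        exact (mul_ne_zero hT₁u.1 hG) hmul
      have hG₁ : ev x y G₁ ≠ 0 := by
        intro h0
        rw [h0, mul_zero] at hmul
        exact (mul_ne_zero hT₁u.1 hG) hmul
      have hord : P.ord (ev x y G) = P.ord (x - algebraMap K F a) + P.ord (ev x y G₁) := by
        have := congrArg P.ord hmul
        rw [P.ord_mul hT₁u.1 hG, P.ord_mul hxa hG₁, h.ord_ev_unit hT₁, zero_add] at this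
        exact this
      have hpos : 0 < P.ord (x - algebraMap K F a) :=
        (S24.FF.ord_pos_iff_mem_nonunits P hxa).mpr h.hx
      have hnn : 0 ≤ P.ord (ev x y G₁) := Lib.RR.ord_nonneg_of_mem P (h.ev_mem G₁)
      have hlt : (P.ord (ev x y G₁)).toNat < k := by
        rw [← hk]
        omega
      obtain ⟨n, S, T₂, hS, hT₂, hmul₂⟩ := ih _ hlt G₁ hG₁ rfl
      refine ⟨n + 1, S, T₁ * T₂, hS, ?_, ?_⟩
      · rw [map_mul]; exact mul_ne_zero hT₁ hT₂
      · rw [map_mul, pow_succ]
        linear_combination (ev x y T₂) * hmul + (x - algebraMap K F a) * hmul₂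
    · exact ⟨0, G, 1, hG0, by simp, by simp⟩

/-- **Uniqueness** of the place centred at a simple point, when `F = K(x, y)`. -/
theorem IsCentredAt.le_of_isSimplePoint {x y : F} {a b : K} {Ψ : K[X][X]}
    (hΨ : IsSimplePoint x y a b Ψ)
    (hgen : ∀ f : F, ∃ G H : K[X][X], ev x y H ≠ 0 ∧ f * ev x y H = ev x y G)
    {P P' : Place K F} (h : IsCentredAt P x y a b) (h' : IsCentredAt P' x y a b) :
    P.toValuationSubring ≤ P'.toValuationSubring := by
  intro f hf
  rcases eq_or_ne f 0 with rfl | hf0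
  · exact zero_mem _
  obtain ⟨G, H, hH, hfH⟩ := hgen f
  have hG : ev x y G ≠ 0 := by rw [← hfH]; exact mul_ne_zero hf0 hH
  obtain ⟨n, S, T, hS, hT, hGeq⟩ := hΨ.exists_pow_mul_eq h G hG
  obtain ⟨m, S', T', hS', hT', hHeq⟩ := hΨ.exists_pow_mul_eq h H hH
  set t := x - algebraMap K F a with ht
  have hSu := h.ev_unit hS
  have hTu := h.ev_unit hT
  have hS'u := h.ev_unit hS'
  have hT'u := h.ev_unit hT'
  have key : f * (t ^ m * ev x y S' * ev x y T) = t ^ n * ev x y S * ev x y T' := by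
    linear_combination (ev x y T * ev x y T') * hfH - f * ev x y T * hHeq + ev x y T' * hGeq
  by_cases ht0 : t = 0
  · -- then `n = m = 0`
    have hn : n = 0 := by
      by_contra hn
      rw [ht0, zero_pow hn, zero_mul] at hGeq
      exact (mul_ne_zero hTu.1 hG) hGeq
    have hm : m = 0 := by
      by_contra hm
      rw [ht0, zero_pow hm, zero_mul] at hHeq
      exact (mul_ne_zero hT'u.1 hH) hHeq
    rw [hn, hm, pow_zero, one_mul, one_mul] at key
    have hf_eq : f = ev x y S * ev x y T' * ((ev x y S')⁻¹ * (ev x y T)⁻¹) := by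
      rw [← mul_inv, ← div_eq_mul_inv, eq_div_iff (mul_ne_zero hS'u.1 hTu.1)]
      linear_combination key
    rw [hf_eq]
    exact mul_mem (mul_mem (h'.ev_mem S) (h'.ev_mem T'))
      (mul_mem (h'.ev_unit hS').2 (h'.ev_unit hT).2)
  · have hpos : 0 < P.ord t := (S24.FF.ord_pos_iff_mem_nonunits P ht0).mpr h.hx
    have hord : P.ord f + m * P.ord t = n * P.ord t := by
      have := congrArg P.ord key
      rw [P.ord_mul hf0 (mul_ne_zero (mul_ne_zero (pow_ne_zero m ht0) hS'u.1) hTu.1),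
        P.ord_mul (mul_ne_zero (pow_ne_zero m ht0) hS'u.1) hTu.1,
        P.ord_mul (pow_ne_zero m ht0) hS'u.1,
        P.ord_mul (mul_ne_zero (pow_ne_zero n ht0) hSu.1) hT'u.1,
        P.ord_mul (pow_ne_zero n ht0) hSu.1,
        Lib.RR.ord_pow, Lib.RR.ord_pow, h.ord_ev_unit hS, h.ord_ev_unit hT, h.ord_ev_unit hS',
        h.ord_ev_unit hT'] at this
      linarith
    have hfnn : 0 ≤ P.ord f := Lib.RR.ord_nonneg_of_mem P hf
    have hmn : m ≤ n := by
      by_contra hcon
      have h1 : (n : ℤ) + 1 ≤ m := by exact_mod_cast Nat.lt_of_not_le hcon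
      nlinarith
    obtain ⟨d, rfl⟩ := Nat.exists_eq_add_of_le hmn
    have htm : t ^ m ≠ 0 := pow_ne_zero m ht0
    have hf_eq : f = t ^ d * ev x y S * ev x y T' * ((ev x y S')⁻¹ * (ev x y T)⁻¹) := by
      rw [← mul_inv, ← div_eq_mul_inv, eq_div_iff (mul_ne_zero hS'u.1 hTu.1)]
      rw [pow_add] at key
      apply mul_left_cancel₀ htm
      linear_combination key
    rw [hf_eq]
    have htmem : t ∈ P'.toValuationSubring := ValuationSubring.nonunits_subset h'.hx
    exact mul_mem (mul_mem (mul_mem (pow_mem htmem d) (h'.ev_mem S)) (h'.ev_mem T'))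
      (mul_mem (h'.ev_unit hS').2 (h'.ev_unit hT).2)

/-- **Uniqueness** of the place centred at a simple point, when `F = K(x, y)`. -/
theorem IsCentredAt.unique {x y : F} {a b : K} {Ψ : K[X][X]}
    (hΨ : IsSimplePoint x y a b Ψ)
    (hgen : ∀ f : F, ∃ G H : K[X][X], ev x y H ≠ 0 ∧ f * ev x y H = ev x y G)
    {P P' : Place K F} (h : IsCentredAt P x y a b) (h' : IsCentredAt P' x y a b) :
    P = P' :=
  Place.ext (le_antisymm (h.le_of_isSimplePoint hΨ hgen h') (h'.le_of_isSimplePoint hΨ hgen h))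

/-! ## Existence -/

/-- `(a, b)` is a `K`-point of the plane model of `K(x, y)`: every polynomial relation between
`x` and `y` vanishes at `(a, b)`. -/
def IsPointOf (x y : F) (a b : K) : Prop :=
  ∀ G : K[X][X], ev x y G = 0 → ev0 a b G = 0

/-- **Existence** of a place centred at a `K`-point of the plane model. -/
theorem exists_isCentredAt [IsAlgClosed K] {x y : F} {a b : K} (hx : Transcendental K x)
    [FiniteDimensional (IntermediateField.adjoin K {x}) F] (hpt : IsPointOf x y a b) :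
    ∃ P : Place K F, IsCentredAt P x y a b := by
  classical
  set A : Subring F := (ev (K := K) x y).range with hA
  have hxA : x - algebraMap K F a ∈ A := ⟨C (X - C a), by simp⟩
  have hyA : y - algebraMap K F b ∈ A := ⟨X - C (C b), by simp⟩
  set I : Ideal A := Ideal.span {⟨x - algebraMap K F a, hxA⟩, ⟨y - algebraMap K F b, hyA⟩} with hI
  have hI_ne : I ≠ ⊤ := by
    intro htop
    have h1 : (1 : A) ∈ I := by rw [htop]; trivial
    rw [hI, Ideal.mem_span_pair] at h1
    obtain ⟨⟨u, U, hU⟩, ⟨w, W, hW⟩, huw⟩ := h1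
    have huw' : u * (x - algebraMap K F a) + w * (y - algebraMap K F b) = 1 :=
      congrArg Subtype.val huw
    have h2 : ev x y (U * C (X - C a) + W * (X - C (C b)) - 1) = 0 := by
      simp only [map_add, map_mul, map_sub, map_one, ev_C, ev_X, aeval_C, aeval_X, hU, hW]
      rw [huw', sub_self]
    have h3 := hpt _ h2
    simp at h3
  obtain ⟨B, hAB, hIB⟩ := Ideal.image_subset_nonunits_valuationSubring I hI_ne
  have hxB : x - algebraMap K F a ∈ B.nonunits :=
    hIB ⟨⟨_, hxA⟩, Ideal.subset_span (by simp), rfl⟩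
  have hyB : y - algebraMap K F b ∈ B.nonunits :=
    hIB ⟨⟨_, hyA⟩, Ideal.subset_span (by simp), rfl⟩
  have hK : ∀ c : K, algebraMap K F c ∈ B := fun c => hAB ⟨C (C c), by simp⟩
  have hxa : x - algebraMap K F a ≠ 0 := by
    intro h0
    have h1 : aeval x (X - C a : K[X]) = 0 := by simpa using h0
    have h2 := (transcendental_iff.mp hx) _ h1
    exact X_sub_C_ne_zero a h2
  have hB : B ≠ ⊤ := by
    intro htop
    rw [ValuationSubring.mem_nonunits_iff_or] at hxB
    rcases hxB with h0 | h0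
    · exact hxa h0
    · exact h0 (htop ▸ ValuationSubring.mem_top _)
  obtain ⟨P, hP⟩ := Lib.RR.H443.exists_place_eq B hK hB hx
  exact ⟨P, ⟨hP ▸ hxB, hP ▸ hyB⟩⟩

/-- If `Ψ` is monic in `Y`, `Ψ(x, y) = 0`, and `y` satisfies no relation over `K[x]` of smaller
`Y`-degree, then every zero `(a, b)` of `Ψ` is a `K`-point of the plane model. -/
theorem isPointOf_of_monic {x y : F} {a b : K} {Ψ : K[X][X]} (hΨm : Ψ.Monic)
    (hΨ : ev x y Ψ = 0)
    (hmin : ∀ G : K[X][X], ev x y G = 0 → G.degree < Ψ.degree → G = 0)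
    (hab : ev0 a b Ψ = 0) : IsPointOf x y a b := by
  intro G hG
  have h1 : G %ₘ Ψ + Ψ * (G /ₘ Ψ) = G := modByMonic_add_div G Ψ
  have h2 : ev x y (G %ₘ Ψ) = 0 := by
    have := congrArg (ev x y) h1
    rw [map_add, map_mul, hΨ, zero_mul, add_zero, hG] at this
    exact this
  have h3 : G %ₘ Ψ = 0 := hmin _ h2 (degree_modByMonic_lt G hΨm)
  rw [h3, zero_add] at h1
  rw [← h1, map_mul, hab, zero_mul]

/-- The minimality hypothesis of `isPointOf_of_monic` from a degree bound: the `Y`-degree of `Ψ`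
is at most the degree of the minimal polynomial of `y` over `K(x)`. -/
theorem eq_zero_of_degree_lt {x y : F} (hx : Transcendental K x) {Ψ : K[X][X]}
    (hdeg : Ψ.natDegree ≤ (minpoly (IntermediateField.adjoin K {x}) y).natDegree)
    (hy : IsIntegral (IntermediateField.adjoin K {x}) y)
    (G : K[X][X]) (hG : ev x y G = 0) (hlt : G.degree < Ψ.degree) : G = 0 := by
  set φ : K[X] →+* IntermediateField.adjoin K {x} :=
    (aeval (IntermediateField.AdjoinSimple.gen K x) :
      K[X] →ₐ[K] IntermediateField.adjoin K {x}).toRingHom with hφ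
  have hφ_inj : Function.Injective φ := by
    rw [injective_iff_map_eq_zero]
    intro g hg
    have h1 : aeval x g = 0 := by
      have := congrArg (algebraMap (IntermediateField.adjoin K {x}) F) hg
      simpa [hφ, ← aeval_algebraMap_apply] using this
    exact (transcendental_iff.mp hx) g h1
  have hcomp : ((algebraMap (IntermediateField.adjoin K {x}) F).comp φ) =
      ((aeval x : K[X] →ₐ[K] F) : K[X] →+* F) := by
    ext g
    · simp [hφ]
    · simp [hφ]
  have h1 : aeval y (G.map φ) = 0 := by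
    rw [aeval_def, eval₂_map, hcomp]
    exact hG
  by_contra hG0
  have hmap0 : G.map φ ≠ 0 := by
    rwa [Ne, Polynomial.map_eq_zero_iff hφ_inj]
  have h2 := minpoly.degree_le_of_ne_zero _ y hmap0 h1
  have h3 : (G.map φ).degree = G.degree := degree_map_eq_of_injective hφ_inj G
  have hΨ0 : Ψ ≠ 0 := by
    intro h0
    rw [h0, degree_zero] at hlt
    exact not_lt_bot hlt
  have h4 : Ψ.degree ≤ (minpoly (IntermediateField.adjoin K {x}) y).degree := by
    rw [degree_eq_natDegree hΨ0, degree_eq_natDegree (minpoly.ne_zero hy)]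
    exact_mod_cast hdeg
  rw [h3] at h2
  exact absurd (lt_of_lt_of_le hlt (h4.trans h2)) (lt_irrefl _)

/-! ## Generation -/

/-- Elements of `K[x, y]` are values of bivariate polynomials. -/
theorem exists_ev_eq_of_mem_adjoin {x y : F} {r : F} (hr : r ∈ Algebra.adjoin K ({x, y} : Set F)) :
    ∃ G : K[X][X], ev x y G = r := by
  induction hr using Algebra.adjoin_induction with
  | mem z hz =>
    rcases hz with rfl | hz
    · exact ⟨C X, by simp⟩
    · rw [Set.mem_singleton_iff] at hz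
      subst hz
      exact ⟨X, by simp⟩
  | algebraMap c => exact ⟨C (C c), by simp⟩
  | add u w _ _ hu hw =>
    obtain ⟨U, rfl⟩ := hu
    obtain ⟨W, rfl⟩ := hw
    exact ⟨U + W, map_add _ _ _⟩
  | mul u w _ _ hu hw =>
    obtain ⟨U, rfl⟩ := hu
    obtain ⟨W, rfl⟩ := hw
    exact ⟨U * W, map_mul _ _ _⟩

/-- If `F = K(x, y)` then every element of `F` is a quotient `G(x,y) / H(x,y)`. -/
theorem exists_ev_of_adjoin_eq_top {x y : F}
    (htop : IntermediateField.adjoin K ({x, y} : Set F) = ⊤) (f : F) :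
    ∃ G H : K[X][X], ev x y H ≠ 0 ∧ f * ev x y H = ev x y G := by
  have hf : f ∈ IntermediateField.adjoin K ({x, y} : Set F) := by rw [htop]; trivial
  obtain ⟨r, hr, s, hs, rfl⟩ := IntermediateField.mem_adjoin_iff_div.mp hf
  obtain ⟨G, rfl⟩ := exists_ev_eq_of_mem_adjoin hr
  obtain ⟨H, rfl⟩ := exists_ev_eq_of_mem_adjoin hs
  by_cases h0 : ev x y H = 0
  · refine ⟨0, 1, by simp, ?_⟩
    rw [h0, div_zero, zero_mul, map_zero]
  · exact ⟨G, H, h0, div_mul_cancel₀ _ h0⟩

/-! ## Galois-fixedness -/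

open scoped Pointwise in
/-- A semilinear automorphism fixing `x`, `y`, `a`, `b` maps places centred at `(a, b)` to places
centred at `(a, b)`. -/
theorem IsCentredAt.smul {P : Place K F} {x y : F} {a b : K} (h : IsCentredAt P x y a b)
    (g : SemilinearAut K F) (hgx : g • x = x) (hgy : g • y = y)
    (hga : SemilinearAut.baseAut g a = a) (hgb : SemilinearAut.baseAut g b = b) :
    IsCentredAt (g • P) x y a b := by
  have key : ∀ (z : F), g • z = z → ∀ c : K, SemilinearAut.baseAut g c = c →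
      z - algebraMap K F c ∈ P.toValuationSubring.nonunits →
      z - algebraMap K F c ∈ (g • P).toValuationSubring.nonunits := by
    intro z hz c hc hmem
    have hfix : g • (z - algebraMap K F c) = z - algebraMap K F c := by
      rw [smul_sub, hz, SemilinearAut.smul_algebraMap, hc]
    rw [ValuationSubring.mem_nonunits_iff_or] at hmem ⊢
    rcases hmem with h0 | h0
    · exact Or.inl h0
    · refine Or.inr fun hcon => h0 ?_
      rw [SemilinearAut.smul_toValuationSubring,
        ValuationSubring.mem_pointwise_smul_iff_inv_smul_mem] at hcon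
      have h2 : g⁻¹ • (z - algebraMap K F c)⁻¹ = (z - algebraMap K F c)⁻¹ := by
        rw [inv_smul_eq_iff, smul_inv'', hfix]
      rwa [h2] at hcon
  exact ⟨key x hgx a hga h.hx, key y hgy b hgb h.hy⟩

/-- **Galois-fixedness**: the unique place centred at a simple point `(a, b)` is fixed by every
semilinear automorphism fixing `x`, `y`, `a`, `b`. -/
theorem IsCentredAt.smul_eq {x y : F} {a b : K} {Ψ : K[X][X]}
    (hΨ : IsSimplePoint x y a b Ψ)
    (hgen : ∀ f : F, ∃ G H : K[X][X], ev x y H ≠ 0 ∧ f * ev x y H = ev x y G)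
    {P : Place K F} (h : IsCentredAt P x y a b)
    (g : SemilinearAut K F) (hgx : g • x = x) (hgy : g • y = y)
    (hga : SemilinearAut.baseAut g a = a) (hgb : SemilinearAut.baseAut g b = b) :
    g • P = P :=
  (h.smul g hgx hgy hga hgb).unique hΨ hgen h

/-- **Summary**: over an algebraically closed field `K`, for `F = K(x, y)` finite over `K(x)`
(`x` transcendental), a simple zero `(a, b)` of a monic minimal relation `Ψ` is the centre of
exactly one place. -/
theorem existsUnique_isCentredAt [IsAlgClosed K] {x y : F} {a b : K} (hx : Transcendental K x)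
    [FiniteDimensional (IntermediateField.adjoin K {x}) F]
    (htop : IntermediateField.adjoin K ({x, y} : Set F) = ⊤)
    {Ψ : K[X][X]} (hΨm : Ψ.Monic) (hΨ : ev x y Ψ = 0)
    (hmin : ∀ G : K[X][X], ev x y G = 0 → G.degree < Ψ.degree → G = 0)
    (hab : ev0 a b Ψ = 0) (hsimple : ev0 a b (derivative Ψ) ≠ 0) :
    ∃! P : Place K F, IsCentredAt P x y a b := by
  obtain ⟨P, hP⟩ := exists_isCentredAt hx (isPointOf_of_monic hΨm hΨ hmin hab)
  exact ⟨P, hP, fun P' hP' =>
    hP'.unique ⟨hΨ, hab, hsimple⟩ (exists_ev_of_adjoin_eq_top htop) hP⟩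

end Fermat.Agent.S15.H602

end
end
-- ===== PACK-END S15/H602/PlaceOfPoint.lean

-- ===== PACK-BEGIN S15/H602/IdentAbs.lean
section




/-!
# S15 / GEO-PARTS (b) IDENT (helper602): the abstract identification theorem

`Φ : RedCore K F k Fk` a place reduction on a function field `F`, `X` a coordinate at infinity,
`ι : F₀ → F` an integral embedding of function fields, `u` an integral function with poles only at
poles of `x`, `z` an integral function reducing to `1`, `T` a "type" of residues.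

`mapDomain_pullback_eq602` : if the poles of `z` over the place `P_c` of `F₀` are exactly
`ι^* P_c`, of type `T`, the other poles of `z` are not of type `T`, the zeros and poles of `z` are
near the cusps, and `z` vanishes on `ι^* P` with type `T`, then `r_* ι^* P = r_* ι^* P_c`.
-/

set_option autoImplicit false

noncomputable section

open AlgebraicCurve

namespace Fermat.Agent.S15.H602

open Fermat.Agent.S15.H722 Fermat.Agent.Lib.RR

section Transfer

variable {K F F' : Type*} [Field K] [Field F] [Field F'] [Algebra K F] [Algebra K F']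

theorem ramificationIndexAlong_pos602 (φ : F →ₐ[K] F') (hφ : φ.toRingHom.IsIntegral)
    (w : Place K F') : 0 < w.ramificationIndexAlong φ := by
  letI := algebraAlong φ
  haveI := isScalarTower_along φ
  haveI := isIntegral_along φ hφ
  exact w.ramificationIndex_pos (F := F)

/-- Values transfer along an embedding of function fields. -/
theorem hasVal_map_iff602 (φ : F →ₐ[K] F') (hφ : φ.toRingHom.IsIntegral) (w : Place K F')
    (f : F) (c : K) : HasVal w (φ f) c ↔ HasVal (w.restrictAlong φ hφ) f c := by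
  have hsub : φ f - algebraMap K F' c = φ (f - algebraMap K F c) := by
    rw [map_sub, AlgHom.commutes]
  have hord := Place.ord_restrictAlong φ hφ w (f - algebraMap K F c)
  have he := ramificationIndexAlong_pos602 φ hφ w
  have he' : (0 : ℤ) < (w.ramificationIndexAlong φ : ℤ) := by exact_mod_cast he
  unfold HasVal
  rw [hsub, hord]
  constructor
  · rintro (h | h)
    · left
      exact (map_eq_zero φ).mp h
    · right
      exact (mul_pos_iff_of_pos_left he').mp h
  · rintro (h | h)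
    · left
      rw [h, map_zero]
    · right
      exact mul_pos he' h

end Transfer

section Main

variable {K F₀ F k Fk : Type*} [Field K] [Field F₀] [Field F] [Algebra K F₀] [Algebra K F]
  [Field k] [Field Fk] [Algebra k Fk]
variable {Φ : RedCore K F k Fk} (X : InfCoord Φ) [HasPrincipalDivisors K F]

/-- The type of a place near the cusps: the residue of the value of `u` satisfies `T`. -/
def HasType602 (u : Φ.O) (T : k → Prop) (W : Place K F) : Prop :=
  ∃ (β : K) (hβ : β ∈ Φ.A), HasVal W (u : F) β ∧ T (Φ.res ⟨β, hβ⟩)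

theorem HasType602.not_of_not {u : Φ.O} {T : k → Prop} {W : Place K F}
    (h : HasType602 u (fun c => ¬ T c) W) : ¬ HasType602 u T W := by
  rintro ⟨β, hβ, hv, hT⟩
  obtain ⟨β', hβ', hv', hT'⟩ := h
  have := hv.unique hv'
  subst this
  exact hT' hT

/-- **IDENT, abstract form.** -/
theorem mapDomain_pullback_eq602
    (hdeg1 : ∀ v : Place K F, v.deg = 1) (hr : ∀ P, (Φ.r P).deg = P.deg)
    (ι : F₀ →ₐ[K] F) (hι : ι.toRingHom.IsIntegral) (hFI : FundamentalIdentityAlong K ι hι)
    {u : Φ.O} (hu : ∀ P : Place K F, P.ord (u : F) < 0 → P.ord (X.x : F) < 0)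
    (z : Φ.O) (hz : Φ.ρ z = 1) (T : k → Prop)
    (P Pc : Place K F₀) (hPdeg : P.deg = Pc.deg)
    (h1 : ∀ W : Place K F, W.ord (z : F) ≠ 0 → NearCusp602 X W)
    (h2 : ∀ W : Place K F, W.restrictAlong ι hι = Pc →
      W.ord (z : F) = -(W.ramificationIndexAlong ι : ℤ) ∧ HasType602 u T W)
    (h3 : ∀ W : Place K F, W.ord (z : F) < 0 → W.restrictAlong ι hι ≠ Pc →
      HasType602 u (fun c => ¬ T c) W)
    (h4 : ∀ W : Place K F, W.restrictAlong ι hι = P →
      (W.ramificationIndexAlong ι : ℤ) ≤ W.ord (z : F) ∧ HasType602 u T W) :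
    Finsupp.mapDomain Φ.r (Divisor.pullbackAlong ι hι (Finsupp.single P 1)) =
      Finsupp.mapDomain Φ.r (Divisor.pullbackAlong ι hι (Finsupp.single Pc 1)) := by
  classical
  have hz0 : Φ.ρ z ≠ 0 := by rw [hz]; exact one_ne_zero
  have hzne : (z : F) ≠ 0 := Φ.coe_ne_zero hz0
  obtain ⟨D, hD, -⟩ := HasPrincipalDivisors.exists_divisor (K := K) (z : F) hzne
  have hDr : Finsupp.mapDomain Φ.r D = 0 := by
    ext Q
    rw [Φ.red z hz0 D hD Q, hz, Q.ord_one, Finsupp.zero_apply]
  have he : ∀ W : Place K F, (0 : ℤ) < (W.ramificationIndexAlong ι : ℤ) := fun W => by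
    exact_mod_cast ramificationIndexAlong_pos602 ι hι W
  refine mapDomain_eq_of_parts602 Φ.r (fun v => (v.deg : ℤ))
    (fun v => by rw [hdeg1 v]; norm_num) ?_ D hDr
    (fun W => NearCusp602 X W ∧ HasType602 u T W) ?_ _ _ ?_ ?_ ?_
  · -- `r_*` detects the degree
    intro E hE
    have := wdeg602_mapDomain' Φ.r (fun v : Place K F => (v.deg : ℤ))
      (fun v : Place k Fk => (v.deg : ℤ)) (fun a => by rw [hr a]) E
    rw [← this, hE, map_zero]
  · -- saturation
    rintro W W' hW hW' hrW ⟨hnc, β, hβ, hv, hT⟩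
    rw [hD] at hW hW'
    have hnc' := h1 W' hW'
    refine ⟨hnc', ?_⟩
    have hreg := ord_nonneg_of_nearCusp602 X hu hnc'
    obtain ⟨β', hv'⟩ := exists_hasVal W' (hdeg1 W') hreg
    obtain ⟨hb, hb', hres⟩ := res_eq_of_r_eq602 X hu hnc hnc' hrW hv hv'
    exact ⟨β', hb', hv', by rw [← hres]; exact hT⟩
  · -- `E₀`
    intro W
    rw [Divisor.pullbackAlong_apply, hD]
    constructor
    · rintro ⟨-, hS⟩ hneg
      by_cases hWc : W.restrictAlong ι hι = Pc
      · rw [hWc, Finsupp.single_eq_same, (h2 W hWc).1]; ring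
      · exact absurd hS (h3 W hneg hWc).not_of_not
    · intro hnot
      by_cases hWc : W.restrictAlong ι hι = Pc
      · exfalso
        obtain ⟨h21, h22⟩ := h2 W hWc
        have hlt : W.ord (z : F) < 0 := by have := he W; omega
        exact hnot ⟨⟨h1 W hlt.ne, h22⟩, hlt⟩
      · rw [Finsupp.single_eq_of_ne hWc, mul_zero]
  · -- `E₁`
    intro W
    rw [Divisor.pullbackAlong_apply, hD]
    by_cases hWP : W.restrictAlong ι hι = P
    · rw [hWP, Finsupp.single_eq_same, mul_one]
      obtain ⟨h41, h42⟩ := h4 W hWP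
      have hpos := he W
      exact ⟨hpos.le, fun _ => ⟨⟨h1 W (by omega), h42⟩, h41⟩⟩
    · rw [Finsupp.single_eq_of_ne hWP, mul_zero]
      exact ⟨le_rfl, fun h => absurd rfl h⟩
  · -- degrees
    rw [← degree_eq_wdeg602', ← degree_eq_wdeg602', Divisor.degree_pullbackAlong ι hι hFI,
      Divisor.degree_pullbackAlong ι hι hFI, Divisor.degree_single, Divisor.degree_single, hPdeg]

end Main

end Fermat.Agent.S15.H602

end

end
-- ===== PACK-END S15/H602/IdentAbs.lean

-- ===== PACK-BEGIN S15/H602/Disjoint.lean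
section



/-!
# Relations over `L` between rational `q`-series come from relations over `ℚ`
(helper602, row S15, piece MOD-A1, part 1)

`L/ℚ` a field, `x₀ y₀ ∈ ℚ((q))`.  If `G ∈ L[X][Y]` satisfies `G(x₀, y₀) = 0` in `L((q))` then `G`
is an `L`-linear combination of polynomials `G_i ∈ ℚ[X][Y]` with `G_i(x₀, y₀) = 0` in `ℚ((q))`
(linear disjointness of `ℚ((q))` and `L` over `ℚ` inside `L((q))`).  Consequently:

* `ev0_eq_zero_of_rational` : if every relation over `ℚ` vanishes at `(a, a') ∈ L²`, so does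
  every relation over `L`.
-/

set_option autoImplicit false

noncomputable section

namespace Fermat.Agent.S15.H602

open Polynomial ModularCurve

section Ext

variable {K S : Type*} [Field K] [Semiring S]

/-- Extensionality for ring homomorphisms out of `K[X][Y]`. -/
theorem ringHom_ext₂ {f g : K[X][X] →+* S} (hCC : ∀ c : K, f (C (C c)) = g (C (C c)))
    (hCX : f (C X) = g (C X)) (hY : f X = g X) : f = g := by
  refine Polynomial.ringHom_ext (fun p => ?_) hY
  have : f.comp C = g.comp C := Polynomial.ringHom_ext hCC hCX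
  exact congrArg (fun h : K[X] →+* S => h p) this

end Ext

variable {L : Type*} [Field L] [Algebra ℚ L]

/-- base change `ℚ[X][Y] → L[X][Y]` -/
def bc (L : Type*) [Field L] [Algebra ℚ L] : ℚ[X][X] →+* L[X][X] :=
  mapRingHom (mapRingHom (algebraMap ℚ L))

@[simp] theorem bc_C_C (r : ℚ) : bc L (C (C r)) = C (C (algebraMap ℚ L r)) := by simp [bc]

@[simp] theorem bc_C_X : bc L (C X) = C X := by simp [bc]

@[simp] theorem bc_X : bc L (X : ℚ[X][X]) = X := by simp [bc]

theorem bc_monomial_monomial (n m : ℕ) (r : ℚ) :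
    bc L (monomial n (monomial m r)) = monomial n (monomial m (algebraMap ℚ L r)) := by
  simp [bc]

/-- `G(x₀, y₀)` commutes with base change of the coefficients. -/
theorem ev_bc (x₀ y₀ : LaurentSeries ℚ) (G₀ : ℚ[X][X]) :
    ev (K := L) (coeffEmb L x₀) (coeffEmb L y₀) (bc L G₀) = coeffEmb L (ev (K := ℚ) x₀ y₀ G₀) := by
  have h : (ev (K := L) (coeffEmb L x₀) (coeffEmb L y₀)).comp (bc L) =
      (coeffEmb L).comp (ev (K := ℚ) x₀ y₀) := by
    refine ringHom_ext₂ (fun c => ?_) ?_ ?_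
    · simp only [RingHom.comp_apply, bc_C_C, ev_C, aeval_C]
      rw [algebraMap_laurentSeries_eq_single, algebraMap_laurentSeries_eq_single]
      rw [coeffEmb, coeffMap_single]
    · simp
    · simp
  exact congrArg (fun f : ℚ[X][X] →+* LaurentSeries L => f G₀) h

/-- `G(a, a')` of a base-changed polynomial, through `ev0`. -/
theorem ev0_bc_eq (a a' : L) (G₀ : ℚ[X][X]) :
    ev0 a a' (bc L G₀) =
      eval₂ ((aeval a : ℚ[X] →ₐ[ℚ] L) : ℚ[X] →+* L) a' G₀ := by
  have h : (ev0 a a').comp (bc L) =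
      eval₂RingHom ((aeval a : ℚ[X] →ₐ[ℚ] L) : ℚ[X] →+* L) a' := by
    refine ringHom_ext₂ (fun c => ?_) ?_ ?_
    · simp
    · simp
    · simp
  exact congrArg (fun f : ℚ[X][X] →+* L => f G₀) h

/-- Every `G ∈ L[X][Y]` is a combination `∑ b_i · G_i` with `G_i ∈ ℚ[X][Y]`, for any basis `b` of
`L` over `ℚ`. -/
theorem exists_decomp_basis {ι : Type*} (b : Module.Basis ι ℚ L) (G : L[X][X]) :
    ∃ D : ι →₀ ℚ[X][X], G = D.sum fun i g => C (C (b i)) * bc L g := by
  classical
  induction G using Polynomial.induction_on' with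
  | add p q hp hq =>
    obtain ⟨Dp, hDp⟩ := hp
    obtain ⟨Dq, hDq⟩ := hq
    refine ⟨Dp + Dq, ?_⟩
    rw [Finsupp.sum_add_index' (fun i => by simp) (fun i g₁ g₂ => by rw [map_add, mul_add]),
      ← hDp, ← hDq]
  | monomial n g =>
    induction g using Polynomial.induction_on' with
    | add p q hp hq =>
      obtain ⟨Dp, hDp⟩ := hp
      obtain ⟨Dq, hDq⟩ := hq
      refine ⟨Dp + Dq, ?_⟩
      rw [Finsupp.sum_add_index' (fun i => by simp) (fun i g₁ g₂ => by rw [map_add, mul_add]),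
        ← hDp, ← hDq, map_add]
    | monomial m c =>
      refine ⟨(b.repr c).mapRange (fun r => monomial n (monomial m r)) (by simp), ?_⟩
      rw [Finsupp.sum_mapRange_index (fun i => by simp)]
      have hc : c = (b.repr c).sum fun i r => r • b i := (b.linearCombination_repr c).symm
      conv_lhs => rw [hc]
      rw [Finsupp.sum, Finsupp.sum]
      simp only [map_sum]
      refine Finset.sum_congr rfl fun i _ => ?_
      rw [bc_monomial_monomial, C_mul_monomial, C_mul_monomial, Algebra.smul_def, mul_comm]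

/-- The coefficients of `(∑ b_i · G_i)(x₀, y₀)`. -/
theorem coeff_ev_sum {ι : Type*} (b : ι → L) (D : ι →₀ ℚ[X][X]) (x₀ y₀ : LaurentSeries ℚ)
    (k : ℤ) :
    (ev (K := L) (coeffEmb L x₀) (coeffEmb L y₀)
      (D.sum fun i g => C (C (b i)) * bc L g)).coeff k =
      D.sum fun i g => ((ev (K := ℚ) x₀ y₀ g).coeff k) • b i := by
  rw [Finsupp.sum, Finsupp.sum, map_sum, HahnSeries.coeff_sum]
  refine Finset.sum_congr rfl fun i _ => ?_
  rw [map_mul, ev_bc, ev_C, aeval_C, algebraMap_laurentSeries_eq_single,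
    HahnSeries.coeff_single_mul, sub_zero, coeffEmb_coeff, Algebra.smul_def, mul_comm]

/-- **Linear disjointness.**  If every relation over `ℚ` between the rational `q`-series `x₀`, `y₀`
vanishes at `(a, a') ∈ L²`, then so does every relation over `L` between `x₀`, `y₀` (viewed in
`L((q))`). -/
theorem ev0_eq_zero_of_rational (x₀ y₀ : LaurentSeries ℚ) (a a' : L)
    (h₀ : ∀ G₀ : ℚ[X][X], ev (K := ℚ) x₀ y₀ G₀ = 0 → ev0 a a' (bc L G₀) = 0)
    (G : L[X][X]) (hG : ev (K := L) (coeffEmb L x₀) (coeffEmb L y₀) G = 0) :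
    ev0 a a' G = 0 := by
  classical
  set b := Module.Free.chooseBasis ℚ L with hb
  obtain ⟨D, hD⟩ := exists_decomp_basis b G
  have hzero : ∀ i ∈ D.support, ev (K := ℚ) x₀ y₀ (D i) = 0 := by
    intro i hi
    ext k
    have h1 := congrArg (fun f : LaurentSeries L => f.coeff k) hG
    simp only [HahnSeries.coeff_zero] at h1
    rw [hD, coeff_ev_sum] at h1
    have hli := b.linearIndependent
    rw [linearIndependent_iff'] at hli
    have := hli D.support (fun i => (ev (K := ℚ) x₀ y₀ (D i)).coeff k) h1 i hi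
    rw [HahnSeries.coeff_zero]
    exact this
  rw [hD, Finsupp.sum, map_sum]
  refine Finset.sum_eq_zero fun i hi => ?_
  rw [map_mul, h₀ (D i) (hzero i hi), mul_zero]

end Fermat.Agent.S15.H602

end
end
-- ===== PACK-END S15/H602/Disjoint.lean

-- ===== PACK-BEGIN S15/H602/PlaceGalois.lean
section



/-!
# Galois-fixed places of `ℚ̄(X₀(N))` over rational simple points
(helper602, row S15, piece FFu)

Specialisation of `PlaceOfPoint.lean` to `F = laurentBaseChange L F₀` (`L/ℚ` any field, e.g.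
`ℚ̄`; `F₀ ⊆ ℚ((q))`; in particular `F = modularFunctionFieldBar N`) with the coefficientwise
Galois action `arithmeticGalois F₀ σ`:

* `arithmeticGalois_smul_eq_self` : elements of `F` with rational `q`-expansion are fixed;
* `galois_smul_eq_of_isCentredAt` : the place centred at a simple point `(a, b)`, `a b ∈ ℚ`, of
  the plane model with coordinates `x, y` having rational `q`-expansions is Galois-fixed.
-/

set_option autoImplicit false

noncomputable section

namespace Fermat.Agent.S15.H602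

open Polynomial AlgebraicCurve ModularCurve HahnSeries

variable {L : Type*} [Field L] [Algebra ℚ L] (F₀ : IntermediateField ℚ (LaurentSeries ℚ))

/-- An element of `F` whose `q`-expansion has rational coefficients is fixed by the arithmetic
Galois action. -/
theorem arithmeticGalois_smul_eq_self (σ : L ≃ₐ[ℚ] L) (x : laurentBaseChange L F₀)
    (x₀ : LaurentSeries ℚ) (hx : (x : LaurentSeries L) = coeffMap (algebraMap ℚ L) x₀) :
    arithmeticGalois F₀ σ • x = x := by
  apply Subtype.ext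
  rw [coe_arithmeticGalois_smul, hx, coeffMap_coeffMap]
  exact coeffMap_congr (RingHom.ext fun c => by simp) x₀

/-- **Galois-fixedness of the moduli place.**  Let `x, y ∈ F` have rational `q`-expansions,
`F = L(x, y)`, and let `(a, b) ∈ ℚ²` be a simple point of a relation `Ψ(x, y) = 0`.  Then the
place of `F` centred at `(a, b)` is fixed by `arithmeticGalois F₀ σ` for every `σ`. -/
theorem galois_smul_eq_of_isCentredAt {x y : laurentBaseChange L F₀}
    {x₀ y₀ : LaurentSeries ℚ}
    (hx : (x : LaurentSeries L) = coeffMap (algebraMap ℚ L) x₀)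
    (hy : (y : LaurentSeries L) = coeffMap (algebraMap ℚ L) y₀)
    {a b : ℚ} {Ψ : L[X][X]}
    (hΨ : IsSimplePoint x y (algebraMap ℚ L a) (algebraMap ℚ L b) Ψ)
    (hgen : ∀ f : laurentBaseChange L F₀,
      ∃ G H : L[X][X], ev x y H ≠ 0 ∧ f * ev x y H = ev x y G)
    {P : Place L (laurentBaseChange L F₀)}
    (h : IsCentredAt P x y (algebraMap ℚ L a) (algebraMap ℚ L b)) (σ : L ≃ₐ[ℚ] L) :
    arithmeticGalois F₀ σ • P = P :=
  h.smul_eq hΨ hgen (arithmeticGalois F₀ σ)
    (arithmeticGalois_smul_eq_self F₀ σ x x₀ hx)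
    (arithmeticGalois_smul_eq_self F₀ σ y y₀ hy)
    (by simp) (by simp)

/-! ## The class of a difference of two places -/

section PtClass

variable {K F : Type*} [Field K] [Field F] [Algebra K F]

/-- the divisor `P - P'` has degree `0` when `deg P = deg P'` -/
theorem single_sub_single_mem_degZero {P P' : Place K F} (hdeg : P.deg = P'.deg) :
    (Finsupp.single P 1 - Finsupp.single P' 1 : Divisor K F) ∈
      Divisor.degZero (K := K) (F := F) := by
  rw [Divisor.mem_degZero, map_sub, Divisor.degree_single, Divisor.degree_single, hdeg, sub_self]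

/-- the class `cl(P - P') ∈ Pic⁰` of two places of the same degree -/
def ptClass (P P' : Place K F) (hdeg : P.deg = P'.deg) : Pic0 K F :=
  Pic0.mk ⟨Finsupp.single P 1 - Finsupp.single P' 1, single_sub_single_mem_degZero hdeg⟩

theorem smul_ptClass (g : SemilinearAut K F) (P P' : Place K F) (hdeg : P.deg = P'.deg) :
    g • ptClass P P' hdeg = ptClass (g • P) (g • P')
      (by rw [SemilinearAut.deg_smul, SemilinearAut.deg_smul, hdeg]) := by
  unfold ptClass
  rw [SemilinearAut.pic0_smul_mk]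
  refine congrArg Pic0.mk (Subtype.ext ?_)
  rw [SemilinearAut.coe_degZeroSMulHom]
  show g • (Finsupp.single P 1 - Finsupp.single P' 1 : Divisor K F) = _
  rw [smul_sub, SemilinearAut.smul_single, SemilinearAut.smul_single]

theorem smul_ptClass_eq_self (g : SemilinearAut K F) {P P' : Place K F} (hdeg : P.deg = P'.deg)
    (hP : g • P = P) (hP' : g • P' = P') : g • ptClass P P' hdeg = ptClass P P' hdeg := by
  rw [smul_ptClass]
  congr 1

end PtClass

/-- the class `cl(P - P')` of two Galois-fixed places is Galois-fixed -/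
theorem galois_smul_ptClass_eq_self (σ : L ≃ₐ[ℚ] L) {P P' : Place L (laurentBaseChange L F₀)}
    (hdeg : P.deg = P'.deg) (hP : arithmeticGalois F₀ σ • P = P)
    (hP' : arithmeticGalois F₀ σ • P' = P') :
    σ • ptClass P P' hdeg = ptClass P P' hdeg := by
  rw [galois_smul_pic0_def]
  exact smul_ptClass_eq_self _ hdeg hP hP'

end Fermat.Agent.S15.H602

end
end
-- ===== PACK-END S15/H602/PlaceGalois.lean

-- ===== PACK-BEGIN S15/H322/BaseKum.lean
section





/-!
# Row S15 — DESC leaf BASE, part 3 (helper322): the Kummer dictionary and the Kummer count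

Blueprint `coord/S15-DESC-blueprint.md` §2, pieces `ψ_i = ω` (and `r = 2`).

`A` a valuation subring of `ℚ̄` over the prime `ℓ`, `I_A` its inertia group (Prelude form).

* `valuation_ratCast_eq`          : `v_A(a) = v_A(ℓ) ^ v_ℓ(a)` for `a ∈ ℚˣ`.
* `dvd_padicValRat_of_fixed`      : **dictionary.**  `y ^ r = a ∈ ℚˣ`, `y` fixed by `I_A`
                                    ⟹ `r ∣ v_ℓ(a)`.
* `dvd_padicValRat_of_kummer`     : the same for a Kummer generator `β` (`β ^ r = a`) whose Kummer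
                                    cocycle `σ ↦ σ β / β` is a coboundary on `I_A`:
                                    `σ β · ξ = β · σ ξ`, `ξ ^ r = 1`.
* `kummer_dichotomy_odd`          : **count, `r` odd.**  `β₁ ^ r = a₁`, `β₂ ^ r = a₂` with
                                    `r ∣ v_ℓ(a_i)` for all `ℓ ≠ p`:  `β₁ ∈ μ_r · ℚˣ`  or
                                    `β₂ ∈ μ_r · β₁ ^ m · ℚˣ`.
* `kummer_trivial_odd`, `kummer_trivial_two` : all valuations divisible by `r` (and `a > 0` if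
                                    `r = 2`): `β ∈ μ_r · ℚˣ`.
* `pos_of_complexConjugation_fixed`, `pos_of_complexConjugation_kummer` : **dictionary at the real
                                    place** (`r = 2`): `β` fixed by complex conjugation ⟹ `a > 0`.
-/

set_option autoImplicit false

namespace Fermat.Agent.S15.H322

/-- `ℚ̄` (local abbreviation). -/
local notation "Qb" => AlgebraicClosure ℚ

/-- `Gal(ℚ̄/ℚ)` (local abbreviation). -/
local notation "GQ" => (AlgebraicClosure ℚ ≃ₐ[ℚ] AlgebraicClosure ℚ)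

section Val

variable (A : ValuationSubring Qb) {ℓ : ℕ}

theorem valuation_prime_ne_zero (hℓ : ℓ.Prime) : A.valuation (ℓ : Qb) ≠ 0 :=
  (Valuation.ne_zero_iff _).mpr (Nat.cast_ne_zero.mpr hℓ.ne_zero)

theorem valuation_prime_lt_one (hA : A.LiesOverPrime ℓ) : A.valuation (ℓ : Qb) < 1 :=
  A.mem_nonunits_iff.mp hA

theorem valuation_natCast_eq (hℓ : ℓ.Prime) (hA : A.LiesOverPrime ℓ) {n : ℕ} (hn : n ≠ 0) :
    A.valuation (n : Qb) = A.valuation (ℓ : Qb) ^ padicValNat ℓ n := by
  have : Fact ℓ.Prime := ⟨hℓ⟩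
  obtain ⟨e, n', hn', rfl⟩ := Nat.exists_eq_pow_mul_and_not_dvd hn ℓ hℓ.ne_one
  have hn'0 : n' ≠ 0 := fun h => hn' (h ▸ dvd_zero ℓ)
  have hc : Nat.Coprime n' ℓ := ((Nat.Prime.coprime_iff_not_dvd hℓ).mpr hn').symm
  rw [padicValNat.mul (pow_ne_zero _ hℓ.ne_zero) hn'0, padicValNat.prime_pow,
    padicValNat.eq_zero_of_not_dvd hn', add_zero, Nat.cast_mul, Nat.cast_pow, map_mul, map_pow,
    Fermat.Agent.S56.H186.valuation_natCast_eq_one_of_coprime A hA hc, mul_one]

theorem valuation_intCast_eq (hℓ : ℓ.Prime) (hA : A.LiesOverPrime ℓ) {n : ℤ} (hn : n ≠ 0) :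
    A.valuation (n : Qb) = A.valuation (ℓ : Qb) ^ padicValInt ℓ n := by
  have h := valuation_natCast_eq A hℓ hA (Int.natAbs_ne_zero.mpr hn)
  rw [padicValInt, ← h]
  rcases Int.natAbs_eq n with h' | h'
  · conv_lhs => rw [h']
    simp
  · conv_lhs => rw [h']
    simp

/-- The valuation of a nonzero rational number at a place over `ℓ`. -/
theorem valuation_ratCast_eq (hℓ : ℓ.Prime) (hA : A.LiesOverPrime ℓ) {a : ℚ} (ha : a ≠ 0) :
    A.valuation (a : Qb) = A.valuation (ℓ : Qb) ^ padicValRat ℓ a := by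
  have hq0 := valuation_prime_ne_zero A hℓ
  rw [Rat.cast_def, map_div₀, valuation_intCast_eq A hℓ hA (Rat.num_ne_zero.mpr ha),
    valuation_natCast_eq A hℓ hA a.den_ne_zero, padicValRat_def, zpow_sub₀ hq0, zpow_natCast,
    zpow_natCast]

/-- **Dictionary.**  If `y ^ r = a ∈ ℚˣ` and `y` is fixed by the inertia group at a place over
`ℓ`, then `r ∣ v_ℓ(a)`. -/
theorem dvd_padicValRat_of_fixed (hℓ : ℓ.Prime) (hA : A.LiesOverPrime ℓ) {r : ℕ} {a : ℚ}
    (ha : a ≠ 0) {y : Qb} (hy : y ^ r = (a : Qb))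
    (hfix : ∀ σ ∈ A.inertiaSubgroupIn ℚ, σ y = y) : (r : ℤ) ∣ padicValRat ℓ a := by
  have hq0 := valuation_prime_ne_zero A hℓ
  have hq1 := valuation_prime_lt_one A hA
  by_cases hy0 : y = 0
  · -- then `r = 0` and `a = 1`
    rcases Nat.eq_zero_or_pos r with hr | hr
    · subst hr
      rw [pow_zero] at hy
      have : a = 1 := by exact_mod_cast hy.symm
      rw [this, padicValRat.one]
      exact dvd_zero _
    · exfalso
      rw [hy0, zero_pow hr.ne'] at hy
      exact ha (by exact_mod_cast hy.symm)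
  · obtain ⟨k, hk⟩ := Fermat.Agent.A2.IF.H429.exists_zpow_of_mem_inertiaField A ℓ hℓ hA y
      ((Fermat.Agent.A2.IF.H429.mem_inertiaField_iff A).mpr hfix) hy0
    have hvy : A.valuation y = A.valuation (ℓ : Qb) ^ k := by
      rw [map_div₀, map_zpow₀, div_eq_one_iff_eq (zpow_ne_zero _ hq0)] at hk
      exact hk
    have h1 : A.valuation (a : Qb) = A.valuation (ℓ : Qb) ^ (k * r) := by
      rw [← hy, map_pow, hvy, zpow_mul, zpow_natCast]
    rw [valuation_ratCast_eq A hℓ hA ha] at h1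
    have := zpow_right_injective₀ (zero_lt_iff.mpr hq0) hq1.ne h1
    exact ⟨k, by rw [this, mul_comm]⟩

/-- **Dictionary, Kummer form.**  `β ^ r = a ∈ ℚˣ`, and the Kummer cocycle `σ ↦ σ β / β` is, on
the inertia group at a place over `ℓ`, the coboundary of an `r`-th root of unity `ξ`.  Then
`r ∣ v_ℓ(a)`. -/
theorem dvd_padicValRat_of_kummer (hℓ : ℓ.Prime) (hA : A.LiesOverPrime ℓ) {r : ℕ} {a : ℚ}
    (ha : a ≠ 0) {β ξ : Qb} (hβ : β ^ r = (a : Qb)) (hξ : ξ ^ r = 1)
    (hcob : ∀ σ ∈ A.inertiaSubgroupIn ℚ, σ β * ξ = β * σ ξ) : (r : ℤ) ∣ padicValRat ℓ a := by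
  by_cases hr : r = 0
  · subst hr
    rw [pow_zero] at hβ
    have : a = 1 := by exact_mod_cast hβ.symm
    rw [this, padicValRat.one]
    exact dvd_zero _
  have hξ0 : ξ ≠ 0 := fun h => by rw [h, zero_pow hr] at hξ; exact zero_ne_one hξ
  refine dvd_padicValRat_of_fixed A hℓ hA ha (y := β / ξ) ?_ ?_
  · rw [div_pow, hβ, hξ, div_one]
  · intro σ hσ
    have hσξ : σ ξ ≠ 0 := fun h => hξ0 ((map_eq_zero_iff σ σ.injective).mp h)
    rw [map_div₀, div_eq_div_iff hσξ hξ0]
    exact hcob σ hσ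

end Val

section Count

/-- An element of `ℚ̄` whose `r`-th power is an `r`-th power of a rational number `b ≠ 0` is a
root of unity times `b`. -/
theorem exists_root_mul_of_pow_eq {r : ℕ} {β : Qb} {b : ℚ} (hb : b ≠ 0)
    (h : β ^ r = ((b ^ r : ℚ) : Qb)) : ∃ ξ : Qb, ξ ^ r = 1 ∧ β = ξ * (b : Qb) := by
  have hb' : (b : Qb) ≠ 0 := by exact_mod_cast hb
  refine ⟨β / b, ?_, by rw [div_mul_cancel₀ _ hb']⟩
  rw [div_pow, h]
  push_cast
  exact div_self (pow_ne_zero _ hb')

/-- **Kummer classes unramified everywhere (`r` odd) are trivial.** -/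
theorem kummer_trivial_odd {r : ℕ} (hr : Odd r) {a : ℚ} (ha : a ≠ 0)
    {β : Qb} (hβ : β ^ r = (a : Qb))
    (h : ∀ ℓ : ℕ, ℓ.Prime → (r : ℤ) ∣ padicValRat ℓ a) :
    ∃ ξ : Qb, ξ ^ r = 1 ∧ ∃ b : ℚ, b ≠ 0 ∧ β = ξ * (b : Qb) := by
  obtain ⟨b, hb, e⟩ := rat_eq_pow_of_dvd_odd hr ha h
  obtain ⟨ξ, hξ, hβξ⟩ := exists_root_mul_of_pow_eq (β := β) hb (by rw [hβ, e])
  exact ⟨ξ, hξ, b, hb, hβξ⟩

/-- **Kummer classes for `r = 2`, unramified everywhere and positive, are trivial.** -/
theorem kummer_trivial_two {a : ℚ} (ha : 0 < a) {β : Qb} (hβ : β ^ 2 = (a : Qb))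
    (h : ∀ ℓ : ℕ, ℓ.Prime → (2 : ℤ) ∣ padicValRat ℓ a) :
    ∃ b : ℚ, b ≠ 0 ∧ (β = (b : Qb) ∨ β = -(b : Qb)) := by
  obtain ⟨b, hb, e⟩ := rat_eq_sq_of_dvd_of_pos ha h
  refine ⟨b, hb, ?_⟩
  have h1 : β ^ 2 = (b : Qb) ^ 2 := by rw [hβ, e]; push_cast; rfl
  exact sq_eq_sq_iff_eq_or_eq_neg.mp h1

/-- **Dictionary at the real place.**  If `β ^ 2 = a ∈ ℚˣ` and `β` is fixed by complex
conjugation, then `a > 0`. -/
theorem pos_of_complexConjugation_fixed {a : ℚ} (ha : a ≠ 0) {β : Qb}
    (hβ : β ^ 2 = (a : Qb)) (hfix : complexConjugation β = β) : 0 < a := by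
  have h1 := complexEmbedding_complexConjugation β
  rw [hfix] at h1
  have him : (complexEmbedding β).im = 0 := by
    have := congrArg Complex.im h1
    rw [Complex.conj_im] at this
    linarith
  have h2 : complexEmbedding (β ^ 2) = ((a : ℚ) : ℂ) := by
    rw [hβ]; exact map_ratCast complexEmbedding a
  rw [map_pow] at h2
  have h3 : ((a : ℚ) : ℝ) = (complexEmbedding β).re ^ 2 := by
    have := congrArg Complex.re h2
    rw [sq, Complex.mul_re, him, mul_zero, sub_zero] at this
    rw [sq, this]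
    exact (Complex.ratCast_re a).symm
  have h4 : (0 : ℝ) ≤ ((a : ℚ) : ℝ) := by rw [h3]; positivity
  have h5 : (0 : ℚ) ≤ a := by exact_mod_cast h4
  exact lt_of_le_of_ne h5 (Ne.symm ha)

/-- **Dictionary at the real place, Kummer form**: the Kummer cocycle of `β` (`β ^ 2 = a`) is a
coboundary on `⟨c⟩`, `c` = complex conjugation. -/
theorem pos_of_complexConjugation_kummer {a : ℚ} (ha : a ≠ 0) {β ξ : Qb}
    (hβ : β ^ 2 = (a : Qb)) (hξ : ξ ^ 2 = 1)
    (hcob : complexConjugation β * ξ = β * complexConjugation ξ) : 0 < a := by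
  have hξ' : ξ = 1 ∨ ξ = -1 := sq_eq_one_iff.mp hξ
  have hcξ : complexConjugation ξ = ξ := by
    rcases hξ' with h | h <;> rw [h] <;> simp
  have hξ0 : ξ ≠ 0 := by
    rcases hξ' with h | h <;> rw [h] <;> simp
  rw [hcξ] at hcob
  exact pos_of_complexConjugation_fixed ha hβ (mul_right_cancel₀ hξ0 hcob)

/-- **Kummer count, `r` an odd prime.**  Two Kummer generators whose `r`-th powers are rational
with all valuations away from `p` divisible by `r`: the first is trivial, or the second is a power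
of the first up to a trivial one. -/
theorem kummer_dichotomy_odd {r p : ℕ} (hp : p.Prime) (hr : r.Prime) (hr2 : r ≠ 2)
    {a₁ a₂ : ℚ} (ha₁ : a₁ ≠ 0) (ha₂ : a₂ ≠ 0) {β₁ β₂ : Qb}
    (hβ₁ : β₁ ^ r = (a₁ : Qb)) (hβ₂ : β₂ ^ r = (a₂ : Qb))
    (h₁ : ∀ ℓ : ℕ, ℓ.Prime → ℓ ≠ p → (r : ℤ) ∣ padicValRat ℓ a₁)
    (h₂ : ∀ ℓ : ℕ, ℓ.Prime → ℓ ≠ p → (r : ℤ) ∣ padicValRat ℓ a₂) :
    (∃ ξ : Qb, ξ ^ r = 1 ∧ ∃ b : ℚ, b ≠ 0 ∧ β₁ = ξ * (b : Qb)) ∨
      ∃ m : ℕ, m < r ∧ ∃ ξ : Qb, ξ ^ r = 1 ∧ ∃ b : ℚ, b ≠ 0 ∧ β₂ = ξ * (β₁ ^ m * (b : Qb)) := by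
  rcases rat_dichotomy_odd hp hr hr2 ha₁ ha₂ h₁ h₂ with ⟨b, hb, e⟩ | ⟨m, hm, b, hb, e⟩
  · left
    obtain ⟨ξ, hξ, hβξ⟩ := exists_root_mul_of_pow_eq (β := β₁) hb (by rw [hβ₁, e])
    exact ⟨ξ, hξ, b, hb, hβξ⟩
  · right
    have hb' : (b : Qb) ≠ 0 := by exact_mod_cast hb
    have hβ₁0 : β₁ ≠ 0 := by
      intro h0
      rw [h0, zero_pow hr.ne_zero] at hβ₁
      exact ha₁ (by exact_mod_cast hβ₁.symm)
    have hden : β₁ ^ m * (b : Qb) ≠ 0 := mul_ne_zero (pow_ne_zero _ hβ₁0) hb'
    refine ⟨m, hm, β₂ / (β₁ ^ m * (b : Qb)), ?_, b, hb, by rw [div_mul_cancel₀ _ hden]⟩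
    rw [div_pow, hβ₂, mul_pow, ← pow_mul, mul_comm m r, pow_mul, hβ₁, e]
    push_cast
    have hne : ((a₁ : Qb) ^ m * (b : Qb) ^ r) ≠ 0 :=
      mul_ne_zero (pow_ne_zero _ (by exact_mod_cast ha₁)) (pow_ne_zero _ hb')
    exact div_self hne

end Count

end Fermat.Agent.S15.H322

end
-- ===== PACK-END S15/H322/BaseKum.lean

-- ===== PACK-BEGIN S45/H404/Glue.lean
section










/-!
# S45 glue (helper404, row RIBET)

`S45` (a nonzero weight-2 cusp form on `Γ₀(2)` from a Frey package with irreducible mod-`p`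
representation) follows formally from the statements of `S06`, `S43`, `S44` taken as hypotheses,
and from the landed `S05` (the Frey representation is unramified outside `2p`) and `S08`
(no cusp forms of weight 2 and level 1).
-/

set_option autoImplicit false

open WeierstrassCurve WeierstrassCurve.Affine WeierstrassCurve.Affine.Point
open CuspForm ModularFormClass UpperHalfPlane

namespace Fermat.Agent.S45.H404

/-- The statement of `S06`. -/
def S06Statement : Prop :=
  ∀ P : FreyPackage, ∃ N : ℕ, P.IsConductorLevel N ∧ P.ModularRepOfLevel N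

/-- The statement of `S43`. -/
def S43Statement : Prop :=
  ∀ (P : FreyPackage) {N q : ℕ}, P.IsConductorLevel N → q.Prime → q ≠ 2 → q ≠ P.p → q ∣ N →
    GaloisRepIsIrreducible (K := AlgebraicClosure ℚ) ℚ P.freyCurve P.p →
    P.ModularRepOfLevel N → P.GaloisRepUnramifiedAt q →
    ∃ M : ℕ, M ∣ N ∧ ¬ q ∣ M ∧ P.ModularRepOfLevel M

/-- The statement of `S44`. -/
def S44Statement : Prop :=
  ∀ (P : FreyPackage) {N : ℕ}, P.IsConductorLevel N → P.p ∣ N →
    GaloisRepIsIrreducible (K := AlgebraicClosure ℚ) ℚ P.freyCurve P.p →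
    P.ModularRepOfLevel N →
    ∃ M : ℕ, M ∣ N ∧ ¬ P.p ∣ M ∧ P.ModularRepOfLevel M

/-- The statement of `S45`. -/
def S45Statement : Prop :=
  ∀ (P : FreyPackage), P.freyCurve.IsModular →
    GaloisRepIsIrreducible (K := AlgebraicClosure ℚ) ℚ P.freyCurve P.p →
    ∃ f : CuspForm (CongruenceSubgroup.Gamma0 2) 2, f ≠ 0

/-- Descent of the level to a divisor of `2`. -/
theorem exists_level_dvd_two (h43 : S43Statement) (h44 : S44Statement) (P : FreyPackage)
    (hirr : GaloisRepIsIrreducible (K := AlgebraicClosure ℚ) ℚ P.freyCurve P.p) :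
    ∀ N : ℕ, P.IsConductorLevel N → P.ModularRepOfLevel N →
      ∃ M : ℕ, M ∣ 2 ∧ P.ModularRepOfLevel M := by
  intro N
  induction N using Nat.strong_induction_on with
  | _ N ih =>
    intro hcond hmod
    by_cases hall : ∀ q : ℕ, q.Prime → q ∣ N → q = 2
    · -- `N` is squarefree with no odd prime factor
      refine ⟨N, ?_, hmod⟩
      have hN0 : N ≠ 0 := hcond.pos.ne'
      by_cases h2 : 2 ∣ N
      · obtain ⟨k, hk⟩ := h2
        have hk1 : k = 1 := by
          by_contra hk1
          obtain ⟨q, hq, hqk⟩ := Nat.exists_prime_and_dvd hk1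
          have hq2 : q = 2 := hall q hq (hk ▸ Dvd.dvd.mul_left hqk 2)
          subst hq2
          have h4 : 2 ^ 2 ∣ N := by
            obtain ⟨j, hj⟩ := hqk
            exact ⟨j, by rw [hk, hj]; ring⟩
          exact hcond.sq_not_dvd Nat.prime_two h4
        rw [hk, hk1]
      · have hN1 : N = 1 := by
          by_contra hN1
          obtain ⟨q, hq, hqN⟩ := Nat.exists_prime_and_dvd hN1
          exact h2 (hall q hq hqN ▸ hqN)
        rw [hN1]
        exact one_dvd 2
    · push Not at hall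
      obtain ⟨q, hq, hqN, hq2⟩ := hall
      have hstep : ∃ M : ℕ, M ∣ N ∧ ¬ q ∣ M ∧ P.ModularRepOfLevel M := by
        by_cases hqp : q = P.p
        · subst hqp
          exact h44 P hcond hqN hirr hmod
        · exact h43 P hcond hq hq2 hqp hqN hirr hmod (Fermat.Agent.S05.result P hq hq2 hqp)
      obtain ⟨M, hMN, hqM, hMmod⟩ := hstep
      have hMpos : 0 < M := Nat.pos_of_dvd_of_pos hMN hcond.pos
      have hMlt : M < N := by
        refine lt_of_le_of_ne (Nat.le_of_dvd hcond.pos hMN) ?_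
        rintro rfl
        exact hqM hqN
      exact ih M hMlt (hcond.of_dvd hMN hMpos) hMmod

/-- **S45 from S06, S43, S44.** -/
theorem s45_of (h06 : S06Statement) (h43 : S43Statement) (h44 : S44Statement) : S45Statement := by
  intro P _ hirr
  obtain ⟨N, hcond, hmod⟩ := h06 P
  obtain ⟨M, hM2, f, W, 𝔪, hf, -⟩ := exists_level_dvd_two h43 h44 P hirr N hcond hmod
  rcases (Nat.dvd_prime Nat.prime_two).mp hM2 with rfl | rfl
  · exact absurd (Fermat.Agent.S08.result f) hf.ne_zero
  · exact ⟨f, hf.ne_zero⟩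

end Fermat.Agent.S45.H404

end
-- ===== PACK-END S45/H404/Glue.lean

-- ===== PACK-BEGIN G2/H723/Model.lean
section




/-!
# Row GLUE, phase 2, block F, leaf C (cusp switch) -- the integral model  (helper723)

`W` semistable, multiplicative at `3` with `v₃(Δ) ≥ 30`.  Write `Δ = 3^a u`, `K = 10 u`,
choose `t` with `t c₄ ≡ c₆ mod 3³³` (so `c₄ ≡ t²`, `c₆ ≡ t³`), `m = 64 K 2^j` with
`m t ≡ 1 mod 9` and `n = 3 - m t`.  Then `C4h c₄ c₆ m n = 3²⁰ c₄''`, `C6h c₄ c₆ m n = 3³⁰ c₆''`
with `c₄'' ≡ c₄ mod 576 K`, `c₆'' ≡ c₆ mod 864 K`, and the model `W''` of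
`exists_model_congrMod` (landed, S52/B2) with invariants `(c₄'', c₆'')` is semistable with
`Δ'' = 3^(a+5) u g⁵`, `3 ∤ u g`.
-/

set_option autoImplicit false

namespace Fermat.Agent.G2.H723

open WeierstrassCurve Fermat.Agent.S52.Fam Fermat.Agent.S52.B Fermat.Agent.S52.B.B2.H352

theorem isCoprime_three_pow723 {x : ℤ} (hx : ¬ (3 : ℤ) ∣ x) (k : ℕ) :
    IsCoprime ((3 : ℤ) ^ k) x :=
  ((Int.prime_three.coprime_iff_not_dvd).2 hx).pow_left

/-- The parameter of the cusp: `c₄ ≡ t²`, `c₆ ≡ t³` modulo `3³³`. -/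
theorem exists_cusp_param723 (c₄ c₆ : ℤ) (hc : ¬ (3 : ℤ) ∣ c₄)
    (hD : (3 : ℤ) ^ 33 ∣ c₄ ^ 3 - c₆ ^ 2) :
    ∃ t : ℤ, ¬ (3 : ℤ) ∣ t ∧ (3 : ℤ) ^ 33 ∣ c₄ - t ^ 2 ∧ (3 : ℤ) ^ 33 ∣ c₆ - t ^ 3 := by
  obtain ⟨a, b, hab⟩ := isCoprime_three_pow723 hc 33
  have h1 : (3 : ℤ) ^ 33 ∣ (b * c₆) * c₄ - c₆ := ⟨-(a * c₆), by linear_combination c₆ * hab⟩
  have h2 : (3 : ℤ) ^ 33 ∣ c₄ ^ 2 * ((b * c₆) ^ 2 - c₄) := by
    have e : c₄ ^ 2 * ((b * c₆) ^ 2 - c₄) =
        ((b * c₆) * c₄ - c₆) * ((b * c₆) * c₄ + c₆) - (c₄ ^ 3 - c₆ ^ 2) := by ring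
    rw [e]
    exact dvd_sub (Dvd.dvd.mul_right h1 _) hD
  have h3 : (3 : ℤ) ^ 33 ∣ (b * c₆) ^ 2 - c₄ :=
    (isCoprime_three_pow723 hc 33).pow_right.dvd_of_dvd_mul_left h2
  have h4 : (3 : ℤ) ^ 33 ∣ c₄ - (b * c₆) ^ 2 := by
    rw [← dvd_neg, neg_sub]; exact h3
  have h6 : (3 : ℤ) ^ 33 ∣ c₆ - (b * c₆) ^ 3 := by
    have e : c₆ - (b * c₆) ^ 3 = -((b * c₆) * ((b * c₆) ^ 2 - c₄)) - ((b * c₆) * c₄ - c₆) := by
      ring
    rw [e]
    exact dvd_sub (dvd_neg.2 (Dvd.dvd.mul_left h3 _)) h1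
  refine ⟨b * c₆, ?_, h4, h6⟩
  intro h3t
  apply hc
  have h3' : (3 : ℤ) ∣ c₄ - (b * c₆) ^ 2 := Dvd.dvd.trans (dvd_pow_self 3 (by norm_num)) h4
  have h3'' : (3 : ℤ) ∣ (b * c₆) ^ 2 := dvd_pow h3t two_ne_zero
  have := dvd_add h3' h3''
  simpa using this

/-- `2` generates the units modulo `9`. -/
theorem exists_two_pow723 (a : ℤ) (ha : ¬ (3 : ℤ) ∣ a) : ∃ j : ℕ, (9 : ℤ) ∣ a * 2 ^ j - 1 := by
  have h : a % 9 = 1 ∨ a % 9 = 2 ∨ a % 9 = 4 ∨ a % 9 = 5 ∨ a % 9 = 7 ∨ a % 9 = 8 := by omega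
  rcases h with h | h | h | h | h | h
  · exact ⟨0, by norm_num; omega⟩
  · exact ⟨5, by norm_num; omega⟩
  · exact ⟨4, by norm_num; omega⟩
  · exact ⟨1, by norm_num; omega⟩
  · exact ⟨2, by norm_num; omega⟩
  · exact ⟨3, by norm_num; omega⟩

/-- The `3`-adic valuation of `3^k w`, `3 ∤ w`. -/
theorem padicValInt_three_pow_mul723 (k : ℕ) {w : ℤ} (hw : ¬ (3 : ℤ) ∣ w) :
    padicValInt 3 (3 ^ k * w) = k := by
  have hw0 : w ≠ 0 := by rintro rfl; exact hw (dvd_zero _)
  have hx0 : (3 : ℤ) ^ k * w ≠ 0 := mul_ne_zero (pow_ne_zero _ (by norm_num)) hw0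
  have h1 : k ≤ padicValInt 3 (3 ^ k * w) := by
    have := (padicValInt_dvd_iff (p := 3) k ((3 : ℤ) ^ k * w)).1 (by
      exact_mod_cast Dvd.intro w rfl)
    exact this.resolve_left hx0
  have h2 : ¬ (k + 1 ≤ padicValInt 3 (3 ^ k * w)) := by
    intro h
    have := (padicValInt_dvd_iff (p := 3) (k + 1) ((3 : ℤ) ^ k * w)).2 (Or.inr h)
    have h' : (3 : ℤ) ^ k * 3 ∣ 3 ^ k * w := by
      have e : ((3 : ℕ) : ℤ) ^ (k + 1) = (3 : ℤ) ^ k * 3 := by push_cast; ring
      rw [e] at this
      exact this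
    exact hw ((mul_dvd_mul_iff_left (pow_ne_zero k (by norm_num : (3 : ℤ) ≠ 0))).1 h')
  omega

/-- `x = 3^(v₃ x) u` with `3 ∤ u`. -/
theorem exists_eq_three_pow_mul723 {x : ℤ} (hx : x ≠ 0) :
    ∃ u : ℤ, ¬ (3 : ℤ) ∣ u ∧ x = 3 ^ (padicValInt 3 x) * u := by
  obtain ⟨u, hu⟩ := padicValInt_dvd (p := 3) x
  have hu' : x = (3 : ℤ) ^ (padicValInt 3 x) * u := by exact_mod_cast hu
  refine ⟨u, ?_, hu'⟩
  rintro ⟨w, rfl⟩
  have h : ((3 : ℕ) : ℤ) ^ (padicValInt 3 x + 1) ∣ x := by
    refine ⟨w, ?_⟩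
    push_cast
    rw [pow_succ]
    linear_combination hu'
  have := (padicValInt_dvd_iff (p := 3) _ x).1 h
  rcases this with h0 | h0
  · exact hx h0
  · omega

/-- **The cusp model.** -/
theorem exists_cusp_model723 (W : WeierstrassCurve ℤ) (hΔ : W.Δ ≠ 0) (hW : W.IsSemistableModel)
    (h3 : (3 : ℤ) ∣ W.Δ) (hv : 30 ≤ padicValInt 3 W.Δ) :
    ∃ (W'' : WeierstrassCurve ℤ) (m n : ℤ), W''.Δ ≠ 0 ∧ W''.IsSemistableModel ∧
      padicValInt 3 W''.Δ = padicValInt 3 W.Δ + 5 ∧
      3 ^ 20 * W''.c₄ = C4h W.c₄ W.c₆ m n ∧ 3 ^ 30 * W''.c₆ = C6h W.c₄ W.c₆ m n := by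
  have hc₄ : ¬ (3 : ℤ) ∣ W.c₄ := hW 3 Nat.prime_three (by exact_mod_cast h3)
  obtain ⟨u, hu, hΔu⟩ := exists_eq_three_pow_mul723 hΔ
  set a := padicValInt 3 W.Δ with ha
  have hu0 : u ≠ 0 := by rintro rfl; exact hu (dvd_zero _)
  -- `3³³ ∣ c₄³ - c₆²`
  have hD : (3 : ℤ) ^ 33 ∣ W.c₄ ^ 3 - W.c₆ ^ 2 := by
    rw [← W.c_relation, hΔu]
    obtain ⟨k, hk⟩ : ∃ k, a = 30 + k := ⟨a - 30, by omega⟩
    rw [hk]
    exact ⟨64 * 3 ^ k * u, by ring⟩
  obtain ⟨t, ht3, h4, h6⟩ := exists_cusp_param723 W.c₄ W.c₆ hc₄ hD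
  have p3 : Prime (3 : ℤ) := Int.prime_three
  have hKt : ¬ (3 : ℤ) ∣ 64 * (10 * u) * t := by
    intro h
    rcases p3.dvd_or_dvd h with h | h
    · rcases p3.dvd_or_dvd h with h | h
      · omega
      · rcases p3.dvd_or_dvd h with h | h
        · omega
        · exact hu h
    · exact ht3 h
  obtain ⟨j, hj⟩ := exists_two_pow723 _ hKt
  set K : ℤ := 10 * u with hK
  set m : ℤ := 64 * K * 2 ^ j with hm
  set n : ℤ := 3 - m * t with hn
  have hmt : (9 : ℤ) ∣ m * t - 1 := by
    have e : m * t - 1 = 64 * K * t * 2 ^ j - 1 := by rw [hm]; ring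
    rw [e]; exact hj
  have hn0 : n ≠ 0 := by
    obtain ⟨r, hr⟩ := hmt
    intro h0
    rw [hn] at h0
    omega
  obtain ⟨z4, hz4⟩ := C4h_three723 W.c₄ W.c₆ t m h4 h6
  obtain ⟨z6, hz6⟩ := C6h_three723 W.c₄ W.c₆ t m h4 h6
  obtain ⟨g, hg, hg3⟩ := Fkh_three723 W.c₄ W.c₆ t m h4 h6 hmt
  have e4 : C4h W.c₄ W.c₆ m n = 3 ^ 20 * (W.c₄ + 3 ^ 13 * z4) := by linear_combination hz4
  have e6 : C6h W.c₄ W.c₆ m n = 3 ^ 30 * (W.c₆ + 3 ^ 3 * z6) := by linear_combination hz6
  -- congruences modulo `m`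
  have hn3 : m ∣ n - 3 := ⟨-t, by rw [hn]; ring⟩
  have hm4 : m ∣ 3 ^ 20 * (3 ^ 13 * z4) := by
    have h1 := C4h_sub_dvd W.c₄ W.c₆ m n
    have h2 : m ∣ W.c₄ * (n ^ 20 - 3 ^ 20) :=
      Dvd.dvd.mul_left (hn3.trans (sub_dvd_pow_sub_pow n 3 20)) _
    have := dvd_add h1 h2
    have e : C4h W.c₄ W.c₆ m n - W.c₄ * n ^ 20 + W.c₄ * (n ^ 20 - 3 ^ 20) =
        3 ^ 20 * (3 ^ 13 * z4) := by rw [e4]; ring
    rwa [e] at this
  have hm6 : m ∣ 3 ^ 30 * (3 ^ 3 * z6) := by
    have h1 := C6h_sub_dvd W.c₄ W.c₆ m n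
    have h2 : m ∣ W.c₆ * (n ^ 30 - 3 ^ 30) :=
      Dvd.dvd.mul_left (hn3.trans (sub_dvd_pow_sub_pow n 3 30)) _
    have := dvd_add h1 h2
    have e : C6h W.c₄ W.c₆ m n - W.c₆ * n ^ 30 + W.c₆ * (n ^ 30 - 3 ^ 30) =
        3 ^ 30 * (3 ^ 3 * z6) := by rw [e6]; ring
    rwa [e] at this
  have hK64 : ¬ (3 : ℤ) ∣ 64 * K := by
    intro h
    rcases p3.dvd_or_dvd h with h | h
    · omega
    · rcases p3.dvd_or_dvd h with h | h
      · omega
      · exact hu h
  have hcopK : ∀ k : ℕ, IsCoprime (64 * K) ((3 : ℤ) ^ k) := fun k =>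
    (isCoprime_three_pow723 hK64 k).symm
  have h64m : 64 * K ∣ m := ⟨2 ^ j, by rw [hm]⟩
  have hK4 : 64 * K ∣ z4 := by
    have h := h64m.trans hm4
    have e : (3 : ℤ) ^ 20 * (3 ^ 13 * z4) = 3 ^ 33 * z4 := by ring
    rw [e] at h
    exact (hcopK 33).dvd_of_dvd_mul_left h
  have hK6 : 64 * K ∣ z6 := by
    have h := h64m.trans hm6
    have e : (3 : ℤ) ^ 30 * (3 ^ 3 * z6) = 3 ^ 33 * z6 := by ring
    rw [e] at h
    exact (hcopK 33).dvd_of_dvd_mul_left h
  have h576 : 576 * K ∣ (W.c₄ + 3 ^ 13 * z4) - W.c₄ := by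
    obtain ⟨y, hy⟩ := hK4
    exact ⟨3 ^ 11 * y, by rw [hy]; ring⟩
  have h864 : 864 * K ∣ (W.c₆ + 3 ^ 3 * z6) - W.c₆ := by
    obtain ⟨y, hy⟩ := hK6
    exact ⟨2 * y, by rw [hy]; ring⟩
  obtain ⟨W'', hcong, hc4'', hc6''⟩ := exists_model_congrMod W K _ _ h576 h864
  -- the discriminant
  have hsyz := syzygy_hom_int W.c₄ W.c₆ m n hn0
  have hΔ'' : W''.Δ = 3 ^ (a + 5) * (u * g ^ 5) := by
    have h1 := W''.c_relation
    have h2 := W.c_relation
    rw [hc4'', hc6''] at h1
    have e : ((1728 : ℤ) * 3 ^ 60) * W''.Δ = (1728 * 3 ^ 60) * (3 ^ (a + 5) * (u * g ^ 5)) := by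
      have e1 : ((1728 : ℤ) * 3 ^ 60) * W''.Δ =
          C4h W.c₄ W.c₆ m n ^ 3 - C6h W.c₄ W.c₆ m n ^ 2 := by
        rw [e4, e6]; linear_combination (3 : ℤ) ^ 60 * h1
      rw [e1, hsyz, ← h2, hg, hΔu, pow_add]
      ring
    exact mul_left_cancel₀ (by norm_num) e
  have hug : ¬ (3 : ℤ) ∣ u * g ^ 5 := by
    intro h
    rcases p3.dvd_or_dvd h with h | h
    · exact hu h
    · exact hg3 (p3.dvd_of_dvd_pow h)
  have hΔ''0 : W''.Δ ≠ 0 := by
    rw [hΔ'']
    refine mul_ne_zero (pow_ne_zero _ (by norm_num)) ?_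
    rintro h0
    exact hug (h0 ▸ dvd_zero _)
  refine ⟨W'', m, n, hΔ''0, ?_, ?_, ?_, ?_⟩
  · -- semistability
    refine hcong.isSemistableModel hW ?_
    intro ℓ hℓ hℓK hℓΔ''
    have hℓp : Prime (ℓ : ℤ) := Nat.prime_iff_prime_int.mp hℓ
    by_cases h3ℓ : ℓ = 3
    · subst h3ℓ
      rw [hc4'']
      intro h
      apply hc₄
      have h' : ((3 : ℕ) : ℤ) ∣ 3 ^ 13 * z4 := ⟨3 ^ 12 * z4, by push_cast; ring⟩
      have := dvd_sub h h'
      simpa using this
    · have h2 : ¬ (ℓ : ℤ) ∣ 2 := fun h => hℓK (h.trans ⟨5 * u, by rw [hK]; ring⟩)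
      have h5 : ¬ (ℓ : ℤ) ∣ 5 := fun h => hℓK (h.trans ⟨2 * u, by rw [hK]; ring⟩)
      have h3' : ¬ (ℓ : ℤ) ∣ 3 := by
        intro h
        have h' : ℓ ∣ 3 := by exact_mod_cast h
        exact h3ℓ ((Nat.prime_dvd_prime_iff_eq hℓ Nat.prime_three).1 h')
      have hu' : ¬ (ℓ : ℤ) ∣ u := fun h => hℓK (h.trans ⟨10, by rw [hK]; ring⟩)
      have hℓΔ : ¬ (ℓ : ℤ) ∣ W.Δ := by
        rw [hΔu]
        intro h
        rcases hℓp.dvd_or_dvd h with h | h
        · exact h3' (hℓp.dvd_of_dvd_pow h)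
        · exact hu' h
      have h1728 : ¬ (ℓ : ℤ) ∣ 1728 := by
        intro h
        have e : (1728 : ℤ) = 2 ^ 6 * 3 ^ 3 := by norm_num
        rw [e] at h
        rcases hℓp.dvd_or_dvd h with h | h
        · exact h2 (hℓp.dvd_of_dvd_pow h)
        · exact h3' (hℓp.dvd_of_dvd_pow h)
      have hdisc : ¬ (ℓ : ℤ) ∣ W.c₄ ^ 3 - W.c₆ ^ 2 := by
        rw [← W.c_relation]
        intro h
        rcases hℓp.dvd_or_dvd h with h | h
        · exact h1728 h
        · exact hℓΔ h
      have hℓm : ¬ (ℓ : ℤ) ∣ m := by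
        rw [hm]
        intro h
        rcases hℓp.dvd_or_dvd h with h | h
        · rcases hℓp.dvd_or_dvd h with h | h
          · have e : (64 : ℤ) = 2 ^ 6 := by norm_num
            rw [e] at h
            exact h2 (hℓp.dvd_of_dvd_pow h)
          · exact hℓK h
        · exact h2 (hℓp.dvd_of_dvd_pow h)
      have hF : (ℓ : ℤ) ∣ Fkh W.c₄ W.c₆ m n := by
        rw [hΔ''] at hℓΔ''
        rw [hg]
        rcases hℓp.dvd_or_dvd hℓΔ'' with h | h
        · exact absurd (hℓp.dvd_of_dvd_pow h) h3'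
        · rcases hℓp.dvd_or_dvd h with h | h
          · exact absurd h hu'
          · exact Dvd.dvd.mul_left (hℓp.dvd_of_dvd_pow h) _
      have hnd := not_dvd_C4h_of_dvd_Fkh W.c₄ W.c₆ m n hℓ h2 h3' h5 hdisc hℓm hF
      rw [hc4'']
      intro h
      apply hnd
      rw [e4]
      exact Dvd.dvd.mul_left h _
  · rw [hΔ'']
    exact padicValInt_three_pow_mul723 (a + 5) hug
  · rw [hc4'', e4]
  · rw [hc6'', e6]

end Fermat.Agent.G2.H723

end
-- ===== PACK-END G2/H723/Model.lean

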