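import Mathlib
import Fermat.Prelude.Def_AlgebraicCurve_DivisorPushPull
import Fermat.Agent.Pack.L1.E2L2
import Fermat.Agent.Pack.L1.E4L1
import Fermat.Agent.Pack.L1.E3L2
import Fermat.Agent.Pack.L1.E2L3
import Fermat.Agent.Pack.S44C.G0E22L1
import Fermat.Agent.Pack.L1.E4L3
import Fermat.Agent.Pack.S43MC.G0E20L1
import Fermat.Agent.Pack.S44C.G0E20L3
import Fermat.Agent.Pack.L1.E3L3
import Fermat.Agent.Pack.L1.E0L0
import Fermat.Agent.Pack.S44C.G0E19L2
import Fermat.Agent.Pack.S44C.G0E21L0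
import Fermat.Agent.Pack.L1.E4L2
import Fermat.Agent.Pack.S43GC.G0E15L1
import Fermat.Agent.Pack.S44C.G0E21L3
import Fermat.Agent.Pack.L1.E4L0

-- ===== PACK-BEGIN S52/B/B1/H170/Main.lean
section
/-
S52 / piece B1 (helper170): **`torsionMap : TorsionMap`** (frozen interface `B/Interfaces.lean`).

Assembly:
* line family over `ℚ[s]` joining `W` and `W'` (`Family.lean`);
* 5-torsion lifts by helper890's `exists_lift_of_identities` (Tate normal form, helper410) fed with
  the homogenised family identities (`HomTate.lean`, from helper952's `(I1)`, `(I2)`);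
* rigidity (`S52/H170/Five.lean`: `fiveCongruent_of_family_rat`; reduction at `s = 0` and `s = 1`
  of the function field `ℚ̄(s)`, landed `Lib.Red.goodReduction` + landed S05 C1).
The auxiliary prime `p₀` of the interface is not used.
-/







set_option autoImplicit false
set_option linter.unusedSimpArgs false

namespace Fermat.Agent.S52.B.B1.H170

open Polynomial WeierstrassCurve
open Fermat.Agent.S52.Fam Fermat.Agent.S52.B Fermat.Agent.S52.H170
open Fermat.Agent.S52.H890 (H5 T5)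
open Fermat.Agent.Lib.Frob (Qb Pts)

lemma H5_eq_C4hom {R : Type*} [CommRing R] (x z : R) : H5 x z = C4hom x z := by
  simp only [H5, C4hom]

lemma T5_eq_C6hom {R : Type*} [CommRing R] (x z : R) : T5 x z = C6hom x z := by
  simp only [T5, C6hom]

lemma H5_one {R : Type*} [CommRing R] (c : R) : H5 c 1 = tc4 c := by
  simp only [H5, tc4]; ring

lemma T5_one {R : Type*} [CommRing R] (c : R) : T5 c 1 = tc6 c := by
  simp only [T5, tc6]; ring

/-- the Tate numerator section of the line family. -/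
noncomputable def Nf (M n : Qb) (c u : Qb) : Qb[X] :=
  C c * q5h (C c) (C u ^ 2 * mP M) (nP n)

/-- the Tate denominator section of the line family. -/
noncomputable def Df (M n : Qb) (c u : Qb) : Qb[X] :=
  q5h' (C c) (C u ^ 2 * mP M) (nP n)

lemma Nf_eval_zero (M n c u : Qb) : (Nf M n c u).eval 0 = c := by
  have := map_q5h (Polynomial.evalRingHom (0 : Qb)) (C c) (C u ^ 2 * mP M) (nP n)
  simp only [Polynomial.coe_evalRingHom] at this
  rw [Nf, Polynomial.eval_mul, this]
  simp [q5h_zero_one]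

lemma Df_eval_zero (M n c u : Qb) : (Df M n c u).eval 0 = 1 := by
  have := map_q5h' (Polynomial.evalRingHom (0 : Qb)) (C c) (C u ^ 2 * mP M) (nP n)
  simp only [Polynomial.coe_evalRingHom] at this
  rw [Df, this]
  simp [q5h'_zero_one]

section

variable (d : LineData)

lemma famQb_c₄ : (famQb d.fam).c₄ =
    C4h (C (algebraMap ℚ Qb d.c₄)) (C (algebraMap ℚ Qb d.c₆)) (mP (algebraMap ℚ Qb d.M))
      (nP (algebraMap ℚ Qb d.n)) := by
  rw [famQb, WeierstrassCurve.map_c₄, LineData.fam_c₄, LineData.c4P, map_C4h]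
  simp only [Polynomial.coe_mapRingHom, Polynomial.map_C, map_mP, map_nP]

lemma famQb_c₆ : (famQb d.fam).c₆ =
    C6h (C (algebraMap ℚ Qb d.c₄)) (C (algebraMap ℚ Qb d.c₆)) (mP (algebraMap ℚ Qb d.M))
      (nP (algebraMap ℚ Qb d.n)) := by
  rw [famQb, WeierstrassCurve.map_c₆, LineData.fam_c₆, LineData.c6P, map_C6h]
  simp only [Polynomial.coe_mapRingHom, Polynomial.map_C, map_mP, map_nP]

lemma fibre_zero_c₄ :
    ((famQb d.fam).map (Polynomial.evalRingHom (0 : Qb))).c₄ = algebraMap ℚ Qb d.c₄ := by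
  rw [WeierstrassCurve.map_c₄, famQb_c₄, map_C4h]
  simp only [Polynomial.coe_evalRingHom, Polynomial.eval_C, mP_eval_zero, nP_eval_zero,
    C4h_zero_left]
  ring

lemma fibre_zero_c₆ :
    ((famQb d.fam).map (Polynomial.evalRingHom (0 : Qb))).c₆ = algebraMap ℚ Qb d.c₆ := by
  rw [WeierstrassCurve.map_c₆, famQb_c₆, map_C6h]
  simp only [Polynomial.coe_evalRingHom, Polynomial.eval_C, mP_eval_zero, nP_eval_zero,
    C6h_zero_left]
  ring

/-- the family identities in the shape consumed by `H890.exists_lift_of_identities`. -/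
lemma family_identities (c u : Qb)
    (e4 : ((famQb d.fam).map (Polynomial.evalRingHom (0 : Qb))).c₄ = u ^ 4 * H5 c 1)
    (e6 : ((famQb d.fam).map (Polynomial.evalRingHom (0 : Qb))).c₆ = u ^ 6 * T5 c 1) :
    (famQb d.fam).c₄ = C (u ^ 4) * H5 (Nf (algebraMap ℚ Qb d.M) (algebraMap ℚ Qb d.n) c u)
        (Df (algebraMap ℚ Qb d.M) (algebraMap ℚ Qb d.n) c u) ∧
      (famQb d.fam).c₆ = C (u ^ 6) * T5 (Nf (algebraMap ℚ Qb d.M) (algebraMap ℚ Qb d.n) c u)
        (Df (algebraMap ℚ Qb d.M) (algebraMap ℚ Qb d.n) c u) := by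
  rw [fibre_zero_c₄, H5_one] at e4
  rw [fibre_zero_c₆, T5_one] at e6
  have hν : nP (algebraMap ℚ Qb d.n) ≠ 0 := nP_ne_zero _
  have h4 : (C (algebraMap ℚ Qb d.c₄) : Qb[X]) = C u ^ 4 * tc4 (C c) := by
    rw [e4, C_mul, C_pow, map_tc4]
  have h6 : (C (algebraMap ℚ Qb d.c₆) : Qb[X]) = C u ^ 6 * tc6 (C c) := by
    rw [e6, C_mul, C_pow, map_tc6]
  constructor
  · rw [famQb_c₄, h4, h6, hI1_domain _ _ _ hν, H5_eq_C4hom, C_pow]
    rfl
  · rw [famQb_c₆, h4, h6, hI2_domain _ _ _ hν, T5_eq_C6hom, C_pow]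
    rfl

end

/-- **5-torsion lifts for the line family.** -/
theorem hasTorsionLifts_lineData (d : LineData) :
    @HasTorsionLifts Qb _ _ (Classical.decEq _) (famQb d.fam) (algebraMap ℚ Qb 0) 5 := by
  letI : DecidableEq (RatFunc Qb) := Classical.decEq _
  have h0 : algebraMap ℚ Qb 0 = 0 := map_zero _
  rw [h0]
  intro x y h h5
  have h2 : (2 : Qb) ≠ 0 := two_ne_zero
  have h3 : (3 : Qb) ≠ 0 := three_ne_zero
  obtain ⟨px, py, hx, hy, H, H5⟩ :=
    Fermat.Agent.S52.H890.exists_lift_of_identities h2 h3 (famQb d.fam) (0 : Qb)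
      (Nf (algebraMap ℚ Qb d.M) (algebraMap ℚ Qb d.n))
      (Df (algebraMap ℚ Qb d.M) (algebraMap ℚ Qb d.n))
      (fun c u => Nf_eval_zero _ _ c u) (fun c u => Df_eval_zero _ _ c u)
      (fun c u e4 e6 => family_identities d c u e4 e6) h h5
  refine ⟨algebraMap Qb[X] (RatFunc Qb) px, algebraMap Qb[X] (RatFunc Qb) py, H, H5,
    regAt_algebraMap 0 px, ?_, ?_⟩
  · rw [valAt_algebraMap]; exact hx
  · rw [valAt_algebraMap]; exact hy

/-- **Piece B1.** -/
theorem torsionMap : TorsionMap := by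
  intro W W' M n p₀ hΔ hΔ' _ _ _ _ _ _ _ hc4 hc6
  exact fiveCongruent_of_family_rat W W' hΔ hΔ' (lineData W W' M n).fam 0 1
    (lineData_fibre_zero W W' M n) (lineData_fibre_one W W' M n hc4 hc6)
    (hasTorsionLifts_lineData _)

end Fermat.Agent.S52.B.B1.H170

end
-- ===== PACK-END S52/B/B1/H170/Main.lean

-- ===== PACK-BEGIN Lib/FF398/HeckeDiv.lean
section


/-!
# Lib/FF398 — the Hecke correspondence on a single place (helper398)

* `correspondence_single` : for a correspondence `ψ_* φ^*` between function fields,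
  `ψ_* φ^* [P] = ∑_{W ∈ φ-fibre of P} e_φ(W) · f_ψ(W) · [W|_ψ]`;
* `heckeDivBar_single` : for `T_ℓ = α_* β^*` on `ℚ̄(X₀(N))` (all residue degrees are one),
  `T_ℓ [P] = ∑_{W : W|_β = P} e_β(W) · [W|_α]`;
* `sum_ramificationIndexAlong` : `∑_{W : W|_φ = P} e_φ(W) = [F' : φ F]`.
-/

set_option autoImplicit false
set_option linter.style.haveILetI false
set_option linter.unusedSectionVars false

open AlgebraicCurve ModularCurve

namespace Fermat.Agent.Lib.FF398

section General

variable {K F F' : Type*} [Field K] [Field F] [Field F'] [Algebra K F] [Algebra K F']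
  [HasPrincipalDivisors K F']

/-- `ψ_* φ^* (n[P]) = ∑_{W ∈ φ-fibre of P} n e_φ(W) f_ψ(W) [W|_ψ]`. -/
theorem correspondence_single (φ ψ : F →ₐ[K] F') (hφ : φ.toRingHom.IsIntegral)
    (hψ : ψ.toRingHom.IsIntegral) (P : Place K F) (n : ℤ) :
    Divisor.correspondence φ ψ hφ hψ (Finsupp.single P n) =
      ∑ W ∈ Place.fiberAlong φ hφ P,
        Finsupp.single (W.restrictAlong ψ hψ)
          (n * W.ramificationIndexAlong φ * W.inertiaDegAlong ψ hψ) := by
  rw [Divisor.correspondence_apply, Divisor.pullbackAlong_single, map_sum]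
  refine Finset.sum_congr rfl fun W _ => ?_
  rw [Divisor.pushforwardAlong_single]

/-- residue degrees along `ψ` are one if all places of `F'` have degree one -/
theorem inertiaDegAlong_eq_one (ψ : F →ₐ[K] F') (hψ : ψ.toRingHom.IsIntegral)
    (hdeg' : ∀ w : Place K F', w.deg = 1) (W : Place K F') : W.inertiaDegAlong ψ hψ = 1 := by
  letI := algebraAlong ψ
  haveI := isScalarTower_along ψ
  haveI := isIntegral_along ψ hψ
  exact inertiaDeg_eq_one hdeg' W

/-- `ψ_* φ^* (n[P]) = ∑_{W ∈ φ-fibre of P} n e_φ(W) [W|_ψ]` when all places of `F'` have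
degree one. -/
theorem correspondence_single_of_deg (φ ψ : F →ₐ[K] F') (hφ : φ.toRingHom.IsIntegral)
    (hψ : ψ.toRingHom.IsIntegral) (hdeg' : ∀ w : Place K F', w.deg = 1) (P : Place K F) (n : ℤ) :
    Divisor.correspondence φ ψ hφ hψ (Finsupp.single P n) =
      ∑ W ∈ Place.fiberAlong φ hφ P,
        Finsupp.single (W.restrictAlong ψ hψ) (n * W.ramificationIndexAlong φ) := by
  rw [correspondence_single]
  refine Finset.sum_congr rfl fun W _ => ?_
  rw [inertiaDegAlong_eq_one ψ hψ hdeg' W, Nat.cast_one, mul_one]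

/-- push-forward of the previous formula along any map `r` of places -/
theorem mapDomain_correspondence_single_of_deg {X : Type*} (r : Place K F → X)
    (φ ψ : F →ₐ[K] F') (hφ : φ.toRingHom.IsIntegral)
    (hψ : ψ.toRingHom.IsIntegral) (hdeg' : ∀ w : Place K F', w.deg = 1) (P : Place K F) (n : ℤ) :
    Finsupp.mapDomain r (Divisor.correspondence φ ψ hφ hψ (Finsupp.single P n)) =
      ∑ W ∈ Place.fiberAlong φ hφ P,
        Finsupp.single (r (W.restrictAlong ψ hψ)) (n * W.ramificationIndexAlong φ) := by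
  rw [correspondence_single_of_deg φ ψ hφ hψ hdeg', Finsupp.mapDomain_finsetSum]
  refine Finset.sum_congr rfl fun W _ => ?_
  rw [Finsupp.mapDomain_single]

/-- `∑_{W : W|_φ = P} e_φ(W) = [F' : φ F]` -/
theorem sum_ramificationIndexAlong [CharZero F] (φ : F →ₐ[K] F')
    (hφ : φ.toRingHom.IsIntegral) (hfin : FiniteAlong K φ)
    (hdeg' : ∀ w : Place K F', w.deg = 1) (P : Place K F) :
    ∑ W ∈ Place.fiberAlong φ hφ P, (W.ramificationIndexAlong φ : ℤ) = (finrankAlong K φ : ℤ) := by
  letI := algebraAlong φ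
  haveI := isScalarTower_along φ
  haveI := isIntegral_along φ hφ
  haveI : FiniteDimensional F F' := hfin
  exact sum_ramificationIndex P hdeg' (Place.fiberAlong φ hφ P) fun W => Place.mem_fiberAlong

end General

section Modular

variable (N ℓ : ℕ) [NeZero N] [NeZero ℓ]

/-- **`T_ℓ` on a point**: `T_ℓ [P] = ∑_{W : W|_β = P} e_β(W) · [W|_α]`. -/
theorem heckeDivBar_single (hα : HeckeAlphaBarIntegral (AlgebraicClosure ℚ) N ℓ)
    (hβ : HeckeBetaBarIntegral (AlgebraicClosure ℚ) N ℓ)
    [HasPrincipalDivisors (AlgebraicClosure ℚ) (modularFunctionFieldBar (N * ℓ))]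
    (P : Place (AlgebraicClosure ℚ) (modularFunctionFieldBar N)) (n : ℤ) :
    heckeDivBar hα hβ (Finsupp.single P n) =
      ∑ W ∈ Place.fiberAlong (heckeBetaBar (AlgebraicClosure ℚ) N ℓ) hβ P,
        Finsupp.single (W.restrictAlong (heckeAlphaBar (AlgebraicClosure ℚ) N ℓ) hα)
          (n * W.ramificationIndexAlong (heckeBetaBar (AlgebraicClosure ℚ) N ℓ)) :=
  correspondence_single_of_deg _ _ hβ hα (deg_eq_one_FF (N * ℓ)) P n

/-- push-forward of `T_ℓ [P]` along a map `r` of places -/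
theorem mapDomain_heckeDivBar_single {X : Type*}
    (r : Place (AlgebraicClosure ℚ) (modularFunctionFieldBar N) → X)
    (hα : HeckeAlphaBarIntegral (AlgebraicClosure ℚ) N ℓ)
    (hβ : HeckeBetaBarIntegral (AlgebraicClosure ℚ) N ℓ)
    [HasPrincipalDivisors (AlgebraicClosure ℚ) (modularFunctionFieldBar (N * ℓ))]
    (P : Place (AlgebraicClosure ℚ) (modularFunctionFieldBar N)) (n : ℤ) :
    Finsupp.mapDomain r (heckeDivBar hα hβ (Finsupp.single P n)) =
      ∑ W ∈ Place.fiberAlong (heckeBetaBar (AlgebraicClosure ℚ) N ℓ) hβ P,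
        Finsupp.single (r (W.restrictAlong (heckeAlphaBar (AlgebraicClosure ℚ) N ℓ) hα))
          (n * W.ramificationIndexAlong (heckeBetaBar (AlgebraicClosure ℚ) N ℓ)) :=
  mapDomain_correspondence_single_of_deg r _ _ hβ hα (deg_eq_one_FF (N * ℓ)) P n

/-- `∑_{W : W|_β = P} e_β(W) = [F_{Nℓ} : β F_N]` -/
theorem sum_ramificationIndexAlong_beta
    (hβ : HeckeBetaBarIntegral (AlgebraicClosure ℚ) N ℓ)
    [HasPrincipalDivisors (AlgebraicClosure ℚ) (modularFunctionFieldBar (N * ℓ))]
    (P : Place (AlgebraicClosure ℚ) (modularFunctionFieldBar N)) :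
    ∑ W ∈ Place.fiberAlong (heckeBetaBar (AlgebraicClosure ℚ) N ℓ) hβ P,
        (W.ramificationIndexAlong (heckeBetaBar (AlgebraicClosure ℚ) N ℓ) : ℤ) =
      (finrankAlong (AlgebraicClosure ℚ) (heckeBetaBar (AlgebraicClosure ℚ) N ℓ) : ℤ) :=
  sum_ramificationIndexAlong _ hβ (finiteAlong_beta N ℓ) (deg_eq_one_FF (N * ℓ)) P

end Modular

end Fermat.Agent.Lib.FF398

end
-- ===== PACK-END Lib/FF398/HeckeDiv.lean

-- ===== PACK-BEGIN S17/H917/Mov.lean
section



/-!
# S17 / tower H, geometric layer: rational avoidance and the common residual (G-MOV2)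

Setting of BASE-2 (helper680, `H680/DescentRR.lean`): `F = ℚ̄ · F₀ ⊆ ℚ̄((q))` with the coefficientwise
action of `G_ℚ`; `IsFixed f` (Galois-fixed = rational function), `IsInvariant D` (Galois-invariant
divisor).

* `isInvariant_add/sub/neg/zero`, `isInvariant_divOf` : calculus of invariant divisors;
* `exists_fixed_mem_L_forall_ord_eq` (**RAT-AVOID**): if `D` is invariant of degree `≥ 2g` and `S` is
  a finite set of places, some FIXED `f ∈ L(D)`, `f ≠ 0`, has `ord_v f = - D v` for all `v ∈ S`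
  (the member `div f + D` of `|D|` is rational and avoids `S`);
* `exists_fixed_of_divOf_add_eq_zero`: an invariant principal divisor is the divisor of a fixed
  function (Hilbert 90, in the form "a one-dimensional invariant `L(E)` has a fixed generator");
* `exists_common_residual` (**G-MOV2**, abstract form): if `D₁ ~ D₂` are invariant effective
  divisors with `deg D₁ + 2g ≤ m`, and `T` is a finite set of places, there are an invariant
  effective `R` avoiding `T` and fixed functions `a₁, a₂` with `div aᵢ + m ∞ = Dᵢ + R`;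
* `exists_fixed_family_disjoint` (**G-MOV3**, abstract form): `k` fixed functions in `L(D)`
  (`D` invariant, `deg D ≥ 2g`) whose members `div b + D` have pairwise disjoint supports.
-/

set_option autoImplicit false

noncomputable section

open AlgebraicCurve ModularCurve

namespace Fermat.Agent.S17.H917

open Fermat.Agent.Lib.RR Fermat.Agent.S17.H680 Fermat.Agent.S17.H77 Fermat.Agent.Lib.RR.H439

variable (F₀ : IntermediateField ℚ (LaurentSeries ℚ)) [FF1 Qb (laurentBaseChange Qb F₀)]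

/-! ### Invariant divisors -/

omit [FF1 Qb (laurentBaseChange Qb F₀)] in
theorem isInvariant_zero : IsInvariant F₀ (0 : Divisor Qb (laurentBaseChange Qb F₀)) :=
  fun _ => smul_zero _

variable {F₀} in
omit [FF1 Qb (laurentBaseChange Qb F₀)] in
theorem isInvariant_add {D E : Divisor Qb (laurentBaseChange Qb F₀)} (hD : IsInvariant F₀ D)
    (hE : IsInvariant F₀ E) : IsInvariant F₀ (D + E) := fun σ => by
  rw [smul_add, hD σ, hE σ]

variable {F₀} in
omit [FF1 Qb (laurentBaseChange Qb F₀)] in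
theorem isInvariant_neg {D : Divisor Qb (laurentBaseChange Qb F₀)} (hD : IsInvariant F₀ D) :
    IsInvariant F₀ (-D) := fun σ => by
  rw [smul_neg, hD σ]

variable {F₀} in
omit [FF1 Qb (laurentBaseChange Qb F₀)] in
theorem isInvariant_sub {D E : Divisor Qb (laurentBaseChange Qb F₀)} (hD : IsInvariant F₀ D)
    (hE : IsInvariant F₀ E) : IsInvariant F₀ (D - E) := fun σ => by
  rw [smul_sub, hD σ, hE σ]

variable {F₀} in
/-- The divisor of a fixed function is invariant. -/
theorem isInvariant_divOf {f : laurentBaseChange Qb F₀} (hf : f ≠ 0) (hfix : IsFixed F₀ f) :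
    IsInvariant F₀ (divOf (K := Qb) f hf) := fun σ => by
  rw [smul_divOf]
  exact divOf_congr _ (hfix σ)

/-! ### Rational avoidance -/

omit F₀ in
omit [FF1 Qb (laurentBaseChange Qb F₀)] in
/-- Over an infinite field, a subspace `V₀` which is contained in none of finitely many subspaces
`p i` has an element outside all of them. -/
theorem exists_mem_forall_notMem {k V ι : Type*} [Field k] [Infinite k] [AddCommGroup V]
    [Module k V] (V₀ : Submodule k V) (S : Finset ι) (p : ι → Submodule k V)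
    (h : ∀ i ∈ S, ¬ V₀ ≤ p i) : ∃ x ∈ V₀, ∀ i ∈ S, x ∉ p i := by
  classical
  let q : ι → Subspace k V₀ := fun i => Submodule.comap V₀.subtype (p i)
  let s : Finset (Subspace k V₀) := S.image q
  have hs : (⊤ : Subspace k V₀) ∉ s := by
    intro hmem
    obtain ⟨i, hi, hq⟩ := Finset.mem_image.mp hmem
    apply h i hi
    intro x hx
    have : (⟨x, hx⟩ : V₀) ∈ q i := by rw [hq]; trivial
    exact this
  have hcov := Subspace.biUnion_ne_univ_of_top_notMem hs
  obtain ⟨x, hx⟩ := (Set.ne_univ_iff_exists_notMem _).mp hcov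
  simp only [Set.mem_iUnion, not_exists] at hx
  refine ⟨x, x.2, fun i hi hxi => ?_⟩
  exact hx (q i) (Finset.mem_image_of_mem q hi) hxi

omit [FF1 Qb (laurentBaseChange Qb F₀)] in
/-- A `ℚ̄`-subspace of `F`, as a `ℚ`-subspace. -/
def ratPart (W : Submodule Qb (laurentBaseChange Qb F₀)) :
    Submodule ℚ (laurentBaseChange Qb F₀) where
  carrier := {f | f ∈ W}
  zero_mem' := W.zero_mem
  add_mem' := fun hf hg => W.add_mem hf hg
  smul_mem' := fun c f hf => by
    show c • f ∈ W
    rw [← algebraMap_smul Qb c f]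
    exact W.smul_mem _ hf

omit [FF1 Qb (laurentBaseChange Qb F₀)] in
theorem mem_ratPart {W : Submodule Qb (laurentBaseChange Qb F₀)}
    {f : laurentBaseChange Qb F₀} : f ∈ ratPart F₀ W ↔ f ∈ W := Iff.rfl

variable {F₀} in
/-- **RAT-AVOID.**  If `D` is a Galois-invariant divisor of degree `≥ 2g` and `S` is a finite set
of places, then some Galois-fixed `f ∈ L(D)`, `f ≠ 0`, has order exactly `-D v` at every `v ∈ S`. -/
theorem exists_fixed_mem_L_forall_ord_eq {D : Divisor Qb (laurentBaseChange Qb F₀)}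
    (hD : IsInvariant F₀ D)
    (hdeg : 2 * (genusFF Qb (laurentBaseChange Qb F₀) : ℤ) ≤ Divisor.degree D)
    (S : Finset (Place Qb (laurentBaseChange Qb F₀))) :
    ∃ f ∈ riemannRochSpace D, IsFixed F₀ f ∧ f ≠ 0 ∧ ∀ v ∈ S, v.ord f = -D v := by
  classical
  have hspan : Submodule.span Qb {f | f ∈ riemannRochSpace D ∧ IsFixed F₀ f}
      = riemannRochSpace D :=
    span_fixed_eq F₀ (riemannRochSpace D) fun σ _ hf => smul_mem_L_of_isInvariant F₀ hD σ hf
  -- a `ℚ̄`-subspace containing all fixed elements of `L(D)` contains `L(D)`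
  have key : ∀ W : Submodule Qb (laurentBaseChange Qb F₀),
      fixedPart F₀ (riemannRochSpace D) ≤ ratPart F₀ W → riemannRochSpace D ≤ W := by
    intro W hW
    rw [← hspan, Submodule.span_le]
    intro f hf
    exact hW hf
  -- the subspaces to avoid: `0` and the `L(D - v)`, `v ∈ S`
  have hav := exists_mem_forall_notMem (fixedPart F₀ (riemannRochSpace D))
    (insert none (S.image some))
    (fun o : Option (Place Qb (laurentBaseChange Qb F₀)) =>
      match o with
      | none => ratPart F₀ ⊥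
      | some v => ratPart F₀ (riemannRochSpace (D - prim v)))
    (by
      intro o ho hle
      cases o with
      | none =>
        obtain ⟨v⟩ := (inferInstance : FF1 Qb (laurentBaseChange Qb F₀)).nonempty_place
        obtain ⟨f, hf, hf0, -⟩ := exists_mem_L_ord_eq hdeg v
        exact hf0 (by simpa using key ⊥ hle hf)
      | some v =>
        obtain ⟨f, hf, hf'⟩ := exists_mem_not_mem_sub hdeg v
        exact hf' (key _ hle hf))
  obtain ⟨x, hx, hxav⟩ := hav
  refine ⟨x, hx.1, hx.2, ?_, fun v hv => ?_⟩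
  · intro h0
    refine hxav none (Finset.mem_insert_self _ _) ?_
    show x ∈ (⊥ : Submodule Qb (laurentBaseChange Qb F₀))
    rw [h0]
    exact Submodule.zero_mem _
  · apply ord_eq_of_mem_of_not_mem_sub D v hx.1
    intro hmem
    exact hxav (some v) (Finset.mem_insert_of_mem (Finset.mem_image_of_mem some hv)) hmem

/-! ### Invariant principal divisors -/

variable {F₀} in
/-- If `E` is invariant and `E + div h = 0` for some `h ≠ 0`, then `E + div a = 0` for a
Galois-fixed function `a` (Hilbert 90 for the function field, via BASE-2). -/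
theorem exists_fixed_of_divOf_add_eq_zero {E : Divisor Qb (laurentBaseChange Qb F₀)}
    (hE : IsInvariant F₀ E) {h : laurentBaseChange Qb F₀} (hh : h ≠ 0)
    (hEh : E + divOf h hh = 0) :
    ∃ (a : laurentBaseChange Qb F₀) (ha : a ≠ 0), IsFixed F₀ a ∧ E + divOf a ha = 0 := by
  classical
  have hdegE : Divisor.degree E = 0 := by
    have := congrArg Divisor.degree hEh
    rw [map_add, degree_divOf, add_zero, map_zero] at this
    exact this
  obtain ⟨b, hbL, hbfix, hli, -, -⟩ := exists_fixed_basis_L F₀ hE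
  have hpos : 0 < ell E := by
    have hEq : E = 0 + divOf h⁻¹ (inv_ne_zero hh) := by
      rw [divOf_inv h hh, zero_add, eq_neg_iff_add_eq_zero]
      exact hEh
    rw [hEq, ell_add_divOf, ell_zero]
    exact Nat.one_pos
  set a := b ⟨0, hpos⟩ with ha
  have ha0 : a ≠ 0 := hli.ne_zero _
  refine ⟨a, ha0, hbfix _, ?_⟩
  apply eq_zero_of_nonneg_of_degree_eq_zero
  · exact (mem_L_iff_nonneg ha0).mp (hbL _)
  · rw [map_add, degree_divOf, hdegE, add_zero]

/-! ### The common residual -/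

variable {F₀} in
/-- **G-MOV2** (abstract form).  Let `D₁ ~ D₂` be linearly equivalent Galois-invariant effective
divisors with `deg D₁ + 2g ≤ m`, `m ∞` invariant, and let `T` be a finite set of places.  Then there
are a Galois-invariant effective divisor `R` avoiding `T` and Galois-fixed functions `a₁, a₂` with
`div aᵢ + m ∞ = Dᵢ + R`. -/
theorem exists_common_residual {m : ℕ} {vinf : Place Qb (laurentBaseChange Qb F₀)}
    (hminv : IsInvariant F₀ (m • prim vinf))
    {D₁ D₂ : Divisor Qb (laurentBaseChange Qb F₀)}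
    (hi₁ : IsInvariant F₀ D₁) (hi₂ : IsInvariant F₀ D₂)
    (hdeg : Divisor.degree D₁ + 2 * (genusFF Qb (laurentBaseChange Qb F₀) : ℤ) ≤ m)
    (hlin : ∃ (h : laurentBaseChange Qb F₀) (hh : h ≠ 0), D₂ = D₁ + divOf h hh)
    (T : Finset (Place Qb (laurentBaseChange Qb F₀))) :
    ∃ (R : Divisor Qb (laurentBaseChange Qb F₀)) (a₁ a₂ : laurentBaseChange Qb F₀)
      (ha₁ : a₁ ≠ 0) (ha₂ : a₂ ≠ 0),
      0 ≤ R ∧ IsInvariant F₀ R ∧ IsFixed F₀ a₁ ∧ IsFixed F₀ a₂ ∧
      divOf a₁ ha₁ + m • prim vinf = D₁ + R ∧ divOf a₂ ha₂ + m • prim vinf = D₂ + R ∧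
      ∀ v ∈ T, R v = 0 := by
  classical
  obtain ⟨h, hh, hD₂⟩ := hlin
  -- a rational member of `|m ∞ - D₁|` avoiding `T`
  have hE : IsInvariant F₀ (m • prim vinf - D₁) := isInvariant_sub hminv hi₁
  have hEdeg : 2 * (genusFF Qb (laurentBaseChange Qb F₀) : ℤ)
      ≤ Divisor.degree (m • prim vinf - D₁) := by
    rw [map_sub, map_nsmul, degree_prim vinf (deg_eq_one vinf)]
    simp only [nsmul_eq_mul, mul_one]
    linarith
  obtain ⟨a₁, ha₁L, ha₁fix, ha₁0, ha₁T⟩ := exists_fixed_mem_L_forall_ord_eq hE hEdeg T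
  set R : Divisor Qb (laurentBaseChange Qb F₀) := (m • prim vinf - D₁) + divOf a₁ ha₁0 with hR
  have hR0 : 0 ≤ R := (mem_L_iff_nonneg ha₁0).mp ha₁L
  have hRinv : IsInvariant F₀ R := isInvariant_add hE (isInvariant_divOf ha₁0 ha₁fix)
  have hRT : ∀ v ∈ T, R v = 0 := by
    intro v hv
    rw [hR, Finsupp.add_apply, divOf_apply, ha₁T v hv]
    ring
  have e₁ : divOf a₁ ha₁0 + m • prim vinf = D₁ + R := by
    rw [hR]; abel
  -- the second function
  have hE₂ : IsInvariant F₀ (m • prim vinf - D₂ - R) :=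
    isInvariant_sub (isInvariant_sub hminv hi₂) hRinv
  have hprinc : (m • prim vinf - D₂ - R) + divOf (a₁ * h) (mul_ne_zero ha₁0 hh) = 0 := by
    rw [divOf_mul a₁ h ha₁0 hh, hD₂, hR]
    abel
  obtain ⟨a₂, ha₂0, ha₂fix, e⟩ := exists_fixed_of_divOf_add_eq_zero hE₂ _ hprinc
  refine ⟨R, a₁, a₂, ha₁0, ha₂0, hR0, hRinv, ha₁fix, ha₂fix, e₁, ?_, hRT⟩
  have : divOf a₂ ha₂0 = -(m • prim vinf - D₂ - R) := by
    rw [eq_neg_iff_add_eq_zero, add_comm]
    exact e
  rw [this]
  abel

/-! ### Rational hyperplane sections with pairwise disjoint supports -/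

variable {F₀} in
/-- **G-MOV3** (abstract form).  If `D` is invariant of degree `≥ 2g`, there are, for every `k`,
Galois-fixed nonzero functions `b 0, …, b (k-1) ∈ L(D)` such that the members `div (b j) + D` of
`|D|` have pairwise disjoint supports: at every place `v` and for `j ≠ j'`, one of `b j`, `b j'` has
order exactly `-D v`. -/
theorem exists_fixed_family_disjoint {D : Divisor Qb (laurentBaseChange Qb F₀)}
    (hD : IsInvariant F₀ D)
    (hdeg : 2 * (genusFF Qb (laurentBaseChange Qb F₀) : ℤ) ≤ Divisor.degree D) (k : ℕ) :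
    ∃ b : Fin k → laurentBaseChange Qb F₀,
      (∀ j, b j ≠ 0 ∧ b j ∈ riemannRochSpace D ∧ IsFixed F₀ (b j)) ∧
      ∀ j j', j ≠ j' → ∀ v : Place Qb (laurentBaseChange Qb F₀),
        v.ord (b j) = -D v ∨ v.ord (b j') = -D v := by
  classical
  induction k with
  | zero => exact ⟨Fin.elim0, fun j => j.elim0, fun j => j.elim0⟩
  | succ k ih =>
    obtain ⟨b, hb, hdis⟩ := ih
    -- the finite set of zeros of the previous members
    let S : Finset (Place Qb (laurentBaseChange Qb F₀)) :=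
      Finset.univ.biUnion fun j : Fin k => (divOf (b j) (hb j).1 + D).support
    obtain ⟨f, hfL, hffix, hf0, hfS⟩ := exists_fixed_mem_L_forall_ord_eq hD hdeg S
    have hkey : ∀ (j : Fin k) (v : Place Qb (laurentBaseChange Qb F₀)),
        v.ord (b j) = -D v ∨ v.ord f = -D v := by
      intro j v
      by_cases hv : v ∈ (divOf (b j) (hb j).1 + D).support
      · right
        exact hfS v (Finset.mem_biUnion.mpr ⟨j, Finset.mem_univ _, hv⟩)
      · left
        rw [Finsupp.mem_support_iff, not_not, Finsupp.add_apply, divOf_apply] at hv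
        omega
    refine ⟨Fin.snoc b f, fun j => ?_, fun j j' hjj' v => ?_⟩
    · refine Fin.lastCases ?_ (fun i => ?_) j
      · simpa using ⟨hf0, hfL, hffix⟩
      · simpa using hb i
    · induction j using Fin.lastCases with
      | last =>
        induction j' using Fin.lastCases with
        | last => exact absurd rfl hjj'
        | cast i' =>
          rw [Fin.snoc_last, Fin.snoc_castSucc]
          exact (hkey i' v).symm
      | cast i =>
        induction j' using Fin.lastCases with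
        | last =>
          rw [Fin.snoc_last, Fin.snoc_castSucc]
          exact hkey i v
        | cast i' =>
          rw [Fin.snoc_castSucc, Fin.snoc_castSucc]
          exact hdis i i' (fun h => hjj' (by rw [h])) v

end Fermat.Agent.S17.H917

end
end
-- ===== PACK-END S17/H917/Mov.lean

-- ===== PACK-BEGIN S37/H100/FibreCharpoly.lean
section




/-!
# S37 / E2 (helper100): the fibre formula for characteristic polynomials

`F'/F` a finite extension of function fields over an algebraically closed field `K` of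
characteristic zero, all places of degree one.  Let `v` be a place of `F` and `g ∈ F'` with value
`a w ∈ K` at every place `w` of `F'` over `v` (i.e. `g - a w ∈ 𝔪_w`).  Then the characteristic
polynomial of `g` over `F` has coefficients in `O_v` and its reduction modulo `𝔪_v` is
`∏_{w | v} (X - a w) ^ e(w | v)`.
-/

set_option autoImplicit false
set_option linter.unusedSectionVars false
set_option linter.style.haveILetI false

open AlgebraicCurve IsDedekindDomain Polynomial Module
open Fermat.Agent.Lib.FF398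

namespace Fermat.Agent.S37.H100

variable {K F F' : Type*} [Field K] [Field F] [Field F'] [Algebra K F] [Algebra K F']
  [Algebra F F'] [IsScalarTower K F F'] [FiniteDimensional F F'] [CharZero F]
variable (v : Place K F)

/-- The integral closure of `O_v` in `F'` is the intersection of the valuation rings of the
places over `v`. -/
theorem mem_intCl_of_forall_ord_nonneg (x : F')
    (h : ∀ w : Place K F', w.restrict F = v → 0 ≤ w.ord x) : x ∈ intCl F' v := by
  have hx := HeightOneSpectrum.mem_integers_of_valuation_le_one (R := intCl F' v) F' x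
    (fun q => by
      rw [← mem_placeOf_iff]
      exact Fermat.Agent.Lib.RR.mem_of_ord_nonneg _ (h (placeOf v q) (restrict_placeOf v q)))
  obtain ⟨y, hy⟩ := hx
  rw [← hy]
  exact y.2

/-- Elements of the integral closure have nonnegative order at the places over `v`. -/
theorem ord_nonneg_of_mem_intCl (x : intCl F' v) (w : Place K F') (hw : w.restrict F = v) :
    0 ≤ w.ord (x : F') := by
  subst hw
  exact Fermat.Agent.Lib.RR.ord_nonneg_of_mem w (coe_intCl_mem w x)

/-- `ord_w` of an element of `F` at a place `w` over `v`. -/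
theorem ord_algebraMap_of_restrict (w : Place K F') (hw : w.restrict F = v) (f : F) :
    w.ord (algebraMap F F' f) = (w.ramificationIndex F : ℤ) * v.ord f := by
  rw [w.ord_restrict f, hw]


/-! ### The reduction map `S → K^ι` -/

section Red

variable (hv : v.deg = 1)

/-- index type of the chosen basis of `S = intCl F' v` over `R = O_v` -/
abbrev Idx : Type _ := Module.Free.ChooseBasisIndex v.toValuationSubring (intCl F' v)

variable (F') in
/-- the chosen basis of the integral closure over `O_v` -/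
noncomputable def bas : Basis (Idx (F' := F') v) v.toValuationSubring (intCl F' v) :=
  Module.Free.chooseBasis _ _

/-- reduction of coordinates -/
noncomputable def red (x : intCl F' v) : Idx (F' := F') v → K :=
  fun i => evPlace v hv ((bas F' v).repr x i)

theorem red_add (x y : intCl F' v) : red v hv (x + y) = red v hv x + red v hv y := by
  funext i
  simp [red]

theorem red_zero : red v hv (0 : intCl F' v) = 0 := by
  funext i
  simp [red]

theorem red_smul (r : v.toValuationSubring) (x : intCl F' v) :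
    red v hv (r • x) = evPlace v hv r • red v hv x := by
  funext i
  simp [red]

theorem red_sub (x y : intCl F' v) : red v hv (x - y) = red v hv x - red v hv y := by
  funext i
  simp [red]

theorem red_surjective : Function.Surjective (red (F' := F') v hv) := by
  intro y
  refine ⟨∑ i, (algebraMap K v.toValuationSubring (y i)) • (bas F' v) i, ?_⟩
  funext i
  simp only [red, map_sum, map_smul, Basis.repr_self, Finsupp.coe_finsetSum, Finsupp.coe_smul,
    Finset.sum_apply, Pi.smul_apply, smul_eq_mul]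
  rw [Finset.sum_eq_single i]
  · simp
  · intro j _ hj
    simp [hj]
  · intro h
    exact absurd (Finset.mem_univ i) h

theorem red_eq_zero_iff {π : v.toValuationSubring} (hπ : Irreducible π) (x : intCl F' v) :
    red v hv x = 0 ↔ ∃ z : intCl F' v, x = π • z := by
  constructor
  · intro h
    have hcoord : ∀ i, ∃ r : v.toValuationSubring, (bas F' v).repr x i = π * r := by
      intro i
      have hi : evPlace v hv ((bas F' v).repr x i) = 0 := congrFun h i
      rw [evPlace_eq_zero_iff, hπ.maximalIdeal_eq, Ideal.mem_span_singleton'] at hi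
      obtain ⟨r, hr⟩ := hi
      exact ⟨r, by rw [← hr, mul_comm]⟩
    choose r hr using hcoord
    refine ⟨∑ i, r i • (bas F' v) i, ?_⟩
    conv_lhs => rw [← (bas F' v).sum_repr x]
    rw [Finset.smul_sum]
    refine Finset.sum_congr rfl fun i _ => ?_
    rw [hr i, mul_smul]
  · rintro ⟨z, rfl⟩
    rw [red_smul]
    have : evPlace v hv π = 0 := by
      rw [evPlace_eq_zero_iff, hπ.maximalIdeal_eq]
      exact Ideal.mem_span_singleton_self π
    rw [this, zero_smul]

/-- multiplication by `g` becomes the reduced matrix -/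
theorem red_mul (g x : intCl F' v) :
    red v hv (g * x) =
      ((Algebra.leftMulMatrix (bas F' v) g).map (evPlace v hv)).mulVec (red v hv x) := by
  funext i
  have h := congrFun (congrArg (fun f => (f : Idx (F' := F') v → v.toValuationSubring))
    (Algebra.leftMulMatrix_mulVec_repr (bas F' v) g x)) i
  simp only [red]
  rw [← h]
  simp only [Matrix.mulVec, dotProduct, Matrix.map_apply, map_sum, map_mul]
  rfl

end Red


/-! ### Orders: "zero or at least `n`" -/

section OrdGe

omit [FiniteDimensional F F'] [CharZero F] [Algebra F F'] [IsScalarTower K F F'] [Algebra K F] in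
theorem ord_mul_of_le (w : Place K F') {f g : F'} {n m : ℤ}
    (hf : f = 0 ∨ n ≤ w.ord f) (hg : g = 0 ∨ m ≤ w.ord g) :
    f * g = 0 ∨ n + m ≤ w.ord (f * g) := by
  rcases eq_or_ne f 0 with rfl | hf0
  · left; simp
  rcases eq_or_ne g 0 with rfl | hg0
  · left; simp
  right
  rw [w.ord_mul hf0 hg0]
  have := hf.resolve_left hf0
  have := hg.resolve_left hg0
  omega

theorem coe_smul_intCl (r : v.toValuationSubring) (x : intCl F' v) :
    ((r • x : intCl F' v) : F') = algebraMap F F' (r : F) * (x : F') := by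
  rw [Subalgebra.coe_smul, Algebra.smul_def]
  rfl

theorem coe_algebraMap_intCl (r : v.toValuationSubring) :
    ((algebraMap v.toValuationSubring (intCl F' v) r : intCl F' v) : F')
      = algebraMap F F' (r : F) := rfl

end OrdGe

/-! ### The filtration by order of vanishing at a place over `v` -/

section Filt

variable (hv : v.deg = 1)

/-- `Gsub v hv w j`: reductions of elements of `S` vanishing to order `≥ j` at `w`. -/
noncomputable def Gsub (w : Place K F') (j : ℕ) : Submodule K (Idx (F' := F') v → K) where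
  carrier := {y | ∃ x : intCl F' v, red v hv x = y ∧ ((x : F') = 0 ∨ (j : ℤ) ≤ w.ord (x : F'))}
  zero_mem' := ⟨0, red_zero v hv, Or.inl rfl⟩
  add_mem' := by
    rintro y y' ⟨x, rfl, hx⟩ ⟨x', rfl, hx'⟩
    refine ⟨x + x', red_add v hv x x', ?_⟩
    exact Fermat.Agent.Lib.RR.ord_add_of_le w hx hx'
  smul_mem' := by
    rintro c y ⟨x, rfl, hx⟩
    refine ⟨algebraMap K v.toValuationSubring c • x, by rw [red_smul, evPlace_algebraMap], ?_⟩
    rw [coe_smul_intCl]
    have h1 : algebraMap F F' ((algebraMap K v.toValuationSubring c : v.toValuationSubring) : F)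
        = 0 ∨ (0 : ℤ) ≤ w.ord (algebraMap F F'
          ((algebraMap K v.toValuationSubring c : v.toValuationSubring) : F)) := by
      right
      have : algebraMap F F' ((algebraMap K v.toValuationSubring c : v.toValuationSubring) : F)
          = algebraMap K F' c := by
        rw [Place.coe_algebraMap, ← IsScalarTower.algebraMap_apply]
      rw [this, Fermat.Agent.Lib.RR.ord_algebraMap]
    have := ord_mul_of_le w h1 hx
    rwa [zero_add] at this

theorem mem_Gsub (w : Place K F') (j : ℕ) (y : Idx (F' := F') v → K) :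
    y ∈ Gsub v hv w j ↔
      ∃ x : intCl F' v, red v hv x = y ∧ ((x : F') = 0 ∨ (j : ℤ) ≤ w.ord (x : F')) := Iff.rfl

theorem Gsub_zero (w : Place K F') (hw : w.restrict F = v) : Gsub v hv w 0 = ⊤ := by
  rw [eq_top_iff]
  intro y _
  obtain ⟨x, rfl⟩ := red_surjective v hv y
  exact ⟨x, rfl, Or.inr (by simpa using ord_nonneg_of_mem_intCl v x w hw)⟩

/-- each step of the filtration has codimension at most one -/
theorem Gsub_step (hdeg' : ∀ w : Place K F', w.deg = 1) (w : Place K F') (j : ℕ)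
    (y : Idx (F' := F') v → K) (hy : y ∈ Gsub v hv w j)
    (y' : Idx (F' := F') v → K) (hy' : y' ∈ Gsub v hv w j) (hy'n : y' ∉ Gsub v hv w (j + 1)) :
    ∃ c : K, y - c • y' ∈ Gsub v hv w (j + 1) := by
  obtain ⟨x, rfl, hx⟩ := hy
  obtain ⟨x', rfl, hx'⟩ := hy'
  have hx'0 : (x' : F') ≠ 0 := fun h0 => hy'n ⟨x', rfl, Or.inl h0⟩
  have hx'j : w.ord (x' : F') = j := by
    have h1 := hx'.resolve_left hx'0
    by_contra hne
    exact hy'n ⟨x', rfl, Or.inr (by push_cast; omega)⟩
  -- the quotient x / x' has nonnegative order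
  have hq : 0 ≤ w.ord ((x : F') / (x' : F')) := by
    rcases eq_or_ne (x : F') 0 with h0 | h0
    · rw [h0, zero_div, w.ord_zero]
    · rw [div_eq_mul_inv, w.ord_mul h0 (inv_ne_zero hx'0), w.ord_inv, hx'j]
      have := hx.resolve_left h0
      omega
  obtain ⟨c, hc⟩ := Fermat.Agent.Lib.RR.exists_const_sub w (hdeg' w) hq
  refine ⟨c, x - algebraMap K v.toValuationSubring c • x', ?_, ?_⟩
  · rw [red_sub, red_smul, evPlace_algebraMap]
  · have hcoe : ((x - algebraMap K v.toValuationSubring c • x' : intCl F' v) : F')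
        = (x' : F') * ((x : F') / (x' : F') - algebraMap K F' c) := by
      rw [Subalgebra.coe_sub, coe_smul_intCl, Place.coe_algebraMap,
        ← IsScalarTower.algebraMap_apply]
      field_simp
    rw [hcoe]
    have h1 : (x' : F') = 0 ∨ (j : ℤ) ≤ w.ord (x' : F') := Or.inr hx'j.ge
    have h2 : ((x : F') / (x' : F') - algebraMap K F' c) = 0 ∨
        (1 : ℤ) ≤ w.ord ((x : F') / (x' : F') - algebraMap K F' c) := by
      rcases hc with hc | hc
      · exact Or.inl hc
      · exact Or.inr hc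
    have := ord_mul_of_le w h1 h2
    push_cast
    exact this

end Filt


/-! ### The reduced multiplication matrix and its generalized eigenspaces -/

section Eigen

variable (hv : v.deg = 1)

/-- the matrix of multiplication by `g` on `S / 𝔪_v S = K^ι` -/
noncomputable def redMat (g : intCl F' v) : Matrix (Idx (F' := F') v) (Idx (F' := F') v) K :=
  (Algebra.leftMulMatrix (bas F' v) g).map (evPlace v hv)

/-- `g - μ` as an element of `S` -/
noncomputable def subConst (g : intCl F' v) (μ : K) : intCl F' v :=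
  g - algebraMap v.toValuationSubring (intCl F' v) (algebraMap K v.toValuationSubring μ)

theorem coe_subConst (g : intCl F' v) (μ : K) :
    ((subConst v g μ : intCl F' v) : F') = (g : F') - algebraMap K F' μ := by
  rw [subConst, Subalgebra.coe_sub, coe_algebraMap_intCl, Place.coe_algebraMap,
    ← IsScalarTower.algebraMap_apply]

theorem red_subConst_mul (g : intCl F' v) (μ : K) (x : intCl F' v) :
    red v hv (subConst v g μ * x) =
      ((redMat v hv g).mulVecLin - μ • (1 : Module.End K (Idx (F' := F') v → K)))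
        (red v hv x) := by
  rw [subConst, sub_mul, red_sub, red_mul, ← Algebra.smul_def, red_smul, evPlace_algebraMap]
  rfl

theorem red_subConst_pow_mul (g : intCl F' v) (μ : K) (k : ℕ) (x : intCl F' v) :
    red v hv (subConst v g μ ^ k * x) =
      (((redMat v hv g).mulVecLin - μ • (1 : Module.End K (Idx (F' := F') v → K))) ^ k)
        (red v hv x) := by
  induction k generalizing x with
  | zero => simp
  | succ k ih =>
    rw [pow_succ, mul_assoc, ih, red_subConst_mul, pow_succ]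
    rfl


/-- an element of `S` vanishing to order `≥ e(w|v)` at every `w | v` is divisible by a
uniformizer of `v` -/
theorem exists_eq_smul_of_forall_ord {π : v.toValuationSubring} (hπ1 : v.ord (π : F) = 1)
    (x : intCl F' v)
    (h : ∀ w : Place K F', w.restrict F = v →
      ((x : F') = 0 ∨ (w.ramificationIndex F : ℤ) ≤ w.ord (x : F'))) :
    ∃ z : intCl F' v, x = π • z := by
  have hπ0 : (π : F) ≠ 0 := by
    intro h0
    rw [h0, v.ord_zero] at hπ1
    exact zero_ne_one hπ1
  have hπ0' : algebraMap F F' (π : F) ≠ 0 := by simpa using hπ0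
  have hmem : (x : F') / algebraMap F F' (π : F) ∈ intCl F' v := by
    apply mem_intCl_of_forall_ord_nonneg
    intro w hw
    rcases eq_or_ne (x : F') 0 with h0 | h0
    · rw [h0, zero_div, w.ord_zero]
    · rw [div_eq_mul_inv, w.ord_mul h0 (inv_ne_zero hπ0'), w.ord_inv,
        ord_algebraMap_of_restrict v w hw, hπ1, mul_one]
      have := (h w hw).resolve_left h0
      omega
  refine ⟨⟨_, hmem⟩, Subtype.ext ?_⟩
  rw [coe_smul_intCl]
  field_simp

theorem coe_smul_ord_ge {π : v.toValuationSubring} (hπ1 : v.ord (π : F) = 1)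
    (z : intCl F' v) (w : Place K F') (hw : w.restrict F = v) :
    ((π • z : intCl F' v) : F') = 0 ∨
      (w.ramificationIndex F : ℤ) ≤ w.ord ((π • z : intCl F' v) : F') := by
  rw [coe_smul_intCl]
  have h1 : algebraMap F F' (π : F) = 0 ∨
      (w.ramificationIndex F : ℤ) ≤ w.ord (algebraMap F F' (π : F)) := by
    right
    rw [ord_algebraMap_of_restrict v w hw, hπ1, mul_one]
  have h2 : (z : F') = 0 ∨ (0 : ℤ) ≤ w.ord (z : F') :=
    Or.inr (ord_nonneg_of_mem_intCl v z w hw)
  have := ord_mul_of_le w h1 h2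
  rwa [add_zero] at this

/-- **Key inequality**: the generalized eigenspace for `μ` of the reduced multiplication by `g`
has dimension at most `∑_{w | v, g(w) = μ} e(w | v)`. -/
theorem finrank_maxGenEigenspace_le [DecidableEq K] (hdeg' : ∀ w : Place K F', w.deg = 1)
    (s : Finset (Place K F')) (hs : ∀ w, w ∈ s ↔ w.restrict F = v)
    (g : intCl F' v) (a : Place K F' → K)
    (ha : ∀ w ∈ s, ((g : F') - algebraMap K F' (a w) = 0 ∨
      0 < w.ord ((g : F') - algebraMap K F' (a w))))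
    (μ : K) :
    finrank K ↥(Module.End.maxGenEigenspace ((redMat v hv g).mulVecLin) μ) ≤
      ∑ w ∈ s.filter (fun w => a w = μ), w.ramificationIndex F := by
  set φ : Module.End K (Idx (F' := F') v → K) := (redMat v hv g).mulVecLin with hφ
  set T : Finset (Place K F') := s.filter (fun w => a w = μ) with hT
  have hTs : ∀ w ∈ T, w.restrict F = v := fun w hw => (hs w).mp (Finset.mem_filter.mp hw).1
  have key := finrank_le_sum_add T (fun w => w.ramificationIndex F)
    (fun w j => Gsub v hv w j) (fun w hw => Gsub_zero v hv w (hTs w hw))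
    (fun w _ j y hy y' hy' hy'n => Gsub_step v hv hdeg' w j y hy y' hy' hy'n)
    (φ.maxGenEigenspace μ)
  suffices hbot : φ.maxGenEigenspace μ ⊓ ⨅ w ∈ T, Gsub v hv w (w.ramificationIndex F) = ⊥ by
    rw [hbot, finrank_bot, add_zero] at key
    exact key
  rw [eq_bot_iff]
  rintro y ⟨hyE, hyG⟩
  rw [Submodule.mem_bot]
  simp only [SetLike.mem_coe, Submodule.mem_iInf] at hyG hyE
  obtain ⟨x, rfl⟩ := red_surjective v hv y
  obtain ⟨π, hπ, hπ1⟩ := Fermat.Agent.S24.FF.exists_irreducible_coe v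
  obtain ⟨k, hk⟩ := (Module.End.mem_maxGenEigenspace φ μ _).mp hyE
  rw [hφ, ← red_subConst_pow_mul, red_eq_zero_iff v hv hπ] at hk
  obtain ⟨z, hz⟩ := hk
  have hall : ∀ w : Place K F', w.restrict F = v →
      ((x : F') = 0 ∨ (w.ramificationIndex F : ℤ) ≤ w.ord (x : F')) := by
    intro w hw
    have hws : w ∈ s := (hs w).mpr hw
    by_cases hwμ : a w = μ
    · -- `w ∈ T`
      obtain ⟨xw, hred, hord⟩ := hyG w (Finset.mem_filter.mpr ⟨hws, hwμ⟩)
      have h0 : red v hv (x - xw) = 0 := by rw [red_sub, hred, sub_self]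
      obtain ⟨z', hz'⟩ := (red_eq_zero_iff v hv hπ _).mp h0
      have hx : x = xw + π • z' := by rw [← hz']; ring
      rw [hx, Subalgebra.coe_add]
      exact Fermat.Agent.Lib.RR.ord_add_of_le w hord (coe_smul_ord_ge v hπ1 z' w hw)
    · -- `g - μ` is a unit at `w`
      rcases eq_or_ne (x : F') 0 with hx0 | hx0
      · exact Or.inl hx0
      right
      have hconst : algebraMap K F' (a w) - algebraMap K F' μ ≠ 0 := by
        rw [← map_sub]
        simpa [sub_eq_zero] using hwμ
      have hconst_ord : w.ord (algebraMap K F' (a w) - algebraMap K F' μ) = 0 := by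
        rw [← map_sub]
        exact Fermat.Agent.Lib.RR.ord_algebraMap w _
      have hsplit : (g : F') - algebraMap K F' μ =
          (algebraMap K F' (a w) - algebraMap K F' μ) + ((g : F') - algebraMap K F' (a w)) := by
        ring
      have hh : (g : F') - algebraMap K F' μ ≠ 0 ∧ w.ord ((g : F') - algebraMap K F' μ) = 0 := by
        rcases ha w hws with h0 | hpos
        · rw [hsplit, h0, add_zero]
          exact ⟨hconst, hconst_ord⟩
        · have hne : (g : F') - algebraMap K F' (a w) ≠ 0 := by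
            intro h0
            rw [h0, w.ord_zero] at hpos
            exact lt_irrefl _ hpos
          have hlt : w.ord (algebraMap K F' (a w) - algebraMap K F' μ) <
              w.ord ((g : F') - algebraMap K F' (a w)) := by rw [hconst_ord]; exact hpos
          have := Fermat.Agent.Lib.RR.ord_add_eq_of_lt w hconst hne hlt
          rw [← hsplit, hconst_ord] at this
          refine ⟨?_, this⟩
          intro h0
          have h1 : (g : F') - algebraMap K F' (a w) =
              -(algebraMap K F' (a w) - algebraMap K F' μ) := by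
            rw [hsplit] at h0
            exact eq_neg_of_add_eq_zero_right h0
          rw [h1, Fermat.Agent.Lib.RR.ord_neg, hconst_ord] at hpos
          exact lt_irrefl _ hpos
      have hpow0 : ((subConst v g μ : intCl F' v) : F') ^ k ≠ 0 := by
        rw [coe_subConst]
        exact pow_ne_zero _ hh.1
      have hpow_ord : w.ord (((subConst v g μ : intCl F' v) : F') ^ k) = 0 := by
        rw [coe_subConst, Fermat.Agent.Lib.RR.ord_pow, hh.2, mul_zero]
      have hprod : ((subConst v g μ ^ k * x : intCl F' v) : F') =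
          ((subConst v g μ : intCl F' v) : F') ^ k * (x : F') := by
        rw [Subalgebra.coe_mul, Subalgebra.coe_pow]
      have hprod0 : ((subConst v g μ ^ k * x : intCl F' v) : F') ≠ 0 := by
        rw [hprod]
        exact mul_ne_zero hpow0 hx0
      have hge := coe_smul_ord_ge v hπ1 z w hw
      rw [← hz] at hge
      have hge' := hge.resolve_left hprod0
      rw [hprod, w.ord_mul hpow0 hx0, hpow_ord, zero_add] at hge'
      exact hge'
  obtain ⟨z', hz'⟩ := exists_eq_smul_of_forall_ord v hπ1 x hall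
  exact (red_eq_zero_iff v hv hπ x).mpr ⟨z', hz'⟩


/-- the reduced characteristic polynomial -/
theorem redMat_charpoly_eq [IsAlgClosed K] (hdeg' : ∀ w : Place K F', w.deg = 1)
    (s : Finset (Place K F')) (hs : ∀ w, w ∈ s ↔ w.restrict F = v)
    (g : intCl F' v) (a : Place K F' → K)
    (ha : ∀ w ∈ s, ((g : F') - algebraMap K F' (a w) = 0 ∨
      0 < w.ord ((g : F') - algebraMap K F' (a w)))) :
    (redMat v hv g).charpoly = ∏ w ∈ s, (X - C (a w)) ^ w.ramificationIndex F := by
  classical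
  refine eq_prod_of_rootMultiplicity_le s a (fun w => w.ramificationIndex F) _
    (Matrix.charpoly_monic _) ?_ ?_
  · rw [Matrix.charpoly_natDegree_eq_dim]
    have h1 := sum_ramificationIndex v hdeg' s hs
    have h2 : Module.finrank F F' = Module.finrank v.toValuationSubring (intCl F' v) :=
      IsFractionRing.finrank_eq v.toValuationSubring F (intCl F' v) F'
    have h3 : Module.finrank v.toValuationSubring (intCl F' v) =
        Fintype.card (Idx (F' := F') v) :=
      Module.finrank_eq_card_chooseBasisIndex _ _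
    rw [h2, h3] at h1
    exact_mod_cast h1.symm
  · intro μ
    have h1 := LinearMap.finrank_maxGenEigenspace_eq ((redMat v hv g).mulVecLin) μ
    rw [Matrix.charpoly_mulVecLin] at h1
    rw [← h1]
    exact finrank_maxGenEigenspace_le v hv hdeg' s hs g a ha μ

end Eigen

/-! ### The fibre formula -/

section Main

variable (hv : v.deg = 1)

/-- the characteristic polynomial over `F` of an element of the integral closure comes from
`O_v[X]` -/
theorem charpoly_mulLeft_eq_map (g : intCl F' v) :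
    (LinearMap.mulLeft F (g : F')).charpoly =
      (Algebra.leftMulMatrix (bas F' v) g).charpoly.map (algebraMap v.toValuationSubring F) := by
  classical
  haveI : IsLocalization (Algebra.algebraMapSubmonoid (intCl F' v)
      (nonZeroDivisors v.toValuationSubring)) F' :=
    IsIntegralClosure.isLocalization v.toValuationSubring F F' (intCl F' v)
  have h1 := Algebra.map_leftMulMatrix_localization v.toValuationSubring
    (Rₘ := F) (Sₘ := F') (nonZeroDivisors v.toValuationSubring) (bas F' v) g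
  rw [← Matrix.charpoly_map, ← RingHom.mapMatrix_apply, h1, Algebra.leftMulMatrix_apply,
    LinearMap.charpoly_toMatrix]
  rfl

/-- **E2, the fibre formula for characteristic polynomials** (polynomial form).
There is a monic `P ∈ O_v[X]` whose image in `F[X]` is the characteristic polynomial of `g` over
`F` and whose reduction at `v` is `∏_{w | v} (X - g(w)) ^ e(w | v)`. -/
theorem fibre_charpoly [IsAlgClosed K] (hdeg' : ∀ w : Place K F', w.deg = 1)
    (s : Finset (Place K F')) (hs : ∀ w, w ∈ s ↔ w.restrict F = v)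
    (g : F') (a : Place K F' → K)
    (ha : ∀ w ∈ s, (g - algebraMap K F' (a w) = 0 ∨ 0 < w.ord (g - algebraMap K F' (a w)))) :
    ∃ P : Polynomial v.toValuationSubring, P.Monic ∧
      P.map (algebraMap v.toValuationSubring F) = (LinearMap.mulLeft F g).charpoly ∧
      P.map (evPlace v hv) = ∏ w ∈ s, (X - C (a w)) ^ w.ramificationIndex F := by
  have hg : g ∈ intCl F' v := by
    apply mem_intCl_of_forall_ord_nonneg
    intro w hw
    have h1 : g - algebraMap K F' (a w) = 0 ∨ (0 : ℤ) ≤ w.ord (g - algebraMap K F' (a w)) := by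
      rcases ha w ((hs w).mpr hw) with h | h
      · exact Or.inl h
      · exact Or.inr h.le
    have h2 : algebraMap K F' (a w) = 0 ∨ (0 : ℤ) ≤ w.ord (algebraMap K F' (a w)) :=
      Or.inr (Fermat.Agent.Lib.RR.ord_algebraMap w _).ge
    have h3 := Fermat.Agent.Lib.RR.ord_add_of_le w h1 h2
    rw [sub_add_cancel] at h3
    rcases h3 with h3 | h3
    · rw [h3, w.ord_zero]
    · exact h3
  refine ⟨(Algebra.leftMulMatrix (bas F' v) ⟨g, hg⟩).charpoly, Matrix.charpoly_monic _,
    (charpoly_mulLeft_eq_map v ⟨g, hg⟩).symm, ?_⟩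
  rw [← Matrix.charpoly_map]
  exact redMat_charpoly_eq v hv hdeg' s hs ⟨g, hg⟩ a ha

include hv in
/-- **E2** (coefficient form): every coefficient of the characteristic polynomial of `g` over
`F` is congruent modulo `𝔪_v` to the corresponding coefficient of
`∏_{w | v} (X - g(w)) ^ e(w | v)`. -/
theorem fibre_charpoly_coeff [IsAlgClosed K] (hdeg' : ∀ w : Place K F', w.deg = 1)
    (s : Finset (Place K F')) (hs : ∀ w, w ∈ s ↔ w.restrict F = v)
    (g : F') (a : Place K F' → K)
    (ha : ∀ w ∈ s, (g - algebraMap K F' (a w) = 0 ∨ 0 < w.ord (g - algebraMap K F' (a w))))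
    (i : ℕ) :
    (LinearMap.mulLeft F g).charpoly.coeff i -
        algebraMap K F ((∏ w ∈ s, (X - C (a w)) ^ w.ramificationIndex F).coeff i) = 0 ∨
      0 < v.ord ((LinearMap.mulLeft F g).charpoly.coeff i -
        algebraMap K F ((∏ w ∈ s, (X - C (a w)) ^ w.ramificationIndex F).coeff i)) := by
  obtain ⟨P, -, hP1, hP2⟩ := fibre_charpoly v hv hdeg' s hs g a ha
  rw [← hP1, ← hP2, coeff_map, coeff_map]
  have h := sub_algebraMap_evPlace_mem v hv (P.coeff i)
  rw [Fermat.Agent.Lib.RR.mem_maximalIdeal_iff] at h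
  exact h

include hv in
/-- **E2** (membership form): the coefficients of the characteristic polynomial of `g` over `F`
lie in `O_v`. -/
theorem fibre_charpoly_coeff_mem [IsAlgClosed K] (hdeg' : ∀ w : Place K F', w.deg = 1)
    (s : Finset (Place K F')) (hs : ∀ w, w ∈ s ↔ w.restrict F = v)
    (g : F') (a : Place K F' → K)
    (ha : ∀ w ∈ s, (g - algebraMap K F' (a w) = 0 ∨ 0 < w.ord (g - algebraMap K F' (a w))))
    (i : ℕ) : (LinearMap.mulLeft F g).charpoly.coeff i ∈ v.toValuationSubring := by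
  obtain ⟨P, -, hP1, -⟩ := fibre_charpoly v hv hdeg' s hs g a ha
  rw [← hP1, coeff_map]
  exact (P.coeff i).2

end Main

end Fermat.Agent.S37.H100

end
-- ===== PACK-END S37/H100/FibreCharpoly.lean

-- ===== PACK-BEGIN S17/H920/BertiniLocal.lean
section


/-!
# S17 / tower H, leaf BERTINI (helper920), local part

`F'/F` a finite extension of function fields over an algebraically closed field `K`
(characteristic zero), all places of `F'` of degree one, `v` a place of `F` of degree one.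
If `g ∈ F'` is regular at all places over `v` and its characteristic polynomial `χ` over `F`
has a separability certificate `a χ + b χ' = 1` with `a, b ∈ O_v[X]`, then every place over `v`
is unramified.  (Reduction of the certificate modulo `𝔪_v` + the fibre formula
`χ mod 𝔪_v = ∏_{w | v} (X - g(w)) ^ e(w | v)` of helper100.)
-/

set_option autoImplicit false
set_option linter.unusedSectionVars false
set_option linter.style.haveILetI false

open AlgebraicCurve Polynomial
open Fermat.Agent.Lib.FF398 Fermat.Agent.S37.H100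

namespace Fermat.Agent.S17.H920

variable {K F F' : Type*} [Field K] [Field F] [Field F'] [Algebra K F] [Algebra K F']
  [Algebra F F'] [IsScalarTower K F F'] [FiniteDimensional F F'] [CharZero F]

/-- A polynomial over `F` with coefficients in `O_v` is the image of a polynomial over `O_v`. -/
theorem exists_map_eq_of_coeff_mem (v : Place K F) (a : F[X])
    (ha : ∀ i, a.coeff i ∈ v.toValuationSubring) :
    ∃ A : (v.toValuationSubring)[X], A.map (algebraMap v.toValuationSubring F) = a := by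
  have h : a ∈ Polynomial.lifts (algebraMap v.toValuationSubring F) := by
    rw [Polynomial.lifts_iff_coeff_lifts]
    intro n
    exact ⟨⟨a.coeff n, ha n⟩, rfl⟩
  obtain ⟨A, hA⟩ := (Polynomial.mem_lifts a).1 h
  exact ⟨A, hA⟩

/-- A separable polynomial is not divisible by the square of `X - C c`. -/
theorem not_sq_dvd_of_separable {k : Type*} [Field k] {p : k[X]} (hp : p.Separable) (c : k) :
    ¬ (X - C c) ^ 2 ∣ p := by
  intro h
  have h1 := hp.squarefree (X - C c) (by rwa [← pow_two])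
  exact Polynomial.not_isUnit_X_sub_C c h1

/-- **Local Bertini.**  A separability certificate with coefficients in `O_v` for the
characteristic polynomial of an element regular over `v` forces all places over `v` to be
unramified. -/
theorem ramificationIndex_eq_one_of_cert [IsAlgClosed K] (v : Place K F) (hv : v.deg = 1)
    (hdeg' : ∀ w : Place K F', w.deg = 1)
    (g : F') (hg : ∀ w : Place K F', w.restrict F = v → 0 ≤ w.ord g)
    (a b : F[X])
    (hab : a * (LinearMap.mulLeft F g).charpoly +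
      b * derivative (LinearMap.mulLeft F g).charpoly = 1)
    (ha : ∀ i, a.coeff i ∈ v.toValuationSubring) (hb : ∀ i, b.coeff i ∈ v.toValuationSubring)
    (w : Place K F') (hw : w.restrict F = v) : w.ramificationIndex F = 1 := by
  classical
  set s : Finset (Place K F') := (finite_fibre (F' := F') v).toFinset with hs_def
  have hs : ∀ w : Place K F', w ∈ s ↔ w.restrict F = v := by
    intro w
    rw [hs_def, Set.Finite.mem_toFinset]
    rfl
  -- the values of `g` at the places over `v`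
  let aval : Place K F' → K := fun w =>
    if h : 0 ≤ w.ord g then
      evPlace w (hdeg' w) ⟨g, Fermat.Agent.Lib.RR.mem_of_ord_nonneg w h⟩
    else 0
  have haval : ∀ w ∈ s, (g - algebraMap K F' (aval w) = 0 ∨
      0 < w.ord (g - algebraMap K F' (aval w))) := by
    intro w hw
    have h0 : 0 ≤ w.ord g := hg w ((hs w).1 hw)
    have h1 := sub_algebraMap_evPlace_mem w (hdeg' w)
      ⟨g, Fermat.Agent.Lib.RR.mem_of_ord_nonneg w h0⟩
    rw [Fermat.Agent.Lib.RR.mem_maximalIdeal_iff] at h1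
    simp only [aval, dif_pos h0]
    exact h1
  obtain ⟨P, -, hP1, hP2⟩ := fibre_charpoly v hv hdeg' s hs g aval haval
  obtain ⟨A, hA⟩ := exists_map_eq_of_coeff_mem v a ha
  obtain ⟨B, hB⟩ := exists_map_eq_of_coeff_mem v b hb
  have hinj : Function.Injective (algebraMap v.toValuationSubring F) :=
    fun x y h => Subtype.ext h
  have hcert : A * P + B * derivative P = 1 := by
    apply Polynomial.map_injective _ hinj
    rw [Polynomial.map_add, Polynomial.map_mul, Polynomial.map_mul, ← Polynomial.derivative_map,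
      hA, hB, hP1, Polynomial.map_one]
    exact hab
  have hsep : (P.map (evPlace v hv)).Separable := by
    refine ⟨A.map (evPlace v hv), B.map (evPlace v hv), ?_⟩
    rw [Polynomial.derivative_map, ← Polynomial.map_mul, ← Polynomial.map_mul,
      ← Polynomial.map_add, hcert, Polynomial.map_one]
  rw [hP2] at hsep
  have hpos : 0 < w.ramificationIndex F := w.ramificationIndex_pos (F := F)
  by_contra hne
  have h2 : 2 ≤ w.ramificationIndex F := by omega
  have hwmem : w ∈ s := (hs w).2 hw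
  apply not_sq_dvd_of_separable hsep (aval w)
  refine Dvd.dvd.trans (pow_dvd_pow _ h2) ?_
  exact Finset.dvd_prod_of_mem (fun w => (X - C (aval w)) ^ w.ramificationIndex F) hwmem

end Fermat.Agent.S17.H920

end
-- ===== PACK-END S17/H920/BertiniLocal.lean

-- ===== PACK-BEGIN Lib/FF/Principal.lean
section




/-!
# Lib/FF: `HasPrincipalDivisors` for function fields of curves (helper220)

`K` algebraically closed of characteristic zero, `F` a field finite over `K(j)` with `j`
transcendental.  Every nonzero `f : F` has a divisor (finitely many zeros and poles) of degree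
zero.  This is a thin wrapper around helper804's `Fermat.Agent.S24.FF` layer.
-/

set_option autoImplicit false

namespace Fermat.Agent.Lib.FF

open AlgebraicCurve IntermediateField

variable {K F : Type*} [Field K] [Field F] [Algebra K F]

/-- A function on a curve over an algebraically closed field of characteristic zero has finitely
many zeros and poles. -/
theorem finite_setOf_ord_ne_zero' [IsAlgClosed K] [CharZero K] (j : F) (hj : Transcendental K j)
    [FiniteDimensional K⟮j⟯ F] (f : F) : {v : Place K F | v.ord f ≠ 0}.Finite := by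
  by_cases hfr : f ∈ (algebraMap K F).range
  · obtain ⟨a, rfl⟩ := hfr
    convert Set.finite_empty
    ext v
    simp [Fermat.Agent.S24.FF.ord_algebraMap]
  · have hft : Transcendental K f := Fermat.Agent.S24.FF.transcendental_of_not_mem_range hfr
    haveI : FiniteDimensional K⟮f⟯ F :=
      Fermat.Agent.S24.FF.finiteDimensional_adjoin_of_transcendental hj hft
    exact Fermat.Agent.S24.FF.finite_setOf_ord_ne_zero hft

/-- **(A)** `HasPrincipalDivisors K F` for the function field of a curve over an algebraically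
closed field of characteristic zero. -/
theorem hasPrincipalDivisors [IsAlgClosed K] [CharZero K] (j : F) (hj : Transcendental K j)
    [FiniteDimensional K⟮j⟯ F] : HasPrincipalDivisors K F := by
  classical
  refine ⟨fun f _ => ?_⟩
  let D : Divisor K F :=
    Finsupp.ofSupportFinite (fun v => v.ord f) (finite_setOf_ord_ne_zero' j hj f)
  exact ⟨D, fun v => rfl, Fermat.Agent.S24.FF.degree_principal j hj f D (fun v => rfl)⟩

end Fermat.Agent.Lib.FF

end
-- ===== PACK-END Lib/FF/Principal.lean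

-- ===== PACK-BEGIN S17/H920/Bertini.lean
section




/-!
# S17 / tower H, leaf BERTINI (helper920): finitely many branch values

`K` algebraically closed of characteristic zero, `F` a function field of one variable over `K`
(finite over `K(j)` for some transcendental `j`).  For every non-constant `φ ∈ F` the set of
branch values

  `{c : K | ∃ P, 2 ≤ ord_P (φ - c)}`

is finite (`finite_branch_values`).  Pencil form (`finite_pencil_nonreduced`): for `f₁ ≠ 0` and
`f₂ / f₁` non-constant, only finitely many members `f₂ - c f₁` of the pencil vanish to order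
`≥ 2` (relative to the base locus `min (ord f₁) (ord f₂)`) somewhere.

Proof: `F = K(φ)(g)` with `g` a primitive element, `χ` its minimal (= characteristic)
polynomial over `K(φ)`, separable: `a χ + b χ' = 1`.  Outside the finitely many values of `φ` at
the poles of `g` and of the coefficients of `a`, `b`, the certificate reduces modulo the place
`φ = c` of `K(φ)`, so the fibre is unramified (`BertiniLocal`), and `φ - c` is a uniformizer at
the place `φ = c` of `K(φ)`.
-/

set_option autoImplicit false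
set_option linter.unusedSectionVars false
set_option linter.style.haveILetI false

open AlgebraicCurve Polynomial IntermediateField

namespace Fermat.Agent.S17.H920

variable {K F : Type*} [Field K] [Field F] [Algebra K F]

/-- A place sees at most one value of a function. -/
theorem value_unique (w : Place K F) (t : F) {c c' : K}
    (h : 0 < w.ord (t - algebraMap K F c)) (h' : 0 < w.ord (t - algebraMap K F c')) :
    c = c' := by
  by_contra hne
  have h1 : (t - algebraMap K F c') + -(t - algebraMap K F c) = algebraMap K F (c - c') := by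
    rw [map_sub]; ring
  have h2 := Fermat.Agent.Lib.RR.ord_add_of_le w (n := 1) (f := t - algebraMap K F c')
    (g := -(t - algebraMap K F c)) (Or.inr (by omega))
    (Or.inr (by rw [Fermat.Agent.Lib.RR.ord_neg]; omega))
  rw [h1] at h2
  rcases h2 with h2 | h2
  · exact hne (sub_eq_zero.mp ((map_eq_zero (algebraMap K F)).mp h2))
  · rw [Fermat.Agent.Lib.RR.ord_algebraMap] at h2
    omega

/-- **BERTINI, coordinate form.**  If `F` is finite over `K(t)`, then `t` has finitely many
branch values. -/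
theorem finite_branch_values_gen [IsAlgClosed K] [CharZero K] {t : F}
    (ht : Transcendental K t) [FiniteDimensional K⟮t⟯ F] :
    {c : K | ∃ P : Place K F, 2 ≤ P.ord (t - algebraMap K F c)}.Finite := by
  classical
  haveI : CharZero K⟮t⟯ := charZero_of_injective_algebraMap (algebraMap K K⟮t⟯).injective
  haveI : Algebra.IsSeparable K⟮t⟯ F := inferInstance
  let pb := Field.powerBasisOfFiniteOfSeparable K⟮t⟯ F
  set g : F := pb.gen with hg_def
  have hχ : (LinearMap.mulLeft K⟮t⟯ g).charpoly = minpoly K⟮t⟯ g := by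
    rw [← charpoly_leftMulMatrix pb, Algebra.leftMulMatrix_apply, LinearMap.charpoly_toMatrix]
    rfl
  have hsep : (LinearMap.mulLeft K⟮t⟯ g).charpoly.Separable := by
    rw [hχ]
    exact Algebra.IsSeparable.isSeparable K⟮t⟯ g
  obtain ⟨a, b, hab⟩ := hsep
  -- the bad places
  have hfin : ∀ f : F, {w : Place K F | w.ord f ≠ 0}.Finite :=
    fun f => Fermat.Agent.Lib.FF.finite_setOf_ord_ne_zero' t ht f
  set W : Set (Place K F) := ({w | w.ord g ≠ 0} ∪
      (⋃ i ∈ a.support, {w | w.ord (algebraMap K⟮t⟯ F (a.coeff i)) ≠ 0})) ∪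
      (⋃ i ∈ b.support, {w | w.ord (algebraMap K⟮t⟯ F (b.coeff i)) ≠ 0}) with hW
  have hWfin : W.Finite := by
    refine Set.Finite.union (Set.Finite.union (hfin g) ?_) ?_
    · exact Set.Finite.biUnion a.support.finite_toSet (fun i _ => hfin _)
    · exact Set.Finite.biUnion b.support.finite_toSet (fun i _ => hfin _)
  have hBfin : (⋃ w ∈ W, {c : K | 0 < w.ord (t - algebraMap K F c)}).Finite := by
    refine Set.Finite.biUnion hWfin (fun w _ => Set.Subsingleton.finite ?_)
    intro c hc c' hc'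
    exact value_unique w t hc hc'
  refine hBfin.subset ?_
  rintro c ⟨w, hw⟩
  by_contra hcB
  have hnotW : ∀ w' : Place K F, 0 < w'.ord (t - algebraMap K F c) → w' ∉ W := by
    intro w' hw' hmem
    apply hcB
    simp only [Set.mem_iUnion, Set.mem_ofPred_eq]
    exact ⟨w', hmem, hw'⟩
  have hdeg : ∀ w : Place K F, w.deg = 1 := fun w => Fermat.Agent.S24.FF.deg_eq_one w ht
  set v := w.restrict K⟮t⟯ with hv_def
  have hv : v.deg = 1 := Fermat.Agent.Lib.FF398.deg_restrict_eq_one hdeg w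
  have hwpos : 0 < w.ord (t - algebraMap K F c) := by omega
  have hvpos : 0 < v.ord (AdjoinSimple.gen K t - algebraMap K K⟮t⟯ c) :=
    (Fermat.Agent.S37.Red.H160.ord_restrict_gen_sub_pos_iff w c).mpr hwpos
  have hfib : ∀ w' : Place K F, w'.restrict K⟮t⟯ = v → w' ∉ W := by
    intro w' hw'
    apply hnotW
    rw [← Fermat.Agent.S37.Red.H160.ord_restrict_gen_sub_pos_iff, hw']
    exact hvpos
  have hWg : ∀ w' : Place K F, w' ∉ W → w'.ord g = 0 := by
    intro w' hw'
    by_contra h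
    exact hw' (Or.inl (Or.inl h))
  have hWa : ∀ w' : Place K F, w' ∉ W → ∀ i, w'.ord (algebraMap K⟮t⟯ F (a.coeff i)) = 0 := by
    intro w' hw' i
    by_contra h
    apply hw'
    refine Or.inl (Or.inr ?_)
    simp only [Set.mem_iUnion, Set.mem_ofPred_eq]
    refine ⟨i, ?_, h⟩
    rw [Polynomial.mem_support_iff]
    intro h0
    rw [h0, map_zero, w'.ord_zero] at h
    exact h rfl
  have hWb : ∀ w' : Place K F, w' ∉ W → ∀ i, w'.ord (algebraMap K⟮t⟯ F (b.coeff i)) = 0 := by
    intro w' hw' i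
    by_contra h
    apply hw'
    refine Or.inr ?_
    simp only [Set.mem_iUnion, Set.mem_ofPred_eq]
    refine ⟨i, ?_, h⟩
    rw [Polynomial.mem_support_iff]
    intro h0
    rw [h0, map_zero, w'.ord_zero] at h
    exact h rfl
  have hwW : w ∉ W := hfib w rfl
  have he : w.ramificationIndex K⟮t⟯ = 1 := by
    refine ramificationIndex_eq_one_of_cert v hv hdeg g ?_ a b hab ?_ ?_ w rfl
    · intro w' hw'
      rw [hWg w' (hfib w' hw')]
    · intro i
      show a.coeff i ∈ (w.restrict K⟮t⟯).toValuationSubring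
      rw [Place.restrict, ValuationSubring.mem_comap]
      exact Fermat.Agent.Lib.RR.mem_of_ord_nonneg w (hWa w hwW i).ge
    · intro i
      show b.coeff i ∈ (w.restrict K⟮t⟯).toValuationSubring
      rw [Place.restrict, ValuationSubring.mem_comap]
      exact Fermat.Agent.Lib.RR.mem_of_ord_nonneg w (hWb w hwW i).ge
  have h1 := w.ord_restrict (F := K⟮t⟯) (AdjoinSimple.gen K t - algebraMap K K⟮t⟯ c)
  rw [Fermat.Agent.S37.Red.H160.coe_gen_sub, he,
    Fermat.Agent.S37.Red.H160.ord_gen_sub_eq_one v c ht hvpos] at h1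
  rw [h1] at hw
  norm_num at hw

/-- **BERTINI.**  A non-constant function on a curve over an algebraically closed field of
characteristic zero has only finitely many branch values. -/
theorem finite_branch_values [IsAlgClosed K] [CharZero K] (j : F) (hj : Transcendental K j)
    [FiniteDimensional K⟮j⟯ F] (φ : F) (hφ : Transcendental K φ) :
    {c : K | ∃ P : Place K F, 2 ≤ P.ord (φ - algebraMap K F c)}.Finite := by
  haveI : FiniteDimensional K⟮φ⟯ F :=
    Fermat.Agent.S24.FF.finiteDimensional_adjoin_of_transcendental hj hφ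
  exact finite_branch_values_gen hφ

end Fermat.Agent.S17.H920

end
-- ===== PACK-END S17/H920/Bertini.lean

-- ===== PACK-BEGIN S17/H320/WHMDefs.lean
section



/-!
# S17 / tower H — GAUSS sub-project: the WEIL HEIGHT MACHINE for fixed divisors (helper320)

Definitions only (FROZEN interface).

* `ExactPole f B` : the finite family `f : ι → F` lies in `L(B)` and generates `O(B)`:
  at every place `P` all `f i` have order `≥ -B P` and some `f i` has order exactly `-B P`.
* `WHMStatement E` : for every FIXED family `f` with `ExactPole f B`, the absolute height of the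
  vector of values `(f i (P))_i` is `(B . P) + O(1)`, uniformly in all places `P` outside the
  support of `B`; here `(B . P) = pairPt E B P = Σ_A B(A) hD(A, P)` is the distance pairing of
  the contract (`S17/H17/HContract.lean`).

Route (file `WHM.lean`): no `(E3)` is needed.  Two families generating the same `O(B')` have
heights differing by `O(1)` (Nullstellensatz on the cone of the joint family, whose points are
places: `H710.exists_place_of_onCone`); compare `f ⊗ (secant products of B⁺) ⊗ (monomials)` with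
`(secant products of B⁻) ⊗ (monomials)` and use Segre + the definition of `hD`.
-/

set_option autoImplicit false

noncomputable section

open AlgebraicCurve

namespace Fermat.Agent.S17.H320

open Fermat.Agent.Lib.RR Fermat.Agent.S17.HWall Fermat.Agent.S17.HContract

variable {K F : Type*} [Field K] [CharZero K] [Field F] [Algebra K F] [FF1 K F]

/-- The family `f` lies in `L(B)` and generates `O(B)` at every place. -/
def ExactPole {ι : Type*} (f : ι → F) (B : Divisor K F) : Prop :=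
  ∀ P : Place K F, (∀ i, f i = 0 ∨ -B P ≤ P.ord (f i)) ∧ ∃ i, f i ≠ 0 ∧ P.ord (f i) = -B P

/-- **(WHM)** the Weil height machine for fixed divisors, in terms of the distance pairing. -/
def WHMStatement (E : EmbData K F) : Prop :=
  ∀ (ι : Type) [Fintype ι] (f : ι → F) (B : Divisor K F), ExactPole f B →
    ∃ C : ℝ, ∀ P : Place K F, B P = 0 →
      |ht (fun i => Fermat.Agent.S17.H230.valAt P (f i)) - pairPt E B P| ≤ C

/-- **(TAN)** input of (GAUSS): a family `w` (think `w_jk = x_j ∂x_k - x_k ∂x_j`, `∂ = d/dt`)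
generating `O(2 m ∞ + W)` (`W = div (dt)`), whose values at `P` are the Plücker coordinates of the
tangent line at `P`, for all `P ≠ ∞` outside the support of `W`. -/
def TanStatement (E : EmbData K F) (W : Divisor K F) : Prop :=
  ∃ w : Fin (E.r + 1) × Fin (E.r + 1) → F,
    ExactPole w ((2 * E.m) • prim E.vinf + W) ∧
    ∀ P : Place K F, P ≠ E.vinf → W P = 0 →
      ∃ c : K, c ≠ 0 ∧ wedge (E.pt P) (E.tn P) = fun p => c * Fermat.Agent.S17.H230.valAt P (w p)

end Fermat.Agent.S17.H320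

end
end
-- ===== PACK-END S17/H320/WHMDefs.lean

-- ===== PACK-BEGIN S15/H221/Eps.lean
section


/-!
# The Manin pairing is anti-invariant under `ε = diag(-1, 1)`  (helper221)

Leaf EPS (= (P4) of `coord/S15-COUNT2-helper111.md`, route P of helper337) of row S15, node DESC, tower COUNT.

`Ad ε : g = [[a, b], [c, d]] ↦ ε g ε⁻¹ = [[a, -b], [-c, d]]`.  SHAPE-INDEPENDENT statement: for ANY subgroup
`Γ ≤ SL(2,ℤ)` of finite index with `-1 ∈ Γ`, ANY commutative ring `R` and ANY map `σ : Γ →* Γ` which is `Ad ε`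
entrywise (`IsEpsConj γ (σ γ)`),

  `maninPairing Γ (x ∘ σ) (y ∘ σ) = - maninPairing Γ x y`      (`x, y` cuspidal).

* `maninPairing_beta`      : the β-formula (S41 A4) over any commutative ring;
* `exists_isHeisLift`      : Heisenberg lifts exist over any commutative ring;
* `maninPairing_comp_eps`  : the theorem above;
* `gamma0Eps n : Gamma0 n ≃* Gamma0 n`, `maninPairing_gamma0Eps`, `isCuspidal_comp_gamma0Eps` : the case `Γ₀(n)`.

Proof: `ζ ∘ σ` is a Heisenberg lift of `(x ∘ σ, y ∘ σ)`; `γ ↦ (σ γ)⁻¹` maps cusp systems to cusp systems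
(`Ad ε` maps positive parabolic elements to negative ones); `ζ (δ⁻¹) = - ζ δ` for parabolic `δ`.
-/

set_option autoImplicit false

namespace Fermat.Agent.S15.H221

open CongruenceSubgroup Matrix.SpecialLinearGroup ModularCurve.Period ModularGroup
open Fermat.Agent.S41 Fermat.Agent.S41.Spec
open scoped MatrixGroups

universe u

/-! ## The β-formula over a commutative ring -/

section Beta

variable {Γ : Subgroup SL(2, ℤ)} [Γ.FiniteIndex]

/-- Heisenberg lifts exist (any commutative ring). -/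
theorem exists_isHeisLift (hneg : (-1 : SL(2, ℤ)) ∈ Γ) {R : Type u} [CommRing R]
    {φ ψ : Additive Γ →+ R} (hφ : IsCuspidalOn Γ φ) (hψ : IsCuspidalOn Γ ψ) :
    ∃ ζ : Γ → R, IsHeisLift Γ φ ψ ζ := by
  obtain ⟨m, hm⟩ := S41.H460.maninRepExists Γ hneg R φ hφ.2
  obtain ⟨e, he⟩ := (S41.H581.maninRepParabolic Γ hneg R φ m hm).1 hφ.1
  obtain ⟨m', hm'⟩ := S41.H460.maninRepExists Γ hneg R ψ hψ.2
  obtain ⟨e', he'⟩ := (S41.H581.maninRepParabolic Γ hneg R ψ m' hm').1 hψ.1
  obtain ⟨ζ, hζ, -⟩ := S41.H221.heisLift S41.H768.torsionClass Γ hneg R φ ψ m m' e e' hm hm' he he'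
  exact ⟨ζ, hζ⟩

/-- **β-formula** (S41 A4) over any commutative ring: for ANY Heisenberg lift and ANY cusp system. -/
theorem maninPairing_beta (hneg : (-1 : SL(2, ℤ)) ∈ Γ) {R : Type u} [CommRing R]
    {φ ψ : Additive Γ →+ R} {ζ : Γ → R} (hφ : IsCuspidalOn Γ φ) (hψ : IsCuspidalOn Γ ψ)
    (hζ : IsHeisLift Γ φ ψ ζ) {ι : Type} [Fintype ι] {γ : ι → Γ} (hγ : IsCuspSystem Γ γ) :
    ∑ i, ζ (γ i) = - maninPairing Γ φ ψ := by
  have hA1 : ManinPairingEqStatement.{u} :=
    S41.H221.maninPairingEq S41.H460.maninRepZero S41.H460.maninRepLinear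
      S41.H581.maninRepParabolic S41.H281.maninSkew
  obtain ⟨m, hm⟩ := S41.H460.maninRepExists Γ hneg R φ hφ.2
  obtain ⟨e, he⟩ := (S41.H581.maninRepParabolic Γ hneg R φ m hm).1 hφ.1
  obtain ⟨m', hm'⟩ := S41.H460.maninRepExists Γ hneg R ψ hψ.2
  obtain ⟨e', he'⟩ := (S41.H581.maninRepParabolic Γ hneg R ψ m' hm').1 hψ.1
  obtain ⟨ζ₀, hζ₀, hβ⟩ :=
    S41.H221.heisLift S41.H768.torsionClass Γ hneg R φ ψ m m' e e' hm hm' he he'
  obtain ⟨ι₀, inst₀, γ₀, h₀, w₀, hsys⟩ := S41.H769.tOrbitSystemExists Γ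
  have hcusp₀ := S41.H769.tOrbitCusp Γ hneg ι₀ γ₀ h₀ w₀ hsys
  have hclass : ∀ g γ : Γ, IsPosParabolic (γ : SL(2, ℤ)) → ζ (g * γ * g⁻¹) = ζ γ := by
    intro g γ hγ
    have htr : ((γ : SL(2, ℤ)) : Matrix (Fin 2) (Fin 2) ℤ).trace ^ 2 = 4 := by
      rw [hγ.2.1]; norm_num
    exact S41.H221.isHeisLift_conj hζ g γ (hφ.1 γ htr) (hψ.1 γ htr)
  rw [S41.H769.cuspSumIndep Γ R ζ hclass ι ι₀ γ γ₀ hγ hcusp₀]
  have hχ : ∀ γ : Γ, IsOfFinOrder γ → S41.H221.heisDiff hζ hζ₀ (Additive.ofMul γ) = 0 := by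
    intro γ hγ
    rw [S41.H221.heisDiff_apply, hζ.2 γ hγ, hζ₀.2 γ hγ, sub_zero]
  have h1 := S41.H236.cuspSumZero S41.H460.maninRepExists Γ hneg R (S41.H221.heisDiff hζ hζ₀) hχ
    ι₀ γ₀ h₀ w₀ hsys
  have h2 := hβ ι₀ γ₀ h₀ w₀ hsys
  simp only [S41.H221.heisDiff_apply, Finset.sum_sub_distrib] at h1
  rw [sub_eq_zero.mp h1, h2, hA1 Γ hneg R φ ψ m m' e' hφ.1 hm hm' he']

end Beta

/-! ## `Ad ε` on matrices -/

/-- `g' = ε g ε⁻¹` for `ε = diag(-1, 1)`: `[[a, b], [c, d]] ↦ [[a, -b], [-c, d]]`. -/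
def IsEpsConj (g g' : SL(2, ℤ)) : Prop :=
  g' 0 0 = g 0 0 ∧ g' 0 1 = - g 0 1 ∧ g' 1 0 = - g 1 0 ∧ g' 1 1 = g 1 1

theorem sl2_ext {g g' : SL(2, ℤ)} (h00 : g 0 0 = g' 0 0) (h01 : g 0 1 = g' 0 1)
    (h10 : g 1 0 = g' 1 0) (h11 : g 1 1 = g' 1 1) : g = g' := by
  apply Matrix.SpecialLinearGroup.ext
  intro i j
  fin_cases i <;> fin_cases j
  · exact h00
  · exact h01
  · exact h10
  · exact h11

theorem sl2_inv_00 (g : SL(2, ℤ)) : (g⁻¹) 0 0 = g 1 1 := by
  rw [Matrix.SpecialLinearGroup.coe_inv, Matrix.adjugate_fin_two]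
  rfl

theorem sl2_inv_01 (g : SL(2, ℤ)) : (g⁻¹) 0 1 = - g 0 1 := by
  rw [Matrix.SpecialLinearGroup.coe_inv, Matrix.adjugate_fin_two]
  rfl

theorem sl2_inv_10 (g : SL(2, ℤ)) : (g⁻¹) 1 0 = - g 1 0 := by
  rw [Matrix.SpecialLinearGroup.coe_inv, Matrix.adjugate_fin_two]
  rfl

theorem sl2_inv_11 (g : SL(2, ℤ)) : (g⁻¹) 1 1 = g 0 0 := by
  rw [Matrix.SpecialLinearGroup.coe_inv, Matrix.adjugate_fin_two]
  rfl

theorem sl2_one_entries : ((1 : SL(2, ℤ)) 0 0 = 1) ∧ ((1 : SL(2, ℤ)) 0 1 = 0) ∧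
    ((1 : SL(2, ℤ)) 1 0 = 0) ∧ ((1 : SL(2, ℤ)) 1 1 = 1) := by
  refine ⟨?_, ?_, ?_, ?_⟩ <;> simp

theorem IsEpsConj.symm {g g' : SL(2, ℤ)} (h : IsEpsConj g g') : IsEpsConj g' g := by
  obtain ⟨h00, h01, h10, h11⟩ := h
  exact ⟨h00.symm, by rw [h01, neg_neg], by rw [h10, neg_neg], h11.symm⟩

theorem IsEpsConj.trace_eq {g g' : SL(2, ℤ)} (h : IsEpsConj g g') :
    (g' : Matrix (Fin 2) (Fin 2) ℤ).trace = (g : Matrix (Fin 2) (Fin 2) ℤ).trace := by
  rw [Matrix.trace_fin_two, Matrix.trace_fin_two, h.1, h.2.2.2]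

theorem IsEpsConj.eq_one_iff {g g' : SL(2, ℤ)} (h : IsEpsConj g g') : g' = 1 ↔ g = 1 := by
  obtain ⟨o00, o01, o10, o11⟩ := sl2_one_entries
  obtain ⟨h00, h01, h10, h11⟩ := h
  constructor
  · intro h1
    subst h1
    refine sl2_ext ?_ ?_ ?_ ?_
    · rw [← h00]
    · rw [o01, ← neg_eq_zero, ← h01, o01]
    · rw [o10, ← neg_eq_zero, ← h10, o10]
    · rw [← h11]
  · intro h1
    subst h1
    refine sl2_ext ?_ ?_ ?_ ?_
    · rw [h00]
    · rw [h01, o01, neg_zero]
    · rw [h10, o10, neg_zero]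
    · rw [h11]

/-- `Ad ε` followed by inversion preserves positive parabolic elements. -/
theorem IsEpsConj.isPosParabolic_inv {g g' : SL(2, ℤ)} (h : IsEpsConj g g')
    (hg : IsPosParabolic g) : IsPosParabolic g'⁻¹ := by
  obtain ⟨hne, htr, hb, hc⟩ := hg
  refine ⟨?_, ?_, ?_, ?_⟩
  · intro h1
    exact hne (h.eq_one_iff.mp (inv_eq_one.mp h1))
  · rw [Matrix.trace_fin_two, sl2_inv_00, sl2_inv_11, h.1, h.2.2.2, add_comm, ← htr,
      Matrix.trace_fin_two]
  · rw [sl2_inv_01, h.2.1, neg_neg]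
    exact hb
  · rw [sl2_inv_10, h.2.2.1, neg_neg]
    exact hc

/-! ## `Ad ε` on a subgroup -/

section Eps

variable {Γ : Subgroup SL(2, ℤ)} (σ : Γ →* Γ)

/-- `σ` is an involution. -/
theorem eps_invol (hσ : ∀ γ : Γ, IsEpsConj (γ : SL(2, ℤ)) (σ γ : SL(2, ℤ))) (γ : Γ) :
    σ (σ γ) = γ := by
  apply Subtype.ext
  obtain ⟨h00, h01, h10, h11⟩ := hσ γ
  obtain ⟨k00, k01, k10, k11⟩ := hσ (σ γ)
  refine sl2_ext ?_ ?_ ?_ ?_
  · rw [k00, h00]
  · rw [k01, h01, neg_neg]
  · rw [k10, h10, neg_neg]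
  · rw [k11, h11]

variable {σ}

theorem isPosParabolic_eps_inv (hσ : ∀ γ : Γ, IsEpsConj (γ : SL(2, ℤ)) (σ γ : SL(2, ℤ)))
    {γ : Γ} (hγ : IsPosParabolic (γ : SL(2, ℤ))) :
    IsPosParabolic (((σ γ)⁻¹ : Γ) : SL(2, ℤ)) := by
  have := (hσ γ).isPosParabolic_inv hγ
  simpa using this

theorem isPrimPosParabolic_eps_inv (hσ : ∀ γ : Γ, IsEpsConj (γ : SL(2, ℤ)) (σ γ : SL(2, ℤ)))
    {γ : Γ} (hγ : IsPrimPosParabolic Γ γ) : IsPrimPosParabolic Γ (σ γ)⁻¹ := by
  refine ⟨isPosParabolic_eps_inv hσ hγ.1, fun γ' k hγ' hk => ?_⟩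
  refine hγ.2 (σ γ')⁻¹ k (isPosParabolic_eps_inv hσ hγ') ?_
  rw [inv_pow, ← map_pow, hk, map_inv, inv_inv, eps_invol σ hσ]

/-- `γ ↦ (σ γ)⁻¹` maps cusp systems to cusp systems. -/
theorem isCuspSystem_eps_inv (hσ : ∀ γ : Γ, IsEpsConj (γ : SL(2, ℤ)) (σ γ : SL(2, ℤ)))
    {ι : Type} {γ : ι → Γ} (hγ : IsCuspSystem Γ γ) :
    IsCuspSystem Γ (fun i => (σ (γ i))⁻¹) := by
  refine ⟨fun i => isPrimPosParabolic_eps_inv hσ (hγ.1 i), fun γ' hγ' => ?_⟩
  obtain ⟨i, ⟨g, hg⟩, huniq⟩ := hγ.2 (σ γ')⁻¹ (isPrimPosParabolic_eps_inv hσ hγ')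
  refine ⟨i, ⟨σ g, ?_⟩, fun j hj => ?_⟩
  · show σ g * (σ (γ i))⁻¹ * (σ g)⁻¹ = γ'
    have h1 : σ (g * γ i * g⁻¹) = (γ')⁻¹ := by
      rw [hg, map_inv, eps_invol σ hσ]
    rw [map_mul, map_mul, map_inv] at h1
    rw [← inv_inj, ← h1]
    group
  · obtain ⟨g', hg'⟩ := hj
    apply huniq
    refine ⟨σ g', ?_⟩
    have h1 : σ (g' * (σ (γ j))⁻¹ * g'⁻¹) = σ γ' := by
      rw [hg']
    rw [map_mul, map_mul, map_inv, map_inv, eps_invol σ hσ] at h1
    rw [← h1]
    group

theorem isCuspidalOn_comp_eps (hσ : ∀ γ : Γ, IsEpsConj (γ : SL(2, ℤ)) (σ γ : SL(2, ℤ)))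
    {A : Type*} [AddCommGroup A] {x : Additive Γ →+ A} (hx : IsCuspidalOn Γ x) :
    IsCuspidalOn Γ (x.comp (MonoidHom.toAdditive σ)) := by
  refine ⟨fun γ hγ => ?_, fun γ hγ => ?_⟩
  · refine hx.1 (σ γ) ?_
    rw [(hσ γ).trace_eq]
    exact hγ
  · exact hx.2 (σ γ) (σ.isOfFinOrder hγ)

theorem isHeisLift_comp_eps {R : Type*} [CommRing R] {φ ψ : Additive Γ →+ R} {ζ : Γ → R}
    (hζ : IsHeisLift Γ φ ψ ζ) :
    IsHeisLift Γ (φ.comp (MonoidHom.toAdditive σ)) (ψ.comp (MonoidHom.toAdditive σ))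
      (fun γ => ζ (σ γ)) := by
  refine ⟨fun γ γ' => ?_, fun γ hγ => ?_⟩
  · show ζ (σ (γ * γ')) = _
    rw [map_mul, hζ.1]
    rfl
  · exact hζ.2 _ (σ.isOfFinOrder hγ)

theorem isHeisLift_inv {R : Type*} [CommRing R] {φ ψ : Additive Γ →+ R} {ζ : Γ → R}
    (hζ : IsHeisLift Γ φ ψ ζ) (δ : Γ) (hδ : φ (Additive.ofMul δ) = 0) : ζ δ⁻¹ = - ζ δ := by
  have e1 := hζ.1 δ δ⁻¹
  rw [mul_inv_cancel, S41.H221.isHeisLift_map_one hζ, hδ, zero_mul, add_zero] at e1
  linear_combination -e1

/-- **EPS.**  The Manin pairing is anti-invariant under `Ad ε`, `ε = diag(-1, 1)`: any commutative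
ring, any subgroup of finite index containing `-1`, any realisation `σ` of `Ad ε` on `Γ`. -/
theorem maninPairing_comp_eps [Γ.FiniteIndex] (hneg : (-1 : SL(2, ℤ)) ∈ Γ)
    (hσ : ∀ γ : Γ, IsEpsConj (γ : SL(2, ℤ)) (σ γ : SL(2, ℤ)))
    {R : Type u} [CommRing R] {x y : Additive Γ →+ R} (hx : IsCuspidalOn Γ x)
    (hy : IsCuspidalOn Γ y) :
    maninPairing Γ (x.comp (MonoidHom.toAdditive σ)) (y.comp (MonoidHom.toAdditive σ)) =
      - maninPairing Γ x y := by
  obtain ⟨ζ, hζ⟩ := exists_isHeisLift hneg hx hy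
  obtain ⟨ι, inst, γ, h, w, hsys⟩ := S41.H769.tOrbitSystemExists Γ
  have hcusp := S41.H769.tOrbitCusp Γ hneg ι γ h w hsys
  have h1 := maninPairing_beta hneg (isCuspidalOn_comp_eps hσ hx) (isCuspidalOn_comp_eps hσ hy)
    (isHeisLift_comp_eps (σ := σ) hζ) hcusp
  have h2 := maninPairing_beta hneg hx hy hζ (isCuspSystem_eps_inv hσ hcusp)
  have h3 : ∀ i, ζ (σ (γ i))⁻¹ = - ζ (σ (γ i)) := by
    intro i
    refine isHeisLift_inv hζ _ (hx.1 _ ?_)
    rw [(hσ (γ i)).trace_eq, (hcusp.1 i).1.2.1]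
    norm_num
  simp only [h3, Finset.sum_neg_distrib, neg_inj] at h2
  rw [← h2, ← neg_eq_iff_eq_neg, ← h1]

end Eps

/-! ## The case `Γ₀(n)` -/

/-- `ε g ε⁻¹` as a matrix of determinant `1`. -/
def epsSL (g : SL(2, ℤ)) : SL(2, ℤ) :=
  ⟨!![g 0 0, - g 0 1; - g 1 0, g 1 1], by
    rw [Matrix.det_fin_two_of]
    have := g.det_coe
    rw [Matrix.det_fin_two] at this
    linear_combination this⟩

theorem isEpsConj_epsSL (g : SL(2, ℤ)) : IsEpsConj g (epsSL g) :=
  ⟨rfl, rfl, rfl, rfl⟩

theorem coe_epsSL (g : SL(2, ℤ)) :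
    (epsSL g : Matrix (Fin 2) (Fin 2) ℤ) = !![g 0 0, - g 0 1; - g 1 0, g 1 1] := rfl

theorem epsSL_mul (g h : SL(2, ℤ)) : epsSL (g * h) = epsSL g * epsSL h := by
  apply Subtype.ext
  rw [Matrix.SpecialLinearGroup.coe_mul, coe_epsSL, coe_epsSL, coe_epsSL,
    Matrix.SpecialLinearGroup.coe_mul]
  ext i j
  fin_cases i <;> fin_cases j <;>
    simp [Matrix.mul_apply, Fin.sum_univ_two] <;> ring

theorem epsSL_one : epsSL 1 = 1 := by
  apply Matrix.SpecialLinearGroup.ext
  intro i j
  fin_cases i <;> fin_cases j <;> simp [epsSL]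

theorem epsSL_epsSL (g : SL(2, ℤ)) : epsSL (epsSL g) = g := by
  apply Matrix.SpecialLinearGroup.ext
  intro i j
  fin_cases i <;> fin_cases j <;> simp [epsSL]

theorem epsSL_mem_gamma0 {n : ℕ} {g : SL(2, ℤ)} (hg : g ∈ Gamma0 n) : epsSL g ∈ Gamma0 n := by
  rw [Gamma0_mem] at hg ⊢
  show ((- g 1 0 : ℤ) : ZMod n) = 0
  rw [Int.cast_neg, hg, neg_zero]

/-- `Ad ε` on `Γ₀(n)`. -/
def gamma0Eps (n : ℕ) : Gamma0 n ≃* Gamma0 n where
  toFun γ := ⟨epsSL γ, epsSL_mem_gamma0 γ.2⟩
  invFun γ := ⟨epsSL γ, epsSL_mem_gamma0 γ.2⟩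
  left_inv _ := Subtype.ext (epsSL_epsSL _)
  right_inv _ := Subtype.ext (epsSL_epsSL _)
  map_mul' _ _ := Subtype.ext (epsSL_mul _ _)

theorem coe_gamma0Eps (n : ℕ) (γ : Gamma0 n) :
    ((gamma0Eps n γ : Gamma0 n) : SL(2, ℤ)) = epsSL γ := rfl

theorem gamma0Eps_entries (n : ℕ) (γ : Gamma0 n) :
    IsEpsConj (γ : SL(2, ℤ)) ((gamma0Eps n γ : Gamma0 n) : SL(2, ℤ)) :=
  isEpsConj_epsSL _

theorem gamma0Eps_gamma0Eps (n : ℕ) (γ : Gamma0 n) : gamma0Eps n (gamma0Eps n γ) = γ :=
  Subtype.ext (epsSL_epsSL _)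

/-- `x ↦ x ∘ Ad ε` preserves the cuspidal classes of `Γ₀(n)`. -/
theorem isCuspidal_comp_gamma0Eps {n : ℕ} {A : Type*} [AddCommGroup A]
    {x : Additive (Gamma0 n) →+ A} (hx : IsCuspidal x) :
    IsCuspidal (x.comp (MonoidHom.toAdditive (gamma0Eps n).toMonoidHom)) :=
  isCuspidalOn_comp_eps (σ := (gamma0Eps n).toMonoidHom) (gamma0Eps_entries n) hx

/-- **EPS for `Γ₀(n)`**, any commutative ring (`ℤ`, `ℚ`, `ZMod m`, …). -/
theorem maninPairing_gamma0Eps {n : ℕ} (hn : n ≠ 0) {R : Type u} [CommRing R]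
    {x y : Additive (Gamma0 n) →+ R} (hx : IsCuspidal x) (hy : IsCuspidal y) :
    maninPairing (Gamma0 n) (x.comp (MonoidHom.toAdditive (gamma0Eps n).toMonoidHom))
        (y.comp (MonoidHom.toAdditive (gamma0Eps n).toMonoidHom)) =
      - maninPairing (Gamma0 n) x y := by
  have := S41.H221.finiteIndex_gamma0 hn
  exact maninPairing_comp_eps (σ := (gamma0Eps n).toMonoidHom) (S41.H221.neg_one_mem_gamma0 n)
    (gamma0Eps_entries n) hx hy

end Fermat.Agent.S15.H221

end
-- ===== PACK-END S15/H221/Eps.lean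

-- ===== PACK-BEGIN S15/H106/PeuGlue.lean
section



/-!
# S15 / DESC, PEU-glue: `Peu1JStatement` and `PeuOmegaJStatement` from T1 + T2 (helper106)

Blueprint `coord/S15-DESC-blueprint.md` sec. 4.  For an Eisenstein piece `F' ≤ F ≤ J₀(p)[r]` and
`y ∈ Y(F)` (so `x = r y` is rational and the cocycle of `y` takes values in `F`), leaf **T1**
gives a Hopf model on the extension `M = E_x` of `ℤ/r` (generated by `y'`) by `J₀(p)[r]`.
The sub-object `N = ℤ y' + ι F` and its quotient `Q = N / ι F'` are Galois-stable, so `Q` carries a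
Hopf model (`S19.H435.hopfModel_of_subquotient`, ORD block as a hypothesis); `Q` is generated by
`e` (a generator of `F / F'`) and `y`, and leaf **T2** applies to it verbatim.

* `exists_subquotient_h106` : the abstract sub-quotient (action, continuity, Hopf model);
* `exists_nsmul_sub_mem_h106` : `F / F'` of prime order is generated by any `e ∉ F'`;
* `exists_piece_model_h106` : the model `Q` of the piece with its dictionary;
* `peu1J_of` : `OrdStatement → T1Statement → T2OneStatement → Peu1JStatement`;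
* `peuOmegaJ_of` : `OrdStatement → T1Statement → T2OmegaStatement → PeuOmegaJStatement`.

The unconditional forms are in `Fermat/Agent/S15/H106/PeuJ.lean`.
-/

set_option autoImplicit false
set_option linter.style.haveILetI false
set_option linter.unusedVariables false

noncomputable section

namespace Fermat.Agent.S15.H106

open Fermat.Agent.S15.H975 ModularCurve

/-! ## The abstract sub-quotient -/

/-- An additive action fixes zero. -/
theorem act_zero_glue_h106 {M : Type} [AddCommGroup M] {act : _root_.Fermat.Agent.S15.H975.Gal → M → M}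
    (hc : Fermat.Agent.S19.IsContAddAction act) (σ : _root_.Fermat.Agent.S15.H975.Gal) : act σ 0 = 0 := by
  have h := hc.act_add σ 0 0
  rw [add_zero] at h
  exact left_eq_add.mp h

/-- The additive map of an additive action. -/
def actHom_h106 {M : Type} [AddCommGroup M] {act : _root_.Fermat.Agent.S15.H975.Gal → M → M}
    (hc : Fermat.Agent.S19.IsContAddAction act) (σ : _root_.Fermat.Agent.S15.H975.Gal) : M →+ M :=
  AddMonoidHom.mk' (act σ) (hc.act_add σ)

theorem actHom_h106_apply {M : Type} [AddCommGroup M] {act : _root_.Fermat.Agent.S15.H975.Gal → M → M}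
    (hc : Fermat.Agent.S19.IsContAddAction act) (σ : _root_.Fermat.Agent.S15.H975.Gal) (m : M) :
    actHom_h106 hc σ m = act σ m := rfl

theorem act_sub_glue_h106 {M : Type} [AddCommGroup M] {act : _root_.Fermat.Agent.S15.H975.Gal → M → M}
    (hc : Fermat.Agent.S19.IsContAddAction act) (σ : _root_.Fermat.Agent.S15.H975.Gal) (a b : M) :
    act σ (a - b) = act σ a - act σ b :=
  map_sub (actHom_h106 hc σ) a b

theorem act_zsmul_glue_h106 {M : Type} [AddCommGroup M] {act : _root_.Fermat.Agent.S15.H975.Gal → M → M}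
    (hc : Fermat.Agent.S19.IsContAddAction act) (σ : _root_.Fermat.Agent.S15.H975.Gal) (k : ℤ) (a : M) :
    act σ (k • a) = k • act σ a :=
  map_zsmul (actHom_h106 hc σ) k a

theorem act_nsmul_glue_h106 {M : Type} [AddCommGroup M] {act : _root_.Fermat.Agent.S15.H975.Gal → M → M}
    (hc : Fermat.Agent.S19.IsContAddAction act) (σ : _root_.Fermat.Agent.S15.H975.Gal) (k : ℕ) (a : M) :
    act σ (k • a) = k • act σ a :=
  map_nsmul (actHom_h106 hc σ) k a

/-- **Sub-quotients.**  For stable subgroups `N' ≤ N` of a module with a Hopf model, the quotient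
`N / N'` with the induced action is a continuous additive action with a Hopf model. -/
theorem exists_subquotient_h106 (hord : Fermat.Agent.S19.OrdStatement) {r : ℕ} [Fact r.Prime]
    {M : Type} [AddCommGroup M] [Finite M] {act : _root_.Fermat.Agent.S15.H975.Gal → M → M}
    (hc : Fermat.Agent.S19.IsContAddAction act) (hH : Fermat.Agent.S19.HopfModel r M act)
    (N N' : AddSubgroup M)
    (hN : ∀ σ, ∀ n ∈ N, act σ n ∈ N) (hN' : ∀ σ, ∀ n ∈ N', act σ n ∈ N') :
    ∃ (Q : Type) (_ : AddCommGroup Q) (_ : Finite Q) (actQ : _root_.Fermat.Agent.S15.H975.Gal → Q → Q) (π : ↥N →+ Q),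
      Fermat.Agent.S19.IsContAddAction actQ ∧ Fermat.Agent.S19.HopfModel r Q actQ ∧
      Function.Surjective π ∧ (∀ n : ↥N, π n = 0 ↔ (n : M) ∈ N') ∧
      (∀ (σ : _root_.Fermat.Agent.S15.H975.Gal) (n : ↥N), actQ σ (π n) = π ⟨act σ n, hN σ n n.2⟩) := by
  classical
  let actN : _root_.Fermat.Agent.S15.H975.Gal → ↥N → ↥N := fun σ n => ⟨act σ n, hN σ n n.2⟩
  let actNHom : _root_.Fermat.Agent.S15.H975.Gal → (↥N →+ ↥N) := fun σ =>
    AddMonoidHom.mk' (actN σ) (fun a b => Subtype.ext (hc.act_add σ a b))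
  let K : AddSubgroup ↥N := N'.addSubgroupOf N
  have hK : ∀ σ, K ≤ K.comap (actNHom σ) := by
    intro σ n hn
    have h1 : (n : M) ∈ N' := AddSubgroup.mem_addSubgroupOf.mp hn
    exact AddSubgroup.mem_addSubgroupOf.mpr (hN' σ n h1)
  let actQ : _root_.Fermat.Agent.S15.H975.Gal → (↥N ⧸ K) → (↥N ⧸ K) := fun σ =>
    QuotientAddGroup.map K K (actNHom σ) (hK σ)
  have hactQ : ∀ (σ : _root_.Fermat.Agent.S15.H975.Gal) (n : ↥N), actQ σ (QuotientAddGroup.mk n) =
      QuotientAddGroup.mk (actN σ n) := fun σ n => rfl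
  refine ⟨↥N ⧸ K, inferInstance, inferInstance, actQ, QuotientAddGroup.mk' K, ?_, ?_,
    QuotientAddGroup.mk'_surjective K, ?_, fun σ n => rfl⟩
  · refine ⟨?_, ?_, ?_, ?_⟩
    · intro m
      obtain ⟨n, rfl⟩ := QuotientAddGroup.mk_surjective m
      rw [hactQ]
      exact congrArg _ (Subtype.ext (hc.act_one n))
    · intro σ τ m
      obtain ⟨n, rfl⟩ := QuotientAddGroup.mk_surjective m
      rw [hactQ, hactQ, hactQ]
      exact congrArg _ (Subtype.ext (hc.act_mul σ τ n))
    · intro σ m m'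
      exact map_add (QuotientAddGroup.map K K (actNHom σ) (hK σ)) m m'
    · intro m
      obtain ⟨n, rfl⟩ := QuotientAddGroup.mk_surjective m
      obtain ⟨L, hL, hLσ⟩ := hc.cont (n : M)
      refine ⟨L, hL, fun σ hσ => ?_⟩
      rw [hactQ]
      exact congrArg _ (Subtype.ext (hLσ σ hσ))
  · exact Fermat.Agent.S19.H435.hopfModel_of_subquotient hord hH N.subtype
      Subtype.val_injective actN (fun σ n => rfl) (QuotientAddGroup.mk' K)
      (QuotientAddGroup.mk'_surjective K) actQ (fun σ n => rfl)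
  · intro n
    exact (QuotientAddGroup.eq_zero_iff n).trans AddSubgroup.mem_addSubgroupOf

/-! ## Pieces of prime index -/

/-- If `F'` has prime index `r` in `F` and `e ∈ F ∖ F'`, then `F = F' + ℕ e`. -/
theorem exists_nsmul_sub_mem_h106 {J : Type} [AddCommGroup J] (r : ℕ) [Fact r.Prime]
    (F' F : AddSubgroup J) (hidx : F'.relIndex F = r) (e : J) (he : e ∈ F) (he' : e ∉ F')
    (f : J) (hf : f ∈ F) : ∃ m : ℕ, f - m • e ∈ F' := by
  have hcard : Nat.card (↥F ⧸ F'.addSubgroupOf F) = r := hidx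
  have hne : (QuotientAddGroup.mk (⟨e, he⟩ : ↥F) : ↥F ⧸ F'.addSubgroupOf F) ≠ 0 := by
    intro h
    exact he' (AddSubgroup.mem_addSubgroupOf.mp ((QuotientAddGroup.eq_zero_iff _).mp h))
  have hmem := mem_multiples_of_prime_card hcard hne
    (g' := (QuotientAddGroup.mk (⟨f, hf⟩ : ↥F) : ↥F ⧸ F'.addSubgroupOf F))
  obtain ⟨m, hm⟩ := hmem
  have hm : m • (QuotientAddGroup.mk (⟨e, he⟩ : ↥F) : ↥F ⧸ F'.addSubgroupOf F) =
      QuotientAddGroup.mk (⟨f, hf⟩ : ↥F) := hm
  refine ⟨m, ?_⟩
  have h2 : (QuotientAddGroup.mk ((⟨f, hf⟩ : ↥F) - m • (⟨e, he⟩ : ↥F)) :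
      ↥F ⧸ F'.addSubgroupOf F) = 0 := by
    rw [QuotientAddGroup.mk_sub, QuotientAddGroup.mk_nsmul, hm, sub_self]
  have h3 := AddSubgroup.mem_addSubgroupOf.mp ((QuotientAddGroup.eq_zero_iff _).mp h2)
  simpa using h3

/-- Integer multiples of an element killed by `r` are natural multiples. -/
theorem exists_nsmul_eq_zsmul_h106 {J : Type} [AddCommGroup J] (r : ℕ) (hr : 0 < r) (a : J)
    (ha : r • a = 0) (k : ℤ) : ∃ j : ℕ, j • a = k • a := by
  refine ⟨(k % (r : ℤ)).toNat, ?_⟩
  have hr' : (r : ℤ) ≠ 0 := by exact_mod_cast hr.ne'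
  have h1 : ((k % (r : ℤ)).toNat : ℤ) = k % (r : ℤ) :=
    Int.toNat_of_nonneg (Int.emod_nonneg k hr')
  have h2 : k • a = (k % (r : ℤ)) • a := by
    conv_lhs => rw [← Int.emod_add_mul_ediv k (r : ℤ)]
    rw [add_smul, mul_smul, natCast_zsmul, smul_comm, ha, smul_zero, add_zero]
  calc (k % (r : ℤ)).toNat • a = ((k % (r : ℤ)).toNat : ℤ) • a := (natCast_zsmul _ _).symm
    _ = (k % (r : ℤ)) • a := by rw [h1]
    _ = k • a := h2.symm

/-! ## The model of a piece -/

section Abs

variable {r : ℕ} {J : Type} [AddCommGroup J] (g : _root_.Fermat.Agent.S15.H975.Gal → J → J) (T F' F : AddSubgroup J)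
  {M : Type} [AddCommGroup M] (act : _root_.Fermat.Agent.S15.H975.Gal → M → M) (ι : ↥T →+ M) (y' : M)

/-- `ι` of a difference `a - k b` computed in `J`. -/
theorem iota_sub_nsmul_h106 (a b : ↥T) (k : ℕ) (h : (a : J) - k • (b : J) ∈ T) :
    ι ⟨(a : J) - k • (b : J), h⟩ = ι a - k • ι b := by
  have h1 : (⟨(a : J) - k • (b : J), h⟩ : ↥T) = a - k • b := Subtype.ext rfl
  rw [h1]
  exact (map_sub ι a (k • b)).trans (congrArg (fun t => ι a - t) (map_nsmul ι k b))

/-- **The two subgroups** `N' = ι F' ≤ N = ℤ y' + ι F` of `M`, with their membership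
characterisations and their stability. -/
theorem exists_subgroups_h106 (hle : F' ≤ F) (hFt : F ≤ T)
    (hF' : ∀ σ, ∀ f ∈ F', g σ f ∈ F') (hF : ∀ σ, ∀ f ∈ F, g σ f ∈ F)
    (y : J) (hy : ∀ σ, g σ y - y ∈ F)
    (hc : Fermat.Agent.S19.IsContAddAction act) (hιinj : Function.Injective ι)
    (hιact : ∀ (σ : _root_.Fermat.Agent.S15.H975.Gal) (w w' : ↥T), (w' : J) = g σ (w : J) → act σ (ι w) = ι w')
    (hyact : ∀ (σ : _root_.Fermat.Agent.S15.H975.Gal) (w : ↥T), (w : J) = g σ y - y → act σ y' = y' + ι w) :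
    ∃ N N' : AddSubgroup M,
      (∀ w : ↥T, ι w ∈ N' ↔ (w : J) ∈ F') ∧
      (∀ n ∈ N', ∃ w : ↥T, (w : J) ∈ F' ∧ ι w = n) ∧
      (∀ w : ↥T, (w : J) ∈ F → ι w ∈ N) ∧ y' ∈ N ∧
      (∀ n ∈ N, ∃ (k : ℤ) (w : ↥T), (w : J) ∈ F ∧ n = k • y' + ι w) ∧
      (∀ σ, ∀ n ∈ N, act σ n ∈ N) ∧ (∀ σ, ∀ n ∈ N', act σ n ∈ N') := by
  have hmemN' : ∀ w : ↥T, ι w ∈ (F'.addSubgroupOf T).map ι ↔ (w : J) ∈ F' := by
    intro w
    constructor
    · rintro ⟨w', hw', hww'⟩
      rw [← hιinj hww']
      exact AddSubgroup.mem_addSubgroupOf.mp hw'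
    · intro hw
      exact ⟨w, AddSubgroup.mem_addSubgroupOf.mpr hw, rfl⟩
  have hN'range : ∀ n ∈ (F'.addSubgroupOf T).map ι, ∃ w : ↥T, (w : J) ∈ F' ∧ ι w = n := by
    rintro n ⟨w, hw, rfl⟩
    exact ⟨w, AddSubgroup.mem_addSubgroupOf.mp hw, rfl⟩
  have hιN : ∀ w : ↥T, (w : J) ∈ F →
      ι w ∈ AddSubgroup.zmultiples y' ⊔ (F.addSubgroupOf T).map ι := fun w hw =>
    AddSubgroup.mem_sup_right ⟨w, AddSubgroup.mem_addSubgroupOf.mpr hw, rfl⟩
  have hy'N : y' ∈ AddSubgroup.zmultiples y' ⊔ (F.addSubgroupOf T).map ι :=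
    AddSubgroup.mem_sup_left (AddSubgroup.mem_zmultiples y')
  have hdec : ∀ n ∈ AddSubgroup.zmultiples y' ⊔ (F.addSubgroupOf T).map ι,
      ∃ (k : ℤ) (w : ↥T), (w : J) ∈ F ∧ n = k • y' + ι w := by
    intro n hn
    obtain ⟨a, ha, b, hb, rfl⟩ := AddSubgroup.mem_sup.mp hn
    obtain ⟨k, rfl⟩ := AddSubgroup.mem_zmultiples_iff.mp ha
    obtain ⟨w, hw, rfl⟩ := hb
    exact ⟨k, w, AddSubgroup.mem_addSubgroupOf.mp hw, rfl⟩
  refine ⟨AddSubgroup.zmultiples y' ⊔ (F.addSubgroupOf T).map ι, (F'.addSubgroupOf T).map ι,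
    hmemN', hN'range, hιN, hy'N, hdec, ?_, ?_⟩
  · intro σ n hn
    obtain ⟨k, w, hwF, rfl⟩ := hdec n hn
    have h1 : g σ (w : J) ∈ F := hF σ _ hwF
    have h2 : act σ (ι w) = ι ⟨g σ (w : J), hFt h1⟩ := hιact σ w ⟨_, hFt h1⟩ rfl
    have h3 : act σ y' = y' + ι ⟨g σ y - y, hFt (hy σ)⟩ := hyact σ ⟨_, hFt (hy σ)⟩ rfl
    rw [hc.act_add, act_zsmul_glue_h106 hc, h2, h3]
    exact AddSubgroup.add_mem _
      (AddSubgroup.zsmul_mem _ (AddSubgroup.add_mem _ hy'N (hιN _ (hy σ))) k) (hιN _ h1)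
  · intro σ n hn
    obtain ⟨w, hw, rfl⟩ := hN'range n hn
    have h1 : g σ (w : J) ∈ F' := hF' σ _ hw
    have h2 : act σ (ι w) = ι ⟨g σ (w : J), hFt (hle h1)⟩ := hιact σ w ⟨_, hFt (hle h1)⟩ rfl
    rw [h2]
    exact (hmemN' _).mpr h1

/-- **The model of a piece, abstract form.** -/
theorem exists_piece_model_abs_h106 (hord : Fermat.Agent.S19.OrdStatement) (hr : r.Prime)
    [Finite M] (hle : F' ≤ F) (hFt : F ≤ T) (hTr : ∀ t ∈ T, r • t = 0)
    (hF' : ∀ σ, ∀ f ∈ F', g σ f ∈ F') (hF : ∀ σ, ∀ f ∈ F, g σ f ∈ F)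
    (hidx : F'.relIndex F = r) (e : J) (he : e ∈ F) (he' : e ∉ F')
    (y : J) (hy : ∀ σ, g σ y - y ∈ F)
    (hc : Fermat.Agent.S19.IsContAddAction act) (hH : Fermat.Agent.S19.HopfModel r M act)
    (hιinj : Function.Injective ι) (hry' : r • y' = 0)
    (hind : ∀ j : ℕ, j • y' ∈ ι.range → r ∣ j)
    (hιact : ∀ (σ : _root_.Fermat.Agent.S15.H975.Gal) (w w' : ↥T), (w' : J) = g σ (w : J) → act σ (ι w) = ι w')
    (hyact : ∀ (σ : _root_.Fermat.Agent.S15.H975.Gal) (w : ↥T), (w : J) = g σ y - y → act σ y' = y' + ι w) :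
    ∃ (Q : Type) (_ : AddCommGroup Q) (_ : Finite Q) (actQ : _root_.Fermat.Agent.S15.H975.Gal → Q → Q) (eQ yQ : Q),
      Fermat.Agent.S19.IsContAddAction actQ ∧ Fermat.Agent.S19.HopfModel r Q actQ ∧
      r • eQ = 0 ∧ r • yQ = 0 ∧ eQ ≠ 0 ∧
      (∀ j : ℕ, j • yQ ∈ AddSubgroup.zmultiples eQ → r ∣ j) ∧
      (∀ q : Q, ∃ i j : ℕ, q = i • eQ + j • yQ) ∧
      (∀ (σ : _root_.Fermat.Agent.S15.H975.Gal) (k : ℕ), g σ e - k • e ∈ F' → actQ σ eQ = k • eQ) ∧
      (∀ (σ : _root_.Fermat.Agent.S15.H975.Gal) (m : ℕ), g σ y - y - m • e ∈ F' → actQ σ yQ = yQ + m • eQ) ∧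
      (∀ σ : _root_.Fermat.Agent.S15.H975.Gal, actQ σ yQ = yQ → g σ y - y ∈ F') := by
  classical
  haveI : Fact r.Prime := ⟨hr⟩
  obtain ⟨N, N', hmemN', hN'range, hιN, hy'N, hdec, hNst, hN'st⟩ :=
    exists_subgroups_h106 g T F' F act ι y' hle hFt hF' hF y hy hc hιinj hιact hyact
  obtain ⟨Q, iQ, fQ, actQ, π, hcQ, hHQ, hπsurj, hπ0, hπact⟩ :=
    exists_subquotient_h106 hord hc hH N N' hNst hN'st
  have heT : e ∈ T := hFt he
  obtain ⟨eT, heTdef⟩ : ∃ eT : ↥T, (eT : J) = e := ⟨⟨e, heT⟩, rfl⟩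
  obtain ⟨eN, heN⟩ : ∃ eN : ↥N, (eN : M) = ι eT := ⟨⟨ι eT, hιN eT (heTdef ▸ he)⟩, rfl⟩
  obtain ⟨yN, hyN⟩ : ∃ yN : ↥N, (yN : M) = y' := ⟨⟨y', hy'N⟩, rfl⟩
  have hreT : r • eT = 0 := Subtype.ext (hTr _ eT.2)
  have hacty : ∀ σ : _root_.Fermat.Agent.S15.H975.Gal, act σ y' = y' + ι ⟨g σ y - y, hFt (hy σ)⟩ :=
    fun σ => hyact σ ⟨_, hFt (hy σ)⟩ rfl
  -- equality in `Q` from a difference in `ι F'`
  have hπeq : ∀ (n₁ n₂ : ↥N) (w : ↥T), (w : J) ∈ F' → (n₁ : M) = (n₂ : M) + ι w →
      π n₁ = π n₂ := by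
    intro n₁ n₂ w hw h
    have h2 : ((n₁ - n₂ : ↥N) : M) = ι w := by
      rw [AddSubgroup.coe_sub, h, add_sub_cancel_left]
    have h1 : π (n₁ - n₂) = 0 := (hπ0 _).mpr (h2 ▸ (hmemN' w).mpr hw)
    rw [map_sub] at h1
    exact sub_eq_zero.mp h1
  have hπne : ∀ (n₁ n₂ : ↥N), π n₁ = π n₂ →
      ∃ w : ↥T, (w : J) ∈ F' ∧ (n₁ : M) = (n₂ : M) + ι w := by
    intro n₁ n₂ h
    have h1 : π (n₁ - n₂) = 0 := by rw [map_sub, h, sub_self]
    have h2 := (hπ0 _).mp h1
    obtain ⟨w, hw, hww⟩ := hN'range _ h2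
    refine ⟨w, hw, ?_⟩
    rw [hww, AddSubgroup.coe_sub, add_sub_cancel]
  refine ⟨Q, iQ, fQ, actQ, π eN, π yN, hcQ, hHQ, ?_, ?_, ?_, ?_, ?_, ?_, ?_, ?_⟩
  · -- `r • eQ = 0`
    have h1 : r • eN = 0 := by
      apply Subtype.ext
      rw [AddSubgroup.coe_nsmul, heN, ← map_nsmul, hreT, map_zero]
      rfl
    rw [← map_nsmul, h1, map_zero]
  · -- `r • yQ = 0`
    have h1 : r • yN = 0 := by
      apply Subtype.ext
      rw [AddSubgroup.coe_nsmul, hyN, hry']
      rfl
    rw [← map_nsmul, h1, map_zero]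
  · -- `eQ ≠ 0`
    intro h
    have h1 := (hπ0 _).mp h
    rw [heN] at h1
    exact he' (heTdef ▸ (hmemN' eT).mp h1)
  · -- independence
    intro j hj
    obtain ⟨k, hk⟩ := AddSubgroup.mem_zmultiples_iff.mp hj
    have h1 : π (j • yN) = π (k • eN) := by rw [map_nsmul, map_zsmul, hk]
    obtain ⟨w, -, hw⟩ := hπne _ _ h1
    rw [AddSubgroup.coe_nsmul, AddSubgroup.coe_zsmul, hyN, heN] at hw
    apply hind j
    refine ⟨k • eT + w, ?_⟩
    rw [hw, map_add, map_zsmul]
  · -- generation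
    intro q
    obtain ⟨n, rfl⟩ := hπsurj q
    obtain ⟨k, w, hwF, hn⟩ := hdec _ n.2
    obtain ⟨j, hj⟩ := exists_nsmul_eq_zsmul_h106 r hr.pos y' hry' k
    obtain ⟨m, hm⟩ := exists_nsmul_sub_mem_h106 r F' F hidx e he he' (w : J) hwF
    rw [← heTdef] at hm
    refine ⟨m, j, ?_⟩
    rw [← map_nsmul, ← map_nsmul, ← map_add]
    refine hπeq n (m • eN + j • yN) ⟨(w : J) - m • (eT : J), hFt (hle hm)⟩ hm ?_
    rw [iota_sub_nsmul_h106 T ι w eT m, AddSubgroup.coe_add, AddSubgroup.coe_nsmul,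
      AddSubgroup.coe_nsmul, heN, hyN, hn, hj]
    abel
  · -- the action on `eQ`
    intro σ k hk
    rw [← heTdef] at hk
    have hσe : g σ (eT : J) ∈ T := hFt (hF σ _ (heTdef ▸ he))
    have h1 : act σ (ι eT) = ι ⟨g σ (eT : J), hσe⟩ := hιact σ eT ⟨_, hσe⟩ rfl
    have h2 : ι ⟨g σ (eT : J) - k • (eT : J), hFt (hle hk)⟩ = ι ⟨g σ (eT : J), hσe⟩ - k • ι eT :=
      iota_sub_nsmul_h106 T ι ⟨g σ (eT : J), hσe⟩ eT k (hFt (hle hk))
    calc actQ σ (π eN) = π ⟨act σ eN, hNst σ eN eN.2⟩ := hπact σ eN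
      _ = π (k • eN) := by
          refine hπeq _ _ ⟨g σ (eT : J) - k • (eT : J), hFt (hle hk)⟩ hk ?_
          show act σ (eN : M) = ((k • eN : ↥N) : M) + _
          rw [h2, AddSubgroup.coe_nsmul, heN, h1]
          abel
      _ = k • π eN := map_nsmul π k eN
  · -- the action on `yQ`
    intro σ m hm
    rw [← heTdef] at hm
    have h2 : ι ⟨g σ y - y - m • (eT : J), hFt (hle hm)⟩ =
        ι ⟨g σ y - y, hFt (hy σ)⟩ - m • ι eT :=
      iota_sub_nsmul_h106 T ι ⟨g σ y - y, hFt (hy σ)⟩ eT m (hFt (hle hm))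
    calc actQ σ (π yN) = π ⟨act σ yN, hNst σ yN yN.2⟩ := hπact σ yN
      _ = π (yN + m • eN) := by
          refine hπeq _ _ ⟨g σ y - y - m • (eT : J), hFt (hle hm)⟩ hm ?_
          show act σ (yN : M) = ((yN + m • eN : ↥N) : M) + _
          rw [h2, AddSubgroup.coe_add, AddSubgroup.coe_nsmul, heN, hyN, hacty σ]
          abel
      _ = π yN + m • π eN := by rw [map_add, map_nsmul]
  · -- the converse for `yQ`
    intro σ h
    rw [hπact] at h
    obtain ⟨w, hw, hww⟩ := hπne _ _ h
    have h1 : act σ y' = y' + ι w := by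
      have h0 : act σ (yN : M) = (yN : M) + ι w := hww
      rwa [hyN] at h0
    rw [hacty σ] at h1
    have h2 : (⟨g σ y - y, hFt (hy σ)⟩ : ↥T) = w := hιinj (add_left_cancel h1)
    have h3 : g σ y - y = (w : J) := congrArg Subtype.val h2
    rw [h3]
    exact hw

end Abs

/-- **The model of the piece `F / F'` attached to `y ∈ Y(F)`**: a finite Galois module `Q` with a
Hopf model over `ℤ_(r)`, generated by `eQ` (the class of `e`) and `yQ` (the class of the point
`y'` of `E_x`, `x = r y`), with the dictionary between the action on `Q` and the cocycle of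
`y`. -/
theorem exists_piece_model_h106 (hord : Fermat.Agent.S19.OrdStatement) (hT1 : T1Statement)
    (p : ℕ) [NeZero p] (hp : p.Prime) (r : ℕ) (hr : r.Prime) (hrp : r ≠ p)
    (F' F : AddSubgroup (JZero p)) (hle : F' ≤ F) (hFt : F ≤ tors p r)
    (hF' : IsStable p F') (hF : IsStable p F) (hidx : F'.relIndex F = r)
    (e : JZero p) (he : e ∈ F) (he' : e ∉ F') (y : JZero p) (hy : y ∈ sel p r F) :
    ∃ (Q : Type) (_ : AddCommGroup Q) (_ : Finite Q) (actQ : _root_.Fermat.Agent.S15.H975.Gal → Q → Q) (eQ yQ : Q),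
      Fermat.Agent.S19.IsContAddAction actQ ∧ Fermat.Agent.S19.HopfModel r Q actQ ∧
      r • eQ = 0 ∧ r • yQ = 0 ∧ eQ ≠ 0 ∧
      (∀ j : ℕ, j • yQ ∈ AddSubgroup.zmultiples eQ → r ∣ j) ∧
      (∀ q : Q, ∃ i j : ℕ, q = i • eQ + j • yQ) ∧
      (∀ (σ : _root_.Fermat.Agent.S15.H975.Gal) (k : ℕ), σ • e - k • e ∈ F' → actQ σ eQ = k • eQ) ∧
      (∀ (σ : _root_.Fermat.Agent.S15.H975.Gal) (m : ℕ), σ • y - y - m • e ∈ F' → actQ σ yQ = yQ + m • eQ) ∧
      (∀ σ : _root_.Fermat.Agent.S15.H975.Gal, actQ σ yQ = yQ → σ • y - y ∈ F') := by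
  obtain ⟨M, iM, fM, act, ι, y', hc, hH, hιinj, hry', hind, -, hιact, hyact⟩ :=
    hT1 p hp r hr hrp y hy.1
  exact exists_piece_model_abs_h106 (fun (σ : _root_.Fermat.Agent.S15.H975.Gal) (x : JZero p) => σ • x) (tors p r) F' F act ι
    y' hord hr hle hFt (fun t ht => ht) hF' hF hidx e he he' y hy.2 hc hH hιinj hry' hind
    hιact hyact

/-! ## The two glue leaves -/

/-- **PEU-1 on `J`** from T1 and T2-1. -/
theorem peu1J_of (hord : Fermat.Agent.S19.OrdStatement) (hT1 : T1Statement)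
    (hT2 : T2OneStatement) : Peu1JStatement := by
  intro p _ hp r hr hrp hr2 A hA τ hτ F' F hle hFt hF' hF hidx htriv y hy
  haveI : Fact r.Prime := ⟨hr⟩
  -- an element of `F ∖ F'`
  obtain ⟨e, he, he'⟩ : ∃ e ∈ F, e ∉ F' := by
    by_contra hcon
    push Not at hcon
    have h1 : F'.relIndex F = 1 := AddSubgroup.relIndex_eq_one.mpr hcon
    rw [hidx] at h1
    exact hr.one_lt.ne' h1
  obtain ⟨Q, iQ, fQ, actQ, eQ, yQ, hcQ, hHQ, hreQ, hryQ, -, -, hgenQ, hdicte, hdicty, hconv⟩ :=
    exists_piece_model_h106 hord hT1 p hp r hr hrp F' F hle hFt hF' hF hidx e he he' y hy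
  apply hconv τ
  refine hT2 r hr hr2 Q iQ fQ actQ hcQ hHQ eQ yQ hreQ hryQ hgenQ ?_ ?_ A hA τ hτ
  · intro σ
    have h1 := hdicte σ 1 (by rw [one_smul]; exact htriv σ e he)
    rwa [one_smul] at h1
  · intro σ
    obtain ⟨m, hm⟩ := exists_nsmul_sub_mem_h106 r F' F hidx e he he' (σ • y - y) (hy.2 σ)
    exact ⟨m, hdicty σ m hm⟩

/-- **PEU-ω on `J`** from T1 and T2-ω. -/
theorem peuOmegaJ_of (hord : Fermat.Agent.S19.OrdStatement) (hT1 : T1Statement)
    (hT2 : T2OmegaStatement) : PeuOmegaJStatement := by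
  intro p _ hp r hr hrp F' F hle hFt hF' hF hidx ζ hζ hω e he he' y hy a α ha hα hκ
  obtain ⟨Q, iQ, fQ, actQ, eQ, yQ, hcQ, hHQ, hreQ, hryQ, heQ0, hindQ, hgenQ, hdicte, hdicty, -⟩ :=
    exists_piece_model_h106 hord hT1 p hp r hr hrp F' F hle hFt hF' hF hidx e he he' y hy
  exact hT2 r hr Q iQ fQ actQ hcQ hHQ eQ yQ hreQ hryQ heQ0 hindQ hgenQ ζ hζ
    (fun σ k hk => hdicte σ k (hω σ k hk e he)) a α ha hα
    (fun σ m hm => hdicty σ m (hκ σ m hm))

end Fermat.Agent.S15.H106

end

end
-- ===== PACK-END S15/H106/PeuGlue.lean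

-- ===== PACK-BEGIN S56/H460/UnrVal.lean
section



/-!
# Row S56 — FLAT-O leaf (UNR) (helper460)

`unrVal : Fermat.Agent.S56.H906.UnrValStatement`: an element `y ≠ 0` of `ℚ̄` fixed by the inertia
subgroup of a valuation subring `P` over `p` has `v_P(y) = v_P(p) ^ n` for some `n : ℤ`.

This is the landed A2 lemma `Fermat.Agent.A2.IF.H429.exists_zpow_of_mem_inertiaField` (the inertia
field is unramified) restated in the vocabulary of `S56/H906/FlatOSpec.lean`.
-/

set_option autoImplicit false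

namespace Fermat.Agent.S56.H460

/-- (UNR) the valuation of an inertia-fixed element is an integral power of the valuation of
`p`. -/
theorem unrVal : Fermat.Agent.S56.H906.UnrValStatement := by
  intro p hp P hP y hy0 hfix
  have hy : y ∈ Fermat.Agent.A2.IF.H429.inertiaField P :=
    (Fermat.Agent.A2.IF.H429.mem_inertiaField_iff P).mpr hfix
  obtain ⟨k, hk⟩ :=
    Fermat.Agent.A2.IF.H429.exists_zpow_of_mem_inertiaField P p hp hP y hy hy0
  refine ⟨k, ?_⟩
  rw [map_div₀, map_zpow₀] at hk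
  have hp0 : P.valuation ((p : ℕ) : AlgebraicClosure ℚ) ≠ 0 := by
    rw [Ne, map_eq_zero]
    exact_mod_cast hp.ne_zero
  have hne : P.valuation ((p : ℕ) : AlgebraicClosure ℚ) ^ k ≠ 0 := zpow_ne_zero k hp0
  exact (div_eq_one_iff_eq hne).mp hk

end Fermat.Agent.S56.H460

end
-- ===== PACK-END S56/H460/UnrVal.lean

-- ===== PACK-BEGIN S48/H796/Form.lean
section



/-!
# S48 / P2-EIS (helper796): the family `eisFam N b : ModularForm (Gamma1 N) 1`, `b : ZMod N`

* `eisFam N 0 = 0`, and for `b ≠ 0`, `eisFam N b τ = F_(0,b)(τ) = P(b/N, τ)`;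
* `eisFam_slash` : `eisFam N b ∣[1] γ = eisFam N (b * d_γ)` for `γ ∈ Γ₀(N)`;
* `qExpansion_eisFam_zero`, `qExpansion_eisFam_pos` : the `q`-expansion
  `π cot(π b/N) + ∑_{n ≥ 1} (∑_{j ∣ n} 2πi (e(-bj) - e(bj))) qⁿ`, `e = ZMod.stdAddChar`.
-/

set_option autoImplicit false

noncomputable section

namespace Fermat.Agent.S48.H796

open UpperHalfPlane hiding I
open Complex Filter Topology ModularForm CongruenceSubgroup
open scoped Real Manifold MatrixGroups

/-- `F_v` only depends on `v` mod `N`. -/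
theorem Fv_congr {N : ℕ} (hN : N ≠ 0) {v v' : ℤ × ℤ} (hv' : NotDiv N v')
    (h1 : (N : ℤ) ∣ v.1 - v'.1) (h2 : (N : ℤ) ∣ v.2 - v'.2) : Fv N v = Fv N v' := by
  obtain ⟨q1, hq1⟩ := h1
  obtain ⟨q2, hq2⟩ := h2
  funext τ
  have h := Fv_add hN hv' (q1, q2) τ
  have e : v = (v'.1 + N * q1, v'.2 + N * q2) := by
    ext
    · show v.1 = v'.1 + N * q1
      linarith
    · show v.2 = v'.2 + N * q2
      linarith
  rw [e]
  exact h

lemma notDiv_zero_left {N : ℕ} {b : ℤ} (hb : ¬ (N : ℤ) ∣ b) : NotDiv N (0, b) :=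
  fun h => hb h.2

/-- The slash action of `Γ₀(N)` on `F_(0,b)`. -/
theorem Fv_slash_Gamma0 {N : ℕ} (hN : N ≠ 0) {γ : SL(2, ℤ)} (hγ : γ ∈ Gamma0 N) {b : ℤ}
    (hb : ¬ (N : ℤ) ∣ b) :
    ¬ (N : ℤ) ∣ b * γ 1 1 ∧ (Fv N (0, b)) ∣[(1 : ℤ)] γ = Fv N (0, b * γ 1 1) := by
  have hnd := notDiv_zero_left hb
  have h10 : (N : ℤ) ∣ γ 1 0 := by
    have := Gamma0_mem.mp hγ
    exact (ZMod.intCast_zmod_eq_zero_iff_dvd _ _).mp this
  have hv : vmul (0, b) γ = (b * γ 1 0, b * γ 1 1) := by
    simp [vmul]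
  have hnd' := hnd.vmul γ
  rw [hv] at hnd'
  have hb' : ¬ (N : ℤ) ∣ b * γ 1 1 := fun h => hnd' ⟨Dvd.dvd.mul_left h10 b, h⟩
  refine ⟨hb', ?_⟩
  rw [Fv_slash hN γ _ hnd, hv]
  exact Fv_congr hN (notDiv_zero_left hb') (by simpa using Dvd.dvd.mul_left h10 b) (by simp)

/-- The function-level family indexed by `ZMod N`. -/
def fvZ (N : ℕ) (b : ZMod N) : ℍ → ℂ := if b = 0 then 0 else Fv N (0, (b.val : ℤ))

lemma fvZ_zero (N : ℕ) : fvZ N 0 = 0 := by simp [fvZ]

lemma fvZ_of_ne {N : ℕ} {b : ZMod N} (hb : b ≠ 0) : fvZ N b = Fv N (0, (b.val : ℤ)) := by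
  simp [fvZ, hb]

lemma not_dvd_val {N : ℕ} [NeZero N] {b : ZMod N} (hb : b ≠ 0) : ¬ (N : ℤ) ∣ (b.val : ℤ) := by
  intro h
  apply hb
  have h1 : ((b.val : ℤ) : ZMod N) = 0 := (ZMod.intCast_zmod_eq_zero_iff_dvd _ _).mpr h
  simpa using h1

/-- `fvZ N b` for a general integer representative. -/
lemma fvZ_intCast {N : ℕ} [NeZero N] {c : ℤ} (hc : ¬ (N : ℤ) ∣ c) :
    fvZ N (c : ZMod N) = Fv N (0, c) := by
  have hne : (c : ZMod N) ≠ 0 := fun h => hc ((ZMod.intCast_zmod_eq_zero_iff_dvd _ _).mp h)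
  rw [fvZ_of_ne hne]
  refine Fv_congr (NeZero.ne N) (notDiv_zero_left hc) (by simp) ?_
  show (N : ℤ) ∣ (((c : ZMod N).val : ℤ)) - c
  rw [← ZMod.intCast_zmod_eq_zero_iff_dvd]
  simp

/-- **Slash law** of the family under `Γ₀(N)`. -/
theorem fvZ_slash {N : ℕ} [NeZero N] {γ : SL(2, ℤ)} (hγ : γ ∈ Gamma0 N) (b : ZMod N) :
    (fvZ N b) ∣[(1 : ℤ)] γ = fvZ N (b * ((γ 1 1 : ℤ) : ZMod N)) := by
  by_cases hb : b = 0
  · subst hb
    rw [zero_mul, fvZ_zero]
    exact SlashAction.zero_slash _ _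
  · have hb' := not_dvd_val hb
    obtain ⟨h1, h2⟩ := Fv_slash_Gamma0 (NeZero.ne N) hγ hb'
    rw [fvZ_of_ne hb, h2, ← fvZ_intCast h1]
    congr 1
    push_cast
    rw [ZMod.natCast_zmod_val]

theorem fvZ_slash_Gamma1 {N : ℕ} [NeZero N] {γ : SL(2, ℤ)} (hγ : γ ∈ Gamma1 N) (b : ZMod N) :
    (fvZ N b) ∣[(1 : ℤ)] γ = fvZ N b := by
  have h0 : γ ∈ Gamma0 N := Gamma1_in_Gamma0 N hγ
  rw [fvZ_slash h0]
  have h11 : ((γ 1 1 : ℤ) : ZMod N) = 1 := (Gamma1_mem N γ).mp hγ |>.2.1
  rw [h11, mul_one]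

theorem mdifferentiable_fvZ (N : ℕ) (b : ZMod N) : MDiff (fvZ N b) := by
  by_cases hb : b = 0
  · subst hb
    rw [fvZ_zero]
    exact mdifferentiable_const
  · rw [fvZ_of_ne hb]
    exact mdifferentiable_Fv_zero N _

theorem isBoundedAtImInfty_fvZ_slash {N : ℕ} [NeZero N] (b : ZMod N) (γ : SL(2, ℤ)) :
    IsBoundedAtImInfty ((fvZ N b) ∣[(1 : ℤ)] γ) := by
  by_cases hb : b = 0
  · subst hb
    rw [fvZ_zero, SlashAction.zero_slash]
    exact zero_form_isBoundedAtImInfty
  · have hnd := notDiv_zero_left (not_dvd_val hb)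
    rw [fvZ_of_ne hb, Fv_slash (NeZero.ne N) γ _ hnd]
    exact isBoundedAtImInfty_Fv (NeZero.ne N) (hnd.vmul γ)

/-- **The family of weight-one modular forms** on `Γ₁(N)`. -/
def eisFam (N : ℕ) [NeZero N] (b : ZMod N) : ModularForm (Gamma1 N) 1 where
  toFun := fvZ N b
  slash_action_eq' := by
    rintro _ ⟨γ, hγ, rfl⟩
    exact fvZ_slash_Gamma1 hγ b
  holo' := mdifferentiable_fvZ N b
  bdd_at_cusps' {c} hc := by
    rw [Subgroup.IsArithmetic.isCusp_iff_isCusp_SL2Z] at hc
    rw [OnePoint.isBoundedAt_iff_forall_SL2Z hc]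
    exact fun γ _ => isBoundedAtImInfty_fvZ_slash b γ

@[simp] theorem coe_eisFam (N : ℕ) [NeZero N] (b : ZMod N) : ⇑(eisFam N b) = fvZ N b := rfl

theorem eisFam_zero (N : ℕ) [NeZero N] : eisFam N 0 = 0 := by
  ext τ
  simp [fvZ_zero]

theorem eisFam_apply {N : ℕ} [NeZero N] {b : ZMod N} (hb : b ≠ 0) (τ : ℍ) :
    eisFam N b τ = Pfun τ ((b.val : ℂ) / N) := by
  rw [coe_eisFam, fvZ_of_ne hb, Fv_zero_left, Int.cast_natCast]

/-- **Slash law**: `eisFam N b ∣[1] γ = eisFam N (b * d_γ)` for `γ ∈ Γ₀(N)`. -/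
theorem eisFam_slash {N : ℕ} [NeZero N] {γ : SL(2, ℤ)} (hγ : γ ∈ Gamma0 N) (b : ZMod N) :
    (⇑(eisFam N b)) ∣[(1 : ℤ)] γ = ⇑(eisFam N (b * ((γ 1 1 : ℤ) : ZMod N))) := by
  rw [coe_eisFam, coe_eisFam]
  exact fvZ_slash hγ b

end Fermat.Agent.S48.H796

end
end
-- ===== PACK-END S48/H796/Form.lean

-- ===== PACK-BEGIN S48/H796/FormQ.lean
section



/-!
# S48 / P2-EIS (helper796): `q`-expansion of `eisFam N b` in terms of `ZMod.stdAddChar`

For `b ≠ 0` in `ZMod N`:
`eisFam N b = π cot(π b/N) + ∑_{n ≥ 1} (∑_{j ∣ n} 2πi (e(-bj) - e(bj))) qⁿ`, `e = ZMod.stdAddChar`,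
and `π cot(π b/N) = πi (1 + (2/N) ∑_{a < N} a e(ab))`.
-/

set_option autoImplicit false

noncomputable section

namespace Fermat.Agent.S48.H796

open UpperHalfPlane hiding I
open Complex Filter Topology ModularForm CongruenceSubgroup
open scoped Real Manifold MatrixGroups

local notation "𝕢" => Function.Periodic.qParam

lemma zetaB_val (N : ℕ) [NeZero N] (b : ZMod N) :
    zetaB N (b.val : ℤ) = ZMod.stdAddChar b := by
  rw [zetaB, ← ZMod.stdAddChar_coe]
  congr 1
  simp

lemma sCoef_val (N : ℕ) [NeZero N] (b : ZMod N) (j : ℕ) :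
    sCoef N (b.val : ℤ) j =
      2 * π * I * (ZMod.stdAddChar (-(b * (j : ZMod N))) - ZMod.stdAddChar (b * (j : ZMod N))) := by
  have e1 : b * (j : ZMod N) = j • b := by rw [nsmul_eq_mul, mul_comm]
  rw [sCoef, zetaB_val, e1, AddChar.map_neg_eq_inv, AddChar.map_nsmul_eq_pow, inv_pow]

/-- The `q`-series of `eisFam N b`, `b ≠ 0`. -/
theorem hasSum_eisFam {N : ℕ} [NeZero N] {b : ZMod N} (hb : b ≠ 0) (τ : ℍ) :
    HasSum (fun n => qCo N (b.val : ℤ) n • 𝕢 1 (τ : ℂ) ^ n) (eisFam N b τ) := by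
  rw [coe_eisFam, fvZ_of_ne hb]
  exact hasSum_Fv_zero_qParam N _ τ

theorem qExpansion_eisFam {N : ℕ} [NeZero N] {b : ZMod N} (hb : b ≠ 0) (n : ℕ) :
    (qExpansion 1 ⇑(eisFam N b)).coeff n = qCo N (b.val : ℤ) n := by
  rw [coe_eisFam, fvZ_of_ne hb]
  exact qExpansion_Fv_zero_coeff N _ n

/-- **Constant term** of `eisFam N b`. -/
theorem qExpansion_eisFam_zero {N : ℕ} [NeZero N] {b : ZMod N} (hb : b ≠ 0) :
    (qExpansion 1 ⇑(eisFam N b)).coeff 0 = cotPi ((b.val : ℂ) / N) := by
  rw [qExpansion_eisFam hb, qCo_zero, Int.cast_natCast]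

/-- **Higher coefficients** of `eisFam N b`. -/
theorem qExpansion_eisFam_pos {N : ℕ} [NeZero N] {b : ZMod N} (hb : b ≠ 0) {n : ℕ}
    (hn : 1 ≤ n) :
    (qExpansion 1 ⇑(eisFam N b)).coeff n =
      ∑ j ∈ n.divisors,
        2 * π * I * (ZMod.stdAddChar (-(b * (j : ZMod N))) - ZMod.stdAddChar (b * (j : ZMod N))) := by
  rw [qExpansion_eisFam hb, qCo_of_pos _ _ hn]
  exact Finset.sum_congr rfl (fun j _ => sCoef_val N b j)

/-! ### The finite cotangent identity -/

lemma sum_range_mul_pow (z : ℂ) (n : ℕ) :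
    (z - 1) * ∑ a ∈ Finset.range n, (a : ℂ) * z ^ a =
      n * z ^ n - ∑ a ∈ Finset.range n, z ^ (a + 1) := by
  induction n with
  | zero => simp
  | succ n ih =>
    rw [Finset.sum_range_succ, mul_add, ih, Finset.sum_range_succ]
    push_cast
    ring

lemma sum_range_mul_pow_of_root {z : ℂ} {N : ℕ} (hz1 : z ≠ 1) (hzN : z ^ N = 1) :
    ∑ a ∈ Finset.range N, (a : ℂ) * z ^ a = N / (z - 1) := by
  have hz : z - 1 ≠ 0 := sub_ne_zero.mpr hz1
  have h := sum_range_mul_pow z N
  have h2 : ∑ a ∈ Finset.range N, z ^ (a + 1) = 0 := by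
    have e : ∀ a ∈ Finset.range N, z ^ (a + 1) = z * z ^ a := fun a _ => pow_succ' z a
    rw [Finset.sum_congr rfl e, ← Finset.mul_sum, geom_sum_eq hz1, hzN, sub_self, zero_div,
      mul_zero]
  rw [hzN, h2, sub_zero, mul_one] at h
  rw [eq_div_iff hz, mul_comm]
  exact h

/-- `π cot(π b/N) = πi (1 + (2/N) ∑_{a < N} a e(ab))` for `b ≠ 0` in `ZMod N`. -/
theorem cotPi_val_eq {N : ℕ} [NeZero N] {b : ZMod N} (hb : b ≠ 0) :
    cotPi ((b.val : ℂ) / N) =
      π * I * (1 + 2 / N * ∑ a ∈ Finset.range N,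
        (a : ℂ) * ZMod.stdAddChar ((a : ZMod N) * b)) := by
  have hN : (N : ℂ) ≠ 0 := by exact_mod_cast NeZero.ne N
  set z : ℂ := ZMod.stdAddChar b with hz
  have hz1 : z ≠ 1 := by
    intro h
    apply hb
    exact (AddChar.injective_iff.mp ZMod.injective_stdAddChar) h
  have hzN : z ^ N = 1 := by
    rw [hz, ← AddChar.map_nsmul_eq_pow, nsmul_eq_mul, ZMod.natCast_self, zero_mul,
      AddChar.map_zero_eq_one]
  have e1 : ∀ a ∈ Finset.range N, (a : ℂ) * ZMod.stdAddChar ((a : ZMod N) * b) =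
      (a : ℂ) * z ^ a := by
    intro a _
    rw [hz, ← AddChar.map_nsmul_eq_pow, nsmul_eq_mul]
  rw [Finset.sum_congr rfl e1, sum_range_mul_pow_of_root hz1 hzN]
  have hu : cexp (2 * π * I * ((b.val : ℂ) / N)) = z := by
    rw [hz, ← zetaB_val, zetaB]
    congr 1
    push_cast
    ring
  rw [cotPi_eq_exp, hu]
  have hz' : z - 1 ≠ 0 := sub_ne_zero.mpr hz1
  have hz'' : 1 - z ≠ 0 := sub_ne_zero.mpr (Ne.symm hz1)
  have hI : (I : ℂ) ≠ 0 := Complex.I_ne_zero
  field_simp
  have hI2 : I ^ 2 = -1 := Complex.I_sq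
  linear_combination (z ^ 2 - 1) * hI2

end Fermat.Agent.S48.H796

end
end
-- ===== PACK-END S48/H796/FormQ.lean

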