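import Mathlib
import Fermat.Agent.Pack.L1.E4L3
import Fermat.Agent.Pack.L1.E3L0
import Fermat.Agent.Pack.L1.E4L2
import Fermat.Agent.Pack.S44C.G0E21L2
import Fermat.Agent.Pack.L1.E3L3
import Fermat.Agent.Pack.S44C.G0E19L0
import Fermat.Agent.Pack.S44C.G0E14L3
import Fermat.Agent.Pack.S44C.G0E16L1
import Fermat.Agent.Pack.S43GC.G0E15L1
import Fermat.Agent.Pack.L1.E1L1
import Fermat.Agent.Pack.L1.E1L2
import Fermat.Agent.Pack.S44C.G0E21L3
import Fermat.Agent.Pack.L1.E2L1
import Fermat.Agent.Pack.S44C.G0E6L1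
import Fermat.Agent.Pack.L1.E4L1
import Fermat.Agent.Pack.S59C.E5L3
import Fermat.Agent.Pack.S59C.E0L1

-- ===== PACK-BEGIN S17/H35/ContractSum.lean
section



/-!
# S17 / tower H, TOP-GLUE (helper35, subtask 606): the package axioms from the CONTRACT

Generic part (any `K`, `F` with `FF1 K F`, any embeddings `E₁`, `E₂`): calculus of the pairings
`pairPt`, `pair`, `naive` of `HContract` (additivity, symmetry) and the summed forms of the
contract statements:

* `e3_sum`   : `E3Statement` summed over an effective divisor disjoint from `Z_a`;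
* `bez_of`   : (BEZ) `|N (Z a) - m · ht a| ≤ C` from (E3) twice, symmetry of the pairing and a
               finite family of more than `m` hyperplane sections with pairwise disjoint supports.
-/

set_option autoImplicit false
set_option linter.unusedSectionVars false

noncomputable section

open AlgebraicCurve

namespace Fermat.Agent.S17.H35

open Fermat.Agent.Lib.RR Fermat.Agent.S17.HWall Fermat.Agent.S17.HContract

variable {K F : Type*} [Field K] [CharZero K] [Field F] [Algebra K F] [FF1 K F]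

/-! ## Heights -/

/-- The absolute height is even. -/
theorem ht_neg {ι : Type*} [Finite ι] (y : ι → K) : ht (fun i => - y i) = ht y := by
  have hfun : (fun i => - y i) = (-1 : K) • y := by
    funext i
    simp
  by_cases hy : ∀ i, IsIntegral ℚ (y i)
  · rw [hfun]
    exact H380.absLogHeight_smul y hy (by simp) (isIntegral_one (R := ℚ)).neg
  · rw [ht, ht, H380.absLogHeight_of_not_isIntegral y hy,
      H380.absLogHeight_of_not_isIntegral]
    intro h
    apply hy
    intro i
    have := (h i).neg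
    simpa using this

theorem wedge_swap {n : ℕ} (y z : Fin n → K) : wedge z y = fun p => - wedge y z p := by
  funext p
  simp only [wedge]
  ring

/-- The diagonal height is symmetric. -/
theorem hD_symm (E : EmbData K F) (A P : Place K F) : hD E A P = hD E P A := by
  unfold hD
  rw [wedge_swap (E.pt P) (E.pt A), ht_neg]
  ring

theorem ht_nonneg {ι : Type*} [Finite ι] (y : ι → K) : 0 ≤ ht y := H380.absLogHeight_nonneg y

/-! ## Degree -/

/-- All places have degree one: the degree is the sum of the multiplicities. -/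
theorem degree_eq_sum (D : Divisor K F) : Divisor.degree D = D.sum fun _ n => n := by
  induction D using Finsupp.induction_linear with
  | zero => simp
  | add D D' hD hD' =>
    rw [map_add, hD, hD', Finsupp.sum_add_index' (by simp) (by simp)]
  | single v n =>
    rw [Divisor.degree_single, FF1.deg_eq_one (K := K) (F := F) v]
    simp

theorem degree_cast_eq_sum (D : Divisor K F) :
    ((Divisor.degree D : ℤ) : ℝ) = D.sum fun _ n => (n : ℝ) := by
  rw [_root_.Fermat.Agent.S17.H35.degree_eq_sum, Finsupp.sum, Finsupp.sum]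
  push_cast
  rfl

theorem degree_nonneg {D : Divisor K F} (hD : 0 ≤ D) : 0 ≤ Divisor.degree D := by
  rw [_root_.Fermat.Agent.S17.H35.degree_eq_sum]
  exact Finset.sum_nonneg fun P _ => by
    have := (Finsupp.le_def.mp hD) P
    simpa using this

/-! ## The pairings -/

@[simp] theorem pairPt_zero (E : EmbData K F) (P : Place K F) : pairPt E 0 P = 0 := by
  simp [pairPt]

theorem pairPt_add (E : EmbData K F) (D D' : Divisor K F) (P : Place K F) :
    pairPt E (D + D') P = pairPt E D P + pairPt E D' P := by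
  unfold pairPt
  rw [Finsupp.sum_add_index' (by simp) (by intro a b₁ b₂; push_cast; ring)]

@[simp] theorem pairPt_single (E : EmbData K F) (A : Place K F) (n : ℤ) (P : Place K F) :
    pairPt E (Finsupp.single A n) P = n * hD E A P := by
  unfold pairPt
  rw [Finsupp.sum_single_index (by simp)]

theorem pairPt_nsmul (E : EmbData K F) (k : ℕ) (D : Divisor K F) (P : Place K F) :
    pairPt E (k • D) P = k * pairPt E D P := by
  induction k with
  | zero => simp
  | succ k ih => rw [succ_nsmul, pairPt_add, ih]; push_cast; ring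

@[simp] theorem pair_zero_right (E : EmbData K F) (D : Divisor K F) : pair E D 0 = 0 := by
  simp [pair]

@[simp] theorem pair_zero_left (E : EmbData K F) (D : Divisor K F) : pair E 0 D = 0 := by
  simp [pair, Finsupp.sum]

theorem pair_add_right (E : EmbData K F) (D D₁ D₂ : Divisor K F) :
    pair E D (D₁ + D₂) = pair E D D₁ + pair E D D₂ := by
  unfold pair
  rw [Finsupp.sum_add_index' (by simp) (by intro a b₁ b₂; push_cast; ring)]

theorem pair_add_left (E : EmbData K F) (D₁ D₂ D : Divisor K F) :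
    pair E (D₁ + D₂) D = pair E D₁ D + pair E D₂ D := by
  unfold pair
  simp only [pairPt_add, mul_add]
  rw [Finsupp.sum_add]

@[simp] theorem pair_single_right (E : EmbData K F) (D : Divisor K F) (P : Place K F) (n : ℤ) :
    pair E D (Finsupp.single P n) = n * pairPt E D P := by
  unfold pair
  rw [Finsupp.sum_single_index (by simp)]

/-- The pairing is symmetric. -/
theorem pair_symm (E : EmbData K F) (D D' : Divisor K F) : pair E D D' = pair E D' D := by
  unfold pair pairPt
  simp only [Finsupp.sum, Finset.mul_sum]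
  rw [Finset.sum_comm]
  refine Finset.sum_congr rfl fun A _ => Finset.sum_congr rfl fun P _ => ?_
  rw [hD_symm E A P]
  ring

@[simp] theorem naive_zero (E : EmbData K F) : naive E 0 = 0 := by
  simp [naive]

theorem naive_add (E : EmbData K F) (D D' : Divisor K F) :
    naive E (D + D') = naive E D + naive E D' := by
  unfold naive
  rw [Finsupp.sum_add_index' (by simp) (by intro a b₁ b₂; push_cast; ring)]

theorem naive_nonneg (E : EmbData K F) {D : Divisor K F} (hD : 0 ≤ D) : 0 ≤ naive E D := by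
  unfold naive
  refine Finset.sum_nonneg fun P _ => mul_nonneg ?_ (ht_nonneg _)
  have := (Finsupp.le_def.mp hD) P
  exact_mod_cast this

/-! ## (E3) summed over a divisor -/

/-- If `P` is not in the hyperplane section `Z_a`, the form `a` does not vanish at `pt P`. -/
theorem dot_ne_zero_of_Z_eq_zero (E : EmbData K F) {a : Fin (E.r + 1) → K} (ha : a ≠ 0)
    {P : Place K F} (hP : E.Z a P = 0) : dot a (E.pt P) ≠ 0 := by
  intro h
  have := (E.pt_spec P a ha).mp h
  rw [EmbData.Z] at hP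
  omega

/-- **(E3), summed.**  For an effective divisor `D` whose support is disjoint from `Z_a`:
`|(Z_a . D) − (deg D · h(a) + N(D))| ≤ C · deg D`. -/
theorem e3_sum {E₁ E₂ : EmbData K F} (h : E3Statement E₁ E₂) :
    ∃ C : ℝ, 0 ≤ C ∧ ∀ (a : Fin (E₂.r + 1) → K) (D : Divisor K F), a ≠ 0 → 0 ≤ D →
      (∀ P, D P ≠ 0 → E₂.Z a P = 0) →
      |pair E₁ (E₂.Z a) D - ((Divisor.degree D : ℤ) * ht a + naive E₂ D)| ≤
        C * (Divisor.degree D : ℤ) := by
  obtain ⟨C, hC⟩ := h
  refine ⟨max C 0, le_max_right _ _, fun a D ha hD hdisj => ?_⟩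
  have hsum : pair E₁ (E₂.Z a) D - ((Divisor.degree D : ℤ) * ht a + naive E₂ D) =
      D.sum fun P n => (n : ℝ) * (pairPt E₁ (E₂.Z a) P - ht a - ht (E₂.pt P)) := by
    rw [degree_cast_eq_sum]
    unfold pair naive
    simp only [Finsupp.sum, Finset.sum_mul, mul_sub, Finset.sum_sub_distrib]
    ring
  rw [hsum, degree_cast_eq_sum, Finsupp.sum, Finsupp.sum, Finset.mul_sum]
  refine (Finset.abs_sum_le_sum_abs _ _).trans (Finset.sum_le_sum fun P hP => ?_)
  have hP0 : D P ≠ 0 := Finsupp.mem_support_iff.mp hP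
  have hnn : (0 : ℝ) ≤ (D P : ℝ) := by
    have := (Finsupp.le_def.mp hD) P
    exact_mod_cast this
  rw [abs_mul, abs_of_nonneg hnn, mul_comm (max C 0)]
  refine mul_le_mul_of_nonneg_left ?_ hnn
  exact (hC a P ha (dot_ne_zero_of_Z_eq_zero E₂ ha (hdisj P hP0))).trans (le_max_left _ _)

/-! ## (BEZ) -/

/-- The support of an effective divisor has at most `deg` points. -/
theorem card_support_le_degree {D : Divisor K F} (hD : 0 ≤ D) :
    (D.support.card : ℤ) ≤ Divisor.degree D := by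
  rw [_root_.Fermat.Agent.S17.H35.degree_eq_sum, Finsupp.sum]
  have h1 : ∀ P ∈ D.support, (1 : ℤ) ≤ D P := by
    intro P hP
    have h0 : D P ≠ 0 := Finsupp.mem_support_iff.mp hP
    have h2 : (0 : ℤ) ≤ D P := by
      have := (Finsupp.le_def.mp hD) P
      simpa using this
    omega
  calc (D.support.card : ℤ) = ∑ _P ∈ D.support, (1 : ℤ) := by simp
    _ ≤ ∑ P ∈ D.support, D P := Finset.sum_le_sum h1

/-- Among more than `deg D` divisors with pairwise disjoint supports one is disjoint from the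
effective divisor `D`. -/
theorem exists_disjoint_of_card_lt {ι : Type*} (B : Finset ι) (Z : ι → Divisor K F)
    (hBd : ∀ b ∈ B, ∀ b' ∈ B, b ≠ b' → ∀ P, Z b P ≠ 0 → Z b' P = 0)
    {D : Divisor K F} (hD : 0 ≤ D) (hcard : Divisor.degree D < B.card) :
    ∃ b ∈ B, ∀ P, Z b P ≠ 0 → D P = 0 := by
  classical
  by_contra hcon
  simp only [not_exists, not_and, not_forall] at hcon
  -- every `b ∈ B` meets `D`
  have : Nonempty (Place K F) := FF1.nonempty_place (K := K) (F := F)
  have hcon' : ∀ b ∈ B, ∃ P, Z b P ≠ 0 ∧ D P ≠ 0 := fun b hb => by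
    obtain ⟨P, hP1, hP2⟩ := hcon b hb
    exact ⟨P, hP1, hP2⟩
  choose! f hf using hcon'
  have hmaps : ∀ b ∈ B, f b ∈ D.support := fun b hb =>
    Finsupp.mem_support_iff.mpr (hf b hb).2
  have hinj : Set.InjOn f (B : Set ι) := by
    intro b hb b' hb' hbb'
    by_contra hne
    have h1 := (hf b hb).1
    have h2 := (hf b' hb').1
    rw [← hbb'] at h2
    exact h2 (hBd b hb b' hb' hne (f b) h1)
  have hle : B.card ≤ D.support.card := Finset.card_le_card_of_injOn f hmaps hinj
  have := card_support_le_degree hD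
  omega

/-- **(BEZ)**: the naive height of a hyperplane section is `m · h(a) + O(1)`; from (E3) applied
twice, the symmetry of the pairing, and a family of more than `m` hyperplane sections with
pairwise disjoint supports. -/
theorem bez_of {E₁ E₂ : EmbData K F} (h : E3Statement E₁ E₂)
    (B : Finset (Fin (E₂.r + 1) → K)) (hB0 : ∀ b ∈ B, b ≠ 0)
    (hBd : ∀ b ∈ B, ∀ b' ∈ B, b ≠ b' → ∀ P, E₂.Z b P ≠ 0 → E₂.Z b' P = 0)
    (hcard : E₂.m < B.card) :
    ∃ C : ℝ, ∀ a : Fin (E₂.r + 1) → K, a ≠ 0 →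
      |naive E₂ (E₂.Z a) - E₂.m * ht a| ≤ C := by
  obtain ⟨C₀, hC₀, hC⟩ := e3_sum h
  refine ⟨2 * C₀ * E₂.m + ∑ b ∈ B, |naive E₂ (E₂.Z b) - E₂.m * ht b|, fun a ha => ?_⟩
  have hdeg : ∀ c : Fin (E₂.r + 1) → K, c ≠ 0 → ((Divisor.degree (E₂.Z c) : ℤ) : ℝ) = E₂.m := by
    intro c hc
    rw [E₂.degree_Z hc]
    simp
  obtain ⟨b, hb, hdisj⟩ := exists_disjoint_of_card_lt B (fun b => E₂.Z b) hBd (E₂.Z_nonneg a)
    (by rw [E₂.degree_Z ha]; exact_mod_cast hcard)
  have hb0 := hB0 b hb
  have h1 := hC a (E₂.Z b) ha (E₂.Z_nonneg b) hdisj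
  have h2 := hC b (E₂.Z a) hb0 (E₂.Z_nonneg a) (fun P hP => by
    by_contra hcon
    exact hP (hdisj P hcon))
  rw [hdeg b hb0] at h1
  rw [hdeg a ha, pair_symm] at h2
  have h3 : |naive E₂ (E₂.Z b) - E₂.m * ht b| ≤ ∑ b ∈ B, |naive E₂ (E₂.Z b) - E₂.m * ht b| :=
    Finset.single_le_sum (f := fun b => |naive E₂ (E₂.Z b) - E₂.m * ht b|)
      (fun _ _ => abs_nonneg _) hb
  have h4 : naive E₂ (E₂.Z a) - E₂.m * ht a =
      (naive E₂ (E₂.Z b) - E₂.m * ht b)
        + (pair E₁ (E₂.Z a) (E₂.Z b) - (E₂.m * ht a + naive E₂ (E₂.Z b)))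
        - (pair E₁ (E₂.Z a) (E₂.Z b) - (E₂.m * ht b + naive E₂ (E₂.Z a))) := by ring
  rw [h4]
  calc |(naive E₂ (E₂.Z b) - E₂.m * ht b)
        + (pair E₁ (E₂.Z a) (E₂.Z b) - (E₂.m * ht a + naive E₂ (E₂.Z b)))
        - (pair E₁ (E₂.Z a) (E₂.Z b) - (E₂.m * ht b + naive E₂ (E₂.Z a)))|
      ≤ |naive E₂ (E₂.Z b) - E₂.m * ht b|
        + |pair E₁ (E₂.Z a) (E₂.Z b) - (E₂.m * ht a + naive E₂ (E₂.Z b))|
        + |pair E₁ (E₂.Z a) (E₂.Z b) - (E₂.m * ht b + naive E₂ (E₂.Z a))| := by
        refine (abs_sub _ _).trans ?_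
        gcongr
        exact abs_add_le _ _
    _ ≤ (∑ b ∈ B, |naive E₂ (E₂.Z b) - E₂.m * ht b|) + C₀ * E₂.m + C₀ * E₂.m := by
        gcongr
    _ = 2 * C₀ * E₂.m + ∑ b ∈ B, |naive E₂ (E₂.Z b) - E₂.m * ht b| := by ring

end Fermat.Agent.S17.H35

end
end
-- ===== PACK-END S17/H35/ContractSum.lean

-- ===== PACK-BEGIN S17/H230/EmbCons.lean
section



/-!
# S17 / tower H (helper230): construction of `HWall.EmbData`

* `d1At v f` : the first order coefficient `((f - f(v)) / π)(v)` of a function regular at `v`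
  (`π = unif v`), with `two_le_ord_iff` : `2 ≤ ord_v f ↔ f(v) = 0 ∧ d1At v f = 0`, and linearity;
* `tnD D x v` : the tangent vector at the point `ptD D x v`;
* `dot_tnD`, `tn_spec_ptD` : hyperplanes containing the tangent line are the sections vanishing
  to order `≥ 2`;
* `embOfBasis` : the `EmbData` of a basis `x` of `L(m∞)`, with `pt = ptD`, `tn = tnD`;
* `exists_embData` : existence for every place `∞` and every `m ≥ 2g + 1`.
-/

set_option autoImplicit false

noncomputable section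

open AlgebraicCurve

namespace Fermat.Agent.S17.H230

open Fermat.Agent.Lib.RR Fermat.Agent.S17.HWall

variable {K F : Type*} [Field K] [Field F] [Algebra K F] [FF1 K F] {ι : Type*}

/-! ### First order coefficient -/

/-- `(f - f(v)) / π` for a function `f`. -/
def quot1 (v : Place K F) (f : F) : F := (f - algebraMap K F (valAt v f)) * (unif v)⁻¹

/-- The first order coefficient of `f` at `v` with respect to the uniformizer `unif v`. -/
def d1At (v : Place K F) (f : F) : K := valAt v (quot1 v f)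

theorem regAt_quot1 {v : Place K F} {f : F} (hf : RegAt v f) : RegAt v (quot1 v f) := by
  unfold quot1
  set h := f - algebraMap K F (valAt v f) with hh
  have hreg : RegAt v h := by
    rw [hh, sub_eq_add_neg]
    exact hf.add (by simpa using (regAt_algebraMap v (-(valAt v f))))
  have hval : valAt v h = 0 := by
    have : h + algebraMap K F (valAt v f) = f := by rw [hh]; ring
    have h2 := valAt_add hreg (regAt_algebraMap v (valAt v f))
    rw [this, valAt_algebraMap] at h2
    linear_combination -h2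
  rcases (valAt_eq_zero_iff hreg).mp hval with h0 | h0
  · rw [h0, zero_mul]; exact regAt_zero v
  · have hne : h ≠ 0 := by
      intro h1
      rw [h1] at h0
      simp at h0
    rw [regAt_iff, v.ord_mul hne (inv_ne_zero (unif_ne_zero v)), v.ord_inv, ord_unif]
    omega

theorem quot1_smul_sum [Fintype ι] {v : Place K F} {f : ι → F} (hf : ∀ i, RegAt v (f i))
    (a : ι → K) : quot1 v (∑ i, a i • f i) = ∑ i, a i • quot1 v (f i) := by
  unfold quot1
  rw [valAt_sum _ (fun i _ ↦ RegAt.smul (a i) (hf i)), map_sum, ← Finset.sum_sub_distrib,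
    Finset.sum_mul]
  refine Finset.sum_congr rfl fun i _ ↦ ?_
  rw [valAt_smul _ (hf i), map_mul, Algebra.smul_def, Algebra.smul_def]
  ring

theorem d1At_smul_sum [Fintype ι] {v : Place K F} {f : ι → F} (hf : ∀ i, RegAt v (f i))
    (a : ι → K) : d1At v (∑ i, a i • f i) = ∑ i, a i * d1At v (f i) := by
  unfold d1At
  rw [quot1_smul_sum hf, valAt_sum _ (fun i _ ↦ RegAt.smul (a i) (regAt_quot1 (hf i)))]
  exact Finset.sum_congr rfl fun i _ ↦ valAt_smul _ (regAt_quot1 (hf i))

/-- **Order `≥ 2`** means: value and first order coefficient vanish. -/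
theorem two_le_ord_iff {v : Place K F} {f : F} (hf : RegAt v f) (hf0 : f ≠ 0) :
    2 ≤ v.ord f ↔ valAt v f = 0 ∧ d1At v f = 0 := by
  have hq : valAt v f = 0 → quot1 v f = f * (unif v)⁻¹ := by
    intro h
    unfold quot1
    rw [h, map_zero, sub_zero]
  have hne : f * (unif v)⁻¹ ≠ 0 := mul_ne_zero hf0 (inv_ne_zero (unif_ne_zero v))
  have hord : v.ord (f * (unif v)⁻¹) = v.ord f - 1 := by
    rw [v.ord_mul hf0 (inv_ne_zero (unif_ne_zero v)), v.ord_inv, ord_unif]
    ring
  constructor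
  · intro h
    have h1 : valAt v f = 0 := (valAt_eq_zero_iff hf).mpr (Or.inr (by omega))
    refine ⟨h1, ?_⟩
    unfold d1At
    rw [hq h1]
    have hreg : RegAt v (f * (unif v)⁻¹) := by rw [regAt_iff, hord]; omega
    rw [valAt_eq_zero_iff hreg]
    right
    rw [hord]
    omega
  · rintro ⟨h1, h2⟩
    have h3 : 0 < v.ord f := ((valAt_eq_zero_iff hf).mp h1).resolve_left hf0
    unfold d1At at h2
    rw [hq h1] at h2
    have hreg : RegAt v (f * (unif v)⁻¹) := by rw [regAt_iff, hord]; omega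
    have h4 := ((valAt_eq_zero_iff hreg).mp h2).resolve_left hne
    rw [hord] at h4
    omega

/-! ### The tangent vector -/

/-- The tangent vector at the point `ptD D x v`: first order coefficients of the normalised
coordinates `x i * π ^ (D v)`. -/
def tnD (D : Divisor K F) (x : ι → F) (v : Place K F) : ι → K :=
  fun i ↦ d1At v (x i * unif v ^ (D v))

theorem regAt_normD {D : Divisor K F} {x : ι → F} (hx : ∀ i, x i ∈ riemannRochSpace D)
    (v : Place K F) (i : ι) : RegAt v (x i * unif v ^ (D v)) := by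
  have := regAt_normAt (ordGE_of_mem_L hx v) i
  rwa [neg_neg] at this

theorem dot_tnD [Fintype ι] {D : Divisor K F} {x : ι → F}
    (hx : ∀ i, x i ∈ riemannRochSpace D) (v : Place K F) (a : ι → K) :
    ∑ i, a i * tnD D x v i = d1At v ((∑ i, a i • x i) * unif v ^ (D v)) := by
  unfold tnD
  rw [← d1At_smul_sum (regAt_normD hx v), Finset.sum_mul]
  congr 1
  exact Finset.sum_congr rfl fun i _ ↦ by rw [smul_mul_assoc]

/-- **Hyperplanes containing the tangent line at the point of `v`** are the sections vanishing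
to order `≥ 2` at `v`. -/
theorem tn_spec_ptD [Fintype ι] {D : Divisor K F} {x : ι → F}
    (hx : ∀ i, x i ∈ riemannRochSpace D) (v : Place K F) (a : ι → K)
    (h0 : (∑ i, a i • x i) ≠ 0) :
    (∑ i, a i * ptD D x v i = 0 ∧ ∑ i, a i * tnD D x v i = 0) ↔
      2 ≤ v.ord (∑ i, a i • x i) + D v := by
  rw [dot_ptD hx, dot_tnD hx]
  have hreg : RegAt v ((∑ i, a i • x i) * unif v ^ (D v)) := by
    rw [Finset.sum_mul]
    refine RegAt.sum _ fun i _ ↦ ?_
    rw [smul_mul_assoc]
    exact RegAt.smul _ (regAt_normD hx v i)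
  have hne : (∑ i, a i • x i) * unif v ^ (D v) ≠ 0 :=
    mul_ne_zero h0 (zpow_ne_zero _ (unif_ne_zero v))
  rw [← two_le_ord_iff hreg hne, ord_mul_unif_zpow v h0]

theorem pt_spec_ptD [Fintype ι] {D : Divisor K F} {x : ι → F}
    (hx : ∀ i, x i ∈ riemannRochSpace D) (v : Place K F) (a : ι → K)
    (h0 : (∑ i, a i • x i) ≠ 0) :
    ∑ i, a i * ptD D x v i = 0 ↔ 0 < v.ord (∑ i, a i • x i) + D v := by
  rw [ptD, dot_ptAt_eq_zero_iff (ordGE_of_mem_L hx v)]
  constructor
  · rintro (h | h)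
    · exact absurd h h0
    · omega
  · intro h
    right
    omega

/-! ### The embedding datum of a basis of `L(m∞)` -/

omit [FF1 K F] in
theorem lin_ne_zero_of_li {n : ℕ} {x : Fin n → F} (hli : LinearIndependent K x)
    {a : Fin n → K} (ha : a ≠ 0) : lin x a ≠ 0 := by
  intro h
  apply ha
  exact funext (Fintype.linearIndependent_iff.mp hli a h)

theorem hypDiv_apply_of_ne {n : ℕ} (vinf : Place K F) (m : ℕ) {x : Fin n → F} {a : Fin n → K}
    (h : lin x a ≠ 0) (P : Place K F) :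
    hypDiv vinf m x a P = P.ord (lin x a) + (m • prim vinf : Divisor K F) P := by
  unfold hypDiv
  rw [dif_neg h, Finsupp.add_apply, divOf_apply]

/-- The embedding datum of a basis `x` of `L(m∞)`: `pt = ptD`, `tn = tnD`. -/
def embOfBasis (vinf : Place K F) (m : ℕ) (hm : 2 * genusR K F + 1 ≤ m) {r : ℕ}
    (x : Fin (r + 1) → F) (x_li : LinearIndependent K x)
    (x_span : Submodule.span K (Set.range x) = riemannRochSpace (m • prim vinf)) :
    EmbData K F where
  vinf := vinf
  m := m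
  r := r
  x := x
  pt := ptD (m • prim vinf) x
  tn := tnD (m • prim vinf) x
  hm := hm
  x_li := x_li
  x_span := x_span
  pt_spec := by
    intro P a ha
    have hx : ∀ i, x i ∈ riemannRochSpace (m • prim vinf) := fun i ↦ by
      rw [← x_span]; exact Submodule.subset_span ⟨i, rfl⟩
    have h0 : lin x a ≠ 0 := lin_ne_zero_of_li x_li ha
    rw [hypDiv_apply_of_ne vinf m h0 P]
    exact pt_spec_ptD hx P a h0
  tn_spec := by
    intro P a ha
    have hx : ∀ i, x i ∈ riemannRochSpace (m • prim vinf) := fun i ↦ by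
      rw [← x_span]; exact Submodule.subset_span ⟨i, rfl⟩
    have h0 : lin x a ≠ 0 := lin_ne_zero_of_li x_li ha
    rw [hypDiv_apply_of_ne vinf m h0 P]
    exact tn_spec_ptD hx P a h0

@[simp] theorem embOfBasis_pt (vinf : Place K F) (m : ℕ) (hm : 2 * genusR K F + 1 ≤ m) {r : ℕ}
    (x : Fin (r + 1) → F) (x_li : LinearIndependent K x)
    (x_span : Submodule.span K (Set.range x) = riemannRochSpace (m • prim vinf)) :
    (embOfBasis vinf m hm x x_li x_span).pt = ptD (m • prim vinf) x := rfl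

@[simp] theorem embOfBasis_tn (vinf : Place K F) (m : ℕ) (hm : 2 * genusR K F + 1 ≤ m) {r : ℕ}
    (x : Fin (r + 1) → F) (x_li : LinearIndependent K x)
    (x_span : Submodule.span K (Set.range x) = riemannRochSpace (m • prim vinf)) :
    (embOfBasis vinf m hm x x_li x_span).tn = tnD (m • prim vinf) x := rfl

/-- Existence of an embedding datum for every place and every degree `m ≥ 2g + 1`. -/
theorem exists_embData (vinf : Place K F) (m : ℕ) (hm : 2 * genusR K F + 1 ≤ m) :
    ∃ E : EmbData K F, E.vinf = vinf ∧ E.m = m ∧ E.pt = ptD (m • prim vinf) E.x ∧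
      E.tn = tnD (m • prim vinf) E.x := by
  classical
  set L := riemannRochSpace (K := K) (F := F) (m • prim vinf) with hL
  have hone : (1 : F) ∈ L := by
    rw [hL, mem_L_iff]
    intro w
    right
    rw [Place.ord_one]
    have : (0 : ℤ) ≤ (m • prim vinf : Divisor K F) w := by
      simp only [Finsupp.coe_smul, Pi.smul_apply, prim]
      by_cases hw : vinf = w
      · subst hw; simp
      · simp [hw]
    omega
  have hpos : 0 < Module.finrank K L := by
    have : Nontrivial L := ⟨⟨⟨1, hone⟩, 0, fun h ↦ one_ne_zero (congrArg Subtype.val h)⟩⟩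
    exact Module.finrank_pos
  obtain ⟨r, hr⟩ : ∃ r, Module.finrank K L = r + 1 := ⟨Module.finrank K L - 1, by omega⟩
  let b : Module.Basis (Fin (r + 1)) K L := (Module.finBasis K L).reindex (finCongr hr)
  let x : Fin (r + 1) → F := fun i ↦ (b i : F)
  have x_li : LinearIndependent K x := by
    have := b.linearIndependent.map' L.subtype (Submodule.ker_subtype L)
    exact this
  have x_span : Submodule.span K (Set.range x) = L := by
    have h1 : Set.range x = L.subtype '' Set.range b := by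
      rw [← Set.range_comp]; rfl
    rw [h1, Submodule.span_image, b.span_eq, Submodule.map_top, Submodule.range_subtype]
  exact ⟨embOfBasis vinf m hm x x_li x_span, rfl, rfl, rfl, rfl⟩

end Fermat.Agent.S17.H230

end
end
-- ===== PACK-END S17/H230/EmbCons.lean

-- ===== PACK-BEGIN S17/H77/PtCoord.lean
section




/-!
# S17 / tower H / leaf G-PT (helper77): points and coordinates — abstract part

`FF1 K F`, a place `∞`, and a basis `x₀ = 1, x₁, …, x_r` of `L(m∞)` ADAPTED to the pole order at `∞`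
(`x_i ∈ L((m-1)∞)` for `i < r`, `x_r ∉ L((m-1)∞)`).

* `PtData.coord P` : the coordinate vector of a place: the values `(x_i(P))_i` for `P ≠ ∞`
  (so `coord P 0 = 1`), and `e_r` for `P = ∞`;
* `PtData.isVal_lin` : `Σ a_i x_i` has the value `⟨a, coord P⟩` at `P ≠ ∞`;
* `PtData.hyp_pos_iff` : `P ∈ Z_a ↔ ⟨a, coord P⟩ = 0` (all `P`, including `∞`);
* `PtData.mult`, `mult_sum`, `mult_ne_zero_iff` : the hyperplane section as a finitely supported
  `ℕ`-valued function.
-/

set_option autoImplicit false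

noncomputable section

namespace Fermat.Agent.S17.H77

open AlgebraicCurve Fermat.Agent.Lib.RR Fermat.Agent.S17.H890 Fermat.Agent.S17.HWall

/-- A basis of `L(m∞)` adapted to the pole order filtration at `∞`, starting with `1`. -/
structure PtData (K F : Type*) [Field K] [Field F] [Algebra K F] [FF1 K F] where
  /-- the point at infinity -/
  vinf : Place K F
  /-- the degree -/
  m : ℕ
  /-- the dimension of the ambient projective space -/
  r : ℕ
  /-- the basis -/
  x : Fin (r + 1) → F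
  r_pos : 0 < r
  m_pos : 0 < m
  x_zero : x 0 = 1
  x_li : LinearIndependent K x
  x_span : Submodule.span K (Set.range x) = riemannRochSpace (m • prim vinf)
  x_low : ∀ i, i ≠ Fin.last r → x i ∈ riemannRochSpace ((m - 1) • prim vinf)
  x_top : x (Fin.last r) ∉ riemannRochSpace ((m - 1) • prim vinf)

variable {K F : Type*} [Field K] [Field F] [Algebra K F] [FF1 K F]

namespace PtData

variable (E : PtData K F)

theorem zero_ne_last : (0 : Fin (E.r + 1)) ≠ Fin.last E.r := by
  intro h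
  have := congrArg Fin.val h
  simp at this
  have := E.r_pos
  omega

theorem x_mem (i : Fin (E.r + 1)) : E.x i ∈ riemannRochSpace (E.m • prim E.vinf) := by
  rw [← E.x_span]
  exact Submodule.subset_span ⟨i, rfl⟩

theorem lin_mem' (a : Fin (E.r + 1) → K) :
    lin E.x a ∈ riemannRochSpace (E.m • prim E.vinf) := by
  unfold lin
  exact Submodule.sum_mem _ fun i _ => Submodule.smul_mem _ _ (E.x_mem i)

theorem lin_ne_zero' {a : Fin (E.r + 1) → K} (ha : a ≠ 0) : lin E.x a ≠ 0 := by
  intro h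
  apply ha
  exact funext (Fintype.linearIndependent_iff.mp E.x_li a h)

theorem nsmul_prim_apply_of_ne (n : ℕ) {P : Place K F} (hP : P ≠ E.vinf) :
    (n • prim E.vinf : Divisor K F) P = 0 := by
  rw [Finsupp.smul_apply, prim_apply_of_ne hP, smul_zero]

theorem nsmul_prim_apply_self (n : ℕ) :
    (n • prim E.vinf : Divisor K F) E.vinf = n := by
  rw [Finsupp.smul_apply]
  unfold prim
  rw [Finsupp.single_eq_same]
  simp

/-- functions of `L(m∞)` are regular away from `∞` -/
theorem regular_of_mem {f : F} {n : ℕ} (hf : f ∈ riemannRochSpace (n • prim E.vinf))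
    {P : Place K F} (hP : P ≠ E.vinf) : f = 0 ∨ 0 ≤ P.ord f := by
  rcases (mem_L_iff.mp hf) P with h | h
  · exact Or.inl h
  · right
    rw [E.nsmul_prim_apply_of_ne n hP] at h
    simpa using h

open Classical in
/-- The coordinate vector of a place. -/
def coord (P : Place K F) : Fin (E.r + 1) → K :=
  if P = E.vinf then Pi.single (Fin.last E.r) 1 else fun i => pval P (E.x i)

theorem coord_inf : E.coord E.vinf = Pi.single (Fin.last E.r) 1 := by
  unfold coord
  rw [if_pos rfl]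

theorem coord_of_ne {P : Place K F} (hP : P ≠ E.vinf) (i : Fin (E.r + 1)) :
    E.coord P i = pval P (E.x i) := by
  unfold coord
  rw [if_neg hP]

theorem coord_zero {P : Place K F} (hP : P ≠ E.vinf) : E.coord P 0 = 1 := by
  rw [E.coord_of_ne hP, E.x_zero]
  have := pval_const P (1 : K)
  rwa [map_one] at this

theorem isVal_x {P : Place K F} (hP : P ≠ E.vinf) (i : Fin (E.r + 1)) :
    IsVal P (E.x i) (E.coord P i) := by
  rw [E.coord_of_ne hP]
  exact isVal_pval_of_ord_nonneg P (deg_eq_one P) (E.regular_of_mem (E.x_mem i) hP)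

omit [FF1 K F] in
theorem isVal_sum {ι : Type*} (P : Place K F) (s : Finset ι) (f : ι → F) (b : ι → K)
    (h : ∀ i ∈ s, IsVal P (f i) (b i)) : IsVal P (∑ i ∈ s, f i) (∑ i ∈ s, b i) := by
  classical
  induction s using Finset.induction_on with
  | empty => simpa using isVal_zero P
  | insert j s hj ih =>
    rw [Finset.sum_insert hj, Finset.sum_insert hj]
    exact (h j (Finset.mem_insert_self j s)).add
      (ih fun i hi => h i (Finset.mem_insert_of_mem hi))

/-- `Σ a_i x_i` has the value `⟨a, coord P⟩` at a finite place. -/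
theorem isVal_lin {P : Place K F} (hP : P ≠ E.vinf) (a : Fin (E.r + 1) → K) :
    IsVal P (lin E.x a) (dot a (E.coord P)) := by
  unfold lin dot dotProduct
  refine isVal_sum P _ _ _ fun i _ => ?_
  rw [Algebra.smul_def]
  exact (isVal_const P (a i)).mul (E.isVal_x hP i)

theorem hypDiv_eq {a : Fin (E.r + 1) → K} (ha : a ≠ 0) :
    hypDiv E.vinf E.m E.x a = divOf (lin E.x a) (E.lin_ne_zero' ha) + E.m • prim E.vinf := by
  unfold hypDiv
  rw [dif_neg (E.lin_ne_zero' ha)]

theorem hypDiv_zero : hypDiv E.vinf E.m E.x (0 : Fin (E.r + 1) → K) = 0 := by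
  unfold hypDiv
  rw [dif_pos (by simp [lin])]

theorem hypDiv_apply {a : Fin (E.r + 1) → K} (ha : a ≠ 0) (P : Place K F) :
    hypDiv E.vinf E.m E.x a P = P.ord (lin E.x a) + (E.m • prim E.vinf : Divisor K F) P := by
  rw [E.hypDiv_eq ha, Finsupp.add_apply, divOf_apply]

theorem hypDiv_nonneg (a : Fin (E.r + 1) → K) : 0 ≤ hypDiv E.vinf E.m E.x a := by
  by_cases ha : a = 0
  · subst ha
    rw [E.hypDiv_zero]
  · rw [Finsupp.le_def]
    intro P
    rw [E.hypDiv_apply ha P, Finsupp.coe_zero, Pi.zero_apply]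
    rcases (mem_L_iff.mp (E.lin_mem' a)) P with h | h
    · exact absurd h (E.lin_ne_zero' ha)
    · linarith

theorem degree_hypDiv {a : Fin (E.r + 1) → K} (ha : a ≠ 0) :
    Divisor.degree (hypDiv E.vinf E.m E.x a) = E.m := by
  rw [E.hypDiv_eq ha, map_add, degree_divOf, zero_add, map_nsmul,
    degree_prim _ (deg_eq_one _)]
  simp

/-- the part of `Σ a_i x_i` of pole order `< m` -/
theorem lin_sub_top_mem (a : Fin (E.r + 1) → K) :
    lin E.x a - a (Fin.last E.r) • E.x (Fin.last E.r)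
      ∈ riemannRochSpace ((E.m - 1) • prim E.vinf) := by
  classical
  unfold lin
  rw [← Finset.sum_erase_add _ _ (Finset.mem_univ (Fin.last E.r)), add_sub_cancel_right]
  refine Submodule.sum_mem _ fun i hi => Submodule.smul_mem _ _ (E.x_low i ?_)
  exact (Finset.mem_erase.mp hi).1

/-- `Σ a_i x_i ∈ L((m-1)∞)` iff `a_r = 0`. -/
theorem lin_mem_low_iff (a : Fin (E.r + 1) → K) :
    lin E.x a ∈ riemannRochSpace ((E.m - 1) • prim E.vinf) ↔ a (Fin.last E.r) = 0 := by
  constructor
  · intro h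
    by_contra h0
    have h1 := Submodule.sub_mem _ h (E.lin_sub_top_mem a)
    rw [sub_sub_cancel] at h1
    have h2 := Submodule.smul_mem _ (a (Fin.last E.r))⁻¹ h1
    rw [smul_smul, inv_mul_cancel₀ h0, one_smul] at h2
    exact E.x_top h2
  · intro h
    have h1 := E.lin_sub_top_mem a
    rwa [h, zero_smul, sub_zero] at h1

/-- **the points of the hyperplane section**: `P ∈ Z_a ↔ ⟨a, coord P⟩ = 0`. -/
theorem hyp_pos_iff {a : Fin (E.r + 1) → K} (ha : a ≠ 0) (P : Place K F) :
    0 < hypDiv E.vinf E.m E.x a P ↔ dot a (E.coord P) = 0 := by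
  have hne := E.lin_ne_zero' ha
  rw [E.hypDiv_apply ha P]
  by_cases hP : P = E.vinf
  · subst hP
    rw [E.nsmul_prim_apply_self, E.coord_inf]
    have hdot : dot a (Pi.single (Fin.last E.r) (1 : K)) = a (Fin.last E.r) := by
      unfold dot
      rw [dotProduct_single, mul_one]
    rw [hdot, ← E.lin_mem_low_iff a, mem_L_iff]
    constructor
    · intro h v
      right
      by_cases hv : v = E.vinf
      · subst hv
        rw [E.nsmul_prim_apply_self]
        have hm := E.m_pos
        push_cast [Nat.cast_sub hm]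
        omega
      · rw [E.nsmul_prim_apply_of_ne _ hv]
        rcases E.regular_of_mem (E.lin_mem' a) hv with h1 | h1
        · exact absurd h1 hne
        · simpa using h1
    · intro h
      rcases h E.vinf with h1 | h1
      · exact absurd h1 hne
      · rw [E.nsmul_prim_apply_self] at h1
        have hm := E.m_pos
        push_cast [Nat.cast_sub hm] at h1
        omega
  · rw [E.nsmul_prim_apply_of_ne _ hP, add_zero]
    have hval := E.isVal_lin hP a
    constructor
    · intro h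
      exact hval.unique (isVal_of_ord_pos P h)
    · intro h
      rw [h, isVal_zero_iff] at hval
      rcases hval with h1 | h1
      · exact absurd h1 hne
      · exact h1

open Classical in
/-- The hyperplane section `Z_a` as a finitely supported `ℕ`-valued function. -/
def mult (a : Fin (E.r + 1) → K) : Place K F →₀ ℕ :=
  (hypDiv E.vinf E.m E.x a).mapRange Int.toNat (by simp)

theorem mult_apply (a : Fin (E.r + 1) → K) (P : Place K F) :
    E.mult a P = (hypDiv E.vinf E.m E.x a P).toNat := by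
  unfold mult
  rw [Finsupp.mapRange_apply]

theorem coe_mult_apply (a : Fin (E.r + 1) → K) (P : Place K F) :
    ((E.mult a P : ℕ) : ℤ) = hypDiv E.vinf E.m E.x a P := by
  rw [E.mult_apply]
  exact Int.toNat_of_nonneg (Finsupp.le_def.mp (E.hypDiv_nonneg a) P)

theorem mult_zero : E.mult (0 : Fin (E.r + 1) → K) = 0 := by
  ext P
  rw [E.mult_apply, E.hypDiv_zero]
  simp

theorem mult_ne_zero_iff {a : Fin (E.r + 1) → K} (ha : a ≠ 0) (P : Place K F) :
    E.mult a P ≠ 0 ↔ dot a (E.coord P) = 0 := by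
  rw [← E.hyp_pos_iff ha P, ← E.coe_mult_apply a P]
  constructor
  · intro h
    have : 0 < E.mult a P := Nat.pos_of_ne_zero h
    exact_mod_cast this
  · intro h h0
    rw [h0] at h
    simp at h

theorem mult_sum {a : Fin (E.r + 1) → K} (ha : a ≠ 0) :
    ((E.mult a).sum fun _ n => n) = E.m := by
  have h1 := E.degree_hypDiv ha
  rw [degree_eq_sum] at h1
  have hsupp : (E.mult a).support = (hypDiv E.vinf E.m E.x a).support := by
    ext P
    rw [Finsupp.mem_support_iff, Finsupp.mem_support_iff, ← E.coe_mult_apply a P]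
    simp
  have h2 : (((E.mult a).sum fun _ n => n : ℕ) : ℤ) = E.m := by
    rw [← h1, Finsupp.sum, Nat.cast_sum, hsupp]
    refine Finset.sum_congr rfl fun P _ => ?_
    rw [E.coe_mult_apply a P, deg_eq_one P]
    simp
  exact_mod_cast h2

end PtData

end Fermat.Agent.S17.H77

end
end
-- ===== PACK-END S17/H77/PtCoord.lean

-- ===== PACK-BEGIN S17/H77/PtBasis.lean
section



/-!
# S17 / tower H / leaf G-PT (helper77): an adapted basis of Galois-fixed functions

`F = ℚ̄ · F₀ ⊆ ℚ̄((q))`, `∞` a Galois-fixed place, `2g ≤ m`, `1 ≤ m`.  Then `L(m∞)` has a basis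
`x₀ = 1, x₁, …, x_r` of Galois-fixed functions adapted to the pole order filtration at `∞`:
`exists_ptData` produces a `PtData` with these properties.
-/

set_option autoImplicit false

noncomputable section

open AlgebraicCurve ModularCurve

namespace Fermat.Agent.S17.H77

open Fermat.Agent.Lib.RR Fermat.Agent.S17.H680

/-- A finite-dimensional vector space has a basis starting with a given nonzero vector. -/
theorem exists_basis_cons {k W : Type*} [Field k] [AddCommGroup W] [Module k W]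
    [Module.Finite k W] (y : W) (hy : y ≠ 0) :
    ∃ (n : ℕ) (b : Module.Basis (Fin (n + 1)) k W), b 0 = y := by
  obtain ⟨C, hC⟩ := Submodule.exists_isCompl (Submodule.span k {y})
  let c := Module.finBasis k C
  have hli : ∀ (a : k), ∀ x ∈ C, a • y + x = 0 → a = 0 := by
    intro a x hx h
    have h1 : a • y ∈ C := by
      have : a • y = -x := eq_neg_of_add_eq_zero_left h
      rw [this]
      exact C.neg_mem hx
    have h2 : a • y ∈ Submodule.span k {y} :=
      Submodule.smul_mem _ _ (Submodule.mem_span_singleton_self y)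
    have h3 : a • y ∈ Submodule.span k {y} ⊓ C := ⟨h2, h1⟩
    rw [hC.inf_eq_bot, Submodule.mem_bot] at h3
    rcases smul_eq_zero.mp h3 with h4 | h4
    · exact h4
    · exact absurd h4 hy
  have hsp : ∀ z : W, ∃ a : k, z + a • y ∈ C := by
    intro z
    have hz : z ∈ Submodule.span k {y} ⊔ C := by
      rw [hC.sup_eq_top]
      exact Submodule.mem_top
    obtain ⟨u, hu, w, hw, rfl⟩ := Submodule.mem_sup.mp hz
    obtain ⟨a, rfl⟩ := Submodule.mem_span_singleton.mp hu
    refine ⟨-a, ?_⟩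
    rw [neg_smul, add_comm (a • y) w, add_neg_cancel_right]
    exact hw
  refine ⟨_, Module.Basis.mkFinCons y c hli hsp, ?_⟩
  rw [Module.Basis.coe_mkFinCons, Fin.cons_zero]

variable (F₀ : IntermediateField ℚ (LaurentSeries ℚ)) [FF1 Qb (laurentBaseChange Qb F₀)]

omit [FF1 Qb (laurentBaseChange Qb F₀)] in
theorem isInvariant_nsmul_prim {vinf : Place Qb (laurentBaseChange Qb F₀)}
    (hinv : ∀ σ : GQ, arithmeticGalois F₀ σ • vinf = vinf) (k : ℕ) :
    IsInvariant F₀ (k • prim vinf) := by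
  intro σ
  rw [smul_comm, smul_prim, hinv]

omit [FF1 Qb (laurentBaseChange Qb F₀)] in
theorem prim_nonneg' (vinf v : Place Qb (laurentBaseChange Qb F₀)) :
    (0 : ℤ) ≤ prim vinf v := by
  by_cases hv : v = vinf
  · subst hv
    unfold prim
    rw [Finsupp.single_eq_same]
    exact zero_le_one
  · rw [prim_apply_of_ne hv]

omit [FF1 Qb (laurentBaseChange Qb F₀)] in
theorem one_mem_L_nsmul_prim (vinf : Place Qb (laurentBaseChange Qb F₀)) (k : ℕ) :
    (1 : laurentBaseChange Qb F₀) ∈ riemannRochSpace (k • prim vinf) := by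
  rw [mem_L_iff]
  intro v
  right
  rw [Place.ord_one, Finsupp.smul_apply]
  have := prim_nonneg' F₀ vinf v
  have h2 : (0 : ℤ) ≤ k • prim vinf v := by
    rw [nsmul_eq_mul]
    positivity
  omega

omit [FF1 Qb (laurentBaseChange Qb F₀)] in
theorem isFixed_one : IsFixed F₀ (1 : laurentBaseChange Qb F₀) := fun _ => smul_one _

/-- For an invariant divisor `D` with `1 ∈ L(D)`, the space `L(D)` has a `ℚ̄`-basis of
Galois-fixed functions starting with `1`. -/
theorem exists_fixed_basis_one {D : Divisor Qb (laurentBaseChange Qb F₀)}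
    (hI : IsInvariant F₀ D) (h1 : (1 : laurentBaseChange Qb F₀) ∈ riemannRochSpace D) :
    ∃ (n : ℕ) (x : Fin (n + 1) → laurentBaseChange Qb F₀), x 0 = 1 ∧
      (∀ i, IsFixed F₀ (x i)) ∧ (∀ i, x i ∈ riemannRochSpace D) ∧
      LinearIndependent Qb x ∧ Submodule.span Qb (Set.range x) = riemannRochSpace D := by
  classical
  have hfinW : Module.Finite ℚ (fixedPart F₀ (riemannRochSpace D)) := by
    obtain ⟨b, -, -, -, -, hspanQ⟩ := exists_fixed_basis_L F₀ hI
    rw [← hspanQ]
    exact FiniteDimensional.span_of_finite ℚ (Set.finite_range b)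
  have hy : (⟨1, h1, isFixed_one F₀⟩ : fixedPart F₀ (riemannRochSpace D)) ≠ 0 := by
    intro h
    have := congrArg Subtype.val h
    exact one_ne_zero this
  obtain ⟨n, b, hb0⟩ := exists_basis_cons (k := ℚ) _ hy
  have hx'fix : ∀ i, IsFixed F₀ ((b i : fixedPart F₀ (riemannRochSpace D)) :
      laurentBaseChange Qb F₀) := fun i => (b i).2.2
  have hx'L : ∀ i, ((b i : fixedPart F₀ (riemannRochSpace D)) :
      laurentBaseChange Qb F₀) ∈ riemannRochSpace D := fun i => (b i).2.1
  have hliQ : LinearIndependent ℚ (fun i => ((b i : fixedPart F₀ (riemannRochSpace D)) :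
      laurentBaseChange Qb F₀)) :=
    b.linearIndependent.map' (Submodule.subtype _) (Submodule.ker_subtype _)
  have hli' := linearIndependent_of_isFixed F₀ _ hx'fix hliQ
  have hspanQ : Submodule.span ℚ (Set.range (fun i =>
      ((b i : fixedPart F₀ (riemannRochSpace D)) : laurentBaseChange Qb F₀))) =
      fixedPart F₀ (riemannRochSpace D) := by
    have h1 := b.span_eq
    have h2 := congrArg (Submodule.map (Submodule.subtype _)) h1
    rw [Submodule.map_span, Submodule.map_top, Submodule.range_subtype, ← Set.range_comp] at h2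
    exact h2
  refine ⟨n, fun i => ((b i : fixedPart F₀ (riemannRochSpace D)) : laurentBaseChange Qb F₀),
    ?_, hx'fix, hx'L, hli', ?_⟩
  · show ((b 0 : fixedPart F₀ (riemannRochSpace D)) : laurentBaseChange Qb F₀) = 1
    rw [hb0]
  · apply le_antisymm
    · rw [Submodule.span_le]
      rintro _ ⟨i, rfl⟩
      exact hx'L i
    · refine le_trans (le_of_eq (span_fixed_eq F₀ (riemannRochSpace D)
        (fun σ _ hf => smul_mem_L_of_isInvariant F₀ hI σ hf)).symm) ?_
      rw [Submodule.span_le]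
      intro f hf
      have hfW : f ∈ fixedPart F₀ (riemannRochSpace D) := hf
      rw [← hspanQ] at hfW
      exact Submodule.span_le_restrictScalars ℚ Qb _ hfW

/-- If `ℓ(D₁) < ℓ(D₂)` with `D₂` invariant, some Galois-fixed function of `L(D₂)` is not in
`L(D₁)`. -/
theorem exists_fixed_not_mem {D₁ D₂ : Divisor Qb (laurentBaseChange Qb F₀)}
    (hI₂ : IsInvariant F₀ D₂) (hlt : ell D₁ < ell D₂) :
    ∃ t : laurentBaseChange Qb F₀, t ∈ riemannRochSpace D₂ ∧ IsFixed F₀ t ∧
      t ∉ riemannRochSpace D₁ := by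
  by_contra hcon
  have hsub : riemannRochSpace D₂ ≤ riemannRochSpace D₁ := by
    rw [← span_fixed_eq F₀ (riemannRochSpace D₂)
      (fun σ _ hf => smul_mem_L_of_isInvariant F₀ hI₂ σ hf), Submodule.span_le]
    intro f hf
    by_contra hf1
    exact hcon ⟨f, hf.1, hf.2, hf1⟩
  have h1 : ell D₂ ≤ ell D₁ := Submodule.finrank_mono hsub
  omega

omit [FF1 Qb (laurentBaseChange Qb F₀)] in
theorem nsmul_prim_le {vinf : Place Qb (laurentBaseChange Qb F₀)} {a b : ℕ} (h : a ≤ b) :
    a • prim vinf ≤ b • prim vinf := by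
  rw [Finsupp.le_def]
  intro v
  rw [Finsupp.smul_apply, Finsupp.smul_apply, nsmul_eq_mul, nsmul_eq_mul]
  have h1 : (a : ℤ) ≤ (b : ℤ) := by exact_mod_cast h
  exact mul_le_mul_of_nonneg_right h1 (prim_nonneg' F₀ vinf v)

theorem ell_nsmul_prim (vinf : Place Qb (laurentBaseChange Qb F₀)) (k : ℕ)
    (hk : 2 * (genusFF Qb (laurentBaseChange Qb F₀) : ℤ) - 2 < k) :
    (ell (k • prim vinf) : ℤ) = (k : ℤ) + 1 - genusFF Qb (laurentBaseChange Qb F₀) := by
  have hdeg : Divisor.degree (k • prim vinf) = (k : ℤ) := by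
    rw [map_nsmul, degree_prim _ (deg_eq_one _)]
    simp
  have := ell_eq_of_degree_gt (D := k • prim vinf) (by rw [hdeg]; exact hk)
  rw [this, hdeg]

/-- **Adapted basis.**  For a Galois-fixed place `∞` and `m ≥ max (2g) 1`, the space `L(m∞)` has a
basis of Galois-fixed functions `x₀ = 1, …, x_r` with `x_i ∈ L((m-1)∞)` for `i < r` and
`x_r ∉ L((m-1)∞)`. -/
theorem exists_ptData (vinf : Place Qb (laurentBaseChange Qb F₀))
    (hinv : ∀ σ : GQ, arithmeticGalois F₀ σ • vinf = vinf) (m : ℕ) (hm1 : 1 ≤ m)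
    (hm : 2 * genusFF Qb (laurentBaseChange Qb F₀) ≤ m) :
    ∃ E : PtData Qb (laurentBaseChange Qb F₀), E.vinf = vinf ∧ E.m = m ∧
      ∀ i, IsFixed F₀ (E.x i) := by
  classical
  have hI₁ : IsInvariant F₀ ((m - 1) • prim vinf) := isInvariant_nsmul_prim F₀ hinv _
  have hI₂ : IsInvariant F₀ (m • prim vinf) := isInvariant_nsmul_prim F₀ hinv _
  have hcast : ((m - 1 : ℕ) : ℤ) = (m : ℤ) - 1 := by
    push_cast [Nat.cast_sub hm1]
    rfl
  have hell₁ := ell_nsmul_prim F₀ vinf (m - 1) (by rw [hcast]; omega)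
  have hell₂ := ell_nsmul_prim F₀ vinf m (by omega)
  rw [hcast] at hell₁
  have hle : (m - 1) • prim vinf ≤ m • prim vinf := nsmul_prim_le F₀ (Nat.sub_le m 1)
  obtain ⟨n, x', hx'0, hx'fix, hx'L, hli', hspan'⟩ :=
    exists_fixed_basis_one F₀ hI₁ (one_mem_L_nsmul_prim F₀ vinf _)
  have hn : ell ((m - 1) • prim vinf) = n + 1 := by
    unfold ell
    rw [← hspan', finrank_span_eq_card hli', Fintype.card_fin]
  obtain ⟨t, htL, htfix, htn⟩ :=
    exists_fixed_not_mem F₀ (D₁ := (m - 1) • prim vinf) hI₂ (by omega)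
  have hxli : LinearIndependent Qb (Fin.snoc x' t : Fin (n + 1 + 1) → laurentBaseChange Qb F₀) := by
    refine linearIndependent_finSnoc.mpr ⟨hli', ?_⟩
    rw [hspan']
    exact htn
  have hxL : ∀ i, (Fin.snoc x' t : Fin (n + 1 + 1) → laurentBaseChange Qb F₀) i ∈
      riemannRochSpace (m • prim vinf) := by
    intro i
    rcases Fin.eq_castSucc_or_eq_last i with ⟨j, rfl⟩ | rfl
    · rw [Fin.snoc_castSucc]
      exact L_mono hle (hx'L j)
    · rw [Fin.snoc_last]
      exact htL
  have hxspan : Submodule.span Qb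
      (Set.range (Fin.snoc x' t : Fin (n + 1 + 1) → laurentBaseChange Qb F₀)) =
      riemannRochSpace (m • prim vinf) := by
    have hle' : Submodule.span Qb
        (Set.range (Fin.snoc x' t : Fin (n + 1 + 1) → laurentBaseChange Qb F₀)) ≤
        riemannRochSpace (m • prim vinf) := by
      rw [Submodule.span_le]
      rintro _ ⟨i, rfl⟩
      exact hxL i
    refine Submodule.eq_of_le_of_finrank_eq hle' ?_
    rw [finrank_span_eq_card hxli, Fintype.card_fin]
    have h3 : ell (m • prim vinf) = n + 1 + 1 := by omega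
    exact h3.symm
  have hx0 : (Fin.snoc x' t : Fin (n + 1 + 1) → laurentBaseChange Qb F₀) 0 = 1 := by
    have h0 : (0 : Fin (n + 1 + 1)) = Fin.castSucc (0 : Fin (n + 1)) := rfl
    rw [h0, Fin.snoc_castSucc]
    exact hx'0
  have hxlow : ∀ i : Fin (n + 1 + 1), i ≠ Fin.last (n + 1) →
      (Fin.snoc x' t : Fin (n + 1 + 1) → laurentBaseChange Qb F₀) i ∈
        riemannRochSpace ((m - 1) • prim vinf) := by
    intro i hi
    rcases Fin.eq_castSucc_or_eq_last i with ⟨j, rfl⟩ | rfl
    · rw [Fin.snoc_castSucc]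
      exact hx'L j
    · exact absurd rfl hi
  have hxtop : (Fin.snoc x' t : Fin (n + 1 + 1) → laurentBaseChange Qb F₀) (Fin.last (n + 1)) ∉
      riemannRochSpace ((m - 1) • prim vinf) := by
    rw [Fin.snoc_last]
    exact htn
  have hxfix : ∀ i, IsFixed F₀
      ((Fin.snoc x' t : Fin (n + 1 + 1) → laurentBaseChange Qb F₀) i) := by
    intro i
    rcases Fin.eq_castSucc_or_eq_last i with ⟨j, rfl⟩ | rfl
    · rw [Fin.snoc_castSucc]
      exact hx'fix j
    · rw [Fin.snoc_last]
      exact htfix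
  exact ⟨PtData.mk vinf m (n + 1) (Fin.snoc x' t) (Nat.succ_pos n) hm1 hx0 hxli hxspan hxlow
    hxtop, rfl, rfl, hxfix⟩

end Fermat.Agent.S17.H77

end
end
-- ===== PACK-END S17/H77/PtBasis.lean

-- ===== PACK-BEGIN S17/H617/HWallStmt.lean
section


/-!
# S17 / tower H — the LOCAL WALL `(L1)`, `(L1')`: frozen STATEMENTS (definitions only; helper617)

Sorry-free.  Output interface of the wall of tower H (wall architect helper710, note #6325):
producers prove `L1Statement E`, `L1pStatement E` (under `4g + 1 ≤ E.m` if they wish); the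
local → global layer turns them into the global contract (E3), (ADJ), … of the row-lead.

* `contr y W` : the linear form `T_{y,W}`, `⟨T_{y,W}, z⟩ = Σ_p W p · (y ∧ z)_p`;
* `supn v y` : sup norm; `lam v y z = - log (|y ∧ z|_v / (|y|_v |z|_v))`;
* `IsGoodAbs v` : `v` nonarchimedean, or induced by a ring hom `K →+* ℂ`;
* `bnd v S N = [v archimedean]·N + Σ_{c ∈ S} |log v(c)|` : the shape of all local constants
  (`S` a finite set of nonzero constants; for a family of absolute values in which every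
  `c ≠ 0` is a unit almost everywhere the bound has finite support);
* `L1Statement E`  : `| Σ_A Z_a(A) λ_v(A,P) + log(|a(xP)|_v / (|a|_v |xP|_v)) | ≤ bnd v S N`
  for ALL good `v`, `a ≠ 0`, `P ∉ Z_a`, with ONE `S` and ONE `N`;
* `L1pStatement E` : the first order version at a simple zero `A₀` of `a`;
* `ChowStatement E` : the Chow form `R(a,T)` with `(C1)`, `(C2)` (BACKUP route only).

Blueprint: `coord/S17-HWall-helper617.md` (origin/helper617).
-/

set_option autoImplicit false

noncomputable section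

open AlgebraicCurve

namespace Fermat.Agent.S17.HWall

open Fermat.Agent.Lib.RR

variable {K F : Type*} [Field K] [Field F] [Algebra K F]

/-! ## Linear algebra on `K^n` -/

/-- The linear form `T_{y,W}` with `⟨T_{y,W}, z⟩ = Σ_p W p · (y ∧ z)_p`; it vanishes at `y`, and
every linear form vanishing at `y ≠ 0` is of this shape. -/
def contr {n : ℕ} (y : Fin n → K) (W : Fin n × Fin n → K) : Fin n → K :=
  fun k => ∑ j, (W (j, k) - W (k, j)) * y j

theorem dot_contr {n : ℕ} (y z : Fin n → K) (W : Fin n × Fin n → K) :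
    dot (contr y W) z = ∑ p : Fin n × Fin n, W p * wedge y z p := by
  unfold contr wedge
  simp only [dot, dotProduct, Finset.sum_mul, sub_mul, Finset.sum_sub_distrib]
  rw [Fintype.sum_prod_type]
  simp only [mul_sub, Finset.sum_sub_distrib]
  congr 1
  · rw [Finset.sum_comm]
    exact Finset.sum_congr rfl fun j _ => Finset.sum_congr rfl fun k _ => by ring
  · exact Finset.sum_congr rfl fun j _ => Finset.sum_congr rfl fun k _ => by ring

theorem wedge_self {n : ℕ} (y : Fin n → K) : wedge y y = 0 := by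
  funext p
  simp [wedge, mul_comm]

theorem dot_contr_self {n : ℕ} (y : Fin n → K) (W : Fin n × Fin n → K) :
    dot (contr y W) y = 0 := by
  rw [dot_contr, wedge_self]
  simp

/-- sup norm of a finite family -/
def supn {ι : Type*} (v : AbsoluteValue K ℝ) (y : ι → K) : ℝ := ⨆ i, v (y i)

/-- `λ_v(y, z) = - log ( |y ∧ z|_v / (|y|_v |z|_v) )`: minus the logarithm of the `v`-adic
projective (chordal) distance of the points `[y]`, `[z]`. -/
def lam {n : ℕ} (v : AbsoluteValue K ℝ) (y z : Fin n → K) : ℝ :=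
  -Real.log (supn v (wedge y z) / (supn v y * supn v z))

/-- The admissible absolute values: nonarchimedean, or induced by a complex embedding. -/
def IsGoodAbs (v : AbsoluteValue K ℝ) : Prop :=
  IsNonarchimedean v ∨ ∃ φ : K →+* ℂ, ∀ c : K, v c = ‖φ c‖

open Classical in
/-- The shape of all local constants: `[v archimedean]·N + Σ_{c ∈ S} |log v(c)|`. -/
def bnd (v : AbsoluteValue K ℝ) (S : Finset K) (N : ℝ) : ℝ :=
  (if IsNonarchimedean v then 0 else N) + ∑ c ∈ S, |Real.log (v c)|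

variable [FF1 K F]

/-! ## The wall (LOCAL route, BACKUP; primary = helper710's global route) -/

/-- **(L1)**, uniform in the hyperplane `a`, the point `P` and the absolute value `v`. -/
def L1Statement (E : EmbData K F) : Prop :=
  ∃ (S : Finset K) (N : ℝ), (∀ c ∈ S, c ≠ 0) ∧
    ∀ v : AbsoluteValue K ℝ, IsGoodAbs v →
    ∀ (a : Fin (E.r + 1) → K) (P : Place K F), a ≠ 0 → dot a (E.pt P) ≠ 0 →
      |(E.Z a).sum (fun A n => (n : ℝ) * lam v (E.pt A) (E.pt P)) +
          Real.log (v (dot a (E.pt P)) / (supn v a * supn v (E.pt P)))| ≤ bnd v S N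

/-- **(L1')**, the first order version at a simple zero `A₀` of `a`. -/
def L1pStatement (E : EmbData K F) : Prop :=
  ∃ (S : Finset K) (N : ℝ), (∀ c ∈ S, c ≠ 0) ∧
    ∀ v : AbsoluteValue K ℝ, IsGoodAbs v →
    ∀ (a : Fin (E.r + 1) → K) (A₀ : Place K F), a ≠ 0 → E.Z a A₀ = 1 →
      |((E.Z a).erase A₀).sum (fun A n => (n : ℝ) * lam v (E.pt A) (E.pt A₀)) +
          Real.log (v (dot a (E.tn A₀)) * supn v (E.pt A₀) /
            (supn v a * supn v (wedge (E.pt A₀) (E.tn A₀))))| ≤ bnd v S N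

/-- **CHOW = (C1) + (C2)**: the Chow form `R(a, T)` of the embedded curve.
`(C1)` `R(a, T) = c(a) ∏_{A ∈ Z_a} ⟨T, φ(A)⟩^{Z_a(A)}` with `c(a) ≠ 0`, for every `a ≠ 0`;
`(C2)` `R(a, T) = ε R(T, a)`, `ε = ± 1` (Weil reciprocity). -/
def ChowStatement (E : EmbData K F) : Prop :=
  ∃ (R : MvPolynomial (Fin (E.r + 1) ⊕ Fin (E.r + 1)) K) (ε : K), ε ^ 2 = 1 ∧
    (∀ a : Fin (E.r + 1) → K, a ≠ 0 → ∃ c : K, c ≠ 0 ∧ ∀ T : Fin (E.r + 1) → K,
      MvPolynomial.eval (Sum.elim a T) R =
        c * (E.Z a).prod (fun A n => dot T (E.pt A) ^ n.toNat)) ∧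
    ∀ a T : Fin (E.r + 1) → K,
      MvPolynomial.eval (Sum.elim a T) R = ε * MvPolynomial.eval (Sum.elim T a) R

end Fermat.Agent.S17.HWall

end
end
-- ===== PACK-END S17/H617/HWallStmt.lean

-- ===== PACK-BEGIN S15/H242/Psi2.lean
section


/-!
# S15, piece LOC-U (helper242): the valuation of `ψ₂` along the multiples of `Q`

`ψ₂(P) = 2 y + a₁ x + a₃` (the `y`-derivative of the Weierstrass equation; `℘'` in the analytic
normalisation).  In the route of `coord/S15-PB-helper902.md` the value at the moduli point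
`(E, ⟨Q⟩)` of the modular unit `u = Δ(τ)/Δ(pτ)` is

  `U(W, Q) = p¹² · ∏_{k=1}^{p-1} ψ₂(kQ)⁴ / Δ_W^{p-1}`.

Here we compute its `A`-adic size at a place `A` of bad reduction, purely on the elliptic curve:

* `val_psi2_eq_one_of_inE0`  : `Q ∈ E⁰` of odd prime order `p` (a unit of `A`), `p ∤ k`
                               `⟹ v(ψ₂(kQ)) = 1` (it is a unit of `A`);
* `val_psi2_lt_one_of_not_inE0` : `Q ∉ E⁰`, `p • Q = 0`, `p ∤ k`  `⟹  v(ψ₂(kQ)) < 1`
                               (and `kQ` is an integral affine point);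
* `val_modUnitValue_of_inE0`, `val_modUnitValue_of_not_inE0` : the resulting (in)equalities for
  `U(W, Q)`;
* `..._S15` : the same in the setting of S15 (`InZeroComponentAt`).

No Tate curve, no isogeny.  (`v` is the multiplicative valuation of `A`: `v x ≤ 1 ↔ x ∈ A`.)
-/

set_option autoImplicit false
open WeierstrassCurve WeierstrassCurve.Affine

namespace Fermat.Agent.S15.H242

open Fermat.Agent.Lib.Red.H290
open Fermat.Agent.S05.SameRed (IntegralCoeffs InKer)

section general

variable {K : Type*} [Field K] [DecidableEq K] {κ : Type*} [Field κ] [DecidableEq κ]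
variable {A : ValuationSubring K} {φ : A →+* κ} {W : Affine K} {Wκ : Affine κ}

/-- `ψ₂(P) = 2 y + a₁ x + a₃`, and `0` at the origin. -/
def psi2 (W : Affine K) : W.Point → K
  | .zero => 0
  | .some x y _ => 2 * y + W.a₁ * x + W.a₃

omit [DecidableEq K] in
@[simp] lemma psi2_some {x y : K} (h : W.Nonsingular x y) :
    psi2 W (Point.some x y h) = 2 * y + W.a₁ * x + W.a₃ := rfl

omit [DecidableEq K] in
@[simp] lemma psi2_zero : psi2 W (0 : W.Point) = 0 := rfl

/-- The product `∏_{k=1}^{p-1} ψ₂(kQ)`. -/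
noncomputable def psi2Prod (W : Affine K) (Q : W.Point) (p : ℕ) : K :=
  ∏ k ∈ Finset.Ico 1 p, psi2 W (k • Q)

/-- The value `U(W, Q) = p¹² ∏_{k=1}^{p-1} ψ₂(kQ)⁴ / Δ^{p-1}` of the modular unit
`Δ(τ)/Δ(pτ)` at the moduli point `(W, ⟨Q⟩)`. -/
noncomputable def modUnitValue (W : Affine K) (Q : W.Point) (p : ℕ) : K :=
  (p : K) ^ 12 * psi2Prod W Q p ^ 4 / W.Δ ^ (p - 1)

section lemmas

variable (h : IsRedOf A φ W Wκ) (hφ : KerMax A φ)
include h hφ

omit [DecidableEq K] [DecidableEq κ] hφ in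
/-- `ψ₂` of an integral point is integral and reduces to `ψ₂` of the reduced point. -/
lemma psi2_mem_and_rd {x y : K} (hx : x ∈ A) (hy : y ∈ A) :
    2 * y + W.a₁ * x + W.a₃ ∈ A ∧
      rd A φ (2 * y + W.a₁ * x + W.a₃) = rd A φ y - Wκ.negY (rd A φ x) (rd A φ y) := by
  have e : 2 * y + W.a₁ * x + W.a₃ = y - W.negY x y := by
    simp only [Affine.negY]; ring
  rw [e]
  exact ⟨A.sub_mem hy (negY_mem h hx hy), by
    rw [rd_sub hy (negY_mem h hx hy), rd_negY h hx hy]⟩

/-- **Unit case.** If `Q ∈ E⁰` has odd prime order `p`, `p` a unit of `A`, and `p ∤ k`, then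
`kQ` is an integral affine point and `ψ₂(kQ)` is a unit of `A`. -/
theorem val_psi2_eq_one_of_inE0 {p : ℕ} (hp : p.Prime) (hp2 : p ≠ 2)
    (hv : A.valuation (p : K) = 1) {Q : W.Point} (hQ : InE0 A φ Wκ Q) (hord : addOrderOf Q = p)
    {k : ℕ} (hk : ¬ p ∣ k) : A.valuation (psi2 W (k • Q)) = 1 := by
  have hcop : (addOrderOf Q).Coprime k := by
    rw [hord]; exact (Nat.Prime.coprime_iff_not_dvd hp).mpr hk
  have hordP : addOrderOf (k • Q) = p := by rw [hcop.addOrderOf_nsmul, hord]
  have hP0 := inE0_nsmul h hφ hQ k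
  have hredord := addOrderOf_red0 h hφ hp hv hP0 hordP
  rcases hkQ : k • Q with _ | ⟨x, y, hxy⟩
  · rw [hkQ] at hordP
    rw [show (Point.zero : W.Point) = 0 from rfl, addOrderOf_zero] at hordP
    exact absurd hordP hp.one_lt.ne
  · rw [hkQ] at hP0 hredord
    have hx : x ∈ A := by
      by_contra hx
      rw [red0_some_of_not_mem hxy hx, addOrderOf_zero] at hredord
      exact hp.one_lt.ne hredord
    have hy : y ∈ A := y_mem_of_x_mem h hxy.1 hx
    have hns := hP0 hx
    rw [red0_some_of_mem hxy hx hns] at hredord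
    obtain ⟨hmem, hrd⟩ := psi2_mem_and_rd h hx hy
    rw [psi2_some]
    refine (rd_ne_zero_iff hφ hmem).mp ?_
    rw [hrd]
    intro h0
    -- the reduced point would be `2`-torsion
    have hyy : rd A φ y = Wκ.negY (rd A φ x) (rd A φ y) := sub_eq_zero.mp h0
    have h2 : (2 : ℕ) • (Point.some (rd A φ x) (rd A φ y) hns : Wκ.Point) = 0 := by
      rw [two_nsmul]
      exact Point.add_of_Y_eq rfl hyy
    have hdvd := addOrderOf_dvd_of_nsmul_eq_zero h2
    rw [hredord] at hdvd
    exact hp2 ((Nat.prime_dvd_prime_iff_eq hp Nat.prime_two).mp hdvd)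

/-- If `Q ∉ E⁰` and `p • Q = 0` with `p` prime, then no multiple `kQ`, `p ∤ k`, lies in `E⁰`. -/
theorem not_inE0_nsmul {p : ℕ} (hp : p.Prime) {Q : W.Point} (hQ : ¬ InE0 A φ Wκ Q)
    (hpQ : p • Q = 0) {k : ℕ} (hk : ¬ p ∣ k) : ¬ InE0 A φ Wκ (k • Q) := by
  intro hkQ
  apply hQ
  have hcop : Nat.Coprime k p := ((Nat.Prime.coprime_iff_not_dvd hp).mpr hk).symm
  -- `k' k ≡ 1 mod p`
  obtain ⟨k', -, hk'⟩ := Nat.exists_mul_mod_eq_one_of_coprime hcop hp.one_lt
  have hQeq : (k * k') • Q = Q := by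
    conv_rhs => rw [← one_nsmul Q]
    have hmod : (k * k') % p = 1 % p := by rw [hk', Nat.mod_eq_of_lt hp.one_lt]
    obtain ⟨c, hc⟩ : ∃ c, k * k' = 1 + p * c := by
      refine ⟨(k * k') / p, ?_⟩
      have := Nat.div_add_mod (k * k') p
      rw [hk'] at this
      omega
    rw [hc, add_nsmul, mul_nsmul, hpQ, smul_zero, add_zero]
  have := inE0_nsmul h hφ hkQ k'
  rwa [← mul_nsmul', mul_comm k' k, hQeq] at this

omit [DecidableEq κ] in
/-- At an integral point with singular reduction, `ψ₂` lies in the maximal ideal. -/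
lemma val_psi2_lt_one_of_singular {x y : K} (hxy : W.Nonsingular x y) (hx : x ∈ A)
    (hsing : ¬ Wκ.Nonsingular (rd A φ x) (rd A φ y)) :
    A.valuation (2 * y + W.a₁ * x + W.a₃) < 1 := by
  have hy : y ∈ A := y_mem_of_x_mem h hxy.1 hx
  obtain ⟨hmem, hrd⟩ := psi2_mem_and_rd h hx hy
  refine (rd_eq_zero_iff hφ hmem).mp ?_
  rw [hrd, sub_eq_zero]
  by_contra hne
  apply hsing
  rw [Affine.nonsingular_iff]
  exact ⟨rd_equation h hx hy hxy.1, Or.inr hne⟩

/-- **Non-unit case.** If `Q ∉ E⁰`, `p • Q = 0` with `p` prime and `p ∤ k`, then `kQ` is an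
integral affine point and `ψ₂(kQ)` lies in the maximal ideal of `A`. -/
theorem val_psi2_lt_one_of_not_inE0 {p : ℕ} (hp : p.Prime) {Q : W.Point}
    (hQ : ¬ InE0 A φ Wκ Q) (hpQ : p • Q = 0) {k : ℕ} (hk : ¬ p ∣ k) :
    A.valuation (psi2 W (k • Q)) < 1 := by
  have hkQ := not_inE0_nsmul h hφ hp hQ hpQ hk
  rcases hP : k • Q with _ | ⟨x, y, hxy⟩
  · rw [hP] at hkQ
    exact absurd trivial hkQ
  · rw [hP] at hkQ
    rw [inE0_some_iff] at hkQ
    push Not at hkQ
    exact val_psi2_lt_one_of_singular h hφ hxy hkQ.1 hkQ.2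

/-- Unit case for the product. -/
theorem val_psi2Prod_of_inE0 {p : ℕ} (hp : p.Prime) (hp2 : p ≠ 2)
    (hv : A.valuation (p : K) = 1) {Q : W.Point} (hQ : InE0 A φ Wκ Q) (hord : addOrderOf Q = p) :
    A.valuation (psi2Prod W Q p) = 1 := by
  unfold psi2Prod
  rw [map_prod]
  refine Finset.prod_eq_one fun k hk => ?_
  rw [Finset.mem_Ico] at hk
  exact val_psi2_eq_one_of_inE0 h hφ hp hp2 hv hQ hord
    (Nat.not_dvd_of_pos_of_lt (by omega) hk.2)

/-- Non-unit case for the product. -/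
theorem val_psi2Prod_of_not_inE0 {p : ℕ} (hp : p.Prime) {Q : W.Point}
    (hQ : ¬ InE0 A φ Wκ Q) (hpQ : p • Q = 0) :
    A.valuation (psi2Prod W Q p) < 1 := by
  unfold psi2Prod
  rw [map_prod]
  have h1 : (1 : ℕ) ∈ Finset.Ico 1 p := Finset.mem_Ico.mpr ⟨le_rfl, hp.one_lt⟩
  have hlt : ∀ k ∈ Finset.Ico 1 p, A.valuation (psi2 W (k • Q)) < 1 := fun k hk => by
    rw [Finset.mem_Ico] at hk
    exact val_psi2_lt_one_of_not_inE0 h hφ hp hQ hpQ (Nat.not_dvd_of_pos_of_lt (by omega) hk.2)
  rw [← Finset.mul_prod_erase _ _ h1]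
  calc A.valuation (psi2 W (1 • Q)) * ∏ k ∈ (Finset.Ico 1 p).erase 1, A.valuation (psi2 W (k • Q))
      ≤ A.valuation (psi2 W (1 • Q)) * 1 := by
        gcongr
        exact Finset.prod_le_one' fun k hk => (hlt k (Finset.mem_of_mem_erase hk)).le
    _ < 1 := by rw [mul_one]; exact hlt 1 h1

/-- **Unit case for `U(W, Q)`:** `v(U) = v(Δ)^{-(p-1)}`. -/
theorem val_modUnitValue_of_inE0 {p : ℕ} (hp : p.Prime) (hp2 : p ≠ 2)
    (hv : A.valuation (p : K) = 1) {Q : W.Point} (hQ : InE0 A φ Wκ Q) (hord : addOrderOf Q = p) :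
    A.valuation (modUnitValue W Q p) = (A.valuation W.Δ ^ (p - 1))⁻¹ := by
  unfold modUnitValue
  rw [map_div₀, map_mul, map_pow, map_pow, map_pow, hv,
    val_psi2Prod_of_inE0 h hφ hp hp2 hv hQ hord, one_pow, one_pow, one_mul, one_div]

/-- **Non-unit case for `U(W, Q)`:** `v(U) < v(Δ)^{-(p-1)}` (when `Δ ≠ 0`). -/
theorem val_modUnitValue_of_not_inE0 {p : ℕ} (hp : p.Prime) (hΔ : W.Δ ≠ 0)
    (hv : A.valuation (p : K) = 1) {Q : W.Point} (hQ : ¬ InE0 A φ Wκ Q) (hpQ : p • Q = 0) :
    A.valuation (modUnitValue W Q p) < (A.valuation W.Δ ^ (p - 1))⁻¹ := by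
  unfold modUnitValue
  have hlt := val_psi2Prod_of_not_inE0 h hφ hp hQ hpQ
  have hΔv : 0 < A.valuation W.Δ ^ (p - 1) :=
    pow_pos (zero_lt_iff.mpr ((Valuation.ne_zero_iff _).mpr hΔ)) _
  rw [map_div₀, map_mul, map_pow, map_pow, map_pow, hv, one_pow, one_mul, div_eq_mul_inv]
  have h4 : A.valuation (psi2Prod W Q p) ^ 4 < 1 := pow_lt_one₀ zero_le' hlt (by norm_num)
  calc A.valuation (psi2Prod W Q p) ^ 4 * (A.valuation W.Δ ^ (p - 1))⁻¹
      < 1 * (A.valuation W.Δ ^ (p - 1))⁻¹ :=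
        mul_lt_mul_of_pos_right h4 (inv_pos.mpr hΔv)
    _ = (A.valuation W.Δ ^ (p - 1))⁻¹ := one_mul _

end lemmas

end general

section S15

variable (W : WeierstrassCurve ℤ) (A : ValuationSubring (AlgebraicClosure ℚ))

/-- Converse bridge: `InE0` implies the Prelude's `InZeroComponentAt`. -/
lemma inZeroComponentAt_of_inE0
    {Q : ((W.map (Int.castRingHom ℚ))⁄(AlgebraicClosure ℚ)).Point}
    (hQ : InE0 A (IsLocalRing.residue A) (W⁄(IsLocalRing.ResidueField A)) Q) :
    W.InZeroComponentAt A Q := by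
  rcases Q with _ | ⟨x, y, h⟩
  · exact Or.inl rfl
  · refine Or.inr ⟨x, y, h, rfl, ?_⟩
    by_cases hx : x ∈ A
    · have hred := isRedOf_int A W (IsLocalRing.residue A)
      have hy : y ∈ A := y_mem_of_x_mem hred h.1 hx
      refine Or.inr ⟨hx, hy, ?_⟩
      have := hQ hx
      rw [rd_of_mem hx, rd_of_mem hy] at this
      exact this
    · exact Or.inl hx

lemma inZeroComponentAt_iff_inE0
    {Q : ((W.map (Int.castRingHom ℚ))⁄(AlgebraicClosure ℚ)).Point} :
    W.InZeroComponentAt A Q ↔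
      InE0 A (IsLocalRing.residue A) (W⁄(IsLocalRing.ResidueField A)) Q :=
  ⟨inE0_of_inZeroComponentAt W A, inZeroComponentAt_of_inE0 W A⟩

/-- **LOC-U, zero component.** In the setting of S15 (no rationality of `Q` needed): if `Q` of odd
prime order `p ≠ ℓ` is in the zero component at `A ∣ ℓ`, then `v_A(U(W,Q)) = v_A(Δ)^{-(p-1)}`. -/
theorem val_modUnitValue_of_inZeroComponentAt {p : ℕ} (hp : p.Prime) (hp2 : p ≠ 2)
    (Q : ((W.map (Int.castRingHom ℚ))⁄(AlgebraicClosure ℚ)).Point) (hQord : addOrderOf Q = p)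
    {ℓ : ℕ} (hℓ : ℓ.Prime) (hℓp : ℓ ≠ p) (hA : A.LiesOverPrime ℓ)
    (hQ0 : W.InZeroComponentAt A Q) :
    A.valuation (modUnitValue ((W.map (Int.castRingHom ℚ))⁄(AlgebraicClosure ℚ)) Q p) =
      (A.valuation ((W.map (Int.castRingHom ℚ))⁄(AlgebraicClosure ℚ)).Δ ^ (p - 1))⁻¹ := by
  classical
  exact val_modUnitValue_of_inE0 (isRedOf_int A W (IsLocalRing.residue A)) (kerMax_residue A)
    hp hp2 (val_natCast_eq_one A hA hℓ hp hℓp) (inE0_of_inZeroComponentAt W A hQ0) hQord

/-- **LOC-U, non-zero component.** If `Q` of prime order `p ≠ ℓ` is NOT in the zero component at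
`A ∣ ℓ`, then `v_A(U(W,Q)) < v_A(Δ)^{-(p-1)}`. -/
theorem val_modUnitValue_of_not_inZeroComponentAt {p : ℕ} (hp : p.Prime) (hΔ : W.Δ ≠ 0)
    (Q : ((W.map (Int.castRingHom ℚ))⁄(AlgebraicClosure ℚ)).Point) (hQord : addOrderOf Q = p)
    {ℓ : ℕ} (hℓ : ℓ.Prime) (hℓp : ℓ ≠ p) (hA : A.LiesOverPrime ℓ)
    (hQ0 : ¬ W.InZeroComponentAt A Q) :
    A.valuation (modUnitValue ((W.map (Int.castRingHom ℚ))⁄(AlgebraicClosure ℚ)) Q p) <
      (A.valuation ((W.map (Int.castRingHom ℚ))⁄(AlgebraicClosure ℚ)).Δ ^ (p - 1))⁻¹ := by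
  classical
  refine val_modUnitValue_of_not_inE0 (isRedOf_int A W (IsLocalRing.residue A))
    (kerMax_residue A) hp ?_ (val_natCast_eq_one A hA hℓ hp hℓp)
    (fun h => hQ0 (inZeroComponentAt_of_inE0 W A h))
    (by rw [← hQord]; exact addOrderOf_nsmul_eq_zero Q)
  show (W.map ((algebraMap ℚ (AlgebraicClosure ℚ)).comp (Int.castRingHom ℚ))).Δ ≠ 0
  rw [WeierstrassCurve.map_Δ]
  simpa using hΔ

end S15

end Fermat.Agent.S15.H242

end
-- ===== PACK-END S15/H242/Psi2.lean

-- ===== PACK-BEGIN S12/H651/VeluRed.lean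
section



/-!
# S12 / QUOT-Q3 (helper651), part 4: Vélu's model at a place of multiplicative reduction

`A` a valuation subring of `K`, `φ : A →+* κ` with kernel the maximal ideal, `W` a Weierstrass
curve over `K` with coefficients in `A` reducing to `Wκ`, `Q` a point of prime order `p`, `p` a
unit of `A`.  With helper542's `veluT`, `veluW`, `veluCurve`:

* `veluT_mem`, `veluW_mem` : Vélu's sums `t`, `w` are integral (`∈ A`); hence the coefficients of
  `veluCurve W Q p` are integral (`veluCurve_isRedOf`);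
* `rd_veluT_of_not_inE0` : if `Q ∉ E⁰` then `t ≡ 0` (every `k Q` reduces to a singular point, where
  `6 x² + b₂ x + b₄ = 0`);
* `rd_veluT_of_inE0` : if `Q ∈ E⁰` then `t` reduces to Vélu's `t` of the reduced point;
* `val_c₄_veluCurve` : **if the reduction is nodal (`Δ ≡ 0`, `c₄ ≢ 0`), `p > 5`, then
  `c₄(veluCurve W Q p)` is a unit of `A`** (it is `≡ c₄` or `≡ p⁴ c₄`).
-/

set_option autoImplicit false

namespace Fermat.Agent.S12.H651

open WeierstrassCurve WeierstrassCurve.Affine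
open Fermat.Agent.S05.SameRed (IntegralCoeffs InKer)
open Fermat.Agent.Lib.Red.H290
open Fermat.Agent.S15.H242
open Fermat.Agent.S15.H542 (xOf yOf veluT1 veluU1 veluT veluW veluCurve)

section general

variable {K : Type*} [Field K] [DecidableEq K] {κ : Type*} [Field κ] [DecidableEq κ]
variable {A : ValuationSubring K} {φ : A →+* κ} {W : WeierstrassCurve K} {Wκ : WeierstrassCurve κ}

section invariants

variable (h : IsRedOf A φ W.toAffine Wκ.toAffine)
include h

omit [DecidableEq K] [DecidableEq κ] in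
lemma rd_b₂ : W.b₂ ∈ A ∧ rd A φ W.b₂ = Wκ.b₂ := by
  obtain ⟨c₁, c₂, c₃, c₄, c₆, e₁, e₂, e₃, e₄, e₆, f₁, f₂, f₃, f₄, f₆⟩ := h.exists_lift
  simp only [WeierstrassCurve.b₂]
  change (c₁ : K) = W.a₁ at e₁
  change (c₂ : K) = W.a₂ at e₂
  change φ c₁ = Wκ.a₁ at f₁
  change φ c₂ = Wκ.a₂ at f₂
  rw [← e₁, ← e₂, ← f₁, ← f₂]
  have : ((c₁ : K) ^ 2 + 4 * c₂) = ((c₁ ^ 2 + 4 * c₂ : A) : K) := by push_cast; rfl
  rw [this, rd_coe]
  exact ⟨Subtype.mem _, by simp only [map_add, map_mul, map_pow, map_ofNat]⟩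

omit [DecidableEq K] [DecidableEq κ] in
lemma rd_b₄ : W.b₄ ∈ A ∧ rd A φ W.b₄ = Wκ.b₄ := by
  obtain ⟨c₁, c₂, c₃, c₄, c₆, e₁, e₂, e₃, e₄, e₆, f₁, f₂, f₃, f₄, f₆⟩ := h.exists_lift
  simp only [WeierstrassCurve.b₄]
  change (c₁ : K) = W.a₁ at e₁
  change (c₃ : K) = W.a₃ at e₃
  change (c₄ : K) = W.a₄ at e₄
  change φ c₁ = Wκ.a₁ at f₁
  change φ c₃ = Wκ.a₃ at f₃
  change φ c₄ = Wκ.a₄ at f₄
  rw [← e₁, ← e₃, ← e₄, ← f₁, ← f₃, ← f₄]
  have : (2 * (c₄ : K) + c₁ * c₃) = ((2 * c₄ + c₁ * c₃ : A) : K) := by push_cast; rfl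
  rw [this, rd_coe]
  exact ⟨Subtype.mem _, by simp only [map_add, map_mul, map_ofNat]⟩

omit [DecidableEq K] [DecidableEq κ] in
lemma rd_b₆ : W.b₆ ∈ A ∧ rd A φ W.b₆ = Wκ.b₆ := by
  obtain ⟨c₁, c₂, c₃, c₄, c₆, e₁, e₂, e₃, e₄, e₆, f₁, f₂, f₃, f₄, f₆⟩ := h.exists_lift
  simp only [WeierstrassCurve.b₆]
  change (c₃ : K) = W.a₃ at e₃
  change (c₆ : K) = W.a₆ at e₆
  change φ c₃ = Wκ.a₃ at f₃
  change φ c₆ = Wκ.a₆ at f₆
  rw [← e₃, ← e₆, ← f₃, ← f₆]
  have : ((c₃ : K) ^ 2 + 4 * c₆) = ((c₃ ^ 2 + 4 * c₆ : A) : K) := by push_cast; rfl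
  rw [this, rd_coe]
  exact ⟨Subtype.mem _, by simp only [map_add, map_mul, map_pow, map_ofNat]⟩

omit [DecidableEq K] [DecidableEq κ] in
lemma rd_c₄ : W.c₄ ∈ A ∧ rd A φ W.c₄ = Wκ.c₄ := by
  obtain ⟨m2, r2⟩ := rd_b₂ h
  obtain ⟨m4, r4⟩ := rd_b₄ h
  simp only [WeierstrassCurve.c₄]
  have m24 : (24 : K) ∈ A := ofNat_mem A 24
  refine ⟨A.sub_mem (pow_mem m2 2) (A.mul_mem _ _ m24 m4), ?_⟩
  rw [rd_sub (pow_mem m2 2) (A.mul_mem _ _ m24 m4), rd_pow m2, rd_mul m24 m4, r2, r4, rd_ofNat]

omit [DecidableEq K] [DecidableEq κ] in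
/-- Vélu's `t₁` of an integral `x`. -/
lemma rd_veluT1 {x : K} (hx : x ∈ A) :
    veluT1 W x ∈ A ∧ rd A φ (veluT1 W x) = veluT1 Wκ (rd A φ x) := by
  obtain ⟨m2, r2⟩ := rd_b₂ h
  obtain ⟨m4, r4⟩ := rd_b₄ h
  unfold veluT1
  have m6 : (6 : K) ∈ A := ofNat_mem A 6
  have hA1 : 6 * x ^ 2 ∈ A := A.mul_mem _ _ m6 (pow_mem hx 2)
  have hA2 : W.b₂ * x ∈ A := A.mul_mem _ _ m2 hx
  refine ⟨A.add_mem _ _ (A.add_mem _ _ hA1 hA2) m4, ?_⟩
  rw [rd_add (A.add_mem _ _ hA1 hA2) m4, rd_add hA1 hA2, rd_mul m6 (pow_mem hx 2), rd_pow hx,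
    rd_mul m2 hx, r2, r4, rd_ofNat]

omit [DecidableEq K] [DecidableEq κ] in
/-- Vélu's `u₁` of an integral `x`. -/
lemma rd_veluU1 {x : K} (hx : x ∈ A) :
    veluU1 W x ∈ A ∧ rd A φ (veluU1 W x) = veluU1 Wκ (rd A φ x) := by
  obtain ⟨m2, r2⟩ := rd_b₂ h
  obtain ⟨m4, r4⟩ := rd_b₄ h
  obtain ⟨m6, r6⟩ := rd_b₆ h
  unfold veluU1
  have n4 : (4 : K) ∈ A := ofNat_mem A 4
  have n2 : (2 : K) ∈ A := ofNat_mem A 2
  have hA1 : 4 * x ^ 3 ∈ A := A.mul_mem _ _ n4 (pow_mem hx 3)
  have hA2 : W.b₂ * x ^ 2 ∈ A := A.mul_mem _ _ m2 (pow_mem hx 2)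
  have hA3 : 2 * W.b₄ * x ∈ A := A.mul_mem _ _ (A.mul_mem _ _ n2 m4) hx
  refine ⟨A.add_mem _ _ (A.add_mem _ _ (A.add_mem _ _ hA1 hA2) hA3) m6, ?_⟩
  rw [rd_add (A.add_mem _ _ (A.add_mem _ _ hA1 hA2) hA3) m6, rd_add (A.add_mem _ _ hA1 hA2) hA3,
    rd_add hA1 hA2, rd_mul n4 (pow_mem hx 3), rd_pow hx, rd_mul m2 (pow_mem hx 2), rd_pow hx,
    rd_mul (A.mul_mem _ _ n2 m4) hx, rd_mul n2 m4, r2, r4, r6, rd_ofNat, rd_ofNat]

end invariants

omit [DecidableEq K] [DecidableEq κ] in
/-- At a singular point of a cubic, Vélu's `t₁` vanishes. -/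
lemma veluT1_eq_zero_of_singular {x y : κ} (he : Wκ.toAffine.Equation x y)
    (hs : ¬ Wκ.toAffine.Nonsingular x y) : veluT1 Wκ x = 0 := by
  rw [Affine.nonsingular_iff] at hs
  push Not at hs
  obtain ⟨h1, h2⟩ := hs he
  unfold veluT1
  simp only [WeierstrassCurve.b₂, WeierstrassCurve.b₄]
  change Wκ.a₁ * y = 3 * x ^ 2 + 2 * Wκ.a₂ * x + Wκ.a₄ at h1
  change y = -y - Wκ.a₁ * x - Wκ.a₃ at h2
  linear_combination -2 * h1 + Wκ.a₁ * h2

section points

variable (h : IsRedOf A φ W.toAffine Wκ.toAffine)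
include h

omit [DecidableEq κ] in
/-- The nonzero multiples of a point of prime order `p` (a unit of `A`) are integral. -/
lemma xOf_nsmul_mem {p : ℕ} (_hp : p.Prime) (hv : A.valuation (p : K) = 1)
    {Q : W.toAffine.Point} (hord : addOrderOf Q = p) (j : ℕ) : xOf (j • Q) ∈ A := by
  rcases hj : j • Q with _ | ⟨x, y, hxy⟩
  · exact A.zero_mem
  · change x ∈ A
    by_contra hx
    have hk : InKer W.toAffine A.valuation (j • Q) := by
      rw [hj]; exact not_mem_iff_one_lt.mp hx
    have hpj : p • (j • Q) = 0 := by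
      rw [smul_comm, ← hord, addOrderOf_nsmul_eq_zero, smul_zero]
    have h0 := Fermat.Agent.S05.C1b.eq_zero_of_inKer_of_nsmul_eq_zero h.integralCoeffs p hv
      (j • Q) hk hpj
    rw [hj] at h0
    exact Point.some_ne_zero _ h0

omit [DecidableEq κ] in
/-- Vélu's `t` is integral. -/
theorem veluT_mem {p : ℕ} (hp : p.Prime) (hv : A.valuation (p : K) = 1)
    {Q : W.toAffine.Point} (hord : addOrderOf Q = p) : veluT W Q p ∈ A := by
  unfold veluT
  exact sum_mem fun j _ => (rd_veluT1 h (xOf_nsmul_mem h hp hv hord j)).1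

omit [DecidableEq κ] in
/-- Vélu's `w` is integral. -/
theorem veluW_mem {p : ℕ} (hp : p.Prime) (hv : A.valuation (p : K) = 1)
    {Q : W.toAffine.Point} (hord : addOrderOf Q = p) : veluW W Q p ∈ A := by
  unfold veluW
  refine sum_mem fun j _ => ?_
  have hx := xOf_nsmul_mem h hp hv hord j
  exact A.add_mem _ _ (rd_veluU1 h hx).1 (A.mul_mem _ _ hx (rd_veluT1 h hx).1)

omit [DecidableEq κ] in
/-- `c₄` of Vélu's curve is integral. -/
theorem c₄_veluCurve_mem {p : ℕ} (hp : p.Prime) (hv : A.valuation (p : K) = 1)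
    {Q : W.toAffine.Point} (hord : addOrderOf Q = p) : (veluCurve W Q p).c₄ ∈ A := by
  rw [c₄_veluCurve]
  exact A.add_mem _ _ (rd_c₄ h).1 (A.mul_mem _ _ (ofNat_mem A 240) (veluT_mem h hp hv hord))

omit [DecidableEq κ] in
/-- The reduction of Vélu's `t`, termwise. -/
lemma rd_veluT {p : ℕ} (hp : p.Prime) (hv : A.valuation (p : K) = 1)
    {Q : W.toAffine.Point} (hord : addOrderOf Q = p) :
    rd A φ (veluT W Q p) =
      ∑ j ∈ Finset.Icc 1 ((p - 1) / 2), veluT1 Wκ (rd A φ (xOf (j • Q))) := by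
  unfold veluT
  have key : ∀ s : Finset ℕ, rd A φ (∑ j ∈ s, veluT1 W (xOf (j • Q))) =
      ∑ j ∈ s, veluT1 Wκ (rd A φ (xOf (j • Q))) := by
    intro s
    induction s using Finset.induction_on with
    | empty => simp
    | insert a s ha ih =>
      rw [Finset.sum_insert ha, Finset.sum_insert ha,
        rd_add (rd_veluT1 h (xOf_nsmul_mem h hp hv hord a)).1
          (sum_mem fun j _ => (rd_veluT1 h (xOf_nsmul_mem h hp hv hord j)).1),
        ih, (rd_veluT1 h (xOf_nsmul_mem h hp hv hord a)).2]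
  exact key _

variable (hφ : KerMax A φ)
include hφ

/-- **`Q ∉ E⁰`**: Vélu's `t` reduces to `0`. -/
theorem rd_veluT_of_not_inE0 {p : ℕ} (hp : p.Prime) (hv : A.valuation (p : K) = 1)
    {Q : W.toAffine.Point} (hord : addOrderOf Q = p)
    (hQ : ¬ InE0 A φ Wκ.toAffine Q) : rd A φ (veluT W Q p) = 0 := by
  rw [rd_veluT h hp hv hord]
  refine Finset.sum_eq_zero fun j hj => ?_
  rw [Finset.mem_Icc] at hj
  have hjp : ¬ p ∣ j := by
    intro hd
    have := Nat.le_of_dvd (by omega) hd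
    have : (p - 1) / 2 < p := by
      have := hp.one_lt
      omega
    omega
  -- `j • Q ∉ E⁰`
  have hpQ : p • Q = 0 := by rw [← hord]; exact addOrderOf_nsmul_eq_zero Q
  have hjQ : ¬ InE0 A φ Wκ.toAffine (j • Q) := not_inE0_nsmul h hφ hp hQ hpQ hjp
  have hx := xOf_nsmul_mem h hp hv hord j
  rcases hjq : j • Q with _ | ⟨x, y, hxy⟩
  · rw [hjq] at hjQ
    exact absurd inE0_zero hjQ
  · rw [hjq] at hjQ hx
    change x ∈ A at hx
    change veluT1 Wκ (rd A φ x) = 0
    have hy := y_mem_of_x_mem h hxy.1 hx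
    have he := rd_equation h hx hy hxy.1
    exact veluT1_eq_zero_of_singular (Wκ := Wκ) he fun hns => hjQ fun _ => hns

/-- **`Q ∈ E⁰`**: Vélu's `t` reduces to Vélu's `t` of the reduced point. -/
theorem rd_veluT_of_inE0 {p : ℕ} (hp : p.Prime) (hv : A.valuation (p : K) = 1)
    {Q : W.toAffine.Point} (hord : addOrderOf Q = p)
    (hQ : InE0 A φ Wκ.toAffine Q) :
    rd A φ (veluT W Q p) = veluT Wκ (red0 A φ Wκ.toAffine Q) p := by
  rw [rd_veluT h hp hv hord]
  unfold veluT
  refine Finset.sum_congr rfl fun j _ => ?_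
  congr 1
  rw [← red0_nsmul h hφ hQ j]
  have hin := inE0_nsmul h hφ hQ j
  have hx := xOf_nsmul_mem h hp hv hord j
  rcases hjq : j • Q with _ | ⟨x, y, hxy⟩
  · change rd A φ 0 = _
    rw [rd_zero]
    rfl
  · rw [hjq] at hin hx
    change x ∈ A at hx
    rw [red0_some_of_mem hxy hx (hin hx)]
    rfl

/-- **Vélu's model at a place of multiplicative reduction**: `c₄` of Vélu's curve is a unit.
`hsq`: the base field has square roots (e.g. it is algebraically closed). -/
theorem val_c₄_veluCurve (hsq : ∀ a : K, ∃ b : K, b ^ 2 = a)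
    {p : ℕ} (hp : p.Prime) (hp5 : 5 < p) (hv : A.valuation (p : K) = 1)
    {Q : W.toAffine.Point} (hord : addOrderOf Q = p)
    (hΔ : Wκ.Δ = 0) (hc : Wκ.c₄ ≠ 0) :
    A.valuation (veluCurve W Q p).c₄ = 1 := by
  have hmem := c₄_veluCurve_mem h hp hv hord
  rw [← rd_ne_zero_iff hφ hmem]
  obtain ⟨mc, rc⟩ := rd_c₄ h
  have htm := veluT_mem h hp hv hord
  have hrd : rd A φ (veluCurve W Q p).c₄ = Wκ.c₄ + 240 * rd A φ (veluT W Q p) := by
    rw [c₄_veluCurve, rd_add mc (A.mul_mem _ _ (ofNat_mem A 240) htm),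
      rd_mul (ofNat_mem A 240) htm, rc, rd_ofNat]
  rw [hrd]
  by_cases hQ : InE0 A φ Wκ.toAffine Q
  · rw [rd_veluT_of_inE0 h hφ hp hv hord hQ, ← c₄_veluCurve]
    -- the tangent slopes are rational: lift the discriminant and take a square root
    have hcv : A.valuation W.c₄ = 1 := (rd_ne_zero_iff hφ mc).mp (by rw [rc]; exact hc)
    obtain ⟨m2, r2⟩ := rd_b₂ h
    obtain ⟨m4, r4⟩ := rd_b₄ h
    obtain ⟨m6, r6⟩ := rd_b₆ h
    have hnum : 18 * W.b₆ - W.b₂ * W.b₄ ∈ A :=
      A.sub_mem (A.mul_mem _ _ (ofNat_mem A 18) m6) (A.mul_mem _ _ m2 m4)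
    have hsx : singX W.toAffine ∈ A := div_mem_of_val_eq_one hnum hcv
    have hrsx : rd A φ (singX W.toAffine) = singX Wκ.toAffine := by
      unfold singX
      change rd A φ ((18 * W.b₆ - W.b₂ * W.b₄) / W.c₄) = (18 * Wκ.b₆ - Wκ.b₂ * Wκ.b₄) / Wκ.c₄
      rw [rd_div hnum hcv, rd_sub (A.mul_mem _ _ (ofNat_mem A 18) m6) (A.mul_mem _ _ m2 m4),
        rd_mul (ofNat_mem A 18) m6, rd_mul m2 m4, r2, r4, r6, rc, rd_ofNat]
    have hD : W.b₂ + 12 * singX W.toAffine ∈ A :=
      A.add_mem _ _ m2 (A.mul_mem _ _ (ofNat_mem A 12) hsx)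
    obtain ⟨b, hb⟩ := hsq (W.b₂ + 12 * singX W.toAffine)
    have hbA : b ∈ A := by
      apply mem_of_val_le
      have h1 : A.valuation b ^ 2 ≤ 1 := by
        rw [← map_pow, hb]; exact val_le_of_mem hD
      by_contra hlt
      push Not at hlt
      have : 1 < A.valuation b ^ 2 := one_lt_pow₀ hlt (by norm_num)
      exact absurd h1 (not_le.mpr this)
    have hd : (rd A φ b) ^ 2 = Wκ.b₂ + 12 * singX Wκ.toAffine := by
      rw [← rd_pow hbA, hb, rd_add m2 (A.mul_mem _ _ (ofNat_mem A 12) hsx),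
        rd_mul (ofNat_mem A 12) hsx, r2, hrsx, rd_ofNat]
    have hordκ := addOrderOf_red0 h hφ hp hv hQ hord
    rw [c₄_veluCurve_of_nodal hc hΔ ⟨_, hd⟩ hp hp5 hordκ]
    have hpκ : (p : κ) ≠ 0 := by
      have := (rd_ne_zero_iff hφ (natCast_mem A p)).mpr hv
      rwa [rd_natCast] at this
    exact mul_ne_zero (pow_ne_zero _ hpκ) hc
  · rw [rd_veluT_of_not_inE0 h hφ hp hv hord hQ, mul_zero, add_zero]
    exact hc

end points

end general

end Fermat.Agent.S12.H651

end
-- ===== PACK-END S12/H651/VeluRed.lean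

-- ===== PACK-BEGIN S12/H411/LocPi.lean
section






/-!
# Row S12 (one-step route), local leaves at `ℓ ≠ p` (helper411)

Frey curve `E : y² + xy = x³ + ((b^p - 1 - a^p)/4) x² - (a^p b^p/16) x` over `ℚ̄`, with
`2`-torsion `x = 0, a^p/4, -b^p/4`; `A` a valuation subring of `ℚ̄` over a prime `ℓ ≠ p`,
`v = A.valuation`.

* `frey_isRedOf` : the reduction datum of the Frey curve at `A` (Lib/Red language);
* `frey_toric_point` : a point `T ∈ E⁰(A)` of order `p` is integral and `η(T) = 2y + a₁x + a₃`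
  is a unit (`S15.H242.val_psi2_eq_one_of_inE0`);
* `frey_val_factors` : for an integral point with `η` a unit,
  `v(x) = 1`, `v(x + b^p/4) = 1`, `v(4) · v(x - a^p/4) = 1`   (ANY residue characteristic,
  `ℓ = 2` included: the three factors of `η² = 4 x (x - a^p/4)(x + b^p/4)`);
* `frey_inE0_of_good` : at a prime of good reduction every point lies in `E⁰`;
* `frey_factor_vals_of_inE0` : the valuation table of the one-step route at `ℓ ≠ p` for a
  point of order `p` in `E⁰(A)`: toric line ⇒ `v(Π₁) = v(Π₃) = 1`, `v(4)^(p-1) v(Π₂) = 1`.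
-/

set_option autoImplicit false

open WeierstrassCurve WeierstrassCurve.Affine WeierstrassCurve.Affine.Point

namespace Fermat.Agent.S12.H411

open Fermat.Agent.Lib.Red.H290 Fermat.Agent.S15.H242 Fermat.Agent.S05.Assemble
open Fermat.Agent.S05.SameRed (IntegralCoeffs)

/-- The reduction datum of the Frey curve at a valuation subring of `ℚ̄`. -/
lemma frey_isRedOf (P : FreyPackage) (A : ValuationSubring (AlgebraicClosure ℚ)) :
    IsRedOf A (IsLocalRing.residue A) (P.freyCurve⁄(AlgebraicClosure ℚ))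
      (P.freyCurveInt⁄(IsLocalRing.ResidueField A)) := by
  rw [Fermat.Agent.S13.H164.freyCurve_eq_map]
  exact isRedOf_int A P.freyCurveInt (IsLocalRing.residue A)

/-- `b ^ p / 4` is integral at every valuation subring. -/
lemma val_fB_div_four_le_one (P : FreyPackage) (A : ValuationSubring (AlgebraicClosure ℚ)) :
    A.valuation (fB P / 4) ≤ 1 := by
  have hb : (2 : ℤ) ∣ P.b := (ZMod.intCast_zmod_eq_zero_iff_dvd P.b 2).1 P.hb2
  obtain ⟨k, hk⟩ := hb
  obtain ⟨j, hj⟩ : ∃ j, P.p = j + 2 := ⟨P.p - 2, by have := P.hp5; omega⟩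
  have e : fB P / 4 = ((2 ^ j * k ^ P.p : ℤ) : AlgebraicClosure ℚ) := by
    have h4 : (P.b ^ P.p : ℤ) = 4 * (2 ^ j * k ^ P.p) := by
      rw [hk, mul_pow, show (2 : ℤ) ^ P.p = 2 ^ j * 4 by rw [hj, pow_add]; norm_num]
      ring
    rw [fB, h4]
    push_cast
    field_simp
  rw [e]
  exact val_int_le_one (A := A) _

/-- A point of order `p` in `E⁰(A)`, `A` over `ℓ ≠ p`, is integral with `η` a unit. -/
theorem frey_toric_point (P : FreyPackage) {ℓ : ℕ} (hℓ : ℓ.Prime) (hℓp : ℓ ≠ P.p)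
    (A : ValuationSubring (AlgebraicClosure ℚ)) (hA : A.LiesOverPrime ℓ)
    (T : (P.freyCurve⁄(AlgebraicClosure ℚ)).Point) (hord : addOrderOf T = P.p)
    (hT : InE0 A (IsLocalRing.residue A) (P.freyCurveInt⁄(IsLocalRing.ResidueField A)) T) :
    ∃ (x y : AlgebraicClosure ℚ) (h : (P.freyCurve⁄(AlgebraicClosure ℚ)).Nonsingular x y),
      T = Point.some x y h ∧ A.valuation x ≤ 1 ∧
      A.valuation (2 * y + (P.freyCurve⁄(AlgebraicClosure ℚ)).a₁ * x +
        (P.freyCurve⁄(AlgebraicClosure ℚ)).a₃) = 1 := by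
  classical
  have hred := frey_isRedOf P A
  have hφ : KerMax A (IsLocalRing.residue A) := kerMax_residue A
  have hp2 : P.p ≠ 2 := by have := P.hp5; omega
  have hv : A.valuation ((P.p : ℕ) : AlgebraicClosure ℚ) = 1 :=
    val_natCast_eq_one A hA hℓ P.pp hℓp
  have hordred := addOrderOf_red0 hred hφ P.pp hv hT hord
  have hpsi := val_psi2_eq_one_of_inE0 hred hφ P.pp hp2 hv hT hord (k := 1)
    (fun h => P.pp.one_lt.ne' (Nat.dvd_one.mp h))
  rw [one_smul] at hpsi
  rcases T with _ | ⟨x, y, h⟩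
  · rw [show (Point.zero : (P.freyCurve⁄(AlgebraicClosure ℚ)).Point) = 0 from rfl,
      addOrderOf_zero] at hord
    exact absurd hord P.pp.one_lt.ne
  · refine ⟨x, y, h, rfl, ?_, ?_⟩
    · by_contra hx
      have hx' : x ∉ A := fun hmem => hx ((A.valuation_le_one_iff x).mpr hmem)
      rw [red0_some_of_not_mem h hx', addOrderOf_zero] at hordred
      exact P.pp.one_lt.ne hordred
    · simpa using hpsi

/-- **Valuation of the three factors.**  For an integral point of the Frey curve with `η` a unit: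
`v(x) = 1`, `v(x + b^p/4) = 1` and `v(4) · v(x - a^p/4) = 1`.  No hypothesis on the residue
characteristic. -/
theorem frey_val_factors (P : FreyPackage) (A : ValuationSubring (AlgebraicClosure ℚ))
    {x y : AlgebraicClosure ℚ} (h : (P.freyCurve⁄(AlgebraicClosure ℚ)).Equation x y)
    (hx : A.valuation x ≤ 1)
    (hη : A.valuation (2 * y + (P.freyCurve⁄(AlgebraicClosure ℚ)).a₁ * x +
        (P.freyCurve⁄(AlgebraicClosure ℚ)).a₃) = 1) :
    A.valuation x = 1 ∧ A.valuation (x + fB P / 4) = 1 ∧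
      A.valuation 4 * A.valuation (x - fA P / 4) = 1 := by
  have hsq := (frey_roots P).eta_sq h
  have e : (2 * y + (P.freyCurve⁄(AlgebraicClosure ℚ)).a₁ * x +
      (P.freyCurve⁄(AlgebraicClosure ℚ)).a₃) ^ 2 = x * (x + fB P / 4) * (4 * (x - fA P / 4)) := by
    rw [hsq]; ring
  have hv := congrArg A.valuation e
  rw [map_pow, hη, one_pow, map_mul, map_mul] at hv
  have h1 : A.valuation (x + fB P / 4) ≤ 1 :=
    (A.valuation).map_add_le hx (val_fB_div_four_le_one P A)
  have h2 : A.valuation (4 * (x - fA P / 4)) ≤ 1 := by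
    have e2 : 4 * (x - fA P / 4) = 4 * x - fA P := by field_simp
    rw [e2]
    apply (A.valuation).map_sub_le
    · rw [map_mul]
      have h4 : A.valuation (4 : AlgebraicClosure ℚ) ≤ 1 := by
        have := val_nat_le_one (A := A) 4
        simpa using this
      exact mul_le_one' h4 hx
    · exact val_fA_le_one (P := P) (A := A)
  -- a product of three elements `≤ 1` equal to `1`
  have hx1 : A.valuation x = 1 := by
    refine le_antisymm hx ?_
    calc (1 : _) = A.valuation x * A.valuation (x + fB P / 4) *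
          A.valuation (4 * (x - fA P / 4)) := hv
      _ ≤ A.valuation x * 1 * 1 := by gcongr
      _ = A.valuation x := by rw [mul_one, mul_one]
  have hB1 : A.valuation (x + fB P / 4) = 1 := by
    refine le_antisymm h1 ?_
    calc (1 : _) = A.valuation x * A.valuation (x + fB P / 4) *
          A.valuation (4 * (x - fA P / 4)) := hv
      _ ≤ 1 * A.valuation (x + fB P / 4) * 1 := by gcongr
      _ = A.valuation (x + fB P / 4) := by rw [mul_one, one_mul]
  have hA1 : A.valuation (4 * (x - fA P / 4)) = 1 := by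
    refine le_antisymm h2 ?_
    calc (1 : _) = A.valuation x * A.valuation (x + fB P / 4) *
          A.valuation (4 * (x - fA P / 4)) := hv
      _ ≤ 1 * 1 * A.valuation (4 * (x - fA P / 4)) := by gcongr
      _ = A.valuation (4 * (x - fA P / 4)) := by rw [one_mul, one_mul]
  refine ⟨hx1, hB1, ?_⟩
  rw [← map_mul]
  exact hA1

/-- At a prime of good reduction of the Frey model every point lies in `E⁰`. -/
theorem frey_inE0_of_good (P : FreyPackage) {ℓ : ℕ} (hℓ : ℓ.Prime)
    (hgood : ¬ (ℓ : ℤ) ∣ P.freyCurveInt.Δ)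
    (A : ValuationSubring (AlgebraicClosure ℚ)) (hA : A.LiesOverPrime ℓ)
    (T : (P.freyCurve⁄(AlgebraicClosure ℚ)).Point) :
    InE0 A (IsLocalRing.residue A) (P.freyCurveInt⁄(IsLocalRing.ResidueField A)) T := by
  rcases T with _ | ⟨x, y, h⟩
  · trivial
  · intro hx
    have hred := frey_isRedOf P A
    have hy : y ∈ A := y_mem_of_x_mem hred h.1 hx
    have heq := rd_equation hred hx hy h.1
    have hΔ : (P.freyCurveInt⁄(IsLocalRing.ResidueField A)).Δ ≠ 0 := by
      have hchar : CharP (IsLocalRing.ResidueField A) ℓ :=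
        (CharP.charP_iff_prime_eq_zero hℓ).mpr (by
          have h0 : rd A (IsLocalRing.residue A) ((ℓ : ℤ) : AlgebraicClosure ℚ) = 0 :=
            rd_eq_zero_of_lt (kerMax_residue A) (by
              have := (A.mem_nonunits_iff).mp hA
              simpa using this)
          rw [rd_intCast] at h0
          exact_mod_cast h0)
      have e : (P.freyCurveInt⁄(IsLocalRing.ResidueField A)).Δ =
          ((P.freyCurveInt.Δ : ℤ) : IsLocalRing.ResidueField A) := by
        show (P.freyCurveInt.map (algebraMap ℤ (IsLocalRing.ResidueField A))).Δ = _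
        rw [WeierstrassCurve.map_Δ, eq_intCast]
      rw [e, Ne, CharP.intCast_eq_zero_iff (IsLocalRing.ResidueField A) ℓ]
      exact hgood
    exact (Affine.equation_iff_nonsingular_of_Δ_ne_zero hΔ).mp heq

/-- **Valuation table at `ℓ ≠ p`, toric case.**  If `T` has order `p` and lies in `E⁰(A)`
(`A` over `ℓ ≠ p`, ANY `ℓ`), then `T = (x, y)` with
`v(x) = 1`, `v(x + b^p/4) = 1`, `v(4) · v(x - a^p/4) = 1`. -/
theorem frey_factor_vals_of_inE0 (P : FreyPackage) {ℓ : ℕ} (hℓ : ℓ.Prime) (hℓp : ℓ ≠ P.p)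
    (A : ValuationSubring (AlgebraicClosure ℚ)) (hA : A.LiesOverPrime ℓ)
    (T : (P.freyCurve⁄(AlgebraicClosure ℚ)).Point) (hord : addOrderOf T = P.p)
    (hT : InE0 A (IsLocalRing.residue A) (P.freyCurveInt⁄(IsLocalRing.ResidueField A)) T) :
    ∃ (x y : AlgebraicClosure ℚ) (h : (P.freyCurve⁄(AlgebraicClosure ℚ)).Nonsingular x y),
      T = Point.some x y h ∧ A.valuation x = 1 ∧ A.valuation (x + fB P / 4) = 1 ∧
        A.valuation 4 * A.valuation (x - fA P / 4) = 1 := by
  obtain ⟨x, y, h, rfl, hx, hη⟩ := frey_toric_point P hℓ hℓp A hA T hord hT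
  exact ⟨x, y, h, rfl, frey_val_factors P A h.1 hx hη⟩

end Fermat.Agent.S12.H411

end
-- ===== PACK-END S12/H411/LocPi.lean

-- ===== PACK-BEGIN G1/H59/Spec.lean
section


/-!
# G1.c (twist exclusion at `3`) — local interface (helper59)

Memo: `coord/G1c-helper59.md` on `origin/helper59`.  Everything is phrased on the landed Hopf
lattices of cell A3 (`Fermat.Agent.S56.H906.IsHL = Fermat.Agent.S19.H435.IsHopfLattice`).

`M₁` plays the role of `W[3]` (`W` semistable at `3`, no inertia-fixed `3`-torsion), `M₂` the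
role of the residual representation of an eigenform `g` whose level is not divisible by `9`,
and `φ : M₁ → M₂` is an embedding which is equivariant up to the twist by the mod-`3`
cyclotomic character on the inertia group at `P | 3`.

* `IsWeilType59`  : the hypotheses on `M₁` (order `9`, killed by `3`, no inertia-fixed point,
                    an alternating pairing with cyclotomic similitude on inertia).
* `HasLattice59`  : "flat at `3`": the module carries a Hopf lattice.
* `HasOrdLine59`  : "ordinary at `3`" (on inertia): a subgroup on which inertia acts through the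
                    cyclotomic character, with trivial action on the quotient.
* `HasOrderEight59`: "supersingular type": an inertia element acts with fourth power `-1`.
* `LocalTwistExclusionStatement59` : no twisted embedding exists.

Nothing is proved in this file; nothing is `sorry`.
-/

set_option autoImplicit false

noncomputable section

namespace Fermat.Agent.G1.H59

open Fermat.Agent.S56 Fermat.Agent.S56.H906

/-- Inertia at `P` acts on `M` by additive maps, compatibly with products. -/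
structure IsInertiaAction59 (P : ValuationSubring Qb) {M : Type} [AddCommGroup M]
    (act : GQ → M → M) : Prop where
  act_add : ∀ τ ∈ P.inertiaSubgroupIn ℚ, ∀ x y : M, act τ (x + y) = act τ x + act τ y
  act_mul : ∀ σ ∈ P.inertiaSubgroupIn ℚ, ∀ τ ∈ P.inertiaSubgroupIn ℚ, ∀ x : M,
    act (σ * τ) x = act σ (act τ x)
  act_one : ∀ x : M, act 1 x = x

/-- The hypotheses on `M₁ = W[3]`: order `9`, killed by `3`, no nonzero inertia-fixed point, and
an alternating pairing with values in `𝔽₃`, nonzero, whose similitude character on inertia is the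
mod-`3` cyclotomic character (`det = ω`). -/
structure IsWeilType59 (P : ValuationSubring Qb) {M : Type} [AddCommGroup M]
    (act : GQ → M → M) : Prop extends IsInertiaAction59 P act where
  card : Nat.card M = 9
  three : ∀ x : M, 3 • x = 0
  nofix : ∀ x : M, (∀ τ ∈ P.inertiaSubgroupIn ℚ, act τ x = x) → x = 0
  pairing : ∃ B : M → M → ZMod 3,
    (∀ x y z : M, B (x + y) z = B x z + B y z) ∧
    (∀ x y z : M, B x (y + z) = B x y + B x z) ∧
    (∀ x : M, B x x = 0) ∧ (∃ x y : M, B x y ≠ 0) ∧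
    ∀ τ ∈ P.inertiaSubgroupIn ℚ, ∀ a : ℕ, IsCycExp 3 τ a →
      ∀ x y : M, B (act τ x) (act τ y) = (a : ZMod 3) * B x y

/-- "Flat at `3`": the Galois module carries a Hopf lattice over `ℤ_(3)`. -/
def HasLattice59 {M : Type} [AddCommGroup M] (act : GQ → M → M) : Prop :=
  ∃ Λ : Subalgebra (Zp 3) (M → Qb), IsHL 3 act Λ

/-- "Ordinary at `3`" (inertia part): a subgroup `L` on which inertia acts through the mod-`3`
cyclotomic character, inertia acting trivially on the quotient by `L`. -/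
def HasOrdLine59 (P : ValuationSubring Qb) {M : Type} [AddCommGroup M]
    (act : GQ → M → M) : Prop :=
  ∃ L : AddSubgroup M,
    (∀ τ ∈ P.inertiaSubgroupIn ℚ, ∀ z ∈ L, ∀ a : ℕ, IsCycExp 3 τ a → act τ z = a • z) ∧
    ∀ τ ∈ P.inertiaSubgroupIn ℚ, ∀ z : M, act τ z - z ∈ L

/-- "Supersingular type": some element of the inertia group acts on `M` with fourth power `-1`
(so it has order `8` and, if `M` has order `9`, permutes the `8` nonzero points cyclically). -/
def HasOrderEight59 (P : ValuationSubring Qb) {M : Type} [AddCommGroup M]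
    (act : GQ → M → M) : Prop :=
  ∃ τ ∈ P.inertiaSubgroupIn ℚ, ∀ y : M, act τ (act τ (act τ (act τ y))) = -y

/-- `φ` is equivariant for inertia up to the twist by the mod-`3` cyclotomic character. -/
def IsTwistedEmbedding59 (P : ValuationSubring Qb) {M₁ M₂ : Type} [AddCommGroup M₁]
    [AddCommGroup M₂] (act₁ : GQ → M₁ → M₁) (act₂ : GQ → M₂ → M₂) (φ : M₁ →+ M₂) : Prop :=
  Function.Injective φ ∧
    ∀ τ ∈ P.inertiaSubgroupIn ℚ, ∀ a : ℕ, IsCycExp 3 τ a →
      ∀ x : M₁, act₂ τ (φ x) = a • φ (act₁ τ x)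

/-- **(LOC-W)** the dichotomy for a flat module of Weil type: ordinary line, or an inertia
element of order `8`. -/
def FlatDichotomyStatement59 : Prop :=
  ∀ (P : ValuationSubring Qb), P.LiesOverPrime 3 →
    ∀ (M : Type) [AddCommGroup M] [Finite M] (act : GQ → M → M),
      IsWeilType59 P act → HasLattice59 act →
        HasOrdLine59 P act ∨ HasOrderEight59 P act

/-- **(FT2)** flat–flat twist exclusion, supersingular type (Raynaud's tame characters at level
two, in the valuation-window form). -/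
def FlatTwistSSStatement59 : Prop :=
  ∀ (P : ValuationSubring Qb), P.LiesOverPrime 3 →
    ∀ (M₁ M₂ : Type) [AddCommGroup M₁] [AddCommGroup M₂] [Finite M₁] [Finite M₂]
      (act₁ : GQ → M₁ → M₁) (act₂ : GQ → M₂ → M₂),
      Nat.card M₁ = 9 → (∀ x : M₁, 3 • x = 0) → (∀ x : M₂, 3 • x = 0) →
      HasLattice59 act₁ → HasLattice59 act₂ → HasOrderEight59 P act₁ →
      ∀ φ : M₁ →+ M₂, IsTwistedEmbedding59 P act₁ act₂ φ → False

/-- **(FI-TW)** twist exclusion, ordinary type against a flat module. -/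
def FlatTwistOrdStatement59 : Prop :=
  ∀ (P : ValuationSubring Qb), P.LiesOverPrime 3 →
    ∀ (M₁ M₂ : Type) [AddCommGroup M₁] [AddCommGroup M₂] [Finite M₁] [Finite M₂]
      (act₁ : GQ → M₁ → M₁) (act₂ : GQ → M₂ → M₂),
      IsWeilType59 P act₁ → HasOrdLine59 P act₁ → (∀ x : M₂, 3 • x = 0) →
      HasLattice59 act₂ →
      ∀ φ : M₁ →+ M₂, IsTwistedEmbedding59 P act₁ act₂ φ → False

/-- **(ORD-TW)** twist exclusion against an ordinary module: the twist of an ordinary module has
an inertia-fixed point. -/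
def OrdTwistStatement59 : Prop :=
  ∀ (P : ValuationSubring Qb), P.LiesOverPrime 3 →
    ∀ (M₁ M₂ : Type) [AddCommGroup M₁] [AddCommGroup M₂] [Finite M₁] [Finite M₂]
      (act₁ : GQ → M₁ → M₁) (act₂ : GQ → M₂ → M₂),
      IsWeilType59 P act₁ → (∀ x : M₂, 3 • x = 0) → HasOrdLine59 P act₂ →
      ∀ φ : M₁ →+ M₂, IsTwistedEmbedding59 P act₁ act₂ φ → False

/-- **(LTE)** local twist exclusion at `3`: `M₁` of Weil type, flat or ordinary; `M₂` flat or
ordinary; then there is no embedding `M₁ → M₂` which is inertia-equivariant up to the twist by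
the mod-`3` cyclotomic character. -/
def LocalTwistExclusionStatement59 : Prop :=
  ∀ (P : ValuationSubring Qb), P.LiesOverPrime 3 →
    ∀ (M₁ M₂ : Type) [AddCommGroup M₁] [AddCommGroup M₂] [Finite M₁] [Finite M₂]
      (act₁ : GQ → M₁ → M₁) (act₂ : GQ → M₂ → M₂),
      IsWeilType59 P act₁ → (HasLattice59 act₁ ∨ HasOrdLine59 P act₁) →
      (∀ x : M₂, 3 • x = 0) → (HasLattice59 act₂ ∨ HasOrdLine59 P act₂) →
      ∀ φ : M₁ →+ M₂, IsTwistedEmbedding59 P act₁ act₂ φ → False

/-- The assembly. -/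
theorem localTwistExclusion_of59 (hD : FlatDichotomyStatement59)
    (hSS : FlatTwistSSStatement59) (hFO : FlatTwistOrdStatement59)
    (hOT : OrdTwistStatement59) : LocalTwistExclusionStatement59 := by
  intro P hP M₁ M₂ _ _ _ _ act₁ act₂ hW h₁ h3 h₂ φ hφ
  rcases h₂ with h₂ | h₂
  · rcases h₁ with h₁ | h₁
    · rcases hD P hP M₁ act₁ hW h₁ with ht | ht
      · exact hFO P hP M₁ M₂ act₁ act₂ hW ht h3 h₂ φ hφ
      · exact hSS P hP M₁ M₂ act₁ act₂ hW.card hW.three h3 h₁ h₂ ht φ hφ
    · exact hFO P hP M₁ M₂ act₁ act₂ hW h₁ h3 h₂ φ hφ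
  · exact hOT P hP M₁ M₂ act₁ act₂ hW h3 h₂ φ hφ

end Fermat.Agent.G1.H59

end

end
-- ===== PACK-END G1/H59/Spec.lean

-- ===== PACK-BEGIN G2/H559/MuCrit.lean
section






/-!
# Row GLUE, phase 2, block F, leaf L2 (MU-crit) (helper559)

OFF-MAIN.  `noFix3_of_mult559`: a Weierstrass curve `W` over `ℤ` with multiplicative reduction at
`3` (`3 ∣ Δ`, `3 ∤ c₄`) and `3 ∤ v₃(Δ)` has no nonzero `3`-torsion point fixed by the inertia
group at `3` (`Glue.NoFix3 W`).

Route: a nonzero `3`-torsion point `(x, y)` has `ψ₃(x) = 0`; by the Newton polygon at the node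
(`MuCore`) `v (x - r) ^ 3 = v(3) ^ n` or `v x = v(3)⁻¹`, `v y ^ 2 = v(3)⁻³`; an inertia-fixed
element has valuation `v(3) ^ k` (landed `A2.IF.H429.exists_zpow_of_mem_inertiaField`), and the
node `r = (√c₄ - b₂) / 12` is inertia-fixed because `ℚ(√c₄)` is unramified at `3`.
-/

set_option autoImplicit false
open WeierstrassCurve WeierstrassCurve.Affine WeierstrassCurve.Affine.Point
open scoped WeierstrassCurve.Affine

namespace Fermat.Agent.G2.H559

local notation "Qb" => AlgebraicClosure ℚ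

variable (A : ValuationSubring Qb)

/-! ## Valuations of integers -/

theorem val_intCast_le559 (m : ℤ) : A.valuation (m : Qb) ≤ 1 :=
  (A.valuation_le_one_iff _).mpr (intCast_mem A m)

theorem val_three_lt559 (hA : A.LiesOverPrime 3) : A.valuation (3 : Qb) < 1 := by
  have h : ((3 : ℕ) : Qb) ∈ A.nonunits := hA
  have := A.mem_nonunits_iff.mp h
  simpa using this

theorem val_three_ne559 : A.valuation (3 : Qb) ≠ 0 := by
  rw [Ne, map_eq_zero]
  norm_num

theorem val_intCast_eq_one559 (hA : A.LiesOverPrime 3) {m : ℤ} (hm : ¬ (3 : ℤ) ∣ m) :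
    A.valuation (m : Qb) = 1 := by
  have hcop : IsCoprime m 3 := by
    have h3 : Prime (3 : ℤ) := Int.prime_three
    exact ((h3.coprime_iff_not_dvd).mpr hm).symm
  obtain ⟨a, b, hab⟩ := hcop
  have hQ : (a : Qb) * (m : Qb) + (b : Qb) * 3 = 1 := by exact_mod_cast congrArg (Int.cast : ℤ → Qb) hab
  have hb3 : A.valuation ((b : Qb) * 3) < 1 := by
    rw [map_mul]
    calc A.valuation (b : Qb) * A.valuation (3 : Qb) ≤ 1 * A.valuation (3 : Qb) := by
          gcongr; exact val_intCast_le559 A b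
      _ = A.valuation (3 : Qb) := one_mul _
      _ < 1 := val_three_lt559 A hA
  have ham : A.valuation ((a : Qb) * (m : Qb)) = 1 := by
    have e : (a : Qb) * (m : Qb) = 1 - (b : Qb) * 3 := by linear_combination hQ
    rw [e, (A.valuation).map_sub_eq_of_lt_left (by rw [map_one]; exact hb3), map_one]
  rw [map_mul] at ham
  refine le_antisymm (val_intCast_le559 A m) ?_
  calc (1 : _) = A.valuation (a : Qb) * A.valuation (m : Qb) := ham.symm
    _ ≤ 1 * A.valuation (m : Qb) := by gcongr; exact val_intCast_le559 A a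
    _ = A.valuation (m : Qb) := one_mul _

theorem val_two559 (hA : A.LiesOverPrime 3) : A.valuation (2 : Qb) = 1 := by
  have := val_intCast_eq_one559 A hA (m := 2) (by norm_num)
  simpa using this

/-- The valuation of a nonzero integer is `v(3)` to the power its `3`-adic valuation. -/
theorem val_intCast_eq_pow559 (hA : A.LiesOverPrime 3) {m : ℤ} (hm : m ≠ 0) :
    A.valuation (m : Qb) = A.valuation (3 : Qb) ^ padicValInt 3 m := by
  have : Fact (Nat.Prime 3) := ⟨Nat.prime_three⟩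
  obtain ⟨c, hc⟩ := padicValInt_dvd (p := 3) m
  have hc3 : ¬ (3 : ℤ) ∣ c := by
    intro h
    obtain ⟨d, hd⟩ := h
    have : ((3 : ℕ) : ℤ) ^ (padicValInt 3 m + 1) ∣ m := by
      refine ⟨d, ?_⟩
      rw [pow_succ]
      conv_lhs => rw [hc, hd]
      push_cast
      ring
    have h2 := (padicValInt_dvd_iff (p := 3) (padicValInt 3 m + 1) m).mp this
    rcases h2 with h2 | h2
    · exact hm h2
    · omega
  have e : (m : Qb) = (3 : Qb) ^ padicValInt 3 m * (c : Qb) := by
    conv_lhs => rw [hc]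
    push_cast
    ring
  rw [e, map_mul, map_pow, val_intCast_eq_one559 A hA hc3, mul_one]


/-! ## The coefficients of the curve over `ℚ̄` -/

section coeff

variable (W : WeierstrassCurve ℤ)

theorem qb_a₁559 : ((W.map (Int.castRingHom ℚ))⁄Qb).a₁ = ((W.a₁ : ℤ) : Qb) := by
  simp [WeierstrassCurve.baseChange]

theorem qb_a₂559 : ((W.map (Int.castRingHom ℚ))⁄Qb).a₂ = ((W.a₂ : ℤ) : Qb) := by
  simp [WeierstrassCurve.baseChange]

theorem qb_a₃559 : ((W.map (Int.castRingHom ℚ))⁄Qb).a₃ = ((W.a₃ : ℤ) : Qb) := by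
  simp [WeierstrassCurve.baseChange]

theorem qb_a₄559 : ((W.map (Int.castRingHom ℚ))⁄Qb).a₄ = ((W.a₄ : ℤ) : Qb) := by
  simp [WeierstrassCurve.baseChange]

theorem qb_a₆559 : ((W.map (Int.castRingHom ℚ))⁄Qb).a₆ = ((W.a₆ : ℤ) : Qb) := by
  simp [WeierstrassCurve.baseChange]

theorem qb_b₂559 : ((W.map (Int.castRingHom ℚ))⁄Qb).b₂ = ((W.b₂ : ℤ) : Qb) := by
  simp [WeierstrassCurve.baseChange]

theorem qb_b₄559 : ((W.map (Int.castRingHom ℚ))⁄Qb).b₄ = ((W.b₄ : ℤ) : Qb) := by
  simp [WeierstrassCurve.baseChange]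

theorem qb_b₆559 : ((W.map (Int.castRingHom ℚ))⁄Qb).b₆ = ((W.b₆ : ℤ) : Qb) := by
  simp [WeierstrassCurve.baseChange]

theorem qb_b₈559 : ((W.map (Int.castRingHom ℚ))⁄Qb).b₈ = ((W.b₈ : ℤ) : Qb) := by
  simp [WeierstrassCurve.baseChange]

end coeff

/-! ## Inertia-fixed elements -/

/-- The valuation of a nonzero inertia-fixed element is an integral power of `v(3)`. -/
theorem val_eq_zpow_of_fixed559 (hA : A.LiesOverPrime 3) {y : Qb} (hy0 : y ≠ 0)
    (hfix : ∀ σ ∈ A.inertiaSubgroupIn ℚ, σ y = y) :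
    ∃ k : ℤ, A.valuation y = A.valuation (3 : Qb) ^ k := by
  have hy : y ∈ Fermat.Agent.A2.IF.H429.inertiaField A :=
    (Fermat.Agent.A2.IF.H429.mem_inertiaField_iff A).mpr hfix
  obtain ⟨k, hk⟩ :=
    Fermat.Agent.A2.IF.H429.exists_zpow_of_mem_inertiaField A 3 Nat.prime_three hA y hy hy0
  refine ⟨k, ?_⟩
  rw [map_div₀, map_zpow₀] at hk
  have hne : A.valuation (((3 : ℕ) : Qb)) ^ k ≠ 0 := by
    apply zpow_ne_zero
    rw [Ne, map_eq_zero]
    norm_num
  have := (div_eq_one_iff_eq hne).mp hk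
  simpa using this

/-- A square root of an integer prime to `3` is fixed by the inertia group at `3`. -/
theorem sqrt_fixed559 (hA : A.LiesOverPrime 3) {c : ℤ} {s : Qb} (hs : s ^ 2 = (c : Qb))
    (hs1 : A.valuation s = 1) {σ : Qb ≃ₐ[ℚ] Qb} (hσ : σ ∈ A.inertiaSubgroupIn ℚ) : σ s = s := by
  have hsA : s ∈ A := (A.valuation_le_one_iff s).mp hs1.le
  have hsub := A.mem_nonunits_iff.mp (Fermat.Agent.A2.IF.H429.sub_mem_nonunits_of_inertia A hσ hsA)
  have hσs : σ s ^ 2 = s ^ 2 := by
    rw [← map_pow, hs, map_intCast]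
  have hprod : (σ s - s) * (σ s + s) = 0 := by linear_combination hσs
  rcases mul_eq_zero.mp hprod with h | h
  · exact sub_eq_zero.mp h
  · exfalso
    have e : σ s - s = -(2 * s) := by linear_combination h
    rw [e, Valuation.map_neg, map_mul, val_two559 A hA, hs1, one_mul] at hsub
    exact lt_irrefl _ hsub

/-! ## The leaf -/

/-- The choice of the square root of `c₄` near `b₂`. -/
theorem exists_sqrt_near559 (hA : A.LiesOverPrime 3) (W : WeierstrassCurve ℤ)
    (hc4 : ¬ (3 : ℤ) ∣ W.c₄) :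
    ∃ s : Qb, s ^ 2 = ((W.b₂ : ℤ) : Qb) ^ 2 - 24 * ((W.b₄ : ℤ) : Qb) ∧ A.valuation s = 1 ∧
      A.valuation (s - ((W.b₂ : ℤ) : Qb)) < 1 := by
  have hc : ((W.c₄ : ℤ) : Qb) = ((W.b₂ : ℤ) : Qb) ^ 2 - 24 * ((W.b₄ : ℤ) : Qb) := by
    rw [WeierstrassCurve.c₄]; push_cast; ring
  obtain ⟨s, hs⟩ := IsAlgClosed.exists_pow_nat_eq ((W.c₄ : ℤ) : Qb) (n := 2) (by norm_num)
  have hs1 : A.valuation s = 1 := by
    apply eq_one_of_sq_eq_one559
    rw [← map_pow, hs, val_intCast_eq_one559 A hA hc4]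
  have hprod : (s - ((W.b₂ : ℤ) : Qb)) * (s + ((W.b₂ : ℤ) : Qb))
      = -(24 * ((W.b₄ : ℤ) : Qb)) := by
    rw [hc] at hs; linear_combination hs
  have hlt : A.valuation ((s - ((W.b₂ : ℤ) : Qb)) * (s + ((W.b₂ : ℤ) : Qb))) < 1 := by
    rw [hprod, Valuation.map_neg, map_mul, val_twentyfour559 _ (val_two559 A hA)]
    calc A.valuation (3 : Qb) * A.valuation ((W.b₄ : ℤ) : Qb)
        ≤ A.valuation (3 : Qb) * 1 := by gcongr; exact val_intCast_le559 A _
      _ = A.valuation (3 : Qb) := mul_one _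
      _ < 1 := val_three_lt559 A hA
  by_cases h : A.valuation (s - ((W.b₂ : ℤ) : Qb)) < 1
  · exact ⟨s, by rw [hs, hc], hs1, h⟩
  · have h' : 1 ≤ A.valuation (s - ((W.b₂ : ℤ) : Qb)) := not_lt.mp h
    have h2 : A.valuation (s + ((W.b₂ : ℤ) : Qb)) < 1 := by
      by_contra hge
      have hge' : 1 ≤ A.valuation (s + ((W.b₂ : ℤ) : Qb)) := not_lt.mp hge
      rw [map_mul] at hlt
      have : (1 : _) ≤ A.valuation (s - ((W.b₂ : ℤ) : Qb)) * A.valuation (s + ((W.b₂ : ℤ) : Qb)) :=
        one_le_mul_of_one_le_of_one_le h' hge'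
      exact (not_lt.mpr this) hlt
    refine ⟨-s, by rw [neg_sq, hs, hc], by rw [Valuation.map_neg, hs1], ?_⟩
    have e : -s - ((W.b₂ : ℤ) : Qb) = -(s + ((W.b₂ : ℤ) : Qb)) := by ring
    rw [e, Valuation.map_neg]; exact h2

/-- **LEAF L2 (MU-crit).**  Multiplicative reduction at `3` with `3 ∤ v₃(Δ)`: no nonzero
`3`-torsion point is fixed by the inertia group at `3`. -/
theorem noFix3_of_mult559 (W : WeierstrassCurve ℤ) (hc4 : ¬ (3 : ℤ) ∣ W.c₄)
    (hn : ¬ 3 ∣ padicValInt 3 W.Δ) : Fermat.Agent.Glue.NoFix3 W := by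
  intro A hA P hfix
  have hΔ0 : W.Δ ≠ 0 := by
    intro h
    apply hn
    rw [h, padicValInt.zero]
    exact dvd_zero 3
  -- valuations
  have h3lt := val_three_lt559 A hA
  have h3ne := val_three_ne559 A
  have h2 := val_two559 A hA
  obtain ⟨s, hs, hs1, hsb⟩ := exists_sqrt_near559 A hA W hc4
  have h12 : (12 : Qb) ≠ 0 := by norm_num
  set r : Qb := (s - ((W.b₂ : ℤ) : Qb)) / 12 with hr
  have hr12 : 12 * r = s - ((W.b₂ : ℤ) : Qb) := by
    rw [hr]; field_simp
  have hrel : 4 * ((W.b₈ : ℤ) : Qb) = ((W.b₂ : ℤ) : Qb) * ((W.b₆ : ℤ) : Qb)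
      - ((W.b₄ : ℤ) : Qb) ^ 2 := by
    exact_mod_cast congrArg (Int.cast : ℤ → Qb) W.b_relation
  have hΔv : A.valuation (-((W.b₂ : ℤ) : Qb) ^ 2 * ((W.b₈ : ℤ) : Qb) - 8 * ((W.b₄ : ℤ) : Qb) ^ 3
      - 27 * ((W.b₆ : ℤ) : Qb) ^ 2 + 9 * ((W.b₂ : ℤ) : Qb) * ((W.b₄ : ℤ) : Qb) * ((W.b₆ : ℤ) : Qb))
      = A.valuation (3 : Qb) ^ padicValInt 3 W.Δ := by
    rw [← val_intCast_eq_pow559 A hA hΔ0]
    congr 1
    rw [WeierstrassCurve.Δ]; push_cast; ring
  have hrv : A.valuation r ≤ 1 :=
    node_val_le559 A.valuation h3ne h2 (val_intCast_le559 A _) hs hs1 hsb hr12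
  -- the node is inertia-fixed
  have hsc : s ^ 2 = ((W.c₄ : ℤ) : Qb) := by
    rw [hs, WeierstrassCurve.c₄]; push_cast; ring
  have hrfix : ∀ σ ∈ A.inertiaSubgroupIn ℚ, σ r = r := by
    intro σ hσ
    have hσs := sqrt_fixed559 A hA hsc hs1 hσ
    rw [hr, map_div₀, map_sub, hσs, map_intCast, map_ofNat]
  -- the point
  by_contra hP
  obtain ⟨P1, hP3⟩ := P
  rcases P1 with _ | ⟨x, y, h⟩
  · exact hP rfl
  · have h3 : ((3 : ℕ) : ℤ) • (Point.some x y h) = 0 := (Submodule.mem_torsionBy_iff _ _).mp hP3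
    have hψ := Fermat.Agent.S51.T171.dPsi3_eq_zero_of_three_torsion h h3
    rw [Fermat.Agent.S51.T171.dPsi3, qb_b₂559, qb_b₄559, qb_b₆559, qb_b₈559] at hψ
    -- coordinates are inertia-fixed
    have hxy : ∀ σ ∈ A.inertiaSubgroupIn ℚ, σ x = x ∧ σ y = y := by
      intro σ hσ
      have := congrArg Subtype.val (hfix σ hσ)
      have e : σ • (Point.some x y h) = Point.some x y h := this
      rw [Fermat.Agent.S05.GoodRed.smul_some] at e
      have := Point.some.inj e
      exact this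
    have hroot := mu_root_val559 A.valuation h3lt h3ne h2 (val_intCast_le559 A _)
      (val_intCast_le559 A _) (val_intCast_le559 A _) (val_intCast_le559 A _) hrel hs hs1 hsb
      hr12 hΔv hψ
    have hπ0 : A.valuation (3 : Qb) ^ padicValInt 3 W.Δ ≠ 0 := pow_ne_zero _ h3ne
    have hu0 : x - r ≠ 0 := by
      intro h0
      rw [h0, _root_.map_zero] at hroot
      rcases hroot with h' | h'
      · exact (inv_ne_zero h3ne) h'.symm
      · rw [zero_pow three_ne_zero] at h'
        exact hπ0 h'.symm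
    have hufix : ∀ σ ∈ A.inertiaSubgroupIn ℚ, σ (x - r) = x - r := by
      intro σ hσ
      rw [map_sub, (hxy σ hσ).1, hrfix σ hσ]
    obtain ⟨k, hk⟩ := val_eq_zpow_of_fixed559 A hA hu0 hufix
    rcases hroot with h' | h'
    · -- the pole root
      have hP1 : 1 < (A.valuation (3 : Qb))⁻¹ := one_lt_inv559 h3ne h3lt
      have hxv : A.valuation x = (A.valuation (3 : Qb))⁻¹ := by
        have e : x = (x - r) + r := by ring
        rw [e, (A.valuation).map_add_eq_of_lt_left (by rw [h']; exact lt_of_le_of_lt hrv hP1), h']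
      have heq := (Affine.equation_iff _ _).mp h.1
      rw [qb_a₁559, qb_a₂559, qb_a₃559, qb_a₄559, qb_a₆559] at heq
      have hyv := pole_y_val559 A.valuation h3lt h3ne (val_intCast_le559 A _)
        (val_intCast_le559 A _) (val_intCast_le559 A _) (val_intCast_le559 A _)
        (val_intCast_le559 A _) heq hxv
      have hy0 : y ≠ 0 := by
        intro h0
        rw [h0, _root_.map_zero, zero_pow two_ne_zero] at hyv
        exact (pow_ne_zero 3 (inv_ne_zero h3ne)) hyv.symm
      obtain ⟨m, hm⟩ := val_eq_zpow_of_fixed559 A hA hy0 (fun σ hσ => (hxy σ hσ).2)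
      rw [hm] at hyv
      exact not_zpow_sq559 h3ne h3lt hyv
    · -- the roots at the node
      rw [hk] at h'
      exact hn (three_dvd_of_zpow559 h3ne h3lt h')

/-- **LEAF L2 (MU-crit)** in the shape of the board `coord/GLUE2.md` (row-lead helper120):
`3 ∣ Δ → 3 ∤ c₄ → 3 ∤ v₃(Δ) → NoFix3 W`. -/
theorem leafL2_muCrit559 (W : WeierstrassCurve ℤ) (_h3 : (3 : ℤ) ∣ W.Δ)
    (hc4 : ¬ (3 : ℤ) ∣ W.c₄) (hn : ¬ 3 ∣ padicValInt 3 W.Δ) : Fermat.Agent.Glue.NoFix3 W :=
  noFix3_of_mult559 W hc4 hn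

end Fermat.Agent.G2.H559

end
-- ===== PACK-END G2/H559/MuCrit.lean

-- ===== PACK-BEGIN LT/H595/SurjC.lean
section





/-!
# Row LT, block GLUE2, leaf G2b `SurjC` (helper595)

`surjC595 : Fermat.Agent.LT.H670.SurjC`: a continuous `ρ : Gal(ℚ̄/ℚ) →* GL₂(𝔽₃)` with determinant
`modThreeCyclotomicChar`, without stable line, and whose inertia elements at the primes `q ≠ 3`
have trivial cube, is SURJECTIVE.

Proof: `SurjCore.lean` (group theory in `GL₂(𝔽₃)`) needs an odd involution and, in the case where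
the image has no element of order `3`, the uniqueness of the subgroup of index `2` containing the
kernel.  The involution is complex conjugation (`exists_involution_Qbar`, helper405, and
`involution_mul_self_eq_one`, helper178, both on main); the uniqueness is the statement that
`ℚ(√-3)` is the only quadratic field unramified outside `3` (`index_two_eq_stab`, helper405, on
main).
-/

set_option autoImplicit false

open WeierstrassCurve Fermat.Agent.S59.H405 Matrix
open scoped MatrixGroups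

namespace Fermat.Agent.LT.H595

local notation "Γℚ" => (AlgebraicClosure ℚ ≃ₐ[ℚ] AlgebraicClosure ℚ)

/-- the mod `3` cyclotomic character of an involution `c ≠ 1` is `-1` -/
theorem cyclo_involution595 (c : Γℚ) (hcc : c * c = 1) (hc1 : c ≠ 1) :
    modThreeCyclotomicChar c = -1 := by
  have hcc' : ∀ x : AlgebraicClosure ℚ,
      (c : AlgebraicClosure ℚ ≃+* AlgebraicClosure ℚ)
        ((c : AlgebraicClosure ℚ ≃+* AlgebraicClosure ℚ) x) = x := by
    intro x
    have h := congrArg (fun f : Γℚ => f x) hcc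
    simpa [AlgEquiv.mul_apply] using h
  have hne : ∃ x : AlgebraicClosure ℚ,
      (c : AlgebraicClosure ℚ ≃+* AlgebraicClosure ℚ) x ≠ x := by
    by_contra h
    exact hc1 (AlgEquiv.ext fun x => not_not.mp (not_exists.mp h x))
  have hval : ((-1 : (ZMod 3)ˣ) : ZMod 3).val = 2 := by decide
  have key : ((-1 : (ZMod 3)ˣ) : ZMod 3) = modularCyclotomicCharacter (AlgebraicClosure ℚ)
      (IsAlgClosed.card_rootsOfUnity_eq (AlgebraicClosure ℚ) 3)
      (c : AlgebraicClosure ℚ ≃+* AlgebraicClosure ℚ) := by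
    apply modularCyclotomicCharacter.unique
    intro t ht
    rw [hval]
    have ht3 : (t : AlgebraicClosure ℚ) ^ 3 ^ 1 = 1 := by
      rw [pow_one]
      have := (mem_rootsOfUnity 3 t).1 ht
      rw [← Units.val_pow_eq_pow_val, this, Units.val_one]
    have h1 : (t : AlgebraicClosure ℚ)
        * (c : AlgebraicClosure ℚ ≃+* AlgebraicClosure ℚ) (t : AlgebraicClosure ℚ) = 1 :=
      Fermat.Agent.S59.G4.H178.involution_mul_self_eq_one (K := AlgebraicClosure ℚ) two_ne_zero
        (c : AlgebraicClosure ℚ ≃+* AlgebraicClosure ℚ) hcc' hne 3 Nat.prime_three (by norm_num)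
        1 (t : AlgebraicClosure ℚ) ht3
    have h2 : (t : AlgebraicClosure ℚ) * (t : AlgebraicClosure ℚ) ^ 2 = 1 := by
      rw [← pow_succ']
      rw [pow_one] at ht3
      exact ht3
    exact mul_left_cancel₀ t.ne_zero (h1.trans h2.symm)
  apply Units.ext
  rw [modThreeCyclotomicChar_apply]
  exact key.symm

/-- an element of `M₂(𝔽₃)` with trivial cube is unipotent -/
theorem unip_of_cube595 (M : Matrix (Fin 2) (Fin 2) (ZMod 3)) (h : M * M * M = 1) :
    (M - 1) * (M - 1) = 0 := by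
  have heta := Matrix.eta_fin_two M
  rw [heta] at h ⊢
  exact cube_unip595 _ _ _ _ h

/-- **GLUE2, leaf G2b.** -/
theorem surjC595 : Fermat.Agent.LT.H670.SurjC := by
  intro ρ hcont hdet hirr hin
  set rb : Γℚ →* Matrix (Fin 2) (Fin 2) (ZMod 3) :=
    (Units.coeHom (Matrix (Fin 2) (Fin 2) (ZMod 3))).comp ρ with hrbdef
  have hrb : ∀ σ : Γℚ, rb σ = ((ρ σ : GL (Fin 2) (ZMod 3)) : Matrix (Fin 2) (Fin 2) (ZMod 3)) :=
    fun σ => rfl
  have hrb1 : ∀ σ : Γℚ, rb σ = 1 → ρ σ = 1 := by
    intro σ h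
    apply Units.ext
    rw [← hrb, h]
    rfl
  obtain ⟨c, hcc, hc1⟩ := exists_involution_Qbar
  have hdetc : (rb c).det = -1 := by
    have h1 := congrArg (fun u : (ZMod 3)ˣ => (u : ZMod 3)) (hdet c)
    simp only [Matrix.GeneralLinearGroup.val_det_apply] at h1
    rw [hrb, h1, cyclo_involution595 c hcc hc1]
    rfl
  have hirr' : ¬ HasLine rb := by
    rintro ⟨v, hv, hE⟩
    obtain ⟨σ, hσ⟩ := hirr v hv
    obtain ⟨a, ha⟩ := hE σ
    exact hσ a ha
  have hopen : IsOpen ((ρ.ker : Subgroup Γℚ) : Set Γℚ) := by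
    have h1 : IsOpen (ρ ⁻¹' {(1 : GL (Fin 2) (ZMod 3))}) :=
      (isOpen_discrete ({1} : Set (GL (Fin 2) (ZMod 3)))).preimage hcont
    have h2 : ((ρ.ker : Subgroup Γℚ) : Set Γℚ) = ρ ⁻¹' {(1 : GL (Fin 2) (ZMod 3))} := by
      ext σ
      simp [MonoidHom.mem_ker]
    rw [h2]
    exact h1
  have hkey : (∀ γ, (rb γ - 1) * (rb γ - 1) = 0 → rb γ = 1) →
      ∀ G' : Subgroup Γℚ, G'.index = 2 → (∀ τ, rb τ = 1 → τ ∈ G') →
        G' = stabQ (sqrtPstar 3) := by
    intro htriv G' hG' hker'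
    have hopen' : IsOpen (G' : Set GQT) := by
      apply Subgroup.isOpen_mono (H₁ := ρ.ker) _ hopen
      intro σ hσ
      apply hker'
      rw [hrb, (MonoidHom.mem_ker).1 hσ]
      rfl
    apply index_two_eq_stab (by norm_num) G' hG' hopen'
    intro q hq hqp A hA σ hσ
    apply hker'
    apply htriv
    apply unip_of_cube595
    have h3 := congrArg (fun g : GL (Fin 2) (ZMod 3) =>
      (g : Matrix (Fin 2) (Fin 2) (ZMod 3))) (hin q hq hqp A hA σ hσ)
    simp only [Units.val_pow_eq_pow_val, Units.val_one] at h3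
    rw [hrb, ← h3, pow_succ, pow_two]
  have huniq : (∀ γ, (rb γ - 1) * (rb γ - 1) = 0 → rb γ = 1) →
      ∀ G₁ G₂ : Subgroup Γℚ, G₁.index = 2 → G₂.index = 2 →
        (∀ τ, rb τ = 1 → τ ∈ G₁) → (∀ τ, rb τ = 1 → τ ∈ G₂) → G₁ = G₂ := by
    intro htriv G₁ G₂ hG₁ hG₂ hk₁ hk₂
    rw [hkey htriv G₁ hG₁ hk₁, hkey htriv G₂ hG₂ hk₂]
  intro g
  have hg : (g : Matrix (Fin 2) (Fin 2) (ZMod 3)).det ≠ 0 := by
    have hu : IsUnit (g : Matrix (Fin 2) (Fin 2) (ZMod 3)).det :=
      (Matrix.isUnit_iff_isUnit_det _).1 g.isUnit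
    exact hu.ne_zero
  obtain ⟨τ, hτ⟩ := surjective_core595 c hcc hdetc hirr' huniq _ hg
  exact ⟨τ, Units.ext hτ⟩

end Fermat.Agent.LT.H595

end
-- ===== PACK-END LT/H595/SurjC.lean

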