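import Fermat.Prelude.Def_FLTPrelim_Modularity
import Fermat.Agent.Pack.L1.E4L0
import Fermat.Agent.Pack.L1.E2L2
import Fermat.Agent.Pack.S44C.G0E21L2
import Fermat.Agent.Pack.S44C.G0E17L0
import Fermat.Agent.Pack.L1.E4L2
import Fermat.Agent.Pack.S44C.G0E19L2
import Fermat.Agent.Pack.S44C.G0E17L2
import Fermat.Agent.Pack.L1.E4L3
import Fermat.Agent.Pack.L1.E4L1
import Fermat.Agent.Pack.S43MC.G0E20L1
import Fermat.Agent.Pack.S44C.G0E20L3
import Fermat.Agent.Pack.L1.E3L0
import Fermat.Agent.Pack.L1.E2L0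
import Fermat.Agent.Pack.L1.E3L2
import Fermat.Agent.Pack.S44C.G0E10L1
import Fermat.Agent.Pack.S44C.G0E19L1
import Fermat.Agent.Pack.L1.E3L3
import Fermat.Agent.Pack.L1.E3L1
import Fermat.Agent.Pack.L1.E1L2
import Fermat.Agent.Pack.L1.E2L1
import Fermat.Agent.Pack.S44C.G0E21L3

-- ===== PACK-BEGIN S52/B3/H531/B3Goal.lean
section
/-
S52 / piece B3 — `B3Goal` (frozen interface of squad-lead helper60) PROVED, helper531.
Adapter from `Fermat.Agent.S52.H531.exists_irr3` (Hilbert irreducibility by hand).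
-/



set_option autoImplicit false

open Polynomial

namespace Fermat.Agent.S52.B3.H531

theorem homEval_eq_homEval (P : ℤ[X]) (d : ℕ) (M n : ℤ) :
    Fermat.Agent.S52.B3.homEval P d M n = Fermat.Agent.S52.H531.homEval P d M n := rfl

/-- **B3Goal** (frozen statement of `Fermat/Agent/S52/B3/Statement.lean`). -/
theorem b3Goal : Fermat.Agent.S52.B3.B3Goal := by
  intro W hΔ hred C4 C6 h4 h6 hC4 hC6 hno M hM m hm r N0
  have hgen : ∀ P : ℚ[X], Fermat.Agent.S52.H531.psiQ (Fermat.Agent.S52.H531.polyK ℚ C4)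
      (Fermat.Agent.S52.H531.polyK ℚ C6) P ≠ 0 := by
    intro P hP
    apply hno P
    rw [Fermat.Agent.S52.H531.psiQ_eq] at hP
    unfold Fermat.Agent.S52.B3.quartic Fermat.Agent.S52.B3.famA Fermat.Agent.S52.B3.famB
    have e27 : (C (-27 : ℚ) : ℚ[X]) = -27 := by rw [C_neg, map_ofNat]
    have e54 : (C (-54 : ℚ) : ℚ[X]) = -54 := by rw [C_neg, map_ofNat]
    rw [e27, e54]
    unfold Fermat.Agent.S52.H531.polyK at hP
    linear_combination hP
  have hM' : (M : ℤ) ≠ 0 := by exact_mod_cast hM.ne'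
  obtain ⟨k, hk, hirr⟩ := Fermat.Agent.S52.H531.exists_irr3 10 C4 C6 (by simpa using h4)
    (by simpa using h6) W hΔ hred (by rw [← hC4, coeff_zero_eq_eval_zero])
    (by rw [← hC6, coeff_zero_eq_eval_zero]) hgen (M : ℤ) hM' m hm r (N0 + 1)
  have hkn : k ≤ r + m * k := by nlinarith
  refine ⟨r + m * k, by omega, by omega, ?_, fun W' h4' h6' hΔ' => ?_⟩
  · show (r + m * k) % m = r % m
    rw [Nat.add_mul_mod_self_left]
  · apply hirr W' hΔ'
    · rw [h4', homEval_eq_homEval]
    · rw [h6', homEval_eq_homEval]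

end Fermat.Agent.S52.B3.H531

end
-- ===== PACK-END S52/B3/H531/B3Goal.lean

-- ===== PACK-BEGIN S52/B3/H352/FamilyHIT.lean
section




/-!
# S52 / B3 (helper352): `familyHIT : FamilyHIT`

Adapter from the landed pieces
* `Fermat.Agent.S52.B3.H531.b3Goal : B3Goal` (Hilbert irreducibility by hand, helper531),
* `Fermat.Agent.S52.B3.H240.noPolyRoot_fam` (generic irreducibility for the family, helper240)

to the frozen B-level interface `Fermat.Agent.S52.B.FamilyHIT` (helper52).  The only new content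
is the bridge `homEval (famC4 c₄ c₆) 20 M n = C4h c₄ c₆ M n` (and the same for `C6`).
-/

set_option autoImplicit false

open Polynomial

namespace Fermat.Agent.S52.B3.H352

open Fermat.Agent.S52.Fam Fermat.Agent.S52.B Fermat.Agent.S52.B3

theorem eval_C4_poly (a b τ : ℚ) : (C4 (C a) (C b) (X : ℚ[X])).eval τ = C4 a b τ := by
  have h := Fermat.Agent.S52.B.map_C4 (Polynomial.evalRingHom τ) (C a) (C b) (X : ℚ[X])
  simpa using h

theorem eval_C6_poly (a b τ : ℚ) : (C6 (C a) (C b) (X : ℚ[X])).eval τ = C6 a b τ := by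
  have h := Fermat.Agent.S52.B.map_C6 (Polynomial.evalRingHom τ) (C a) (C b) (X : ℚ[X])
  simpa using h

theorem homEval_famC4 (c₄ c₆ M n : ℤ) (hn : n ≠ 0) :
    homEval (H240.famC4 c₄ c₆) 20 M n = C4h c₄ c₆ M n := by
  have hnQ : (n : ℚ) ≠ 0 := by exact_mod_cast hn
  apply Int.cast_injective (α := ℚ)
  rw [H531.homEval_eq_homEval,
    Fermat.Agent.S52.H531.homEval_eq (K := ℚ) _ 20 (H240.natDegree_famC4_le c₄ c₆) M n hnQ,
    H240.famC4_map, eval_C4_poly]
  have e := map_C4h (Int.castRingHom ℚ) c₄ c₆ M n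
  simp only [eq_intCast] at e
  rw [e, C4h_eq_pow_mul _ _ _ hnQ]

theorem homEval_famC6 (c₄ c₆ M n : ℤ) (hn : n ≠ 0) :
    homEval (H240.famC6 c₄ c₆) 30 M n = C6h c₄ c₆ M n := by
  have hnQ : (n : ℚ) ≠ 0 := by exact_mod_cast hn
  apply Int.cast_injective (α := ℚ)
  rw [H531.homEval_eq_homEval,
    Fermat.Agent.S52.H531.homEval_eq (K := ℚ) _ 30 (H240.natDegree_famC6_le c₄ c₆) M n hnQ,
    H240.famC6_map, eval_C6_poly]
  have e := map_C6h (Int.castRingHom ℚ) c₄ c₆ M n
  simp only [eq_intCast] at e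
  rw [e, C6h_eq_pow_mul _ _ _ hnQ]

/-- **Piece B3** in the frozen B-level form. -/
theorem familyHIT : Fermat.Agent.S52.B.FamilyHIT := by
  intro W hΔ _hW h3 M hM
  have hne : W.c₄ ^ 3 ≠ W.c₆ ^ 2 := by
    intro h
    have := W.c_relation
    rw [h, sub_self] at this
    have h0 : W.Δ = 0 := by
      rcases mul_eq_zero.mp this with h' | h'
      · norm_num at h'
      · exact h'
    exact hΔ h0
  have hMpos : 0 < M.toNat := by omega
  have hMcast : ((M.toNat : ℕ) : ℤ) = M := Int.toNat_of_nonneg (by omega)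
  obtain ⟨n, _, hnpos, hnmod, hirr⟩ :=
    H531.b3Goal W hΔ h3 (H240.famC4 W.c₄ W.c₆) (H240.famC6 W.c₄ W.c₆)
      (H240.natDegree_famC4_le _ _) (H240.natDegree_famC6_le _ _)
      (H240.famC4_coeff_zero _ _) (H240.famC6_coeff_zero _ _)
      (H240.noPolyRoot_fam _ _ hne) M.toNat hMpos M.toNat hMpos 1 1
  have hn0 : (n : ℤ) ≠ 0 := by exact_mod_cast hnpos.ne'
  refine ⟨(n : ℤ), ?_, ?_⟩
  · have := (Int.natCast_modEq_iff (a := n) (b := 1) (n := M.toNat)).mpr hnmod
    rw [hMcast] at this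
    simpa using this
  · intro W' hΔ' hc4 hc6
    apply hirr W' _ _ hΔ'
    · rw [hMcast, homEval_famC4 _ _ _ _ hn0]; exact hc4
    · rw [hMcast, homEval_famC6 _ _ _ _ hn0]; exact hc6

end Fermat.Agent.S52.B3.H352

end
-- ===== PACK-END S52/B3/H352/FamilyHIT.lean

-- ===== PACK-BEGIN Lib/X0Branch/H997Branch.lean
section






/-!
# Branch data of `X₀(N) → X(1)` in the Prelude's place language (helper997)

`F = FF N = modularFunctionFieldBar N`, `K = Kbar = ℚ̄`, `j = jF N`.

* `ord_sub_eq_one`      : `F / K(j)` is unramified over every `a ∉ {0, 1728}`;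
* `ord_dvd_three`       : ramification indices over `j = 0` divide `3`;
* `ord_sub_dvd_two`     : ramification indices over `j = 1728` divide `2`;
* `ord_inv_dvd_level`   : ramification indices over `j = ∞` divide `N`;
* `card_places_sub`, `card_places_zero`, `card_places_1728`, `card_places_inf` : the number of
  places over each point (`ψ(N)`, resp. the number of cycles of `ST`, `S`, `T` on
  `SL₂(ℤ)/Γ₀(N)`), with the closed formulas of `Fermat.Agent.S24.Count`;
* `sum_ord_sub`, `sum_ord_inv` : `∑ e_v = ψ(N)`.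
-/

set_option autoImplicit false
set_option linter.style.haveILetI false
set_option linter.unusedSectionVars false

noncomputable section

open AlgebraicCurve ModularCurve IntermediateField
open scoped MatrixGroups

namespace Fermat.Agent.Lib.X0Branch

open Fermat.Agent.S24

/-! ### Generalities on `LocalData` -/

section General

variable {K F : Type*} [Field K] [Field F] [Algebra K F] [CharZero K]
variable {C : Type*} [Field C] {X : Type*} [Finite X]
variable {t : F} (L : LocalData K F C X t)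

/-- If `perm ^ k = 1` then every ramification index over `t = 0` divides `k`. -/
theorem ord_dvd_of_perm_pow (E : IntermediateField K F) (hE : E ≤ K⟮t⟯) [FiniteDimensional E F]
    (hrank : Module.finrank E F = Nat.card X) (k : ℕ) (hk : L.perm ^ k = 1)
    (v : Place K F) (hv : 0 < v.ord t) : v.ord t ∣ (k : ℤ) := by
  obtain ⟨x, rfl⟩ := H117.exists_placeOf_eq L E hE hrank v hv
  exact H117.ord_t_dvd_of_pow_apply_eq L x k (by rw [hk]; rfl)

end General

/-! ### The modular function field -/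

variable (N : ℕ) [NeZero N]

instance finiteDimensional_FF : FiniteDimensional ↥Kbar⟮jF N⟯ (FF N) :=
  (Deg457.degree_fields N).1

theorem finrank_FF : Module.finrank ↥Kbar⟮jF N⟯ (FF N) = Nat.card (XX N) :=
  le_antisymm (Deg457.degree_fields N).2 (H997.analyticCore N).card_le_finrank

theorem finrank_FF_eq_psi : Module.finrank ↥Kbar⟮jF N⟯ (FF N) = dedekindPsi N := by
  rw [finrank_FF, card_XX]

/-- the local data over a finite point -/
def dataFin (a : Kbar) : LocalData Kbar (FF N) ℂ (XX N) (jF N - algebraMap Kbar (FF N) a) :=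
  (H997.analyticCore N).dataFin a

/-- the local data over `∞` -/
def dataInf : LocalData Kbar (FF N) ℂ (XX N) (jF N)⁻¹ :=
  (H997.analyticCore N).dataInf

theorem dataFin_perm_generic (a : Kbar) (h0 : a ≠ 0) (h1 : a ≠ 1728) :
    (dataFin N a).perm = 1 :=
  (H997.analyticCore N).dataFin_perm_generic a h0 h1

theorem dataFin_perm_zero :
    (dataFin N 0).perm = permOf N (ModularGroup.S * ModularGroup.T)⁻¹ := by
  unfold dataFin H997.AnalyticCore.dataFin
  rw [dif_pos rfl]
  rfl

theorem dataFin_perm_1728 : (dataFin N 1728).perm = permOf N ModularGroup.S⁻¹ := by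
  have h0 : (1728 : Kbar) ≠ 0 := by norm_num
  unfold dataFin H997.AnalyticCore.dataFin
  rw [dif_neg h0, dif_pos rfl]
  rfl

theorem dataInf_perm : (dataInf N).perm = permOf N ModularGroup.T⁻¹ := rfl

/-! ### Group theory in `SL₂(ℤ)` -/

theorem permOf_mul (g h : SL(2, ℤ)) : permOf N (g * h) = permOf N g * permOf N h := by
  ext x
  simp [permOf, mul_smul]

theorem permOf_pow (g : SL(2, ℤ)) (k : ℕ) : permOf N (g ^ k) = permOf N g ^ k := by
  induction k with
  | zero => rw [pow_zero, pow_zero]; exact H997.permOf_one N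
  | succ n ih => rw [pow_succ, pow_succ, permOf_mul, ih]

theorem permOf_eq_one_of_normal {g : SL(2, ℤ)}
    (hg : ∀ h : SL(2, ℤ), h⁻¹ * g * h ∈ CongruenceSubgroup.Gamma0 N) : permOf N g = 1 := by
  ext x
  obtain ⟨h, rfl⟩ := QuotientGroup.mk_surjective x
  show ((g * h : SL(2, ℤ)) : XX N) = (h : XX N)
  rw [QuotientGroup.eq]
  have := (CongruenceSubgroup.Gamma0 N).inv_mem (hg h)
  simpa [mul_assoc] using this

theorem neg_one_mem_Gamma0 : (-1 : SL(2, ℤ)) ∈ CongruenceSubgroup.Gamma0 N := by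
  rw [CongruenceSubgroup.Gamma0_mem]
  simp

theorem permOf_neg_one : permOf N (-1) = 1 := by
  apply permOf_eq_one_of_normal
  intro h
  have : h⁻¹ * (-1) * h = -1 := by
    rw [mul_neg, mul_one, neg_mul, inv_mul_cancel]
  rw [this]
  exact neg_one_mem_Gamma0 N

theorem S_sq : ModularGroup.S ^ 2 = (-1 : SL(2, ℤ)) := by
  apply Subtype.ext
  rw [Matrix.SpecialLinearGroup.coe_pow, ModularGroup.coe_S, Matrix.SpecialLinearGroup.coe_neg,
    Matrix.SpecialLinearGroup.coe_one]
  ext i j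
  fin_cases i <;> fin_cases j <;> simp [pow_two, Matrix.mul_apply, Fin.sum_univ_two]

theorem ST_cube : (ModularGroup.S * ModularGroup.T) ^ 3 = (-1 : SL(2, ℤ)) := by
  apply Subtype.ext
  rw [Matrix.SpecialLinearGroup.coe_pow, Matrix.SpecialLinearGroup.coe_mul, ModularGroup.coe_S,
    ModularGroup.coe_T, Matrix.SpecialLinearGroup.coe_neg, Matrix.SpecialLinearGroup.coe_one]
  ext i j
  fin_cases i <;> fin_cases j <;> simp [pow_succ, Matrix.mul_apply, Fin.sum_univ_two]

theorem conj_T_pow_mem_Gamma0 (h : SL(2, ℤ)) :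
    h⁻¹ * ModularGroup.T ^ N * h ∈ CongruenceSubgroup.Gamma0 N := by
  rw [CongruenceSubgroup.Gamma0_mem]
  have hT : ((ModularGroup.T ^ N : SL(2, ℤ)) : Matrix (Fin 2) (Fin 2) ℤ) = !![1, (N : ℤ); 0, 1] := by
    have := ModularGroup.coe_T_zpow (N : ℤ)
    rwa [zpow_natCast] at this
  have key : ((h⁻¹ * ModularGroup.T ^ N * h : SL(2, ℤ)) : Matrix (Fin 2) (Fin 2) ℤ) 1 0
      = -(N : ℤ) * (h.1 1 0) ^ 2 := by
    rw [Matrix.SpecialLinearGroup.coe_mul, Matrix.SpecialLinearGroup.coe_mul, hT,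
      Matrix.SpecialLinearGroup.coe_inv, Matrix.adjugate_fin_two]
    simp [Matrix.mul_apply, Fin.sum_univ_two]
    ring
  rw [key]
  push_cast
  simp

theorem permOf_T_pow : permOf N ModularGroup.T ^ N = 1 := by
  rw [← permOf_pow]
  exact permOf_eq_one_of_normal N (conj_T_pow_mem_Gamma0 N)

theorem permOf_S_sq : permOf N ModularGroup.S ^ 2 = 1 := by
  rw [← permOf_pow, S_sq, permOf_neg_one]

theorem permOf_ST_cube : permOf N (ModularGroup.S * ModularGroup.T) ^ 3 = 1 := by
  rw [← permOf_pow, ST_cube, permOf_neg_one]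

/-! ### Ramification indices -/

theorem le_adjoin_sub (a : Kbar) : Kbar⟮jF N⟯ ≤ Kbar⟮jF N - algebraMap Kbar (FF N) a⟯ :=
  (FF.adjoin_sub_const_eq (jF N) a).ge

theorem le_adjoin_inv : Kbar⟮jF N⟯ ≤ Kbar⟮(jF N)⁻¹⟯ :=
  (FF.adjoin_inv_eq (jF N)).ge

/-- **Unramified outside `{0, 1728, ∞}`.** -/
theorem ord_sub_eq_one (a : Kbar) (h0 : a ≠ 0) (h1 : a ≠ 1728) (v : Place Kbar (FF N))
    (hv : 0 < v.ord (jF N - algebraMap Kbar (FF N) a)) :
    v.ord (jF N - algebraMap Kbar (FF N) a) = 1 := by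
  have h := ord_dvd_of_perm_pow (dataFin N a) Kbar⟮jF N⟯ (le_adjoin_sub N a) (finrank_FF N) 1
    (by rw [dataFin_perm_generic N a h0 h1, one_pow]) v hv
  have h' : v.ord (jF N - algebraMap Kbar (FF N) a) ∣ 1 := by simpa using h
  exact Int.eq_one_of_dvd_one hv.le h'

/-- The ramification indices over `j = 0` divide `3`. -/
theorem ord_dvd_three (v : Place Kbar (FF N)) (hv : 0 < v.ord (jF N)) : v.ord (jF N) ∣ 3 := by
  have hv' : 0 < v.ord (jF N - algebraMap Kbar (FF N) 0) := by rwa [map_zero, sub_zero]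
  have h := ord_dvd_of_perm_pow (dataFin N 0) Kbar⟮jF N⟯ (le_adjoin_sub N 0) (finrank_FF N) 3
    (by rw [dataFin_perm_zero, H997.permOf_inv, inv_pow, permOf_ST_cube, inv_one]) v hv'
  rw [map_zero, sub_zero] at h
  exact_mod_cast h

/-- The ramification indices over `j = 1728` divide `2`. -/
theorem ord_sub_dvd_two (v : Place Kbar (FF N))
    (hv : 0 < v.ord (jF N - algebraMap Kbar (FF N) 1728)) :
    v.ord (jF N - algebraMap Kbar (FF N) 1728) ∣ 2 := by
  have h := ord_dvd_of_perm_pow (dataFin N 1728) Kbar⟮jF N⟯ (le_adjoin_sub N 1728) (finrank_FF N) 2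
    (by rw [dataFin_perm_1728, H997.permOf_inv, inv_pow, permOf_S_sq, inv_one]) v hv
  exact_mod_cast h

/-- The ramification indices over `j = ∞` divide the level `N`. -/
theorem ord_inv_dvd_level (v : Place Kbar (FF N)) (hv : 0 < v.ord (jF N)⁻¹) :
    v.ord (jF N)⁻¹ ∣ (N : ℤ) :=
  ord_dvd_of_perm_pow (dataInf N) Kbar⟮jF N⟯ (le_adjoin_inv N) (finrank_FF N) N
    (by rw [dataInf_perm, H997.permOf_inv, inv_pow, permOf_T_pow, inv_one]) v hv

/-! ### Counting places -/

instance finiteDimensional_sub (a : Kbar) :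
    FiniteDimensional ↥Kbar⟮jF N - algebraMap Kbar (FF N) a⟯ (FF N) :=
  FF.finiteDimensional_adjoin_sub_const (jF N) a

instance finiteDimensional_inv : FiniteDimensional ↥Kbar⟮(jF N)⁻¹⟯ (FF N) :=
  FF.finiteDimensional_adjoin_inv (jF N)

theorem finrank_sub (a : Kbar) :
    Module.finrank ↥Kbar⟮jF N - algebraMap Kbar (FF N) a⟯ (FF N) = Nat.card (XX N) := by
  rw [FF.finrank_adjoin_sub_const, finrank_FF]

theorem finrank_inv : Module.finrank ↥Kbar⟮(jF N)⁻¹⟯ (FF N) = Nat.card (XX N) := by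
  rw [FF.finrank_adjoin_inv, finrank_FF]

/-- The places over `j = a`: finitely many, as many as the cycles of the local monodromy, and
`∑ e_v = ψ(N)`. -/
theorem places_sub (a : Kbar) :
    {v : Place Kbar (FF N) | 0 < v.ord (jF N - algebraMap Kbar (FF N) a)}.Finite ∧
      Nat.card ↥{v : Place Kbar (FF N) | 0 < v.ord (jF N - algebraMap Kbar (FF N) a)}
        = numOrbits (dataFin N a).perm ∧
      ∑ᶠ v ∈ {v : Place Kbar (FF N) | 0 < v.ord (jF N - algebraMap Kbar (FF N) a)},
        v.ord (jF N - algebraMap Kbar (FF N) a) = (dedekindPsi N : ℤ) := by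
  have h := H324.local_count (dataFin N a) (finrank_sub N a)
  rw [card_XX] at h
  exact h

theorem places_inv :
    {v : Place Kbar (FF N) | 0 < v.ord (jF N)⁻¹}.Finite ∧
      Nat.card ↥{v : Place Kbar (FF N) | 0 < v.ord (jF N)⁻¹} = cuspCount N ∧
      ∑ᶠ v ∈ {v : Place Kbar (FF N) | 0 < v.ord (jF N)⁻¹}, v.ord (jF N)⁻¹
        = (dedekindPsi N : ℤ) := by
  have h := H324.local_count (dataInf N) (finrank_inv N)
  have hp : numOrbits (dataInf N).perm = cuspCount N := by
    rw [← numOrbits_T]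
    exact (H997.analyticCore N).dataInf_perm
  rw [card_XX, hp] at h
  exact h

/-- Over `a ∉ {0, 1728}` there are exactly `ψ(N) = [F : K(j)]` places. -/
theorem card_places_sub (a : Kbar) (h0 : a ≠ 0) (h1 : a ≠ 1728) :
    Nat.card ↥{v : Place Kbar (FF N) | 0 < v.ord (jF N - algebraMap Kbar (FF N) a)}
      = dedekindPsi N := by
  classical
  obtain ⟨hfin, -, hsum⟩ := places_sub N a
  rw [finsum_mem_eq_finite_toFinset_sum _ hfin] at hsum
  have h1' : ∀ v ∈ hfin.toFinset, v.ord (jF N - algebraMap Kbar (FF N) a) = 1 := by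
    intro v hv
    exact ord_sub_eq_one N a h0 h1 v ((Set.Finite.mem_toFinset hfin).mp hv)
  rw [Finset.sum_congr rfl h1', Finset.sum_const, nsmul_eq_mul, mul_one] at hsum
  rw [Nat.card_eq_card_finite_toFinset hfin]
  exact_mod_cast hsum

/-- `3 · #{places over j = 0} = ψ(N) + 2 ν₃(N)`. -/
theorem card_places_zero :
    3 * Nat.card ↥{v : Place Kbar (FF N) | 0 < v.ord (jF N)} = dedekindPsi N + 2 * nuThree N := by
  have h := (places_sub N 0).2.1
  simp only [map_zero, sub_zero] at h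
  rw [h]
  have := (H997.analyticCore N).dataFin_zero_perm
  rw [show (dataFin N 0).perm = ((H997.analyticCore N).dataFin 0).perm from rfl, this,
    three_mul_numOrbits_ST]

/-- `2 · #{places over j = 1728} = ψ(N) + ν₂(N)`. -/
theorem card_places_1728 :
    2 * Nat.card ↥{v : Place Kbar (FF N) | 0 < v.ord (jF N - algebraMap Kbar (FF N) 1728)}
      = dedekindPsi N + nuTwo N := by
  rw [(places_sub N 1728).2.1,
    show (dataFin N 1728).perm = ((H997.analyticCore N).dataFin 1728).perm from rfl,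
    (H997.analyticCore N).dataFin_1728_perm, two_mul_numOrbits_S]

end Fermat.Agent.Lib.X0Branch

end
end
-- ===== PACK-END Lib/X0Branch/H997Branch.lean

-- ===== PACK-BEGIN S17/H710/Wall/Defs.lean
section



/-!
# S17 / tower H — the WALL (global route, architect helper710): definitions + FROZEN leaves

Sorry-free (definitions only).  Target of the wall: `HContract.Contract E E d₀` for ONE embedding
`E` with `4 g + 1 ≤ E.m` (`NC` is then trivial), `K` algebraically closed and algebraic over `ℚ`.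
Blueprint: `coord/S17-WALL-helper710.md` (branch `origin/helper710`).

All `def … : Prop` below are FROZEN leaf statements: the owner proves
`theorem xxx : XxxStatement …` in his own file; the assembly takes them as hypotheses.

Everything is phrased with explicit matrices of VALUES

* `betaMat u y s j = ∏ᵢ (uᵢ ∧ y_j)_{sᵢ}`  (value at `y_j` of `β_s = ∏ᵢ secForm (uᵢ) (sᵢ)`),
* `wMat W y (ρ, α) j = ⟨W ρ, y_j⟩ · ∏ₖ (y_j)_{αₖ}`  (value at `y_j` of `w_ρ · X^α`),

and the corresponding single columns `betaCol`, `wCol` (value at one more point) and `betaJet`,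
`wJet` (first order jet at a point `z` in the direction `z'`).
-/

set_option autoImplicit false

noncomputable section

namespace Fermat.Agent.S17.Wall

open AlgebraicCurve MvPolynomial
open Fermat.Agent.Lib.RR Fermat.Agent.S17.HWall Fermat.Agent.S17.H710
open Fermat.Agent.S17.HContract

variable {K F : Type*} [Field K] [Field F] [Algebra K F]

/-! ## Polynomial dictionary -/

/-- the linear form `Σ aᵢ Xᵢ` -/
def linForm {n : ℕ} (a : Fin n → K) : MvPolynomial (Fin n) K := ∑ i, C (a i) * X i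

/-- the secant form `z ↦ (y ∧ z)_p = y_{p.1} z_{p.2} - y_{p.2} z_{p.1}`; it vanishes at `y` -/
def secForm {n : ℕ} (y : Fin n → K) (p : Fin n × Fin n) : MvPolynomial (Fin n) K :=
  C (y p.1) * X p.2 - C (y p.2) * X p.1

/-- a product of secant forms, one for each of the points `y 0, …, y (d-1)` -/
def secProd {n d : ℕ} (y : Fin d → Fin n → K) (s : Fin d → Fin n × Fin n) :
    MvPolynomial (Fin n) K :=
  ∏ i, secForm (y i) (s i)

/-- the ordered monomial `∏ₖ X_{αₖ}` -/
def monoOrd {n e : ℕ} (α : Fin e → Fin n) : MvPolynomial (Fin n) K := ∏ k, X (α k)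

theorem eval_linForm {n : ℕ} (a z : Fin n → K) : eval z (linForm a) = dot a z := by
  simp [linForm, dot, dotProduct]

theorem eval_secForm {n : ℕ} (y z : Fin n → K) (p : Fin n × Fin n) :
    eval z (secForm y p) = wedge y z p := by
  simp [secForm, wedge]

theorem eval_secProd {n d : ℕ} (y : Fin d → Fin n → K) (s : Fin d → Fin n × Fin n)
    (z : Fin n → K) : eval z (secProd y s) = ∏ i, wedge (y i) z (s i) := by
  simp [secProd, eval_secForm]

theorem eval_monoOrd {n e : ℕ} (α : Fin e → Fin n) (z : Fin n → K) :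
    eval z (monoOrd α) = ∏ k, z (α k) := by
  simp [monoOrd]

theorem linForm_isHomogeneous {n : ℕ} (a : Fin n → K) : (linForm a).IsHomogeneous 1 := by
  unfold linForm
  refine IsHomogeneous.sum _ _ _ fun i _ => ?_
  simpa using (isHomogeneous_C (Fin n) (a i)).mul (isHomogeneous_X K i)

theorem secForm_isHomogeneous {n : ℕ} (y : Fin n → K) (p : Fin n × Fin n) :
    (secForm y p).IsHomogeneous 1 := by
  unfold secForm
  refine IsHomogeneous.sub ?_ ?_
  · simpa using (isHomogeneous_C (Fin n) (y p.1)).mul (isHomogeneous_X K p.2)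
  · simpa using (isHomogeneous_C (Fin n) (y p.2)).mul (isHomogeneous_X K p.1)

theorem secProd_isHomogeneous {n d : ℕ} (y : Fin d → Fin n → K) (s : Fin d → Fin n × Fin n) :
    (secProd y s).IsHomogeneous d := by
  unfold secProd
  have := IsHomogeneous.prod (Finset.univ : Finset (Fin d)) (fun i => secForm (y i) (s i))
    (fun _ => 1) (fun i _ => secForm_isHomogeneous (y i) (s i))
  simpa using this

theorem monoOrd_isHomogeneous {n e : ℕ} (α : Fin e → Fin n) :
    (monoOrd (K := K) α).IsHomogeneous e := by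
  unfold monoOrd
  have := IsHomogeneous.prod (Finset.univ : Finset (Fin e))
    (fun k => (X (α k) : MvPolynomial (Fin n) K)) (fun _ => 1) (fun k _ => isHomogeneous_X K (α k))
  simpa using this

/-! ## The matrices of values -/

/-- `betaMat u y s j = ∏ᵢ (uᵢ ∧ y_j)_{sᵢ}` : the value at `y_j` of `β_s = secProd u s`. -/
def betaMat {n d : ℕ} {c : Type*} (u : Fin d → Fin n → K) (y : c → Fin n → K) :
    (Fin d → Fin n × Fin n) → c → K :=
  fun s j => ∏ i, wedge (u i) (y j) (s i)

/-- `betaCol u z s = ∏ᵢ (uᵢ ∧ zᵢ)_{sᵢ}` (one point `zᵢ` per slot; value of `β_s` at `z` if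
`zᵢ = z` for all `i`). -/
def betaCol {n d : ℕ} (u z : Fin d → Fin n → K) : (Fin d → Fin n × Fin n) → K :=
  fun s => ∏ i, wedge (u i) (z i) (s i)

/-- first order jet of `β_s` at `z` in the direction `z'` -/
def betaJet {n d : ℕ} (u : Fin d → Fin n → K) (z z' : Fin n → K) :
    (Fin d → Fin n × Fin n) → K :=
  fun s => ∑ l, wedge (u l) z' (s l) * ∏ i ∈ Finset.univ.erase l, wedge (u i) z (s i)

/-- `wMat W y (ρ, α) j = ⟨W ρ, y_j⟩ ∏ₖ (y_j)_{αₖ}` : the value at `y_j` of `w_ρ · X^α`. -/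
def wMat {n e : ℕ} {ρ c : Type*} (W : ρ → Fin n → K) (y : c → Fin n → K) :
    ρ × (Fin e → Fin n) → c → K :=
  fun t j => dot (W t.1) (y j) * ∏ k, y j (t.2 k)

/-- value of `w_ρ · X^α` at `z` -/
def wCol {n e : ℕ} {ρ : Type*} (W : ρ → Fin n → K) (z : Fin n → K) :
    ρ × (Fin e → Fin n) → K :=
  fun t => dot (W t.1) z * ∏ k, z (t.2 k)

/-- first order jet of `w_ρ · X^α` at `z` in the direction `z'` -/
def wJet {n e : ℕ} {ρ : Type*} (W : ρ → Fin n → K) (z z' : Fin n → K) :
    ρ × (Fin e → Fin n) → K :=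
  fun t => dot (W t.1) z' * ∏ k, z (t.2 k) +
    dot (W t.1) z * ∑ l, z' (t.2 l) * ∏ k ∈ Finset.univ.erase l, z (t.2 k)

/-- the stacked matrix `[U | ψu ; W | ψw]` (columns `c ⊕ Unit`) -/
def stack {σ τ c : Type*} (U : σ → c → K) (ψu : σ → K) (W : τ → c → K) (ψw : τ → K) :
    σ ⊕ τ → c ⊕ Unit → K :=
  Sum.elim (fun s => Sum.elim (U s) fun _ => ψu s) (fun t => Sum.elim (W t) fun _ => ψw t)

/-- the vector of all `κ × κ` minors -/
def minors {σ c : Type*} (κ : ℕ) (U : σ → c → K) : (Fin κ → σ) × (Fin κ → c) → K :=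
  fun p => (Matrix.of fun i j => U (p.1 i) (p.2 j)).det

theorem betaMat_eq_eval {n d : ℕ} {c : Type*} (u : Fin d → Fin n → K) (y : c → Fin n → K)
    (s : Fin d → Fin n × Fin n) (j : c) : betaMat u y s j = eval (y j) (secProd u s) :=
  (eval_secProd u s (y j)).symm

theorem wMat_eq_eval {n e : ℕ} {ρ c : Type*} (W : ρ → Fin n → K) (y : c → Fin n → K)
    (t : ρ × (Fin e → Fin n)) (j : c) :
    wMat W y t j = eval (y j) (linForm (W t.1) * monoOrd t.2) := by
  simp [wMat, eval_linForm, eval_monoOrd]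

/-- functional multihomogeneity of multidegree `(N, …, N)` in `d` blocks of `n` variables -/
def MultiHom {n d : ℕ} (p : MvPolynomial (Fin d × Fin n) K) (N : ℕ) : Prop :=
  ∀ (y : Fin d → Fin n → K) (c : Fin d → K),
    eval (fun q : Fin d × Fin n => c q.1 * y q.1 q.2) p =
      (∏ l, c l ^ N) * eval (fun q : Fin d × Fin n => y q.1 q.2) p

/-! ## A leaves: linear algebra + absolute heights (Mathlib + S17/H380 + S17/H917 only) -/

section A

variable (K) [CharZero K]

/-- **A1 (CRAMER + HEIGHTS).**  If all rows of `[U | ψu ; W | ψw]` lie in a space of dimension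
`≤ κ`, some `κ`-minor of `U` is nonzero and `ψw ≠ 0`, then
`h(κ-minors of U) + h(ψw) ≤ (κ-1) h(U) + h(W) + h(ψu) + C`, `C = C(κ, σ, τ, c)`.
Proof: `H917.cramer_identity_matrix` gives
`det U_{S,T} · ψw t = Σᵢ det (U_{S,T}[row i ← W t ∘ T]) · ψu (S i)`; the LHS vector is a Segre
product (`H380.absLogHeight_fun_mul_eq`), the RHS a fixed multilinear map with integer
coefficients in `(U, …, U, W, ψu)` (`H380.absLogHeight_multilinear_apply_le`). -/
def CramerHeightStatement : Prop :=
  ∀ (κ : ℕ) (σ τ c : Type) [Fintype σ] [Fintype τ] [Fintype c],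
    ∃ C : ℝ, ∀ (U : σ → c → K) (ψu : σ → K) (W : τ → c → K) (ψw : τ → K),
      Module.finrank K (Submodule.span K (Set.range (stack U ψu W ψw))) ≤ κ →
      minors κ U ≠ 0 → ψw ≠ 0 →
      ht (minors κ U) + ht ψw
        ≤ ((κ - 1 : ℕ) : ℝ) * ht (fun q : σ × c => U q.1 q.2)
          + ht (fun q : τ × c => W q.1 q.2) + ht ψu + C

/-- **A2 (MINOR).**  A matrix whose rows span a space of dimension `κ` has a nonzero
`κ × κ` minor. -/
def MinorStatement : Prop :=
  ∀ (σ c : Type) [Finite c] (κ : ℕ) (B : σ → c → K),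
    Module.finrank K (Submodule.span K (Set.range B)) = κ → minors κ B ≠ 0

/-- **A3 (MULTI-SLOT NULLSTELLENSATZ LOWER BOUND, absolute heights).**  `rel` = homogeneous
equations of a cone in `K^n`; `p j` multihomogeneous of multidegree `(N, …, N)` in `d` slots,
without common zero on `(cone ∖ 0)^d`.  Then `N Σ_l h(y_l) ≤ h(p(y)) + C` on `(cone ∖ 0)^d`.
Proof: Nullstellensatz certificate `Σ_j q_{k,j} p_j ≡ ∏_l Y_{l,k_l}^{M+N}` modulo the equations
(multihomogeneous components), all coefficients in ONE number field; Segre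
(`H380.absLogHeight_fun_prod_eq`) + `H380.absLogHeight_eval_ge` at the tensor `⊗ y_l`.
`d = 1`, `rel = ∅` is the plain projective case. -/
def MultislotStatement : Prop :=
  ∀ (n d : ℕ) (ι' : Type) [Fintype ι'] (rel : Set (MvPolynomial (Fin n) K)),
    (∀ G ∈ rel, ∃ e : ℕ, G.IsHomogeneous e) →
    ∀ (p : ι' → MvPolynomial (Fin d × Fin n) K) (N : ℕ), (∀ j, MultiHom (p j) N) →
    (∀ y : Fin d → Fin n → K, (∀ l, y l ≠ 0) → (∀ l, ∀ G ∈ rel, eval (y l) G = 0) →
      ∃ j, eval (fun q : Fin d × Fin n => y q.1 q.2) (p j) ≠ 0) →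
    ∃ C : ℝ, ∀ y : Fin d → Fin n → K, (∀ l, y l ≠ 0) → (∀ l, ∀ G ∈ rel, eval (y l) G = 0) →
      (N : ℝ) * ∑ l, ht (y l) ≤
        ht (fun j => eval (fun q : Fin d × Fin n => y q.1 q.2) (p j)) + C

/-- **A4 (upper bound for `betaMat`).**  `betaMat u y` is multilinear in `u` with coefficients
depending on the FIXED points `y` only (`H380.absLogHeight_multilinear_apply_le`). -/
def HtBetaMatStatement : Prop :=
  ∀ (n d : ℕ) (c : Type) [Fintype c] (y : c → Fin n → K),
    ∃ C : ℝ, ∀ u : Fin d → Fin n → K,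
      ht (fun q : (Fin d → Fin n × Fin n) × c => betaMat u y q.1 q.2) ≤ ∑ i, ht (u i) + C

/-- **A5 (upper bound for `wMat`).**  `wMat W y` is linear in `W`. -/
def HtWMatStatement : Prop :=
  ∀ (n e : ℕ) (ρ c : Type) [Fintype ρ] [Fintype c] (y : c → Fin n → K),
    ∃ C : ℝ, ∀ W : ρ → Fin n → K,
      ht (fun q : (ρ × (Fin e → Fin n)) × c => wMat W y q.1 q.2)
        ≤ ht (fun q : ρ × Fin n => W q.1 q.2) + C

/-- **A6 (Segre, exact).** -/
def HtBetaColStatement : Prop :=
  ∀ (n d : ℕ) (u z : Fin d → Fin n → K), (∀ i, wedge (u i) (z i) ≠ 0) →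
    ht (betaCol u z) = ∑ i, ht (wedge (u i) (z i))

/-- **A7 (Segre, exact).**  `h(v ⊗ z^{⊗e}) = h(v) + e h(z)`. -/
def HtWColStatement : Prop :=
  ∀ (n e : ℕ) (ρ : Type) [Fintype ρ] (v : ρ → K) (z : Fin n → K), v ≠ 0 → z ≠ 0 →
    ht (fun t : ρ × (Fin e → Fin n) => v t.1 * ∏ k, z (t.2 k)) = ht v + (e : ℝ) * ht z

/-- **A8.**  The `κ`-minors of `betaMat · y` as multihomogeneous polynomials in the `d` slots. -/
def MinorPolyBetaStatement : Prop :=
  ∀ (n d : ℕ) (c : Type) [Fintype c] (y : c → Fin n → K) (κ : ℕ),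
    ∃ p : (Fin κ → (Fin d → Fin n × Fin n)) × (Fin κ → c) → MvPolynomial (Fin d × Fin n) K,
      (∀ j, MultiHom (p j) κ) ∧
      ∀ (u : Fin d → Fin n → K) j,
        eval (fun q : Fin d × Fin n => u q.1 q.2) (p j) = minors κ (betaMat u y) j

/-- **A9.**  The `κ`-minors of `wMat (fun _ : Unit => a) y` as homogeneous polynomials in `a`. -/
def MinorPolyAStatement : Prop :=
  ∀ (n e : ℕ) (c : Type) [Fintype c] (y : c → Fin n → K) (κ : ℕ),
    ∃ p : (Fin κ → (Unit × (Fin e → Fin n))) × (Fin κ → c) → MvPolynomial (Fin 1 × Fin n) K,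
      (∀ j, MultiHom (p j) κ) ∧
      ∀ (a : Fin n → K) j,
        eval (fun q : Fin 1 × Fin n => a q.2) (p j) =
          minors κ (wMat (e := e) (fun _ : Unit => a) y) j

/-- **A10 (PLUCKER / LAPLACE).**  `ω = y₀ ∧ … ∧ y_{d-1}`; the coordinates of `ω ∧ z` are linear
forms `W e` in `z`, which vanish at the `yᵢ` and are fixed integer combinations of the
coordinates of `ω` (Laplace expansion along the last row; `h(W) ≤ h(ω) + C` by
`H380.absLogHeight_linearMap_apply_le`). -/
def PluckerStepStatement : Prop :=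
  ∀ (n d : ℕ), ∃ C : ℝ, ∀ (y : Fin d → Fin n → K),
    ∃ W : (Fin (d + 1) ↪ Fin n) → Fin n → K,
      (∀ e i, dot (W e) (y i) = 0) ∧
      (∀ (z : Fin n → K) e, dot (W e) z = plucker (Fin.snoc y z : Fin (d + 1) → Fin n → K) e) ∧
      ht (fun q : (Fin (d + 1) ↪ Fin n) × Fin n => W q.1 q.2) ≤ ht (plucker y) + C

end A

/-! ## G leaves: geometry of the embedded curve (`FF1`, Lib/RR; no heights) -/

section G

variable [FF1 K F]

/-- `κ_k = dim L(k m ∞ - D)` for an effective divisor `D` of degree `k` -/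
def kapN (E : EmbData K F) (k : ℕ) : ℕ := k * E.m - k + 1 - genusR K F

/-- the standing hypothesis of the wall -/
def Big (E : EmbData K F) : Prop := 4 * genusR K F + 1 ≤ E.m

/-- the zero divisor of the section `aeval E.x G` of `O(d m ∞)` (junk `0` if the section is `0`) -/
def zdiv (E : EmbData K F) (d : ℕ) (G : MvPolynomial (Fin (E.r + 1)) K) : Divisor K F :=
  haveI := Classical.propDecidable
  if h : aeval E.x G = 0 then 0 else divOf (aeval E.x G) h + (d * E.m) • prim E.vinf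

/-- **G-PT.**  (1) `pt P ≠ 0`; (2) `pt P` lies on the cone of the relations of `E.x`;
(3) distinct places have non-proportional coordinate vectors; (4) `pt P ∧ tn P ≠ 0`. -/
def PtStatement (E : EmbData K F) : Prop :=
  (∀ P : Place K F, E.pt P ≠ 0) ∧ (∀ P : Place K F, OnCone E.x (E.pt P)) ∧
  (∀ P Q : Place K F, P ≠ Q → wedge (E.pt P) (E.pt Q) ≠ 0) ∧
  (∀ P : Place K F, wedge (E.pt P) (E.tn P) ≠ 0)

/-- **G-CONE (= G1 + glue; core `exists_place_of_onCone` in `S17/H710/ConePoints.lean`).**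
Points of the cone are places. -/
def ConeStatement (E : EmbData K F) : Prop :=
  ∀ y : Fin (E.r + 1) → K, y ≠ 0 → OnCone E.x y →
    ∃ (P : Place K F) (c : K), c ≠ 0 ∧ y = c • E.pt P

/-- **G-ENUM.**  Enumeration of an effective divisor with multiplicities. -/
def EnumStatement (K F : Type*) [Field K] [Field F] [Algebra K F] [FF1 K F] : Prop :=
  ∀ D : Divisor K F, 0 ≤ D → ∀ k : ℕ, Divisor.degree D = k →
    ∃ A : Fin k → Place K F, D = ∑ i, prim (A i)

/-- **G-INF.**  There are infinitely many places. -/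
def InfStatement (K F : Type*) [Field K] [Field F] [Algebra K F] [FF1 K F] : Prop :=
  ∀ L : ℕ, ∃ Q : Fin L → Place K F, Function.Injective Q

/-- **G-INDEP.**  At most `m - 2g + 1` distinct places have linearly independent coordinate
vectors (Riemann–Roch). -/
def IndepStatement (E : EmbData K F) : Prop :=
  ∀ (d : ℕ) (P : Fin d → Place K F), d + 2 * genusR K F ≤ E.m + 1 → Function.Injective P →
    plucker (fun i => E.pt (P i)) ≠ 0

/-- **G-RANK.**  `A : Fin k → Place` arbitrary, `W ρ` linear forms vanishing on `ΣAᵢ`.  For ANY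
finite family `y` of points of the cone and one more point `z` of the cone, the rows `β_s` and
`w_ρ X^α` (`|α| = k - 1`) of the evaluation matrix span a space of dimension `≤ κ_k`
(they are the values of elements of `L(km∞ - ΣAᵢ)`, of dimension `κ_k`, and evaluation at a
point of the cone factors through `F`). -/
def RankStatement (E : EmbData K F) : Prop :=
  ∀ (k : ℕ) (A : Fin k → Place K F) (ρ : Type) [Fintype ρ] (W : ρ → Fin (E.r + 1) → K),
    1 ≤ k → (∀ r, W r ≠ 0 → ∑ l, prim (A l) ≤ E.Z (W r)) →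
    ∀ (c : Type) [Fintype c] (y : c → Fin (E.r + 1) → K) (z : Fin (E.r + 1) → K),
      (∀ j, OnCone E.x (y j)) → OnCone E.x z →
      Module.finrank K (Submodule.span K (Set.range
        (stack (betaMat (fun i => E.pt (A i)) y) (betaCol (fun i => E.pt (A i)) fun _ => z)
          (wMat (e := k - 1) W y) (wCol W z)))) ≤ kapN E k

/-- **G-RANK-JET.**  The same with the extra column replaced by the first order jet at a place
`P` (`jets kill the homogeneous relations of E.x`: the tangent line of the embedded curve). -/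
def RankJetStatement (E : EmbData K F) : Prop :=
  ∀ (k : ℕ) (A : Fin k → Place K F) (ρ : Type) [Fintype ρ] (W : ρ → Fin (E.r + 1) → K),
    1 ≤ k → (∀ r, W r ≠ 0 → ∑ l, prim (A l) ≤ E.Z (W r)) →
    ∀ (c : Type) [Fintype c] (y : c → Fin (E.r + 1) → K) (P : Place K F),
      (∀ j, OnCone E.x (y j)) →
      Module.finrank K (Submodule.span K (Set.range
        (stack (betaMat (fun i => E.pt (A i)) y) (betaJet (fun i => E.pt (A i)) (E.pt P) (E.tn P))
          (wMat (e := k - 1) W y) (wJet W (E.pt P) (E.tn P))))) ≤ kapN E k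

/-- **G-MINOR-β.**  For ANY `L > k m` distinct places `Q_t` and EVERY `k`-tuple `A` of places
(coincidences allowed) the matrix `betaMat (pt ∘ A) (pt ∘ Q)` has rank `κ_k`
(products of secant forms span `L(km∞ - ΣAᵢ)` [bpf pencil trick, `Lib/RR/H259.L_mul_L`];
evaluation at `> km` places is injective on `L(km∞)`). -/
def MinorBetaStatement (E : EmbData K F) : Prop :=
  ∀ (k L : ℕ) (Q : Fin L → Place K F), 1 ≤ k → Function.Injective Q → k * E.m < L →
    ∀ A : Fin k → Place K F,
      Module.finrank K (Submodule.span K (Set.range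
        (betaMat (fun i => E.pt (A i)) fun t => E.pt (Q t)))) = kapN E k

/-- **G-MINOR-a.**  For ANY `L > m²` distinct places `Q_t` and every `a ≠ 0` the matrix of the
rows `a X^α`, `|α| = m - 1`, has rank `κ_m` (projective normality `(V_m)^{m-1} = V_{m(m-1)}` and
`F` is a domain). -/
def MinorAStatement (E : EmbData K F) : Prop :=
  ∀ (L : ℕ) (Q : Fin L → Place K F), Function.Injective Q → E.m * E.m < L →
    ∀ a : Fin (E.r + 1) → K, a ≠ 0 →
      Module.finrank K (Submodule.span K (Set.range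
        (wMat (e := E.m - 1) (fun _ : Unit => a) fun t => E.pt (Q t)))) = kapN E E.m

end G

end Fermat.Agent.S17.Wall

end
end
-- ===== PACK-END S17/H710/Wall/Defs.lean

-- ===== PACK-BEGIN S17/H440/EmbGlue.lean
section






/-!
# S17 / tower H (helper440): glue between `EmbData` and the graded evaluation maps

`E : EmbData K F` is the projective embedding datum of `HWallDefs` (a basis `x` of `L(m ∞)`,
`m ≥ 2g + 1`, and projectively characterised representatives `E.pt P`).  Here the abstract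
representative `E.pt P` is identified with the honest graded values.

* `gpt E P i = gev ∞ P m (x i)`: the graded coordinate vector of the place `P`;
* `dot_gpt`                 : `⟨a, gpt P⟩ = gev (Σ aᵢ xᵢ)`;
* `dot_gpt_eq_zero_iff`     : `⟨a, gpt P⟩ = 0 ↔ 0 < Z_a(P)`;
* `exists_Z_eq_zero`        : no base points, some hyperplane section misses `P`;
* `gpt_ne_zero`, `pt_ne_zero`;
* `ptScale`, `pt_eq_smul_gpt`: `E.pt P = ptScale E P • gpt E P`, `ptScale E P ≠ 0`;
* `eval_pt`                 : `eval (E.pt P) p = ptScale ^ k * gev (k m) (aeval x p)` for `p`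
                              homogeneous of degree `k`;
* `onCone_gpt`, `onCone_pt` : the points of the curve lie on the cone of `x`;
* `exists_pt_of_onCone`     : (G1 for `EmbData`) every nonzero point of the cone is `c • E.pt P`;
* `pt_injective`            : `E.pt P = c • E.pt Q` implies `P = Q`;
* `sub_mem_nonunits_of_pt`  : `x i / x j ≡ pt P i / pt P j mod 𝔪_P` if `pt P j ≠ 0`.
-/

set_option autoImplicit false

noncomputable section

open AlgebraicCurve MvPolynomial

namespace Fermat.Agent.S17.H440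

open Fermat.Agent.Lib.RR Fermat.Agent.S37.H100 Fermat.Agent.S17.HWall

variable {K F : Type*} [Field K] [Field F] [Algebra K F] [FF1 K F]

/-- The basis functions lie in `L(m ∞)`. -/
theorem x_mem (E : EmbData K F) (i : Fin (E.r + 1)) :
    E.x i ∈ riemannRochSpace (E.m • prim E.vinf) := by
  rw [← E.x_span]
  exact Submodule.subset_span ⟨i, rfl⟩

/-- Every element of `L(m ∞)` is a linear form in the basis. -/
theorem exists_lin_eq (E : EmbData K F) {f : F}
    (hf : f ∈ riemannRochSpace (E.m • prim E.vinf)) :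
    ∃ a : Fin (E.r + 1) → K, lin E.x a = f := by
  rw [← E.x_span] at hf
  obtain ⟨a, ha⟩ := (Submodule.mem_span_range_iff_exists_fun K).mp hf
  exact ⟨a, ha⟩

omit [FF1 K F] in
theorem smul_prim_apply (vinf P : Place K F) (m : ℕ) :
    (m • prim vinf : Divisor K F) P = (m : ℤ) * prim vinf P := by
  rw [Finsupp.smul_apply, nsmul_eq_mul]

/-- The graded coordinate vector of a place. -/
def gpt (E : EmbData K F) (P : Place K F) : Fin (E.r + 1) → K :=
  fun i => gev E.vinf P E.m (E.x i)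

theorem dot_gpt (E : EmbData K F) (P : Place K F) (a : Fin (E.r + 1) → K) :
    dot a (gpt E P) = gev E.vinf P E.m (lin E.x a) := by
  unfold lin
  rw [gev_sum E.vinf P Finset.univ _ fun i _ => Submodule.smul_mem _ _ (x_mem E i)]
  show ∑ i, a i * gpt E P i = _
  refine Finset.sum_congr rfl fun i _ => ?_
  rw [gev_smul E.vinf P _ (x_mem E i)]
  rfl

/-- The hyperplanes through the graded point of `P` are the hyperplane sections through `P`. -/
theorem dot_gpt_eq_zero_iff (E : EmbData K F) (P : Place K F) {a : Fin (E.r + 1) → K}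
    (ha : a ≠ 0) : dot a (gpt E P) = 0 ↔ 0 < E.Z a P := by
  rw [dot_gpt, gev_eq_zero_iff E.vinf P (E.lin_mem a) (E.lin_ne_zero ha), E.Z_apply ha P,
    smul_prim_apply]
  constructor <;> intro h <;> linarith

theorem two_genusFF_le (E : EmbData K F) :
    2 * (genusFF K F : ℤ) ≤ Divisor.degree (E.m • prim E.vinf) := by
  rw [genusFF_eq_genusR, map_nsmul]
  unfold prim
  rw [Divisor.degree_single, FF1.deg_eq_one]
  have := E.hm
  simp only [Nat.cast_one, mul_one, nsmul_eq_mul]
  omega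

/-- **No base points**: for every place `P` some hyperplane section does not contain `P`. -/
theorem exists_Z_eq_zero (E : EmbData K F) (P : Place K F) :
    ∃ a : Fin (E.r + 1) → K, a ≠ 0 ∧ E.Z a P = 0 := by
  obtain ⟨f, hf, hf0, hord⟩ := H439.exists_mem_L_ord_eq (two_genusFF_le E) P
  obtain ⟨a, ha⟩ := exists_lin_eq E hf
  have ha0 : a ≠ 0 := by
    rintro rfl
    apply hf0
    rw [← ha]
    simp [lin]
  refine ⟨a, ha0, ?_⟩
  rw [E.Z_apply ha0 P, ha, hord]
  ring

theorem gpt_ne_zero (E : EmbData K F) (P : Place K F) : gpt E P ≠ 0 := by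
  obtain ⟨a, ha0, ha⟩ := exists_Z_eq_zero E P
  intro h
  have h1 : dot a (gpt E P) = 0 := by rw [h]; simp [dot]
  have := (dot_gpt_eq_zero_iff E P ha0).mp h1
  omega

theorem pt_ne_zero (E : EmbData K F) (P : Place K F) : E.pt P ≠ 0 := by
  obtain ⟨a, ha0, ha⟩ := exists_Z_eq_zero E P
  intro h
  have h1 : dot a (E.pt P) = 0 := by rw [h]; simp [dot]
  have h2 : 0 < E.Z a P := (E.pt_spec P a ha0).mp h1
  omega

/-- Two vectors with the same orthogonal hyperplanes are proportional. -/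
theorem exists_smul_eq_of_dot_iff {n : ℕ} {u w : Fin n → K} (hu : u ≠ 0) (hw : w ≠ 0)
    (h : ∀ a : Fin n → K, a ≠ 0 → (dot a u = 0 ↔ dot a w = 0)) :
    ∃ c : K, c ≠ 0 ∧ u = c • w := by
  classical
  obtain ⟨j, hj⟩ : ∃ j, w j ≠ 0 := by
    by_contra hcon
    push Not at hcon
    exact hw (funext hcon)
  have key : ∀ i, w j * u i = w i * u j := by
    intro i
    by_cases hij : i = j
    · subst hij; rfl
    set a : Fin n → K := fun l => if l = i then w j else if l = j then -w i else 0 with ha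
    have ha0 : a ≠ 0 := by
      intro h0
      have := congrFun h0 i
      simp only [ha, if_true, Pi.zero_apply] at this
      exact hj this
    have hdot : ∀ z : Fin n → K, dot a z = w j * z i - w i * z j := by
      intro z
      show ∑ l, a l * z l = _
      rw [Finset.sum_eq_add_of_mem i j (Finset.mem_univ _) (Finset.mem_univ _) hij]
      · simp only [ha, if_true]
        rw [if_neg (Ne.symm hij)]
        ring
      · intro l _ hl
        simp only [ha]
        rw [if_neg hl.1, if_neg hl.2, zero_mul]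
    have h1 : dot a w = 0 := by rw [hdot]; ring
    have h2 := (h a ha0).mpr h1
    rw [hdot] at h2
    linear_combination h2
  have huj : u j ≠ 0 := by
    intro h0
    apply hu
    funext i
    have := key i
    rw [h0, mul_zero] at this
    rcases mul_eq_zero.mp this with h' | h'
    · exact absurd h' hj
    · exact h'
  refine ⟨u j / w j, div_ne_zero huj hj, funext fun i => ?_⟩
  rw [Pi.smul_apply, smul_eq_mul]
  field_simp
  linear_combination key i

theorem exists_pt_eq_smul_gpt (E : EmbData K F) (P : Place K F) :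
    ∃ c : K, c ≠ 0 ∧ E.pt P = c • gpt E P :=
  exists_smul_eq_of_dot_iff (pt_ne_zero E P) (gpt_ne_zero E P) fun a ha =>
    (E.pt_spec P a ha).trans (dot_gpt_eq_zero_iff E P ha).symm

/-- The scalar with `E.pt P = ptScale E P • gpt E P`. -/
def ptScale (E : EmbData K F) (P : Place K F) : K := (exists_pt_eq_smul_gpt E P).choose

theorem ptScale_ne_zero (E : EmbData K F) (P : Place K F) : ptScale E P ≠ 0 :=
  (exists_pt_eq_smul_gpt E P).choose_spec.1

theorem pt_eq_smul_gpt (E : EmbData K F) (P : Place K F) :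
    E.pt P = ptScale E P • gpt E P :=
  (exists_pt_eq_smul_gpt E P).choose_spec.2

theorem pt_apply (E : EmbData K F) (P : Place K F) (i : Fin (E.r + 1)) :
    E.pt P i = ptScale E P * gev E.vinf P E.m (E.x i) := by
  rw [pt_eq_smul_gpt]
  rfl

/-- Homogeneous polynomials at a scaled point. -/
theorem eval_smul_of_isHomogeneous {ι : Type*} {p : MvPolynomial ι K} {k : ℕ}
    (hp : p.IsHomogeneous k) (c : K) (z : ι → K) :
    eval (c • z) p = c ^ k * eval z p := by
  have := aeval_mul_of_isHomogeneous hp z c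
  rw [aeval_eq_eval, aeval_eq_eval] at this
  exact this

/-- **Polynomials at the point of a place**: for `p` homogeneous of degree `k`,
`p (E.pt P) = ptScale ^ k * gev (k m) (p (x))`. -/
theorem eval_pt (E : EmbData K F) (P : Place K F) {p : MvPolynomial (Fin (E.r + 1)) K} {k : ℕ}
    (hp : p.IsHomogeneous k) :
    eval (E.pt P) p = ptScale E P ^ k * gev E.vinf P (k * E.m) (aeval E.x p) := by
  rw [pt_eq_smul_gpt, eval_smul_of_isHomogeneous hp, ← eval_gev E.vinf P (x_mem E) hp]
  rfl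

theorem eval_gpt (E : EmbData K F) (P : Place K F) {p : MvPolynomial (Fin (E.r + 1)) K} {k : ℕ}
    (hp : p.IsHomogeneous k) :
    eval (gpt E P) p = gev E.vinf P (k * E.m) (aeval E.x p) :=
  eval_gev E.vinf P (x_mem E) hp

/-- The graded point of a place lies on the cone. -/
theorem onCone_gpt (E : EmbData K F) (P : Place K F) : OnCone E.x (gpt E P) := by
  intro n p hp hpx
  rw [eval_gpt E P hp, hpx, gev_zero]

/-- The point of a place lies on the cone. -/
theorem onCone_pt (E : EmbData K F) (P : Place K F) : OnCone E.x (E.pt P) := by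
  intro n p hp hpx
  rw [eval_pt E P hp, hpx, gev_zero, mul_zero]

/-- The coordinate functions are congruent to the coordinates of the point:
`x i / x j ≡ pt P i / pt P j  mod 𝔪_P` whenever `pt P j ≠ 0`. -/
theorem sub_mem_nonunits_of_pt (E : EmbData K F) (P : Place K F) {j : Fin (E.r + 1)}
    (hj : E.pt P j ≠ 0) (i : Fin (E.r + 1)) :
    E.x i / E.x j - algebraMap K F (E.pt P i / E.pt P j) ∈ P.toValuationSubring.nonunits := by
  have hc := ptScale_ne_zero E P
  have hgj : gev E.vinf P E.m (E.x j) ≠ 0 := by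
    intro h0
    apply hj
    rw [pt_apply, h0, mul_zero]
  have h := div_sub_mem_nonunits E.vinf P (x_mem E i) (x_mem E j) hgj
  have e : E.pt P i / E.pt P j = gev E.vinf P E.m (E.x i) / gev E.vinf P E.m (E.x j) := by
    rw [pt_apply, pt_apply, mul_div_mul_left _ _ hc]
  rw [e]
  exact h

/-- **G1 for `EmbData`**: every nonzero point of the cone of `x` is the point of a place. -/
theorem exists_pt_of_onCone (E : EmbData K F) {y : Fin (E.r + 1) → K} (hy : OnCone E.x y)
    (hy0 : y ≠ 0) : ∃ (P : Place K F) (c : K), c ≠ 0 ∧ y = c • E.pt P := by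
  obtain ⟨j, hj⟩ : ∃ j, y j ≠ 0 := by
    by_contra hcon
    push Not at hcon
    exact hy0 (funext hcon)
  have hxj : E.x j ≠ 0 := hy.ne_zero hj
  obtain ⟨P, hP⟩ := exists_place_of_onCone hy hj
  have hmem : ∀ i, E.x i / E.x j ∈ P.toValuationSubring := fun i => by
    have := P.toValuationSubring.add_mem _ _ (ValuationSubring.nonunits_le (hP i))
      (P.algebraMap_mem' (y i / y j))
    simpa using this
  have hev : ∀ i, evPlace P (FF1.deg_eq_one P) ⟨_, hmem i⟩ = y i / y j := by
    intro i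
    have h1 : (⟨_, hmem i⟩ : P.toValuationSubring) - algebraMap K P.toValuationSubring (y i / y j)
        ∈ IsLocalRing.maximalIdeal P.toValuationSubring :=
      ValuationSubring.coe_mem_nonunits_iff.mp (hP i)
    rw [← evPlace_eq_zero_iff P (FF1.deg_eq_one P), map_sub, evPlace_algebraMap,
      sub_eq_zero] at h1
    exact h1
  have hg : ∀ i, gpt E P i = y i / y j * gpt E P j := by
    intro i
    show gev E.vinf P E.m (E.x i) = _
    rw [gev_eq_mul_of_div_mem E.vinf P (x_mem E j) hxj (hmem i), hev i]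
    rfl
  have hgj : gpt E P j ≠ 0 := by
    intro h0
    apply gpt_ne_zero E P
    funext i
    rw [hg i, h0, mul_zero]
    rfl
  have hc := ptScale_ne_zero E P
  refine ⟨P, y j / gpt E P j / ptScale E P, div_ne_zero (div_ne_zero hj hgj) hc, ?_⟩
  funext i
  rw [Pi.smul_apply, smul_eq_mul, pt_eq_smul_gpt, Pi.smul_apply, smul_eq_mul, hg i]
  field_simp

/-- **The embedding is injective**: proportional points come from the same place. -/
theorem pt_injective (E : EmbData K F) {P Q : Place K F} {c : K}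
    (h : E.pt P = c • E.pt Q) : P = Q := by
  by_contra hPQ
  -- a hyperplane section through `Q` missing `P`
  have hdeg : 2 * (genusFF K F : ℤ) ≤ Divisor.degree (E.m • prim E.vinf - prim Q) := by
    have h1 := two_genusFF_le E
    rw [genusFF_eq_genusR] at h1 ⊢
    have h2 : Divisor.degree (E.m • prim E.vinf) = E.m := by
      rw [map_nsmul]
      unfold prim
      rw [Divisor.degree_single, FF1.deg_eq_one]
      simp
    rw [map_sub, h2]
    have h3 : Divisor.degree (prim Q) = 1 := by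
      unfold prim
      rw [Divisor.degree_single, FF1.deg_eq_one]
      simp
    rw [h3]
    have := E.hm
    omega
  obtain ⟨f, hf, hf0, hord⟩ := H439.exists_mem_L_ord_eq hdeg P
  have hf' : f ∈ riemannRochSpace (E.m • prim E.vinf) :=
    L_mono (H439.sub_prim_le _ Q) hf
  obtain ⟨a, ha⟩ := exists_lin_eq E hf'
  have ha0 : a ≠ 0 := by
    rintro rfl
    apply hf0
    rw [← ha]
    simp [lin]
  have hZP : E.Z a P = 0 := by
    rw [E.Z_apply ha0 P, ha, hord]
    simp only [Finsupp.coe_sub, Pi.sub_apply]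
    rw [prim_apply_of_ne hPQ]
    ring
  have hZQ : 0 < E.Z a Q := by
    rw [E.Z_apply ha0 Q, ha]
    have := (mem_riemannRochSpace_iff.mp hf Q).resolve_left hf0
    simp only [Finsupp.coe_sub, Pi.sub_apply, prim_apply_self] at this
    omega
  have h1 : dot a (E.pt Q) = 0 := (E.pt_spec Q a ha0).mpr hZQ
  have h2 : dot a (E.pt P) = 0 := by
    rw [h]
    show dotProduct a (c • E.pt Q) = 0
    rw [dotProduct_smul]
    show c • dot a (E.pt Q) = 0
    rw [h1, smul_zero]
  have h3 : 0 < E.Z a P := (E.pt_spec P a ha0).mp h2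
  omega

end Fermat.Agent.S17.H440

end
end
-- ===== PACK-END S17/H440/EmbGlue.lean

-- ===== PACK-BEGIN S17/H710/Wall/Core.lean
section



/-!
# S17 / tower H — the WALL: the two core inequalities (helper710)

`core_up`, `core_low` : assembly of the Cramer/Nullstellensatz argument from the frozen leaves
of `Wall/Defs.lean` (hypotheses).  Sorry-free.
-/

set_option autoImplicit false

noncomputable section

namespace Fermat.Agent.S17.Wall

open AlgebraicCurve MvPolynomial
open Fermat.Agent.Lib.RR Fermat.Agent.S17.HWall Fermat.Agent.S17.H710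
open Fermat.Agent.S17.HContract

variable {K F : Type*} [Field K] [Field F] [Algebra K F]

/-! ## small glue -/

theorem span_range_stack_swap {σ τ c : Type*} (U : σ → c → K) (ψu : σ → K) (W : τ → c → K)
    (ψw : τ → K) :
    Submodule.span K (Set.range (stack U ψu W ψw)) =
      Submodule.span K (Set.range (stack W ψw U ψu)) := by
  unfold stack
  rw [Set.Sum.elim_range, Set.Sum.elim_range, Set.union_comm]

theorem minors_ne_zero_iff {σ c : Type*} (κ : ℕ) (U : σ → c → K) :
    minors κ U ≠ 0 ↔ ∃ j, minors κ U j ≠ 0 := Function.ne_iff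

variable [FF1 K F]

theorem kapN_pos (E : EmbData K F) (hE : Big E) {k : ℕ} (hk : 1 ≤ k) : 1 ≤ kapN E k := by
  unfold kapN
  unfold Big at hE
  have h1 : k * 1 ≤ k * E.m := Nat.mul_le_mul_left k (by omega)
  have h2 : 1 * (E.m - 1) ≤ k * (E.m - 1) := Nat.mul_le_mul_right _ hk
  have h3 : k * (E.m - 1) = k * E.m - k := by
    rw [Nat.mul_sub, mul_one]
  omega

/-- the cone of the relations of `E.x`, as a set of homogeneous equations -/
def relSet (E : EmbData K F) : Set (MvPolynomial (Fin (E.r + 1)) K) :=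
  {G | ∃ e : ℕ, G.IsHomogeneous e ∧ aeval E.x G = 0}

theorem onCone_iff_relSet (E : EmbData K F) (y : Fin (E.r + 1) → K) :
    OnCone E.x y ↔ ∀ G ∈ relSet E, eval y G = 0 := by
  constructor
  · rintro h G ⟨e, hG, h0⟩
    exact h e G hG h0
  · intro h d G hG h0
    exact h G ⟨d, hG, h0⟩

variable [CharZero K]

/-- all leaves used by the assembly of `(E3)`, `(ADJ)`, `(VDM)` -/
structure Leaves (E : EmbData K F) : Prop where
  a1 : CramerHeightStatement K
  a2 : MinorStatement K
  a3 : MultislotStatement K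
  a4 : HtBetaMatStatement K
  a5 : HtWMatStatement K
  a6 : HtBetaColStatement K
  a7 : HtWColStatement K
  a8 : MinorPolyBetaStatement K
  a9 : MinorPolyAStatement K
  a10 : PluckerStepStatement K
  pt : PtStatement E
  cone : ConeStatement E
  enum : EnumStatement K F
  inf : InfStatement K F
  indep : IndepStatement E
  rank : RankStatement E
  rankJet : RankJetStatement E
  minorBeta : MinorBetaStatement E
  minorA : MinorAStatement E

/-- **CORE-UP** (`k` slots, a family `W` of forms).  Rows `β_s`, extra rows `w_ρ X^α`: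
`Σ h(Aᵢ) + h(ψw) ≤ h(W) + h(ψu) + C` for ANY extra column `(ψu, ψw)` satisfying the rank
condition. -/
theorem core_up (E : EmbData K F) (hE : Big E)
    (hL : Leaves E) (k : ℕ) (hk : 1 ≤ k) (ρ : Type) [Fintype ρ] :
    ∃ (C : ℝ) (L : ℕ) (Q : Fin L → Place K F), Function.Injective Q ∧ E.m * E.m < L ∧
      ∀ (A : Fin k → Place K F) (W : ρ → Fin (E.r + 1) → K)
        (ψu : (Fin k → Fin (E.r + 1) × Fin (E.r + 1)) → K)
        (ψw : ρ × (Fin (k - 1) → Fin (E.r + 1)) → K),
        Module.finrank K (Submodule.span K (Set.range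
          (stack (betaMat (fun i => E.pt (A i)) fun t => E.pt (Q t)) ψu
            (wMat W fun t => E.pt (Q t)) ψw))) ≤ kapN E k →
        ψw ≠ 0 →
        ∑ i, ht (E.pt (A i)) + ht ψw ≤
          ht (fun q : ρ × Fin (E.r + 1) => W q.1 q.2) + ht ψu + C := by
  classical
  obtain ⟨L, hLdef⟩ : ∃ L, L = k * E.m + E.m * E.m + 1 := ⟨_, rfl⟩
  obtain ⟨Q, hQ⟩ := hL.inf L
  set y : Fin L → Fin (E.r + 1) → K := fun t => E.pt (Q t) with hy
  set κ := kapN E k with hκ
  have hκ1 : 1 ≤ κ := kapN_pos E hE hk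
  obtain ⟨p, hpM, hpE⟩ := hL.a8 (E.r + 1) k (Fin L) y κ
  -- minors nonzero at places
  have hmin : ∀ A : Fin k → Place K F, minors κ (betaMat (fun i => E.pt (A i)) y) ≠ 0 := by
    intro A
    exact hL.a2 _ _ κ _ (hL.minorBeta k L Q hk hQ (by omega) A)
  -- no common zero
  have h0 : ∀ u : Fin k → Fin (E.r + 1) → K, (∀ l, u l ≠ 0) →
      (∀ l, ∀ G ∈ relSet E, eval (u l) G = 0) →
      ∃ j, eval (fun q : Fin k × Fin (E.r + 1) => u q.1 q.2) (p j) ≠ 0 := by
    intro u hu0 hurel
    have hc : ∀ l, ∃ (P : Place K F) (c : K), c ≠ 0 ∧ u l = c • E.pt P := fun l =>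
      hL.cone (u l) (hu0 l) ((onCone_iff_relSet E (u l)).mpr (hurel l))
    choose A c hc0 huA using hc
    obtain ⟨j, hj⟩ := (minors_ne_zero_iff κ _).mp (hmin A)
    refine ⟨j, ?_⟩
    have : (fun q : Fin k × Fin (E.r + 1) => u q.1 q.2) =
        fun q => c q.1 * E.pt (A q.1) q.2 := by
      funext q; rw [huA q.1]; rfl
    have h2 : eval (fun q : Fin k × Fin (E.r + 1) => E.pt (A q.1) q.2) (p j) =
        minors κ (betaMat (fun i => E.pt (A i)) y) j := hpE (fun i => E.pt (A i)) j
    rw [this, hpM j (fun i => E.pt (A i)) c, h2]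
    exact mul_ne_zero (Finset.prod_ne_zero_iff.mpr fun l _ => pow_ne_zero _ (hc0 l)) hj
  obtain ⟨C₃, hC₃⟩ := hL.a3 (E.r + 1) k _ (relSet E)
    (fun G hG => ⟨hG.choose, hG.choose_spec.1⟩) p κ hpM h0
  obtain ⟨C₁, hC₁⟩ := hL.a1 κ (Fin k → Fin (E.r + 1) × Fin (E.r + 1))
    (ρ × (Fin (k - 1) → Fin (E.r + 1))) (Fin L)
  obtain ⟨C₄, hC₄⟩ := hL.a4 (E.r + 1) k (Fin L) y
  obtain ⟨C₅, hC₅⟩ := hL.a5 (E.r + 1) (k - 1) ρ (Fin L) y
  refine ⟨C₁ + C₃ + C₅ + ((κ - 1 : ℕ) : ℝ) * C₄, L, Q, hQ, by omega, ?_⟩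
  intro A W ψu ψw hrank hψw
  have e1 := hC₁ _ ψu _ ψw hrank (hmin A) hψw
  have e3 := hC₃ (fun i => E.pt (A i)) (fun l => hL.pt.1 (A l))
    (fun l => (onCone_iff_relSet E _).mp (hL.pt.2.1 (A l)))
  have e3' : (fun j => eval (fun q : Fin k × Fin (E.r + 1) => E.pt (A q.1) q.2) (p j)) =
      minors κ (betaMat (fun i => E.pt (A i)) y) :=
    funext fun j => hpE (fun i => E.pt (A i)) j
  rw [e3'] at e3
  have e4 := hC₄ (fun i => E.pt (A i))
  have e5 := hC₅ W
  have e4' := mul_le_mul_of_nonneg_left e4 (Nat.cast_nonneg (α := ℝ) (κ - 1))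
  have hc : ((κ - 1 : ℕ) : ℝ) = (κ : ℝ) - 1 := by
    rw [Nat.cast_sub hκ1]; simp
  rw [hc] at e4' e1 ⊢
  nlinarith [e1, e3, e4', e5]

/-- **CORE-LOW** (`k = m`, one form `a`).  Rows `a X^α`, extra rows `β_s`:
`h(a) + h(ψu) ≤ Σ h(Aᵢ) + h(ψw) + C`. -/
theorem core_low (E : EmbData K F) (hE : Big E) (hL : Leaves E) :
    ∃ (C : ℝ) (L : ℕ) (Q : Fin L → Place K F), Function.Injective Q ∧ E.m * E.m < L ∧
      ∀ (a : Fin (E.r + 1) → K) (A : Fin E.m → Place K F)
        (ψu : (Fin E.m → Fin (E.r + 1) × Fin (E.r + 1)) → K)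
        (ψw : Unit × (Fin (E.m - 1) → Fin (E.r + 1)) → K),
        a ≠ 0 →
        Module.finrank K (Submodule.span K (Set.range
          (stack (betaMat (fun i => E.pt (A i)) fun t => E.pt (Q t)) ψu
            (wMat (fun _ : Unit => a) fun t => E.pt (Q t)) ψw))) ≤ kapN E E.m →
        ψu ≠ 0 →
        ht a + ht ψu ≤ ∑ i, ht (E.pt (A i)) + ht ψw + C := by
  classical
  have hm1 : 1 ≤ E.m := by unfold Big at hE; omega
  obtain ⟨L, hLdef⟩ : ∃ L, L = E.m * E.m + 1 := ⟨_, rfl⟩
  obtain ⟨Q, hQ⟩ := hL.inf L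
  set y : Fin L → Fin (E.r + 1) → K := fun t => E.pt (Q t) with hy
  set κ := kapN E E.m with hκ
  have hκ1 : 1 ≤ κ := kapN_pos E hE hm1
  obtain ⟨p, hpM, hpE⟩ := hL.a9 (E.r + 1) (E.m - 1) (Fin L) y κ
  have hmin : ∀ a : Fin (E.r + 1) → K, a ≠ 0 →
      minors κ (wMat (e := E.m - 1) (fun _ : Unit => a) y) ≠ 0 := by
    intro a ha
    exact hL.a2 _ _ κ _ (hL.minorA L Q hQ (by omega) a ha)
  have hev : ∀ u : Fin 1 → Fin (E.r + 1) → K,
      (fun q : Fin 1 × Fin (E.r + 1) => u q.1 q.2) = fun q => u 0 q.2 := by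
    intro u; funext q; rw [Subsingleton.elim q.1 0]
  have h0 : ∀ u : Fin 1 → Fin (E.r + 1) → K, (∀ l, u l ≠ 0) →
      (∀ l, ∀ G ∈ (∅ : Set (MvPolynomial (Fin (E.r + 1)) K)), eval (u l) G = 0) →
      ∃ j, eval (fun q : Fin 1 × Fin (E.r + 1) => u q.1 q.2) (p j) ≠ 0 := by
    intro u hu0 _
    obtain ⟨j, hj⟩ := (minors_ne_zero_iff κ _).mp (hmin (u 0) (hu0 0))
    refine ⟨j, ?_⟩
    rw [hev u, hpE]
    exact hj
  obtain ⟨C₃, hC₃⟩ := hL.a3 (E.r + 1) 1 _ (∅ : Set (MvPolynomial (Fin (E.r + 1)) K))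
    (fun G hG => absurd hG (Set.notMem_empty G)) p κ hpM h0
  obtain ⟨C₁, hC₁⟩ := hL.a1 κ (Unit × (Fin (E.m - 1) → Fin (E.r + 1)))
    (Fin E.m → Fin (E.r + 1) × Fin (E.r + 1)) (Fin L)
  obtain ⟨C₄, hC₄⟩ := hL.a4 (E.r + 1) E.m (Fin L) y
  obtain ⟨C₅, hC₅⟩ := hL.a5 (E.r + 1) (E.m - 1) Unit (Fin L) y
  refine ⟨C₁ + C₃ + C₄ + ((κ - 1 : ℕ) : ℝ) * C₅, L, Q, hQ, by omega, ?_⟩
  intro a A ψu ψw ha hrank hψu
  rw [span_range_stack_swap] at hrank
  have e1 := hC₁ _ ψw _ ψu hrank (hmin a ha) hψu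
  have e3 := hC₃ (fun _ => a) (fun _ => ha) (fun _ G hG => absurd hG (Set.notMem_empty G))
  have e3' : (fun j => eval (fun q : Fin 1 × Fin (E.r + 1) => a q.2) (p j)) =
      minors κ (wMat (e := E.m - 1) (fun _ : Unit => a) y) :=
    funext fun j => hpE a j
  rw [e3'] at e3
  simp only [Finset.univ_unique, Finset.sum_const, Finset.card_singleton, one_smul] at e3
  have e4 := hC₄ (fun i => E.pt (A i))
  have e5 := hC₅ (fun _ : Unit => a)
  have e5a : ht (fun q : Unit × Fin (E.r + 1) => a q.2) = ht a := by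
    have := Fermat.Agent.S17.H380.absLogHeight_comp_equiv (Equiv.punitProd (Fin (E.r + 1))) a
    simpa [Function.comp_def] using this
  rw [e5a] at e5
  have e5' := mul_le_mul_of_nonneg_left e5 (Nat.cast_nonneg (α := ℝ) (κ - 1))
  have hc : ((κ - 1 : ℕ) : ℝ) = (κ : ℝ) - 1 := by
    rw [Nat.cast_sub hκ1]; simp
  rw [hc] at e5' e1 ⊢
  nlinarith [e1, e3, e4, e5']

end Fermat.Agent.S17.Wall

end
end
-- ===== PACK-END S17/H710/Wall/Core.lean

-- ===== PACK-BEGIN S15/H215/LatticeModular.lean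
section





/-!
# S15, piece MOD-B5 (helper215): lattices of index `p` give points of the plane model of `X₀(p)`

`latticeModularPair : LatticeModularPairStatement` (exact type of `H542/ModBSpec.lean`).

* `exists_tau_h215` : if `Λ' = Λ + ℤ z₀` has index `p` over `Λ`, then `Λ = c (ℤ + ℤ τ)` and
  `Λ' = (c/p) (ℤ + ℤ p τ)` for some `τ ∈ ℍ`, `c ≠ 0`;
* `isModularPair_jFun_h215` : `(j(τ), j(p τ))` satisfies every polynomial relation over `ℚ` between
  the `q`-series `j(q)`, `j(q^p)` (S28 `HasTExp` calculus).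
-/

set_option autoImplicit false

noncomputable section

open UpperHalfPlane ModularForm EisensteinSeries ModularCurve

namespace Fermat.Agent.S15.H215

open Fermat.Agent.S15.H542
open Fermat.Agent.S20.T2h423 (pairOf scalePair)
open Fermat.Agent.S28.H565 (HasTExp hasTExp_jFun)
open Fermat.Agent.S28.H589 (scaleH hasTExp_comp_scaleH)

/-! ## Evaluation of polynomial relations -/

/-- Naturality of `MvPolynomial.aeval` at a pair, for ring homomorphisms of `ℚ`-algebras. -/
theorem aeval_pair_map_h215 {A B : Type*} [CommRing A] [CommRing B] [Algebra ℚ A] [Algebra ℚ B]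
    (f : A →+* B) (a a' : A) (G : MvPolynomial (Fin 2) ℚ) :
    MvPolynomial.aeval ![f a, f a'] G = f (MvPolynomial.aeval ![a, a'] G) := by
  induction G using MvPolynomial.induction_on with
  | C r => simp
  | add p q hp hq => simp only [map_add, hp, hq]
  | mul_X p i hp =>
    simp only [map_mul, hp, MvPolynomial.aeval_X]
    congr 1
    fin_cases i <;> simp

theorem coeffEmb_jq_h215 : coeffEmb ℂ jq = jqModC ℂ := by
  rw [← jqModC_rat]
  exact map_jqModC (algebraMap ℚ ℂ)

theorem coeffEmb_qExpand_h215 (n : ℕ) [NeZero n] (x : LaurentSeries ℚ) :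
    coeffEmb ℂ (qExpand ℚ n x) = qExpand ℂ n (coeffEmb ℂ x) := by
  ext k
  by_cases hk : (n : ℤ) ∣ k
  · obtain ⟨m, rfl⟩ := hk
    rw [coeffEmb_coeff, qExpand_coeff_mul, qExpand_coeff_mul, coeffEmb_coeff]
  · rw [coeffEmb_coeff, qExpand_coeff_of_not_dvd n _ hk, qExpand_coeff_of_not_dvd n _ hk,
      map_zero]

/-- `HasTExp` is compatible with polynomial expressions in two functions. -/
theorem hasTExp_aeval_pair_h215 {a b : ℍ → ℂ} {α β : LaurentSeries ℂ}
    (ha : HasTExp 1 a α) (hb : HasTExp 1 b β) (G : MvPolynomial (Fin 2) ℚ) :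
    HasTExp 1 (fun τ => MvPolynomial.aeval ![a τ, b τ] G) (MvPolynomial.aeval ![α, β] G) := by
  induction G using MvPolynomial.induction_on with
  | C r =>
    have h1 := HasTExp.const (h := 1) (algebraMap ℚ ℂ r)
    have h2 : (MvPolynomial.aeval ![α, β]) (MvPolynomial.C r) = HahnSeries.C (algebraMap ℚ ℂ r) := by
      rw [MvPolynomial.aeval_C, eq_ratCast (algebraMap ℚ (LaurentSeries ℂ)) r,
        eq_ratCast (algebraMap ℚ ℂ) r, map_ratCast]
    rw [h2]
    exact h1.congr fun τ => by simp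
  | add p q hp hq =>
    rw [map_add]
    exact (hp.add hq).congr fun τ => by simp
  | mul_X p i hp =>
    rw [map_mul, MvPolynomial.aeval_X]
    fin_cases i
    · exact (hp.mul ha).congr fun τ => by simp
    · exact (hp.mul hb).congr fun τ => by simp

/-- `(j(τ), j(p τ))` is a point of the plane model of `X₀(p)`. -/
theorem isModularPair_jFun_h215 (p : ℕ) [NeZero p] (hp : 0 < p) (τ : ℍ) :
    IsModularPair p (Fermat.Agent.S28.H565.jFun τ)
      (Fermat.Agent.S28.H565.jFun (scaleH p hp τ)) := by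
  intro G hG
  have h1 : MvPolynomial.aeval ![jqModC ℂ, qExpand ℂ p (jqModC ℂ)] G = 0 := by
    have := aeval_pair_map_h215 (coeffEmb ℂ) jq (qExpand ℚ p jq) G
    rw [hG, map_zero, coeffEmb_qExpand_h215, coeffEmb_jq_h215] at this
    exact this
  have h2 := hasTExp_aeval_pair_h215 hasTExp_jFun
    (hasTExp_comp_scaleH p hp hasTExp_jFun) G
  rw [h1] at h2
  have h3 := h2 τ
  have h4 : HasSum (fun n : ℤ => (0 : LaurentSeries ℂ).coeff n * Function.Periodic.qParam 1 τ ^ n) 0 := by
    simpa using (hasSum_zero : HasSum (fun _ : ℤ => (0 : ℂ)) 0)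
  exact h3.unique h4

/-! ## Aligning the bases -/

/-- Abstract basis alignment: if `p z₀ = a ω₁ + b ω₂` with `(b, p) = 1`, there is `e` with
`ℤω₁ + ℤω₂ = ℤω₁ + ℤe` and `ℤω₁ + ℤω₂ + ℤz₀ = ℤω₁ + ℤ(e/p)`. -/
theorem exists_aligned_basis_h215 (ω₁ ω₂ z₀ : ℂ) (indep : LinearIndependent ℝ ![ω₁, ω₂]) (p : ℕ)
    (hp0 : p ≠ 0) (a b : ℤ) (h : (p : ℂ) * z₀ = a * ω₁ + b * ω₂) (hb : IsCoprime b (p : ℤ)) :
    ∃ e : ℂ, LinearIndependent ℝ ![ω₁, e] ∧
      (∀ z : ℂ, z ∈ Submodule.span ℤ {ω₁, ω₂} ↔ z ∈ Submodule.span ℤ {ω₁, e}) ∧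
      ∀ z : ℂ, (∃ k : ℤ, z - k * z₀ ∈ Submodule.span ℤ {ω₁, ω₂}) ↔
        z ∈ Submodule.span ℤ {ω₁, e / p} := by
  obtain ⟨u, v, huv⟩ := hb
  have huvC : (u : ℂ) * b + v * p = 1 := by exact_mod_cast congrArg (Int.cast : ℤ → ℂ) huv
  have hpC : (p : ℂ) ≠ 0 := by exact_mod_cast hp0
  set e : ℂ := u * a * ω₁ + ω₂ with he
  have hw : e / p = u * z₀ + v * ω₂ := by
    rw [he]
    field_simp
    linear_combination (-(u : ℂ)) * h - ω₂ * huvC
  have hz₀ : z₀ = b * (e / p) + v * a * ω₁ := by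
    rw [hw]
    linear_combination (-z₀) * huvC + (v : ℂ) * h
  refine ⟨e, ?_, ?_, ?_⟩
  · rw [LinearIndependent.pair_iff] at indep ⊢
    intro s t hst
    have h1 : (s + t * (u * a) : ℝ) • ω₁ + t • ω₂ = 0 := by
      simp only [Complex.real_smul] at hst ⊢
      rw [he] at hst
      push_cast
      linear_combination hst
    obtain ⟨h2, h3⟩ := indep _ _ h1
    refine ⟨?_, h3⟩
    rw [h3] at h2
    simpa using h2
  · intro z
    simp only [Submodule.mem_span_pair, zsmul_eq_mul]
    constructor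
    · rintro ⟨m, n, rfl⟩
      exact ⟨m - n * u * a, n, by rw [he]; push_cast; ring⟩
    · rintro ⟨m, n, rfl⟩
      exact ⟨m + n * u * a, n, by rw [he]; push_cast; ring⟩
  · intro z
    simp only [Submodule.mem_span_pair, zsmul_eq_mul]
    constructor
    · rintro ⟨k, m, n, hmn⟩
      refine ⟨k * v * a + m - n * u * a, k * b + n * p, ?_⟩
      have hz : z = k * z₀ + (m * ω₁ + n * ω₂) := by linear_combination -hmn
      have hω₂ : ω₂ = p * (e / p) - u * a * ω₁ := by
        rw [mul_div_cancel₀ _ hpC, he]; ring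
      rw [hz]
      push_cast
      calc (↑k * ↑v * ↑a + ↑m - ↑n * ↑u * ↑a) * ω₁ + (↑k * ↑b + ↑n * ↑p) * (e / p)
          = k * (b * (e / p) + v * a * ω₁) + (m * ω₁ + n * (p * (e / p) - u * a * ω₁)) := by
            ring
        _ = k * z₀ + (m * ω₁ + n * ω₂) := by rw [← hz₀, ← hω₂]
    · rintro ⟨m, n, rfl⟩
      refine ⟨n * u, m, n * v, ?_⟩
      rw [hw]; push_cast; ring

/-- From an aligned basis to `τ`. -/
theorem exists_tau_of_span_h215 (ω e : ℂ) (hind : LinearIndependent ℝ ![ω, e]) (p : ℕ)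
    (hp : 0 < p) :
    ∃ (τ : ℍ) (c : ℂ) (hc : c ≠ 0) (hc' : c / p ≠ 0),
      Submodule.span ℤ {ω, e} = (scalePair c hc (pairOf τ)).lattice ∧
      Submodule.span ℤ {ω, e / p} =
        (scalePair (c / p) hc' (pairOf (scaleH p hp τ))).lattice := by
  have hpC : (p : ℂ) ≠ 0 := by exact_mod_cast hp.ne'
  rw [LinearIndependent.pair_iff] at hind
  have he : e ≠ 0 := by
    intro h
    have := hind 0 1 (by simp [h])
    exact one_ne_zero this.2
  have hep : e / p ≠ 0 := div_ne_zero he hpC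
  have him : (ω / e).im ≠ 0 := by
    intro h
    have ht : ω / e = (((ω / e).re : ℝ) : ℂ) := by
      apply Complex.ext <;> simp [h]
    have h2 : (1 : ℝ) • ω + (-(ω / e).re) • e = 0 := by
      simp only [Complex.real_smul]
      push_cast
      rw [← ht]
      field_simp
      ring
    exact one_ne_zero (hind _ _ h2).1
  have key : ∀ t : ℂ, (t = ω / e ∨ t = -(ω / e)) → ∀ ht : 0 < t.im,
      Submodule.span ℤ {ω, e} = (scalePair e he (pairOf (UpperHalfPlane.mk t ht))).lattice ∧
      Submodule.span ℤ {ω, e / p} =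
        (scalePair (e / p) hep (pairOf (scaleH p hp (UpperHalfPlane.mk t ht)))).lattice := by
    intro t htω ht
    constructor
    · show Submodule.span ℤ {ω, e} = Submodule.span ℤ {e * 1, e * t}
      rw [mul_one]
      ext z
      simp only [Submodule.mem_span_pair, zsmul_eq_mul]
      rcases htω with rfl | rfl
      · have e2 : e * (ω / e) = ω := by field_simp
        rw [e2]
        constructor
        · rintro ⟨a, b, rfl⟩; exact ⟨b, a, by ring⟩
        · rintro ⟨a, b, rfl⟩; exact ⟨b, a, by ring⟩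
      · have e2 : e * (-(ω / e)) = -ω := by field_simp
        rw [e2]
        constructor
        · rintro ⟨a, b, rfl⟩; exact ⟨b, -a, by push_cast; ring⟩
        · rintro ⟨a, b, rfl⟩; exact ⟨-b, a, by push_cast; ring⟩
    · show Submodule.span ℤ {ω, e / p} = Submodule.span ℤ {e / p * 1, e / p * ((p : ℂ) * t)}
      rw [mul_one]
      ext z
      simp only [Submodule.mem_span_pair, zsmul_eq_mul]
      rcases htω with rfl | rfl
      · have e2 : e / p * ((p : ℂ) * (ω / e)) = ω := by field_simp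
        rw [e2]
        constructor
        · rintro ⟨a, b, rfl⟩; exact ⟨b, a, by ring⟩
        · rintro ⟨a, b, rfl⟩; exact ⟨b, a, by ring⟩
      · have e2 : e / p * ((p : ℂ) * (-(ω / e))) = -ω := by field_simp
        rw [e2]
        constructor
        · rintro ⟨a, b, rfl⟩; exact ⟨b, -a, by push_cast; ring⟩
        · rintro ⟨a, b, rfl⟩; exact ⟨-b, a, by push_cast; ring⟩
  rcases lt_or_gt_of_ne him with hneg | hpos
  · have hpos' : 0 < (-(ω / e)).im := by simpa using hneg
    exact ⟨UpperHalfPlane.mk _ hpos', e, he, hep, key _ (Or.inr rfl) hpos'⟩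
  · exact ⟨UpperHalfPlane.mk _ hpos, e, he, hep, key _ (Or.inl rfl) hpos⟩

/-- If `Λ' = Λ + ℤ z₀` has index `p` over `Λ`, then `Λ = c (ℤ + ℤ τ)`, `Λ' = (c/p) (ℤ + ℤ p τ)`. -/
theorem exists_tau_h215 {L L' : PeriodPair} {z₀ : ℂ} {p : ℕ} (hp : p.Prime)
    (h0 : z₀ ∉ L.lattice) (hpz : (p : ℂ) * z₀ ∈ L.lattice) (hL' : IsSuperLattice L L' z₀) :
    ∃ (τ : ℍ) (c : ℂ) (hc : c ≠ 0) (hc' : c / p ≠ 0),
      L.lattice = (scalePair c hc (pairOf τ)).lattice ∧
      L'.lattice = (scalePair (c / p) hc' (pairOf (scaleH p hp.pos τ))).lattice := by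
  obtain ⟨a, b, hab⟩ := PeriodPair.mem_lattice.mp hpz
  have hLspan : L.lattice = Submodule.span ℤ {L.ω₁, L.ω₂} := rfl
  by_cases hb : (p : ℤ) ∣ b
  · have ha : ¬ (p : ℤ) ∣ a := by
      rintro ⟨a', rfl⟩
      obtain ⟨b', rfl⟩ := hb
      apply h0
      rw [PeriodPair.mem_lattice]
      refine ⟨a', b', ?_⟩
      have hpC : (p : ℂ) ≠ 0 := by exact_mod_cast hp.ne_zero
      apply mul_left_cancel₀ hpC
      rw [← hab]; push_cast; ring
    have hcop : IsCoprime a (p : ℤ) :=
      ((Nat.prime_iff_prime_int.mp hp).coprime_iff_not_dvd.mpr ha).symm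
    have hindep : LinearIndependent ℝ ![L.ω₂, L.ω₁] := by
      have h := L.indep
      rw [LinearIndependent.pair_iff] at h ⊢
      intro s t hst
      have := h t s (by rw [← hst]; ring)
      exact ⟨this.2, this.1⟩
    obtain ⟨e, hind, hspan1, hspan2⟩ := exists_aligned_basis_h215 L.ω₂ L.ω₁ z₀ hindep p
      hp.ne_zero b a (by rw [← hab]; ring) hcop
    obtain ⟨τ, c, hc, hc', h1, h2⟩ := exists_tau_of_span_h215 L.ω₂ e hind p hp.pos
    refine ⟨τ, c, hc, hc', ?_, ?_⟩
    · rw [← h1]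
      ext z
      rw [hLspan, Set.pair_comm L.ω₁ L.ω₂]
      exact hspan1 z
    · rw [← h2]
      ext z
      rw [hL' z, ← hspan2 z, hLspan, Set.pair_comm L.ω₁ L.ω₂]
  · have hcop : IsCoprime b (p : ℤ) :=
      ((Nat.prime_iff_prime_int.mp hp).coprime_iff_not_dvd.mpr hb).symm
    obtain ⟨e, hind, hspan1, hspan2⟩ := exists_aligned_basis_h215 L.ω₁ L.ω₂ z₀ L.indep p
      hp.ne_zero a b hab.symm hcop
    obtain ⟨τ, c, hc, hc', h1, h2⟩ := exists_tau_of_span_h215 L.ω₁ e hind p hp.pos
    refine ⟨τ, c, hc, hc', ?_, ?_⟩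
    · rw [← h1]
      ext z
      rw [hLspan]
      exact hspan1 z
    · rw [← h2]
      ext z
      rw [hL' z, ← hspan2 z, hLspan]

/-! ## B5 -/

/-- **B5.**  Lattices of index `p` give points of the plane model of `X₀(p)`. -/
theorem latticeModularPair : LatticeModularPairStatement := by
  intro p _ hp L L' z₀ h0 hpz hL'
  refine ⟨disc_ne_zero_h215 L, disc_ne_zero_h215 L', ?_⟩
  obtain ⟨τ, c, hc, hc', h1, h2⟩ := exists_tau_h215 hp h0 hpz hL'
  have hj1 : latticeJ L = Fermat.Agent.S28.H565.jFun τ := by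
    rw [latticeJ_congr_h215 h1, latticeJ_scalePair_h215, latticeJ_pairOf_h215]
    rfl
  have hj2 : latticeJ L' = Fermat.Agent.S28.H565.jFun (scaleH p hp.pos τ) := by
    rw [latticeJ_congr_h215 h2, latticeJ_scalePair_h215, latticeJ_pairOf_h215]
    rfl
  rw [hj1, hj2]
  exact isModularPair_jFun_h215 p hp.pos τ

end Fermat.Agent.S15.H215

end
end
-- ===== PACK-END S15/H215/LatticeModular.lean

-- ===== PACK-BEGIN S15/H215/ModBFinal.lean
section



/-!
# S15, piece MOD-B (helper215): MOD-B from the uniformisation statement alone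

B0, B0', B2, B4, B5 and the glue are proved in this directory, so the bridge MOD-B is reduced to
the single statement B3 (`UniformizationStatement`).

* `veluModularPairComplex_of_uniformization :
    UniformizationStatement → VeluModularPairComplexStatement`
* `veluModularPair_of_uniformization : UniformizationStatement → VeluModularPairStatement`
-/

set_option autoImplicit false

namespace Fermat.Agent.S15.H215

open Fermat.Agent.S15.H542

/-- **B-ℂ from B3.** -/
theorem veluModularPairComplex_of_uniformization (h3 : UniformizationStatement) :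
    VeluModularPairComplexStatement :=
  veluModularPairComplex_of h3 latticeModularPair

/-- **MOD-B from B3.** -/
theorem veluModularPair_of_uniformization (h3 : UniformizationStatement) :
    VeluModularPairStatement :=
  veluModularPair_of_pieces h3 latticeModularPair

end Fermat.Agent.S15.H215

end
-- ===== PACK-END S15/H215/ModBFinal.lean

-- ===== PACK-BEGIN S15/H542/VeluDisc.lean
section







/-!
# S15, node GEO, piece DISC (helper542): the discriminant of Vélu's curve

`velu_disc : Δ(E/⟨Q⟩) · (∏_{0<k<p} ψ₂(kQ))⁴ = Δ(E)^p`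

for an elliptic curve `E` over `ℚ̄` (Weierstrass model), a point `Q` of odd prime order `p`,
`E/⟨Q⟩ = veluCurve E Q p` (Vélu's model) and `ψ₂(P) = 2y + a₁x + a₃`.

Route: complex uniformisation (helper902) + lattice form of Vélu's formulas (helper215) +
`latDisc_divPair` (helper662) + a re-indexing of the product, then descent from `ℂ` to `ℚ̄`.
-/

set_option autoImplicit false

noncomputable section

open WeierstrassCurve
open scoped WeierstrassCurve.Affine PeriodPair

namespace Fermat.Agent.S15.H542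

open Fermat.Agent.S15.H215 Fermat.Agent.S15.H662

/-! ## (A) the lattice identity -/

section Lattice

/-- `℘'` only depends on the lattice. -/
theorem derivWeierstrassP_congr {L L' : PeriodPair} (h : L.lattice = L'.lattice) (z : ℂ) :
    ℘'[L] z = ℘'[L'] z := by
  unfold PeriodPair.derivWeierstrassP
  have h' : (L.lattice : Set ℂ) = (L'.lattice : Set ℂ) := by rw [h]
  exact congrArg Neg.neg (tsum_congr_set_coe (fun l : ℂ => 2 / (z - l) ^ 3) h')

/-- Re-indexing a product over the nonzero multiples of a `p`-division point. -/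
theorem prod_Ioo_mul_eq (Λ : Submodule ℤ ℂ) (f : ℂ → ℂ)
    (hf : ∀ z : ℂ, ∀ l ∈ Λ, f (z + l) = f z) {p : ℕ} (hp : p.Prime) {z₀ w : ℂ}
    (hpz : (p : ℂ) * z₀ ∈ Λ) (m : ℤ) (hm : ¬ (p : ℤ) ∣ m) (hw : w - m * z₀ ∈ Λ) :
    ∏ k ∈ Finset.Ioo 0 p, f ((k : ℂ) * w) = ∏ k ∈ Finset.Ioo 0 p, f ((k : ℂ) * z₀) := by
  have hp0 : (0 : ℤ) < p := by exact_mod_cast hp.pos
  have hpne : (p : ℤ) ≠ 0 := hp0.ne'
  have hpP : Prime (p : ℤ) := Nat.prime_iff_prime_int.mp hp
  set σ : ℕ → ℕ := fun k => (((k : ℤ) * m) % (p : ℤ)).toNat with hσ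
  have hσcast : ∀ k : ℕ, ((σ k : ℕ) : ℤ) = ((k : ℤ) * m) % (p : ℤ) := fun k =>
    Int.toNat_of_nonneg (Int.emod_nonneg _ hpne)
  have hnd : ∀ k ∈ Finset.Ioo 0 p, ¬ (p : ℤ) ∣ (k : ℤ) * m := by
    intro k hk hd
    rw [Finset.mem_Ioo] at hk
    rcases hpP.dvd_or_dvd hd with h | h
    · have h1 : p ∣ k := by exact_mod_cast h
      have := Nat.le_of_dvd hk.1 h1
      omega
    · exact hm h
  have hmaps : ∀ k ∈ Finset.Ioo 0 p, σ k ∈ Finset.Ioo 0 p := by
    intro k hk
    rw [Finset.mem_Ioo]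
    have h1 : ((σ k : ℕ) : ℤ) < p := by rw [hσcast]; exact Int.emod_lt_of_pos _ hp0
    have h2 : ((σ k : ℕ) : ℤ) ≠ 0 := by
      rw [hσcast]
      intro h0
      exact hnd k hk (Int.dvd_of_emod_eq_zero h0)
    constructor
    · have : σ k ≠ 0 := fun h => h2 (by rw [h]; rfl)
      omega
    · exact_mod_cast h1
  have hinj : Set.InjOn σ (Finset.Ioo 0 p : Set ℕ) := by
    intro k hk k' hk' hkk
    have hk1 := Finset.mem_Ioo.mp (Finset.mem_coe.mp hk)
    have hk2 := Finset.mem_Ioo.mp (Finset.mem_coe.mp hk')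
    have h1 : ((k : ℤ) * m) % (p : ℤ) = ((k' : ℤ) * m) % (p : ℤ) := by
      rw [← hσcast, ← hσcast]
      exact congrArg _ hkk
    have h2 : (p : ℤ) ∣ ((k : ℤ) - k') * m := by
      have := Int.emod_emod_of_dvd ((k : ℤ) * m) (dvd_refl (p : ℤ))
      have h3 : ((k : ℤ) * m - (k' : ℤ) * m) % (p : ℤ) = 0 := by
        rw [Int.sub_emod, h1, sub_self, Int.zero_emod]
      have := Int.dvd_of_emod_eq_zero h3
      rwa [← sub_mul] at this
    have h3 : (p : ℤ) ∣ (k : ℤ) - k' := (hpP.dvd_or_dvd h2).resolve_right hm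
    obtain ⟨t, ht⟩ := h3
    have ht0 : t = 0 := by
      by_contra hne
      have h4 : (1 : ℤ) ≤ |t| := Int.one_le_abs hne
      have h5 : |(k : ℤ) - k'| = (p : ℤ) * |t| := by rw [ht, abs_mul, abs_of_pos hp0]
      have h6 : |(k : ℤ) - k'| < p := by
        rw [abs_lt]
        constructor <;> omega
      nlinarith
    rw [ht0, mul_zero] at ht
    omega
  have hsurj : Set.SurjOn σ (Finset.Ioo 0 p : Set ℕ) (Finset.Ioo 0 p : Set ℕ) :=
    Finset.surjOn_of_injOn_of_card_le σ (fun k hk => hmaps k hk) hinj le_rfl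
  refine Finset.prod_nbij σ hmaps hinj hsurj fun k hk => ?_
  -- `k w = σ k z₀ + (lattice element)`
  have hdiv : ((k : ℤ) * m) = (σ k : ℤ) + (p : ℤ) * (((k : ℤ) * m) / (p : ℤ)) := by
    rw [hσcast]
    exact (Int.emod_add_mul_ediv _ _).symm
  set t : ℤ := ((k : ℤ) * m) / (p : ℤ) with ht
  have hmem : (t : ℂ) * ((p : ℂ) * z₀) + (k : ℂ) * (w - m * z₀) ∈ Λ := by
    refine Λ.add_mem ?_ ?_
    · have := Λ.smul_mem t hpz
      rwa [zsmul_eq_mul] at this
    · have := Λ.smul_mem (k : ℤ) hw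
      rw [zsmul_eq_mul] at this
      simpa using this
  have hC : ((k : ℂ) * (m : ℂ)) = (σ k : ℂ) + (p : ℂ) * (t : ℂ) := by
    have := congrArg (Int.cast : ℤ → ℂ) hdiv
    push_cast at this
    exact this
  have heq : (k : ℂ) * w =
      (σ k : ℂ) * z₀ + ((t : ℂ) * ((p : ℂ) * z₀) + (k : ℂ) * (w - m * z₀)) := by
    linear_combination z₀ * hC
  rw [heq, hf _ _ hmem]

variable {L L' : PeriodPair} {z₀ : ℂ} {p : ℕ}

/-- An aligned period pair: `L₀` with the lattice of `L` such that `divPair L₀ p` has the lattice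
of `L' = L + ℤ z₀`. -/
theorem exists_aligned_pair (hp : p.Prime) (h0 : z₀ ∉ L.lattice)
    (hpz : (p : ℂ) * z₀ ∈ L.lattice) (hL' : IsSuperLattice L L' z₀) :
    ∃ L₀ : PeriodPair, L₀.lattice = L.lattice ∧
      (divPair L₀ p hp.ne_zero).lattice = L'.lattice := by
  obtain ⟨a, b, hab⟩ := PeriodPair.mem_lattice.mp hpz
  have hLspan : L.lattice = Submodule.span ℤ {L.ω₁, L.ω₂} := rfl
  have swap : ∀ {u v : ℂ}, LinearIndependent ℝ ![u, v] → LinearIndependent ℝ ![v, u] := by
    intro u v h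
    rw [LinearIndependent.pair_iff] at h ⊢
    intro s t hst
    have := h t s (by rw [← hst]; ring)
    exact ⟨this.2, this.1⟩
  -- common end of the two cases
  have key : ∀ (ω e : ℂ), LinearIndependent ℝ ![ω, e] →
      (∀ z : ℂ, z ∈ L.lattice ↔ z ∈ Submodule.span ℤ {ω, e}) →
      (∀ z : ℂ, z ∈ L'.lattice ↔ z ∈ Submodule.span ℤ {ω, e / p}) →
      ∃ L₀ : PeriodPair, L₀.lattice = L.lattice ∧
        (divPair L₀ p hp.ne_zero).lattice = L'.lattice := by
    intro ω e hind h1 h2
    refine ⟨⟨e, ω, swap hind⟩, ?_, ?_⟩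
    · ext z
      rw [h1 z]
      show z ∈ Submodule.span ℤ {e, ω} ↔ _
      rw [Set.pair_comm]
    · ext z
      rw [h2 z]
      show z ∈ Submodule.span ℤ {e / (p : ℂ), ω} ↔ _
      rw [Set.pair_comm]
  by_cases hb : (p : ℤ) ∣ b
  · have ha : ¬ (p : ℤ) ∣ a := by
      rintro ⟨a', rfl⟩
      obtain ⟨b', rfl⟩ := hb
      apply h0
      rw [PeriodPair.mem_lattice]
      refine ⟨a', b', ?_⟩
      have hpC : (p : ℂ) ≠ 0 := by exact_mod_cast hp.ne_zero
      apply mul_left_cancel₀ hpC
      rw [← hab]; push_cast; ring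
    have hcop : IsCoprime a (p : ℤ) :=
      ((Nat.prime_iff_prime_int.mp hp).coprime_iff_not_dvd.mpr ha).symm
    obtain ⟨e, hind, hspan1, hspan2⟩ := exists_aligned_basis_h215 L.ω₂ L.ω₁ z₀ (swap L.indep) p
      hp.ne_zero b a (by rw [← hab]; ring) hcop
    refine key L.ω₂ e hind (fun z => ?_) (fun z => ?_)
    · rw [hLspan, Set.pair_comm L.ω₁ L.ω₂]
      exact hspan1 z
    · rw [hL' z, ← hspan2 z, hLspan, Set.pair_comm L.ω₁ L.ω₂]
  · have hcop : IsCoprime b (p : ℤ) :=
      ((Nat.prime_iff_prime_int.mp hp).coprime_iff_not_dvd.mpr hb).symm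
    obtain ⟨e, hind, hspan1, hspan2⟩ := exists_aligned_basis_h215 L.ω₁ L.ω₂ z₀ L.indep p
      hp.ne_zero a b hab.symm hcop
    refine key L.ω₁ e hind (fun z => ?_) (fun z => ?_)
    · rw [hLspan]
      exact hspan1 z
    · rw [hL' z, ← hspan2 z, hLspan]

/-- **The discriminant of `L + ℤ z₀`.** -/
theorem latDisc_superLattice (hp : p.Prime) (hp2 : p ≠ 2) (h0 : z₀ ∉ L.lattice)
    (hpz : (p : ℂ) * z₀ ∈ L.lattice) (hL' : IsSuperLattice L L' z₀) :
    (L'.g₂ ^ 3 - 27 * L'.g₃ ^ 2) * (∏ k ∈ Finset.Ioo 0 p, ℘'[L] ((k : ℂ) * z₀)) ^ 4 =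
      (L.g₂ ^ 3 - 27 * L.g₃ ^ 2) ^ p := by
  obtain ⟨L₀, hL₀, hL₀'⟩ := exists_aligned_pair hp h0 hpz hL'
  have hodd : Odd p := hp.odd_of_ne_two hp2
  have hmain := latDisc_divPair L₀ p hodd hp.ne_zero
  unfold latDisc at hmain
  rw [g₂_congr_h215 hL₀', g₃_congr_h215 hL₀', g₂_congr_h215 hL₀, g₃_congr_h215 hL₀] at hmain
  rw [← hmain]
  congr 2
  -- the two products agree
  rw [derivProd_eq_prod_Ico]
  have hIco : Finset.Ico 1 p = Finset.Ioo 0 p := by
    ext k; simp [Finset.mem_Ico, Finset.mem_Ioo]; omega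
  rw [hIco]
  -- `ω₁(L₀)/p ∈ L'`, so it is `m z₀` modulo `L`
  have hmem : L₀.ω₁ / p ∈ L'.lattice := by
    rw [← hL₀']
    exact div_mem_divPair L₀ p hp.ne_zero
  obtain ⟨m, hm⟩ := (hL' _).mp hmem
  have hnm : ¬ (p : ℤ) ∣ m := by
    intro hd
    have h1 : (m : ℂ) * z₀ ∈ L.lattice := (mul_mem_lattice_iff_h215 hp h0 hpz m).mpr hd
    have h2 : L₀.ω₁ / p ∈ L.lattice := by
      have := L.lattice.add_mem hm h1
      simpa using this
    rw [← hL₀] at h2
    have h3 := natMul_div_notMem L₀ p (k := 1) (by omega) hp.one_lt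
    apply h3
    simpa using h2
  have := prod_Ioo_mul_eq L.lattice (fun z => ℘'[L] z)
    (fun z l hl => L.derivWeierstrassP_add_coe z ⟨l, hl⟩) hp hpz m hnm hm
  beta_reduce at this
  rw [← this]
  refine Finset.prod_congr rfl fun k _ => ?_
  exact (derivWeierstrassP_congr hL₀ _).symm

end Lattice

/-! ## (B) over `ℂ` -/

section Defs

variable {K : Type*} [Field K]

/-- `ψ₂(P) = 2 y + a₁ x + a₃` (junk value `a₃` at the origin). -/
def psiOf (W : WeierstrassCurve K) (P : W.toAffine.Point) : K :=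
  2 * yOf P + W.a₁ * xOf P + W.a₃

/-- `∏_{0 < k < p} ψ₂(k Q)`. -/
def psiProdOf [DecidableEq K] (W : WeierstrassCurve K) (Q : W.toAffine.Point) (p : ℕ) : K :=
  ∏ k ∈ Finset.Ioo 0 p, psiOf W (k • Q)

end Defs

section Complex

/-- **The discriminant of Vélu's curve**, over `ℂ`. -/
theorem velu_disc_complex [DecidableEq ℂ] {p : ℕ} (hp : p.Prime) (hp2 : p ≠ 2)
    (E : WeierstrassCurve ℂ) (hΔ : E.Δ ≠ 0) (Q : E.toAffine.Point) (hQord : addOrderOf Q = p) :
    (veluCurve E Q p).Δ * psiProdOf E Q p ^ 4 = E.Δ ^ p := by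
  obtain ⟨U⟩ := Fermat.Agent.S15.H902.uniformization E hΔ
  obtain ⟨z₀, rfl⟩ := U.φ_surjective Q
  have h0 : z₀ ∉ U.L.lattice := by
    intro hz
    have : U.φ z₀ = 0 := (U.φ_eq_zero_iff z₀).mpr hz
    rw [this, addOrderOf_zero] at hQord
    exact hp.one_lt.ne hQord
  have hpz : (p : ℂ) * z₀ ∈ U.L.lattice := by
    rw [← U.φ_eq_zero_iff]
    have h1 : U.φ ((p : ℂ) * z₀) = p • U.φ z₀ := by
      rw [← nsmul_eq_mul, map_nsmul]
    rw [h1, ← hQord]
    exact addOrderOf_nsmul_eq_zero _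
  obtain ⟨L', hL'⟩ := exists_superLattice_h215 U.L hp h0 hpz
  have hg2 := g₂_superLattice_h215 hp h0 hpz hL'
  have hg3 := g₃_superLattice_h215 hp h0 hpz hL'
  obtain ⟨m, hm⟩ : ∃ m, p = 2 * m + 1 := by
    rcases hp.eq_two_or_odd' with h | h
    · exact absurd h hp2
    · exact h
  have hm2 : (p - 1) / 2 = m := by omega
  have hm1 : p - 1 = 2 * m := by omega
  have hx : ∀ k ∈ Finset.Icc 1 m,
      xOf (k • U.φ z₀) = U.L.weierstrassP ((k : ℂ) * z₀) - E.b₂ / 12 := by
    intro k hk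
    have hk' : k ∈ Finset.Icc 1 (p - 1) := by
      rw [Finset.mem_Icc] at hk ⊢; omega
    have hnot := natCast_mul_notMem_h215 hp h0 hpz hk'
    have h1 : k • U.φ z₀ = U.φ ((k : ℂ) * z₀) := by
      rw [← nsmul_eq_mul, map_nsmul]
    rw [h1, U.xOf_φ _ hnot]
  have hfold2 : ∑ k ∈ Finset.Icc 1 (p - 1),
      (6 * U.L.weierstrassP (k * z₀) ^ 2 - U.L.g₂ / 2) =
      2 * ∑ k ∈ Finset.Icc 1 m, (6 * U.L.weierstrassP (k * z₀) ^ 2 - U.L.g₂ / 2) := by
    rw [hm1]
    refine sum_Icc_fold_h215 m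
      (fun k => 6 * U.L.weierstrassP ((k : ℂ) * z₀) ^ 2 - U.L.g₂ / 2) fun k hk => ?_
    have hkp : k ≤ p := by rw [Finset.mem_Icc] at hk; omega
    have := weierstrassP_reflect_h215 U.L hpz hkp
    rw [hm] at this
    simp only [this]
  have hfold3 : ∑ k ∈ Finset.Icc 1 (p - 1),
      (120 * U.L.weierstrassP (k * z₀) ^ 3 - 18 * U.L.g₂ * U.L.weierstrassP (k * z₀) -
        12 * U.L.g₃) =
      2 * ∑ k ∈ Finset.Icc 1 m,
        (120 * U.L.weierstrassP (k * z₀) ^ 3 - 18 * U.L.g₂ * U.L.weierstrassP (k * z₀) -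
          12 * U.L.g₃) := by
    rw [hm1]
    refine sum_Icc_fold_h215 m
      (fun k => 120 * U.L.weierstrassP ((k : ℂ) * z₀) ^ 3 -
        18 * U.L.g₂ * U.L.weierstrassP ((k : ℂ) * z₀) - 12 * U.L.g₃) fun k hk => ?_
    have hkp : k ≤ p := by rw [Finset.mem_Icc] at hk; omega
    have := weierstrassP_reflect_h215 U.L hpz hkp
    rw [hm] at this
    simp only [this]
  have hT : veluT E (U.φ z₀) p =
      ∑ k ∈ Finset.Icc 1 m, (6 * U.L.weierstrassP (k * z₀) ^ 2 - U.L.g₂ / 2) := by
    unfold veluT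
    rw [hm2]
    refine Finset.sum_congr rfl fun k hk => ?_
    rw [hx k hk, U.g₂_eq]
    simp only [veluT1, WeierstrassCurve.c₄]
    ring
  have hW : E.b₂ * veluT E (U.φ z₀) p + 12 * veluW E (U.φ z₀) p =
      ∑ k ∈ Finset.Icc 1 m,
        (120 * U.L.weierstrassP (k * z₀) ^ 3 - 18 * U.L.g₂ * U.L.weierstrassP (k * z₀) -
          12 * U.L.g₃) := by
    unfold veluT veluW
    rw [hm2, Finset.mul_sum, Finset.mul_sum, ← Finset.sum_add_distrib]
    refine Finset.sum_congr rfl fun k hk => ?_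
    rw [hx k hk, U.g₂_eq, U.g₃_eq]
    simp only [veluT1, veluU1, WeierstrassCurve.c₄, WeierstrassCurve.c₆]
    ring
  have hc4 : (veluCurve E (U.φ z₀) p).c₄ = 12 * L'.g₂ := by
    rw [hg2, hfold2, ← hT, U.g₂_eq]
    simp only [veluCurve, WeierstrassCurve.c₄, WeierstrassCurve.b₂, WeierstrassCurve.b₄]
    ring
  have hc6 : (veluCurve E (U.φ z₀) p).c₆ = 216 * L'.g₃ := by
    rw [hg3, hfold3, ← hW, U.g₃_eq]
    simp only [veluCurve, WeierstrassCurve.c₆, WeierstrassCurve.b₂, WeierstrassCurve.b₄,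
      WeierstrassCurve.b₆]
    ring
  have hΔ' : (veluCurve E (U.φ z₀) p).Δ = L'.g₂ ^ 3 - 27 * L'.g₃ ^ 2 := by
    have := (veluCurve E (U.φ z₀) p).c_relation
    rw [hc4, hc6] at this
    linear_combination (1 / 1728 : ℂ) * this
  have hΔE : E.Δ = U.L.g₂ ^ 3 - 27 * U.L.g₃ ^ 2 := by
    have := E.c_relation
    rw [U.g₂_eq, U.g₃_eq]
    linear_combination (1 / 1728 : ℂ) * this
  -- the product of the `ψ₂`
  have hψ : psiProdOf E (U.φ z₀) p = ∏ k ∈ Finset.Ioo 0 p, ℘'[U.L] ((k : ℂ) * z₀) := by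
    unfold psiProdOf
    refine Finset.prod_congr rfl fun k hk => ?_
    have hk' : k ∈ Finset.Icc 1 (p - 1) := by
      rw [Finset.mem_Ioo] at hk; rw [Finset.mem_Icc]; omega
    have hnot := natCast_mul_notMem_h215 hp h0 hpz hk'
    have h1 : k • U.φ z₀ = U.φ ((k : ℂ) * z₀) := by
      rw [← nsmul_eq_mul, map_nsmul]
    rw [h1, psiOf, U.yOf_φ _ hnot]
  rw [hΔ', hΔE, hψ]
  exact latDisc_superLattice hp hp2 h0 hpz hL'

end Complex

/-! ## (C) descent to `ℚ̄` -/

section Descent

variable {K L : Type} [Field K] [Field L] [DecidableEq K] [DecidableEq L] [Algebra K L]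

theorem psiOf_map (W : WeierstrassCurve K) (P : W.toAffine.Point) :
    psiOf (W⁄L) (WeierstrassCurve.Affine.Point.map (W' := W) (Algebra.ofId K L) P) =
      algebraMap K L (psiOf W P) := by
  unfold psiOf
  rw [xOf_map_h215, yOf_map_h215]
  simp [WeierstrassCurve.baseChange, map_ofNat]

theorem psiProdOf_map (W : WeierstrassCurve K) (Q : W.toAffine.Point) (p : ℕ) :
    psiProdOf (W⁄L) (WeierstrassCurve.Affine.Point.map (W' := W) (Algebra.ofId K L) Q) p =
      algebraMap K L (psiProdOf W Q p) := by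
  unfold psiProdOf
  rw [map_prod]
  refine Finset.prod_congr rfl fun k _ => ?_
  rw [nsmul_map_h215, psiOf_map]

/-- **The discriminant of Vélu's curve**, over `ℚ̄`. -/
theorem velu_disc [DecidableEq (AlgebraicClosure ℚ)] {p : ℕ} (hp : p.Prime) (hp2 : p ≠ 2)
    (E : WeierstrassCurve (AlgebraicClosure ℚ)) (hΔ : E.Δ ≠ 0) (Q : E.toAffine.Point)
    (hQord : addOrderOf Q = p) :
    (veluCurve E Q p).Δ * psiProdOf E Q p ^ 4 = E.Δ ^ p := by
  classical
  haveI : Algebra.IsAlgebraic ℚ (AlgebraicClosure ℚ) := AlgebraicClosure.isAlgebraic ℚ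
  let ι : AlgebraicClosure ℚ →ₐ[ℚ] ℂ := IsAlgClosed.lift
  letI : Algebra (AlgebraicClosure ℚ) ℂ := ι.toRingHom.toAlgebra
  have hmap := veluMap (K := AlgebraicClosure ℚ) (L := ℂ) E Q p
  have hord : addOrderOf
      (WeierstrassCurve.Affine.Point.map (W' := E) (Algebra.ofId (AlgebraicClosure ℚ) ℂ) Q) = p := by
    rw [← hQord]
    exact addOrderOf_injective
      (WeierstrassCurve.Affine.Point.map (W' := E) (Algebra.ofId (AlgebraicClosure ℚ) ℂ))
      (WeierstrassCurve.Affine.Point.map_injective _) Q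
  have hinj : Function.Injective (algebraMap (AlgebraicClosure ℚ) ℂ) :=
    (algebraMap (AlgebraicClosure ℚ) ℂ).injective
  have hΔ' : (E⁄ℂ).Δ ≠ 0 := by
    show (E.map (algebraMap (AlgebraicClosure ℚ) ℂ)).Δ ≠ 0
    rw [WeierstrassCurve.map_Δ]
    exact (map_ne_zero_iff _ hinj).mpr hΔ
  have h := velu_disc_complex hp hp2 (E⁄ℂ) hΔ' _ hord
  rw [hmap, psiProdOf_map, WeierstrassCurve.map_Δ] at h
  have hE : (E⁄ℂ).Δ = algebraMap (AlgebraicClosure ℚ) ℂ E.Δ := by
    show (E.map (algebraMap (AlgebraicClosure ℚ) ℂ)).Δ = _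
    rw [WeierstrassCurve.map_Δ]
  rw [hE, ← map_pow, ← map_pow, ← map_mul] at h
  exact hinj h

end Descent

end Fermat.Agent.S15.H542

end
end
-- ===== PACK-END S15/H542/VeluDisc.lean

-- ===== PACK-BEGIN G1/H3/NoFix/Val.lean
section




/-!
# GLUE / Part T (helper3): `NoFix3` from the model — common tools

`Fermat.Agent.Glue.NoFix3 W` says that no nonzero point of `W[3](ℚ̄)` is fixed by an inertia group
at `3`.  This file collects what the two local criteria (`SS.lean`, `Ord.lean`) share: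

* `val_int_le_one`, `val_three_lt_one`, `val_int_eq_one`, `val_int_le_three`, `val_int_eq_three` :
  the valuation of a valuation subring of `ℚ̄` over `3` on rational integers;
* `val_eq_zpow_of_fixed` : an inertia-fixed nonzero element has the valuation of a power of `3`
  (the inertia field is unramified; `A2.IF.H429.exists_zpow_of_mem_inertiaField`);
* `zpow_three_ne` : `v(3) ^ m = 1` forces `m = 0`;
* `exists_fixed_point` : a nonzero inertia-fixed point of `W[3]` is an affine point `(X, Y)` with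
  `X`, `Y` inertia-fixed, on the curve, and `ψ₃(X) = 0`.
-/

set_option autoImplicit false

open WeierstrassCurve WeierstrassCurve.Affine WeierstrassCurve.Affine.Point

namespace Fermat.Agent.G1.H3

/-- `ℚ̄` (local abbreviation). -/
local notation "Qb" => AlgebraicClosure ℚ

variable (A : ValuationSubring Qb)

/-! ## Valuations of rational integers -/

theorem val_int_le_one (n : ℤ) : A.valuation (n : Qb) ≤ 1 :=
  (A.valuation_le_one_iff _).mpr (intCast_mem A n)

theorem val_three_lt_one (hA : A.LiesOverPrime 3) : A.valuation (3 : Qb) < 1 := by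
  have h : ((3 : ℕ) : Qb) ∈ A.nonunits := hA
  rw [ValuationSubring.mem_nonunits_iff] at h
  simpa using h

theorem val_three_ne_zero : A.valuation (3 : Qb) ≠ 0 := by
  rw [Ne, Valuation.zero_iff]
  norm_num

theorem val_three_pos : 0 < A.valuation (3 : Qb) :=
  lt_of_le_of_ne zero_le (val_three_ne_zero A).symm

/-- A rational integer prime to `3` is a unit. -/
theorem val_int_eq_one (hA : A.LiesOverPrime 3) (n : ℤ) (hn : ¬ (3 : ℤ) ∣ n) :
    A.valuation (n : Qb) = 1 := by
  refine le_antisymm (val_int_le_one A n) ?_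
  by_contra hlt
  rw [not_le] at hlt
  have hcop : IsCoprime (3 : ℤ) n :=
    (Int.prime_three.coprime_iff_not_dvd).mpr hn
  obtain ⟨a, b, hab⟩ := hcop
  have hab' : (a : Qb) * 3 + (b : Qb) * (n : Qb) = 1 := by exact_mod_cast congrArg (Int.cast : ℤ → Qb) hab
  have h1 : A.valuation ((a : Qb) * 3) < 1 := by
    rw [map_mul]
    calc A.valuation (a : Qb) * A.valuation (3 : Qb) ≤ 1 * A.valuation (3 : Qb) :=
          mul_le_mul_left (val_int_le_one A a) _
      _ < 1 := by rw [one_mul]; exact val_three_lt_one A hA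
  have h2 : A.valuation ((b : Qb) * (n : Qb)) < 1 := by
    rw [map_mul]
    calc A.valuation (b : Qb) * A.valuation (n : Qb) ≤ 1 * A.valuation (n : Qb) :=
          mul_le_mul_left (val_int_le_one A b) _
      _ < 1 := by rw [one_mul]; exact hlt
  have h3 := Valuation.map_add_lt A.valuation h1 h2
  rw [hab', map_one] at h3
  exact lt_irrefl _ h3

/-- A rational integer divisible by `3` has valuation at most `v(3)`. -/
theorem val_int_le_three (n : ℤ) (hn : (3 : ℤ) ∣ n) :
    A.valuation (n : Qb) ≤ A.valuation (3 : Qb) := by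
  obtain ⟨m, rfl⟩ := hn
  have : (((3 * m : ℤ)) : Qb) = 3 * (m : Qb) := by push_cast; ring
  rw [this, map_mul]
  calc A.valuation (3 : Qb) * A.valuation (m : Qb) ≤ A.valuation (3 : Qb) * 1 :=
        mul_le_mul_right (val_int_le_one A m) _
    _ = A.valuation (3 : Qb) := mul_one _

/-- A rational integer exactly divisible by `3` has valuation `v(3)`. -/
theorem val_int_eq_three (hA : A.LiesOverPrime 3) (n : ℤ) (hn : (3 : ℤ) ∣ n)
    (hn9 : ¬ (9 : ℤ) ∣ n) : A.valuation (n : Qb) = A.valuation (3 : Qb) := by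
  obtain ⟨m, rfl⟩ := hn
  have hm : ¬ (3 : ℤ) ∣ m := by
    rintro ⟨k, rfl⟩
    exact hn9 ⟨k, by ring⟩
  have : (((3 * m : ℤ)) : Qb) = 3 * (m : Qb) := by push_cast; ring
  rw [this, map_mul, val_int_eq_one A hA m hm, mul_one]

/-! ## The inertia field is unramified -/

/-- An inertia-fixed nonzero element of `ℚ̄` has the valuation of an integral power of `3`. -/
theorem val_eq_zpow_of_fixed (hA : A.LiesOverPrime 3) (y : Qb) (hy0 : y ≠ 0)
    (hy : ∀ σ ∈ A.inertiaSubgroupIn ℚ, σ y = y) :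
    ∃ n : ℤ, A.valuation y = A.valuation (3 : Qb) ^ n := by
  obtain ⟨k, hk⟩ := Fermat.Agent.A2.IF.H429.exists_zpow_of_mem_inertiaField A 3 Nat.prime_three hA
    y ((Fermat.Agent.A2.IF.H429.mem_inertiaField_iff A).mpr hy) hy0
  refine ⟨k, ?_⟩
  have h3 : A.valuation (((3 : ℕ) : Qb) ^ k) ≠ 0 := by
    rw [Ne, Valuation.zero_iff]
    exact zpow_ne_zero _ (by norm_num)
  rw [map_div₀, div_eq_one_iff_eq h3, map_zpow₀] at hk
  simpa using hk

/-- `v(3)` is not a root of unity in the value group. -/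
theorem zpow_three_eq_one (hA : A.LiesOverPrime 3) {m : ℤ}
    (h : A.valuation (3 : Qb) ^ m = 1) : m = 0 :=
  (zpow_eq_one_iff_right₀ zero_le (val_three_lt_one A hA).ne).mp h

/-! ## Inertia-fixed points of order `3` -/

/-- The coefficients of the base change to `ℚ̄` of an integral model. -/
theorem baseChange_coeffs (W : WeierstrassCurve ℤ) :
    ((W.map (Int.castRingHom ℚ))⁄Qb).a₁ = (W.a₁ : Qb) ∧
    ((W.map (Int.castRingHom ℚ))⁄Qb).a₂ = (W.a₂ : Qb) ∧
    ((W.map (Int.castRingHom ℚ))⁄Qb).a₃ = (W.a₃ : Qb) ∧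
    ((W.map (Int.castRingHom ℚ))⁄Qb).a₄ = (W.a₄ : Qb) ∧
    ((W.map (Int.castRingHom ℚ))⁄Qb).a₆ = (W.a₆ : Qb) := by
  simp [WeierstrassCurve.baseChange, WeierstrassCurve.map]

/-- The `b`-invariants of the base change to `ℚ̄` of an integral model. -/
theorem baseChange_bs (W : WeierstrassCurve ℤ) :
    ((W.map (Int.castRingHom ℚ))⁄Qb).b₂ = (W.b₂ : Qb) ∧
    ((W.map (Int.castRingHom ℚ))⁄Qb).b₄ = (W.b₄ : Qb) ∧
    ((W.map (Int.castRingHom ℚ))⁄Qb).b₆ = (W.b₆ : Qb) ∧
    ((W.map (Int.castRingHom ℚ))⁄Qb).b₈ = (W.b₈ : Qb) := by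
  simp [WeierstrassCurve.baseChange, WeierstrassCurve.map_b₂, WeierstrassCurve.map_b₄,
    WeierstrassCurve.map_b₆, WeierstrassCurve.map_b₈]

/-- A nonzero inertia-fixed point of `W[3](ℚ̄)` is an affine point `(X, Y)` of the curve with
inertia-fixed coordinates and `ψ₃(X) = 0`. -/
theorem exists_fixed_point (W : WeierstrassCurve ℤ)
    (x : Submodule.torsionBy ℤ ((W.map (Int.castRingHom ℚ))⁄Qb).Point (3 : ℕ))
    (hx : x ≠ 0) (hfix : ∀ σ ∈ A.inertiaSubgroupIn ℚ, σ • x = x) :
    ∃ X Y : Qb,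
      (∀ σ ∈ A.inertiaSubgroupIn ℚ, σ X = X) ∧ (∀ σ ∈ A.inertiaSubgroupIn ℚ, σ Y = Y) ∧
      Y ^ 2 + (W.a₁ : Qb) * X * Y + (W.a₃ : Qb) * Y =
        X ^ 3 + (W.a₂ : Qb) * X ^ 2 + (W.a₄ : Qb) * X + (W.a₆ : Qb) ∧
      3 * X ^ 4 + (W.b₂ : Qb) * X ^ 3 + 3 * (W.b₄ : Qb) * X ^ 2 + 3 * (W.b₆ : Qb) * X
        + (W.b₈ : Qb) = 0 := by
  obtain ⟨P, hP⟩ := x
  have hP0 : P ≠ 0 := by
    rintro rfl
    exact hx rfl
  have hfix' : ∀ σ ∈ A.inertiaSubgroupIn ℚ, σ • P = P := fun σ hσ =>
    congrArg Subtype.val (hfix σ hσ)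
  rw [Submodule.mem_torsionBy_iff] at hP
  cases P with
  | zero => exact absurd rfl hP0
  | some X Y h =>
    refine ⟨X, Y, ?_, ?_, ?_, ?_⟩
    · intro σ hσ
      have := hfix' σ hσ
      rw [algEquiv_smul_def, map_some] at this
      exact (Point.some.inj this).1
    · intro σ hσ
      have := hfix' σ hσ
      rw [algEquiv_smul_def, map_some] at this
      exact (Point.some.inj this).2
    · have heq := h.1
      rw [equation_iff] at heq
      obtain ⟨h1, h2, h3, h4, h6⟩ := baseChange_coeffs W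
      rw [h1, h2, h3, h4, h6] at heq
      exact heq
    · have h3 := Fermat.Agent.S51.T171.dPsi3_eq_zero_of_three_torsion h hP
      obtain ⟨h2, h4, h6, h8⟩ := baseChange_bs W
      unfold Fermat.Agent.S51.T171.dPsi3 at h3
      rw [h2, h4, h6, h8] at h3
      exact h3

end Fermat.Agent.G1.H3

end
-- ===== PACK-END G1/H3/NoFix/Val.lean

-- ===== PACK-BEGIN LT/H589/Adapters.lean
section





/-!
# Row LT, block GLUE2 -- the three adapters of squad S21/S49 (helper589), OFF-MAIN

* `liftC589     : Fermat.Agent.LT.H670.LiftC`      (landed S49, verbatim)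
* `intBasisC589 : Fermat.Agent.LT.H670.IntBasisC`  (landed S23 + span adapter)
* `frobC589     : Fermat.Agent.LT.H670.FrobC`      (`S58.H825.frobExists` = `S54.exists_frobenius`)

Imports: the frozen GLUE2 Props (`LT/H670/Glue2.lean`, byte-identical copy) and plain files that
are on main (`S23`, `S49`, `S58/H825/Frob`).  Sorry-free.
-/

set_option autoImplicit false

open CuspForm CongruenceSubgroup ModularFormClass

namespace Fermat.Agent.LT.H589

/-- The generating set of `CuspForm.intLattice N 2` is `CuspForm.qIntegralSet N`. -/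
theorem intLatticeGen_eq_qIntegralSet589 (N : ℕ) :
    {f : CuspForm (Gamma0 N) 2 | ∀ n : ℕ, ∃ m : ℤ, ModularFormClass.qCoeff f n = (m : ℂ)}
      = CuspForm.qIntegralSet N := by
  ext f
  simp only [Set.mem_setOf_eq, CuspForm.qIntegralSet]
  constructor
  · intro h n
    obtain ⟨m, hm⟩ := h n
    exact Subring.mem_bot.mpr ⟨m, hm.symm⟩
  · intro h n
    obtain ⟨m, hm⟩ := Subring.mem_bot.mp (h n)
    exact ⟨m, hm.symm⟩

/-- `HasIntegralStructure N 2` (the conclusion of the landed S23) gives `HasIntegralBasis N`. -/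
theorem hasIntegralBasis_of_hasIntegralStructure589 {N : ℕ}
    (h : CuspForm.HasIntegralStructure N 2) : CuspForm.HasIntegralBasis N := by
  unfold CuspForm.HasIntegralStructure CuspForm.intLattice at h
  unfold CuspForm.HasIntegralBasis
  rw [Submodule.span_span_of_tower, intLatticeGen_eq_qIntegralSet589] at h
  exact h

/-- **S23 adapter**: `HasIntegralBasis N` at every level. -/
theorem intBasisC589 : Fermat.Agent.LT.H670.IntBasisC := fun N _ =>
  hasIntegralBasis_of_hasIntegralStructure589 (Fermat.Agent.S23.result N)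

/-- **S49 adapter**: the landed S49 as the Prop `LiftC`. -/
theorem liftC589 : Fermat.Agent.LT.H670.LiftC := fun _ _ h _ heig hreal =>
  Fermat.Agent.S49.result h heig hreal

/-- **FROB adapter**: Frobenius elements exist at every prime. -/
theorem frobC589 : Fermat.Agent.LT.H670.FrobC := fun p hp =>
  Fermat.Agent.S58.H825.frobExists p hp

end Fermat.Agent.LT.H589

end
-- ===== PACK-END LT/H589/Adapters.lean

-- ===== PACK-BEGIN S48/H188/StepA.lean
section


set_option autoImplicit false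

open scoped MatrixGroups ModularForm
open UpperHalfPlane CongruenceSubgroup Matrix Filter Asymptotics

namespace Fermat.Agent.S48.H188

noncomputable section

lemma sum_zmod_val {M : Type*} [AddCommMonoid M] (p : ℕ) [NeZero p] (G : ℕ → M) :
    ∑ j : ZMod p, G j.val = ∑ j ∈ Finset.range p, G j := by
  cases p with
  | zero => exact absurd rfl (NeZero.ne 0)
  | succ n => exact Fin.sum_univ_eq_sum_range G (n + 1)

/-- Sum of the `m`-th powers of the `p`-th roots of unity. -/
lemma sum_pow_root (p : ℕ) {ζ : ℂ} (hζ : IsPrimitiveRoot ζ p) (m : ℕ) :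
    ∑ j ∈ Finset.range p, (ζ ^ j) ^ m = if p ∣ m then (p : ℂ) else 0 := by
  have h1 : ∀ j : ℕ, (ζ ^ j) ^ m = (ζ ^ m) ^ j := fun j => by
    rw [← pow_mul, ← pow_mul, mul_comm]
  simp_rw [h1]
  split_ifs with hdiv
  · have : ζ ^ m = 1 := by
      obtain ⟨t, rfl⟩ := hdiv
      rw [pow_mul, hζ.pow_eq_one, one_pow]
    simp [this]
  · have hne : ζ ^ m ≠ 1 := fun h => hdiv ((hζ.pow_eq_one_iff_dvd m).mp h)
    have h2 : (ζ ^ m) ^ p = 1 := by rw [← pow_mul, mul_comm, pow_mul, hζ.pow_eq_one, one_pow]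
    have := geom_sum_mul (ζ ^ m) p
    rw [h2, sub_self] at this
    rcases mul_eq_zero.mp this with h | h
    · exact h
    · exact absurd (sub_eq_zero.mp h) hne

/-- Roots of unity filter for a convergent power series. -/
lemma hasSum_filter (p : ℕ) (hp : 0 < p) {ζ : ℂ} (hζ : IsPrimitiveRoot ζ p) (a : ℕ → ℂ) (ξ : ℂ)
    (S : ℕ → ℂ) (hS : ∀ j ∈ Finset.range p, HasSum (fun m => a m * (ξ * ζ ^ j) ^ m) (S j)) :
    HasSum (fun m => a (p * m) * (ξ ^ p) ^ m) ((p : ℂ)⁻¹ * ∑ j ∈ Finset.range p, S j) := by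
  have h1 := hasSum_sum hS
  have h2 : (fun m => ∑ j ∈ Finset.range p, a m * (ξ * ζ ^ j) ^ m)
      = fun m => (p : ℂ) * (if p ∣ m then a m * ξ ^ m else 0) := by
    funext m
    simp_rw [mul_pow, ← mul_assoc]
    rw [← Finset.mul_sum, sum_pow_root p hζ m]
    split_ifs <;> ring
  rw [h2] at h1
  have hpC : (p : ℂ) ≠ 0 := by exact_mod_cast hp.ne'
  have h3 := h1.mul_left ((p : ℂ)⁻¹)
  simp_rw [← mul_assoc, inv_mul_cancel₀ hpC, one_mul] at h3
  have hinj : Function.Injective (fun m : ℕ => p * m) := fun x y h =>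
    Nat.eq_of_mul_eq_mul_left hp h
  have hsupp : ∀ x ∉ Set.range (fun m : ℕ => p * m),
      (fun m => if p ∣ m then a m * ξ ^ m else 0) x = 0 := by
    intro x hx
    have : ¬ p ∣ x := fun ⟨t, ht⟩ => hx ⟨t, ht.symm⟩
    simp [this]
  have h4 := (hinj.hasSum_iff hsupp).mpr h3
  convert h4 using 1
  funext m
  simp [Function.comp, pow_mul]

/-- Reindexing the `q`-expansion of `F(pτ)`. -/
lemma hasSum_dilate (p : ℕ) (hp : 0 < p) (a : ℕ → ℂ) (q : ℂ) (S : ℂ)
    (hS : HasSum (fun m => a m * (q ^ p) ^ m) S) :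
    HasSum (fun m => (if p ∣ m then a (m / p) else 0) * q ^ m) S := by
  have hinj : Function.Injective (fun m : ℕ => p * m) := fun x y h =>
    Nat.eq_of_mul_eq_mul_left hp h
  have hsupp : ∀ x ∉ Set.range (fun m : ℕ => p * m),
      (fun m => (if p ∣ m then a (m / p) else 0) * q ^ m) x = 0 := by
    intro x hx
    have : ¬ p ∣ x := fun ⟨t, ht⟩ => hx ⟨t, ht.symm⟩
    simp [this]
  refine (hinj.hasSum_iff hsupp).mp ?_
  convert hS using 1
  funext m
  simp [Function.comp, pow_mul, Nat.mul_div_cancel_left m hp]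

end

end Fermat.Agent.S48.H188

namespace Fermat.Agent.S48.H188

noncomputable section

open Function

local notation "𝕢" => Periodic.qParam

/-- **Step A.**  The formal Hecke relation at `p` (weight `1`, "character value" `e`) gives the
functional equation `∑_j F∣(1 j; 0 p) + e · F∣(p 0; 0 1) = a_p F`. -/
theorem hecke_functional_eq {F : ℍ → ℂ} (hper : Periodic (F ∘ ofComplex) 1)
    (hhol : MDifferentiable (modelWithCornersSelf ℂ ℂ) (modelWithCornersSelf ℂ ℂ) F)
    (hbdd : IsBoundedAtImInfty F)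
    (p : ℕ) (hp : 0 < p) (e : ℂ)
    (hT : ∀ n : ℕ, (qExpansion 1 F).coeff (p * n) +
        e * (if p ∣ n then (qExpansion 1 F).coeff (n / p) else 0) =
      (qExpansion 1 F).coeff p * (qExpansion 1 F).coeff n) :
    (∑ j ∈ Finset.range p, F ∣[(1 : ℤ)] gl 1 (j : ℤ) 0 p) + e • (F ∣[(1 : ℤ)] gl p 0 0 1)
      = (qExpansion 1 F).coeff p • F := by
  funext τ
  have hp' : (0 : ℤ) < p := by exact_mod_cast hp
  have hpC : (p : ℂ) ≠ 0 := by exact_mod_cast hp.ne'
  set a : ℕ → ℂ := fun n => (qExpansion 1 F).coeff n with ha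
  set q : ℂ := 𝕢 1 τ with hq
  set ξ : ℂ := Complex.exp (2 * Real.pi * Complex.I * τ / p) with hξ
  set ζ : ℂ := Complex.exp (2 * Real.pi * Complex.I / p) with hζ
  have hζp : IsPrimitiveRoot ζ p := Complex.isPrimitiveRoot_exp p hp.ne'
  have hξq : ξ ^ p = q := by
    rw [hξ, hq, Periodic.qParam, ← Complex.exp_nat_mul]
    congr 1
    field_simp
    simp
  have hsum : ∀ σ : ℍ, HasSum (fun m => a m * (𝕢 1 σ) ^ m) (F σ) := fun σ => by
    simpa [smul_eq_mul] using hasSum_qExpansion (h := 1) one_pos hper hhol hbdd σ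
  -- the translates
  have hβ : ∀ j : ℕ, 𝕢 1 ((gl 1 (j : ℤ) 0 p • τ : ℍ) : ℂ) = ξ * ζ ^ j := by
    intro j
    rw [coe_gl_upper_smul one_pos hp', Periodic.qParam, hξ, hζ, ← Complex.exp_nat_mul,
      ← Complex.exp_add]
    congr 1
    push_cast
    field_simp
  have hα : 𝕢 1 ((gl p 0 0 1 • τ : ℍ) : ℂ) = q ^ p := by
    rw [coe_gl_upper_smul hp' one_pos, hq, Periodic.qParam, Periodic.qParam,
      ← Complex.exp_nat_mul]
    congr 1
    push_cast
    field_simp
    ring
  have h1 : HasSum (fun m => a (p * m) * q ^ m)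
      ((p : ℂ)⁻¹ * ∑ j ∈ Finset.range p, F (gl 1 (j : ℤ) 0 p • τ)) := by
    have := hasSum_filter p hp hζp a ξ (fun j => F (gl 1 (j : ℤ) 0 p • τ))
      (fun j _ => by simpa [hβ j] using hsum (gl 1 (j : ℤ) 0 p • τ))
    simpa [hξq] using this
  have h2 : HasSum (fun m => (if p ∣ m then a (m / p) else 0) * q ^ m) (F (gl p 0 0 1 • τ)) := by
    apply hasSum_dilate p hp a q
    simpa [hα] using hsum (gl p 0 0 1 • τ)
  have h3 : HasSum (fun m => (a p * a m) * q ^ m) (a p * F τ) := by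
    have := (hsum τ).mul_left (a p)
    simpa [mul_assoc] using this
  have h4 : HasSum (fun m => (a p * a m) * q ^ m)
      ((p : ℂ)⁻¹ * ∑ j ∈ Finset.range p, F (gl 1 (j : ℤ) 0 p • τ) + e * F (gl p 0 0 1 • τ)) := by
    have := h1.add (h2.mul_left e)
    convert this using 1
    funext m
    rw [← hT m]
    ring
  have h5 := h4.unique h3
  simp only [Pi.add_apply, Finset.sum_apply, Pi.smul_apply, smul_eq_mul]
  rw [← h5]
  congr 1
  · rw [Finset.mul_sum]
    apply Finset.sum_congr rfl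
    intro j _
    rw [slash_gl_upper_apply F one_pos hp']
    simp only [sub_self, zpow_zero, mul_one, Int.cast_natCast, _root_.zpow_neg, zpow_one]
    ring
  · rw [slash_gl_upper_apply F hp' one_pos]
    simp

end

end Fermat.Agent.S48.H188

end
-- ===== PACK-END S48/H188/StepA.lean

-- ===== PACK-BEGIN S48/H188/Vanish.lean
section



set_option autoImplicit false

open scoped MatrixGroups ModularForm
open UpperHalfPlane CongruenceSubgroup Matrix Filter Asymptotics Function

namespace Fermat.Agent.S48.H188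

noncomputable section

variable {k : ℤ} {N : ℕ} {p : ℕ}

lemma Inv1.periodic_comp_ofComplex {F : ℍ → ℂ} (hF : Inv1 N k F) :
    Periodic (F ∘ ofComplex) (1 : ℂ) := by
  intro w
  by_cases! hw : 0 < Complex.im w
  · have : 0 < Complex.im (w + 1) := by simp [hw]
    simp only [Function.comp_apply, ofComplex_apply_of_im_pos this, ofComplex_apply_of_im_pos hw]
    exact hF.periodic _ _ 1 (by simp)
  · have : Complex.im (w + 1) ≤ 0 := by simpa using hw
    simp [ofComplex_apply_of_im_nonpos this, ofComplex_apply_of_im_nonpos hw]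

lemma smul_slash_gl_upper (F : ℍ → ℂ) (c : ℂ) {a b d : ℤ} (ha : 0 < a) (hd : 0 < d) :
    (c • F) ∣[k] gl a b 0 d = c • (F ∣[k] gl a b 0 d) := by
  funext τ
  rw [slash_gl_upper_apply _ ha hd, Pi.smul_apply, Pi.smul_apply, slash_gl_upper_apply _ ha hd]
  simp only [smul_eq_mul]; ring

lemma sub_slash (F G : ℍ → ℂ) (g : GL (Fin 2) ℝ) :
    (F - G) ∣[k] g = F ∣[k] g - G ∣[k] g := by
  rw [sub_eq_add_neg, SlashAction.add_slash, SlashAction.neg_slash, sub_eq_add_neg]

/-- **Vanishing lemma.**  If `h` and `h∣(p 0; 0 1)` are both `Γ₁(N)`-invariant of weight `k`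
(`p ∤ N` prime) and `h` is holomorphic and vanishes at `i∞`, then `h = 0`. -/
theorem Inv2.eq_zero [NeZero N] (hp : p.Prime) (hpN : Nat.Coprime p N) {h : ℍ → ℂ}
    (hh : Inv2 N p k h)
    (hhol : MDifferentiable (modelWithCornersSelf ℂ ℂ) (modelWithCornersSelf ℂ ℂ) h)
    (hzero : IsZeroAtImInfty h) : h = 0 := by
  have hdecay := UpperHalfPlane.IsZeroAtImInfty.exp_decay_atImInfty hzero one_pos
    hh.1.periodic_comp_ofComplex hhol hzero.boundedAtFilter
  have hM : 2 ≤ p ^ (2 * N.totient) := by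
    have h1 : 1 ≤ N.totient := Nat.totient_pos.mpr (Nat.pos_of_ne_zero (NeZero.ne N))
    calc 2 ≤ p := hp.two_le
      _ = p ^ 1 := (pow_one p).symm
      _ ≤ p ^ (2 * N.totient) := Nat.pow_le_pow_right hp.pos (by omega)
  refine eq_zero_of_scaling (c := ((p : ℂ) ^ k) ^ N.totient) hM (a := 2 * Real.pi)
    (by positivity) (fun w w' hw => hh.scaling hp.pos hpN w w' hw) ?_
  convert hdecay using 2 with τ
  ring_nf

end

end Fermat.Agent.S48.H188

end
-- ===== PACK-END S48/H188/Vanish.lean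

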