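import Fermat.Statements.S52
import Mathlib
import Fermat.Agent.Pack.L1.E2L2
import Fermat.Agent.Pack.S44C.G0E10L3
import Fermat.Agent.Pack.S44C.G0E19L0
import Fermat.Agent.Pack.S44C.G0E20L1
import Fermat.Agent.Pack.L1.E5L0
import Fermat.Agent.Pack.L1.E4L0
import Fermat.Agent.Pack.L1.E5L3
import Fermat.Agent.Pack.L1.E4L2
import Fermat.Agent.Pack.L1.E2L3
import Fermat.Agent.Pack.S59C.E6L0
import Fermat.Agent.Pack.L1.E5L2
import Fermat.Agent.Pack.S43GC.G0E4L0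
import Fermat.Agent.Pack.S43MC.G0E20L2
import Fermat.Agent.Pack.S43MC.G0E19L0
import Fermat.Agent.Pack.L1.E1L1
import Fermat.Agent.Pack.L1.E5L1
import Fermat.Agent.Pack.L1.E3L1

-- ===== PACK-BEGIN S52.lean
section









set_option autoImplicit false
open WeierstrassCurve WeierstrassCurve.Affine WeierstrassCurve.Affine.Point
open CuspForm ModularFormClass UpperHalfPlane
open WeierstrassCurve

namespace Fermat.Agent.S52

theorem result (W : WeierstrassCurve ℤ) (hΔ : W.Δ ≠ 0) (hW : W.IsSemistableModel) (h5 : W.ModRepIsIrreducible 5) : ∃ W' : WeierstrassCurve ℤ, W'.Δ ≠ 0 ∧ W'.IsSemistableModel ∧ W'.ModRepIsIrreducible 3 ∧ ∀ ℓ : ℕ, ℓ.Prime → W.IsGoodPrimeFor ℓ → W'.IsGoodPrimeFor ℓ → ℓ ≠ 5 → (5 : ℤ) ∣ (W'.apOfModel ℓ - W.apOfModel ℓ) := by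
  have hA : PartA :=
    partA_of_frobRelation
      (Fermat.Agent.Lib.Frob.frobRelation_of_parts Fermat.Agent.Lib.Frob.frobRelationFin
        Fermat.Agent.Lib.Frob.reductionData)
  have hB : Switch :=
    Fermat.Agent.S52.B.B2.H352.switch_of_partsP Fermat.Agent.S52.B.B2.H352.integralModelP
      Fermat.Agent.S52.B3.H352.familyHIT Fermat.Agent.S52.B.B1.H170.torsionMap
  exact result_of_parts hA hB W hΔ hW h5

end Fermat.Agent.S52

end
-- ===== PACK-END S52.lean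

-- ===== PACK-BEGIN S17/H920/BertiniPencil.lean
section


/-!
# S17 / tower H, leaf BERTINI (helper920): the generic member of a pencil is reduced

`K` algebraically closed of characteristic zero, `F` a function field of one variable over `K`.
For `f₁, f₂ ∈ F` nonzero with `f₂ / f₁` non-constant (`∃ P, ord_P f₁ ≠ ord_P f₂`), all but
finitely many members `f₂ - c f₁` of the pencil satisfy, with `b P := min (ord_P f₁) (ord_P f₂)`
(minus the base divisor of the pencil):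

* `b P ≤ ord_P (f₂ - c f₁) ≤ b P + 1` for every place `P` (the moving part is reduced);
* `ord_P (f₂ - c f₁) = b P` for all `P` in a given finite set `S` (the moving part avoids `S`).

In particular there is such a `c` in every infinite subset of `K` (e.g. the image of `ℚ`):
`exists_reduced_member`.
-/

set_option autoImplicit false
set_option linter.unusedSectionVars false
set_option linter.style.haveILetI false

open AlgebraicCurve Polynomial IntermediateField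

namespace Fermat.Agent.S17.H920

variable {K F : Type*} [Field K] [Field F] [Algebra K F]

/-- The values of `φ` at the places of a finite set form a finite set. -/
theorem finite_values_on (φ : F) (S : Set (Place K F)) (hS : S.Finite) :
    {c : K | ∃ P ∈ S, 0 < P.ord (φ - algebraMap K F c)}.Finite := by
  have h : {c : K | ∃ P ∈ S, 0 < P.ord (φ - algebraMap K F c)} =
      ⋃ P ∈ S, {c : K | 0 < P.ord (φ - algebraMap K F c)} := by
    ext c
    simp only [Set.mem_iUnion, Set.mem_ofPred_eq, exists_prop]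
  rw [h]
  exact Set.Finite.biUnion hS
    (fun w _ => Set.Subsingleton.finite (fun c hc c' hc' => value_unique w φ hc hc'))

/-- Order of a member of the pencil at a place where `f₁` is the smaller one. -/
theorem ord_pencil_of_le (P : Place K F) {f₁ f₂ : F} (hf₁ : f₁ ≠ 0) (c : K)
    (hc : f₂ - c • f₁ ≠ 0) :
    P.ord (f₂ - c • f₁) = P.ord f₁ + P.ord (f₂ / f₁ - algebraMap K F c) := by
  have h1 : f₂ - c • f₁ = f₁ * (f₂ / f₁ - algebraMap K F c) := by
    rw [Algebra.smul_def]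
    field_simp
  have h2 : f₂ / f₁ - algebraMap K F c ≠ 0 := by
    intro h0
    rw [h0, mul_zero] at h1
    exact hc h1
  rw [h1, P.ord_mul hf₁ h2]

/-- Order of a member of the pencil at a place where `f₂` is strictly smaller. -/
theorem ord_pencil_of_lt (P : Place K F) {f₁ f₂ : F} (hf₁ : f₁ ≠ 0) (hf₂ : f₂ ≠ 0) (c : K)
    (h : P.ord f₂ < P.ord f₁) : P.ord (f₂ - c • f₁) = P.ord f₂ := by
  rcases eq_or_ne c 0 with rfl | hc
  · rw [zero_smul, sub_zero]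
  have hc' : algebraMap K F c ≠ 0 := (map_ne_zero (algebraMap K F)).mpr hc
  have h1 : -(c • f₁) ≠ 0 := by
    rw [Algebra.smul_def]
    exact neg_ne_zero.mpr (mul_ne_zero hc' hf₁)
  have h2 : P.ord (-(c • f₁)) = P.ord f₁ := by
    rw [Fermat.Agent.Lib.RR.ord_neg, Algebra.smul_def, P.ord_mul hc' hf₁,
      Fermat.Agent.Lib.RR.ord_algebraMap, zero_add]
  rw [sub_eq_add_neg]
  exact Fermat.Agent.Lib.RR.ord_add_eq_of_lt P hf₂ h1 (by rw [h2]; exact h)

/-- A ratio with a zero or pole is transcendental over the constants. -/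
theorem transcendental_div_of_ord_ne [IsAlgClosed K] {f₁ f₂ : F} (hf₁ : f₁ ≠ 0) (hf₂ : f₂ ≠ 0)
    (hne : ∃ P : Place K F, P.ord f₁ ≠ P.ord f₂) : Transcendental K (f₂ / f₁) := by
  apply Fermat.Agent.S24.FF.transcendental_of_not_mem_range
  rintro ⟨a, ha⟩
  obtain ⟨P, hP⟩ := hne
  have h1 : P.ord (f₂ / f₁) = P.ord f₂ - P.ord f₁ := by
    rw [div_eq_mul_inv, P.ord_mul hf₂ (inv_ne_zero hf₁), P.ord_inv]
    ring
  rw [← ha, Fermat.Agent.Lib.RR.ord_algebraMap] at h1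
  omega

/-- **BERTINI, pencil form.**  All but finitely many members of a pencil without fixed
component are reduced and avoid a given finite set of places. -/
theorem finite_pencil_bad [IsAlgClosed K] [CharZero K] (j : F) (hj : Transcendental K j)
    [FiniteDimensional K⟮j⟯ F] (f₁ f₂ : F) (hf₁ : f₁ ≠ 0) (hf₂ : f₂ ≠ 0)
    (hne : ∃ P : Place K F, P.ord f₁ ≠ P.ord f₂) (S : Set (Place K F)) (hS : S.Finite) :
    {c : K | ¬ (f₂ - c • f₁ ≠ 0 ∧
      (∀ P : Place K F, min (P.ord f₁) (P.ord f₂) ≤ P.ord (f₂ - c • f₁) ∧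
        P.ord (f₂ - c • f₁) ≤ min (P.ord f₁) (P.ord f₂) + 1) ∧
      (∀ P ∈ S, P.ord (f₂ - c • f₁) = min (P.ord f₁) (P.ord f₂)))}.Finite := by
  have hφ : Transcendental K (f₂ / f₁) := transcendental_div_of_ord_ne hf₁ hf₂ hne
  have hB1 := finite_branch_values j hj (f₂ / f₁) hφ
  have hB2 := finite_values_on (K := K) (f₂ / f₁) S hS
  refine (hB1.union hB2).subset ?_
  intro c hc
  by_contra hcB
  rw [Set.mem_union, not_or] at hcB
  obtain ⟨hc1, hc2⟩ := hcB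
  have hc1' : ∀ P : Place K F, P.ord (f₂ / f₁ - algebraMap K F c) ≤ 1 := by
    intro P
    by_contra h
    exact hc1 ⟨P, by omega⟩
  have hc2' : ∀ P ∈ S, P.ord (f₂ / f₁ - algebraMap K F c) ≤ 0 := by
    intro P hP
    by_contra h
    exact hc2 ⟨P, hP, by omega⟩
  have hφc : f₂ / f₁ - algebraMap K F c ≠ 0 := by
    intro h0
    apply hφ
    rw [sub_eq_zero.mp h0]
    exact isAlgebraic_algebraMap c
  have hmem : f₂ - c • f₁ ≠ 0 := by
    intro h0
    apply hφc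
    rw [Algebra.smul_def] at h0
    have h1 : f₂ / f₁ = algebraMap K F c := by
      rw [div_eq_iff hf₁]
      exact sub_eq_zero.mp h0
    rw [h1, sub_self]
  -- lower bound for `ord (φ - c)` where `φ` is regular
  have hlow : ∀ P : Place K F, P.ord f₁ ≤ P.ord f₂ →
      0 ≤ P.ord (f₂ / f₁ - algebraMap K F c) := by
    intro P hP
    have h1 : P.ord (f₂ / f₁) = P.ord f₂ - P.ord f₁ := by
      rw [div_eq_mul_inv, P.ord_mul hf₂ (inv_ne_zero hf₁), P.ord_inv]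
      ring
    have h2 := Fermat.Agent.Lib.RR.ord_add_of_le P (n := 0) (f := f₂ / f₁)
      (g := -algebraMap K F c) (Or.inr (by omega))
      (Or.inr (by rw [Fermat.Agent.Lib.RR.ord_neg, Fermat.Agent.Lib.RR.ord_algebraMap]))
    rw [← sub_eq_add_neg] at h2
    exact h2.resolve_left hφc
  apply hc
  refine ⟨hmem, ?_, ?_⟩
  · intro P
    rcases le_or_gt (P.ord f₁) (P.ord f₂) with hP | hP
    · rw [min_eq_left hP, ord_pencil_of_le P hf₁ c hmem]
      have := hlow P hP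
      have := hc1' P
      constructor <;> omega
    · rw [min_eq_right hP.le, ord_pencil_of_lt P hf₁ hf₂ c hP]
      constructor <;> omega
  · intro P hPS
    rcases le_or_gt (P.ord f₁) (P.ord f₂) with hP | hP
    · rw [min_eq_left hP, ord_pencil_of_le P hf₁ c hmem]
      have := hlow P hP
      have := hc2' P hPS
      omega
    · rw [min_eq_right hP.le, ord_pencil_of_lt P hf₁ hf₂ c hP]

/-- **BERTINI, existence form.**  Every infinite set of parameters (for instance the rational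
numbers) contains a `c` such that the member `f₂ - c f₁` of the pencil is reduced and avoids
the finite set `S`. -/
theorem exists_reduced_member [IsAlgClosed K] [CharZero K] (j : F) (hj : Transcendental K j)
    [FiniteDimensional K⟮j⟯ F] (f₁ f₂ : F) (hf₁ : f₁ ≠ 0) (hf₂ : f₂ ≠ 0)
    (hne : ∃ P : Place K F, P.ord f₁ ≠ P.ord f₂) (S : Set (Place K F)) (hS : S.Finite)
    (A : Set K) (hA : A.Infinite) :
    ∃ c ∈ A, f₂ - c • f₁ ≠ 0 ∧
      (∀ P : Place K F, min (P.ord f₁) (P.ord f₂) ≤ P.ord (f₂ - c • f₁) ∧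
        P.ord (f₂ - c • f₁) ≤ min (P.ord f₁) (P.ord f₂) + 1) ∧
      (∀ P ∈ S, P.ord (f₂ - c • f₁) = min (P.ord f₁) (P.ord f₂)) := by
  obtain ⟨c, hcA, hc⟩ := hA.exists_notMem_finite (finite_pencil_bad j hj f₁ f₂ hf₁ hf₂ hne S hS)
  refine ⟨c, hcA, ?_⟩
  by_contra h
  exact hc h

/-- The rational parameters form an infinite set. -/
theorem infinite_range_algebraMap_rat [CharZero K] :
    (Set.range (algebraMap ℚ K)).Infinite :=
  Set.infinite_range_of_injective (algebraMap ℚ K).injective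

end Fermat.Agent.S17.H920

end
-- ===== PACK-END S17/H920/BertiniPencil.lean

-- ===== PACK-BEGIN S17/H920/Mov1.lean
section



/-!
# S17 / tower H, geometric layer: the generic rational member is reduced (G-MOV1, abstract form)

Setting of BASE-2 (helper680) and RAT-AVOID (helper917): `F = ℚ̄ · F₀ ⊆ ℚ̄((q))`.

`exists_fixed_reduced_member`: if `D` is a Galois-invariant divisor of degree `≥ 2g` and `T` a
finite set of places, there is a Galois-FIXED `f ∈ L(D)`, `f ≠ 0`, such that the member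
`E = D + div f` of `|D|` is effective, REDUCED (`E v ≤ 1` for all `v`) and avoids `T`
(`E v = 0` for `v ∈ T`); `E` is Galois-invariant.

Proof: RAT-AVOID twice gives a fixed pencil `f₁, f₂` without base points whose member `f₁`
avoids `T`; BERTINI (`exists_reduced_member`) gives a rational `c` with `f₂ - c f₁` reduced and
avoiding `T`.
-/

set_option autoImplicit false

noncomputable section

open AlgebraicCurve ModularCurve

namespace Fermat.Agent.S17.H920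

open Fermat.Agent.Lib.RR Fermat.Agent.S17.H680 Fermat.Agent.S17.H77 Fermat.Agent.S17.H917

variable {F₀ : IntermediateField ℚ (LaurentSeries ℚ)} [FF1 Qb (laurentBaseChange Qb F₀)]

/-- **G-MOV1, abstract form.**  An invariant divisor of degree `≥ 2g` has a rational member
which is reduced and avoids a given finite set of places. -/
theorem exists_fixed_reduced_member {D : Divisor Qb (laurentBaseChange Qb F₀)}
    (hD : IsInvariant F₀ D)
    (hdeg : 2 * (genusFF Qb (laurentBaseChange Qb F₀) : ℤ) ≤ Divisor.degree D)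
    (T : Finset (Place Qb (laurentBaseChange Qb F₀))) :
    ∃ (f : laurentBaseChange Qb F₀) (hf : f ≠ 0), f ∈ riemannRochSpace D ∧ IsFixed F₀ f ∧
      (∀ v, 0 ≤ (D + divOf (K := Qb) f hf) v ∧ (D + divOf (K := Qb) f hf) v ≤ 1) ∧
      ∀ v ∈ T, (D + divOf (K := Qb) f hf) v = 0 := by
  classical
  obtain ⟨f₁, hf₁L, hf₁fix, hf₁, hf₁T⟩ := exists_fixed_mem_L_forall_ord_eq hD hdeg T
  have hf₁ord : ∀ v : Place Qb (laurentBaseChange Qb F₀), -D v ≤ v.ord f₁ := fun v =>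
    ((mem_L_iff.mp hf₁L) v).resolve_left hf₁
  set Z₁ : Finset (Place Qb (laurentBaseChange Qb F₀)) := (D + divOf f₁ hf₁).support with hZ₁
  have hZ₁mem : ∀ v, v ∉ Z₁ → v.ord f₁ = -D v := by
    intro v hv
    rw [hZ₁, Finsupp.mem_support_iff, not_not, Finsupp.add_apply, divOf_apply] at hv
    omega
  obtain ⟨f₂, hf₂L, hf₂fix, hf₂, hf₂T⟩ := exists_fixed_mem_L_forall_ord_eq hD hdeg (T ∪ Z₁)
  have hf₂ord : ∀ v : Place Qb (laurentBaseChange Qb F₀), -D v ≤ v.ord f₂ := fun v =>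
    ((mem_L_iff.mp hf₂L) v).resolve_left hf₂
  have hmin : ∀ v : Place Qb (laurentBaseChange Qb F₀),
      min (v.ord f₁) (v.ord f₂) = -D v := by
    intro v
    by_cases hv : v ∈ Z₁
    · have h2 := hf₂T v (Finset.mem_union_right _ hv)
      have h1 := hf₁ord v
      rw [h2]
      exact min_eq_right h1
    · have h1 := hZ₁mem v hv
      have h2 := hf₂ord v
      rw [h1]
      exact min_eq_left h2
  by_cases hne : ∃ P : Place Qb (laurentBaseChange Qb F₀), P.ord f₁ ≠ P.ord f₂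
  · obtain ⟨j, hj, hjfin⟩ := (inferInstance : FF1 Qb (laurentBaseChange Qb F₀)).exists_finite
    have := hjfin
    obtain ⟨c, ⟨q, rfl⟩, hc0, hcred, hcT⟩ := exists_reduced_member j hj f₁ f₂ hf₁ hf₂ hne
      (T : Set (Place Qb (laurentBaseChange Qb F₀))) T.finite_toSet
      (Set.range (algebraMap ℚ Qb)) infinite_range_algebraMap_rat
    have hmemfix : f₂ - algebraMap ℚ Qb q • f₁ ∈ fixedPart F₀ (riemannRochSpace D) := by
      rw [algebraMap_smul]
      exact Submodule.sub_mem _ ⟨hf₂L, hf₂fix⟩ (Submodule.smul_mem _ q ⟨hf₁L, hf₁fix⟩)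
    refine ⟨f₂ - algebraMap ℚ Qb q • f₁, hc0, hmemfix.1, hmemfix.2, ?_, ?_⟩
    · intro v
      have h := hcred v
      rw [hmin v] at h
      rw [Finsupp.add_apply, divOf_apply]
      constructor <;> omega
    · intro v hv
      have h := hcT v (Finset.mem_coe.mpr hv)
      rw [hmin v] at h
      rw [Finsupp.add_apply, divOf_apply]
      omega
  · -- degenerate case: `D + div f₁ = 0`
    have hall : ∀ v : Place Qb (laurentBaseChange Qb F₀), v.ord f₁ = -D v := by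
      intro v
      have h := hmin v
      have hv : v.ord f₁ = v.ord f₂ := by
        by_contra h'
        exact hne ⟨v, h'⟩
      rw [← hv, min_self] at h
      exact h
    refine ⟨f₁, hf₁, hf₁L, hf₁fix, ?_, ?_⟩
    · intro v
      rw [Finsupp.add_apply, divOf_apply, hall v]
      constructor <;> omega
    · intro v _
      rw [Finsupp.add_apply, divOf_apply, hall v]
      omega

/-- The reduced member of `exists_fixed_reduced_member` is Galois-invariant. -/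
theorem isInvariant_add_divOf {D : Divisor Qb (laurentBaseChange Qb F₀)}
    (hD : IsInvariant F₀ D) {f : laurentBaseChange Qb F₀} (hf : f ≠ 0) (hfix : IsFixed F₀ f) :
    IsInvariant F₀ (D + divOf (K := Qb) f hf) :=
  isInvariant_add hD (isInvariant_divOf hf hfix)

end Fermat.Agent.S17.H920

end
end
-- ===== PACK-END S17/H920/Mov1.lean

-- ===== PACK-BEGIN S17/H740/Multislot.lean
section




/-!
# Wall leaf A3: the multi-slot Nullstellensatz lower bound (absolute heights)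

`multislot : Wall.MultislotStatement K` for `K` algebraically closed and algebraic over `ℚ`.

Proof.  (1) functional multihomogeneity gives formal multihomogeneity (`K` infinite), hence a
Segre lift `P j` (homogeneous of degree `N` in the Segre variables); (2) the ideal generated by
the homogeneous relations is closed under homogeneous components, so the Segre certificate
`∑ j, Q (f, j) (z) * P j (z) = z f ^ (M + N)`, `z = segrePt y`, holds on the product of the cones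
(`exists_segre_certificate_aeval`, over `K` itself); (3) the finitely many coefficients of the
`Q (f, j)` and `P j` lie in ONE number field `K₀ ⊆ K`; (4) `H380.absLogHeight_eval_ge` at the
tensor `segrePt y` and the exact Segre formula `H380.absLogHeight_fun_prod_eq`.
-/

set_option autoImplicit false
set_option linter.unusedSectionVars false

noncomputable section

namespace Fermat.Agent.S17.H740

open MvPolynomial
open Fermat.Agent.S17.H500 (HomIdeal)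
open Fermat.Agent.S17.H380 (absLogHeight)

theorem aeval_self_eq_eval {K σ : Type*} [CommSemiring K] (x : σ → K) (G : MvPolynomial σ K) :
    aeval x G = eval x G := rfl

section Descent

variable {K : Type*} [Field K] [CharZero K] [Algebra.IsAlgebraic ℚ K]

/-- Finitely many polynomials over a field `K` algebraic over `ℚ` are defined over ONE number
field `K₀ ⊆ K`. -/
theorem exists_numberField_descent {τ J : Type*} [Finite J] (Q : J → MvPolynomial τ K) :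
    ∃ K₀ : IntermediateField ℚ K, NumberField K₀ ∧
      ∀ j, ∃ Q₀ : MvPolynomial τ K₀, map (algebraMap K₀ K) Q₀ = Q j := by
  classical
  set S : Set K := ⋃ j, ((Q j).coeffs : Set K) with hS
  have hfin : Finite S := by
    have : S.Finite := Set.finite_iUnion fun j => (Q j).coeffs.finite_toSet
    exact this.to_subtype
  set K₀ : IntermediateField ℚ K := IntermediateField.adjoin ℚ S with hK₀
  have hfd : FiniteDimensional ℚ K₀ :=
    IntermediateField.finiteDimensional_adjoin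
      (fun x _ => (Algebra.IsAlgebraic.isAlgebraic (R := ℚ) x).isIntegral)
  refine ⟨K₀, { }, fun j => ?_⟩
  have h1 : ((Q j).coeffs : Set K) ⊆ Set.range (algebraMap K₀ K) := by
    intro c hc
    have hcS : c ∈ S := Set.mem_iUnion.mpr ⟨j, hc⟩
    exact ⟨⟨c, IntermediateField.subset_adjoin ℚ S hcS⟩, rfl⟩
  obtain ⟨Q₀, hQ₀⟩ := mem_range_map_iff_coeffs_subset.mpr h1
  exact ⟨Q₀, hQ₀⟩

end Descent

section Core

universe u v

variable {K : Type*} [Field K] [CharZero K] [IsAlgClosed K] [Algebra.IsAlgebraic ℚ K]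
variable {α : Type u} [Fintype α] {ι : α → Type v} {ι' : Type*}

/-- **Multi-slot Nullstellensatz lower bound over `K = ℚ̄`** (polynomials and relations with
coefficients in `K`). -/
theorem absLogHeight_multi_eval_ge_closed [Nonempty α] [∀ a, Finite (ι a)] [Fintype ι']
    (I : ∀ a, Ideal (MvPolynomial (ι a) K)) (hI : ∀ a, HomIdeal (I a)) {N : ℕ}
    (p : ι' → MvPolynomial (Σ a, ι a) K)
    (hp : ∀ j, ∃ P : MvPolynomial ((a : α) → ι a) K, P.IsHomogeneous N ∧ segreSubst K P = p j)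
    (h0 : ∀ u : (a : α) → ι a → K, InCones K I u → (∀ j, aeval (sigmaPt u) (p j) = 0) →
      ∃ a, u a = 0) :
    ∃ C : ℝ, ∀ u : (a : α) → ι a → K, InCones K I u → (∀ a, u a ≠ 0) →
      C + N * ∑ a, absLogHeight (u a) ≤ absLogHeight (fun j => eval (sigmaPt u) (p j)) := by
  classical
  obtain ⟨M, Q, P, hQ, hP, -, hPeval, hcert⟩ := exists_segre_certificate_aeval K I hI p hp h0
  obtain ⟨K₀, hNF, hdesc⟩ := exists_numberField_descent (Sum.elim Q P)
  have hQd : ∀ c, ∃ Q₀ : MvPolynomial ((a : α) → ι a) K₀, map (algebraMap K₀ K) Q₀ = Q c :=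
    fun c => hdesc (Sum.inl c)
  have hPd : ∀ j, ∃ P₀ : MvPolynomial ((a : α) → ι a) K₀, map (algebraMap K₀ K) P₀ = P j :=
    fun j => hdesc (Sum.inr j)
  choose Q₀ hQ₀ using hQd
  choose P₀ hP₀ using hPd
  have hinj : Function.Injective (algebraMap K₀ K) := (algebraMap K₀ K).injective
  have hQ₀hom : ∀ c, (Q₀ c).IsHomogeneous M := fun c =>
    IsHomogeneous.of_map hinj (by rw [hQ₀]; exact hQ c)
  have hint : ∀ x : K, IsIntegral ℚ x := fun x =>
    (Algebra.IsAlgebraic.isAlgebraic (R := ℚ) x).isIntegral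
  have haev : ∀ (x : ((a : α) → ι a) → K) (G₀ : MvPolynomial ((a : α) → ι a) K₀),
      aeval x G₀ = eval x (map (algebraMap K₀ K) G₀) := by
    intro x G₀
    rw [eval_map, aeval_def]
  refine ⟨-(Real.log (Nat.card ι') +
    (Module.finrank ℚ K₀ : ℝ)⁻¹ * Real.log (max (Height.mulHeightBound Q₀) 1)),
    fun u hu hu0 => ?_⟩
  have h1 := H380.absLogHeight_eval_ge (K₀ := K₀) (A := K) (N := N) hQ₀hom P₀
    (x := segrePt u) (fun f => hint _) (fun f => by
      have := hcert u hu f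
      simp only [haev, hQ₀, hP₀]
      simpa only [aeval_self_eq_eval] using this)
  have h2 : absLogHeight (segrePt u) = ∑ a, absLogHeight (u a) :=
    H380.absLogHeight_fun_prod_eq (fun a i => hint _) hu0
  rw [h2] at h1
  have h3 : (fun j => aeval (segrePt u) (P₀ j)) = fun j => eval (sigmaPt u) (p j) := by
    funext j
    rw [haev, hP₀]
    have := hPeval u j
    simpa only [aeval_self_eq_eval] using this
  rwa [h3] at h1

end Core

section Wall

variable (K : Type*) [Field K] [CharZero K] [IsAlgClosed K] [Algebra.IsAlgebraic ℚ K]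

/-- the reindexing `Fin d × Fin n ≃ Σ _ : Fin d, Fin n` of the variables -/
def prodToSigma (d n : ℕ) : Fin d × Fin n → (Σ _ : Fin d, Fin n) := fun q => ⟨q.1, q.2⟩

theorem eval_rename_prodToSigma {d n : ℕ} (p : MvPolynomial (Fin d × Fin n) K)
    (y : Fin d → Fin n → K) :
    eval (sigmaPt y) (rename (prodToSigma d n) p) = eval (fun q : Fin d × Fin n => y q.1 q.2) p := by
  rw [eval_rename]
  rfl

/-- **Wall leaf A3.** -/
theorem multislot : Wall.MultislotStatement K := by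
  classical
  intro n d ι' _ rel hrel p N hp h0
  rcases Nat.eq_zero_or_pos d with hd | hd
  · subst hd
    refine ⟨0, fun y _ _ => ?_⟩
    simp only [Finset.univ_eq_empty, Finset.sum_empty, mul_zero, add_zero]
    exact H380.absLogHeight_nonneg _
  have : Nonempty (Fin d) := ⟨⟨0, hd⟩⟩
  have : Infinite K := IsAlgClosed.instInfinite
  -- the renamed polynomials
  set p' : ι' → MvPolynomial (Σ _ : Fin d, Fin n) K := fun j => rename (prodToSigma d n) (p j)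
    with hp'
  have hp'hom : ∀ j, IsMultiHom (p' j) (fun _ => N) := by
    intro j
    refine isMultiHom_of_forall_eval (p' j) fun y c => ?_
    have h1 := hp j y c
    have h2 : eval (fun s : (Σ _ : Fin d, Fin n) => c s.1 * y s.1 s.2) (p' j) =
        eval (fun q : Fin d × Fin n => c q.1 * y q.1 q.2) (p j) := by
      rw [hp', eval_rename]
      rfl
    rw [h2, h1, hp', eval_rename_prodToSigma]
  have hlift : ∀ j, ∃ P : MvPolynomial ((_ : Fin d) → Fin n) K,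
      P.IsHomogeneous N ∧ segreSubst K P = p' j := fun j => exists_segre_lift (hp'hom j)
  -- the ideal of the relations
  set I : ∀ _ : Fin d, Ideal (MvPolynomial (Fin n) K) := fun _ => Ideal.span rel with hIdef
  have hI : ∀ a, HomIdeal (I a) := fun a f hf m => homogeneousComponent_mem_span hrel hf m
  have hcone : ∀ y : Fin n → K, (∀ G ∈ rel, eval y G = 0) ↔
      ∀ f ∈ Ideal.span rel, aeval y f = 0 := by
    intro y
    constructor
    · intro h f hf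
      have hle : Ideal.span rel ≤ RingHom.ker (aeval y : MvPolynomial (Fin n) K →ₐ[K] K) := by
        rw [Ideal.span_le]
        intro G hG
        have := h G hG
        rw [SetLike.mem_coe, RingHom.mem_ker]
        exact this
      exact hle hf
    · intro h G hG
      exact h G (Ideal.subset_span hG)
  have hInC : ∀ y : Fin d → Fin n → K, InCones K I y ↔ ∀ l, ∀ G ∈ rel, eval (y l) G = 0 := by
    intro y
    constructor
    · intro h l
      exact (hcone (y l)).mpr (h l)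
    · intro h l
      exact (hcone (y l)).mp (h l)
  obtain ⟨C, hC⟩ := absLogHeight_multi_eval_ge_closed (K := K) I hI p' hlift (by
    intro u hu hz
    by_contra hne
    obtain ⟨j, hj⟩ := h0 u (fun a h => hne ⟨a, h⟩) ((hInC u).mp hu)
    apply hj
    have := hz j
    rw [aeval_self_eq_eval, hp', eval_rename_prodToSigma] at this
    exact this)
  refine ⟨-C, fun y hy0 hy => ?_⟩
  have h1 := hC y ((hInC y).mpr hy) hy0
  have h2 : (fun j => eval (sigmaPt y) (p' j)) =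
      fun j => eval (fun q : Fin d × Fin n => y q.1 q.2) (p j) := by
    funext j
    rw [hp', eval_rename_prodToSigma]
  rw [h2] at h1
  show (N : ℝ) * ∑ l, absLogHeight (y l) ≤
    absLogHeight (fun j => eval (fun q : Fin d × Fin n => y q.1 q.2) (p j)) + -C
  linarith

end Wall

end Fermat.Agent.S17.H740

end
end
-- ===== PACK-END S17/H740/Multislot.lean

-- ===== PACK-BEGIN S15/H782/UValFinal.lean
section


/-!
# S15, node GEO, piece UVAL (helper782): final statements in the Prelude's vocabulary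

`W : WeierstrassCurve ℤ`, `Q` a point of odd prime order `p` over `ℚ̄`, `A` a place of `ℚ̄` over a
prime `ℓ ≠ p` of multiplicative reduction (`ℓ ∣ Δ`, `ℓ ∤ c₄`; `ℓ = 2, 3` allowed):

* `val_unitU_pow_of_not_inZeroComponentAt` : `Q ∉ E⁰`  ⟹  `v_A(U) ^ p = v_A(Δ) ^ (p - 1)`;
* `val_unitU_lt_one_of_not_inZeroComponentAt` : `Q ∉ E⁰`  ⟹  `v_A(U) < 1`   (`ord_A U > 0`);
* `one_lt_val_unitU_of_inZeroComponentAt`     : `Q ∈ E⁰`  ⟹  `1 < v_A(U)`   (`ord_A U < 0`).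

So the sign of `ord_A U(W, Q)` detects the component of `Q`; no Newton polygon of the modular
equation is needed.
-/

set_option autoImplicit false

namespace Fermat.Agent.S15.H782

open WeierstrassCurve WeierstrassCurve.Affine
open Fermat.Agent.S05.SameRed (IntegralCoeffs InKer)
open Fermat.Agent.Lib.Red.H290
open Fermat.Agent.S15.H242
open Fermat.Agent.S13.H365

section bridge

variable {K : Type*} [Field K] [DecidableEq K] {κ : Type*} [Field κ] [DecidableEq κ]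
variable {A : ValuationSubring K} {φ : A →+* κ} {W : Affine K} {Wκ : Affine κ}

omit [DecidableEq κ] in
/-- `E⁰` of a node model (points away from the node) is contained in the locus of nonsingular
reduction. -/
theorem inE0_of_nodeModel_inE0 (h : IsRedOf A φ W Wκ) (hφ : KerMax A φ)
    (M : NodeModel A.valuation W) (he : A.valuation M.e ≤ 1) {P : W.Point} (hP : M.InE0 P) :
    InE0 A φ Wκ P := by
  rcases P with _ | ⟨x, y, hxy⟩
  · exact inE0_zero
  · intro hx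
    have hy : y ∈ A := y_mem_of_x_mem h hxy.1 hx
    have hxv : A.valuation x ≤ 1 := val_le_of_mem hx
    have hyv : A.valuation y ≤ 1 := val_le_of_mem hy
    have hξ : A.valuation (x - M.e) = 1 :=
      le_antisymm (Valuation.map_sub_le _ hxv he) hP
    have heq := rd_equation h hx hy hxy.1
    obtain ⟨hmemY, hrdY⟩ := rd_psiTwoExpr h hx hy
    obtain ⟨hmemX, hrdX⟩ := rd_slopeNum h hx hy
    rw [Affine.nonsingular_iff']
    refine ⟨heq, ?_⟩
    rcases M.nonsingular_red h.integralCoeffs hxy.1 hxv hyv hξ with hX | hY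
    · left
      have hX' : A.valuation (3 * x ^ 2 + 2 * W.a₂ * x + W.a₄ - W.a₁ * y) = 1 := by
        rw [← Valuation.map_neg, neg_sub]; exact hX
      have := (rd_ne_zero_iff hφ hmemX).mpr hX'
      rw [hrdX] at this
      intro h0
      exact this (by linear_combination -h0)
    · right
      have := (rd_ne_zero_iff hφ hmemY).mpr hY
      rwa [hrdY] at this

end bridge

section final

variable {W : WeierstrassCurve ℤ} {A : ValuationSubring (AlgebraicClosure ℚ)}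

lemma Δ_bar_eq (W : WeierstrassCurve ℤ) :
    ((W.map (Int.castRingHom ℚ))⁄(AlgebraicClosure ℚ)).Δ = ((W.Δ : ℤ) : AlgebraicClosure ℚ) := by
  show ((W.map (Int.castRingHom ℚ)).map (algebraMap ℚ (AlgebraicClosure ℚ))).Δ = _
  rw [WeierstrassCurve.map_Δ, WeierstrassCurve.map_Δ]
  simp

lemma c₄_bar_eq (W : WeierstrassCurve ℤ) :
    ((W.map (Int.castRingHom ℚ))⁄(AlgebraicClosure ℚ)).c₄ = ((W.c₄ : ℤ) : AlgebraicClosure ℚ) := by
  show ((W.map (Int.castRingHom ℚ)).map (algebraMap ℚ (AlgebraicClosure ℚ))).c₄ = _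
  rw [WeierstrassCurve.map_c₄, WeierstrassCurve.map_c₄]
  simp

/-- A node model of `W` at a place over a multiplicative prime. -/
theorem exists_nodeModel_int (hΔ : W.Δ ≠ 0) {ℓ : ℕ} (hℓ : ℓ.Prime) (hℓΔ : (ℓ : ℤ) ∣ W.Δ)
    (hℓc₄ : ¬ (ℓ : ℤ) ∣ W.c₄) (hA : A.LiesOverPrime ℓ) :
    ∃ M : NodeModel A.valuation ((W.map (Int.castRingHom ℚ))⁄(AlgebraicClosure ℚ)),
      A.valuation M.e ≤ 1 := by
  refine exists_nodeModel two_ne_zero
    (isRedOf_int A W (IsLocalRing.residue A)).integralCoeffs ?_ ?_ ?_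
  · rw [c₄_bar_eq]; exact val_intCast_eq_one A hA hℓ hℓc₄
  · rw [Δ_bar_eq]; exact val_Δ_lt_one hℓΔ hA
  · rw [Δ_bar_eq]; exact Int.cast_ne_zero.mpr hΔ

/-- **UVAL (b)-EXACT.**  `Q ∉ E⁰` at a place over a multiplicative prime `ℓ ≠ p`:
`v_A(U(W,Q)) ^ p = v_A(Δ) ^ (p - 1)`, i.e. `ord_A U = (p - 1)/p · ord_A Δ`. -/
theorem val_unitU_pow_of_not_inZeroComponentAt {p : ℕ} (hp : p.Prime) (hp2 : p ≠ 2)
    (hΔ : W.Δ ≠ 0) {Q : PtsBar W} (hord : addOrderOf Q = p) {ℓ : ℕ} (hℓ : ℓ.Prime)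
    (hℓp : ℓ ≠ p) (hℓΔ : (ℓ : ℤ) ∣ W.Δ) (hℓc₄ : ¬ (ℓ : ℤ) ∣ W.c₄) (hA : A.LiesOverPrime ℓ)
    (hQ0 : ¬ W.InZeroComponentAt A Q) :
    A.valuation (unitU W p Q) ^ p = A.valuation ((W.Δ : ℤ) : AlgebraicClosure ℚ) ^ (p - 1) := by
  obtain ⟨m, rfl⟩ : ∃ m, p = 2 * m + 1 := by
    rcases hp.eq_two_or_odd' with h | h
    · exact absurd h hp2
    · exact h
  obtain ⟨M, he⟩ := exists_nodeModel_int hΔ hℓ hℓΔ hℓc₄ hA
  have hred := isRedOf_int A W (IsLocalRing.residue A)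
  have hQ : ¬ M.InE0 Q := fun h =>
    hQ0 (_root_.Fermat.Agent.S15.H782.inZeroComponentAt_of_inE0 W A (inE0_of_nodeModel_inE0 hred (kerMax_residue A) M he h))
  have hprod := val_psiProd_pow_of_not_inE0 M hp hord hQ
  have hvΔ : A.valuation ((W.Δ : ℤ) : AlgebraicClosure ℚ) = A.valuation M.a ^ 2 := by
    rw [← Δ_bar_eq]; exact nodeModel_val_Δ M
  have hv : A.valuation (((2 * m + 1 : ℕ)) : AlgebraicClosure ℚ) = 1 :=
    val_natCast_eq_one A hA hℓ hp hℓp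
  have hΔ0 : A.valuation ((W.Δ : ℤ) : AlgebraicClosure ℚ) ≠ 0 :=
    (Valuation.ne_zero_iff _).mpr (Int.cast_ne_zero.mpr hΔ)
  have hmul : A.valuation (unitU W (2 * m + 1) Q) *
      A.valuation ((W.Δ : ℤ) : AlgebraicClosure ℚ) ^ (2 * m + 1 - 1) =
      A.valuation (psiProd _ Q (2 * m + 1)) ^ 4 := by
    rw [← map_pow, ← map_mul, unitU_mul_Δ_pow W hΔ, map_mul, map_pow, map_pow, hv, one_pow,
      one_mul]
  have h1 : 2 * m + 1 - 1 = 2 * m := by omega
  rw [h1] at hmul ⊢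
  have key : A.valuation (unitU W (2 * m + 1) Q) ^ (2 * m + 1) *
      A.valuation ((W.Δ : ℤ) : AlgebraicClosure ℚ) ^ (2 * m * (2 * m + 1)) =
      A.valuation ((W.Δ : ℤ) : AlgebraicClosure ℚ) ^ (2 * m) *
        A.valuation ((W.Δ : ℤ) : AlgebraicClosure ℚ) ^ (2 * m * (2 * m + 1)) := by
    rw [pow_mul, ← mul_pow, hmul, ← pow_mul, mul_comm 4, pow_mul, hprod, hvΔ, ← pow_mul,
      ← pow_mul, ← pow_mul, ← pow_add]
    congr 1
    ring
  exact mul_right_cancel₀ (pow_ne_zero _ hΔ0) key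

/-- **UVAL (b), sign.**  `Q ∉ E⁰` at a multiplicative place `A ∣ ℓ ≠ p` ⟹ `v_A(U) < 1`. -/
theorem val_unitU_lt_one_of_not_inZeroComponentAt {p : ℕ} (hp : p.Prime) (hp2 : p ≠ 2)
    (hΔ : W.Δ ≠ 0) {Q : PtsBar W} (hord : addOrderOf Q = p) {ℓ : ℕ} (hℓ : ℓ.Prime)
    (hℓp : ℓ ≠ p) (hℓΔ : (ℓ : ℤ) ∣ W.Δ) (hℓc₄ : ¬ (ℓ : ℤ) ∣ W.c₄) (hA : A.LiesOverPrime ℓ)
    (hQ0 : ¬ W.InZeroComponentAt A Q) : A.valuation (unitU W p Q) < 1 := by
  have h := val_unitU_pow_of_not_inZeroComponentAt hp hp2 hΔ hord hℓ hℓp hℓΔ hℓc₄ hA hQ0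
  have hlt : A.valuation ((W.Δ : ℤ) : AlgebraicClosure ℚ) ^ (p - 1) < 1 :=
    pow_lt_one₀ zero_le (val_Δ_lt_one hℓΔ hA) (by have := hp.two_le; omega)
  rw [← h] at hlt
  by_contra hcon
  exact absurd hlt (not_lt.mpr (one_le_pow₀ (not_lt.mp hcon)))

/-- **UVAL (a), sign.**  `Q ∈ E⁰` at a multiplicative place `A ∣ ℓ ≠ p` ⟹ `1 < v_A(U)`. -/
theorem one_lt_val_unitU_of_inZeroComponentAt {p : ℕ} (hp : p.Prime) (hp2 : p ≠ 2)
    (hΔ : W.Δ ≠ 0) {Q : PtsBar W} (hord : addOrderOf Q = p) {ℓ : ℕ} (hℓ : ℓ.Prime)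
    (hℓp : ℓ ≠ p) (hℓΔ : (ℓ : ℤ) ∣ W.Δ) (hA : A.LiesOverPrime ℓ)
    (hQ0 : W.InZeroComponentAt A Q) : 1 < A.valuation (unitU W p Q) := by
  have h := val_unitU_of_inZeroComponentAt hp hp2 hΔ hord hℓ hℓp hA hQ0
  have hlt : A.valuation ((W.Δ : ℤ) : AlgebraicClosure ℚ) ^ (p - 1) < 1 :=
    pow_lt_one₀ zero_le (val_Δ_lt_one hℓΔ hA) (by have := hp.two_le; omega)
  by_contra hcon
  have hle : A.valuation (unitU W p Q) ≤ 1 := not_lt.mp hcon
  have : A.valuation (unitU W p Q) *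
      A.valuation ((W.Δ : ℤ) : AlgebraicClosure ℚ) ^ (p - 1) < 1 :=
    lt_of_le_of_lt (mul_le_of_le_one_left zero_le hle) hlt
  rw [h] at this
  exact lt_irrefl _ this

end final

end Fermat.Agent.S15.H782

end
-- ===== PACK-END S15/H782/UValFinal.lean

-- ===== PACK-BEGIN S15/H322/BaseTw.lean
section



/-!
# Row S15 — DESC leaf BASE, part 4 (helper322): `ω`-twisted cocycles `G_ℚ → ℤ/r`, the count

Blueprint `coord/S15-DESC-blueprint.md` §2, pieces with `ψ_i = ω`.  Vocabulary of S56 (on main):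
`IsCycExp r σ a` (`σ μ = μ ^ a` on `μ_r`), `H786.zp ζ n = ζ ^ n.val`, `H786.hilbert90`.

`r` a prime, `ζ` a primitive `r`-th root of unity in `ℚ̄`, `f : G_ℚ → ZMod r`.

* `IsTwCoc r f`       : `f (σ τ) = f σ + ω(σ) f τ`, finite level.
* `IsKumGen r ζ f β`  : `β ≠ 0` and `σ β = ζ ^ f(σ) · β` for all `σ` (a Kummer generator of `f`).
* `KumDivAt r ζ f ℓ`  : every Kummer generator `β` of `f` has `r ∣ v_ℓ(β ^ r)`.
  This is the local condition at `ℓ`; it follows from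
  - `kumDivAt_of_cob`   : `f` is a coboundary on the inertia group at ONE place over `ℓ`
                          (in particular `kumDivAt_of_unram`: `f = 0` there);
  - at `ℓ = r` from flatness (`S15.H379.peuKummer`).
* `IsTwCoc.exists_isKumGen`   : Hilbert 90.
* `IsKumGen.exists_rat`       : `β ^ r ∈ ℚˣ`.
* `tw_trivial_odd`    : `r` odd, `KumDivAt` at all primes ⟹ `f` is a coboundary.
* `tw_dichotomy_odd`  : `r` odd prime, `f₁, f₂` with `KumDivAt` at all `ℓ ≠ p`: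
                        `f₁` is a coboundary or `f₂ = m f₁ + coboundary`.
* `tw_trivial_two`    : `r = 2`, `KumDivAt` at all primes and `f c = 0` (`c` complex conjugation)
                        ⟹ `f = 0`.
-/

set_option autoImplicit false

namespace Fermat.Agent.S15.H322

open Fermat.Agent.S56 Fermat.Agent.S56.H786

section Defs

variable (r : ℕ)

/-- `f` is an `ω`-twisted cocycle of finite level on `G_ℚ`. -/
structure IsTwCoc (f : GQ → ZMod r) : Prop where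
  map_mul : ∀ σ τ : GQ, ∀ a : ℕ, IsCycExp r σ a → f (σ * τ) = f σ + (a : ZMod r) * f τ
  level : ∃ L : IntermediateField ℚ Qb, FiniteDimensional ℚ L ∧
    ∀ σ τ : GQ, (∀ x ∈ L, τ x = x) → f (σ * τ) = f σ

/-- `β` is a Kummer generator of `f`. -/
def IsKumGen (ζ : Qb) (f : GQ → ZMod r) (β : Qb) : Prop :=
  β ≠ 0 ∧ ∀ σ : GQ, σ β = zp ζ (f σ) * β

/-- The local condition at `ℓ`: the `r`-th power of every Kummer generator of `f` has `ℓ`-adic
valuation divisible by `r`. -/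
def KumDivAt (ζ : Qb) (f : GQ → ZMod r) (ℓ : ℕ) : Prop :=
  ∀ (β : Qb) (a : ℚ), IsKumGen r ζ f β → β ^ r = (a : Qb) → (r : ℤ) ∣ padicValRat ℓ a

/-- `f` is the coboundary of `n`. -/
def IsTwCob (f : GQ → ZMod r) (n : ZMod r) : Prop :=
  ∀ σ : GQ, ∀ a : ℕ, IsCycExp r σ a → f σ = ((a : ZMod r) - 1) * n

end Defs

section Basic

variable {r : ℕ} [NeZero r] {ζ : Qb}

/-- **Hilbert 90.** -/
theorem IsTwCoc.exists_isKumGen (hζ : IsPrimitiveRoot ζ r) {f : GQ → ZMod r}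
    (hf : IsTwCoc r f) : ∃ β : Qb, IsKumGen r ζ f β := by
  obtain ⟨L, hL, hlev⟩ := hf.level
  obtain ⟨β, hβ0, hβ⟩ := hilbert90 hζ ⊤ f (fun σ _ τ _ a ha => hf.map_mul σ τ a ha)
    ⟨L, hL, fun σ _ τ _ hτ => hlev σ τ hτ⟩
  exact ⟨β, hβ0, fun σ => hβ σ (Subgroup.mem_top σ)⟩

/-- The `r`-th power of a Kummer generator is a nonzero rational number. -/
theorem IsKumGen.exists_rat (hζ : IsPrimitiveRoot ζ r) {f : GQ → ZMod r} {β : Qb}
    (hβ : IsKumGen r ζ f β) : ∃ a : ℚ, a ≠ 0 ∧ β ^ r = (a : Qb) := by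
  have hgal : IsGalois ℚ Qb := Fermat.Agent.S54.isGalois_algebraicClosure_rat
  have hfix : ∀ σ : GQ, σ (β ^ r) = β ^ r := by
    intro σ
    rw [map_pow, hβ.2 σ, mul_pow, zp_pow_self hζ.pow_eq_one, one_mul]
  obtain ⟨a, ha⟩ := (InfiniteGalois.mem_range_algebraMap_iff_fixed (k := ℚ) (K := Qb)
    (β ^ r)).mpr hfix
  refine ⟨a, ?_, ?_⟩
  · rintro rfl
    rw [map_zero] at ha
    exact hβ.1 (pow_eq_zero_iff (NeZero.ne r) |>.mp ha.symm)
  · rw [← ha, eq_ratCast]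

/-- A root of unity times a rational number is a Kummer generator of a coboundary; conversely a
Kummer generator of `f` of this shape forces `f` to be a coboundary. -/
theorem isTwCob_of_eq_mul (hζ : IsPrimitiveRoot ζ r) {f : GQ → ZMod r} {β : Qb}
    (hβ : IsKumGen r ζ f β) {ξ : Qb} (hξ : ξ ^ r = 1) {b : ℚ} (hb : β = ξ * (b : Qb)) :
    ∃ n : ZMod r, IsTwCob r f n := by
  obtain ⟨n, rfl⟩ := exists_zp_eq hζ hξ
  refine ⟨n, fun σ a ha => ?_⟩
  have hb0 : (b : Qb) ≠ 0 := by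
    intro h0
    rw [h0, mul_zero] at hb
    exact hβ.1 hb
  have h1 := hβ.2 σ
  rw [hb, map_mul, apply_zp hζ.pow_eq_one ha, map_ratCast, ← mul_assoc, ← zp_add hζ.pow_eq_one] at h1
  have h2 := zp_injective hζ (mul_right_cancel₀ hb0 h1)
  -- `a n = f σ + n`
  linear_combination -h2

/-- `(zp ζ x) ^ m = zp ζ (m x)`. -/
theorem zp_pow_nat (hζ : IsPrimitiveRoot ζ r) (x : ZMod r) (m : ℕ) :
    zp ζ x ^ m = zp ζ ((m : ZMod r) * x) :=
  (zp_natCast_mul hζ.pow_eq_one m x).symm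

/-- If `β₂ = ξ β₁ ^ m b` for Kummer generators `β_i` of `f_i`, then `f₂ = m f₁ + coboundary`. -/
theorem isTwCob_sub_of_eq_mul (hζ : IsPrimitiveRoot ζ r) {f₁ f₂ : GQ → ZMod r} {β₁ β₂ : Qb}
    (hβ₁ : IsKumGen r ζ f₁ β₁) (hβ₂ : IsKumGen r ζ f₂ β₂) {ξ : Qb} (hξ : ξ ^ r = 1) {m : ℕ}
    {b : ℚ} (hb : β₂ = ξ * (β₁ ^ m * (b : Qb))) :
    ∃ n : ZMod r, IsTwCob r (fun σ => f₂ σ - (m : ZMod r) * f₁ σ) n := by
  obtain ⟨n, rfl⟩ := exists_zp_eq hζ hξ
  refine ⟨n, fun σ a ha => ?_⟩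
  have hrest : β₁ ^ m * (b : Qb) ≠ 0 := by
    intro h0
    rw [h0, mul_zero] at hb
    exact hβ₂.1 hb
  have h1 := hβ₂.2 σ
  rw [hb, map_mul, map_mul, map_pow, apply_zp hζ.pow_eq_one ha, map_ratCast, hβ₁.2 σ, mul_pow,
    zp_pow_nat hζ] at h1
  have h2 : zp ζ ((a : ZMod r) * n + (m : ZMod r) * f₁ σ) * (β₁ ^ m * (b : Qb)) =
      zp ζ (f₂ σ + n) * (β₁ ^ m * (b : Qb)) := by
    rw [zp_add hζ.pow_eq_one, zp_add hζ.pow_eq_one]
    linear_combination h1
  have h3 := zp_injective hζ (mul_right_cancel₀ hrest h2)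
  show f₂ σ - (m : ZMod r) * f₁ σ = ((a : ZMod r) - 1) * n
  linear_combination -h3

end Basic

section Local

variable {r : ℕ} [NeZero r] {ζ : Qb}

/-- **Local condition from a coboundary on inertia.**  If `f` is, on the inertia group at ONE place
over `ℓ`, the coboundary of some `n`, then `KumDivAt r ζ f ℓ`. -/
theorem kumDivAt_of_cob (hζ : IsPrimitiveRoot ζ r) {f : GQ → ZMod r} {ℓ : ℕ} (hℓ : ℓ.Prime)
    (A : ValuationSubring Qb) (hA : A.LiesOverPrime ℓ) (n : ZMod r)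
    (hcob : ∀ σ ∈ A.inertiaSubgroupIn ℚ, ∀ a : ℕ, IsCycExp r σ a →
      f σ = ((a : ZMod r) - 1) * n) :
    KumDivAt r ζ f ℓ := by
  intro β a hβ hβa
  have ha : a ≠ 0 := by
    rintro rfl
    rw [Rat.cast_zero] at hβa
    exact hβ.1 (pow_eq_zero_iff (NeZero.ne r) |>.mp hβa)
  refine dvd_padicValRat_of_kummer A hℓ hA ha (ξ := zp ζ n) hβa (zp_pow_self hζ.pow_eq_one n) ?_
  intro σ hσ
  obtain ⟨c, hc⟩ := exists_isCycExp hζ σ
  rw [hβ.2 σ, apply_zp hζ.pow_eq_one hc, hcob σ hσ c hc, mul_comm (zp ζ _) β, mul_assoc,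
    ← zp_add hζ.pow_eq_one]
  congr 2
  ring

/-- **Local condition from unramifiedness.** -/
theorem kumDivAt_of_unram (hζ : IsPrimitiveRoot ζ r) {f : GQ → ZMod r} {ℓ : ℕ} (hℓ : ℓ.Prime)
    (A : ValuationSubring Qb) (hA : A.LiesOverPrime ℓ)
    (hunr : ∀ σ ∈ A.inertiaSubgroupIn ℚ, f σ = 0) : KumDivAt r ζ f ℓ :=
  kumDivAt_of_cob hζ hℓ A hA 0 (fun σ hσ a _ => by rw [hunr σ hσ, mul_zero])

end Local

section Count

variable {r : ℕ} {ζ : Qb}

/-- **`r` odd, unramified everywhere ⟹ coboundary.** -/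
theorem tw_trivial_odd (hr : r.Prime) (hr2 : r ≠ 2) (hζ : IsPrimitiveRoot ζ r)
    {f : GQ → ZMod r} (hf : IsTwCoc r f)
    (hdiv : ∀ ℓ : ℕ, ℓ.Prime → KumDivAt r ζ f ℓ) : ∃ n : ZMod r, IsTwCob r f n := by
  have : NeZero r := ⟨hr.ne_zero⟩
  obtain ⟨β, hβ⟩ := hf.exists_isKumGen hζ
  obtain ⟨a, ha, hβa⟩ := hβ.exists_rat hζ
  obtain ⟨ξ, hξ, b, -, hb⟩ := kummer_trivial_odd (hr.odd_of_ne_two hr2) ha hβa
    (fun ℓ hℓ => hdiv ℓ hℓ β a hβ hβa)
  exact isTwCob_of_eq_mul hζ hβ hξ hb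

/-- **Count, `r` an odd prime.**  Two twisted cocycles satisfying the local conditions at all
primes `ℓ ≠ p`: the first is a coboundary, or the second is a multiple of the first up to a
coboundary.  (So the classes of such cocycles form a group of order dividing `r`.) -/
theorem tw_dichotomy_odd {p : ℕ} (hp : p.Prime) (hr : r.Prime) (hr2 : r ≠ 2)
    (hζ : IsPrimitiveRoot ζ r) {f₁ f₂ : GQ → ZMod r} (hf₁ : IsTwCoc r f₁) (hf₂ : IsTwCoc r f₂)
    (hdiv₁ : ∀ ℓ : ℕ, ℓ.Prime → ℓ ≠ p → KumDivAt r ζ f₁ ℓ)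
    (hdiv₂ : ∀ ℓ : ℕ, ℓ.Prime → ℓ ≠ p → KumDivAt r ζ f₂ ℓ) :
    (∃ n : ZMod r, IsTwCob r f₁ n) ∨
      ∃ m : ℕ, m < r ∧ ∃ n : ZMod r, IsTwCob r (fun σ => f₂ σ - (m : ZMod r) * f₁ σ) n := by
  have : NeZero r := ⟨hr.ne_zero⟩
  obtain ⟨β₁, hβ₁⟩ := hf₁.exists_isKumGen hζ
  obtain ⟨β₂, hβ₂⟩ := hf₂.exists_isKumGen hζ
  obtain ⟨a₁, ha₁, hβa₁⟩ := hβ₁.exists_rat hζ
  obtain ⟨a₂, ha₂, hβa₂⟩ := hβ₂.exists_rat hζ
  rcases kummer_dichotomy_odd hp hr hr2 ha₁ ha₂ hβa₁ hβa₂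
    (fun ℓ hℓ hℓp => hdiv₁ ℓ hℓ hℓp β₁ a₁ hβ₁ hβa₁)
    (fun ℓ hℓ hℓp => hdiv₂ ℓ hℓ hℓp β₂ a₂ hβ₂ hβa₂) with
    ⟨ξ, hξ, b, -, hb⟩ | ⟨m, hm, ξ, hξ, b, -, hb⟩
  · left
    exact isTwCob_of_eq_mul hζ hβ₁ hξ hb
  · right
    exact ⟨m, hm, isTwCob_sub_of_eq_mul hζ hβ₁ hβ₂ hξ hb⟩

end Count

end Fermat.Agent.S15.H322

end
-- ===== PACK-END S15/H322/BaseTw.lean

-- ===== PACK-BEGIN S15/H322/BasePiece.lean
section



/-!
# Row S15 — DESC leaf BASE, part 5 (helper322): the per-piece bound, abstract form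

Blueprint `coord/S15-DESC-blueprint.md` §1–2.  `J` an abelian group with an action of
`G = Gal(ℚ̄/ℚ)`, `F' ≤ J` a `G`-stable subgroup, `e ∈ J` with `e ∉ F'`, `r • e ∈ F'` (`r` prime):
the piece is `P = (F' + ℤ e) / F' ≅ ℤ/r`.  A point `y ∈ J` *has coordinate* `f : G → ZMod r` if
`σ y - y ≡ f(σ) e  mod F'` for all `σ` (`HasCoord`).

* `relIndex_le_of_dichotomy` : pure group theory: if any two elements of `K` satisfy
  `y₁ ∈ H ∨ ∃ m < r, y₂ - m y₁ ∈ H`, then `[K : H ∩ K] ≤ r` (and is finite).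
* `HasCoord.isTwCoc`        : `G` acts on `P` by `ω`, `y` of finite level ⟹ `f` is a twisted
  cocycle of finite level.
* `piece_dichotomy_tw`      : **piece `ψ = ω`, `r` odd.**  `y₁, y₂` with coordinates satisfying the
  local conditions `KumDivAt` at all `ℓ ≠ p`:  `y₁ - n e` or `y₂ - m y₁ - n e` has all its
  Kummer values `σ w - w` in `F'`.
* `piece_trivial_tw`        : local conditions at ALL primes: `y - n e` has Kummer values in `F'`.
* `piece_dichotomy_triv`, `piece_trivial_triv` : **piece `ψ = 1`**, local condition = the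
  coordinate vanishes on inertia.
-/

set_option autoImplicit false
set_option linter.unusedSectionVars false
set_option linter.style.haveILetI false

namespace Fermat.Agent.S15.H322

open Fermat.Agent.S56 Fermat.Agent.S56.H786

section Index

variable {J : Type*} [AddCommGroup J]

/-- If any two elements of `K` are dependent modulo `H` with a coefficient `< r`, then
`[K : H ∩ K] ≤ r`. -/
theorem relIndex_le_of_dichotomy (H K : AddSubgroup J) {r : ℕ} (hr : 0 < r)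
    (h : ∀ y₁ ∈ K, ∀ y₂ ∈ K, y₁ ∈ H ∨ ∃ m : ℕ, m < r ∧ y₂ - m • y₁ ∈ H) :
    H.relIndex K ≠ 0 ∧ H.relIndex K ≤ r := by
  classical
  by_cases hKH : K ≤ H
  · rw [AddSubgroup.relIndex_eq_one.mpr hKH]
    exact ⟨one_ne_zero, hr⟩
  · obtain ⟨y₁, hy₁K, hy₁H⟩ := SetLike.not_le_iff_exists.mp hKH
    -- the map `m ↦ [m y₁]` from `Fin r` onto `K / (H ∩ K)`
    let φ : Fin r → K ⧸ H.addSubgroupOf K := fun m =>
      QuotientAddGroup.mk (⟨(m : ℕ) • y₁, K.nsmul_mem hy₁K _⟩ : K)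
    have hφ : Function.Surjective φ := by
      intro q
      induction q using QuotientAddGroup.induction_on with
      | H y₂ =>
        rcases h y₁ hy₁K y₂ y₂.2 with h1 | ⟨m, hm, hmem⟩
        · exact absurd h1 hy₁H
        · refine ⟨⟨m, hm⟩, ?_⟩
          show (QuotientAddGroup.mk _ : K ⧸ H.addSubgroupOf K) = QuotientAddGroup.mk y₂
          rw [QuotientAddGroup.eq]
          show ((-(⟨m • y₁, _⟩ : K) + y₂ : K) : J) ∈ H
          have : ((-(⟨m • y₁, K.nsmul_mem hy₁K _⟩ : K) + y₂ : K) : J) = (y₂ : J) - m • y₁ := by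
            push_cast
            abel
          rw [this]
          exact hmem
    have hfin : Finite (K ⧸ H.addSubgroupOf K) := Finite.of_surjective φ hφ
    have hcard : Nat.card (K ⧸ H.addSubgroupOf K) ≤ r := by
      have := Nat.card_le_card_of_surjective φ hφ
      simpa using this
    have hidx : H.relIndex K = Nat.card (K ⧸ H.addSubgroupOf K) := rfl
    rw [hidx]
    exact ⟨Nat.card_pos.ne', hcard⟩

end Index

section Piece

variable {J : Type*} [AddCommGroup J] [DistribMulAction GQ J]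
variable (r : ℕ) (F' : AddSubgroup J) (e : J)

/-- `y` has coordinate `f` on the piece `(F' + ℤ e) / F'`: `σ y - y ≡ f(σ) e  mod F'`. -/
def HasCoord (y : J) (f : GQ → ZMod r) : Prop :=
  ∀ σ : GQ, σ • y - y - (f σ).val • e ∈ F'

/-- `y` has finite level. -/
def HasLevel (y : J) : Prop :=
  ∃ L : IntermediateField ℚ Qb, FiniteDimensional ℚ L ∧
    ∀ τ : GQ, (∀ x ∈ L, τ x = x) → τ • y = y

/-- All Kummer values `σ y - y` of `y` lie in `F'`. -/
def KumIn (y : J) : Prop :=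
  ∀ σ : GQ, σ • y - y ∈ F'

variable {r F' e}

/-- Multiples of `e` in `F'`: exactly the multiples of `r`. -/
theorem zsmul_mem_iff (hr : r.Prime) (he : e ∉ F') (hre : r • e ∈ F') (k : ℤ) :
    k • e ∈ F' ↔ ((k : ℤ) : ZMod r) = 0 := by
  rw [ZMod.intCast_zmod_eq_zero_iff_dvd]
  constructor
  · intro hk
    by_contra hdvd
    have hcop : IsCoprime k (r : ℤ) := by
      have := (Int.isCoprime_iff_gcd_eq_one).mpr
        (by
          have h1 : Int.gcd (r : ℤ) k = 1 := by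
            rw [Int.gcd_comm]
            have hrp : Prime (r : ℤ) := Nat.prime_iff_prime_int.mp hr
            have := (Int.isCoprime_iff_gcd_eq_one).mp
              ((Prime.coprime_iff_not_dvd hrp).mpr hdvd)
            rw [Int.gcd_comm]; exact this
          rw [Int.gcd_comm]; exact h1)
      exact this
    obtain ⟨u, v, huv⟩ := hcop
    apply he
    have : e = u • (k • e) + v • ((r : ℤ) • e) := by
      rw [smul_smul, smul_smul, ← add_smul, huv, one_smul]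
    rw [this]
    refine F'.add_mem (F'.zsmul_mem hk _) (F'.zsmul_mem ?_ _)
    rw [natCast_zsmul]; exact hre
  · rintro ⟨c, rfl⟩
    rw [mul_comm, mul_smul, natCast_zsmul]
    exact F'.zsmul_mem hre _

/-- `n.val • e` modulo `F'` only depends on `n : ZMod r`. -/
theorem val_smul_sub_zsmul_mem (hr : r.Prime) (he : e ∉ F') (hre : r • e ∈ F') (n : ZMod r)
    (k : ℤ) (hk : ((k : ℤ) : ZMod r) = n) : n.val • e - k • e ∈ F' := by
  haveI : NeZero r := ⟨hr.ne_zero⟩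
  have h1 : n.val • e - k • e = ((n.val : ℤ) - k) • e := by
    rw [sub_smul, natCast_zsmul]
  rw [h1, zsmul_mem_iff hr he hre]
  push_cast
  rw [ZMod.natCast_zmod_val, hk, sub_self]

/-- The coordinate of a point is unique. -/
theorem HasCoord.unique (hr : r.Prime) (he : e ∉ F') (hre : r • e ∈ F') {y : J}
    {f g : GQ → ZMod r} (hf : HasCoord r F' e y f) (hg : HasCoord r F' e y g) : f = g := by
  haveI : NeZero r := ⟨hr.ne_zero⟩
  funext σ
  have h1 := F'.sub_mem (hg σ) (hf σ)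
  have h2 : σ • y - y - (g σ).val • e - (σ • y - y - (f σ).val • e) =
      (((f σ).val : ℤ) - ((g σ).val : ℤ)) • e := by
    rw [sub_smul, natCast_zsmul, natCast_zsmul]; abel
  rw [h2, zsmul_mem_iff hr he hre] at h1
  push_cast at h1
  rw [ZMod.natCast_zmod_val, ZMod.natCast_zmod_val] at h1
  exact sub_eq_zero.mp h1

/-- An integral multiple of `e` with coefficient `≡ 0 mod r` lies in `F'`. -/
theorem zsmul_mem_of_cast_eq_zero (hr : r.Prime) (he : e ∉ F') (hre : r • e ∈ F') {k : ℤ}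
    (hk : ((k : ℤ) : ZMod r) = 0) : k • e ∈ F' :=
  (zsmul_mem_iff hr he hre k).mpr hk

/-- **The coordinate of a point of finite level is a twisted cocycle of finite level**, when `G`
acts on the piece by `ω`. -/
theorem HasCoord.isTwCoc (hr : r.Prime) (hstab : ∀ σ : GQ, ∀ x ∈ F', σ • x ∈ F')
    (he : e ∉ F') (hre : r • e ∈ F')
    (hact : ∀ σ : GQ, ∀ a : ℕ, IsCycExp r σ a → σ • e - a • e ∈ F')
    {y : J} {f : GQ → ZMod r} (hf : HasCoord r F' e y f) (hlev : HasLevel y) :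
    IsTwCoc r f := by
  haveI : NeZero r := ⟨hr.ne_zero⟩
  refine ⟨fun σ τ a ha => ?_, ?_⟩
  · have hA := hf (σ * τ)
    have hB := hf σ
    have hu := hstab σ _ (hf τ)
    have hz := hact σ a ha
    have key : ((((f σ).val : ℤ) + ((f τ).val : ℤ) * (a : ℤ) - ((f (σ * τ)).val : ℤ)) • e) ∈ F' := by
      have e1 : (((f σ).val : ℤ) + ((f τ).val : ℤ) * (a : ℤ) - ((f (σ * τ)).val : ℤ)) • e =
          ((σ * τ) • y - y - (f (σ * τ)).val • e) - (σ • y - y - (f σ).val • e)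
            - σ • (τ • y - y - (f τ).val • e) - ((f τ).val : ℤ) • (σ • e - a • e) := by
        have h1 : σ • (τ • y - y - (f τ).val • e) =
            (σ * τ) • y - σ • y - (f τ).val • (σ • e) := by
          rw [smul_sub, smul_sub, ← mul_smul, smul_comm]
        rw [h1]
        generalize (σ * τ) • y = Y1
        generalize σ • y = Y2
        generalize σ • e = E1
        simp only [← natCast_zsmul]
        module
      rw [e1]
      exact F'.sub_mem (F'.sub_mem (F'.sub_mem hA hB) hu) (F'.zsmul_mem hz _)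
    rw [zsmul_mem_iff hr he hre] at key
    push_cast at key
    rw [ZMod.natCast_zmod_val, ZMod.natCast_zmod_val, ZMod.natCast_zmod_val] at key
    linear_combination -key
  · obtain ⟨L, hL, hlev⟩ := hlev
    refine ⟨L, hL, fun σ τ hτ => ?_⟩
    have hA := hf (σ * τ)
    have hB := hf σ
    rw [mul_smul, hlev τ hτ] at hA
    have key : ((((f σ).val : ℤ) - ((f (σ * τ)).val : ℤ)) • e) ∈ F' := by
      have e1 : (((f σ).val : ℤ) - ((f (σ * τ)).val : ℤ)) • e =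
          (σ • y - y - (f (σ * τ)).val • e) - (σ • y - y - (f σ).val • e) := by
        rw [sub_smul, natCast_zsmul, natCast_zsmul]; abel
      rw [e1]
      exact F'.sub_mem hA hB
    rw [zsmul_mem_iff hr he hre] at key
    push_cast at key
    rw [ZMod.natCast_zmod_val, ZMod.natCast_zmod_val] at key
    linear_combination -key

/-- If `f₂ - m f₁` is the coboundary of `n`, then `y₂ - m y₁ - n e` has all Kummer values in
`F'`. -/
theorem kumIn_of_isTwCob (hr : r.Prime) {ζ : Qb} (hζ : IsPrimitiveRoot ζ r)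
    (he : e ∉ F') (hre : r • e ∈ F')
    (hact : ∀ σ : GQ, ∀ a : ℕ, IsCycExp r σ a → σ • e - a • e ∈ F')
    {y₁ y₂ : J} {f₁ f₂ : GQ → ZMod r} (h₁ : HasCoord r F' e y₁ f₁) (h₂ : HasCoord r F' e y₂ f₂)
    (m : ℕ) (n : ZMod r) (hcob : IsTwCob r (fun σ => f₂ σ - (m : ZMod r) * f₁ σ) n) :
    KumIn F' (y₂ - m • y₁ - n.val • e) := by
  haveI : NeZero r := ⟨hr.ne_zero⟩
  intro σ
  obtain ⟨a, ha⟩ := exists_isCycExp hζ σ
  have hB₁ := h₁ σ
  have hB₂ := h₂ σ
  have hz := hact σ a ha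
  have hc := hcob σ a ha
  have hk : ((((f₂ σ).val : ℤ) - (m : ℤ) * ((f₁ σ).val : ℤ) - (n.val : ℤ) * ((a : ℤ) - 1)) • e)
      ∈ F' := by
    apply zsmul_mem_of_cast_eq_zero hr he hre
    push_cast
    rw [ZMod.natCast_zmod_val, ZMod.natCast_zmod_val, ZMod.natCast_zmod_val]
    linear_combination hc
  have e1 : σ • (y₂ - m • y₁ - n.val • e) - (y₂ - m • y₁ - n.val • e) =
      (σ • y₂ - y₂ - (f₂ σ).val • e) - (m : ℤ) • (σ • y₁ - y₁ - (f₁ σ).val • e)
        - (n.val : ℤ) • (σ • e - a • e)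
        + (((f₂ σ).val : ℤ) - (m : ℤ) * ((f₁ σ).val : ℤ) - (n.val : ℤ) * ((a : ℤ) - 1)) • e := by
    have h1 : σ • (y₂ - m • y₁ - n.val • e) = σ • y₂ - m • (σ • y₁) - n.val • (σ • e) := by
      rw [smul_sub, smul_sub, smul_comm σ m, smul_comm σ n.val]
    rw [h1]
    generalize σ • y₂ = Y2
    generalize σ • y₁ = Y1
    generalize σ • e = E1
    simp only [← natCast_zsmul]
    module
  rw [e1]
  exact F'.add_mem (F'.sub_mem (F'.sub_mem hB₂ (F'.zsmul_mem hB₁ _)) (F'.zsmul_mem hz _)) hk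

/-- **Piece `ψ = ω`, `r` an odd prime: the dichotomy.** -/
theorem piece_dichotomy_tw {p : ℕ} (hp : p.Prime) (hr : r.Prime) (hr2 : r ≠ 2) {ζ : Qb}
    (hζ : IsPrimitiveRoot ζ r) (hstab : ∀ σ : GQ, ∀ x ∈ F', σ • x ∈ F')
    (he : e ∉ F') (hre : r • e ∈ F')
    (hact : ∀ σ : GQ, ∀ a : ℕ, IsCycExp r σ a → σ • e - a • e ∈ F')
    {y₁ y₂ : J} {f₁ f₂ : GQ → ZMod r} (h₁ : HasCoord r F' e y₁ f₁) (h₂ : HasCoord r F' e y₂ f₂)
    (hl₁ : HasLevel y₁) (hl₂ : HasLevel y₂)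
    (hdiv₁ : ∀ ℓ : ℕ, ℓ.Prime → ℓ ≠ p → KumDivAt r ζ f₁ ℓ)
    (hdiv₂ : ∀ ℓ : ℕ, ℓ.Prime → ℓ ≠ p → KumDivAt r ζ f₂ ℓ) :
    (∃ n : ℕ, KumIn F' (y₁ - n • e)) ∨
      ∃ m : ℕ, m < r ∧ ∃ n : ℕ, KumIn F' (y₂ - m • y₁ - n • e) := by
  have hc₁ := h₁.isTwCoc hr hstab he hre hact hl₁
  have hc₂ := h₂.isTwCoc hr hstab he hre hact hl₂
  rcases tw_dichotomy_odd hp hr hr2 hζ hc₁ hc₂ hdiv₁ hdiv₂ with ⟨n, hn⟩ | ⟨m, hm, n, hn⟩
  · left
    refine ⟨n.val, ?_⟩
    have hn' : IsTwCob r (fun σ => f₁ σ - ((0 : ℕ) : ZMod r) * f₁ σ) n := by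
      intro σ a ha
      simp only [Nat.cast_zero, zero_mul, sub_zero]
      exact hn σ a ha
    have := kumIn_of_isTwCob hr hζ he hre hact h₁ h₁ 0 n hn'
    rw [zero_smul, sub_zero] at this
    exact this
  · right
    exact ⟨m, hm, n.val, kumIn_of_isTwCob hr hζ he hre hact h₁ h₂ m n hn⟩

/-- **Piece `ψ = ω`, `r` an odd prime, local conditions at all primes.** -/
theorem piece_trivial_tw (hr : r.Prime) (hr2 : r ≠ 2) {ζ : Qb}
    (hζ : IsPrimitiveRoot ζ r) (hstab : ∀ σ : GQ, ∀ x ∈ F', σ • x ∈ F')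
    (he : e ∉ F') (hre : r • e ∈ F')
    (hact : ∀ σ : GQ, ∀ a : ℕ, IsCycExp r σ a → σ • e - a • e ∈ F')
    {y : J} {f : GQ → ZMod r} (h : HasCoord r F' e y f) (hl : HasLevel y)
    (hdiv : ∀ ℓ : ℕ, ℓ.Prime → KumDivAt r ζ f ℓ) :
    ∃ n : ℕ, KumIn F' (y - n • e) := by
  have hc := h.isTwCoc hr hstab he hre hact hl
  obtain ⟨n, hn⟩ := tw_trivial_odd hr hr2 hζ hc hdiv
  refine ⟨n.val, ?_⟩
  have hn' : IsTwCob r (fun σ => f σ - ((0 : ℕ) : ZMod r) * f σ) n := by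
    intro σ a ha
    simp only [Nat.cast_zero, zero_mul, sub_zero]
    exact hn σ a ha
  have := kumIn_of_isTwCob hr hζ he hre hact h h 0 n hn'
  rw [zero_smul, sub_zero] at this
  exact this

/-- **Index bound for a piece `ψ = ω`** (`r` odd).  `Y` a subgroup all of whose elements have a
coordinate, finite level and satisfy the local conditions away from `p`; `H` a subgroup containing
`e` and every element of `Y` with Kummer values in `F'`.  Then `[Y : H ∩ Y] ≤ r`. -/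
theorem piece_relIndex_le_tw {p : ℕ} (hp : p.Prime) (hr : r.Prime) (hr2 : r ≠ 2) {ζ : Qb}
    (hζ : IsPrimitiveRoot ζ r) (hstab : ∀ σ : GQ, ∀ x ∈ F', σ • x ∈ F')
    (he : e ∉ F') (hre : r • e ∈ F')
    (hact : ∀ σ : GQ, ∀ a : ℕ, IsCycExp r σ a → σ • e - a • e ∈ F')
    (Y H : AddSubgroup J) (heY : e ∈ Y) (heH : e ∈ H)
    (hY : ∀ y ∈ Y, ∃ f : GQ → ZMod r, HasCoord r F' e y f ∧ HasLevel y ∧
      ∀ ℓ : ℕ, ℓ.Prime → ℓ ≠ p → KumDivAt r ζ f ℓ)
    (hH : ∀ w ∈ Y, KumIn F' w → w ∈ H) :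
    H.relIndex Y ≠ 0 ∧ H.relIndex Y ≤ r := by
  refine relIndex_le_of_dichotomy H Y hr.pos (fun y₁ hy₁ y₂ hy₂ => ?_)
  obtain ⟨f₁, h₁, hl₁, hd₁⟩ := hY y₁ hy₁
  obtain ⟨f₂, h₂, hl₂, hd₂⟩ := hY y₂ hy₂
  rcases piece_dichotomy_tw hp hr hr2 hζ hstab he hre hact h₁ h₂ hl₁ hl₂ hd₁ hd₂ with
    ⟨n, hn⟩ | ⟨m, hm, n, hn⟩
  · left
    have h1 : y₁ - n • e ∈ H := hH _ (Y.sub_mem hy₁ (Y.nsmul_mem heY n)) hn
    have := H.add_mem h1 (H.nsmul_mem heH n)
    rwa [sub_add_cancel] at this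
  · right
    refine ⟨m, hm, ?_⟩
    have h1 : y₂ - m • y₁ - n • e ∈ H :=
      hH _ (Y.sub_mem (Y.sub_mem hy₂ (Y.nsmul_mem hy₁ m)) (Y.nsmul_mem heY n)) hn
    have := H.add_mem h1 (H.nsmul_mem heH n)
    rwa [sub_add_cancel] at this

/-- **Index for a piece `ψ = ω`, local conditions at all primes**: `Y ≤ H`. -/
theorem piece_le_tw (hr : r.Prime) (hr2 : r ≠ 2) {ζ : Qb}
    (hζ : IsPrimitiveRoot ζ r) (hstab : ∀ σ : GQ, ∀ x ∈ F', σ • x ∈ F')
    (he : e ∉ F') (hre : r • e ∈ F')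
    (hact : ∀ σ : GQ, ∀ a : ℕ, IsCycExp r σ a → σ • e - a • e ∈ F')
    (Y H : AddSubgroup J) (heY : e ∈ Y) (heH : e ∈ H)
    (hY : ∀ y ∈ Y, ∃ f : GQ → ZMod r, HasCoord r F' e y f ∧ HasLevel y ∧
      ∀ ℓ : ℕ, ℓ.Prime → KumDivAt r ζ f ℓ)
    (hH : ∀ w ∈ Y, KumIn F' w → w ∈ H) : Y ≤ H := by
  intro y hy
  obtain ⟨f, h, hl, hd⟩ := hY y hy
  obtain ⟨n, hn⟩ := piece_trivial_tw hr hr2 hζ hstab he hre hact h hl hd
  have h1 : y - n • e ∈ H := hH _ (Y.sub_mem hy (Y.nsmul_mem heY n)) hn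
  have := H.add_mem h1 (H.nsmul_mem heH n)
  rwa [sub_add_cancel] at this

/-! ### Pieces with trivial action (`ψ = 1`) -/

/-- A finite-dimensional intermediate field is fixed pointwise as soon as a suitable finite set
is (technique of `S15.H242.BaseE.FiniteLevel.exists_finset`). -/
theorem exists_finset_of_finiteDimensional (L : IntermediateField ℚ Qb)
    [FiniteDimensional ℚ L] :
    ∃ s : Finset Qb, ∀ σ : GQ, (∀ x ∈ s, σ x = x) → ∀ x ∈ L, σ x = x := by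
  classical
  let b := Module.finBasis ℚ L
  refine ⟨Finset.univ.image fun i => ((b i : L) : Qb), fun σ hσ x hx => ?_⟩
  have hb : ∀ i, σ ((b i : L) : Qb) = ((b i : L) : Qb) := fun i =>
    hσ _ (Finset.mem_image.mpr ⟨i, Finset.mem_univ _, rfl⟩)
  have hrepr := b.sum_repr ⟨x, hx⟩
  have hx' : x = ∑ i, (b.repr ⟨x, hx⟩ i) • ((b i : L) : Qb) := by
    have := congrArg (fun e : L => (e : Qb)) hrepr
    simp only [IntermediateField.coe_sum, IntermediateField.coe_smul] at this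
    exact this.symm
  rw [hx', map_sum]
  refine Finset.sum_congr rfl fun i _ => ?_
  rw [Algebra.smul_def, map_mul, AlgEquiv.commutes, hb]

/-- The coordinate of a point is additive when `G` acts trivially on the piece. -/
theorem HasCoord.map_mul_triv (hr : r.Prime) (hstab : ∀ σ : GQ, ∀ x ∈ F', σ • x ∈ F')
    (he : e ∉ F') (hre : r • e ∈ F') (hact : ∀ σ : GQ, σ • e - e ∈ F')
    {y : J} {f : GQ → ZMod r} (hf : HasCoord r F' e y f) (σ τ : GQ) :
    f (σ * τ) = f σ + f τ := by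
  haveI : NeZero r := ⟨hr.ne_zero⟩
  have hA := hf (σ * τ)
  have hB := hf σ
  have hu := hstab σ _ (hf τ)
  have hz := hact σ
  have key : ((((f σ).val : ℤ) + ((f τ).val : ℤ) - ((f (σ * τ)).val : ℤ)) • e) ∈ F' := by
    have e1 : (((f σ).val : ℤ) + ((f τ).val : ℤ) - ((f (σ * τ)).val : ℤ)) • e =
        ((σ * τ) • y - y - (f (σ * τ)).val • e) - (σ • y - y - (f σ).val • e)
          - σ • (τ • y - y - (f τ).val • e) - ((f τ).val : ℤ) • (σ • e - e) := by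
      have h1 : σ • (τ • y - y - (f τ).val • e) =
          (σ * τ) • y - σ • y - (f τ).val • (σ • e) := by
        rw [smul_sub, smul_sub, ← mul_smul, smul_comm]
      rw [h1]
      generalize (σ * τ) • y = Y1
      generalize σ • y = Y2
      generalize σ • e = E1
      simp only [← natCast_zsmul]
      module
    rw [e1]
    exact F'.sub_mem (F'.sub_mem (F'.sub_mem hA hB) hu) (F'.zsmul_mem hz _)
  rw [zsmul_mem_iff hr he hre] at key
  push_cast at key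
  rw [ZMod.natCast_zmod_val, ZMod.natCast_zmod_val, ZMod.natCast_zmod_val] at key
  linear_combination -key

/-- The coordinate of a point of finite level vanishes on a small open subgroup. -/
theorem HasCoord.exists_finset (hr : r.Prime) (he : e ∉ F') (hre : r • e ∈ F')
    {y : J} {f : GQ → ZMod r} (hf : HasCoord r F' e y f) (hlev : HasLevel y) :
    ∃ s : Finset Qb, ∀ σ : GQ, (∀ x ∈ s, σ x = x) → f σ = 0 := by
  haveI : NeZero r := ⟨hr.ne_zero⟩
  obtain ⟨L, hL, hlev⟩ := hlev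
  obtain ⟨s, hs⟩ := exists_finset_of_finiteDimensional L
  refine ⟨s, fun σ hσ => ?_⟩
  have hA := hf σ
  rw [hlev σ (hs σ hσ), sub_self, zero_sub] at hA
  have key : (((f σ).val : ℤ) • e) ∈ F' := by
    rw [natCast_zsmul]
    have := F'.neg_mem hA
    rwa [neg_neg] at this
  rw [zsmul_mem_iff hr he hre] at key
  push_cast at key
  rwa [ZMod.natCast_zmod_val] at key

/-- The coordinate of a point, for a piece with trivial action, is a character unramified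
outside `p` as soon as it vanishes on inertia at the primes `ℓ ≠ p`. -/
theorem HasCoord.isCharUnrOutside (hr : r.Prime) (hstab : ∀ σ : GQ, ∀ x ∈ F', σ • x ∈ F')
    (he : e ∉ F') (hre : r • e ∈ F') (hact : ∀ σ : GQ, σ • e - e ∈ F')
    {y : J} {f : GQ → ZMod r} (hf : HasCoord r F' e y f) (hlev : HasLevel y) {p : ℕ}
    (hunr : ∀ ℓ : ℕ, ℓ.Prime → ℓ ≠ p → ∃ B : ValuationSubring Qb,
      B.LiesOverPrime ℓ ∧ ∀ σ ∈ B.inertiaSubgroupIn ℚ, f σ = 0) :
    IsCharUnrOutside p f :=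
  ⟨hf.map_mul_triv hr hstab he hre hact, hf.exists_finset hr he hre hlev, hunr⟩

/-- If `f₂ = m f₁`, then `y₂ - m y₁` has all Kummer values in `F'` (trivial action). -/
theorem kumIn_of_eq_smul (hr : r.Prime) (he : e ∉ F') (hre : r • e ∈ F')
    {y₁ y₂ : J} {f₁ f₂ : GQ → ZMod r} (h₁ : HasCoord r F' e y₁ f₁) (h₂ : HasCoord r F' e y₂ f₂)
    (m : ℕ) (hm : ∀ σ, f₂ σ = m • f₁ σ) : KumIn F' (y₂ - m • y₁) := by
  haveI : NeZero r := ⟨hr.ne_zero⟩
  intro σ
  have hB₁ := h₁ σ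
  have hB₂ := h₂ σ
  have hk : ((((f₂ σ).val : ℤ) - (m : ℤ) * ((f₁ σ).val : ℤ)) • e) ∈ F' := by
    apply zsmul_mem_of_cast_eq_zero hr he hre
    push_cast
    rw [ZMod.natCast_zmod_val, ZMod.natCast_zmod_val, hm σ, nsmul_eq_mul, sub_self]
  have e1 : σ • (y₂ - m • y₁) - (y₂ - m • y₁) =
      (σ • y₂ - y₂ - (f₂ σ).val • e) - (m : ℤ) • (σ • y₁ - y₁ - (f₁ σ).val • e)
        + (((f₂ σ).val : ℤ) - (m : ℤ) * ((f₁ σ).val : ℤ)) • e := by
    have h1 : σ • (y₂ - m • y₁) = σ • y₂ - m • (σ • y₁) := by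
      rw [smul_sub, smul_comm σ m]
    rw [h1]
    generalize σ • y₂ = Y2
    generalize σ • y₁ = Y1
    simp only [← natCast_zsmul]
    module
  rw [e1]
  exact F'.add_mem (F'.sub_mem hB₂ (F'.zsmul_mem hB₁ _)) hk

/-- **Piece `ψ = 1`: the dichotomy** (`r ≠ p` primes). -/
theorem piece_dichotomy_triv {p : ℕ} (hp : p.Prime) (hr : r.Prime) (hrp : r ≠ p)
    (hstab : ∀ σ : GQ, ∀ x ∈ F', σ • x ∈ F')
    (he : e ∉ F') (hre : r • e ∈ F') (hact : ∀ σ : GQ, σ • e - e ∈ F')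
    {y₁ y₂ : J} {f₁ f₂ : GQ → ZMod r} (h₁ : HasCoord r F' e y₁ f₁) (h₂ : HasCoord r F' e y₂ f₂)
    (hl₁ : HasLevel y₁) (hl₂ : HasLevel y₂)
    (hunr₁ : ∀ ℓ : ℕ, ℓ.Prime → ℓ ≠ p → ∃ B : ValuationSubring Qb,
      B.LiesOverPrime ℓ ∧ ∀ σ ∈ B.inertiaSubgroupIn ℚ, f₁ σ = 0)
    (hunr₂ : ∀ ℓ : ℕ, ℓ.Prime → ℓ ≠ p → ∃ B : ValuationSubring Qb,
      B.LiesOverPrime ℓ ∧ ∀ σ ∈ B.inertiaSubgroupIn ℚ, f₂ σ = 0) :
    KumIn F' y₁ ∨ ∃ m : ℕ, m < r ∧ KumIn F' (y₂ - m • y₁) := by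
  haveI : NeZero r := ⟨hr.ne_zero⟩
  have hc₁ := h₁.isCharUnrOutside hr hstab he hre hact hl₁ hunr₁
  have hc₂ := h₂.isCharUnrOutside hr hstab he hre hact hl₂ hunr₂
  rcases hc₁.dichotomy hc₂ hp hr hrp (Nat.card_zmod r) with h0 | ⟨m, hm, hmf⟩
  · left
    have hz : ∀ σ, f₁ σ = (0 : ℕ) • f₁ σ := fun σ => by rw [h0 σ, smul_zero]
    have := kumIn_of_eq_smul hr he hre h₁ h₁ 0 hz
    rwa [zero_smul, sub_zero] at this
  · right
    exact ⟨m, hm, kumIn_of_eq_smul hr he hre h₁ h₂ m hmf⟩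

/-- **Piece `ψ = 1`, unramified everywhere**: Kummer values in `F'`. -/
theorem piece_trivial_triv {p : ℕ} (hp : p.Prime) (hr : r.Prime)
    (hstab : ∀ σ : GQ, ∀ x ∈ F', σ • x ∈ F')
    (he : e ∉ F') (hre : r • e ∈ F') (hact : ∀ σ : GQ, σ • e - e ∈ F')
    {y : J} {f : GQ → ZMod r} (h : HasCoord r F' e y f) (hl : HasLevel y)
    (hunr : ∀ ℓ : ℕ, ℓ.Prime → ∃ B : ValuationSubring Qb,
      B.LiesOverPrime ℓ ∧ ∀ σ ∈ B.inertiaSubgroupIn ℚ, f σ = 0) :
    KumIn F' y := by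
  haveI : NeZero r := ⟨hr.ne_zero⟩
  have hc := h.isCharUnrOutside (p := p) hr hstab he hre hact hl (fun ℓ hℓ _ => hunr ℓ hℓ)
  have h0 : ∀ σ, f σ = 0 := hc.eq_zero_of_unram (hunr p hp)
  have hz : ∀ σ, f σ = (0 : ℕ) • f σ := fun σ => by rw [h0 σ, smul_zero]
  have := kumIn_of_eq_smul hr he hre h h 0 hz
  rwa [zero_smul, sub_zero] at this

/-- **Index bound for a piece `ψ = 1`.** -/
theorem piece_relIndex_le_triv {p : ℕ} (hp : p.Prime) (hr : r.Prime) (hrp : r ≠ p)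
    (hstab : ∀ σ : GQ, ∀ x ∈ F', σ • x ∈ F')
    (he : e ∉ F') (hre : r • e ∈ F') (hact : ∀ σ : GQ, σ • e - e ∈ F')
    (Y H : AddSubgroup J)
    (hY : ∀ y ∈ Y, ∃ f : GQ → ZMod r, HasCoord r F' e y f ∧ HasLevel y ∧
      ∀ ℓ : ℕ, ℓ.Prime → ℓ ≠ p → ∃ B : ValuationSubring Qb,
        B.LiesOverPrime ℓ ∧ ∀ σ ∈ B.inertiaSubgroupIn ℚ, f σ = 0)
    (hH : ∀ w ∈ Y, KumIn F' w → w ∈ H) :
    H.relIndex Y ≠ 0 ∧ H.relIndex Y ≤ r := by
  refine relIndex_le_of_dichotomy H Y hr.pos (fun y₁ hy₁ y₂ hy₂ => ?_)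
  obtain ⟨f₁, h₁, hl₁, hd₁⟩ := hY y₁ hy₁
  obtain ⟨f₂, h₂, hl₂, hd₂⟩ := hY y₂ hy₂
  rcases piece_dichotomy_triv hp hr hrp hstab he hre hact h₁ h₂ hl₁ hl₂ hd₁ hd₂ with
    hn | ⟨m, hm, hn⟩
  · left
    exact hH _ hy₁ hn
  · right
    exact ⟨m, hm, hH _ (Y.sub_mem hy₂ (Y.nsmul_mem hy₁ m)) hn⟩

end Piece

end Fermat.Agent.S15.H322

end
-- ===== PACK-END S15/H322/BasePiece.lean

-- ===== PACK-BEGIN S15/H11/Tau0.lean
section


/-!
# S15 / DESC, node STEP, leaf TAU0 (helper11)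

Local facts at a place `A | p` of `ℚ̄` about a root `π` of `X ^ r - p` (`r ≠ p` primes) and the
inertia group `I_A`:

* `eq_one_of_pow_eq_one_of_sub_mem` : an `r`-th root of unity `ξ ≡ 1 mod 𝔪_A` is `1`;
* `inertia_fixes_of_pow_fixed` : `σ ∈ I_A` fixes every `A`-unit `β` whose `r`-th power it fixes;
* `exists_inertia_moves_root` : some `τ ∈ I_A` moves `π` (`π ^ r = p`);
* `dvd_padicValRat_of_fixed_by` : if `τ ∈ I_A` moves `π` and fixes `b`, `b ^ r = a ∈ ℚˣ`, then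
  `r ∣ v_p(a)`.

(Complex conjugation inverts roots of unity: `S30.H990.complexConjugation_root`, on main.)
-/

set_option autoImplicit false

noncomputable section

namespace Fermat.Agent.S15.H11

/-- `ℚ̄` (local abbreviation). -/
local notation "Qb" => AlgebraicClosure ℚ

/-- `Gal(ℚ̄/ℚ)` (local abbreviation). -/
local notation "GQ" => (AlgebraicClosure ℚ ≃ₐ[ℚ] AlgebraicClosure ℚ)

variable (A : ValuationSubring Qb) {p r : ℕ}

/-- Powers of an element `≡ 1 mod 𝔪_A` are `≡ 1 mod 𝔪_A`. -/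
theorem valuation_pow_sub_one_lt_one {ξ : Qb} (h : A.valuation (ξ - 1) < 1) (i : ℕ) :
    A.valuation (ξ ^ i - 1) < 1 := by
  have hξ : A.valuation ξ = 1 := by
    have := Valuation.map_one_add_of_lt (v := A.valuation) h
    rwa [add_sub_cancel] at this
  have hs : A.valuation (∑ j ∈ Finset.range i, ξ ^ j) ≤ 1 := by
    refine Valuation.map_sum_le _ fun j _ => ?_
    rw [map_pow, hξ, one_pow]
  rw [← geom_sum_mul, map_mul]
  calc A.valuation (∑ j ∈ Finset.range i, ξ ^ j) * A.valuation (ξ - 1)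
      ≤ 1 * A.valuation (ξ - 1) := mul_le_mul' hs le_rfl
    _ = A.valuation (ξ - 1) := one_mul _
    _ < 1 := h

/-- **(b)** An `r`-th root of unity congruent to `1` modulo the maximal ideal of a place over
`p ≠ r` is equal to `1`. -/
theorem eq_one_of_pow_eq_one_of_valuation_lt (hp : p.Prime) (hr : r.Prime) (hrp : r ≠ p)
    (hA : A.LiesOverPrime p) {ξ : Qb} (hξ : ξ ^ r = 1) (h : A.valuation (ξ - 1) < 1) :
    ξ = 1 := by
  by_contra hne
  have hne' : ξ - 1 ≠ 0 := sub_ne_zero.mpr hne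
  have hsum : ∑ i ∈ Finset.range r, ξ ^ i = 0 := by
    have h1 := geom_sum_mul ξ r
    rw [hξ, sub_self] at h1
    exact (mul_eq_zero.mp h1).resolve_right hne'
  have hr1 : A.valuation ((r : ℕ) : Qb) = 1 :=
    Fermat.Agent.S56.H186.valuation_natCast_eq_one_of_coprime A hA
      ((Nat.coprime_primes hr hp).mpr hrp)
  have hlt : A.valuation (∑ i ∈ Finset.range r, (ξ ^ i - 1)) < 1 :=
    Valuation.map_sum_lt _ one_ne_zero fun i _ => valuation_pow_sub_one_lt_one A h i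
  rw [Finset.sum_sub_distrib, hsum, Finset.sum_const, Finset.card_range, nsmul_eq_mul, mul_one,
    zero_sub, Valuation.map_neg, hr1] at hlt
  exact lt_irrefl _ hlt

/-- **(b)**, membership form. -/
theorem eq_one_of_pow_eq_one_of_sub_mem (hp : p.Prime) (hr : r.Prime) (hrp : r ≠ p)
    (hA : A.LiesOverPrime p) {ξ : Qb} (hξ : ξ ^ r = 1) (h : ξ - 1 ∈ A.nonunits) : ξ = 1 :=
  eq_one_of_pow_eq_one_of_valuation_lt A hp hr hrp hA hξ (A.mem_nonunits_iff.mp h)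

/-- An inertia element at a place over `p` fixes every `A`-unit whose `r`-th power it fixes
(`r ≠ p` prime): the extension generated by an `r`-th root of a unit is unramified. -/
theorem inertia_fixes_of_pow_fixed (hp : p.Prime) (hr : r.Prime) (hrp : r ≠ p)
    (hA : A.LiesOverPrime p) {σ : GQ} (hσ : σ ∈ A.inertiaSubgroupIn ℚ) {β : Qb}
    (hβ1 : A.valuation β = 1) (hβ : σ (β ^ r) = β ^ r) : σ β = β := by
  have hβ0 : β ≠ 0 := by
    intro h0
    rw [h0, map_zero] at hβ1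
    exact zero_ne_one hβ1
  have hβA : β ∈ A := (A.valuation_le_one_iff β).mp hβ1.le
  have hsub : A.valuation (σ β - β) < 1 :=
    A.mem_nonunits_iff.mp (Fermat.Agent.A2.IF.H429.sub_mem_nonunits_of_inertia A hσ hβA)
  have hξ : (σ β / β) ^ r = 1 := by
    rw [div_pow, ← map_pow, hβ, div_self (pow_ne_zero _ hβ0)]
  have hlt : A.valuation (σ β / β - 1) < 1 := by
    have e : σ β / β - 1 = (σ β - β) / β := by
      field_simp
    rw [e, map_div₀, hβ1, div_one]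
    exact hsub
  have h1 := eq_one_of_pow_eq_one_of_valuation_lt A hp hr hrp hA hξ hlt
  exact (div_eq_one_iff_eq hβ0).mp h1

/-- **(a)** Some inertia element at a place over `p` moves an `r`-th root of `p`. -/
theorem exists_inertia_moves_root (hp : p.Prime) (hr : r.Prime)
    (hA : A.LiesOverPrime p) {π : Qb} (hπ : π ^ r = (p : Qb)) :
    ∃ τ ∈ A.inertiaSubgroupIn ℚ, τ π ≠ π := by
  by_contra hcon
  simp only [not_exists, not_and, not_not] at hcon
  have hπ' : π ^ r = (((p : ℕ) : ℚ) : Qb) := by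
    rw [hπ]; push_cast; rfl
  have hdvd := Fermat.Agent.S15.H322.dvd_padicValRat_of_fixed A hp hA
    (a := ((p : ℕ) : ℚ)) (Nat.cast_ne_zero.mpr hp.ne_zero) hπ' hcon
  have : Fact p.Prime := ⟨hp⟩
  rw [padicValRat.self hp.one_lt] at hdvd
  have h1 : (r : ℤ) = 1 ∨ (r : ℤ) = -1 := Int.isUnit_iff.mp (isUnit_of_dvd_one hdvd)
  rcases h1 with h1 | h1
  · exact hr.one_lt.ne' (by exact_mod_cast h1)
  · have : (0 : ℤ) ≤ r := Int.natCast_nonneg r
    omega

/-- **(c)** If an inertia element `τ` at a place over `p` moves an `r`-th root `π` of `p` and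
fixes an `r`-th root `b` of `a ∈ ℚˣ`, then `r ∣ v_p(a)`. -/
theorem dvd_padicValRat_of_fixed_by (hp : p.Prime) (hr : r.Prime) (hrp : r ≠ p)
    (hA : A.LiesOverPrime p) {π : Qb} (hπ : π ^ r = (p : Qb))
    {τ : GQ} (hτ : τ ∈ A.inertiaSubgroupIn ℚ) (hτπ : τ π ≠ π)
    {a : ℚ} (ha : a ≠ 0) {b : Qb} (hb : b ^ r = (a : Qb)) (hfix : τ b = b) :
    (r : ℤ) ∣ padicValRat p a := by
  set k : ℤ := padicValRat p a with hk
  have hp0 : (p : Qb) ≠ 0 := Nat.cast_ne_zero.mpr hp.ne_zero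
  have hπ0 : π ≠ 0 := by
    intro h0
    rw [h0, zero_pow hr.ne_zero] at hπ
    exact hp0 hπ.symm
  have ha0 : (a : Qb) ≠ 0 := by exact_mod_cast ha
  have hb0 : b ≠ 0 := by
    intro h0
    rw [h0, zero_pow hr.ne_zero] at hb
    exact ha0 hb.symm
  -- `ζ = τ π / π` is a primitive `r`-th root of unity
  set ζ : Qb := τ π / π with hζdef
  have hζr : ζ ^ r = 1 := by
    rw [hζdef, div_pow, ← map_pow, hπ, map_natCast, div_self hp0]
  have hζ1 : ζ ≠ 1 := fun h => hτπ ((div_eq_one_iff_eq hπ0).mp h)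
  have hζprim : IsPrimitiveRoot ζ r := by
    have ho : orderOf ζ = r := by
      have : Fact r.Prime := ⟨hr⟩
      exact orderOf_eq_prime hζr hζ1
    rw [← ho]
    exact IsPrimitiveRoot.orderOf ζ
  have hτπ' : τ π = ζ * π := by
    rw [hζdef, div_mul_cancel₀ _ hπ0]
  -- `β = b / π ^ k` is an `A`-unit with rational `r`-th power
  set β : Qb := b / π ^ k with hβdef
  have hβr : β ^ r = (a : Qb) / (p : Qb) ^ k := by
    rw [hβdef, div_pow, hb, ← zpow_natCast (π ^ k) r, ← zpow_mul, mul_comm k (r : ℤ), zpow_mul,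
      zpow_natCast, hπ]
  have hvp0 : A.valuation (p : Qb) ≠ 0 := (Valuation.ne_zero_iff _).mpr hp0
  have hβv : A.valuation β ^ r = 1 := by
    rw [← map_pow, hβr, map_div₀, map_zpow₀,
      Fermat.Agent.S15.H322.valuation_ratCast_eq A hp hA ha, ← hk,
      div_self (zpow_ne_zero _ hvp0)]
  have hβ1 : A.valuation β = 1 := by
    rcases lt_trichotomy (A.valuation β) 1 with h | h | h
    · exact absurd hβv (pow_lt_one₀ zero_le h hr.ne_zero).ne
    · exact h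
    · exact absurd hβv (one_lt_pow₀ h hr.ne_zero).ne'
  have hτβr : τ (β ^ r) = β ^ r := by
    rw [hβr, map_div₀, map_zpow₀, map_natCast, map_ratCast]
  have hτβ : τ β = β := inertia_fixes_of_pow_fixed A hp hr hrp hA hτ hβ1 hτβr
  have hβ0 : β ≠ 0 := by
    intro h0
    rw [h0, map_zero] at hβ1
    exact zero_ne_one hβ1
  -- `τ b = ζ ^ k * b`
  have hbβ : b = β * π ^ k := by
    rw [hβdef, div_mul_cancel₀ _ (zpow_ne_zero _ hπ0)]
  have hτb : τ b = ζ ^ k * b := by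
    conv_lhs => rw [hbβ]
    rw [map_mul, hτβ, map_zpow₀, hτπ', mul_zpow]
    conv_rhs => rw [hbβ]
    ring
  have hζk : ζ ^ k = 1 := by
    rw [hfix] at hτb
    have h2 : (1 : Qb) * b = ζ ^ k * b := by rw [one_mul]; exact hτb
    exact (mul_right_cancel₀ hb0 h2).symm
  exact (hζprim.zpow_eq_one_iff_dvd k).mp hζk

/-- **(c)**, `algebraMap` form (the shape of `H975.PeuOmegaJStatement`). -/
theorem dvd_padicValRat_of_fixed_by' (hp : p.Prime) (hr : r.Prime) (hrp : r ≠ p)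
    (hA : A.LiesOverPrime p) {π : Qb} (hπ : π ^ r = (p : Qb))
    {τ : GQ} (hτ : τ ∈ A.inertiaSubgroupIn ℚ) (hτπ : τ π ≠ π)
    {a : ℚ} (ha : a ≠ 0) {b : Qb} (hb : b ^ r = algebraMap ℚ Qb a) (hfix : τ b = b) :
    (r : ℤ) ∣ padicValRat p a :=
  dvd_padicValRat_of_fixed_by A hp hr hrp hA hπ hτ hτπ ha (by rw [hb, eq_ratCast]) hfix

end Fermat.Agent.S15.H11

end

end
-- ===== PACK-END S15/H11/Tau0.lean

-- ===== PACK-BEGIN S15/H322/StepTau.lean
section




/-!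
# Row S15 — DESC leaf STEP, part 2 (helper322): the choice of the inertia element `τ₀` at `p`

Route 208 (`coord/S15-LOCp-helper208.md`): the ramification at `p` of the cocycles is measured at
ONE inertia element `τ₀` at a place over `p`.  `τ₀` is *good* (`IsGoodTau p r τ₀`) if

* `char` : every character `G_ℚ → ℤ/r` unramified outside `p` which vanishes at `τ₀` is trivial;
* `kum`  : every Kummer cocycle vanishing at `τ₀` has a Kummer class of `p`-adic valuation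
           divisible by `r` (`KumDivAt r ζ f p`).

`exists_isGoodTau` : a good `τ₀` exists in the inertia group of every place over `p`
(`r ≠ p` primes).  Proof: `τ₀` moves an `r`-th root `π` of `p` (`S15.H11.Tau0`, helper11) and is
non-trivial for a generator of the group of characters unramified outside `p`
(`BaseChar.dichotomy`: that group is cyclic; Minkowski: a non-trivial one is ramified at `p`);
a group is not the union of two proper subgroups.
-/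

set_option autoImplicit false
set_option linter.unusedSectionVars false
set_option linter.style.haveILetI false

namespace Fermat.Agent.S15.H322

open Fermat.Agent.S56 Fermat.Agent.S56.H786

/-- `τ₀` detects the ramification at `p` of characters and Kummer cocycles modulo `r`. -/
structure IsGoodTau (p r : ℕ) (τ₀ : GQ) : Prop where
  char : ∀ χ : GQ → ZMod r, IsCharUnrOutside p χ → χ τ₀ = 0 → ∀ σ, χ σ = 0
  kum : ∀ ζ : Qb, IsPrimitiveRoot ζ r → ∀ f : GQ → ZMod r, f τ₀ = 0 → KumDivAt r ζ f p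

section Good

variable {p r : ℕ}

/-- An inertia element moving an `r`-th root of `p` detects the valuation at `p` of Kummer
classes. -/
theorem kumDivAt_of_moves (hp : p.Prime) (hr : r.Prime) (hrp : r ≠ p)
    (A : ValuationSubring Qb) (hA : A.LiesOverPrime p) {π : Qb} (hπ : π ^ r = (p : Qb))
    {τ : GQ} (hτ : τ ∈ A.inertiaSubgroupIn ℚ) (hτπ : τ π ≠ π)
    (ζ : Qb) (f : GQ → ZMod r) (hf : f τ = 0) : KumDivAt r ζ f p := by
  haveI : NeZero r := ⟨hr.ne_zero⟩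
  intro β a hβ hβa
  have ha : a ≠ 0 := by
    rintro rfl
    rw [Rat.cast_zero] at hβa
    exact hβ.1 (pow_eq_zero_iff hr.ne_zero |>.mp hβa)
  have hfix : τ β = β := by
    rw [hβ.2 τ, hf, zp_zero, one_mul]
  exact Fermat.Agent.S15.H11.dvd_padicValRat_of_fixed_by A hp hr hrp hA hπ hτ hτπ ha hβa hfix

/-- **A good inertia element exists** at every place over `p`. -/
theorem exists_isGoodTau (hp : p.Prime) (hr : r.Prime) (hrp : r ≠ p)
    (A : ValuationSubring Qb) (hA : A.LiesOverPrime p) :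
    ∃ τ₀ ∈ A.inertiaSubgroupIn ℚ, IsGoodTau p r τ₀ := by
  haveI : NeZero r := ⟨hr.ne_zero⟩
  haveI : Fact r.Prime := ⟨hr⟩
  obtain ⟨π, hπ⟩ := IsAlgClosed.exists_pow_nat_eq (p : Qb) hr.pos
  obtain ⟨b, hb, hbπ⟩ := Fermat.Agent.S15.H11.exists_inertia_moves_root A hp hr hA hπ
  by_cases hex : ∃ χ₁ : GQ → ZMod r, IsCharUnrOutside p χ₁ ∧ ∃ σ, χ₁ σ ≠ 0
  · obtain ⟨χ₁, hχ₁, σ₁, hσ₁⟩ := hex
    -- `χ₁` is ramified at `A`
    obtain ⟨a, ha, haχ⟩ : ∃ a ∈ A.inertiaSubgroupIn ℚ, χ₁ a ≠ 0 := by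
      by_contra hcon
      push Not at hcon
      exact hσ₁ (hχ₁.eq_zero_of_unram ⟨A, hA, hcon⟩ σ₁)
    -- an element of the inertia group with both properties
    obtain ⟨τ₀, hτ₀, hτ₀χ, hτ₀π⟩ :
        ∃ τ₀ ∈ A.inertiaSubgroupIn ℚ, χ₁ τ₀ ≠ 0 ∧ τ₀ π ≠ π := by
      by_cases haπ : a π = π
      · by_cases hbχ : χ₁ b = 0
        · refine ⟨b * a, Subgroup.mul_mem _ hb ha, ?_, ?_⟩
          · rw [hχ₁.map_mul, hbχ, zero_add]
            exact haχ
          · rw [AlgEquiv.mul_apply, haπ]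
            exact hbπ
        · exact ⟨b, hb, hbχ, hbπ⟩
      · exact ⟨a, ha, haχ, haπ⟩
    refine ⟨τ₀, hτ₀, ?_, fun ζ _ f hf => kumDivAt_of_moves hp hr hrp A hA hπ hτ₀ hτ₀π ζ f hf⟩
    intro χ hχ hχ0 σ
    rcases hχ₁.dichotomy hχ hp hr hrp (Nat.card_zmod r) with h0 | ⟨m, -, hm⟩
    · exact absurd (h0 τ₀) hτ₀χ
    · have h1 := hm τ₀
      rw [hχ0, nsmul_eq_mul] at h1
      have h2 : (m : ZMod r) = 0 := by
        rcases mul_eq_zero.mp h1.symm with h | h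
        · exact h
        · exact absurd h hτ₀χ
      rw [hm σ, nsmul_eq_mul, h2, zero_mul]
  · push Not at hex
    exact ⟨b, hb, fun χ hχ _ σ => hex χ hχ σ,
      fun ζ _ f hf => kumDivAt_of_moves hp hr hrp A hA hπ hb hbπ ζ f hf⟩

end Good

end Fermat.Agent.S15.H322

end
-- ===== PACK-END S15/H322/StepTau.lean

-- ===== PACK-BEGIN S15/H322/BaseTwo.lean
section


/-!
# Row S15 — DESC leaf BASE, part 6 (helper322): the case `r = 2` (real place)

For `r = 2` the classes of `ℚˣ / 2` with even valuations away from `p` are `⟨-1, p⟩`; positivity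
(Kummer class trivial at the real place, `f c = 0` for `c` = complex conjugation) removes `-1`, an
even valuation at `p` removes `p`.  (`coord/S15-DESC-blueprint.md` §2, with the real place instead
of étaleness at `2`: notes of helper302 / helper111 / helper591.)

* `rat_dichotomy_two_pos`, `rat_dichotomy_two_unr` : the two one-dimensional cases, rational form.
* `kummer_dichotomy_of_rat` : from rational numbers to Kummer generators (any `r ≠ 0`).
* `isTwCob_two`             : for `r = 2` a coboundary is zero.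
* `tw_dichotomy_two_pos`    : `f₁ c = f₂ c = 0`, `KumDivAt` at all `ℓ ≠ p`.
* `tw_dichotomy_two_unr`    : `KumDivAt` at all primes.
* `tw_trivial_two`          : both ⟹ `f = 0`.
-/

set_option autoImplicit false
set_option linter.style.haveILetI false

namespace Fermat.Agent.S15.H322

open Fermat.Agent.S56 Fermat.Agent.S56.H786

section Rat

/-- Positive rational numbers with even valuations away from `p`: classes `1, p`. -/
theorem rat_dichotomy_two_pos {a₁ a₂ : ℚ} {p : ℕ} (hp : p.Prime) (ha₁ : 0 < a₁) (ha₂ : 0 < a₂)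
    (h₁ : ∀ ℓ : ℕ, ℓ.Prime → ℓ ≠ p → (2 : ℤ) ∣ padicValRat ℓ a₁)
    (h₂ : ∀ ℓ : ℕ, ℓ.Prime → ℓ ≠ p → (2 : ℤ) ∣ padicValRat ℓ a₂) :
    (∃ b : ℚ, b ≠ 0 ∧ a₁ = b ^ 2) ∨ ∃ m : ℕ, m < 2 ∧ ∃ b : ℚ, b ≠ 0 ∧ a₂ = a₁ ^ m * b ^ 2 := by
  have hp0 : (p : ℚ) ≠ 0 := by exact_mod_cast hp.ne_zero
  obtain ⟨b₁, hb₁, c₁⟩ := rat_two_cases hp ha₁.ne' h₁
  obtain ⟨b₂, hb₂, c₂⟩ := rat_two_cases hp ha₂.ne' h₂
  rcases c₁ with e₁ | ⟨-, hneg⟩ | ⟨e₁, -⟩ | ⟨-, hneg, -⟩
  · exact Or.inl ⟨b₁, hb₁, e₁⟩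
  · exact absurd ha₁ (not_lt.mpr hneg.le)
  · right
    rcases c₂ with e₂ | ⟨-, hneg⟩ | ⟨e₂, -⟩ | ⟨-, hneg, -⟩
    · exact ⟨0, by norm_num, b₂, hb₂, by rw [pow_zero, one_mul]; exact e₂⟩
    · exact absurd ha₂ (not_lt.mpr hneg.le)
    · refine ⟨1, by norm_num, b₂ / b₁, div_ne_zero hb₂ hb₁, ?_⟩
      rw [pow_one, e₁, e₂, div_pow]
      field_simp
    · exact absurd ha₂ (not_lt.mpr hneg.le)
  · exact absurd ha₁ (not_lt.mpr hneg.le)

/-- Rational numbers with all valuations even: classes `1, -1`. -/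
theorem rat_dichotomy_two_unr {a₁ a₂ : ℚ} (ha₁ : a₁ ≠ 0) (ha₂ : a₂ ≠ 0)
    (h₁ : ∀ ℓ : ℕ, ℓ.Prime → (2 : ℤ) ∣ padicValRat ℓ a₁)
    (h₂ : ∀ ℓ : ℕ, ℓ.Prime → (2 : ℤ) ∣ padicValRat ℓ a₂) :
    (∃ b : ℚ, b ≠ 0 ∧ a₁ = b ^ 2) ∨ ∃ m : ℕ, m < 2 ∧ ∃ b : ℚ, b ≠ 0 ∧ a₂ = a₁ ^ m * b ^ 2 := by
  obtain ⟨b₁, hb₁, c₁⟩ := rat_eq_pow_of_dvd (r := 2) ha₁ (by exact_mod_cast h₁)
  obtain ⟨b₂, hb₂, c₂⟩ := rat_eq_pow_of_dvd (r := 2) ha₂ (by exact_mod_cast h₂)
  rcases c₁ with e₁ | e₁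
  · exact Or.inl ⟨b₁, hb₁, e₁⟩
  · right
    rcases c₂ with e₂ | e₂
    · exact ⟨0, by norm_num, b₂, hb₂, by rw [pow_zero, one_mul]; exact e₂⟩
    · refine ⟨1, by norm_num, b₂ / b₁, div_ne_zero hb₂ hb₁, ?_⟩
      rw [pow_one, e₁, e₂, div_pow]
      field_simp

end Rat

section Kum

/-- `ℚ̄` (local abbreviation). -/
local notation "Qbar" => AlgebraicClosure ℚ

/-- From a dependence of rational numbers modulo `r`-th powers to a dependence of Kummer
generators modulo `μ_r · ℚˣ`. -/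
theorem kummer_dichotomy_of_rat {r : ℕ} (hr : r ≠ 0) {a₁ a₂ : ℚ} (ha₁ : a₁ ≠ 0)
    {β₁ β₂ : Qbar} (hβ₁ : β₁ ^ r = (a₁ : Qbar)) (hβ₂ : β₂ ^ r = (a₂ : Qbar))
    (h : (∃ b : ℚ, b ≠ 0 ∧ a₁ = b ^ r) ∨
      ∃ m : ℕ, m < r ∧ ∃ b : ℚ, b ≠ 0 ∧ a₂ = a₁ ^ m * b ^ r) :
    (∃ ξ : Qbar, ξ ^ r = 1 ∧ ∃ b : ℚ, b ≠ 0 ∧ β₁ = ξ * (b : Qbar)) ∨
      ∃ m : ℕ, m < r ∧ ∃ ξ : Qbar, ξ ^ r = 1 ∧ ∃ b : ℚ, b ≠ 0 ∧
        β₂ = ξ * (β₁ ^ m * (b : Qbar)) := by
  rcases h with ⟨b, hb, e⟩ | ⟨m, hm, b, hb, e⟩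
  · left
    obtain ⟨ξ, hξ, hβξ⟩ := exists_root_mul_of_pow_eq (β := β₁) hb (by rw [hβ₁, e])
    exact ⟨ξ, hξ, b, hb, hβξ⟩
  · right
    have hb' : (b : Qbar) ≠ 0 := by exact_mod_cast hb
    have hβ₁0 : β₁ ≠ 0 := by
      intro h0
      rw [h0, zero_pow hr] at hβ₁
      exact ha₁ (by exact_mod_cast hβ₁.symm)
    have hden : β₁ ^ m * (b : Qbar) ≠ 0 := mul_ne_zero (pow_ne_zero _ hβ₁0) hb'
    refine ⟨m, hm, β₂ / (β₁ ^ m * (b : Qbar)), ?_, b, hb, by rw [div_mul_cancel₀ _ hden]⟩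
    rw [div_pow, hβ₂, mul_pow, ← pow_mul, mul_comm m r, pow_mul, hβ₁, e]
    push_cast
    have hne : ((a₁ : Qbar) ^ m * (b : Qbar) ^ r) ≠ 0 :=
      mul_ne_zero (pow_ne_zero _ (by exact_mod_cast ha₁)) (pow_ne_zero _ hb')
    exact div_self hne

end Kum

section Tw

variable {ζ : Qb}

/-- For `r = 2` every cyclotomic exponent is odd. -/
theorem isCycExp_two_cast (hζ : IsPrimitiveRoot ζ 2) {σ : GQ} {a : ℕ} (ha : IsCycExp 2 σ a) :
    (a : ZMod 2) = 1 := by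
  obtain ⟨b, hb⟩ : ∃ b : ℕ, IsCycExp 2 σ b ∧ (b : ZMod 2) = 1 := by
    refine ⟨1, fun μ hμ => ?_, by norm_num⟩
    rw [pow_one]
    rcases sq_eq_one_iff.mp hμ with h | h <;> rw [h] <;> simp
  rw [← hb.2]
  exact isCycExp_unique hζ ha hb.1

/-- For `r = 2` a coboundary vanishes. -/
theorem isTwCob_two (hζ : IsPrimitiveRoot ζ 2) {f : GQ → ZMod 2} {n : ZMod 2}
    (h : IsTwCob 2 f n) (σ : GQ) : f σ = 0 := by
  obtain ⟨a, ha⟩ := exists_isCycExp hζ σ
  rw [h σ a ha, isCycExp_two_cast hζ ha, sub_self, zero_mul]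

/-- The `r`-th power of a Kummer generator of a cocycle vanishing at complex conjugation is
positive (`r = 2`). -/
theorem IsKumGen.pos_of_conj (_hζ : IsPrimitiveRoot ζ 2) {f : GQ → ZMod 2} {β : Qb}
    (hβ : IsKumGen 2 ζ f β) (hc : f complexConjugation = 0) {a : ℚ} (ha : a ≠ 0)
    (hβa : β ^ 2 = (a : Qb)) : 0 < a := by
  refine pos_of_complexConjugation_fixed ha hβa ?_
  rw [hβ.2 complexConjugation, hc, zp_zero, one_mul]

/-- **`r = 2`, positive at the real place, local conditions away from `p`.** -/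
theorem tw_dichotomy_two_pos {p : ℕ} (hp : p.Prime) (hζ : IsPrimitiveRoot ζ 2)
    {f₁ f₂ : GQ → ZMod 2} (hf₁ : IsTwCoc 2 f₁) (hf₂ : IsTwCoc 2 f₂)
    (hc₁ : f₁ complexConjugation = 0) (hc₂ : f₂ complexConjugation = 0)
    (hdiv₁ : ∀ ℓ : ℕ, ℓ.Prime → ℓ ≠ p → KumDivAt 2 ζ f₁ ℓ)
    (hdiv₂ : ∀ ℓ : ℕ, ℓ.Prime → ℓ ≠ p → KumDivAt 2 ζ f₂ ℓ) :
    (∃ n : ZMod 2, IsTwCob 2 f₁ n) ∨
      ∃ m : ℕ, m < 2 ∧ ∃ n : ZMod 2, IsTwCob 2 (fun σ => f₂ σ - (m : ZMod 2) * f₁ σ) n := by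
  obtain ⟨β₁, hβ₁⟩ := hf₁.exists_isKumGen hζ
  obtain ⟨β₂, hβ₂⟩ := hf₂.exists_isKumGen hζ
  obtain ⟨a₁, ha₁, hβa₁⟩ := hβ₁.exists_rat hζ
  obtain ⟨a₂, ha₂, hβa₂⟩ := hβ₂.exists_rat hζ
  have hpos₁ := hβ₁.pos_of_conj hζ hc₁ ha₁ hβa₁
  have hpos₂ := hβ₂.pos_of_conj hζ hc₂ ha₂ hβa₂
  rcases kummer_dichotomy_of_rat two_ne_zero ha₁ hβa₁ hβa₂
    (rat_dichotomy_two_pos hp hpos₁ hpos₂
      (fun ℓ hℓ hℓp => by exact_mod_cast hdiv₁ ℓ hℓ hℓp β₁ a₁ hβ₁ hβa₁)
      (fun ℓ hℓ hℓp => by exact_mod_cast hdiv₂ ℓ hℓ hℓp β₂ a₂ hβ₂ hβa₂)) with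
    ⟨ξ, hξ, b, -, hb⟩ | ⟨m, hm, ξ, hξ, b, -, hb⟩
  · exact Or.inl (isTwCob_of_eq_mul hζ hβ₁ hξ hb)
  · exact Or.inr ⟨m, hm, isTwCob_sub_of_eq_mul hζ hβ₁ hβ₂ hξ hb⟩

/-- **`r = 2`, local conditions at all primes.** -/
theorem tw_dichotomy_two_unr (hζ : IsPrimitiveRoot ζ 2)
    {f₁ f₂ : GQ → ZMod 2} (hf₁ : IsTwCoc 2 f₁) (hf₂ : IsTwCoc 2 f₂)
    (hdiv₁ : ∀ ℓ : ℕ, ℓ.Prime → KumDivAt 2 ζ f₁ ℓ)
    (hdiv₂ : ∀ ℓ : ℕ, ℓ.Prime → KumDivAt 2 ζ f₂ ℓ) :
    (∃ n : ZMod 2, IsTwCob 2 f₁ n) ∨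
      ∃ m : ℕ, m < 2 ∧ ∃ n : ZMod 2, IsTwCob 2 (fun σ => f₂ σ - (m : ZMod 2) * f₁ σ) n := by
  obtain ⟨β₁, hβ₁⟩ := hf₁.exists_isKumGen hζ
  obtain ⟨β₂, hβ₂⟩ := hf₂.exists_isKumGen hζ
  obtain ⟨a₁, ha₁, hβa₁⟩ := hβ₁.exists_rat hζ
  obtain ⟨a₂, ha₂, hβa₂⟩ := hβ₂.exists_rat hζ
  rcases kummer_dichotomy_of_rat two_ne_zero ha₁ hβa₁ hβa₂
    (rat_dichotomy_two_unr ha₁ ha₂
      (fun ℓ hℓ => by exact_mod_cast hdiv₁ ℓ hℓ β₁ a₁ hβ₁ hβa₁)
      (fun ℓ hℓ => by exact_mod_cast hdiv₂ ℓ hℓ β₂ a₂ hβ₂ hβa₂)) with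
    ⟨ξ, hξ, b, -, hb⟩ | ⟨m, hm, ξ, hξ, b, -, hb⟩
  · exact Or.inl (isTwCob_of_eq_mul hζ hβ₁ hξ hb)
  · exact Or.inr ⟨m, hm, isTwCob_sub_of_eq_mul hζ hβ₁ hβ₂ hξ hb⟩

/-- **`r = 2`, positive and unramified everywhere ⟹ `f = 0`.** -/
theorem tw_trivial_two (hζ : IsPrimitiveRoot ζ 2) {f : GQ → ZMod 2} (hf : IsTwCoc 2 f)
    (hc : f complexConjugation = 0) (hdiv : ∀ ℓ : ℕ, ℓ.Prime → KumDivAt 2 ζ f ℓ) (σ : GQ) :
    f σ = 0 := by
  obtain ⟨β, hβ⟩ := hf.exists_isKumGen hζ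
  obtain ⟨a, ha, hβa⟩ := hβ.exists_rat hζ
  have hpos := hβ.pos_of_conj hζ hc ha hβa
  obtain ⟨b, -, hb⟩ := kummer_trivial_two hpos hβa
    (fun ℓ hℓ => by exact_mod_cast hdiv ℓ hℓ β a hβ hβa)
  have hcob : ∃ n : ZMod 2, IsTwCob 2 f n := by
    rcases hb with h | h
    · exact isTwCob_of_eq_mul hζ hβ (ξ := 1) (one_pow 2) (b := b) (by rw [one_mul]; exact h)
    · exact isTwCob_of_eq_mul hζ hβ (ξ := -1) (by norm_num) (b := b) (by rw [h]; ring)
  obtain ⟨n, hn⟩ := hcob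
  exact isTwCob_two hζ hn σ

end Tw

end Fermat.Agent.S15.H322

end
-- ===== PACK-END S15/H322/BaseTwo.lean

-- ===== PACK-BEGIN G1/H486/TauHecke.lean
section





/-!
# G1.b: the `C3`-action on `Hom(Γ0(3N), A)` and the Hecke operators (`3 ∣ N`)

Vocabulary of `S59/TW/H653` (`TK`, coset systems).  For `3 ∣ N` the group `Γ0(3N)` is normal in
`Γ0(N)`, so `g ∈ Γ0(N)` acts on `Hom(Γ0(3N), A)` by `(tau3 g φ)(k) = φ(g k g⁻¹)`.

* `c3Fun_coc` : for integral representatives `X`, `Y` of determinant `ℓ`, normalised modulo `3N`,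
  and `X g = g' Y` with `g, g' ∈ Γ0(N)`: `c3(g') = ℓ c3(g)`;
* `tau3_one`, `tau3_mul`, `tau3_of_mem`, `tau3_congr` : `tau3` is an action of `Γ0(N)` which
  factors through `c3 : Γ0(N) → ZMod 3`;
* `tau3_TK` : `tau3 g (T_ℓ φ) = T_ℓ (tau3 g' φ)` if `c3(g') = ℓ c3(g)` (`ℓ ∤ 3N` prime); in
  particular `tau3_g0_TK : τ T_ℓ = T_ℓ τ^ℓ` for `τ = tau3 g0`.
-/

set_option autoImplicit false

namespace Fermat.Agent.G1.H486

open CongruenceSubgroup Matrix.SpecialLinearGroup ModularCurve.Period ModularForm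
open Fermat.Agent.S29.H642 Fermat.Agent.S41.Spec Fermat.Agent.S41.H761
open Fermat.Agent.S59.TW.H653 Fermat.Agent.S59.TW.H653.Cross
open P2MW.S_ModularForm_heckeT_slash_eq_self_of_mem_Gamma0.ModularForm.HeckeSlashInvariance
open scoped MatrixGroups

variable {N : ℕ}

/-! ## The cocycle multiplies `c3` by `ℓ` -/

theorem c3Fun_eq_zero_of_N_eq_zero (g : SL(2, ℤ)) : c3Fun 0 g = 0 := by
  simp [c3Fun]

/-- If `X g = g' Y` with `X`, `Y` integral of determinant `ℓ` and normalised modulo `3N`, and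
`g, g' ∈ Γ0(N)`, then `c3(g') = ℓ c3(g)`. -/
theorem c3Fun_coc (h3 : 3 ∣ N) {ℓ : ℤ} (hℓ : (ℓ : ZMod 3) * (ℓ : ZMod 3) = 1)
    {X Y : GL (Fin 2) ℝ}
    (hX : IsIntRep (3 * N) ℓ X) (hY : IsIntRep (3 * N) ℓ Y) {g g' : SL(2, ℤ)}
    (hg : g ∈ Gamma0 N) (hg' : g' ∈ Gamma0 N) (e : X * mapGL ℝ g = mapGL ℝ g' * Y) :
    c3Fun N g' = (ℓ : ZMod 3) * c3Fun N g := by
  rcases Nat.eq_zero_or_pos N with hN | hN
  · subst hN
    rw [c3Fun_eq_zero_of_N_eq_zero, c3Fun_eq_zero_of_N_eq_zero, mul_zero]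
  have hNz : (N : ℤ) ≠ 0 := by exact_mod_cast hN.ne'
  obtain ⟨m, hm10, hm00, hmdet, hmX⟩ := hX
  obtain ⟨m', hm'10, hm'00, hm'det, hmY⟩ := hY
  obtain ⟨u, hu⟩ := natCast_dvd_of_mem_Gamma0 hg
  obtain ⟨u', hu'⟩ := natCast_dvd_of_mem_Gamma0 hg'
  have e10 := congrArg (fun Z : GL (Fin 2) ℝ => (Z : Matrix (Fin 2) (Fin 2) ℝ) 1 0) e
  have e11 := congrArg (fun Z : GL (Fin 2) ℝ => (Z : Matrix (Fin 2) (Fin 2) ℝ) 1 1) e
  simp only [coe_mul_apply, coe_mapGL_apply, hmX, hmY] at e10 e11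
  have i10 : m 1 0 * g 0 0 + m 1 1 * g 1 0 = g' 1 0 * m' 0 0 + g' 1 1 * m' 1 0 := by
    exact_mod_cast e10
  have i11 : m 1 0 * g 0 1 + m 1 1 * g 1 1 = g' 1 0 * m' 0 1 + g' 1 1 * m' 1 1 := by
    exact_mod_cast e11
  obtain ⟨k1, hk1⟩ := hm10
  obtain ⟨k2, hk2⟩ := hm00
  obtain ⟨k3, hk3⟩ := hm'10
  obtain ⟨k4, hk4⟩ := hm'00
  push_cast at hk1 hk2 hk3 hk4
  rw [Matrix.det_fin_two] at hmdet hm'det
  have e1 : g 1 0 / (N : ℤ) = u := by rw [hu]; exact Int.mul_ediv_cancel_left _ hNz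
  have e2 : g' 1 0 / (N : ℤ) = u' := by rw [hu']; exact Int.mul_ediv_cancel_left _ hNz
  -- the relation `u' = m11 * u + 3 * (...)`
  have r1 : u' = m 1 1 * u + 3 * (k1 * g 0 0 - N * k4 * u' - g' 1 1 * k3) := by
    have h0 : (N : ℤ) * u' = (N : ℤ) * (m 1 1 * u + 3 * (k1 * g 0 0 - N * k4 * u' - g' 1 1 * k3)) := by
      have h00 : m' 0 0 = 1 + 3 * N * k4 := by linarith
      rw [hk1, hu, hu', h00, hk3] at i10
      linear_combination -i10
    exact mul_left_cancel₀ hNz h0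
  have three : (3 : ZMod 3) = 0 := by decide
  have c1 : (u' : ZMod 3) = ((m 1 1 : ℤ) : ZMod 3) * (u : ZMod 3) := by
    have := congrArg (Int.cast : ℤ → ZMod 3) r1
    push_cast at this
    rw [three, zero_mul, add_zero] at this
    exact this
  -- `m11 ≡ ℓ`, `m'11 ≡ ℓ` modulo `3`
  have c2 : ((m 0 0 : ℤ) : ZMod 3) = 1 := by
    have h00 : m 0 0 = 1 + 3 * (N * k2) := by linarith
    have := congrArg (Int.cast : ℤ → ZMod 3) h00
    push_cast at this
    rw [three, zero_mul, add_zero] at this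
    exact this
  have c2' : ((m' 0 0 : ℤ) : ZMod 3) = 1 := by
    have h00 : m' 0 0 = 1 + 3 * (N * k4) := by linarith
    have := congrArg (Int.cast : ℤ → ZMod 3) h00
    push_cast at this
    rw [three, zero_mul, add_zero] at this
    exact this
  have c3 : ((m 1 0 : ℤ) : ZMod 3) = 0 := by
    have h10 : m 1 0 = 3 * (N * k1) := by linarith
    have := congrArg (Int.cast : ℤ → ZMod 3) h10
    push_cast at this
    rw [three, zero_mul] at this
    exact this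
  have c3' : ((m' 1 0 : ℤ) : ZMod 3) = 0 := by
    have h10 : m' 1 0 = 3 * (N * k3) := by linarith
    have := congrArg (Int.cast : ℤ → ZMod 3) h10
    push_cast at this
    rw [three, zero_mul] at this
    exact this
  have c4 : ((m 1 1 : ℤ) : ZMod 3) = (ℓ : ZMod 3) := by
    have := congrArg (Int.cast : ℤ → ZMod 3) hmdet
    push_cast at this
    rw [c2, c3, mul_zero, sub_zero, one_mul] at this
    exact this
  have c4' : ((m' 1 1 : ℤ) : ZMod 3) = (ℓ : ZMod 3) := by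
    have := congrArg (Int.cast : ℤ → ZMod 3) hm'det
    push_cast at this
    rw [c2', c3', mul_zero, sub_zero, one_mul] at this
    exact this
  -- `g'11 ≡ g11` modulo `3`
  have c5 : ((g' 1 0 : ℤ) : ZMod 3) = 0 := by
    obtain ⟨t, ht⟩ := h3
    have : g' 1 0 = 3 * (t * u') := by rw [hu', ht]; push_cast; ring
    have := congrArg (Int.cast : ℤ → ZMod 3) this
    push_cast at this
    rw [three, zero_mul] at this
    exact this
  have c6 : (ℓ : ZMod 3) * ((g 1 1 : ℤ) : ZMod 3) = ((g' 1 1 : ℤ) : ZMod 3) * (ℓ : ZMod 3) := by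
    have := congrArg (Int.cast : ℤ → ZMod 3) i11
    push_cast at this
    rw [c3, c5, c4, c4', zero_mul, zero_mul, zero_add, zero_add] at this
    exact this
  have hℓℓ : (ℓ : ZMod 3) * (ℓ : ZMod 3) = 1 := hℓ
  have c7 : ((g' 1 1 : ℤ) : ZMod 3) = ((g 1 1 : ℤ) : ZMod 3) := by
    calc ((g' 1 1 : ℤ) : ZMod 3) = ((g' 1 1 : ℤ) : ZMod 3) * ((ℓ : ZMod 3) * (ℓ : ZMod 3)) := by
          rw [hℓℓ, mul_one]
      _ = (((g' 1 1 : ℤ) : ZMod 3) * (ℓ : ZMod 3)) * (ℓ : ZMod 3) := by ring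
      _ = ((ℓ : ZMod 3) * ((g 1 1 : ℤ) : ZMod 3)) * (ℓ : ZMod 3) := by rw [c6]
      _ = ((g 1 1 : ℤ) : ZMod 3) * ((ℓ : ZMod 3) * (ℓ : ZMod 3)) := by ring
      _ = ((g 1 1 : ℤ) : ZMod 3) := by rw [hℓℓ, mul_one]
  unfold c3Fun
  rw [e1, e2, c1, c7, c4]
  ring


theorem zmod3_natCast_sq_of_not_dvd {ℓ : ℕ} (hℓ : ¬ 3 ∣ ℓ) :
    ((ℓ : ℤ) : ZMod 3) * ((ℓ : ℤ) : ZMod 3) = 1 := by
  have h1 : ((ℓ : ℤ) : ZMod 3) = (ℓ : ZMod 3) := by push_cast; rfl
  have h2 : (ℓ : ZMod 3) ≠ 0 := by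
    rw [Ne, ZMod.natCast_eq_zero_iff]
    exact hℓ
  rw [h1]
  revert h2
  generalize (ℓ : ZMod 3) = x
  revert x
  decide

/-! ## The action of `Γ0(N)` on `Hom(Γ0(3N), A)` -/

section Tau

variable {A : Type*} [AddCommGroup A]

/-- Conjugation by `g ∈ Γ0(N)` as an automorphism of `Γ0(3N)` (`3 ∣ N`): `k ↦ g k g⁻¹`. -/
def conj3 (h3 : 3 ∣ N) (g : Gamma0 N) : Gamma0 (3 * N) ≃* Gamma0 (3 * N) where
  toFun k := ⟨(g : SL(2, ℤ)) * k * (g : SL(2, ℤ))⁻¹, conj_mem_Gamma0_three_mul h3 g.2 k.2⟩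
  invFun k := ⟨(g : SL(2, ℤ))⁻¹ * k * (g : SL(2, ℤ)), by
    have := conj_mem_Gamma0_three_mul h3 ((Gamma0 N).inv_mem g.2) k.2
    simpa using this⟩
  left_inv k := by
    apply Subtype.ext
    simp [mul_assoc]
  right_inv k := by
    apply Subtype.ext
    simp [mul_assoc]
  map_mul' k k' := by
    apply Subtype.ext
    simp [mul_assoc]

@[simp] theorem conj3_coe (h3 : 3 ∣ N) (g : Gamma0 N) (k : Gamma0 (3 * N)) :
    ((conj3 h3 g k : Gamma0 (3 * N)) : SL(2, ℤ)) = (g : SL(2, ℤ)) * k * (g : SL(2, ℤ))⁻¹ := rfl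

/-- The operator of `g ∈ Γ0(N)` on `Hom(Γ0(3N), A)`: `(tau3 g φ)(k) = φ(g k g⁻¹)`. -/
def tau3 (h3 : 3 ∣ N) (g : Gamma0 N) (φ : Additive (Gamma0 (3 * N)) →+ A) :
    Additive (Gamma0 (3 * N)) →+ A :=
  φ.comp (MonoidHom.toAdditive (conj3 h3 g).toMonoidHom)

@[simp] theorem tau3_apply (h3 : 3 ∣ N) (g : Gamma0 N) (φ : Additive (Gamma0 (3 * N)) →+ A)
    (k : Gamma0 (3 * N)) :
    tau3 h3 g φ (Additive.ofMul k) = φ (Additive.ofMul (conj3 h3 g k)) := rfl

theorem tau3_add (h3 : 3 ∣ N) (g : Gamma0 N) (φ ψ : Additive (Gamma0 (3 * N)) →+ A) :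
    tau3 h3 g (φ + ψ) = tau3 h3 g φ + tau3 h3 g ψ := rfl

theorem tau3_zero (h3 : 3 ∣ N) (g : Gamma0 N) :
    tau3 h3 g (0 : Additive (Gamma0 (3 * N)) →+ A) = 0 := rfl

theorem tau3_comp {B : Type*} [AddCommGroup B] (h3 : 3 ∣ N) (g : Gamma0 N) (π : A →+ B)
    (φ : Additive (Gamma0 (3 * N)) →+ A) : tau3 h3 g (π.comp φ) = π.comp (tau3 h3 g φ) := rfl

theorem tau3_one (h3 : 3 ∣ N) (φ : Additive (Gamma0 (3 * N)) →+ A) : tau3 h3 1 φ = φ := by
  refine AddMonoidHom.ext fun h' => ?_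
  obtain ⟨h, rfl⟩ : ∃ h : Gamma0 (3 * N), Additive.ofMul h = h' := ⟨Additive.toMul h', rfl⟩
  rw [tau3_apply]
  congr 2
  apply Subtype.ext
  simp

theorem tau3_mul (h3 : 3 ∣ N) (g g' : Gamma0 N) (φ : Additive (Gamma0 (3 * N)) →+ A) :
    tau3 h3 (g * g') φ = tau3 h3 g' (tau3 h3 g φ) := by
  refine AddMonoidHom.ext fun h' => ?_
  obtain ⟨h, rfl⟩ : ∃ h : Gamma0 (3 * N), Additive.ofMul h = h' := ⟨Additive.toMul h', rfl⟩
  rw [tau3_apply, tau3_apply, tau3_apply]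
  congr 2
  apply Subtype.ext
  simp [mul_assoc]

/-- Inner automorphisms act trivially: `tau3 g = 1` for `g ∈ Γ0(3N)`. -/
theorem tau3_of_mem (h3 : 3 ∣ N) {g : Gamma0 N} (hg : (g : SL(2, ℤ)) ∈ Gamma0 (3 * N))
    (φ : Additive (Gamma0 (3 * N)) →+ A) : tau3 h3 g φ = φ := by
  refine AddMonoidHom.ext fun h' => ?_
  obtain ⟨h, rfl⟩ : ∃ h : Gamma0 (3 * N), Additive.ofMul h = h' := ⟨Additive.toMul h', rfl⟩
  rw [tau3_apply]
  let k : Gamma0 (3 * N) := ⟨(g : SL(2, ℤ)), hg⟩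
  have e : conj3 h3 g h = k * h * k⁻¹ := by
    apply Subtype.ext
    rfl
  rw [e, ofMul_mul, ofMul_mul, ofMul_inv, map_add, map_add, map_neg]
  abel

theorem c3Fun_inv (h3 : 3 ∣ N) {g : SL(2, ℤ)} (hg : g ∈ Gamma0 N) :
    c3Fun N g⁻¹ = - c3Fun N g := by
  have h := c3Fun_mul h3 hg ((Gamma0 N).inv_mem hg)
  rw [mul_inv_cancel, c3Fun_one] at h
  exact eq_neg_of_add_eq_zero_right h.symm

/-- `g⁻¹ g' ∈ Γ0(3N)` if `c3(g) = c3(g')`. -/
theorem inv_mul_mem_of_c3Fun_eq (h3 : 3 ∣ N) {g g' : SL(2, ℤ)} (hg : g ∈ Gamma0 N)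
    (hg' : g' ∈ Gamma0 N) (h : c3Fun N g = c3Fun N g') : g⁻¹ * g' ∈ Gamma0 (3 * N) := by
  rw [← c3Fun_eq_zero_iff h3 ((Gamma0 N).mul_mem ((Gamma0 N).inv_mem hg) hg'),
    c3Fun_mul h3 ((Gamma0 N).inv_mem hg) hg', c3Fun_inv h3 hg, h, neg_add_cancel]

/-- `tau3 g` only depends on `c3(g)`. -/
theorem tau3_congr (h3 : 3 ∣ N) {g g' : Gamma0 N}
    (h : c3Fun N (g : SL(2, ℤ)) = c3Fun N (g' : SL(2, ℤ)))
    (φ : Additive (Gamma0 (3 * N)) →+ A) : tau3 h3 g φ = tau3 h3 g' φ := by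
  have h1 : g' = g * (g⁻¹ * g') := by rw [mul_inv_cancel_left]
  have h2 : ((g⁻¹ * g' : Gamma0 N) : SL(2, ℤ)) ∈ Gamma0 (3 * N) :=
    inv_mul_mem_of_c3Fun_eq h3 g.2 g'.2 h
  rw [h1, tau3_mul, tau3_of_mem h3 h2]

theorem tau3_comm (h3 : 3 ∣ N) (g g' : Gamma0 N) (φ : Additive (Gamma0 (3 * N)) →+ A) :
    tau3 h3 g (tau3 h3 g' φ) = tau3 h3 g' (tau3 h3 g φ) := by
  rw [← tau3_mul, ← tau3_mul]
  apply tau3_congr
  show c3Fun N ((g' : SL(2, ℤ)) * (g : SL(2, ℤ))) = c3Fun N ((g : SL(2, ℤ)) * (g' : SL(2, ℤ)))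
  rw [c3Fun_mul h3 g'.2 g.2, c3Fun_mul h3 g.2 g'.2, add_comm]

theorem tau3_pow (h3 : 3 ∣ N) (g : Gamma0 N) (n : ℕ) (φ : Additive (Gamma0 (3 * N)) →+ A) :
    tau3 h3 (g ^ n) φ = (tau3 h3 g)^[n] φ := by
  induction n generalizing φ with
  | zero => rw [pow_zero, tau3_one, Function.iterate_zero, id]
  | succ n ih => rw [pow_succ', tau3_mul, Function.iterate_succ_apply', ← ih, tau3_comm]

/-- `tau3 g` has order dividing `3`. -/
theorem tau3_cube (h3 : 3 ∣ N) (g : Gamma0 N) (φ : Additive (Gamma0 (3 * N)) →+ A) :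
    tau3 h3 g (tau3 h3 g (tau3 h3 g φ)) = φ := by
  have h1 : tau3 h3 (g ^ 3) φ = φ := by
    apply tau3_of_mem
    rw [← c3Fun_eq_zero_iff h3 (g ^ 3).2]
    show c3Fun N ((g ^ 3 : Gamma0 N) : SL(2, ℤ)) = 0
    have : ((g ^ 3 : Gamma0 N) : SL(2, ℤ)) = (g : SL(2, ℤ)) * ((g : SL(2, ℤ)) * (g : SL(2, ℤ))) := by
      rw [pow_succ', pow_two]
      rfl
    rw [this, c3Fun_mul h3 g.2 ((Gamma0 N).mul_mem g.2 g.2), c3Fun_mul h3 g.2 g.2]
    generalize c3Fun N (g : SL(2, ℤ)) = x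
    revert x
    decide
  rw [tau3_pow] at h1
  exact h1

end Tau

/-! ## `tau3` and the Hecke operators -/

section Commute

variable {A : Type*} [AddCommGroup A]

theorem not_three_dvd_of_not_dvd {ℓ : ℕ} (hp : ℓ.Prime) (hℓ : ¬ ℓ ∣ 3 * N) : ¬ 3 ∣ ℓ := by
  intro h
  have h3 : ℓ = 3 := ((Nat.prime_dvd_prime_iff_eq Nat.prime_three hp).mp h).symm
  exact hℓ (h3 ▸ Dvd.intro _ rfl)

/-- The cocycle of the system of `T_ℓ` for `Γ0(N)` (representatives of level `3N`) multiplies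
`c3` by `ℓ`. -/
theorem c3Fun_coc_repsT (h3 : 3 ∣ N) {ℓ : ℕ} [Fact ℓ.Prime] (hℓ : ¬ ℓ ∣ 3 * N)
    (h₀ : IsCosetSystem (ιN N) (ιN N) (repsT (3 * N) ℓ)) (i : OnePoint (ZMod ℓ))
    (g : Gamma0 N) :
    c3Fun N ((h₀.coc i g : Gamma0 N) : SL(2, ℤ)) = (ℓ : ZMod 3) * c3Fun N (g : SL(2, ℤ)) := by
  have hsq := zmod3_natCast_sq_of_not_dvd (not_three_dvd_of_not_dvd (Fact.out : ℓ.Prime) hℓ)
  have h := c3Fun_coc h3 hsq (isIntRep_repsT hℓ i) (isIntRep_repsT hℓ (h₀.act i g)) g.2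
    (h₀.coc i g).2 (h₀.spec i g)
  rw [h]
  push_cast
  rfl

/-- **`tau3` and `T_ℓ`**: `tau3 g ∘ T_ℓ = T_ℓ ∘ tau3 g'` if `c3(g') = ℓ c3(g)`
(`ℓ ∤ 3N` prime, `3 ∣ N`). -/
theorem tau3_TK (h3 : 3 ∣ N) {ℓ : ℕ} [Fact ℓ.Prime] (hℓ : ¬ ℓ ∣ 3 * N) (g g' : Gamma0 N)
    (hgg' : c3Fun N (g' : SL(2, ℤ)) = (ℓ : ZMod 3) * c3Fun N (g : SL(2, ℤ)))
    (φ : Additive (Gamma0 (3 * N)) →+ A) :
    tau3 h3 g (TK (3 * N) (Gamma0 (3 * N)) ℓ φ) =
      TK (3 * N) (Gamma0 (3 * N)) ℓ (tau3 h3 g' φ) := by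
  have hK := isMid_Gamma0 (3 * N)
  have hdvd : N ∣ 3 * N := Dvd.intro_left 3 rfl
  have hℓN : ¬ ℓ ∣ N := fun h => hℓ (dvd_trans h hdvd)
  have h₀ : IsCosetSystem (ιN N) (ιN N) (repsT (3 * N) ℓ) := repsT_system0_of_dvd hdvd hℓN
  have hH : IsCosetSystem (ιK (Gamma0 (3 * N))) (ιK (Gamma0 (3 * N))) (repsT (3 * N) ℓ) :=
    repsT_system hK hℓ
  rw [TK_eq hK hℓ, TK_eq hK hℓ]
  change tau3 h3 g (hH.transfer φ) = hH.transfer (tau3 h3 g' φ)
  -- comparison of the two systems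
  have hact : ∀ (i : OnePoint (ZMod ℓ)) (k : Gamma0 (3 * N)),
      h₀.act i (inclG hdvd k) = hH.act i k := fun i k =>
    h₀.act_eq (g := inclG hdvd (hH.coc i k)) (hH.spec i k)
  have hcoc : ∀ (i : OnePoint (ZMod ℓ)) (k : Gamma0 (3 * N)),
      h₀.coc i (inclG hdvd k) = inclG hdvd (hH.coc i k) := fun i k =>
    h₀.coc_eq (j := hH.act i k) (hH.spec i k)
  -- `m i = g'⁻¹ * coc₀ i g ∈ Γ0(3N)`
  have hm : ∀ i, ((g'⁻¹ * h₀.coc i g : Gamma0 N) : SL(2, ℤ)) ∈ Gamma0 (3 * N) := by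
    intro i
    exact inv_mul_mem_of_c3Fun_eq h3 g'.2 (h₀.coc i g).2
      (hgg'.trans (c3Fun_coc_repsT h3 hℓ h₀ i g).symm)
  let m : OnePoint (ZMod ℓ) → Gamma0 (3 * N) := fun i => ⟨_, hm i⟩
  have hmcoe : ∀ i, inclG hdvd (m i) = g'⁻¹ * h₀.coc i g := fun i => rfl
  have hinj : Function.Injective (inclG (N := N) (N' := 3 * N) hdvd) :=
    Subgroup.inclusion_injective _
  refine AddMonoidHom.ext fun k' => ?_
  obtain ⟨k, rfl⟩ : ∃ k : Gamma0 (3 * N), Additive.ofMul k = k' := ⟨Additive.toMul k', rfl⟩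
  rw [tau3_apply, IsCosetSystem.transfer_apply, IsCosetSystem.transfer_apply]
  have cocinv : ∀ (a : OnePoint (ZMod ℓ)) (x : Gamma0 N),
      h₀.coc a x⁻¹ = (h₀.coc (h₀.act a x⁻¹) x)⁻¹ := by
    intro a x
    have := h₀.coc_mul a x⁻¹ x
    rw [inv_mul_cancel, h₀.coc_one] at this
    exact eq_inv_of_mul_eq_one_left this.symm
  have e2 : ∀ (y : Gamma0 N) (x : Gamma0 (3 * N)),
      inclG hdvd (conj3 h3 y x) = y * inclG hdvd x * y⁻¹ := fun _ _ => rfl
  have key : ∀ i, hH.coc i (conj3 h3 g k) =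
      conj3 h3 g' (m i * hH.coc (h₀.act i g) k * (m (hH.act i (conj3 h3 g k)))⁻¹) := by
    intro i
    apply hinj
    have hj : hH.act i (conj3 h3 g k) = h₀.act i (g * inclG hdvd k * g⁻¹) := by
      rw [← hact, e2]
    have hL : inclG hdvd (hH.coc i (conj3 h3 g k)) = h₀.coc i (g * inclG hdvd k * g⁻¹) := by
      rw [← hcoc, e2]
    have hc2 : inclG hdvd (hH.coc (h₀.act i g) k) = h₀.coc (h₀.act i g) (inclG hdvd k) :=
      (hcoc _ _).symm
    have hR : inclG hdvd (conj3 h3 g'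
        (m i * hH.coc (h₀.act i g) k * (m (hH.act i (conj3 h3 g k)))⁻¹)) =
        g' * ((g'⁻¹ * h₀.coc i g) * h₀.coc (h₀.act i g) (inclG hdvd k) *
          (g'⁻¹ * h₀.coc (h₀.act i (g * inclG hdvd k * g⁻¹)) g)⁻¹) * g'⁻¹ := by
      rw [e2, (inclG hdvd).map_mul, (inclG hdvd).map_mul, (inclG hdvd).map_inv, hmcoe, hmcoe,
        hc2, hj]
    rw [hL, hR, h₀.coc_mul, h₀.coc_mul, cocinv]
    have hact' : h₀.act (h₀.act i (g * inclG hdvd k)) g⁻¹ = h₀.act i (g * inclG hdvd k * g⁻¹) :=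
      (h₀.act_mul i (g * inclG hdvd k) g⁻¹).symm
    rw [hact']
    group
  have hconj : ∀ a b c : Gamma0 (3 * N), conj3 h3 g' (a * b * c⁻¹) =
      conj3 h3 g' a * conj3 h3 g' b * (conj3 h3 g' c)⁻¹ := by
    intro a b c
    rw [(conj3 h3 g').map_mul, (conj3 h3 g').map_mul, (conj3 h3 g').map_inv]
  have hsum : ∀ i, φ (Additive.ofMul (hH.coc i (conj3 h3 g k))) =
      tau3 h3 g' φ (Additive.ofMul (m i)) +
        tau3 h3 g' φ (Additive.ofMul (hH.coc (h₀.act i g) k)) -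
        tau3 h3 g' φ (Additive.ofMul (m (hH.act i (conj3 h3 g k)))) := by
    intro i
    rw [key i, tau3_apply, tau3_apply, tau3_apply, hconj, ofMul_mul,
      ofMul_mul, ofMul_inv, map_add, map_add, map_neg, sub_eq_add_neg]
  simp only [hsum, Finset.sum_add_distrib, Finset.sum_sub_distrib]
  have hp1 : ∑ i, tau3 h3 g' φ (Additive.ofMul (m (hH.act i (conj3 h3 g k)))) =
      ∑ i, tau3 h3 g' φ (Additive.ofMul (m i)) :=
    Equiv.sum_comp (hH.actEquiv (conj3 h3 g k))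
      (fun i => tau3 h3 g' φ (Additive.ofMul (m i)))
  have hp2 : ∑ i, tau3 h3 g' φ (Additive.ofMul (hH.coc (h₀.act i g) k)) =
      ∑ i, tau3 h3 g' φ (Additive.ofMul (hH.coc i k)) :=
    Equiv.sum_comp (h₀.actEquiv g)
      (fun i => tau3 h3 g' φ (Additive.ofMul (hH.coc i k)))
  rw [hp1, hp2]
  abel

/-- `τ T_ℓ = T_ℓ τ^ℓ` for `τ = tau3 g0`, `g0 = !![1, 0; N, 1]`. -/
theorem tau3_g0_TK (h3 : 3 ∣ N) {ℓ : ℕ} [Fact ℓ.Prime] (hℓ : ¬ ℓ ∣ 3 * N)
    (φ : Additive (Gamma0 (3 * N)) →+ A) :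
    tau3 h3 (g0 N) (TK (3 * N) (Gamma0 (3 * N)) ℓ φ) =
      TK (3 * N) (Gamma0 (3 * N)) ℓ ((tau3 h3 (g0 N))^[ℓ] φ) := by
  rw [← tau3_pow]
  apply tau3_TK h3 hℓ
  have h1 : ((g0 N ^ ℓ : Gamma0 N) : SL(2, ℤ)) = lowerUnip (N : ℤ) ^ ℓ := rfl
  have h2 : ∀ n : ℕ, c3Fun N (lowerUnip (N : ℤ) ^ n) = (n : ZMod 3) * c3Fun N (lowerUnip (N : ℤ)) := by
    intro n
    induction n with
    | zero => simp [c3Fun_one]
    | succ n ih =>
      rw [pow_succ, c3Fun_mul h3 ((Gamma0 N).pow_mem (lowerUnip_mem_Gamma0 N) n)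
        (lowerUnip_mem_Gamma0 N), ih]
      push_cast
      ring
  rw [h1, h2]
  rfl

end Commute

end Fermat.Agent.G1.H486

end
-- ===== PACK-END G1/H486/TauHecke.lean

-- ===== PACK-BEGIN G2/H559/MuCritLeaf.lean
section



/-!
# Row GLUE, phase 2, block F, leaf L2: `MUCritStatement` VERBATIM (helper559)

OFF-MAIN.  `muCrit559 : Fermat.Agent.Glue.MUCritStatement` on the frozen bytes of
`Fermat/Agent/Glue/FSpec.lean` (row-lead helper120, sha256 e10a66c0b24a98f9).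
-/

set_option autoImplicit false

namespace Fermat.Agent.G2.H559

/-- **LEAF L2 (MU-crit)**, the frozen Prop of `Glue/FSpec.lean`. -/
theorem muCrit559 : Fermat.Agent.Glue.MUCritStatement :=
  fun W _ _ hc4 hn => noFix3_of_mult559 W hc4 hn

end Fermat.Agent.G2.H559

end
-- ===== PACK-END G2/H559/MuCritLeaf.lean

-- ===== PACK-BEGIN G2/H480/SwitchV.lean
section





/-!
# Row GLUE, phase 2, block F, leaf SW (helper480): `SwitchVStatement`

The landed `3–5` switch of row S52 (`Fermat.Agent.S52.Switch`, proved on main from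
`IntegralModelP`, `FamilyHIT`, `TorsionMap`) keeps the `3`-adic valuation of the discriminant:
the new model `W'` has invariants `c₄' = C4h c₄ c₆ M n`, `c₆' = C6h c₄ c₆ M n`, hence
`1728 Δ' = c₄'³ - c₆'² = (c₄³ - c₆²) Fkh⁵ = 1728 Δ Fkh⁵` (homogenised syzygy), and
`Fkh ≡ 1 mod M` with `3 ∣ M`, so `Fkh` is a `3`-adic unit.

Plain world: Mathlib + Prelude + `Glue/FSpec` + the plain S52 files of main.  Nothing assumed.
-/

set_option autoImplicit false

namespace Fermat.Agent.G2.H480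

open WeierstrassCurve Fermat.Agent.S52 Fermat.Agent.S52.Fam Fermat.Agent.S52.B
  Fermat.Agent.S52.B.B2.H352

/-- The discriminant of a model with the invariants of the family: `Δ' = Δ · Fkh⁵`. -/
theorem disc_eq_mul_Fkh_pow480 {W W' : WeierstrassCurve ℤ} {M n : ℤ} (hn0 : n ≠ 0)
    (hc4 : W'.c₄ = C4h W.c₄ W.c₆ M n) (hc6 : W'.c₆ = C6h W.c₄ W.c₆ M n) :
    W'.Δ = W.Δ * Fkh W.c₄ W.c₆ M n ^ 5 := by
  have h1 : 1728 * W'.Δ = 1728 * (W.Δ * Fkh W.c₄ W.c₆ M n ^ 5) := by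
    have hs := syzygy_hom_int W.c₄ W.c₆ M n hn0
    have hW := W.c_relation
    have hW' := W'.c_relation
    rw [hc4, hc6, hs, ← hW] at hW'
    rw [hW']
    ring
  exact mul_left_cancel₀ (by norm_num : (1728 : ℤ) ≠ 0) h1

/-- `Fkh ≡ 1 mod M` and `3 ∣ M`: `Fkh` is prime to `3`. -/
theorem not_three_dvd_Fkh480 (c₄ c₆ : ℤ) {M n : ℤ} (h3M : (3 : ℤ) ∣ M) (hn : n ≡ 1 [ZMOD M]) :
    ¬ (3 : ℤ) ∣ Fkh c₄ c₆ M n := by
  intro h
  have h1 : (3 : ℤ) ∣ Fkh c₄ c₆ M n - 1 := h3M.trans (dvd_Fkh_sub_one c₄ c₆ hn)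
  have h2 : (3 : ℤ) ∣ 1 := by
    have h3 := dvd_sub h h1
    rwa [sub_sub_cancel] at h3
  exact absurd (Int.le_of_dvd one_pos h2) (by norm_num)

/-- The `3`-adic valuation of `Δ · F⁵` for `F` prime to `3`. -/
theorem padicValInt_three_mul_pow480 {D F : ℤ} (hD : D ≠ 0) (hF : ¬ (3 : ℤ) ∣ F) (k : ℕ) :
    padicValInt 3 (D * F ^ k) = padicValInt 3 D := by
  have : Fact (Nat.Prime 3) := ⟨Nat.prime_three⟩
  have hF0 : F ≠ 0 := by
    rintro rfl
    exact hF (dvd_zero _)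
  have hFk : ¬ ((3 : ℕ) : ℤ) ∣ F ^ k := by
    intro h
    have h3 : Prime (3 : ℤ) := Int.prime_three
    exact hF (h3.dvd_of_dvd_pow (by exact_mod_cast h))
  rw [padicValInt.mul hD (pow_ne_zero k hF0), padicValInt.eq_zero_of_not_dvd hFk, add_zero]

/-- **SW** from the three pieces of the landed switch (same proof as `switch_of_partsP`). -/
theorem switchV_of_parts480 (hB2 : IntegralModelP) (hB3 : FamilyHIT) (hB1 : TorsionMap) :
    Fermat.Agent.Glue.SwitchVStatement := by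
  intro W hΔ hW _h5 h3
  obtain ⟨M, p₀, hM0, hM6, hp₀, hp₀7, hp₀Δ, hp₀M, hmod⟩ := hB2 W hΔ hW
  have hM2 : 2 ≤ M := by
    obtain ⟨k, hk⟩ := hM6
    omega
  obtain ⟨n, hn, hirr⟩ := hB3 W hΔ hW h3 M hM2
  obtain ⟨W', hc4, hc6, hΔ', hss, hred⟩ := hmod n hn
  have h3M : ((3 : ℕ) : ℤ) ∣ M := Dvd.dvd.trans (by norm_num) hM6
  have h3M' : (3 : ℤ) ∣ M := by exact_mod_cast h3M
  have hn0 : n ≠ 0 := ne_zero_of_modEq_one hM2 hn
  have hΔeq : W'.Δ = W.Δ * Fkh W.c₄ W.c₆ M n ^ 5 := disc_eq_mul_Fkh_pow480 hn0 hc4 hc6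
  have hv : padicValInt 3 W'.Δ = padicValInt 3 W.Δ := by
    rw [hΔeq]
    exact padicValInt_three_mul_pow480 hΔ (not_three_dvd_Fkh480 W.c₄ W.c₆ h3M' hn) 5
  exact ⟨W', hΔ', hss, hirr W' hΔ' hc4 hc6, hred 3 Nat.prime_three h3M, hv,
    hB1 W W' M n p₀ hΔ hΔ' hM0 hn hp₀ hp₀7 hp₀Δ hp₀M (hred p₀ hp₀ hp₀M) hc4 hc6⟩

/-- **SW** (closed): the frozen Prop `Fermat.Agent.Glue.SwitchVStatement` of `Glue/FSpec.lean`. -/
theorem switchV480 : Fermat.Agent.Glue.SwitchVStatement :=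
  switchV_of_parts480 Fermat.Agent.S52.B.B2.H352.integralModelP
    Fermat.Agent.S52.B3.H352.familyHIT Fermat.Agent.S52.B.B1.H170.torsionMap

end Fermat.Agent.G2.H480

end
-- ===== PACK-END G2/H480/SwitchV.lean

-- ===== PACK-BEGIN G2/H723/FiveCong.lean
section




/-!
# Row GLUE, phase 2, block F, leaf C (cusp switch) -- the `5`-congruence  (helper723)

The proof of the landed piece B1 (`S52/B/B1/H170/Main.lean`) works for the line family with
RATIONAL parameters: two integral models `W`, `W'` of nonzero discriminant with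
`c₄(W') = C4h c₄ c₆ μ ν`, `c₆(W') = C6h c₄ c₆ μ ν` for some `μ ν : ℚ` are `5`-congruent.
In particular for `3²⁰ c₄(W') = C4h c₄ c₆ m n`, `3³⁰ c₆(W') = C6h c₄ c₆ m n` (`μ = m/3`, `ν = n/3`).
-/

set_option autoImplicit false

namespace Fermat.Agent.G2.H723

open Polynomial WeierstrassCurve
open Fermat.Agent.S52.Fam Fermat.Agent.S52.B Fermat.Agent.S52.H170
open Fermat.Agent.S52.B.B1.H170

/-- the line data with rational parameters. -/
noncomputable def lineDataRat723 (W W' : WeierstrassCurve ℤ) (μ ν : ℚ) : LineData where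
  a₁ := W.a₁
  a₂ := W.a₂
  a₃ := W.a₃
  a₁' := W'.a₁
  a₂' := W'.a₂
  a₃' := W'.a₃
  c₄ := W.c₄
  c₆ := W.c₆
  M := μ
  n := ν

theorem lineDataRat_fibre_zero723 (W W' : WeierstrassCurve ℤ) (μ ν : ℚ) :
    (lineDataRat723 W W' μ ν).fam.map (Polynomial.evalRingHom 0) =
      W.map (Int.castRingHom ℚ) := by
  apply LineData.fibre_eq
  · simp [LineData.A1, lineDataRat723]
  · simp [LineData.A2, lineDataRat723]
  · simp [LineData.A3, lineDataRat723]
  · rw [mP_eval_zero, nP_eval_zero, C4h_zero_left, WeierstrassCurve.map_c₄]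
    simp [lineDataRat723]
  · rw [mP_eval_zero, nP_eval_zero, C6h_zero_left, WeierstrassCurve.map_c₆]
    simp [lineDataRat723]

theorem lineDataRat_fibre_one723 (W W' : WeierstrassCurve ℤ) (μ ν : ℚ)
    (h4 : (W'.c₄ : ℚ) = C4h (W.c₄ : ℚ) (W.c₆ : ℚ) μ ν)
    (h6 : (W'.c₆ : ℚ) = C6h (W.c₄ : ℚ) (W.c₆ : ℚ) μ ν) :
    (lineDataRat723 W W' μ ν).fam.map (Polynomial.evalRingHom 1) =
      W'.map (Int.castRingHom ℚ) := by
  apply LineData.fibre_eq
  · simp [LineData.A1, lineDataRat723]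
  · simp [LineData.A2, lineDataRat723]
  · simp [LineData.A3, lineDataRat723]
  · rw [mP_eval_one, nP_eval_one, WeierstrassCurve.map_c₄]
    simpa [lineDataRat723] using h4.symm
  · rw [mP_eval_one, nP_eval_one, WeierstrassCurve.map_c₆]
    simpa [lineDataRat723] using h6.symm

/-- **B1 with rational parameters.** -/
theorem fiveCongruent_of_ratParams723 (W W' : WeierstrassCurve ℤ) (hΔ : W.Δ ≠ 0)
    (hΔ' : W'.Δ ≠ 0) (μ ν : ℚ)
    (h4 : (W'.c₄ : ℚ) = C4h (W.c₄ : ℚ) (W.c₆ : ℚ) μ ν)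
    (h6 : (W'.c₆ : ℚ) = C6h (W.c₄ : ℚ) (W.c₆ : ℚ) μ ν) :
    Fermat.Agent.S52.FiveCongruent W W' :=
  fiveCongruent_of_family_rat W W' hΔ hΔ' (lineDataRat723 W W' μ ν).fam 0 1
    (lineDataRat_fibre_zero723 W W' μ ν) (lineDataRat_fibre_one723 W W' μ ν h4 h6)
    (hasTorsionLifts_lineData _)

/-- **B1 for the `3`-rescaled member of the family.** -/
theorem fiveCongruent_of_scaled723 (W W' : WeierstrassCurve ℤ) (hΔ : W.Δ ≠ 0)
    (hΔ' : W'.Δ ≠ 0) (m n : ℤ)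
    (h4 : 3 ^ 20 * W'.c₄ = C4h W.c₄ W.c₆ m n)
    (h6 : 3 ^ 30 * W'.c₆ = C6h W.c₄ W.c₆ m n) :
    Fermat.Agent.S52.FiveCongruent W W' := by
  refine fiveCongruent_of_ratParams723 W W' hΔ hΔ' ((1 / 3 : ℚ) * m) ((1 / 3 : ℚ) * n) ?_ ?_
  · rw [C4h_smul723]
    have e := map_C4h (Int.castRingHom ℚ) W.c₄ W.c₆ m n
    simp only [eq_intCast] at e
    rw [← e, ← h4]
    push_cast
    ring
  · rw [C6h_smul723]
    have e := map_C6h (Int.castRingHom ℚ) W.c₄ W.c₆ m n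
    simp only [eq_intCast] at e
    rw [← e, ← h6]
    push_cast
    ring

end Fermat.Agent.G2.H723

end
-- ===== PACK-END G2/H723/FiveCong.lean

-- ===== PACK-BEGIN G2/H723/CuspSwitch.lean
section




/-!
# Row GLUE, phase 2, block F, leaf C: `CuspSwitchStatement`, UNCONDITIONAL  (helper723)

`cuspSwitch723 : Fermat.Agent.Glue.CuspSwitchStatement` (frozen Prop of `Glue/FSpec.lean`,
sha256 e10a66c0b24a98f9, origin/helper120@b9a9ec29a), verbatim.

A semistable model `W`, multiplicative at `3` with `3 ∣ v₃(Δ)`, `v₃(Δ) ≥ 30`, has a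
`5`-congruent semistable model `W''`, multiplicative at `3`, with `v₃(Δ'') = v₃(Δ) + 5`.

* `Cusp.lean`      : the family on the cuspidal cubic (`C4h t² t³ m n = t² (n + m t)²⁰`, ...);
* `ThreeAdic.lean` : the `3`-adic congruences at `n = 3 - m t`, `m t ≡ 1 mod 9`;
* `Model.lean`     : the integral semistable model (landed `exists_model_congrMod`, Lemma SS);
* `FiveCong.lean`  : landed B1 (line family, rigidity) with rational parameters `(m/3, n/3)`.
-/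

set_option autoImplicit false

namespace Fermat.Agent.G2.H723

open WeierstrassCurve

/-- **Leaf C** of block F (cusp switch). -/
theorem cuspSwitch723 : Fermat.Agent.Glue.CuspSwitchStatement := by
  intro W hΔ hW h3 hv3 hv30
  obtain ⟨W'', m, n, hΔ'', hss'', hval, h4, h6⟩ := exists_cusp_model723 W hΔ hW h3 hv30
  refine ⟨W'', hΔ'', hss'', ?_, ?_, fiveCongruent_of_scaled723 W W'' hΔ hΔ'' m n h4 h6⟩
  · -- `3 ∣ Δ''`
    have h := padicValInt_dvd (p := 3) W''.Δ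
    rw [hval] at h
    have h' : ((3 : ℕ) : ℤ) ∣ ((3 : ℕ) : ℤ) ^ (padicValInt 3 W.Δ + 5) :=
      dvd_pow_self _ (by omega)
    exact_mod_cast h'.trans h
  · rw [hval]
    omega

end Fermat.Agent.G2.H723

end
-- ===== PACK-END G2/H723/CuspSwitch.lean

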