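import Mathlib.GroupTheory.CosetCover
import Mathlib.RingTheory.MvPolynomial.EulerIdentity
import Mathlib.LinearAlgebra.Dual.Lemmas
import Fermat.Statements.S09
import Mathlib
import Fermat.Prelude.Def_ModularForm_EisensteinChiNegThree
import Fermat.Prelude.Def_FLTPrelim_Modularity
import Fermat.Agent.Pack.L1.E4L3
import Fermat.Agent.Pack.S44C.G0E23L0
import Fermat.Agent.Pack.L1.E3L1
import Fermat.Agent.Pack.L1.E5L2
import Fermat.Agent.Pack.L1.E0L2
import Fermat.Agent.Pack.L1.E5L3
import Fermat.Agent.Pack.L1.E4L1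
import Fermat.Agent.Pack.L1.E3L0
import Fermat.Agent.Pack.L1.E4L0
import Fermat.Agent.Pack.L1.E5L1
import Fermat.Agent.Pack.S44C.G0E21L2
import Fermat.Agent.Pack.S44C.G0E20L3
import Fermat.Agent.Pack.S44C.G0E22L2

-- ===== PACK-BEGIN S17/H17/HGauss.lean
section




/-!
# S17 / tower H — the GAUSS interface between the GAUSS sub-project and TOP (row-lead helper17)

TOP needs (GAUSS) at a GALOIS-INVARIANT canonical divisor (`K₀ = div(dt)`, `t` a rational
function with poles at `∞` only), so `GAUSSStatement` (`∃ K₀`) is not enough.  FROZEN output of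
the GAUSS sub-project:

* `GAUSSCanStatement E` : `|κ(P) − (W . P)| ≤ C_W` off `W`, for EVERY divisor `W = div ω` of a
  nonzero Kähler differential.

Proved here (formal):

* `GAUSSAtStatement.of_off_finset` : finitely many exceptional places are absorbed by the constant;
* `GAUSSAtStatement.add_principal` : (GAUSS) at `K₀` + (PRINC) ⟹ (GAUSS) at `K₀ + div f`;
* `gaussCan_of_one` : (GAUSS) at ONE Kähler canonical divisor + (PRINC) ⟹ `GAUSSCanStatement`;
* `gaussStatement_of_can` : `GAUSSCanStatement` ⟹ `GAUSSStatement` (degree `2g − 2` by the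
  bridge `Lib/RR/H80/Res/Bridge.degree_kaehler`), the input of the wall assembly.

`PRINCStatement E` : `|(div f . P)| ≤ C_f` off `div f` (Weil's machine for ONE form of degree `k`
gives `(Z_G . P) = k h(P) + O(1)`; write `f = G₁(x) / G₂(x)`).
-/

set_option autoImplicit false

noncomputable section

open AlgebraicCurve KaehlerDifferential

namespace Fermat.Agent.S17.HContract

open Fermat.Agent.Lib.RR Fermat.Agent.S17.HWall

variable {K F : Type*} [Field K] [CharZero K] [Field F] [Algebra K F] [FF1 K F]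

/-- **(GAUSS) at the divisor `K₀`**: `|κ(P) − (K₀ . P)| ≤ C` for all places `P ∉ K₀`. -/
def GAUSSAtStatement (E : EmbData K F) (K₀ : Divisor K F) : Prop :=
  ∃ C : ℝ, ∀ P : Place K F, K₀ P = 0 → |kap E P - pairPt E K₀ P| ≤ C

/-- **(GAUSS), final form**: (GAUSS) at the divisor of every nonzero Kähler differential. -/
def GAUSSCanStatement (E : EmbData K F) : Prop :=
  ∀ (ω : Ω[F⁄K]) (W : Divisor K F), ω ≠ 0 → (∀ v : Place K F, W v = v.ordDifferential ω) →
    GAUSSAtStatement E W

/-- **(PRINC)**: the pairing with a principal divisor is bounded off its support. -/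
def PRINCStatement (E : EmbData K F) : Prop :=
  ∀ (f : F) (Df : Divisor K F), f ≠ 0 → (∀ v : Place K F, Df v = v.ord f) →
    ∃ C : ℝ, ∀ P : Place K F, Df P = 0 → |pairPt E Df P| ≤ C

theorem pairPt_add' (E : EmbData K F) (D D' : Divisor K F) (P : Place K F) :
    pairPt E (D + D') P = pairPt E D P + pairPt E D' P := by
  unfold pairPt
  rw [Finsupp.sum_add_index']
  · intro A
    rw [Int.cast_zero, zero_mul]
  · intro A n n'
    push_cast
    ring

/-- Finitely many exceptional places are absorbed by the constant. -/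
theorem GAUSSAtStatement.of_off_finset {E : EmbData K F} {K₀ : Divisor K F}
    (S : Finset (Place K F))
    (h : ∃ C : ℝ, ∀ P : Place K F, P ∉ S → K₀ P = 0 → |kap E P - pairPt E K₀ P| ≤ C) :
    GAUSSAtStatement E K₀ := by
  classical
  obtain ⟨C, hC⟩ := h
  refine ⟨|C| + ∑ P ∈ S, |kap E P - pairPt E K₀ P|, fun P hP => ?_⟩
  have hsum : 0 ≤ ∑ Q ∈ S, |kap E Q - pairPt E K₀ Q| :=
    Finset.sum_nonneg fun _ _ => abs_nonneg _
  by_cases hPS : P ∈ S
  · have := Finset.single_le_sum (f := fun Q => |kap E Q - pairPt E K₀ Q|)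
      (fun _ _ => abs_nonneg _) hPS
    have h2 := abs_nonneg C
    linarith
  · have := hC P hPS hP
    have h2 := le_abs_self C
    linarith

/-- (GAUSS) is invariant under linear equivalence, given (PRINC). -/
theorem GAUSSAtStatement.add_principal {E : EmbData K F} {K₀ : Divisor K F}
    (h : GAUSSAtStatement E K₀) (hP : PRINCStatement E) (f : F) (hf : f ≠ 0)
    (K₁ : Divisor K F) (hK₁ : ∀ v : Place K F, K₁ v = K₀ v + v.ord f) :
    GAUSSAtStatement E K₁ := by
  classical
  obtain ⟨C₀, hC₀⟩ := h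
  have hDf : ∀ v : Place K F, (K₁ - K₀) v = v.ord f := fun v => by
    rw [Finsupp.sub_apply, hK₁ v]; ring
  obtain ⟨C₁, hC₁⟩ := hP f (K₁ - K₀) hf hDf
  refine GAUSSAtStatement.of_off_finset (K₀.support ∪ (K₁ - K₀).support) ⟨C₀ + C₁, ?_⟩
  intro P hPS _
  rw [Finset.mem_union, not_or, Finsupp.notMem_support_iff, Finsupp.notMem_support_iff] at hPS
  have e : pairPt E K₁ P = pairPt E K₀ P + pairPt E (K₁ - K₀) P := by
    rw [← pairPt_add']
    congr 1
    abel
  have h0 := hC₀ P hPS.1
  have h1 := hC₁ P hPS.2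
  rw [e]
  calc |kap E P - (pairPt E K₀ P + pairPt E (K₁ - K₀) P)|
      = |(kap E P - pairPt E K₀ P) - pairPt E (K₁ - K₀) P| := by ring_nf
    _ ≤ |kap E P - pairPt E K₀ P| + |pairPt E (K₁ - K₀) P| := abs_sub _ _
    _ ≤ C₀ + C₁ := add_le_add h0 h1

/-- (GAUSS) at ONE Kähler canonical divisor and (PRINC) give (GAUSS) at all of them. -/
theorem gaussCan_of_one [IsAlgClosed K] {E : EmbData K F} (hP : PRINCStatement E)
    (ω₀ : Ω[F⁄K]) (hω₀ : ω₀ ≠ 0) (W₀ : Divisor K F)
    (hW₀ : ∀ v : Place K F, W₀ v = v.ordDifferential ω₀) (h : GAUSSAtStatement E W₀) :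
    GAUSSCanStatement E := by
  intro ω W hω hW
  obtain ⟨j, -, hjfin⟩ := FF1.exists_finite (K := K) (F := F)
  have := hjfin
  obtain ⟨f₀, hf₀⟩ := Fermat.Agent.S24.H84.kd_exists_smul_D j ω₀
  obtain ⟨f, hf⟩ := Fermat.Agent.S24.H84.kd_exists_smul_D j ω
  have hf₀0 : f₀ ≠ 0 := by rintro rfl; exact hω₀ (by rw [hf₀, zero_smul])
  have hf0 : f ≠ 0 := by rintro rfl; exact hω (by rw [hf, zero_smul])
  have hrel : ω = (f * f₀⁻¹) • ω₀ := by
    rw [hf₀, smul_smul, mul_assoc, inv_mul_cancel₀ hf₀0, mul_one, ← hf]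
  have hg : f * f₀⁻¹ ≠ 0 := mul_ne_zero hf0 (inv_ne_zero hf₀0)
  refine h.add_principal hP (f * f₀⁻¹) hg W fun v => ?_
  rw [hW v, hW₀ v, hrel, Fermat.Agent.S24.H84.kd_ordDifferential_smul j v _ hg ω₀ hω₀]
  ring

/-- `GAUSSCanStatement` gives the `GAUSSStatement` of the contract (degree `2g − 2` by the
bridge of helper80). -/
theorem gaussStatement_of_can [IsAlgClosed K] {E : EmbData K F} (h : GAUSSCanStatement E) :
    GAUSSStatement E := by
  obtain ⟨ω, hω⟩ := Fermat.Agent.Lib.RR.H80.exists_kaehler_ne_zero K F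
  obtain ⟨W, hW, -⟩ := Fermat.Agent.Lib.RR.H80.exists_canonical_kaehler ω hω
  obtain ⟨C, hC⟩ := h ω W hω hW
  refine ⟨W, C, ?_, hC⟩
  rw [Fermat.Agent.Lib.RR.H80.degree_kaehler hω hW, genusFF_eq_genusR]

end Fermat.Agent.S17.HContract

end
end
-- ===== PACK-END S17/H17/HGauss.lean

-- ===== PACK-BEGIN S17/H980/Mov2.lean
section



/-!
# S17 / tower H, geometric leaf G-MOV2 (helper980)

`E : EmbData ℚ̄ F` with Galois-fixed basis, `∞` invariant.

* `exists_rat_coeff` : a Galois-fixed function in `L(m∞)` has RATIONAL coordinates in the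
  basis `E.x`;
* `exists_fixed_of_divOf_eq` : a principal Galois-invariant divisor is the divisor of a
  Galois-fixed function;
* `exists_form_avoiding` : for an invariant effective `D` with `deg D + 2g ≤ m` and a finite set
  `T` of places there is a non-zero rational form `a` with `Z_a = D + R`, `R ≥ 0` invariant and
  `R(P) = 0` for all `P ∈ T`;
* `exists_common_residual` : **(Mov2)** if moreover `D₁ ∼ D₂` (both effective invariant), there are
  rational forms `a₁, a₂` and ONE residual divisor `R` avoiding `T` with `Z_{a₁} = D₁ + R`,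
  `Z_{a₂} = D₂ + R`.
-/

set_option autoImplicit false

noncomputable section

open AlgebraicCurve

namespace Fermat.Agent.S17.H980

open Fermat.Agent.Lib.RR Fermat.Agent.S17.HWall
open Fermat.Agent.S17.H77 Fermat.Agent.S17.H680 ModularCurve

variable (F₀ : IntermediateField ℚ (LaurentSeries ℚ)) [FF1 Qb (laurentBaseChange Qb F₀)]

/-- the rational coefficient vector, viewed over `ℚ̄` -/
def castQ {n : ℕ} (a : Fin n → ℚ) : Fin n → Qb := fun j => ((a j : ℚ) : Qb)

omit F₀ in
theorem castQ_ne_zero {n : ℕ} {a : Fin n → ℚ} (ha : a ≠ 0) : castQ a ≠ 0 := by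
  intro h
  apply ha
  funext j
  have := congrFun h j
  simpa [castQ] using this

omit [FF1 Qb (laurentBaseChange Qb F₀)] in
theorem lin_castQ {n : ℕ} (x : Fin n → laurentBaseChange Qb F₀) (a : Fin n → ℚ) :
    ∑ j, castQ a j • x j = ∑ j, a j • x j := by
  refine Finset.sum_congr rfl fun j _ => ?_
  unfold castQ
  rw [← algebraMap_smul Qb (a j) (x j), eq_ratCast]

/-- A Galois-fixed function of `L(m∞)` has rational coordinates. -/
theorem exists_rat_coeff (E : EmbData Qb (laurentBaseChange Qb F₀))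
    (hxfix : ∀ i, IsFixed F₀ (E.x i)) (hinf : IsInvariant F₀ (prim E.vinf))
    {f : laurentBaseChange Qb F₀} (hf : f ∈ riemannRochSpace (E.m • prim E.vinf))
    (hfix : IsFixed F₀ f) : ∃ a : Fin (E.r + 1) → ℚ, ∑ j, a j • E.x j = f := by
  have hD₀ : IsInvariant F₀ (E.m • prim E.vinf) := by
    intro σ
    rw [smul_comm, hinf σ]
  have h := span_rat_eq_fixedPart F₀ E.x hxfix E.x_li (E.m • prim E.vinf) hD₀ E.x_span
  have hmem : f ∈ fixedPart F₀ (riemannRochSpace (E.m • prim E.vinf)) := ⟨hf, hfix⟩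
  rw [← h] at hmem
  exact (Submodule.mem_span_range_iff_exists_fun ℚ).mp hmem

/-- A principal invariant divisor is the divisor of a fixed function. -/
theorem exists_fixed_of_divOf_eq {D : Divisor Qb (laurentBaseChange Qb F₀)}
    (hD : IsInvariant F₀ D) (f : laurentBaseChange Qb F₀) (hf : f ≠ 0)
    (hdiv : divOf f hf = D) :
    ∃ (f₀ : laurentBaseChange Qb F₀) (hf₀ : f₀ ≠ 0), IsFixed F₀ f₀ ∧ divOf f₀ hf₀ = D := by
  have hinv : IsInvariant F₀ (-D) := by
    intro σ
    rw [smul_neg, hD σ]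
  have hell : ell (-D) = 1 := by
    have h := ell_add_divOf (-D) f hf
    rw [hdiv, neg_add_cancel, ell_zero] at h
    exact h.symm
  obtain ⟨b, hbL, hbfix, hbli, -, -⟩ := exists_fixed_basis_L F₀ hinv
  have i0 : Fin (ell (-D)) := ⟨0, by omega⟩
  have hb0 : b i0 ≠ 0 := hbli.ne_zero i0
  have hfL : f ∈ riemannRochSpace (-D) := by
    rw [mem_L_iff_nonneg hf, hdiv, neg_add_cancel]
  refine ⟨b i0, hb0, hbfix i0, ?_⟩
  rw [divOf_eq_of_ell_eq_one hell hb0 hf (hbL i0) hfL, hdiv]

/-- The hyperplane section of a rational form is Galois-invariant. -/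
theorem isInvariant_Z (E : EmbData Qb (laurentBaseChange Qb F₀))
    (hxfix : ∀ i, IsFixed F₀ (E.x i)) (hinf : IsInvariant F₀ (prim E.vinf))
    (a : Fin (E.r + 1) → ℚ) : IsInvariant F₀ (E.Z (castQ a)) := by
  intro σ
  by_cases ha : a = 0
  · subst ha
    have h0 : castQ (0 : Fin (E.r + 1) → ℚ) = 0 := by
      funext j; simp [castQ]
    have : E.Z (0 : Fin (E.r + 1) → Qb) = 0 := by
      unfold EmbData.Z hypDiv
      rw [dif_pos (by simp [lin])]
    rw [h0, this, smul_zero]
  · have ha' := castQ_ne_zero ha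
    have hfix : IsFixed F₀ (lin E.x (castQ a)) := by
      intro τ
      unfold lin
      rw [lin_castQ, Finset.smul_sum]
      refine Finset.sum_congr rfl fun j _ => ?_
      rw [← algebraMap_smul Qb (a j) (E.x j), arithmeticGalois_smul_smul, hxfix j τ,
        AlgEquiv.commutes]
    rw [E.Z_eq ha', smul_add, smul_divOf, smul_comm, hinf σ]
    congr 1
    exact (divOf_congr _ (hfix σ))

/-- **Generic rational hyperplane sections through `D`.** -/
theorem exists_form_avoiding (E : EmbData Qb (laurentBaseChange Qb F₀))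
    (hxfix : ∀ i, IsFixed F₀ (E.x i)) (hinf : IsInvariant F₀ (prim E.vinf))
    (D : Divisor Qb (laurentBaseChange Qb F₀)) (hD0 : 0 ≤ D) (hDinv : IsInvariant F₀ D)
    (hdeg : Divisor.degree D + 2 * (genusFF Qb (laurentBaseChange Qb F₀) : ℤ) ≤ E.m)
    (T : Finset (Place Qb (laurentBaseChange Qb F₀))) :
    ∃ (a : Fin (E.r + 1) → ℚ) (R : Divisor Qb (laurentBaseChange Qb F₀)), a ≠ 0 ∧ 0 ≤ R ∧
      IsInvariant F₀ R ∧ E.Z (castQ a) = D + R ∧ ∀ P ∈ T, R P = 0 := by
  classical
  set D₀ : Divisor Qb (laurentBaseChange Qb F₀) := E.m • prim E.vinf with hD₀def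
  have hD₀ : IsInvariant F₀ D₀ := by
    intro σ
    rw [hD₀def, smul_comm, hinf σ]
  have hdegD₀ : Divisor.degree D₀ = E.m := by
    rw [hD₀def, map_nsmul, degree_prim _ (deg_eq_one _)]
    simp
  have hEinv : IsInvariant F₀ (D₀ - D) := by
    intro σ
    rw [smul_sub, hD₀ σ, hDinv σ]
  have hdegD : 0 ≤ Divisor.degree D := degree_nonneg hD0
  -- the space of rational forms through `D`
  set Λ := rationalForms F₀ E.x (D₀ - D) with hΛ
  have hfin : Module.finrank ℚ Λ = ell (D₀ - D) :=
    finrank_rationalForms F₀ E.x hxfix E.x_li D₀ (D₀ - D) hD₀ hEinv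
      (sub_le_self D₀ hD0) E.x_span
  have hell : (ell (D₀ - D) : ℤ) =
      Divisor.degree (D₀ - D) + 1 - (genusFF Qb (laurentBaseChange Qb F₀) : ℤ) :=
    ell_eq_of_degree_gt (by rw [map_sub, hdegD₀]; omega)
  have hpos : 0 < Module.finrank ℚ Λ := by
    rw [hfin]
    rw [map_sub, hdegD₀] at hell
    omega
  -- the subspaces to avoid
  let sub : Place Qb (laurentBaseChange Qb F₀) → Subspace ℚ Λ := fun P =>
    (rationalForms F₀ E.x (D₀ - D - prim P)).comap Λ.subtype
  have hproper : ∀ P, sub P ≠ ⊤ := by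
    intro P htop
    -- then every fixed function of `L(D₀ - D)` lies in `L(D₀ - D - P)`
    obtain ⟨b, hbL, hbfix, -, hbspan, -⟩ := exists_fixed_basis_L F₀ hEinv
    have hb : ∀ i, b i ∈ riemannRochSpace (D₀ - D - prim P) := by
      intro i
      obtain ⟨a, ha⟩ := exists_rat_coeff F₀ E hxfix hinf
        (L_mono (sub_le_self D₀ hD0) (hbL i)) (hbfix i)
      have haΛ : a ∈ Λ := by
        rw [hΛ, mem_rationalForms, ha]
        exact hbL i
      have : (⟨a, haΛ⟩ : Λ) ∈ sub P := by rw [htop]; trivial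
      have h2 : a ∈ rationalForms F₀ E.x (D₀ - D - prim P) := this
      rw [mem_rationalForms, ha] at h2
      exact h2
    have hle : riemannRochSpace (D₀ - D) ≤ riemannRochSpace (D₀ - D - prim P) := by
      rw [← hbspan, Submodule.span_le]
      rintro _ ⟨i, rfl⟩
      exact hb i
    have h1 : ell (D₀ - D) ≤ ell (D₀ - D - prim P) := by
      unfold ell
      exact Submodule.finrank_mono hle
    have hell' : (ell (D₀ - D - prim P) : ℤ) =
        Divisor.degree (D₀ - D - prim P) + 1 - (genusFF Qb (laurentBaseChange Qb F₀) : ℤ) :=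
      ell_eq_of_degree_gt (by
        rw [map_sub, map_sub, hdegD₀, degree_prim _ (deg_eq_one _)]; omega)
    rw [map_sub, map_sub, hdegD₀, degree_prim _ (deg_eq_one _)] at hell'
    rw [map_sub, hdegD₀] at hell
    omega
  have hbot : (⊥ : Subspace ℚ Λ) ≠ ⊤ := by
    intro h
    have := congrArg (fun S : Subspace ℚ Λ => Module.finrank ℚ S) h
    simp only [finrank_bot, finrank_top] at this
    omega
  let s : Finset (Subspace ℚ Λ) := insert ⊥ (T.image sub)
  have hs : (⊤ : Subspace ℚ Λ) ∉ s := by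
    intro h
    rcases Finset.mem_insert.mp h with h | h
    · exact hbot h.symm
    · obtain ⟨P, -, hP⟩ := Finset.mem_image.mp h
      exact hproper P hP
  have hne := Subspace.biUnion_ne_univ_of_top_notMem hs
  obtain ⟨⟨a, haΛ⟩, hanot⟩ : ∃ a : Λ, a ∉ ⋃ p ∈ s, (p : Set Λ) := by
    by_contra hcon
    apply hne
    ext a
    simp only [Set.mem_univ, iff_true]
    by_contra ha
    exact hcon ⟨a, ha⟩
  simp only [Set.mem_iUnion, not_exists] at hanot
  have ha0 : a ≠ 0 := by
    intro h
    apply hanot ⊥ (Finset.mem_insert_self _ _)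
    rw [SetLike.mem_coe, Submodule.mem_bot]
    exact Subtype.ext h
  have haT : ∀ P ∈ T, a ∉ rationalForms F₀ E.x (D₀ - D - prim P) := by
    intro P hP h
    exact hanot (sub P) (Finset.mem_insert_of_mem (Finset.mem_image_of_mem _ hP)) h
  have ha' := castQ_ne_zero ha0
  have hmem : ∑ j, castQ a j • E.x j ∈ riemannRochSpace (D₀ - D) := by
    rw [lin_castQ]
    exact (mem_rationalForms F₀ E.x _ a).mp haΛ
  have hle : D ≤ E.Z (castQ a) := (le_Z_iff_mem_L E D ha').mpr hmem
  refine ⟨a, E.Z (castQ a) - D, ha0, sub_nonneg.mpr hle, ?_, by abel, ?_⟩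
  · intro σ
    rw [smul_sub, isInvariant_Z F₀ E hxfix hinf a σ, hDinv σ]
  · intro P hP
    by_contra hne0
    have hR : (0 : ℤ) ≤ (E.Z (castQ a) - D) P := by
      have := Finsupp.le_def.mp (sub_nonneg.mpr hle) P
      simpa using this
    have hR1 : (1 : ℤ) ≤ (E.Z (castQ a) - D) P := by omega
    apply haT P hP
    rw [mem_rationalForms, ← lin_castQ]
    have hle2 : D + prim P ≤ E.Z (castQ a) := by
      rw [Finsupp.le_def]
      intro v
      have h1 := Finsupp.le_def.mp hle v
      by_cases hv : v = P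
      · subst hv
        simp only [Finsupp.coe_add, Pi.add_apply, prim_apply_self]
        simp only [Finsupp.coe_sub, Pi.sub_apply] at hR1
        omega
      · simp only [Finsupp.coe_add, Pi.add_apply, prim_apply_of_ne hv]
        omega
    have := (le_Z_iff_mem_L E (D + prim P) ha').mp hle2
    rwa [← sub_sub] at this

/-- **(Mov2)**: two linearly equivalent invariant effective divisors are cut out by rational
hyperplanes with a COMMON residual divisor `R`, which can be chosen to avoid any finite set. -/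
theorem exists_common_residual (E : EmbData Qb (laurentBaseChange Qb F₀))
    (hxfix : ∀ i, IsFixed F₀ (E.x i)) (hinf : IsInvariant F₀ (prim E.vinf))
    (D₁ D₂ : Divisor Qb (laurentBaseChange Qb F₀)) (h₁ : 0 ≤ D₁) (h₂ : 0 ≤ D₂)
    (hinv₁ : IsInvariant F₀ D₁) (hinv₂ : IsInvariant F₀ D₂)
    (hdeg : Divisor.degree D₁ + 2 * (genusFF Qb (laurentBaseChange Qb F₀) : ℤ) ≤ E.m)
    (f : laurentBaseChange Qb F₀) (hf : f ≠ 0) (hdiv : divOf f hf = D₁ - D₂)
    (T : Finset (Place Qb (laurentBaseChange Qb F₀))) :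
    ∃ (a₁ a₂ : Fin (E.r + 1) → ℚ) (R : Divisor Qb (laurentBaseChange Qb F₀)),
      a₁ ≠ 0 ∧ a₂ ≠ 0 ∧ 0 ≤ R ∧ IsInvariant F₀ R ∧
      E.Z (castQ a₁) = D₁ + R ∧ E.Z (castQ a₂) = D₂ + R ∧ ∀ P ∈ T, R P = 0 := by
  classical
  obtain ⟨a₁, R, ha₁, hR0, hRinv, hZ₁, hT⟩ :=
    exists_form_avoiding F₀ E hxfix hinf D₁ h₁ hinv₁ hdeg T
  have hinv12 : IsInvariant F₀ (D₁ - D₂) := by
    intro σ
    rw [smul_sub, hinv₁ σ, hinv₂ σ]
  obtain ⟨f₀, hf₀, hf₀fix, hdiv₀⟩ := exists_fixed_of_divOf_eq F₀ hinv12 f hf hdiv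
  have ha₁' := castQ_ne_zero ha₁
  set f₁ := lin E.x (castQ a₁) with hf₁def
  have hf₁ : f₁ ≠ 0 := E.lin_ne_zero ha₁'
  have hf₁fix : IsFixed F₀ f₁ := by
    intro τ
    rw [hf₁def]
    unfold lin
    rw [lin_castQ, Finset.smul_sum]
    refine Finset.sum_congr rfl fun j _ => ?_
    rw [← algebraMap_smul Qb (a₁ j) (E.x j), arithmeticGalois_smul_smul, hxfix j τ,
      AlgEquiv.commutes]
  set f₂ := f₁ * f₀⁻¹ with hf₂def
  have hf₂ : f₂ ≠ 0 := mul_ne_zero hf₁ (inv_ne_zero hf₀)
  have hf₂fix : IsFixed F₀ f₂ := by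
    intro τ
    rw [hf₂def, smul_mul', smul_inv'', hf₁fix τ, hf₀fix τ]
  have hdiv₂ : divOf f₂ hf₂ + E.m • prim E.vinf = D₂ + R := by
    have h1 : divOf (K := Qb) f₂ hf₂ = divOf f₁ hf₁ - divOf f₀ hf₀ := by
      rw [divOf_congr hf₂ hf₂def, divOf_mul f₁ f₀⁻¹ hf₁ (inv_ne_zero hf₀), divOf_inv f₀ hf₀,
        sub_eq_add_neg]
    have h2 : divOf f₁ hf₁ + E.m • prim E.vinf = D₁ + R := by
      rw [← hZ₁, E.Z_eq ha₁']
    rw [h1, hdiv₀]
    have h3 : divOf (K := Qb) f₁ hf₁ = D₁ + R - E.m • prim E.vinf := by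
      rw [← h2]; abel
    rw [h3]
    abel
  have hf₂L : f₂ ∈ riemannRochSpace (E.m • prim E.vinf) := by
    rw [mem_L_iff_nonneg hf₂, add_comm, hdiv₂]
    exact add_nonneg h₂ hR0
  obtain ⟨a₂, ha₂⟩ := exists_rat_coeff F₀ E hxfix hinf hf₂L hf₂fix
  have ha₂0 : a₂ ≠ 0 := by
    rintro rfl
    apply hf₂
    rw [← ha₂]
    simp
  have ha₂' := castQ_ne_zero ha₂0
  have hlin₂ : lin E.x (castQ a₂) = f₂ := by
    unfold lin
    rw [lin_castQ, ha₂]
  refine ⟨a₁, a₂, R, ha₁, ha₂0, hR0, hRinv, hZ₁, ?_, hT⟩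
  rw [E.Z_eq ha₂', divOf_congr (E.lin_ne_zero ha₂') hlin₂]
  exact hdiv₂

end Fermat.Agent.S17.H980

end
end
-- ===== PACK-END S17/H980/Mov2.lean

-- ===== PACK-BEGIN S17/H500/TopData.lean
section




/-!
# S17 / tower H : TOP-GLUE, the concrete data (architect helper500)

`Contract E E d₀` (WALL) + geometry  ⟹  `PairingPackage (MWG F₀)`  (input of the formal layer,
`S17/H500/Formal.lean`).  For `F₀ = modularFunctionFieldFull N` one has `MWG F₀ = MW N` (`rfl`).

* `TopInput F₀` : one embedding `E` (Galois-fixed basis, `x₀ = 1`, `∞` invariant), the degree `d`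
  of the representatives, the ramification divisor `Rt ≥ 0` (invariant, prime to `∞`) and the
  integer `c` with `deg Rt = 2g - 2 + c`  (`div(dt) = Rt - c ∞`).
* data: `Dv` (effective invariant divisors), `degHom`, `clsHom`, `Disj`, `Good`, `naive`, `pair`,
  `del`, `Ksum`, `Pl`, `Lin`, `htL`, `ZL`, `infD`, `oneL`, `RtD`.
* `GaussPlus I` : the form of (GAUSS) needed by TOP  (`K₀ = Rt - c ∞`).
* `Mov1Statement I`, `NorthcottStatement I` : the two geometric inputs not yet on main.
* one `Prop` per field of `PairingPackage` (`…Leaf I`), `structure Leaves I`, and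
  `mkPackage I (h : Leaves I) : PairingPackage (MWG F₀)`.

Everything here is complete (definitions + the constructor).
-/

set_option autoImplicit false

noncomputable section

open AlgebraicCurve

namespace Fermat.Agent.S17.H500.Top

open Fermat.Agent.Lib.RR Fermat.Agent.S17.HWall Fermat.Agent.S17.HContract
open Fermat.Agent.S17.H77 Fermat.Agent.S17.H680 Fermat.Agent.S17.H980 ModularCurve

variable (F₀ : IntermediateField ℚ (LaurentSeries ℚ)) [FF1 Qb (laurentBaseChange Qb F₀)]

/-- The Mordell--Weil group `Pic⁰(F)^{G_ℚ}`. -/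
abbrev MWG : AddSubgroup (Pic0 Qb (laurentBaseChange Qb F₀)) :=
  FixedPoints.addSubgroup GQ (Pic0 Qb (laurentBaseChange Qb F₀))

/-- The input of TOP-GLUE. -/
structure TopInput where
  /-- the embedding -/
  E : EmbData Qb (laurentBaseChange Qb F₀)
  xfix : ∀ i, IsFixed F₀ (E.x i)
  inf_inv : IsInvariant F₀ (prim E.vinf)
  x_zero : E.x 0 = 1
  /-- degree of the representatives -/
  d : ℕ
  /-- finite ramification divisor of the coordinate `t` -/
  Rt : Divisor Qb (laurentBaseChange Qb F₀)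
  Rt_nonneg : 0 ≤ Rt
  Rt_inv : IsInvariant F₀ Rt
  Rt_inf : Rt E.vinf = 0
  /-- pole order of `dt` at `∞` -/
  c : ℕ
  deg_Rt : Divisor.degree Rt = 2 * (genusR Qb (laurentBaseChange Qb F₀) : ℤ) - 2 + c
  one_le_g : 1 ≤ genusR Qb (laurentBaseChange Qb F₀)
  two_g_le_d : 2 * genusR Qb (laurentBaseChange Qb F₀) ≤ d
  four_d_le_m : 4 * d + 2 * genusR Qb (laurentBaseChange Qb F₀) ≤ E.m

/-- Effective Galois-invariant divisors. -/
def DvSub : AddSubmonoid (Divisor Qb (laurentBaseChange Qb F₀)) where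
  carrier := {D | 0 ≤ D ∧ IsInvariant F₀ D}
  zero_mem' := ⟨le_refl _, fun _ => smul_zero _⟩
  add_mem' := by
    rintro D E ⟨hD, hDi⟩ ⟨hE, hEi⟩
    exact ⟨add_nonneg hD hE, fun σ => by rw [smul_add, hDi σ, hEi σ]⟩

/-- Effective Galois-invariant divisors, as a type. -/
abbrev Dv : Type := DvSub F₀

variable {F₀}

theorem Dv.nonneg (D : Dv F₀) : 0 ≤ (D : Divisor Qb (laurentBaseChange Qb F₀)) := D.2.1

theorem Dv.inv (D : Dv F₀) : IsInvariant F₀ (D : Divisor Qb (laurentBaseChange Qb F₀)) := D.2.2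

/-- The degree of an effective divisor, as a natural number. -/
def degHom : Dv F₀ →+ ℕ where
  toFun D := (Divisor.degree (D : Divisor Qb (laurentBaseChange Qb F₀))).toNat
  map_zero' := by simp
  map_add' D E := by
    have h1 := degree_nonneg D.nonneg
    have h2 := degree_nonneg E.nonneg
    rw [AddSubmonoid.coe_add, map_add]
    omega

theorem coe_degHom (D : Dv F₀) :
    ((degHom D : ℕ) : ℤ) = Divisor.degree (D : Divisor Qb (laurentBaseChange Qb F₀)) := by
  have h1 := degree_nonneg D.nonneg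
  show ((Divisor.degree (D : Divisor Qb (laurentBaseChange Qb F₀))).toNat : ℤ) = _
  omega

variable (I : TopInput F₀)

/-- `D - deg D • ∞`, of degree zero. -/
def TopInput.zeroPart (D : Dv F₀) : Divisor.degZero (K := Qb) (F := laurentBaseChange Qb F₀) :=
  ⟨(D : Divisor Qb (laurentBaseChange Qb F₀)) - degHom D • prim I.E.vinf, by
    rw [Divisor.mem_degZero, map_sub, map_nsmul, degree_prim _ (deg_eq_one _), ← coe_degHom]
    simp⟩

theorem TopInput.coe_zeroPart (D : Dv F₀) :
    (I.zeroPart D : Divisor Qb (laurentBaseChange Qb F₀)) =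
      (D : Divisor Qb (laurentBaseChange Qb F₀)) - degHom D • prim I.E.vinf := rfl

theorem TopInput.zeroPart_add (D E : Dv F₀) : I.zeroPart (D + E) = I.zeroPart D + I.zeroPart E := by
  apply Subtype.ext
  rw [AddSubgroup.coe_add, I.coe_zeroPart, I.coe_zeroPart, I.coe_zeroPart, map_add,
    AddSubmonoid.coe_add, add_smul]
  abel

theorem TopInput.zeroPart_zero : I.zeroPart 0 = 0 := by
  apply Subtype.ext
  rw [I.coe_zeroPart, map_zero]
  simp

theorem TopInput.smul_zeroPart (σ : GQ) (D : Dv F₀) :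
    arithmeticGalois F₀ σ • (I.zeroPart D : Divisor Qb (laurentBaseChange Qb F₀)) =
      I.zeroPart D := by
  rw [I.coe_zeroPart, smul_sub, D.inv σ, smul_comm, I.inf_inv σ]

/-- The class of `D - deg D • ∞` in the Mordell--Weil group. -/
def TopInput.clsHom : Dv F₀ →+ MWG F₀ where
  toFun D := ⟨Pic0.mk (I.zeroPart D), by
    intro σ
    show σ • Pic0.mk (I.zeroPart D) = Pic0.mk (I.zeroPart D)
    rw [galois_smul_pic0_def, SemilinearAut.pic0_smul_mk]
    exact congrArg Pic0.mk (Subtype.ext (by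
      rw [SemilinearAut.coe_degZeroSMulHom, I.smul_zeroPart]))⟩
  map_zero' := by
    apply Subtype.ext
    show Pic0.mk (I.zeroPart 0) = 0
    rw [I.zeroPart_zero]
    rfl
  map_add' D E := by
    apply Subtype.ext
    show Pic0.mk (I.zeroPart (D + E)) = Pic0.mk (I.zeroPart D) + Pic0.mk (I.zeroPart E)
    rw [I.zeroPart_add, Pic0.mk_add]

theorem TopInput.coe_clsHom (D : Dv F₀) :
    ((I.clsHom D : MWG F₀) : Pic0 Qb (laurentBaseChange Qb F₀)) = Pic0.mk (I.zeroPart D) := rfl

/-- Disjoint supports. -/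
def Disj (D E : Dv F₀) : Prop :=
  ∀ P : Place Qb (laurentBaseChange Qb F₀),
    (D : Divisor Qb (laurentBaseChange Qb F₀)) P = 0 ∨
      (E : Divisor Qb (laurentBaseChange Qb F₀)) P = 0

/-- Generic divisors: reduced, prime to `∞` and to `Rt`. -/
def TopInput.Good (D : Dv F₀) : Prop :=
  (∀ P, (D : Divisor Qb (laurentBaseChange Qb F₀)) P ≤ 1) ∧
    (D : Divisor Qb (laurentBaseChange Qb F₀)) I.E.vinf = 0 ∧
    ∀ P, (D : Divisor Qb (laurentBaseChange Qb F₀)) P = 0 ∨ I.Rt P = 0

/-- The naive height `N(D) = Σ D(P) h(pt P)`. -/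
def TopInput.N (D : Dv F₀) : ℝ := naive I.E (D : Divisor Qb (laurentBaseChange Qb F₀))

/-- The diagonal pairing `(D . E) = Σ D(A) E(P) hD(A, P)`. -/
def TopInput.pr (D E : Dv F₀) : ℝ :=
  pair I.E (D : Divisor Qb (laurentBaseChange Qb F₀)) (E : Divisor Qb (laurentBaseChange Qb F₀))

open Classical in
/-- The off-diagonal self pairing `δ(D) = ½ Σ_{P ≠ Q} D(P) D(Q) hD(P, Q)`. -/
def TopInput.del (D : Dv F₀) : ℝ :=
  (1 / 2 : ℝ) * ∑ P ∈ (D : Divisor Qb (laurentBaseChange Qb F₀)).support,
    ∑ Q ∈ (D : Divisor Qb (laurentBaseChange Qb F₀)).support,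
      if P = Q then 0 else
        ((D : Divisor Qb (laurentBaseChange Qb F₀)) P : ℝ) *
          ((D : Divisor Qb (laurentBaseChange Qb F₀)) Q : ℝ) * hD I.E P Q

/-- The tangent term `K(D) = Σ D(P) κ(P)`. -/
def TopInput.Ksum (D : Dv F₀) : ℝ :=
  (D : Divisor Qb (laurentBaseChange Qb F₀)).sum fun P n => (n : ℝ) * kap I.E P

/-- An enumeration of the support of a divisor. -/
def enum (D : Divisor Qb (laurentBaseChange Qb F₀)) :
    Fin D.support.card → Place Qb (laurentBaseChange Qb F₀) :=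
  fun i => (D.support.equivFin.symm i : Place Qb (laurentBaseChange Qb F₀))

theorem enum_injective (D : Divisor Qb (laurentBaseChange Qb F₀)) :
    Function.Injective (_root_.Fermat.Agent.S17.H500.Top.enum D) := fun _ _ h =>
  D.support.equivFin.symm.injective (Subtype.ext h)

theorem enum_mem (D : Divisor Qb (laurentBaseChange Qb F₀)) (i : Fin D.support.card) :
    _root_.Fermat.Agent.S17.H500.Top.enum D i ∈ D.support := (D.support.equivFin.symm i).2

theorem exists_enum_eq (D : Divisor Qb (laurentBaseChange Qb F₀))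
    {P : Place Qb (laurentBaseChange Qb F₀)} (hP : P ∈ D.support) : ∃ i, _root_.Fermat.Agent.S17.H500.Top.enum D i = P :=
  ⟨D.support.equivFin ⟨P, hP⟩, by simp [_root_.Fermat.Agent.S17.H500.Top.enum]⟩

/-- The Plücker height of the points of the support of `D`. -/
def TopInput.Pl (D : Dv F₀) : ℝ :=
  ht (plucker fun i => I.E.pt (_root_.Fermat.Agent.S17.H500.Top.enum (D : Divisor Qb (laurentBaseChange Qb F₀)) i))

/-- Nonzero rational linear forms. -/
abbrev TopInput.Lin : Type := {a : Fin (I.E.r + 1) → ℚ // a ≠ 0}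

/-- The height of a rational form. -/
def TopInput.htL (a : I.Lin) : ℝ := ht (castQ a.1)

/-- The hyperplane section of a rational form. -/
def TopInput.ZL (a : I.Lin) : Dv F₀ :=
  ⟨I.E.Z (castQ a.1), I.E.Z_nonneg _, isInvariant_Z F₀ I.E I.xfix I.inf_inv a.1⟩

theorem TopInput.coe_ZL (a : I.Lin) :
    (I.ZL a : Divisor Qb (laurentBaseChange Qb F₀)) = I.E.Z (castQ a.1) := rfl

/-- The point at infinity. -/
def TopInput.infD : Dv F₀ := ⟨prim I.E.vinf, prim_nonneg _, I.inf_inv⟩

/-- The constant function `1 = x₀`. -/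
def TopInput.oneL : I.Lin := ⟨Pi.single 0 1, fun h => by
  have := congrFun h 0
  simp at this⟩

/-- The ramification divisor. -/
def TopInput.RtD : Dv F₀ := ⟨I.Rt, I.Rt_nonneg, I.Rt_inv⟩

/-! ## The inputs which are not yet on main -/

/-- **(GAUSS⁺)**: the form of (GAUSS) consumed by TOP: `K₀ = Rt - c ∞` with `Rt ≥ 0` invariant.
(`Rt` = ramification divisor of a Galois-fixed coordinate `t` with only pole `∞`, `c - 1` = its
pole order.) -/
def GaussPlus : Prop :=
  ∃ C : ℝ, ∀ P : Place Qb (laurentBaseChange Qb F₀), I.Rt P = 0 → P ≠ I.E.vinf →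
    |kap I.E P - (pairPt I.E I.Rt P - (I.c : ℝ) * hD I.E I.E.vinf P)| ≤ C

/-- **(Mov1)**: every rational class has a reduced invariant effective representative of degree
`d` avoiding any finite set of places. -/
def Mov1Statement : Prop :=
  ∀ (x : MWG F₀) (T : Finset (Place Qb (laurentBaseChange Qb F₀))),
    ∃ D : Dv F₀, degHom D = I.d ∧ I.clsHom D = x ∧
      (∀ P, (D : Divisor Qb (laurentBaseChange Qb F₀)) P ≤ 1) ∧
      ∀ P ∈ T, (D : Divisor Qb (laurentBaseChange Qb F₀)) P = 0

/-- **(Northcott)** for effective invariant divisors of bounded degree. -/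
def NorthcottStatement : Prop :=
  ∀ (e : ℕ) (B : ℝ), {D : Dv F₀ | degHom D ≤ e ∧ I.N D ≤ B}.Finite

/-! ## One statement per field of `PairingPackage` -/

/-- the structural fields -/
structure StructLeaf : Prop where
  disj_symm : ∀ D E : Dv F₀, Disj D E → Disj E D
  disj_zero : ∀ E : Dv F₀, Disj 0 E
  disj_add_left : ∀ D₁ D₂ E : Dv F₀, Disj (D₁ + D₂) E ↔ Disj D₁ E ∧ Disj D₂ E
  deg_inf : degHom I.infD = 1
  cls_inf : I.clsHom I.infD = 0
  deg_Z : ∀ a, degHom (I.ZL a) = I.E.m
  cls_Z : ∀ a, I.clsHom (I.ZL a) = 0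
  Z_one : I.ZL I.oneL = I.E.m • I.infD
  ht_one : I.htL I.oneL = 0
  good_disj_inf : ∀ D, I.Good D → Disj D I.infD
  good_disj_Rt : ∀ D, I.Good D → Disj D I.RtD
  N_add : ∀ D E, I.N (D + E) = I.N D + I.N E
  N_nonneg : ∀ D, 0 ≤ I.N D
  pr_symm : ∀ D E, I.pr D E = I.pr E D
  pr_add : ∀ D₁ D₂ E, Disj (D₁ + D₂) E → I.pr (D₁ + D₂) E = I.pr D₁ E + I.pr D₂ E

/-- field `mov1` -/
def Mov1Leaf : Prop :=
  ∀ (x : MWG F₀) (T : Dv F₀), ∃ D, degHom D = I.d ∧ I.clsHom D = x ∧ Disj D T ∧ I.Good D

/-- field `mov2` -/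
def Mov2Leaf : Prop :=
  ∀ D₁ D₂ : Dv F₀, degHom D₁ = degHom D₂ →
    degHom D₁ + 2 * genusR Qb (laurentBaseChange Qb F₀) ≤ I.E.m →
    I.clsHom D₁ = I.clsHom D₂ → ∀ T : Dv F₀,
    ∃ (R : Dv F₀) (a₁ a₂ : I.Lin), I.ZL a₁ = D₁ + R ∧ I.ZL a₂ = D₂ + R ∧ Disj R T

/-- field `e3` -/
def E3Leaf : Prop :=
  ∃ C : ℝ, ∀ (a : I.Lin) (E : Dv F₀), Disj (I.ZL a) E →
    |I.pr (I.ZL a) E - (degHom E * I.htL a + I.N E)| ≤ C * degHom E

/-- field `bez` -/
def BezLeaf : Prop :=
  ∃ C : ℝ, ∀ a : I.Lin, |I.N (I.ZL a) - I.E.m * I.htL a| ≤ C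

/-- field `adj` -/
def AdjLeaf : Prop :=
  ∃ C : ℝ, ∀ (a : I.Lin) (D D' : Dv F₀), I.Good D → I.ZL a = D + D' → Disj D D' →
    |2 * I.del D - I.Ksum D + I.pr D' D - (degHom D * I.htL a + I.N D)| ≤ C * degHom D

/-- field `gauss` -/
def GaussLeaf : Prop :=
  ∃ C : ℝ, ∀ D : Dv F₀, I.Good D →
    |I.Ksum D - (I.pr I.RtD D -
        (((degHom I.RtD : ℝ) - (2 * genusR Qb (laurentBaseChange Qb F₀) - 2)) / I.E.m) * I.N D)|
      ≤ C * degHom D

/-- field `vdm` -/
def VdmLeaf : Prop :=
  ∃ C : ℝ, ∀ D : Dv F₀, I.Good D → degHom D = I.d → I.Pl D ≤ I.N D - I.del D + C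

/-- field `mink` -/
def MinkLeaf : Prop :=
  ∃ C : ℝ, ∀ D : Dv F₀, I.Good D → degHom D = I.d →
    ∃ (a : I.Lin) (D' : Dv F₀), I.ZL a = D + D' ∧
      ((I.E.m : ℝ) - I.d + 1 - genusR Qb (laurentBaseChange Qb F₀)) * I.htL a ≤ I.Pl D + C

/-- All leaves of TOP-GLUE. -/
structure Leaves : Prop where
  str : StructLeaf I
  northcott : NorthcottStatement I
  mov1 : Mov1Leaf I
  mov2 : Mov2Leaf I
  e3 : E3Leaf I
  bez : BezLeaf I
  adj : AdjLeaf I
  gauss : GaussLeaf I
  vdm : VdmLeaf I
  mink : MinkLeaf I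

/-- **The pairing package of TOP-GLUE.** -/
def mkPackage (h : Leaves I) : PairingPackage (MWG F₀) where
  Dv := Dv F₀
  deg := degHom
  cls := I.clsHom
  Disj := Disj
  Good := I.Good
  N := I.N
  pr := I.pr
  δ := I.del
  K := I.Ksum
  Pl := I.Pl
  Lin := I.Lin
  ht := I.htL
  Z := I.ZL
  m := I.E.m
  d := I.d
  g := genusR Qb (laurentBaseChange Qb F₀)
  inf := I.infD
  one := I.oneL
  Rt := I.RtD
  one_le_g := I.one_le_g
  two_g_le_d := I.two_g_le_d
  four_d_le_m := I.four_d_le_m
  disj_symm := h.str.disj_symm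
  disj_zero := h.str.disj_zero
  disj_add_left := h.str.disj_add_left
  deg_inf := h.str.deg_inf
  cls_inf := h.str.cls_inf
  deg_Z := h.str.deg_Z
  cls_Z := h.str.cls_Z
  Z_one := h.str.Z_one
  ht_one := h.str.ht_one
  good_disj_inf := h.str.good_disj_inf
  good_disj_Rt := h.str.good_disj_Rt
  N_add := h.str.N_add
  N_nonneg := h.str.N_nonneg
  pr_symm := h.str.pr_symm
  pr_add := h.str.pr_add
  northcott := h.northcott
  mov1 := h.mov1
  mov2 := h.mov2
  e3 := h.e3
  bez := h.bez
  adj := h.adj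
  gauss := h.gauss
  vdm := h.vdm
  mink := h.mink

end Fermat.Agent.S17.H500.Top

end
end
-- ===== PACK-END S17/H500/TopData.lean

-- ===== PACK-BEGIN Lib/RR/H80/Res/LocalDiff.lean
section


/-!
# Local behaviour of Kähler differentials at an arbitrary place (via residues)

For a function field `F/K` with `FF1 K F`, a place `v` and a uniformizer `π` at `v`
(no completions, no Laurent expansions):

* `ord_coeff_nonneg` : `f ∈ O_v`, `df = c dπ`  ⟹  `c ∈ O_v`;
* `ord_coeff_sub_pos` : `f = k + π h`, `h ∈ O_v`, `df = c dπ`  ⟹  `c ≡ h mod π`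
  (i.e. `(df/dπ)(v) = ((f - f(v))/π)(v)`);
* `ord_coeff_eq` : (char `0`) `ord_v f ≠ 0`, `df = c dπ`  ⟹  `ord_v c = ord_v f - 1`;
* Prelude forms `ordDifferential_D_nonneg`, `ordDifferential_D_eq`.
-/

set_option autoImplicit false

noncomputable section

open AlgebraicCurve KaehlerDifferential

namespace Fermat.Agent.Lib.RR.H80

open Fermat.Agent.Lib.RR LinearMap Module

variable {K F : Type*} [Field K] [Field F] [Algebra K F] [hFF : FF1 K F]

/-- `dπ ≠ 0` for a uniformizer `π`. -/
theorem D_ne_zero_of_ord_eq_one (v : Place K F) {π : F} (hπ : v.ord π = 1) : D K F π ≠ 0 := by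
  intro h0
  have h1 := rho_unif v hπ
  rw [← rhoK_D, h0, map_zero] at h1
  exact zero_ne_one h1

/-- If `f` is integral at `v` and `df = c dπ` with `π` a uniformizer at `v`, then `c` is integral
at `v`. -/
theorem ord_coeff_nonneg (v : Place K F) {π f c : F} (hπ : v.ord π = 1) (hf : 0 ≤ v.ord f)
    (h : D K F f = c • D K F π) : 0 ≤ v.ord c := by
  by_contra hlt
  rw [not_le] at hlt
  have hπ0 : π ≠ 0 := ne_zero_of_ord_ne_zero v (by rw [hπ]; exact one_ne_zero)
  have hc : c ≠ 0 := ne_zero_of_ord_ne_zero v hlt.ne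
  have ha : 0 ≤ v.ord (c * π)⁻¹ := by
    rw [Place.ord_inv, v.ord_mul hc hπ0, hπ]
    omega
  have h0 : rho f (singleA v (c * π)⁻¹) = 0 := rho_singleA_eq_zero v hf ha
  have h1 := rhoK_singleA_eq_one v hπ hc
  rw [← h, rhoK_D, h0] at h1
  exact zero_ne_one h1

/-- Uniqueness of the coefficient with respect to `dπ`. -/
theorem coeff_unique (v : Place K F) {π c c' : F} (hπ : v.ord π = 1)
    (h : c • D K F π = c' • D K F π) : c = c' := by
  have h0 : (c - c') • D K F π = 0 := by rw [sub_smul, h, sub_self]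
  rcases smul_eq_zero.mp h0 with h1 | h1
  · exact sub_eq_zero.mp h1
  · exact absurd h1 (D_ne_zero_of_ord_eq_one v hπ)

/-- `(df/dπ)(v) = ((f - f(v))/π)(v)`: if `f = k + π h` with `h` integral at `v` and `df = c dπ`,
then `c ≡ h` modulo the maximal ideal at `v`. -/
theorem ord_coeff_sub_pos (v : Place K F) {π f h c : F} (k : K) (hπ : v.ord π = 1)
    (hspan : Submodule.span F {D K F π} = ⊤)
    (hh : 0 ≤ v.ord h) (hf : f = algebraMap K F k + π * h) (hc : D K F f = c • D K F π) :
    c - h = 0 ∨ 0 < v.ord (c - h) := by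
  have hπ0 : π ≠ 0 := ne_zero_of_ord_ne_zero v (by rw [hπ]; exact one_ne_zero)
  have hmem : D K F h ∈ Submodule.span F {D K F π} := by rw [hspan]; trivial
  obtain ⟨c', hc'⟩ := Submodule.mem_span_singleton.1 hmem
  have hc'0 : 0 ≤ v.ord c' := ord_coeff_nonneg v hπ hh hc'.symm
  have e : D K F f = (h + π * c') • D K F π := by
    rw [hf, map_add, Derivation.map_algebraMap, zero_add, Derivation.leibniz, ← hc', smul_smul,
      ← add_smul, add_comm]
  have hcc : c = h + π * c' := coeff_unique v hπ (hc.symm.trans e)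
  rw [hcc, add_sub_cancel_left]
  rcases eq_or_ne c' 0 with h0 | h0
  · left
    rw [h0, mul_zero]
  · right
    rw [v.ord_mul hπ0 h0, hπ]
    omega

/-- In characteristic `0`: if `ord_v f ≠ 0` and `df = c dπ` then `ord_v c = ord_v f - 1`. -/
theorem ord_coeff_eq [CharZero K] (v : Place K F) {π f c : F} (hπ : v.ord π = 1)
    (hspan : Submodule.span F {D K F π} = ⊤)
    (hf : v.ord f ≠ 0) (hc : D K F f = c • D K F π) : v.ord c = v.ord f - 1 := by
  have hπ0 : π ≠ 0 := ne_zero_of_ord_ne_zero v (by rw [hπ]; exact one_ne_zero)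
  have hf0 : f ≠ 0 := ne_zero_of_ord_ne_zero v hf
  set n : ℤ := v.ord f with hn
  set u : F := f * π ^ (-n) with hu
  have hpow : ∀ m : ℤ, π ^ m ≠ 0 := fun m => zpow_ne_zero m hπ0
  have hordpow : ∀ m : ℤ, v.ord (π ^ m) = m := fun m => by
    rw [Place.ord_zpow, hπ, mul_one]
  have hu0 : u ≠ 0 := mul_ne_zero hf0 (hpow _)
  have hordu : v.ord u = 0 := by
    rw [hu, v.ord_mul hf0 (hpow _), hordpow]
    omega
  have hfu : f = π ^ n * u := by
    rw [hu, mul_comm f, ← mul_assoc, ← zpow_add₀ hπ0, add_neg_cancel, zpow_zero, one_mul]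
  have hmem : D K F u ∈ Submodule.span F {D K F π} := by rw [hspan]; trivial
  obtain ⟨c', hc'⟩ := Submodule.mem_span_singleton.1 hmem
  have hc'0 : 0 ≤ v.ord c' := ord_coeff_nonneg v hπ hordu.ge hc'.symm
  have e : D K F f = (π ^ n * c' + u * ((n : F) * π ^ (n - 1))) • D K F π := by
    rw [hfu, Derivation.leibniz, Derivation.leibniz_zpow, ← hc', ← Int.cast_smul_eq_zsmul F n,
      smul_smul, smul_smul, smul_smul, ← add_smul, mul_assoc]
  have hcc : c = π ^ n * c' + u * ((n : F) * π ^ (n - 1)) := coeff_unique v hπ (hc.symm.trans e)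
  have hn0 : (n : F) ≠ 0 := by
    have : CharZero F := charZero_of_injective_algebraMap (algebraMap K F).injective
    exact Int.cast_ne_zero.mpr hf
  have hordn : v.ord (n : F) = 0 := by
    have : (n : F) = algebraMap K F (n : K) := (map_intCast (algebraMap K F) n).symm
    rw [this, ord_algebraMap]
  have h2 : v.ord (u * ((n : F) * π ^ (n - 1))) = n - 1 := by
    rw [v.ord_mul hu0 (mul_ne_zero hn0 (hpow _)), v.ord_mul hn0 (hpow _), hordu, hordn,
      hordpow]
    omega
  have h20 : u * ((n : F) * π ^ (n - 1)) ≠ 0 := mul_ne_zero hu0 (mul_ne_zero hn0 (hpow _))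
  rw [hcc]
  rcases eq_or_ne c' 0 with h0 | h0
  · rw [h0, mul_zero, zero_add, h2]
  · have h1 : v.ord (π ^ n * c') = n + v.ord c' := by
      rw [v.ord_mul (hpow _) h0, hordpow]
    rw [add_comm, ord_add_eq_of_lt v h20 (mul_ne_zero (hpow _) h0) (by rw [h1, h2]; omega), h2]

omit hFF in
/-- A derivation `d` of `F/K` is determined by `d π`: `d f = c · d π` if `df = c dπ`. -/
theorem derivation_eq_mul {π f c : F} (d : Derivation K F F) (h : D K F f = c • D K F π) :
    d f = c * d π := by
  have := congrArg d.liftKaehlerDifferential h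
  rwa [map_smul, Derivation.liftKaehlerDifferential_comp_D,
    Derivation.liftKaehlerDifferential_comp_D, smul_eq_mul] at this

/-! ### Prelude forms -/

variable [IsAlgClosed K] [CharZero K]

/-- every place has a generating coordinate differential -/
theorem dCoordGenerates_of_FF1 (v : Place K F) : v.DCoordGenerates := by
  obtain ⟨j, -, hjfin⟩ := FF1.exists_finite (K := K) (F := F)
  have := hjfin
  exact Fermat.Agent.S24.H84.place_dCoordGenerates j v

/-- `df` has no pole where `f` has none. -/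
theorem ordDifferential_D_nonneg (v : Place K F) {f : F} (hf : 0 ≤ v.ord f) :
    0 ≤ v.ordDifferential (D K F f) := by
  have hgen := dCoordGenerates_of_FF1 v
  obtain ⟨π, hπ, hd⟩ := Fermat.Agent.S24.H84.place_exists_uniformizer v
  have h := v.differentialCoeff_smul_dCoord (D K F f)
  rw [hd] at h
  exact ord_coeff_nonneg v hπ hf h.symm

/-- `ord_v (df) = ord_v f - 1` if `ord_v f ≠ 0`. -/
theorem ordDifferential_D_eq (v : Place K F) {f : F} (hf : v.ord f ≠ 0) :
    v.ordDifferential (D K F f) = v.ord f - 1 := by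
  have hgen := dCoordGenerates_of_FF1 v
  obtain ⟨π, hπ, hd⟩ := Fermat.Agent.S24.H84.place_exists_uniformizer v
  have h := v.differentialCoeff_smul_dCoord (D K F f)
  have hspan := hgen.span_eq_top
  rw [hd] at h hspan
  exact ord_coeff_eq v hπ hspan hf h.symm

/-- `ord_v (d(f - k)) = ord_v (f - k) - 1`, in terms of `df`. -/
theorem ordDifferential_D_eq_sub (v : Place K F) {f : F} (k : K)
    (hf : v.ord (f - algebraMap K F k) ≠ 0) :
    v.ordDifferential (D K F f) = v.ord (f - algebraMap K F k) - 1 := by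
  have := ordDifferential_D_eq v hf
  rwa [map_sub, Derivation.map_algebraMap, sub_zero] at this

end Fermat.Agent.Lib.RR.H80

end
end
-- ===== PACK-END Lib/RR/H80/Res/LocalDiff.lean

-- ===== PACK-BEGIN S17/H710/Wall/E3.lean
section


/-!
# S17 / tower H — the WALL: `(E3)` from the leaves (helper710).  Sorry-free.
-/

set_option autoImplicit false

noncomputable section

namespace Fermat.Agent.S17.Wall

open AlgebraicCurve MvPolynomial
open Fermat.Agent.Lib.RR Fermat.Agent.S17.HWall Fermat.Agent.S17.H710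
open Fermat.Agent.S17.HContract

variable {K F : Type*} [Field K] [CharZero K] [Field F] [Algebra K F]

/-! ## heights of small tuples -/

theorem ht_one {ι : Type*} [Finite ι] : ht (1 : ι → K) = 0 := by
  have h := Fermat.Agent.S17.H380.absLogHeight_eq (A := K) (algebraMap ℚ K) (1 : ι → ℚ)
  simp only [Pi.one_apply, map_one, Height.logHeight_one, mul_zero] at h
  exact h

theorem ht_const [Algebra.IsAlgebraic ℚ K] {ι : Type*} [Finite ι] {b : K} (hb : b ≠ 0) :
    ht (fun _ : ι => b) = 0 := by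
  have h := Fermat.Agent.S17.H380.absLogHeight_smul (1 : ι → K)
    (fun _ => isIntegral_one) hb (Algebra.IsIntegral.isIntegral b)
  have e : b • (1 : ι → K) = fun _ : ι => b := by
    funext i; simp
  rw [e] at h
  rw [ht, h]
  exact ht_one

theorem ht_unitProd {n : ℕ} (a : Fin n → K) :
    ht (fun q : Unit × Fin n => a q.2) = ht a := by
  have := Fermat.Agent.S17.H380.absLogHeight_comp_equiv (Equiv.punitProd (Fin n)) a
  simpa [Function.comp_def] using this

/-! ## nonvanishing of the columns -/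

theorem betaCol_ne_zero {n d : ℕ} (u z : Fin d → Fin n → K)
    (h : ∀ i, wedge (u i) (z i) ≠ 0) : betaCol u z ≠ 0 := by
  have h' : ∀ i, ∃ p, wedge (u i) (z i) p ≠ 0 := fun i => Function.ne_iff.mp (h i)
  choose s hs using h'
  intro h0
  have := congrFun h0 s
  simp only [betaCol, Pi.zero_apply] at this
  exact (Finset.prod_ne_zero_iff.mpr fun i _ => hs i) this

theorem tensorPow_ne_zero {n e : ℕ} {ρ : Type*} (v : ρ → K) (z : Fin n → K) (hv : v ≠ 0)
    (hz : z ≠ 0) : (fun t : ρ × (Fin e → Fin n) => v t.1 * ∏ k, z (t.2 k)) ≠ 0 := by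
  obtain ⟨r, hr⟩ := Function.ne_iff.mp hv
  obtain ⟨j, hj⟩ := Function.ne_iff.mp hz
  intro h0
  have := congrFun h0 (r, fun _ => j)
  simp only [Pi.zero_apply, Finset.prod_const, mul_eq_zero] at this
  rcases this with h | h
  · exact hr h
  · exact hj (eq_zero_of_pow_eq_zero h)

variable [FF1 K F]

/-- `(D . P)` for an enumerated divisor -/
theorem pairPt_sum_prim (E : EmbData K F) {k : ℕ} (A : Fin k → Place K F) (P : Place K F) :
    pairPt E (∑ i, prim (A i)) P = ∑ i, hD E (A i) P := by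
  classical
  unfold pairPt
  have h := Finsupp.sum_finsetSum_index (s := (Finset.univ : Finset (Fin k)))
    (g := fun i => prim (A i)) (h := fun B (n : ℤ) => (n : ℝ) * hD E B P)
    (fun _ => by simp) (fun _ _ _ => by push_cast; ring)
  rw [← h]
  refine Finset.sum_congr rfl fun i _ => ?_
  unfold prim
  rw [Finsupp.sum_single_index (by simp)]
  simp

/-- a zero of `a` is a point where `⟨a, pt ·⟩` vanishes -/
theorem dot_pt_eq_zero_of_mem (E : EmbData K F) {a : Fin (E.r + 1) → K} (ha : a ≠ 0)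
    {k : ℕ} (A : Fin k → Place K F) (hA : ∑ l, prim (A l) ≤ E.Z a) (i : Fin k) :
    dot a (E.pt (A i)) = 0 := by
  classical
  rw [E.pt_spec (A i) a ha]
  have h1 : (1 : ℤ) ≤ (∑ l, prim (A l) : Divisor K F) (A i) := by
    rw [Finsupp.finsetSum_apply]
    have h2 : ∀ l ∈ (Finset.univ : Finset (Fin k)), (0 : ℤ) ≤ (prim (A l) : Divisor K F) (A i) := by
      intro l _
      unfold prim
      rw [Finsupp.single_apply]
      split_ifs <;> simp
    have h3 := Finset.single_le_sum h2 (Finset.mem_univ i)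
    have h4 : (prim (A i) : Divisor K F) (A i) = 1 := by
      unfold prim; simp
    rw [h4] at h3
    exact h3
  have h5 := Finsupp.le_def.mp hA (A i)
  change 0 < (E.Z a) (A i)
  omega

/-- **(E3)** for `m ≥ 4g + 1`, from the leaves. -/
theorem e3 [Algebra.IsAlgebraic ℚ K] (E : EmbData K F) (hE : Big E) (hL : Leaves E) :
    E3Statement E E := by
  classical
  have hm1 : 1 ≤ E.m := by unfold Big at hE; omega
  obtain ⟨C₁, L₁, Q₁, -, -, hup⟩ := core_up E hE hL E.m hm1 Unit
  obtain ⟨C₂, L₂, Q₂, -, -, hlow⟩ := core_low E hE hL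
  refine ⟨max C₁ C₂, fun a P ha hP => ?_⟩
  obtain ⟨A, hA⟩ := hL.enum (E.Z a) (E.Z_nonneg a) E.m (E.degree_Z ha)
  have hAle : ∑ l, prim (A l) ≤ E.Z a := le_of_eq hA.symm
  have hne : ∀ i, A i ≠ P := by
    intro i h
    apply hP
    rw [← h]
    exact dot_pt_eq_zero_of_mem E ha A hAle i
  have hw : ∀ i, wedge (E.pt (A i)) (E.pt P) ≠ 0 := fun i => hL.pt.2.2.1 _ _ (hne i)
  set ψu := betaCol (fun i => E.pt (A i)) (fun _ => E.pt P) with hψu
  set ψw := wCol (e := E.m - 1) (fun _ : Unit => a) (E.pt P) with hψw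
  have hhu : ht ψu = ∑ i, ht (wedge (E.pt (A i)) (E.pt P)) := hL.a6 _ _ _ _ hw
  have hv0 : (fun _ : Unit => dot a (E.pt P)) ≠ 0 := fun h => hP (congrFun h ())
  have hhw : ht ψw = ((E.m - 1 : ℕ) : ℝ) * ht (E.pt P) := by
    have h := hL.a7 (E.r + 1) (E.m - 1) Unit (fun _ : Unit => dot a (E.pt P)) (E.pt P) hv0
      (hL.pt.1 P)
    rw [ht_const hP, zero_add] at h
    exact h
  have hψu0 : ψu ≠ 0 := betaCol_ne_zero _ _ hw
  have hψw0 : ψw ≠ 0 := tensorPow_ne_zero (fun _ : Unit => dot a (E.pt P)) (E.pt P) hv0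
    (hL.pt.1 P)
  have hW : ∀ r : Unit, (fun _ : Unit => a) r ≠ 0 → ∑ l, prim (A l) ≤ E.Z ((fun _ : Unit => a) r) :=
    fun _ _ => hAle
  have r1 := hL.rank E.m A Unit (fun _ : Unit => a) hm1 hW (Fin L₁) (fun t => E.pt (Q₁ t))
    (E.pt P) (fun j => hL.pt.2.1 _) (hL.pt.2.1 P)
  have r2 := hL.rank E.m A Unit (fun _ : Unit => a) hm1 hW (Fin L₂) (fun t => E.pt (Q₂ t))
    (E.pt P) (fun j => hL.pt.2.1 _) (hL.pt.2.1 P)
  have u1 := hup A (fun _ : Unit => a) ψu ψw r1 hψw0
  have l1 := hlow a A ψu ψw ha r2 hψu0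
  rw [ht_unitProd] at u1
  rw [hA, pairPt_sum_prim]
  have hsum : ∑ i, hD E (A i) P = ∑ i, ht (E.pt (A i)) + (E.m : ℝ) * ht (E.pt P) - ht ψu := by
    unfold hD
    rw [Finset.sum_sub_distrib, Finset.sum_add_distrib, hhu]
    simp
  have hc : ((E.m - 1 : ℕ) : ℝ) = (E.m : ℝ) - 1 := by
    rw [Nat.cast_sub hm1]; simp
  rw [hsum, abs_le]
  rw [hhw, hc] at u1 l1
  constructor
  · linarith [le_max_right C₁ C₂]
  · linarith [le_max_left C₁ C₂]

end Fermat.Agent.S17.Wall

end
end
-- ===== PACK-END S17/H710/Wall/E3.lean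

-- ===== PACK-BEGIN S17/H710/Wall/Adj.lean
section


/-!
# S17 / tower H — the WALL: `(ADJ)` from the leaves (helper710).  Sorry-free.
-/

set_option autoImplicit false

noncomputable section

namespace Fermat.Agent.S17.Wall

open AlgebraicCurve MvPolynomial
open Fermat.Agent.Lib.RR Fermat.Agent.S17.HWall Fermat.Agent.S17.H710
open Fermat.Agent.S17.HContract

variable {K F : Type*} [Field K] [CharZero K] [Field F] [Algebra K F]

omit [CharZero K] in
theorem wedge_self {n : ℕ} (y : Fin n → K) : wedge y y = 0 := by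
  funext p
  simp [wedge, mul_comm]

omit [CharZero K] in
/-- the jet of `β_s` when the slot `i₀` is the base point -/
theorem betaJet_eq_betaCol {n d : ℕ} (u : Fin d → Fin n → K) (z z' : Fin n → K) (i₀ : Fin d)
    (h : u i₀ = z) :
    betaJet u z z' = betaCol u (Function.update (fun _ => z) i₀ z') := by
  classical
  funext s
  unfold betaJet betaCol
  rw [Finset.sum_eq_single i₀]
  · rw [← Finset.mul_prod_erase Finset.univ _ (Finset.mem_univ i₀)]
    congr 1
    · simp
    · refine Finset.prod_congr rfl fun i hi => ?_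
      rw [Function.update_of_ne (Finset.ne_of_mem_erase hi)]
  · intro l _ hl
    have : ∏ i ∈ Finset.univ.erase l, wedge (u i) z (s i) = 0 := by
      refine Finset.prod_eq_zero (i := i₀) (Finset.mem_erase.mpr ⟨hl.symm, Finset.mem_univ _⟩) ?_
      rw [h, _root_.Fermat.Agent.S17.Wall.wedge_self]
      rfl
    rw [this, mul_zero]
  · intro h'
    exact absurd (Finset.mem_univ i₀) h'

omit [CharZero K] in
/-- the jet of `w X^α` at a zero of `w` -/
theorem wJet_eq {n e : ℕ} {ρ : Type*} (W : ρ → Fin n → K) (z z' : Fin n → K)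
    (h : ∀ r, dot (W r) z = 0) :
    wJet (e := e) W z z' = fun t => dot (W t.1) z' * ∏ k, z (t.2 k) := by
  funext t
  unfold wJet
  rw [h t.1, zero_mul, add_zero]

variable [FF1 K F]

open Classical in
omit [CharZero K] in
/-- multiplicity of `P` in an enumerated divisor -/
theorem sum_prim_apply {k : ℕ} (A : Fin k → Place K F) (P : Place K F) :
    (∑ i, prim (A i) : Divisor K F) P = ((Finset.univ.filter fun i => A i = P).card : ℤ) := by
  rw [Finsupp.finsetSum_apply]
  unfold prim
  simp only [Finsupp.single_apply]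
  rw [Finset.sum_ite, Finset.sum_const_zero, add_zero, Finset.sum_const]
  simp

/-- `(D - P . P)` for an enumerated divisor with `D(P) = 1` -/
theorem pairPt_erase (E : EmbData K F) {k : ℕ} (A : Fin k → Place K F) (P : Place K F)
    (i₀ : Fin k) (hi₀ : A i₀ = P) (huniq : ∀ i, A i = P → i = i₀) :
    pairPt E ((∑ i, prim (A i) : Divisor K F).erase P) P =
      ∑ i ∈ Finset.univ.erase i₀, hD E (A i) P := by
  classical
  have h1 : (∑ i, prim (A i) : Divisor K F) P = 1 := by
    rw [sum_prim_apply]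
    have : (Finset.univ.filter fun i => A i = P) = {i₀} := by
      ext i
      simp only [Finset.mem_filter, Finset.mem_univ, true_and, Finset.mem_singleton]
      exact ⟨huniq i, fun h => h ▸ hi₀⟩
    rw [this]; simp
  have hmem : P ∈ (∑ i, prim (A i) : Divisor K F).support := by
    rw [Finsupp.mem_support_iff, h1]; exact one_ne_zero
  have h2 := Finsupp.add_sum_erase (∑ i, prim (A i) : Divisor K F) P
    (fun B (n : ℤ) => (n : ℝ) * hD E B P) hmem
  have h3 := pairPt_sum_prim E A P
  unfold pairPt at h3 ⊢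
  rw [h3, h1] at h2
  have h4 := Finset.add_sum_erase Finset.univ (fun i => hD E (A i) P) (Finset.mem_univ i₀)
  rw [hi₀] at h4
  simp only [Int.cast_one, one_mul] at h2
  linarith

/-- **(ADJ)** for `m ≥ 4g + 1`, from the leaves. -/
theorem adj [Algebra.IsAlgebraic ℚ K] (E : EmbData K F) (hE : Big E) (hL : Leaves E) :
    ADJStatement E E := by
  classical
  have hm1 : 1 ≤ E.m := by unfold Big at hE; omega
  obtain ⟨C₁, L₁, Q₁, -, -, hup⟩ := core_up E hE hL E.m hm1 Unit
  obtain ⟨C₂, L₂, Q₂, -, -, hlow⟩ := core_low E hE hL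
  refine ⟨max C₁ C₂, fun a P ha hP => ?_⟩
  obtain ⟨A, hA⟩ := hL.enum (E.Z a) (E.Z_nonneg a) E.m (E.degree_Z ha)
  have hAle : ∑ l, prim (A l) ≤ E.Z a := le_of_eq hA.symm
  -- the unique index of `P`
  have hcard : ((Finset.univ.filter fun i => A i = P).card : ℤ) = 1 := by
    rw [← sum_prim_apply, ← hA, hP]
  have hcard' : (Finset.univ.filter fun i => A i = P).card = 1 := by exact_mod_cast hcard
  obtain ⟨i₀, hi₀s⟩ := Finset.card_eq_one.mp hcard'
  have hi₀ : A i₀ = P := by
    have : i₀ ∈ Finset.univ.filter fun i => A i = P := by rw [hi₀s]; simp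
    exact (Finset.mem_filter.mp this).2
  have huniq : ∀ i, A i = P → i = i₀ := by
    intro i hi
    have : i ∈ Finset.univ.filter fun i => A i = P := Finset.mem_filter.mpr ⟨Finset.mem_univ _, hi⟩
    rw [hi₀s] at this
    exact Finset.mem_singleton.mp this
  -- `a` vanishes at `pt P`, not at `tn P`
  have hdot : dot a (E.pt P) = 0 := by
    rw [← hi₀]; exact dot_pt_eq_zero_of_mem E ha A hAle i₀
  have htn : dot a (E.tn P) ≠ 0 := by
    intro h
    have := (E.tn_spec P a ha).mp ⟨hdot, h⟩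
    change 2 ≤ (E.Z a) P at this
    omega
  -- the jet columns
  set z : Fin E.m → Fin (E.r + 1) → K := Function.update (fun _ => E.pt P) i₀ (E.tn P) with hz
  have hju : betaJet (fun i => E.pt (A i)) (E.pt P) (E.tn P) = betaCol (fun i => E.pt (A i)) z :=
    betaJet_eq_betaCol _ _ _ i₀ (by rw [hi₀])
  have hjw : wJet (e := E.m - 1) (fun _ : Unit => a) (E.pt P) (E.tn P) =
      fun t => (fun _ : Unit => dot a (E.tn P)) t.1 * ∏ k, E.pt P (t.2 k) :=
    wJet_eq _ _ _ (fun _ => hdot)
  have hw : ∀ i, wedge (E.pt (A i)) (z i) ≠ 0 := by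
    intro i
    by_cases h : i = i₀
    · subst h
      rw [hz, Function.update_self, hi₀]
      exact hL.pt.2.2.2 P
    · rw [hz, Function.update_of_ne h]
      exact hL.pt.2.2.1 _ _ (fun h' => h (huniq i h'))
  have hhu : ht (betaCol (fun i => E.pt (A i)) z) = ∑ i, ht (wedge (E.pt (A i)) (z i)) :=
    hL.a6 _ _ _ _ hw
  have hv0 : (fun _ : Unit => dot a (E.tn P)) ≠ 0 := fun h => htn (congrFun h ())
  have hhw : ht (fun t : Unit × (Fin (E.m - 1) → Fin (E.r + 1)) =>
      (fun _ : Unit => dot a (E.tn P)) t.1 * ∏ k, E.pt P (t.2 k)) =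
      ((E.m - 1 : ℕ) : ℝ) * ht (E.pt P) := by
    have h := hL.a7 (E.r + 1) (E.m - 1) Unit (fun _ : Unit => dot a (E.tn P)) (E.pt P) hv0
      (hL.pt.1 P)
    rw [ht_const htn, zero_add] at h
    exact h
  have hψu0 : betaCol (fun i => E.pt (A i)) z ≠ 0 := betaCol_ne_zero _ _ hw
  have hψw0 : (fun t : Unit × (Fin (E.m - 1) → Fin (E.r + 1)) =>
      (fun _ : Unit => dot a (E.tn P)) t.1 * ∏ k, E.pt P (t.2 k)) ≠ 0 :=
    tensorPow_ne_zero (fun _ : Unit => dot a (E.tn P)) (E.pt P) hv0 (hL.pt.1 P)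
  have hW : ∀ r : Unit, (fun _ : Unit => a) r ≠ 0 →
      ∑ l, prim (A l) ≤ E.Z ((fun _ : Unit => a) r) := fun _ _ => hAle
  have r1 := hL.rankJet E.m A Unit (fun _ : Unit => a) hm1 hW (Fin L₁) (fun t => E.pt (Q₁ t))
    P (fun j => hL.pt.2.1 _)
  have r2 := hL.rankJet E.m A Unit (fun _ : Unit => a) hm1 hW (Fin L₂) (fun t => E.pt (Q₂ t))
    P (fun j => hL.pt.2.1 _)
  rw [hju, hjw] at r1 r2
  have u1 := hup A (fun _ : Unit => a) _ _ r1 hψw0
  have l1 := hlow a A _ _ ha r2 hψu0
  rw [ht_unitProd] at u1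
  rw [hhu, hhw] at u1 l1
  -- bookkeeping
  rw [hA, pairPt_erase E A P i₀ hi₀ huniq]
  have hs1 := Finset.add_sum_erase Finset.univ (fun i => ht (E.pt (A i))) (Finset.mem_univ i₀)
  have hs2 := Finset.add_sum_erase Finset.univ (fun i => ht (wedge (E.pt (A i)) (z i)))
    (Finset.mem_univ i₀)
  have hs3 : ∑ i ∈ Finset.univ.erase i₀, ht (wedge (E.pt (A i)) (z i)) =
      ∑ i ∈ Finset.univ.erase i₀, ht (wedge (E.pt (A i)) (E.pt P)) := by
    refine Finset.sum_congr rfl fun i hi => ?_
    rw [hz, Function.update_of_ne (Finset.ne_of_mem_erase hi)]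
  have hs4 : ht (wedge (E.pt (A i₀)) (z i₀)) = ht (wedge (E.pt P) (E.tn P)) := by
    rw [hz, Function.update_self, hi₀]
  have hsum : ∑ i ∈ Finset.univ.erase i₀, hD E (A i) P =
      ∑ i ∈ Finset.univ.erase i₀, ht (E.pt (A i)) +
        ((E.m - 1 : ℕ) : ℝ) * ht (E.pt P) -
        ∑ i ∈ Finset.univ.erase i₀, ht (wedge (E.pt (A i)) (E.pt P)) := by
    unfold hD
    rw [Finset.sum_sub_distrib, Finset.sum_add_distrib]
    simp [Finset.card_erase_of_mem]
  rw [hi₀] at hs1
  rw [hs3, hs4] at hs2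
  rw [hsum, abs_le]
  unfold kap
  constructor
  · linarith [le_max_right C₁ C₂]
  · linarith [le_max_left C₁ C₂]

end Fermat.Agent.S17.Wall

end
end
-- ===== PACK-END S17/H710/Wall/Adj.lean

-- ===== PACK-BEGIN S17/H380/WallHt.lean
section




/-!
# S17 / tower H — wall leaves A4, A5, A6, A7 (helper380)

Heights of the matrices / columns of values of the wall (`S17/H710/Wall/Defs.lean`):

* `htBetaMat : HtBetaMatStatement K`  (A4, multilinear upper bound),
* `htWMat    : HtWMatStatement K`     (A5, linear upper bound),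
* `htBetaCol : HtBetaColStatement K`  (A6, exact Segre),
* `htWCol    : HtWColStatement K`     (A7, exact Segre),

for a field `K` of characteristic `0` which is algebraic over `ℚ`.
-/

set_option linter.unusedSectionVars false
set_option linter.style.haveILetI false
set_option autoImplicit false

noncomputable section

namespace Fermat.Agent.S17.H380

open Fermat.Agent.S17.HWall Fermat.Agent.S17.HContract Fermat.Agent.S17.Wall

section WallHt

variable (K : Type*) [Field K] [CharZero K] [Algebra.IsAlgebraic ℚ K]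

theorem isIntegral_all (a : K) : IsIntegral ℚ a := Algebra.IsIntegral.isIntegral a

/-- **A6** (exact Segre). -/
theorem htBetaCol : HtBetaColStatement K := by
  intro n d u z h
  exact absLogHeight_fun_prod_eq (x := fun i => wedge (u i) (z i))
    (fun _ _ => isIntegral_all K _) h

/-- **A7** (exact Segre): `h(v ⊗ z^{⊗e}) = h(v) + e h(z)`. -/
theorem htWCol : HtWColStatement K := by
  intro n e ρ _ v z hv hz
  have hpow : (fun α : Fin e → Fin n => ∏ k, z (α k)) ≠ 0 := by
    obtain ⟨i, hi⟩ := Function.ne_iff.mp hz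
    refine Function.ne_iff.mpr ⟨fun _ => i, ?_⟩
    simpa using pow_ne_zero e hi
  have h1 := absLogHeight_fun_mul_eq (x := v) (y := fun α : Fin e → Fin n => ∏ k, z (α k))
    (fun _ => isIntegral_all K _) (fun _ => isIntegral_all K _) hv hpow
  have h2 := absLogHeight_fun_prod_eq (x := fun _ : Fin e => z)
    (fun _ _ => isIntegral_all K _) (fun _ => hz)
  rw [Finset.sum_const, Finset.card_univ, Fintype.card_fin, nsmul_eq_mul] at h2
  show absLogHeight _ = absLogHeight v + (e : ℝ) * absLogHeight z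
  rw [← h2]
  exact h1

/-- **A5** (upper bound for `wMat`, linear in `W`). -/
theorem htWMat : HtWMatStatement K := by
  classical
  intro n e ρ c _ _ y
  let M : ((ρ × (Fin e → Fin n)) × c) × (ρ × Fin n) → K := fun a =>
    if a.2.1 = a.1.1.1 then y a.1.2 a.2.2 * ∏ k, y a.1.2 (a.1.1.2 k) else 0
  refine ⟨Real.log (Nat.card (ρ × Fin n)) + absLogHeight M, fun W => ?_⟩
  have key := absLogHeight_linearMap_apply_le M (fun q : ρ × Fin n => W q.1 q.2)
    (fun _ => isIntegral_all K _) (fun _ => isIntegral_all K _)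
  have heq : (fun q : (ρ × (Fin e → Fin n)) × c => wMat W y q.1 q.2) =
      fun j => ∑ i, M (j, i) * (fun q : ρ × Fin n => W q.1 q.2) i := by
    funext q
    obtain ⟨⟨r, α⟩, j⟩ := q
    simp only [wMat, M, dot, dotProduct]
    rw [Fintype.sum_prod_type]
    rw [Finset.sum_eq_single r]
    · simp only [if_true]
      rw [Finset.sum_mul]
      refine Finset.sum_congr rfl fun i _ => ?_
      ring
    · intro r' _ hr'
      refine Finset.sum_eq_zero fun i _ => ?_
      rw [if_neg hr', zero_mul]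
    · intro h
      exact absurd (Finset.mem_univ r) h
  show absLogHeight _ ≤ absLogHeight _ + _
  rw [heq]
  linarith

/-- **A4** (upper bound for `betaMat`, multilinear in `u`). -/
theorem htBetaMat : HtBetaMatStatement K := by
  classical
  intro n d c _ y
  let cf : ((Fin d → Fin n × Fin n) × c) → Fin d → Fin n → K := fun q i k =>
    (if k = (q.1 i).1 then y q.2 (q.1 i).2 else 0) - (if k = (q.1 i).2 then y q.2 (q.1 i).1 else 0)
  let M : ((Fin d → Fin n × Fin n) × c) × (Fin d → Fin n) → K := fun a =>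
    ∏ i, cf a.1 i (a.2 i)
  refine ⟨Real.log (Nat.card (Fin d → Fin n)) + absLogHeight M, fun u => ?_⟩
  have key := absLogHeight_multilinear_apply_le (α := Fin d) (ι := fun _ => Fin n) M u
    (fun _ => isIntegral_all K _) (fun _ _ => isIntegral_all K _)
  have heq : (fun q : (Fin d → Fin n × Fin n) × c => betaMat u y q.1 q.2) =
      fun j => ∑ I : Fin d → Fin n, M (j, I) * ∏ a, u a (I a) := by
    funext q
    obtain ⟨s, j⟩ := q
    simp only [betaMat, M]
    have h1 : ∀ i, wedge (u i) (y j) (s i) = ∑ k, cf (s, j) i k * u i k := by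
      intro i
      simp only [cf, wedge, sub_mul, Finset.sum_sub_distrib, ite_mul, zero_mul,
        Finset.sum_ite_eq', Finset.mem_univ, if_true]
      ring
    rw [Finset.prod_congr rfl fun i _ => h1 i, Finset.prod_univ_sum]
    rw [Fintype.piFinset_univ]
    refine Finset.sum_congr rfl fun I _ => ?_
    rw [Finset.prod_mul_distrib]
  show absLogHeight _ ≤ _ + _
  rw [heq]
  linarith

end WallHt

end Fermat.Agent.S17.H380

end
end
-- ===== PACK-END S17/H380/WallHt.lean

-- ===== PACK-BEGIN S17/H860/WallA1.lean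
section
/-
helper860 — S17 / tower H — WALL leaf A1 (CRAMER + HEIGHTS), exact frozen statement
`Fermat.Agent.S17.Wall.CramerHeightStatement K` of `S17/H710/Wall/Defs.lean`.
-/



set_option autoImplicit false
set_option linter.unusedSectionVars false

namespace Fermat.Agent.S17.H860

open Matrix Fermat.Agent.S17.Wall Fermat.Agent.S17.HContract Fermat.Agent.S17.H380

variable (K : Type*) [Field K] [CharZero K] [Algebra.IsAlgebraic ℚ K]

/-- **WALL leaf A1.** -/
theorem cramerHeightStatement : CramerHeightStatement K := by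
  intro κ σ τ c _ _ _
  classical
  refine ⟨cramerConst (κ := Fin κ) (ρ := σ) (γ := c) (I := (Fin κ → σ) × (Fin κ → c))
    (fun i => i.1) (fun i => i.2) τ, ?_⟩
  intro U ψu W ψw hrk hmin hψw
  have hint : ∀ a : K, IsIntegral ℚ a := fun a => (Algebra.IsAlgebraic.isAlgebraic a).isIntegral
  set V : Submodule K (c ⊕ Unit → K) := Submodule.span K (Set.range (stack U ψu W ψw)) with hV
  have hcard : Module.finrank K V ≤ Fintype.card (Fin κ) := by
    rw [Fintype.card_fin]; exact hrk
  have hmem : ∀ r, stack U ψu W ψw r ∈ V := fun r => Submodule.subset_span ⟨r, rfl⟩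
  have hcr : ∀ (i : (Fin κ → σ) × (Fin κ → c)) (j : τ),
      ((Matrix.of U).submatrix i.1 i.2).det * ψw j =
        ∑ s, ∑ j', W j (i.2 j') * (((Matrix.of U).submatrix i.1 i.2).adjugate j' s *
          ψu (i.1 s)) := by
    intro i j
    have h := cramer_adjugate_of_mem_submodule V hcard
      (fun s => stack U ψu W ψw (Sum.inl (i.1 s))) (fun s => hmem _)
      (stack U ψu W ψw (Sum.inr j)) (hmem _) (fun j' => Sum.inl (i.2 j')) (Sum.inr ())
    have e1 : (Matrix.of fun s j' => stack U ψu W ψw (Sum.inl (i.1 s)) (Sum.inl (i.2 j'))) =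
        (Matrix.of U).submatrix i.1 i.2 := rfl
    rw [e1] at h
    have e2 : stack U ψu W ψw (Sum.inr j) (Sum.inr ()) = ψw j := rfl
    rw [e2] at h
    rw [h]
    refine Finset.sum_congr rfl fun s _ => Finset.sum_congr rfl fun j' _ => ?_
    have e3 : stack U ψu W ψw (Sum.inr j) (Sum.inl (i.2 j')) = W j (i.2 j') := rfl
    have e4 : stack U ψu W ψw (Sum.inl (i.1 s)) (Sum.inr ()) = ψu (i.1 s) := rfl
    rw [e3, e4, mul_assoc]
  have hΔ : ∃ i : (Fin κ → σ) × (Fin κ → c), ((Matrix.of U).submatrix i.1 i.2).det ≠ 0 := by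
    obtain ⟨i, hi⟩ := Function.ne_iff.mp hmin
    exact ⟨i, hi⟩
  have hu : ∃ j, ψw j ≠ 0 := Function.ne_iff.mp hψw
  have key := absLogHeight_cramer_core (κ := Fin κ) (I := (Fin κ → σ) × (Fin κ → c))
    (fun i => i.1) (fun i => i.2) (Matrix.of U) (fun _ _ => hint _) W (fun _ _ => hint _)
    ψu (fun _ => hint _) ψw (fun _ => hint _) hcr hΔ hu
  rw [Fintype.card_fin] at key
  have e5 : (fun i : (Fin κ → σ) × (Fin κ → c) => ((Matrix.of U).submatrix i.1 i.2).det) =
      minors κ U := rfl
  rw [e5] at key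
  have e6 : (fun p : σ × c => (Matrix.of U) p.1 p.2) = fun q : σ × c => U q.1 q.2 := rfl
  rw [e6] at key
  unfold ht
  linarith

end Fermat.Agent.S17.H860

end
-- ===== PACK-END S17/H860/WallA1.lean

-- ===== PACK-BEGIN S17/H230/Jet.lean
section





/-!
# S17 / tower H (helper230): first order jets at a place

* `d1At_mul` : `d1At v` is a point derivation at `v` (Leibniz rule with respect to `valAt v`);
* `valAt_aeval`, `d1At_aeval` : chain rule for polynomial expressions in regular functions;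
* `jetP z z' G = Σᵢ ∂ᵢG(z) z'ᵢ` with its calculus (`jetP_mul`, `jetP_prod`, …);
* `jet_ptD_eq_zero` : the jet `(ptD, tnD)` kills the homogeneous relations of `x`;
* `mem_span_of_forall_dot` : double annihilator in `K^n`;
* `jetP_eq_zero_of_span` : the same for every pair `(λ c, μ t + ν c)` (Euler's identity).
-/

set_option autoImplicit false

noncomputable section

open AlgebraicCurve MvPolynomial

namespace Fermat.Agent.S17.H230

open Fermat.Agent.Lib.RR Fermat.Agent.S17.HWall

variable {K F : Type*} [Field K] [Field F] [Algebra K F] [FF1 K F] {ι : Type*}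

/-! ### `d1At` is a point derivation -/

theorem eq_add_unif_mul_quot1 (v : Place K F) (f : F) :
    f = algebraMap K F (valAt v f) + unif v * quot1 v f := by
  unfold quot1
  field_simp [unif_ne_zero v]
  ring

theorem valAt_unif (v : Place K F) : valAt v (unif v) = 0 := by
  have hreg : RegAt v (unif v) := by rw [regAt_iff, ord_unif]; omega
  rw [valAt_eq_zero_iff hreg]
  right
  rw [ord_unif]
  omega

theorem regAt_unif (v : Place K F) : RegAt v (unif v) := by
  rw [regAt_iff, ord_unif]; omega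

/-- uniqueness of the first order expansion -/
theorem quot1_eq_of_eq {v : Place K F} {f g : F} {a : K}
    (h : f = algebraMap K F a + unif v * g) (hg : RegAt v g) : valAt v f = a ∧ quot1 v f = g := by
  have h1 : valAt v f = a := by
    rw [h, valAt_add (regAt_algebraMap v a) ((regAt_unif v).mul hg), valAt_algebraMap,
      valAt_mul (regAt_unif v) hg, valAt_unif, zero_mul, add_zero]
  refine ⟨h1, ?_⟩
  unfold quot1
  rw [h1, h]
  field_simp [unif_ne_zero v]
  ring

theorem d1At_algebraMap (v : Place K F) (a : K) : d1At v (algebraMap K F a) = 0 := by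
  unfold d1At
  have := (quot1_eq_of_eq (v := v) (f := algebraMap K F a) (g := 0) (a := a) (by simp)
    (regAt_zero v)).2
  rw [this, valAt_zero]

theorem d1At_add {v : Place K F} {f g : F} (hf : RegAt v f) (hg : RegAt v g) :
    d1At v (f + g) = d1At v f + d1At v g := by
  unfold d1At
  have h : f + g = algebraMap K F (valAt v f + valAt v g) + unif v * (quot1 v f + quot1 v g) := by
    conv_lhs => rw [eq_add_unif_mul_quot1 v f, eq_add_unif_mul_quot1 v g]
    rw [map_add]
    ring
  rw [(quot1_eq_of_eq h ((regAt_quot1 hf).add (regAt_quot1 hg))).2,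
    valAt_add (regAt_quot1 hf) (regAt_quot1 hg)]

/-- **Leibniz rule**. -/
theorem d1At_mul {v : Place K F} {f g : F} (hf : RegAt v f) (hg : RegAt v g) :
    d1At v (f * g) = valAt v f * d1At v g + valAt v g * d1At v f := by
  unfold d1At
  have hq : RegAt v (algebraMap K F (valAt v f) * quot1 v g +
      algebraMap K F (valAt v g) * quot1 v f + unif v * (quot1 v f * quot1 v g)) :=
    (((regAt_algebraMap v _).mul (regAt_quot1 hg)).add
      ((regAt_algebraMap v _).mul (regAt_quot1 hf))).add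
      ((regAt_unif v).mul ((regAt_quot1 hf).mul (regAt_quot1 hg)))
  have h : f * g = algebraMap K F (valAt v f * valAt v g) +
      unif v * (algebraMap K F (valAt v f) * quot1 v g +
        algebraMap K F (valAt v g) * quot1 v f + unif v * (quot1 v f * quot1 v g)) := by
    conv_lhs => rw [eq_add_unif_mul_quot1 v f, eq_add_unif_mul_quot1 v g]
    rw [map_mul]
    ring
  rw [(quot1_eq_of_eq h hq).2,
    valAt_add (((regAt_algebraMap v _).mul (regAt_quot1 hg)).add
      ((regAt_algebraMap v _).mul (regAt_quot1 hf)))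
      ((regAt_unif v).mul ((regAt_quot1 hf).mul (regAt_quot1 hg))),
    valAt_add ((regAt_algebraMap v _).mul (regAt_quot1 hg))
      ((regAt_algebraMap v _).mul (regAt_quot1 hf)),
    valAt_mul (regAt_algebraMap v _) (regAt_quot1 hg),
    valAt_mul (regAt_algebraMap v _) (regAt_quot1 hf),
    valAt_mul (regAt_unif v) ((regAt_quot1 hf).mul (regAt_quot1 hg)),
    valAt_unif, valAt_algebraMap, valAt_algebraMap, zero_mul, add_zero]

/-! ### Jets of polynomials -/

/-- the first order jet `Σᵢ ∂ᵢG(z) z'ᵢ` of `G` at `z` in the direction `z'` -/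
def jetP [Fintype ι] (z z' : ι → K) (G : MvPolynomial ι K) : K :=
  ∑ i, eval z (pderiv i G) * z' i

section jet

variable [Fintype ι] [DecidableEq ι]

omit [DecidableEq ι] in
theorem jetP_add (z z' : ι → K) (G H : MvPolynomial ι K) :
    jetP z z' (G + H) = jetP z z' G + jetP z z' H := by
  unfold jetP
  simp only [map_add, add_mul, Finset.sum_add_distrib]

omit [DecidableEq ι] in
theorem jetP_sub (z z' : ι → K) (G H : MvPolynomial ι K) :
    jetP z z' (G - H) = jetP z z' G - jetP z z' H := by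
  unfold jetP
  simp only [map_sub, sub_mul, Finset.sum_sub_distrib]

omit [DecidableEq ι] in
theorem jetP_smul (z z' : ι → K) (a : K) (G : MvPolynomial ι K) :
    jetP z z' (a • G) = a * jetP z z' G := by
  unfold jetP
  rw [Finset.mul_sum]
  refine Finset.sum_congr rfl fun i _ ↦ ?_
  rw [Derivation.map_smul, smul_eval, mul_assoc]

omit [DecidableEq ι] in
theorem jetP_C (z z' : ι → K) (a : K) : jetP z z' (C a : MvPolynomial ι K) = 0 := by
  unfold jetP
  simp

theorem jetP_X (z z' : ι → K) (j : ι) : jetP z z' (X j : MvPolynomial ι K) = z' j := by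
  unfold jetP
  simp [pderiv_X, Pi.single_apply, Finset.sum_ite_eq]

omit [DecidableEq ι] in
theorem jetP_mul (z z' : ι → K) (G H : MvPolynomial ι K) :
    jetP z z' (G * H) = eval z G * jetP z z' H + eval z H * jetP z z' G := by
  unfold jetP
  simp only [Derivation.leibniz, map_add, Finset.mul_sum, ← Finset.sum_add_distrib]
  refine Finset.sum_congr rfl fun i _ ↦ ?_
  simp only [smul_eq_mul, map_mul]
  ring

omit [DecidableEq ι] in
theorem jetP_sum {κ : Type*} (s : Finset κ) (z z' : ι → K) (G : κ → MvPolynomial ι K) :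
    jetP z z' (∑ k ∈ s, G k) = ∑ k ∈ s, jetP z z' (G k) := by
  classical
  induction s using Finset.induction_on with
  | empty => simpa using jetP_C z z' (0 : K)
  | insert a s ha ih => rw [Finset.sum_insert ha, Finset.sum_insert ha, jetP_add, ih]

omit [DecidableEq ι] in
theorem jetP_prod {κ : Type*} [DecidableEq κ] (s : Finset κ) (z z' : ι → K)
    (G : κ → MvPolynomial ι K) :
    jetP z z' (∏ k ∈ s, G k) = ∑ l ∈ s, jetP z z' (G l) * ∏ k ∈ s.erase l, eval z (G k) := by
  induction s using Finset.induction_on with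
  | empty => simpa using jetP_C z z' (1 : K)
  | insert a s ha ih =>
    rw [Finset.prod_insert ha, jetP_mul, ih, Finset.sum_insert ha, Finset.erase_insert ha,
      map_prod, Finset.mul_sum, add_comm]
    congr 1
    · ring
    · refine Finset.sum_congr rfl fun l hl ↦ ?_
      have hne : l ≠ a := fun h ↦ ha (h ▸ hl)
      rw [Finset.erase_insert_of_ne hne.symm, Finset.prod_insert (by simp [ha])]
      ring

end jet

/-! ### Chain rule at a place -/

theorem regAt_aeval {v : Place K F} {x : ι → F} (hx : ∀ i, RegAt v (x i))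
    (G : MvPolynomial ι K) : RegAt v (aeval x G) := by
  induction G using MvPolynomial.induction_on with
  | C a => simpa using regAt_algebraMap v a
  | add p q hp hq => rw [map_add]; exact hp.add hq
  | mul_X p i hp => rw [map_mul, aeval_X]; exact hp.mul (hx i)

theorem valAt_aeval {v : Place K F} {x : ι → F} (hx : ∀ i, RegAt v (x i))
    (G : MvPolynomial ι K) : valAt v (aeval x G) = eval (fun i ↦ valAt v (x i)) G := by
  induction G using MvPolynomial.induction_on with
  | C a => simp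
  | add p q hp hq =>
    rw [map_add, valAt_add (regAt_aeval hx p) (regAt_aeval hx q), hp, hq, map_add]
  | mul_X p i hp =>
    rw [map_mul, aeval_X, valAt_mul (regAt_aeval hx p) (hx i), hp, map_mul, eval_X]

/-- **Chain rule** for the point derivation `d1At v`. -/
theorem d1At_aeval [Fintype ι] {v : Place K F} {x : ι → F} (hx : ∀ i, RegAt v (x i))
    (G : MvPolynomial ι K) :
    d1At v (aeval x G) = jetP (fun i ↦ valAt v (x i)) (fun i ↦ d1At v (x i)) G := by
  classical
  induction G using MvPolynomial.induction_on with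
  | C a =>
    rw [jetP_C]
    simpa using d1At_algebraMap v a
  | add p q hp hq =>
    rw [map_add, d1At_add (regAt_aeval hx p) (regAt_aeval hx q), hp, hq, jetP_add]
  | mul_X p i hp =>
    rw [map_mul, aeval_X, d1At_mul (regAt_aeval hx p) (hx i), hp, jetP_mul, jetP_X, eval_X,
      valAt_aeval hx]

/-! ### Jets kill the homogeneous relations -/

/-- The point `ptD D x v` satisfies the homogeneous relations of `x`, and the jet
`(ptD D x v, tnD D x v)` kills them. -/
theorem jet_ptD_eq_zero [Fintype ι] {D : Divisor K F} {x : ι → F}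
    (hx : ∀ i, x i ∈ riemannRochSpace D) (v : Place K F) {k : ℕ} {G : MvPolynomial ι K}
    (hG : G.IsHomogeneous k) (h0 : aeval x G = 0) :
    eval (ptD D x v) G = 0 ∧ jetP (ptD D x v) (tnD D x v) G = 0 := by
  have hreg : ∀ i, RegAt v (unif v ^ (D v) * x i) := fun i ↦ by
    rw [mul_comm]; exact regAt_normD hx v i
  have h1 : aeval (fun i ↦ unif v ^ (D v) * x i) G = 0 := by
    rw [Fermat.Agent.S17.H710.aeval_mul_of_isHomogeneous hG, h0, mul_zero]
  have hpt : (fun i ↦ valAt v (unif v ^ (D v) * x i)) = ptD D x v := by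
    funext i
    rw [ptD_apply, mul_comm]
  have htn : (fun i ↦ d1At v (unif v ^ (D v) * x i)) = tnD D x v := by
    funext i
    unfold tnD
    rw [mul_comm]
  constructor
  · rw [← hpt, ← valAt_aeval hreg, h1, valAt_zero]
  · rw [← hpt, ← htn, ← d1At_aeval hreg, h1]
    simpa using d1At_algebraMap v (0 : K)

/-! ### Double annihilator in `K^n` -/

omit [FF1 K F] [Algebra K F] [Field F] in
/-- If every linear form killing all `w j` kills `u`, then `u` lies in the span of the `w j`. -/
theorem mem_span_of_forall_dot {n : ℕ} {κ : Type*} (w : κ → Fin n → K) (u : Fin n → K)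
    (h : ∀ a : Fin n → K, (∀ j, dot a (w j) = 0) → dot a u = 0) :
    u ∈ Submodule.span K (Set.range w) := by
  rw [← Subspace.forall_mem_dualAnnihilator_apply_eq_zero_iff]
  intro φ hφ
  have hrep : ∀ y : Fin n → K, φ y = dot (fun i ↦ φ (Pi.single i 1)) y := by
    intro y
    have hy : y = ∑ i, y i • (Pi.single i (1 : K) : Fin n → K) := by
      funext j
      simp [Finset.sum_apply, Pi.single_apply]
    conv_lhs => rw [hy]
    rw [map_sum]
    simp only [map_smul, smul_eq_mul, dot, dotProduct]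
    exact Finset.sum_congr rfl fun i _ ↦ mul_comm _ _
  rw [hrep]
  apply h
  intro j
  rw [← hrep]
  exact (Submodule.mem_dualAnnihilator φ).mp hφ (w j) (Submodule.subset_span ⟨j, rfl⟩)

/-! ### Jets along proportional data (Euler) -/

omit [FF1 K F] [Algebra K F] [Field F] in
theorem eval_smul_of_isHomogeneous {n : ℕ} {G : MvPolynomial (Fin n) K} {k : ℕ}
    (hG : G.IsHomogeneous k) (l : K) (c : Fin n → K) :
    eval (l • c) G = l ^ k * eval c G := by
  have := Fermat.Agent.S17.H710.aeval_mul_of_isHomogeneous (S := K) hG l c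
  simpa [aeval_eq_eval, Pi.smul_def] using this

omit [FF1 K F] [Algebra K F] [Field F] in
/-- If `G` (homogeneous) vanishes at `c` and the jet `(c, t)` kills `G`, then so does every jet
`(l c, μ t + ν c)`. -/
theorem jetP_eq_zero_of_span {n : ℕ} {G : MvPolynomial (Fin n) K} {k : ℕ}
    (hG : G.IsHomogeneous k) {c t : Fin n → K} (h0 : eval c G = 0) (h1 : jetP c t G = 0)
    (l μ ν : K) : jetP (l • c) (μ • t + ν • c) G = 0 := by
  have hE : ∑ i, eval c (pderiv i G) * c i = (k : K) * eval c G := by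
    have := congrArg (eval c) hG.sum_X_mul_pderiv
    simp only [map_sum, map_mul, eval_X, nsmul_eq_mul, map_natCast] at this
    rw [← this]
    exact Finset.sum_congr rfl fun i _ ↦ mul_comm _ _
  unfold jetP at h1 ⊢
  have hd : ∀ i, eval (l • c) (pderiv i G) = l ^ (k - 1) * eval c (pderiv i G) := fun i ↦
    eval_smul_of_isHomogeneous hG.pderiv l c
  simp only [hd, Pi.add_apply, Pi.smul_apply, smul_eq_mul]
  have : ∑ i, l ^ (k - 1) * eval c (pderiv i G) * (μ * t i + ν * c i) =
      l ^ (k - 1) * (μ * ∑ i, eval c (pderiv i G) * t i +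
        ν * ∑ i, eval c (pderiv i G) * c i) := by
    rw [Finset.mul_sum, Finset.mul_sum, ← Finset.sum_add_distrib, Finset.mul_sum]
    exact Finset.sum_congr rfl fun i _ ↦ by ring
  rw [this, h1, hE, h0]
  ring

end Fermat.Agent.S17.H230

end
end
-- ===== PACK-END S17/H230/Jet.lean

-- ===== PACK-BEGIN S17/H230/Rank.lean
section





/-!
# S17 / tower H, wall leaves G-RANK and G-RANK-JET (helper230)

`rank E : Wall.RankStatement E` and `rankJet E : Wall.RankJetStatement E` (exact frozen shapes of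
`S17/H710/Wall/Defs.lean`, no extra hypothesis).

Proof.  The rows of the stacked matrix are the images `Φ G` of the degree `k` forms
`G = β_s = secProd (pt ∘ A) s` and `G = w_ρ X^α`, where
`Φ G = ((G(y_j))_j, ψ G)`, `ψ = eval z` (RANK) or `ψ = jetP (pt P) (tn P)` (RANK-JET).
`aeval E.x G ∈ L(km∞ - ΣAᵢ)` for these forms, and `Φ` kills the homogeneous relations of `E.x`
(`OnCone` for the columns; for the jet: `d1At` is a point derivation, `E.pt P ∈ span (ptD)`,
`E.tn P ∈ span (ptD, tnD)` by `pt_spec`/`tn_spec`, Euler's identity).  Hence the rank is at most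
`dim L(km∞ - ΣAᵢ) = km - k + 1 - g` (Riemann–Roch, `deg > 2g - 2`).
-/

set_option autoImplicit false

noncomputable section

open AlgebraicCurve MvPolynomial

namespace Fermat.Agent.S17.H230

open Fermat.Agent.Lib.RR Fermat.Agent.S17.HWall Fermat.Agent.S17.H710 Fermat.Agent.S17.Wall

variable {K F : Type*} [Field K] [Field F] [Algebra K F]

/-! ### Linear algebra -/

/-- If `g` kills the kernel of `f` on `S` and `f` maps `S` into the finite dimensional `L`, then
any family of vectors `g G`, `G ∈ S`, spans a space of dimension `≤ dim L`. -/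
theorem finrank_span_rows_le {V W U : Type*} [AddCommGroup V] [Module K V] [AddCommGroup W]
    [Module K W] [AddCommGroup U] [Module K U] [Module.Finite K U]
    (S : Submodule K V) (f : V →ₗ[K] W) (g : V →ₗ[K] U) (L : Submodule K W) [Module.Finite K L]
    (hf : ∀ G ∈ S, f G ∈ L) (hker : ∀ G ∈ S, f G = 0 → g G = 0)
    {σ : Type*} (rows : σ → U) (hrows : ∀ s, ∃ G ∈ S, g G = rows s) :
    Module.finrank K (Submodule.span K (Set.range rows)) ≤ Module.finrank K L := by
  set f' : S →ₗ[K] W := f.domRestrict S with hf'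
  set g' : S →ₗ[K] U := g.domRestrict S with hg'
  have hle : LinearMap.ker f' ≤ LinearMap.ker g' := by
    intro G hG
    rw [LinearMap.mem_ker] at hG ⊢
    exact hker G.1 G.2 hG
  have hrf : LinearMap.range f' ≤ L := by
    rintro _ ⟨G, rfl⟩
    exact hf G.1 G.2
  have : Module.Finite K (LinearMap.range f') :=
    Submodule.finiteDimensional_of_le hrf
  have : Module.Finite K (S ⧸ LinearMap.ker f') :=
    Module.Finite.equiv f'.quotKerEquivRange.symm
  have h1 : Submodule.span K (Set.range rows) ≤ LinearMap.range g' := by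
    rw [Submodule.span_le]
    rintro _ ⟨s, rfl⟩
    obtain ⟨G, hG, hGs⟩ := hrows s
    exact ⟨⟨G, hG⟩, hGs⟩
  have h2 : LinearMap.range g' = LinearMap.range ((LinearMap.ker f').liftQ g' hle) :=
    (Submodule.range_liftQ _ g' hle).symm
  calc Module.finrank K (Submodule.span K (Set.range rows))
      ≤ Module.finrank K (LinearMap.range g') := Submodule.finrank_mono h1
    _ = Module.finrank K (LinearMap.range ((LinearMap.ker f').liftQ g' hle)) := by rw [← h2]
    _ ≤ Module.finrank K (S ⧸ LinearMap.ker f') := LinearMap.finrank_range_le _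
    _ = Module.finrank K (LinearMap.range f') := LinearEquiv.finrank_eq f'.quotKerEquivRange
    _ ≤ Module.finrank K L := Submodule.finrank_mono hrf

variable [FF1 K F]

/-! ### Products in the spaces `L(D)` -/

omit [FF1 K F] in
theorem one_mem_L_zero : (1 : F) ∈ riemannRochSpace (0 : Divisor K F) := by
  rw [mem_L_iff]
  intro v
  right
  rw [Place.ord_one]
  simp

omit [FF1 K F] in
theorem mul_mem_L_add {D D' : Divisor K F} {f g : F} (hf : f ∈ riemannRochSpace D)
    (hg : g ∈ riemannRochSpace D') : f * g ∈ riemannRochSpace (D + D') := by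
  rw [mem_L_iff] at hf hg ⊢
  intro v
  rcases eq_or_ne f 0 with rfl | hf0
  · left; simp
  rcases eq_or_ne g 0 with rfl | hg0
  · left; simp
  right
  rw [v.ord_mul hf0 hg0, Finsupp.add_apply]
  have := (hf v).resolve_left hf0
  have := (hg v).resolve_left hg0
  omega

omit [FF1 K F] in
theorem prod_mem_L_sum {κ : Type*} (s : Finset κ) (f : κ → F) (D : κ → Divisor K F)
    (h : ∀ i ∈ s, f i ∈ riemannRochSpace (D i)) :
    ∏ i ∈ s, f i ∈ riemannRochSpace (∑ i ∈ s, D i) := by
  classical
  induction s using Finset.induction_on with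
  | empty => simpa using one_mem_L_zero (K := K) (F := F)
  | insert a s ha ih =>
    rw [Finset.prod_insert ha, Finset.sum_insert ha]
    exact mul_mem_L_add (h a (Finset.mem_insert_self a s))
      (ih fun i hi ↦ h i (Finset.mem_insert_of_mem hi))

/-! ### The embedding datum versus the canonical points -/

theorem x_mem (E : EmbData K F) (i : Fin (E.r + 1)) :
    E.x i ∈ riemannRochSpace (E.m • prim E.vinf) := by
  rw [← E.x_span]
  exact Submodule.subset_span ⟨i, rfl⟩

theorem dot_eq_sum {n : ℕ} (a y : Fin n → K) : dot a y = ∑ i, a i * y i := rfl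

omit [FF1 K F] in
theorem lin_eq_sum {n : ℕ} (x : Fin n → F) (a : Fin n → K) : lin x a = ∑ i, a i • x i := rfl

/-- `E.pt P` is proportional to the canonical point. -/
theorem exists_pt_eq (E : EmbData K F) (P : Place K F) :
    ∃ l : K, E.pt P = l • ptD (E.m • prim E.vinf) E.x P := by
  have h := mem_span_of_forall_dot (fun _ : Unit ↦ ptD (E.m • prim E.vinf) E.x P) (E.pt P) ?_
  · rw [Set.range_const, Submodule.mem_span_singleton] at h
    obtain ⟨l, hl⟩ := h
    exact ⟨l, hl.symm⟩
  · intro a ha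
    rcases eq_or_ne a 0 with rfl | ha0
    · simp [dot]
    have h0 : lin E.x a ≠ 0 := E.lin_ne_zero ha0
    rw [E.pt_spec P a ha0, hypDiv_apply_of_ne E.vinf E.m h0 P]
    exact (pt_spec_ptD (x_mem E) P a h0).mp (ha ())

/-- `E.tn P` lies in the span of the canonical tangent vector and the canonical point. -/
theorem exists_tn_eq (E : EmbData K F) (P : Place K F) :
    ∃ μ ν : K, E.tn P = μ • tnD (E.m • prim E.vinf) E.x P + ν • ptD (E.m • prim E.vinf) E.x P := by
  have h := mem_span_of_forall_dot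
    (fun b : Bool ↦ if b then tnD (E.m • prim E.vinf) E.x P else ptD (E.m • prim E.vinf) E.x P)
    (E.tn P) ?_
  · have hr : Set.range (fun b : Bool ↦ if b then tnD (E.m • prim E.vinf) E.x P
        else ptD (E.m • prim E.vinf) E.x P) =
        {tnD (E.m • prim E.vinf) E.x P, ptD (E.m • prim E.vinf) E.x P} := by
      ext u
      simp only [Set.mem_range, Bool.exists_bool, Set.mem_insert_iff, Set.mem_singleton_iff]
      constructor
      · rintro (h | h)
        · right; simpa using h.symm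
        · left; simpa using h.symm
      · rintro (h | h)
        · right; simpa using h.symm
        · left; simpa using h.symm
    rw [hr, Submodule.mem_span_pair] at h
    obtain ⟨μ, ν, hμν⟩ := h
    exact ⟨μ, ν, hμν.symm⟩
  · intro a ha
    rcases eq_or_ne a 0 with rfl | ha0
    · simp [dot]
    have h0 : lin E.x a ≠ 0 := E.lin_ne_zero ha0
    have h1 : dot a (ptD (E.m • prim E.vinf) E.x P) = 0 := by simpa using ha false
    have h2 : dot a (tnD (E.m • prim E.vinf) E.x P) = 0 := by simpa using ha true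
    have h3 := (tn_spec_ptD (x_mem E) P a h0).mp ⟨h1, h2⟩
    have h4 := (E.tn_spec P a ha0).mpr (by rw [hypDiv_apply_of_ne E.vinf E.m h0 P]; exact h3)
    exact h4.2

/-- The jet `(E.pt P, E.tn P)` kills the homogeneous relations of `E.x`. -/
theorem jetP_pt_tn_eq_zero (E : EmbData K F) (P : Place K F) {k : ℕ}
    {G : MvPolynomial (Fin (E.r + 1)) K} (hG : G.IsHomogeneous k) (h0 : aeval E.x G = 0) :
    jetP (E.pt P) (E.tn P) G = 0 := by
  obtain ⟨l, hl⟩ := exists_pt_eq E P
  obtain ⟨μ, ν, hμν⟩ := exists_tn_eq E P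
  obtain ⟨h1, h2⟩ := jet_ptD_eq_zero (x_mem E) P hG h0
  rw [hl, hμν]
  exact jetP_eq_zero_of_span hG h1 h2 l μ ν

/-! ### The rows are values of elements of `L(km∞ - ΣAᵢ)` -/

/-- a linear form through `E.pt A` gives a section vanishing at `A` -/
theorem lin_mem_of_dot_eq_zero (E : EmbData K F) (A : Place K F) (a : Fin (E.r + 1) → K)
    (h : dot a (E.pt A) = 0) :
    lin E.x a ∈ riemannRochSpace (E.m • prim E.vinf - prim A) := by
  rcases eq_or_ne a 0 with rfl | ha0
  · simp [lin]
  have h0 : lin E.x a ≠ 0 := E.lin_ne_zero ha0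
  have h1 := (E.pt_spec A a ha0).mp h
  rw [hypDiv_apply_of_ne E.vinf E.m h0 A] at h1
  rw [mem_L_sub_prim_iff (E.lin_mem a)]
  right
  omega

omit [FF1 K F] in
theorem aeval_secForm {n : ℕ} (x : Fin n → F) (u : Fin n → K) (p : Fin n × Fin n) :
    aeval x (secForm u p) =
      lin x (fun i ↦ u p.1 * (if i = p.2 then 1 else 0) - u p.2 * (if i = p.1 then 1 else 0)) := by
  classical
  unfold secForm lin
  simp only [sub_smul, Finset.sum_sub_distrib, mul_ite, mul_one, mul_zero, ite_smul, zero_smul,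
    Finset.sum_ite_eq', Finset.mem_univ, if_true]
  simp only [map_sub, map_mul, aeval_C, aeval_X, Algebra.smul_def]

theorem aeval_secForm_mem (E : EmbData K F) (A : Place K F) (p : Fin (E.r + 1) × Fin (E.r + 1)) :
    aeval E.x (secForm (E.pt A) p) ∈ riemannRochSpace (E.m • prim E.vinf - prim A) := by
  rw [aeval_secForm]
  apply lin_mem_of_dot_eq_zero
  simp only [dot, dotProduct, sub_mul, Finset.sum_sub_distrib, mul_ite, mul_one, mul_zero,
    ite_mul, zero_mul, Finset.sum_ite_eq', Finset.mem_univ, if_true]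
  ring

theorem aeval_secProd_mem (E : EmbData K F) {k : ℕ} (A : Fin k → Place K F)
    (s : Fin k → Fin (E.r + 1) × Fin (E.r + 1)) :
    aeval E.x (secProd (fun i ↦ E.pt (A i)) s) ∈
      riemannRochSpace (k • (E.m • prim E.vinf) - ∑ l, prim (A l)) := by
  unfold secProd
  rw [map_prod]
  have := prod_mem_L_sum (Finset.univ : Finset (Fin k))
    (fun i ↦ aeval E.x (secForm (E.pt (A i)) (s i)))
    (fun i ↦ E.m • prim E.vinf - prim (A i)) (fun i _ ↦ aeval_secForm_mem E (A i) (s i))
  rwa [Finset.sum_sub_distrib, Finset.sum_const, Finset.card_univ, Fintype.card_fin] at this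

omit [FF1 K F] in
theorem aeval_linForm {n : ℕ} (x : Fin n → F) (a : Fin n → K) :
    aeval x (linForm a) = lin x a := by
  unfold linForm lin
  simp only [map_sum, map_mul, aeval_C, aeval_X, Algebra.smul_def]

theorem aeval_monoOrd_mem (E : EmbData K F) {e : ℕ} (α : Fin e → Fin (E.r + 1)) :
    aeval E.x (monoOrd (K := K) α) ∈ riemannRochSpace (e • (E.m • prim E.vinf)) := by
  unfold monoOrd
  rw [map_prod]
  have := prod_mem_L_sum (Finset.univ : Finset (Fin e))
    (fun i ↦ aeval E.x (X (α i) : MvPolynomial (Fin (E.r + 1)) K))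
    (fun _ ↦ E.m • prim E.vinf) (fun i _ ↦ by rw [aeval_X]; exact x_mem E (α i))
  rwa [Finset.sum_const, Finset.card_univ, Fintype.card_fin] at this

theorem lin_mem_of_le (E : EmbData K F) (D : Divisor K F) (a : Fin (E.r + 1) → K)
    (h : a ≠ 0 → D ≤ E.Z a) : lin E.x a ∈ riemannRochSpace (E.m • prim E.vinf - D) := by
  rcases eq_or_ne a 0 with rfl | ha0
  · simp [lin]
  rw [mem_L_iff]
  intro v
  right
  have h1 := Finsupp.le_def.mp (h ha0) v
  rw [E.Z_apply ha0 v] at h1
  rw [Finsupp.sub_apply]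
  omega

theorem aeval_wRow_mem (E : EmbData K F) {k : ℕ} (hk : 1 ≤ k) (D : Divisor K F)
    (a : Fin (E.r + 1) → K) (h : a ≠ 0 → D ≤ E.Z a) (α : Fin (k - 1) → Fin (E.r + 1)) :
    aeval E.x (linForm a * monoOrd α) ∈ riemannRochSpace (k • (E.m • prim E.vinf) - D) := by
  rw [map_mul, aeval_linForm]
  have := mul_mem_L_add (lin_mem_of_le E D a h) (aeval_monoOrd_mem E α)
  have hD : E.m • prim E.vinf - D + (k - 1) • (E.m • prim E.vinf) =
      k • (E.m • prim E.vinf) - D := by
    obtain ⟨j, rfl⟩ : ∃ j, k = j + 1 := ⟨k - 1, by omega⟩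
    rw [Nat.add_sub_cancel, add_smul, one_smul]
    abel
  rwa [hD] at this

/-! ### The dimension -/

theorem ell_rank_eq (E : EmbData K F) {k : ℕ} (hk : 1 ≤ k) (A : Fin k → Place K F) :
    Module.finrank K (riemannRochSpace (k • (E.m • prim E.vinf) - ∑ l, prim (A l))) =
      kapN E k := by
  have hdeg : Divisor.degree (k • (E.m • prim E.vinf) - ∑ l, prim (A l)) =
      (k : ℤ) * E.m - k := by
    rw [map_sub, map_nsmul, map_nsmul, map_sum]
    simp only [degree_prim', Finset.sum_const, Finset.card_univ, Fintype.card_fin,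
      nsmul_eq_mul, mul_one]
  have hm := E.hm
  have hkm : k * (2 * genusR K F + 1) ≤ k * E.m := Nat.mul_le_mul_left k hm
  have hkg : 2 * genusR K F + 1 ≤ k * (2 * genusR K F + 1) := Nat.le_mul_of_pos_left _ hk
  have hell := ell_eq_of_degree_gt (K := K) (F := F)
    (D := k • (E.m • prim E.vinf) - ∑ l, prim (A l)) (by
      rw [hdeg, genusFF_eq_genusR]
      have : ((k * (2 * genusR K F + 1) : ℕ) : ℤ) ≤ ((k * E.m : ℕ) : ℤ) := by exact_mod_cast hkm
      push_cast at this
      have h2 : ((2 * genusR K F + 1 : ℕ) : ℤ) ≤ ((k * (2 * genusR K F + 1) : ℕ) : ℤ) := by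
        exact_mod_cast hkg
      push_cast at h2
      nlinarith)
  rw [hdeg, genusFF_eq_genusR] at hell
  unfold ell at hell
  unfold kapN
  have h3 : k ≤ k * E.m := by nlinarith
  zify [h3]
  have h4 : genusR K F ≤ k * E.m - k + 1 := by
    have : k * (2 * genusR K F + 1) = 2 * (k * genusR K F) + k := by ring
    have h5 : genusR K F ≤ k * genusR K F := Nat.le_mul_of_pos_left _ hk
    omega
  rw [Nat.cast_sub h4]
  push_cast [h3]
  rw [hell]

/-! ### The evaluation map `Φ` -/

/-- the jet as a linear map -/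
def jetL {n : ℕ} (z z' : Fin n → K) : MvPolynomial (Fin n) K →ₗ[K] K where
  toFun := jetP z z'
  map_add' := jetP_add z z'
  map_smul' a G := by simpa using jetP_smul z z' a G

/-- `Φ G = ((G(y_j))_j, ψ G)` -/
def rowMap {n : ℕ} {c : Type*} (y : c → Fin n → K) (ψ : MvPolynomial (Fin n) K →ₗ[K] K) :
    MvPolynomial (Fin n) K →ₗ[K] (c ⊕ Unit → K) where
  toFun G := Sum.elim (fun j ↦ eval (y j) G) (fun _ ↦ ψ G)
  map_add' G H := by
    funext q
    rcases q with j | j <;> simp
  map_smul' a G := by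
    funext q
    rcases q with j | j <;> simp [smul_eval]

omit [FF1 K F] [Algebra K F] [Field F] in
theorem jetP_secForm {n : ℕ} (z z' u : Fin n → K) (p : Fin n × Fin n) :
    jetP z z' (secForm u p) = wedge u z' p := by
  classical
  unfold secForm wedge
  rw [jetP_sub, jetP_mul, jetP_mul, jetP_C, jetP_C, jetP_X, jetP_X, eval_C, eval_C]
  ring

omit [FF1 K F] [Algebra K F] [Field F] in
theorem jetP_secProd {n d : ℕ} (z z' : Fin n → K) (u : Fin d → Fin n → K)
    (s : Fin d → Fin n × Fin n) : jetP z z' (secProd u s) = betaJet u z z' s := by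
  classical
  unfold secProd betaJet
  rw [jetP_prod]
  refine Finset.sum_congr rfl fun l _ ↦ ?_
  rw [jetP_secForm]
  congr 1
  exact Finset.prod_congr rfl fun i _ ↦ eval_secForm (u i) z (s i)

omit [FF1 K F] [Algebra K F] [Field F] in
theorem jetP_linForm {n : ℕ} (z z' a : Fin n → K) : jetP z z' (linForm a) = dot a z' := by
  classical
  unfold linForm
  rw [jetP_sum]
  simp only [jetP_mul, jetP_C, jetP_X, eval_C, eval_X, mul_zero, add_zero, dot, dotProduct]

omit [FF1 K F] [Algebra K F] [Field F] in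
theorem jetP_monoOrd {n e : ℕ} (z z' : Fin n → K) (α : Fin e → Fin n) :
    jetP z z' (monoOrd α) = ∑ l, z' (α l) * ∏ k ∈ Finset.univ.erase l, z (α k) := by
  classical
  unfold monoOrd
  rw [jetP_prod]
  refine Finset.sum_congr rfl fun l _ ↦ ?_
  rw [jetP_X]
  congr 1
  exact Finset.prod_congr rfl fun i _ ↦ eval_X _

omit [FF1 K F] [Algebra K F] [Field F] in
theorem jetP_wRow {n e : ℕ} (z z' a : Fin n → K) (α : Fin e → Fin n) :
    jetP z z' (linForm a * monoOrd α) =
      dot a z' * ∏ k, z (α k) +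
        dot a z * ∑ l, z' (α l) * ∏ k ∈ Finset.univ.erase l, z (α k) := by
  rw [jetP_mul, jetP_linForm, jetP_monoOrd, eval_linForm, eval_monoOrd]
  ring

/-! ### The core -/

/-- Common core of G-RANK and G-RANK-JET: `ψ` is any linear functional killing the homogeneous
relations of `E.x`. -/
theorem rank_core (E : EmbData K F) {k : ℕ} (hk : 1 ≤ k) (A : Fin k → Place K F) {ρ : Type}
    (W : ρ → Fin (E.r + 1) → K) (hW : ∀ r, W r ≠ 0 → ∑ l, prim (A l) ≤ E.Z (W r))
    {c : Type} [Fintype c] (y : c → Fin (E.r + 1) → K) (hy : ∀ j, OnCone E.x (y j))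
    (ψ : MvPolynomial (Fin (E.r + 1)) K →ₗ[K] K)
    (hψ : ∀ G : MvPolynomial (Fin (E.r + 1)) K, G.IsHomogeneous k → aeval E.x G = 0 → ψ G = 0) :
    Module.finrank K (Submodule.span K (Set.range
      (stack (betaMat (fun i ↦ E.pt (A i)) y) (fun s ↦ ψ (secProd (fun i ↦ E.pt (A i)) s))
        (wMat (e := k - 1) W y) (fun t ↦ ψ (linForm (W t.1) * monoOrd t.2))))) ≤ kapN E k := by
  rw [← ell_rank_eq E hk A]
  refine finrank_span_rows_le
    (homogeneousSubmodule (Fin (E.r + 1)) K k ⊓
      (riemannRochSpace (k • (E.m • prim E.vinf) - ∑ l, prim (A l))).comap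
        (aeval E.x).toLinearMap)
    (aeval E.x).toLinearMap (rowMap y ψ) _ ?_ ?_ _ ?_
  · intro G hG
    exact hG.2
  · intro G hG h0
    have hG' : G.IsHomogeneous k := (mem_homogeneousSubmodule _ _).mp hG.1
    funext q
    rcases q with j | j
    · exact hy j k G hG' h0
    · exact hψ G hG' h0
  · rintro (s | t)
    · refine ⟨secProd (fun i ↦ E.pt (A i)) s, ⟨?_, ?_⟩, ?_⟩
      · exact (mem_homogeneousSubmodule _ _).mpr (secProd_isHomogeneous _ s)
      · exact aeval_secProd_mem E A s
      · funext q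
        rcases q with j | j
        · simp [rowMap, stack, betaMat_eq_eval]
        · simp [rowMap, stack]
    · refine ⟨linForm (W t.1) * monoOrd t.2, ⟨?_, ?_⟩, ?_⟩
      · have := (linForm_isHomogeneous (W t.1)).mul (monoOrd_isHomogeneous (K := K) t.2)
        have hk' : 1 + (k - 1) = k := by omega
        rw [hk'] at this
        exact (mem_homogeneousSubmodule _ _).mpr this
      · exact aeval_wRow_mem E hk _ (W t.1) (hW t.1) t.2
      · funext q
        rcases q with j | j
        · simp [rowMap, stack, wMat_eq_eval]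
        · simp [rowMap, stack]

/-- **G-RANK.** -/
theorem rank (E : EmbData K F) : RankStatement E := by
  intro k A ρ _ W hk hW c _ y z hy hz
  have h := rank_core E hk A W hW y hy (aeval z).toLinearMap
    (fun G hG h0 ↦ by simpa [aeval_eq_eval] using hz k G hG h0)
  have h1 : (fun s ↦ (aeval z).toLinearMap (secProd (fun i ↦ E.pt (A i)) s)) =
      betaCol (fun i ↦ E.pt (A i)) fun _ ↦ z := by
    funext s
    simp [betaCol, aeval_eq_eval, eval_secProd]
  have h2 : (fun t : ρ × (Fin (k - 1) → Fin (E.r + 1)) ↦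
      (aeval z).toLinearMap (linForm (W t.1) * monoOrd t.2)) = wCol W z := by
    funext t
    simp [wCol, aeval_eq_eval, eval_linForm, eval_monoOrd]
  rwa [h1, h2] at h

/-- **G-RANK-JET.** -/
theorem rankJet (E : EmbData K F) : RankJetStatement E := by
  intro k A ρ _ W hk hW c _ y P hy
  have h := rank_core E hk A W hW y hy (jetL (E.pt P) (E.tn P))
    (fun G hG h0 ↦ jetP_pt_tn_eq_zero E P hG h0)
  have h1 : (fun s ↦ jetL (E.pt P) (E.tn P) (secProd (fun i ↦ E.pt (A i)) s)) =
      betaJet (fun i ↦ E.pt (A i)) (E.pt P) (E.tn P) := by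
    funext s
    exact jetP_secProd _ _ _ s
  have h2 : (fun t : ρ × (Fin (k - 1) → Fin (E.r + 1)) ↦
      jetL (E.pt P) (E.tn P) (linForm (W t.1) * monoOrd t.2)) = wJet W (E.pt P) (E.tn P) := by
    funext t
    exact jetP_wRow _ _ _ t.2
  rwa [h1, h2] at h

end Fermat.Agent.S17.H230

end
end
-- ===== PACK-END S17/H230/Rank.lean

-- ===== PACK-BEGIN S09/H182/Glue.lean
section





/-!
# S09 glue (helper182)

`S09` (Mazur: the mod-`p` representation of the Frey curve is irreducible) from the landed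
`S10`, `S11`, `S13` and the statement of `S12` as the only hypothesis.
-/

set_option autoImplicit false
open WeierstrassCurve WeierstrassCurve.Affine WeierstrassCurve.Affine.Point
open FreyPackage

namespace Fermat.Agent.S09.H182

/-- A prime `p ≥ 5` below `17` is one of `5, 7, 11, 13`. -/
theorem prime_cases_lt_seventeen {p : ℕ} (hp : p.Prime) (h5 : 5 ≤ p) (h17 : p < 17) :
    p = 5 ∨ p = 7 ∨ p = 11 ∨ p = 13 := by
  interval_cases p <;> first | omega | (exfalso; revert hp; decide)

/-- `S09` from the statement of `S12` (everything else is on main). -/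
theorem result_of_S12
    (h12 : ∀ P : FreyPackage, 17 ≤ P.p →
      ¬ HasGaloisStableCofixedLine (K := AlgebraicClosure ℚ) ℚ P.freyCurve P.p)
    (P : FreyPackage) :
    GaloisRepIsIrreducible (K := AlgebraicClosure ℚ) ℚ P.freyCurve P.p := by
  by_contra hred
  have hline := Fermat.Agent.S13.result P hred
  by_cases h17 : 17 ≤ P.p
  · exact h12 P h17 hline
  · rcases prime_cases_lt_seventeen P.pp P.hp5 (Nat.lt_of_not_le h17) with h | h | h | h
    · exact Fermat.Agent.S10.result P (Or.inl h) hline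
    · exact Fermat.Agent.S10.result P (Or.inr (Or.inl h)) hline
    · exact Fermat.Agent.S11.result P h hline
    · exact Fermat.Agent.S10.result P (Or.inr (Or.inr h)) hline

end Fermat.Agent.S09.H182

end
-- ===== PACK-END S09/H182/Glue.lean

-- ===== PACK-BEGIN S48/H188/Nebentypus.lean
section


set_option autoImplicit false

open scoped MatrixGroups ModularForm
open UpperHalfPlane CongruenceSubgroup Matrix Filter Asymptotics Function

namespace Fermat.Agent.S48.H188

noncomputable section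

variable {N : ℕ}

lemma cuspForm_inv1 (f : CuspForm (Gamma1 N) 1) : Inv1 N 1 (⇑f) := by
  intro γ hγ
  rw [ModularForm.SL_slash]
  exact SlashInvariantFormClass.slash_action_eq f _ (Subgroup.mem_map_of_mem _ hγ)

/-- A matrix in `Γ₀(N)` with lower right entry `≡ p mod N`. -/
lemma exists_gammaP {p : ℕ} (hpN : Nat.Coprime p N) :
    ∃ γp : SL(2, ℤ), γp ∈ Gamma0 N ∧ dd N γp = (p : ZMod N) := by
  obtain ⟨a, b, c, d, hdet, hc, hpd⟩ := exists_ghat (N := N) hpN
  have hg : sl a (p * b) c d hdet ∈ Gamma0 N := by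
    rw [Gamma0_mem]; simpa using hc
  refine ⟨(sl a (p * b) c d hdet)⁻¹, (Gamma0 N).inv_mem hg, ?_⟩
  have h1 := dd_inv_mul hg
  have h2 : dd N (sl a (p * b) c d hdet) = (d : ZMod N) := rfl
  rw [h2] at h1
  calc dd N (sl a (p * b) c d hdet)⁻¹
      = dd N (sl a (p * b) c d hdet)⁻¹ * ((p : ZMod N) * (d : ZMod N)) := by rw [hpd, mul_one]
    _ = (p : ZMod N) * (dd N (sl a (p * b) c d hdet)⁻¹ * (d : ZMod N)) := by ring
    _ = (p : ZMod N) := by rw [h1, mul_one]

/-- **P0 at one prime.**  The formal Hecke relation at `p ∤ N` with "character value" `e` forces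
`f∣γ = e f` for all `γ ∈ Γ₀(N)` with `d_γ ≡ p mod N`. -/
theorem slash_eq_of_hecke [NeZero N] (f : CuspForm (Gamma1 N) 1) {p : ℕ} (hp : p.Prime)
    (hpN : ¬ p ∣ N) (e : ℂ)
    (hT : ∀ n : ℕ, ModularFormClass.qCoeff f (p * n) +
        e * (if p ∣ n then ModularFormClass.qCoeff f (n / p) else 0) =
      ModularFormClass.qCoeff f p * ModularFormClass.qCoeff f n)
    {γ : SL(2, ℤ)} (hγ : γ ∈ Gamma0 N) (hd : dd N γ = (p : ZMod N)) :
    (⇑f) ∣[(1 : ℤ)] γ = e • ⇑f := by
  have : Fact p.Prime := ⟨hp⟩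
  have : NeZero p := ⟨hp.ne_zero⟩
  have hcop : Nat.Coprime p N := (Nat.Prime.coprime_iff_not_dvd hp).mpr hpN
  have hF := cuspForm_inv1 f
  have hhol : MDifferentiable (modelWithCornersSelf ℂ ℂ) (modelWithCornersSelf ℂ ℂ) (⇑f) :=
    CuspFormClass.holo f
  have hzero : IsZeroAtImInfty (⇑f) := CuspFormClass.zero_at_infty f
  have hp' : (0 : ℤ) < p := by exact_mod_cast hp.pos
  set h : ℍ → ℂ := (⇑f) ∣[(1 : ℤ)] γ - e • ⇑f with hh
  have hA := hecke_functional_eq hF.periodic_comp_ofComplex hhol hzero.boundedAtFilter p hp.pos e hT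
  have hT' := heckeT_inv (k := 1) p hcop hF hγ hd
  rw [heckeT_eq, sum_zmod_val p (fun j => (⇑f) ∣[(1 : ℤ)] gl 1 (j : ℤ) 0 p)] at hT'
  have h2 : h ∣[(1 : ℤ)] gl p 0 0 1 =
      (((⇑f) ∣[(1 : ℤ)] γ) ∣[(1 : ℤ)] gl p 0 0 1 +
        ∑ j ∈ Finset.range p, (⇑f) ∣[(1 : ℤ)] gl 1 (j : ℤ) 0 p)
        - (UpperHalfPlane.qExpansion 1 ⇑f).coeff p • ⇑f := by
    rw [hh, sub_slash, smul_slash_gl_upper _ _ hp' one_pos, ← hA]
    abel
  have hInv2 : Inv2 N p 1 h :=
    ⟨(hF.slash hγ).sub (hF.smul e), by rw [h2]; exact hT'.sub (hF.smul _)⟩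
  have hhol' : MDifferentiable (modelWithCornersSelf ℂ ℂ) (modelWithCornersSelf ℂ ℂ) h := by
    rw [hh]
    exact (hhol.slash 1 _).sub (hhol.const_smul e)
  have hzero' : IsZeroAtImInfty h := by
    rw [hh]
    have h1 : IsZeroAtImInfty ((⇑f) ∣[(1 : ℤ)] γ) := CuspFormClass.zero_at_infty_slash f γ
    have h3 : IsZeroAtImInfty (e • ⇑f) := ZeroAtFilter.smul e hzero
    rw [sub_eq_add_neg]
    exact ZeroAtFilter.add h1 (ZeroAtFilter.neg h3)
  have := hInv2.eq_zero hp hcop hhol' hzero'
  rw [hh] at this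
  exact sub_eq_zero.mp this

/-- **P0 (nebentypus).**  A weight one cusp form on `Γ₁(N)` whose `q`-expansion satisfies the
Hecke relations with character `ε` at all primes `p ∤ N` has nebentypus `ε`:
`f∣γ = ε(d_γ) f` for all `γ ∈ Γ₀(N)`. -/
theorem nebentypus [NeZero N] (ε : DirichletCharacter ℂ N) (f : CuspForm (Gamma1 N) 1)
    (hT : ∀ p : ℕ, p.Prime → ¬ p ∣ N → ∀ n : ℕ,
        ModularFormClass.qCoeff f (p * n) +
            ε (p : ZMod N) * (if p ∣ n then ModularFormClass.qCoeff f (n / p) else 0) =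
          ModularFormClass.qCoeff f p * ModularFormClass.qCoeff f n)
    {γ : SL(2, ℤ)} (hγ : γ ∈ Gamma0 N) :
    (⇑f) ∣[(1 : ℤ)] γ = ε (((γ 1 1 : ℤ) : ZMod N)) • ⇑f := by
  have hu : IsUnit (dd N γ) := .of_mul_eq_one _ (dd_mul_inv hγ)
  obtain ⟨p, hpgt, hp, hpd⟩ := Nat.forall_exists_prime_gt_and_eq_mod hu N
  have hpN : ¬ p ∣ N := fun hdvd =>
    absurd (Nat.le_of_dvd (Nat.pos_of_ne_zero (NeZero.ne N)) hdvd) (not_le.mpr hpgt)
  have := slash_eq_of_hecke f hp hpN (ε (p : ZMod N)) (hT p hp hpN) hγ hpd.symm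
  rw [this, hpd]
  rfl

end

end Fermat.Agent.S48.H188

namespace Fermat.Agent.S48.H188

noncomputable section

variable {N : ℕ}

/-- **P0, eigenform part.**  Under the hypotheses of S48, `f` is an eigenfunction of the genuine
Hecke operator `T_p` (`p ∤ N`) on `Γ₁(N)`, with eigenvalue `a_p`. -/
theorem heckeT_eigen [NeZero N] (ε : DirichletCharacter ℂ N) (f : CuspForm (Gamma1 N) 1)
    (hT : ∀ p : ℕ, p.Prime → ¬ p ∣ N → ∀ n : ℕ,
        ModularFormClass.qCoeff f (p * n) +
            ε (p : ZMod N) * (if p ∣ n then ModularFormClass.qCoeff f (n / p) else 0) =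
          ModularFormClass.qCoeff f p * ModularFormClass.qCoeff f n)
    {p : ℕ} [hpf : Fact p.Prime] (hpN : ¬ p ∣ N)
    {γp : SL(2, ℤ)} (hγp : γp ∈ Gamma0 N) (hdp : dd N γp = (p : ZMod N)) :
    _root_.Fermat.Agent.S48.H188.heckeT p 1 γp (⇑f) = ModularFormClass.qCoeff f p • ⇑f := by
  have hp := hpf.out
  have : NeZero p := ⟨hp.ne_zero⟩
  have hp' : (0 : ℤ) < p := by exact_mod_cast hp.pos
  have hF := cuspForm_inv1 f
  have hA := hecke_functional_eq hF.periodic_comp_ofComplex (CuspFormClass.holo f)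
    (CuspFormClass.zero_at_infty f).boundedAtFilter p hp.pos (ε (p : ZMod N)) (hT p hp hpN)
  rw [heckeT_eq, sum_zmod_val p (fun j => (⇑f) ∣[(1 : ℤ)] gl 1 (j : ℤ) 0 p),
    slash_eq_of_hecke f hp hpN (ε (p : ZMod N)) (hT p hp hpN) hγp hdp,
    smul_slash_gl_upper _ _ hp' one_pos, add_comm]
  exact hA

end

end Fermat.Agent.S48.H188

end
-- ===== PACK-END S48/H188/Nebentypus.lean

-- ===== PACK-BEGIN LT/H49/ThreeDvd.lean
section





/-!
# Row LT, block GLUE2, leaf W2A (helper49): the level is divisible by 3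

A nonzero cusp form of weight one on `Γ₁(M)` whose `q`-expansion satisfies the Hecke relations with
"character" `χ₋₃(p)` at the primes `p ∤ M` forces `3 ∣ M`: otherwise a prime `p ≡ 1 mod M`,
`p ≡ 2 mod 3` (Dirichlet) gives `f = f∣1 = χ₋₃(p) f = -f` by the landed S48 piece
`slash_eq_of_hecke`.
-/

set_option autoImplicit false

noncomputable section

namespace Fermat.Agent.LT.H49

open EisensteinWeightOne CongruenceSubgroup ModularFormClass UpperHalfPlane
open scoped MatrixGroups ModularForm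

theorem chiNegThree_of_mod_two {p : ℕ} (h : p % 3 = 2) : chiNegThree p = -1 := by
  unfold chiNegThree
  rw [h]
  simp

theorem three_dvd_level {M : ℕ} [NeZero M] (f : CuspForm (Gamma1 M) 1)
    (hf : (⇑f : ℍ → ℂ) ≠ 0)
    (hT : ∀ p : ℕ, p.Prime → ¬ p ∣ M → ∀ n : ℕ,
        qCoeff f (p * n) +
            ((chiNegThree p : ℤ) : ℂ) * (if p ∣ n then qCoeff f (n / p) else 0) =
          qCoeff f p * qCoeff f n) : 3 ∣ M := by
  by_contra h3
  have hM0 : M ≠ 0 := NeZero.ne M
  have hmod : M % 3 = 1 ∨ M % 3 = 2 := by omega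
  -- the residue `r = 1 + M * (M % 3)` is `1 mod M` and `2 mod 3`
  set r : ℕ := 1 + M * (M % 3) with hr
  have hr3 : r % 3 = 2 := by
    rw [hr, Nat.add_mod, Nat.mul_mod, Nat.mod_mod]
    rcases hmod with h | h <;> rw [h]
  have hrM : r % M = 1 % M := by
    rw [hr, Nat.add_mul_mod_self_left]
  have hcop : Nat.Coprime r (3 * M) := by
    apply Nat.Coprime.mul_right
    · rw [Nat.coprime_comm, Nat.Prime.coprime_iff_not_dvd Nat.prime_three]
      omega
    · rw [hr, Nat.coprime_comm]
      have : Nat.Coprime M (1 + M * (M % 3)) := by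
        rw [Nat.coprime_add_mul_left_right]
        exact Nat.coprime_one_right M
      exact this
  have : NeZero (3 * M) := ⟨mul_ne_zero (by norm_num) hM0⟩
  have hu : IsUnit ((r : ℕ) : ZMod (3 * M)) := (ZMod.isUnit_iff_coprime r (3 * M)).mpr hcop
  obtain ⟨p, hpgt, hp, hpr⟩ := Nat.forall_exists_prime_gt_and_eq_mod hu M
  have hpN : ¬ p ∣ M := fun hdvd =>
    absurd (Nat.le_of_dvd (Nat.pos_of_ne_zero hM0) hdvd) (not_le.mpr hpgt)
  have hpr' : p ≡ r [MOD 3 * M] := (ZMod.natCast_eq_natCast_iff p r (3 * M)).mp hpr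
  have hp3 : p % 3 = 2 := by
    have := hpr'.of_mul_right M
    rw [Nat.ModEq] at this
    rw [this, hr3]
  have hpM : (p : ZMod M) = 1 := by
    have h1 := hpr'.of_mul_left 3
    have h2 : (p : ZMod M) = (r : ZMod M) := (ZMod.natCast_eq_natCast_iff p r M).mpr h1
    rw [h2, hr]
    push_cast
    simp
  have hd : Fermat.Agent.S48.H188.dd M (1 : SL(2, ℤ)) = (p : ZMod M) := by
    rw [hpM]
    simp [Fermat.Agent.S48.H188.dd]
  have hT' : ∀ n : ℕ, qCoeff f (p * n) +
      (-1 : ℂ) * (if p ∣ n then qCoeff f (n / p) else 0) = qCoeff f p * qCoeff f n := by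
    intro n
    have := hT p hp hpN n
    rwa [chiNegThree_of_mod_two hp3, Int.cast_neg, Int.cast_one] at this
  have key := Fermat.Agent.S48.H188.slash_eq_of_hecke f hp hpN (-1 : ℂ) hT'
    (γ := 1) (Subgroup.one_mem _) hd
  rw [SlashAction.slash_one] at key
  apply hf
  funext z
  have hz := congrFun key z
  simp only [Pi.smul_apply, smul_eq_mul, Pi.zero_apply] at hz ⊢
  have h2 : (2 : ℂ) * f z = 0 := by linear_combination hz
  rcases mul_eq_zero.mp h2 with h | h
  · norm_num at h
  · exact h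

end Fermat.Agent.LT.H49

end
end
-- ===== PACK-END LT/H49/ThreeDvd.lean

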