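import Fermat.Prelude.Def_AlgebraicCurve_CanonicalDivisor
import Fermat.Prelude.Def_EllipticCurve_ZeroComponentAt
import Fermat.Agent.Pack.L1.E5L3
import Fermat.Agent.Pack.L1.E5L2
import Fermat.Agent.Pack.L1.E3L0
import Fermat.Agent.Pack.L1.E4L3
import Fermat.Agent.Pack.L1.E5L1
import Fermat.Agent.Pack.S43MC.G0E20L1
import Fermat.Agent.Pack.S44C.G0E22L3
import Fermat.Agent.Pack.L1.E5L0
import Fermat.Agent.Pack.L1.E4L2
import Fermat.Agent.Pack.S59C.E6L3
import Fermat.Agent.Pack.S44C.G0E23L1
import Fermat.Agent.Pack.S44C.G0E22L1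
import Fermat.Agent.Pack.S44C.G1E0L0
import Fermat.Agent.Pack.L1.E3L1
import Fermat.Agent.Pack.L1.E3L3
import Fermat.Agent.Pack.S44C.G0E21L1
import Fermat.Agent.Pack.S44C.G0E6L2

-- ===== PACK-BEGIN S17/H980/WallIndep.lean
section




/-!
# S17 / tower H, WALL leaves G-INDEP, G-ENUM, G-INF, A2 (MINOR), A10 in frozen form (helper980)

* `indep E : Wall.IndepStatement E` — at most `m - 2g + 1` distinct places have linearly
  independent coordinate vectors, i.e. non-vanishing Plücker vector (Riemann–Roch);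
* `enum : Wall.EnumStatement K F` — enumeration of an effective divisor with multiplicities;
* `inf : Wall.InfStatement K F` (`K` infinite) — there are infinitely many places;
* `minorStatement K : Wall.MinorStatement K` — a matrix whose rows span a space of dimension `κ`
  has a non-zero `κ × κ` minor;
* `pluckerStepStatement K : Wall.PluckerStepStatement K` — A10 (`H980.pluckerStep`).
-/

set_option autoImplicit false

noncomputable section

open AlgebraicCurve

namespace Fermat.Agent.S17.H980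

open Fermat.Agent.Lib.RR Fermat.Agent.S17.HWall Fermat.Agent.S17.HContract
open Fermat.Agent.S17.Wall

section Indep

variable {K F : Type*} [Field K] [Field F] [Algebra K F] [FF1 K F]

/-- **G-INDEP.** -/
theorem indep (E : EmbData K F) : IndepStatement E := by
  intro d P hd hP
  have hli : LinearIndependent K fun i => E.pt (P i) :=
    linearIndependent_pt E P hP (by rw [genusFF_eq_genusR]; exact hd)
  obtain ⟨e, he⟩ := exists_det_submatrix_ne_zero (Matrix.of fun i => E.pt (P i)) hli
  intro h0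
  apply he
  have := congrFun h0 e
  exact this

/-- **G-ENUM.** -/
theorem enum : EnumStatement K F := by
  intro D hD k
  induction k generalizing D with
  | zero =>
    intro hdeg
    refine ⟨Fin.elim0, ?_⟩
    rw [Finset.univ_eq_empty, Finset.sum_empty]
    exact H680.eq_zero_of_nonneg_of_degree_eq_zero hD (by simpa using hdeg)
  | succ k ih =>
    intro hdeg
    have hne : D ≠ 0 := by
      rintro rfl
      rw [map_zero] at hdeg
      have : (0 : ℤ) = (k : ℤ) + 1 := by exact_mod_cast hdeg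
      omega
    obtain ⟨P, hP⟩ : ∃ P, D P ≠ 0 := by
      by_contra hcon
      apply hne
      ext v
      by_contra hv
      exact hcon ⟨v, hv⟩
    have hP0 : (0 : ℤ) ≤ D P := by simpa using Finsupp.le_def.mp hD P
    have hD' : 0 ≤ D - prim P := by
      rw [Finsupp.le_def]
      intro v
      have h0 : (0 : ℤ) ≤ D v := by simpa using Finsupp.le_def.mp hD v
      by_cases hv : v = P
      · subst hv
        simp only [Finsupp.coe_zero, Pi.zero_apply, Finsupp.coe_sub, Pi.sub_apply,
          prim_apply_self]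
        omega
      · simp only [Finsupp.coe_zero, Pi.zero_apply, Finsupp.coe_sub, Pi.sub_apply,
          prim_apply_of_ne hv]
        omega
    have hdeg' : Divisor.degree (D - prim P) = (k : ℕ) := by
      rw [map_sub, degree_prim _ (deg_eq_one _), hdeg]
      push_cast
      ring
    obtain ⟨A, hA⟩ := ih (D - prim P) hD' hdeg'
    refine ⟨Fin.snoc A P, ?_⟩
    rw [Fin.sum_univ_castSucc]
    simp only [Fin.snoc_castSucc, Fin.snoc_last]
    rw [← hA]
    abel

/-- A non-constant function has a zero. -/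
theorem exists_ord_pos_of_not_const {f : F} (hf : f ∉ Set.range (algebraMap K F)) :
    ∃ v : Place K F, 0 < v.ord f := by
  by_contra hcon
  have hle : ∀ v : Place K F, v.ord f ≤ 0 := fun v => not_lt.mp fun h => hcon ⟨v, h⟩
  have hf0 : f ≠ 0 := by
    rintro rfl
    exact hf ⟨0, map_zero _⟩
  have h1 : 0 ≤ -divOf (K := K) f hf0 := by
    rw [Finsupp.le_def]
    intro v
    have := hle v
    simp only [Finsupp.coe_zero, Pi.zero_apply, Finsupp.coe_neg, Pi.neg_apply, divOf_apply]
    omega
  have h2 : -divOf (K := K) f hf0 = 0 :=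
    H680.eq_zero_of_nonneg_of_degree_eq_zero h1 (by rw [map_neg, degree_divOf, neg_zero])
  have h3 : f ∈ riemannRochSpace (0 : Divisor K F) := by
    rw [H680.mem_L_iff_nonneg hf0, zero_add]
    have : divOf (K := K) f hf0 = 0 := by simpa using h2
    rw [this]
  rw [L_zero] at h3
  obtain ⟨c, hc⟩ := h3
  exact hf ⟨c, hc⟩

/-- **G-INF.** -/
theorem inf [Infinite K] : InfStatement K F := by
  classical
  obtain ⟨x, hx, -⟩ := FF1.exists_finite (K := K) (F := F)
  have hnc : ∀ c : K, x - algebraMap K F c ∉ Set.range (algebraMap K F) := by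
    rintro c ⟨c', hc'⟩
    apply hx
    have : x = algebraMap K F (c' + c) := by
      rw [map_add, hc']
      ring
    rw [this]
    exact isAlgebraic_algebraMap _
  choose P hP using fun c => exists_ord_pos_of_not_const (hnc c)
  have hinj : Function.Injective P := by
    intro c c' h
    by_contra hne
    have h1 : 0 < (P c).ord (x - algebraMap K F c) := hP c
    have h2 : 0 < (P c).ord (x - algebraMap K F c') := by rw [h]; exact hP c'
    have h3 := ord_add_of_le (P c) (n := 1) (f := x - algebraMap K F c')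
      (g := -(x - algebraMap K F c)) (Or.inr h2) (Or.inr (by rw [ord_neg]; exact h1))
    have h4 : x - algebraMap K F c' + -(x - algebraMap K F c) = algebraMap K F (c - c') := by
      rw [map_sub]
      ring
    rw [h4] at h3
    rcases h3 with h3 | h3
    · have : c - c' = 0 := by
        have hinj' : Function.Injective (algebraMap K F) := (algebraMap K F).injective
        exact hinj' (by rw [h3, map_zero])
      exact hne (sub_eq_zero.mp this)
    · rw [ord_algebraMap] at h3
      omega
  intro L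
  exact ⟨fun i => P (Infinite.natEmbedding K i), fun i j h =>
    Fin.ext ((Infinite.natEmbedding K).injective (hinj h))⟩

end Indep

section Minor

variable (K : Type*) [Field K]

/-- **A2 (MINOR).** -/
theorem minorStatement : MinorStatement K := by
  classical
  intro σ c _ κ B hrank
  have : Fintype c := Fintype.ofFinite c
  -- extract `κ` independent rows
  obtain ⟨ι, a, ha, hsp, hli⟩ := exists_linearIndependent' K B
  have hfin : Module.finrank K (Submodule.span K (Set.range (B ∘ a))) = κ := by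
    rw [hsp, hrank]
  have : Finite ι := hli.finite
  let _ : Fintype ι := Fintype.ofFinite ι
  have hcard : Fintype.card ι = κ := by
    rw [← hfin, finrank_span_eq_card hli]
  let eqv : Fin κ ≃ ι := (Fintype.equivFinOfCardEq hcard).symm
  have hli' : LinearIndependent K (fun i : Fin κ => B (a (eqv i))) :=
    hli.comp eqv eqv.injective
  obtain ⟨e, he⟩ := exists_det_submatrix_ne_zero
    (Matrix.of fun i : Fin κ => B (a (eqv i))) hli'
  intro h0
  apply he
  have := congrFun h0 (fun i => a (eqv i), fun j => e j)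
  exact this

end Minor

section Plucker

variable (K : Type*) [Field K] [CharZero K]

/-- **A10 (PLUCKER / LAPLACE)**, frozen form. -/
theorem pluckerStepStatement (hK : ∀ a : K, IsIntegral ℚ a) : PluckerStepStatement K :=
  pluckerStep K hK

end Plucker

end Fermat.Agent.S17.H980

end
end
-- ===== PACK-END S17/H980/WallIndep.lean

-- ===== PACK-BEGIN S17/H290/GaussDefs.lean
section



/-!
# S17 / tower H — sub-project GAUSS (lead helper290): definitions + FROZEN leaf statements

Target: `HContract.GAUSSStatement E` (`|κ(P) − (K₀ . P)| ≤ C`, `deg K₀ = 2g − 2`,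
`κ(P) = h(pt P ∧ tn P) − 2 h(pt P)`), for the ONE embedding `E` of the wall
(`S17/H710/Wall/Defs.lean`), `K` algebraically closed and algebraic over `ℚ`.

Sorry-free (definitions only).  All `def … : Prop` are FROZEN leaf statements; the assembly
`GaussAsm.gauss_of_leaves` takes them as hypotheses.

* `ExactZero E e G Z`        : `Z` is the exact common zero divisor of the sections
                               `aeval E.x (G p)` of `O(e m ∞)`;
* `TangentFormsStatement E`  : (GG-1) forms `G_{jk}` of some degree `e ≥ 3` with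
                               `G(pt P) = c_P · (pt P ∧ tn P)`, `c_P ≠ 0`, off their exact common zero
                               divisor `Z`, and `deg Z = (e − 2) m − (2g − 2)`
                               [`ρ (x_j ∂x_k − x_k ∂x_j) = G_{jk}(x)`, local expansion, KW bridge];
* `WeilStatement E`          : (GG-2) Weil's height machine for a FIXED family of forms:
                               `h(G(pt P)) = e h(pt P) − (Z . P) + O(1)` off `Z`;
* `AvoidStatement E`         : a hyperplane section avoiding a given finite set of places;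
* `ProjNormalStatement E`    : projective normality: `L(e m ∞)` = values of forms of degree `e`;
* `CanonicalStatement K F`   : every nonzero Kähler differential has a divisor, of degree `2g − 2`
                               (= `Lib/KW` `hasCanonicalDivisor` + `degree_canonical`).

Assembly: `GaussAsm.gauss_of_leaves` (TangentForms + Weil + Avoid + E3 ⟹ GAUSS);
`TangentForms` itself is assembled by helper290 from `ProjNormal`, `Canonical`, `Wall.PtStatement`
and the local expansion (`ExpHom.lean`, `GaussLocal.lean`).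
-/

set_option autoImplicit false

noncomputable section

namespace Fermat.Agent.S17.H290

open AlgebraicCurve MvPolynomial
open Fermat.Agent.Lib.RR Fermat.Agent.S17.HWall Fermat.Agent.S17.HContract Fermat.Agent.S17.Wall

variable {K F : Type*} [Field K] [CharZero K] [Field F] [Algebra K F] [FF1 K F]

/-- `Z` is the exact common zero divisor of the sections `aeval E.x (G p)` of `O(e m ∞)`:
every nonzero section vanishes on `Z`, and at every place some section vanishes exactly to the
order `Z P`. -/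
def ExactZero (E : EmbData K F) (e : ℕ) {ι : Type*} (G : ι → MvPolynomial (Fin (E.r + 1)) K)
    (Z : Divisor K F) : Prop :=
  (∀ p, aeval E.x (G p) ≠ 0 → Z ≤ zdiv E e (G p)) ∧
  ∀ P : Place K F, ∃ p, aeval E.x (G p) ≠ 0 ∧ zdiv E e (G p) P = Z P

/-- **GG-1 (TANGENT FORMS).**  There are forms `G_p`, `p` a pair of indices, of one degree
`e ≥ 3`, with exact common zero divisor `Z ≥ 0` of degree `(e − 2) m − (2g − 2)`, such that at
every place `P ∉ Z` the vector `(G_p (pt P))_p` is a nonzero multiple of the Plücker vector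
`pt P ∧ tn P` of the tangent line.
(`G_{jk}(x) = ρ · (x_j ∂x_k − x_k ∂x_j)` for a derivation `∂ ≠ 0` of `F / K` and a suitable
`ρ ∈ Fˣ`; `Z = (e − 2) m ∞ − div(∂-differential) + div ρ`.) -/
def TangentFormsStatement (E : EmbData K F) : Prop :=
  ∃ (e : ℕ) (G : Fin (E.r + 1) × Fin (E.r + 1) → MvPolynomial (Fin (E.r + 1)) K)
    (Z : Divisor K F),
    3 ≤ e ∧ (∀ p, (G p).IsHomogeneous e) ∧ 0 ≤ Z ∧ ExactZero E e G Z ∧
    Divisor.degree Z = ((e : ℤ) - 2) * E.m - (2 * (genusR K F : ℤ) - 2) ∧
    ∀ P : Place K F, Z P = 0 →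
      ∃ c : K, c ≠ 0 ∧ ∀ p, eval (E.pt P) (G p) = c * wedge (E.pt P) (E.tn P) p

/-- **GG-2 (WEIL'S HEIGHT MACHINE for a fixed family).**  For a finite family `G` of forms of
degree `e` with exact common zero divisor `Z ≥ 0`:
`| h(G(pt P)) − e h(pt P) + (Z . P) | ≤ C` for all places `P ∉ Z`. -/
def WeilStatement (E : EmbData K F) : Prop :=
  ∀ (ι : Type) [Fintype ι] (e : ℕ) (G : ι → MvPolynomial (Fin (E.r + 1)) K) (Z : Divisor K F),
    (∀ p, (G p).IsHomogeneous e) → 0 ≤ Z → ExactZero E e G Z →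
    ∃ C : ℝ, ∀ P : Place K F, Z P = 0 →
      |ht (fun p => eval (E.pt P) (G p)) - (e : ℝ) * ht (E.pt P) + pairPt E Z P| ≤ C

/-- **AVOID.**  Some hyperplane section avoids a given finite set of places. -/
def AvoidStatement (E : EmbData K F) : Prop :=
  ∀ S : Finset (Place K F), ∃ a : Fin (E.r + 1) → K, a ≠ 0 ∧ ∀ P ∈ S, E.Z a P = 0

/-- **PN (projective normality).**  Every element of `L(e m ∞)` is the value at `E.x` of a form
of degree `e` (`L(m∞)^e = L(e m ∞)`, `Lib/RR` `L_mul_L`, `m ≥ 2g + 1`). -/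
def ProjNormalStatement (E : EmbData K F) : Prop :=
  ∀ (e : ℕ) (f : F), f ∈ riemannRochSpace ((e * E.m) • prim E.vinf) →
    ∃ G : MvPolynomial (Fin (E.r + 1)) K, G.IsHomogeneous e ∧ aeval E.x G = f

open KaehlerDifferential in
/-- **CAN (canonical divisors; = KW bridge).**  Every nonzero Kähler differential has a divisor,
and its degree is `2g − 2`. -/
def CanonicalStatement (K F : Type*) [Field K] [Field F] [Algebra K F] [FF1 K F] : Prop :=
  ∀ ω : Ω[F⁄K], ω ≠ 0 → ∃ W : Divisor K F,
    (∀ v : Place K F, W v = v.ordDifferential ω) ∧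
    Divisor.degree W = 2 * (genusR K F : ℤ) - 2

end Fermat.Agent.S17.H290

end
end
-- ===== PACK-END S17/H290/GaussDefs.lean

-- ===== PACK-BEGIN S17/H290/GaussAsm.lean
section



/-!
# S17 / tower H — sub-project GAUSS (lead helper290): the assembly

`gauss_of_leaves : TangentFormsStatement E → WeilStatement E → AvoidStatement E →
  E3Statement E E → GAUSSStatement E`   (sorry-free).

`K₀ := (e − 2) Z_{a₀} − Z` for a hyperplane section `Z_{a₀}` avoiding `Z`:
`κ(P) = h(G(pt P)) − 2 h(P) = (e − 2) h(P) − (Z . P) + O(1) = (K₀ . P) + O(1)`.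
-/

set_option autoImplicit false

noncomputable section

namespace Fermat.Agent.S17.H290

open AlgebraicCurve MvPolynomial
open Fermat.Agent.Lib.RR Fermat.Agent.S17.HWall Fermat.Agent.S17.HContract Fermat.Agent.S17.Wall
open Fermat.Agent.S17.H380

variable {K F : Type*} [Field K] [CharZero K] [Field F] [Algebra K F] [FF1 K F]

theorem pairPt_sub (E : EmbData K F) (D D' : Divisor K F) (P : Place K F) :
    pairPt E (D - D') P = pairPt E D P - pairPt E D' P := by
  unfold pairPt
  rw [Finsupp.sum_sub_index]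
  intro A n n'
  push_cast
  ring

theorem pairPt_zsmul (E : EmbData K F) (c : ℤ) (D : Divisor K F) (P : Place K F) :
    pairPt E (c • D) P = (c : ℝ) * pairPt E D P := by
  unfold pairPt
  rw [Finsupp.sum_smul_index (by intro i; simp), Finsupp.mul_sum]
  refine Finsupp.sum_congr fun A _ => ?_
  push_cast [smul_eq_mul]
  ring

theorem isIntegral_of_isAlgebraic [Algebra.IsAlgebraic ℚ K] (z : K) : IsIntegral ℚ z :=
  (Algebra.IsAlgebraic.isAlgebraic z).isIntegral

/-- **GAUSS from its leaves.** -/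
theorem gauss_of_leaves [Algebra.IsAlgebraic ℚ K] (E : EmbData K F)
    (hT : TangentFormsStatement E) (hW : WeilStatement E) (hA : AvoidStatement E)
    (hE3 : E3Statement E E) : GAUSSStatement E := by
  classical
  obtain ⟨e, G, Z, he, hG, hZ0, hex, hdeg, htan⟩ := hT
  obtain ⟨a₀, ha₀, hav⟩ := hA Z.support
  obtain ⟨C₁, hC₁⟩ := hW _ e G Z hG hZ0 hex
  obtain ⟨C₂, hC₂⟩ := hE3
  have he2 : (1 : ℤ) ≤ (e : ℤ) - 2 := by omega
  refine ⟨((e : ℤ) - 2) • E.Z a₀ - Z, C₁ + ((e : ℝ) - 2) * (C₂ + |ht a₀|), ?_, ?_⟩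
  · rw [map_sub, map_zsmul, E.degree_Z ha₀, hdeg, smul_eq_mul]
    ring
  · intro P hP
    rw [Finsupp.sub_apply, Finsupp.smul_apply, smul_eq_mul] at hP
    have hZP : Z P = 0 := by
      by_contra h
      have hmem : P ∈ Z.support := Finsupp.mem_support_iff.mpr h
      rw [hav P hmem, mul_zero, zero_sub, neg_eq_zero] at hP
      exact h hP
    have hZa : E.Z a₀ P = 0 := by
      rw [hZP, sub_zero] at hP
      rcases mul_eq_zero.mp hP with h | h
      · omega
      · exact h
    have hdot : dot a₀ (E.pt P) ≠ 0 := by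
      intro h0
      have := (E.pt_spec P a₀ ha₀).mp h0
      unfold EmbData.Z at hZa
      omega
    have h3 := hC₂ a₀ P ha₀ hdot
    have h1 := hC₁ P hZP
    obtain ⟨c, hc, hGc⟩ := htan P hZP
    have hht : ht (fun p => eval (E.pt P) (G p)) = ht (wedge (E.pt P) (E.tn P)) := by
      have e1 : (fun p => eval (E.pt P) (G p)) = c • wedge (E.pt P) (E.tn P) := by
        funext p
        rw [hGc p, Pi.smul_apply, smul_eq_mul]
      rw [e1]
      exact absLogHeight_smul _ (fun i => isIntegral_of_isAlgebraic _) hc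
        (isIntegral_of_isAlgebraic c)
    rw [hht] at h1
    rw [pairPt_sub, pairPt_zsmul]
    unfold kap
    have he' : (0 : ℝ) ≤ (e : ℝ) - 2 := by
      have : (3 : ℝ) ≤ e := by exact_mod_cast he
      linarith
    have key : ht (wedge (E.pt P) (E.tn P)) - 2 * ht (E.pt P) -
        ((((e : ℤ) - 2 : ℤ) : ℝ) * pairPt E (E.Z a₀) P - pairPt E Z P) =
        (ht (wedge (E.pt P) (E.tn P)) - (e : ℝ) * ht (E.pt P) + pairPt E Z P) -
          ((e : ℝ) - 2) * (pairPt E (E.Z a₀) P - ht a₀ - ht (E.pt P)) -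
          ((e : ℝ) - 2) * ht a₀ := by
      push_cast
      ring
    rw [key]
    have b1 := abs_le.mp h1
    have b3 := abs_le.mp h3
    have b4 := abs_le.mp (le_refl |ht a₀|)
    have m3l : -(((e : ℝ) - 2) * C₂) ≤
        ((e : ℝ) - 2) * (pairPt E (E.Z a₀) P - ht a₀ - ht (E.pt P)) := by
      have := mul_le_mul_of_nonneg_left b3.1 he'
      linarith
    have m3u : ((e : ℝ) - 2) * (pairPt E (E.Z a₀) P - ht a₀ - ht (E.pt P)) ≤
        ((e : ℝ) - 2) * C₂ := mul_le_mul_of_nonneg_left b3.2 he'
    have m4l : -(((e : ℝ) - 2) * |ht a₀|) ≤ ((e : ℝ) - 2) * ht a₀ := by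
      have := mul_le_mul_of_nonneg_left b4.1 he'
      linarith
    have m4u : ((e : ℝ) - 2) * ht a₀ ≤ ((e : ℝ) - 2) * |ht a₀| :=
      mul_le_mul_of_nonneg_left b4.2 he'
    rw [abs_le]
    constructor <;> nlinarith [b1.1, b1.2]

end Fermat.Agent.S17.H290

end
end
-- ===== PACK-END S17/H290/GaussAsm.lean

-- ===== PACK-BEGIN S17/H380/E3OfL1.lean
section







set_option linter.unusedSectionVars false
set_option linter.style.haveILetI false
set_option autoImplicit false

noncomputable section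

open AlgebraicCurve

namespace Fermat.Agent.S17.H380

open Fermat.Agent.Lib.RR Fermat.Agent.S17.HWall Fermat.Agent.S17.HContract
open Fermat.Agent.S17.H830

section Geometry

variable {K F : Type*} [Field K] [Field F] [Algebra K F] [FF1 K F]

/-- The representative `pt A` of a point of the embedded curve is nonzero (base point freeness
of `|m∞|`). -/
theorem pt_ne_zero (E : EmbData K F) (A : Place K F) : E.pt A ≠ 0 := by
  have hdeg : Divisor.degree (E.m • prim E.vinf : Divisor K F) = E.m := by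
    rw [map_nsmul]
    unfold prim
    rw [Divisor.degree_single, FF1.deg_eq_one]
    simp
  have hE : 2 * (genusFF K F : ℤ) ≤ Divisor.degree (E.m • prim E.vinf : Divisor K F) := by
    rw [hdeg, genusFF_eq_genusR]
    have := E.hm
    omega
  obtain ⟨f, hf, hf0, hord⟩ := H439.exists_mem_L_ord_eq hE A
  rw [← E.x_span] at hf
  obtain ⟨b, hb⟩ := (Submodule.mem_span_range_iff_exists_fun K).mp hf
  have hlin : lin E.x b = f := hb
  have hb0 : b ≠ 0 := by
    rintro rfl
    apply hf0
    rw [← hlin]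
    simp [lin]
  have hZ : E.Z b A = 0 := by
    rw [E.Z_apply hb0, hlin, hord]
    ring
  intro hpt
  have h1 := (E.pt_spec A b hb0).mp (by rw [hpt]; simp [dot])
  have h2 : E.Z b A = hypDiv E.vinf E.m E.x b A := rfl
  rw [← h2, hZ] at h1
  exact lt_irrefl _ h1

omit [Algebra K F] in
/-- If a linear form vanishes at `y ≠ 0` but not at `z`, then `y ∧ z ≠ 0`. -/
theorem wedge_ne_zero_of_dot {n : ℕ} {y z a : Fin n → K} (hy : y ≠ 0) (hay : dot a y = 0)
    (haz : dot a z ≠ 0) : wedge y z ≠ 0 := by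
  intro hw
  obtain ⟨j₀, hj₀⟩ := Function.ne_iff.mp hy
  have hz : ∀ i, z i = (z j₀ / y j₀) * y i := by
    intro i
    have h := congrFun hw (j₀, i)
    simp only [wedge, Pi.zero_apply] at h
    have hj : y j₀ ≠ 0 := hj₀
    rw [div_mul_eq_mul_div, eq_div_iff hj]
    linear_combination h
  apply haz
  have : dot a z = (z j₀ / y j₀) * dot a y := by
    simp only [dot, dotProduct, Finset.mul_sum]
    refine Finset.sum_congr rfl fun i _ => ?_
    rw [hz i]
    ring
  rw [this, hay, mul_zero]

end Geometry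


section Tools

variable {A : Type*} [Field A] [CharZero A]

/-- Absolute heights are invariant under reindexing along a surjection (repetition of
entries). -/
theorem absLogHeight_comp_surjective {ι ι' : Type*} [Finite ι] [Finite ι'] (f : ι → ι')
    (hf : Function.Surjective f) (y : ι' → A) (hy : ∀ j, IsIntegral ℚ (y j)) :
    absLogHeight (y ∘ f) = absLogHeight y := by
  refine le_antisymm (absLogHeight_comp_le f y hy) ?_
  obtain ⟨g, hg⟩ := hf.hasRightInverse
  have h := absLogHeight_comp_le g (y ∘ f) (fun i => hy (f i))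
  have heq : (y ∘ f) ∘ g = y := by
    funext j
    simp [Function.comp, hg j]
  rw [heq] at h
  exact h

/-- The absolute height of a `1`-tuple vanishes. -/
theorem absLogHeight_const {ι : Type*} [Finite ι] (z : A) (hz : IsIntegral ℚ z) :
    absLogHeight (fun _ : ι => z) = 0 := by
  rcases isEmpty_or_nonempty ι with h | h
  · exact absLogHeight_empty _
  have h1 : absLogHeight (fun _ : Unit => z) = 0 := by
    haveI := tupleField_numberField (fun _ : Unit => z) (fun _ => hz)
    rw [absLogHeight_def _ (fun _ => hz)]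
    rw [Height.logHeight_eq_zero_of_subsingleton, mul_zero]
  have h2 := absLogHeight_comp_surjective (fun _ : ι => ()) (fun u => ⟨Classical.arbitrary ι, rfl⟩)
    (fun _ : Unit => z) (fun _ => hz)
  rw [← h1, ← h2]
  rfl

omit [CharZero A] in
theorem supn_pos (v : AbsoluteValue A ℝ) {ι : Type*} [Finite ι] {y : ι → A} (hy : y ≠ 0) :
    0 < supn v y := by
  obtain ⟨i₀, hi₀⟩ := Function.ne_iff.mp hy
  exact lt_of_lt_of_le (v.pos hi₀) (Finite.le_ciSup_of_le i₀ le_rfl)

omit [CharZero A] in
theorem supn_comp_surjective (v : AbsoluteValue A ℝ) {ι ι' : Type*} (f : ι → ι')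
    (hf : Function.Surjective f) (y : ι' → A) : supn v (y ∘ f) = supn v y := by
  unfold supn
  exact hf.iSup_comp (fun j => v (y j))

omit [CharZero A] in
theorem supn_const (v : AbsoluteValue A ℝ) {ι : Type*} [Nonempty ι] (z : A) :
    supn v (fun _ : ι => z) = v z := by
  unfold supn
  exact ciSup_const

end Tools


section E3

variable {Ω : Type*} [Field Ω] [CharZero Ω] [IsAlgClosed Ω] [Algebra.IsAlgebraic ℚ Ω]
variable {F : Type*} [Field F] [Algebra Ω F] [FF1 Ω F]

theorem sum_identity_e3 {s : Type*} [Fintype s] (z Wd Pt : s → ℝ) (p d aa : ℝ) :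
    ((∑ A, (-z A) * Wd A) + (∑ A, z A * Pt A)) + (((∑ A, z A) - 1) * p + (1 * d + (-1) * aa))
      = (∑ A, z A * (Pt A + p - Wd A)) + (d - aa - p) := by
  simp only [mul_add, mul_sub, Finset.sum_add_distrib, Finset.sum_sub_distrib, ← Finset.sum_mul,
    neg_mul, Finset.sum_neg_distrib]
  ring

/-- **Local to global: (L1) ⟹ (E3)** for `E₁ = E₂ = E`, over `Ω = ℚ̄` with a system of
absolute values `S` (e.g. `H830.absSystemQbar`). -/
theorem e3_of_l1 (S : AbsSystem Ω) (E : EmbData Ω F) (h : L1Statement E) : E3Statement E E := by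
  classical
  obtain ⟨T, N, hT, hL1⟩ := h
  refine ⟨max N 0 + ∑ t ∈ T, (absLogHeight (![t, 1] : Fin 2 → Ω) +
    absLogHeight (![t⁻¹, 1] : Fin 2 → Ω)), fun a P ha hP => ?_⟩
  have hint : ∀ z : Ω, IsIntegral ℚ z := fun z => Algebra.IsIntegral.isIntegral z
  set Z := E.Z a with hZ
  have hZnn : 0 ≤ Z := E.Z_nonneg a
  have hptP : E.pt P ≠ 0 := by
    intro h0
    apply hP
    rw [h0]
    simp [dot]
  have hzero : ∀ A ∈ Z.support, dot a (E.pt A) = 0 := by
    intro A hA
    rw [Finsupp.mem_support_iff] at hA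
    have h1 : (0 : ℤ) ≤ Z A := hZnn A
    exact (E.pt_spec A a ha).mpr (lt_of_le_of_ne h1 (Ne.symm hA))
  have hwedge : ∀ A ∈ Z.support, wedge (E.pt A) (E.pt P) ≠ 0 := fun A hA =>
    wedge_ne_zero_of_dot (pt_ne_zero E A) (hzero A hA) hP
  -- the family of tuples, all indexed by `J`
  let J := Fin (E.r + 1) × Fin (E.r + 1)
  have hfst : Function.Surjective (Prod.fst : J → Fin (E.r + 1)) := Prod.fst_surjective
  let y : ((Z.support ⊕ Z.support) ⊕ (Unit ⊕ (Unit ⊕ Unit))) → J → Ω :=
    Sum.elim (Sum.elim (fun A => wedge (E.pt A.1) (E.pt P)) (fun A => E.pt A.1 ∘ Prod.fst))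
      (Sum.elim (fun _ => E.pt P ∘ Prod.fst)
        (Sum.elim (fun _ _ => dot a (E.pt P)) (fun _ => a ∘ Prod.fst)))
  let c : ((Z.support ⊕ Z.support) ⊕ (Unit ⊕ (Unit ⊕ Unit))) → ℝ :=
    Sum.elim (Sum.elim (fun A => -(Z A.1 : ℝ)) (fun A => (Z A.1 : ℝ)))
      (Sum.elim (fun _ => (∑ A : Z.support, (Z A.1 : ℝ)) - 1)
        (Sum.elim (fun _ => 1) (fun _ => -1)))
  have hcomp_ne : ∀ {w : Fin (E.r + 1) → Ω}, w ≠ 0 → w ∘ (Prod.fst : J → Fin (E.r + 1)) ≠ 0 := by
    intro w hw h0
    obtain ⟨i, hi⟩ := Function.ne_iff.mp hw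
    exact hi (congrFun h0 (i, i))
  have hy : ∀ k, y k ≠ 0 := by
    rintro ((A | A) | (_ | (_ | _)))
    · exact hwedge A.1 A.2
    · exact hcomp_ne (pt_ne_zero E A.1)
    · exact hcomp_ne hptP
    · intro h0
      exact hP (congrFun h0 (0, 0))
    · exact hcomp_ne ha
  -- local bound
  have hloc : ∀ v : AbsoluteValue Ω ℝ, IsGoodAbsV v →
      |∑ k, c k * Real.log (⨆ i, v (y k i))| ≤ bndV v T N := by
    intro v hv
    have hL := hL1 v hv a P ha hP
    have hexpr : ∑ k, c k * Real.log (⨆ i, v (y k i)) =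
        (E.Z a).sum (fun A n => (n : ℝ) * lam v (E.pt A) (E.pt P)) +
          Real.log (v (dot a (E.pt P)) / (supn v a * supn v (E.pt P))) := by
      have e1 : ∀ w : Fin (E.r + 1) → Ω,
          (⨆ i : J, v ((w ∘ Prod.fst) i)) = supn v w := fun w =>
        supn_comp_surjective v Prod.fst hfst w
      have e2 : (⨆ _i : J, v (dot a (E.pt P))) = v (dot a (E.pt P)) := ciSup_const
      simp only [Fintype.sum_sum_type, y, c, Sum.elim_inl, Sum.elim_inr, Finset.univ_unique,
        Finset.sum_singleton, e1, e2]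
      rw [sum_identity_e3 (fun A : Z.support => (Z A.1 : ℝ))
        (fun A => Real.log (⨆ i, v (wedge (E.pt A.1) (E.pt P) i)))
        (fun A => Real.log (supn v (E.pt A.1)))]
      congr 1
      · rw [Finsupp.sum, ← Finset.sum_coe_sort Z.support]
        refine Finset.sum_congr rfl fun A _ => ?_
        congr 1
        unfold lam
        have h1 := supn_pos v (hwedge A.1 A.2)
        have h2 := supn_pos v (pt_ne_zero E A.1)
        have h3 := supn_pos v hptP
        rw [Real.log_div h1.ne' (mul_pos h2 h3).ne', Real.log_mul h2.ne' h3.ne']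
        unfold supn
        ring
      · have h1 : v (dot a (E.pt P)) ≠ 0 := (v.pos hP).ne'
        have h2 := supn_pos v ha
        have h3 := supn_pos v hptP
        rw [Real.log_div h1 (mul_pos h2 h3).ne', Real.log_mul h2.ne' h3.ne']
        ring
    rw [hexpr]
    exact hL
  have key := abs_sum_absLogHeight_le S (ι := fun _ => J) y hy c T hT N hloc
  -- global expression
  have hglob : ∑ k, c k * absLogHeight (y k) =
      pairPt E (E.Z a) P - ht a - ht (E.pt P) := by
    have e1 : ∀ w : Fin (E.r + 1) → Ω,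
        absLogHeight (w ∘ (Prod.fst : J → Fin (E.r + 1))) = absLogHeight w := fun w =>
      absLogHeight_comp_surjective Prod.fst hfst w (fun i => hint _)
    have e2 : absLogHeight (fun _ : J => dot a (E.pt P)) = 0 :=
      absLogHeight_const _ (hint _)
    simp only [Fintype.sum_sum_type, y, c, Sum.elim_inl, Sum.elim_inr, Finset.univ_unique,
      Finset.sum_singleton, e1, e2]
    rw [sum_identity_e3 (fun A : Z.support => (Z A.1 : ℝ))
      (fun A => absLogHeight (wedge (E.pt A.1) (E.pt P)))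
      (fun A => absLogHeight (E.pt A.1))]
    unfold pairPt hD ht
    rw [Finsupp.sum, ← Finset.sum_coe_sort Z.support]
    ring
  rw [← hglob]
  exact key

end E3

end Fermat.Agent.S17.H380

end
end
-- ===== PACK-END S17/H380/E3OfL1.lean

-- ===== PACK-BEGIN S17/H449/ProjNormal.lean
section



/-!
# S17 / tower H — sub-project GAUSS, leaf PN (projective normality)  (helper449)

`projNormal : Big E → ProjNormalStatement E` (the frozen Prop of `S17/H290/GaussDefs.lean`,
verbatim, under the standing hypothesis `Big E : 4 g + 1 ≤ E.m` of the wall):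
every element of `L(e m ∞)` is the value at `E.x` of a form of degree `e`.

Route: induction on `e`; `e = 0` is `L(0) = K`, `e = 1` is `E.x_span`, and the step is
`L(e m ∞) * L(m ∞) = L((e + 1) m ∞)` (`Lib/RR/H259.exists_sum_mul_eq`, both degrees `≥ 4 g`).

Reusable by-products: `pn_exists_form_of_mem_span`, `pn_degree_nsmul_prim`.
-/

set_option autoImplicit false

noncomputable section

namespace Fermat.Agent.S17.H449

open AlgebraicCurve MvPolynomial
open Fermat.Agent.Lib.RR Fermat.Agent.S17.HWall Fermat.Agent.S17.HContract Fermat.Agent.S17.Wall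
open Fermat.Agent.S17.H290

variable {K F : Type*} [Field K] [CharZero K] [Field F] [Algebra K F] [FF1 K F]

omit [CharZero K] in
/-- `deg (n ∞) = n`. -/
theorem pn_degree_nsmul_prim (v : Place K F) (n : ℕ) :
    Divisor.degree (n • prim v) = (n : ℤ) := by
  rw [map_nsmul, degree_prim']
  simp

omit [CharZero K] in
/-- degree one: elements of the span of `E.x` are values of linear forms. -/
theorem pn_exists_form_of_mem_span (E : EmbData K F) {f : F}
    (hf : f ∈ Submodule.span K (Set.range E.x)) :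
    ∃ G : MvPolynomial (Fin (E.r + 1)) K, G.IsHomogeneous 1 ∧ aeval E.x G = f := by
  obtain ⟨a, rfl⟩ := (Submodule.mem_span_range_iff_exists_fun K).mp hf
  refine ⟨linForm a, linForm_isHomogeneous a, ?_⟩
  simp [linForm, Algebra.smul_def]

/-- **PN (projective normality)** under the standing hypothesis `Big E` of the wall. -/
theorem projNormal (E : EmbData K F) (hBig : Big E) : ProjNormalStatement E := by
  intro e
  induction e with
  | zero =>
    intro f hf
    rw [zero_mul, zero_smul, L_zero] at hf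
    obtain ⟨c, rfl⟩ := hf
    exact ⟨C c, isHomogeneous_C _ c, by simp⟩
  | succ e ih =>
    intro f hf
    rcases Nat.eq_zero_or_pos e with he | he
    · subst he
      rw [zero_add, one_mul, ← E.x_span] at hf
      exact pn_exists_form_of_mem_span E hf
    · have hg : (genusFF K F : ℤ) = (genusR K F : ℤ) := by rw [genusFF_eq_genusR]
      have hm : 4 * (genusR K F : ℤ) + 1 ≤ (E.m : ℤ) := by
        have := hBig
        unfold Big at this
        exact_mod_cast this
      have hA : 4 * (genusFF K F : ℤ) ≤ Divisor.degree ((e * E.m) • prim E.vinf) := by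
        rw [pn_degree_nsmul_prim, hg]
        have h1 : (E.m : ℤ) ≤ ((e * E.m : ℕ) : ℤ) := by
          exact_mod_cast Nat.le_mul_of_pos_left E.m he
        linarith
      have hB : 4 * (genusFF K F : ℤ) ≤ Divisor.degree (E.m • prim E.vinf) := by
        rw [pn_degree_nsmul_prim, hg]
        linarith
      have hsplit : ((e + 1) * E.m) • prim E.vinf
          = (e * E.m) • prim E.vinf + E.m • prim E.vinf := by
        rw [add_mul, one_mul, add_smul]
      rw [hsplit] at hf
      obtain ⟨n, a, b, ha, hb, rfl⟩ := H259.exists_sum_mul_eq hA hB hf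
      have hb' : ∀ i, ∃ G : MvPolynomial (Fin (E.r + 1)) K,
          G.IsHomogeneous 1 ∧ aeval E.x G = b i := fun i =>
        pn_exists_form_of_mem_span E (by rw [E.x_span]; exact hb i)
      choose Ga hGa hGa' using fun i => ih (a i) (ha i)
      choose Gb hGb hGb' using hb'
      refine ⟨∑ i, Ga i * Gb i, ?_, ?_⟩
      · exact IsHomogeneous.sum _ _ _ fun i _ => (hGa i).mul (hGb i)
      · rw [map_sum]
        exact Finset.sum_congr rfl fun i _ => by rw [map_mul, hGa' i, hGb' i]

end Fermat.Agent.S17.H449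

end
end
-- ===== PACK-END S17/H449/ProjNormal.lean

-- ===== PACK-BEGIN S17/H320/WHM.lean
section





/-!
# S17 / tower H — GAUSS / WHM (helper320): the Weil height machine for fixed divisors

`whm : MultislotStatement K → PtStatement E → WHMStatement E`.

For a FIXED finite family `f` generating `O(B)` (`ExactPole f B`) the height of the vector of
values of `f` at a place `P` outside the support of `B` is `(B . P) + O(1)`, where
`(B . P) = pairPt E B P = Σ_A B(A) hD(A, P)` is the distance pairing of the contract.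
No `(E3)`, no projective normality, no Riemann–Roch.

Steps:
1. `ht_ptD_le_of_exact` (comparison of generating families): if `v : κ → F` lies in `L(B)` and
   the subfamily `v ∘ j` generates `O(B)` then `ht (ptD B v P) ≤ ht ((ptD B v P) ∘ j) + C`
   uniformly in ALL places `P`.  [The point `ptD B v P` lies on the cone of the homogeneous
   relations of `v` (`onCone_ptD`); the coordinates `Y_{j i}` have no common zero on that cone,
   whose points are places (`H710.exists_place_of_onCone`); Nullstellensatz lower bound = wall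
   leaf A3 (`Wall.MultislotStatement`, one slot, degree one).]
2. Products of generating families generate the sum of the divisors (`ExactPole.mul`,
   `ExactPole.pi`), the point of a product family is the Segre product of the points (`ptD_pi`),
   heights add up (`ht_ptD_mul`, `ht_ptD_pi`).
3. Reference families: `E.x` generates `O(m ∞)` (`exactPole_x`), the secant forms through `A`
   generate `O(m ∞ - A)` (`exactPole_sec`), `ptD (m ∞) E.x P` is proportional to `E.pt P`
   (`ptD_x_prop`), and the point of the secant family at `P ≠ A` has height `ht (pt A ∧ pt P)`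
   (`ht_ptD_sec`).
4. `whm_core`: write `B = Σ A₁ - Σ A₂`; the families
   `f ⊗ (secant products of the A₁) ⊗ (monomials of degree #α₂)` and
   `(secant products of the A₂) ⊗ (monomials of degree #α₁)` generate the same `O(B')`;
   compare both with the joint family (step 1) and unfold `hD`.
-/

set_option autoImplicit false
set_option linter.unusedSectionVars false

noncomputable section

open AlgebraicCurve MvPolynomial

namespace Fermat.Agent.S17.H320

open Fermat.Agent.Lib.RR Fermat.Agent.S17.HWall Fermat.Agent.S17.HContract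
open Fermat.Agent.S17.H230 Fermat.Agent.S17.H710 Fermat.Agent.S17.Wall

variable {K F : Type*} [Field K] [CharZero K] [Field F] [Algebra K F] [FF1 K F]

/-! ## Step 1: comparison of generating families -/

section Cmp

theorem ExactPole.mem_L {ι : Type*} {f : ι → F} {B : Divisor K F} (h : ExactPole f B) (i : ι) :
    f i ∈ riemannRochSpace B :=
  mem_L_iff.mpr fun P => (h P).1 i

/-- The point `ptD B v P` satisfies the homogeneous relations of `v`. -/
theorem onCone_ptD {κ : Type*} (v : κ → F) (B : Divisor K F)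
    (hv : ∀ k, v k ∈ riemannRochSpace B) (P : Place K F) : OnCone v (ptD B v P) := by
  intro d R hR h0
  -- the normalised family, in the valuation ring
  have hreg : ∀ k, RegAt P (v k * unif P ^ (B P)) := fun k => by
    have := regAt_normAt (ordGE_of_mem_L hv P) k
    simpa using this
  let w : κ → P.toValuationSubring := fun k => ⟨v k * unif P ^ (B P), hreg k⟩
  have h1 : ptD B v P = fun k => valO P (w k) := by
    funext k
    rw [ptD_apply, valAt_of_mem P (hreg k)]
  rw [h1]
  have h2 : eval (fun k => valO P (w k)) R = valO P (aeval w R) := by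
    rw [← MvPolynomial.aeval_eq_eval]
    have := MvPolynomial.comp_aeval (R := K) (f := w) (valO P)
    have h3 := congrArg (fun φ : MvPolynomial κ K →ₐ[K] K => φ R) this
    simp only [AlgHom.comp_apply] at h3
    rw [h3]
  rw [h2]
  have h4 : aeval w R = 0 := by
    apply Subtype.ext
    have h5 : ((aeval w R : P.toValuationSubring) : F)
        = aeval (fun k => unif P ^ (B P) * v k) R := by
      have := MvPolynomial.map_aeval (R := K) w P.toValuationSubring.subtype R
      rw [ValuationSubring.subtype_apply] at this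
      rw [this, MvPolynomial.aeval_def]
      have hc : (P.toValuationSubring.subtype.comp (algebraMap K ↥P.toValuationSubring))
          = algebraMap K F := by
        ext c
        rfl
      have hw : (fun i => P.toValuationSubring.subtype (w i))
          = fun k => unif P ^ (B P) * v k := by
        funext k
        show v k * unif P ^ (B P) = _
        ring
      rw [hc, hw]
      rfl
    rw [h5, aeval_mul_of_isHomogeneous hR, h0, mul_zero]
    rfl
  rw [h4, map_zero]

/-- nonunits of the valuation ring of a place -/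
theorem mem_nonunits_place_iff (P : Place K F) (a : F) :
    a ∈ P.toValuationSubring.nonunits ↔ a = 0 ∨ 0 < P.ord a := by
  constructor
  · intro h
    have hmem : a ∈ P.toValuationSubring := ValuationSubring.nonunits_subset h
    have h2 : (⟨a, hmem⟩ : P.toValuationSubring) ∈ IsLocalRing.maximalIdeal P.toValuationSubring := by
      rw [IsLocalRing.mem_maximalIdeal]
      exact ValuationSubring.coe_mem_nonunits_iff.mp h
    exact (mem_maximalIdeal_iff P ⟨a, hmem⟩).mp h2
  · intro h
    have hmem : a ∈ P.toValuationSubring := by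
      rcases h with h | h
      · rw [h]; exact zero_mem _
      · exact mem_of_ord_nonneg P h.le
    have h2 : (⟨a, hmem⟩ : P.toValuationSubring) ∈ IsLocalRing.maximalIdeal P.toValuationSubring :=
      (mem_maximalIdeal_iff P ⟨a, hmem⟩).mpr h
    rw [IsLocalRing.mem_maximalIdeal] at h2
    exact ValuationSubring.coe_mem_nonunits_iff.mpr h2

/-- **Comparison of generating families.** -/
theorem ht_ptD_le_of_exact [IsAlgClosed K] [Algebra.IsAlgebraic ℚ K]
    (hA3 : MultislotStatement K)
    {κ ι : Type} [Fintype κ] [Fintype ι] (v : κ → F) (j : ι → κ) (B : Divisor K F)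
    (hv : ∀ k, v k ∈ riemannRochSpace B) (hex : ExactPole (fun i => v (j i)) B) :
    ∃ C : ℝ, ∀ P : Place K F, ht (ptD B v P) ≤ ht (fun i => ptD B v P (j i)) + C := by
  classical
  obtain ⟨t, htr, hfin⟩ := FF1.exists_finite (K := K) (F := F)
  let n := Fintype.card κ
  let e : κ ≃ Fin n := Fintype.equivFin κ
  let v' : Fin n → F := fun k => v (e.symm k)
  let rel : Set (MvPolynomial (Fin n) K) := {G | ∃ d, G.IsHomogeneous d ∧ aeval v' G = 0}
  let p : ι → MvPolynomial (Fin 1 × Fin n) K := fun i => X (0, e (j i))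
  have hrel : ∀ G ∈ rel, ∃ d : ℕ, G.IsHomogeneous d := fun G hG => by
    obtain ⟨d, hd, _⟩ := hG
    exact ⟨d, hd⟩
  have hp : ∀ i, MultiHom (p i) 1 := by
    intro i y c
    simp [p]
  have hnz : ∀ y : Fin 1 → Fin n → K, (∀ l, y l ≠ 0) →
      (∀ l, ∀ G ∈ rel, eval (y l) G = 0) →
      ∃ i, eval (fun q : Fin 1 × Fin n => y q.1 q.2) (p i) ≠ 0 := by
    intro y hy0 hyrel
    by_contra hcon
    simp only [not_exists, ne_eq, not_not] at hcon
    have hzero : ∀ i, y 0 (e (j i)) = 0 := fun i => by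
      have := hcon i
      simpa [p] using this
    obtain ⟨k₀, hk₀⟩ := Function.ne_iff.mp (hy0 0)
    have hcone : OnCone v' (y 0) := fun d G hG hG0 => hyrel 0 G ⟨d, hG, hG0⟩
    obtain ⟨hv0, P, hP⟩ := exists_place_of_onCone htr v' (y 0) hcone k₀ hk₀
    obtain ⟨i, hi0, hiord⟩ := (hex P).2
    have h1 := hP (e (j i))
    rw [hzero i, zero_div, map_zero, sub_zero] at h1
    rw [mem_nonunits_place_iff] at h1
    have hvi : v' (e (j i)) = v (j i) := by simp [v']
    rw [hvi] at h1
    rcases h1 with h1 | h1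
    · rcases div_eq_zero_iff.mp h1 with h | h
      · exact hi0 h
      · exact hv0 h
    · rw [div_eq_mul_inv, P.ord_mul hi0 (inv_ne_zero hv0), P.ord_inv, hiord] at h1
      have h2 := (mem_L_iff.mp (hv (e.symm k₀)) P).resolve_left hv0
      have h3 : v' k₀ = v (e.symm k₀) := rfl
      rw [h3] at h1
      omega
  obtain ⟨C, hC⟩ := hA3 n 1 ι rel hrel p 1 hp hnz
  refine ⟨C, fun P => ?_⟩
  have hne : ptD B v P ≠ 0 := by
    obtain ⟨i, hi0, hiord⟩ := (hex P).2
    exact ptD_ne_zero ⟨j i, hi0, hiord⟩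
  have hne' : (fun k : Fin n => ptD B v P (e.symm k)) ≠ 0 := by
    intro h0
    apply hne
    funext k
    have := congrFun h0 (e k)
    simpa using this
  have hcone' : OnCone v' (fun k : Fin n => ptD B v P (e.symm k)) :=
    onCone_ptD v' B (fun k => hv (e.symm k)) P
  have h := hC (fun _ => fun k : Fin n => ptD B v P (e.symm k)) (fun _ => hne')
    (fun _ G hG => by
      obtain ⟨d, hd, hd0⟩ := hG
      exact hcone' d G hd hd0)
  simp only [Nat.cast_one, one_mul, Finset.univ_unique, Finset.sum_singleton] at h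
  have h5 : ht (fun k : Fin n => ptD B v P (e.symm k)) = ht (ptD B v P) :=
    H380.absLogHeight_comp_equiv e.symm (ptD B v P)
  have h6 : (fun i => eval (fun q : Fin 1 × Fin n => ptD B v P (e.symm q.2)) (p i))
      = fun i => ptD B v P (j i) := by
    funext i
    simp [p]
  rw [h5, h6] at h
  exact h

end Cmp

/-! ## Step 2: products of generating families -/

section Fam

theorem isIntegral_all [Algebra.IsAlgebraic ℚ K] (c : K) : IsIntegral ℚ c :=
  (Algebra.IsAlgebraic.isAlgebraic c).isIntegral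

theorem ord_prod_ne_zero (P : Place K F) {α : Type*} (s : Finset α) (f : α → F)
    (h : ∀ a ∈ s, f a ≠ 0) : P.ord (∏ a ∈ s, f a) = ∑ a ∈ s, P.ord (f a) := by
  classical
  induction s using Finset.induction_on with
  | empty => simp [P.ord_one]
  | insert a s ha ih =>
    have h1 : ∀ b ∈ s, f b ≠ 0 := fun b hb => h b (Finset.mem_insert_of_mem hb)
    have h2 : ∏ b ∈ s, f b ≠ 0 := Finset.prod_ne_zero_iff.mpr h1
    rw [Finset.prod_insert ha, Finset.sum_insert ha,
      P.ord_mul (h a (Finset.mem_insert_self a s)) h2, ih h1]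

theorem ExactPole.mul {ι ι' : Type*} {f : ι → F} {g : ι' → F} {B B' : Divisor K F}
    (hf : ExactPole f B) (hg : ExactPole g B') :
    ExactPole (fun p : ι × ι' => f p.1 * g p.2) (B + B') := by
  intro P
  refine ⟨fun p => ?_, ?_⟩
  · rcases eq_or_ne (f p.1) 0 with h1 | h1
    · left; simp [h1]
    rcases eq_or_ne (g p.2) 0 with h2 | h2
    · left; simp [h2]
    right
    have h3 := ((hf P).1 p.1).resolve_left h1
    have h4 := ((hg P).1 p.2).resolve_left h2
    rw [P.ord_mul h1 h2, Finsupp.add_apply]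
    omega
  · obtain ⟨i, hi0, hi⟩ := (hf P).2
    obtain ⟨j, hj0, hj⟩ := (hg P).2
    refine ⟨(i, j), mul_ne_zero hi0 hj0, ?_⟩
    show P.ord (f i * g j) = _
    rw [P.ord_mul hi0 hj0, Finsupp.add_apply]
    omega

theorem ExactPole.pi {α : Type*} [Fintype α] {ι : α → Type*} {f : (a : α) → ι a → F}
    {D : α → Divisor K F} (h : ∀ a, ExactPole (f a) (D a)) :
    ExactPole (fun s : (a : α) → ι a => ∏ a, f a (s a)) (∑ a, D a) := by
  classical
  intro P
  have hD : (∑ a, D a) P = ∑ a, D a P := by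
    rw [Finsupp.finsetSum_apply]
  refine ⟨fun s => ?_, ?_⟩
  · by_cases h0 : ∀ a, f a (s a) ≠ 0
    · right
      rw [ord_prod_ne_zero P _ _ (fun a _ => h0 a), hD, ← Finset.sum_neg_distrib]
      exact Finset.sum_le_sum fun a _ => ((h a P).1 (s a)).resolve_left (h0 a)
    · left
      simp only [not_forall, not_not] at h0
      obtain ⟨a, ha⟩ := h0
      exact Finset.prod_eq_zero (Finset.mem_univ a) ha
  · choose s hs0 hs using fun a => (h a P).2
    refine ⟨s, Finset.prod_ne_zero_iff.mpr fun a _ => hs0 a, ?_⟩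
    show P.ord (∏ a, f a (s a)) = _
    rw [ord_prod_ne_zero P _ _ (fun a _ => hs0 a), hD, ← Finset.sum_neg_distrib]
    exact Finset.sum_congr rfl fun a _ => hs a

/-- the point of a product family is the Segre product of the points -/
theorem ptD_pi {α : Type*} [Fintype α] {ι : α → Type*} {f : (a : α) → ι a → F}
    {D : α → Divisor K F} (h : ∀ a i, f a i ∈ riemannRochSpace (D a)) (P : Place K F)
    (s : (a : α) → ι a) :
    ptD (∑ a, D a) (fun s : (a : α) → ι a => ∏ a, f a (s a)) P s
      = ∏ a, ptD (D a) (f a) P (s a) := by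
  classical
  have hD : (∑ a, D a) P = ∑ a, D a P := by
    rw [Finsupp.finsetSum_apply]
  have hreg : ∀ a, RegAt P (f a (s a) * unif P ^ (D a P)) := fun a => by
    have := regAt_normAt (ordGE_of_mem_L (h a) P) (s a)
    simpa using this
  rw [ptD_apply]
  simp only [ptD_apply]
  rw [← valAt_prod Finset.univ (fun a _ => hreg a)]
  congr 1
  rw [Finset.prod_mul_distrib, hD]
  congr 1
  have hu := unif_ne_zero P
  induction (Finset.univ : Finset α) using Finset.induction_on with
  | empty => simp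
  | insert a t ha ih =>
    rw [Finset.sum_insert ha, Finset.prod_insert ha, zpow_add₀ hu, ih]

theorem ptD_mul' {ι ι' : Type*} {f : ι → F} {g : ι' → F} {B B' : Divisor K F}
    (hf : ∀ i, f i ∈ riemannRochSpace B) (hg : ∀ j, g j ∈ riemannRochSpace B') (P : Place K F) :
    ptD (B + B') (fun p : ι × ι' => f p.1 * g p.2) P
      = fun p : ι × ι' => ptD B f P p.1 * ptD B' g P p.2 := by
  funext p
  exact ptD_mul hf hg P p.1 p.2

variable [Algebra.IsAlgebraic ℚ K]

theorem ht_ptD_mul {ι ι' : Type*} [Finite ι] [Finite ι'] {f : ι → F} {g : ι' → F}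
    {B B' : Divisor K F} (hf : ExactPole f B) (hg : ExactPole g B') (P : Place K F) :
    ht (ptD (B + B') (fun p : ι × ι' => f p.1 * g p.2) P)
      = ht (ptD B f P) + ht (ptD B' g P) := by
  rw [ptD_mul' hf.mem_L hg.mem_L]
  exact H380.absLogHeight_fun_mul_eq (fun _ => isIntegral_all _) (fun _ => isIntegral_all _)
    (ptD_ne_zero (hf P).2) (ptD_ne_zero (hg P).2)

theorem ht_ptD_pi {α : Type*} [Fintype α] {ι : α → Type*} [∀ a, Finite (ι a)]
    {f : (a : α) → ι a → F} {D : α → Divisor K F} (h : ∀ a, ExactPole (f a) (D a))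
    (P : Place K F) :
    ht (ptD (∑ a, D a) (fun s : (a : α) → ι a => ∏ a, f a (s a)) P)
      = ∑ a, ht (ptD (D a) (f a) P) := by
  have h1 : ptD (∑ a, D a) (fun s : (a : α) → ι a => ∏ a, f a (s a)) P
      = fun s : (a : α) → ι a => ∏ a, ptD (D a) (f a) P (s a) := by
    funext s
    exact ptD_pi (fun a => (h a).mem_L) P s
  rw [h1]
  exact H380.absLogHeight_fun_prod_eq (fun _ _ => isIntegral_all _)
    (fun a => ptD_ne_zero (h a P).2)

end Fam

/-! ## Step 3: the reference families -/

section Loc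

/-- coefficient vector of the secant form `z ↦ (y ∧ z)_p` -/
def secVec {n : ℕ} (y : Fin n → K) (p : Fin n × Fin n) : Fin n → K :=
  Pi.single p.2 (y p.1) - Pi.single p.1 (y p.2)

theorem dot_secVec {n : ℕ} (y z : Fin n → K) (p : Fin n × Fin n) :
    dot (secVec y p) z = wedge y z p := by
  simp [secVec, wedge, dot, sub_dotProduct, single_dotProduct]

/-- the secant forms through `A`, as functions -/
def secFam (E : EmbData K F) (A : Place K F) : Fin (E.r + 1) × Fin (E.r + 1) → F :=
  fun p => lin E.x (secVec (E.pt A) p)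

theorem lin_single (E : EmbData K F) (i : Fin (E.r + 1)) :
    lin E.x (Pi.single i (1 : K)) = E.x i := by
  classical
  unfold lin
  rw [Finset.sum_eq_single i]
  · simp
  · intro j _ hj
    simp [hj]
  · intro h
    exact absurd (Finset.mem_univ i) h

theorem x_mem_L (E : EmbData K F) (i : Fin (E.r + 1)) :
    E.x i ∈ riemannRochSpace (E.m • prim E.vinf) := by
  rw [← E.x_span]
  exact Submodule.subset_span ⟨i, rfl⟩

theorem Z_eq_zero_of_dot_ne (E : EmbData K F) {a : Fin (E.r + 1) → K} {P : Place K F}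
    (h : dot a (E.pt P) ≠ 0) : a ≠ 0 ∧ E.Z a P = 0 := by
  have ha : a ≠ 0 := by
    rintro rfl
    exact h (by simp [dot])
  refine ⟨ha, ?_⟩
  have h1 := (E.pt_spec P a ha).not.mp h
  have h2 : 0 ≤ E.Z a P := by
    have := E.Z_nonneg a
    rw [Finsupp.le_def] at this
    simpa using this P
  have h3 : E.Z a P = hypDiv E.vinf E.m E.x a P := rfl
  omega

theorem exactPole_x (E : EmbData K F) (hpt : ∀ P : Place K F, E.pt P ≠ 0) :
    ExactPole E.x (E.m • prim E.vinf) := by
  classical
  intro P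
  refine ⟨fun i => (mem_L_iff.mp (x_mem_L E i)) P, ?_⟩
  obtain ⟨i, hi⟩ := Function.ne_iff.mp (hpt P)
  have hdot : dot (Pi.single i (1 : K)) (E.pt P) ≠ 0 := by
    simpa [dot, single_dotProduct] using hi
  obtain ⟨ha, hZ⟩ := Z_eq_zero_of_dot_ne E hdot
  rw [E.Z_apply ha P, lin_single] at hZ
  have hx0 : E.x i ≠ 0 := by
    have := E.lin_ne_zero ha
    rwa [lin_single] at this
  exact ⟨i, hx0, by omega⟩

theorem exactPole_sec (E : EmbData K F) (hPt : PtStatement E) (A : Place K F) :
    ExactPole (secFam E A) (E.m • prim E.vinf - prim A) := by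
  classical
  intro P
  have hsub : (E.m • prim E.vinf - prim A : Divisor K F) P
      = (E.m • prim E.vinf : Divisor K F) P - (if P = A then 1 else 0) := by
    rw [Finsupp.sub_apply]
    congr 1
    by_cases h : P = A
    · subst h; simp [prim]
    · simp [prim, h]
  refine ⟨fun p => ?_, ?_⟩
  · by_cases ha : secVec (E.pt A) p = 0
    · left
      show lin E.x (secVec (E.pt A) p) = 0
      rw [ha]; simp [lin]
    · right
      have hZ := E.Z_apply ha P
      have hZ0 : 0 ≤ E.Z (secVec (E.pt A) p) P := by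
        have := E.Z_nonneg (secVec (E.pt A) p)
        rw [Finsupp.le_def] at this
        simpa using this P
      show -(E.m • prim E.vinf - prim A : Divisor K F) P ≤ P.ord (lin E.x (secVec (E.pt A) p))
      rw [hsub]
      by_cases hPA : P = A
      · subst hPA
        have h1 : dot (secVec (E.pt P) p) (E.pt P) = 0 := by
          rw [dot_secVec]; simp [wedge, mul_comm]
        have h2 : 0 < E.Z (secVec (E.pt P) p) P := (E.pt_spec P _ ha).mp h1
        simp only [if_true]
        omega
      · simp only [hPA, if_false]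
        omega
  · by_cases hPA : P = A
    · subst hPA
      obtain ⟨p, hp⟩ := Function.ne_iff.mp (hPt.2.2.2 P)
      have hp' : wedge (E.pt P) (E.tn P) p ≠ 0 := by simpa using hp
      have hdot : dot (secVec (E.pt P) p) (E.tn P) ≠ 0 := by rwa [dot_secVec]
      have ha : secVec (E.pt P) p ≠ 0 := by
        intro h0
        apply hdot
        rw [h0]; simp [dot]
      have h1 : dot (secVec (E.pt P) p) (E.pt P) = 0 := by
        rw [dot_secVec]; simp [wedge, mul_comm]
      have h2 : 0 < E.Z (secVec (E.pt P) p) P := (E.pt_spec P _ ha).mp h1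
      have h3 : ¬ 2 ≤ E.Z (secVec (E.pt P) p) P := fun h =>
        hdot ((E.tn_spec P _ ha).mpr h).2
      have hZ := E.Z_apply ha P
      refine ⟨p, E.lin_ne_zero ha, ?_⟩
      show P.ord (lin E.x (secVec (E.pt P) p)) = _
      rw [hsub]
      simp only [if_true]
      omega
    · obtain ⟨p, hp⟩ := Function.ne_iff.mp (hPt.2.2.1 A P (Ne.symm hPA))
      have hp' : wedge (E.pt A) (E.pt P) p ≠ 0 := by simpa using hp
      have hdot : dot (secVec (E.pt A) p) (E.pt P) ≠ 0 := by rwa [dot_secVec]
      obtain ⟨ha, hZ0⟩ := Z_eq_zero_of_dot_ne E hdot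
      have hZ := E.Z_apply ha P
      refine ⟨p, E.lin_ne_zero ha, ?_⟩
      show P.ord (lin E.x (secVec (E.pt A) p)) = _
      rw [hsub]
      simp only [hPA, if_false]
      omega

/-- two nonzero vectors with the same orthogonal linear forms are proportional -/
theorem exists_smul_of_same_ann {n : ℕ} (y z : Fin n → K) (hy : y ≠ 0) (hz : z ≠ 0)
    (h : ∀ a : Fin n → K, a ≠ 0 → (dot a y = 0 ↔ dot a z = 0)) :
    ∃ c : K, c ≠ 0 ∧ y = c • z := by
  classical
  obtain ⟨k, hk⟩ := Function.ne_iff.mp hz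
  have hk' : z k ≠ 0 := by simpa using hk
  have key : ∀ i, z k * y i = z i * y k := by
    intro i
    by_cases hik : i = k
    · subst hik; ring
    have ha : secVec z (k, i) ≠ 0 := by
      intro h0
      have := congrFun h0 i
      simp [secVec, hik] at this
      exact hk' this
    have h1 : dot (secVec z (k, i)) z = 0 := by
      rw [dot_secVec]; simp [wedge, mul_comm]
    have h2 := (h _ ha).mpr h1
    rw [dot_secVec] at h2
    simp only [wedge] at h2
    linear_combination h2
  have hyk : y k ≠ 0 := by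
    intro h0
    apply hy
    funext i
    have := key i
    rw [h0, mul_zero] at this
    rcases mul_eq_zero.mp this with h | h
    · exact absurd h hk'
    · simpa using h
  refine ⟨y k / z k, div_ne_zero hyk hk', ?_⟩
  funext i
  have := key i
  simp only [Pi.smul_apply, smul_eq_mul]
  field_simp
  linear_combination this

theorem ptD_x_prop (E : EmbData K F) (hpt : ∀ P : Place K F, E.pt P ≠ 0) (P : Place K F) :
    ∃ c : K, c ≠ 0 ∧ ptD (E.m • prim E.vinf) E.x P = c • E.pt P := by
  refine exists_smul_of_same_ann _ _ (ptD_ne_zero ((exactPole_x E hpt) P).2) (hpt P)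
    fun a ha => ?_
  have h1 := dot_ptD_eq_zero_iff (x_mem_L E) P a
  have hf : (∑ i, a i • E.x i) ∈ riemannRochSpace (E.m • prim E.vinf) :=
    Submodule.sum_mem _ fun i _ => Submodule.smul_mem _ _ (x_mem_L E i)
  have h2 := mem_L_sub_prim_iff hf P
  have h3 := E.pt_spec P a ha
  have h4 := E.Z_apply ha P
  have h5 : E.Z a P = hypDiv E.vinf E.m E.x a P := rfl
  have h6 : lin E.x a = ∑ i, a i • E.x i := rfl
  have h7 := E.lin_ne_zero ha
  show (∑ i, a i * ptD (E.m • prim E.vinf) E.x P i = 0) ↔ _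
  rw [h1, h2, h3, ← h5, h4, ← h6]
  constructor
  · rintro (h | h)
    · exact absurd h h7
    · omega
  · intro h
    right
    omega

theorem ptD_sec (E : EmbData K F) (A P : Place K F) (hPA : P ≠ A) :
    ptD (E.m • prim E.vinf - prim A) (secFam E A) P
      = wedge (E.pt A) (ptD (E.m • prim E.vinf) E.x P) := by
  classical
  funext p
  have hsub : (E.m • prim E.vinf - prim A : Divisor K F) P
      = (E.m • prim E.vinf : Divisor K F) P := by
    rw [Finsupp.sub_apply]
    simp [prim, hPA]
  rw [ptD_apply, hsub, ← dot_secVec]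
  have := dot_ptD (x_mem_L E) P (secVec (E.pt A) p)
  show _ = ∑ i, secVec (E.pt A) p i * ptD (E.m • prim E.vinf) E.x P i
  rw [this]
  rfl

variable [Algebra.IsAlgebraic ℚ K]

theorem ht_ptD_x (E : EmbData K F) (hpt : ∀ P : Place K F, E.pt P ≠ 0) (P : Place K F) :
    ht (ptD (E.m • prim E.vinf) E.x P) = ht (E.pt P) := by
  obtain ⟨c, hc, h⟩ := ptD_x_prop E hpt P
  rw [h]
  exact H380.absLogHeight_smul _ (fun _ => isIntegral_all _) hc (isIntegral_all _)

theorem ht_ptD_sec (E : EmbData K F) (hpt : ∀ P : Place K F, E.pt P ≠ 0) (A P : Place K F)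
    (hPA : P ≠ A) :
    ht (ptD (E.m • prim E.vinf - prim A) (secFam E A) P) = ht (wedge (E.pt A) (E.pt P)) := by
  obtain ⟨c, hc, h⟩ := ptD_x_prop E hpt P
  rw [ptD_sec E A P hPA, h]
  have h1 : wedge (E.pt A) (c • E.pt P) = c • wedge (E.pt A) (E.pt P) := by
    funext p
    simp only [wedge, Pi.smul_apply, smul_eq_mul]
    ring
  rw [h1]
  exact H380.absLogHeight_smul _ (fun _ => isIntegral_all _) hc (isIntegral_all _)

end Loc

/-! ## Step 4: the machine -/

section Main

/-! ### The pairing is additive -/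

/-- the pairing with a fixed point as an additive map -/
def pairPtHom (E : EmbData K F) (P : Place K F) : Divisor K F →+ ℝ :=
  Finsupp.liftAddHom fun A => (AddMonoidHom.mulRight (hD E A P)).comp (Int.castAddHom ℝ)

theorem pairPtHom_apply (E : EmbData K F) (P : Place K F) (D : Divisor K F) :
    pairPtHom E P D = pairPt E D P := by
  unfold pairPtHom pairPt
  rw [Finsupp.liftAddHom_apply]
  rfl

theorem pairPt_prim (E : EmbData K F) (A P : Place K F) : pairPt E (prim A) P = hD E A P := by
  unfold pairPt prim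
  rw [Finsupp.sum_single_index] <;> simp

theorem pairPt_decomp (E : EmbData K F) {α₁ α₂ : Type*} [Fintype α₁] [Fintype α₂]
    (A₁ : α₁ → Place K F) (A₂ : α₂ → Place K F) (P : Place K F) :
    pairPt E (∑ a, prim (A₁ a) - ∑ a, prim (A₂ a)) P
      = ∑ a, hD E (A₁ a) P - ∑ a, hD E (A₂ a) P := by
  rw [← pairPtHom_apply, map_sub, map_sum, map_sum]
  simp only [pairPtHom_apply, pairPt_prim]

/-! ### Decomposition of a divisor -/

theorem exists_decomp (B : Divisor K F) :
    ∃ (z₁ z₂ : ℕ) (A₁ : Fin z₁ → Place K F) (A₂ : Fin z₂ → Place K F),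
      B = ∑ a, prim (A₁ a) - ∑ a, prim (A₂ a) := by
  classical
  induction B using Finsupp.induction_linear with
  | zero => exact ⟨0, 0, Fin.elim0, Fin.elim0, by simp⟩
  | add B B' hB hB' =>
    obtain ⟨z₁, z₂, A₁, A₂, h⟩ := hB
    obtain ⟨z₁', z₂', A₁', A₂', h'⟩ := hB'
    refine ⟨z₁ + z₁', z₂ + z₂', Fin.append A₁ A₁', Fin.append A₂ A₂', ?_⟩
    rw [Fin.sum_univ_add, Fin.sum_univ_add]
    simp only [Fin.append_left, Fin.append_right]
    rw [h, h']
    abel
  | single A n =>
    rcases le_total 0 n with hn | hn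
    · refine ⟨n.toNat, 0, fun _ => A, Fin.elim0, ?_⟩
      simp only [Finset.sum_const, Finset.card_univ, Fintype.card_fin, Finset.univ_eq_empty,
        Finset.sum_empty, sub_zero]
      unfold prim
      rw [Finsupp.smul_single, nsmul_eq_mul, mul_one]
      congr 1
      exact (Int.toNat_of_nonneg hn).symm
    · refine ⟨0, (-n).toNat, Fin.elim0, fun _ => A, ?_⟩
      simp only [Finset.sum_const, Finset.card_univ, Fintype.card_fin, Finset.univ_eq_empty,
        Finset.sum_empty, zero_sub]
      unfold prim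
      rw [Finsupp.smul_single, nsmul_eq_mul, mul_one, ← Finsupp.single_neg]
      congr 1
      have := Int.toNat_of_nonneg (neg_nonneg.mpr hn)
      omega

/-! ### The core comparison -/

variable [IsAlgClosed K] [Algebra.IsAlgebraic ℚ K]

theorem whm_core (E : EmbData K F) (hA3 : MultislotStatement K) (hPt : PtStatement E)
    {ι α₁ α₂ : Type} [Fintype ι] [Fintype α₁] [Fintype α₂]
    (f : ι → F) (B : Divisor K F) (hf : ExactPole f B)
    (A₁ : α₁ → Place K F) (A₂ : α₂ → Place K F)
    (hB : B = ∑ a, prim (A₁ a) - ∑ a, prim (A₂ a)) :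
    ∃ C : ℝ, ∀ P : Place K F, (∀ a, P ≠ A₁ a) → (∀ a, P ≠ A₂ a) →
      |ht (ptD B f P) - (∑ a, hD E (A₁ a) P - ∑ a, hD E (A₂ a) P)| ≤ C := by
  classical
  have hpt := hPt.1
  set M : Divisor K F := E.m • prim E.vinf with hM
  -- the families
  let s₁ : (α₁ → Fin (E.r + 1) × Fin (E.r + 1)) → F := fun s => ∏ a, secFam E (A₁ a) (s a)
  let s₂ : (α₂ → Fin (E.r + 1) × Fin (E.r + 1)) → F := fun s => ∏ a, secFam E (A₂ a) (s a)
  let m₁ : (α₁ → Fin (E.r + 1)) → F := fun c => ∏ a, E.x (c a)
  let m₂ : (α₂ → Fin (E.r + 1)) → F := fun c => ∏ a, E.x (c a)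
  have hs₁ : ExactPole s₁ (∑ a, (M - prim (A₁ a))) :=
    ExactPole.pi fun a => exactPole_sec E hPt (A₁ a)
  have hs₂ : ExactPole s₂ (∑ a, (M - prim (A₂ a))) :=
    ExactPole.pi fun a => exactPole_sec E hPt (A₂ a)
  have hm₁ : ExactPole m₁ (∑ _a : α₁, M) := ExactPole.pi fun _ => exactPole_x E hpt
  have hm₂ : ExactPole m₂ (∑ _a : α₂, M) := ExactPole.pi fun _ => exactPole_x E hpt
  let g₁ : (α₁ → Fin (E.r + 1) × Fin (E.r + 1)) × (α₂ → Fin (E.r + 1)) → F :=
    fun p => s₁ p.1 * m₂ p.2
  have hg₁ : ExactPole g₁ (∑ a, (M - prim (A₁ a)) + ∑ _a : α₂, M) := hs₁.mul hm₂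
  let v₁ : ι × ((α₁ → Fin (E.r + 1) × Fin (E.r + 1)) × (α₂ → Fin (E.r + 1))) → F :=
    fun q => f q.1 * g₁ q.2
  have hv₁₀ : ExactPole v₁ (B + (∑ a, (M - prim (A₁ a)) + ∑ _a : α₂, M)) := hf.mul hg₁
  let v₂ : (α₂ → Fin (E.r + 1) × Fin (E.r + 1)) × (α₁ → Fin (E.r + 1)) → F :=
    fun p => s₂ p.1 * m₁ p.2
  have hv₂ : ExactPole v₂ (∑ a, (M - prim (A₂ a)) + ∑ _a : α₁, M) := hs₂.mul hm₁
  have hBB : B + (∑ a, (M - prim (A₁ a)) + ∑ _a : α₂, M)
      = ∑ a, (M - prim (A₂ a)) + ∑ _a : α₁, M := by
    rw [hB]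
    simp only [Finset.sum_sub_distrib]
    abel
  -- heights of the two blocks
  have H₁ : ∀ P : Place K F, (∀ a, P ≠ A₁ a) →
      ht (ptD (∑ a, (M - prim (A₂ a)) + ∑ _a : α₁, M) v₁ P)
        = ht (ptD B f P) + (∑ a, ht (wedge (E.pt (A₁ a)) (E.pt P))
          + (Fintype.card α₂ : ℝ) * ht (E.pt P)) := by
    intro P hP
    rw [← hBB, ht_ptD_mul hf hg₁ P, ht_ptD_mul hs₁ hm₂ P,
      ht_ptD_pi (fun a => exactPole_sec E hPt (A₁ a)) P,
      ht_ptD_pi (fun _ : α₂ => exactPole_x E hpt) P]
    congr 2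
    · exact Finset.sum_congr rfl fun a _ => ht_ptD_sec E hpt (A₁ a) P (hP a)
    · rw [Finset.sum_const, ht_ptD_x E hpt P, Finset.card_univ, nsmul_eq_mul]
  have H₂ : ∀ P : Place K F, (∀ a, P ≠ A₂ a) →
      ht (ptD (∑ a, (M - prim (A₂ a)) + ∑ _a : α₁, M) v₂ P)
        = ∑ a, ht (wedge (E.pt (A₂ a)) (E.pt P)) + (Fintype.card α₁ : ℝ) * ht (E.pt P) := by
    intro P hP
    rw [ht_ptD_mul hs₂ hm₁ P,
      ht_ptD_pi (fun a => exactPole_sec E hPt (A₂ a)) P,
      ht_ptD_pi (fun _ : α₁ => exactPole_x E hpt) P]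
    congr 1
    · exact Finset.sum_congr rfl fun a _ => ht_ptD_sec E hpt (A₂ a) P (hP a)
    · rw [Finset.sum_const, ht_ptD_x E hpt P, Finset.card_univ, nsmul_eq_mul]
  have hv₁ : ExactPole v₁ (∑ a, (M - prim (A₂ a)) + ∑ _a : α₁, M) := hBB ▸ hv₁₀
  -- the joint family
  set B' : Divisor K F := ∑ a, (M - prim (A₂ a)) + ∑ _a : α₁, M with hB'
  let v : (ι × ((α₁ → Fin (E.r + 1) × Fin (E.r + 1)) × (α₂ → Fin (E.r + 1)))) ⊕
      ((α₂ → Fin (E.r + 1) × Fin (E.r + 1)) × (α₁ → Fin (E.r + 1))) → F := Sum.elim v₁ v₂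
  have hvL : ∀ k, v k ∈ riemannRochSpace B' := by
    rintro (k | k)
    · exact hv₁.mem_L k
    · exact hv₂.mem_L k
  obtain ⟨C₁, hC₁⟩ := ht_ptD_le_of_exact hA3 v Sum.inl B' hvL hv₁
  obtain ⟨C₂, hC₂⟩ := ht_ptD_le_of_exact hA3 v Sum.inr B' hvL hv₂
  refine ⟨max C₁ C₂ + |∑ a, ht (E.pt (A₂ a)) - ∑ a, ht (E.pt (A₁ a))|, fun P hP₁ hP₂ => ?_⟩
  have h1 : ht (ptD B' v P) ≤ ht (ptD B' v₁ P) + C₁ := hC₁ P
  have h2 : ht (ptD B' v P) ≤ ht (ptD B' v₂ P) + C₂ := hC₂ P
  have h3 : ht (ptD B' v₁ P) ≤ ht (ptD B' v P) :=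
    H380.absLogHeight_comp_le Sum.inl (ptD B' v P) (fun _ => isIntegral_all _)
  have h4 : ht (ptD B' v₂ P) ≤ ht (ptD B' v P) :=
    H380.absLogHeight_comp_le Sum.inr (ptD B' v P) (fun _ => isIntegral_all _)
  have e1 := H₁ P hP₁
  have e2 := H₂ P hP₂
  have hD₁ : ∑ a, hD E (A₁ a) P = ∑ a, ht (E.pt (A₁ a)) + (Fintype.card α₁ : ℝ) * ht (E.pt P)
      - ∑ a, ht (wedge (E.pt (A₁ a)) (E.pt P)) := by
    simp only [hD, Finset.sum_sub_distrib, Finset.sum_add_distrib, Finset.sum_const,
      Finset.card_univ, nsmul_eq_mul]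
  have hD₂ : ∑ a, hD E (A₂ a) P = ∑ a, ht (E.pt (A₂ a)) + (Fintype.card α₂ : ℝ) * ht (E.pt P)
      - ∑ a, ht (wedge (E.pt (A₂ a)) (E.pt P)) := by
    simp only [hD, Finset.sum_sub_distrib, Finset.sum_add_distrib, Finset.sum_const,
      Finset.card_univ, nsmul_eq_mul]
  rw [hD₁, hD₂]
  have hmax₁ := le_max_left C₁ C₂
  have hmax₂ := le_max_right C₁ C₂
  have habs := abs_le.mp (le_refl |∑ a, ht (E.pt (A₂ a)) - ∑ a, ht (E.pt (A₁ a))|)
  rw [abs_le]
  constructor <;> linarith [habs.1, habs.2]

/-- **(WHM)** the Weil height machine for fixed divisors. -/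
theorem whm (E : EmbData K F) (hA3 : MultislotStatement K) (hPt : PtStatement E) :
    WHMStatement E := by
  classical
  intro ι _ f B hf
  obtain ⟨z₁, z₂, A₁, A₂, hB⟩ := exists_decomp B
  obtain ⟨C, hC⟩ := whm_core E hA3 hPt f B hf A₁ A₂ hB
  -- the finitely many exceptional places
  let S : Finset (Place K F) := Finset.univ.image A₁ ∪ Finset.univ.image A₂
  let g : Place K F → ℝ := fun P => |ht (fun i => valAt P (f i)) - pairPt E B P|
  refine ⟨max C 0 + ∑ P ∈ S, g P, fun P hP => ?_⟩
  have hsum : 0 ≤ ∑ Q ∈ S, g Q := Finset.sum_nonneg fun Q _ => abs_nonneg _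
  by_cases hPS : P ∈ S
  · have h1 : g P ≤ ∑ Q ∈ S, g Q := Finset.single_le_sum (fun Q _ => abs_nonneg _) hPS
    have h2 := le_max_right C 0
    show g P ≤ _
    linarith
  · have hP₁ : ∀ a, P ≠ A₁ a := fun a h =>
      hPS (Finset.mem_union_left _ (Finset.mem_image.mpr ⟨a, Finset.mem_univ a, h.symm⟩))
    have hP₂ : ∀ a, P ≠ A₂ a := fun a h =>
      hPS (Finset.mem_union_right _ (Finset.mem_image.mpr ⟨a, Finset.mem_univ a, h.symm⟩))
    have h := hC P hP₁ hP₂
    have hval : (fun i => valAt P (f i)) = ptD B f P := by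
      funext i
      rw [ptD_apply, hP, zpow_zero, mul_one]
    have hpair : pairPt E B P = ∑ a, hD E (A₁ a) P - ∑ a, hD E (A₂ a) P := by
      rw [hB]
      exact pairPt_decomp E A₁ A₂ P
    rw [hval, hpair]
    have h2 := le_max_left C 0
    linarith

end Main

/-! ## (GAUSS) from the machine

`gaussFor_of_whm` : `WHMStatement E → TanStatement E W → ∃ C, ∀ P, W P = 0 → |κ(P) - (W . P)| ≤ C`
for EVERY divisor `W` for which the tangent family exists (think `W = div (dt)`);
`gauss_of_whm` : the contract statement `HContract.GAUSSStatement E` once `deg W = 2 g - 2`.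
Proof: (WHM) for the tangent family (`B = 2 m ∞ + W`) and for the basis `E.x` (`B = m ∞`); the
single place `∞` is absorbed in the constant. -/

section Gauss

variable [Algebra.IsAlgebraic ℚ K]

theorem gaussFor_of_whm (E : EmbData K F) (hpt : ∀ P : Place K F, E.pt P ≠ 0)
    (hW : WHMStatement E) (W : Divisor K F) (hT : TanStatement E W) :
    ∃ C : ℝ, ∀ P : Place K F, W P = 0 → |kap E P - pairPt E W P| ≤ C := by
  classical
  obtain ⟨w, hw, htan⟩ := hT
  obtain ⟨C₁, hC₁⟩ := hW _ w _ hw
  obtain ⟨C₂, hC₂⟩ := hW _ E.x _ (exactPole_x E hpt)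
  refine ⟨max (C₁ + 2 * C₂) 0 + |kap E E.vinf - pairPt E W E.vinf|, fun P hP => ?_⟩
  have habs0 := abs_nonneg (kap E E.vinf - pairPt E W E.vinf)
  by_cases hPinf : P = E.vinf
  · subst hPinf
    have := le_max_right (C₁ + 2 * C₂) 0
    linarith
  have hm0 : (E.m • prim E.vinf : Divisor K F) P = 0 := by
    simp [prim, Ne.symm hPinf]
  have h2m0 : ((2 * E.m) • prim E.vinf + W : Divisor K F) P = 0 := by
    rw [Finsupp.add_apply, hP]
    simp [prim, Ne.symm hPinf]
  have h1 := hC₁ P h2m0
  have h2 := hC₂ P hm0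
  -- the tangent vector
  obtain ⟨c, hc, hwed⟩ := htan P hPinf hP
  have e1 : ht (wedge (E.pt P) (E.tn P)) = ht (fun p => valAt P (w p)) := by
    rw [hwed]
    exact H380.absLogHeight_smul (fun p => valAt P (w p)) (fun _ => isIntegral_all _) hc
      (isIntegral_all _)
  -- the point
  have e2 : ht (fun i => valAt P (E.x i)) = ht (E.pt P) := by
    rw [← ht_ptD_x E hpt P]
    congr 1
    funext i
    rw [ptD_apply, hm0, zpow_zero, mul_one]
  -- the pairing
  have e3 : pairPt E ((2 * E.m) • prim E.vinf + W) P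
      = 2 * pairPt E (E.m • prim E.vinf) P + pairPt E W P := by
    rw [← pairPtHom_apply, ← pairPtHom_apply, ← pairPtHom_apply, map_add, mul_nsmul, map_nsmul]
    simp
    ring
  rw [e2] at h2
  rw [← e1, e3] at h1
  have hk : kap E P = ht (wedge (E.pt P) (E.tn P)) - 2 * ht (E.pt P) := rfl
  rw [hk]
  have := le_max_left (C₁ + 2 * C₂) 0
  rw [abs_le] at h1 h2 ⊢
  constructor <;> linarith [h1.1, h1.2, h2.1, h2.2]

/-- **(GAUSS)** of the contract, from (WHM), the tangent family and the degree of `W`. -/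
theorem gauss_of_whm (E : EmbData K F) (hpt : ∀ P : Place K F, E.pt P ≠ 0)
    (hW : WHMStatement E) (W : Divisor K F) (hT : TanStatement E W)
    (hdeg : Divisor.degree W = 2 * (genusR K F : ℤ) - 2) : GAUSSStatement E := by
  obtain ⟨C, hC⟩ := gaussFor_of_whm E hpt hW W hT
  exact ⟨W, C, hdeg, hC⟩

end Gauss

end Fermat.Agent.S17.H320

end
end
-- ===== PACK-END S17/H320/WHM.lean

-- ===== PACK-BEGIN S17/H320/WeilOfWHM.lean
section



/-!
# S17 / tower H — GAUSS leaf WEIL (forms version of helper290) from (WHM)  (helper320)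

`weil_of_whm : (∀ P, E.pt P ≠ 0) → WHMStatement E → H290.WeilStatement E`, hence
`weil : MultislotStatement K → PtStatement E → H290.WeilStatement E`.

For a fixed family `G` of forms of degree `e` with exact common zero divisor `Z` apply (WHM) to
the functions `aeval E.x (G p)` (`B = e m ∞ - Z`) and to the basis `E.x` (`B = m ∞`); the values
of `aeval E.x (G p)` at `P ≠ ∞` are `c ^ e * eval (pt P) (G p)`.
-/

set_option autoImplicit false
set_option linter.unusedSectionVars false

noncomputable section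

open AlgebraicCurve MvPolynomial

namespace Fermat.Agent.S17.H320

open Fermat.Agent.Lib.RR Fermat.Agent.S17.HWall Fermat.Agent.S17.HContract
open Fermat.Agent.S17.H230 Fermat.Agent.S17.H710 Fermat.Agent.S17.Wall

variable {K F : Type*} [Field K] [CharZero K] [Field F] [Algebra K F] [FF1 K F]

/-- the value at `P` of a polynomial expression in functions regular at `P` -/
theorem valAt_aeval {κ : Type*} (P : Place K F) (x : κ → F) (hx : ∀ k, RegAt P (x k))
    (R : MvPolynomial κ K) :
    RegAt P (aeval x R) ∧ valAt P (aeval x R) = eval (fun k => valAt P (x k)) R := by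
  let w : κ → P.toValuationSubring := fun k => ⟨x k, hx k⟩
  have h5 : ((aeval w R : P.toValuationSubring) : F) = aeval x R := by
    have := MvPolynomial.map_aeval (R := K) w P.toValuationSubring.subtype R
    rw [ValuationSubring.subtype_apply] at this
    rw [this, MvPolynomial.aeval_def]
    have hc : (P.toValuationSubring.subtype.comp (algebraMap K ↥P.toValuationSubring))
        = algebraMap K F := by
      ext c
      rfl
    rw [hc]
    rfl
  have hreg : RegAt P (aeval x R) := by
    rw [← h5]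
    exact (aeval w R).2
  refine ⟨hreg, ?_⟩
  have h1 : (fun k => valAt P (x k)) = fun k => valO P (w k) := by
    funext k
    rw [valAt_of_mem P (hx k)]
  rw [h1, valAt_of_mem P hreg]
  have h2 : eval (fun k => valO P (w k)) R = valO P (aeval w R) := by
    rw [← MvPolynomial.aeval_eq_eval]
    have := MvPolynomial.comp_aeval (R := K) (f := w) (valO P)
    have h3 := congrArg (fun φ : MvPolynomial κ K →ₐ[K] K => φ R) this
    simp only [AlgHom.comp_apply] at h3
    rw [h3]
  rw [h2]
  congr 1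
  exact Subtype.ext h5.symm

variable [Algebra.IsAlgebraic ℚ K]

theorem weil_of_whm (E : EmbData K F) (hpt : ∀ P : Place K F, E.pt P ≠ 0)
    (hW : WHMStatement E) : H290.WeilStatement E := by
  classical
  intro ι _ e G Z hG hZ hex
  set f : ι → F := fun p => aeval E.x (G p) with hf
  set B : Divisor K F := (e * E.m) • prim E.vinf - Z with hB
  have hexact : ExactPole f B := by
    intro P
    refine ⟨fun p => ?_, ?_⟩
    · by_cases h0 : f p = 0
      · exact Or.inl h0
      right
      have h1 := hex.1 p h0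
      rw [Finsupp.le_def] at h1
      have h2 := h1 P
      unfold zdiv at h2
      rw [dif_neg h0, Finsupp.add_apply, divOf_apply] at h2
      rw [hB, Finsupp.sub_apply]
      show _ ≤ P.ord (aeval E.x (G p))
      omega
    · obtain ⟨p, h0, h1⟩ := hex.2 P
      refine ⟨p, h0, ?_⟩
      unfold zdiv at h1
      rw [dif_neg h0, Finsupp.add_apply, divOf_apply] at h1
      rw [hB, Finsupp.sub_apply]
      show P.ord (aeval E.x (G p)) = _
      omega
  obtain ⟨C₁, hC₁⟩ := hW _ f B hexact
  obtain ⟨C₂, hC₂⟩ := hW _ E.x _ (exactPole_x E hpt)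
  set g : ℝ := |ht (fun p => eval (E.pt E.vinf) (G p)) - (e : ℝ) * ht (E.pt E.vinf)
      + pairPt E Z E.vinf| with hg
  refine ⟨max (C₁ + e * C₂) 0 + g, fun P hP => ?_⟩
  have hg0 : 0 ≤ g := abs_nonneg _
  by_cases hPinf : P = E.vinf
  · subst hPinf
    have := le_max_right (C₁ + e * C₂) 0
    show g ≤ _
    linarith
  have hm0 : (E.m • prim E.vinf : Divisor K F) P = 0 := by
    simp [prim, Ne.symm hPinf]
  have hB0 : B P = 0 := by
    rw [hB, Finsupp.sub_apply, hP]
    simp [prim, Ne.symm hPinf]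
  have h1 := hC₁ P hB0
  have h2 := hC₂ P hm0
  -- the point
  have hxreg : ∀ i, RegAt P (E.x i) := fun i => by
    rw [regAt_iff]
    rcases (mem_L_iff.mp (x_mem_L E i)) P with h | h
    · rw [h, P.ord_zero]
    · rw [hm0] at h
      simpa using h
  obtain ⟨c, hc, hprop⟩ := ptD_x_prop E hpt P
  have hxval : (fun i => valAt P (E.x i)) = c • E.pt P := by
    rw [← hprop]
    funext i
    rw [ptD_apply, hm0, zpow_zero, mul_one]
  have e2 : ht (fun i => valAt P (E.x i)) = ht (E.pt P) := by
    rw [hxval]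
    exact H380.absLogHeight_smul _ (fun _ => isIntegral_all _) hc (isIntegral_all _)
  -- the forms
  have e1 : ht (fun p => valAt P (f p)) = ht (fun p => eval (E.pt P) (G p)) := by
    have h3 : (fun p => valAt P (f p)) = (c ^ e) • fun p => eval (E.pt P) (G p) := by
      funext p
      rw [hf]
      simp only
      rw [(_root_.Fermat.Agent.S17.H320.valAt_aeval P E.x hxreg (G p)).2, hxval]
      have := aeval_mul_of_isHomogeneous (S := K) (hG p) c (E.pt P)
      rw [MvPolynomial.aeval_eq_eval, MvPolynomial.aeval_eq_eval] at this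
      simp only [Pi.smul_apply, smul_eq_mul]
      exact this
    rw [h3]
    exact H380.absLogHeight_smul _ (fun _ => isIntegral_all _) (pow_ne_zero _ hc)
      (isIntegral_all _)
  -- the pairing
  have e3 : pairPt E B P = e * pairPt E (E.m • prim E.vinf) P - pairPt E Z P := by
    rw [hB, ← pairPtHom_apply, ← pairPtHom_apply, ← pairPtHom_apply, map_sub, mul_nsmul',
      map_nsmul]
    simp
  rw [e2] at h2
  rw [e1, e3] at h1
  have := le_max_left (C₁ + e * C₂) 0
  have he : (0 : ℝ) ≤ e := Nat.cast_nonneg e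
  rw [abs_le] at h1 h2 ⊢
  constructor
  · nlinarith [h1.1, h1.2, h2.1, h2.2]
  · nlinarith [h1.1, h1.2, h2.1, h2.2]

/-- **WEIL** (leaf of the GAUSS sub-project of helper290), from the wall leaves A3 and G-PT. -/
theorem weil [IsAlgClosed K] (E : EmbData K F) (hA3 : MultislotStatement K)
    (hPt : PtStatement E) : H290.WeilStatement E :=
  weil_of_whm E hPt.1 (whm E hA3 hPt)

end Fermat.Agent.S17.H320

end
end
-- ===== PACK-END S17/H320/WeilOfWHM.lean

-- ===== PACK-BEGIN S59/H585/IntPDMod.lean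
section
/-
S59 / S15 — the Manin pairing modulo `m` (helper585).

From integral Poincaré duality (`IntPD.lean`) and LIFT:

* `pairing_mod_left_kernel`  : for every `m`, the Manin pairing on the cuspidal classes
  `Γ → ZMod m` has trivial left kernel (any `Γ` of finite index with `-1 ∈ Γ`);
* `pairing_mod_right_kernel` : the same on the right;
* `pairing_adj_mod`, `pairing_hecke_mod` : adjunction `r_i ⊣ t_i` and self-adjointness of `T_l`
  for coefficients `ZMod m` on `Γ₀(n)`.
(Bi-additivity, skew-symmetry and base change over any commutative ring are in `IntPD.lean`: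
`maninPairing_add_left`, `maninPairing_add_right`, `maninPairing_skew`, `maninPairing_map`.)
-/


set_option autoImplicit false

namespace Fermat.Agent.S59.H585

open CongruenceSubgroup Matrix.SpecialLinearGroup ModularCurve.Period ModularGroup
open Fermat.Agent.S29.H642 Fermat.Agent.S41.Spec
open scoped MatrixGroups

section General

variable {Γ : Subgroup SL(2, ℤ)} [Γ.FiniteIndex]

/-- If `m ∣ B(x, y)` for all `y`, then `x ∈ m · C_Γ(ℤ)`. -/
theorem exists_eq_smul_of_dvd_pairing (hneg : (-1 : SL(2, ℤ)) ∈ Γ) (m : ℕ)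
    (x : cuspSub ℤ Γ ℤ) (h : ∀ y : cuspSub ℤ Γ ℤ, (m : ℤ) ∣ intPairing hneg x y) :
    ∃ x' : cuspSub ℤ Γ ℤ, x = (m : ℤ) • x' := by
  rcases Nat.eq_zero_or_pos m with rfl | hm
  · refine ⟨0, ?_⟩
    rw [smul_zero]
    apply (intPairing_bijective hneg).1
    rw [map_zero]
    ext y
    have := h y
    rw [Nat.cast_zero, zero_dvd_iff] at this
    exact this
  · have hm' : (m : ℤ) ≠ 0 := by exact_mod_cast hm.ne'
    -- the functional `B(x, ·) / m`
    let f : cuspSub ℤ Γ ℤ →ₗ[ℤ] ℤ :=
      { toFun := fun y => intPairing hneg x y / m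
        map_add' := fun y y' => by
          rw [map_add]
          exact Int.add_ediv_of_dvd_left (h y)
        map_smul' := fun c y => by
          rw [map_smul, smul_eq_mul, RingHom.id_apply, smul_eq_mul]
          exact Int.mul_ediv_assoc c (h y) }
    obtain ⟨x', hx'⟩ := (intPairing_bijective hneg).2 f
    refine ⟨x', ?_⟩
    apply (intPairing_bijective hneg).1
    rw [map_smul, hx']
    ext y
    show intPairing hneg x y = (m : ℤ) * (intPairing hneg x y / m)
    exact (Int.mul_ediv_cancel' (h y)).symm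

/-- **The pairing modulo `m` has trivial left kernel.** -/
theorem pairing_mod_left_kernel (hneg : (-1 : SL(2, ℤ)) ∈ Γ) (m : ℕ)
    {xbar : Additive Γ →+ ZMod m} (hx : IsCuspidalOn Γ xbar)
    (h : ∀ ybar : Additive Γ →+ ZMod m, IsCuspidalOn Γ ybar → maninPairing Γ xbar ybar = 0) :
    xbar = 0 := by
  obtain ⟨x, hxc, rfl⟩ := exists_lift hneg m hx
  have hdvd : ∀ y : cuspSub ℤ Γ ℤ, (m : ℤ) ∣ intPairing hneg ⟨x, hxc⟩ y := by
    intro y
    have h1 := maninPairing_map hneg (Int.castRingHom (ZMod m)) hxc y.2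
    have h2 := h _ (isCuspidalOn_comp (Int.castAddHom (ZMod m)) y.2)
    rw [← ZMod.intCast_zmod_eq_zero_iff_dvd]
    exact h1.symm.trans h2
  obtain ⟨x', hx'⟩ := exists_eq_smul_of_dvd_pairing hneg m ⟨x, hxc⟩ hdvd
  have hx'' : x = (m : ℤ) • (x' : Additive Γ →+ ℤ) := congrArg Subtype.val hx'
  refine AddMonoidHom.ext fun g => ?_
  show ((x g : ℤ) : ZMod m) = 0
  rw [hx'']
  show (((m : ℤ) • (x' : Additive Γ →+ ℤ) g : ℤ) : ZMod m) = 0
  rw [smul_eq_mul, Int.cast_mul, Int.cast_natCast, ZMod.natCast_self, zero_mul]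

/-- **The pairing modulo `m` has trivial right kernel.** -/
theorem pairing_mod_right_kernel (hneg : (-1 : SL(2, ℤ)) ∈ Γ) (m : ℕ)
    {ybar : Additive Γ →+ ZMod m} (hy : IsCuspidalOn Γ ybar)
    (h : ∀ xbar : Additive Γ →+ ZMod m, IsCuspidalOn Γ xbar → maninPairing Γ xbar ybar = 0) :
    ybar = 0 := by
  refine pairing_mod_left_kernel hneg m hy fun xbar hxbar => ?_
  rw [maninPairing_skew hneg hxbar hy, h xbar hxbar, neg_zero]

end General

section Gamma0

variable {N q : ℕ}

/-- Reduction mod `m` of the integral pairing on `Γ₀(n)`. -/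
theorem cast_pairing_mod {n : ℕ} (hn : n ≠ 0) (m : ℕ) {x y : Additive (Gamma0 n) →+ ℤ}
    (hx : IsCuspidal x) (hy : IsCuspidal y) :
    ((maninPairing (Gamma0 n) x y : ℤ) : ZMod m) =
      maninPairing (Gamma0 n) ((Int.castAddHom (ZMod m)).comp x)
        ((Int.castAddHom (ZMod m)).comp y) := by
  have := finiteIndex_Gamma0' hn
  exact (maninPairing_map (neg_one_mem_Gamma0' n) (Int.castRingHom (ZMod m)) hx hy).symm

/-- **Adjunction modulo `m`**: `B(r_i x, y) = B(x, t_i y)`. -/
theorem pairing_adj_mod (m : ℕ) (hN : N ≠ 0) (hq : q.Prime) (hqN : ¬ q ∣ N)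
    (x : Additive (Gamma0 N) →+ ZMod m) (y : Additive (Gamma0 (N * q)) →+ ZMod m)
    (hx : IsCuspidal x) (hy : IsCuspidal y) :
    maninPairing (Gamma0 (N * q)) (r₁ N q x) y = maninPairing (Gamma0 N) x (t₁ N q y) ∧
    maninPairing (Gamma0 (N * q)) (r₂ N q x) y = maninPairing (Gamma0 N) x (t₂ N q y) := by
  have hNq : N * q ≠ 0 := Nat.mul_ne_zero hN hq.ne_zero
  have hFI := finiteIndex_Gamma0' hN
  have hFI' := finiteIndex_Gamma0' hNq
  obtain ⟨hFun, hRC, hTC, -⟩ := Fermat.Agent.S41.H281.hkStatement.{0}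
  obtain ⟨x₀, hx₀, rfl⟩ := exists_lift (neg_one_mem_Gamma0' N) m hx
  obtain ⟨y₀, hy₀, rfl⟩ := exists_lift (neg_one_mem_Gamma0' (N * q)) m hy
  obtain ⟨hr1, hr2⟩ := hRC N q ℤ x₀ hx₀
  obtain ⟨ht1, ht2⟩ := hTC N q ℤ y₀ hy₀
  obtain ⟨a1, a2⟩ := pairing_adj_int hN hq hqN x₀ y₀ hx₀ hy₀
  constructor
  · rw [Fermat.Agent.S41.H41.r₁_comp, Fermat.Agent.S41.H41.t₁_comp hFun,
      ← cast_pairing_mod hNq m hr1 hy₀, ← cast_pairing_mod hN m hx₀ ht1, a1]
  · rw [Fermat.Agent.S41.H41.r₂_comp, Fermat.Agent.S41.H41.t₂_comp hFun,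
      ← cast_pairing_mod hNq m hr2 hy₀, ← cast_pairing_mod hN m hx₀ ht2, a2]

/-- **Hecke operators are self-adjoint modulo `m`**. -/
theorem pairing_hecke_mod (m : ℕ) {n l : ℕ} [Fact l.Prime] (hl : ¬ l ∣ n) (hn : n ≠ 0)
    (x y : Additive (Gamma0 n) →+ ZMod m) (hx : IsCuspidal x) (hy : IsCuspidal y) :
    maninPairing (Gamma0 n) (heckeTransfer hl x) y =
      maninPairing (Gamma0 n) x (heckeTransfer hl y) := by
  have hFI := finiteIndex_Gamma0' hn
  obtain ⟨-, -, -, hHC, -⟩ := Fermat.Agent.S41.H281.hkStatement.{0}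
  obtain ⟨x₀, hx₀, rfl⟩ := exists_lift (neg_one_mem_Gamma0' n) m hx
  obtain ⟨y₀, hy₀, rfl⟩ := exists_lift (neg_one_mem_Gamma0' n) m hy
  have hTx : IsCuspidal (heckeTransfer hl x₀) := hHC n l hl ℤ x₀ hx₀
  have hTy : IsCuspidal (heckeTransfer hl y₀) := hHC n l hl ℤ y₀ hy₀
  rw [heckeTransfer_comp hl, heckeTransfer_comp hl, ← cast_pairing_mod hn m hTx hy₀,
    ← cast_pairing_mod hn m hx₀ hTy, pairing_hecke_int hl hn x₀ y₀ hx₀ hy₀]

end Gamma0

end Fermat.Agent.S59.H585

end
-- ===== PACK-END S59/H585/IntPDMod.lean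

-- ===== PACK-BEGIN S18/H84/ConstF.lean
section





/-!
# S18 / T2 — CONST_F: a function without zeros (or without zeros and poles) is constant
(characteristic zero; helper84)

Exact statement needed by `H94.result_of_qCore`:
`ConstOfOrdZero Q̄ (modularFunctionFieldBar N)`, i.e.
`∀ u ≠ 0, (∀ v : Place Q̄ F_N, v.ord u = 0) → ∃ c, u = algebraMap Q̄ F_N c`.
-/

set_option autoImplicit false

noncomputable section

open AlgebraicCurve ModularCurve IntermediateField

namespace Fermat.Agent.S18.H84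

section Generic

variable {K F : Type*} [Field K] [Field F] [Algebra K F] [IsAlgClosed K] [CharZero K]

/-- In a function field of one variable over an algebraically closed field of characteristic
zero, a function without zeros is constant. -/
theorem const_of_forall_ord_nonpos (x : F) (hx : Transcendental K x)
    [FiniteDimensional K⟮x⟯ F] (u : F) (hu : ∀ v : Place K F, v.ord u ≤ 0) :
    ∃ c : K, u = algebraMap K F c := by
  by_contra hc
  have hnot : u ∉ (algebraMap K F).range := by
    rintro ⟨c, rfl⟩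
    exact hc ⟨c, rfl⟩
  have hut : Transcendental K u := Fermat.Agent.S24.FF.transcendental_of_not_mem_range hnot
  have : FiniteDimensional K⟮u⟯ F :=
    Fermat.Agent.S24.FF.finiteDimensional_adjoin_of_transcendental hx hut
  have hsum := Fermat.Agent.S24.FF.sum_ord_eq_finrank hut (∅ : Finset (Place K F))
    (fun v => by
      simp only [Finset.notMem_empty, false_iff, not_lt]
      exact hu v)
  rw [Finset.sum_empty] at hsum
  have hpos : 0 < Module.finrank K⟮u⟯ F := Module.finrank_pos
  omega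

/-- In a function field of one variable over an algebraically closed field of characteristic
zero, a function without zeros and poles is constant. -/
theorem const_of_forall_ord_eq_zero (x : F) (hx : Transcendental K x)
    [FiniteDimensional K⟮x⟯ F] (u : F) (hu : ∀ v : Place K F, v.ord u = 0) :
    ∃ c : K, u = algebraMap K F c :=
  const_of_forall_ord_nonpos x hx u fun v => (hu v).le

end Generic

/-- **T2 (CONST_F)** for the modular function field over `Q̄`. -/
theorem constOfOrdZero_modularFunctionFieldBar (N : ℕ) [NeZero N]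
    (u : modularFunctionFieldBar N) (_hu0 : u ≠ 0)
    (hu : ∀ v : Place (AlgebraicClosure ℚ) (modularFunctionFieldBar N), v.ord u = 0) :
    ∃ c : AlgebraicClosure ℚ, u = algebraMap (AlgebraicClosure ℚ) (modularFunctionFieldBar N) c := by
  obtain ⟨P⟩ := Fermat.Agent.S24.nonempty_modularPackage N
  have := P.finiteDimensional
  have : Nonempty (Fermat.Agent.S24.XX N) := ⟨QuotientGroup.mk 1⟩
  have hj : Transcendental (AlgebraicClosure ℚ) (Fermat.Agent.S24.jF N) :=
    Fermat.Agent.S24.transcendental_of_localData_inv (Fermat.Agent.S24.jF N) P.dataInf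
  exact const_of_forall_ord_eq_zero (Fermat.Agent.S24.jF N) hj u hu

/-- The modular function field over `Q̄` is finite over `Q̄(u)` for every non-constant `u`,
and `u` is transcendental. -/
theorem finiteDimensional_adjoin_modularFunctionFieldBar (N : ℕ) [NeZero N]
    (u : modularFunctionFieldBar N)
    (hu : u ∉ (algebraMap (AlgebraicClosure ℚ) (modularFunctionFieldBar N)).range) :
    Transcendental (AlgebraicClosure ℚ) u ∧
      FiniteDimensional (AlgebraicClosure ℚ)⟮u⟯ (modularFunctionFieldBar N) := by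
  obtain ⟨P⟩ := Fermat.Agent.S24.nonempty_modularPackage N
  have := P.finiteDimensional
  have : Nonempty (Fermat.Agent.S24.XX N) := ⟨QuotientGroup.mk 1⟩
  have hj : Transcendental (AlgebraicClosure ℚ) (Fermat.Agent.S24.jF N) :=
    Fermat.Agent.S24.transcendental_of_localData_inv (Fermat.Agent.S24.jF N) P.dataInf
  have hut : Transcendental (AlgebraicClosure ℚ) u :=
    Fermat.Agent.S24.FF.transcendental_of_not_mem_range hu
  exact ⟨hut, Fermat.Agent.S24.FF.finiteDimensional_adjoin_of_transcendental hj hut⟩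

end Fermat.Agent.S18.H84

end
end
-- ===== PACK-END S18/H84/ConstF.lean

-- ===== PACK-BEGIN S15/H215/ModBDone.lean
section



/-!
# S15, piece MOD-B (helper215): the bridge MOD-B, unconditional

* `veluModularPairComplex : VeluModularPairComplexStatement`
* `veluModularPair : VeluModularPairStatement`

Assembly of B0, B0', B2, B4, B5 + glue (helper215, this directory) with B3
(`Fermat.Agent.S15.H902.uniformization`, helper902, using helper226's addition theorem).
-/

set_option autoImplicit false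

namespace Fermat.Agent.S15.H215

open Fermat.Agent.S15.H542

/-- **B-ℂ.**  The bridge over `ℂ`. -/
theorem veluModularPairComplex : VeluModularPairComplexStatement :=
  veluModularPairComplex_of_uniformization Fermat.Agent.S15.H902.uniformization

/-- **MOD-B.**  If `Q` has exact odd prime order `p` on the elliptic curve `E` over `ℚ̄`, then
Vélu's curve is nonsingular and `(j(E), j(E/⟨Q⟩))` lies on the plane model of `X₀(p)`. -/
theorem veluModularPair : VeluModularPairStatement :=
  veluModularPair_of_uniformization Fermat.Agent.S15.H902.uniformization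

end Fermat.Agent.S15.H215

end
-- ===== PACK-END S15/H215/ModBDone.lean

-- ===== PACK-BEGIN S12/H291/PiRat.lean
section




/-!
# S12 one-step route: `PiRatStatement` from the LOCAL node `PiValStatement` (helper291)

* `PiValStatement` (NODE, purely local): for a cofixed line `N` of the Frey curve with generator
  `T₀`, every prime `ℓ` and every valuation subring `A` of `ℚ̄` over `ℓ`:
  `v_A(Π₃) = v_A(Π₁)` and `v_A(Π₁) = v_A(4)^(p-1) · v_A(Π₂)`.
* `piRat_of_piVal : PiValStatement → PiRatStatement`: the `Π_j` are Galois-fixed (the line is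
  Galois-stable), hence rational, and a rational number which is a unit at every valuation
  subring of `ℚ̄` is `±1`.
* `s12_of_piVal : PiValStatement → frozen S12`.
-/

set_option autoImplicit false
set_option linter.unusedSectionVars false

noncomputable section

open WeierstrassCurve WeierstrassCurve.Affine WeierstrassCurve.Affine.Point

namespace Fermat.Agent.S12.H291

/-- **NODE PiVal** (local valuations of the three products). -/
def PiValStatement : Prop :=
  ∀ (P : FreyPackage), 17 ≤ P.p →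
    ∀ N : Submodule (ZMod P.p) (Submodule.torsionBy ℤ (FreyPt P) P.p),
      IsGaloisStable (K := Qb) ℚ N → N ≠ ⊥ → N ≠ ⊤ →
      (∀ σ : Qb ≃ₐ[ℚ] Qb, ∀ x : Submodule.torsionBy ℤ (FreyPt P) P.p, σ • x - x ∈ N) →
      ∀ T₀ : Submodule.torsionBy ℤ (FreyPt P) P.p, T₀ ∈ N → T₀ ≠ 0 →
      ∀ (ℓ : ℕ), ℓ.Prime → ∀ A : ValuationSubring Qb, A.LiesOverPrime ℓ →
        A.valuation (piProd (T₀ : FreyPt P) P.p (eps₃ P))
            = A.valuation (piProd (T₀ : FreyPt P) P.p 0) ∧
          A.valuation (piProd (T₀ : FreyPt P) P.p 0)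
            = A.valuation (4 : Qb) ^ (P.p - 1) * A.valuation (piProd (T₀ : FreyPt P) P.p (eps₂ P))

/-! ### Galois action on `x`-coordinates -/

lemma xc_smul {P : FreyPackage} (σ : Qb ≃ₐ[ℚ] Qb) (T : FreyPt P) : xc (σ • T) = σ (xc T) := by
  cases T with
  | zero => exact (map_zero σ).symm
  | some x y h => rfl

lemma zmodHom_intCast {K : Type*} [Field K] [DecidableEq K] {W : Affine K} {n : ℕ}
    (T₀ : W.Point) (h : n • T₀ = 0) (k : ℤ) :
    zmodHom T₀ h (k : ZMod n) = k • T₀ := by
  have := ZMod.lift_coe n (⟨zmultiplesHom W.Point T₀, by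
    rw [zmultiplesHom_apply, natCast_zsmul]
    exact h⟩ : {f : ℤ →+ W.Point // f n = 0}) k
  simp only [zmultiplesHom_apply] at this
  exact this

/-- If `σ` acts on the cyclic group `T (ZMod p)` through multiplication by `c ≠ 0` and fixes `r`,
then it fixes `Π_r`. -/
lemma piP_fixed {P : FreyPackage} {p : ℕ} [Fact p.Prime] (T : ZMod p →+ FreyPt P)
    (σ : Qb ≃ₐ[ℚ] Qb) (c : ZMod p) (hc : c ≠ 0) (hσ : ∀ a, σ • T a = T (a * c)) (r : Qb)
    (hr : σ r = r) : σ (piP T r) = piP T r := by
  rw [piP, map_prod]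
  refine Finset.prod_nbij' (fun a => a * c) (fun b => b * c⁻¹) ?_ ?_ ?_ ?_ ?_
  · intro a ha
    rw [mem_nz] at ha ⊢
    exact mul_ne_zero ha hc
  · intro b hb
    rw [mem_nz] at hb ⊢
    exact mul_ne_zero hb (inv_ne_zero hc)
  · intro a _
    rw [mul_assoc, mul_inv_cancel₀ hc, mul_one]
  · intro b _
    rw [mul_assoc, inv_mul_cancel₀ hc, mul_one]
  · intro a _
    rw [map_sub, hr, ← xc_smul, hσ]

lemma nsmul_eq_zero_of_mem_torsion {P : FreyPackage}
    (T₀ : Submodule.torsionBy ℤ (FreyPt P) P.p) : P.p • (T₀ : FreyPt P) = 0 := by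
  have := T₀.2
  rw [Submodule.mem_torsionBy_iff] at this
  rw [← natCast_zsmul]
  exact this

theorem isGalois_Qb_h291 : IsGalois ℚ Qb := by
  have : Algebra.IsAlgebraic ℚ Qb := AlgebraicClosure.isAlgebraic ℚ
  have : IsAlgClosure ℚ Qb := ⟨inferInstance, inferInstance⟩
  have : Normal ℚ Qb := IsAlgClosure.normal ℚ Qb
  exact isGalois_iff.mpr ⟨inferInstance, inferInstance⟩

/-- The order of a nonzero element of `E[p]`. -/
lemma addOrderOf_eq_of_mem_torsion {P : FreyPackage}
    (T₀ : Submodule.torsionBy ℤ (FreyPt P) P.p) (hT₀ : T₀ ≠ 0) :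
    addOrderOf (T₀ : FreyPt P) = P.p := by
  have hp0 : P.p • (T₀ : FreyPt P) = 0 := nsmul_eq_zero_of_mem_torsion T₀
  have hne : (T₀ : FreyPt P) ≠ 0 := fun h => hT₀ (Subtype.ext h)
  have hdvd := addOrderOf_dvd_of_nsmul_eq_zero hp0
  rcases (Nat.dvd_prime P.pp).mp hdvd with h | h
  · exact absurd (AddMonoid.addOrderOf_eq_one_iff.mp h) hne
  · exact h

/-- **RAT**: the products `Π_r` (`r` rational) of a Galois-stable line are rational. -/
theorem piProd_rational (P : FreyPackage)
    (N : Submodule (ZMod P.p) (Submodule.torsionBy ℤ (FreyPt P) P.p))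
    (hstab : IsGaloisStable (K := Qb) ℚ N) (htop : N ≠ ⊤)
    (T₀ : Submodule.torsionBy ℤ (FreyPt P) P.p) (hT₀N : T₀ ∈ N) (hT₀ : T₀ ≠ 0) (r : ℚ) :
    ∃ q : ℚ, algebraMap ℚ Qb q = piProd (T₀ : FreyPt P) P.p (algebraMap ℚ Qb r) := by
  have : Fact P.p.Prime := ⟨P.pp⟩
  have : IsGalois ℚ Qb := isGalois_Qb_h291
  have hp0 : P.p • (T₀ : FreyPt P) = 0 := nsmul_eq_zero_of_mem_torsion T₀
  rw [← piP_zmodHom (T₀ : FreyPt P) hp0]
  apply Fermat.Agent.S13.H64.exists_rat_of_forall_fixed
  intro σ
  obtain ⟨k, hk⟩ := Fermat.Agent.S13.H64.frey_line P N htop T₀ hT₀N hT₀ (σ • T₀)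
    (hstab σ T₀ hT₀N)
  have hk' : σ • (T₀ : FreyPt P) = k • (T₀ : FreyPt P) := by
    have := congrArg (Subtype.val) hk
    exact this
  have hc : ((k : ℤ) : ZMod P.p) ≠ 0 := by
    intro h0
    have h1 : zmodHom (T₀ : FreyPt P) hp0 ((k : ℤ) : ZMod P.p) = 0 := by
      rw [h0, _root_.map_zero]
    rw [zmodHom_intCast, ← hk'] at h1
    have h2 : (T₀ : FreyPt P) = 0 := by
      have := congrArg (fun Q => σ⁻¹ • Q) h1
      simpa using this
    exact hT₀ (Subtype.ext h2)
  refine piP_fixed _ σ _ hc ?_ _ (by simp)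
  intro a
  rw [zmodHom_apply, ← natCast_zsmul, algEquiv_smul_zsmul, hk', smul_smul]
  have : a * ((k : ℤ) : ZMod P.p) = (((a.val : ℤ) * k : ℤ) : ZMod P.p) := by
    push_cast
    rw [ZMod.natCast_zmod_val]
  rw [this, zmodHom_intCast]

/-! ### A rational number which is a unit everywhere is `±1` -/

lemma val_rat_eq {A : ValuationSubring Qb} (q : ℚ) :
    A.valuation (algebraMap ℚ Qb q) =
      A.valuation ((q.num : ℤ) : Qb) / A.valuation ((q.den : ℤ) : Qb) := by
  rw [← map_div₀]
  congr 1
  conv_lhs => rw [← Rat.num_div_den q]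
  push_cast
  rfl

lemma val_lt_one_of_dvd {ℓ : ℕ} {A : ValuationSubring Qb} (hA : A.LiesOverPrime ℓ) {m : ℤ}
    (hm : (ℓ : ℤ) ∣ m) : A.valuation ((m : ℤ) : Qb) < 1 := by
  obtain ⟨t, rfl⟩ := hm
  push_cast
  rw [map_mul]
  have h1 : A.valuation ((ℓ : ℕ) : Qb) < 1 := (ValuationSubring.mem_nonunits_iff A).mp hA
  have h2 := Fermat.Agent.S13.H64.valuation_intCast_le_one A t
  calc A.valuation ((ℓ : ℕ) : Qb) * A.valuation ((t : ℤ) : Qb)
      ≤ A.valuation ((ℓ : ℕ) : Qb) * 1 := by gcongr
    _ < 1 := by rwa [mul_one]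

/-- A rational number of valuation `1` at every valuation subring of `ℚ̄` over a prime has
square `1`. -/
theorem sq_eq_one_of_val_eq_one (t : ℚ)
    (h : ∀ (ℓ : ℕ), ℓ.Prime → ∀ A : ValuationSubring Qb, A.LiesOverPrime ℓ →
      A.valuation (algebraMap ℚ Qb t) = 1) : t ^ 2 = 1 := by
  have hnum : t.num.natAbs = 1 := by
    by_contra hne
    obtain ⟨ℓ, hℓ, hdvd⟩ := Nat.exists_prime_and_dvd hne
    obtain ⟨A, hA⟩ := Fermat.Agent.S54.exists_valuationSubring_liesOver ℓ hℓ
    have h1 := h ℓ hℓ A hA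
    rw [val_rat_eq] at h1
    have hn : A.valuation ((t.num : ℤ) : Qb) < 1 :=
      val_lt_one_of_dvd hA (Int.natCast_dvd.mpr hdvd)
    have hd : A.valuation ((t.den : ℤ) : Qb) = 1 := by
      apply Fermat.Agent.S13.H64.valuation_intCast_eq_one A ℓ hℓ hA
      intro hd
      have h2 : ℓ ∣ t.den := Int.natCast_dvd_natCast.mp hd
      have := Nat.dvd_gcd hdvd h2
      rw [t.reduced] at this
      exact hℓ.one_lt.ne' (Nat.dvd_one.mp this)
    rw [hd, div_one] at h1
    exact hn.ne h1
  have hden : t.den = 1 := by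
    by_contra hne
    obtain ⟨ℓ, hℓ, hdvd⟩ := Nat.exists_prime_and_dvd hne
    obtain ⟨A, hA⟩ := Fermat.Agent.S54.exists_valuationSubring_liesOver ℓ hℓ
    have h1 := h ℓ hℓ A hA
    rw [val_rat_eq] at h1
    have hd : A.valuation ((t.den : ℤ) : Qb) < 1 :=
      val_lt_one_of_dvd hA (Int.natCast_dvd_natCast.mpr hdvd)
    have hn : A.valuation ((t.num : ℤ) : Qb) = 1 := by
      apply Fermat.Agent.S13.H64.valuation_intCast_eq_one A ℓ hℓ hA
      intro hn
      have h2 : ℓ ∣ t.num.natAbs := Int.natCast_dvd.mp hn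
      have := Nat.dvd_gcd h2 hdvd
      rw [t.reduced] at this
      exact hℓ.one_lt.ne' (Nat.dvd_one.mp this)
    rw [hn] at h1
    have hd0 : A.valuation ((t.den : ℤ) : Qb) ≠ 0 := by
      rw [Valuation.ne_zero_iff]
      have := t.den_pos
      exact_mod_cast this.ne'
    rw [div_eq_iff hd0, one_mul] at h1
    exact hd.ne h1.symm
  have ht : t = t.num := by
    conv_lhs => rw [← Rat.num_div_den t, hden]
    simp
  rw [ht]
  rcases Int.natAbs_eq t.num with h1 | h1
  · rw [h1, hnum]; norm_num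
  · rw [h1, hnum]; norm_num

/-- Two nonzero rationals with the same valuation at every valuation subring of `ℚ̄` over a
prime have the same square. -/
theorem sq_eq_sq_of_val_eq {q₁ q₂ : ℚ} (h₂ : q₂ ≠ 0)
    (h : ∀ (ℓ : ℕ), ℓ.Prime → ∀ A : ValuationSubring Qb, A.LiesOverPrime ℓ →
      A.valuation (algebraMap ℚ Qb q₁) = A.valuation (algebraMap ℚ Qb q₂)) : q₁ ^ 2 = q₂ ^ 2 := by
  have key := sq_eq_one_of_val_eq_one (q₁ / q₂) (fun ℓ hℓ A hA => by
    rw [map_div₀, map_div₀, h ℓ hℓ A hA]
    apply div_self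
    rw [Valuation.ne_zero_iff]
    exact (map_ne_zero _).mpr h₂)
  rw [div_pow, div_eq_one_iff_eq (pow_ne_zero _ h₂)] at key
  exact key

/-! ### The glue -/

theorem piRat_of_piVal (hV : PiValStatement) : PiRatStatement := by
  intro P hp N hstab hbot htop hcof
  obtain ⟨T₀, hT₀N, hT₀⟩ := (Submodule.ne_bot_iff N).mp hbot
  refine ⟨T₀, hT₀N, hT₀, ?_⟩
  have : NeZero P.p := ⟨P.hp0⟩
  have hord := addOrderOf_eq_of_mem_torsion T₀ hT₀
  have hp0 : P.p • (T₀ : FreyPt P) = 0 := nsmul_eq_zero_of_mem_torsion T₀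
  have hinj : Function.Injective (zmodHom (T₀ : FreyPt P) hp0) := zmodHom_injective hord
  obtain ⟨r₁, hr₁⟩ := piProd_rational P N hstab htop T₀ hT₀N hT₀ 0
  obtain ⟨r₂, hr₂⟩ := piProd_rational P N hstab htop T₀ hT₀N hT₀ ((P.a : ℚ) ^ P.p / 4)
  obtain ⟨r₃, hr₃⟩ := piProd_rational P N hstab htop T₀ hT₀N hT₀ (-((P.b : ℚ) ^ P.p) / 4)
  rw [_root_.map_zero] at hr₁
  have hne₁ : piProd (T₀ : FreyPt P) P.p 0 ≠ 0 := by
    rw [← piP_zmodHom (T₀ : FreyPt P) hp0]
    exact piP_ne_zero hinj P.hp_odd (frey_fullTwo P).swap12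
  have hne₂ : piProd (T₀ : FreyPt P) P.p (eps₂ P) ≠ 0 := by
    rw [← piP_zmodHom (T₀ : FreyPt P) hp0]
    exact piP_ne_zero hinj P.hp_odd (frey_fullTwo P).rot'
  have hq₁ : r₁ ≠ 0 := by
    rintro rfl
    exact hne₁ (by rw [← hr₁, _root_.map_zero])
  have hq₂ : r₂ ≠ 0 := by
    rintro rfl
    apply hne₂
    rw [eps₂, ← hr₂, _root_.map_zero]
  refine ⟨r₁, r₂, r₃, hq₁, hr₁.symm, hr₂.symm, hr₃.symm, ?_, ?_⟩
  · apply sq_eq_sq_of_val_eq hq₁
    intro ℓ hℓ A hA
    have := (hV P hp N hstab hbot htop hcof T₀ hT₀N hT₀ ℓ hℓ A hA).1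
    rw [hr₃, hr₁]
    exact this
  · have h16 : (16 : ℚ) ^ (P.p - 1) * r₂ ^ 2 = (4 ^ (P.p - 1) * r₂) ^ 2 := by
      rw [mul_pow, ← pow_mul, mul_comm (P.p - 1) 2, pow_mul]
      norm_num
    rw [h16]
    apply sq_eq_sq_of_val_eq (mul_ne_zero (pow_ne_zero _ (by norm_num)) hq₂)
    intro ℓ hℓ A hA
    have := (hV P hp N hstab hbot htop hcof T₀ hT₀N hT₀ ℓ hℓ A hA).2
    rw [map_mul, map_mul, map_pow, map_pow, hr₁, hr₂]
    have h4 : (algebraMap ℚ Qb) 4 = (4 : Qb) := by simp
    rw [h4]
    exact this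

/-- **Row S12, one-step route**: frozen S12 from the local node `PiValStatement`. -/
theorem s12_of_piVal (hV : PiValStatement) (P : FreyPackage) (hp : 17 ≤ P.p) :
    ¬ HasGaloisStableCofixedLine (K := AlgebraicClosure ℚ) ℚ P.freyCurve P.p :=
  s12_of_piRat (piRat_of_piVal hV) P hp

end Fermat.Agent.S12.H291

end
end
-- ===== PACK-END S12/H291/PiRat.lean

-- ===== PACK-BEGIN S12/H291/Local.lean
section



/-!
# S12 one-step route: the four LOCAL leaves and the final glue (helper291)

For a cofixed line `N` of the Frey curve, a nonzero `T ∈ N`, a prime `ℓ` and a valuation subring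
`A` of `ℚ̄` over `ℓ`, the **term statement** is

  `v_A(x_T - ε₃) = v_A(x_T)`  and  `v_A(x_T) = v_A(4) · v_A(x_T - ε₂)`        (`TermAt`)

(`ε₂ = a^p/4`, `ε₃ = -b^p/4`).  It holds
* at `ℓ = 2`      because `N` is the toric line there (`x_T` is a unit, `v(ε₂) = v(4)⁻¹`, `v(ε₃) < 1`);
* at `ℓ = p`      because `N` lies in the kernel of reduction (`v(x_T) > 1`);
* at good `ℓ`     because `T`, `T ± E_j` have order prime to `ℓ` (all three differences are units);
* at bad odd `ℓ ≠ p` because `N` is the toric line — THIS is where frozen S15 is used.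

`s12_of_leaves : S15Statement → Loc2 → LocP → LocGood → LocBad → frozen S12`, sorry-free.
-/

set_option autoImplicit false
set_option linter.unusedSectionVars false

noncomputable section

open WeierstrassCurve WeierstrassCurve.Affine WeierstrassCurve.Affine.Point

namespace Fermat.Agent.S12.H291

/-- The frozen statement S15 (Mazur's Step 3), as a proposition. -/
def S15Statement : Prop :=
  ∀ {p : ℕ} (_ : p.Prime) (_ : p ∉ ({2, 3, 5, 7, 13} : Finset ℕ))
    (W : WeierstrassCurve ℤ) (_ : W.Δ ≠ 0)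
    (Q : ((W.map (Int.castRingHom ℚ))⁄(AlgebraicClosure ℚ)).Point)
    (_ : ∀ σ : AlgebraicClosure ℚ ≃ₐ[ℚ] AlgebraicClosure ℚ, σ • Q = Q)
    (_ : addOrderOf Q = p)
    (_ : (2 : ℤ) ∣ W.Δ) (_ : ¬ (2 : ℤ) ∣ W.c₄)
    (_ : ∀ A : ValuationSubring (AlgebraicClosure ℚ), A.LiesOverPrime 2 →
      ¬ W.InZeroComponentAt A Q)
    (_ : (3 : ℤ) ∣ W.Δ) (_ : ¬ (3 : ℤ) ∣ W.c₄)
    (_ : ∀ A : ValuationSubring (AlgebraicClosure ℚ), A.LiesOverPrime 3 →
      ¬ W.InZeroComponentAt A Q)
    {ℓ : ℕ} (_ : ℓ.Prime) (_ : ℓ ≠ p) (_ : (ℓ : ℤ) ∣ W.Δ) (_ : ¬ (ℓ : ℤ) ∣ W.c₄)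
    (A : ValuationSubring (AlgebraicClosure ℚ)) (_ : A.LiesOverPrime ℓ),
    ¬ W.InZeroComponentAt A Q

/-- The term statement at `A` for the point `T`. -/
def TermAt (P : FreyPackage) (A : ValuationSubring Qb) (T : FreyPt P) : Prop :=
  A.valuation (xc T - eps₃ P) = A.valuation (xc T - 0) ∧
    A.valuation (xc T - 0) = A.valuation (4 : Qb) * A.valuation (xc T - eps₂ P)

/-- The hypotheses on the line `N`: a cofixed line of the Frey representation. -/
structure IsCofixedLine (P : FreyPackage)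
    (N : Submodule (ZMod P.p) (Submodule.torsionBy ℤ (FreyPt P) P.p)) : Prop where
  stable : IsGaloisStable (K := Qb) ℚ N
  ne_bot : N ≠ ⊥
  ne_top : N ≠ ⊤
  cofixed : ∀ σ : Qb ≃ₐ[ℚ] Qb, ∀ x : Submodule.torsionBy ℤ (FreyPt P) P.p, σ • x - x ∈ N

/-- **LEAF Loc2**: the term statement at `ℓ = 2`. -/
def Loc2Statement : Prop :=
  ∀ (P : FreyPackage), 17 ≤ P.p →
    ∀ N : Submodule (ZMod P.p) (Submodule.torsionBy ℤ (FreyPt P) P.p), IsCofixedLine P N →
    ∀ T : Submodule.torsionBy ℤ (FreyPt P) P.p, T ∈ N → T ≠ 0 →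
    ∀ A : ValuationSubring Qb, A.LiesOverPrime 2 → TermAt P A (T : FreyPt P)

/-- **LEAF LocP**: the term statement at `ℓ = p`. -/
def LocPStatement : Prop :=
  ∀ (P : FreyPackage), 17 ≤ P.p →
    ∀ N : Submodule (ZMod P.p) (Submodule.torsionBy ℤ (FreyPt P) P.p), IsCofixedLine P N →
    ∀ T : Submodule.torsionBy ℤ (FreyPt P) P.p, T ∈ N → T ≠ 0 →
    ∀ A : ValuationSubring Qb, A.LiesOverPrime P.p → TermAt P A (T : FreyPt P)

/-- **LEAF LocGood**: the term statement at the primes `ℓ ∤ 2·p·abc`. -/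
def LocGoodStatement : Prop :=
  ∀ (P : FreyPackage), 17 ≤ P.p →
    ∀ N : Submodule (ZMod P.p) (Submodule.torsionBy ℤ (FreyPt P) P.p), IsCofixedLine P N →
    ∀ T : Submodule.torsionBy ℤ (FreyPt P) P.p, T ∈ N → T ≠ 0 →
    ∀ (ℓ : ℕ), ℓ.Prime → ℓ ≠ 2 → ℓ ≠ P.p → ¬ (ℓ : ℤ) ∣ P.a * P.b * P.c →
    ∀ A : ValuationSubring Qb, A.LiesOverPrime ℓ → TermAt P A (T : FreyPt P)

/-- **LEAF LocBad** (the only place where frozen S15 is used): the term statement at the odd
primes `ℓ ≠ p` dividing `abc`. -/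
def LocBadStatement : Prop :=
  S15Statement →
  ∀ (P : FreyPackage), 17 ≤ P.p →
    ∀ N : Submodule (ZMod P.p) (Submodule.torsionBy ℤ (FreyPt P) P.p), IsCofixedLine P N →
    ∀ T : Submodule.torsionBy ℤ (FreyPt P) P.p, T ∈ N → T ≠ 0 →
    ∀ (ℓ : ℕ), ℓ.Prime → ℓ ≠ 2 → ℓ ≠ P.p → (ℓ : ℤ) ∣ P.a * P.b * P.c →
    ∀ A : ValuationSubring Qb, A.LiesOverPrime ℓ → TermAt P A (T : FreyPt P)

/-- The local node `PiValStatement` from the term statement at every `A`. -/
theorem piVal_of_termAt
    (h : ∀ (P : FreyPackage), 17 ≤ P.p →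
      ∀ N : Submodule (ZMod P.p) (Submodule.torsionBy ℤ (FreyPt P) P.p), IsCofixedLine P N →
      ∀ T : Submodule.torsionBy ℤ (FreyPt P) P.p, T ∈ N → T ≠ 0 →
      ∀ (ℓ : ℕ), ℓ.Prime → ∀ A : ValuationSubring Qb, A.LiesOverPrime ℓ →
        TermAt P A (T : FreyPt P)) : PiValStatement := by
  intro P hp N hstab hbot htop hcof T₀ hT₀N hT₀ ℓ hℓ A hA
  have hN : IsCofixedLine P N := ⟨hstab, hbot, htop, hcof⟩
  have hord := addOrderOf_eq_of_mem_torsion T₀ hT₀
  have hterm : ∀ k ∈ Finset.Ico 1 P.p, TermAt P A (k • (T₀ : FreyPt P)) := by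
    intro k hk
    rw [Finset.mem_Ico] at hk
    have hkN : k • T₀ ∈ N := N.nsmul_mem hT₀N k
    have hk0 : k • T₀ ≠ 0 := by
      intro h0
      have h1 : k • (T₀ : FreyPt P) = 0 := by
        have := congrArg Subtype.val h0
        exact this
      have h2 := addOrderOf_dvd_of_nsmul_eq_zero h1
      rw [hord] at h2
      have := Nat.le_of_dvd (by omega) h2
      omega
    exact h P hp N hN (k • T₀) hkN hk0 ℓ hℓ A hA
  simp only [piProd, map_prod]
  refine ⟨Finset.prod_congr rfl fun k hk => (hterm k hk).1, ?_⟩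
  have hcard : (Finset.Ico 1 P.p).card = P.p - 1 := by simp
  rw [← hcard, ← Finset.prod_const, ← Finset.prod_mul_distrib]
  exact Finset.prod_congr rfl fun k hk => (hterm k hk).2

/-- **Row S12, one-step route, FINAL GLUE**: frozen S12 from frozen S15 and the four local
leaves. -/
theorem s12_of_leaves (hS15 : S15Statement) (h2 : Loc2Statement) (hP : LocPStatement)
    (hG : LocGoodStatement) (hB : LocBadStatement) (P : FreyPackage) (hp : 17 ≤ P.p) :
    ¬ HasGaloisStableCofixedLine (K := AlgebraicClosure ℚ) ℚ P.freyCurve P.p := by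
  refine s12_of_piVal (piVal_of_termAt ?_) P hp
  intro P hp N hN T hTN hT ℓ hℓ A hA
  by_cases hℓ2 : ℓ = 2
  · subst hℓ2
    exact h2 P hp N hN T hTN hT A hA
  by_cases hℓp : ℓ = P.p
  · subst hℓp
    exact hP P hp N hN T hTN hT A hA
  by_cases hdvd : (ℓ : ℤ) ∣ P.a * P.b * P.c
  · exact hB hS15 P hp N hN T hTN hT ℓ hℓ hℓ2 hℓp hdvd A hA
  · exact hG P hp N hN T hTN hT ℓ hℓ hℓ2 hℓp hdvd A hA

end Fermat.Agent.S12.H291

end
end
-- ===== PACK-END S12/H291/Local.lean

-- ===== PACK-BEGIN G1/H3/NoFix/SS.lean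
section


/-!
# GLUE / Part T (helper3): NF3-SS — `NoFix3` for models supersingular at `3`

`W` an integral Weierstrass model with `3 ∤ Δ` and `3 ∣ b₂` (good supersingular reduction at `3`).
Then `b₈` is prime to `3` (`Δ ≡ b₄³`, `4 b₈ ≡ - b₄²` modulo `3`), so a root `X` of
`ψ₃ = 3 x⁴ + b₂ x³ + 3 b₄ x² + 3 b₆ x + b₈` satisfies `v(3) v(X)⁴ = 1`: the `x`-coordinate of a
nonzero point of order `3` is ramified of index `4`, hence is not fixed by inertia.

* `nofix3_of_supersingular : ¬ 3 ∣ W.Δ → 3 ∣ W.b₂ → Glue.NoFix3 W`.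
-/

set_option autoImplicit false

open WeierstrassCurve WeierstrassCurve.Affine WeierstrassCurve.Affine.Point

namespace Fermat.Agent.G1.H3

/-- `ℚ̄` (local abbreviation). -/
local notation "Qb" => AlgebraicClosure ℚ

/-- For a model with `3 ∤ Δ` and `3 ∣ b₂`, `b₈` is prime to `3`. -/
theorem b8_not_dvd_of_supersingular (W : WeierstrassCurve ℤ) (hΔ : ¬ (3 : ℤ) ∣ W.Δ)
    (hb2 : (3 : ℤ) ∣ W.b₂) : ¬ (3 : ℤ) ∣ W.b₈ := by
  intro hb8
  obtain ⟨c, hc⟩ := hb2
  obtain ⟨d, hd⟩ := hb8
  -- `b₄² = b₂ b₆ - 4 b₈` is divisible by `3`, hence so is `b₄`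
  have h4 : (3 : ℤ) ∣ W.b₄ ^ 2 := by
    have hrel := W.b_relation
    refine ⟨c * W.b₆ - 4 * d, ?_⟩
    linear_combination hrel + W.b₆ * hc - 4 * hd
  have h4' : (3 : ℤ) ∣ W.b₄ := Int.prime_three.dvd_of_dvd_pow h4
  obtain ⟨e, he⟩ := h4'
  apply hΔ
  refine ⟨-(3 * c ^ 2 * W.b₈) - 72 * e ^ 3 - 9 * W.b₆ ^ 2 + 27 * c * e * W.b₆, ?_⟩
  simp only [WeierstrassCurve.Δ]
  rw [hc, he]
  ring

variable (A : ValuationSubring Qb)

/-- The Newton polygon of `ψ₃` in the supersingular case: a single slope `-1/4`. -/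
theorem val_root_supersingular (hA : A.LiesOverPrime 3) (b₂' b₄ b₆ b₈ : ℤ)
    (hb8 : ¬ (3 : ℤ) ∣ b₈) (X : Qb)
    (hX : 3 * X ^ 4 + (3 * (b₂' : Qb)) * X ^ 3 + 3 * (b₄ : Qb) * X ^ 2 + 3 * (b₆ : Qb) * X
      + (b₈ : Qb) = 0) :
    A.valuation (3 : Qb) * A.valuation X ^ 4 = 1 := by
  set v := A.valuation with hv
  have key : (3 : Qb) * (X ^ 4 + ((b₂' : Qb) * X ^ 3 + ((b₄ : Qb) * X ^ 2 + (b₆ : Qb) * X)))
      = -(b₈ : Qb) := by linear_combination hX
  have hval : v 3 * v (X ^ 4 + ((b₂' : Qb) * X ^ 3 + ((b₄ : Qb) * X ^ 2 + (b₆ : Qb) * X))) = 1 := by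
    rw [← map_mul, key, Valuation.map_neg]
    exact val_int_eq_one A hA b₈ hb8
  have hterm : ∀ (b : ℤ) (k : ℕ), v ((b : Qb) * X ^ k) ≤ v X ^ k := by
    intro b k
    rw [map_mul, map_pow]
    calc v (b : Qb) * v X ^ k ≤ 1 * v X ^ k := mul_le_mul_left (val_int_le_one A b) _
      _ = v X ^ k := one_mul _
  have hterm1 : v ((b₆ : Qb) * X) ≤ v X ^ 1 := by
    have := hterm b₆ 1
    rwa [pow_one] at this
  by_cases hX1 : v X ≤ 1
  · exfalso
    have hp : ∀ k : ℕ, v X ^ k ≤ 1 := fun k => pow_le_one₀ zero_le hX1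
    have hg : v (X ^ 4 + ((b₂' : Qb) * X ^ 3 + ((b₄ : Qb) * X ^ 2 + (b₆ : Qb) * X))) ≤ 1 := by
      refine Valuation.map_add_le v ?_ (Valuation.map_add_le v ?_ (Valuation.map_add_le v ?_ ?_))
      · rw [map_pow]; exact hp 4
      · exact (hterm b₂' 3).trans (hp 3)
      · exact (hterm b₄ 2).trans (hp 2)
      · exact hterm1.trans (hp 1)
    have : v 3 * v (X ^ 4 + ((b₂' : Qb) * X ^ 3 + ((b₄ : Qb) * X ^ 2 + (b₆ : Qb) * X))) < 1 :=
      calc v 3 * v (X ^ 4 + ((b₂' : Qb) * X ^ 3 + ((b₄ : Qb) * X ^ 2 + (b₆ : Qb) * X)))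
          ≤ v 3 * 1 := mul_le_mul_right hg _
        _ < 1 := by rw [mul_one]; exact val_three_lt_one A hA
    rw [hval] at this
    exact lt_irrefl _ this
  · rw [not_le] at hX1
    have hlt : ∀ k : ℕ, k < 4 → v X ^ k < v X ^ 4 := fun k hk => pow_lt_pow_right₀ hX1 hk
    have hrest : v ((b₂' : Qb) * X ^ 3 + ((b₄ : Qb) * X ^ 2 + (b₆ : Qb) * X)) < v (X ^ 4) := by
      rw [map_pow]
      refine Valuation.map_add_lt v ?_ (Valuation.map_add_lt v ?_ ?_)
      · exact (hterm b₂' 3).trans_lt (hlt 3 (by norm_num))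
      · exact (hterm b₄ 2).trans_lt (hlt 2 (by norm_num))
      · exact hterm1.trans_lt (hlt 1 (by norm_num))
    rw [Valuation.map_add_eq_of_lt_left v hrest, map_pow] at hval
    exact hval

/-- **NF3-SS**: a model with good supersingular reduction at `3` has no inertia-fixed point of
order `3`. -/
theorem nofix3_of_supersingular (W : WeierstrassCurve ℤ) (hΔ : ¬ (3 : ℤ) ∣ W.Δ)
    (hb2 : (3 : ℤ) ∣ W.b₂) : Fermat.Agent.Glue.NoFix3 W := by
  intro A hA x hfix
  by_contra hx
  obtain ⟨X, Y, hXfix, -, -, hpsi⟩ := exists_fixed_point A W x hx hfix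
  have hb8 := b8_not_dvd_of_supersingular W hΔ hb2
  obtain ⟨c, hc⟩ := hb2
  have hpsi' : 3 * X ^ 4 + (3 * (c : Qb)) * X ^ 3 + 3 * (W.b₄ : Qb) * X ^ 2
      + 3 * (W.b₆ : Qb) * X + (W.b₈ : Qb) = 0 := by
    have hc' : (W.b₂ : Qb) = 3 * (c : Qb) := by rw [hc]; push_cast; ring
    rw [← hc']
    exact hpsi
  have hroot := val_root_supersingular A hA c W.b₄ W.b₆ W.b₈ hb8 X hpsi'
  have hX0 : X ≠ 0 := by
    rintro rfl
    rw [_root_.map_zero, zero_pow (by norm_num), mul_zero] at hroot
    exact zero_ne_one hroot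
  obtain ⟨n, hn⟩ := val_eq_zpow_of_fixed A hA X hX0 hXfix
  rw [hn] at hroot
  have h3 := val_three_ne_zero A
  have hz : A.valuation (3 : Qb) ^ (1 + 4 * n) = 1 := by
    rw [zpow_add₀ h3, zpow_one, zpow_mul', ← hroot]
    norm_cast
  have := zpow_three_eq_one A hA hz
  omega

end Fermat.Agent.G1.H3

end
-- ===== PACK-END G1/H3/NoFix/SS.lean

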