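import Fermat.Prelude.Def_ModularCurve_ModularUnit
import Fermat.Prelude.Thm_ModularCurve_coeffMap_qExpand
import Fermat.Prelude.Def_ModularCurve_X0ModL
import Fermat.Prelude.Def_ModularCurve_ArithmeticGalois
import Mathlib.GroupTheory.CosetCover
import Mathlib
import Fermat.Prelude.Def_ModularForm_EisensteinChiNegThree
import Fermat.Prelude.Def_FLTPrelim_Modularity
import Fermat.Agent.Pack.S44C.G0E23L0
import Fermat.Agent.Pack.L1.E2L3
import Fermat.Agent.Pack.S43MC.G0E18L0
import Fermat.Agent.Pack.S44C.G0E20L3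
import Fermat.Agent.Pack.S44C.G0E24L2
import Fermat.Agent.Pack.L1.E4L3
import Fermat.Agent.Pack.S44C.G0E23L2
import Fermat.Agent.Pack.L1.E5L1
import Fermat.Agent.Pack.L1.E5L2
import Fermat.Agent.Pack.L1.E5L3
import Fermat.Agent.Pack.S43MC.G0E20L1
import Fermat.Agent.Pack.S44C.G0E22L3
import Fermat.Agent.Pack.L1.E0L0
import Fermat.Agent.Pack.L1.E2L1
import Fermat.Agent.Pack.S43MC.G0E21L2
import Fermat.Agent.Pack.L1.E5L0
import Fermat.Agent.Pack.L1.E2L2

-- ===== PACK-BEGIN S15/H242/OggFricke.lean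
section






/-!
# S15 / CUSP, node C9a (helper242): the Fricke involution and the modular unit

`u = Δ(q)/Δ(q^N)` (`ModularCurve.modularUnitSeries N`).  If `u` lies in the function field
`FF N = ℚ̄(X₀(N))`, then the Fricke involution `w_N = A2.H528.wF N` satisfies

  `w_N(u) · u = N ^ 12`.

Proof: analytic realisation.  `U(τ) = Δ(τ)/Δ(Nτ)` has the `q`-expansion `u`
(`infExp_unitFun`), and `U(-1/(Nτ)) = N¹² / U(τ)` since `Δ` has weight `12`
(`unitFun_fricke`).  Writing `u = r/s` with `r, s ∈ R_N = ℚ̄[j(q^d)]`, the analytic bridge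
`toFun` of helper528/helper997 gives `toFun r = U · toFun s`, and the claim follows from
`toFun (w r) = toFun r ∘ fricke` and the injectivity of `toFun`.
-/

set_option autoImplicit false

noncomputable section

open ModularCurve HahnSeries UpperHalfPlane
open scoped MatrixGroups Real

namespace Fermat.Agent.S15.H242

open Fermat.Agent.S24 Fermat.Agent.S24.H997 Fermat.Agent.A2.H528

local notation "Δ" => ModularForm.discriminant

/-! ### The `q`-expansions of `Δ` and `1/Δ` -/

/-- The complex Laurent series of `Δ`. -/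
def deltaC : LaurentSeries ℂ := coeffEmb ℂ deltaSeries

theorem map_dedekindEtaUnitQ :
    PowerSeries.map (algebraMap ℚ ℂ) dedekindEtaUnitQ
      = PowerSeries.map (Int.castRingHom ℂ) dedekindEtaUnit := by
  rw [dedekindEtaUnitQ]
  ext n
  simp [PowerSeries.coeff_map]

theorem deltaC_eq :
    deltaC = single (1 : ℤ) (1 : ℂ) *
      ofPowerSeries ℤ ℂ (PowerSeries.map (Int.castRingHom ℂ) dedekindEtaUnit) := by
  rw [deltaC, deltaSeries, map_mul, coeffEmb, coeffMap_single, map_one, coeffMap_ofPowerSeries,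
    map_dedekindEtaUnitQ]

/-- The complex Laurent series of `1/Δ`. -/
def deltaInvC : LaurentSeries ℂ :=
  single (-1 : ℤ) (1 : ℂ) *
    ofPowerSeries ℤ ℂ (PowerSeries.map (Int.castRingHom ℂ) dedekindEtaUnitInv)

theorem deltaC_mul_deltaInvC : deltaC * deltaInvC = 1 := by
  rw [deltaC_eq, deltaInvC, mul_mul_mul_comm, single_mul_single, ← map_mul, ← map_mul,
    dedekindEtaUnit_mul_inv]
  simp

theorem deltaC_ne_zero : deltaC ≠ 0 := fun h => by
  have := deltaC_mul_deltaInvC
  rw [h, zero_mul] at this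
  exact zero_ne_one this

theorem deltaInvC_eq : deltaInvC = deltaC⁻¹ :=
  eq_inv_of_mul_eq_one_right deltaC_mul_deltaInvC

theorem infZ_one (τ : ℍ) : infZ 1 τ = Function.Periodic.qParam 1 (τ : ℂ) := by
  simp [infZ]

theorem infExp_discriminant : InfExp 1 (fun τ : ℍ => Δ τ) deltaC := by
  have h : InfPExp 1 (fun τ : ℍ => (∏' n : ℕ, (1 - infZ 1 τ ^ (n + 1))) ^ 24)
      (PowerSeries.map (Int.castRingHom ℂ) dedekindEtaUnit) := fun τ =>
    H902.ev_dedekindEtaUnit (norm_infZ_lt_one 1 τ)
  have h1 := h.infExp 1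
  rw [← deltaC_eq] at h1
  refine h1.congr fun τ => ?_
  rw [H902.discriminant_eq_q_mul_eulerFn_pow, zpow_one, infZ_one]

theorem infExp_discriminant_inv : InfExp 1 (fun τ : ℍ => (Δ τ)⁻¹) deltaC⁻¹ := by
  have h : InfPExp 1 (fun τ : ℍ => ((∏' n : ℕ, (1 - infZ 1 τ ^ (n + 1))) ^ 24)⁻¹)
      (PowerSeries.map (Int.castRingHom ℂ) dedekindEtaUnitInv) := fun τ =>
    H902.ev_dedekindEtaUnitInv (norm_infZ_lt_one 1 τ)
  have h1 := h.infExp (-1)
  rw [← deltaInvC, deltaInvC_eq] at h1
  refine h1.congr fun τ => ?_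
  rw [H902.discriminant_eq_q_mul_eulerFn_pow, zpow_neg_one, infZ_one, mul_inv]

/-! ### The analytic modular unit -/

variable (N : ℕ) [NeZero N]

/-- `U(τ) = Δ(τ) / Δ(Nτ)`. -/
def unitFun (τ : ℍ) : ℂ := Δ τ * (Δ (infAff N 0 1 τ))⁻¹

/-- The complex Laurent series of the modular unit. -/
def unitC : LaurentSeries ℂ := coeffEmb ℂ (modularUnitSeries N)

theorem unitC_eq : unitC N = deltaC * qExpand ℂ N deltaC⁻¹ := by
  rw [unitC, modularUnitSeries, map_mul, map_inv₀, deltaSeriesN, coeffEmb, coeffMap_qExpand,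
    map_inv₀]
  rfl

theorem infExp_unitFun : InfExp 1 (unitFun N) (unitC N) := by
  have hN : 0 < N := Nat.pos_of_ne_zero (NeZero.ne N)
  have h2 := infExp_discriminant_inv.comp_infAff (M := 1) (N := 1) (a := N) (d := 1) (e := N)
    0 hN one_pos one_pos one_pos (by ring)
  rw [infRoot_zero, infTwist_one] at h2
  rw [unitC_eq]
  exact infExp_discriminant.mul h2

/-- the expansion in the variable `exp(2πiτ/N)` -/
theorem infExp_unitFun_level : InfExp N (unitFun N) (qExpand ℂ N (unitC N)) := by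
  have hN : 0 < N := Nat.pos_of_ne_zero (NeZero.ne N)
  have h := (infExp_unitFun N).comp_infAff (M := 1) (N := N) (a := 1) (d := 1) (e := N)
    0 one_pos one_pos one_pos hN (by ring)
  rw [infRoot_zero, infTwist_one] at h
  refine h.congr fun τ => ?_
  rw [infAff_one_zero_one]

theorem discriminant_ne_zero' (τ : ℍ) : Δ τ ≠ 0 := ModularForm.discriminant_ne_zero τ

omit [NeZero N] in
theorem unitFun_ne_zero (τ : ℍ) : unitFun N τ ≠ 0 :=
  mul_ne_zero (discriminant_ne_zero' τ) (inv_ne_zero (discriminant_ne_zero' _))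

/-! ### The Fricke transformation of the unit -/

theorem infAff_fricke (τ : ℍ) : infAff N 0 1 (fricke N τ) = ModularGroup.S • τ := by
  have hN : 0 < N := Nat.pos_of_ne_zero (NeZero.ne N)
  apply UpperHalfPlane.ext
  rw [infAff_coe hN one_pos, fricke_coe, UpperHalfPlane.modular_S_smul]
  show _ = (-(τ : ℂ))⁻¹
  have hNc : (N : ℂ) ≠ 0 := by exact_mod_cast hN.ne'
  have hτ : (τ : ℂ) ≠ 0 := UpperHalfPlane.ne_zero τ
  simp only [Int.cast_zero, add_zero, Nat.cast_one, div_one]
  field_simp

theorem unitFun_fricke (τ : ℍ) :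
    unitFun N (fricke N τ) = (N : ℂ) ^ 12 * (unitFun N τ)⁻¹ := by
  have hN : 0 < N := Nat.pos_of_ne_zero (NeZero.ne N)
  have hNc : (N : ℂ) ≠ 0 := by exact_mod_cast hN.ne'
  have hτ : (τ : ℂ) ≠ 0 := UpperHalfPlane.ne_zero τ
  have h1 : Δ (fricke N τ) = ((N : ℂ) * τ) ^ 12 * Δ (infAff N 0 1 τ) := by
    rw [fricke, JFun.discriminant_smul, ModularGroup.denom_S, infAff_coe hN one_pos]
    simp only [Int.cast_zero, add_zero, Nat.cast_one, div_one]
    norm_cast
  have h2 : Δ (infAff N 0 1 (fricke N τ)) = (τ : ℂ) ^ 12 * Δ τ := by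
    rw [infAff_fricke, JFun.discriminant_smul, ModularGroup.denom_S]
    norm_cast
  have hΔ := discriminant_ne_zero' τ
  have hΔ' := discriminant_ne_zero' (infAff N 0 1 τ)
  rw [unitFun, unitFun, h1, h2]
  field_simp

/-! ### The algebraic statement -/

/-- the analytic function of an element of `R_N` has the expected expansion -/
theorem infExp_toFun (r : RN N) :
    InfExp N (toFun N r) (qExpand ℂ N (coeffMap ιK (r : LaurentSeries Kbar))) := by
  have h := expInf_spec (holToExp N ((holBase N).bridge r))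
  have h2 : expInf N (holToExp N ((holBase N).bridge r))
      = qExpand ℂ N (coeffMap ιK (r : LaurentSeries Kbar)) :=
    (holBase N).qexp_bridge r
  rw [h2] at h
  exact h

theorem coeffMap_ιK_coeffEmb (x : LaurentSeries ℚ) :
    coeffMap ιK (coeffEmb Kbar x) = coeffEmb ℂ x := by
  rw [coeffEmb, coeffMap_coeffMap, coeffEmb]
  refine coeffMap_congr (RingHom.ext fun c => ?_) x
  exact ιK_algebraMap c

/-- **C9a (core).**  If the modular unit `u = Δ(q)/Δ(q^N)` lies in `ℚ̄(X₀(N))`, then
`w_N(u) · u = N¹²`. -/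
theorem wF_mul_self_of_coe_eq (u : FF N)
    (hu : (u : LaurentSeries Kbar) = coeffEmb Kbar (modularUnitSeries N)) :
    wF N u * u = algebraMap Kbar (FF N) ((N : Kbar) ^ 12) := by
  obtain ⟨r, s, hs, hrs⟩ := exists_div_inclRN N u
  have hs' : inclRN N s ≠ 0 := fun h => hs ((inclRN_injective N) (by rw [h, map_zero]))
  -- in Laurent series: `r = u * s`
  have hL : (r : LaurentSeries Kbar) = coeffEmb Kbar (modularUnitSeries N)
      * (s : LaurentSeries Kbar) := by
    have h1 : inclRN N r = u * inclRN N s := by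
      rw [hrs, div_mul_cancel₀ _ hs']
    have h2 := congrArg (fun f : FF N => (f : LaurentSeries Kbar)) h1
    rw [← hu]
    exact h2
  -- analytic: `toFun r = U * toFun s`
  have hA : toFun N r = fun τ => unitFun N τ * toFun N s τ := by
    have e1 := infExp_toFun N r
    have e2 := (infExp_unitFun_level N).mul (infExp_toFun N s)
    rw [hL, map_mul, map_mul, coeffMap_ιK_coeffEmb] at e1
    exact e1.fun_unique e2
  -- apply the Fricke map
  have hB : toFun N (wR N r) = fun τ => (N : ℂ) ^ 12 * (unitFun N τ)⁻¹ * toFun N (wR N s) τ := by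
    rw [toFun_wR, toFun_wR, hA]
    funext τ
    simp only [compW_apply]
    rw [unitFun_fricke]
  have hC : toFun N (r * wR N r)
      = toFun N (algebraMap Kbar (RN N) ((N : Kbar) ^ 12) * (s * wR N s)) := by
    rw [map_mul, map_mul, map_mul, toFun_algebraMap, hB, hA]
    funext τ
    have hU := unitFun_ne_zero N τ
    show unitFun N τ * toFun N s τ * ((N : ℂ) ^ 12 * (unitFun N τ)⁻¹ * toFun N (wR N s) τ)
      = ιK ((N : Kbar) ^ 12) * (toFun N s τ * toFun N (wR N s) τ)
    rw [map_pow, map_natCast]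
    field_simp
  have hD : r * wR N r = algebraMap Kbar (RN N) ((N : Kbar) ^ 12) * (s * wR N s) :=
    toFun_injective N hC
  have hws : inclRN N (wR N s) ≠ 0 := fun h =>
    hs ((wR_injective N) ((inclRN_injective N) (by rw [h, map_zero, map_zero])))
  have hE := congrArg (inclRN N) hD
  rw [map_mul, map_mul, map_mul, AlgHom.commutes] at hE
  rw [hrs, wF_apply, map_div₀, wFHom_inclRN, wFHom_inclRN, div_mul_div_comm,
    div_eq_iff (mul_ne_zero hws hs')]
  rw [mul_comm (inclRN N (wR N r)) (inclRN N r), hE]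
  ring

end Fermat.Agent.S15.H242

end
end
-- ===== PACK-END S15/H242/OggFricke.lean

-- ===== PACK-BEGIN S17/H80/GenusZero.lean
section





/-!
# S17, piece G0 (helper80): genus zero

For a function field `F / K` with all places of degree one (`FF1 K F`):

* `pic0_eq_zero_of_genusFF_eq_zero` : if `genusFF K F = 0` then `Pic⁰(F) = 0`;
* `subsingleton_pic0_iff_genusFF_eq_zero`-direction `←` as an instance-free statement
  `subsingleton_pic0_of_genusFF_eq_zero`;
* `fg_fixedPoints_of_genusFF_eq_zero` : the S17 conclusion for every level `N` with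
  `genusFF ℚ̄ ℚ̄(X₀(N)) = 0`.

The remaining input for `N = 5, 7, 13` is `genusFF = 0` for these levels, i.e. the comparison of
the adelic genus `genusFF` with the Riemann–Hurwitz (Kähler) genus computed in S24.
-/

set_option autoImplicit false

noncomputable section

namespace Fermat.Agent.S17.H80

open AlgebraicCurve ModularCurve Fermat.Agent.Lib.RR

variable {K F : Type*} [Field K] [Field F] [Algebra K F]

/-- In genus zero (Riemann genus) every class of degree zero is trivial. -/
theorem pic0_eq_zero_of_genusR_eq_zero [FF1 K F] (hg : genusR K F = 0) (x : Pic0 K F) :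
    x = 0 := by
  obtain ⟨vinf⟩ := FF1.nonempty_place (K := K) (F := F)
  have key : ∀ y : Pic0 K F, H680.minRep vinf y = 0 := by
    intro y
    have h1 : H680.minDeg vinf y = 0 := by
      have := H680.minDeg_le_genus vinf y
      omega
    have h2 : Divisor.degree (H680.minRep vinf y) = 0 := by
      rw [H680.degree_minRep, h1]
      rfl
    exact H680.eq_zero_of_nonneg_of_degree_eq_zero (H680.minRep_nonneg vinf y) h2
  exact H680.minRep_injective (vinf := vinf) ((key x).trans (key 0).symm)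

/-- In genus zero every class of degree zero is trivial. -/
theorem pic0_eq_zero_of_genusFF_eq_zero [FF1 K F] (hg : genusFF K F = 0) (x : Pic0 K F) :
    x = 0 :=
  pic0_eq_zero_of_genusR_eq_zero (by rw [← genusFF_eq_genusR]; exact hg) x

/-- In genus zero `Pic⁰` is trivial. -/
theorem subsingleton_pic0_of_genusFF_eq_zero [FF1 K F] (hg : genusFF K F = 0) :
    Subsingleton (Pic0 K F) :=
  ⟨fun x y => (pic0_eq_zero_of_genusFF_eq_zero hg x).trans
    (pic0_eq_zero_of_genusFF_eq_zero hg y).symm⟩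

/-- In genus zero every divisor of degree zero is principal. -/
theorem isPrincipal_of_genusFF_eq_zero [FF1 K F] (hg : genusFF K F = 0)
    (D : Divisor K F) (hD : Divisor.degree D = 0) : Divisor.IsPrincipal D := by
  have h := pic0_eq_zero_of_genusFF_eq_zero hg (Pic0.mk ⟨D, hD⟩)
  have h2 := (QuotientAddGroup.eq_zero_iff (⟨D, hD⟩ : Divisor.degZero (K := K) (F := F))).mp h
  exact h2

/-- **G0**: Mordell–Weil for the levels of genus zero. -/
theorem fg_fixedPoints_of_genusFF_eq_zero (N : ℕ) [NeZero N]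
    (hg : genusFF (AlgebraicClosure ℚ) (modularFunctionFieldBar N) = 0) :
    AddGroup.FG ↥(FixedPoints.addSubgroup
      ((AlgebraicClosure ℚ) ≃ₐ[ℚ] (AlgebraicClosure ℚ)) (JZero N)) := by
  have : Subsingleton (JZero N) := subsingleton_pic0_of_genusFF_eq_zero hg
  have : Finite ↥(FixedPoints.addSubgroup
      ((AlgebraicClosure ℚ) ≃ₐ[ℚ] (AlgebraicClosure ℚ)) (JZero N)) := Finite.of_subsingleton
  exact AddGroup.fg_of_finite

end Fermat.Agent.S17.H80

end
end
-- ===== PACK-END S17/H80/GenusZero.lean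

-- ===== PACK-BEGIN S17/H77/Stab.lean
section



/-!
# S17 / BASE-1 (helper77): `stabilizer_open` in the exact skeleton shape

Every class of `JZero N = Pic⁰(ℚ̄(X₀(N)))` is fixed by `Gal(ℚ̄/K)` for some number field `K`.
Proof: `StabAbstract.lean` (Riemann's theorem: a place is the unique pole of a function; a function
has its coefficients in a number field) + `FF1` for the modular function field (Lib/RR, H864).
-/

set_option autoImplicit false

noncomputable section

namespace Fermat.Agent.S17.H77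

open ModularCurve AlgebraicCurve

/-- **BASE-1** (= `Skel.stabilizer_open`). -/
theorem stabilizer_open (N : ℕ) [NeZero N] (x : JZero N) :
    ∃ K : IntermediateField ℚ (AlgebraicClosure ℚ), FiniteDimensional ℚ K ∧
      ∀ σ : (AlgebraicClosure ℚ) ≃ₐ[ℚ] (AlgebraicClosure ℚ), (∀ a ∈ K, σ a = a) → σ • x = x := by
  have := Fermat.Agent.Lib.RR.H864.ff1_modularFunctionFieldBar N
  exact stabilizer_open_of_ff1 (modularFunctionFieldFull N) x

/-- Every place of `ℚ̄(X₀(N))` is fixed by `Gal(ℚ̄/K)` for some number field `K`. -/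
theorem exists_field_fixing_place_modular (N : ℕ) [NeZero N]
    (P : Place (AlgebraicClosure ℚ) (modularFunctionFieldBar N)) :
    ∃ K : IntermediateField ℚ (AlgebraicClosure ℚ), FiniteDimensional ℚ K ∧
      ∀ σ : (AlgebraicClosure ℚ) ≃ₐ[ℚ] (AlgebraicClosure ℚ), (∀ a ∈ K, σ a = a) →
        arithmeticGalois (modularFunctionFieldFull N) σ • P = P := by
  have := Fermat.Agent.Lib.RR.H864.ff1_modularFunctionFieldBar N
  exact exists_field_fixing_place (modularFunctionFieldFull N) P

end Fermat.Agent.S17.H77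

end
end
-- ===== PACK-END S17/H77/Stab.lean

-- ===== PACK-BEGIN S17/H35/ContractPkg.lean
section




/-!
# S17 / tower H, TOP-GLUE (helper35, subtask 606): (BEZ), (ADJ), (GAUSS), (VDM) in package form

Generic part (any `K`, `F` with `FF1 K F`, any embeddings `E₁`, `E₂`), on plain divisors.

Data (for the concrete `PairingPackage`):

* `kapSum E D = Σ_P D(P) κ(P)`                       (package field `K`);
* `selfPair E D = Σ_P D(P) (D − D(P) P . P)`, `delta E D = selfPair E D / 2`   (field `δ`);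
* `plHt E D = h(pt P₁ ∧ … ∧ pt P_d)`, the points of the support of `D` in any enumeration
  (field `Pl`).

Results (`C` always uniform):

* `exists_pencil_family` : `m + 1` nonzero forms with pairwise disjoint hyperplane sections;
* `bez`        : `|N (Z a) − m h(a)| ≤ C`                            from (E3);
* `adj_sum`    : (ADJ) summed over a reduced part `D` of `Z a = D + D'`;
* `vdm_enum`, `vdm_sum` : (VDM) for a reduced divisor, in terms of `naive` and `delta`;
* `gauss_sum`  : (GAUSS) for `K₀ = Rt − c ∞`, with `hD(∞, P) = N(P) / m + O(1)` from (E3).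
-/

set_option autoImplicit false
set_option linter.unusedSectionVars false

noncomputable section

open AlgebraicCurve

namespace Fermat.Agent.S17.H35

open Fermat.Agent.Lib.RR Fermat.Agent.S17.HWall Fermat.Agent.S17.HContract

variable {K F : Type*} [Field K] [CharZero K] [Field F] [Algebra K F] [FF1 K F]

/-! ## The remaining data -/

/-- the tangent term `K(D) = Σ_P D(P) κ(P)` -/
def kapSum (E : EmbData K F) (D : Divisor K F) : ℝ :=
  D.sum fun P n => (n : ℝ) * kap E P

/-- twice the off-diagonal self pairing: `Σ_P D(P) (D − D(P) P . P)` -/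
def selfPair (E : EmbData K F) (D : Divisor K F) : ℝ :=
  D.sum fun P n => (n : ℝ) * pairPt E (D.erase P) P

/-- the off-diagonal self pairing `δ(D) = Σ_{P < Q} D(P) D(Q) hD(P, Q)` -/
def delta (E : EmbData K F) (D : Divisor K F) : ℝ := selfPair E D / 2

/-- the Plücker height of the points of the support of `D` -/
def plHt (E : EmbData K F) (D : Divisor K F) : ℝ :=
  ht (plucker fun i : Fin D.support.card => E.pt (D.support.equivFin.symm i : Place K F))

/-! ## More calculus -/

theorem pairPt_neg (E : EmbData K F) (D : Divisor K F) (P : Place K F) :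
    pairPt E (-D) P = - pairPt E D P := by
  have h := pairPt_add E D (-D) P
  rw [add_neg_cancel, pairPt_zero] at h
  linarith

theorem pairPt_sub (E : EmbData K F) (D D' : Divisor K F) (P : Place K F) :
    pairPt E (D - D') P = pairPt E D P - pairPt E D' P := by
  rw [sub_eq_add_neg, pairPt_add, pairPt_neg]
  ring

theorem pairPt_zsmul (E : EmbData K F) (k : ℤ) (D : Divisor K F) (P : Place K F) :
    pairPt E (k • D) P = k * pairPt E D P := by
  induction k using Int.induction_on with
  | zero => simp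
  | succ k ih => rw [add_smul, one_smul, pairPt_add, ih]; push_cast; ring
  | pred k ih => rw [sub_smul, one_smul, pairPt_sub, ih]; push_cast; ring

@[simp] theorem pairPt_prim (E : EmbData K F) (A P : Place K F) :
    pairPt E (prim A) P = hD E A P := by
  unfold prim
  rw [pairPt_single]
  simp

theorem pairPt_erase_add (E : EmbData K F) {D D' : Divisor K F} {P : Place K F}
    (h : D' P = 0) :
    pairPt E ((D + D').erase P) P = pairPt E (D.erase P) P + pairPt E D' P := by
  rw [Finsupp.erase_add, pairPt_add]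
  congr 2
  exact Finsupp.erase_of_notMem_support (by simpa using h)

theorem pairPt_erase (E : EmbData K F) (D : Divisor K F) (P : Place K F) :
    pairPt E (D.erase P) P = pairPt E D P - D P * hD E P P := by
  have h := congrArg (fun D' => pairPt E D' P) (Finsupp.erase_add_single P D)
  simp only [pairPt_add, pairPt_single] at h
  linarith

theorem naive_sum {ι : Type*} (E : EmbData K F) (s : Finset ι) (D : ι → Divisor K F) :
    naive E (∑ i ∈ s, D i) = ∑ i ∈ s, naive E (D i) := by
  classical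
  induction s using Finset.induction_on with
  | empty => simp
  | insert a s ha ih => rw [Finset.sum_insert ha, Finset.sum_insert ha, naive_add, ih]

@[simp] theorem naive_prim (E : EmbData K F) (P : Place K F) : naive E (prim P) = ht (E.pt P) := by
  unfold naive prim
  rw [Finsupp.sum_single_index (by simp)]
  simp

theorem kapSum_add (E : EmbData K F) (D D' : Divisor K F) :
    kapSum E (D + D') = kapSum E D + kapSum E D' := by
  unfold kapSum
  rw [Finsupp.sum_add_index' (by simp) (by intro a b₁ b₂; push_cast; ring)]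

@[simp] theorem kapSum_zero (E : EmbData K F) : kapSum E 0 = 0 := by
  simp [kapSum]

/-- `2 δ(D) = (D . D) − Σ_P D(P)² hD(P, P)`. -/
theorem selfPair_eq (E : EmbData K F) (D : Divisor K F) :
    selfPair E D = pair E D D - D.sum fun P n => (n : ℝ) * n * hD E P P := by
  unfold selfPair pair
  simp only [Finsupp.sum, ← Finset.sum_sub_distrib]
  refine Finset.sum_congr rfl fun P _ => ?_
  rw [pairPt_erase]
  ring


/-! ## (ADJ) summed -/

/-- **(ADJ), summed.**  `Z_a = D + D'` with `D` reduced and disjoint from `D'`: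
`|2 δ(D) − K(D) + (D' . D) − (deg D · h(a) + N(D))| ≤ C · deg D`. -/
theorem adj_sum {E₁ E₂ : EmbData K F} (h : ADJStatement E₁ E₂) :
    ∃ C : ℝ, 0 ≤ C ∧ ∀ (a : Fin (E₂.r + 1) → K) (D D' : Divisor K F), a ≠ 0 →
      (∀ P, D P = 0 ∨ D P = 1) → E₂.Z a = D + D' → (∀ P, D P ≠ 0 → D' P = 0) →
      |2 * delta E₁ D - kapSum E₁ D + pair E₁ D' D
          - ((Divisor.degree D : ℤ) * ht a + naive E₂ D)| ≤ C * (Divisor.degree D : ℤ) := by
  obtain ⟨C, hC⟩ := h
  refine ⟨max C 0, le_max_right _ _, fun a D D' ha hred hZ hdisj => ?_⟩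
  have hsum : 2 * delta E₁ D - kapSum E₁ D + pair E₁ D' D
          - ((Divisor.degree D : ℤ) * ht a + naive E₂ D) =
      D.sum fun P n => (n : ℝ) *
        (pairPt E₁ ((E₂.Z a).erase P) P - kap E₁ P - ht a - ht (E₂.pt P)) := by
    have h2 : 2 * delta E₁ D = selfPair E₁ D := by unfold delta; ring
    have h3 : (D.sum fun P n => (n : ℝ) *
        (pairPt E₁ ((E₂.Z a).erase P) P - kap E₁ P - ht a - ht (E₂.pt P))) =
        D.sum fun P n => (n : ℝ) *
        (pairPt E₁ (D.erase P) P + pairPt E₁ D' P - kap E₁ P - ht a - ht (E₂.pt P)) := by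
      unfold Finsupp.sum
      refine Finset.sum_congr rfl fun P hP => ?_
      have hP0 : D P ≠ 0 := Finsupp.mem_support_iff.mp hP
      dsimp only
      rw [hZ, pairPt_erase_add E₁ (hdisj P hP0)]
    rw [h2, h3, degree_cast_eq_sum]
    unfold selfPair kapSum pair naive
    simp only [Finsupp.sum, Finset.sum_mul, mul_sub, mul_add, Finset.sum_sub_distrib,
      Finset.sum_add_distrib]
    ring
  rw [hsum, degree_cast_eq_sum, Finsupp.sum, Finsupp.sum, Finset.mul_sum]
  refine (Finset.abs_sum_le_sum_abs _ _).trans (Finset.sum_le_sum fun P hP => ?_)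
  have hP0 : D P ≠ 0 := Finsupp.mem_support_iff.mp hP
  have hP1 : D P = 1 := (hred P).resolve_left hP0
  have hZP : E₂.Z a P = 1 := by
    rw [hZ, Finsupp.add_apply, hP1, hdisj P hP0]
    rfl
  rw [hP1]
  simp only [Int.cast_one, one_mul, mul_one]
  exact (hC a P ha hZP).trans (le_max_left _ _)

/-! ## (VDM) in terms of `naive` and `delta` -/

theorem sum_lt_eq_half {d : ℕ} (f : Fin d → Fin d → ℝ) (hf : ∀ i j, f i j = f j i) :
    (∑ i, ∑ j, if i < j then f i j else 0) = ((∑ i, ∑ j, f i j) - ∑ i, f i i) / 2 := by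
  have h1 : ∀ i j, f i j = (if i < j then f i j else 0) + (if j < i then f i j else 0)
      + (if i = j then f i j else 0) := by
    intro i j
    rcases lt_trichotomy i j with h | h | h
    · simp [h, not_lt.mpr h.le, h.ne]
    · subst h
      simp
    · simp [h, not_lt.mpr h.le, h.ne']
  have h2 : (∑ i, ∑ j, f i j) = (∑ i, ∑ j, if i < j then f i j else 0)
      + (∑ i, ∑ j, if j < i then f i j else 0) + ∑ i, ∑ j, if i = j then f i j else 0 := by
    rw [← Finset.sum_add_distrib, ← Finset.sum_add_distrib]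
    refine Finset.sum_congr rfl fun i _ => ?_
    rw [← Finset.sum_add_distrib, ← Finset.sum_add_distrib]
    exact Finset.sum_congr rfl fun j _ => h1 i j
  have h3 : (∑ i, ∑ j, if j < i then f i j else 0) = ∑ i, ∑ j, if i < j then f i j else 0 := by
    rw [Finset.sum_comm]
    refine Finset.sum_congr rfl fun i _ => Finset.sum_congr rfl fun j _ => ?_
    rw [hf j i]
  have h4 : (∑ i, ∑ j, if i = j then f i j else 0) = ∑ i, f i i := by
    refine Finset.sum_congr rfl fun i _ => ?_
    simp
  rw [h2, h3, h4]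
  ring

theorem pairPt_sum {ι : Type*} (E : EmbData K F) (s : Finset ι) (D : ι → Divisor K F)
    (P : Place K F) : pairPt E (∑ i ∈ s, D i) P = ∑ i ∈ s, pairPt E (D i) P := by
  classical
  induction s using Finset.induction_on with
  | empty => simp
  | insert a s ha ih => rw [Finset.sum_insert ha, Finset.sum_insert ha, pairPt_add, ih]

theorem pair_sum_right {ι : Type*} (E : EmbData K F) (s : Finset ι) (D : Divisor K F)
    (D' : ι → Divisor K F) : pair E D (∑ i ∈ s, D' i) = ∑ i ∈ s, pair E D (D' i) := by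
  classical
  induction s using Finset.induction_on with
  | empty => simp
  | insert a s ha ih => rw [Finset.sum_insert ha, Finset.sum_insert ha, pair_add_right, ih]

theorem sumPrim_apply {d : ℕ} (P : Fin d → Place K F) (hP : Function.Injective P) (i : Fin d) :
    H980.sumPrim P (P i) = 1 := by
  rw [H980.sumPrim_eq_add P i, Finsupp.add_apply, H980.sum_erase_apply_self P hP i]
  simp

theorem sumPrim_apply_of_notMem {d : ℕ} (P : Fin d → Place K F) {Q : Place K F}
    (hQ : ∀ i, P i ≠ Q) : H980.sumPrim P Q = 0 := by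
  unfold H980.sumPrim
  rw [Finsupp.finsetSum_apply]
  exact Finset.sum_eq_zero fun i _ => prim_apply_of_ne (fun h => hQ i h.symm)

/-- `Σ_Q D(Q) g(Q) = Σ_i g(P_i)` for `D = P₁ + … + P_d`. -/
theorem sumPrim_sum {d : ℕ} (P : Fin d → Place K F) (g : Place K F → ℝ) :
    ((H980.sumPrim P).sum fun Q n => (n : ℝ) * g Q) = ∑ i, g (P i) := by
  unfold H980.sumPrim
  rw [← Finsupp.sum_finsetSum_index (by simp) (by intro a b₁ b₂; push_cast; ring)]
  refine Finset.sum_congr rfl fun i _ => ?_
  unfold prim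
  rw [Finsupp.sum_single_index (by simp)]
  simp

theorem naive_sumPrim (E : EmbData K F) {d : ℕ} (P : Fin d → Place K F) :
    naive E (H980.sumPrim P) = ∑ i, ht (E.pt (P i)) :=
  sumPrim_sum P fun Q => ht (E.pt Q)

theorem kapSum_sumPrim (E : EmbData K F) {d : ℕ} (P : Fin d → Place K F) :
    kapSum E (H980.sumPrim P) = ∑ i, kap E (P i) :=
  sumPrim_sum P fun Q => kap E Q

theorem delta_sumPrim (E : EmbData K F) {d : ℕ} (P : Fin d → Place K F)
    (hP : Function.Injective P) :
    delta E (H980.sumPrim P) = ∑ i, ∑ j, if i < j then hD E (P i) (P j) else 0 := by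
  rw [sum_lt_eq_half (fun i j => hD E (P i) (P j)) (fun i j => hD_symm E _ _)]
  unfold delta
  congr 1
  rw [selfPair_eq]
  congr 1
  · -- the full pairing
    unfold pair
    rw [sumPrim_sum P fun Q => pairPt E (H980.sumPrim P) Q]
    rw [Finset.sum_comm]
    refine Finset.sum_congr rfl fun j _ => ?_
    unfold H980.sumPrim
    rw [pairPt_sum]
    simp
  · -- the diagonal
    have h1 : ((H980.sumPrim P).sum fun Q n => (n : ℝ) * n * hD E Q Q) =
        (H980.sumPrim P).sum fun Q n => (n : ℝ) * hD E Q Q := by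
      unfold Finsupp.sum
      refine Finset.sum_congr rfl fun Q hQ => ?_
      have hQ0 : H980.sumPrim P Q ≠ 0 := Finsupp.mem_support_iff.mp hQ
      have : ∃ i, P i = Q := by
        by_contra hcon
        exact hQ0 (sumPrim_apply_of_notMem P fun i hi => hcon ⟨i, hi⟩)
      obtain ⟨i, rfl⟩ := this
      rw [sumPrim_apply P hP i]
      simp
    rw [h1, sumPrim_sum P fun Q => hD E Q Q]

/-- **(VDM)** for `D = P₁ + … + P_d` (distinct points, any enumeration):
`h(pt P₁ ∧ … ∧ pt P_d) ≤ N(D) − δ(D) + C`. -/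
theorem vdm_enum {E₁ E₂ : EmbData K F} {d₀ : ℕ} (h : VDMStatement E₁ E₂ d₀) :
    ∃ C : ℝ, ∀ (d : ℕ) (P : Fin d → Place K F), d ≤ d₀ → Function.Injective P →
      ht (plucker fun i => E₂.pt (P i)) ≤
        naive E₂ (H980.sumPrim P) - delta E₁ (H980.sumPrim P) + C := by
  obtain ⟨C, hC⟩ := h
  refine ⟨C, fun d P hd hP => ?_⟩
  rw [naive_sumPrim, delta_sumPrim E₁ P hP]
  exact hC d P hd hP

/-- A reduced effective divisor is the sum of the points of its support. -/
theorem eq_sumPrim_of_reduced (D : Divisor K F) (hred : ∀ P, D P = 0 ∨ D P = 1) :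
    D = H980.sumPrim fun i : Fin D.support.card => (D.support.equivFin.symm i : Place K F) := by
  ext Q
  by_cases hQ : D Q = 0
  · rw [hQ, sumPrim_apply_of_notMem]
    intro i h
    have := (D.support.equivFin.symm i).2
    rw [h] at this
    exact (Finsupp.mem_support_iff.mp this) hQ
  · have hQ1 : D Q = 1 := (hred Q).resolve_left hQ
    have hmem : Q ∈ D.support := Finsupp.mem_support_iff.mpr hQ
    have hinj : Function.Injective
        fun i : Fin D.support.card => (D.support.equivFin.symm i : Place K F) :=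
      fun i j hij => D.support.equivFin.symm.injective (Subtype.ext hij)
    have := sumPrim_apply _ hinj (D.support.equivFin ⟨Q, hmem⟩)
    simp only [Equiv.symm_apply_apply] at this
    rw [hQ1, this]

/-- **(VDM)** for a reduced divisor with at most `d₀` points. -/
theorem vdm_sum {E₁ E₂ : EmbData K F} {d₀ : ℕ} (h : VDMStatement E₁ E₂ d₀) :
    ∃ C : ℝ, ∀ D : Divisor K F, (∀ P, D P = 0 ∨ D P = 1) → D.support.card ≤ d₀ →
      plHt E₂ D ≤ naive E₂ D - delta E₁ D + C := by
  obtain ⟨C, hC⟩ := vdm_enum h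
  refine ⟨C, fun D hred hcard => ?_⟩
  have hinj : Function.Injective
      fun i : Fin D.support.card => (D.support.equivFin.symm i : Place K F) :=
    fun i j hij => D.support.equivFin.symm.injective (Subtype.ext hij)
  have := hC D.support.card _ hcard hinj
  rw [← eq_sumPrim_of_reduced D hred] at this
  exact this

/-- For a reduced effective divisor the support has `deg` points. -/
theorem card_support_of_reduced (D : Divisor K F) (hred : ∀ P, D P = 0 ∨ D P = 1) :
    (D.support.card : ℤ) = Divisor.degree D := by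
  rw [_root_.Fermat.Agent.S17.H35.degree_eq_sum, Finsupp.sum]
  have h1 : ∀ P ∈ D.support, D P = (1 : ℤ) := fun P hP =>
    (hred P).resolve_left (Finsupp.mem_support_iff.mp hP)
  rw [Finset.sum_congr rfl h1]
  simp


/-! ## (BEZ): a pencil of hyperplane sections -/

theorem pt_ne_zero (E : EmbData K F) (P : Place K F) : E.pt P ≠ 0 := by
  have hli := H980.linearIndependent_pt E (d := 1) (fun _ => P)
    (Function.injective_of_subsingleton _) (by
      have := E.hm
      rw [genusFF_eq_genusR]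
      omega)
  exact hli.ne_zero 0

theorem pos_of_Z_ne_zero (E : EmbData K F) {a : Fin (E.r + 1) → K} {P : Place K F}
    (h : E.Z a P ≠ 0) : 0 < hypDiv E.vinf E.m E.x a P := by
  have h1 := (Finsupp.le_def.mp (E.Z_nonneg a)) P
  have h2 : E.Z a P = hypDiv E.vinf E.m E.x a P := rfl
  rw [h2] at h h1
  simp only [Finsupp.coe_zero, Pi.zero_apply] at h1
  omega

theorem Z_ne_zero_of_dot (E : EmbData K F) {a : Fin (E.r + 1) → K} (ha : a ≠ 0)
    {P : Place K F} (h : dot a (E.pt P) = 0) : E.Z a P ≠ 0 := by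
  have h1 := (E.pt_spec P a ha).mp h
  have h2 : E.Z a P = hypDiv E.vinf E.m E.x a P := rfl
  rw [h2]
  omega

/-- A form which vanishes at none of finitely many given points. -/
theorem exists_dot_ne_zero (E : EmbData K F) (S : Finset (Place K F)) :
    ∃ b : Fin (E.r + 1) → K, ∀ P ∈ S, dot b (E.pt P) ≠ 0 := by
  classical
  let φ : Place K F → ((Fin (E.r + 1) → K) →ₗ[K] K) := fun P =>
    ∑ i, (E.pt P i) • (LinearMap.proj i : (Fin (E.r + 1) → K) →ₗ[K] K)
  have hφ : ∀ P b, φ P b = dot b (E.pt P) := by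
    intro P b
    simp [φ, dot, dotProduct, mul_comm]
  have htop : (⊤ : Subspace K (Fin (E.r + 1) → K)) ∉ S.image fun P => LinearMap.ker (φ P) := by
    intro hmem
    obtain ⟨P, _, hP⟩ := Finset.mem_image.mp hmem
    obtain ⟨i, hi⟩ := Function.ne_iff.mp (pt_ne_zero E P)
    have hmem' : (Pi.single i 1 : Fin (E.r + 1) → K) ∈ LinearMap.ker (φ P) := by
      rw [hP]
      trivial
    rw [LinearMap.mem_ker, hφ] at hmem'
    apply hi
    simpa [dot] using hmem'
  have hne := Subspace.biUnion_ne_univ_of_top_notMem htop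
  obtain ⟨b, hb⟩ := (Set.ne_univ_iff_exists_notMem _).mp hne
  refine ⟨b, fun P hP h0 => hb ?_⟩
  simp only [Set.mem_iUnion]
  refine ⟨LinearMap.ker (φ P), Finset.mem_image_of_mem _ hP, ?_⟩
  rw [SetLike.mem_coe, LinearMap.mem_ker, hφ]
  exact h0

/-- **A pencil of hyperplane sections**: more than `n` nonzero forms with pairwise disjoint
hyperplane sections. -/
theorem exists_pencil_family (E : EmbData K F) (n : ℕ) :
    ∃ B : Finset (Fin (E.r + 1) → K), n < B.card ∧ (∀ b ∈ B, b ≠ 0) ∧
      ∀ b ∈ B, ∀ b' ∈ B, b ≠ b' → ∀ P, E.Z b P ≠ 0 → E.Z b' P = 0 := by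
  classical
  set a : Fin (E.r + 1) → K := Pi.single 0 1 with ha_def
  have ha : a ≠ 0 := by
    intro h
    have := congrFun h 0
    simp [ha_def] at this
  obtain ⟨b, hb⟩ := exists_dot_ne_zero E (E.Z a).support
  have hkey : ∀ P, dot a (E.pt P) = 0 → dot b (E.pt P) ≠ 0 := by
    intro P hP
    apply hb
    rw [Finsupp.mem_support_iff]
    exact Z_ne_zero_of_dot E ha hP
  have hZne : (E.Z a).support.Nonempty := by
    by_contra hcon
    rw [Finset.not_nonempty_iff_eq_empty, Finsupp.support_eq_empty] at hcon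
    have hdeg := E.degree_Z ha
    rw [hcon, map_zero] at hdeg
    have := E.hm
    omega
  obtain ⟨P₀, hP₀⟩ := hZne
  have hP₀' : dot a (E.pt P₀) = 0 :=
    (E.pt_spec P₀ a ha).mpr (pos_of_Z_ne_zero E (Finsupp.mem_support_iff.mp hP₀))
  have hb0 : b ≠ 0 := by
    rintro rfl
    exact hb P₀ hP₀ (by simp [dot])
  let f : ℕ → (Fin (E.r + 1) → K) := fun c => a + (c : K) • b
  have hf_inj : Function.Injective f := by
    intro c c' h
    have h0 : (c : K) • b = (c' : K) • b := add_left_cancel h
    have h1 : ((c : K) - c') • b = 0 := by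
      rw [sub_smul, h0, sub_self]
    rcases smul_eq_zero.mp h1 with h2 | h2
    · exact_mod_cast sub_eq_zero.mp h2
    · exact absurd h2 hb0
  have hdot : ∀ (c : ℕ) P, dot (f c) (E.pt P) = dot a (E.pt P) + c * dot b (E.pt P) := by
    intro c P
    simp [f, dot, add_dotProduct, smul_dotProduct]
  have hf0 : ∀ c, f c ≠ 0 := by
    intro c h
    have h1 := hdot c P₀
    rw [h, hP₀'] at h1
    have h2 : (c : K) * dot b (E.pt P₀) = 0 := by
      rw [zero_add] at h1
      rw [← h1]
      simp [dot]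
    rcases mul_eq_zero.mp h2 with h3 | h3
    · have hc : c = 0 := by exact_mod_cast h3
      apply ha
      rw [← h]
      simp [f, hc]
    · exact hb P₀ hP₀ h3
  refine ⟨(Finset.range (n + 1)).image f, ?_, ?_, ?_⟩
  · rw [Finset.card_image_of_injective _ hf_inj, Finset.card_range]
    omega
  · intro b' hb'
    obtain ⟨c, _, rfl⟩ := Finset.mem_image.mp hb'
    exact hf0 c
  · intro b₁ hb₁ b₂ hb₂ hne P hP
    obtain ⟨c₁, _, rfl⟩ := Finset.mem_image.mp hb₁
    obtain ⟨c₂, _, rfl⟩ := Finset.mem_image.mp hb₂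
    by_contra hP2
    have h1 : dot (f c₁) (E.pt P) = 0 := (E.pt_spec P _ (hf0 c₁)).mpr (pos_of_Z_ne_zero E hP)
    have h2 : dot (f c₂) (E.pt P) = 0 := (E.pt_spec P _ (hf0 c₂)).mpr (pos_of_Z_ne_zero E hP2)
    rw [hdot] at h1 h2
    have hc : (c₁ : K) ≠ c₂ := fun h => hne (by
      have : c₁ = c₂ := by exact_mod_cast h
      rw [this])
    have h3 : ((c₁ : K) - c₂) * dot b (E.pt P) = 0 := by linear_combination h1 - h2
    rcases mul_eq_zero.mp h3 with h4 | h4
    · exact hc (sub_eq_zero.mp h4)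
    · have h5 : dot a (E.pt P) = 0 := by
        rw [h4] at h1
        simpa using h1
      exact hkey P h5 h4

/-- **(BEZ)**: `|N (Z a) − m · h(a)| ≤ C`, from (E3). -/
theorem bez {E₁ E₂ : EmbData K F} (h : E3Statement E₁ E₂) :
    ∃ C : ℝ, ∀ a : Fin (E₂.r + 1) → K, a ≠ 0 →
      |naive E₂ (E₂.Z a) - E₂.m * ht a| ≤ C := by
  obtain ⟨B, hcard, hB0, hBd⟩ := exists_pencil_family E₂ E₂.m
  exact bez_of h B hB0 hBd hcard

/-! ## (GAUSS) -/

/-- **(GAUSS)** in the form used by TOP: the canonical divisor is `K₀ = Rt − c ∞`. -/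
def GaussRtStatement (E₁ : EmbData K F) (Rt : Divisor K F) (c : ℤ) : Prop :=
  ∃ C : ℝ, ∀ P : Place K F, Rt P = 0 → P ≠ E₁.vinf →
    |kap E₁ P - (pairPt E₁ Rt P - c * hD E₁ E₁.vinf P)| ≤ C

/-- (GAUSS) for the divisor `K₀ = Rt − c ∞`, as in `GAUSSStatement`. -/
theorem gaussRt_of (E₁ : EmbData K F) (Rt : Divisor K F) (c : ℤ)
    (h : ∃ C : ℝ, ∀ P : Place K F, (Rt - c • prim E₁.vinf) P = 0 →
      |kap E₁ P - pairPt E₁ (Rt - c • prim E₁.vinf) P| ≤ C) : GaussRtStatement E₁ Rt c := by
  obtain ⟨C, hC⟩ := h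
  refine ⟨C, fun P hP hPinf => ?_⟩
  have h0 : (Rt - c • prim E₁.vinf) P = 0 := by
    rw [Finsupp.sub_apply, Finsupp.smul_apply, hP, prim_apply_of_ne hPinf]
    simp
  have := hC P h0
  rwa [pairPt_sub, pairPt_zsmul, pairPt_prim] at this

/-- The distance to `∞` is the naive height: `|m · hD(∞, P) − h(a₁) − h(pt P)| ≤ C` for
`P ≠ ∞`, where `Z a₁ = m ∞`. -/
theorem hD_vinf {E₁ E₂ : EmbData K F} (h3 : E3Statement E₁ E₂)
    {a₁ : Fin (E₂.r + 1) → K} (ha₁ : a₁ ≠ 0) (hZ₁ : E₂.Z a₁ = E₂.m • prim E₂.vinf) :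
    ∃ C : ℝ, ∀ P : Place K F, P ≠ E₂.vinf →
      |(E₂.m : ℝ) * hD E₁ E₂.vinf P - ht a₁ - ht (E₂.pt P)| ≤ C := by
  obtain ⟨C, hC⟩ := h3
  refine ⟨C, fun P hP => ?_⟩
  have hZP : E₂.Z a₁ P = 0 := by
    rw [hZ₁, Finsupp.smul_apply, prim_apply_of_ne hP]
    simp
  have := hC a₁ P ha₁ (dot_ne_zero_of_Z_eq_zero E₂ ha₁ hZP)
  rwa [hZ₁, pairPt_nsmul, pairPt_prim] at this

/-- **(GAUSS), summed**, in package form:
`|K(D) − ((Rt . D) − (c / m) N(D))| ≤ C · deg D` for effective `D` avoiding `Rt` and `∞`. -/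
theorem gauss_sum {E₁ E₂ : EmbData K F} (hv : E₁.vinf = E₂.vinf) (h3 : E3Statement E₁ E₂)
    {a₁ : Fin (E₂.r + 1) → K} (ha₁ : a₁ ≠ 0) (hZ₁ : E₂.Z a₁ = E₂.m • prim E₂.vinf)
    {Rt : Divisor K F} {c : ℤ} (hG : GaussRtStatement E₁ Rt c) :
    ∃ C : ℝ, 0 ≤ C ∧ ∀ D : Divisor K F, 0 ≤ D → (∀ P, D P ≠ 0 → Rt P = 0 ∧ P ≠ E₂.vinf) →
      |kapSum E₁ D - (pair E₁ Rt D - ((c : ℝ) / E₂.m) * naive E₂ D)| ≤
        C * (Divisor.degree D : ℤ) := by
  obtain ⟨C₃, hC₃⟩ := hD_vinf h3 ha₁ hZ₁
  obtain ⟨CG, hCG⟩ := hG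
  have hm : (0 : ℝ) < E₂.m := by
    have := E₂.hm
    have h1 : 0 < E₂.m := by omega
    exact_mod_cast h1
  set Cp : ℝ := max CG 0 + |(c : ℝ)| * ((max C₃ 0 + ht a₁) / E₂.m) with hCp
  have hCp0 : 0 ≤ Cp := by
    have h1 : 0 ≤ ht a₁ := ht_nonneg a₁
    positivity
  have hpt : ∀ P : Place K F, Rt P = 0 → P ≠ E₂.vinf →
      |kap E₁ P - (pairPt E₁ Rt P - ((c : ℝ) / E₂.m) * ht (E₂.pt P))| ≤ Cp := by
    intro P hP hPinf
    have h1 := hC₃ P hPinf
    have h2 := hCG P hP (by rw [hv]; exact hPinf)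
    rw [hv] at h2
    have h4 : |hD E₁ E₂.vinf P - ht (E₂.pt P) / E₂.m| ≤ (max C₃ 0 + ht a₁) / E₂.m := by
      have h5 : hD E₁ E₂.vinf P - ht (E₂.pt P) / E₂.m =
          ((E₂.m : ℝ) * hD E₁ E₂.vinf P - ht a₁ - ht (E₂.pt P) + ht a₁) / E₂.m := by
        field_simp
        ring
      rw [h5, abs_div, abs_of_pos hm]
      refine div_le_div_of_nonneg_right ?_ hm.le
      refine (abs_add_le _ _).trans ?_
      rw [abs_of_nonneg (ht_nonneg a₁)]
      have := le_max_left C₃ 0
      linarith
    have h6 : kap E₁ P - (pairPt E₁ Rt P - ((c : ℝ) / E₂.m) * ht (E₂.pt P)) =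
        (kap E₁ P - (pairPt E₁ Rt P - c * hD E₁ E₂.vinf P))
          - c * (hD E₁ E₂.vinf P - ht (E₂.pt P) / E₂.m) := by
      field_simp
      ring
    rw [h6]
    refine (abs_sub _ _).trans ?_
    rw [abs_mul]
    have := le_max_left CG 0
    have h7 : |(c : ℝ)| * |hD E₁ E₂.vinf P - ht (E₂.pt P) / E₂.m| ≤
        |(c : ℝ)| * ((max C₃ 0 + ht a₁) / E₂.m) :=
      mul_le_mul_of_nonneg_left h4 (abs_nonneg _)
    rw [hCp]
    linarith
  refine ⟨Cp, hCp0, fun D hD hdisj => ?_⟩
  have hsum : kapSum E₁ D - (pair E₁ Rt D - ((c : ℝ) / E₂.m) * naive E₂ D) =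
      D.sum fun P n => (n : ℝ) *
        (kap E₁ P - (pairPt E₁ Rt P - ((c : ℝ) / E₂.m) * ht (E₂.pt P))) := by
    have hterm : ∀ P : Place K F, ((D P : ℤ) : ℝ) *
        (kap E₁ P - (pairPt E₁ Rt P - ((c : ℝ) / E₂.m) * ht (E₂.pt P))) =
        (D P : ℝ) * kap E₁ P - ((D P : ℝ) * pairPt E₁ Rt P
          - ((c : ℝ) / E₂.m) * ((D P : ℝ) * ht (E₂.pt P))) := fun P => by ring
    unfold kapSum pair naive
    simp only [Finsupp.sum, hterm, Finset.sum_sub_distrib, Finset.mul_sum]
  rw [hsum, degree_cast_eq_sum, Finsupp.sum, Finsupp.sum, Finset.mul_sum]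
  refine (Finset.abs_sum_le_sum_abs _ _).trans (Finset.sum_le_sum fun P hP => ?_)
  have hP0 : D P ≠ 0 := Finsupp.mem_support_iff.mp hP
  have hnn : (0 : ℝ) ≤ (D P : ℝ) := by
    have := (Finsupp.le_def.mp hD) P
    exact_mod_cast this
  rw [abs_mul, abs_of_nonneg hnn, mul_comm Cp]
  exact mul_le_mul_of_nonneg_left (hpt P (hdisj P hP0).1 (hdisj P hP0).2) hnn

end Fermat.Agent.S17.H35

end
end
-- ===== PACK-END S17/H35/ContractPkg.lean

-- ===== PACK-BEGIN S17/H440/PtCone.lean
section



/-!
# S17 / tower H, wall leaves G-PT and G-CONE (helper440)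

* `ptStatement E   : Wall.PtStatement E`   (`pt P ≠ 0`, `pt P` on the cone, `pt P ∧ pt Q ≠ 0` for
  `P ≠ Q`, `pt P ∧ tn P ≠ 0`);
* `coneStatement E : Wall.ConeStatement E` (every nonzero point of the cone is `c • pt P`).

No hypothesis beyond `[FF1 K F]` is needed.
-/

set_option autoImplicit false

noncomputable section

open AlgebraicCurve MvPolynomial

namespace Fermat.Agent.S17.H440

open Fermat.Agent.Lib.RR Fermat.Agent.S17.HWall

variable {K F : Type*} [Field K] [Field F] [Algebra K F] [FF1 K F]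

/-- Vectors with vanishing wedge are proportional. -/
theorem exists_smul_eq_of_wedge_eq_zero {n : ℕ} {u v : Fin n → K} (hu : u ≠ 0)
    (h : wedge u v = 0) : ∃ c : K, v = c • u := by
  obtain ⟨j, hj⟩ : ∃ j, u j ≠ 0 := by
    by_contra hcon
    push Not at hcon
    exact hu (funext hcon)
  refine ⟨v j / u j, funext fun i => ?_⟩
  have h1 : u j * v i - u i * v j = 0 := congrFun h (j, i)
  rw [Pi.smul_apply, smul_eq_mul]
  field_simp
  linear_combination h1

/-- Some hyperplane section contains `P` with multiplicity exactly one. -/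
theorem exists_Z_eq_one (E : EmbData K F) (P : Place K F) :
    ∃ a : Fin (E.r + 1) → K, a ≠ 0 ∧ E.Z a P = 1 := by
  have hdeg : 2 * (genusFF K F : ℤ) ≤ Divisor.degree (E.m • prim E.vinf - prim P) := by
    rw [genusFF_eq_genusR]
    have h2 : Divisor.degree (E.m • prim E.vinf) = E.m := by
      rw [map_nsmul]
      unfold prim
      rw [Divisor.degree_single, FF1.deg_eq_one]
      simp
    have h3 : Divisor.degree (prim P) = 1 := by
      unfold prim
      rw [Divisor.degree_single, FF1.deg_eq_one]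
      simp
    rw [map_sub, h2, h3]
    have := E.hm
    omega
  obtain ⟨f, hf, hf0, hord⟩ := H439.exists_mem_L_ord_eq hdeg P
  have hf' : f ∈ riemannRochSpace (E.m • prim E.vinf) := L_mono (H439.sub_prim_le _ P) hf
  obtain ⟨a, ha⟩ := exists_lin_eq E hf'
  have ha0 : a ≠ 0 := by
    rintro rfl
    apply hf0
    rw [← ha]
    simp [lin]
  refine ⟨a, ha0, ?_⟩
  rw [E.Z_apply ha0 P, ha, hord]
  simp only [Finsupp.coe_sub, Pi.sub_apply, prim_apply_self]
  ring

/-- `pt P ∧ pt Q ≠ 0` for `P ≠ Q`. -/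
theorem wedge_pt_pt_ne_zero (E : EmbData K F) {P Q : Place K F} (hPQ : P ≠ Q) :
    wedge (E.pt P) (E.pt Q) ≠ 0 := by
  intro h
  obtain ⟨c, hc⟩ := exists_smul_eq_of_wedge_eq_zero (pt_ne_zero E P) h
  exact hPQ (pt_injective E hc).symm

/-- `pt P ∧ tn P ≠ 0`: the tangent line is a line. -/
theorem wedge_pt_tn_ne_zero (E : EmbData K F) (P : Place K F) :
    wedge (E.pt P) (E.tn P) ≠ 0 := by
  intro h
  obtain ⟨c, hc⟩ := exists_smul_eq_of_wedge_eq_zero (pt_ne_zero E P) h
  obtain ⟨a, ha0, ha⟩ := exists_Z_eq_one E P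
  have h1 : dot a (E.pt P) = 0 := (E.pt_spec P a ha0).mpr (by
    show 0 < E.Z a P
    omega)
  have h2 : dot a (E.tn P) = 0 := by
    rw [hc]
    show dotProduct a (c • E.pt P) = 0
    rw [dotProduct_smul]
    show c • dot a (E.pt P) = 0
    rw [h1, smul_zero]
  have h3 : 2 ≤ E.Z a P := (E.tn_spec P a ha0).mp ⟨h1, h2⟩
  omega

/-- **G-PT.** -/
theorem ptStatement (E : EmbData K F) : Fermat.Agent.S17.Wall.PtStatement E :=
  ⟨fun P => pt_ne_zero E P, fun P => onCone_pt E P,
    fun _ _ hPQ => wedge_pt_pt_ne_zero E hPQ, fun P => wedge_pt_tn_ne_zero E P⟩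

/-- **G-CONE.** -/
theorem coneStatement (E : EmbData K F) : Fermat.Agent.S17.Wall.ConeStatement E :=
  fun _ hy0 hy => exists_pt_of_onCone E hy hy0

end Fermat.Agent.S17.H440

end
end
-- ===== PACK-END S17/H440/PtCone.lean

-- ===== PACK-BEGIN S17/H410/MinorPoly.lean
section
/-
S17 / tower H / WALL (global route, architect helper710): leaves A8 and A9 (helper410).

* `minorPolyBeta : Wall.MinorPolyBetaStatement K` — the `κ`-minors of `betaMat · y` are values of
  polynomials in the `d` slots `u`, multihomogeneous of multidegree `(κ, …, κ)`;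
* `minorPolyA : Wall.MinorPolyAStatement K` — the `κ`-minors of `wMat (fun _ => a) y` are values
  of polynomials in `a`, homogeneous of degree `κ`.

Both are determinants of matrices of polynomials; `eval` commutes with `det`
(`RingHom.map_det`) and scaling the slots scales every entry by `∏ c_l` (`Matrix.det_smul`).
-/


set_option autoImplicit false

noncomputable section

namespace Fermat.Agent.S17.H410

open MvPolynomial
open Fermat.Agent.S17.HWall Fermat.Agent.S17.Wall

variable {K : Type*} [Field K]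

/-- The polynomial (in the slots `u`) whose value is the entry `betaMat u y s j`. -/
def betaEntryPoly410 {n d : ℕ} {c : Type*} (y : c → Fin n → K)
    (s : Fin d → Fin n × Fin n) (j : c) : MvPolynomial (Fin d × Fin n) K :=
  ∏ i : Fin d, (X (i, (s i).1) * C (y j (s i).2) - X (i, (s i).2) * C (y j (s i).1))

theorem eval_betaEntryPoly410 {n d : ℕ} {c : Type*} (y : c → Fin n → K)
    (s : Fin d → Fin n × Fin n) (j : c) (u : Fin d → Fin n → K) (t : Fin d → K) :
    eval (fun q : Fin d × Fin n => t q.1 * u q.1 q.2) (betaEntryPoly410 y s j)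
      = (∏ l, t l) * betaMat u y s j := by
  unfold betaEntryPoly410 betaMat wedge
  rw [map_prod, ← Finset.prod_mul_distrib]
  refine Finset.prod_congr rfl fun i _ => ?_
  simp only [map_sub, map_mul, eval_X, eval_C]
  ring

theorem eval_betaEntryPoly410' {n d : ℕ} {c : Type*} (y : c → Fin n → K)
    (s : Fin d → Fin n × Fin n) (j : c) (u : Fin d → Fin n → K) :
    eval (fun q : Fin d × Fin n => u q.1 q.2) (betaEntryPoly410 y s j) = betaMat u y s j := by
  have h := eval_betaEntryPoly410 y s j u (fun _ => 1)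
  simpa using h

/-- The polynomial (in `a`) whose value is the entry `wMat (fun _ => a) y (ρ, α) j`. -/
def wEntryPoly410 {n e : ℕ} {c : Type*} (y : c → Fin n → K)
    (α : Fin e → Fin n) (j : c) : MvPolynomial (Fin 1 × Fin n) K :=
  (∑ i : Fin n, X ((0 : Fin 1), i) * C (y j i)) * C (∏ k, y j (α k))

theorem eval_wEntryPoly410 {n e : ℕ} {c : Type*} (y : c → Fin n → K)
    (α : Fin e → Fin n) (j : c) (a : Fin 1 → Fin n → K) (t : Fin 1 → K) (ρ : Unit) :
    eval (fun q : Fin 1 × Fin n => t q.1 * a q.1 q.2) (wEntryPoly410 y α j)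
      = (∏ l, t l) * wMat (e := e) (fun _ : Unit => a 0) y (ρ, α) j := by
  unfold wEntryPoly410 wMat dot
  simp only [map_mul, map_sum, eval_X, eval_C, Fin.prod_univ_one, dotProduct]
  have h : ∑ x, t 0 * a 0 x * y j x = t 0 * ∑ x, a 0 x * y j x := by
    rw [Finset.mul_sum]
    exact Finset.sum_congr rfl fun i _ => by ring
  rw [h]
  ring

/-- The determinant of a matrix of polynomials all of whose entries scale by `∏ t_l` scales by
`∏ t_l ^ κ`. -/
theorem eval_det_scale410 {ι : Type*} {κ : ℕ} (M : Matrix (Fin κ) (Fin κ) (MvPolynomial ι K))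
    (A : Matrix (Fin κ) (Fin κ) K) (f : ι → K) (r : K)
    (h : ∀ a b, eval f (M a b) = r * A a b) :
    eval f M.det = r ^ κ * A.det := by
  have h1 : eval f M.det = ((eval f).mapMatrix M).det := RingHom.map_det (eval f) M
  have h2 : (eval f).mapMatrix M = r • A := by
    ext a b
    simp [h a b]
  rw [h1, h2, Matrix.det_smul, Fintype.card_fin]

section Leaves

variable (K)

/-- **Wall leaf A8.** -/
theorem minorPolyBeta : MinorPolyBetaStatement K := by
  intro n d c _ y κ
  refine ⟨fun j => (Matrix.of fun a b => betaEntryPoly410 y (j.1 a) (j.2 b)).det, ?_, ?_⟩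
  · intro j u t
    have h0 := eval_det_scale410
      (Matrix.of fun a b => betaEntryPoly410 y (j.1 a) (j.2 b))
      (Matrix.of fun a b => betaMat u y (j.1 a) (j.2 b))
      (fun q : Fin d × Fin n => t q.1 * u q.1 q.2) (∏ l, t l)
      (fun a b => by simpa using eval_betaEntryPoly410 y (j.1 a) (j.2 b) u t)
    have h1 := eval_det_scale410
      (Matrix.of fun a b => betaEntryPoly410 y (j.1 a) (j.2 b))
      (Matrix.of fun a b => betaMat u y (j.1 a) (j.2 b))
      (fun q : Fin d × Fin n => u q.1 q.2) 1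
      (fun a b => by simpa using eval_betaEntryPoly410' y (j.1 a) (j.2 b) u)
    rw [h0, h1, one_pow, one_mul, Finset.prod_pow]
  · intro u j
    have h1 := eval_det_scale410
      (Matrix.of fun a b => betaEntryPoly410 y (j.1 a) (j.2 b))
      (Matrix.of fun a b => betaMat u y (j.1 a) (j.2 b))
      (fun q : Fin d × Fin n => u q.1 q.2) 1
      (fun a b => by simpa using eval_betaEntryPoly410' y (j.1 a) (j.2 b) u)
    rw [h1, one_pow, one_mul]
    rfl

/-- **Wall leaf A9.** -/
theorem minorPolyA : MinorPolyAStatement K := by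
  intro n e c _ y κ
  refine ⟨fun j => (Matrix.of fun a b => wEntryPoly410 y (j.1 a).2 (j.2 b)).det, ?_, ?_⟩
  · intro j u t
    have h0 := eval_det_scale410
      (Matrix.of fun a b => wEntryPoly410 y (j.1 a).2 (j.2 b))
      (Matrix.of fun a b => wMat (e := e) (fun _ : Unit => u 0) y (j.1 a) (j.2 b))
      (fun q : Fin 1 × Fin n => t q.1 * u q.1 q.2) (∏ l, t l)
      (fun a b => by simpa using eval_wEntryPoly410 y (j.1 a).2 (j.2 b) u t (j.1 a).1)
    have h1 := eval_det_scale410
      (Matrix.of fun a b => wEntryPoly410 y (j.1 a).2 (j.2 b))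
      (Matrix.of fun a b => wMat (e := e) (fun _ : Unit => u 0) y (j.1 a) (j.2 b))
      (fun q : Fin 1 × Fin n => u q.1 q.2) 1
      (fun a b => by
        simpa using eval_wEntryPoly410 y (j.1 a).2 (j.2 b) u (fun _ => 1) (j.1 a).1)
    rw [h0, h1, one_pow, one_mul, Finset.prod_pow]
  · intro a j
    have h1 := eval_det_scale410
      (Matrix.of fun a' b => wEntryPoly410 y (j.1 a').2 (j.2 b))
      (Matrix.of fun a' b => wMat (e := e) (fun _ : Unit => a) y (j.1 a') (j.2 b))
      (fun q : Fin 1 × Fin n => a q.2) 1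
      (fun a' b => by
        simpa using eval_wEntryPoly410 y (j.1 a').2 (j.2 b) (fun _ => a) (fun _ => 1) (j.1 a').1)
    rw [h1, one_pow, one_mul]
    rfl

end Leaves

end Fermat.Agent.S17.H410


end
end
-- ===== PACK-END S17/H410/MinorPoly.lean

-- ===== PACK-BEGIN Lib/RR/H439/PencilMul.lean
section


/-!
# Riemann–Roch corollaries, part 2: surjectivity of multiplication, effective representatives

(helper439, cell A3 / piece D5.)

* `exists_eq_mul_add_mul`         : `L(B) α₁ + L(B) α₂ = L(B + E)` for a base-point-free pencil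
                                    `α₁, α₂ ∈ L(E)` and `deg (B - E) > 2g - 2`.
* `exists_effective`              : `deg D ≥ g` ⟹ `D + div f ≥ 0` for some `f ≠ 0`.
* `eq_of_effective_of_ell_eq_one` : two linearly equivalent effective divisors, one of them with
                                    `ℓ = 1`, are equal.
* `ell_eq_ell_sub_add_degree`     : `ℓ(B) = ℓ(B - D) + deg D` if `deg (B - D) > 2g - 2`.
-/

set_option autoImplicit false

noncomputable section

open AlgebraicCurve

namespace Fermat.Agent.Lib.RR.H439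

open Fermat.Agent.Lib.RR

variable {K F : Type*} [Field K] [Field F] [Algebra K F]

section Maps

variable (B E : Divisor K F) (α₁ α₂ : F)

/-- `(β₁, β₂) ↦ β₁ α₁ + β₂ α₂ : L(B) × L(B) → F`. -/
def pencilMul : (riemannRochSpace B × riemannRochSpace B) →ₗ[K] F :=
  ((LinearMap.mulRight K α₁).comp (riemannRochSpace B).subtype).coprod
    ((LinearMap.mulRight K α₂).comp (riemannRochSpace B).subtype)

@[simp] theorem pencilMul_apply (x : riemannRochSpace B × riemannRochSpace B) :
    pencilMul B α₁ α₂ x = (x.1 : F) * α₁ + (x.2 : F) * α₂ := by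
  simp [pencilMul]

theorem pencilMul_mem {α₁ α₂ : F} (hα₁ : α₁ ∈ riemannRochSpace E) (hα₂ : α₂ ∈ riemannRochSpace E)
    (x : riemannRochSpace B × riemannRochSpace B) :
    pencilMul B α₁ α₂ x ∈ riemannRochSpace (B + E) := by
  rw [pencilMul_apply]
  have hB : ∀ β ∈ riemannRochSpace B, β ∈ riemannRochSpace ((B + E) - E) := by
    intro β hβ
    rwa [add_sub_cancel_right]
  exact Submodule.add_mem _ (mul_mem_L (hB _ x.1.2) hα₁) (mul_mem_L (hB _ x.2.2) hα₂)

/-- `γ ↦ (γ α₂, -γ α₁) : L(B - E) → L(B) × L(B)` (the Koszul map). -/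
def pencilKoszul {α₁ α₂ : F} (hα₁ : α₁ ∈ riemannRochSpace E) (hα₂ : α₂ ∈ riemannRochSpace E) :
    riemannRochSpace (B - E) →ₗ[K] (riemannRochSpace B × riemannRochSpace B) where
  toFun γ := (⟨(γ : F) * α₂, mul_mem_L γ.2 hα₂⟩, ⟨-((γ : F) * α₁),
    Submodule.neg_mem _ (mul_mem_L γ.2 hα₁)⟩)
  map_add' γ γ' := by
    apply Prod.ext <;> apply Subtype.ext <;> simp <;> ring
  map_smul' c γ := by
    apply Prod.ext <;> apply Subtype.ext <;> simp

theorem pencilKoszul_injective {α₁ α₂ : F} (hα₁ : α₁ ∈ riemannRochSpace E)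
    (hα₂ : α₂ ∈ riemannRochSpace E) (hα₂0 : α₂ ≠ 0) :
    Function.Injective (pencilKoszul B E hα₁ hα₂) := by
  intro γ γ' h
  have h1 := congrArg (fun x : riemannRochSpace B × riemannRochSpace B => (x.1 : F)) h
  simp only [pencilKoszul, LinearMap.coe_mk, AddHom.coe_mk] at h1
  exact Subtype.ext (mul_right_cancel₀ hα₂0 h1)

theorem range_pencilKoszul {α₁ α₂ : F} (hα₁ : α₁ ∈ riemannRochSpace E)
    (hα₂ : α₂ ∈ riemannRochSpace E) (hα₁0 : α₁ ≠ 0) (hα₂0 : α₂ ≠ 0)
    (hα : ∀ v : Place K F, v.ord α₁ = -E v ∨ v.ord α₂ = -E v) :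
    LinearMap.range (pencilKoszul B E hα₁ hα₂) = LinearMap.ker (pencilMul B α₁ α₂) := by
  apply le_antisymm
  · rintro _ ⟨γ, rfl⟩
    rw [LinearMap.mem_ker, pencilMul_apply]
    simp only [pencilKoszul, LinearMap.coe_mk, AddHom.coe_mk]
    ring
  · intro x hx
    rw [LinearMap.mem_ker, pencilMul_apply] at hx
    have h : (x.1 : F) * α₁ = (-(x.2 : F)) * α₂ := by
      rw [neg_mul]; exact eq_neg_of_add_eq_zero_left hx
    obtain ⟨γ, hγ, h1, h2⟩ := pencil_trick (E := E) (B := B) hα₂0 hα₁0 (fun v => (hα v).symm)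
      x.1.2 (Submodule.neg_mem _ x.2.2) h
    refine ⟨⟨γ, hγ⟩, ?_⟩
    apply Prod.ext <;> apply Subtype.ext
    · simp only [pencilKoszul, LinearMap.coe_mk, AddHom.coe_mk]
      exact h1.symm
    · simp only [pencilKoszul, LinearMap.coe_mk, AddHom.coe_mk]
      rw [← h2, neg_neg]

end Maps

section RR

variable [FF1 K F]

/-- **Surjectivity of multiplication** (base-point-free pencil trick + Riemann–Roch).  If
`α₁, α₂ ∈ L(E)` have no common zero and `deg (B - E) > 2g - 2`, then every element of `L(B + E)`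
is `β₁ α₁ + β₂ α₂` with `β₁, β₂ ∈ L(B)`. -/
theorem exists_eq_mul_add_mul {E B : Divisor K F} {α₁ α₂ : F}
    (hα₁ : α₁ ∈ riemannRochSpace E) (hα₂ : α₂ ∈ riemannRochSpace E) (hα₁0 : α₁ ≠ 0)
    (hα₂0 : α₂ ≠ 0) (hα : ∀ v : Place K F, v.ord α₁ = -E v ∨ v.ord α₂ = -E v)
    (hdeg : 2 * (genusFF K F : ℤ) - 2 < Divisor.degree (B - E)) {h : F}
    (hh : h ∈ riemannRochSpace (B + E)) :
    ∃ β₁ ∈ riemannRochSpace B, ∃ β₂ ∈ riemannRochSpace B, h = β₁ * α₁ + β₂ * α₂ := by
  have hE0 : 0 ≤ Divisor.degree E := degree_nonneg_of_mem_L hα₁ hα₁0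
  rw [map_sub] at hdeg
  have e1 : (ell (B - E) : ℤ) = Divisor.degree (B - E) + 1 - (genusFF K F : ℤ) :=
    ell_eq_of_degree_gt (by rw [map_sub]; omega)
  have e2 : (ell B : ℤ) = Divisor.degree B + 1 - (genusFF K F : ℤ) :=
    ell_eq_of_degree_gt (by omega)
  have e3 : (ell (B + E) : ℤ) = Divisor.degree (B + E) + 1 - (genusFF K F : ℤ) :=
    ell_eq_of_degree_gt (by rw [map_add]; omega)
  rw [map_sub] at e1
  rw [map_add] at e3
  -- the map into `L(B + E)`
  let Φ : (riemannRochSpace B × riemannRochSpace B) →ₗ[K] riemannRochSpace (B + E) :=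
    (pencilMul B α₁ α₂).codRestrict _ (pencilMul_mem B E hα₁ hα₂)
  have hker : LinearMap.ker Φ = LinearMap.ker (pencilMul B α₁ α₂) :=
    LinearMap.ker_codRestrict _ _ _
  have hrk := LinearMap.finrank_range_add_finrank_ker Φ
  rw [hker, ← range_pencilKoszul B E hα₁ hα₂ hα₁0 hα₂0 hα,
    LinearMap.finrank_range_of_inj (pencilKoszul_injective B E hα₁ hα₂ hα₂0),
    Module.finrank_prod] at hrk
  have hfr : Module.finrank K (LinearMap.range Φ) = Module.finrank K (riemannRochSpace (B + E)) := by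
    unfold ell at e1 e2 e3
    omega
  have htop : LinearMap.range Φ = ⊤ := Submodule.eq_top_of_finrank_eq hfr
  have hmem : (⟨h, hh⟩ : riemannRochSpace (B + E)) ∈ LinearMap.range Φ := by
    rw [htop]; trivial
  obtain ⟨x, hx⟩ := hmem
  refine ⟨x.1, x.1.2, x.2, x.2.2, ?_⟩
  have := congrArg Subtype.val hx
  simp only [Φ, LinearMap.codRestrict_apply, pencilMul_apply] at this
  exact this.symm

/-- **Effective representatives**: if `deg D ≥ g` there is `f ≠ 0` with `D + div f ≥ 0`. -/
theorem exists_effective {D : Divisor K F} (hD : (genusFF K F : ℤ) ≤ Divisor.degree D) :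
    ∃ f : F, f ≠ 0 ∧ ∀ v : Place K F, 0 ≤ D v + v.ord f := by
  have h1 := riemann_inequality_genusFF D
  have hpos : 0 < ell D := by
    have : (0 : ℤ) < ell D := by omega
    exact_mod_cast this
  unfold ell at hpos
  obtain ⟨x, hx⟩ := (Module.finrank_pos_iff_exists_ne_zero (R := K)).mp hpos
  have hx0 : (x : F) ≠ 0 := fun h => hx (Subtype.ext h)
  refine ⟨x, hx0, fun v => ?_⟩
  have := (mem_L_iff.mp x.2 v).resolve_left hx0
  omega

/-- **Uniqueness of the effective representative of a non-special class**: if `D₁, D₂ ≥ 0`,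
`D₁ - D₂ = div h` and `ℓ(D₁) = 1`, then `D₁ = D₂`. -/
theorem eq_of_effective_of_ell_eq_one {D₁ D₂ : Divisor K F} (h₁ : 0 ≤ D₁) (h₂ : 0 ≤ D₂)
    (hl : ell D₁ = 1) {h : F} (hdiv : ∀ v : Place K F, D₁ v - D₂ v = v.ord h) :
    D₁ = D₂ := by
  have hmem : h⁻¹ ∈ riemannRochSpace D₁ := by
    rw [mem_L_iff]
    intro v
    right
    rw [v.ord_inv, ← hdiv v]
    have := Finsupp.le_def.mp h₂ v
    simp only [Finsupp.coe_zero, Pi.zero_apply] at this
    omega
  rw [H638.L_eq_range_of_ell_eq_one h₁ hl] at hmem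
  obtain ⟨c, hc⟩ := hmem
  rw [Algebra.linearMap_apply] at hc
  ext v
  have h0 : v.ord h⁻¹ = 0 := by rw [← hc]; exact ord_algebraMap v c
  rw [v.ord_inv] at h0
  have := hdiv v
  omega

/-- `ℓ(B) = ℓ(B - D) + deg D` as soon as `deg (B - D) > 2g - 2` and `deg D ≥ 0`. -/
theorem ell_eq_ell_sub_add_degree {B D : Divisor K F} (hD : 0 ≤ Divisor.degree D)
    (hdeg : 2 * (genusFF K F : ℤ) - 2 < Divisor.degree (B - D)) :
    (ell B : ℤ) = ell (B - D) + Divisor.degree D := by
  have e1 : (ell (B - D) : ℤ) = Divisor.degree (B - D) + 1 - (genusFF K F : ℤ) :=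
    ell_eq_of_degree_gt hdeg
  rw [map_sub] at hdeg e1
  have e2 : (ell B : ℤ) = Divisor.degree B + 1 - (genusFF K F : ℤ) :=
    ell_eq_of_degree_gt (by omega)
  omega

end RR

end Fermat.Agent.Lib.RR.H439

end
end
-- ===== PACK-END Lib/RR/H439/PencilMul.lean

-- ===== PACK-BEGIN S17/H317/ProductsSpan.lean
section
/-
S17 row, tower H (heights), wall leaf G2 (helper317): PRODUCTS SPAN
(`origin/helper710:coord/S17-H-L1-helper710.md`, sec. 1 (G2): base-point-free pencil trick).

Setting: `[FF1 K F]` (function field of one variable, all places of degree one), `K` infinite,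
`g = genusFF K F`.  All statements are about products of `K`-subspaces of `F`
(`Submodule K F` is a semiring under the product of subspaces).

* `L_mul_L`            : `L(D) * L(E) = L(D + E)` if `deg E ≥ 2g` and `deg (D - E) > 2g - 2`.
* `L_mul_prod_L`       : for every list `A` of places (coincidences allowed), `deg E ≥ 2g + 1`,
                         `deg B ≥ deg E + 2g - 2`:
                         `L(B) * ∏_{a ∈ A} L(E - a) = L(B + |A| • E - ∑_{a ∈ A} a)`.
* `span_mul_prod_span` : the same with spanning sets: if `S₀` spans `L(B)` and `S a` spans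
                         `L(E - a)`, the products `c * b₁ * ⋯ * b_m` span `L(B + m E - ∑ A)`.
* `ell_mul_prod_L`     : the dimension `deg B + m (deg E - 1) + 1 - g`.
-/


set_option autoImplicit false

noncomputable section

open AlgebraicCurve

namespace Fermat.Agent.S17.H317

open Fermat.Agent.Lib.RR

variable {K F : Type*} [Field K] [Field F] [Algebra K F]

/-- `L(D) * L(E) ⊆ L(D + E)`. -/
theorem L_mul_L_le (D E : Divisor K F) :
    riemannRochSpace D * riemannRochSpace E ≤ riemannRochSpace (D + E) := by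
  rw [Submodule.mul_le]
  intro x hx y hy
  exact H439.mul_mem_L (B := D + E) (E := E) (by rwa [add_sub_cancel_right]) hy

/-- The divisor `B + m E - ∑ᵢ Aᵢ`. -/
def prodDiv {m : ℕ} (E B : Divisor K F) (A : Fin m → Place K F) : Divisor K F :=
  B + m • E - ∑ i, prim (A i)

theorem degree_prodDiv [FF1 K F] {m : ℕ} (E B : Divisor K F) (A : Fin m → Place K F) :
    Divisor.degree (prodDiv E B A) = Divisor.degree B + m * (Divisor.degree E - 1) := by
  unfold prodDiv
  rw [map_sub, map_add, map_nsmul, map_sum]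
  simp only [degree_prim', Finset.sum_const, Finset.card_univ, Fintype.card_fin, nsmul_eq_mul,
    mul_one]
  ring

theorem prodDiv_succ {m : ℕ} (E B : Divisor K F) (A : Fin (m + 1) → Place K F) :
    prodDiv E B A = prodDiv E B (fun i : Fin m => A i.succ) + (E - prim (A 0)) := by
  unfold prodDiv
  rw [Fin.sum_univ_succ, succ_nsmul]
  abel

section RR

variable [FF1 K F] [Infinite K]

/-- **Multiplication of Riemann–Roch spaces is onto in large degree**:
`L(D) * L(E) = L(D + E)` if `deg E ≥ 2g` and `deg (D - E) > 2g - 2`. -/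
theorem L_mul_L {D E : Divisor K F} (hE : 2 * (genusFF K F : ℤ) ≤ Divisor.degree E)
    (hD : 2 * (genusFF K F : ℤ) - 2 < Divisor.degree (D - E)) :
    riemannRochSpace D * riemannRochSpace E = riemannRochSpace (D + E) := by
  apply le_antisymm (L_mul_L_le D E)
  intro h hh
  obtain ⟨α₁, hα₁, α₂, hα₂, hα₁0, hα₂0, -, hα⟩ := H439.exists_two_members hE ∅
  obtain ⟨β₁, hβ₁, β₂, hβ₂, rfl⟩ :=
    H439.exists_eq_mul_add_mul hα₁ hα₂ hα₁0 hα₂0 hα hD hh
  exact Submodule.add_mem _ (Submodule.mul_mem_mul hβ₁ hα₁) (Submodule.mul_mem_mul hβ₂ hα₂)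

/-- **G2, PRODUCTS SPAN** (subspace form).  For every `m`-tuple of places `A` (coincidences
allowed), `deg E ≥ 2g + 1` and `deg B ≥ deg E + 2g - 2`:
`L(B) * ∏ᵢ L(E - Aᵢ) = L(B + m E - ∑ᵢ Aᵢ)`. -/
theorem L_mul_prod_L {E B : Divisor K F}
    (hE : 2 * (genusFF K F : ℤ) + 1 ≤ Divisor.degree E)
    (hB : Divisor.degree E + 2 * (genusFF K F : ℤ) - 2 ≤ Divisor.degree B) :
    ∀ {m : ℕ} (A : Fin m → Place K F),
      riemannRochSpace B * ∏ i, riemannRochSpace (E - prim (A i)) =
        riemannRochSpace (prodDiv E B A) := by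
  intro m
  induction m with
  | zero =>
    intro A
    simp [prodDiv]
  | succ m ih =>
    intro A
    rw [Fin.prod_univ_succ, mul_left_comm, mul_comm (riemannRochSpace (E - prim (A 0))),
      ih (fun i : Fin m => A i.succ), prodDiv_succ]
    apply L_mul_L
    · rw [map_sub, degree_prim']
      omega
    · have h1 := degree_prodDiv E B (fun i : Fin m => A i.succ)
      rw [map_sub, h1, map_sub, degree_prim']
      have h2 : (0 : ℤ) ≤ m * (Divisor.degree E - 1) :=
        mul_nonneg (Int.natCast_nonneg m) (by omega)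
      omega

omit [Infinite K] in
/-- The dimension of the span of the products. -/
theorem ell_prodDiv {E B : Divisor K F}
    (hE : 2 * (genusFF K F : ℤ) + 1 ≤ Divisor.degree E)
    (hB : Divisor.degree E + 2 * (genusFF K F : ℤ) - 2 ≤ Divisor.degree B)
    {m : ℕ} (A : Fin m → Place K F) :
    (ell (prodDiv E B A) : ℤ) =
      Divisor.degree B + m * (Divisor.degree E - 1) + 1 - (genusFF K F : ℤ) := by
  rw [← degree_prodDiv E B A]
  apply ell_eq_of_degree_gt
  rw [degree_prodDiv]
  have h2 : (0 : ℤ) ≤ m * (Divisor.degree E - 1) :=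
    mul_nonneg (Int.natCast_nonneg m) (by omega)
  omega

open scoped Pointwise in
/-- **G2, PRODUCTS SPAN** (spanning-set form).  If `S₀` spans `L(B)` and `S i` spans
`L(E - Aᵢ)`, then the products `c * b₁ * ⋯ * b_m` (`c ∈ S₀`, `bᵢ ∈ S i`) span
`L(B + m E - ∑ᵢ Aᵢ)`. -/
theorem span_products {E B : Divisor K F}
    (hE : 2 * (genusFF K F : ℤ) + 1 ≤ Divisor.degree E)
    (hB : Divisor.degree E + 2 * (genusFF K F : ℤ) - 2 ≤ Divisor.degree B)
    {m : ℕ} (A : Fin m → Place K F) {S₀ : Set F} {S : Fin m → Set F}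
    (hS₀ : Submodule.span K S₀ = riemannRochSpace B)
    (hS : ∀ i, Submodule.span K (S i) = riemannRochSpace (E - prim (A i))) :
    Submodule.span K {x : F | ∃ c ∈ S₀, ∃ b : Fin m → F, (∀ i, b i ∈ S i) ∧ x = c * ∏ i, b i} =
      riemannRochSpace (prodDiv E B A) := by
  rw [← L_mul_prod_L hE hB A, ← hS₀]
  simp_rw [← hS]
  rw [Submodule.prod_span, Submodule.span_mul_span]
  congr 1
  ext x
  simp only [Set.mem_ofPred_eq, Set.mem_mul, Set.mem_finsetProd]
  constructor
  · rintro ⟨c, hc, b, hb, rfl⟩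
    exact ⟨c, hc, _, ⟨b, fun {i} _ => hb i, rfl⟩, rfl⟩
  · rintro ⟨c, hc, y, ⟨b, hb, rfl⟩, rfl⟩
    exact ⟨c, hc, b, fun i => hb (Finset.mem_univ i), rfl⟩

/-- **G2, PRODUCTS SPAN** (full form): the products `c * b₁ * ⋯ * b_m`, `c ∈ L(B)`,
`bᵢ ∈ L(E - Aᵢ)`, span `L(B + m E - ∑ᵢ Aᵢ)`. -/
theorem span_products_L {E B : Divisor K F}
    (hE : 2 * (genusFF K F : ℤ) + 1 ≤ Divisor.degree E)
    (hB : Divisor.degree E + 2 * (genusFF K F : ℤ) - 2 ≤ Divisor.degree B)
    {m : ℕ} (A : Fin m → Place K F) :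
    Submodule.span K {x : F | ∃ c ∈ riemannRochSpace B, ∃ b : Fin m → F,
        (∀ i, b i ∈ riemannRochSpace (E - prim (A i))) ∧ x = c * ∏ i, b i} =
      riemannRochSpace (prodDiv E B A) :=
  span_products hE hB A (S₀ := (riemannRochSpace B : Set F))
    (S := fun i => (riemannRochSpace (E - prim (A i)) : Set F))
    (Submodule.span_eq _) (fun _ => Submodule.span_eq _)

end RR

/-! ### Linear algebra: the secant elements `ξⱼ xₖ - ξₖ xⱼ` span the hyperplane `ξ^⊥` -/

section Secant

variable {ι : Type*} [Fintype ι]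

/-- The linear form `b ↦ ∑ᵢ bᵢ ξᵢ` on `ι → K`. -/
def dotForm (ξ : ι → K) : (ι → K) →ₗ[K] K where
  toFun b := ∑ i, b i * ξ i
  map_add' b c := by simp [add_mul, Finset.sum_add_distrib]
  map_smul' c b := by simp [Finset.mul_sum, mul_assoc]

@[simp] theorem dotForm_apply (ξ b : ι → K) : dotForm ξ b = ∑ i, b i * ξ i := rfl

/-- For a family `x : ι → V` and `ξ ≠ 0`, the elements `ξⱼ xₖ - ξₖ xⱼ` span the image of the
hyperplane `{b | ∑ bᵢ ξᵢ = 0}` under `b ↦ ∑ bᵢ xᵢ`. -/
theorem span_secant {V : Type*} [AddCommGroup V] [Module K V] (x : ι → V) (ξ : ι → K)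
    (hξ : ξ ≠ 0) :
    Submodule.span K (Set.range fun p : ι × ι => ξ p.1 • x p.2 - ξ p.2 • x p.1) =
      (LinearMap.ker (dotForm ξ)).map (Fintype.linearCombination K x) := by
  classical
  apply le_antisymm
  · rw [Submodule.span_le]
    rintro _ ⟨⟨j, k⟩, rfl⟩
    refine ⟨ξ j • Pi.single k 1 - ξ k • Pi.single j 1, ?_, ?_⟩
    · simp only [SetLike.mem_coe, LinearMap.mem_ker, dotForm_apply, Pi.sub_apply, Pi.smul_apply,
        smul_eq_mul, sub_mul, Finset.sum_sub_distrib, Pi.single_apply, mul_ite, mul_one,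
        mul_zero, ite_mul, zero_mul, Finset.sum_ite_eq', Finset.mem_univ, if_true]
      ring
    · simp only [map_sub, map_smul, Fintype.linearCombination_apply_single, one_smul]
  · rintro _ ⟨b, hb, rfl⟩
    rw [SetLike.mem_coe, LinearMap.mem_ker, dotForm_apply] at hb
    obtain ⟨j₀, hj₀⟩ : ∃ j₀, ξ j₀ ≠ 0 := by
      by_contra hcon
      simp only [not_exists, not_not] at hcon
      exact hξ (funext hcon)
    have key : Fintype.linearCombination K x b =
        ∑ i, (b i / ξ j₀) • (ξ j₀ • x i - ξ i • x j₀) := by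
      rw [Fintype.linearCombination_apply]
      simp only [smul_sub, smul_smul, Finset.sum_sub_distrib]
      have h1 : ∀ i, b i / ξ j₀ * ξ j₀ = b i := fun i => div_mul_cancel₀ _ hj₀
      simp only [h1]
      rw [← Finset.sum_smul]
      have h2 : ∑ i, b i / ξ j₀ * ξ i = 0 := by
        have : ∑ i, b i / ξ j₀ * ξ i = (∑ i, b i * ξ i) / ξ j₀ := by
          rw [Finset.sum_div]
          exact Finset.sum_congr rfl fun i _ => by ring
        rw [this, hb, zero_div]
      rw [h2, zero_smul, sub_zero]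
    rw [key]
    refine Submodule.sum_mem _ fun i _ => Submodule.smul_mem _ _ ?_
    exact Submodule.subset_span ⟨(j₀, i), rfl⟩

end Secant

end Fermat.Agent.S17.H317

end
end
-- ===== PACK-END S17/H317/ProductsSpan.lean

-- ===== PACK-BEGIN S17/H317/MinorBeta.lean
section





/-!
# S17 / tower H — WALL leaf **G-MINOR-β** (helper317)

`minorBeta : Big E → Wall.MinorBetaStatement E` :
for ANY `L > k m` distinct places `Q_t` and EVERY `k`-tuple `A` of places the matrix
`betaMat (pt ∘ A) (pt ∘ Q)` has rank `κ_k = k m - k + 1 - g`.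

Ingredients (all proved here):

* `exists_smul_of_ann_eq` : two vectors with the same annihilator are proportional;
* `exists_pt_eq_smul` : `E.pt P = c • ptD (m∞) E.x P`, `c ≠ 0` (VALUE DICTIONARY: the abstract
  point of an `EmbData` is the concrete point of values of helper230, up to a scalar);
* `valAt_aeval_of_isHomogeneous` : for `G` homogeneous of degree `k`,
  `eval (ptD D x v) G` is the value at `v` of `aeval x G * unif v ^ (k D(v))`;
* `forall_eval_pt_eq_zero_iff` : for `G` homogeneous of degree `k` and `L > k m` distinct places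
  `Q_t`: `(∀ t, eval (pt (Q t)) G = 0) ↔ aeval E.x G = 0`
  (evaluation at `> k m` places is injective on `L(k m ∞)`);
* `span_secForm` : the secant forms at `pt A` span `L(m∞ - A)`;
* `prod_L_sub_prim` : `∏ᵢ L(m∞ - Aᵢ) = L(k m∞ - ΣAᵢ)` (`Lib/RR/H259.L_mul_L`, `m ≥ 4g + 1`);
* `span_aeval_secProd` : the sections `aeval E.x (secProd (pt ∘ A) s)` span `L(k m∞ - ΣAᵢ)`.
-/

set_option autoImplicit false
set_option linter.unusedSectionVars false

noncomputable section

open AlgebraicCurve MvPolynomial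

namespace Fermat.Agent.S17.H317

open Fermat.Agent.Lib.RR Fermat.Agent.S17.HWall Fermat.Agent.S17.H710 Fermat.Agent.S17.Wall
open Fermat.Agent.S17.H230

variable {K F : Type*} [Field K] [Field F] [Algebra K F]

/-! ### Linear algebra: same annihilator ⇒ proportional -/

/-- Two vectors with the same annihilator are proportional. -/
theorem exists_smul_of_ann_eq {n : ℕ} (u w : Fin n → K) (hw : w ≠ 0)
    (h : ∀ a : Fin n → K, a ≠ 0 → (dot a u = 0 ↔ dot a w = 0)) :
    ∃ c : K, c ≠ 0 ∧ u = c • w := by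
  classical
  obtain ⟨j₀, hj₀⟩ : ∃ j₀, w j₀ ≠ 0 := by
    by_contra hcon
    simp only [not_exists, not_not] at hcon
    exact hw (funext hcon)
  have hdot : ∀ (i : Fin n) (z : Fin n → K),
      dot (w j₀ • Pi.single i 1 - w i • Pi.single j₀ 1) z = w j₀ * z i - w i * z j₀ := by
    intro i z
    simp only [dot, sub_dotProduct, smul_dotProduct, single_one_dotProduct, smul_eq_mul]
  have key : ∀ i, w j₀ * u i = w i * u j₀ := by
    intro i
    by_cases hi : i = j₀
    · subst hi; ring
    · have ha0 : (w j₀ • Pi.single i 1 - w i • Pi.single j₀ 1 : Fin n → K) ≠ 0 := by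
        intro h0
        have := congrFun h0 i
        simp only [Pi.sub_apply, Pi.smul_apply, Pi.single_eq_same, smul_eq_mul, mul_one,
          Pi.single_apply, hi, if_false, mul_zero, sub_zero, Pi.zero_apply] at this
        exact hj₀ this
      have h1 : dot (w j₀ • Pi.single i 1 - w i • Pi.single j₀ 1) w = 0 := by
        rw [hdot]; ring
      have h2 := (h _ ha0).mpr h1
      rw [hdot] at h2
      linear_combination h2
  have hu : u j₀ ≠ 0 := by
    intro hu0
    have hu' : ∀ i, u i = 0 := by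
      intro i
      have := key i
      rw [hu0, mul_zero] at this
      exact (mul_eq_zero.mp this).resolve_left hj₀
    have ha0 : (Pi.single j₀ 1 : Fin n → K) ≠ 0 := by
      intro h0
      have := congrFun h0 j₀
      simp at this
    have h1 : dot (Pi.single j₀ 1) u = 0 := by
      simp only [dot, single_one_dotProduct]
      exact hu' j₀
    have h2 := (h _ ha0).mp h1
    simp only [dot, single_one_dotProduct] at h2
    exact hj₀ h2
  refine ⟨u j₀ / w j₀, div_ne_zero hu hj₀, ?_⟩
  funext i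
  simp only [Pi.smul_apply, smul_eq_mul]
  field_simp
  linear_combination key i

variable [FF1 K F]

/-! ### The value dictionary -/

theorem emb_x_mem (E : EmbData K F) (i : Fin (E.r + 1)) :
    E.x i ∈ riemannRochSpace (E.m • prim E.vinf) := by
  rw [← E.x_span]
  exact Submodule.subset_span ⟨i, rfl⟩

theorem emb_degree_minf (E : EmbData K F) :
    Divisor.degree (E.m • prim E.vinf) = (E.m : ℤ) := by
  rw [map_nsmul, degree_prim']
  simp

/-- The concrete point of values is nonzero (`|m∞|` has no base points). -/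
theorem ptD_emb_ne_zero (E : EmbData K F) (P : Place K F) :
    ptD (E.m • prim E.vinf) E.x P ≠ 0 := by
  have hE : 2 * (genusFF K F : ℤ) ≤ Divisor.degree (E.m • prim E.vinf) := by
    rw [emb_degree_minf, genusFF_eq_genusR]
    have := E.hm
    omega
  obtain ⟨f, hf, hf0, hord⟩ := H439.exists_mem_L_ord_eq hE P
  exact ptD_ne_zero_of_span (emb_x_mem E) (by rw [E.x_span]; exact hf) hf0 hord

/-- **Value dictionary.**  The point `E.pt P` of an embedding datum is, up to a nonzero scalar,
the concrete point of values `ptD (m∞) E.x P`. -/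
theorem exists_pt_eq_smul (E : EmbData K F) (P : Place K F) :
    ∃ c : K, c ≠ 0 ∧ E.pt P = c • ptD (E.m • prim E.vinf) E.x P := by
  refine exists_smul_of_ann_eq _ _ (ptD_emb_ne_zero E P) fun a ha => ?_
  rw [E.pt_spec P a ha]
  have h0 : lin E.x a ≠ 0 := E.lin_ne_zero ha
  rw [hypDiv_apply_of_ne E.vinf E.m h0 P]
  exact (pt_spec_ptD (emb_x_mem E) P a h0).symm

/-- `E.pt P ≠ 0`. -/
theorem emb_pt_ne_zero (E : EmbData K F) (P : Place K F) : E.pt P ≠ 0 := by
  obtain ⟨c, hc, h⟩ := exists_pt_eq_smul E P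
  rw [h]
  exact smul_ne_zero hc (ptD_emb_ne_zero E P)

/-! ### Values of polynomials in regular functions -/

theorem regAt_valAt_aeval {ι : Type*} (v : Place K F) (y : ι → F) (hy : ∀ i, RegAt v (y i))
    (p : MvPolynomial ι K) :
    RegAt v (aeval y p) ∧ valAt v (aeval y p) = eval (fun i => valAt v (y i)) p := by
  induction p using MvPolynomial.induction_on with
  | C a =>
    rw [aeval_C, eval_C]
    exact ⟨regAt_algebraMap v a, valAt_algebraMap v a⟩
  | add p q hp hq =>
    rw [map_add, map_add]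
    exact ⟨hp.1.add hq.1, by rw [valAt_add hp.1 hq.1, hp.2, hq.2]⟩
  | mul_X p i hp =>
    rw [map_mul, map_mul, aeval_X, eval_X]
    exact ⟨hp.1.mul (hy i), by rw [valAt_mul hp.1 (hy i), hp.2]⟩

/-- For `G` homogeneous of degree `k` and `x ⊂ L(D)`, the function `aeval x G * π ^ (k D(v))` is
regular at `v` and its value is `eval (ptD D x v) G`. -/
theorem valAt_aeval_of_isHomogeneous {ι : Type*} {D : Divisor K F} {x : ι → F}
    (hx : ∀ i, x i ∈ riemannRochSpace D) (v : Place K F)
    {G : MvPolynomial ι K} {k : ℕ} (hG : G.IsHomogeneous k) :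
    RegAt v (aeval x G * unif v ^ ((k : ℤ) * D v)) ∧
      valAt v (aeval x G * unif v ^ ((k : ℤ) * D v)) = eval (ptD D x v) G := by
  have h1 : aeval (fun i => unif v ^ (D v) * x i) G = (unif v ^ (D v)) ^ k * aeval x G :=
    aeval_mul_of_isHomogeneous hG _ _
  have hy : ∀ i, RegAt v (unif v ^ (D v) * x i) := fun i => by
    rw [mul_comm]; exact regAt_normD hx v i
  have h2 := regAt_valAt_aeval v _ hy G
  have h3 : aeval x G * unif v ^ ((k : ℤ) * D v) = aeval (fun i => unif v ^ (D v) * x i) G := by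
    rw [h1, mul_comm, mul_comm (k : ℤ), zpow_mul, zpow_natCast]
  have h4 : (fun i => valAt v (unif v ^ (D v) * x i)) = ptD D x v := by
    funext i
    rw [ptD_apply, mul_comm]
  rw [h3]
  rw [h4] at h2
  exact h2


/-! ### Evaluation at more than `k m` places is injective -/

theorem eval_smul_of_isHomogeneous {ι : Type*} {G : MvPolynomial ι K} {k : ℕ}
    (hG : G.IsHomogeneous k) (c : K) (y : ι → K) :
    eval (c • y) G = c ^ k * eval y G := by
  have h := aeval_mul_of_isHomogeneous (S := K) hG c y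
  simp only [MvPolynomial.aeval_eq_eval] at h
  exact h

theorem sum_prim_apply_self {L : ℕ} (Q : Fin L → Place K F) (hQ : Function.Injective Q)
    (t₀ : Fin L) : (∑ t, prim (Q t) : Divisor K F) (Q t₀) = 1 := by
  classical
  rw [Finsupp.finsetSum_apply]
  have : ∀ t, (prim (Q t) : Divisor K F) (Q t₀) = if t = t₀ then 1 else 0 := by
    intro t
    by_cases h : t = t₀
    · subst h; simp
    · rw [if_neg h]
      exact prim_apply_of_ne (fun h' => h (hQ h').symm)
  simp only [this, Finset.sum_ite_eq', Finset.mem_univ, if_true]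

theorem sum_prim_apply_of_not_mem {L : ℕ} (Q : Fin L → Place K F) (v : Place K F)
    (hv : ∀ t, Q t ≠ v) : (∑ t, prim (Q t) : Divisor K F) v = 0 := by
  rw [Finsupp.finsetSum_apply]
  exact Finset.sum_eq_zero fun t _ => prim_apply_of_ne (hv t).symm

/-- **Evaluation at `> k m` distinct places is injective on sections of `O(k m ∞)`**: a
homogeneous polynomial of degree `k` vanishes at the points of `L > k m` distinct places iff
it is a relation of `E.x`. -/
theorem forall_eval_pt_eq_zero_iff (E : EmbData K F) {k L : ℕ} (Q : Fin L → Place K F)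
    (hQ : Function.Injective Q) (hL : k * E.m < L)
    {G : MvPolynomial (Fin (E.r + 1)) K} (hG : G.IsHomogeneous k) :
    (∀ t, eval (E.pt (Q t)) G = 0) ↔ aeval E.x G = 0 := by
  have hval : ∀ v : Place K F, ∃ c : K, c ≠ 0 ∧ eval (E.pt v) G =
      c ^ k * valAt v (aeval E.x G * unif v ^ ((k : ℤ) * (E.m • prim E.vinf : Divisor K F) v)) := by
    intro v
    obtain ⟨c, hc, h⟩ := exists_pt_eq_smul E v
    refine ⟨c, hc, ?_⟩
    rw [h, _root_.Fermat.Agent.S17.H317.eval_smul_of_isHomogeneous hG, (valAt_aeval_of_isHomogeneous (emb_x_mem E) v hG).2]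
  constructor
  · intro h
    by_contra hf0
    have hmem : aeval E.x G ∈
        riemannRochSpace (k • (E.m • prim E.vinf) - ∑ t, prim (Q t) : Divisor K F) := by
      rw [mem_L_iff]
      intro v
      right
      have hreg := (valAt_aeval_of_isHomogeneous (emb_x_mem E) v hG).1
      have hreg' := hreg
      rw [regAt_iff, ord_mul_unif_zpow v hf0] at hreg'
      have hkD : ∀ w : Place K F,
          (k • (E.m • prim E.vinf) - ∑ t, prim (Q t) : Divisor K F) w =
            (k : ℤ) * (E.m • prim E.vinf : Divisor K F) w - (∑ t, prim (Q t) : Divisor K F) w := by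
        intro w
        rw [Finsupp.sub_apply, Finsupp.smul_apply, nsmul_eq_mul]
      rw [hkD]
      by_cases hv : ∃ t, Q t = v
      · obtain ⟨t, rfl⟩ := hv
        obtain ⟨c, hc, hc'⟩ := hval (Q t)
        rw [h t] at hc'
        have h0 := (mul_eq_zero.mp hc'.symm).resolve_left (pow_ne_zero _ hc)
        rw [valAt_eq_zero_iff hreg] at h0
        rcases h0 with h0 | h0
        · exact absurd h0 (mul_ne_zero hf0 (zpow_ne_zero _ (unif_ne_zero _)))
        · rw [ord_mul_unif_zpow _ hf0] at h0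
          rw [sum_prim_apply_self Q hQ t]
          linarith
      · have hv' : ∀ t, Q t ≠ v := fun t ht => hv ⟨t, ht⟩
        rw [sum_prim_apply_of_not_mem Q v hv']
        linarith
    have hdeg : Divisor.degree (k • (E.m • prim E.vinf) - ∑ t, prim (Q t) : Divisor K F) < 0 := by
      rw [map_sub, map_nsmul, emb_degree_minf, map_sum]
      simp only [degree_prim', Finset.sum_const, Finset.card_univ, Fintype.card_fin, nsmul_eq_mul,
        mul_one]
      have : ((k * E.m : ℕ) : ℤ) < (L : ℤ) := by exact_mod_cast hL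
      push_cast at this
      linarith
    rw [L_eq_bot_of_degree_neg hdeg] at hmem
    exact hf0 ((Submodule.mem_bot K).mp hmem)
  · intro h t
    obtain ⟨c, hc, hc'⟩ := hval (Q t)
    rw [hc', h, zero_mul, valAt_zero, mul_zero]

/-! ### The secant forms span `L(m∞ - A)` -/

theorem aeval_secForm {n : ℕ} (x : Fin n → F) (y : Fin n → K) (p : Fin n × Fin n) :
    aeval x (secForm y p) = y p.1 • x p.2 - y p.2 • x p.1 := by
  simp [secForm, Algebra.smul_def]

theorem aeval_secProd {n d : ℕ} (x : Fin n → F) (y : Fin d → Fin n → K)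
    (s : Fin d → Fin n × Fin n) :
    aeval x (secProd y s) = ∏ i, (y i (s i).1 • x (s i).2 - y i (s i).2 • x (s i).1) := by
  simp [secProd, _root_.Fermat.Agent.S17.H317.aeval_secForm]

theorem dot_eq_dotForm {n : ℕ} (ξ b : Fin n → K) : dot b ξ = dotForm ξ b := by
  simp [dot, dotProduct]

/-- The secant elements at the point of `A` span `L(m∞ - A)`. -/
theorem span_secant_emb (E : EmbData K F) (A : Place K F) :
    Submodule.span K (Set.range fun p : Fin (E.r + 1) × Fin (E.r + 1) =>
        E.pt A p.1 • E.x p.2 - E.pt A p.2 • E.x p.1) =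
      riemannRochSpace (E.m • prim E.vinf - prim A) := by
  rw [span_secant E.x (E.pt A) (emb_pt_ne_zero E A)]
  ext f
  constructor
  · rintro ⟨b, hb, rfl⟩
    rw [SetLike.mem_coe, LinearMap.mem_ker, ← dot_eq_dotForm] at hb
    rw [Fintype.linearCombination_apply]
    by_cases hb0 : b = 0
    · subst hb0; simp
    · have h1 := (E.pt_spec A b hb0).mp hb
      have h0 : lin E.x b ≠ 0 := E.lin_ne_zero hb0
      rw [hypDiv_apply_of_ne E.vinf E.m h0 A] at h1
      have h2 := (mem_L_sub_prim_iff (E.lin_mem b) A).mpr (Or.inr (by omega))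
      exact h2
  · intro hf
    have hle : (E.m • prim E.vinf - prim A : Divisor K F) ≤ E.m • prim E.vinf := by
      rw [Finsupp.le_def]
      intro v
      have : (0 : ℤ) ≤ (prim A : Divisor K F) v := by
        by_cases hv : v = A
        · subst hv; simp
        · rw [prim_apply_of_ne hv]
      simp only [Finsupp.coe_sub, Pi.sub_apply]
      omega
    have hf' : f ∈ riemannRochSpace (E.m • prim E.vinf) := L_mono hle hf
    rw [← E.x_span] at hf'
    obtain ⟨b, rfl⟩ := (Submodule.mem_span_range_iff_exists_fun K).mp hf'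
    refine ⟨b, ?_, by rw [Fintype.linearCombination_apply]⟩
    rw [SetLike.mem_coe, LinearMap.mem_ker, ← dot_eq_dotForm]
    by_cases hb0 : b = 0
    · subst hb0; simp [dot]
    · have h0 : lin E.x b ≠ 0 := E.lin_ne_zero hb0
      have h3 := (mem_L_sub_prim_iff (E.lin_mem b) A).mp hf
      have h1 : 0 < hypDiv E.vinf E.m E.x b A := by
        rw [hypDiv_apply_of_ne E.vinf E.m h0 A]
        rcases h3 with h | h
        · exact absurd h h0
        · have h' : -(E.m • prim E.vinf : Divisor K F) A < A.ord (lin E.x b) := h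
          omega
      exact (E.pt_spec A b hb0).mpr h1

/-! ### Products -/

/-- `∏ᵢ L(m∞ - Aᵢ) = L(k m∞ - ΣAᵢ)` for `m ≥ 4g + 1`, `k ≥ 1`. -/
theorem prod_L_sub_prim [Infinite K] (E : EmbData K F) (hBig : Big E) :
    ∀ {k : ℕ} (A : Fin (k + 1) → Place K F),
      ∏ i, riemannRochSpace (E.m • prim E.vinf - prim (A i)) =
        riemannRochSpace (prodDiv (E.m • prim E.vinf) 0 A) := by
  intro k
  have hB : 4 * genusR K F + 1 ≤ E.m := hBig
  induction k with
  | zero =>
    intro A
    rw [Fin.prod_univ_one]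
    congr 1
    simp [prodDiv]
  | succ k ih =>
    intro A
    rw [Fin.prod_univ_succ, ih (fun i => A i.succ), prodDiv_succ (E.m • prim E.vinf) 0 A,
      add_comm (prodDiv (E.m • prim E.vinf) 0 fun i => A i.succ)]
    apply H259.L_mul_L
    · rw [map_sub, emb_degree_minf, degree_prim', genusFF_eq_genusR]
      omega
    · rw [degree_prodDiv, emb_degree_minf, genusFF_eq_genusR, map_zero, zero_add]
      have h1 : (4 * (genusR K F : ℤ)) ≤ (E.m : ℤ) - 1 := by omega
      have h2 : (0 : ℤ) ≤ (k : ℤ) := Int.natCast_nonneg k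
      push_cast
      nlinarith

/-- The sections `aeval E.x (secProd (pt ∘ A) s)` span `L(k m∞ - ΣAᵢ)`. -/
theorem span_aeval_secProd [Infinite K] (E : EmbData K F) (hBig : Big E) {k : ℕ}
    (A : Fin (k + 1) → Place K F) :
    Submodule.span K (Set.range fun s : Fin (k + 1) → Fin (E.r + 1) × Fin (E.r + 1) =>
        aeval E.x (secProd (fun i => E.pt (A i)) s)) =
      riemannRochSpace (prodDiv (E.m • prim E.vinf) 0 A) := by
  rw [← prod_L_sub_prim E hBig A]
  simp_rw [← span_secant_emb E]
  rw [Submodule.prod_span]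
  congr 1
  ext f
  simp only [Set.mem_range, Set.mem_finsetProd, aeval_secProd]
  constructor
  · rintro ⟨s, rfl⟩
    exact ⟨fun i => E.pt (A i) (s i).1 • E.x (s i).2 - E.pt (A i) (s i).2 • E.x (s i).1,
      fun {i} _ => ⟨s i, rfl⟩, rfl⟩
  · rintro ⟨b, hb, rfl⟩
    choose s hs using fun i => hb (Finset.mem_univ i)
    exact ⟨s, Finset.prod_congr rfl fun i _ => hs i⟩

/-! ### The rank -/

theorem finrank_range_eq_of_ker_eq {V W W' : Type*} [AddCommGroup V] [Module K V]
    [FiniteDimensional K V] [AddCommGroup W] [Module K W] [AddCommGroup W'] [Module K W']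
    (f : V →ₗ[K] W) (g : V →ₗ[K] W') (h : LinearMap.ker f = LinearMap.ker g) :
    Module.finrank K (LinearMap.range f) = Module.finrank K (LinearMap.range g) := by
  have h1 := f.finrank_range_add_finrank_ker
  have h2 := g.finrank_range_add_finrank_ker
  rw [h] at h1
  omega

/-- **G-MINOR-β.** -/
theorem minorBeta [Infinite K] (E : EmbData K F) (hBig : Big E) : MinorBetaStatement E := by
  classical
  intro k L Q hk hQ hL A
  obtain ⟨k, rfl⟩ : ∃ k', k = k' + 1 := ⟨k - 1, by omega⟩
  have hker : LinearMap.ker (Fintype.linearCombination K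
        (betaMat (fun i => E.pt (A i)) fun t => E.pt (Q t))) =
      LinearMap.ker (Fintype.linearCombination K
        (fun s : Fin (k + 1) → Fin (E.r + 1) × Fin (E.r + 1) =>
          aeval E.x (secProd (fun i => E.pt (A i)) s))) := by
    ext c
    simp only [LinearMap.mem_ker, Fintype.linearCombination_apply]
    have hGhom : (∑ s, C (c s) * secProd (fun i => E.pt (A i)) s :
        MvPolynomial (Fin (E.r + 1)) K).IsHomogeneous (k + 1) :=
      IsHomogeneous.sum _ _ _ fun s _ => by
        simpa using (isHomogeneous_C _ (c s)).mul (secProd_isHomogeneous _ s)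
    have h1 : ∀ t, (∑ s, c s • betaMat (fun i => E.pt (A i)) (fun t => E.pt (Q t)) s) t =
        eval (E.pt (Q t)) (∑ s, C (c s) * secProd (fun i => E.pt (A i)) s) := by
      intro t
      simp [betaMat_eq_eval, Finset.sum_apply, map_sum]
    have h2 : ∑ s, c s • aeval E.x (secProd (fun i => E.pt (A i)) s) =
        aeval E.x (∑ s, C (c s) * secProd (fun i => E.pt (A i)) s) := by
      simp [map_sum, Algebra.smul_def]
    rw [h2, ← forall_eval_pt_eq_zero_iff E Q hQ hL hGhom]
    constructor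
    · intro h t
      rw [← h1, h]
      rfl
    · intro h
      funext t
      rw [h1]
      exact h t
  have hfr := finrank_range_eq_of_ker_eq _ _ hker
  rw [Fintype.range_linearCombination, Fintype.range_linearCombination] at hfr
  rw [hfr, span_aeval_secProd E hBig A]
  have hB : 4 * genusR K F + 1 ≤ E.m := hBig
  have hdeg : Divisor.degree (prodDiv (E.m • prim E.vinf) 0 A) =
      ((k + 1 : ℕ) : ℤ) * ((E.m : ℤ) - 1) := by
    rw [degree_prodDiv, emb_degree_minf, map_zero, zero_add]
  have h3 : (4 * (genusR K F : ℤ)) ≤ (E.m : ℤ) - 1 := by omega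
  have h4 : (0 : ℤ) ≤ (k : ℤ) := Int.natCast_nonneg k
  have hell := ell_eq_of_degree_gt (K := K) (F := F) (D := prodDiv (E.m • prim E.vinf) 0 A) (by
    rw [hdeg, genusFF_eq_genusR]
    push_cast
    nlinarith)
  rw [hdeg, genusFF_eq_genusR] at hell
  unfold ell at hell
  unfold kapN
  have h5 : (k + 1) * (4 * genusR K F + 1) ≤ (k + 1) * E.m := Nat.mul_le_mul_left _ hB
  have h6 : genusR K F ≤ (k + 1) * genusR K F := Nat.le_mul_of_pos_left _ (Nat.succ_pos k)
  have h7 : (k + 1) * (4 * genusR K F + 1) = 4 * ((k + 1) * genusR K F) + (k + 1) := by ring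
  have h8 : (((k + 1 : ℕ) : ℤ)) * ((E.m : ℤ) - 1) = (((k + 1) * E.m : ℕ) : ℤ) - ((k + 1 : ℕ) : ℤ) := by
    push_cast; ring
  rw [h8] at hell
  generalize (k + 1) * E.m = km at *
  generalize (k + 1) * genusR K F = kg at *
  omega

end Fermat.Agent.S17.H317

end
end
-- ===== PACK-END S17/H317/MinorBeta.lean

-- ===== PACK-BEGIN S15/H542/ModA2.lean
section





/-!
# S15, piece MOD-A2 (helper542): uniqueness of the place with given `(j, j_p)`-values

`placeUnique : PlaceUniqueStatement`.

Route (no discriminant of `Φ_p` needed):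
* `F = ℚ̄(j, j_p)` (`adjoin_jBar_jNBar_eq_top`);
* `Φ = Φ_p` has modular shape and `Φ(j, j_p) = 0 = Φ(j_p, j)` (helper386);
* for a valuation `v` of `ℚ̄` over `2`, `v r > 1`, hence (Newton polygon, helper962)
  `v a' = (v r)^p` or `(v a')^p = v r`;
* in the first case `a'` is a simple root of `Φ(r, Y)`, in the second `r` is a simple root of
  `Φ(a', Y)` (`simple_root_of_isModularShape`);
* a place centred at a simple point of a plane model is unique (helper602).
-/

set_option autoImplicit false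

noncomputable section

open Polynomial AlgebraicCurve ModularCurve HahnSeries

namespace Fermat.Agent.S15.H542

open Fermat.Agent.S15.H962 Fermat.Agent.S15.H602

/-! ## Generation -/

section Generation

variable (p : ℕ) [NeZero p]

theorem coe_jBar : ((jBar p : modularFunctionFieldBar p) : LaurentSeries (AlgebraicClosure ℚ)) =
    coeffEmb (AlgebraicClosure ℚ) jq := rfl

theorem coe_jNBar : ((jNBar p : modularFunctionFieldBar p) : LaurentSeries (AlgebraicClosure ℚ)) =
    coeffEmb (AlgebraicClosure ℚ) (qExpand ℚ p jq) := rfl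

/-- `coeffEmb` of an element of `ℚ(j, j_p)` lies in `ℚ̄(j, j_p)`. -/
theorem coeffEmb_mem_adjoin_pair (hp : p.Prime) {x : LaurentSeries ℚ}
    (hx : x ∈ modularFunctionFieldFull p) :
    coeffEmb (AlgebraicClosure ℚ) x ∈
      IntermediateField.adjoin (AlgebraicClosure ℚ)
        ({coeffEmb (AlgebraicClosure ℚ) jq, coeffEmb (AlgebraicClosure ℚ) (qExpand ℚ p jq)} :
          Set (LaurentSeries (AlgebraicClosure ℚ))) := by
  unfold modularFunctionFieldFull at hx
  induction hx using IntermediateField.adjoin_induction with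
  | mem x hx =>
    obtain ⟨d, hd0, hd, rfl⟩ := hx
    rcases (Nat.dvd_prime hp).mp hd with rfl | rfl
    · rw [qExpand_one_apply]
      exact IntermediateField.subset_adjoin _ _ (Set.mem_insert _ _)
    · exact IntermediateField.subset_adjoin _ _ (Set.mem_insert_of_mem _ rfl)
  | algebraMap c =>
    have h : coeffEmb (AlgebraicClosure ℚ) (algebraMap ℚ (LaurentSeries ℚ) c) =
        algebraMap (AlgebraicClosure ℚ) (LaurentSeries (AlgebraicClosure ℚ))
          (algebraMap ℚ (AlgebraicClosure ℚ) c) := by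
      rw [algebraMap_laurentSeries_eq_single, algebraMap_laurentSeries_eq_single, coeffEmb,
        coeffMap_single]
    rw [h]
    exact IntermediateField.algebraMap_mem _ _
  | add x y _ _ hx hy => rw [map_add]; exact add_mem hx hy
  | inv x _ hx => rw [map_inv₀]; exact inv_mem hx
  | mul x y _ _ hx hy => rw [map_mul]; exact mul_mem hx hy

/-- `F = ℚ̄(j, j_p)` at prime level. -/
theorem adjoin_jBar_jNBar_eq_top (hp : p.Prime) :
    IntermediateField.adjoin (AlgebraicClosure ℚ)
      ({jBar p, jNBar p} : Set (modularFunctionFieldBar p)) = ⊤ := by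
  rw [eq_top_iff]
  intro f _
  rw [← IntermediateField.mem_lift, IntermediateField.lift_adjoin]
  have himg : (Subtype.val '' ({jBar p, jNBar p} : Set (modularFunctionFieldBar p))) =
      ({coeffEmb (AlgebraicClosure ℚ) jq, coeffEmb (AlgebraicClosure ℚ) (qExpand ℚ p jq)} :
          Set (LaurentSeries (AlgebraicClosure ℚ))) := by
    rw [Set.image_pair]
    rfl
  rw [himg]
  have hle : modularFunctionFieldBar p ≤ IntermediateField.adjoin (AlgebraicClosure ℚ)
        ({coeffEmb (AlgebraicClosure ℚ) jq, coeffEmb (AlgebraicClosure ℚ) (qExpand ℚ p jq)} :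
          Set (LaurentSeries (AlgebraicClosure ℚ))) := by
    unfold modularFunctionFieldBar laurentBaseChange
    rw [IntermediateField.adjoin_le_iff]
    rintro _ ⟨x, hx, rfl⟩
    exact coeffEmb_mem_adjoin_pair p hp hx
  exact hle f.2

theorem adjoin_jNBar_jBar_eq_top (hp : p.Prime) :
    IntermediateField.adjoin (AlgebraicClosure ℚ)
      ({jNBar p, jBar p} : Set (modularFunctionFieldBar p)) = ⊤ := by
  rw [Set.pair_comm]
  exact adjoin_jBar_jNBar_eq_top p hp

end Generation


/-! ## A valuation over `2` -/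

section TwoAdic

/-- There is a valuation subring of `ℚ̄` in which `2` is not a unit. -/
theorem exists_valuationSubring_two :
    ∃ A : ValuationSubring (AlgebraicClosure ℚ), (2 : AlgebraicClosure ℚ) ∈ A.nonunits := by
  let A₀ : Subring (AlgebraicClosure ℚ) := (algebraMap ℤ (AlgebraicClosure ℚ)).range
  let l₀ : A₀ := ⟨(2 : AlgebraicClosure ℚ), ⟨(2 : ℤ), by simp⟩⟩
  have hI : Ideal.span {l₀} ≠ ⊤ := by
    intro h
    rw [Ideal.span_singleton_eq_top] at h
    obtain ⟨⟨m, n, rfl⟩, hm⟩ := h.exists_right_inv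
    have h1 : ((2 : ℤ) : AlgebraicClosure ℚ) * ((n : ℤ) : AlgebraicClosure ℚ) = 1 := by
      have := congrArg Subtype.val hm
      simpa [l₀] using this
    have h2 : (2 : ℤ) * n = 1 := by exact_mod_cast h1
    omega
  obtain ⟨A, -, hA⟩ := Ideal.image_subset_nonunits_valuationSubring _ hI
  refine ⟨A, ?_⟩
  apply hA
  exact ⟨l₀, Ideal.subset_span rfl, rfl⟩

variable {K : Type*} [Field K] [Algebra ℚ K] {Γ₀ : Type*} [LinearOrderedCommGroupWithZero Γ₀]
  (v : Valuation K Γ₀)

/-- Odd integers are units for a valuation with `v 2 < 1`. -/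
theorem val_intCast_eq_one_of_odd (h2 : v (2 : K) < 1) {n : ℤ} (hn : ¬ (2 : ℤ) ∣ n) :
    v (n : K) = 1 := by
  refine le_antisymm (val_intCast_le_one v n) ?_
  by_contra hlt
  rw [not_le] at hlt
  obtain ⟨k, hk⟩ : ∃ k : ℤ, n = 2 * k + 1 := by
    have : n % 2 = 1 := by omega
    exact ⟨n / 2, by omega⟩
  have h1 : (1 : K) = (n : K) - 2 * (k : K) := by
    rw [hk]; push_cast; ring
  have h3 : v ((2 : K) * (k : K)) < 1 := by
    rw [map_mul]
    calc v (2 : K) * v (k : K) ≤ v (2 : K) * 1 := by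
          gcongr
          exact val_intCast_le_one v k
      _ = v (2 : K) := mul_one _
      _ < 1 := h2
  have h4 : v ((n : K) - 2 * (k : K)) < 1 :=
    lt_of_le_of_lt (Valuation.map_sub v _ _) (max_lt hlt h3)
  rw [← h1, map_one] at h4
  exact lt_irrefl _ h4

/-- A rational number with negative `2`-adic valuation has `v r > 1`. -/
theorem one_lt_val_of_padicValRat_neg (h2 : v (2 : K) < 1) (r : ℚ) (hr : padicValRat 2 r < 0) :
    1 < v (algebraMap ℚ K r) := by
  haveI : Fact (Nat.Prime 2) := ⟨Nat.prime_two⟩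
  have hden0 : r.den ≠ 0 := r.den_nz
  have hval : 1 ≤ padicValNat 2 r.den := by
    have h := hr
    rw [padicValRat] at h
    have h0 : (0 : ℤ) ≤ padicValInt 2 r.num := by positivity
    omega
  have hdvd : 2 ∣ r.den := dvd_of_one_le_padicValNat hval
  have hnum : ¬ (2 : ℤ) ∣ r.num := by
    intro hd
    have hc := r.reduced
    have h2n : 2 ∣ r.num.natAbs := by
      have := Int.natAbs_dvd_natAbs.mpr hd
      simpa using this
    have := Nat.dvd_gcd h2n hdvd
    rw [Nat.Coprime] at hc
    rw [hc] at this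
    omega
  have hvnum : v ((r.num : ℤ) : K) = 1 := val_intCast_eq_one_of_odd v h2 hnum
  obtain ⟨m, hm⟩ := hdvd
  have hdenK : (r.den : K) ≠ 0 := by
    have : CharZero K := algebraRat.charZero K
    exact_mod_cast hden0
  have hvden : v (r.den : K) < 1 := by
    rw [hm]
    push_cast
    rw [map_mul]
    calc v (2 : K) * v (m : K) ≤ v (2 : K) * 1 := by
          gcongr
          exact val_natCast_le_one v m
      _ = v (2 : K) := mul_one _
      _ < 1 := h2
  have hvden0 : v (r.den : K) ≠ 0 := (Valuation.ne_zero_iff v).mpr hdenK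
  have hr' : algebraMap ℚ K r = ((r.num : ℤ) : K) / (r.den : K) := by
    rw [eq_ratCast, Rat.cast_def]
  rw [hr', map_div₀, hvnum, one_div]
  exact (one_lt_inv₀ (zero_lt_iff.mpr hvden0)).mpr hvden

end TwoAdic

/-! ## Bridge between `eval2` (helper962) and `ev`, `ev0` (helper602) -/

section Bridge

variable (K : Type*) {F : Type*} [Field K] [Field F] [Algebra K F]

/-- `Φ` with coefficients in `K`. -/
def phiK (Φ : ℤ[X][X]) : K[X][X] := Φ.map (Polynomial.mapRingHom (Int.castRingHom K))

variable {K}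

theorem ev_phiK (Φ : ℤ[X][X]) (x y : F) : ev (K := K) x y (phiK K Φ) = eval2 Φ x y := by
  unfold ev phiK eval2
  rw [coe_eval₂RingHom, Polynomial.eval₂_map]
  congr 1
  apply Polynomial.ringHom_ext
  · intro n; simp
  · simp

theorem ev0_phiK (Φ : ℤ[X][X]) (a b : K) : ev0 a b (phiK K Φ) = eval2 Φ a b := by
  unfold ev0 phiK eval2
  rw [coe_eval₂RingHom, Polynomial.eval₂_map]
  congr 1
  apply Polynomial.ringHom_ext
  · intro n; simp
  · simp

theorem derivative_phiK (Φ : ℤ[X][X]) : derivative (phiK K Φ) = phiK K (derivative Φ) := by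
  unfold phiK
  rw [Polynomial.derivative_map]

/-- A relation between `x` and `y` holds at the centre of a place. -/
theorem ev0_eq_zero_of_isCentredAt {P : Place K F} {x y : F} {a b : K}
    (h : IsCentredAt P x y a b) {G : K[X][X]} (hG : ev x y G = 0) : ev0 a b G = 0 := by
  by_contra hne
  exact (h.ev_unit hne).1 hG

end Bridge

section Main

variable (p : ℕ) [NeZero p]

theorem isCentredAt_of_hasValueAt
    {P : Place (AlgebraicClosure ℚ) (modularFunctionFieldBar p)}
    {x y : modularFunctionFieldBar p} {a b : AlgebraicClosure ℚ}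
    (hx : HasValueAt P x a) (hy : HasValueAt P y b) : IsCentredAt P x y a b := by
  have key : ∀ (z : modularFunctionFieldBar p) (c : AlgebraicClosure ℚ), HasValueAt P z c →
      z - algebraMap (AlgebraicClosure ℚ) (modularFunctionFieldBar p) c ∈
        P.toValuationSubring.nonunits := by
    intro z c hz
    unfold HasValueAt at hz
    have hne : z - algebraMap (AlgebraicClosure ℚ) (modularFunctionFieldBar p) c ≠ 0 := by
      intro h0
      rw [h0, Place.ord_zero] at hz
      exact lt_irrefl _ hz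
    exact (S24.FF.ord_pos_iff_mem_nonunits P hne).mp hz
  exact ⟨key x a hx, key y b hy⟩

theorem coe_jBar_eq : ((jBar p : modularFunctionFieldBar p) : LaurentSeries (AlgebraicClosure ℚ)) =
    jqModC (AlgebraicClosure ℚ) := by
  rw [coe_jBar, coeffEmb, ← jqModC_rat, coeffMap_jqModC]

theorem coe_jNBar_eq :
    ((jNBar p : modularFunctionFieldBar p) : LaurentSeries (AlgebraicClosure ℚ)) =
      qExpand (AlgebraicClosure ℚ) p (jqModC (AlgebraicClosure ℚ)) := by
  rw [coe_jNBar, coeffEmb, coeffMap_qExpand, ← jqModC_rat, coeffMap_jqModC]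

/-- The two relations `Φ(j, j_p) = 0 = Φ(j_p, j)` in the function field. -/
theorem eval2_jBar_jNBar (hp : p.Prime) :
    ∃ Φ : ℤ[X][X], IsModularShape p Φ ∧ eval2 Φ (jBar p) (jNBar p) = 0 ∧
      eval2 Φ (jNBar p) (jBar p) = 0 := by
  obtain ⟨Φ, hshape, hrel⟩ := Fermat.Agent.S15.H386.exists_isModularShape.{0} p hp
  obtain ⟨hrel1, hrel2⟩ := hrel (AlgebraicClosure ℚ) 1
  rw [qExpand_one_apply, qExpand_congr (one_mul p)] at hrel1 hrel2
  refine ⟨Φ, hshape, ?_, ?_⟩
  · rw [← Fermat.Agent.S15.H386.eval2_eq_zero_iff_map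
      (algebraMap (modularFunctionFieldBar p) (LaurentSeries (AlgebraicClosure ℚ)))]
    have h1 : algebraMap (modularFunctionFieldBar p) (LaurentSeries (AlgebraicClosure ℚ))
        (jBar p) = jqModC (AlgebraicClosure ℚ) := coe_jBar_eq p
    have h2 : algebraMap (modularFunctionFieldBar p) (LaurentSeries (AlgebraicClosure ℚ))
        (jNBar p) = qExpand (AlgebraicClosure ℚ) p (jqModC (AlgebraicClosure ℚ)) :=
      coe_jNBar_eq p
    rw [h1, h2]
    exact hrel1
  · rw [← Fermat.Agent.S15.H386.eval2_eq_zero_iff_map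
      (algebraMap (modularFunctionFieldBar p) (LaurentSeries (AlgebraicClosure ℚ)))]
    have h1 : algebraMap (modularFunctionFieldBar p) (LaurentSeries (AlgebraicClosure ℚ))
        (jBar p) = jqModC (AlgebraicClosure ℚ) := coe_jBar_eq p
    have h2 : algebraMap (modularFunctionFieldBar p) (LaurentSeries (AlgebraicClosure ℚ))
        (jNBar p) = qExpand (AlgebraicClosure ℚ) p (jqModC (AlgebraicClosure ℚ)) :=
      coe_jNBar_eq p
    rw [h1, h2]
    exact hrel2

/-- **MOD-A2**, general form: uniqueness of the place with values `(a, a')` as soon as `a` is not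
integral for some valuation of `ℚ̄`. -/
theorem place_unique_of_one_lt_val (hp : p.Prime) {Γ₀ : Type*}
    [LinearOrderedCommGroupWithZero Γ₀] (v : Valuation (AlgebraicClosure ℚ) Γ₀)
    {a a' : AlgebraicClosure ℚ} (ha : 1 < v a)
    {P P' : Place (AlgebraicClosure ℚ) (modularFunctionFieldBar p)}
    (hP1 : HasValueAt P (jBar p) a) (hP2 : HasValueAt P (jNBar p) a')
    (hP'1 : HasValueAt P' (jBar p) a) (hP'2 : HasValueAt P' (jNBar p) a') : P = P' := by
  obtain ⟨Φ, hshape, hxy, hyx⟩ := eval2_jBar_jNBar p hp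
  have hc : IsCentredAt P (jBar p) (jNBar p) a a' := isCentredAt_of_hasValueAt p hP1 hP2
  have hc' : IsCentredAt P' (jBar p) (jNBar p) a a' := isCentredAt_of_hasValueAt p hP'1 hP'2
  have hcs : IsCentredAt P (jNBar p) (jBar p) a' a := ⟨hc.hy, hc.hx⟩
  have hcs' : IsCentredAt P' (jNBar p) (jBar p) a' a := ⟨hc'.hy, hc'.hx⟩
  have hrelxy : ev (K := AlgebraicClosure ℚ) (jBar p) (jNBar p) (phiK (AlgebraicClosure ℚ) Φ) = 0 := by
    rw [ev_phiK]; exact hxy
  have hrelyx : ev (K := AlgebraicClosure ℚ) (jNBar p) (jBar p) (phiK (AlgebraicClosure ℚ) Φ) = 0 := by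
    rw [ev_phiK]; exact hyx
  have h0xy : eval2 Φ a a' = 0 := by
    rw [← ev0_phiK]; exact ev0_eq_zero_of_isCentredAt hc hrelxy
  have h0yx : eval2 Φ a' a = 0 := by
    rw [← ev0_phiK]; exact ev0_eq_zero_of_isCentredAt hcs hrelyx
  rcases val_root_of_isModularShape v hp.pos hshape ha h0xy with hv | hv
  · have hs := simple_root_of_isModularShape v hp.one_lt hshape ha h0xy hv
    have hΨ : IsSimplePoint (jBar p) (jNBar p) a a' (phiK (AlgebraicClosure ℚ) Φ) :=
      ⟨hrelxy, by rw [ev0_phiK]; exact h0xy, by rw [derivative_phiK, ev0_phiK]; exact hs⟩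
    exact hc.unique hΨ (exists_ev_of_adjoin_eq_top (adjoin_jBar_jNBar_eq_top p hp)) hc'
  · have hva' : 1 < v a' := one_lt_of_pow_eq ha hv
    have hs := simple_root_of_isModularShape v hp.one_lt hshape hva' h0yx hv.symm
    have hΨ : IsSimplePoint (jNBar p) (jBar p) a' a (phiK (AlgebraicClosure ℚ) Φ) :=
      ⟨hrelyx, by rw [ev0_phiK]; exact h0yx, by rw [derivative_phiK, ev0_phiK]; exact hs⟩
    exact hcs.unique hΨ (exists_ev_of_adjoin_eq_top (adjoin_jNBar_jBar_eq_top p hp)) hcs'

end Main

/-- **MOD-A2.** -/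
theorem placeUnique : PlaceUniqueStatement := by
  intro p _ hp _ r hr a' P P' hP1 hP2 hP'1 hP'2
  obtain ⟨A, hA⟩ := exists_valuationSubring_two
  have h2 : A.valuation (2 : AlgebraicClosure ℚ) < 1 :=
    (ValuationSubring.mem_nonunits_iff A).mp hA
  have hvr := one_lt_val_of_padicValRat_neg A.valuation h2 r hr
  exact place_unique_of_one_lt_val p hp A.valuation hvr hP1 hP2 hP'1 hP'2

end Fermat.Agent.S15.H542

end
end
-- ===== PACK-END S15/H542/ModA2.lean

-- ===== PACK-BEGIN S48/H796/EisOne.lean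
section




/-!
# S48 / P2-EIS (helper796): the unconditional results

`eisFam N` (steps 1–4, helper796) is an `EisFamily` in the sense of helper788 (steps 5–6), hence:

* `exists_eisenstein_one` : the weight-one Eisenstein series `E_{1,ψ}` of a primitive odd `ψ`;
* `exists_multiplier` : for an odd prime `ℓ` and `φ : ℤ̄ → k`, `char k = ℓ`, a weight-one form `H`
  on `Γ₁(ℓ)` with nebentypus `ω⁻¹`, integral coefficients and `H ≡ 1 mod φ`.
-/

set_option autoImplicit false

noncomputable section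

namespace Fermat.Agent.S48.H796

open UpperHalfPlane hiding I
open Complex ModularForm CongruenceSubgroup ModularFormClass
open scoped Real Manifold MatrixGroups

/-- The family `eisFam N` satisfies helper788's interface. -/
theorem eisFamily (N : ℕ) [NeZero N] : Fermat.Agent.S48.H788.EisFamily N (eisFam N) where
  slash := fun _ hγ b _ => eisFam_slash hγ b
  coeff_zero := fun b hb => by
    rw [qCoeff, qExpansion_eisFam_zero hb, cotPi]
  coeff_pos := fun b hb n hn => by
    rw [qCoeff, qExpansion_eisFam_pos hb hn, Finset.mul_sum]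
    refine Finset.sum_congr rfl fun k _ => ?_
    rw [Fermat.Agent.S48.H788.sin_eq_stdAddChar, neg_mul, mul_comm (k : ZMod N) b]
    ring

/-- **EIS.** The weight-one Eisenstein series `E_{1,ψ}` of a primitive odd Dirichlet character. -/
theorem exists_eisenstein_one (N : ℕ) [NeZero N] (ψ : DirichletCharacter ℂ N)
    (hodd : ψ.Odd) (hprim : ψ.IsPrimitive) :
    ∃ E : ModularForm (Gamma1 N) 1,
      (∀ γ : SL(2, ℤ), γ ∈ Gamma0 N →
        (⇑E) ∣[(1 : ℤ)] γ = ψ (((γ 1 1 : ℤ)) : ZMod N) • ⇑E) ∧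
      qCoeff (⇑E) 0 = -(∑ a ∈ Finset.range N, (a : ℂ) * ψ a) / (2 * N) ∧
      ∀ n : ℕ, 1 ≤ n → qCoeff (⇑E) n = ∑ d ∈ n.divisors, ψ d :=
  Fermat.Agent.S48.H788.eisenstein_one_of_family (eisFamily N) ψ hodd hprim

/-- **CONG.** The multiplier `H ≡ 1 mod λ` of weight one on `Γ₁(ℓ)`. -/
theorem exists_multiplier (ℓ : ℕ) [Fact ℓ.Prime] {k : Type*} [Field k] [CharP k ℓ]
    (φ : Fermat.Agent.S48.H788.ZbarT →+* k) (hℓ2 : ℓ ≠ 2) :
    ∃ (ψ : DirichletCharacter ℂ ℓ) (H : ModularForm (Gamma1 ℓ) 1),
      (∀ a : ZMod ℓ, ∃ z : Fermat.Agent.S48.H788.ZbarT, (z : ℂ) = ψ a ∧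
        φ z * ((a.val : ℕ) : k) = if a = 0 then 0 else 1) ∧
      (∀ γ : SL(2, ℤ), γ ∈ Gamma0 ℓ →
        (⇑H) ∣[(1 : ℤ)] γ = ψ (((γ 1 1 : ℤ)) : ZMod ℓ) • ⇑H) ∧
      (∀ n : ℕ, ∃ z : Fermat.Agent.S48.H788.ZbarT, (z : ℂ) = qCoeff (⇑H) n ∧
        φ z = if n = 0 then 1 else 0) :=
  Fermat.Agent.S48.H788.exists_multiplier_of_family ℓ φ hℓ2 (eisFamily ℓ)

end Fermat.Agent.S48.H796

end
end
-- ===== PACK-END S48/H796/EisOne.lean

-- ===== PACK-BEGIN LT/H49/Chi3.lean
section





/-!
# Row LT, block GLUE2, leaf W2A (helper49): the character `χ₋₃` and `E_{1,χ₋₃}`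

* `chi3` : the quadratic character modulo 3 as a complex Dirichlet character; its values are
  `chiNegThree` (`chi3_natCast`), it is odd and primitive.
* `exists_E3` : a modular form of weight one on `Γ₁(3)` with nebentypus `χ₋₃` and `q`-expansion
  `e1Chi3 = 1 + 6 ∑ σ_χ(n) qⁿ` (six times the Eisenstein series of the landed S48 piece).
-/

set_option autoImplicit false

noncomputable section

namespace Fermat.Agent.LT.H49

open EisensteinWeightOne CongruenceSubgroup ModularFormClass
open scoped MatrixGroups ModularForm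

/-- The quadratic character modulo 3, as a complex Dirichlet character. -/
def chi3 : DirichletCharacter ℂ 3 :=
  (quadraticChar (ZMod 3)).ringHomComp (Int.castRingHom ℂ)

theorem chi3_apply (a : ZMod 3) : chi3 a = ((quadraticChar (ZMod 3) a : ℤ) : ℂ) := by
  simp [chi3]

theorem chi3_zero : chi3 0 = 0 := by
  rw [chi3_apply]; simp

theorem chi3_one : chi3 1 = 1 := by
  rw [chi3_apply]; simp

theorem chi3_two : chi3 2 = -1 := by
  rw [chi3_apply]
  have : quadraticChar (ZMod 3) 2 = -1 := by decide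
  rw [this]; simp

theorem chi3_natCast (n : ℕ) : chi3 (n : ZMod 3) = ((chiNegThree n : ℤ) : ℂ) := by
  have h : (n : ZMod 3) = ((n % 3 : ℕ) : ZMod 3) := by
    rw [ZMod.natCast_mod]
  rw [h]
  unfold chiNegThree
  have h3 : n % 3 < 3 := Nat.mod_lt _ (by norm_num)
  interval_cases hn : n % 3
  · simp [chi3_zero]
  · simp [chi3_one]
  · have : ((2 : ℕ) : ZMod 3) = 2 := by norm_cast
    rw [this, chi3_two]
    simp

theorem chi3_odd : chi3.Odd := by
  have h : (-1 : ZMod 3) = 2 := by decide
  show chi3 (-1) = -1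
  rw [h, chi3_two]

theorem chi3_ne_one : chi3 ≠ 1 := by
  intro h
  have h2 := chi3_two
  rw [h] at h2
  have hu : IsUnit (2 : ZMod 3) := by decide
  rw [MulChar.one_apply hu] at h2
  norm_num at h2

theorem chi3_isPrimitive : chi3.IsPrimitive := by
  rw [DirichletCharacter.isPrimitive_def]
  have hdvd := DirichletCharacter.conductor_dvd_level chi3
  rcases (Nat.dvd_prime Nat.prime_three).mp hdvd with h | h
  · exfalso
    apply chi3_ne_one
    rw [← DirichletCharacter.factorsThrough_one_iff]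
    have := DirichletCharacter.factorsThrough_conductor chi3
    rwa [h] at this
  · exact h

theorem chi3_sq_intCast {d : ℤ} (hd : IsUnit (d : ZMod 3)) :
    chi3 (d : ZMod 3) * chi3 (d : ZMod 3) = 1 := by
  have key : ∀ a : ZMod 3, IsUnit a → quadraticChar (ZMod 3) a * quadraticChar (ZMod 3) a = 1 := by
    decide
  rw [chi3_apply, ← Int.cast_mul, key _ hd, Int.cast_one]

/-- The weight one Eisenstein series with `q`-expansion `e1Chi3`. -/
theorem exists_E3 : ∃ E : ModularForm (Gamma1 3) 1,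
    (∀ γ : SL(2, ℤ), γ ∈ Gamma0 3 →
      (⇑E) ∣[(1 : ℤ)] γ = chi3 (((γ 1 1 : ℤ)) : ZMod 3) • ⇑E) ∧
    ∀ n : ℕ, qCoeff (⇑E) n = ((PowerSeries.coeff n e1Chi3 : ℤ) : ℂ) := by
  obtain ⟨E₁, hneb, h0, hpos⟩ :=
    Fermat.Agent.S48.H796.exists_eisenstein_one 3 chi3 chi3_odd chi3_isPrimitive
  have hper := Fermat.Agent.S48.H788.one_mem_strictPeriods_Gamma1_788 3
  have hcoe : (⇑((6 : ℂ) • E₁) : UpperHalfPlane → ℂ) = (6 : ℂ) • ⇑E₁ := by
    ext z; simp
  refine ⟨(6 : ℂ) • E₁, fun γ hγ => ?_, fun n => ?_⟩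
  · rw [hcoe, ModularForm.SL_smul_slash, hneb γ hγ, smul_comm]
  · have hq : qCoeff (⇑((6 : ℂ) • E₁)) n = 6 * qCoeff (⇑E₁) n := by
      simp only [qCoeff, hcoe]
      rw [ModularForm.qExpansion_smul one_pos hper (6 : ℂ) E₁]
      simp
    rw [hq]
    rcases Nat.eq_zero_or_pos n with rfl | hn
    · rw [h0]
      have hs : (∑ a ∈ Finset.range 3, (a : ℂ) * chi3 a) = -1 := by
        rw [Finset.sum_range_succ, Finset.sum_range_succ, Finset.sum_range_one]
        have h2 : ((2 : ℕ) : ZMod 3) = 2 := by norm_cast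
        have h1 : ((1 : ℕ) : ZMod 3) = 1 := by norm_cast
        rw [h2, h1, chi3_two, chi3_one]
        push_cast
        ring
      rw [hs]
      simp [e1Chi3]
      norm_num
    · rw [hpos n hn]
      have hne : n ≠ 0 := Nat.pos_iff_ne_zero.mp hn
      simp only [e1Chi3, PowerSeries.coeff_mk, if_neg hne, sigmaChi]
      push_cast
      congr 1
      refine Finset.sum_congr rfl fun d _ => ?_
      exact chi3_natCast d

end Fermat.Agent.LT.H49

end
end
-- ===== PACK-END LT/H49/Chi3.lean

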