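import Mathlib
import Fermat.Agent.Pack.L1.E6L2
import Fermat.Agent.Pack.S44C.G0E22L1
import Fermat.Agent.Pack.S44C.G0E18L2
import Fermat.Agent.Pack.S44C.G0E7L1
import Fermat.Agent.Pack.S44C.G0E25L3
import Fermat.Agent.Pack.L1.E2L2
import Fermat.Agent.Pack.L1.E0L1
import Fermat.Agent.Pack.L1.E6L3
import Fermat.Agent.Pack.L1.E6L0
import Fermat.Agent.Pack.S59C.E0L1
import Fermat.Agent.Pack.S44C.G0E1L2
import Fermat.Agent.Pack.S44C.G0E15L3
import Fermat.Agent.Pack.S44C.G0E18L1
import Fermat.Agent.Pack.S43MC.G0E22L3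
import Fermat.Agent.Pack.S44C.G0E22L2
import Fermat.Agent.Pack.L1.E4L1
import Fermat.Agent.Pack.L1.E5L2
import Fermat.Agent.Pack.S44C.G0E17L1
import Fermat.Agent.Pack.S44C.G0E23L3
import Fermat.Agent.Pack.S43MC.G0E22L1
import Fermat.Agent.Pack.S44C.G0E3L1
import Fermat.Agent.Pack.L1.E5L3
import Fermat.Agent.Pack.L1.E6L1
import Fermat.Agent.Pack.L1.E5L1
import Fermat.Agent.Pack.S44C.G0E19L0
import Fermat.Agent.Pack.S43MC.G0E19L3
import Fermat.Agent.Pack.S44C.G0E14L3
import Fermat.Agent.Pack.S44C.G0E12L2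
import Fermat.Agent.Pack.L1.E2L0
import Fermat.Agent.Pack.L1.E3L1
import Fermat.Agent.Pack.L1.E4L2
import Fermat.Agent.Pack.L1.E4L3
import Fermat.Agent.Pack.L1.E4L0
import Fermat.Agent.Pack.S44C.G0E10L3
import Fermat.Agent.Pack.S44C.G0E20L1

-- ===== PACK-BEGIN S15/H242/OggBound.lean
section





/-!
# S15 / CUSP, nodes C9b + C9 (helper242): Ogg's lower bound for the order of the cuspidal class

Level `p` prime, `F = ℚ̄(X₀(p)) ⊆ ℚ̄((q))`, `u = Δ(q)/Δ(q^p)`, `n = eisensteinNumerator p`.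

* `dvd_twelve_of_pow_eq_unit` : if `f ^ d = κ · u` with `f ∈ F`, `κ ∈ ℚ̄ˣ`, `d > 0`, then `d ∣ 12`.
  (Normalise the leading coefficient of `f` to `1`; then `f` is fixed by the Galois action on the
  coefficients, hence so is the constant `f · w(f)`, whose `d`-th power is `u · w(u) = p¹²`;
  a rational number whose `d`-th power is `p¹²` exists only if `d ∣ 12`.)
* `eq_algebraMap_of_ord_eq_zero_FF` (C9b) : a function without zeros and poles is constant.
* `eisensteinNumerator_dvd_of_nsmul_eq_zero` (C9) : if `div u = (p - 1)·((P₀) - (P∞))` and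
  `m • cl((P₀) - (P∞)) = 0` then `n ∣ m`.
-/

set_option autoImplicit false

noncomputable section

open ModularCurve HahnSeries AlgebraicCurve

namespace Fermat.Agent.S15.H242

open Fermat.Agent.S24 Fermat.Agent.S24.H997 Fermat.Agent.A2.H528

/-! ### Elementary lemmas -/

theorem isGalois_Qbar_ogg : IsGalois ℚ (AlgebraicClosure ℚ) := by
  have : Algebra.IsAlgebraic ℚ (AlgebraicClosure ℚ) := AlgebraicClosure.isAlgebraic ℚ
  have : IsAlgClosure ℚ (AlgebraicClosure ℚ) := ⟨inferInstance, inferInstance⟩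
  exact IsAlgClosure.isGalois ℚ (AlgebraicClosure ℚ)

/-- A rational number whose `d`-th power is `p¹²` exists only if `d ∣ 12`. -/
theorem dvd_twelve_of_rat_pow_eq {p d : ℕ} (hp : p.Prime) (c : ℚ)
    (h : c ^ d = (p : ℚ) ^ 12) : d ∣ 12 := by
  have := Fact.mk hp
  have h1 := congrArg (padicValRat p) h
  rw [padicValRat.pow, padicValRat.pow, padicValRat.self hp.one_lt] at h1
  have h2 : ((d : ℤ)) ∣ 12 := ⟨padicValRat p c, by rw [h1]; norm_num⟩
  exact_mod_cast h2

theorem leadingCoeff_pow_laurent (x : LaurentSeries Kbar) (d : ℕ) :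
    (x ^ d).leadingCoeff = x.leadingCoeff ^ d := by
  induction d with
  | zero => simp [HahnSeries.leadingCoeff_one]
  | succ d ih => rw [pow_succ, HahnSeries.leadingCoeff_mul, ih, pow_succ]

theorem leadingCoeff_algebraMap_laurent (c : Kbar) :
    (algebraMap Kbar (LaurentSeries Kbar) c).leadingCoeff = c := by
  rw [algebraMap_laurentSeries_eq_single, HahnSeries.leadingCoeff_of_single]

/-- A `d`-th root of unity in `ℚ̄((q))` with leading coefficient `1` is `1`. -/
theorem eq_one_of_pow_eq_one_of_leadingCoeff {d : ℕ} (hd : 0 < d) (ζ : LaurentSeries Kbar)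
    (h : ζ ^ d = 1) (hl : ζ.leadingCoeff = 1) : ζ = 1 := by
  have : NeZero (d : ℚ) := ⟨by exact_mod_cast hd.ne'⟩
  have : NeZero d := ⟨hd.ne'⟩
  obtain ⟨ω, hω⟩ := HasEnoughRootsOfUnity.exists_primitiveRoot (AlgebraicClosure ℚ) d
  have hω' : IsPrimitiveRoot (algebraMap Kbar (LaurentSeries Kbar) ω) d :=
    hω.map_of_injective (algebraMap Kbar (LaurentSeries Kbar)).injective
  obtain ⟨i, -, hi⟩ := hω'.eq_pow_of_pow_eq_one h
  rw [← hi, ← map_pow] at hl ⊢
  rw [leadingCoeff_algebraMap_laurent] at hl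
  rw [hl, map_one]

/-! ### The key lemma -/

section Key

variable (p : ℕ) [NeZero p]

theorem unit_coe_ne_zero : coeffEmb Kbar (modularUnitSeries p) ≠ 0 := by
  intro h
  exact modularUnitSeries_ne_zero p ((coeffEmb Kbar).injective (by rw [h, map_zero]))

theorem leadingCoeff_unit_coe : (coeffEmb Kbar (modularUnitSeries p)).leadingCoeff = 1 := by
  rw [coeffEmb, inf_coeffMap_leadingCoeff (algebraMap ℚ Kbar).injective,
    (isMonicOfOrder_modularUnitSeries p).2, map_one]

/-- **Key lemma.**  If `f ^ d = κ · u` in `ℚ̄(X₀(p))` with `κ ≠ 0`, then `d ∣ 12`. -/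
theorem dvd_twelve_of_pow_eq_unit (hp : p.Prime) (u : FF p)
    (hu : (u : LaurentSeries Kbar) = coeffEmb Kbar (modularUnitSeries p))
    (f : FF p) {d : ℕ} (hd : 0 < d) (κ : Kbar) (hκ : κ ≠ 0)
    (hf : f ^ d = algebraMap Kbar (FF p) κ * u) : d ∣ 12 := by
  have hu0 : u ≠ 0 := by
    intro h
    apply unit_coe_ne_zero p
    rw [← hu, h]
    rfl
  -- step 1: normalise the leading coefficient
  set a : Kbar := (f : LaurentSeries Kbar).leadingCoeff with ha
  have hfL : (f : LaurentSeries Kbar) ^ d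
      = algebraMap Kbar (LaurentSeries Kbar) κ * coeffEmb Kbar (modularUnitSeries p) := by
    have := congrArg (fun x : FF p => (x : LaurentSeries Kbar)) hf
    rw [← hu]
    exact this
  have haκ : a ^ d = κ := by
    have := congrArg HahnSeries.leadingCoeff hfL
    rw [leadingCoeff_pow_laurent, HahnSeries.leadingCoeff_mul, leadingCoeff_algebraMap_laurent,
      leadingCoeff_unit_coe, mul_one] at this
    exact this
  have ha0 : a ≠ 0 := by
    intro h
    rw [h, zero_pow hd.ne'] at haκ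
    exact hκ haκ.symm
  have haF : algebraMap Kbar (FF p) a ≠ 0 := by
    rw [Ne, map_eq_zero]; exact ha0
  set v : FF p := f * (algebraMap Kbar (FF p) a)⁻¹ with hv
  have hvd : v ^ d = u := by
    rw [hv, mul_pow, hf, inv_pow, ← map_pow, haκ]
    have hκF : algebraMap Kbar (FF p) κ ≠ 0 := by
      rw [Ne, map_eq_zero]; exact hκ
    field_simp
  have hvL : (v : LaurentSeries Kbar) * algebraMap Kbar (LaurentSeries Kbar) a
      = (f : LaurentSeries Kbar) := by
    have h1 : v * algebraMap Kbar (FF p) a = f := by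
      rw [hv, inv_mul_cancel_right₀ haF]
    exact congrArg (fun x : FF p => (x : LaurentSeries Kbar)) h1
  have hvlc : (v : LaurentSeries Kbar).leadingCoeff = 1 := by
    have := congrArg HahnSeries.leadingCoeff hvL
    rw [HahnSeries.leadingCoeff_mul, leadingCoeff_algebraMap_laurent] at this
    exact mul_right_cancel₀ ha0 (by rw [this, one_mul])
  have hv0 : v ≠ 0 := by
    intro h
    rw [h, zero_pow hd.ne'] at hvd
    exact hu0 hvd.symm
  have hvL0 : (v : LaurentSeries Kbar) ≠ 0 := fun h => hv0 (Subtype.ext h)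
  -- step 2: `v` is Galois-fixed
  have hgal : ∀ σ : Kbar ≃ₐ[ℚ] Kbar, gal p σ v = v := by
    intro σ
    have hσu : gal p σ u = u := by
      apply Subtype.ext
      show coeffMap (σ : Kbar →+* Kbar) (u : LaurentSeries Kbar) = _
      rw [hu, coeffMap_coeffEmb]
    have h1 : (gal p σ v) ^ d = u := by
      rw [← map_pow, hvd, hσu]
    have hlc : ((gal p σ v : FF p) : LaurentSeries Kbar).leadingCoeff = 1 := by
      show (coeffMap (σ : Kbar →+* Kbar) (v : LaurentSeries Kbar)).leadingCoeff = 1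
      rw [inf_coeffMap_leadingCoeff (σ : Kbar →+* Kbar).injective, hvlc, map_one]
    set ζ : LaurentSeries Kbar := ((gal p σ v : FF p) : LaurentSeries Kbar)
      * (v : LaurentSeries Kbar)⁻¹ with hζ
    have hζv : ζ * (v : LaurentSeries Kbar) = ((gal p σ v : FF p) : LaurentSeries Kbar) := by
      rw [hζ, inv_mul_cancel_right₀ hvL0]
    have hζd : ζ ^ d = 1 := by
      have e1 : ((gal p σ v : FF p) : LaurentSeries Kbar) ^ d = (u : LaurentSeries Kbar) :=
        congrArg (fun x : FF p => (x : LaurentSeries Kbar)) h1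
      have e2 : (v : LaurentSeries Kbar) ^ d = (u : LaurentSeries Kbar) :=
        congrArg (fun x : FF p => (x : LaurentSeries Kbar)) hvd
      have huL0 : (u : LaurentSeries Kbar) ≠ 0 := fun h => hu0 (Subtype.ext h)
      rw [hζ, mul_pow, inv_pow, e1, e2, mul_inv_cancel₀ huL0]
    have hζlc : ζ.leadingCoeff = 1 := by
      have := congrArg HahnSeries.leadingCoeff hζv
      rw [HahnSeries.leadingCoeff_mul, hvlc, mul_one, hlc] at this
      exact this
    have hζ1 := eq_one_of_pow_eq_one_of_leadingCoeff hd ζ hζd hζlc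
    apply Subtype.ext
    rw [← hζv, hζ1, one_mul]
  -- step 3: the constant `v * w(v)`
  have hwu := wF_mul_self_of_coe_eq p u hu
  set c' : FF p := v * wF p v with hc'
  have hc'd : c' ^ d = algebraMap Kbar (FF p) ((p : Kbar) ^ 12) := by
    rw [hc', mul_pow, ← map_pow, hvd, mul_comm, hwu]
  have hc'gal : ∀ σ : Kbar ≃ₐ[ℚ] Kbar, gal p σ c' = c' := by
    intro σ
    rw [hc', map_mul, ← wF_gal, hgal σ]
  have hp0 : ((p : Kbar) ^ 12) ≠ 0 := pow_ne_zero 12 (by exact_mod_cast NeZero.ne p)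
  have halg : IsAlgebraic Kbar c' := by
    refine ⟨Polynomial.X ^ d - Polynomial.C ((p : Kbar) ^ 12), ?_, ?_⟩
    · intro h
      have h1 := congrArg (fun q : Polynomial Kbar => q.coeff d) h
      simp only [Polynomial.coeff_sub, Polynomial.coeff_X_pow, if_true, Polynomial.coeff_C,
        hd.ne', if_false, sub_zero, Polynomial.coeff_zero] at h1
      exact one_ne_zero h1
    · rw [map_sub, map_pow, Polynomial.aeval_X, Polynomial.aeval_C, hc'd, sub_self]
  obtain ⟨c, hc⟩ := Fermat.Agent.S24.H84.mem_range_algebraMap_of_isAlgebraic halg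
  have hcfix : ∀ σ : Kbar ≃ₐ[ℚ] Kbar, σ c = c := by
    intro σ
    have h1 := hc'gal σ
    rw [← hc, gal_algebraMap] at h1
    exact (algebraMap Kbar (FF p)).injective h1
  have := isGalois_Qbar_ogg
  obtain ⟨c₀, hc₀⟩ := (InfiniteGalois.mem_range_algebraMap_iff_fixed c).mpr hcfix
  have hcd : c ^ d = (p : Kbar) ^ 12 := by
    apply (algebraMap Kbar (FF p)).injective
    rw [map_pow, hc, hc'd]
  have hc₀d : c₀ ^ d = (p : ℚ) ^ 12 := by
    apply (algebraMap ℚ Kbar).injective
    rw [map_pow, hc₀, hcd, map_pow, map_natCast]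
  exact dvd_twelve_of_rat_pow_eq hp c₀ hc₀d

end Key

/-! ### C9b and C9 -/

/-- **C9b.** A function without zeros and poles is constant. -/
theorem eq_algebraMap_of_ord_eq_zero_FF (N : ℕ) [NeZero N] (f : FF N)
    (h : ∀ P : Place Kbar (FF N), P.ord f = 0) : ∃ a : Kbar, f = algebraMap Kbar (FF N) a := by
  obtain ⟨a, ha⟩ := Fermat.Agent.Lib.RR.H383.eq_algebraMap_of_forall_ord_eq_zero
    (Fermat.Agent.Lib.FF398.transcendental_jF N) h
  exact ⟨a, ha.symm⟩

theorem nsmul_mk_eq_zero_iff (N : ℕ) (D : Divisor.degZero (K := Kbar) (F := FF N)) (m : ℕ) :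
    m • (Pic0.mk D : JZero N) = 0 ↔
      ∃ f : FF N, f ≠ 0 ∧ ∀ v : Place Kbar (FF N), (m : ℤ) * (D : Divisor Kbar (FF N)) v = v.ord f := by
  have h1 : m • (Pic0.mk D : JZero N) = Pic0.mk (m • D) := rfl
  rw [h1, Pic0.mk, QuotientAddGroup.eq_zero_iff, AddSubgroup.mem_addSubgroupOf,
    Divisor.mem_principal]
  unfold Divisor.IsPrincipal
  refine exists_congr fun f => and_congr_right fun _ => forall_congr' fun v => ?_
  rw [AddSubgroup.coe_nsmul, Finsupp.smul_apply, nsmul_eq_mul]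

/-- **C9 (Ogg's lower bound).**  Let `D` be a divisor of degree `0` on `X₀(p)` with
`div u = (p - 1) · D` for the modular unit `u = Δ(q)/Δ(q^p)` (e.g. `D = (0) - (∞)`).
If `m • cl(D) = 0`, then `n = (p - 1)/gcd(p - 1, 12)` divides `m`. -/
theorem eisensteinNumerator_dvd_of_nsmul_eq_zero (p : ℕ) [NeZero p] (hp : p.Prime) (u : FF p)
    (hu : (u : LaurentSeries Kbar) = coeffEmb Kbar (modularUnitSeries p))
    (D : Divisor.degZero (K := Kbar) (F := FF p))
    (hdiv : ∀ v : Place Kbar (FF p), v.ord u = ((p : ℤ) - 1) * (D : Divisor Kbar (FF p)) v)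
    (m : ℕ) (hm : m • (Pic0.mk D : JZero p) = 0) : eisensteinNumerator p ∣ m := by
  have hu0 : u ≠ 0 := by
    intro h
    apply unit_coe_ne_zero p
    rw [← hu, h]
    rfl
  have hp1 : 0 < p - 1 := by have := hp.two_le; omega
  have hcast : ((p - 1 : ℕ) : ℤ) = (p : ℤ) - 1 := by
    rw [Nat.cast_sub hp.one_le]; simp
  -- `(p - 1) • c = 0`
  have hpc : (p - 1) • (Pic0.mk D : JZero p) = 0 := by
    rw [nsmul_mk_eq_zero_iff]
    exact ⟨u, hu0, fun v => by rw [hcast, hdiv v]⟩
  set c : JZero p := Pic0.mk D with hc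
  set o := addOrderOf c with ho
  have ho1 : o ∣ p - 1 := addOrderOf_dvd_of_nsmul_eq_zero hpc
  have hom : o ∣ m := addOrderOf_dvd_of_nsmul_eq_zero hm
  have ho0 : 0 < o := Nat.pos_of_dvd_of_pos ho1 hp1
  obtain ⟨d, hd⟩ := ho1
  have hd0 : 0 < d := by
    rcases Nat.eq_zero_or_pos d with h | h
    · rw [h, mul_zero] at hd; omega
    · exact h
  obtain ⟨f, hf0, hf⟩ := (nsmul_mk_eq_zero_iff p D o).mp (addOrderOf_nsmul_eq_zero c)
  -- `f ^ d / u` has trivial divisor
  have hg : ∀ v : Place Kbar (FF p), v.ord (f ^ d * u⁻¹) = 0 := by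
    intro v
    rw [v.ord_mul (pow_ne_zero d hf0) (inv_ne_zero hu0), v.ord_inv, ← zpow_natCast, v.ord_zpow,
      ← hf v, hdiv v, ← hcast, hd]
    push_cast
    ring
  obtain ⟨κ, hκ⟩ := eq_algebraMap_of_ord_eq_zero_FF p (f ^ d * u⁻¹) hg
  have hfd : f ^ d = algebraMap Kbar (FF p) κ * u := by
    rw [← hκ, inv_mul_cancel_right₀ hu0]
  have hκ0 : κ ≠ 0 := by
    rintro rfl
    rw [map_zero, zero_mul] at hfd
    exact pow_ne_zero d hf0 hfd
  have hd12 : d ∣ 12 := dvd_twelve_of_pow_eq_unit p hp u hu f hd0 κ hκ0 hfd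
  -- arithmetic
  have hdG : d ∣ Nat.gcd (p - 1) 12 := Nat.dvd_gcd ⟨o, by rw [hd, mul_comm]⟩ hd12
  obtain ⟨e, he⟩ := hdG
  have hG : Nat.gcd (p - 1) 12 ∣ p - 1 := Nat.gcd_dvd_left _ _
  have hGpos : 0 < Nat.gcd (p - 1) 12 := Nat.gcd_pos_of_pos_right _ (by norm_num)
  have hn : eisensteinNumerator p * Nat.gcd (p - 1) 12 = p - 1 := by
    unfold eisensteinNumerator
    exact Nat.div_mul_cancel hG
  have hoe : o = eisensteinNumerator p * e := by
    have h1 : o * d = eisensteinNumerator p * e * d := by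
      rw [← hd, ← hn, he]; ring
    exact Nat.eq_of_mul_eq_mul_right hd0 h1
  exact Dvd.dvd.trans ⟨e, hoe⟩ hom

/-! ### C9a in the shape of the CUSP interface -/

theorem qExpand_jq_congr {d d' : ℕ} [h : NeZero d] [h' : NeZero d'] (e : d = d') :
    qExpand ℚ d jq = qExpand ℚ d' jq := by
  subst e
  rfl

/-- **C9a.**  The Atkin–Lehner involution of `ℚ̄(X₀(p))`: it swaps `j(q)` and `j(q^p)`, commutes
with the Galois action on the coefficients and maps the modular unit `u` to `p¹² u⁻¹`. -/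
theorem exists_atkinLehner_of_mem (p : ℕ) [NeZero p]
    (hu : coeffEmb Kbar (modularUnitSeries p) ∈ modularFunctionFieldBar p) :
    ∃ w : FF p ≃ₐ[Kbar] FF p,
      (∀ f : FF p, (f : LaurentSeries Kbar) = coeffEmb Kbar jq →
        ((w f : FF p) : LaurentSeries Kbar) = coeffEmb Kbar (qExpand ℚ p jq)) ∧
      (∀ f : FF p, (f : LaurentSeries Kbar) = coeffEmb Kbar (qExpand ℚ p jq) →
        ((w f : FF p) : LaurentSeries Kbar) = coeffEmb Kbar jq) ∧
      (∀ f : FF p, w (w f) = f) ∧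
      (∀ (σ : Kbar ≃ₐ[ℚ] Kbar) (f : FF p),
        w (arithmeticGalois (modularFunctionFieldFull p) σ • f) =
          arithmeticGalois (modularFunctionFieldFull p) σ • w f) ∧
      w ⟨_, hu⟩ = algebraMap Kbar (FF p) ((p : Kbar) ^ 12) * (⟨_, hu⟩ : FF p)⁻¹ := by
  have h1p : NeZero (p / 1) := neZero_div p (one_dvd p)
  have hpp : NeZero (p / p) := neZero_div p dvd_rfl
  have hA : wF p (jFd p 1 (one_dvd p)) = jFd p p dvd_rfl := by
    rw [wF_jFd p 1 (one_dvd p)]
    apply Subtype.ext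
    rw [coe_jFd, coe_jFd, qExpand_jq_congr (Nat.div_one p)]
  have hB : wF p (jFd p p dvd_rfl) = jFd p 1 (one_dvd p) := by
    rw [← hA, wF_wF]
  refine ⟨wF p, ?_, ?_, wF_wF p, ?_, ?_⟩
  · intro f hf
    have hf' : f = jFd p 1 (one_dvd p) := by
      apply Subtype.ext
      rw [hf, coe_jFd, qExpand_one_apply]
    rw [hf', hA, coe_jFd]
  · intro f hf
    have hf' : f = jFd p p dvd_rfl := by
      apply Subtype.ext
      rw [hf, coe_jFd]
    rw [hf', hB, coe_jFd, qExpand_one_apply]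
  · intro σ f
    exact wF_gal p σ f
  · have h := wF_mul_self_of_coe_eq p ⟨_, hu⟩ rfl
    have hu0 : (⟨_, hu⟩ : FF p) ≠ 0 := by
      intro h0
      apply unit_coe_ne_zero p
      exact congrArg (fun x : FF p => (x : LaurentSeries Kbar)) h0
    rw [← h, mul_inv_cancel_right₀ hu0]

end Fermat.Agent.S15.H242

end
end
-- ===== PACK-END S15/H242/OggBound.lean

-- ===== PACK-BEGIN S15/H808/RtfSmall.lean
section



/-!
# S15 / DESC skeleton leaf RTF, the levels `2` and `3` (helper808)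

`J₀(2) = J₀(3) = 0` (genus zero: landed S24 + the bridge `genusFF_modular_eq_genusFormula` +
`S17.H80.subsingleton_pic0_of_genusFF_eq_zero`).
-/

set_option autoImplicit false

namespace Fermat.Agent.S15.H808

open ModularCurve

theorem nuTwo_two_h808 : nuTwo 2 = 1 := by
  unfold nuTwo
  rw [Nat.card_eq_fintype_card]
  decide

theorem nuThree_two_h808 : nuThree 2 = 0 := by
  unfold nuThree
  rw [Nat.card_eq_fintype_card]
  decide

theorem nuTwo_three_h808 : nuTwo 3 = 0 := by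
  unfold nuTwo
  rw [Nat.card_eq_fintype_card]
  decide

theorem nuThree_three_h808 : nuThree 3 = 1 := by
  unfold nuThree
  rw [Nat.card_eq_fintype_card]
  decide

theorem dedekindPsi_prime_h808 {p : ℕ} (hp : p.Prime) : dedekindPsi p = p + 1 := by
  unfold dedekindPsi
  rw [hp.divisors, Finset.filter_true_of_mem, Finset.sum_pair hp.one_lt.ne]
  · rw [Nat.div_one, Nat.div_self hp.pos]
  · intro d hd
    rcases Finset.mem_insert.mp hd with rfl | hd
    · exact squarefree_one
    · rw [Finset.mem_singleton] at hd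
      subst hd
      exact hp.squarefree

theorem dedekindPsi_two_h808 : dedekindPsi 2 = 3 := dedekindPsi_prime_h808 Nat.prime_two

theorem dedekindPsi_three_h808 : dedekindPsi 3 = 4 := dedekindPsi_prime_h808 Nat.prime_three

theorem cuspCount_two_h808 : cuspCount 2 = 2 := by
  unfold cuspCount
  decide

theorem cuspCount_three_h808 : cuspCount 3 = 2 := by
  unfold cuspCount
  decide

theorem genusFormula_two_h808 : genusFormula 2 = 0 := by
  unfold genusFormula
  rw [nuTwo_two_h808, nuThree_two_h808, dedekindPsi_two_h808, cuspCount_two_h808]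
  norm_num

theorem genusFormula_three_h808 : genusFormula 3 = 0 := by
  unfold genusFormula
  rw [nuTwo_three_h808, nuThree_three_h808, dedekindPsi_three_h808, cuspCount_three_h808]
  norm_num

/-- `J₀(2)(ℚ̄) = 0`. -/
theorem subsingleton_jZero_two : Subsingleton (JZero 2) := by
  apply Fermat.Agent.S17.H80.subsingleton_pic0_of_genusFF_eq_zero
  have h := Fermat.Agent.Lib.RR.H80.genusFF_modular_eq_genusFormula 2
  rw [genusFormula_two_h808] at h
  exact_mod_cast h

/-- `J₀(3)(ℚ̄) = 0`. -/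
theorem subsingleton_jZero_three : Subsingleton (JZero 3) := by
  apply Fermat.Agent.S17.H80.subsingleton_pic0_of_genusFF_eq_zero
  have h := Fermat.Agent.Lib.RR.H80.genusFF_modular_eq_genusFormula 3
  rw [genusFormula_three_h808] at h
  exact_mod_cast h

end Fermat.Agent.S15.H808

end
-- ===== PACK-END S15/H808/RtfSmall.lean

-- ===== PACK-BEGIN S15/H808/Rtf.lean
section




/-!
# S15 / DESC skeleton leaf RTF (helper808)

`rtfStatement_of_mw : MWShape → H975.RtfStatement`, where `MWShape` is verbatim the type of the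
frozen statement S17 (Mordell–Weil for `J₀(N)`, `N ≥ 5` prime).  The levels `2` and `3`, not
covered by S17, have `J₀ = 0` (`RtfSmall.lean`).

Also the pointwise form `rtf_of_fg` (one level, from `AddGroup.FG` of the rational points).
-/

set_option autoImplicit false

namespace Fermat.Agent.S15.H808

open ModularCurve Fermat.Agent.S15.H975

/-- The shape of the frozen statement S17. -/
def MWShape : Prop :=
  ∀ (N : ℕ) [NeZero N], N.Prime → 5 ≤ N →
    AddGroup.FG ↥(FixedPoints.addSubgroup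
      ((AlgebraicClosure ℚ) ≃ₐ[ℚ] (AlgebraicClosure ℚ)) (JZero N))

/-- **RTF at one level** from Mordell–Weil at that level. -/
theorem rtf_of_fg (p : ℕ) [NeZero p]
    (h : AddGroup.FG ↥(FixedPoints.addSubgroup
      ((AlgebraicClosure ℚ) ≃ₐ[ℚ] (AlgebraicClosure ℚ)) (JZero p))) :
    ∃ e : ℕ, 0 < e ∧
      ∀ t : JZero p, (∀ σ : _root_.Fermat.Agent.S15.H975.Gal, σ • t = t) → (∃ m : ℕ, 0 < m ∧ m • t = 0) → e • t = 0 := by
  obtain ⟨e, he, hE⟩ := exists_exponent_of_fg _ h
  refine ⟨e, he, fun t ht ⟨m, hm0, hm⟩ => ?_⟩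
  have h1 := hE ⟨t, ht⟩ ⟨m, hm0, Subtype.ext hm⟩
  exact congrArg Subtype.val h1

/-- **RTF at one level** when `J₀(p) = 0`. -/
theorem rtf_of_subsingleton (p : ℕ) [NeZero p] (h : Subsingleton (JZero p)) :
    ∃ e : ℕ, 0 < e ∧
      ∀ t : JZero p, (∀ σ : _root_.Fermat.Agent.S15.H975.Gal, σ • t = t) → (∃ m : ℕ, 0 < m ∧ m • t = 0) → e • t = 0 :=
  ⟨1, one_pos, fun _ _ _ => Subsingleton.elim _ _⟩

/-- **RTF** from the frozen S17 shape. -/
theorem rtfStatement_of_mw (h : MWShape) : RtfStatement := by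
  intro p _ hp
  rcases Nat.lt_or_ge p 5 with h5 | h5
  · have h2 := hp.two_le
    have hp' : p = 2 ∨ p = 3 := by
      rcases (show p = 2 ∨ p = 3 ∨ p = 4 by omega) with h | h | h
      · exact Or.inl h
      · exact Or.inr h
      · subst h
        exact absurd hp (by decide)
    rcases hp' with rfl | rfl
    · exact rtf_of_subsingleton 2 subsingleton_jZero_two
    · exact rtf_of_subsingleton 3 subsingleton_jZero_three
  · exact _root_.Fermat.Agent.S15.H808.rtf_of_fg p (h p hp h5)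

end Fermat.Agent.S15.H808

end
-- ===== PACK-END S15/H808/Rtf.lean

-- ===== PACK-BEGIN S17/H290/TanLocal.lean
section




/-!
# S17 / tower H — sub-project GAUSS (helper290): the tangent line, locally (TAN)

`E : EmbData K F`, `∂` a derivation of `F / K` and `ω` a differential with `dy = ∂y · ω` for
all `y`.  The functions

  `wform E ∂ (j, k) = x_j ∂x_k − x_k ∂x_j`

are the Plücker coordinates of the tangent line, up to ONE common factor at each place:

* `valAt_coeff`   : `(df/dπ)(v) = d1At v f` for `f` regular at `v`, `π = unif v`;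
* `ord_der_unif`  : `ord_v (∂π) = − ord_v ω`;
* `tan_local`     : at every place `P` there are `θ ≠ 0`, regular functions `u p` and a constant
                    `c ≠ 0` with `w p = θ · u p`, `ord_P θ = − ord_P ω − 2 (m∞)(P)` and
                    `u p (P) = c · (pt P ∧ tn P)_p`.

Sorry-free.
-/

set_option autoImplicit false

noncomputable section

namespace Fermat.Agent.S17.H290

open AlgebraicCurve KaehlerDifferential
open Fermat.Agent.Lib.RR Fermat.Agent.S17.HWall Fermat.Agent.S17.H230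

variable {K F : Type*} [Field K] [Field F] [Algebra K F] [FF1 K F]

omit [FF1 K F] in
theorem regAt_neg {v : Place K F} {f : F} (hf : RegAt v f) : RegAt v (-f) := neg_mem hf

omit [FF1 K F] in
theorem regAt_sub {v : Place K F} {f g : F} (hf : RegAt v f) (hg : RegAt v g) :
    RegAt v (f - g) := sub_mem hf hg

theorem valAt_neg {v : Place K F} {f : F} (hf : RegAt v f) : valAt v (-f) = - valAt v f := by
  have h := valAt_smul (-1 : K) hf
  rwa [neg_one_smul, neg_one_mul] at h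

theorem valAt_sub {v : Place K F} {f g : F} (hf : RegAt v f) (hg : RegAt v g) :
    valAt v (f - g) = valAt v f - valAt v g := by
  rw [sub_eq_add_neg, valAt_add hf (regAt_neg hg), valAt_neg hg, ← sub_eq_add_neg]

/-- `(df/dπ)(v) = ((f − f(v))/π)(v)` for `f` regular at `v`, `π = unif v`. -/
theorem valAt_coeff (v : Place K F) {f c : F} (hf : RegAt v f)
    (hspan : Submodule.span F {D K F (unif v)} = ⊤)
    (hc : D K F f = c • D K F (unif v)) : RegAt v c ∧ valAt v c = d1At v f := by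
  have hreg : RegAt v c := by
    rw [regAt_iff]
    exact H80.ord_coeff_nonneg v (ord_unif v) ((regAt_iff v f).mp hf) hc
  refine ⟨hreg, ?_⟩
  have hq : RegAt v (quot1 v f) := regAt_quot1 hf
  have h := H80.ord_coeff_sub_pos v (valAt v f) (ord_unif v) hspan ((regAt_iff v _).mp hq)
    (eq_add_unif_mul_quot1 v f) hc
  have hsub : RegAt v (c - quot1 v f) := by
    rcases h with h | h
    · rw [h]; exact regAt_zero v
    · rw [regAt_iff]; omega
  have h0 : valAt v (c - quot1 v f) = 0 := (valAt_eq_zero_iff hsub).mpr h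
  have h1 : c = (c - quot1 v f) + quot1 v f := by ring
  have h2 := valAt_add hsub hq
  rw [← h1, h0, zero_add] at h2
  exact h2

section Der

variable (δ : Derivation K F F) (ω : Ω[F⁄K])

theorem der_ne_zero_of_ord_eq_one (hω : ∀ y : F, D K F y = δ y • ω) (v : Place K F) {π : F}
    (hπ : v.ord π = 1) : δ π ≠ 0 := by
  intro h
  have h1 := hω π
  rw [h, zero_smul] at h1
  exact H80.D_ne_zero_of_ord_eq_one v hπ h1

theorem D_eq_smul_D (hω : ∀ y : F, D K F y = δ y • ω) (v : Place K F) {π : F}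
    (hπ : v.ord π = 1) (y : F) : D K F y = (δ y / δ π) • D K F π := by
  rw [hω y, hω π, smul_smul, div_mul_cancel₀ _ (der_ne_zero_of_ord_eq_one δ ω hω v hπ)]

theorem span_D_eq_top_of_der (hω : ∀ y : F, D K F y = δ y • ω) (v : Place K F) {π : F}
    (hπ : v.ord π = 1) : Submodule.span F {D K F π} = ⊤ := by
  rw [eq_top_iff, ← KaehlerDifferential.span_range_derivation K F, Submodule.span_le]
  rintro _ ⟨y, rfl⟩
  rw [SetLike.mem_coe, D_eq_smul_D δ ω hω v hπ y]
  exact Submodule.smul_mem _ _ (Submodule.subset_span rfl)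

/-- `ord_v (∂π) = − ord_v ω` for every uniformizer `π` at `v`. -/
theorem ord_der_unif [CharZero K] (hω : ∀ y : F, D K F y = δ y • ω) (hω0 : ω ≠ 0)
    (v : Place K F) {π : F} (hπ : v.ord π = 1) : v.ord (δ π) = - v.ordDifferential ω := by
  obtain ⟨π', hπ', hd⟩ := Fermat.Agent.S24.H84.place_exists_uniformizer v
  have : v.DCoordGenerates := ⟨by rw [hd]; exact span_D_eq_top_of_der δ ω hω v hπ'⟩
  have : Nontrivial Ω[F⁄K] := ⟨⟨ω, 0, hω0⟩⟩
  have hne' := der_ne_zero_of_ord_eq_one δ ω hω v hπ'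
  have hne := der_ne_zero_of_ord_eq_one δ ω hω v hπ
  -- `ω = (∂π')⁻¹ • dπ'`
  have h1 : ω = (δ π')⁻¹ • v.dCoord := by
    rw [hd, hω π', smul_smul, inv_mul_cancel₀ hne', one_smul]
  have h2 : v.ordDifferential ω = - v.ord (δ π') := by
    unfold Place.ordDifferential
    rw [v.differentialCoeff_unique h1, v.ord_inv]
  -- `∂π = c ∂π'` with `ord c = 0`
  have h3 := D_eq_smul_D δ ω hω v hπ' π
  have h4 := H80.ord_coeff_eq v hπ' (span_D_eq_top_of_der δ ω hω v hπ')
    (by rw [hπ]; exact one_ne_zero) h3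
  rw [hπ, sub_self, div_eq_mul_inv, v.ord_mul hne (inv_ne_zero hne'), v.ord_inv] at h4
  rw [h2]
  omega

end Der

/-! ### The forms `w_{jk} = x_j ∂x_k − x_k ∂x_j` -/

/-- `w_{jk} = x_j ∂x_k − x_k ∂x_j`. -/
def wform (E : EmbData K F) (δ : Derivation K F F) (p : Fin (E.r + 1) × Fin (E.r + 1)) : F :=
  E.x p.1 * δ (E.x p.2) - E.x p.2 * δ (E.x p.1)

/-- `pt P ∧ tn P` is a nonzero multiple of the wedge of the canonical point and the canonical
tangent vector. -/
theorem exists_wedge_eq (E : EmbData K F) (P : Place K F) :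
    ∃ c : K, c ≠ 0 ∧ ∀ p, wedge (ptD (E.m • prim E.vinf) E.x P) (tnD (E.m • prim E.vinf) E.x P) p
      = c * wedge (E.pt P) (E.tn P) p := by
  obtain ⟨l, hl⟩ := exists_pt_eq E P
  obtain ⟨μ, ν, hμν⟩ := exists_tn_eq E P
  have key : ∀ p, wedge (E.pt P) (E.tn P) p = (l * μ) *
      wedge (ptD (E.m • prim E.vinf) E.x P) (tnD (E.m • prim E.vinf) E.x P) p := by
    intro p
    unfold wedge
    rw [hl, hμν]
    simp only [Pi.add_apply, Pi.smul_apply, smul_eq_mul]
    ring
  have hne : l * μ ≠ 0 := by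
    intro h0
    apply Fermat.Agent.S17.H440.wedge_pt_tn_ne_zero E P
    funext p
    rw [key p, h0, zero_mul]
    rfl
  refine ⟨(l * μ)⁻¹, inv_ne_zero hne, fun p => ?_⟩
  rw [key p, ← mul_assoc, inv_mul_cancel₀ hne, one_mul]

/-- **TAN, local form.**  At every place `P`: `w_p = θ · u_p` with `u_p` regular at `P`,
`ord_P θ = − ord_P ω − 2 (m ∞)(P)`, and the values `u_p (P)` are the Plücker coordinates of the
tangent line at `P` (up to one nonzero constant). -/
theorem tan_local [CharZero K] (E : EmbData K F) (δ : Derivation K F F) (ω : Ω[F⁄K])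
    (hω : ∀ y : F, D K F y = δ y • ω) (hω0 : ω ≠ 0) (P : Place K F) :
    ∃ (θ : F) (u : Fin (E.r + 1) × Fin (E.r + 1) → F) (c : K), θ ≠ 0 ∧ c ≠ 0 ∧
      P.ord θ = - P.ordDifferential ω - 2 * (E.m • prim E.vinf : Divisor K F) P ∧
      (∀ p, RegAt P (u p)) ∧ (∀ p, wform E δ p = θ * u p) ∧
      ∀ p, valAt P (u p) = c * wedge (E.pt P) (E.tn P) p := by
  set Dv : Divisor K F := E.m • prim E.vinf with hDv
  set π : F := unif P with hπdef
  have hπ : P.ord π = 1 := ord_unif P
  have hπ0 : π ≠ 0 := unif_ne_zero P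
  have hdπ : δ π ≠ 0 := der_ne_zero_of_ord_eq_one δ ω hω P hπ
  have hspan := span_D_eq_top_of_der δ ω hω P hπ
  set q : F := π ^ (Dv P) with hq
  have hq0 : q ≠ 0 := zpow_ne_zero _ hπ0
  have hqord : P.ord q = Dv P := ord_unif_zpow P (Dv P)
  -- normalised coordinates
  set xt : Fin (E.r + 1) → F := fun i => E.x i * q with hxt
  have hxreg : ∀ i, RegAt P (xt i) := fun i => regAt_normD (x_mem E) P i
  set ct : Fin (E.r + 1) → F := fun i => δ (xt i) / δ π with hct
  have hcoef : ∀ i, RegAt P (ct i) ∧ valAt P (ct i) = d1At P (xt i) := fun i =>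
    valAt_coeff P (hxreg i) hspan (D_eq_smul_D δ ω hω P hπ (xt i))
  obtain ⟨c, hc0, hc⟩ := exists_wedge_eq E P
  refine ⟨δ π * (q ^ 2)⁻¹, fun p => xt p.1 * ct p.2 - xt p.2 * ct p.1, c,
    mul_ne_zero hdπ (inv_ne_zero (pow_ne_zero 2 hq0)), hc0, ?_, ?_, ?_, ?_⟩
  · rw [P.ord_mul hdπ (inv_ne_zero (pow_ne_zero 2 hq0)), P.ord_inv, ord_pow, hqord,
      ord_der_unif δ ω hω hω0 P hπ]
    push_cast
    ring
  · intro p
    exact regAt_sub ((hxreg p.1).mul (hcoef p.2).1) ((hxreg p.2).mul (hcoef p.1).1)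
  · intro p
    have hleib : ∀ i, δ (xt i) = E.x i * δ q + q * δ (E.x i) := by
      intro i
      show δ (E.x i * q) = _
      rw [Derivation.leibniz, smul_eq_mul, smul_eq_mul]
    show wform E δ p = δ π * (q ^ 2)⁻¹ * (xt p.1 * ct p.2 - xt p.2 * ct p.1)
    unfold wform
    simp only [hct, hleib]
    simp only [hxt]
    field_simp
    ring
  · intro p
    have h1 : RegAt P (xt p.1 * ct p.2) := (hxreg p.1).mul (hcoef p.2).1
    have h2 : RegAt P (xt p.2 * ct p.1) := (hxreg p.2).mul (hcoef p.1).1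
    rw [← hc p]
    show valAt P (xt p.1 * ct p.2 - xt p.2 * ct p.1) = _
    rw [valAt_sub h1 h2, valAt_mul (hxreg p.1) (hcoef p.2).1,
      valAt_mul (hxreg p.2) (hcoef p.1).1, (hcoef p.1).2, (hcoef p.2).2]
    unfold wedge
    rw [ptD_apply, ptD_apply]
    unfold tnD
    ring

end Fermat.Agent.S17.H290

end
end
-- ===== PACK-END S17/H290/TanLocal.lean

-- ===== PACK-BEGIN S17/H290/TanForms.lean
section






/-!
# S17 / tower H — sub-project GAUSS (helper290): the tangent forms (GG-1)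

`tangentForms_of : ProjNormalStatement E → CanonicalStatement K F → TangentFormsStatement E`.

* `exists_der_diff` : a derivation `∂` of `F / K` and a differential `ω ≠ 0` with `dy = ∂y · ω`;
* `W = div ω` (CAN), `deg W = 2g − 2`; `e = 3g + 3`; `ρ ≠ 0` in `L((e − 2) m ∞ − W)` (Riemann);
* `G_p` a form of degree `e` with `G_p(x) = ρ · w_p`, `w_{jk} = x_j ∂x_k − x_k ∂x_j` (PN);
* `Z = (e − 2) m ∞ − W + div ρ ≥ 0` is the exact common zero divisor of the `G_p(x)` and
  `G(pt P) = c · (pt P ∧ tn P)` off `Z` (`TanLocal.tan_local`).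

Sorry-free.
-/

set_option autoImplicit false

noncomputable section

namespace Fermat.Agent.S17.H290

open AlgebraicCurve KaehlerDifferential MvPolynomial
open Fermat.Agent.Lib.RR Fermat.Agent.S17.HWall Fermat.Agent.S17.HContract Fermat.Agent.S17.Wall
open Fermat.Agent.S17.H230

variable {K F : Type*} [Field K] [CharZero K] [Field F] [Algebra K F] [FF1 K F]

variable (K F) in
/-- A derivation `∂` of `F / K` and a differential `ω ≠ 0` with `dy = ∂y · ω` for all `y`. -/
theorem exists_der_diff :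
    ∃ (δ : Derivation K F F) (ω : Ω[F⁄K]), ω ≠ 0 ∧ ∀ y : F, D K F y = δ y • ω := by
  obtain ⟨t, ht, hfin⟩ := FF1.exists_finite (K := K) (F := F)
  have := hfin
  have hspan : Submodule.span F {D K F t} = ⊤ := Fermat.Agent.S24.H84.span_D_eq_top t
  obtain ⟨δ, hδ⟩ := Fermat.Agent.S17.H800.exists_derivation_eq_one (K := K) ht
  have key : ∀ y : F, D K F y = δ y • D K F t := by
    intro y
    have hmem : D K F y ∈ Submodule.span F {D K F t} := by rw [hspan]; trivial
    obtain ⟨c, hc⟩ := Submodule.mem_span_singleton.1 hmem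
    have h1 := Fermat.Agent.Lib.RR.H80.derivation_eq_mul δ hc.symm
    rw [hδ, mul_one] at h1
    rw [h1, hc]
  refine ⟨δ, D K F t, ?_, key⟩
  intro h0
  have h1 := congrArg δ.liftKaehlerDifferential h0
  rw [Derivation.liftKaehlerDifferential_comp_D, map_zero, hδ] at h1
  exact one_ne_zero h1

omit [CharZero K] [FF1 K F] in
theorem smul_smul_prim_apply (vinf P : Place K F) (a m : ℕ) :
    ((a * m) • prim vinf : Divisor K F) P = (a : ℤ) * (m • prim vinf : Divisor K F) P := by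
  rw [Finsupp.smul_apply, Finsupp.smul_apply, nsmul_eq_mul, nsmul_eq_mul]
  push_cast
  ring

/-- **GG-1 (TANGENT FORMS)** from projective normality and the canonical divisor. -/
theorem tangentForms_of (E : EmbData K F) (hPN : ProjNormalStatement E)
    (hCAN : CanonicalStatement K F) : TangentFormsStatement E := by
  classical
  obtain ⟨δ, ω, hω0, hω⟩ := exists_der_diff K F
  obtain ⟨W, hW, hWdeg⟩ := hCAN ω hω0
  set g : ℕ := genusR K F with hg
  have hm1 : 1 ≤ E.m := by have := E.hm; omega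
  -- the divisor `B = (e − 2) m ∞ − W`, `e = 3 g + 3`
  set B : Divisor K F := ((3 * g + 1) * E.m) • prim E.vinf - W with hB
  have hdegB : Divisor.degree B = ((3 * g + 1 : ℕ) : ℤ) * E.m - (2 * (g : ℤ) - 2) := by
    rw [hB, map_sub, map_nsmul, hWdeg]
    unfold prim
    rw [Divisor.degree_single, FF1.deg_eq_one]
    push_cast
    simp only [nsmul_eq_mul]
    push_cast
    ring
  have hell : 0 < ell B := by
    have h1 := riemann_inequality B
    rw [hdegB] at h1
    have h2 : ((3 * g + 1 : ℕ) : ℤ) * 1 ≤ ((3 * g + 1 : ℕ) : ℤ) * E.m :=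
      mul_le_mul_of_nonneg_left (by exact_mod_cast hm1) (by positivity)
    push_cast at h1 h2
    have h3 : (0 : ℤ) < ell B := by linarith
    exact_mod_cast h3
  obtain ⟨ρ, hρ0, hρ⟩ := H98.exists_ne_zero_mem_L_of_ell_pos hell
  have hρord : ∀ P : Place K F, 0 ≤ B P + P.ord ρ := by
    intro P
    rcases (mem_L_iff.mp hρ) P with h | h
    · exact absurd h hρ0
    · linarith
  have hBP : ∀ P : Place K F,
      B P = (3 * (g : ℤ) + 1) * (E.m • prim E.vinf : Divisor K F) P - W P := by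
    intro P
    rw [hB, Finsupp.sub_apply, smul_smul_prim_apply]
    push_cast
    ring
  -- the local data
  choose θ u c hθ0 hc0 hθord hureg hw hval using tan_local E δ ω hω hω0
  -- the sections `ρ w_p` of `O(e m ∞)`
  have hord : ∀ (P : Place K F) p, ρ * wform E δ p ≠ 0 →
      P.ord (ρ * wform E δ p) = B P + P.ord ρ
        - (3 * (g : ℤ) + 3) * (E.m • prim E.vinf : Divisor K F) P + P.ord (u P p) := by
    intro P p hne
    rw [hw P p] at hne ⊢
    have hu0 : u P p ≠ 0 := fun h => hne (by rw [h, mul_zero, mul_zero])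
    rw [P.ord_mul hρ0 (mul_ne_zero (hθ0 P) hu0), P.ord_mul (hθ0 P) hu0, hθord P, hBP P, hW P]
    ring
  have hmem : ∀ p, ρ * wform E δ p ∈ riemannRochSpace (((3 * g + 3) * E.m) • prim E.vinf) := by
    intro p
    rw [mem_L_iff]
    intro P
    by_cases hne : ρ * wform E δ p = 0
    · exact Or.inl hne
    · right
      rw [hord P p hne, smul_smul_prim_apply]
      have h1 := hρord P
      have h2 : 0 ≤ P.ord (u P p) := (regAt_iff P _).mp (hureg P p)
      push_cast
      linarith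
  choose G hGhom hGev using fun p => hPN (3 * g + 3) (ρ * wform E δ p) (hmem p)
  have hzdiv : ∀ (P : Place K F) p, aeval E.x (G p) ≠ 0 →
      zdiv E (3 * g + 3) (G p) P = B P + P.ord ρ + P.ord (u P p) := by
    intro P p hne
    unfold zdiv
    rw [dif_neg hne, Finsupp.add_apply, divOf_apply, smul_smul_prim_apply]
    rw [hGev p] at hne ⊢
    rw [hord P p hne]
    push_cast
    ring
  refine ⟨3 * g + 3, G, B + divOf ρ hρ0, by omega, hGhom, ?_, ⟨?_, ?_⟩, ?_, ?_⟩
  · -- `0 ≤ Z`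
    rw [Finsupp.le_def]
    intro P
    rw [Finsupp.add_apply, divOf_apply, Finsupp.coe_zero, Pi.zero_apply]
    exact hρord P
  · -- `Z ≤ zdiv`
    intro p hne
    rw [Finsupp.le_def]
    intro P
    rw [hzdiv P p hne, Finsupp.add_apply, divOf_apply]
    have h2 : 0 ≤ P.ord (u P p) := (regAt_iff P _).mp (hureg P p)
    linarith
  · -- exactness
    intro P
    obtain ⟨p, hp⟩ : ∃ p, wedge (E.pt P) (E.tn P) p ≠ 0 := by
      by_contra hcon
      push Not at hcon
      exact Fermat.Agent.S17.H440.wedge_pt_tn_ne_zero E P (funext hcon)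
    have hv : valAt P (u P p) ≠ 0 := by
      rw [hval P p]
      exact mul_ne_zero (hc0 P) hp
    have hu : u P p ≠ 0 ∧ P.ord (u P p) = 0 := by
      have h1 := (valAt_eq_zero_iff (hureg P p)).not.mp hv
      push Not at h1
      have h2 : 0 ≤ P.ord (u P p) := (regAt_iff P _).mp (hureg P p)
      exact ⟨h1.1, by omega⟩
    have hne : aeval E.x (G p) ≠ 0 := by
      rw [hGev p, hw P p]
      exact mul_ne_zero hρ0 (mul_ne_zero (hθ0 P) hu.1)
    refine ⟨p, hne, ?_⟩
    rw [hzdiv P p hne, hu.2, Finsupp.add_apply, divOf_apply, add_zero]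
  · -- the degree
    rw [map_add, degree_divOf, add_zero, hdegB]
    push_cast
    ring
  · -- the tangent relation
    intro P hZP
    rw [Finsupp.add_apply, divOf_apply] at hZP
    obtain ⟨l, hl⟩ := exists_pt_eq E P
    have hl0 : l ≠ 0 := by
      rintro rfl
      apply Fermat.Agent.S17.H440.pt_ne_zero E P
      rw [hl, zero_smul]
    set q : F := unif P ^ ((E.m • prim E.vinf : Divisor K F) P) with hq
    have hq0 : q ≠ 0 := zpow_ne_zero _ (unif_ne_zero P)
    have hqord : P.ord q = (E.m • prim E.vinf : Divisor K F) P := ord_unif_zpow P _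
    have hxreg : ∀ i, RegAt P (q * E.x i) := fun i => by
      rw [mul_comm]; exact regAt_normD (x_mem E) P i
    have hpt : (fun i => valAt P (q * E.x i)) = ptD (E.m • prim E.vinf) E.x P := by
      funext i
      rw [ptD_apply, mul_comm]
    -- the unit `a = q ^ e ρ θ`
    set a : F := q ^ (3 * g + 3) * (ρ * θ P) with ha
    have ha0 : a ≠ 0 := mul_ne_zero (pow_ne_zero _ hq0) (mul_ne_zero hρ0 (hθ0 P))
    have haord : P.ord a = 0 := by
      rw [ha, P.ord_mul (pow_ne_zero _ hq0) (mul_ne_zero hρ0 (hθ0 P)), P.ord_mul hρ0 (hθ0 P),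
        ord_pow, hqord, hθord P]
      have h1 := hBP P
      have h2 := hW P
      have h3 : ((3 * g + 3 : ℕ) : ℤ) = 3 * (g : ℤ) + 3 := by push_cast; ring
      rw [h3]
      linarith
    have hareg : RegAt P a := (regAt_iff P a).mpr haord.ge
    refine ⟨l ^ (3 * g + 3) * valAt P a * c P,
      mul_ne_zero (mul_ne_zero (pow_ne_zero _ hl0) (valAt_ne_zero ha0 haord)) (hc0 P), fun p => ?_⟩
    have h1 : q ^ (3 * g + 3) * (ρ * (θ P * u P p)) = a * u P p := by
      rw [ha]; ring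
    have hev : eval (E.pt P) (G p) = l ^ (3 * g + 3) * (valAt P a * valAt P (u P p)) := by
      rw [hl, Fermat.Agent.S17.H230.eval_smul_of_isHomogeneous (hGhom p), ← hpt,
        ← valAt_aeval hxreg (G p), Fermat.Agent.S17.H710.aeval_mul_of_isHomogeneous (hGhom p),
        hGev p, hw P p, h1, valAt_mul hareg (hureg P p)]
    rw [hev, hval P p]
    ring

end Fermat.Agent.S17.H290

end
end
-- ===== PACK-END S17/H290/TanForms.lean

-- ===== PACK-BEGIN S17/H290/TanFormsAt.lean
section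


/-!
# S17 / tower H — sub-project GAUSS (helper290): the tangent forms, EXPLICIT divisor

`tangentForms_at` : for EVERY nonzero Kähler differential `ω` with divisor `W` there are
`e ≥ 1`, `ρ ≠ 0` and forms `G_p` of degree `e + 2` with `G_p(x) = ρ · w_p`
(`w_{jk} = x_j ∂x_k − x_k ∂x_j`, `dy = ∂y · ω`) whose exact common zero divisor is

  `Z = e m ∞ − W + div ρ ≥ 0`,

and `G(pt P) = c · (pt P ∧ tn P)`, `c ≠ 0`, for `P ∉ Z`.  (No degree of `W` is needed.)

Sorry-free.
-/

set_option autoImplicit false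

noncomputable section

namespace Fermat.Agent.S17.H290

open AlgebraicCurve KaehlerDifferential MvPolynomial
open Fermat.Agent.Lib.RR Fermat.Agent.S17.HWall Fermat.Agent.S17.HContract Fermat.Agent.S17.Wall
open Fermat.Agent.S17.H230

variable {K F : Type*} [Field K] [CharZero K] [Field F] [Algebra K F] [FF1 K F]

/-- Every nonzero differential is `ω` with `dy = ∂y · ω` for a derivation `∂`. -/
theorem exists_der_of_diff (ω : Ω[F⁄K]) (hω0 : ω ≠ 0) :
    ∃ δ : Derivation K F F, ∀ y : F, D K F y = δ y • ω := by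
  obtain ⟨δ₀, ω₀, hω₀, h₀⟩ := exists_der_diff K F
  have hspan : Submodule.span F {ω₀} = ⊤ := by
    rw [eq_top_iff, ← KaehlerDifferential.span_range_derivation K F, Submodule.span_le]
    rintro _ ⟨y, rfl⟩
    rw [SetLike.mem_coe, h₀ y]
    exact Submodule.smul_mem _ _ (Submodule.subset_span rfl)
  have hmem : ω ∈ Submodule.span F {ω₀} := by rw [hspan]; trivial
  obtain ⟨f, hf⟩ := Submodule.mem_span_singleton.1 hmem
  have hf0 : f ≠ 0 := by
    rintro rfl
    exact hω0 (by rw [← hf, zero_smul])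
  refine ⟨f⁻¹ • δ₀, fun y => ?_⟩
  have h1 : f⁻¹ * δ₀ y * f = δ₀ y := by field_simp
  rw [Derivation.smul_apply, smul_eq_mul, ← hf, smul_smul, h1, h₀ y]

/-- **GG-1 (TANGENT FORMS), explicit form.** -/
theorem tangentForms_at (E : EmbData K F) (hPN : ProjNormalStatement E)
    (ω : Ω[F⁄K]) (hω0 : ω ≠ 0) (W : Divisor K F)
    (hW : ∀ v : Place K F, W v = v.ordDifferential ω) :
    ∃ (e : ℕ) (G : Fin (E.r + 1) × Fin (E.r + 1) → MvPolynomial (Fin (E.r + 1)) K)
      (ρ : F) (hρ : ρ ≠ 0),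
      1 ≤ e ∧ (∀ p, (G p).IsHomogeneous (e + 2)) ∧
      0 ≤ ((e * E.m) • prim E.vinf - W + divOf ρ hρ : Divisor K F) ∧
      ExactZero E (e + 2) G ((e * E.m) • prim E.vinf - W + divOf ρ hρ) ∧
      ∀ P : Place K F, ((e * E.m) • prim E.vinf - W + divOf ρ hρ : Divisor K F) P = 0 →
        ∃ c : K, c ≠ 0 ∧ ∀ p, eval (E.pt P) (G p) = c * wedge (E.pt P) (E.tn P) p := by
  classical
  obtain ⟨δ, hω⟩ := exists_der_of_diff ω hω0
  set g : ℕ := genusR K F with hg
  have hm1 : 1 ≤ E.m := by have := E.hm; omega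
  set e : ℕ := (Divisor.degree W + g).toNat + 1 with he
  have he1 : 1 ≤ e := by omega
  have heW : Divisor.degree W + g < (e : ℤ) := by
    have := Int.self_le_toNat (Divisor.degree W + g)
    rw [he]
    push_cast
    omega
  -- the divisor `B = e m ∞ − W`
  set B : Divisor K F := (e * E.m) • prim E.vinf - W with hB
  have hdegB : Divisor.degree B = (e : ℤ) * E.m - Divisor.degree W := by
    rw [hB, map_sub, map_nsmul]
    unfold prim
    rw [Divisor.degree_single, FF1.deg_eq_one]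
    push_cast
    simp only [nsmul_eq_mul]
    push_cast
    ring
  have hell : 0 < ell B := by
    have h1 := riemann_inequality B
    rw [hdegB] at h1
    have h2 : (e : ℤ) * 1 ≤ (e : ℤ) * E.m :=
      mul_le_mul_of_nonneg_left (by exact_mod_cast hm1) (by positivity)
    have h3 : (0 : ℤ) < ell B := by linarith
    exact_mod_cast h3
  obtain ⟨ρ, hρ0, hρ⟩ := H98.exists_ne_zero_mem_L_of_ell_pos hell
  have hρord : ∀ P : Place K F, 0 ≤ B P + P.ord ρ := by
    intro P
    rcases (mem_L_iff.mp hρ) P with h | h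
    · exact absurd h hρ0
    · linarith
  have hBP : ∀ P : Place K F,
      B P = (e : ℤ) * (E.m • prim E.vinf : Divisor K F) P - W P := by
    intro P
    rw [hB, Finsupp.sub_apply, smul_smul_prim_apply]
  -- the local data
  choose θ u c hθ0 hc0 hθord hureg hw hval using tan_local E δ ω hω hω0
  -- the sections `ρ w_p` of `O((e + 2) m ∞)`
  have hord : ∀ (P : Place K F) p, ρ * wform E δ p ≠ 0 →
      P.ord (ρ * wform E δ p) = B P + P.ord ρ
        - ((e : ℤ) + 2) * (E.m • prim E.vinf : Divisor K F) P + P.ord (u P p) := by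
    intro P p hne
    rw [hw P p] at hne ⊢
    have hu0 : u P p ≠ 0 := fun h => hne (by rw [h, mul_zero, mul_zero])
    rw [P.ord_mul hρ0 (mul_ne_zero (hθ0 P) hu0), P.ord_mul (hθ0 P) hu0, hθord P, hBP P, hW P]
    ring
  have hcast : (((e + 2 : ℕ) : ℤ)) = (e : ℤ) + 2 := by push_cast; ring
  have hmem : ∀ p, ρ * wform E δ p ∈ riemannRochSpace (((e + 2) * E.m) • prim E.vinf) := by
    intro p
    rw [mem_L_iff]
    intro P
    by_cases hne : ρ * wform E δ p = 0
    · exact Or.inl hne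
    · right
      rw [hord P p hne, smul_smul_prim_apply, hcast]
      have h1 := hρord P
      have h2 : 0 ≤ P.ord (u P p) := (regAt_iff P _).mp (hureg P p)
      linarith
  choose G hGhom hGev using fun p => hPN (e + 2) (ρ * wform E δ p) (hmem p)
  have hzdiv : ∀ (P : Place K F) p, aeval E.x (G p) ≠ 0 →
      zdiv E (e + 2) (G p) P = B P + P.ord ρ + P.ord (u P p) := by
    intro P p hne
    unfold zdiv
    rw [dif_neg hne, Finsupp.add_apply, divOf_apply, smul_smul_prim_apply, hcast]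
    rw [hGev p] at hne ⊢
    rw [hord P p hne]
    ring
  refine ⟨e, G, ρ, hρ0, he1, hGhom, ?_, ⟨?_, ?_⟩, ?_⟩
  · -- `0 ≤ Z`
    rw [Finsupp.le_def]
    intro P
    rw [Finsupp.add_apply, divOf_apply, Finsupp.coe_zero, Pi.zero_apply]
    exact hρord P
  · -- `Z ≤ zdiv`
    intro p hne
    rw [Finsupp.le_def]
    intro P
    rw [hzdiv P p hne, Finsupp.add_apply, divOf_apply]
    have h2 : 0 ≤ P.ord (u P p) := (regAt_iff P _).mp (hureg P p)
    linarith
  · -- exactness
    intro P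
    obtain ⟨p, hp⟩ : ∃ p, wedge (E.pt P) (E.tn P) p ≠ 0 := by
      by_contra hcon
      push Not at hcon
      exact Fermat.Agent.S17.H440.wedge_pt_tn_ne_zero E P (funext hcon)
    have hv : valAt P (u P p) ≠ 0 := by
      rw [hval P p]
      exact mul_ne_zero (hc0 P) hp
    have hu : u P p ≠ 0 ∧ P.ord (u P p) = 0 := by
      have h1 := (valAt_eq_zero_iff (hureg P p)).not.mp hv
      push Not at h1
      have h2 : 0 ≤ P.ord (u P p) := (regAt_iff P _).mp (hureg P p)
      exact ⟨h1.1, by omega⟩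
    have hne : aeval E.x (G p) ≠ 0 := by
      rw [hGev p, hw P p]
      exact mul_ne_zero hρ0 (mul_ne_zero (hθ0 P) hu.1)
    refine ⟨p, hne, ?_⟩
    rw [hzdiv P p hne, hu.2, Finsupp.add_apply, divOf_apply, add_zero]
  · -- the tangent relation
    intro P hZP
    rw [Finsupp.add_apply, divOf_apply] at hZP
    obtain ⟨l, hl⟩ := exists_pt_eq E P
    have hl0 : l ≠ 0 := by
      rintro rfl
      apply Fermat.Agent.S17.H440.pt_ne_zero E P
      rw [hl, zero_smul]
    set q : F := unif P ^ ((E.m • prim E.vinf : Divisor K F) P) with hq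
    have hq0 : q ≠ 0 := zpow_ne_zero _ (unif_ne_zero P)
    have hqord : P.ord q = (E.m • prim E.vinf : Divisor K F) P := ord_unif_zpow P _
    have hxreg : ∀ i, RegAt P (q * E.x i) := fun i => by
      rw [mul_comm]; exact regAt_normD (x_mem E) P i
    have hpt : (fun i => valAt P (q * E.x i)) = ptD (E.m • prim E.vinf) E.x P := by
      funext i
      rw [ptD_apply, mul_comm]
    -- the unit `a = q ^ (e + 2) ρ θ`
    set a : F := q ^ (e + 2) * (ρ * θ P) with ha
    have ha0 : a ≠ 0 := mul_ne_zero (pow_ne_zero _ hq0) (mul_ne_zero hρ0 (hθ0 P))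
    have haord : P.ord a = 0 := by
      rw [ha, P.ord_mul (pow_ne_zero _ hq0) (mul_ne_zero hρ0 (hθ0 P)), P.ord_mul hρ0 (hθ0 P),
        ord_pow, hqord, hθord P]
      have h1 := hBP P
      have h2 := hW P
      rw [hcast]
      linarith
    have hareg : RegAt P a := (regAt_iff P a).mpr haord.ge
    refine ⟨l ^ (e + 2) * valAt P a * c P,
      mul_ne_zero (mul_ne_zero (pow_ne_zero _ hl0) (valAt_ne_zero ha0 haord)) (hc0 P), fun p => ?_⟩
    have h1 : q ^ (e + 2) * (ρ * (θ P * u P p)) = a * u P p := by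
      rw [ha]; ring
    have hev : eval (E.pt P) (G p) = l ^ (e + 2) * (valAt P a * valAt P (u P p)) := by
      rw [hl, Fermat.Agent.S17.H230.eval_smul_of_isHomogeneous (hGhom p), ← hpt,
        ← valAt_aeval hxreg (G p), Fermat.Agent.S17.H710.aeval_mul_of_isHomogeneous (hGhom p),
        hGev p, hw P p, h1, valAt_mul hareg (hureg P p)]
    rw [hev, hval P p]
    ring

end Fermat.Agent.S17.H290

end
end
-- ===== PACK-END S17/H290/TanFormsAt.lean

-- ===== PACK-BEGIN S37/Red/H208/H1.lean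
section
/-
S37 / RED-E2 (helper208, squad S28/S28): the four (H1) fields of `Red.Datum.Good`
for ANY reduction datum on `(F_N, F_{N,k})` whose coordinate is `j`.

  theorem good_H1 (N) [NeZero N] (A : ValuationSubring Qb) (hN : (N : kA A) ≠ 0)
      (G : Datum A (residue A) (FN N) (FNk A N))
      (hx  : ((G.x  : FN N)    : LaurentSeries Qb)     = jqModC Qb)
      (hxk : ((G.xk : FNk A N) : LaurentSeries (kA A)) = jqModC (kA A)) :
      FiniteDimensional Qb⟮G.x⟯ (FN N) ∧ FiniteDimensional (kA A)⟮G.xk⟯ (FNk A N) ∧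
      Algebra.IsSeparable (kA A)⟮G.xk⟯ (FNk A N) ∧
      Module.finrank Qb⟮G.x⟯ (FN N) = Module.finrank (kA A)⟮G.xk⟯ (FNk A N)

Both degrees are `ψ(N)` (`finrank_bar`, `finrank_k`).  Source: the uniform integral basis and the
separability theorem of `Fermat/Agent/S18/H208` (unconditional, on main).
-/





set_option autoImplicit false
set_option synthInstance.maxHeartbeats 400000
set_option linter.unusedSectionVars false
set_option linter.style.haveILetI false

noncomputable section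

namespace Fermat.Agent.S37.Red.H208

open ModularCurve AlgebraicCurve HahnSeries IsLocalRing IntermediateField Fermat.Agent.S28

section Generic

variable {k : Type} [Field k] {L : Type} [Field L] [Algebra k L] (F : IntermediateField k L)

/-- Elements of `k⟮x⟯ ⊆ F` lie in `k⟮x⟯ ⊆ L`. -/
theorem coe_mem_adjoin (x : F) (c : k⟮x⟯) : ((c : F) : L) ∈ k⟮(x : L)⟯ := by
  have h : (k⟮x⟯).map F.val = k⟮(x : L)⟯ := by
    rw [IntermediateField.adjoin_map, Set.image_singleton]
    rfl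
  rw [← h]
  exact ⟨(c : F), c.2, rfl⟩

/-- Elements of `k⟮x⟯ ⊆ L` come from `k⟮x⟯ ⊆ F`. -/
theorem exists_coe_eq (x : F) (d : k⟮(x : L)⟯) : ∃ c : k⟮x⟯, ((c : F) : L) = (d : L) := by
  have h : (k⟮x⟯).map F.val = k⟮(x : L)⟯ := by
    rw [IntermediateField.adjoin_map, Set.image_singleton]
    rfl
  have hd : (d : L) ∈ (k⟮x⟯).map F.val := by rw [h]; exact d.2
  obtain ⟨c, hc, hcd⟩ := hd
  exact ⟨⟨c, hc⟩, hcd⟩

/-- **Transfer of a basis** from the tower inside `L` to the tower of types. -/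
theorem finrank_of_basis (x : F) {n : ℕ} (v : Fin n → L) (hv : ∀ i, v i ∈ F)
    (hli : LinearIndependent k⟮(x : L)⟯ v)
    (hspan : ∀ y ∈ F, y ∈ Submodule.span k⟮(x : L)⟯ (Set.range v)) :
    FiniteDimensional k⟮x⟯ F ∧ Module.finrank k⟮x⟯ F = n := by
  classical
  set v' : Fin n → F := fun i => ⟨v i, hv i⟩ with hv'
  have hli' : LinearIndependent k⟮x⟯ v' := by
    rw [Fintype.linearIndependent_iff]
    intro c hc i
    have h1 : ∑ i, ((c i : F) : L) * v i = 0 := by
      have := congrArg (fun y : F => (y : L)) hc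
      simpa [Algebra.smul_def, hv'] using this
    have h2 := Fintype.linearIndependent_iff.mp hli
      (fun i => ⟨((c i : F) : L), coe_mem_adjoin F x (c i)⟩) (by
        simpa [IntermediateField.smul_def] using h1) i
    have h3 : ((c i : F) : L) = 0 := congrArg Subtype.val h2
    apply Subtype.ext
    apply Subtype.ext
    simpa using h3
  have hspan' : ⊤ ≤ Submodule.span k⟮x⟯ (Set.range v') := by
    intro y _
    obtain ⟨d, hd⟩ := (Submodule.mem_span_range_iff_exists_fun _).mp (hspan (y : L) y.2)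
    have hc : ∀ i, ∃ c : k⟮x⟯, ((c : F) : L) = (d i : L) := fun i => exists_coe_eq F x (d i)
    choose c hc using hc
    rw [Submodule.mem_span_range_iff_exists_fun]
    refine ⟨c, ?_⟩
    apply Subtype.ext
    rw [← hd]
    have : ((∑ i, c i • v' i : F) : L) = ∑ i, ((c i : F) : L) * v i := by
      rw [← IntermediateField.coe_val, map_sum]
      refine Finset.sum_congr rfl fun i _ => ?_
      simp [Algebra.smul_def, hv']
    rw [this]
    refine Finset.sum_congr rfl fun i _ => ?_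
    rw [hc i, IntermediateField.smul_def, smul_eq_mul]
  let b : Module.Basis (Fin n) k⟮x⟯ F := Module.Basis.mk hli' hspan'
  refine ⟨Module.Finite.of_basis b, ?_⟩
  rw [Module.finrank_eq_card_basis b, Fintype.card_fin]

/-- **Transfer of separability.** -/
theorem isSeparable_of_forall (x : F)
    (hsep : ∀ y ∈ F, IsSeparable k⟮(x : L)⟯ y) : Algebra.IsSeparable k⟮x⟯ F := by
  refine ⟨fun y => ?_⟩
  -- the comparison ring hom `k⟮x⟯ → k⟮x⟯`
  let φ : k⟮x⟯ →+* k⟮(x : L)⟯ :=
    { toFun := fun c => ⟨((c : F) : L), coe_mem_adjoin F x c⟩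
      map_one' := rfl
      map_mul' := fun _ _ => rfl
      map_zero' := rfl
      map_add' := fun _ _ => rfl }
  have hφsurj : Function.Surjective φ := by
    intro d
    obtain ⟨c, hc⟩ := exists_coe_eq F x d
    exact ⟨c, Subtype.ext hc⟩
  have hy := hsep (y : L) y.2
  obtain ⟨Q, hQ⟩ := Polynomial.map_surjective φ hφsurj (minpoly k⟮(x : L)⟯ (y : L))
  have hQsep : Q.Separable := by
    have : (Q.map φ).Separable := by rw [hQ]; exact hy
    exact (Polynomial.separable_map φ).mp this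
  have hcomp : (F.val : F →+* L).comp (algebraMap k⟮x⟯ F) =
      (algebraMap k⟮(x : L)⟯ L).comp φ := by
    ext c
    rfl
  have hroot : Polynomial.aeval y Q = 0 := by
    apply F.val.injective
    have h1 : (F.val : F →+* L) (Polynomial.eval₂ (algebraMap k⟮x⟯ F) y Q) =
        Polynomial.eval₂ ((F.val : F →+* L).comp (algebraMap k⟮x⟯ F)) ((F.val : F →+* L) y) Q :=
      Polynomial.hom_eval₂ _ _ _ _
    rw [hcomp, ← Polynomial.eval₂_map, hQ] at h1
    have h2 : Polynomial.eval₂ (algebraMap k⟮(x : L)⟯ L) (y : L)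
        (minpoly k⟮(x : L)⟯ (y : L)) = 0 := minpoly.aeval _ _
    rw [map_zero, Polynomial.aeval_def]
    exact h1.trans h2
  exact hQsep.of_dvd (minpoly.dvd _ _ hroot)

/-- `finrank_of_basis` with the coordinate given by an equation. -/
theorem finrank_of_basis' (x : F) {t : L} (ht : (x : L) = t) {n : ℕ} (v : Fin n → L)
    (hv : ∀ i, v i ∈ F) (hli : LinearIndependent k⟮t⟯ v)
    (hspan : ∀ y ∈ F, y ∈ Submodule.span k⟮t⟯ (Set.range v)) :
    FiniteDimensional k⟮x⟯ F ∧ Module.finrank k⟮x⟯ F = n := by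
  subst ht
  exact finrank_of_basis F x v hv hli hspan

/-- `isSeparable_of_forall` with the coordinate given by an equation. -/
theorem isSeparable_of_forall' (x : F) {t : L} (ht : (x : L) = t)
    (hsep : ∀ y ∈ F, IsSeparable k⟮t⟯ y) : Algebra.IsSeparable k⟮x⟯ F := by
  subst ht
  exact isSeparable_of_forall F x hsep

end Generic

section Modular

variable (N : ℕ) [NeZero N]

/-- `[F_{N,k} : k(x)] = ψ(N)` for every `x ∈ F_{N,k}` with `q`-expansion `j`
(`N` invertible in `k`). -/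
theorem finrank_fullC (k : Type) [Field k] (hN : (N : k) ≠ 0)
    (x : modularFunctionFieldFullC k N) (hx : (x : LaurentSeries k) = jqModC k) :
    FiniteDimensional k⟮x⟯ (modularFunctionFieldFullC k N) ∧
      Module.finrank k⟮x⟯ (modularFunctionFieldFullC k N) = dedekindPsi N := by
  obtain ⟨y, hy, h⟩ := S18.H208.M1.exists_basis N
  obtain ⟨hspan, hli⟩ := h k hN
  exact finrank_of_basis' (modularFunctionFieldFullC k N) x hx
    (fun i => coeffMap (Int.castRingHom k) (y i))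
    (fun i => S18.H208.coeffMap_intCast_mem_full k N (hy i)) hli hspan

/-- `F_{N,k} / k(x)` is separable for every `x ∈ F_{N,k}` with `q`-expansion `j`
(`N` invertible in `k`). -/
theorem isSeparable_fullC (k : Type) [Field k] (hN : (N : k) ≠ 0)
    (x : modularFunctionFieldFullC k N) (hx : (x : LaurentSeries k) = jqModC k) :
    Algebra.IsSeparable k⟮x⟯ (modularFunctionFieldFullC k N) :=
  isSeparable_of_forall' (modularFunctionFieldFullC k N) x hx
    (fun _ hy => S18.H208.M1.isSeparable k N hN hy)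

/-- `[F_N : Q̄(x)] = ψ(N)` for every `x ∈ F_N` with `q`-expansion `j`. -/
theorem finrank_bar (x : FN N) (hx : ((x : FN N) : LaurentSeries Qb) = jqModC Qb) :
    FiniteDimensional Qb⟮x⟯ (FN N) ∧ Module.finrank Qb⟮x⟯ (FN N) = dedekindPsi N := by
  obtain ⟨y, hy, h⟩ := S18.H208.M1.exists_basis N
  obtain ⟨hspan, hli⟩ := h Qb (Nat.cast_ne_zero.mpr (NeZero.ne N))
  refine finrank_of_basis' (modularFunctionFieldBar N) x hx
    (fun i => coeffMap (Int.castRingHom Qb) (y i)) (fun i => ?_) hli (fun z hz => ?_)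
  · rw [S28.H988.modularFunctionFieldBar_eq_fullC]
    exact S18.H208.coeffMap_intCast_mem_full Qb N (hy i)
  · rw [S28.H988.modularFunctionFieldBar_eq_fullC] at hz
    exact hspan z hz

/-- `[F_{N,k} : k(x̄)] = ψ(N)` for the residue field `k` of `A`. -/
theorem finrank_k (A : ValuationSubring Qb) (hN : (N : kA A) ≠ 0) (x : FNk A N)
    (hx : ((x : FNk A N) : LaurentSeries (kA A)) = jqModC (kA A)) :
    FiniteDimensional (kA A)⟮x⟯ (FNk A N) ∧
      Module.finrank (kA A)⟮x⟯ (FNk A N) = dedekindPsi N :=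
  finrank_fullC N (kA A) hN x hx

/-- **RED-E2**: the four (H1) fields of `Datum.Good`, for ANY reduction datum on
`(F_N, F_{N,k})` whose coordinate and reduced coordinate have `q`-expansion `j`. -/
theorem good_H1 (A : ValuationSubring Qb) (hN : (N : kA A) ≠ 0)
    (G : Datum A (residue A) (FN N) (FNk A N))
    (hx : ((G.x : FN N) : LaurentSeries Qb) = jqModC Qb)
    (hxk : ((G.xk : FNk A N) : LaurentSeries (kA A)) = jqModC (kA A)) :
    FiniteDimensional Qb⟮G.x⟯ (FN N) ∧ FiniteDimensional (kA A)⟮G.xk⟯ (FNk A N) ∧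
      Algebra.IsSeparable (kA A)⟮G.xk⟯ (FNk A N) ∧
      Module.finrank Qb⟮G.x⟯ (FN N) = Module.finrank (kA A)⟮G.xk⟯ (FNk A N) := by
  obtain ⟨h1, h2⟩ := finrank_bar N G.x hx
  obtain ⟨h3, h4⟩ := finrank_k N A hN G.xk hxk
  exact ⟨h1, h3, isSeparable_fullC N (kA A) hN G.xk hxk, h2.trans h4.symm⟩

end Modular

end Fermat.Agent.S37.Red.H208

end

end
-- ===== PACK-END S37/Red/H208/H1.lean

-- ===== PACK-BEGIN S15/H602/IdentInf.lean
section








/-!
# S15 / GEO-PARTS (b) IDENT (helper602): zeros and poles of `j` under a place reduction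

For ANY place reduction `r` in the sense of the Prelude (`IsPlaceReductionAlong A (residue A) N r`,
`A` a valuation subring of `ℚ̄` whose residue characteristic does not divide `N`):

* `ord_red_pos_of_ord_pos602` : zeros of `j` reduce to zeros of `j̄`;
* `ord_red_neg_of_ord_neg602` : poles of `j` (cusps) reduce to poles of `j̄`.

Proof: conservation `r_* div j = div j̄` and `deg (j)_∞ = ψ(N) = deg (j̄)_∞` (no cancellation).
These are the hypotheses `hzero`, `hpole` of `H722.modInfCoord` / `H722.r_eq_cusp`.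
-/

set_option autoImplicit false
set_option synthInstance.maxHeartbeats 400000

noncomputable section

open AlgebraicCurve ModularCurve HahnSeries IntermediateField

namespace Fermat.Agent.S15.H602

section Pure

variable {α β : Type*}

theorem mapDomain_nonneg602 (r : α → β) (E : α →₀ ℤ) (hE : ∀ a, 0 ≤ E a) (b : β) :
    0 ≤ Finsupp.mapDomain r E b := by
  classical
  rw [mapDomain_apply_eq_sum602]
  refine Finset.sum_nonneg fun a _ => ?_
  split_ifs
  · exact hE a
  · exact le_rfl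

theorem le_mapDomain602 (r : α → β) (E : α →₀ ℤ) (hE : ∀ a, 0 ≤ E a) (a : α) :
    E a ≤ Finsupp.mapDomain r E (r a) := by
  classical
  rw [mapDomain_apply_eq_sum602]
  by_cases ha : a ∈ E.support
  · have hnn : ∀ c ∈ E.support, 0 ≤ (if r c = r a then E c else 0) := by
      intro c _
      split_ifs
      · exact hE c
      · exact le_rfl
    have := Finset.single_le_sum hnn ha
    rwa [if_pos rfl] at this
  · rw [Finsupp.notMem_support_iff.mp ha]
    refine Finset.sum_nonneg fun c _ => ?_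
    split_ifs
    · exact hE c
    · exact le_rfl

/-- **No cancellation.**  If `r_* D = D̄` and the polar parts of `D` and `D̄` have the same
degree, then `r` maps poles to poles and zeros to zeros. -/
theorem sign_of_mapDomain602 (r : α → β) (w : α → ℤ) (w' : β → ℤ) (hw' : ∀ b, 0 < w' b)
    (hww : ∀ a, w' (r a) = w a) (D : α →₀ ℤ) (Dbar : β →₀ ℤ)
    (h : Finsupp.mapDomain r D = Dbar)
    (Dm : α →₀ ℤ) (hDm : ∀ a, Dm a = max 0 (-D a))
    (Dbm : β →₀ ℤ) (hDbm : ∀ b, Dbm b = max 0 (-Dbar b))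
    (hdeg : wdeg602 w Dm = wdeg602 w' Dbm) :
    ∀ a, (D a < 0 → Dbar (r a) < 0) ∧ (0 < D a → 0 < Dbar (r a)) := by
  classical
  set Dp : α →₀ ℤ := D + Dm with hDp
  have hDpa : ∀ a, Dp a = max 0 (D a) := by
    intro a
    rw [hDp, Finsupp.add_apply, hDm]
    rcases le_total 0 (D a) with h0 | h0
    · rw [max_eq_left (by omega), max_eq_right h0]; ring
    · rw [max_eq_right (by omega), max_eq_left h0]; ring
  have hDm0 : ∀ a, 0 ≤ Dm a := fun a => by rw [hDm]; exact le_max_left _ _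
  have hDp0 : ∀ a, 0 ≤ Dp a := fun a => by rw [hDpa]; exact le_max_left _ _
  set mp := Finsupp.mapDomain r Dp with hmp
  set mm := Finsupp.mapDomain r Dm with hmm
  have hmp0 : ∀ b, 0 ≤ mp b := mapDomain_nonneg602 r Dp hDp0
  have hmm0 : ∀ b, 0 ≤ mm b := mapDomain_nonneg602 r Dm hDm0
  have hbar : ∀ b, Dbar b = mp b - mm b := by
    intro b
    have hD : D = Dp - Dm := by rw [hDp]; abel
    rw [← h, hD, Finsupp.mapDomain_sub, Finsupp.sub_apply]
  -- `E = mm - Dbm ≥ 0` has degree `0`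
  have hE0 : ∀ b, 0 ≤ (mm - Dbm) b := by
    intro b
    rw [Finsupp.sub_apply, hDbm, hbar]
    have h1 := hmp0 b
    have h2 := hmm0 b
    rcases le_total 0 (-(mp b - mm b)) with h0 | h0
    · rw [max_eq_right h0]; omega
    · rw [max_eq_left h0]; omega
  have hEdeg : wdeg602 w' (mm - Dbm) = 0 := by
    rw [map_sub, hmm, wdeg602_mapDomain' r w w' hww, hdeg, sub_self]
  have hE := eq_zero_of_wdeg602_eq_zero w' hw' _ hE0 hEdeg
  have hmmeq : ∀ b, mm b = max 0 (-(mp b - mm b)) := by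
    intro b
    have := congrArg (fun f : β →₀ ℤ => f b) hE
    simp only [Finsupp.sub_apply, Finsupp.zero_apply] at this
    rw [hDbm, hbar] at this
    omega
  intro a
  constructor
  · intro ha
    have h1 : Dm a ≤ mm (r a) := le_mapDomain602 r Dm hDm0 a
    have h2 : 0 < Dm a := by rw [hDm, max_eq_right (by omega)]; omega
    have h3 := hmmeq (r a)
    have h4 := hmp0 (r a)
    rw [hbar]
    rcases le_total 0 (-(mp (r a) - mm (r a))) with h0 | h0
    · rw [max_eq_right h0] at h3; omega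
    · rw [max_eq_left h0] at h3; omega
  · intro ha
    have h1 : Dp a ≤ mp (r a) := le_mapDomain602 r Dp hDp0 a
    have h2 : 0 < Dp a := by rw [hDpa, max_eq_right (by omega)]; omega
    have h3 := hmmeq (r a)
    have h4 := hmm0 (r a)
    rw [hbar]
    rcases le_total 0 (-(mp (r a) - mm (r a))) with h0 | h0
    · rw [max_eq_right h0] at h3; omega
    · rw [max_eq_left h0] at h3; omega

end Pure

section Modular

open Fermat.Agent.S15.H722 Fermat.Agent.Lib.RR Fermat.Agent.S37.Red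

variable (N : ℕ) [NeZero N] (A : ValuationSubring (AlgebraicClosure ℚ))

omit [NeZero N] in
theorem transcendental_jF602 : Transcendental (AlgebraicClosure ℚ) (jF (AlgebraicClosure ℚ) N) := by
  intro h
  apply Fermat.Agent.S18.H905.transcendental_jqModC (AlgebraicClosure ℚ)
  exact (isAlgebraic_algHom_iff
    (laurentBaseChange (AlgebraicClosure ℚ) (modularFunctionFieldFull N)).val
    Subtype.val_injective).mpr h

/-- **Zeros and poles of `j` reduce to zeros and poles of `j̄`.** -/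
theorem sign_red_jF602 (hN : (N : IsLocalRing.ResidueField A) ≠ 0)
    (r : Place (AlgebraicClosure ℚ)
        (laurentBaseChange (AlgebraicClosure ℚ) (modularFunctionFieldFull N)) →
      Place (IsLocalRing.ResidueField A) (modularFunctionFieldFullC (IsLocalRing.ResidueField A) N))
    (hr : IsPlaceReductionAlong A (IsLocalRing.residue A) N r)
    (P : Place (AlgebraicClosure ℚ)
        (laurentBaseChange (AlgebraicClosure ℚ) (modularFunctionFieldFull N))) :
    (P.ord (jF (AlgebraicClosure ℚ) N) < 0 →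
        (r P).ord (jFk (IsLocalRing.ResidueField A) N) < 0) ∧
      (0 < P.ord (jF (AlgebraicClosure ℚ) N) →
        0 < (r P).ord (jFk (IsLocalRing.ResidueField A) N)) := by
  classical
  haveI : IsAlgClosed (IsLocalRing.ResidueField A) :=
    Fermat.Agent.S18.H9.resAlgClosed (AlgebraicClosure ℚ) A
  -- the two coordinates
  set x : FN N := jF (AlgebraicClosure ℚ) N with hx
  set xk : FNk A N := jFk (IsLocalRing.ResidueField A) N with hxk
  have hxt : Transcendental (AlgebraicClosure ℚ) x := transcendental_jF602 N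
  have hxkt : Transcendental (IsLocalRing.ResidueField A) xk :=
    Fermat.Agent.S18.H739.transcendental_jC (IsLocalRing.ResidueField A) N
  obtain ⟨hfin, hrank⟩ := H208.finrank_bar N x rfl
  obtain ⟨hfink, hrankk⟩ := H208.finrank_k N A hN xk rfl
  haveI := hfin
  haveI := hfink
  have hdeg1 : ∀ v : Place (AlgebraicClosure ℚ) (FN N), v.deg = 1 := H560.hdeg_all x hxt
  have hdeg1k : ∀ v : Place (IsLocalRing.ResidueField A) (FNk A N), v.deg = 1 :=
    H560.hdeg_all xk hxkt
  -- conservation for `j`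
  have hπ : ∀ a : A, ¬ IsUnit a → IsLocalRing.residue A a = 0 := fun a ha =>
    (IsLocalRing.residue_eq_zero_iff a).mpr ((IsLocalRing.mem_maximalIdeal a).mpr ha)
  set Φ := modRedCore A (IsLocalRing.residue A) N hπ r hr with hΦ
  have hρ : Φ.ρ (jO A (IsLocalRing.residue A) N) = xk := redO_jO A (IsLocalRing.residue A) N
  have hρ0 : Φ.ρ (jO A (IsLocalRing.residue A) N) ≠ 0 := by
    rw [hρ]; exact jFk_ne_zero _ N
  have hcons : Finsupp.mapDomain r (H560.divF x hxt x) = H560.divF xk hxkt xk := by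
    ext Q
    have := Φ.red (jO A (IsLocalRing.residue A) N) hρ0 (H560.divF x hxt x)
      (fun P => by rw [H560.divF_apply, coe_jO]) Q
    rw [hρ] at this
    rw [H560.divF_apply]
    exact this
  have hdeg : wdeg602 (fun v : Place (AlgebraicClosure ℚ) (FN N) => (v.deg : ℤ))
        (H560.poleD x hxt x) =
      wdeg602 (fun v : Place (IsLocalRing.ResidueField A) (FNk A N) => (v.deg : ℤ))
        (H560.poleD xk hxkt xk) := by
    rw [← degree_eq_wdeg602', ← degree_eq_wdeg602', H560.degree_poleD x hxt x hxt,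
      H560.degree_poleD xk hxkt xk hxkt, hrank, hrankk]
  have key := sign_of_mapDomain602 r (fun v => (v.deg : ℤ)) (fun v => (v.deg : ℤ))
    (fun b => by rw [hdeg1k b]; norm_num) (fun a => by rw [hr.1 a])
    (H560.divF x hxt x) (H560.divF xk hxkt xk) hcons
    (H560.poleD x hxt x) (fun a => by rw [H560.poleD_apply, H560.divF_apply])
    (H560.poleD xk hxkt xk) (fun b => by rw [H560.poleD_apply, H560.divF_apply]) hdeg P
  rw [H560.divF_apply, H560.divF_apply] at key
  exact key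

end Modular

end Fermat.Agent.S15.H602

end

end
-- ===== PACK-END S15/H602/IdentInf.lean

-- ===== PACK-BEGIN S15/H542/VeluDiscVal.lean
section




/-!
# S15, node GEO, piece DISC (helper542): the residue disc of the moduli point

`W : WeierstrassCurve ℤ`, `E = curveBar W`, `Q ∈ E(ℚ̄)` of prime order `p > 5`,
`E' = veluCurve E Q p`, `A` a valuation subring of `ℚ̄` over a prime `ℓ ≠ p` of multiplicative
reduction (`ℓ ∣ Δ`, `ℓ ∤ c₄`).  Then `1 < v_A(j(E))` and

* `val_jInv_velu_of_inZeroComponentAt`     : `Q ∈ E⁰`  ⟹  `v_A(j(E')) = v_A(j(E)) ^ p`;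
* `val_jInv_velu_of_not_inZeroComponentAt` : `Q ∉ E⁰`  ⟹  `v_A(j(E')) ^ p = v_A(j(E))`.

(`(j(E), j(E'))` is in the residue disc of the cusp `∞`, resp. `0`, of `X₀(p)`.)

Ingredients: `velu_disc` (`Δ(E') ψ⁴ = Δ(E)^p`), helper782's `unitU` valuations,
helper651's `val_c₄_veluCurve`.
-/

set_option autoImplicit false

noncomputable section

open WeierstrassCurve
open scoped WeierstrassCurve.Affine

namespace Fermat.Agent.S15.H542

open Fermat.Agent.S15.H782 Fermat.Agent.Lib.Red.H290 Fermat.Agent.S15.H242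

section

variable {W : WeierstrassCurve ℤ} {A : ValuationSubring (AlgebraicClosure ℚ)}

/-- The two conventions for `∏ ψ₂(kQ)` agree for a point of prime order. -/
theorem psiProdOf_eq_psiProd {p : ℕ} (hp : p.Prime) (E : WeierstrassCurve (AlgebraicClosure ℚ))
    (Q : E.toAffine.Point) (hord : addOrderOf Q = p) :
    psiProdOf E Q p = psiProd E.toAffine Q p := by
  unfold psiProdOf psiProd
  refine Finset.prod_congr rfl fun k hk => ?_
  rw [Finset.mem_Ioo] at hk
  have hne : k • Q ≠ 0 := by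
    intro h0
    have hd : p ∣ k := by
      rw [← hord]
      exact addOrderOf_dvd_of_nsmul_eq_zero h0
    have := Nat.le_of_dvd hk.1 hd
    omega
  rcases hkQ : k • Q with _ | ⟨x, y, hxy⟩
  · exact absurd hkQ hne
  · rfl

/-- `Δ(E') · U = p¹² · Δ(E)`. -/
theorem Δ_velu_mul_unitU {p : ℕ} (hp : p.Prime) (hp2 : p ≠ 2) (hΔ : W.Δ ≠ 0)
    {Q : PtsBar W} (hord : addOrderOf Q = p) :
    (veluCurve (curveBar W) Q p).Δ * unitU W p Q =
      (p : AlgebraicClosure ℚ) ^ 12 * ((W.Δ : ℤ) : AlgebraicClosure ℚ) := by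
  have hΔ' : ((W.Δ : ℤ) : AlgebraicClosure ℚ) ≠ 0 := Int.cast_ne_zero.mpr hΔ
  have hΔbar : (curveBar W).Δ ≠ 0 := by
    rw [show (curveBar W).Δ = ((W.Δ : ℤ) : AlgebraicClosure ℚ) from Δ_bar_eq W]
    exact hΔ'
  have h1 := velu_disc hp hp2 (curveBar W) hΔbar Q hord
  rw [psiProdOf_eq_psiProd hp _ Q hord,
    show (curveBar W).Δ = ((W.Δ : ℤ) : AlgebraicClosure ℚ) from Δ_bar_eq W] at h1
  have h2 := unitU_mul_Δ_pow W hΔ p Q
  have h0 : ((W.Δ : ℤ) : AlgebraicClosure ℚ) ^ (p - 1) ≠ 0 := pow_ne_zero _ hΔ'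
  apply mul_right_cancel₀ h0
  have hpow : ((W.Δ : ℤ) : AlgebraicClosure ℚ) ^ p =
      ((W.Δ : ℤ) : AlgebraicClosure ℚ) * ((W.Δ : ℤ) : AlgebraicClosure ℚ) ^ (p - 1) := by
    rw [← pow_succ', Nat.sub_add_cancel hp.one_le]
  calc (veluCurve (curveBar W) Q p).Δ * unitU W p Q * ((W.Δ : ℤ) : AlgebraicClosure ℚ) ^ (p - 1)
      = (veluCurve (curveBar W) Q p).Δ *
          (unitU W p Q * ((W.Δ : ℤ) : AlgebraicClosure ℚ) ^ (p - 1)) := by ring
    _ = (p : AlgebraicClosure ℚ) ^ 12 *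
          ((veluCurve (curveBar W) Q p).Δ * psiProd _ Q p ^ 4) := by rw [h2]; ring
    _ = (p : AlgebraicClosure ℚ) ^ 12 * ((W.Δ : ℤ) : AlgebraicClosure ℚ) ^ p := by rw [h1]
    _ = (p : AlgebraicClosure ℚ) ^ 12 * ((W.Δ : ℤ) : AlgebraicClosure ℚ) *
          ((W.Δ : ℤ) : AlgebraicClosure ℚ) ^ (p - 1) := by
        rw [hpow]
        ring

/-- `v_A(Δ(E')) · v_A(U) = v_A(Δ(E))` at a place over `ℓ ≠ p`. -/
theorem val_Δ_velu_mul_val_unitU {p : ℕ} (hp : p.Prime) (hp2 : p ≠ 2) (hΔ : W.Δ ≠ 0)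
    {Q : PtsBar W} (hord : addOrderOf Q = p) {ℓ : ℕ} (hℓ : ℓ.Prime) (hℓp : ℓ ≠ p)
    (hA : A.LiesOverPrime ℓ) :
    A.valuation (veluCurve (curveBar W) Q p).Δ * A.valuation (unitU W p Q) =
      A.valuation ((W.Δ : ℤ) : AlgebraicClosure ℚ) := by
  have hv : A.valuation ((p : ℕ) : AlgebraicClosure ℚ) = 1 := val_natCast_eq_one A hA hℓ hp hℓp
  rw [← map_mul, Δ_velu_mul_unitU hp hp2 hΔ hord, map_mul, map_pow, hv, one_pow, one_mul]

/-- `c₄(E')` is a unit at a place of multiplicative reduction over `ℓ ≠ p`. -/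
theorem val_c₄_velu {p : ℕ} (hp : p.Prime) (hp5 : 5 < p)
    {Q : PtsBar W} (hord : addOrderOf Q = p) {ℓ : ℕ} (hℓ : ℓ.Prime) (hℓp : ℓ ≠ p)
    (hℓΔ : (ℓ : ℤ) ∣ W.Δ) (hℓc₄ : ¬ (ℓ : ℤ) ∣ W.c₄) (hA : A.LiesOverPrime ℓ) :
    A.valuation (veluCurve (curveBar W) Q p).c₄ = 1 := by
  classical
  have hv : A.valuation ((p : ℕ) : AlgebraicClosure ℚ) = 1 := val_natCast_eq_one A hA hℓ hp hℓp
  have hred := isRedOf_int A W (IsLocalRing.residue A)
  have hφ := kerMax_residue A
  have hsq : ∀ a : AlgebraicClosure ℚ, ∃ b : AlgebraicClosure ℚ, b ^ 2 = a := fun a =>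
    IsAlgClosed.exists_pow_nat_eq a (by norm_num)
  have hΔκ : (W⁄(IsLocalRing.ResidueField A)).Δ = 0 := by
    show (W.map (algebraMap ℤ (IsLocalRing.ResidueField A))).Δ = 0
    rw [WeierstrassCurve.map_Δ]
    have h1 : rd A (IsLocalRing.residue A) ((W.Δ : ℤ) : AlgebraicClosure ℚ) =
        ((W.Δ : ℤ) : IsLocalRing.ResidueField A) := rd_intCast A _ _
    have h2 := rd_eq_zero_of_lt (φ := IsLocalRing.residue A) hφ (val_Δ_lt_one hℓΔ hA)
    rw [h1] at h2
    simpa using h2
  have hcκ : (W⁄(IsLocalRing.ResidueField A)).c₄ ≠ 0 := by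
    show (W.map (algebraMap ℤ (IsLocalRing.ResidueField A))).c₄ ≠ 0
    rw [WeierstrassCurve.map_c₄]
    have h1 : rd A (IsLocalRing.residue A) ((W.c₄ : ℤ) : AlgebraicClosure ℚ) =
        ((W.c₄ : ℤ) : IsLocalRing.ResidueField A) := rd_intCast A _ _
    have h2 := (rd_ne_zero_iff (φ := IsLocalRing.residue A) hφ (intCast_mem A W.c₄)).mpr
      (val_intCast_eq_one A hA hℓ hℓc₄)
    rw [h1] at h2
    simpa using h2
  exact Fermat.Agent.S12.H651.val_c₄_veluCurve hred hφ hsq hp hp5 hv hord hΔκ hcκ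

/-- `v_A(j(E)) = v_A(Δ)⁻¹`. -/
theorem val_jInv_curveBar {ℓ : ℕ} (hℓ : ℓ.Prime) (hℓc₄ : ¬ (ℓ : ℤ) ∣ W.c₄)
    (hA : A.LiesOverPrime ℓ) :
    A.valuation (jInv (curveBar W)) = (A.valuation ((W.Δ : ℤ) : AlgebraicClosure ℚ))⁻¹ := by
  unfold jInv
  rw [show (curveBar W).Δ = ((W.Δ : ℤ) : AlgebraicClosure ℚ) from Δ_bar_eq W,
    show (curveBar W).c₄ = ((W.c₄ : ℤ) : AlgebraicClosure ℚ) from c₄_bar_eq W]
  exact val_j_of_mult hℓ hℓc₄ hA

/-- `1 < v_A(j(E))` at a multiplicative place. -/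
theorem one_lt_val_jInv_curveBar (hΔ : W.Δ ≠ 0) {ℓ : ℕ} (hℓ : ℓ.Prime) (hℓΔ : (ℓ : ℤ) ∣ W.Δ)
    (hℓc₄ : ¬ (ℓ : ℤ) ∣ W.c₄) (hA : A.LiesOverPrime ℓ) :
    1 < A.valuation (jInv (curveBar W)) := by
  rw [val_jInv_curveBar hℓ hℓc₄ hA]
  have h0 : 0 < A.valuation ((W.Δ : ℤ) : AlgebraicClosure ℚ) :=
    (Valuation.pos_iff _).mpr (Int.cast_ne_zero.mpr hΔ)
  exact (one_lt_inv₀ h0).mpr (val_Δ_lt_one hℓΔ hA)

/-- `v_A(j(E')) = v_A(Δ(E'))⁻¹`. -/
theorem val_jInv_velu {p : ℕ} (hp : p.Prime) (hp5 : 5 < p)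
    {Q : PtsBar W} (hord : addOrderOf Q = p) {ℓ : ℕ} (hℓ : ℓ.Prime) (hℓp : ℓ ≠ p)
    (hℓΔ : (ℓ : ℤ) ∣ W.Δ) (hℓc₄ : ¬ (ℓ : ℤ) ∣ W.c₄) (hA : A.LiesOverPrime ℓ) :
    A.valuation (jInv (veluCurve (curveBar W) Q p)) =
      (A.valuation (veluCurve (curveBar W) Q p).Δ)⁻¹ := by
  unfold jInv
  rw [map_div₀, map_pow, val_c₄_velu hp hp5 hord hℓ hℓp hℓΔ hℓc₄ hA, one_pow, one_div]

/-- **DISC, cusp `∞`.**  `Q ∈ E⁰` at a multiplicative place `A ∣ ℓ ≠ p`:
`v_A(j(E/⟨Q⟩)) = v_A(j(E)) ^ p`. -/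
theorem val_jInv_velu_of_inZeroComponentAt {p : ℕ} (hp : p.Prime) (hp5 : 5 < p) (hΔ : W.Δ ≠ 0)
    {Q : PtsBar W} (hord : addOrderOf Q = p) {ℓ : ℕ} (hℓ : ℓ.Prime) (hℓp : ℓ ≠ p)
    (hℓΔ : (ℓ : ℤ) ∣ W.Δ) (hℓc₄ : ¬ (ℓ : ℤ) ∣ W.c₄) (hA : A.LiesOverPrime ℓ)
    (hQ0 : W.InZeroComponentAt A Q) :
    A.valuation (jInv (veluCurve (curveBar W) Q p)) = A.valuation (jInv (curveBar W)) ^ p := by
  have hp2 : p ≠ 2 := by omega
  rw [val_jInv_velu hp hp5 hord hℓ hℓp hℓΔ hℓc₄ hA, val_jInv_curveBar hℓ hℓc₄ hA, inv_pow]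
  congr 1
  have h1 := val_Δ_velu_mul_val_unitU (A := A) hp hp2 hΔ hord hℓ hℓp hA
  have h2 := val_unitU_of_inZeroComponentAt hp hp2 hΔ hord hℓ hℓp hA hQ0
  have hpow : A.valuation ((W.Δ : ℤ) : AlgebraicClosure ℚ) ^ p =
      A.valuation ((W.Δ : ℤ) : AlgebraicClosure ℚ) *
        A.valuation ((W.Δ : ℤ) : AlgebraicClosure ℚ) ^ (p - 1) := by
    rw [← pow_succ', Nat.sub_add_cancel hp.one_le]
  calc A.valuation (veluCurve (curveBar W) Q p).Δ
      = A.valuation (veluCurve (curveBar W) Q p).Δ *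
          (A.valuation (unitU W p Q) *
            A.valuation ((W.Δ : ℤ) : AlgebraicClosure ℚ) ^ (p - 1)) := by rw [h2, mul_one]
    _ = A.valuation (veluCurve (curveBar W) Q p).Δ * A.valuation (unitU W p Q) *
            A.valuation ((W.Δ : ℤ) : AlgebraicClosure ℚ) ^ (p - 1) := by rw [mul_assoc]
    _ = A.valuation ((W.Δ : ℤ) : AlgebraicClosure ℚ) ^ p := by
        rw [h1, hpow]

/-- **DISC, cusp `0`.**  `Q ∉ E⁰` at a multiplicative place `A ∣ ℓ ≠ p`:
`v_A(j(E/⟨Q⟩)) ^ p = v_A(j(E))`. -/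
theorem val_jInv_velu_of_not_inZeroComponentAt {p : ℕ} (hp : p.Prime) (hp5 : 5 < p)
    (hΔ : W.Δ ≠ 0) {Q : PtsBar W} (hord : addOrderOf Q = p) {ℓ : ℕ} (hℓ : ℓ.Prime)
    (hℓp : ℓ ≠ p) (hℓΔ : (ℓ : ℤ) ∣ W.Δ) (hℓc₄ : ¬ (ℓ : ℤ) ∣ W.c₄) (hA : A.LiesOverPrime ℓ)
    (hQ0 : ¬ W.InZeroComponentAt A Q) :
    A.valuation (jInv (veluCurve (curveBar W) Q p)) ^ p = A.valuation (jInv (curveBar W)) := by
  have hp2 : p ≠ 2 := by omega
  rw [val_jInv_velu hp hp5 hord hℓ hℓp hℓΔ hℓc₄ hA, val_jInv_curveBar hℓ hℓc₄ hA, inv_pow]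
  congr 1
  have h1 := val_Δ_velu_mul_val_unitU (A := A) hp hp2 hΔ hord hℓ hℓp hA
  have h2 := val_unitU_pow_of_not_inZeroComponentAt hp hp2 hΔ hord hℓ hℓp hℓΔ hℓc₄ hA hQ0
  have hΔ0 : A.valuation ((W.Δ : ℤ) : AlgebraicClosure ℚ) ≠ 0 :=
    (Valuation.ne_zero_iff _).mpr (Int.cast_ne_zero.mpr hΔ)
  have hpow : A.valuation ((W.Δ : ℤ) : AlgebraicClosure ℚ) ^ p =
      A.valuation ((W.Δ : ℤ) : AlgebraicClosure ℚ) *
        A.valuation ((W.Δ : ℤ) : AlgebraicClosure ℚ) ^ (p - 1) := by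
    rw [← pow_succ', Nat.sub_add_cancel hp.one_le]
  have h3 : A.valuation (veluCurve (curveBar W) Q p).Δ ^ p *
      A.valuation ((W.Δ : ℤ) : AlgebraicClosure ℚ) ^ (p - 1) =
      A.valuation ((W.Δ : ℤ) : AlgebraicClosure ℚ) *
        A.valuation ((W.Δ : ℤ) : AlgebraicClosure ℚ) ^ (p - 1) := by
    rw [← h2, ← mul_pow, h1, h2, hpow]
  exact mul_right_cancel₀ (pow_ne_zero _ hΔ0) h3

end

end Fermat.Agent.S15.H542

end
end
-- ===== PACK-END S15/H542/VeluDiscVal.lean

-- ===== PACK-BEGIN S12/H291/Toric.lean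
section








/-!
# S12 one-step route: LOCAL tools for the toric line (helper291)

* `exists_pow_eq_of_torsion` : the `p`-torsion of the component group `Γ₀ˣ ⧸ ⟨u⟩` is cyclic;
* `exists_zmod_point_of_frob_fixed`, `le_of_frob_fixed`, `dvd_of_frob_fixed` : a point of prime
  order `p ≠ ℓ` of `E⁰`, fixed by a Frobenius element at `A ∣ ℓ`, reduces to an `𝔽_ℓ`-rational
  point of order `p`; hence `p ≤ 2ℓ + 1`, and `p ∣ ℓ ± 1` at a multiplicative prime;
* `inE0_of_nodeInE0` : the identity component of a node model (`S13.H365.NodeModel`) lies in the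
  identity component in the sense of reduction (`S15.H242.InE0`).
-/

set_option autoImplicit false
set_option linter.unusedSectionVars false
set_option linter.style.haveILetI false

noncomputable section

open WeierstrassCurve WeierstrassCurve.Affine WeierstrassCurve.Affine.Point

namespace Fermat.Agent.S12.H291

open Fermat.Agent.Lib.Red.H290 Fermat.Agent.S15.H242
open Fermat.Agent.S13.H365 (NodeModel)
open Fermat.Agent.S05.SameRed (IntegralCoeffs)

section cyclic

variable {Γ₀ : Type*} [LinearOrderedCommGroupWithZero Γ₀]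

/-- The unit group of a linearly ordered group with zero is torsion-free. -/
lemma units_eq_one_of_pow_eq_one {g : Γ₀ˣ} {n : ℕ} (hn : n ≠ 0) (h : g ^ n = 1) : g = 1 := by
  have h1 : ((g : Γ₀)) ^ n = (1 : Γ₀) ^ n := by
    rw [one_pow, ← Units.val_pow_eq_pow_val, h, Units.val_one]
  exact Units.ext (Fermat.Agent.S05.Assemble.pow_eq_pow_imp_eq hn h1)

/-- In `Γ₀ˣ ⧸ ⟨u⟩` the `p`-torsion is cyclic: if `c₁ ≠ 1`, `c₁^p = c₂^p = 1` then `c₂` is a
power of `c₁`. -/
lemma exists_pow_eq_of_torsion (u : Γ₀ˣ) {p : ℕ} (hp : p.Prime)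
    (c₁ c₂ : Γ₀ˣ ⧸ Subgroup.zpowers u) (h₁ : c₁ ^ p = 1) (h₂ : c₂ ^ p = 1) (hne : c₁ ≠ 1) :
    ∃ k : ℕ, c₂ = c₁ ^ k := by
  haveI : Fact p.Prime := ⟨hp⟩
  obtain ⟨g₁, rfl⟩ := QuotientGroup.mk_surjective c₁
  obtain ⟨g₂, rfl⟩ := QuotientGroup.mk_surjective c₂
  rw [← QuotientGroup.mk_pow, QuotientGroup.eq_one_iff, Subgroup.mem_zpowers_iff] at h₁ h₂
  obtain ⟨m₁, hm₁⟩ := h₁
  obtain ⟨m₂, hm₂⟩ := h₂
  have hnd : ¬ (p : ℤ) ∣ m₁ := by
    rintro ⟨t, rfl⟩
    apply hne
    rw [QuotientGroup.eq_one_iff, Subgroup.mem_zpowers_iff]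
    refine ⟨t, ?_⟩
    have : (g₁ / u ^ t) ^ p = 1 := by
      rw [div_pow, ← hm₁, ← zpow_natCast (u ^ t) p, ← zpow_mul, mul_comm, div_self']
    have := units_eq_one_of_pow_eq_one hp.ne_zero this
    exact (div_eq_one.mp this).symm
  have hm₁' : (m₁ : ZMod p) ≠ 0 := by
    rwa [Ne, ZMod.intCast_zmod_eq_zero_iff_dvd]
  set k : ℕ := ((m₂ : ZMod p) * (m₁ : ZMod p)⁻¹).val with hk
  have hkm : ((m₂ - k * m₁ : ℤ) : ZMod p) = 0 := by
    push_cast
    rw [hk, ZMod.natCast_val, ZMod.cast_id', id, mul_assoc, inv_mul_cancel₀ hm₁', mul_one, sub_self]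
  obtain ⟨t, ht⟩ := (ZMod.intCast_zmod_eq_zero_iff_dvd _ p).mp hkm
  refine ⟨k, ?_⟩
  rw [← QuotientGroup.mk_pow, QuotientGroup.eq, Subgroup.mem_zpowers_iff]
  refine ⟨-t, ?_⟩
  have : (g₂ / (g₁ ^ k * u ^ t)) ^ p = 1 := by
    rw [div_pow, mul_pow, ← hm₂, ← pow_mul, mul_comm k p, pow_mul, ← hm₁,
      ← zpow_natCast (u ^ t) p, ← zpow_mul, ← zpow_natCast (u ^ m₁) k, ← zpow_mul, ← zpow_add,
      div_eq_one]
    congr 1
    linarith
  have h := div_eq_one.mp (units_eq_one_of_pow_eq_one hp.ne_zero this)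
  rw [h, zpow_neg]
  group

end cyclic

section frob

/-- A Frobenius element at `A` is congruent to `x ↦ x ^ ℓ` on `A`. -/
theorem frob_sub_pow_mem {A : ValuationSubring Qb} {σ : Qb ≃ₐ[ℚ] Qb} {ℓ : ℕ}
    (h : A.IsFrobeniusAt σ ℓ) {x : Qb} (hx : x ∈ A) : σ x - x ^ ℓ ∈ A.nonunits := by
  obtain ⟨hσ, hF⟩ := h
  have h1 := hF (IsLocalRing.residue A ⟨x, hx⟩)
  rw [← IsLocalRing.ResidueField.residue_smul, ← map_pow, ← sub_eq_zero, ← map_sub,
    IsLocalRing.residue_eq_zero_iff, ← ValuationSubring.coe_mem_nonunits_iff] at h1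
  exact h1

/-- The residue of a Frobenius-fixed integral element lies in the prime field. -/
lemma rd_mem_range_of_frob_fixed {A : ValuationSubring Qb} {σ : Qb ≃ₐ[ℚ] Qb} {ℓ : ℕ}
    (hℓ : ℓ.Prime) (hσ : A.IsFrobeniusAt σ ℓ)
    [CharP (IsLocalRing.ResidueField A) ℓ] {x : Qb} (hx : x ∈ A) (hfix : σ x = x) :
    rd A (IsLocalRing.residue A) x ∈
      Set.range (ZMod.castHom (dvd_refl ℓ) (IsLocalRing.ResidueField A)) := by
  haveI : Fact ℓ.Prime := ⟨hℓ⟩
  have hφ : KerMax A (IsLocalRing.residue A) := kerMax_residue A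
  have h1 := frob_sub_pow_mem hσ hx
  rw [hfix, A.mem_nonunits_iff] at h1
  have h2 : rd A (IsLocalRing.residue A) x = rd A (IsLocalRing.residue A) (x ^ ℓ) :=
    (rd_eq_iff hφ hx (pow_mem hx ℓ)).mpr h1
  rw [rd_pow hx] at h2
  have h3 : rd A (IsLocalRing.residue A) x ∈ (⊥ : Subfield (IsLocalRing.ResidueField A)) :=
    (Subfield.mem_bot_iff_pow_eq_self (IsLocalRing.ResidueField A) ℓ).mpr h2.symm
  rw [← ZMod.fieldRange_castHom_eq_bot ℓ] at h3
  exact h3

/-- **Frobenius-fixed points of `E⁰` reduce to `𝔽_ℓ`-points**: a point of prime order `p ≠ ℓ`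
of `E⁰`, fixed by a Frobenius element at `A`, gives a point of order `p` of the reduction
over `𝔽_ℓ`. -/
theorem exists_zmod_point_of_frob_fixed
    {p : ℕ} (hp : p.Prime) (Wq : WeierstrassCurve ℚ) (W₀ : WeierstrassCurve ℤ)
    (A : ValuationSubring Qb) {ℓ : ℕ} [Fact ℓ.Prime] (hℓp : ℓ ≠ p) (hA : A.LiesOverPrime ℓ)
    (hred : IsRedOf A (IsLocalRing.residue A) (Wq⁄Qb) (W₀⁄(IsLocalRing.ResidueField A)))
    (σ : Qb ≃ₐ[ℚ] Qb) (hσ : A.IsFrobeniusAt σ ℓ)
    (Q : (Wq⁄Qb).Point) (hfix : σ • Q = Q) (hQord : addOrderOf Q = p)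
    (hE0 : InE0 A (IsLocalRing.residue A) (W₀⁄(IsLocalRing.ResidueField A)) Q) :
    ∃ R : (W₀⁄(ZMod ℓ)).Point, addOrderOf R = p := by
  classical
  have hℓ : ℓ.Prime := Fact.out
  have hφ : KerMax A (IsLocalRing.residue A) := kerMax_residue A
  have hv : A.valuation ((p : ℕ) : Qb) = 1 := val_natCast_eq_one A hA hℓ hp hℓp
  have hord := addOrderOf_red0 hred hφ hp hv hE0 hQord
  rcases Q with _ | ⟨x, y, h⟩
  · rw [show (Point.zero : (Wq⁄Qb).Point) = 0 from rfl, addOrderOf_zero] at hQord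
    exact absurd hQord hp.one_lt.ne
  have key : σ x = x ∧ σ y = y := by
    have := hfix
    rw [Point.algEquiv_smul_def, Point.map_some] at this
    simp only [Point.some.injEq] at this
    exact this
  have hx : x ∈ A := by
    by_contra hx
    rw [red0_some_of_not_mem h hx, addOrderOf_zero] at hord
    exact hp.one_lt.ne hord
  have hns : (W₀⁄(IsLocalRing.ResidueField A)).Nonsingular
      (rd A (IsLocalRing.residue A) x) (rd A (IsLocalRing.residue A) y) := hE0 hx
  have hy : y ∈ A := y_mem_of_x_mem hred h.1 hx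
  rw [red0_some_of_mem h hx hns] at hord
  haveI : CharP (IsLocalRing.ResidueField A) ℓ := (CharP.charP_iff_prime_eq_zero hℓ).mpr (by
    have h0 : rd A (IsLocalRing.residue A) ((ℓ : ℤ) : Qb) = 0 :=
      rd_eq_zero_of_lt hφ (by
        have := (A.mem_nonunits_iff).mp hA
        simpa using this)
    rw [rd_intCast] at h0
    exact_mod_cast h0)
  let f : ZMod ℓ →ₐ[ℤ] IsLocalRing.ResidueField A :=
    (ZMod.castHom dvd_rfl (IsLocalRing.ResidueField A)).toIntAlgHom
  have hf : Function.Injective f := (f : ZMod ℓ →+* IsLocalRing.ResidueField A).injective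
  obtain ⟨u, hu⟩ := rd_mem_range_of_frob_fixed hℓ hσ hx key.1
  obtain ⟨w, hw⟩ := rd_mem_range_of_frob_fixed hℓ hσ hy key.2
  have hu' : f u = rd A (IsLocalRing.residue A) x := hu
  have hw' : f w = rd A (IsLocalRing.residue A) y := hw
  generalize rd A (IsLocalRing.residue A) x = X at hns hord hu'
  generalize rd A (IsLocalRing.residue A) y = Y at hns hord hw'
  subst hu' hw'
  have hns0 : (W₀⁄(ZMod ℓ)).Nonsingular u w :=
    (Affine.baseChange_nonsingular W₀ (f := f) hf u w).mp hns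
  have hmap : Point.map (W' := W₀) f (Point.some u w hns0) = Point.some _ _ hns :=
    Point.map_some f hns0
  refine ⟨Point.some u w hns0, ?_⟩
  rw [← addOrderOf_injective (Point.map (W' := W₀) f) (Point.map_injective f), hmap]
  exact hord

/-- Crude bound: `p ≤ 2ℓ + 1`. -/
theorem le_of_frob_fixed
    {p : ℕ} (hp : p.Prime) (Wq : WeierstrassCurve ℚ) (W₀ : WeierstrassCurve ℤ)
    (A : ValuationSubring Qb) {ℓ : ℕ} (hℓ : ℓ.Prime) (hℓp : ℓ ≠ p) (hA : A.LiesOverPrime ℓ)
    (hred : IsRedOf A (IsLocalRing.residue A) (Wq⁄Qb) (W₀⁄(IsLocalRing.ResidueField A)))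
    (σ : Qb ≃ₐ[ℚ] Qb) (hσ : A.IsFrobeniusAt σ ℓ)
    (Q : (Wq⁄Qb).Point) (hfix : σ • Q = Q) (hQord : addOrderOf Q = p)
    (hE0 : InE0 A (IsLocalRing.residue A) (W₀⁄(IsLocalRing.ResidueField A)) Q) :
    p ≤ 2 * ℓ + 1 := by
  classical
  haveI : Fact ℓ.Prime := ⟨hℓ⟩
  obtain ⟨R, hR⟩ := exists_zmod_point_of_frob_fixed hp Wq W₀ A hℓp hA hred σ hσ Q hfix hQord hE0
  haveI : Finite (W₀⁄(ZMod ℓ)).Point := Fermat.Agent.S12.H411.finite_point _
  have h1 : Nat.card (W₀⁄(ZMod ℓ)).Point ≤ 2 * Nat.card (ZMod ℓ) + 1 :=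
    Fermat.Agent.S12.H411.natCard_point_le _
  rw [Nat.card_zmod] at h1
  have h2 : addOrderOf R ∣ Nat.card (W₀⁄(ZMod ℓ)).Point := addOrderOf_dvd_natCard R
  rw [hR] at h2
  exact (Nat.le_of_dvd Nat.card_pos h2).trans h1

/-- Nodal count: at a multiplicative prime, `p ∣ ℓ - 1` or `p ∣ ℓ + 1`. -/
theorem dvd_of_frob_fixed
    {p : ℕ} (hp : p.Prime) (Wq : WeierstrassCurve ℚ) (W₀ : WeierstrassCurve ℤ)
    (A : ValuationSubring Qb) {ℓ : ℕ} (hℓ : ℓ.Prime) (hℓp : ℓ ≠ p) (hA : A.LiesOverPrime ℓ)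
    (hℓΔ : (ℓ : ℤ) ∣ W₀.Δ) (hℓc₄ : ¬ (ℓ : ℤ) ∣ W₀.c₄)
    (hred : IsRedOf A (IsLocalRing.residue A) (Wq⁄Qb) (W₀⁄(IsLocalRing.ResidueField A)))
    (σ : Qb ≃ₐ[ℚ] Qb) (hσ : A.IsFrobeniusAt σ ℓ)
    (Q : (Wq⁄Qb).Point) (hfix : σ • Q = Q) (hQord : addOrderOf Q = p)
    (hE0 : InE0 A (IsLocalRing.residue A) (W₀⁄(IsLocalRing.ResidueField A)) Q) :
    p ∣ ℓ - 1 ∨ p ∣ ℓ + 1 := by
  classical
  haveI : Fact ℓ.Prime := ⟨hℓ⟩
  obtain ⟨R, hR⟩ := exists_zmod_point_of_frob_fixed hp Wq W₀ A hℓp hA hred σ hσ Q hfix hQord hE0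
  have hΔ0 : (W₀⁄(ZMod ℓ)).Δ = 0 := by
    show (W₀.map (algebraMap ℤ (ZMod ℓ))).Δ = 0
    rw [WeierstrassCurve.map_Δ, algebraMap_int_eq, eq_intCast,
      ZMod.intCast_zmod_eq_zero_iff_dvd]
    exact hℓΔ
  have hc0 : (W₀⁄(ZMod ℓ)).c₄ ≠ 0 := by
    show (W₀.map (algebraMap ℤ (ZMod ℓ))).c₄ ≠ 0
    rw [WeierstrassCurve.map_c₄, algebraMap_int_eq, eq_intCast, Ne,
      ZMod.intCast_zmod_eq_zero_iff_dvd]
    exact hℓc₄
  have := addOrderOf_dvd_of_nodal hc0 hΔ0 R
  rwa [hR, Nat.card_zmod] at this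

end frob

section bridge

variable {K : Type*} [Field K] [DecidableEq K] {κ : Type*} [Field κ] [DecidableEq κ]
variable {A : ValuationSubring K} {φ : A →+* κ} {W : Affine K} {Wκ : Affine κ}

/-- `2y + a₁x + a₃` of an integral point is integral and reduces as expected. -/
lemma rd_etaExpr (h : IsRedOf A φ W Wκ) {x y : K} (hx : x ∈ A) (hy : y ∈ A) :
    2 * y + W.a₁ * x + W.a₃ ∈ A ∧
    rd A φ (2 * y + W.a₁ * x + W.a₃) = 2 * rd A φ y + Wκ.a₁ * rd A φ x + Wκ.a₃ := by
  obtain ⟨c₁, c₂, c₃, c₄, c₆, e₁, e₂, e₃, e₄, e₆, f₁, f₂, f₃, f₄, f₆⟩ := h.exists_lift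
  lift x to A using hx
  lift y to A using hy
  simp only [← e₁, ← e₃, ← f₁, ← f₃]
  have : (2 * (y : K) + c₁ * x + c₃) = ((2 * y + c₁ * x + c₃ : A) : K) := by
    push_cast; rw [coe_two]
  rw [this, rd_coe, rd_coe, rd_coe]
  exact ⟨Subtype.mem _, by simp only [map_add, map_mul, map_ofNat]⟩

/-- If one of the two partial derivatives at an integral point is a unit, the reduced point is
nonsingular. -/
lemma nonsingular_rd_of_val (h : IsRedOf A φ W Wκ) (hφ : KerMax A φ) {x y : K}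
    (hxy : W.Equation x y) (hx : x ∈ A) (hy : y ∈ A)
    (hns : A.valuation (W.a₁ * y - (3 * x ^ 2 + 2 * W.a₂ * x + W.a₄)) = 1 ∨
      A.valuation (2 * y + W.a₁ * x + W.a₃) = 1) :
    Wκ.Nonsingular (rd A φ x) (rd A φ y) := by
  rw [Affine.nonsingular_iff']
  refine ⟨rd_equation h hx hy hxy, ?_⟩
  rcases hns with h1 | h1
  · left
    obtain ⟨hm, hr⟩ := rd_slopeNum h hx hy
    have h2 : A.valuation (3 * x ^ 2 + 2 * W.a₂ * x + W.a₄ - W.a₁ * y) = 1 := by
      rw [← Valuation.map_neg, neg_sub]; exact h1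
    have h3 := (rd_ne_zero_iff hφ hm).mpr h2
    rw [hr] at h3
    intro h0
    apply h3
    linear_combination -h0
  · right
    obtain ⟨hm, hr⟩ := rd_etaExpr h hx hy
    have h3 := (rd_ne_zero_iff hφ hm).mpr h1
    rwa [hr] at h3

/-- A point of the identity component in the sense of a node model is in `E⁰` in the sense of
reduction. -/
lemma inE0_of_nodeInE0 (h : IsRedOf A φ W Wκ) (hφ : KerMax A φ) (M : NodeModel A.valuation W)
    (he : A.valuation M.e ≤ 1) {Q : W.Point} (hQ : M.InE0 Q) : InE0 A φ Wκ Q := by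
  rcases Q with _ | ⟨x, y, hxy⟩
  · exact inE0_zero
  · intro hx
    have hxv : A.valuation x ≤ 1 := (A.valuation_le_one_iff x).mpr hx
    have hy : y ∈ A := y_mem_of_x_mem h hxy.1 hx
    have hyv : A.valuation y ≤ 1 := (A.valuation_le_one_iff y).mpr hy
    have hξ : A.valuation (x - M.e) = 1 :=
      le_antisymm (Fermat.Agent.S05.SameRed.val_sub_le_one hxv he) hQ
    exact nonsingular_rd_of_val h hφ hxy.1 hx hy
      (M.nonsingular_red h.integralCoeffs hxy.1 hxv hyv hξ)

end bridge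

section node

variable {K : Type*} [Field K] [DecidableEq K] {Γ₀ : Type*} [LinearOrderedCommGroupWithZero Γ₀]
  {v : Valuation K Γ₀} {W : Affine K}

lemma nodeInE0_zsmul (M : NodeModel v W) {Q : W.Point} (hQ : M.InE0 Q) (k : ℤ) :
    M.InE0 (k • Q) := by
  rw [← M.comp_eq_one_iff] at hQ ⊢
  have h1 : M.compHom Q = 0 := by
    show Additive.ofMul (M.comp Q) = 0
    rw [hQ]; rfl
  have h2 : M.compHom (k • Q) = 0 := by rw [map_zsmul, h1, zsmul_zero]
  exact h2

end node

end Fermat.Agent.S12.H291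

end
end
-- ===== PACK-END S12/H291/Toric.lean

-- ===== PACK-BEGIN S12/H291/ToricFrey.lean
section


/-!
# S12 one-step route: LOCAL-TORIC for the Frey curve (helper291)

`toric_local` : let `N` be a cofixed line of the Frey curve, `ℓ ≠ p` a prime dividing `abc`
(a multiplicative prime) with `p ∤ ℓ - 1` and `p ∤ ℓ + 1`, and `A` a valuation ring of `ℚ̄`
over `ℓ`.  Then `N ⊆ E⁰` at `A` (`N` is the toric line).

Proof.  If some `T ∈ N` is not in `E⁰`, the cyclicity of the `p`-torsion of the component group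
produces `Q = S - k • T ∈ E[p] ∩ E⁰`, `Q ∉ N`.  For a Frobenius element `σ` at `A` the
difference `σ Q - Q` lies in `N ∩ E⁰ = 0`, so `Q` is a `σ`-fixed point of order `p` of `E⁰`;
it reduces to an `𝔽_ℓ`-point of order `p` of the nodal cubic, whence `p ∣ ℓ ± 1`.
No determinant / Weil pairing is used.
-/

set_option autoImplicit false
set_option linter.unusedSectionVars false
set_option linter.style.haveILetI false

noncomputable section

open WeierstrassCurve WeierstrassCurve.Affine WeierstrassCurve.Affine.Point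

namespace Fermat.Agent.S12.H291

open Fermat.Agent.Lib.Red.H290 Fermat.Agent.S15.H242
open Fermat.Agent.S13.H365 (NodeModel)
open Fermat.Agent.S05.SameRed (IntegralCoeffs)
open Fermat.Agent.S05.Assemble (fA fB fC fA_add_fB frey_a₁ frey_a₂ frey_a₃ frey_a₄ frey_a₆
  fA_ne_zero fB_ne_zero fC_ne_zero val_fA_le_one val_fB_le_one val_fC_le_one
  val_fA_eq_one val_fB_eq_one val_fC_eq_one val_fA_lt_one val_fB_lt_one val_fC_lt_one
  val_sixteen_eq_one val_four_eq_one val_two_eq_one not_dvd_of_gcd_eq_one sigma_fA)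

/-- `P ∈ E⁰` at `A`, in the sense of reduction to the integral Frey model. -/
def FreyInE0 (P : FreyPackage) (A : ValuationSubring _root_.Fermat.Agent.S12.H291.Qb) (Q : FreyPt P) : Prop :=
  InE0 A (IsLocalRing.residue A) (P.freyCurveInt⁄(IsLocalRing.ResidueField A)) Q

variable (P : FreyPackage) {A : ValuationSubring _root_.Fermat.Agent.S12.H291.Qb}

/-- The Frey curve over `ℚ̄` reduces to the integral Frey model. -/
lemma frey_isRedOf (A : ValuationSubring _root_.Fermat.Agent.S12.H291.Qb) :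
    IsRedOf A (IsLocalRing.residue A) (P.freyCurve⁄_root_.Fermat.Agent.S12.H291.Qb)
      (P.freyCurveInt⁄(IsLocalRing.ResidueField A)) := by
  have h := isRedOf_int A P.freyCurveInt (IsLocalRing.residue A)
  rwa [← Fermat.Agent.S13.H164.freyCurve_eq_map] at h

/-- The node model of the Frey curve at `(0, 0)`. -/
def freyNodeZero (ha : A.valuation (P.freyCurve⁄_root_.Fermat.Agent.S12.H291.Qb).a₄ < 1)
    (hb : A.valuation (fB P - fA P) = 1) (s : _root_.Fermat.Agent.S12.H291.Qb) (hs : s ^ 2 = fB P - fA P) :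
    NodeModel A.valuation (P.freyCurve⁄_root_.Fermat.Agent.S12.H291.Qb) where
  e := 0
  f := 0
  γ₁ := (-1 + s) / 2
  γ₂ := (-1 - s) / 2
  a := (P.freyCurve⁄_root_.Fermat.Agent.S12.H291.Qb).a₄
  h2tors := by rw [frey_a₃]; ring
  hon := by rw [frey_a₆]; ring
  hsum := by rw [frey_a₁]; ring
  hprod := by
    rw [frey_a₂]
    have h2 : (2 : _root_.Fermat.Agent.S12.H291.Qb) ≠ 0 := by norm_num
    have h4 : (4 : _root_.Fermat.Agent.S12.H291.Qb) ≠ 0 := by norm_num
    field_simp
    linear_combination (-4 : _root_.Fermat.Agent.S12.H291.Qb) * hs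
  ha_def := by ring
  hδ := by
    have e : (-1 + s) / 2 - (-1 - s) / 2 = s := by ring
    rw [e]
    rw [← hs, map_pow] at hb
    exact (pow_left_inj (n := 2) two_ne_zero).mp (by rw [hb, one_pow])
  ha := ha
  ha0 := Fermat.Agent.S13.H365.frey_a₄_ne_zero P

/-- The node model of the Frey curve at the `2`-torsion point `(a^p/4, -a^p/8)`. -/
def freyNodeC (h16 : A.valuation (16 : _root_.Fermat.Agent.S12.H291.Qb) = 1) (hc : A.valuation (fC P) < 1)
    (ha : A.valuation (fA P) = 1) (s : _root_.Fermat.Agent.S12.H291.Qb) (hs : s ^ 2 = fB P + 2 * fA P) :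
    NodeModel A.valuation (P.freyCurve⁄_root_.Fermat.Agent.S12.H291.Qb) where
  e := fA P / 4
  f := -(fA P) / 8
  γ₁ := (-1 + s) / 2
  γ₂ := (-1 - s) / 2
  a := fA P * fC P / 16
  h2tors := by rw [frey_a₁, frey_a₃]; ring
  hon := by rw [frey_a₁, frey_a₂, frey_a₃, frey_a₄, frey_a₆]; ring
  hsum := by rw [frey_a₁]; ring
  hprod := by
    rw [frey_a₂]
    have h2 : (2 : _root_.Fermat.Agent.S12.H291.Qb) ≠ 0 := by norm_num
    have h4 : (4 : _root_.Fermat.Agent.S12.H291.Qb) ≠ 0 := by norm_num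
    field_simp
    linear_combination (-4 : _root_.Fermat.Agent.S12.H291.Qb) * hs
  ha_def := by rw [frey_a₁, frey_a₂, frey_a₄, ← fA_add_fB]; ring
  hδ := by
    have e : (-1 + s) / 2 - (-1 - s) / 2 = s := by ring
    rw [e]
    have h1 : A.valuation (fB P + 2 * fA P) = 1 := by
      have e2 : fB P + 2 * fA P = fA P + fC P := by rw [← fA_add_fB]; ring
      rw [e2, Valuation.map_add_eq_of_lt_left _ (by rw [ha]; exact hc), ha]
    rw [← hs, map_pow] at h1
    exact (pow_left_inj (n := 2) two_ne_zero).mp (by rw [h1, one_pow])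
  ha := by
    rw [map_div₀, map_mul, h16, div_one, ha, one_mul]
    exact hc
  ha0 := div_ne_zero (mul_ne_zero (fA_ne_zero P) (fC_ne_zero P)) (by norm_num)

/-- At every prime `ℓ ∣ abc` the Frey curve has a node model with rational, integral node. -/
theorem exists_freyNode {ℓ : ℕ} (hℓ : ℓ.Prime) (hA : A.LiesOverPrime ℓ)
    (hbad : (ℓ : ℤ) ∣ P.a * P.b * P.c) :
    ∃ M : NodeModel A.valuation (P.freyCurve⁄_root_.Fermat.Agent.S12.H291.Qb), A.valuation M.e ≤ 1 ∧
      ∀ σ : _root_.Fermat.Agent.S12.H291.Qb ≃ₐ[ℚ] _root_.Fermat.Agent.S12.H291.Qb, σ M.e = M.e := by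
  have hℓ' : Prime (ℓ : ℤ) := Nat.prime_iff_prime_int.mp hℓ
  by_cases h2 : ℓ = 2
  · subst h2
    obtain ⟨s, hs⟩ := IsAlgClosed.exists_pow_nat_eq (fB P - fA P) (n := 2) (by norm_num)
    refine ⟨freyNodeZero P (Fermat.Agent.S13.H365.frey_val_a₄_lt_one P hA)
      (Fermat.Agent.S13.H365.frey_val_b₂_eq_one P hA) s hs, ?_, fun σ => ?_⟩
    · show A.valuation (0 : _root_.Fermat.Agent.S12.H291.Qb) ≤ 1
      rw [_root_.map_zero]; exact zero_le_one
    · show σ (0 : _root_.Fermat.Agent.S12.H291.Qb) = 0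
      exact _root_.map_zero σ
  have h16 : A.valuation (16 : _root_.Fermat.Agent.S12.H291.Qb) = 1 := val_sixteen_eq_one hA hℓ h2
  have h4 : A.valuation (4 : _root_.Fermat.Agent.S12.H291.Qb) = 1 := val_four_eq_one hA hℓ h2
  have hzero : ∀ (ha : A.valuation (fA P) * A.valuation (fB P) < 1)
      (hb : A.valuation (fB P - fA P) = 1),
      ∃ M : NodeModel A.valuation (P.freyCurve⁄_root_.Fermat.Agent.S12.H291.Qb), A.valuation M.e ≤ 1 ∧
        ∀ σ : _root_.Fermat.Agent.S12.H291.Qb ≃ₐ[ℚ] _root_.Fermat.Agent.S12.H291.Qb, σ M.e = M.e := by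
    intro ha hb
    obtain ⟨s, hs⟩ := IsAlgClosed.exists_pow_nat_eq (fB P - fA P) (n := 2) (by norm_num)
    have ha4 : A.valuation (P.freyCurve⁄_root_.Fermat.Agent.S12.H291.Qb).a₄ < 1 := by
      rw [frey_a₄, map_div₀, map_mul, Valuation.map_neg, h16, div_one]
      exact ha
    refine ⟨freyNodeZero P ha4 hb s hs, ?_, fun σ => ?_⟩
    · show A.valuation (0 : _root_.Fermat.Agent.S12.H291.Qb) ≤ 1
      rw [_root_.map_zero]; exact zero_le_one
    · show σ (0 : _root_.Fermat.Agent.S12.H291.Qb) = 0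
      exact _root_.map_zero σ
  rcases hℓ'.dvd_or_dvd hbad with hab | hc
  · rcases hℓ'.dvd_or_dvd hab with ha | hb
    · -- `ℓ ∣ a`
      have hb' : ¬ (ℓ : ℤ) ∣ P.b := not_dvd_of_gcd_eq_one hℓ P.hgcdab ha
      have h1 : A.valuation (fA P) < 1 := val_fA_lt_one hA ha
      have h2' : A.valuation (fB P) = 1 := val_fB_eq_one hA hℓ hb'
      apply hzero
      · rw [h2', mul_one]; exact h1
      · rw [sub_eq_add_neg, Valuation.map_add_eq_of_lt_left _
          (by rw [Valuation.map_neg, h2']; exact h1), h2']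
    · -- `ℓ ∣ b`
      have ha' : ¬ (ℓ : ℤ) ∣ P.a := by
        have hg : gcd P.b P.a = 1 := by rw [gcd_comm]; exact P.hgcdab
        exact not_dvd_of_gcd_eq_one hℓ hg hb
      have h1 : A.valuation (fB P) < 1 := val_fB_lt_one hA hb
      have h2' : A.valuation (fA P) = 1 := val_fA_eq_one hA hℓ ha'
      apply hzero
      · rw [h2', one_mul]; exact h1
      · rw [Valuation.map_sub_swap, sub_eq_add_neg, Valuation.map_add_eq_of_lt_left _
          (by rw [Valuation.map_neg, h2']; exact h1), h2']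
  · -- `ℓ ∣ c`
    have ha' : ¬ (ℓ : ℤ) ∣ P.a := by
      have hg : gcd P.c P.a = 1 := by rw [gcd_comm]; exact P.hgcdac
      exact not_dvd_of_gcd_eq_one hℓ hg hc
    have h1 : A.valuation (fC P) < 1 := val_fC_lt_one hA hc
    have h2' : A.valuation (fA P) = 1 := val_fA_eq_one hA hℓ ha'
    obtain ⟨s, hs⟩ := IsAlgClosed.exists_pow_nat_eq (fB P + 2 * fA P) (n := 2) (by norm_num)
    refine ⟨freyNodeC P h16 h1 h2' s hs, ?_, fun σ => ?_⟩
    · show A.valuation (fA P / 4) ≤ 1
      rw [map_div₀, h4, div_one, h2']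
    · show σ (fA P / 4) = fA P / 4
      rw [map_div₀, sigma_fA, map_ofNat]

section decomp

open Pointwise

lemma apply_mem_of_mem_decomp_h291 {σ : _root_.Fermat.Agent.S12.H291.Qb ≃ₐ[ℚ] _root_.Fermat.Agent.S12.H291.Qb} (hσ : σ ∈ A.decompositionSubgroup ℚ)
    {x : _root_.Fermat.Agent.S12.H291.Qb} (hx : x ∈ A) : σ x ∈ A := by
  have h : σ • A = A := hσ
  have := ValuationSubring.smul_mem_pointwise_smul σ x A hx
  rw [h] at this
  exact this

/-- An element of the decomposition group preserves `1 ≤ v z`. -/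
lemma one_le_val_apply_of_mem_decomp {σ : _root_.Fermat.Agent.S12.H291.Qb ≃ₐ[ℚ] _root_.Fermat.Agent.S12.H291.Qb} (hσ : σ ∈ A.decompositionSubgroup ℚ)
    {z : _root_.Fermat.Agent.S12.H291.Qb} (hz : 1 ≤ A.valuation z) : 1 ≤ A.valuation (σ z) := by
  have hz0 : z ≠ 0 := by
    rintro rfl
    rw [_root_.map_zero] at hz
    exact absurd hz (not_le.mpr zero_lt_one)
  have hv0 : A.valuation z ≠ 0 := (Valuation.ne_zero_iff _).mpr hz0
  have h1 : z⁻¹ ∈ A := by
    rw [← A.valuation_le_one_iff, map_inv₀]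
    exact inv_le_one_of_one_le₀ hz
  have h2 := apply_mem_of_mem_decomp_h291 hσ h1
  rw [map_inv₀, ← A.valuation_le_one_iff, map_inv₀] at h2
  have hσz0 : A.valuation (σ z) ≠ 0 :=
    (Valuation.ne_zero_iff _).mpr ((map_ne_zero σ).mpr hz0)
  exact (one_le_inv₀ (zero_lt_iff.mpr (inv_ne_zero hσz0))).mpr h2 |>.trans_eq (inv_inv _)

/-- The decomposition group preserves the identity component of a node model with rational
node. -/
lemma nodeInE0_smul (M : NodeModel A.valuation (P.freyCurve⁄_root_.Fermat.Agent.S12.H291.Qb)) {σ : _root_.Fermat.Agent.S12.H291.Qb ≃ₐ[ℚ] _root_.Fermat.Agent.S12.H291.Qb}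
    (hσ : σ ∈ A.decompositionSubgroup ℚ) (hσe : σ M.e = M.e) {Q : FreyPt P}
    (hQ : M.InE0 Q) : M.InE0 (σ • Q) := by
  rcases Q with _ | ⟨x, y, h⟩
  · exact hQ
  · rw [Point.algEquiv_smul_def, Point.map_some]
    show 1 ≤ A.valuation (σ x - M.e)
    have : σ x - M.e = σ (x - M.e) := by rw [map_sub, hσe]
    rw [this]
    exact one_le_val_apply_of_mem_decomp hσ hQ

end decomp

section exists_toric

variable {K : Type*} [Field K] [DecidableEq K] {Γ₀ : Type*} [LinearOrderedCommGroupWithZero Γ₀]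
  {v : Valuation K Γ₀} {W : Affine K}

/-- If `T₀ ∈ E[p]` is not in `E⁰`, every `S ∈ E[p]` is congruent modulo `E⁰` to a multiple
of `T₀`. -/
theorem exists_nodeInE0_sub (M : NodeModel v W) {p : ℕ} (hp : p.Prime) (T₀ S : W.Point)
    (hT₀ : p • T₀ = 0) (hS : p • S = 0) (hT₀E : ¬ M.InE0 T₀) :
    ∃ k : ℕ, M.InE0 (S - k • T₀) := by
  have h₁ : M.comp T₀ ^ p = 1 := by rw [← M.comp_nsmul, hT₀]; rfl
  have h₂ : M.comp S ^ p = 1 := by rw [← M.comp_nsmul, hS]; rfl
  have hne : M.comp T₀ ≠ 1 := fun h => hT₀E ((M.comp_eq_one_iff T₀).mp h)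
  obtain ⟨k, hk⟩ := exists_pow_eq_of_torsion _ hp (M.comp T₀) (M.comp S) h₁ h₂ hne
  refine ⟨k, ?_⟩
  rw [← M.comp_eq_one_iff, M.comp_sub, M.comp_nsmul, hk, mul_inv_cancel]

end exists_toric

/-- A prime dividing `abc` divides the discriminant of the integral Frey model. -/
lemma dvd_freyΔ_of_dvd_abc {ℓ : ℕ} (hℓ : ℓ.Prime) (hbad : (ℓ : ℤ) ∣ P.a * P.b * P.c) :
    (ℓ : ℤ) ∣ P.freyCurveInt.Δ := by
  have hℓ' : Prime (ℓ : ℤ) := Nat.prime_iff_prime_int.mp hℓ
  have h := Fermat.Agent.Ribet.H164.g1a_Δ P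
  by_cases h2 : ℓ = 2
  · subst h2
    obtain ⟨t, ht⟩ := hbad
    have h10 : (2 : ℤ) ^ 10 ∣ (P.a * P.b * P.c) ^ (2 * P.p) := by
      rw [ht, mul_pow]
      have h5 := P.hp5
      exact Dvd.dvd.mul_right (pow_dvd_pow _ (by omega)) _
    rw [← h] at h10
    have e : (2 : ℤ) ^ 10 = 2 ^ 8 * 4 := by norm_num
    rw [e] at h10
    have h4 : (4 : ℤ) ∣ P.freyCurveInt.Δ := (mul_dvd_mul_iff_left (by norm_num)).mp h10
    exact (by norm_num : ((2 : ℕ) : ℤ) ∣ 4).trans h4
  · have h1 : (ℓ : ℤ) ∣ 2 ^ 8 * P.freyCurveInt.Δ := by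
      rw [h]; exact dvd_pow hbad (by have := P.hp5; omega)
    rcases hℓ'.dvd_or_dvd h1 with h3 | h3
    · exfalso
      have h4 := hℓ'.dvd_of_dvd_pow h3
      have h5 : ℓ ∣ 2 := by exact_mod_cast h4
      exact h2 ((Nat.prime_dvd_prime_iff_eq hℓ Nat.prime_two).mp h5)
    · exact h3

/-- **LOCAL-TORIC.**  A cofixed line of the Frey curve lies in `E⁰` at every multiplicative
prime `ℓ ≠ p` with `p ∤ ℓ - 1`, `p ∤ ℓ + 1`. -/
theorem toric_local
    (N : Submodule (ZMod P.p) (Submodule.torsionBy ℤ (FreyPt P) P.p)) (hN : IsCofixedLine P N)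
    {ℓ : ℕ} (hℓ : ℓ.Prime) (hℓp : ℓ ≠ P.p) (hbad : (ℓ : ℤ) ∣ P.a * P.b * P.c)
    (hnd : ¬ P.p ∣ ℓ - 1) (hnd' : ¬ P.p ∣ ℓ + 1)
    (A : ValuationSubring _root_.Fermat.Agent.S12.H291.Qb) (hA : A.LiesOverPrime ℓ)
    (T : Submodule.torsionBy ℤ (FreyPt P) P.p) (hT : T ∈ N) :
    FreyInE0 P A (T : FreyPt P) := by
  classical
  by_contra hT0
  have hred := frey_isRedOf P A
  have hφ : KerMax A (IsLocalRing.residue A) := kerMax_residue A
  obtain ⟨M, he, hσe⟩ := exists_freyNode P hℓ hA hbad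
  have hTM : ¬ M.InE0 (T : FreyPt P) := fun h => hT0 (inE0_of_nodeInE0 hred hφ M he h)
  obtain ⟨S, hS⟩ : ∃ S : Submodule.torsionBy ℤ (FreyPt P) P.p, S ∉ N := by
    by_contra h
    push Not at h
    exact hN.ne_top (eq_top_iff.mpr fun x _ => h x)
  obtain ⟨k, hk⟩ := exists_nodeInE0_sub M P.pp (T : FreyPt P) (S : FreyPt P)
    (nsmul_eq_zero_of_mem_torsion T) (nsmul_eq_zero_of_mem_torsion S) hTM
  set Q : Submodule.torsionBy ℤ (FreyPt P) P.p := S - k • T with hQdef
  have hQcoe : (Q : FreyPt P) = (S : FreyPt P) - k • (T : FreyPt P) := rfl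
  have hQN : Q ∉ N := by
    intro h
    apply hS
    have h1 : k • T ∈ N := N.nsmul_mem hT k
    have h2 := N.add_mem h h1
    rwa [hQdef, sub_add_cancel] at h2
  have hQ0 : Q ≠ 0 := fun h => hQN (h ▸ N.zero_mem)
  have hQE : M.InE0 (Q : FreyPt P) := by rw [hQcoe]; exact hk
  obtain ⟨σ, hσ⟩ := Fermat.Agent.S37.H99.exists_isFrobeniusAt ℓ hℓ A hA
  have hD : σ • Q - Q ∈ N := hN.cofixed σ Q
  have hDcoe : ((σ • Q - Q : Submodule.torsionBy ℤ (FreyPt P) P.p) : FreyPt P) =
      σ • (Q : FreyPt P) - (Q : FreyPt P) := rfl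
  have hDE : M.InE0 ((σ • Q - Q : Submodule.torsionBy ℤ (FreyPt P) P.p) : FreyPt P) := by
    rw [hDcoe]
    exact M.inE0_sub (nodeInE0_smul P M hσ.mem_decompositionSubgroup (hσe σ) hQE) hQE
  have hD0 : σ • Q - Q = 0 := by
    by_contra hne
    obtain ⟨j, hj⟩ := Fermat.Agent.S13.H64.frey_line P N hN.ne_top _ hD hne T hT
    apply hTM
    have : (T : FreyPt P) = j • ((σ • Q - Q : Submodule.torsionBy ℤ (FreyPt P) P.p) : FreyPt P) :=
      congrArg Subtype.val hj
    rw [this]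
    exact nodeInE0_zsmul M hDE j
  have hfix : σ • (Q : FreyPt P) = (Q : FreyPt P) := by
    have := congrArg Subtype.val hD0
    rw [hDcoe] at this
    exact sub_eq_zero.mp this
  have hord : addOrderOf (Q : FreyPt P) = P.p := addOrderOf_eq_of_mem_torsion Q hQ0
  have hΔ := dvd_freyΔ_of_dvd_abc P hℓ hbad
  have hc₄ := Fermat.Agent.Ribet.H164.g1a_semistable P ℓ hℓ hΔ
  exact (dvd_of_frob_fixed P.pp P.freyCurve P.freyCurveInt A hℓ hℓp hA hΔ hc₄ hred σ hσ
    (Q : FreyPt P) hfix hord (inE0_of_nodeInE0 hred hφ M he hQE)).elim hnd hnd'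

/-- **Toric at `2`.** -/
theorem toric_two (hp : 5 ≤ P.p)
    (N : Submodule (ZMod P.p) (Submodule.torsionBy ℤ (FreyPt P) P.p)) (hN : IsCofixedLine P N)
    (A : ValuationSubring _root_.Fermat.Agent.S12.H291.Qb) (hA : A.LiesOverPrime 2)
    (T : Submodule.torsionBy ℤ (FreyPt P) P.p) (hT : T ∈ N) :
    FreyInE0 P A (T : FreyPt P) := by
  refine toric_local P N hN Nat.prime_two (by omega) P.two_dvd_abc ?_ ?_ A hA T hT
  · intro h
    have := Nat.le_of_dvd (by norm_num) h
    omega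
  · intro h
    have := Nat.le_of_dvd (by norm_num) h
    omega

/-- **Toric at `3`** (when `3 ∣ abc`). -/
theorem toric_three (hp : 5 ≤ P.p) (h3 : (3 : ℤ) ∣ P.a * P.b * P.c)
    (N : Submodule (ZMod P.p) (Submodule.torsionBy ℤ (FreyPt P) P.p)) (hN : IsCofixedLine P N)
    (A : ValuationSubring _root_.Fermat.Agent.S12.H291.Qb) (hA : A.LiesOverPrime 3)
    (T : Submodule.torsionBy ℤ (FreyPt P) P.p) (hT : T ∈ N) :
    FreyInE0 P A (T : FreyPt P) := by
  refine toric_local P N hN Nat.prime_three (by omega) (by exact_mod_cast h3) ?_ ?_ A hA T hT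
  · intro h
    have := Nat.le_of_dvd (by norm_num) h
    omega
  · intro h
    have := Nat.le_of_dvd (by norm_num) h
    omega

end Fermat.Agent.S12.H291

end
end
-- ===== PACK-END S12/H291/ToricFrey.lean

-- ===== PACK-BEGIN S12/H291/GoodSmall.lean
section


/-!
# S12 one-step route: small primes of good reduction (helper291)

`no_cofixed_of_good_small` : if `ℓ ∤ abc` is a prime with `2ℓ + 1 < p`, the Frey curve has no
cofixed line.  (A Frobenius element `σ` at `ℓ` has a nonzero fixed vector `Q ∈ E[p]`, because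
`σ - 1` maps `E[p]` into the line `N`; `Q` reduces to an `𝔽_ℓ`-point of order `p`, and
`#E(𝔽_ℓ) ≤ 2ℓ + 1`.)  In particular `3 ∣ abc` whenever a cofixed line exists and `p ≥ 11`.
-/

set_option autoImplicit false
set_option linter.unusedSectionVars false
set_option linter.style.haveILetI false

noncomputable section

open WeierstrassCurve WeierstrassCurve.Affine WeierstrassCurve.Affine.Point

namespace Fermat.Agent.S12.H291

open Fermat.Agent.Lib.Red.H290 Fermat.Agent.S15.H242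

variable (P : FreyPackage)

/-- A prime not dividing `abc` does not divide the discriminant of the integral Frey model. -/
lemma not_dvd_freyΔ_of_not_dvd_abc {ℓ : ℕ} (hℓ : ℓ.Prime) (hgood : ¬ (ℓ : ℤ) ∣ P.a * P.b * P.c) :
    ¬ (ℓ : ℤ) ∣ P.freyCurveInt.Δ := by
  intro h
  have hℓ' : Prime (ℓ : ℤ) := Nat.prime_iff_prime_int.mp hℓ
  have h1 : (ℓ : ℤ) ∣ (P.a * P.b * P.c) ^ (2 * P.p) := by
    rw [← Fermat.Agent.Ribet.H164.g1a_Δ]; exact dvd_mul_of_dvd_right h _
  exact hgood (hℓ'.dvd_of_dvd_pow h1)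

/-- At a prime of good reduction the reduced curve is nonsingular. -/
lemma frey_redΔ_ne_zero {ℓ : ℕ} (hℓ : ℓ.Prime) (hgood : ¬ (ℓ : ℤ) ∣ P.a * P.b * P.c)
    (A : ValuationSubring Qb) (hA : A.LiesOverPrime ℓ) :
    (P.freyCurveInt⁄(IsLocalRing.ResidueField A)).Δ ≠ 0 := by
  have hφ : KerMax A (IsLocalRing.residue A) := kerMax_residue A
  have h1 : A.valuation ((P.freyCurveInt.Δ : ℤ) : Qb) = 1 :=
    val_intCast_eq_one A hA hℓ (not_dvd_freyΔ_of_not_dvd_abc P hℓ hgood)
  have h2 := (rd_ne_zero_iff hφ (intCast_mem A _)).mpr h1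
  rw [rd_intCast] at h2
  show (P.freyCurveInt.map (algebraMap ℤ (IsLocalRing.ResidueField A))).Δ ≠ 0
  rw [WeierstrassCurve.map_Δ, eq_intCast]
  exact h2

/-- Every endomorphism-like map `σ` with `σ x - x ∈ N` for a proper submodule `N` has a nonzero
fixed vector in `E[p]`. -/
lemma exists_fixed_of_cofixed
    (N : Submodule (ZMod P.p) (Submodule.torsionBy ℤ (FreyPt P) P.p)) (hN : IsCofixedLine P N)
    (σ : Qb ≃ₐ[ℚ] Qb) :
    ∃ Q : Submodule.torsionBy ℤ (FreyPt P) P.p, Q ≠ 0 ∧ σ • Q = Q := by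
  obtain ⟨T, hTN, hT0⟩ : ∃ T : Submodule.torsionBy ℤ (FreyPt P) P.p, T ∈ N ∧ T ≠ 0 := by
    by_contra h
    push Not at h
    exact hN.ne_bot ((Submodule.eq_bot_iff N).mpr h)
  obtain ⟨S, hS⟩ : ∃ S : Submodule.torsionBy ℤ (FreyPt P) P.p, S ∉ N := by
    by_contra h
    push Not at h
    exact hN.ne_top (eq_top_iff.mpr fun x _ => h x)
  by_cases hD : σ • T - T = 0
  · exact ⟨T, hT0, sub_eq_zero.mp hD⟩
  · obtain ⟨j, hj⟩ := Fermat.Agent.S13.H64.frey_line P N hN.ne_top _ (hN.cofixed σ T) hD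
      (σ • S - S) (hN.cofixed σ S)
    refine ⟨S - j • T, ?_, ?_⟩
    · intro h0
      apply hS
      have : S = j • T := sub_eq_zero.mp h0
      rw [this]
      exact zsmul_mem hTN j
    · have e : σ • (S - j • T) = σ • S - j • (σ • T) := by
        rw [smul_sub, smul_comm]
      rw [e]
      have h1 : σ • S = S + j • (σ • T - T) := by rw [← hj]; abel
      rw [h1, smul_sub]
      abel

/-- **GOOD-SMALL.**  No cofixed line if some prime `ℓ ∤ abc` has `2ℓ + 1 < p`. -/
theorem no_cofixed_of_good_small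
    (N : Submodule (ZMod P.p) (Submodule.torsionBy ℤ (FreyPt P) P.p)) (hN : IsCofixedLine P N)
    {ℓ : ℕ} (hℓ : ℓ.Prime) (hgood : ¬ (ℓ : ℤ) ∣ P.a * P.b * P.c) (hsmall : 2 * ℓ + 1 < P.p) :
    False := by
  classical
  obtain ⟨A, hA⟩ := Fermat.Agent.S54.exists_valuationSubring_liesOver ℓ hℓ
  obtain ⟨σ, hσ⟩ := Fermat.Agent.S37.H99.exists_isFrobeniusAt ℓ hℓ A hA
  obtain ⟨Q, hQ0, hQfix⟩ := exists_fixed_of_cofixed P N hN σ
  have hred := frey_isRedOf P A
  have hΔ := frey_redΔ_ne_zero P hℓ hgood A hA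
  have hE0 : InE0 A (IsLocalRing.residue A) (P.freyCurveInt⁄(IsLocalRing.ResidueField A))
      (Q : FreyPt P) := by
    rcases hQ : (Q : FreyPt P) with _ | ⟨x, y, hxy⟩
    · exact inE0_zero
    · intro hx
      exact rd_nonsingular hred hΔ hx hxy.1
  have hfix : σ • (Q : FreyPt P) = (Q : FreyPt P) := congrArg Subtype.val hQfix
  have hord : addOrderOf (Q : FreyPt P) = P.p := addOrderOf_eq_of_mem_torsion Q hQ0
  have := le_of_frob_fixed P.pp P.freyCurve P.freyCurveInt A hℓ (by omega) hA hred σ hσ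
    (Q : FreyPt P) hfix hord hE0
  omega

/-- If a cofixed line exists and `p ≥ 11`, then `3 ∣ abc`. -/
theorem three_dvd_abc_of_cofixed (hp : 11 ≤ P.p)
    (N : Submodule (ZMod P.p) (Submodule.torsionBy ℤ (FreyPt P) P.p)) (hN : IsCofixedLine P N) :
    (3 : ℤ) ∣ P.a * P.b * P.c := by
  by_contra h
  exact no_cofixed_of_good_small P N hN Nat.prime_three (by exact_mod_cast h) (by omega)

end Fermat.Agent.S12.H291

end
end
-- ===== PACK-END S12/H291/GoodSmall.lean

-- ===== PACK-BEGIN G2/H480/FClosed.lean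
section













/-!
# Row GLUE, phase 2, block F — ASSEMBLY of the closed leaves (helper480), OFF-MAIN, plain world

`freyRoute_of_leaves` of `Glue/FSpec.lean` (row-lead helper120) with every closed leaf plugged in,
in ONE import closure (co-importability check of the volunteers' files, byte-identical copies):

* `FreyIntStatement`      : `Glue/FreyInt.lean` (helper120), `FreyInt.freyInt`;
* `S51Statement`, `PartA` : plain tops of main (`S51.result`; `partA_of_frobRelation` as in `S52.lean`);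
* L1 `SSCritStatement`    : helper3, `G1/H3/NoFix/SS.lean` (`nofix3_of_supersingular`, adapter here);
* L2 `MUCritStatement`    : helper559, `G2/H559/MuCritLeaf.lean` (`muCrit559`);
* F0 `FreyLocStatement`   : helper304, `G2/H304/FreyLocTop.lean` (`freyLocStatement`);
* SW `SwitchVStatement`   : helper480, `G2/H480/SwitchV.lean` (`switchV480`);
* FC5 `FiveCongrIrrStatement` : helper781, `G2/H781/FiveCongrIrr.lean` (`fiveCongrIrr781`).

What is left of block F: `CuspSwitchStatement` (C) and `Frey5Statement` (F5).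
-/

set_option autoImplicit false

namespace Fermat.Agent.G2.H480

open Fermat.Agent.Glue

/-- The landed S51 (plain top of main). -/
theorem s51Plain480 : S51Statement := fun W hΔ hW => Fermat.Agent.S51.result W hΔ hW

/-- `PartA` of the landed S52 (as in the plain top `S52.lean` of main). -/
theorem partA480 : Fermat.Agent.S52.PartA :=
  Fermat.Agent.S52.partA_of_frobRelation
    (Fermat.Agent.Lib.Frob.frobRelation_of_parts Fermat.Agent.Lib.Frob.frobRelationFin
      Fermat.Agent.Lib.Frob.reductionData)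

/-- **L1**, verbatim (adapter of helper3's `nofix3_of_supersingular`). -/
theorem ssCrit480 : SSCritStatement :=
  fun W hb₂ hΔ => Fermat.Agent.G1.H3.nofix3_of_supersingular W hΔ hb₂

/-- **Block F, closed up to the leaves C and F5.** -/
theorem freyRoute_of_C_F5_480 (hC : CuspSwitchStatement) (hF5 : Frey5Statement) :
    FreyRouteStatement :=
  freyRoute_of_leaves FreyInt.freyInt s51Plain480 partA480 ssCrit480
    Fermat.Agent.G2.H559.muCrit559 Fermat.Agent.G2.H304.freyLocStatement switchV480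
    Fermat.Agent.G2.H781.fiveCongrIrr781 hC hF5

end Fermat.Agent.G2.H480

end
-- ===== PACK-END G2/H480/FClosed.lean

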