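import Mathlib
import Fermat.Prelude.Def_EllipticCurve_ZeroComponentAt
import Fermat.Prelude.Def_FLTPrelim_Ramification
import Fermat.Prelude.Def_ModularCurve_HeckeModule
import Fermat.Prelude.Def_ModularCurve_ModularUnit
import Fermat.Prelude.Def_GaloisRep_ModThreeCyclotomic
import Fermat.Agent.Pack.S44C.G0E19L0
import Fermat.Agent.Pack.S43MC.G0E23L1
import Fermat.Agent.Pack.S44C.G0E6L2
import Fermat.Agent.Pack.S44C.G0E16L0
import Fermat.Agent.Pack.S44C.G0E23L0
import Fermat.Agent.Pack.L1.E5L0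
import Fermat.Agent.Pack.S44C.G0E23L2
import Fermat.Agent.Pack.S44C.G0E25L2
import Fermat.Agent.Pack.L1.E0L2
import Fermat.Agent.Pack.L1.E6L2
import Fermat.Agent.Pack.L1.E2L1
import Fermat.Agent.Pack.L1.E2L0
import Fermat.Agent.Pack.L1.E2L3
import Fermat.Agent.Pack.L1.E0L3
import Fermat.Agent.Pack.L1.E0L0
import Fermat.Agent.Pack.L1.E5L2
import Fermat.Agent.Pack.L1.E6L0
import Fermat.Agent.Pack.L1.E3L3
import Fermat.Agent.Pack.L1.E3L1
import Fermat.Agent.Pack.L1.E6L1
import Fermat.Agent.Pack.S44C.G0E26L1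
import Fermat.Agent.Pack.L1.E1L2
import Fermat.Agent.Pack.S59C.E7L2
import Fermat.Agent.Pack.L1.E4L1
import Fermat.Agent.Pack.S43MC.G0E22L3
import Fermat.Agent.Pack.L1.E5L1

-- ===== PACK-BEGIN S15/Core/Top.lean
section









/-!
# Row S15 (Mazur's Step 3): TOP assembly (acting architect helper915)

`s15_of_nodes` : the frozen statement S15 from three node statements at the prime level `p`

* `CuspStatement p`    : the cusp `0`, the cuspidal class `c = [(0) - (∞)]`, Eisenstein, torsion,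
                         of order divisible by every prime `r ∣ n = eisensteinNumerator p`
                         (the lower-bound half of Ogg's theorem);
* `GeoStatement p`     : the moduli point `x = (E, ⟨Q⟩)`, its class `D = [(x) - (0)]` in `J₀(p)(ℚ)`,
                         and, at every multiplicative prime `q ≠ p`, a specialisation map `sp` of
                         `J₀(p)`, injective on torsion prime to `q`, with Hecke-stable kernel, such
                         that `sp D = 0` if `Q ∉ E⁰` and `sp (D + c) = 0` if `Q ∈ E⁰`;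
* `DescentStatement p` : the Eisenstein descent (THE WALL): some Hecke operator `t`, acting on
                         Eisenstein classes by an integer prime to a prime `r ∣ n`, maps `J₀(p)(ℚ)`
                         into the torsion subgroup.

The local case (`ℓ ≢ ±1 mod p`) is `H242.step3_of_pm_one` (helper242, on main).
Everything in this file is sorry-free; the nodes are hypotheses.
-/

set_option autoImplicit false

noncomputable section

open AlgebraicCurve ModularCurve WeierstrassCurve WeierstrassCurve.Affine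

namespace Fermat.Agent.S15.Core

/-! ### Vocabulary -/

section Vocabulary

variable (p : ℕ) [NeZero p]

/-- The function `j`, as an element of `ℚ̄(X₀(p))`. -/
def jBar : modularFunctionFieldBar p :=
  ⟨coeffEmb (AlgebraicClosure ℚ) jq,
    coeffEmb_mem_laurentBaseChange _ (modularFunctionField_le_full p (jq_mem p))⟩

/-- The cusp `∞` (the place `ord_q`), from row S17 (helper680, on main). -/
abbrev cuspInfty : Place (AlgebraicClosure ℚ) (modularFunctionFieldBar p) :=
  Fermat.Agent.S17.H680.JZero.cusp p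

/-- A cusp `0`: a pole of `j` different from `∞`.  (For `p` prime it is unique.) -/
def IsCuspZero (P₀ : Place (AlgebraicClosure ℚ) (modularFunctionFieldBar p)) : Prop :=
  P₀ ≠ cuspInfty p ∧ P₀.ord (jBar p) < 0

variable {p}

/-- `z` is the class of the degree-zero divisor `(P) - (P')`. -/
def IsDiffClass (P P' : Place (AlgebraicClosure ℚ) (modularFunctionFieldBar p))
    (z : JZero p) : Prop :=
  ∃ h : (Finsupp.single P (1 : ℤ) - Finsupp.single P' (1 : ℤ) :
      Divisor (AlgebraicClosure ℚ) (modularFunctionFieldBar p)) ∈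
        Divisor.degZero (K := AlgebraicClosure ℚ) (F := modularFunctionFieldBar p),
    z = Pic0.mk ⟨_, h⟩

/-- `c` is an Eisenstein class: `T_ℓ c = (1 + ℓ) c` for all primes `ℓ ≠ p`. -/
def IsEisensteinClass (c : JZero p) : Prop :=
  ∀ ℓ : Nat.Primes, (ℓ : ℕ) ≠ p → heckeOperatorBar p ℓ c = ((1 + (ℓ : ℕ) : ℕ) : ℤ) • c

variable (p)

/-- The Hecke operators `T_ℓ` of level `p` with `ℓ ≠ p`, `ℓ ∉ S`. -/
def goodHecke (S : Set ℕ) : Set (Module.End ℤ (JZero p)) :=
  {T | ∃ ℓ : Nat.Primes, (ℓ : ℕ) ≠ p ∧ (ℓ : ℕ) ∉ S ∧ T = heckeOperatorBar p ℓ}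

/-- The ring of endomorphisms of `J₀(p)` generated by them (no commutativity is assumed). -/
def goodHeckeAlg (S : Set ℕ) : Subalgebra ℤ (Module.End ℤ (JZero p)) :=
  Algebra.adjoin ℤ (goodHecke p S)

/-! ### The three nodes -/

/-- **NODE CUSP.**  The cusp `0` exists, and the class `c = [(0) - (∞)]` is Eisenstein, torsion,
of order divisible by every prime divisor of `n = eisensteinNumerator p`.
(In fact `addOrderOf c = n` by Ogg/Mazur; only this much is used.) -/
def CuspStatement : Prop :=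
  ∃ (P₀ : Place (AlgebraicClosure ℚ) (modularFunctionFieldBar p)) (c : JZero p),
    IsCuspZero p P₀ ∧ IsDiffClass P₀ (cuspInfty p) c ∧ IsEisensteinClass c ∧
      addOrderOf c ≠ 0 ∧ ∀ r : ℕ, r.Prime → r ∣ eisensteinNumerator p → r ∣ addOrderOf c

/-- **NODE GEO.**  Moduli point + specialisation at the multiplicative primes. -/
def GeoStatement : Prop :=
  ∀ (W : WeierstrassCurve ℤ), W.Δ ≠ 0 →
  ∀ (Q : ((W.map (Int.castRingHom ℚ))⁄(AlgebraicClosure ℚ)).Point),
    (∀ σ : AlgebraicClosure ℚ ≃ₐ[ℚ] AlgebraicClosure ℚ, σ • Q = Q) → addOrderOf Q = p →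
  ∀ (P₀ : Place (AlgebraicClosure ℚ) (modularFunctionFieldBar p)) (c : JZero p),
    IsCuspZero p P₀ → IsDiffClass P₀ (cuspInfty p) c →
  ∃ D : JZero p, (∀ σ : AlgebraicClosure ℚ ≃ₐ[ℚ] AlgebraicClosure ℚ, σ • D = D) ∧
    ∀ q : ℕ, q.Prime → q ≠ p → (q : ℤ) ∣ W.Δ → ¬ (q : ℤ) ∣ W.c₄ →
    ∀ A : ValuationSubring (AlgebraicClosure ℚ), A.LiesOverPrime q →
    ∃ (X : Type) (_ : AddCommGroup X) (sp : JZero p →+ X),
      (∀ (m : ℕ) (z : JZero p), ¬ q ∣ m → m • z = 0 → sp z = 0 → z = 0) ∧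
      (∀ T ∈ goodHecke p {q}, ∀ z : JZero p, sp z = 0 → sp (T z) = 0) ∧
      (¬ W.InZeroComponentAt A Q → sp D = 0) ∧
      (W.InZeroComponentAt A Q → sp (D + c) = 0)

/-- **NODE DESC (the wall).**  Eisenstein descent: for every finite set `S` of primes to avoid,
there are a prime `r ∣ n` and an element `t` of the Hecke ring away from `S ∪ {p}` which acts on
every Eisenstein class by an integer `e` prime to `r` and maps `J₀(p)(ℚ)` into the torsion. -/
def DescentStatement : Prop :=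
  ∀ S : Finset ℕ, ∃ (r : ℕ) (t : Module.End ℤ (JZero p)) (e : ℤ),
    r.Prime ∧ r ∣ eisensteinNumerator p ∧ t ∈ goodHeckeAlg p (S : Set ℕ) ∧
    (∀ c : JZero p, IsEisensteinClass c → t c = e • c) ∧ ¬ (r : ℤ) ∣ e ∧
    ∀ z : JZero p, (∀ σ : AlgebraicClosure ℚ ≃ₐ[ℚ] AlgebraicClosure ℚ, σ • z = z) →
      ∃ m : ℕ, 0 < m ∧ m • t z = 0

end Vocabulary

/-! ### Abstract lemmas -/

section Abstract

variable {M : Type*} [AddCommGroup M]

/-- A torsion element which reduces to `0` modulo two different primes (reduction being injective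
on torsion prime to the characteristic) is zero. -/
theorem eq_zero_of_torsion_of_two_primes
    {J₁ J₂ : Type*} [AddCommGroup J₁] [AddCommGroup J₂]
    (red₁ : M →+ J₁) (red₂ : M →+ J₂) {q₁ q₂ : ℕ} (hq₁ : q₁.Prime) (hq₂ : q₂.Prime)
    (hne : q₁ ≠ q₂)
    (inj₁ : ∀ (m : ℕ) (z : M), ¬ q₁ ∣ m → m • z = 0 → red₁ z = 0 → z = 0)
    (inj₂ : ∀ (m : ℕ) (z : M), ¬ q₂ ∣ m → m • z = 0 → red₂ z = 0 → z = 0)
    {z : M} {m : ℕ} (hm : 0 < m) (hmz : m • z = 0) (h₁ : red₁ z = 0) (h₂ : red₂ z = 0) :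
    z = 0 := by
  obtain ⟨a, m₁, hm₁, rfl⟩ := Nat.exists_eq_pow_mul_and_not_dvd hm.ne' q₁ hq₁.ne_one
  have hz₁ : q₁ ^ a • z = 0 := by
    refine inj₁ m₁ (q₁ ^ a • z) hm₁ ?_ ?_
    · rw [← mul_smul, mul_comm]; exact hmz
    · rw [map_nsmul, h₁, smul_zero]
  refine inj₂ (q₁ ^ a) z ?_ hz₁ h₂
  intro hdvd
  have := (Nat.prime_dvd_prime_iff_eq hq₂ hq₁).mp (hq₂.dvd_of_dvd_pow hdvd)
  exact hne this.symm

end Abstract

section Kernel

variable {p : ℕ} [NeZero p]

/-- The kernel of a specialisation map is stable under the Hecke ring as soon as it is stable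
under the generators. -/
theorem sp_eq_zero_of_mem_goodHeckeAlg {X : Type*} [AddCommGroup X] (sp : JZero p →+ X)
    {S S' : Set ℕ} (hS : S' ⊆ S)
    (hgen : ∀ T ∈ goodHecke p S', ∀ z : JZero p, sp z = 0 → sp (T z) = 0)
    {t : Module.End ℤ (JZero p)} (ht : t ∈ goodHeckeAlg p S) :
    ∀ z : JZero p, sp z = 0 → sp (t z) = 0 := by
  induction ht using Algebra.adjoin_induction with
  | mem T hT =>
    obtain ⟨ℓ, hℓp, hℓS, rfl⟩ := hT
    exact hgen _ ⟨ℓ, hℓp, fun h => hℓS (hS h), rfl⟩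
  | algebraMap a =>
    intro z hz
    rw [Algebra.algebraMap_eq_smul_one, LinearMap.smul_apply, Module.End.one_apply, map_zsmul,
      hz, smul_zero]
  | add T T' _ _ hT hT' =>
    intro z hz
    rw [LinearMap.add_apply, map_add, hT z hz, hT' z hz, add_zero]
  | mul T T' _ _ hT hT' =>
    intro z hz
    rw [Module.End.mul_apply]
    exact hT _ (hT' z hz)

end Kernel

/-! ### The assembly -/

theorem eisensteinNumerator_le_half {p : ℕ} (hp : p.Prime) (hp2 : p ≠ 2) :
    2 * eisensteinNumerator p ≤ p - 1 := by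
  have hodd : p % 2 = 1 := hp.eq_two_or_odd.resolve_left hp2
  have hp1 := hp.two_le
  have h2 : 2 ∣ Nat.gcd (p - 1) 12 := Nat.dvd_gcd (by omega) (by norm_num)
  have hg : 0 < Nat.gcd (p - 1) 12 := Nat.gcd_pos_of_pos_right _ (by norm_num)
  have hle : 2 ≤ Nat.gcd (p - 1) 12 := Nat.le_of_dvd hg h2
  unfold eisensteinNumerator
  calc 2 * ((p - 1) / Nat.gcd (p - 1) 12)
      ≤ Nat.gcd (p - 1) 12 * ((p - 1) / Nat.gcd (p - 1) 12) := Nat.mul_le_mul_right _ hle
    _ ≤ p - 1 := Nat.mul_div_le _ _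

/-- **Row S15, TOP.**  The frozen statement S15 from the three nodes at level `p`. -/
theorem s15_of_nodes
    {p : ℕ} (hp : p.Prime) (hp' : p ∉ ({2, 3, 5, 7, 13} : Finset ℕ))
    (hCusp : haveI : NeZero p := ⟨hp.ne_zero⟩; CuspStatement p)
    (hGeo : haveI : NeZero p := ⟨hp.ne_zero⟩; _root_.Fermat.Agent.S15.Core.GeoStatement p)
    (hDesc : haveI : NeZero p := ⟨hp.ne_zero⟩; DescentStatement p)
    (W : WeierstrassCurve ℤ) (hΔ : W.Δ ≠ 0)
    (Q : ((W.map (Int.castRingHom ℚ))⁄(AlgebraicClosure ℚ)).Point)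
    (hQfix : ∀ σ : AlgebraicClosure ℚ ≃ₐ[ℚ] AlgebraicClosure ℚ, σ • Q = Q)
    (hQord : addOrderOf Q = p)
    (h2Δ : (2 : ℤ) ∣ W.Δ) (h2c₄ : ¬ (2 : ℤ) ∣ W.c₄)
    (h2 : ∀ A : ValuationSubring (AlgebraicClosure ℚ), A.LiesOverPrime 2 →
      ¬ W.InZeroComponentAt A Q)
    (h3Δ : (3 : ℤ) ∣ W.Δ) (h3c₄ : ¬ (3 : ℤ) ∣ W.c₄)
    (h3 : ∀ A : ValuationSubring (AlgebraicClosure ℚ), A.LiesOverPrime 3 →
      ¬ W.InZeroComponentAt A Q)
    {ℓ : ℕ} (hℓ : ℓ.Prime) (hℓp : ℓ ≠ p) (hℓΔ : (ℓ : ℤ) ∣ W.Δ) (hℓc₄ : ¬ (ℓ : ℤ) ∣ W.c₄)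
    (A : ValuationSubring (AlgebraicClosure ℚ)) (hA : A.LiesOverPrime ℓ) :
    ¬ W.InZeroComponentAt A Q := by
  have : NeZero p := ⟨hp.ne_zero⟩
  have hp2 : p ≠ 2 := fun h => hp' (by simp [h])
  have hp3 : p ≠ 3 := fun h => hp' (by simp [h])
  refine Fermat.Agent.S15.H242.step3_of_pm_one hp W Q hQfix hQord hℓ hℓp hℓΔ hℓc₄ A hA ?_
  intro hpm hQ0
  obtain ⟨P₀, c, hP₀, hc, hEis, hord0, hordr⟩ := hCusp
  obtain ⟨D, hDfix, hD⟩ := hGeo W hΔ Q hQfix hQord P₀ c hP₀ hc
  obtain ⟨r, t, e, hr, hrn, ht, hte, hre, htors⟩ := hDesc {2, 3, ℓ}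
  obtain ⟨A₂, hA₂⟩ := Fermat.Agent.S54.exists_valuationSubring_liesOver 2 Nat.prime_two
  obtain ⟨A₃, hA₃⟩ := Fermat.Agent.S54.exists_valuationSubring_liesOver 3 Nat.prime_three
  obtain ⟨X₂, _, sp₂, inj₂, hk₂, hz₂, -⟩ :=
    hD 2 Nat.prime_two (Ne.symm hp2) (by exact_mod_cast h2Δ) (by exact_mod_cast h2c₄) A₂ hA₂
  obtain ⟨X₃, _, sp₃, inj₃, hk₃, hz₃, -⟩ :=
    hD 3 Nat.prime_three (Ne.symm hp3) (by exact_mod_cast h3Δ) (by exact_mod_cast h3c₄) A₃ hA₃
  obtain ⟨Xℓ, _, spℓ, injℓ, hkℓ, -, hzℓ⟩ := hD ℓ hℓ hℓp hℓΔ hℓc₄ A hA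
  -- `t D` is torsion and specialises to `0` at `2` and `3`, hence vanishes
  obtain ⟨m, hm, hmD⟩ := htors D hDfix
  have hS2 : ({2} : Set ℕ) ⊆ (({2, 3, ℓ} : Finset ℕ) : Set ℕ) := by
    intro x hx; simp only [Set.mem_singleton_iff] at hx; simp [hx]
  have hS3 : ({3} : Set ℕ) ⊆ (({2, 3, ℓ} : Finset ℕ) : Set ℕ) := by
    intro x hx; simp only [Set.mem_singleton_iff] at hx; simp [hx]
  have hSℓ : ({ℓ} : Set ℕ) ⊆ (({2, 3, ℓ} : Finset ℕ) : Set ℕ) := by
    intro x hx; simp only [Set.mem_singleton_iff] at hx; simp [hx]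
  have htD : t D = 0 :=
    eq_zero_of_torsion_of_two_primes sp₂ sp₃ Nat.prime_two Nat.prime_three (by norm_num)
      inj₂ inj₃ hm hmD
      (sp_eq_zero_of_mem_goodHeckeAlg sp₂ hS2 hk₂ ht D (hz₂ (h2 A₂ hA₂)))
      (sp_eq_zero_of_mem_goodHeckeAlg sp₃ hS3 hk₃ ht D (hz₃ (h3 A₃ hA₃)))
  -- at `ℓ`: `sp (t c) = 0`
  have h1 : spℓ (t (D + c)) = 0 :=
    sp_eq_zero_of_mem_goodHeckeAlg spℓ hSℓ hkℓ ht (D + c) (hzℓ hQ0)
  rw [map_add, htD, zero_add, hte c hEis] at h1
  -- the element `y = (ord c / r) • e • c` has order `r`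
  set n := eisensteinNumerator p with hn
  have hn0 : 0 < n := by
    have hg : 0 < Nat.gcd (p - 1) 12 := Nat.gcd_pos_of_pos_right _ (by norm_num)
    have hp1 : 0 < p - 1 := by have := hp.two_le; omega
    exact Nat.div_pos (Nat.le_of_dvd hp1 (Nat.gcd_dvd_left _ _)) hg
  have hrle : r ≤ n := Nat.le_of_dvd hn0 hrn
  have hnc : addOrderOf c • c = 0 := addOrderOf_nsmul_eq_zero c
  obtain ⟨s, hs⟩ := hordr r hr hrn
  have hs0 : s ≠ 0 := by
    rintro rfl
    rw [mul_zero] at hs
    exact hord0 hs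
  have hry : r • (s • (e • c)) = 0 := by
    rw [← mul_smul, ← hs, smul_comm, hnc, smul_zero]
  have hy0 : s • (e • c) ≠ 0 := by
    intro h0
    have h' : ((s : ℤ) * e) • c = 0 := by
      rw [mul_smul, natCast_zsmul]
      exact h0
    have hdvd : (addOrderOf c : ℤ) ∣ (s : ℤ) * e := addOrderOf_dvd_iff_zsmul_eq_zero.mpr h'
    rw [hs] at hdvd
    push_cast at hdvd
    have hdvd' : (r : ℤ) * (s : ℤ) ∣ e * (s : ℤ) := by rwa [mul_comm e]
    exact hre (Int.dvd_of_mul_dvd_mul_right (by exact_mod_cast hs0) hdvd')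
  have hspy : spℓ (s • (e • c)) = 0 := by rw [map_nsmul, h1, smul_zero]
  have hℓr : ¬ ℓ ∣ r := by
    intro h
    have hrl : ℓ = r := (Nat.prime_dvd_prime_iff_eq hℓ hr).mp h
    have hhalf : 2 * n ≤ p - 1 := eisensteinNumerator_le_half hp hp2
    have hp1 := hp.two_le
    have hℓ2 := hℓ.two_le
    rcases hpm with h1' | h1'
    · have : ℓ - 1 = 0 := Nat.eq_zero_of_dvd_of_lt h1' (by omega)
      omega
    · have hle : p ≤ ℓ + 1 := Nat.le_of_dvd (by omega) h1'
      omega
  exact hy0 (injℓ r _ hℓr hry hspy)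

end Fermat.Agent.S15.Core

end
end
-- ===== PACK-END S15/Core/Top.lean

-- ===== PACK-BEGIN S15/H362/CuspZero.lean
section





/-!
# S15 / piece CUSP (architect helper362): the cusp `0` and the cuspidal class — definitions

On top of objects on main:
* `∞ = cuspInfty p` (`CuspDefs.lean`) `= Core.cuspInfty p = S17.H680.JZero.cusp p` (`cuspInfty_eq_core`);
* `w = A2.H528.wSemi p` (Fricke involution);
* `cuspZero p := w • ∞`, `cuspDivisor p = (0) - (∞)`, `cuspClass p : JZero p`.

Everything in this file is sorry-free.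
-/

set_option autoImplicit false
set_option synthInstance.maxHeartbeats 400000

noncomputable section

open AlgebraicCurve ModularCurve HahnSeries

namespace Fermat.Agent.S15.H362

open Fermat.Agent.A2.H528

variable (p : ℕ) [NeZero p]

/-- Our cusp `∞` is the one of `Core/Top.lean` (and of row S17). -/
theorem cuspInfty_eq_core : cuspInfty p = Fermat.Agent.S15.Core.cuspInfty p := by
  apply Place.ext
  ext f
  rfl

/-- **The cusp `0`**: the Fricke image of the cusp `∞`. -/
def cuspZero : Place Qb (FB p) := wSemi p • cuspInfty p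

theorem deg_cuspInfty : (cuspInfty p).deg = 1 :=
  Fermat.Agent.Lib.FF398.deg_eq_one_FF p (cuspInfty p)

theorem deg_cuspZero : (cuspZero p).deg = 1 :=
  Fermat.Agent.Lib.FF398.deg_eq_one_FF p (cuspZero p)

theorem galois_smul_cuspInfty (σ : Qb ≃ₐ[ℚ] Qb) :
    arithmeticGalois (modularFunctionFieldFull p) σ • cuspInfty p = cuspInfty p := by
  rw [cuspInfty_eq_core]
  exact Fermat.Agent.S17.H680.JZero.galois_smul_cusp p σ

theorem galois_smul_cuspZero (σ : Qb ≃ₐ[ℚ] Qb) :
    arithmeticGalois (modularFunctionFieldFull p) σ • cuspZero p = cuspZero p := by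
  rw [cuspZero, ← mul_smul, ← wSemi_comm, mul_smul, galois_smul_cuspInfty]

/-- `w • 0 = ∞`. -/
theorem wSemi_smul_cuspZero : wSemi p • cuspZero p = cuspInfty p := by
  rw [cuspZero, ← mul_smul, wSemi_mul_self, one_smul]

/-- `ord_0 f = ord_∞ (w f)`. -/
theorem ord_cuspZero (f : FB p) : (cuspZero p).ord f = (cuspInfty p).ord (wF p f) := by
  have h := SemilinearAut.ord_smul (wSemi p) (cuspInfty p) (wF p f)
  rw [wSemi_smul, wF_wF] at h
  exact h

theorem degree_cuspDivisor :
    Divisor.degree (Finsupp.single (cuspZero p) (1 : ℤ) - Finsupp.single (cuspInfty p) 1) = 0 := by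
  rw [map_sub, Divisor.degree_single, Divisor.degree_single, deg_cuspZero, deg_cuspInfty]
  simp

/-- The divisor `(0) - (∞)`. -/
def cuspDivisor : Divisor.degZero (K := Qb) (F := FB p) :=
  ⟨Finsupp.single (cuspZero p) (1 : ℤ) - Finsupp.single (cuspInfty p) 1, degree_cuspDivisor p⟩

@[simp] theorem coe_cuspDivisor :
    ((cuspDivisor p : Divisor.degZero (K := Qb) (F := FB p)) : Divisor Qb (FB p)) =
      Finsupp.single (cuspZero p) (1 : ℤ) - Finsupp.single (cuspInfty p) 1 := rfl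

/-- **The cuspidal class** `c = cl((0) - (∞)) ∈ J₀(p)(ℚ̄)`. -/
def cuspClass : JZero p := Pic0.mk (cuspDivisor p)

theorem isDiffClass_cuspClass :
    Fermat.Agent.S15.Core.IsDiffClass (cuspZero p) (Fermat.Agent.S15.Core.cuspInfty p)
      (cuspClass p) := by
  rw [← cuspInfty_eq_core]
  exact ⟨degree_cuspDivisor p, rfl⟩

/-- The cuspidal class is rational. -/
theorem galois_smul_cuspClass (σ : Qb ≃ₐ[ℚ] Qb) : σ • cuspClass p = cuspClass p := by
  rw [galois_smul_pic0_def, cuspClass, SemilinearAut.pic0_smul_mk]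
  congr 1
  apply Subtype.ext
  rw [SemilinearAut.coe_degZeroSMulHom, coe_cuspDivisor, smul_sub, SemilinearAut.smul_single,
    SemilinearAut.smul_single, galois_smul_cuspZero, galois_smul_cuspInfty]

end Fermat.Agent.S15.H362

end
end
-- ===== PACK-END S15/H362/CuspZero.lean

-- ===== PACK-BEGIN S15/H362/CuspOrd.lean
section


/-!
# S15 / piece CUSP (helper362): orders of `j`, `j(q^p)` at the two cusps

* K1 `ord_cuspInfty` : `ord_∞ f = ord_q f`;
* `ord_cuspInfty_jBar = -1`, `ord_cuspInfty_jLevelBar = -N`;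
* `ord_cuspZero_jBar = -N`, `ord_cuspZero_jLevelBar = -1`;
* K9 `isCuspZero_cuspZero` : for `1 < N` the cusp `0` is a pole of `j` different from `∞`.

Sorry-free.
-/

set_option autoImplicit false
set_option synthInstance.maxHeartbeats 400000

noncomputable section

open AlgebraicCurve ModularCurve HahnSeries

namespace Fermat.Agent.S15.H362

open Fermat.Agent.A2.H528

/-- `coeffEmb` preserves the order. -/
theorem order_coeffEmb (x : LaurentSeries ℚ) : (coeffEmb Qb x).order = x.order := by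
  classical
  have hinj : Function.Injective (algebraMap ℚ Qb) := (algebraMap ℚ Qb).injective
  rcases eq_or_ne x 0 with rfl | hx
  · simp
  have hx' : coeffEmb Qb x ≠ 0 := by
    intro h
    apply hx
    ext k
    have := congrArg (fun y => HahnSeries.coeff y k) h
    simp only [coeffEmb_coeff, HahnSeries.coeff_zero] at this
    rw [HahnSeries.coeff_zero]
    exact hinj (by rw [this, map_zero])
  have hsupp : (coeffEmb Qb x).support = x.support := by
    ext k
    simp only [HahnSeries.mem_support, coeffEmb_coeff, ne_eq]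
    rw [map_eq_zero_iff _ hinj]
  rw [HahnSeries.order_of_ne hx', HahnSeries.order_of_ne hx]
  congr 1

theorem isMonicOfOrder_jq : IsMonicOfOrder jq (-1) := by
  have hne : jq ≠ 0 := jq_ne_zero
  have horder : jq.order = -1 := by
    refine le_antisymm (HahnSeries.order_le_of_coeff_ne_zero ?_) ?_
    · rw [coeff_jq_neg_one]; exact one_ne_zero
    · by_contra hlt
      rw [not_le] at hlt
      apply hne
      rw [← HahnSeries.coeff_order_eq_zero, coeff_jq_of_lt (by omega)]
  exact ⟨horder, by rw [HahnSeries.leadingCoeff_eq, horder, coeff_jq_neg_one]⟩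

variable (N : ℕ) [NeZero N]

/-- **K1.** The order at `∞` is the `q`-adic order. -/
theorem ord_cuspInfty (f : FB N) :
    (cuspInfty N).ord f = (f : LaurentSeries Qb).order := by
  have hσ : Fermat.Agent.S24.H144.Induces (K := Qb) (inclQ N) (cuspInfty N) :=
    Fermat.Agent.S24.H144.induces_placeOfEmb _ _ _
  obtain ⟨g, hg, h⟩ := Fermat.Agent.S24.H144.loc_exists_mult (cuspInfty N) (inclQ N) hσ
  have hj := h (jBar N)
  rw [inclQ_apply, coe_jBar, order_coeffEmb_jq] at hj
  have hg1 : (g : ℤ) = 1 := by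
    have hdvd : (g : ℤ) ∣ 1 := ⟨-(cuspInfty N).ord (jBar N), by linarith⟩
    have hg0 : (0 : ℤ) ≤ g := by positivity
    exact Int.eq_one_of_dvd_one hg0 hdvd
  have hf := h f
  rw [hg1, one_mul, inclQ_apply] at hf
  exact hf.symm

theorem ord_cuspInfty_jBar : (cuspInfty N).ord (jBar N) = -1 := by
  rw [ord_cuspInfty, coe_jBar, order_coeffEmb_jq]

theorem ord_cuspInfty_jLevelBar : (cuspInfty N).ord (jLevelBar N) = -(N : ℤ) := by
  rw [ord_cuspInfty, coe_jLevelBar, order_coeffEmb, (isMonicOfOrder_jq.qExpand N).1]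
  ring

theorem jBar_eq_jFd : jBar N = jFd N 1 (one_dvd N) := by
  apply Subtype.ext
  rw [coe_jBar, coe_jFd, qExpand_one_apply]

theorem jLevelBar_eq_jFd : jLevelBar N = jFd N N dvd_rfl := by
  apply Subtype.ext
  rw [coe_jLevelBar, coe_jFd]

/-- `w j = j(q^N)`. -/
theorem wF_jBar : wF N (jBar N) = jLevelBar N := by
  have hne : NeZero (N / 1) := neZero_div N (one_dvd N)
  rw [jBar_eq_jFd, jLevelBar_eq_jFd]
  have h := wF_jFd N 1 (one_dvd N)
  rw [h]
  apply Subtype.ext
  rw [coe_jFd, coe_jFd]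
  exact congrArg _ (qExpand_congr (Nat.div_one N) jq)

/-- `w j(q^N) = j`. -/
theorem wF_jLevelBar : wF N (jLevelBar N) = jBar N := by
  rw [← wF_jBar, wF_wF]

theorem ord_cuspZero_jBar : (cuspZero N).ord (jBar N) = -(N : ℤ) := by
  rw [ord_cuspZero, wF_jBar, ord_cuspInfty_jLevelBar]

theorem ord_cuspZero_jLevelBar : (cuspZero N).ord (jLevelBar N) = -1 := by
  rw [ord_cuspZero, wF_jLevelBar, ord_cuspInfty_jBar]

theorem cuspZero_ne_cuspInfty (hN : 1 < N) : cuspZero N ≠ cuspInfty N := by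
  intro h
  have h1 := ord_cuspZero_jBar N
  rw [h, ord_cuspInfty_jBar] at h1
  omega

/-- **K9.** The cusp `0` is a pole of `j` different from `∞`. -/
theorem isCuspZero_cuspZero (hN : 1 < N) : Fermat.Agent.S15.Core.IsCuspZero N (cuspZero N) := by
  refine ⟨?_, ?_⟩
  · rw [← cuspInfty_eq_core]
    exact cuspZero_ne_cuspInfty N hN
  · have h : Fermat.Agent.S15.Core.jBar N = jBar N := rfl
    rw [h, ord_cuspZero_jBar]
    have : (0 : ℤ) < N := by exact_mod_cast Nat.pos_of_ne_zero (NeZero.ne N)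
    omega

end Fermat.Agent.S15.H362

end
end
-- ===== PACK-END S15/H362/CuspOrd.lean

-- ===== PACK-BEGIN S15/H482/CuspK.lean
section



/-!
# S15 / piece CUSP, interface v2 (architect helper362): nodes K1, K5, K9 (helper482)

EXACT statements of `H362.CuspSpec`:

* `ord_cuspInfty` (K1) : `ord_∞ f = ord_q f`;
* `eq_algebraMap_of_ord_eq_zero` (K5) : a function without zeros and poles is constant;
* `isCuspZero_cuspZero` (K9) : the cusp `0 = w • ∞` is a pole of `j` different from `∞`.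

Extras: `order_coeffEmb_qExpand_jq`, `ord_cuspInfty_jLevelBar` (`= -p`),
`ord_cuspZero_jBar` (`= -p`), `ord_cuspZero_jLevelBar` (`= -1`), `cuspZero_ne_cuspInfty`.
Everything in this file is sorry-free.
-/

set_option autoImplicit false
set_option synthInstance.maxHeartbeats 400000

noncomputable section

open AlgebraicCurve ModularCurve HahnSeries

namespace Fermat.Agent.S15.H482

open Fermat.Agent.S15.H362 Fermat.Agent.A2.H528

/-! ## K1 : the order at `∞` -/

section Infty

variable (N : ℕ) [NeZero N]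

theorem induces_cuspInfty' : Fermat.Agent.S24.H144.Induces (inclQ N) (H362.cuspInfty N) :=
  Fermat.Agent.S24.H144.induces_placeOfEmb _ _ _

/-- **K1.** The order at `∞` is the `q`-adic order. -/
theorem ord_cuspInfty (f : FB N) :
    (H362.cuspInfty N).ord f = (f : LaurentSeries Qb).order := by
  obtain ⟨g, hg, h⟩ :=
    Fermat.Agent.S24.H144.loc_exists_mult (H362.cuspInfty N) (inclQ N) (induces_cuspInfty' N)
  have hj := h (H362.jBar N)
  rw [inclQ_apply, coe_jBar, order_coeffEmb_jq] at hj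
  have hg1 : g = 1 := by
    have h1 : (g : ℤ) ∣ 1 := ⟨-(H362.cuspInfty N).ord (H362.jBar N), by linarith⟩
    have h2 : (g : ℤ) = 1 := Int.eq_one_of_dvd_one (by positivity) h1
    exact_mod_cast h2
  have hf := h f
  rw [hg1, Nat.cast_one, one_mul, inclQ_apply] at hf
  exact hf.symm

/-- The `q`-order of `j(q^d)` is `-d`. -/
theorem order_coeffEmb_qExpand_jq (d : ℕ) [NeZero d] :
    (coeffEmb Qb (qExpand ℚ d jq)).order = -(d : ℤ) := by
  have hd0 : 0 < (d : ℤ) := by exact_mod_cast Nat.pos_of_ne_zero (NeZero.ne d)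
  have hc : (coeffEmb Qb (qExpand ℚ d jq)).coeff (-(d : ℤ)) = 1 := by
    rw [coeffEmb_coeff, show (-(d : ℤ)) = (d : ℤ) * (-1) by ring, qExpand_coeff_mul,
      coeff_jq_neg_one, map_one]
  have hne : coeffEmb Qb (qExpand ℚ d jq) ≠ 0 := fun h => by
    rw [h] at hc; simp at hc
  refine le_antisymm (HahnSeries.order_le_of_coeff_ne_zero ?_) ?_
  · rw [hc]; exact one_ne_zero
  · by_contra hlt
    rw [not_le] at hlt
    apply hne
    rw [← HahnSeries.coeff_order_eq_zero, coeffEmb_coeff]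
    by_cases hdk : (d : ℤ) ∣ (coeffEmb Qb (qExpand ℚ d jq)).order
    · obtain ⟨m, hm⟩ := hdk
      rw [hm, qExpand_coeff_mul]
      have hm1 : m < -1 := by
        by_contra hge
        rw [not_lt] at hge
        have : (d : ℤ) * (-1) ≤ (d : ℤ) * m := mul_le_mul_of_nonneg_left hge hd0.le
        rw [hm] at hlt
        linarith
      rw [coeff_jq_of_lt hm1, map_zero]
    · rw [qExpand_coeff_of_not_dvd d _ hdk, map_zero]

theorem ord_cuspInfty_jBar : (H362.cuspInfty N).ord (H362.jBar N) = -1 := by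
  rw [_root_.Fermat.Agent.S15.H482.ord_cuspInfty, coe_jBar, order_coeffEmb_jq]

theorem ord_cuspInfty_jLevelBar : (H362.cuspInfty N).ord (jLevelBar N) = -(N : ℤ) := by
  rw [_root_.Fermat.Agent.S15.H482.ord_cuspInfty, coe_jLevelBar, order_coeffEmb_qExpand_jq]

end Infty

/-! ## K5 : functions without zeros and poles are constant -/

section Const

variable (p : ℕ) [NeZero p]

/-- **K5.** A function without zeros and poles is constant. -/
theorem eq_algebraMap_of_ord_eq_zero (f : FB p) (_hf : f ≠ 0)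
    (h : ∀ P : Place Qb (FB p), P.ord f = 0) : ∃ a : Qb, f = algebraMap Qb (FB p) a := by
  have : Fermat.Agent.Lib.RR.FF1 Qb (FB p) :=
    Fermat.Agent.Lib.RR.H864.ff1_modularFunctionFieldBar p
  have hmem : f ∈ riemannRochSpace (0 : Divisor Qb (FB p)) := by
    rw [Fermat.Agent.Lib.RR.mem_L_iff]
    intro v
    right
    rw [h v]
    simp
  rw [Fermat.Agent.Lib.RR.L_zero] at hmem
  obtain ⟨a, ha⟩ := hmem
  exact ⟨a, ha.symm⟩

end Const

/-! ## K9 : the cusp `0` -/

section Zero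

variable (p : ℕ) [NeZero p]

theorem coreJBar_eq : Fermat.Agent.S15.Core.jBar p = H362.jBar p := rfl

theorem jBar_eq_jFd : H362.jBar p = jFd p 1 (one_dvd p) := by
  apply Subtype.ext
  rw [coe_jBar, coe_jFd, qExpand_one_apply]

theorem jLevelBar_eq_jFd : jLevelBar p = jFd p p dvd_rfl := by
  apply Subtype.ext
  rw [coe_jLevelBar, coe_jFd]

omit [NeZero p] in
theorem jFd_congr_of_eq {d d' : ℕ} [NeZero d] [NeZero d'] (hd : d ∣ p) (hd' : d' ∣ p)
    (h : d = d') : jFd p d hd = jFd p d' hd' := by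
  subst h
  rfl

/-- `w j = j_p`. -/
theorem wF_jBar : wF p (H362.jBar p) = jLevelBar p := by
  have := neZero_div p (one_dvd p)
  rw [_root_.Fermat.Agent.S15.H482.jBar_eq_jFd, wF_jFd, _root_.Fermat.Agent.S15.H482.jLevelBar_eq_jFd]
  exact jFd_congr_of_eq p _ _ (Nat.div_one p)

/-- `w j_p = j`. -/
theorem wF_jLevelBar : wF p (jLevelBar p) = H362.jBar p := by
  rw [← _root_.Fermat.Agent.S15.H482.wF_jBar, wF_wF]

/-- `ord_0 j = -p`. -/
theorem ord_cuspZero_jBar : (cuspZero p).ord (H362.jBar p) = -(p : ℤ) := by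
  rw [ord_cuspZero, _root_.Fermat.Agent.S15.H482.wF_jBar, _root_.Fermat.Agent.S15.H482.ord_cuspInfty_jLevelBar]

/-- `ord_0 j_p = -1`. -/
theorem ord_cuspZero_jLevelBar : (cuspZero p).ord (jLevelBar p) = -1 := by
  rw [ord_cuspZero, _root_.Fermat.Agent.S15.H482.wF_jLevelBar, _root_.Fermat.Agent.S15.H482.ord_cuspInfty_jBar]

/-- The two cusps are different (level `≠ 1`). -/
theorem cuspZero_ne_cuspInfty (hp1 : p ≠ 1) : cuspZero p ≠ H362.cuspInfty p := by
  intro h
  have h1 := _root_.Fermat.Agent.S15.H482.ord_cuspZero_jBar p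
  rw [h, _root_.Fermat.Agent.S15.H482.ord_cuspInfty_jBar] at h1
  apply hp1
  have : (p : ℤ) = 1 := by linarith
  exact_mod_cast this

/-- **K9.** The cusp `0` is a pole of `j` different from `∞`. -/
theorem isCuspZero_cuspZero (hp : p.Prime) :
    Fermat.Agent.S15.Core.IsCuspZero p (cuspZero p) := by
  refine ⟨?_, ?_⟩
  · rw [← cuspInfty_eq_core]
    exact _root_.Fermat.Agent.S15.H482.cuspZero_ne_cuspInfty p hp.one_lt.ne'
  · rw [coreJBar_eq, _root_.Fermat.Agent.S15.H482.ord_cuspZero_jBar]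
    have := hp.pos
    omega

end Zero

end Fermat.Agent.S15.H482

end
end
-- ===== PACK-END S15/H482/CuspK.lean

-- ===== PACK-BEGIN S17/H17/Assembly.lean
section




/-!
# S17 (row-lead helper17): the frozen statement S17 from NAMED INPUTS (sorry-free)

`result_of` proves the frozen statement S17 (Mordell–Weil for `J₀(N)`) from

* `hRed  : GoodReductionOutside N S₀`  — `ReductionInputsModL A N` for all `A ∣ ℓ`, `ℓ ∉ S₀`
  (S37 row, `node_rim`);
* `hS18  : InjTorsionOutside N S₀`     — the conclusion of the frozen statement S18 at those `ℓ`;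
* `hTors : Finite (J₀(N)[n])`, `hDiv : J₀(N)(ℚ̄) = n J₀(N)(ℚ̄)`   (tower G);
* `hHM`   — Hermite–Minkowski (piece W-HM);
* `hH    : HasDescentHeight N n`       — a descent height (tower H).

Proved here: W-UNR (`unramified_division_of`: division points of rational points are unramified
outside `S₀ ∪ {ℓ ∣ n}`), the descent step and the wiring.  Landed pieces used:
BASE-1 (`H77.stabilizer_open`), W-KUM (`H857.weakMW_of`), `S37.H697.reductionModL_inertia`.
-/

set_option autoImplicit false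
set_option synthInstance.maxHeartbeats 400000

noncomputable section

namespace Fermat.Agent.S17.H17

open ModularCurve AlgebraicCurve

/-- `ℚ̄` -/
abbrev Qb : Type := AlgebraicClosure ℚ

/-- the absolute Galois group of `ℚ` -/
abbrev GQ : Type := Qb ≃ₐ[ℚ] Qb

/-- The Mordell–Weil group `J₀(N)(ℚ)`. -/
abbrev MW (N : ℕ) : AddSubgroup (JZero N) := FixedPoints.addSubgroup GQ (JZero N)

/-- weak Mordell–Weil for the exponent `n` -/
def WeakMW (N n : ℕ) : Prop := (nsmulAddMonoidHom n : MW N →+ MW N).range.FiniteIndex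

/-- a descent height for the exponent `n` on the Mordell–Weil group -/
def HasDescentHeight (N n : ℕ) : Prop :=
  ∃ (h : MW N → ℝ) (a b c₀ : ℝ) (c : MW N → ℝ), 0 ≤ a ∧ a < b ∧
    (∀ B : ℝ, {x : MW N | h x ≤ B}.Finite) ∧
    (∀ g x : MW N, h x ≤ a * h (g + x) + c g) ∧
    (∀ x : MW N, b * h x - c₀ ≤ h (n • x))

/-- good reduction of `X₀(N)` (existence of a place reduction) at all primes outside `S₀` -/
def GoodReductionOutside (N : ℕ) (S₀ : Finset ℕ) : Prop :=
  ∀ ℓ : ℕ, ℓ.Prime → ℓ ∉ S₀ → ∀ A : ValuationSubring Qb, A.LiesOverPrime ℓ →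
    ReductionInputsModL A N

/-- the conclusion of the frozen statement S18 at all primes outside `S₀` -/
def InjTorsionOutside (N : ℕ) (S₀ : Finset ℕ) : Prop :=
  ∀ ℓ : ℕ, ℓ.Prime → ℓ ∉ S₀ → ∀ A : ValuationSubring Qb, A.LiesOverPrime ℓ →
    ReductionInputsModL A N → ∀ m : ℕ, ¬ ℓ ∣ m → ∀ z : JZero N, m • z = 0 →
      reductionModL A N z = 0 → z = 0

/-- Hermite–Minkowski for the finite set `S` of primes (piece W-HM). -/
def HermiteMinkowski (S : Finset ℕ) : Prop :=
  ∀ d : ℕ, {K : IntermediateField ℚ Qb | FiniteDimensional ℚ K ∧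
    Module.finrank ℚ K ≤ d ∧ ∀ ℓ : ℕ, ℓ.Prime → ℓ ∉ S →
      ∀ A : ValuationSubring Qb, A.LiesOverPrime ℓ → ∀ σ ∈ A.inertiaSubgroupIn ℚ,
        ∀ a ∈ K, σ a = a}.Finite

/-- TOP: descent (Mathlib `AddCommGroup.fg_of_descent`). -/
theorem fg_of_weakMW_of_height (N n : ℕ) (hW : WeakMW N n) (hH : HasDescentHeight N n) :
    AddGroup.FG (MW N) := by
  obtain ⟨h, a, b, c₀, c, ha, hab, hfin, h2, h3⟩ := hH
  have : Northcott h := ⟨hfin⟩
  exact AddCommGroup.fg_of_descent ha hab hW h2 h3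

/-- W-UNR: division points of rational points are unramified at `ℓ ∉ S₀`, `ℓ ∤ n`. -/
theorem unramified_division_of (N : ℕ) [NeZero N] (S₀ : Finset ℕ)
    (hRed : GoodReductionOutside N S₀) (hS18 : InjTorsionOutside N S₀)
    (n : ℕ) (ℓ : ℕ) (hℓ : ℓ.Prime) (hℓS : ℓ ∉ S₀) (hℓn : ¬ ℓ ∣ n)
    (A : ValuationSubring Qb) (hA : A.LiesOverPrime ℓ) (σ : GQ) (hσ : σ ∈ A.inertiaSubgroupIn ℚ)
    (y : JZero N) (hy : n • y ∈ MW N) : σ • y = y := by
  have h := hRed ℓ hℓ hℓS A hA
  have hz : σ • y - y = 0 := by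
    refine hS18 ℓ hℓ hℓS A hA h n hℓn (σ • y - y) ?_ ?_
    · have hfix : σ • (n • y) = n • y := hy σ
      have hcomm : n • (σ • y) = σ • (n • y) :=
        (map_nsmul (DistribSMul.toAddMonoidHom (JZero N) σ) n y).symm
      rw [nsmul_sub, hcomm, hfix, sub_self]
    · rw [map_sub, Fermat.Agent.S37.H697.reductionModL_inertia N A h
        (Fermat.Agent.S37.H697.riemannBound_modular N) σ hσ y, sub_self]
  exact sub_eq_zero.mp hz

/-- unramifiedness of the `n`-division points of rational points outside the finite set `S`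
(the conclusion of piece W-UNR, in the shape consumed by W-KUM) -/
def UnramifiedDivisionOutside (N : ℕ) (n : ℕ) (S : Finset ℕ) : Prop :=
  ∀ ℓ : ℕ, ℓ.Prime → ℓ ∉ S → ∀ A : ValuationSubring Qb, A.LiesOverPrime ℓ →
    ∀ σ ∈ A.inertiaSubgroupIn ℚ, ∀ y : JZero N,
      n • y ∈ FixedPoints.addSubgroup GQ (JZero N) → σ • y = y

/-- W-UNR in the shape `UnramifiedDivisionOutside`, from good reduction and S18. -/
theorem unramifiedDivisionOutside_of (N : ℕ) [NeZero N] (S₀ : Finset ℕ)
    (hRed : GoodReductionOutside N S₀) (hS18 : InjTorsionOutside N S₀) (n : ℕ) (hn : n ≠ 0) :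
    UnramifiedDivisionOutside N n (S₀ ∪ n.primeFactors) := by
  classical
  intro ℓ hℓ hℓS A hA σ hσ y hy
  rw [Finset.mem_union, not_or] at hℓS
  refine unramified_division_of N S₀ hRed hS18 n ℓ hℓ hℓS.1 ?_ A hA σ hσ y hy
  intro hdvd
  exact hℓS.2 (Nat.mem_primeFactors.mpr ⟨hℓ, hdvd, hn⟩)

/-- weak Mordell–Weil from: finite `n`-torsion, `n`-divisibility, unramified division points
outside `S`, Hermite–Minkowski for `S`.  (BASE-1 and W-KUM are on main.) -/
theorem weakMW_of_inputs (N : ℕ) [NeZero N] (n : ℕ) (hn : n ≠ 0)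
    (hTors : Finite (Pic0.torsion Qb (modularFunctionFieldBar N) n))
    (hDiv : ∀ x : JZero N, ∃ y : JZero N, n • y = x)
    (S : Finset ℕ) (hUnr : UnramifiedDivisionOutside N n S) (hHM : HermiteMinkowski S) :
    WeakMW N n :=
  Fermat.Agent.S17.H857.weakMW_of N n hn (Fermat.Agent.S17.H77.stabilizer_open N) hTors hDiv
    S hUnr hHM

/-- **The frozen statement S17 from named inputs** (abstract unramifiedness hypothesis). -/
theorem result_of_unr (N : ℕ) [NeZero N] (n : ℕ) (hn : 2 ≤ n)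
    (hTors : Finite (Pic0.torsion Qb (modularFunctionFieldBar N) n))
    (hDiv : ∀ x : JZero N, ∃ y : JZero N, n • y = x)
    (S : Finset ℕ) (hUnr : UnramifiedDivisionOutside N n S) (hHM : HermiteMinkowski S)
    (hH : HasDescentHeight N n) :
    AddGroup.FG ↥(FixedPoints.addSubgroup ((AlgebraicClosure ℚ) ≃ₐ[ℚ] (AlgebraicClosure ℚ))
      (JZero N)) :=
  fg_of_weakMW_of_height N n (weakMW_of_inputs N n (by omega) hTors hDiv S hUnr hHM) hH

/-- **The frozen statement S17 from named inputs** (good reduction + S18 form). -/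
theorem result_of (N : ℕ) [NeZero N] (S₀ : Finset ℕ)
    (hRed : GoodReductionOutside N S₀) (hS18 : InjTorsionOutside N S₀)
    (n : ℕ) (hn : 2 ≤ n)
    (hTors : Finite (Pic0.torsion Qb (modularFunctionFieldBar N) n))
    (hDiv : ∀ x : JZero N, ∃ y : JZero N, n • y = x)
    (hHM : HermiteMinkowski (S₀ ∪ n.primeFactors))
    (hH : HasDescentHeight N n) :
    AddGroup.FG ↥(FixedPoints.addSubgroup ((AlgebraicClosure ℚ) ≃ₐ[ℚ] (AlgebraicClosure ℚ))
      (JZero N)) :=
  result_of_unr N n hn hTors hDiv _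
    (unramifiedDivisionOutside_of N S₀ hRed hS18 n (by omega)) hHM hH

/-- A descent height for `n = 2` from a nonnegative Northcott function with the approximate
parallelogram law (the output shape of tower H). -/
theorem hasDescentHeight_two_of_parallelogram (N : ℕ) (h : MW N → ℝ) (C : ℝ)
    (h0 : ∀ x, 0 ≤ h x)
    (hpar : ∀ x y : MW N, |h (x + y) + h (x - y) - 2 * (h x + h y)| ≤ C)
    (hfin : ∀ B : ℝ, {x : MW N | h x ≤ B}.Finite) :
    HasDescentHeight N 2 := by
  refine ⟨h, 2, 4, h 0 + C, fun g => 2 * h (-g) + C, by norm_num, by norm_num, hfin, ?_, ?_⟩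
  · intro g x
    have := hpar (g + x) (-g)
    have e1 : g + x + -g = x := by abel
    have e2 : g + x - -g = g + x + g := by abel
    rw [e1, e2, abs_le] at this
    have := h0 (g + x + g)
    linarith [this]
  · intro x
    have := hpar x x
    rw [sub_self, abs_le] at this
    have e : (2 : ℕ) • x = x + x := two_nsmul x
    rw [e]
    linarith [this.1]

end Fermat.Agent.S17.H17

end
end
-- ===== PACK-END S17/H17/Assembly.lean

-- ===== PACK-BEGIN S17/H500/Formal.lean
section











/-!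
# S17 / tower H : the FORMAL layer, assembled (architect helper500)

Everything here is complete (no open leaf):

* `formal P : EndStatement A` for every `P : PairingPackage A`
  (leaves F-B, F-INV `H587`, F-WD, F-QP `H637`, F-ELL `H199`, F-KEY `H924`, F-POS `H934`,
  F-END `H924`);
* `hasDescentHeight_of_package : PairingPackage (MW N) → HasDescentHeight N 2`
  (via `H737.descent_data_of_pairing_height`);
* `hasDescentHeight_of_genus_zero` (via `H80.pic0_eq_zero_of_genusR_eq_zero`);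
* `hasDescentHeight_of_exists_package` : tower H is reduced to the single statement
  `1 ≤ genusR → Nonempty (PairingPackage (MW N))`  (the geometric layer / TOP-GLUE + WALL).
-/

set_option autoImplicit false

noncomputable section

namespace Fermat.Agent.S17.H500

open Fermat.Agent.S17.H17 Fermat.Agent.Lib.RR ModularCurve AlgebraicCurve

/-- **The formal layer of tower H.** Every pairing package yields the hypotheses of the abstract
descent-height lemma `H737.descent_data_of_pairing_height`. -/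
theorem formal {A : Type} [AddCommGroup A] (P : PairingPackage A) : EndStatement A := by
  have hBZ := Fermat.Agent.S17.H587.bz P
  have hInv := Fermat.Agent.S17.H587.inv P hBZ
  obtain ⟨q, hq⟩ := Fermat.Agent.S17.H637.wd P hInv
  obtain ⟨l, hl⟩ := Fermat.Agent.S17.H199.ell P
  exact Fermat.Agent.S17.H924.end_of P q l (Fermat.Agent.S17.H637.qp P hBZ hInv q hq) hl
    (Fermat.Agent.S17.H934.pos P q l hq hl (Fermat.Agent.S17.H924.key P))

/-- A pairing package on the Mordell--Weil group gives the descent height. -/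
theorem hasDescentHeight_of_package (N : ℕ) (P : PairingPackage (MW N)) :
    HasDescentHeight N 2 := by
  obtain ⟨q, l, ν, C, c₁, c₂, hc₁, hq, hl, hν0, hν, hpos⟩ := formal P
  exact Fermat.Agent.S17.H737.descent_data_of_pairing_height q l ν C c₁ c₂ hc₁ hq hl hν0 hν hpos

/-- The trivial descent height on a trivial group. -/
theorem hasDescentHeight_of_subsingleton (N : ℕ) [Subsingleton (MW N)] :
    HasDescentHeight N 2 := by
  refine ⟨fun _ => 0, 0, 1, 0, fun _ => 0, le_refl _, zero_lt_one, ?_, ?_, ?_⟩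
  · intro B
    exact Set.toFinite _
  · intro g x; simp
  · intro x; simp

/-- Genus zero: `J₀(N)` is trivial. -/
theorem hasDescentHeight_of_genus_zero (N : ℕ) [NeZero N]
    (hg0 : genusR (AlgebraicClosure ℚ) (modularFunctionFieldBar N) = 0) :
    HasDescentHeight N 2 := by
  have : Subsingleton (JZero N) :=
    ⟨fun x y => (Fermat.Agent.S17.H80.pic0_eq_zero_of_genusR_eq_zero hg0 x).trans
      (Fermat.Agent.S17.H80.pic0_eq_zero_of_genusR_eq_zero hg0 y).symm⟩
  have : Subsingleton (MW N) := ⟨fun x y => Subtype.ext (Subsingleton.elim _ _)⟩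
  exact hasDescentHeight_of_subsingleton N

/-- **Tower H, reduced to the existence of a pairing package in genus `≥ 1`.** -/
theorem hasDescentHeight_of_exists_package (N : ℕ) [NeZero N]
    (h : 1 ≤ genusR (AlgebraicClosure ℚ) (modularFunctionFieldBar N) →
      Nonempty (PairingPackage (MW N))) :
    HasDescentHeight N 2 := by
  by_cases hg : 1 ≤ genusR (AlgebraicClosure ℚ) (modularFunctionFieldBar N)
  · obtain ⟨P⟩ := h hg
    exact hasDescentHeight_of_package N P
  · exact hasDescentHeight_of_genus_zero N (by omega)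

end Fermat.Agent.S17.H500

end
end
-- ===== PACK-END S17/H500/Formal.lean

-- ===== PACK-BEGIN S15/H962/GeoK.lean
section



/-!
# Row S15, node GEO-PARTS (helper962): the subgroup `K` — FROZEN DEFINITIONS

`GeoPartsStatement p` (`H962/IterRed.lean`) asks, at every multiplicative prime `q ≠ p` and every
place `A ∣ q` of `ℚ̄`, for a subgroup `K` of `J₀(p)` with

* (a) `T K ⊆ K` for the Hecke operators `T_ℓ`, `ℓ ≠ p`;
* (b) `sp₀ = 0` on `K`;
* (c) `D ∈ K` if `Q ∉ E⁰`, `D + c ∈ K` if `Q ∈ E⁰`.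

This file fixes `K := discK p A P₀` once and for all (`v = A.valuation`, multiplicative notation):

* `InDiscZero p A P`  : `P` has values `j(P) = a`, `j_p(P) = a'` with `1 < v a`, `(v a')^p = v a`
  (the residue disc of the cusp `0`, the cusp itself excluded);
* `InDiscInfty p A P` : the same with `v a' = (v a)^p` (the residue disc of the cusp `∞`);
* `discGens p A P₀`   : the classes `cl((P) - (P₀))`, `P` in the first disc, and
  `cl((P) - (∞))`, `P` in the second disc;
* `discK p A P₀`      : the subgroup of `J₀(p)` generated by them.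

Values are `H542.HasValueAt` (`0 < ord_P (f - a)`), functions are `H542.jBar p`, `H542.jNBar p`.
The three statements (a), (b), (c) for this `K` are `PropagationStatement`, `KilledStatement`
(per specialisation map) and helper542's DISC.
-/

set_option autoImplicit false

noncomputable section

open AlgebraicCurve ModularCurve

namespace Fermat.Agent.S15.H962

open Fermat.Agent.S15.Core Fermat.Agent.S15.H542

variable (p : ℕ) [NeZero p]

/-- The residue disc of the cusp `0` at `A` (cusp excluded): `j(P) = a`, `j_p(P) = a'`,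
`1 < v a`, `(v a')^p = v a`. -/
def InDiscZero (A : ValuationSubring (AlgebraicClosure ℚ))
    (P : Place (AlgebraicClosure ℚ) (modularFunctionFieldBar p)) : Prop :=
  ∃ a a' : AlgebraicClosure ℚ, HasValueAt P (H542.jBar p) a ∧ HasValueAt P (jNBar p) a' ∧
    1 < A.valuation a ∧ A.valuation a' ^ p = A.valuation a

/-- The residue disc of the cusp `∞` at `A` (cusp excluded): `j(P) = a`, `j_p(P) = a'`,
`1 < v a`, `v a' = (v a)^p`. -/
def InDiscInfty (A : ValuationSubring (AlgebraicClosure ℚ))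
    (P : Place (AlgebraicClosure ℚ) (modularFunctionFieldBar p)) : Prop :=
  ∃ a a' : AlgebraicClosure ℚ, HasValueAt P (H542.jBar p) a ∧ HasValueAt P (jNBar p) a' ∧
    1 < A.valuation a ∧ A.valuation a' = A.valuation a ^ p

/-- The generators of `K`. -/
def discGens (A : ValuationSubring (AlgebraicClosure ℚ))
    (P₀ : Place (AlgebraicClosure ℚ) (modularFunctionFieldBar p)) : Set (JZero p) :=
  {z | ∃ P, InDiscZero p A P ∧ IsDiffClass P P₀ z} ∪
    {z | ∃ P, InDiscInfty p A P ∧ IsDiffClass P (cuspInfty p) z}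

/-- **The subgroup `K`** of GEO-PARTS. -/
def discK (A : ValuationSubring (AlgebraicClosure ℚ))
    (P₀ : Place (AlgebraicClosure ℚ) (modularFunctionFieldBar p)) : AddSubgroup (JZero p) :=
  AddSubgroup.closure (discGens p A P₀)

variable {p}

theorem mem_discK_of_inDiscZero {A : ValuationSubring (AlgebraicClosure ℚ)}
    {P₀ P : Place (AlgebraicClosure ℚ) (modularFunctionFieldBar p)} {z : JZero p}
    (hP : InDiscZero p A P) (hz : IsDiffClass P P₀ z) : z ∈ discK p A P₀ :=
  AddSubgroup.subset_closure (Or.inl ⟨P, hP, hz⟩)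

theorem mem_discK_of_inDiscInfty {A : ValuationSubring (AlgebraicClosure ℚ)}
    {P₀ P : Place (AlgebraicClosure ℚ) (modularFunctionFieldBar p)} {z : JZero p}
    (hP : InDiscInfty p A P) (hz : IsDiffClass P (cuspInfty p) z) : z ∈ discK p A P₀ :=
  AddSubgroup.subset_closure (Or.inr ⟨P, hP, hz⟩)

/-- A subgroup property holds on `K` as soon as it holds on the generators. -/
theorem discK_le {A : ValuationSubring (AlgebraicClosure ℚ)}
    {P₀ : Place (AlgebraicClosure ℚ) (modularFunctionFieldBar p)} {H : AddSubgroup (JZero p)}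
    (h₀ : ∀ P z, InDiscZero p A P → IsDiffClass P P₀ z → z ∈ H)
    (hInf : ∀ P z, InDiscInfty p A P → IsDiffClass P (cuspInfty p) z → z ∈ H) :
    discK p A P₀ ≤ H := by
  refine (AddSubgroup.closure_le H).mpr ?_
  rintro z (⟨P, hP, hz⟩ | ⟨P, hP, hz⟩)
  · exact h₀ P z hP hz
  · exact hInf P z hP hz

variable (p)

/-- **GEO-PARTS (a), PROPAGATION**: `K` is stable under every `T_ℓ`, `ℓ ≠ p`
(any valuation ring `A` of `ℚ̄`, no condition on the residue characteristic). -/
def PropagationStatement : Prop :=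
  p.Prime → ∀ (A : ValuationSubring (AlgebraicClosure ℚ))
    (P₀ : Place (AlgebraicClosure ℚ) (modularFunctionFieldBar p)), IsCuspZero p P₀ →
    ∀ ℓ : Nat.Primes, (ℓ : ℕ) ≠ p → ∀ z ∈ discK p A P₀, heckeOperatorBar p ℓ z ∈ discK p A P₀

/-- (a) in the form consumed by `GeoPartsStatement`. -/
theorem goodHecke_stable_of_propagation (h : PropagationStatement p) (hp : p.Prime)
    (A : ValuationSubring (AlgebraicClosure ℚ))
    (P₀ : Place (AlgebraicClosure ℚ) (modularFunctionFieldBar p)) (hP₀ : IsCuspZero p P₀)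
    (S : Set ℕ) : ∀ T ∈ goodHecke p S, ∀ z ∈ discK p A P₀, T z ∈ discK p A P₀ := by
  rintro T ⟨ℓ, hℓp, -, rfl⟩ z hz
  exact h hp A P₀ hP₀ ℓ hℓp z hz

/-- **GEO-PARTS (b), IDENTIFICATION**, for one specialisation map `sp₀`: `sp₀` kills `K` as soon
as it kills the classes of the differences of two places in the same residue disc. -/
def KilledBy {X : Type} [AddCommGroup X] (A : ValuationSubring (AlgebraicClosure ℚ))
    (P₀ : Place (AlgebraicClosure ℚ) (modularFunctionFieldBar p)) (sp₀ : JZero p →+ X) : Prop :=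
  ∀ z ∈ discK p A P₀, sp₀ z = 0

variable {p}

theorem killedBy_of_gens {X : Type} [AddCommGroup X]
    {A : ValuationSubring (AlgebraicClosure ℚ)}
    {P₀ : Place (AlgebraicClosure ℚ) (modularFunctionFieldBar p)} {sp₀ : JZero p →+ X}
    (h₀ : ∀ P z, InDiscZero p A P → IsDiffClass P P₀ z → sp₀ z = 0)
    (hInf : ∀ P z, InDiscInfty p A P → IsDiffClass P (cuspInfty p) z → sp₀ z = 0) :
    KilledBy p A P₀ sp₀ := by
  intro z hz
  have : discK p A P₀ ≤ sp₀.ker := discK_le (fun P z hP hz => h₀ P z hP hz)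
    (fun P z hP hz => hInf P z hP hz)
  exact this hz

end Fermat.Agent.S15.H962

end

end
-- ===== PACK-END S15/H962/GeoK.lean

-- ===== PACK-BEGIN S15/H602/ModA1.lean
section




/-!
# S15 / MOD-A1 (helper602): every point of the plane model of `X₀(p)` lifts to a place

`placeOfModularPairStatement : H542.PlaceOfModularPairStatement` — for `(a, a') ∈ ℚ̄²` such that
every polynomial relation over `ℚ` between `j(q)` and `j(q^N)` vanishes at `(a, a')`, there is a
place `P` of `ℚ̄(X₀(N))` with `j(P) = a` and `j_N(P) = a'`.  (Valid for every `N ≥ 1`.)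

Ingredients: `exists_isCentredAt` (Chevalley extension + every valuation ring of a function
field is a place, `Lib.RR.H443.exists_place_eq`), `ev0_eq_zero_of_rational` (linear
disjointness), transcendence of `j` and finiteness of `F / ℚ̄(j)` (S24, via `S18.H84`).
-/

set_option autoImplicit false

noncomputable section

namespace Fermat.Agent.S15.H602

open Polynomial AlgebraicCurve ModularCurve HahnSeries Fermat.Agent.S15.H542

section Coe

variable {K E : Type*} [Field K] [Field E] [Algebra K E] (M : IntermediateField K E)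

/-- `G(x, y)` computed in an intermediate field or in the ambient field. -/
theorem coe_ev (x y : M) (G : K[X][X]) : ((ev x y G : M) : E) = ev (x : E) (y : E) G := by
  have h : (M.val : M →+* E).comp (ev x y) = ev (K := K) (x : E) (y : E) := by
    refine ringHom_ext₂ (fun c => ?_) ?_ ?_
    · simp
    · simp
    · simp
  exact congrArg (fun f : K[X][X] →+* E => f G) h

end Coe

section MvBridge

variable {A : Type*} [CommRing A] [Algebra ℚ A]

/-- evaluation of `MvPolynomial (Fin 2) ℚ` versus evaluation of `ℚ[X][Y]` -/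
theorem mvAeval_equivMvPolynomial (u v : A) (G₀ : ℚ[X][X]) :
    MvPolynomial.aeval ![u, v] (Bivariate.equivMvPolynomial ℚ G₀) =
      eval₂ ((aeval u : ℚ[X] →ₐ[ℚ] A) : ℚ[X] →+* A) v G₀ := by
  have h : (MvPolynomial.aeval ![u, v] : MvPolynomial (Fin 2) ℚ →ₐ[ℚ] A).toRingHom.comp
      (Bivariate.equivMvPolynomial ℚ).toAlgHom.toRingHom =
      eval₂RingHom ((aeval u : ℚ[X] →ₐ[ℚ] A) : ℚ[X] →+* A) v := by
    refine ringHom_ext₂ (fun c => ?_) ?_ ?_
    · simp
    · simp
    · simp
  exact congrArg (fun f : ℚ[X][X] →+* A => f G₀) h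

end MvBridge

/-- An element of `F` with a nonzero `q`-coefficient in degree `k ≠ 0` differs from every
constant. -/
theorem sub_algebraMap_ne_zero {N : ℕ} (u : modularFunctionFieldBar N) (k : ℤ) (hk : k ≠ 0)
    (hu : (u : LaurentSeries (AlgebraicClosure ℚ)).coeff k ≠ 0) (c : AlgebraicClosure ℚ) :
    u - algebraMap (AlgebraicClosure ℚ) (modularFunctionFieldBar N) c ≠ 0 := by
  intro h0
  have h1 : (u : LaurentSeries (AlgebraicClosure ℚ)) =
      algebraMap (AlgebraicClosure ℚ) (LaurentSeries (AlgebraicClosure ℚ)) c := by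
    have := congrArg (Subtype.val) (sub_eq_zero.mp h0)
    simpa using this
  rw [h1, algebraMap_laurentSeries_eq_single, HahnSeries.coeff_single_of_ne hk] at hu
  exact hu rfl

theorem coeff_jBar (N : ℕ) [NeZero N] :
    ((jBar N : modularFunctionFieldBar N) : LaurentSeries (AlgebraicClosure ℚ)).coeff (-1) = 1 := by
  show (coeffEmb (AlgebraicClosure ℚ) jq).coeff (-1) = 1
  rw [coeffEmb_coeff, coeff_jq_neg_one, map_one]

theorem coeff_jNBar (N : ℕ) [NeZero N] :
    ((jNBar N : modularFunctionFieldBar N) : LaurentSeries (AlgebraicClosure ℚ)).coeff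
      ((N : ℤ) * (-1)) = 1 := by
  show (coeffEmb (AlgebraicClosure ℚ) (qExpand ℚ N jq)).coeff ((N : ℤ) * (-1)) = 1
  rw [coeffEmb_coeff, qExpand_coeff_mul, coeff_jq_neg_one, map_one]

theorem jBar_sub_ne_zero (N : ℕ) [NeZero N] (c : AlgebraicClosure ℚ) :
    jBar N - algebraMap (AlgebraicClosure ℚ) (modularFunctionFieldBar N) c ≠ 0 :=
  sub_algebraMap_ne_zero _ (-1) (by norm_num) (by rw [coeff_jBar]; exact one_ne_zero) c

theorem jNBar_sub_ne_zero (N : ℕ) [NeZero N] (c : AlgebraicClosure ℚ) :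
    jNBar N - algebraMap (AlgebraicClosure ℚ) (modularFunctionFieldBar N) c ≠ 0 :=
  sub_algebraMap_ne_zero _ ((N : ℤ) * (-1))
    (by simpa using NeZero.ne N) (by rw [coeff_jNBar]; exact one_ne_zero) c

theorem jBar_not_mem_range (N : ℕ) [NeZero N] :
    jBar N ∉ (algebraMap (AlgebraicClosure ℚ) (modularFunctionFieldBar N)).range := by
  rintro ⟨c, hc⟩
  exact jBar_sub_ne_zero N c (by rw [hc, sub_self])

/-- `IsModularPair` gives a point of the plane model over `ℚ̄` in the sense of `IsPointOf`. -/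
theorem isPointOf_of_isModularPair (N : ℕ) [NeZero N] {a a' : AlgebraicClosure ℚ}
    (h : IsModularPair N a a') : IsPointOf (jBar N) (jNBar N) a a' := by
  intro G hG
  refine ev0_eq_zero_of_rational jq (qExpand ℚ N jq) a a' (fun G₀ hG₀ => ?_) G ?_
  · rw [ev0_bc_eq, ← mvAeval_equivMvPolynomial]
    apply h
    rw [mvAeval_equivMvPolynomial]
    exact hG₀
  · have := congrArg (Subtype.val) hG
    rw [coe_ev] at this
    exact this

/-- **MOD-A1.**  Every point of the plane model lifts to a place (any level `N ≥ 1`). -/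
theorem exists_place_of_isModularPair (N : ℕ) [NeZero N] {a a' : AlgebraicClosure ℚ}
    (h : IsModularPair N a a') :
    ∃ P : Place (AlgebraicClosure ℚ) (modularFunctionFieldBar N),
      HasValueAt P (jBar N) a ∧ HasValueAt P (jNBar N) a' := by
  obtain ⟨hT, hFD⟩ :=
    S18.H84.finiteDimensional_adjoin_modularFunctionFieldBar N (jBar N) (jBar_not_mem_range N)
  obtain ⟨P, hP⟩ := exists_isCentredAt hT (isPointOf_of_isModularPair N h)
  exact ⟨P, (S24.FF.ord_pos_iff_mem_nonunits P (jBar_sub_ne_zero N a)).mpr hP.hx,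
    (S24.FF.ord_pos_iff_mem_nonunits P (jNBar_sub_ne_zero N a')).mpr hP.hy⟩

/-- **MOD-A1** in the exact shape of the interface. -/
theorem placeOfModularPairStatement : PlaceOfModularPairStatement :=
  fun p _ _ _ _ h => exists_place_of_isModularPair p h

end Fermat.Agent.S15.H602

end
end
-- ===== PACK-END S15/H602/ModA1.lean

-- ===== PACK-BEGIN S15/H542/ModNode.lean
section





/-!
# S15, piece MOD: THE NODE, unconditional (helper542, architect)

`moduliPlace : ModuliPlaceStatement`.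

For a prime `p ≥ 5`, an integral Weierstrass curve `W` with `2 ∣ Δ`, `2 ∤ c₄`, and a Galois-fixed
point `Q ∈ E(ℚ̄)` of order `p`: Vélu's curve `E' = E/⟨Q⟩` is nonsingular with rational
`j`-invariant, and there is a Galois-fixed place `P` of the function field of `X₀(p)` over `ℚ̄`
with `j(P) = j(E)` and `j_p(P) = j(E')`.

Pieces: MOD-V, GLUE, MOD-A2 (helper542); MOD-A1 (helper602); MOD-B (helper215, with B3 by
helper902, addition theorem by helper226, modular shape of `Φ_p` by helper386, Newton polygon by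
helper962).
-/

set_option autoImplicit false

namespace Fermat.Agent.S15.H542

/-- **The MOD node.** -/
theorem moduliPlace : ModuliPlaceStatement :=
  moduliPlace_of_pieces Fermat.Agent.S15.H602.placeOfModularPairStatement placeUnique
    Fermat.Agent.S15.H215.veluModularPair

end Fermat.Agent.S15.H542

end
-- ===== PACK-END S15/H542/ModNode.lean

-- ===== PACK-BEGIN S15/H962/IterRed.lean
section


/-!
# Row S15, node GEO (helper962): kernel stability under Hecke operators is FORMAL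

The node `Core.GeoStatement p` of `Fermat/Agent/S15/Core/Top.lean` asks, at every multiplicative
prime `q ≠ p`, for a specialisation map `sp` of `J₀(p)` which is

* (i)  injective on torsion of order prime to `q`,
* (ii) with kernel stable under every `T_ℓ`, `ℓ ≠ p, q`,

and such that `sp D = 0`, resp. `sp (D + c) = 0`.

The geometric reduction `sp₀ = reductionModL A M ∘ π^*` supplied by rows S18/S37 is only known to
satisfy (i).  (The frozen S37 does NOT contain a genuine Hecke-compatibility of the reduction: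
its field `hecke_comm` is obtained by the same formal trick as below, and `node_wrd` only
contains the relation for the one operator `T_q` at the residue characteristic `q`.)

This file shows that (ii) costs nothing.  Replace `sp₀` by
`iterSp q sp₀ : z ↦ (h ↦ sp₀ (h z))`, `h` running over all words in the `T_ℓ`, `ℓ ≠ p, q`.  Then

* `iterSp_inj`, `iterSp_hecke` : `iterSp q sp₀` satisfies (i) and (ii) as soon as `sp₀` has (i);
* `iterSp_eq_zero_of_mem`      : `iterSp q sp₀` kills every element of a subgroup `K` of `J₀(p)`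
  which is stable under the `T_ℓ` and killed by `sp₀`.

Consequently (`geoStatement_of_geoParts`) the node GEO follows from `GeoPartsStatement p`: at
each multiplicative prime there is a Hecke-stable subgroup `K` of `J₀(p)` killed by `sp₀`
(`K` = the classes of the divisors `∑ ((P_i) - (P₀))`, `P_i` in the residue disc of the cusp `0`,
plus the same for the cusp `∞`), with `D ∈ K` if `Q ∉ E⁰` and `D + c ∈ K` if `Q ∈ E⁰`.
-/

set_option autoImplicit false

noncomputable section

open AlgebraicCurve ModularCurve WeierstrassCurve WeierstrassCurve.Affine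

namespace Fermat.Agent.S15.H962

open Fermat.Agent.S15.Core

variable {p : ℕ} [NeZero p]

/-- The multiplicative monoid of all words in the Hecke operators `T_ℓ`, `ℓ ≠ p`, `ℓ ≠ q`. -/
def heckeWords (p q : ℕ) [NeZero p] : Submonoid (Module.End ℤ (JZero p)) :=
  Submonoid.closure (goodHecke p {q})

/-- The iterated specialisation map `z ↦ (h ↦ sp₀ (h z))`, `h` a Hecke word. -/
def iterSp (q : ℕ) {X : Type} [AddCommGroup X] (sp₀ : JZero p →+ X) :
    JZero p →+ (heckeWords p q → X) where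
  toFun z h := sp₀ ((h : Module.End ℤ (JZero p)) z)
  map_zero' := by
    funext h
    simp
  map_add' x y := by
    funext h
    simp

@[simp] theorem iterSp_apply (q : ℕ) {X : Type} [AddCommGroup X] (sp₀ : JZero p →+ X)
    (z : JZero p) (h : heckeWords p q) :
    iterSp q sp₀ z h = sp₀ ((h : Module.End ℤ (JZero p)) z) := rfl

theorem iterSp_eq_zero_iff {q : ℕ} {X : Type} [AddCommGroup X] {sp₀ : JZero p →+ X}
    {z : JZero p} :
    iterSp q sp₀ z = 0 ↔ ∀ h ∈ heckeWords p q, sp₀ (h z) = 0 := by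
  constructor
  · intro hz h hh
    exact congrFun hz ⟨h, hh⟩
  · intro hz
    funext h
    exact hz h h.2

/-- `iterSp` kills `z` only if `sp₀` does. -/
theorem sp_eq_zero_of_iterSp_eq_zero {q : ℕ} {X : Type} [AddCommGroup X]
    {sp₀ : JZero p →+ X} {z : JZero p} (hz : iterSp q sp₀ z = 0) : sp₀ z = 0 := by
  have := iterSp_eq_zero_iff.mp hz 1 (one_mem _)
  simpa using this

/-- (i) is inherited by the iterated specialisation. -/
theorem iterSp_inj {q : ℕ} {X : Type} [AddCommGroup X] {sp₀ : JZero p →+ X}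
    (hinj : ∀ (m : ℕ) (z : JZero p), ¬ q ∣ m → m • z = 0 → sp₀ z = 0 → z = 0)
    (m : ℕ) (z : JZero p) (hm : ¬ q ∣ m) (hmz : m • z = 0) (hz : iterSp q sp₀ z = 0) : z = 0 :=
  hinj m z hm hmz (sp_eq_zero_of_iterSp_eq_zero hz)

/-- **(ii) is formal**: the kernel of the iterated specialisation is stable under the `T_ℓ`. -/
theorem iterSp_hecke {q : ℕ} {X : Type} [AddCommGroup X] (sp₀ : JZero p →+ X)
    (T : Module.End ℤ (JZero p)) (hT : T ∈ goodHecke p {q}) (z : JZero p)
    (hz : iterSp q sp₀ z = 0) : iterSp q sp₀ (T z) = 0 := by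
  rw [iterSp_eq_zero_iff] at hz ⊢
  intro h hh
  have hmem : h * T ∈ heckeWords p q := mul_mem hh (Submonoid.subset_closure hT)
  have := hz _ hmem
  rwa [Module.End.mul_apply] at this

/-- A subgroup stable under the `T_ℓ` is stable under all Hecke words. -/
theorem mem_of_mem_heckeWords {q : ℕ} (K : AddSubgroup (JZero p))
    (hK : ∀ T ∈ goodHecke p {q}, ∀ z ∈ K, T z ∈ K)
    {h : Module.End ℤ (JZero p)} (hh : h ∈ heckeWords p q) : ∀ z ∈ K, h z ∈ K := by
  unfold heckeWords at hh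
  induction hh using Submonoid.closure_induction with
  | mem T hT => exact hK T hT
  | one =>
    intro z hz
    simpa using hz
  | mul a b _ _ ha hb =>
    intro z hz
    rw [Module.End.mul_apply]
    exact ha _ (hb z hz)

/-- The iterated specialisation kills every Hecke-stable subgroup killed by `sp₀`. -/
theorem iterSp_eq_zero_of_mem {q : ℕ} {X : Type} [AddCommGroup X] {sp₀ : JZero p →+ X}
    (K : AddSubgroup (JZero p))
    (hK : ∀ T ∈ goodHecke p {q}, ∀ z ∈ K, T z ∈ K)
    (hsp : ∀ z ∈ K, sp₀ z = 0) {z : JZero p} (hz : z ∈ K) : iterSp q sp₀ z = 0 :=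
  iterSp_eq_zero_iff.mpr fun _ hh => hsp _ (mem_of_mem_heckeWords K hK hh z hz)

variable (p)

/-- **Sub-node GEO-PARTS**: what GE-1 + GE-2 + GE-3 really have to deliver.

Same as `Core.GeoStatement p`, except that at each multiplicative prime `q ≠ p`, `A ∣ q`, we ask for

* an additive map `sp₀` out of `J₀(p)` which is injective on torsion of order prime to `q`
  (`reductionModL A M ∘ π^*`, `M = p` for `q ≥ 5`, `M = 3p` for `q = 2`, `M = 2p` for `q = 3`:
  frozen S18 at level `M` + `π_* π^* = deg π`);  NO Hecke-compatibility of `sp₀` is required;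
* a subgroup `K` of `J₀(p)`, stable under all `T_ℓ` (`ℓ ≠ p, q`) and killed by `sp₀`;
* `D ∈ K` if `Q ∉ E⁰`, and `D + c ∈ K` if `Q ∈ E⁰`. -/
def GeoPartsStatement : Prop :=
  ∀ (W : WeierstrassCurve ℤ), W.Δ ≠ 0 →
  ∀ (Q : ((W.map (Int.castRingHom ℚ))⁄(AlgebraicClosure ℚ)).Point),
    (∀ σ : AlgebraicClosure ℚ ≃ₐ[ℚ] AlgebraicClosure ℚ, σ • Q = Q) → addOrderOf Q = p →
  ∀ (P₀ : Place (AlgebraicClosure ℚ) (modularFunctionFieldBar p)) (c : JZero p),
    IsCuspZero p P₀ → IsDiffClass P₀ (cuspInfty p) c →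
  ∃ D : JZero p, (∀ σ : AlgebraicClosure ℚ ≃ₐ[ℚ] AlgebraicClosure ℚ, σ • D = D) ∧
    ∀ q : ℕ, q.Prime → q ≠ p → (q : ℤ) ∣ W.Δ → ¬ (q : ℤ) ∣ W.c₄ →
    ∀ A : ValuationSubring (AlgebraicClosure ℚ), A.LiesOverPrime q →
    ∃ (X : Type) (_ : AddCommGroup X) (sp₀ : JZero p →+ X) (K : AddSubgroup (JZero p)),
      (∀ (m : ℕ) (z : JZero p), ¬ q ∣ m → m • z = 0 → sp₀ z = 0 → z = 0) ∧
      (∀ T ∈ goodHecke p {q}, ∀ z ∈ K, T z ∈ K) ∧
      (∀ z ∈ K, sp₀ z = 0) ∧
      (¬ W.InZeroComponentAt A Q → D ∈ K) ∧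
      (W.InZeroComponentAt A Q → D + c ∈ K)

/-- **GEO from GEO-PARTS** (formal). -/
theorem geoStatement_of_geoParts (h : GeoPartsStatement p) : _root_.Fermat.Agent.S15.Core.GeoStatement p := by
  intro W hΔ Q hQfix hQord P₀ c hP₀ hc
  obtain ⟨D, hDfix, hD⟩ := h W hΔ Q hQfix hQord P₀ c hP₀ hc
  refine ⟨D, hDfix, ?_⟩
  intro q hq hqp hqΔ hqc₄ A hA
  obtain ⟨X, instX, sp₀, K, hinj, hK, hsp, hD₀, hDinf⟩ := hD q hq hqp hqΔ hqc₄ A hA
  exact ⟨heckeWords p q → X, inferInstance, iterSp q sp₀, iterSp_inj hinj,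
    fun T hT z hz => iterSp_hecke sp₀ T hT z hz,
    fun hQ => iterSp_eq_zero_of_mem K hK hsp (hD₀ hQ),
    fun hQ => iterSp_eq_zero_of_mem K hK hsp (hDinf hQ)⟩

end Fermat.Agent.S15.H962

end

end
-- ===== PACK-END S15/H962/IterRed.lean

-- ===== PACK-BEGIN S15/H322/StepCoord.lean
section




/-!
# Row S15 — DESC leaf STEP, part 1 (helper322): coordinates on an Eisenstein piece

Frozen skeleton: `Fermat/Agent/S15/H975/DescSpec.lean`, `DescSpec2.lean` (`StepStatement`).
For an Eisenstein piece `F' ≤ F ≤ J₀(p)[r]` (`IsEisPiece`), `e ∈ F`, `e ∉ F'`: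

* `exists_gen_of_relIndex`   : such an `e` exists;
* `exists_coeff_of_relIndex` : every `x ∈ F` is `≡ n e mod F'` for some `n : ZMod r`;
* `exists_hasCoord`          : every `y ∈ Y(F)` has a coordinate (`H322.HasCoord`);
* `hasLevel_jzero`           : every point of `J₀(p)` has finite level (`S17.H126`);
* `HasCoord.eq_zero_of_sub_mem` : `τ y - y ∈ F'` ⟹ the coordinate vanishes at `τ`;
* `fixIndex_ne_zero`, `fixIndex_eq_of_triv` : `g ≥ 1`, and `g = r` for a trivial action;
* `selIndex_*`               : the index `s = [Y(F) : Y(F') + F]` from a bound on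
                               `{w ∈ Y(F) | KumIn F' w}`.
-/

set_option autoImplicit false
set_option linter.unusedSectionVars false
set_option linter.style.haveILetI false

namespace Fermat.Agent.S15.H322

open Fermat.Agent.S56 Fermat.Agent.S56.H786 Fermat.Agent.S15.H975 ModularCurve

section Abstract

variable {J : Type*} [AddCommGroup J] [DistribMulAction GQ J]

/-- A subgroup of prime relative index is proper. -/
theorem exists_gen_of_relIndex {F' F : AddSubgroup J} {r : ℕ} (hr : r.Prime)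
    (hidx : F'.relIndex F = r) : ∃ e ∈ F, e ∉ F' := by
  by_contra hcon
  push Not at hcon
  have hle : F ≤ F' := fun x hx => hcon x hx
  rw [AddSubgroup.relIndex_eq_one.mpr hle] at hidx
  exact hr.one_lt.ne hidx

/-- In a piece of prime index every element is a multiple of the generator. -/
theorem exists_coeff_of_relIndex {F' F : AddSubgroup J} {r : ℕ} (hr : r.Prime)
    (hidx : F'.relIndex F = r) {e : J} (heF : e ∈ F) (he : e ∉ F') (hre : r • e ∈ F')
    {x : J} (hx : x ∈ F) : ∃ n : ZMod r, x - n.val • e ∈ F' := by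
  haveI : Fact r.Prime := ⟨hr⟩
  haveI : NeZero r := ⟨hr.ne_zero⟩
  have hcard : Nat.card (F ⧸ F'.addSubgroupOf F) = r := hidx
  set ebar : F ⧸ F'.addSubgroupOf F := QuotientAddGroup.mk (⟨e, heF⟩ : F) with hebar
  have hebar0 : ebar ≠ 0 := by
    intro h0
    rw [hebar, QuotientAddGroup.eq_zero_iff] at h0
    exact he h0
  have htop := zmultiples_eq_top_of_prime_card hcard hebar0
  have hmem : (QuotientAddGroup.mk (⟨x, hx⟩ : F) : F ⧸ F'.addSubgroupOf F) ∈
      AddSubgroup.zmultiples ebar := by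
    rw [htop]; exact AddSubgroup.mem_top _
  obtain ⟨k, hk⟩ := AddSubgroup.mem_zmultiples_iff.mp hmem
  have h1 : x - k • e ∈ F' := by
    have h2 : (QuotientAddGroup.mk (k • (⟨e, heF⟩ : F)) : F ⧸ F'.addSubgroupOf F) =
        QuotientAddGroup.mk (⟨x, hx⟩ : F) := by
      rw [← hk]; rfl
    rw [QuotientAddGroup.eq] at h2
    have h3 : ((-(k • (⟨e, heF⟩ : F)) + (⟨x, hx⟩ : F) : F) : J) ∈ F' := h2
    have h4 : ((-(k • (⟨e, heF⟩ : F)) + (⟨x, hx⟩ : F) : F) : J) = x - k • e := by
      push_cast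
      abel
    rwa [h4] at h3
  refine ⟨(k : ZMod r), ?_⟩
  have h5 := val_smul_sub_zsmul_mem hr he hre (k : ZMod r) k rfl
  have h6 : x - ((k : ZMod r)).val • e = (x - k • e) - (((k : ZMod r)).val • e - k • e) := by
    abel
  rw [h6]
  exact F'.sub_mem h1 h5

end Abstract

section Coord

variable {J : Type*} [AddCommGroup J] [DistribMulAction GQ J]
variable {r : ℕ} {F' : AddSubgroup J} {e : J}

/-- If `τ y - y ∈ F'`, the coordinate of `y` vanishes at `τ`. -/
theorem HasCoord.eq_zero_of_sub_mem (hr : r.Prime) (he : e ∉ F') (hre : r • e ∈ F') {y : J}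
    {f : GQ → ZMod r} (hf : HasCoord r F' e y f) {τ : GQ} (hy : τ • y - y ∈ F') :
    f τ = 0 := by
  haveI : NeZero r := ⟨hr.ne_zero⟩
  have h1 := F'.sub_mem hy (hf τ)
  have h2 : τ • y - y - (τ • y - y - (f τ).val • e) = (((f τ).val : ℤ)) • e := by
    rw [natCast_zsmul]; abel
  rw [h2, zsmul_mem_iff hr he hre] at h1
  rwa [Int.cast_natCast, ZMod.natCast_zmod_val] at h1

/-- If the coordinate of `y` vanishes at `τ`, then `τ y - y ∈ F'`. -/
theorem HasCoord.sub_mem_of_eq_zero [NeZero r] {y : J}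
    {f : GQ → ZMod r} (hf : HasCoord r F' e y f) {τ : GQ} (h0 : f τ = 0) :
    τ • y - y ∈ F' := by
  have := hf τ
  rwa [h0, ZMod.val_zero, zero_smul, sub_zero] at this

/-- If the coordinate of `y` vanishes identically, all Kummer values of `y` lie in `F'`. -/
theorem HasCoord.kumIn_of_eq_zero [NeZero r] {y : J}
    {f : GQ → ZMod r} (hf : HasCoord r F' e y f) (h0 : ∀ σ, f σ = 0) : KumIn F' y :=
  fun σ => hf.sub_mem_of_eq_zero (h0 σ)

end Coord

section JZero

variable {p : ℕ} [NeZero p]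

/-- Every point of `J₀(p)` has finite level. -/
theorem hasLevel_jzero (y : JZero p) : HasLevel y :=
  Fermat.Agent.S17.H126.stabilizer_open p y

theorem sel_mono (r : ℕ) {F F₂ : AddSubgroup (JZero p)} (h : F ≤ F₂) :
    sel p r F ≤ sel p r F₂ :=
  fun _ hy => ⟨hy.1, fun σ => h (hy.2 σ)⟩

theorem mem_sel_iff {r : ℕ} {F : AddSubgroup (JZero p)} {y : JZero p} :
    y ∈ sel p r F ↔ (∀ σ : _root_.Fermat.Agent.S15.H975.Gal, σ • (r • y) = r • y) ∧ ∀ σ : _root_.Fermat.Agent.S15.H975.Gal, σ • y - y ∈ F :=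
  Iff.rfl

theorem mem_tors_iff {r : ℕ} {w : JZero p} : w ∈ tors p r ↔ r • w = 0 := Iff.rfl

theorem eis_le_tors_h322 (S : Set ℕ) (r : ℕ) : eis p S r ≤ tors p r := fun _ hw => hw.1

/-- A Galois-stable subgroup of `J[r]` lies in its own Selmer group. -/
theorem le_sel_of_stable {r : ℕ} {F : AddSubgroup (JZero p)} (hst : IsStable p F)
    (hF : F ≤ tors p r) : F ≤ sel p r F := by
  intro f hf
  refine ⟨fun σ => ?_, fun σ => F.sub_mem (hst σ f hf) hf⟩
  rw [mem_tors_iff.mp (hF hf)]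
  exact smul_zero (M := _root_.Fermat.Agent.S15.H975.Gal) (A := JZero p) σ

/-- A subgroup `F ≤ J[r]` on which the Galois group acts trivially modulo `F'` lies in `Y(F')`. -/
theorem le_sel_of_triv {r : ℕ} {F' F : AddSubgroup (JZero p)} (hF : F ≤ tors p r)
    (htriv : ∀ σ : _root_.Fermat.Agent.S15.H975.Gal, ∀ f ∈ F, σ • f - f ∈ F') : F ≤ sel p r F' := by
  intro f hf
  refine ⟨fun σ => ?_, fun σ => htriv σ f hf⟩
  rw [mem_tors_iff.mp (hF hf)]
  exact smul_zero (M := _root_.Fermat.Agent.S15.H975.Gal) (A := JZero p) σ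

/-- Every point of `Y(F)` has a coordinate on the piece `F / F'`. -/
theorem exists_hasCoord {r : ℕ} (hr : r.Prime) {F' F : AddSubgroup (JZero p)}
    (hidx : F'.relIndex F = r) {e : JZero p} (heF : e ∈ F) (he : e ∉ F') (hre : r • e ∈ F')
    {y : JZero p} (hy : y ∈ sel p r F) : ∃ f : GQ → ZMod r, HasCoord r F' e y f := by
  have h : ∀ σ : GQ, ∃ n : ZMod r, σ • y - y - n.val • e ∈ F' := fun σ =>
    exists_coeff_of_relIndex hr hidx heF he hre (hy.2 σ)
  choose f hf using h
  exact ⟨f, hf⟩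

/-- `g = [F ∩ Y(F') : F'] ≠ 0` and divides `r`. -/
theorem fixIndex_dvd {r : ℕ} {F' F : AddSubgroup (JZero p)} (hle : F' ≤ F)
    (hst : IsStable p F') (hF : F ≤ tors p r) (hidx : F'.relIndex F = r) :
    fixIndex p r F' F ∣ r := by
  have h1 : F' ≤ F ⊓ sel p r F' := le_inf hle (le_sel_of_stable hst (hle.trans hF))
  have h2 := AddSubgroup.relIndex_mul_relIndex F' (F ⊓ sel p r F') F h1 inf_le_left
  rw [hidx] at h2
  exact Dvd.intro _ h2

theorem fixIndex_pos {r : ℕ} (hr : r.Prime) {F' F : AddSubgroup (JZero p)} (hle : F' ≤ F)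
    (hst : IsStable p F') (hF : F ≤ tors p r) (hidx : F'.relIndex F = r) :
    1 ≤ fixIndex p r F' F :=
  Nat.pos_of_dvd_of_pos (fixIndex_dvd hle hst hF hidx) hr.pos

/-- `g = r` for a piece with trivial action. -/
theorem fixIndex_eq_of_triv {r : ℕ} {F' F : AddSubgroup (JZero p)} (hF : F ≤ tors p r)
    (hidx : F'.relIndex F = r) (htriv : ∀ σ : _root_.Fermat.Agent.S15.H975.Gal, ∀ f ∈ F, σ • f - f ∈ F') :
    fixIndex p r F' F = r := by
  have h1 : F ⊓ sel p r F' = F := inf_eq_left.mpr (le_sel_of_triv hF htriv)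
  show F'.relIndex (F ⊓ sel p r F') = r
  rw [h1, hidx]

/-- The points of `Y(F)` with Kummer values in `F'` lie in `Y(F') + F`. -/
theorem mem_sup_of_kumIn {r : ℕ} {F' F : AddSubgroup (JZero p)} {w : JZero p}
    (hw : w ∈ sel p r F) (hk : KumIn F' w) : w ∈ sel p r F' ⊔ F :=
  AddSubgroup.mem_sup_left ⟨hw.1, hk⟩

/-- `s = 1` as soon as `Y(F) ≤ Y(F') + F`. -/
theorem selIndex_eq_one_of_le {r : ℕ} {F' F : AddSubgroup (JZero p)}
    (h : sel p r F ≤ sel p r F' ⊔ F) : selIndex p r F' F = 1 :=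
  AddSubgroup.relIndex_eq_one.mpr h

end JZero

end Fermat.Agent.S15.H322

end
-- ===== PACK-END S15/H322/StepCoord.lean

-- ===== PACK-BEGIN S12/H111/GeoSub.lean
section


/-!
# Rows S15 / S12: the node GEO for Galois-STABLE SUBGROUPS, and the dual TOP (helper111)

`Fermat.Agent.S15.Core.GeoStatement p` (row S15, on main) is stated for a Galois-FIXED point `Q`
of order `p`.  Every ingredient of its proof (the moduli place of `(E, ⟨Q⟩)`, Vélu's `j`-invariant,
the value of the modular unit, the reduction of the moduli point at a multiplicative prime)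
depends only on the SUBGROUP `⟨Q⟩`.  We therefore state

* `GeoSubStatement p` : the same node for a point `Q` of order `p` generating a Galois-STABLE
  subgroup (`σ • Q ∈ ⟨Q⟩` for all `σ`);
* `geo_of_geoSub : GeoSubStatement p → GeoStatement p` (so row S15 loses nothing by proving the
  subgroup form);
* `inZero_of_nodes` : the `w_p`-DUAL of `S15.Core.s15_of_nodes`: if `⟨Q⟩` is Galois-stable of order
  `p`, `W` is multiplicative at `2`, `3` with `Q` IN the identity component there, then `Q` is in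
  the identity component at every multiplicative prime `ℓ ≡ ±1 mod p`.

Consequence for row S12 (one-step route, `coord/S12-route-helper111.md`, helper291's
`S12/H291/OneStep.lean`): the node "the cofixed line `N` of the Frey curve is toric at every odd bad
prime" follows from `CuspStatement + GeoSubStatement + DescentStatement` applied to the Frey
curve ITSELF with `Q` a generator of `N`.  No quotient curve `E/N`, no Vélu isogeny, no frozen
S15 applied to `E/N` is needed.

Everything in this file is sorry-free; the nodes are hypotheses.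
-/

set_option autoImplicit false

noncomputable section

open AlgebraicCurve ModularCurve WeierstrassCurve WeierstrassCurve.Affine

namespace Fermat.Agent.S12.H111

open Fermat.Agent.S15.Core

/-- **NODE GEO, subgroup form.**  As `S15.Core.GeoStatement`, but `Q` is only assumed to
generate a Galois-stable subgroup. -/
def GeoSubStatement (p : ℕ) [NeZero p] : Prop :=
  ∀ (W : WeierstrassCurve ℤ), W.Δ ≠ 0 →
  ∀ (Q : ((W.map (Int.castRingHom ℚ))⁄(AlgebraicClosure ℚ)).Point),
    (∀ σ : AlgebraicClosure ℚ ≃ₐ[ℚ] AlgebraicClosure ℚ, σ • Q ∈ AddSubgroup.zmultiples Q) →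
    addOrderOf Q = p →
  ∀ (P₀ : Place (AlgebraicClosure ℚ) (modularFunctionFieldBar p)) (c : JZero p),
    IsCuspZero p P₀ → IsDiffClass P₀ (cuspInfty p) c →
  ∃ D : JZero p, (∀ σ : AlgebraicClosure ℚ ≃ₐ[ℚ] AlgebraicClosure ℚ, σ • D = D) ∧
    ∀ q : ℕ, q.Prime → q ≠ p → (q : ℤ) ∣ W.Δ → ¬ (q : ℤ) ∣ W.c₄ →
    ∀ A : ValuationSubring (AlgebraicClosure ℚ), A.LiesOverPrime q →
    ∃ (X : Type) (_ : AddCommGroup X) (sp : JZero p →+ X),
      (∀ (m : ℕ) (z : JZero p), ¬ q ∣ m → m • z = 0 → sp z = 0 → z = 0) ∧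
      (∀ T ∈ goodHecke p {q}, ∀ z : JZero p, sp z = 0 → sp (T z) = 0) ∧
      (¬ W.InZeroComponentAt A Q → sp D = 0) ∧
      (W.InZeroComponentAt A Q → sp (D + c) = 0)

/-- The subgroup form implies the point form used by `S15.Core.s15_of_nodes`. -/
theorem geo_of_geoSub {p : ℕ} [NeZero p] (h : GeoSubStatement p) : GeoStatement p := by
  intro W hΔ Q hQfix hQord P₀ c hP₀ hc
  refine h W hΔ Q (fun σ => ?_) hQord P₀ c hP₀ hc
  rw [hQfix σ]
  exact AddSubgroup.mem_zmultiples Q

/-- **Dual TOP.**  From the three nodes (GEO in subgroup form): a point `Q` of order `p`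
generating a Galois-stable subgroup, lying IN the identity component at `2` and at `3`
(both multiplicative), lies in the identity component at every multiplicative prime
`ℓ ≠ p` with `ℓ ≡ ±1 mod p`. -/
theorem inZero_of_nodes
    {p : ℕ} (hp : p.Prime) (hp2 : p ≠ 2) (hp3 : p ≠ 3)
    (hCusp : haveI : NeZero p := ⟨hp.ne_zero⟩; CuspStatement p)
    (hGeo : haveI : NeZero p := ⟨hp.ne_zero⟩; GeoSubStatement p)
    (hDesc : haveI : NeZero p := ⟨hp.ne_zero⟩; DescentStatement p)
    (W : WeierstrassCurve ℤ) (hΔ : W.Δ ≠ 0)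
    (Q : ((W.map (Int.castRingHom ℚ))⁄(AlgebraicClosure ℚ)).Point)
    (hQstab : ∀ σ : AlgebraicClosure ℚ ≃ₐ[ℚ] AlgebraicClosure ℚ,
      σ • Q ∈ AddSubgroup.zmultiples Q)
    (hQord : addOrderOf Q = p)
    (h2Δ : (2 : ℤ) ∣ W.Δ) (h2c₄ : ¬ (2 : ℤ) ∣ W.c₄)
    (h2 : ∀ A : ValuationSubring (AlgebraicClosure ℚ), A.LiesOverPrime 2 →
      W.InZeroComponentAt A Q)
    (h3Δ : (3 : ℤ) ∣ W.Δ) (h3c₄ : ¬ (3 : ℤ) ∣ W.c₄)
    (h3 : ∀ A : ValuationSubring (AlgebraicClosure ℚ), A.LiesOverPrime 3 →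
      W.InZeroComponentAt A Q)
    {ℓ : ℕ} (hℓ : ℓ.Prime) (hℓp : ℓ ≠ p) (hℓΔ : (ℓ : ℤ) ∣ W.Δ) (hℓc₄ : ¬ (ℓ : ℤ) ∣ W.c₄)
    (hpm : p ∣ ℓ - 1 ∨ p ∣ ℓ + 1)
    (A : ValuationSubring (AlgebraicClosure ℚ)) (hA : A.LiesOverPrime ℓ) :
    W.InZeroComponentAt A Q := by
  have : NeZero p := ⟨hp.ne_zero⟩
  by_contra hQ0
  obtain ⟨P₀, c, hP₀, hc, hEis, hord0, hordr⟩ := hCusp
  obtain ⟨D, hDfix, hD⟩ := hGeo W hΔ Q hQstab hQord P₀ c hP₀ hc
  obtain ⟨r, t, e, hr, hrn, ht, hte, hre, htors⟩ := hDesc {2, 3, ℓ}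
  obtain ⟨A₂, hA₂⟩ := Fermat.Agent.S54.exists_valuationSubring_liesOver 2 Nat.prime_two
  obtain ⟨A₃, hA₃⟩ := Fermat.Agent.S54.exists_valuationSubring_liesOver 3 Nat.prime_three
  obtain ⟨X₂, _, sp₂, inj₂, hk₂, -, hz₂⟩ :=
    hD 2 Nat.prime_two (Ne.symm hp2) (by exact_mod_cast h2Δ) (by exact_mod_cast h2c₄) A₂ hA₂
  obtain ⟨X₃, _, sp₃, inj₃, hk₃, -, hz₃⟩ :=
    hD 3 Nat.prime_three (Ne.symm hp3) (by exact_mod_cast h3Δ) (by exact_mod_cast h3c₄) A₃ hA₃
  obtain ⟨Xℓ, _, spℓ, injℓ, hkℓ, hzℓ, -⟩ := hD ℓ hℓ hℓp hℓΔ hℓc₄ A hA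
  obtain ⟨m, hm, hmD⟩ := htors D hDfix
  have hS2 : ({2} : Set ℕ) ⊆ (({2, 3, ℓ} : Finset ℕ) : Set ℕ) := by
    intro x hx; simp only [Set.mem_singleton_iff] at hx; simp [hx]
  have hS3 : ({3} : Set ℕ) ⊆ (({2, 3, ℓ} : Finset ℕ) : Set ℕ) := by
    intro x hx; simp only [Set.mem_singleton_iff] at hx; simp [hx]
  have hSℓ : ({ℓ} : Set ℕ) ⊆ (({2, 3, ℓ} : Finset ℕ) : Set ℕ) := by
    intro x hx; simp only [Set.mem_singleton_iff] at hx; simp [hx]
  have hnc : addOrderOf c • c = 0 := addOrderOf_nsmul_eq_zero c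
  -- `t (D + c)` is torsion and specialises to `0` at `2` and `3`, hence vanishes
  have htDc_tors : (m * addOrderOf c) • t (D + c) = 0 := by
    rw [map_add, hte c hEis, nsmul_add]
    have h1 : (m * addOrderOf c) • t D = 0 := by
      rw [mul_nsmul, hmD, nsmul_zero]
    have h2' : (m * addOrderOf c) • (e • c) = 0 := by
      rw [mul_nsmul', smul_comm (addOrderOf c) e c, hnc, smul_zero, nsmul_zero]
    rw [h1, h2', add_zero]
  have htDc : t (D + c) = 0 :=
    eq_zero_of_torsion_of_two_primes sp₂ sp₃ Nat.prime_two Nat.prime_three (by norm_num)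
      inj₂ inj₃ (Nat.mul_pos hm (Nat.pos_of_ne_zero hord0)) htDc_tors
      (sp_eq_zero_of_mem_goodHeckeAlg sp₂ hS2 hk₂ ht (D + c) (hz₂ (h2 A₂ hA₂)))
      (sp_eq_zero_of_mem_goodHeckeAlg sp₃ hS3 hk₃ ht (D + c) (hz₃ (h3 A₃ hA₃)))
  -- at `ℓ`: `sp (t D) = 0`, and `t D = - e • c`
  have h1 : spℓ (t D) = 0 :=
    sp_eq_zero_of_mem_goodHeckeAlg spℓ hSℓ hkℓ ht D (hzℓ hQ0)
  have htD : t D = - (e • c) := by
    rw [map_add, hte c hEis] at htDc
    exact eq_neg_of_add_eq_zero_left htDc
  rw [htD, map_neg, neg_eq_zero] at h1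
  -- the element `y = (ord c / r) • e • c` has order `r`
  set n := eisensteinNumerator p with hn
  have hn0 : 0 < n := by
    have hg : 0 < Nat.gcd (p - 1) 12 := Nat.gcd_pos_of_pos_right _ (by norm_num)
    have hp1 : 0 < p - 1 := by have := hp.two_le; omega
    exact Nat.div_pos (Nat.le_of_dvd hp1 (Nat.gcd_dvd_left _ _)) hg
  have hrle : r ≤ n := Nat.le_of_dvd hn0 hrn
  obtain ⟨s, hs⟩ := hordr r hr hrn
  have hs0 : s ≠ 0 := by
    rintro rfl
    rw [mul_zero] at hs
    exact hord0 hs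
  have hry : r • (s • (e • c)) = 0 := by
    rw [← mul_smul, ← hs, smul_comm, hnc, smul_zero]
  have hy0 : s • (e • c) ≠ 0 := by
    intro h0
    have h' : ((s : ℤ) * e) • c = 0 := by
      rw [mul_smul, natCast_zsmul]
      exact h0
    have hdvd : (addOrderOf c : ℤ) ∣ (s : ℤ) * e := addOrderOf_dvd_iff_zsmul_eq_zero.mpr h'
    rw [hs] at hdvd
    push_cast at hdvd
    have hdvd' : (r : ℤ) * (s : ℤ) ∣ e * (s : ℤ) := by rwa [mul_comm e]
    exact hre (Int.dvd_of_mul_dvd_mul_right (by exact_mod_cast hs0) hdvd')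
  have hspy : spℓ (s • (e • c)) = 0 := by rw [map_nsmul, h1, smul_zero]
  have hℓr : ¬ ℓ ∣ r := by
    intro h
    have hrl : ℓ = r := (Nat.prime_dvd_prime_iff_eq hℓ hr).mp h
    have hhalf : 2 * n ≤ p - 1 := eisensteinNumerator_le_half hp hp2
    have hp1 := hp.two_le
    have hℓ2 := hℓ.two_le
    rcases hpm with h1' | h1'
    · have : ℓ - 1 = 0 := Nat.eq_zero_of_dvd_of_lt h1' (by omega)
      omega
    · have hle : p ≤ ℓ + 1 := Nat.le_of_dvd (by omega) h1'
      omega
  exact hy0 (injℓ r _ hℓr hry hspy)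

end Fermat.Agent.S12.H111

end
end
-- ===== PACK-END S12/H111/GeoSub.lean

-- ===== PACK-BEGIN S12/H291/ModSub.lean
section



/-!
# Node MOD of row S15 for Galois-STABLE subgroups (helper291, for row S12)

`moduliPlaceSub : ModuliPlaceSubStatement` : the statement of `S15.H542.ModuliPlaceStatement`
with the hypothesis "`Q` is Galois-fixed" weakened to "`⟨Q⟩` is Galois-stable"
(`∀ σ, σ • Q ∈ AddSubgroup.zmultiples Q`).  The only change is MOD-V: Vélu's sums
`t = ∑_{k ≤ (p-1)/2} t(x(kQ))`, `w = ∑ ...` are Galois-invariant because `σ` permutes the classes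
`±k` of `(ℤ/p)^× / ±1`.

Used by row S12 (one-step route): `S12.H111.GeoSubStatement` is the node GEO in this form.
-/

set_option autoImplicit false
set_option linter.unusedSectionVars false
set_option linter.style.haveILetI false

noncomputable section

open WeierstrassCurve AlgebraicCurve ModularCurve
open scoped WeierstrassCurve.Affine

namespace Fermat.Agent.S12.H291

open Fermat.Agent.S15.H542

section HalfSum

variable {M : Type*} [AddCommMonoid M]

/-- A sum over `1 ≤ k < 2h+1` of a function symmetric under `k ↦ 2h+1-k` is twice the sum over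
`1 ≤ k ≤ h`. -/
lemma sum_Ico_eq_two_nsmul_sum_Icc (h : ℕ) (f : ℕ → M)
    (hf : ∀ k, 1 ≤ k → k ≤ h → f (2 * h + 1 - k) = f k) :
    ∑ k ∈ Finset.Ico 1 (2 * h + 1), f k = 2 • ∑ k ∈ Finset.Icc 1 h, f k := by
  have h1 : Finset.Ico 1 (2 * h + 1) = Finset.Icc 1 h ∪ Finset.Icc (h + 1) (2 * h) := by
    ext k
    simp only [Finset.mem_Ico, Finset.mem_union, Finset.mem_Icc]
    omega
  have hdisj : Disjoint (Finset.Icc 1 h) (Finset.Icc (h + 1) (2 * h)) := by
    rw [Finset.disjoint_left]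
    intro k hk hk'
    rw [Finset.mem_Icc] at hk hk'
    omega
  rw [h1, Finset.sum_union hdisj, two_nsmul]
  congr 1
  refine Finset.sum_nbij' (fun k => 2 * h + 1 - k) (fun k => 2 * h + 1 - k) ?_ ?_ ?_ ?_ ?_
  · intro k hk
    rw [Finset.mem_Icc] at hk ⊢
    omega
  · intro k hk
    rw [Finset.mem_Icc] at hk ⊢
    omega
  · intro k hk
    rw [Finset.mem_Icc] at hk
    omega
  · intro k hk
    rw [Finset.mem_Icc] at hk
    omega
  · intro k hk
    rw [Finset.mem_Icc] at hk
    have := hf (2 * h + 1 - k) (by omega) (by omega)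
    rw [← this]
    congr 1
    omega

end HalfSum

section Stable

variable (F : WeierstrassCurve ℚ) (Q : (F⁄(AlgebraicClosure ℚ)).toAffine.Point)
  (σ : AlgebraicClosure ℚ ≃ₐ[ℚ] AlgebraicClosure ℚ)

lemma xOf_eq_xc (P : (F⁄(AlgebraicClosure ℚ)).toAffine.Point) : xOf P = xc P := by
  cases P <;> rfl

lemma xOf_smul_h291 (P : (F⁄(AlgebraicClosure ℚ)).toAffine.Point) :
    xOf (σ • P) = σ (xOf P) := by
  rw [WeierstrassCurve.Affine.Point.algEquiv_smul_def]
  exact xOf_map_algEquiv F σ P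

/-- **Galois-invariance of half-sums.**  If `Q` has odd prime order `p` and `σ • Q ∈ ⟨Q⟩`, then
every sum `∑_{1 ≤ k ≤ (p-1)/2} g(x(kQ))` with `g` commuting with `σ` is fixed by `σ`. -/
theorem sigma_halfSum_of_stable {p : ℕ} (hp : p.Prime) (hp2 : p ≠ 2)
    (hord : addOrderOf Q = p) (hstab : σ • Q ∈ AddSubgroup.zmultiples Q)
    (g : AlgebraicClosure ℚ → AlgebraicClosure ℚ) (hg : ∀ x, σ (g x) = g (σ x)) :
    σ (∑ k ∈ Finset.Icc 1 ((p - 1) / 2), g (xOf (k • Q))) =
      ∑ k ∈ Finset.Icc 1 ((p - 1) / 2), g (xOf (k • Q)) := by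
  classical
  haveI : Fact p.Prime := ⟨hp⟩
  haveI : NeZero p := ⟨hp.ne_zero⟩
  obtain ⟨m, hm⟩ := AddSubgroup.mem_zmultiples_iff.mp hstab
  have hpQ : p • Q = 0 := by rw [← hord]; exact addOrderOf_nsmul_eq_zero Q
  have hQ0 : Q ≠ 0 := by
    intro h0
    rw [h0, addOrderOf_zero] at hord
    exact hp.one_lt.ne hord
  -- the full sum
  set T := zmodHom Q hpQ with hT
  have hTk : ∀ k : ℕ, T (k : ZMod p) = k • Q := fun k => zmodHom_natCast Q hpQ k
  set c : ZMod p := (m : ZMod p) with hc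
  have hc0 : c ≠ 0 := by
    intro h0
    have h1 : T c = 0 := by rw [h0, map_zero]
    have h2 : T c = m • Q := by
      have := ZMod.lift_coe p (⟨zmultiplesHom _ Q, by
        rw [zmultiplesHom_apply, natCast_zsmul]
        exact hpQ⟩ : {f : ℤ →+ (F⁄(AlgebraicClosure ℚ)).toAffine.Point // f p = 0}) m
      simp only [zmultiplesHom_apply] at this
      exact this
    rw [h2, hm] at h1
    have h3 : Q = 0 := by
      have := congrArg (fun R => σ⁻¹ • R) h1
      simpa using this
    exact hQ0 h3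
  have hσT : ∀ a : ZMod p, σ • T a = T (a * c) := by
    intro a
    rw [hT, zmodHom_apply, ← natCast_zsmul, WeierstrassCurve.Affine.Point.algEquiv_smul_zsmul,
      ← hm, smul_smul]
    have e : a * c = (((a.val : ℤ) * m : ℤ) : ZMod p) := by
      rw [hc]
      push_cast
      rw [ZMod.natCast_zmod_val]
    rw [e]
    have := ZMod.lift_coe p (⟨zmultiplesHom _ Q, by
      rw [zmultiplesHom_apply, natCast_zsmul]
      exact hpQ⟩ : {f : ℤ →+ (F⁄(AlgebraicClosure ℚ)).toAffine.Point // f p = 0})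
      ((a.val : ℤ) * m)
    simp only [zmultiplesHom_apply] at this
    exact this.symm
  have hfull : ∑ k ∈ Finset.Ico 1 p, g (xOf (k • Q)) = ∑ a ∈ nz p, g (xOf (T a)) := by
    symm
    refine Finset.sum_nbij' (fun a => a.val) (fun k => (k : ZMod p)) ?_ ?_ ?_ ?_ ?_
    · intro a ha
      have ha0 : a ≠ 0 := mem_nz.mp ha
      rw [Finset.mem_Ico]
      exact ⟨ZMod.val_pos.mpr ha0, ZMod.val_lt a⟩
    · intro k hk
      rw [Finset.mem_Ico] at hk
      rw [mem_nz]
      intro h0
      have := (ZMod.natCast_eq_zero_iff k p).mp h0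
      have := Nat.le_of_dvd (by omega) this
      omega
    · intro a _
      exact ZMod.natCast_zmod_val a
    · intro k hk
      rw [Finset.mem_Ico] at hk
      exact ZMod.val_natCast_of_lt hk.2
    · intro a _
      rw [hT, zmodHom_apply]
  have hσfull : σ (∑ k ∈ Finset.Ico 1 p, g (xOf (k • Q))) =
      ∑ k ∈ Finset.Ico 1 p, g (xOf (k • Q)) := by
    rw [hfull, map_sum]
    refine Finset.sum_nbij' (fun a => a * c) (fun b => b * c⁻¹) ?_ ?_ ?_ ?_ ?_
    · intro a ha
      rw [mem_nz] at ha ⊢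
      exact mul_ne_zero ha hc0
    · intro b hb
      rw [mem_nz] at hb ⊢
      exact mul_ne_zero hb (inv_ne_zero hc0)
    · intro a _
      rw [mul_assoc, mul_inv_cancel₀ hc0, mul_one]
    · intro b _
      rw [mul_assoc, inv_mul_cancel₀ hc0, mul_one]
    · intro a _
      rw [hg, ← xOf_smul_h291, hσT]
  -- half sums
  obtain ⟨h, hh⟩ : ∃ h, p = 2 * h + 1 := by
    rcases hp.eq_two_or_odd with h2 | hodd
    · exact absurd h2 hp2
    · exact ⟨p / 2, by omega⟩
  have hhalf : (p - 1) / 2 = h := by omega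
  rw [hhalf]
  have hsym : ∀ k, 1 ≤ k → k ≤ h → g (xOf ((2 * h + 1 - k) • Q)) = g (xOf (k • Q)) := by
    intro k hk1 hkh
    have e : (2 * h + 1 - k) • Q = -(k • Q) := by
      rw [eq_neg_iff_add_eq_zero, ← add_nsmul, Nat.sub_add_cancel (by omega), ← hh]
      exact hpQ
    rw [e, xOf_eq_xc, xOf_eq_xc, xc_neg]
  have h2S := sum_Ico_eq_two_nsmul_sum_Icc h (fun k => g (xOf (k • Q))) hsym
  rw [← hh] at h2S
  rw [h2S, map_nsmul] at hσfull
  have h2 : (2 : ℕ) • σ (∑ k ∈ Finset.Icc 1 h, g (xOf (k • Q))) =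
      (2 : ℕ) • ∑ k ∈ Finset.Icc 1 h, g (xOf (k • Q)) := hσfull
  rw [nsmul_eq_mul, nsmul_eq_mul] at h2
  exact mul_left_cancel₀ (by norm_num) h2

theorem sigma_veluT_of_stable {p : ℕ} (hp : p.Prime) (hp2 : p ≠ 2)
    (hord : addOrderOf Q = p) (hstab : σ • Q ∈ AddSubgroup.zmultiples Q) :
    σ (veluT (F⁄(AlgebraicClosure ℚ)) Q p) = veluT (F⁄(AlgebraicClosure ℚ)) Q p := by
  unfold veluT
  refine sigma_halfSum_of_stable F Q σ hp hp2 hord hstab _ fun x => ?_
  unfold veluT1
  simp only [map_add, map_mul, map_pow, map_ofNat, sigma_b₂, sigma_b₄]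

theorem sigma_veluW_of_stable {p : ℕ} (hp : p.Prime) (hp2 : p ≠ 2)
    (hord : addOrderOf Q = p) (hstab : σ • Q ∈ AddSubgroup.zmultiples Q) :
    σ (veluW (F⁄(AlgebraicClosure ℚ)) Q p) = veluW (F⁄(AlgebraicClosure ℚ)) Q p := by
  unfold veluW
  refine sigma_halfSum_of_stable F Q σ hp hp2 hord hstab
    (fun x => veluU1 (F⁄(AlgebraicClosure ℚ)) x + x * veluT1 (F⁄(AlgebraicClosure ℚ)) x)
    fun x => ?_
  unfold veluT1 veluU1
  simp only [map_add, map_mul, map_pow, map_ofNat, sigma_b₂, sigma_b₄, sigma_b₆]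

/-- Vélu's curve of a point generating a stable subgroup is fixed. -/
theorem veluCurve_map_eq_of_stable {p : ℕ} (hp : p.Prime) (hp2 : p ≠ 2)
    (hord : addOrderOf Q = p) (hstab : σ • Q ∈ AddSubgroup.zmultiples Q) :
    (veluCurve (F⁄(AlgebraicClosure ℚ)) Q p).map (σ : AlgebraicClosure ℚ →+* AlgebraicClosure ℚ)
      = veluCurve (F⁄(AlgebraicClosure ℚ)) Q p := by
  have hT := sigma_veluT_of_stable F Q σ hp hp2 hord hstab
  have hW := sigma_veluW_of_stable F Q σ hp hp2 hord hstab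
  have h2 := sigma_b₂ F σ
  have ha : ∀ a : ℚ, σ (algebraMap ℚ (AlgebraicClosure ℚ) a) = algebraMap ℚ (AlgebraicClosure ℚ) a :=
    fun a => σ.commutes a
  ext
  · simp only [WeierstrassCurve.map_a₁, veluCurve, WeierstrassCurve.baseChange]
    exact ha _
  · simp only [WeierstrassCurve.map_a₂, veluCurve, WeierstrassCurve.baseChange]
    exact ha _
  · simp only [WeierstrassCurve.map_a₃, veluCurve, WeierstrassCurve.baseChange]
    exact ha _
  · simp only [WeierstrassCurve.map_a₄, veluCurve, RingHom.coe_coe, map_sub, map_mul, map_ofNat,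
      hT]
    congr 1
    exact ha _
  · simp only [WeierstrassCurve.map_a₆, veluCurve, RingHom.coe_coe, map_sub, map_mul, map_ofNat,
      hT, hW, h2]
    congr 2
    exact ha _

theorem sigma_jInv_veluCurve_of_stable {p : ℕ} (hp : p.Prime) (hp2 : p ≠ 2)
    (hord : addOrderOf Q = p) (hstab : σ • Q ∈ AddSubgroup.zmultiples Q) :
    σ (jInv (veluCurve (F⁄(AlgebraicClosure ℚ)) Q p)) =
      jInv (veluCurve (F⁄(AlgebraicClosure ℚ)) Q p) := by
  have h := veluCurve_map_eq_of_stable F Q σ hp hp2 hord hstab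
  have h1 : jInv ((veluCurve (F⁄(AlgebraicClosure ℚ)) Q p).map
      (σ : AlgebraicClosure ℚ →+* AlgebraicClosure ℚ)) =
      σ (jInv (veluCurve (F⁄(AlgebraicClosure ℚ)) Q p)) := by
    simp only [jInv, WeierstrassCurve.map_c₄, WeierstrassCurve.map_Δ, RingHom.coe_coe, map_div₀,
      map_pow]
  rw [← h1, h]

end Stable

/-- **MOD-V, subgroup form.** -/
theorem veluRationalSub {p : ℕ} (hp : p.Prime) (hp2 : p ≠ 2) (W : WeierstrassCurve ℤ)
    (Q : (curveBar W).toAffine.Point) (hord : addOrderOf Q = p)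
    (hQstab : ∀ σ : AlgebraicClosure ℚ ≃ₐ[ℚ] AlgebraicClosure ℚ,
      σ • Q ∈ AddSubgroup.zmultiples Q) :
    ∃ r : ℚ, algebraMap ℚ (AlgebraicClosure ℚ) r = jInv (veluCurve (curveBar W) Q p) := by
  have := isGalois_Qbar_h542
  exact (InfiniteGalois.mem_range_algebraMap_iff_fixed (k := ℚ) (K := AlgebraicClosure ℚ)
    (jInv (veluCurve (curveBar W) Q p))).mpr
    (fun σ => sigma_jInv_veluCurve_of_stable (W.map (Int.castRingHom ℚ)) Q σ hp hp2 hord
      (hQstab σ))

/-- **MOD, subgroup form**: the statement of `ModuliPlaceStatement` for a point `Q` generating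
a Galois-stable subgroup. -/
def ModuliPlaceSubStatement : Prop :=
  ∀ (p : ℕ) [NeZero p] (_hp : p.Prime) (_hp5 : 5 ≤ p)
    (W : WeierstrassCurve ℤ) (_hΔ : W.Δ ≠ 0)
    (Q : (curveBar W).toAffine.Point)
    (_hQstab : ∀ σ : AlgebraicClosure ℚ ≃ₐ[ℚ] AlgebraicClosure ℚ,
      σ • Q ∈ AddSubgroup.zmultiples Q)
    (_hQord : addOrderOf Q = p)
    (_h2Δ : (2 : ℤ) ∣ W.Δ) (_h2c₄ : ¬ (2 : ℤ) ∣ W.c₄),
    (veluCurve (curveBar W) Q p).Δ ≠ 0 ∧
    (∃ r : ℚ, algebraMap ℚ (AlgebraicClosure ℚ) r = jInv (veluCurve (curveBar W) Q p)) ∧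
    ∃ P : Place (AlgebraicClosure ℚ) (modularFunctionFieldBar p),
      IsGaloisFixedPlace P ∧
      HasValueAt P (jBar p) (jInv (curveBar W)) ∧
      HasValueAt P (jNBar p) (jInv (veluCurve (curveBar W) Q p))

/-- GLUE, subgroup form. -/
theorem moduliPlaceSub_of_pieces (hA1 : PlaceOfModularPairStatement)
    (hA2 : PlaceUniqueStatement) (hB : VeluModularPairStatement) : ModuliPlaceSubStatement := by
  intro p _ hp hp5 W hΔ Q hQstab hQord h2Δ h2c₄
  have hp2 : p ≠ 2 := by omega
  obtain ⟨hΔ', hpair⟩ := hB p hp hp2 (curveBar W) (Δ_curveBar_ne_zero W hΔ) Q hQord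
  obtain ⟨r', hr'⟩ := veluRationalSub hp hp2 W Q hQord hQstab
  refine ⟨hΔ', ⟨r', hr'⟩, ?_⟩
  obtain ⟨P, hP1, hP2⟩ := hA1 p hp _ _ hpair
  refine ⟨P, ?_, hP1, hP2⟩
  intro σ
  have hj := jInv_curveBar W
  rw [hj] at hP1
  rw [← hr'] at hP2
  have hr := padicValRat_two_j_neg W hΔ h2Δ h2c₄
  refine hA2 p hp hp2 _ hr (algebraMap ℚ (AlgebraicClosure ℚ) r') _ _ ?_ ?_ hP1 hP2
  · exact hasValueAt_smul_of_rational σ P (jBar p) jq rfl _ hP1
  · exact hasValueAt_smul_of_rational σ P (jNBar p) (qExpand ℚ p jq) rfl _ hP2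

/-- **The MOD node, subgroup form, unconditional.** -/
theorem moduliPlaceSub : ModuliPlaceSubStatement :=
  moduliPlaceSub_of_pieces Fermat.Agent.S15.H602.placeOfModularPairStatement placeUnique
    Fermat.Agent.S15.H215.veluModularPair

/-- The subgroup form implies the point form. -/
theorem moduliPlace_of_sub (h : ModuliPlaceSubStatement) : ModuliPlaceStatement := by
  intro p _ hp hp5 W hΔ Q hQfix hQord h2Δ h2c₄
  refine h p hp hp5 W hΔ Q (fun σ => ?_) hQord h2Δ h2c₄
  rw [hQfix σ]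
  exact AddSubgroup.mem_zmultiples Q

end Fermat.Agent.S12.H291

end
end
-- ===== PACK-END S12/H291/ModSub.lean

-- ===== PACK-BEGIN G1/H120/Raise.lean
section



/-!
# Row GLUE, G1, block R: raising the level to a NEAT one (helper120)

PLAIN WORLD (imports the plain file `S59/H826/SqFree35.lean` of main, which sits in the landed
chain packs).  `raise : Glue.RaiseStatement`: a residually modular level `M`, cube-free away from
`3`, is replaced by the neat level `C = pad · M · r` (`4 ∥ C`, `r ≡ 47 mod 60` a new prime of good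
reduction) by stabilisation (`H826.resMod_of_dvd826`, i.e. `Lib.Newform.H683.stabilisation`).
-/

set_option autoImplicit false

namespace Fermat.Agent.G1.H120

open Fermat.Agent.Glue Fermat.Agent.S59.H826

/-- **Block R.** -/
theorem raise : RaiseStatement := by
  intro W hΔ M hM hM3 hres
  obtain ⟨r, hrbig, hr, hr60⟩ := exists_aux_prime826 (M + 3 + W.Δ.natAbs)
  have hrM : ¬ r ∣ M := fun h => by
    have := Nat.le_of_dvd hM h
    omega
  have hr2 : r ≠ 2 := by
    rintro rfl
    omega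
  have hrgood : W.IsGoodPrimeFor r := by
    intro h
    have h1 : r ∣ W.Δ.natAbs := by
      have := Int.natAbs_dvd_natAbs.mpr h
      simpa using this
    have h2 : 0 < W.Δ.natAbs := Int.natAbs_pos.mpr hΔ
    have := Nat.le_of_dvd h2 h1
    omega
  set C : ℕ := pad826 M * M * r with hC
  have hC0 : C ≠ 0 := by
    have := pad826_pos M
    have := hr.pos
    positivity
  have hMC : M ∣ C := ⟨pad826 M * r, by rw [hC]; ring⟩
  have h8M : ¬ 8 ∣ M := by
    have := hM3 2 Nat.prime_two (by norm_num)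
    simpa using this
  have hc8r : Nat.Coprime 8 r := by
    have : Nat.Coprime (2 ^ 3) r :=
      Nat.Coprime.pow_left 3 ((Nat.coprime_primes Nat.prime_two hr).mpr (Ne.symm hr2))
    simpa using this
  have h4C : 4 ∣ C := (four_dvd_pad826_mul M).mul_right r
  have h8C : ¬ 8 ∣ C := fun h =>
    not_eight_dvd_pad826_mul h8M (hc8r.dvd_of_dvd_mul_right h)
  have hrC : r ∣ C := Dvd.intro_left _ rfl
  have hr2C : ¬ r ^ 2 ∣ C := by
    intro h
    rw [hC, pow_two] at h
    have h1 : r ∣ pad826 M * M := Nat.dvd_of_mul_dvd_mul_right hr.pos h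
    rcases (Nat.Prime.dvd_mul hr).mp h1 with h2 | h2
    · have h3 : r ∣ 4 := h2.trans (pad826_dvd_four M)
      have := Nat.le_of_dvd (by norm_num) h3
      omega
    · exact hrM h2
  have hC3 : ∀ s : ℕ, s.Prime → s ≠ 3 → ¬ s ^ 3 ∣ C := by
    intro s hs hs3 h
    by_cases hs2 : s = 2
    · subst hs2
      exact h8C (by simpa using h)
    · by_cases hsr : s = r
      · subst hsr
        exact hr2C ((pow_dvd_pow s (by norm_num : 2 ≤ 3)).trans h)
      · exact hM3 s hs hs3 (pow_dvd_of_pow_dvd_pad826 hs hr hs2 hsr h)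
  exact ⟨C, r, ⟨Nat.pos_of_ne_zero hC0, h4C, h8C, hr, hr60, hrC, hr2C, hrgood, hC3⟩,
    resMod_of_dvd826 hC0 hMC hres⟩

end Fermat.Agent.G1.H120

end
-- ===== PACK-END G1/H120/Raise.lean

-- ===== PACK-BEGIN LT/H595/SurjW3.lean
section





/-!
# Row LT, block GLUE2, leaves G2a + G2b (helper595): the mod `3` representation in matrix form

`surjW3_595`: for a semistable integral Weierstrass model `W` with `Δ ≠ 0` and irreducible
`W[3]` there is `ρ : Gal(ℚ̄/ℚ) →* GL₂(𝔽₃)` which is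

* continuous,
* SURJECTIVE,
* of determinant `modThreeCyclotomicChar`,
* with `tr ρ(σ) = a_ℓ(W) mod 3` for every Frobenius element `σ` at every good prime `ℓ ≠ 3`.

This is `Fermat.Agent.LT.H950.SurjW3Statement` (deputy cut of helper950) with the definition
`IsMatrixFormOfW3` unfolded.

Inputs, all on main: the S59 toolkits of helper405 (matrix form, oddness, unipotent inertia,
the unique quadratic field unramified outside `3`), helper667/helper127 (determinant, `#W[3] = 9`,
finite level), helper545 (`Lib.Frob.Small.frobRelationAll`, the Frobenius relation at ALL good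
primes); new: `SurjCore.lean`.
-/

set_option autoImplicit false

open WeierstrassCurve WeierstrassCurve.Affine WeierstrassCurve.Affine.Point
open Fermat.Agent.S53 Fermat.Agent.S59.H405 Fermat.Agent.S59.H667 Matrix
open scoped MatrixGroups WeierstrassCurve.Affine

namespace Fermat.Agent.LT.H595

local notation "Γℚ" => (AlgebraicClosure ℚ ≃ₐ[ℚ] AlgebraicClosure ℚ)

/-! ### Finite checks -/

/-- Cayley–Hamilton in `M₂(𝔽₃)`: a relation `M² - aM + d = 0` with `d = det M ≠ 0` forces
`tr M = a`. -/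
theorem trace_of_relation595 : ∀ m00 m01 m10 m11 a d : ZMod 3,
    (!![m00, m01; m10, m11] : Matrix (Fin 2) (Fin 2) (ZMod 3)) * !![m00, m01; m10, m11]
      - a • (!![m00, m01; m10, m11] : Matrix (Fin 2) (Fin 2) (ZMod 3))
      + d • (1 : Matrix (Fin 2) (Fin 2) (ZMod 3)) = 0 →
    m00 * m11 - m01 * m10 = d → d ≠ 0 → m00 + m11 = a := by
  decide

/-- a unipotent element of `M₂(𝔽₃)` has trivial cube -/
theorem cube_of_unip595 : ∀ a b c d : ZMod 3,
    ((!![a, b; c, d] : Matrix (Fin 2) (Fin 2) (ZMod 3)) - 1) * (!![a, b; c, d] - 1) = 0 →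
    (!![a, b; c, d] : Matrix (Fin 2) (Fin 2) (ZMod 3)) * !![a, b; c, d] * !![a, b; c, d] = 1 := by
  decide

/-! ### Transport along the matrix form -/

section Transport

variable {F : Type} [Field F]

/-- transport of the trace along an equivalence with a matrix representation -/
theorem trace_of_equiv595 {ρ₀ : ResidualGaloisRep F} {rb : S53.GQ →* S53.M2 F}
    {h : GaloisFactorsThroughFiniteLevel rb} (e : ResidualGaloisRep.Equiv ρ₀ (toRes rb h))
    (σ : S53.GQ) : (rb σ).trace = LinearMap.trace F ρ₀.V (ρ₀.ρ σ) := by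
  let f : ρ₀.V ≃ₗ[F] (Fin 2 → F) := e.toLinearEquiv
  have hf : ∀ x, f (ρ₀.ρ σ x) = (rb σ) *ᵥ (f x) := e.map_apply σ
  have h1 : ρ₀.ρ σ = (f.symm : (Fin 2 → F) →ₗ[F] ρ₀.V) ∘ₗ
      (Matrix.toLin' (rb σ)) ∘ₗ (f.symm.symm : ρ₀.V →ₗ[F] (Fin 2 → F)) := by
    apply LinearMap.ext
    intro x
    simp only [LinearMap.coe_comp, LinearEquiv.coe_coe, Function.comp_apply, Matrix.toLin'_apply,
      LinearEquiv.symm_symm]
    apply f.injective
    rw [LinearEquiv.apply_symm_apply]
    exact hf x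
  have h2 : (f.symm : (Fin 2 → F) →ₗ[F] ρ₀.V) ∘ₗ
      (Matrix.toLin' (rb σ)) ∘ₗ (f.symm.symm : ρ₀.V →ₗ[F] (Fin 2 → F))
      = f.symm.conj (Matrix.toLin' (rb σ)) := by
    rw [LinearEquiv.conj_apply, LinearMap.comp_assoc]
  rw [h1, h2, LinearMap.trace_conj', Matrix.trace_toLin'_eq]

/-- transport of a quadratic relation along an equivalence with a matrix representation -/
theorem relation_of_equiv595 {ρ₀ : ResidualGaloisRep F} {rb : S53.GQ →* S53.M2 F}
    {h : GaloisFactorsThroughFiniteLevel rb} (e : ResidualGaloisRep.Equiv ρ₀ (toRes rb h))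
    (σ : S53.GQ) (a d : F)
    (hσ : ρ₀.ρ σ * ρ₀.ρ σ - a • ρ₀.ρ σ + d • (1 : Module.End F ρ₀.V) = 0) :
    rb σ * rb σ - a • rb σ + d • (1 : Matrix (Fin 2) (Fin 2) F) = 0 := by
  let f : ρ₀.V ≃ₗ[F] (Fin 2 → F) := e.toLinearEquiv
  have hf : ∀ x, f (ρ₀.ρ σ x) = (rb σ) *ᵥ (f x) := e.map_apply σ
  apply mulVec_injective_M2
  intro y
  obtain ⟨x, rfl⟩ := f.surjective y
  have key := congrArg (fun g : Module.End F ρ₀.V => f (g x)) hσ
  simp only [LinearMap.add_apply, LinearMap.sub_apply, LinearMap.smul_apply, Module.End.mul_apply,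
    Module.End.one_apply, LinearMap.zero_apply, map_add, map_sub, map_smul, _root_.map_zero,
    hf] at key
  rw [Matrix.zero_mulVec, Matrix.add_mulVec, Matrix.sub_mulVec, Matrix.smul_mulVec,
    Matrix.smul_mulVec, Matrix.one_mulVec, ← Matrix.mulVec_mulVec]
  exact key

end Transport

/-! ### The Frobenius relation on `W[m]` at every good prime -/

/-- **Frobenius relation in `End(W[m])`** at every good prime `ℓ ∤ m` (including `ℓ = 2`). -/
theorem frob_relation_end_all595 (W : WeierstrassCurve ℤ) (ℓ : ℕ) (hℓ : ℓ.Prime)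
    (hgood : W.IsGoodPrimeFor ℓ) (A : ValuationSubring QbE) (τ : GQE)
    (hA : A.LiesOverPrime ℓ) (hτ : A.IsFrobeniusAt τ ℓ) (m : ℕ) (hm : 0 < m) (hℓm : ¬ ℓ ∣ m) :
    rhoFin W m τ * rhoFin W m τ - ((W.apOfModel ℓ : ℤ) : ZMod m) • rhoFin W m τ
      + ((ℓ : ℤ) : ZMod m) • (1 : Module.End (ZMod m) (TorsE W m)) = 0 := by
  apply LinearMap.ext
  intro x
  apply Subtype.ext
  have key := Fermat.Agent.Lib.Frob.Small.frobRelationAll W ℓ hℓ hgood A τ hA hτ m hm hℓm
    (x : PtsE W) (natCast_nsmul_torsE W m x)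
  simp only [LinearMap.add_apply, LinearMap.sub_apply, LinearMap.smul_apply, Module.End.mul_apply,
    Module.End.one_apply, rhoFin_apply, LinearMap.zero_apply, Submodule.coe_add, Submodule.coe_sub,
    coe_zmod_smul_torsE, coe_smul_torsE, ZeroMemClass.coe_zero]
  exact key

/-! ### The theorem -/

/-- **GLUE2, leaves G2a + G2b, full form.**  The mod `3` representation of a semistable curve
with irreducible `W[3]`, in matrix form: continuous, surjective, cyclotomic determinant, Frobenius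
traces `a_ℓ(W)` at the good primes `ℓ ≠ 3`, no stable line, inertia at `q ≠ 3` of exponent `3`. -/
theorem matFormFull595 (W : WeierstrassCurve ℤ) (hΔ : W.Δ ≠ 0) (hW : W.IsSemistableModel)
    (h3 : W.ModRepIsIrreducible 3) :
    ∃ ρ : Γℚ →* GL (Fin 2) (ZMod 3),
      Continuous ρ ∧ Function.Surjective ρ ∧
      (∀ σ : Γℚ, Matrix.GeneralLinearGroup.det (ρ σ) = modThreeCyclotomicChar σ) ∧
      (∀ ℓ : ℕ, ℓ.Prime → W.IsGoodPrimeFor ℓ → ℓ ≠ 3 →
        ∀ A : ValuationSubring (AlgebraicClosure ℚ), A.LiesOverPrime ℓ →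
          ∀ σ : Γℚ, A.IsFrobeniusAt σ ℓ →
            ((ρ σ : GL (Fin 2) (ZMod 3)) : Matrix (Fin 2) (Fin 2) (ZMod 3)).trace
              = ((W.apOfModel ℓ : ℤ) : ZMod 3)) ∧
      (∀ v : Fin 2 → ZMod 3, v ≠ 0 →
        ∃ σ : Γℚ, ∀ c : ZMod 3,
          ((ρ σ : GL (Fin 2) (ZMod 3)) : Matrix (Fin 2) (Fin 2) (ZMod 3)).mulVec v ≠ c • v) ∧
      (∀ q : ℕ, q.Prime → q ≠ 3 →
        ∀ A : ValuationSubring (AlgebraicClosure ℚ), A.LiesOverPrime q →
          ∀ σ ∈ A.inertiaSubgroupIn ℚ, (ρ σ) ^ 3 = 1) := by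
  have : Fact (Nat.Prime 3) := ⟨Nat.prime_three⟩
  have hpp : Nat.Prime 3 := Nat.prime_three
  have hp2 : (3 : ℕ) ≠ 2 := by norm_num
  have hE := isElliptic_of_Δ_ne_zero W hΔ
  have hcard : Nat.card (Submodule.torsionBy ℤ
      ((W.map (Int.castRingHom ℚ))⁄(AlgebraicClosure ℚ)).Point ((3 : ℕ) : ℤ)) = 3 ^ 2 :=
    Fermat.Agent.S59.H127.card_torsion_prime (W.map (Int.castRingHom ℚ)) 3
  have hker : GaloisFactorsThroughFiniteLevel
      (WeierstrassCurve.Affine.Point.galoisRepModuleEnd (K := AlgebraicClosure ℚ) ℚ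
        (W.map (Int.castRingHom ℚ)) 3) :=
    Fermat.Agent.S59.H127.galoisFactorsThroughFiniteLevel_torsion (W.map (Int.castRingHom ℚ)) 3
      (by norm_num)
  set ρ₀ : ResidualGaloisRep (ZMod 3) :=
    (W.map (Int.castRingHom ℚ)).residualGaloisRepOf 3 hcard hker with hρ₀
  obtain ⟨rb, hrb, ⟨e₀⟩⟩ := exists_toRes ρ₀
  -- determinant
  have hdetσ : ∀ σ : Γℚ, (rb σ).det
      = ((modThreeCyclotomicChar σ : (ZMod 3)ˣ) : ZMod 3) := by
    intro σ
    have hroot : ∀ μ : QbE, μ ^ 3 = 1 →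
        σ μ = μ ^ ((modThreeCyclotomicChar σ : (ZMod 3)ˣ) : ZMod 3).val := by
      intro μ hμ
      have hμ0 : μ ≠ 0 := by
        rintro rfl
        norm_num at hμ
      have hmem : (Units.mk0 μ hμ0) ∈ rootsOfUnity 3 QbE := by
        rw [mem_rootsOfUnity]
        apply Units.ext
        rw [Units.val_pow_eq_pow_val, Units.val_mk0, hμ, Units.val_one]
      have hs := modularCyclotomicCharacter.spec (L := QbE)
        (IsAlgClosed.card_rootsOfUnity_eq (AlgebraicClosure ℚ) 3)
        (σ : QbE ≃+* QbE) hmem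
      exact hs
    have hd := det_level_one_aux W hΔ 3 h3 σ
      ((modThreeCyclotomicChar σ : (ZMod 3)ˣ) : ZMod 3).val 3 (by norm_num) hroot
    have hd' : LinearMap.det (ρ₀.ρ σ)
        = ((((modThreeCyclotomicChar σ : (ZMod 3)ˣ) : ZMod 3).val : ℕ) : ZMod 3) := hd
    rw [det_of_equiv e₀ σ, hd', ZMod.natCast_zmod_val]
  -- oddness
  obtain ⟨c, hcc, hc1⟩ := exists_involution_Qbar
  have hdetc : (rb c).det = -1 := by
    have hd : LinearMap.det (ρ₀.ρ c) = -1 :=
      det_involution_aux W hΔ 3 h3 hp2 c hcc hc1 3 (by norm_num)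
    rw [det_of_equiv e₀ c, hd]
  -- irreducibility
  have hirr₀ : ρ₀.IsIrreducible := by
    intro N hN
    exact h3.2 N (fun σ x hx => hN σ x hx)
  have hirr' : ¬ HasLine rb := by
    rintro ⟨v, hv, hEig⟩
    have h4 : (toRes rb hrb).IsIrreducible := isIrreducible_of_equiv e₀ hirr₀
    exact (Fermat.Agent.S59.G4.H307.toRes_isIrreducible_iff rb hrb).mp h4
      ⟨v, hv, fun σ => hEig σ⟩
  -- the unique quadratic field unramified outside 3
  have hkey : (∀ γ, (rb γ - 1) * (rb γ - 1) = 0 → rb γ = 1) →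
      ∀ G' : Subgroup Γℚ, G'.index = 2 → (∀ τ, rb τ = 1 → τ ∈ G') →
        G' = stabQ (sqrtPstar 3) := by
    intro htriv G' hG' hker'
    obtain ⟨L, hL, hLker⟩ := hrb
    have := hL
    have hopen : IsOpen (G' : Set GQT) := by
      apply Subgroup.isOpen_mono (H₁ := L.fixingSubgroup) _
        (IntermediateField.fixingSubgroup_isOpen L)
      intro σ hσ
      apply hker'
      apply hLker
      intro x hx
      exact (IntermediateField.mem_fixingSubgroup_iff L σ).mp hσ x hx
    apply index_two_eq_stab hp2 G' hG' hopen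
    intro q hq hqp A hA σ hσ
    exact hker' σ (htriv σ (unip_of_equiv e₀ σ (unip_torsion W hΔ hW hpp hq hqp A hA σ hσ)))
  have huniq : (∀ γ, (rb γ - 1) * (rb γ - 1) = 0 → rb γ = 1) →
      ∀ G₁ G₂ : Subgroup Γℚ, G₁.index = 2 → G₂.index = 2 →
        (∀ τ, rb τ = 1 → τ ∈ G₁) → (∀ τ, rb τ = 1 → τ ∈ G₂) → G₁ = G₂ := by
    intro htriv G₁ G₂ hG₁ hG₂ hk₁ hk₂
    rw [hkey htriv G₁ hG₁ hk₁, hkey htriv G₂ hG₂ hk₂]
  have hsurj := surjective_core595 c hcc hdetc hirr' huniq
  -- the representation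
  refine ⟨MonoidHom.toHomUnits rb, ?_, ?_, ?_, ?_, ?_, ?_⟩
  · -- continuity
    obtain ⟨L, hL, hLker⟩ := hrb
    have := hL
    apply continuous_of_continuousAt_one
    rw [ContinuousAt, map_one]
    intro U hU
    rw [Filter.mem_map]
    have h1 : (L.fixingSubgroup : Set Γℚ) ∈ nhds (1 : Γℚ) :=
      (IntermediateField.fixingSubgroup_isOpen L).mem_nhds (Subgroup.one_mem _)
    refine Filter.mem_of_superset h1 ?_
    intro σ hσ
    have h2 : rb σ = 1 :=
      hLker σ (fun x hx => (IntermediateField.mem_fixingSubgroup_iff L σ).mp hσ x hx)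
    have h3' : MonoidHom.toHomUnits rb σ = 1 := by
      apply Units.ext
      exact h2
    show MonoidHom.toHomUnits rb σ ∈ U
    rw [h3']
    exact mem_of_mem_nhds hU
  · -- surjectivity
    intro g
    have hg : (g : Matrix (Fin 2) (Fin 2) (ZMod 3)).det ≠ 0 := by
      have hu : IsUnit (g : Matrix (Fin 2) (Fin 2) (ZMod 3)).det :=
        (Matrix.isUnit_iff_isUnit_det _).1 g.isUnit
      exact hu.ne_zero
    obtain ⟨τ, hτ⟩ := hsurj _ hg
    exact ⟨τ, Units.ext hτ⟩
  · -- determinant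
    intro σ
    apply Units.ext
    rw [Matrix.GeneralLinearGroup.val_det_apply]
    exact hdetσ σ
  · -- traces of Frobenius
    intro ℓ hℓ hgood hℓ3 A hA σ hσ
    have hℓ3' : ¬ ℓ ∣ 3 := fun h => hℓ3 ((Nat.prime_dvd_prime_iff_eq hℓ hpp).mp h)
    have hrel : ρ₀.ρ σ * ρ₀.ρ σ - ((W.apOfModel ℓ : ℤ) : ZMod 3) • ρ₀.ρ σ
        + ((ℓ : ℤ) : ZMod 3) • (1 : Module.End (ZMod 3) ρ₀.V) = 0 :=
      frob_relation_end_all595 W ℓ hℓ hgood A σ hA hσ 3 (by norm_num) hℓ3'
    have hrel' := relation_of_equiv595 e₀ σ _ _ hrel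
    have hdetℓ : (rb σ).det = ((ℓ : ℤ) : ZMod 3) := by
      have hd : LinearMap.det (ρ₀.ρ σ) = ((ℓ : ℕ) : ZMod 3) :=
        det_level_one_aux W hΔ 3 h3 σ ℓ 3 (by norm_num)
          (fun μ hμ => frob_apply_root 3 hpp 1 ℓ hℓ hℓ3 A σ hA hσ μ (by rwa [pow_one]))
      rw [det_of_equiv e₀ σ, hd, Int.cast_natCast]
    have hℓ0 : ((ℓ : ℤ) : ZMod 3) ≠ 0 := by
      rw [Int.cast_natCast]
      intro h
      have h3ℓ : 3 ∣ ℓ := (ZMod.natCast_eq_zero_iff ℓ 3).1 h
      exact hℓ3 ((Nat.prime_dvd_prime_iff_eq hpp hℓ).mp h3ℓ).symm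
    have heta := Matrix.eta_fin_two (rb σ)
    rw [heta] at hrel'
    have hdet' : rb σ 0 0 * rb σ 1 1 - rb σ 0 1 * rb σ 1 0 = ((ℓ : ℤ) : ZMod 3) := by
      rw [← Matrix.det_fin_two, hdetℓ]
    have htr := trace_of_relation595 _ _ _ _ _ _ hrel' hdet' hℓ0
    show (rb σ).trace = _
    rw [Matrix.trace_fin_two]
    exact htr
  · -- no stable line
    intro v hv
    by_contra hcon
    apply hirr'
    refine ⟨v, hv, fun σ => ?_⟩
    by_contra hσ
    apply hcon
    refine ⟨σ, fun a ha => hσ ⟨a, ?_⟩⟩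
    exact ha
  · -- inertia at `q ≠ 3` has exponent `3`
    intro q hq hq3 A hA σ hσ
    have hu : (rb σ - 1) * (rb σ - 1) = 0 :=
      unip_of_equiv e₀ σ (unip_torsion W hΔ hW hpp hq hq3 A hA σ hσ)
    have heta := Matrix.eta_fin_two (rb σ)
    rw [heta] at hu
    have hcube := cube_of_unip595 _ _ _ _ hu
    rw [← heta] at hcube
    apply Units.ext
    rw [Units.val_pow_eq_pow_val, Units.val_one]
    show rb σ ^ 3 = 1
    rw [pow_succ, pow_two]
    exact hcube

/-- **GLUE2, leaves G2a + G2b** in the form of the cut of helper950 (`H950.SurjW3Statement`). -/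
theorem surjW3_595 (W : WeierstrassCurve ℤ) (hΔ : W.Δ ≠ 0) (hW : W.IsSemistableModel)
    (h3 : W.ModRepIsIrreducible 3) :
    ∃ ρ : Γℚ →* GL (Fin 2) (ZMod 3),
      Continuous ρ ∧ Function.Surjective ρ ∧
      (∀ σ : Γℚ, Matrix.GeneralLinearGroup.det (ρ σ) = modThreeCyclotomicChar σ) ∧
      ∀ ℓ : ℕ, ℓ.Prime → W.IsGoodPrimeFor ℓ → ℓ ≠ 3 →
        ∀ A : ValuationSubring (AlgebraicClosure ℚ), A.LiesOverPrime ℓ →
          ∀ σ : Γℚ, A.IsFrobeniusAt σ ℓ →
            ((ρ σ : GL (Fin 2) (ZMod 3)) : Matrix (Fin 2) (Fin 2) (ZMod 3)).trace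
              = ((W.apOfModel ℓ : ℤ) : ZMod 3) := by
  obtain ⟨ρ, h1, h2, h3', h4, -, -⟩ := matFormFull595 W hΔ hW h3
  exact ⟨ρ, h1, h2, h3', h4⟩

end Fermat.Agent.LT.H595

end
-- ===== PACK-END LT/H595/SurjW3.lean

-- ===== PACK-BEGIN LT/H595/MatForm.lean
section



/-!
# Row LT, block GLUE2, leaf G2a `MatFormC` (helper595)

`matFormC595 : Fermat.Agent.LT.H670.MatFormC` -- the mod `3` representation of a semistable
curve with irreducible `W[3]` in matrix form (route 1 of the GLUE2 board: a basis of `W[3]`),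
with all five properties asked by the board.  Together with `surjC595 : H670.SurjC`
(`SurjC.lean`) these are the first two arguments of `H670.glue2_of_matForm`.

Also `repC595`-free: the sub-leaves `RepC`, `DetC`, `TraceC`, `IrrC`, `UnipC` of route 1 are not
needed once `MatFormC` is proved.
-/

set_option autoImplicit false

open WeierstrassCurve
open scoped MatrixGroups

namespace Fermat.Agent.LT.H595

/-- **GLUE2, leaf G2a.** -/
theorem matFormC595 : Fermat.Agent.LT.H670.MatFormC := by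
  intro W hΔ hW h3
  obtain ⟨ρ, h1, -, h3', h4, h5, h6⟩ := matFormFull595 W hΔ hW h3
  exact ⟨ρ, h1, h3', h4, h5, h6⟩

/-- `H670.MatFormC` and `H670.SurjC` together, in one statement: the surjective matrix form. -/
theorem matFormSurj595 (W : WeierstrassCurve ℤ) (hΔ : W.Δ ≠ 0) (hW : W.IsSemistableModel)
    (h3 : W.ModRepIsIrreducible 3) :
    ∃ ρ : (AlgebraicClosure ℚ ≃ₐ[ℚ] AlgebraicClosure ℚ) →* GL (Fin 2) (ZMod 3),
      Continuous ρ ∧ Function.Surjective ρ ∧
      (∀ σ, Matrix.GeneralLinearGroup.det (ρ σ) = modThreeCyclotomicChar σ) ∧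
      Fermat.Agent.LT.H670.HasFrobTraces W ρ ∧ Fermat.Agent.LT.H670.MatIrred ρ ∧
      Fermat.Agent.LT.H670.InertiaCubeTrivial ρ := by
  obtain ⟨ρ, h1, h2, h3', h4, h5⟩ := matFormC595 W hΔ hW h3
  exact ⟨ρ, h1, surjC595 ρ h1 h2 h4 h5, h2, h3', h4, h5⟩

end Fermat.Agent.LT.H595

end
-- ===== PACK-END LT/H595/MatForm.lean

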