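import Mathlib
import Fermat.Prelude.Def_ModularCurve_PeriodHomPair
import Fermat.Prelude.Def_GaloisRep_ComplexConjugation
import Fermat.Prelude.Def_ModularCurve_HeckeModule
import Fermat.Prelude.Def_ModularForm_EisensteinChiNegThree
import Fermat.Prelude.Def_FLTPrelim_Modularity
import Fermat.Prelude.Def_LanglandsTunnell_WeightOneRealizationCarriers
import Fermat.Agent.Pack.S44C.G0E17L1
import Fermat.Agent.Pack.S44C.G0E15L0
import Fermat.Agent.Pack.S44C.G0E25L0
import Fermat.Agent.Pack.S43MC.G0E23L3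
import Fermat.Agent.Pack.S44C.G0E25L2
import Fermat.Agent.Pack.S43MC.G0E19L1
import Fermat.Agent.Pack.S44C.G0E17L0
import Fermat.Agent.Pack.S44C.G0E26L0
import Fermat.Agent.Pack.S44C.G0E26L1
import Fermat.Agent.Pack.S44C.G0E23L3
import Fermat.Agent.Pack.S44C.G0E21L2
import Fermat.Agent.Pack.S44C.G0E25L1
import Fermat.Agent.Pack.S43MC.G0E23L1
import Fermat.Agent.Pack.L1.E4L3
import Fermat.Agent.Pack.L1.E0L2
import Fermat.Agent.Pack.L1.E6L3
import Fermat.Agent.Pack.L1.E6L2
import Fermat.Agent.Pack.L1.E5L1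
import Fermat.Agent.Pack.L1.E3L0
import Fermat.Agent.Pack.L1.E6L1
import Fermat.Agent.Pack.S43MC.G0E10L2
import Fermat.Agent.Pack.S44C.G0E25L3
import Fermat.Agent.Pack.S44C.G0E8L3
import Fermat.Agent.Pack.L1.E1L2
import Fermat.Agent.Pack.L1.E2L3
import Fermat.Agent.Pack.L1.E2L1

-- ===== PACK-BEGIN A2/Top/H553/WallS.lean
section


















/-!
# WALL A2 — the `SepCoord`-free final chain (helper553)

Route S of ALG (`Alg/H34`, `Alg/H609`, `Alg/H754`) never uses the separating coordinate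
(`SepCoord`) nor the finite order of `τ`.  This file assembles the wall WITHOUT the MOD
sub-assembly S4 (`Mod.S4Statement`):

* `algS`            : the conclusion of ALG from two `SSChart`s only (no `SepCoord`, no `hfo`);
* `HasModelS`       : the semistable model without `SepCoord` (conclusion of
                      `Mod.exists_model_of_parts`);
* `t1S`             : `IF + HasModelS` at ONE level `N` ⟹ `KummerTarget N q m`;
* `hasModelS_of_parts` : S2 + S3 + GOODRED ⟹ `HasModelS` at the ready levels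
                      (L1, L4, L6, L8, L9, L10, S1, Sτ plugged in from main);
* `kummerTargetS`, `wallS` : S2 + S3 + GOODRED ⟹ `KummerTarget N q m`, `Target N q m` for all
                      `q ‖ N`, `q ∤ m` (IF and D2 plugged in from main).

So the wall A2 is closed modulo exactly: S2 (components normal), S3 (ordinary double points)
and GOODRED (`Top.H994.GoodRedStatement`).
-/

set_option autoImplicit false
set_option linter.unusedSectionVars false
set_option linter.unusedVariables false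
set_option synthInstance.maxHeartbeats 400000
set_option maxHeartbeats 1600000

noncomputable section

namespace Fermat.Agent.A2.Top.H553

open ModularCurve AlgebraicCurve Fermat.Agent.A2 Fermat.Agent.A2.Alg Fermat.Agent.A2.Alg.H34
  Fermat.Agent.A2.T1.H669 Fermat.Agent.A2.Top.H994

/-! ## ALG, route S, without `SepCoord` -/

section Alg

variable {R E F : Type} [CommRing R] [IsDomain R] [IsDiscreteValuationRing R]
  [HenselianLocalRing R] [IsAlgClosed (IsLocalRing.ResidueField R)]
  [Field E] [CharZero E] [Algebra R E] [IsFractionRing R E]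
  [Field F] [Algebra E F] [Algebra R F] [IsScalarTower R E F]

/-- Purity at every closed point of the special fibre (no `SepCoord`). -/
theorem purityS (q m : ℕ) (hq : q.Prime) (hqR : (q : R) ∈ IsLocalRing.maximalIdeal R)
    (hm : 0 < m) (hqm : ¬ q ∣ m)
    (w : R) (x : F) (B : Subalgebra R F) (hB : ChartCtx E w x B)
    (c : SSChart w B)
    (u : F) (hu : u ≠ 0) (hdiv : DivisibleDiv E m u) (hs : IsSplit B c u)
    (n : Ideal B) (hn : n.IsMaximal) (hwn : algebraMap R B w ∈ n) : PureAt B c m u n := by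
  by_cases h1 : c.p₁ ≤ n ∧ c.p₂ ≤ n
  · exact Fermat.Agent.A2.Alg.H609.purity_node m hm w x B hB c u hdiv hs n hn.isPrime h1.1 h1.2
  · exact Fermat.Agent.A2.Alg.H754.puritySmoothLeaf q m hq hqR hm hqm w x B hB c
      (incomparable_of_ssChart c) u hu hdiv hs n hn hwn h1

/-- **Step II** (no `SepCoord`).  A split Kummer class is fixed by `τ`. -/
theorem stepIIS (q m : ℕ) (hq : q.Prime) (hqR : (q : R) ∈ IsLocalRing.maximalIdeal R)
    (hm : 0 < m) (hqm : ¬ q ∣ m)
    (w : R) (x : F) (Bf Bi : Subalgebra R F)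
    (hBf : ChartCtx E w x Bf) (hBi : ChartCtx E w x⁻¹ Bi)
    (cf : SSChart w Bf) (ci : SSChart w Bi)
    (τ : F ≃+* F) (τE : E ≃+* E) (τR : R ≃+* R)
    (hτf : TauCtx w Bf τ τE τR) (hτi : TauCtx w Bi τ τE τR)
    (u : F) (hu : u ≠ 0) (hdiv : DivisibleDiv E m u)
    (hsf : IsSplit Bf cf u) (hsi : IsSplit Bi ci u) :
    ∃ h : F, h ≠ 0 ∧ τ u = h ^ m * u := by
  have hτu : τ u ≠ 0 := (map_ne_zero τ).2 hu
  have hu' : τ u * u⁻¹ ≠ 0 := mul_ne_zero hτu (inv_ne_zero hu)
  have hdiv' : DivisibleDiv E m (τ u * u⁻¹) :=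
    divisibleDiv_mul_inv m _ _ (divisibleDiv_tau τ τE hτf.hτE m u hdiv) hdiv
  have hf : LocallyFactored Bf cf m (τ u * u⁻¹) := fun n hn hwn =>
    localFactor_of_pureAt w Bf cf τ τE τR hτf m u hu n hn.isPrime hwn
      (purityS q m hq hqR hm hqm w x Bf hBf cf u hu hdiv hsf n hn hwn)
  have hi : LocallyFactored Bi ci m (τ u * u⁻¹) := fun n hn hwn =>
    localFactor_of_pureAt w Bi ci τ τE τR hτi m u hu n hn.isPrime hwn
      (purityS q m hq hqR hm hqm w x⁻¹ Bi hBi ci u hu hdiv hsi n hn hwn)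
  obtain ⟨y, hy, hyu⟩ := glueLeaf q m hq hqR hm hqm w x Bf Bi hBf hBi cf ci
    (incomparable_of_ssChart cf) (incomparable_of_ssChart ci) _ hu' hdiv' hf hi
  refine ⟨y, hy, ?_⟩
  rw [← hyu, mul_assoc, inv_mul_cancel₀ hu, mul_one]

/-- **ALG, route S, without `SepCoord` and without the finite order of `τ`.** -/
theorem algS (w : R) (hw : Irreducible w) (q m : ℕ) (hq : q.Prime)
    (hqR : (q : R) ∈ IsLocalRing.maximalIdeal R) (hm : 0 < m) (hqm : ¬ q ∣ m)
    (x : F) (hx : Transcendental E x)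
    (hfin : FiniteDimensional (IntermediateField.adjoin E ({x} : Set F)) F)
    (hconst : ∀ f : F, IsAlgebraic E f → f ∈ (algebraMap E F).range)
    (Bf Bi : Subalgebra R F)
    (hBf : ∀ f : F, f ∈ Bf ↔ IsIntegral (Algebra.adjoin R ({x} : Set F)) f)
    (hBi : ∀ f : F, f ∈ Bi ↔ IsIntegral (Algebra.adjoin R ({x⁻¹} : Set F)) f)
    (cf : SSChart w Bf) (ci : SSChart w Bi)
    (τ : F ≃+* F) (τE : E ≃+* E) (τR : R ≃+* R)
    (hτE : ∀ e : E, τ (algebraMap E F e) = algebraMap E F (τE e))
    (hτR : ∀ r : R, τE (algebraMap R E r) = algebraMap R E (τR r))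
    (hτf : ∀ b ∈ Bf, ∃ c ∈ Bf, τ b - b = algebraMap R F w * c)
    (hτi : ∀ b ∈ Bi, ∃ c ∈ Bi, τ b - b = algebraMap R F w * c) :
    AlgSSConclusion E m τ := by
  have hCf : ChartCtx E w x Bf := ⟨hw, hx, hfin, hconst, hBf⟩
  have hCi : ChartCtx E w x⁻¹ Bi := chartCtx_inv w hw x hx hfin hconst Bi hBi
  have hTf : TauCtx w Bf τ τE τR := ⟨hτE, hτR, hτf⟩
  have hTi : TauCtx w Bi τ τE τR := ⟨hτE, hτR, hτi⟩
  intro f hf hdiv
  have hτf0 : τ f ≠ 0 := (map_ne_zero τ).2 hf
  have hu : τ f * f⁻¹ ≠ 0 := mul_ne_zero hτf0 (inv_ne_zero hf)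
  have hdivu : DivisibleDiv E m (τ f * f⁻¹) :=
    divisibleDiv_mul_inv m _ _ (divisibleDiv_tau τ τE hτE m f hdiv) hdiv
  obtain ⟨h, hh, hh2⟩ := stepIIS q m hq hqR hm hqm w x Bf Bi hCf hCi cf ci
    τ τE τR hTf hTi (τ f * f⁻¹) hu hdivu
    (stepI w x Bf hCf cf (incomparable_of_ssChart cf) τ τE τR hTf f hf)
    (stepI w x⁻¹ Bi hCi ci (incomparable_of_ssChart ci) τ τE τR hTi f hf)
  refine ⟨h, hh, ?_⟩
  rw [map_mul, map_inv₀] at hh2
  have h3 : τ (τ f) = h ^ m * (τ f * f⁻¹) * τ f := by
    rw [← hh2, mul_assoc, inv_mul_cancel₀ hτf0, mul_one]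
  rw [h3]
  field_simp

end Alg

/-! ## The model without `SepCoord` and T1 -/

/-- The semistable two-chart model of level `N` over the good level `E`, WITHOUT `SepCoord`
(= the conclusion of `Mod.exists_model_of_parts`). -/
def HasModelS (P : ValuationSubring Qb) (E : IntermediateField ℚ Qb) (N : ℕ) : Prop :=
  ∃ (x : FE E N) (Bf Bi : Subalgebra (RE P E) (FE E N)),
    Transcendental E x ∧
    FiniteDimensional (IntermediateField.adjoin E ({x} : Set (FE E N))) (FE E N) ∧
    (∀ f : FE E N, IsAlgebraic E f → f ∈ (algebraMap E (FE E N)).range) ∧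
    (∀ f : FE E N, f ∈ Bf ↔
      IsIntegral (Algebra.adjoin (RE P E) ({x} : Set (FE E N))) f) ∧
    (∀ f : FE E N, f ∈ Bi ↔
      IsIntegral (Algebra.adjoin (RE P E) ({x⁻¹} : Set (FE E N))) f) ∧
    (∀ w : RE P E, Irreducible w → Nonempty (SSChart w Bf)) ∧
    (∀ w : RE P E, Irreducible w → Nonempty (SSChart w Bi)) ∧
    (∀ τ ∈ P.inertiaSubgroupIn ℚ, ∀ τE : E ≃ₐ[ℚ] E,
      (∀ e : E, ((τE e : E) : Qb) = τ (e : Qb)) →
      arithmeticRingAut (modularFunctionFieldFull N) τE x = x) ∧
    (∀ τ ∈ P.inertiaSubgroupIn ℚ, ∀ τE : E ≃ₐ[ℚ] E,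
      (∀ e : E, ((τE e : E) : Qb) = τ (e : Qb)) →
      ∀ w : RE P E, Irreducible w → ∀ b ∈ Bf, ∃ c ∈ Bf,
        arithmeticRingAut (modularFunctionFieldFull N) τE b - b =
          algebraMap (RE P E) (FE E N) w * c) ∧
    (∀ τ ∈ P.inertiaSubgroupIn ℚ, ∀ τE : E ≃ₐ[ℚ] E,
      (∀ e : E, ((τE e : E) : Qb) = τ (e : Qb)) →
      ∀ w : RE P E, Irreducible w → ∀ b ∈ Bi, ∃ c ∈ Bi,
        arithmeticRingAut (modularFunctionFieldFull N) τE b - b =
          algebraMap (RE P E) (FE E N) w * c)

/-- **T1 for one level, without `SepCoord`.**  `IF + (model at the level N) ⟹ KummerTarget`. -/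
theorem t1S (N q m : ℕ) (hq : q.Prime) (hm : 0 < m) (hqm : ¬ q ∣ m)
    (hMOD : ∀ (P : ValuationSubring Qb) (E : IntermediateField ℚ Qb),
      P.LiesOverPrime q → GoodField P E → HasModelS P E N) :
    KummerTarget N q m := by
  intro P hP τ hτ f hf hdiv
  refine kummer_of_levels (modularFunctionFieldFull N) m τ (fun S => ?_) f hf hdiv
  obtain ⟨E, hSE, hE⟩ := Fermat.Agent.A2.IF.H429.ifStatement q hq P hP S
  refine ⟨E, hSE, hE.res τ hτ, fun e => rfl, fun y hy0 hdd => ?_⟩
  obtain ⟨x, Bf, Bi, hx, hfin, hconst, hBf, hBi, hcf, hci, hτx, hτf, hτi⟩ := hMOD P E hP hE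
  haveI : IsDiscreteValuationRing ↥(RE P E) := hE.dvr
  haveI : HenselianLocalRing ↥(RE P E) := hE.henselian
  haveI : IsAlgClosed (IsLocalRing.ResidueField ↥(RE P E)) := hE.algClosed
  obtain ⟨w, hw⟩ := IsDiscreteValuationRing.exists_irreducible ↥(RE P E)
  obtain ⟨cf⟩ := hcf w hw
  obtain ⟨ci⟩ := hci w hw
  have hconcl : AlgSSConclusion E m
      (arithmeticRingAut (modularFunctionFieldFull N) (hE.res τ hτ)) :=
    algS (R := ↥(RE P E)) (E := E) (F := ↥(FE E N)) w hw q m hq
      (natCast_mem_maximalIdeal_RE E hP) hm hqm x hx hfin hconst Bf Bi hBf hBi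
      cf ci
      (arithmeticRingAut (modularFunctionFieldFull N) (hE.res τ hτ))
      (hE.res τ hτ).toRingEquiv (resR hE τ hτ)
      (fun e => arithmeticRingAut_algebraMap (modularFunctionFieldFull N) (hE.res τ hτ) e)
      (fun r => rfl)
      (hτf τ hτ (hE.res τ hτ) (fun e => rfl) w hw)
      (hτi τ hτ (hE.res τ hτ) (fun e => rfl) w hw)
  exact hconcl y hy0 hdd

/-! ## MOD without S4 -/

/-- **MOD without `SepCoord`**: S2 + S3 + GOODRED give the model at the ready levels. -/
theorem hasModelS_of_parts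
    (hS2 : ∀ (P : ValuationSubring Qb) (E : IntermediateField ℚ Qb) (M q : ℕ) [NeZero M]
      [NeZero q] (w : RE P E), Mod.S2Statement P E M q w)
    (hS3 : ∀ (P : ValuationSubring Qb) (E : IntermediateField ℚ Qb) (M q : ℕ) [NeZero M]
      [NeZero q] (w : RE P E), Mod.S3Statement P E M q w)
    (hGood : GoodRedStatement)
    (P : ValuationSubring Qb) (E : IntermediateField ℚ Qb) (N q : ℕ)
    (hq : q.Prime) (hqN : q ∣ N) (hq2 : ¬ q ^ 2 ∣ N) (hN : N ≠ 0)
    (h3 : q = 3 → 2 ∣ N) (h2 : q = 2 → 3 ∣ N)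
    (hP : P.LiesOverPrime q) (hE : GoodField P E) : HasModelS P E N := by
  obtain ⟨M, hM⟩ := hqN
  have hNM : N = M * q := by rw [hM, mul_comm]
  subst hNM
  have hM0 : M ≠ 0 := fun h => hN (by rw [h, zero_mul])
  haveI : NeZero M := ⟨hM0⟩
  haveI : NeZero q := ⟨hq.ne_zero⟩
  have hqM : ¬ q ∣ M := by
    rintro ⟨c, hc⟩
    exact hq2 ⟨c, by rw [hc]; ring⟩
  have h3' : q = 3 → 2 ∣ M := by
    intro h
    have h2N := h3 h
    subst h
    exact (Nat.Coprime.dvd_mul_right (by norm_num : Nat.Coprime 2 3)).1 h2N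
  have h2' : q = 2 → 3 ∣ M := by
    intro h
    have h3N := h2 h
    subst h
    exact (Nat.Coprime.dvd_mul_right (by norm_num : Nat.Coprime 3 2)).1 h3N
  have hS1 : ∀ w : RE P E, Mod.S1Statement P E M q w := fun w =>
    Mod.H13.s1 (Mod.H553.vzeroNe P E M q w) (Mod.H398.deg E M q) (Mod.H753.indInf P E M q w)
      (Mod.H753.indZero P E M q w)
  exact Mod.exists_model_of_parts P E M q hq hqM hP hE.dvr
    (Mod.H553.vinfExists P E M hM0 hE.dvr)
    (Mod.H553.vinfExists P E (M * q) hN hE.dvr)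
    (Mod.H553.frickeExists E (M * q) hN)
    (Mod.H398.deg E M q) hS1 (hS2 P E M q) (hS3 P E M q)
    (fun w => Mod.H751.stau_of_s1 P E M q w (hS1 w))
    (hGood P E M q hq hqM h3' h2' hP hE)

/-- **The Kummer form of the wall for all `q ‖ N`, `q ∤ m`, from S2 + S3 + GOODRED.** -/
theorem kummerTargetS
    (hS2 : ∀ (P : ValuationSubring Qb) (E : IntermediateField ℚ Qb) (M q : ℕ) [NeZero M]
      [NeZero q] (w : RE P E), Mod.S2Statement P E M q w)
    (hS3 : ∀ (P : ValuationSubring Qb) (E : IntermediateField ℚ Qb) (M q : ℕ) [NeZero M]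
      [NeZero q] (w : RE P E), Mod.S3Statement P E M q w)
    (hGood : GoodRedStatement)
    (N q m : ℕ) (hq : q.Prime) (hqN : q ∣ N) (hq2 : ¬ q ^ 2 ∣ N) (hN : N ≠ 0) (hm : 0 < m)
    (hqm : ¬ q ∣ m) : KummerTarget N q m := by
  apply Fermat.Agent.A2.H876.d2Statement N q m hq hqN hq2 hN hm hqm
  apply t1S (auxLevel N q) q m hq hm hqm
  intro P E hP hE
  exact hasModelS_of_parts hS2 hS3 hGood P E (auxLevel N q) q hq
    (hqN.trans (dvd_auxLevel N q)) (not_sq_dvd_auxLevel hq hq2) (auxLevel_ne_zero q hN)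
    aux_two_dvd aux_three_dvd hP hE

/-- **The wall A2 for all `q ‖ N`, `q ∤ m`, from S2 + S3 + GOODRED** (no `SepCoord`). -/
theorem wallS
    (hS2 : ∀ (P : ValuationSubring Qb) (E : IntermediateField ℚ Qb) (M q : ℕ) [NeZero M]
      [NeZero q] (w : RE P E), Mod.S2Statement P E M q w)
    (hS3 : ∀ (P : ValuationSubring Qb) (E : IntermediateField ℚ Qb) (M q : ℕ) [NeZero M]
      [NeZero q] (w : RE P E), Mod.S3Statement P E M q w)
    (hGood : GoodRedStatement)
    (N q m : ℕ) (hq : q.Prime) (hqN : q ∣ N) (hq2 : ¬ q ^ 2 ∣ N) (hN : N ≠ 0) (hm : 0 < m)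
    (hqm : ¬ q ∣ m) : Target N q m :=
  Fermat.Agent.A2.T0.H669.target_of_kummerTarget N q m hm
    (kummerTargetS hS2 hS3 hGood N q m hq hqN hq2 hN hm hqm)

end Fermat.Agent.A2.Top.H553

end

end
-- ===== PACK-END A2/Top/H553/WallS.lean

-- ===== PACK-BEGIN S15/H608/T6ppDict.lean
section



/-!
# S15 / DESC, leaf T6'' (helper608), part (c): the Kummer dictionary for classes with
`τ`-invariant multiple

`x ∈ Pic0 K F`, `m • x = [Z]` with `Z` a `g`-invariant divisor.  Write `x = [D]`,
`m D - Z = div f`.  Then `div (g f / f) = m (g - 1) D` is divisible by `m`; if `(g - 1)² f` is a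
constant times an `m`-th power (for every such `f`), then `(g - 1)² x = 0`.

* `KummerTwiceP g m`           : the Kummer-side statement, hypothesis on `g f / f`.
* `unipotent_of_kummerTwiceP`  : `KummerTwiceP g m →` (`m • x = [Z]`, `g • Z = Z`)
                                 `→ g • (g • x - x) = g • x - x`.
* `KummerAtP N m τ`            : the pointwise Kummer statement on `ℚ̄(X₀(N))`.
* `unipotent_of_kummerAtP`     : `KummerAtP N m τ → τ • (m • x) = m • x →
                                 τ • (τ • x) + x = 2 • (τ • x)` on `JZero N`.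
-/

set_option autoImplicit false

noncomputable section

namespace Fermat.Agent.S15.H608

open AlgebraicCurve ModularCurve Fermat.Agent.A2.H129

section Abstract

variable {K F : Type*} [Field K] [Field F] [Algebra K F]

/-- **Kummer-side statement, primed form.**  For every `f ≠ 0` such that the divisor of
`g f / f` is divisible by `m`, the function `(g - 1)² f` is a constant times an `m`-th power. -/
def KummerTwiceP (g : SemilinearAut K F) (m : ℕ) : Prop :=
  ∀ f : F, f ≠ 0 →
    (∀ v : Place K F, (m : ℤ) ∣ v.ord (tauSubOne (SemilinearAut.toRingAut g) f)) →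
    ∃ y : F, ∃ c : K, c ≠ 0 ∧
      tauSubOne (SemilinearAut.toRingAut g) (tauSubOne (SemilinearAut.toRingAut g) f)
        = algebraMap K F c * y ^ m

/-- The primed form implies the unprimed one. -/
theorem kummerTwice_of_kummerTwiceP (g : SemilinearAut K F) (m : ℕ)
    (H : KummerTwiceP g m) : KummerTwice g m := by
  intro f hf hdiv
  refine H f hf (fun v => ?_)
  have hτf : SemilinearAut.toRingAut g f ≠ 0 := by simpa using hf
  show (m : ℤ) ∣ v.ord (SemilinearAut.toRingAut g f * f⁻¹)
  rw [ord_div v hτf hf, ord_smul_eq]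
  exact dvd_sub (hdiv _) (hdiv _)

/-- **K1'.**  The primed Kummer-side statement implies `(g - 1)² x = 0` for every class `x` such
that `m • x` is represented by a `g`-invariant divisor. -/
theorem unipotent_of_kummerTwiceP (g : SemilinearAut K F) (m : ℕ) (hm : m ≠ 0)
    (H : KummerTwiceP g m) (x : Pic0 K F) (Z : Divisor.degZero (K := K) (F := F))
    (hZ : g • (Z : Divisor K F) = Z) (hx : m • x = Pic0.mk Z) :
    g • (g • x - x) = g • x - x := by
  obtain ⟨D, rfl⟩ := Pic0.mk_surjective x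
  -- the Kummer generator
  have hprin : ((m • D - Z : Divisor.degZero (K := K) (F := F)) : Divisor K F) ∈
      Divisor.principal (K := K) (F := F) := by
    have h0 : Pic0.mk (m • D - Z) = 0 := by
      have h1 : Pic0.mk (m • D - Z) = m • Pic0.mk D - Pic0.mk Z := rfl
      rw [h1, hx, sub_self]
    have := (QuotientAddGroup.eq_zero_iff (m • D - Z)).1 h0
    simpa [AddSubgroup.mem_addSubgroupOf] using this
  obtain ⟨f, hf, hfD⟩ := hprin
  have hfD' : ∀ v : Place K F, v.ord f = (m : ℤ) * (D : Divisor K F) v - (Z : Divisor K F) v := by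
    intro v
    rw [← hfD v]
    simp [Finsupp.smul_apply]
  have hZv : ∀ v : Place K F, (Z : Divisor K F) (g⁻¹ • v) = (Z : Divisor K F) v := by
    intro v
    have h := SemilinearAut.divisor_smul_apply g (Z : Divisor K F) v
    rw [hZ] at h
    exact h.symm
  set τ := SemilinearAut.toRingAut g with hτ
  have hτf : τ f ≠ 0 := by simpa using hf
  have h1 : tauSubOne τ f ≠ 0 := tauSubOne_ne_zero τ hf
  have h2 : tauSubOne τ (tauSubOne τ f) ≠ 0 := tauSubOne_ne_zero τ h1
  have e1 : ∀ (h : F), h ≠ 0 → ∀ v : Place K F,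
      v.ord (tauSubOne τ h) = (g⁻¹ • v).ord h - v.ord h := by
    intro h hh v
    have hτh : τ h ≠ 0 := by simpa using hh
    show v.ord (τ h * h⁻¹) = _
    rw [ord_div v hτh hh, hτ, ord_smul_eq]
  have hdiv : ∀ v : Place K F, (m : ℤ) ∣ v.ord (tauSubOne τ f) := by
    intro v
    rw [e1 f hf v, hfD', hfD', hZv]
    exact ⟨(D : Divisor K F) (g⁻¹ • v) - (D : Divisor K F) v, by ring⟩
  obtain ⟨y, c, hc, hyc⟩ := H f hf hdiv
  have hy : y ≠ 0 := by
    rintro rfl
    rw [zero_pow hm, mul_zero] at hyc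
    exact h2 hyc
  have hcF : algebraMap K F c ≠ 0 := by simpa using hc
  -- the divisor `E = (g-1)² D`
  set E : Divisor.degZero (K := K) (F := F) :=
    SemilinearAut.degZeroSMulHom g (SemilinearAut.degZeroSMulHom g D - D)
      - (SemilinearAut.degZeroSMulHom g D - D) with hE
  have hgoal : g • (g • Pic0.mk D - Pic0.mk D) - (g • Pic0.mk D - Pic0.mk D) = Pic0.mk E := by
    rw [SemilinearAut.pic0_smul_mk]
    rfl
  rw [← sub_eq_zero, hgoal]
  refine (QuotientAddGroup.eq_zero_iff E).2 ?_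
  rw [AddSubgroup.mem_addSubgroupOf]
  refine ⟨y, hy, fun w => ?_⟩
  have hEw : (E : Divisor K F) w =
      (D : Divisor K F) (g⁻¹ • (g⁻¹ • w)) - (D : Divisor K F) (g⁻¹ • w)
        - ((D : Divisor K F) (g⁻¹ • w) - (D : Divisor K F) w) := by
    simp only [hE, AddSubgroupClass.coe_sub, SemilinearAut.coe_degZeroSMulHom, smul_sub,
      Finsupp.sub_apply, SemilinearAut.divisor_smul_apply]
  have hord : w.ord (tauSubOne τ (tauSubOne τ f)) =
      (g⁻¹ • (g⁻¹ • w)).ord f - (g⁻¹ • w).ord f - ((g⁻¹ • w).ord f - w.ord f) := by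
    rw [e1 _ h1 w, e1 f hf (g⁻¹ • w), e1 f hf w]
  have hord2 : w.ord (tauSubOne τ (tauSubOne τ f)) = (m : ℤ) * w.ord y := by
    rw [hyc, w.ord_mul hcF (pow_ne_zero m hy), ord_algebraMap_eq_zero, zero_add, ord_pow]
  have hmE : (m : ℤ) * (E : Divisor K F) w = (m : ℤ) * w.ord y := by
    rw [← hord2, hord, hEw, hfD', hfD', hfD', hZv, hZv]
    ring
  have hm' : (m : ℤ) ≠ 0 := by exact_mod_cast hm
  exact mul_left_cancel₀ hm' hmE

end Abstract

section Modular

/-- The pointwise Kummer statement for one `τ`, primed form: the hypothesis is that the divisor of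
`τ f / f` is divisible by `m`. -/
def KummerAtP (N m : ℕ) (τ : AlgebraicClosure ℚ ≃ₐ[ℚ] AlgebraicClosure ℚ) : Prop :=
  ∀ f : modularFunctionFieldBar N, f ≠ 0 →
    (∀ v : Place (AlgebraicClosure ℚ) (modularFunctionFieldBar N),
      (m : ℤ) ∣ v.ord (arithmeticRingAut (modularFunctionFieldFull N) τ f * f⁻¹)) →
    ∃ h : modularFunctionFieldBar N, h ≠ 0 ∧
      arithmeticRingAut (modularFunctionFieldFull N) τ
          (arithmeticRingAut (modularFunctionFieldFull N) τ f) * f =
        h ^ m * (arithmeticRingAut (modularFunctionFieldFull N) τ f) ^ 2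

/-- The primed pointwise statement implies the unprimed one (`A2.T0.H669.KummerAt`). -/
theorem kummerAt_of_kummerAtP (N m : ℕ) (τ : AlgebraicClosure ℚ ≃ₐ[ℚ] AlgebraicClosure ℚ)
    (h : KummerAtP N m τ) : Fermat.Agent.A2.T0.H669.KummerAt N m τ := by
  intro f hf hdiv
  refine h f hf (fun v => ?_)
  have hτf : arithmeticRingAut (modularFunctionFieldFull N) τ f ≠ 0 :=
    (map_ne_zero_iff _ (arithmeticRingAut (modularFunctionFieldFull N) τ).injective).2 hf
  rw [ord_div v hτf hf, ← toRingAut_arithmeticGalois, ord_smul_eq]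
  exact dvd_sub (hdiv _) (hdiv _)

/-- One `τ`: the primed pointwise Kummer statement gives `KummerTwiceP`. -/
theorem kummerTwiceP_of_kummerAtP (N m : ℕ) (τ : AlgebraicClosure ℚ ≃ₐ[ℚ] AlgebraicClosure ℚ)
    (h : KummerAtP N m τ) :
    KummerTwiceP (K := AlgebraicClosure ℚ) (F := modularFunctionFieldBar N)
      (arithmeticGalois (modularFunctionFieldFull N) τ) m := by
  intro f hf hdiv
  have hdiv' : ∀ v : Place (AlgebraicClosure ℚ) (modularFunctionFieldBar N),
      (m : ℤ) ∣ v.ord (arithmeticRingAut (modularFunctionFieldFull N) τ f * f⁻¹) := by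
    intro v
    have := hdiv v
    rw [toRingAut_arithmeticGalois] at this
    exact this
  obtain ⟨y, _, hy⟩ := h f hf hdiv'
  refine ⟨y, 1, one_ne_zero, ?_⟩
  rw [toRingAut_arithmeticGalois, Fermat.Agent.A2.T0.H669.tauSubOne_tauSubOne_eq _ hf, hy,
    map_one, one_mul]
  have hτf : arithmeticRingAut (modularFunctionFieldFull N) τ f ≠ 0 :=
    (map_ne_zero_iff _ (arithmeticRingAut (modularFunctionFieldFull N) τ).injective).2 hf
  field_simp

variable (N : ℕ) [NeZero N]

/-- **T0'.**  One `τ`: the primed pointwise Kummer statement gives `(τ - 1)² x = 0` for every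
`x ∈ J₀(N)` such that `m • x` is fixed by `τ`. -/
theorem unipotent_of_kummerAtP (m : ℕ) (hm : 0 < m)
    (τ : AlgebraicClosure ℚ ≃ₐ[ℚ] AlgebraicClosure ℚ) (h : KummerAtP N m τ)
    (x : JZero N) (hx : τ • (m • x) = m • x) :
    τ • (τ • x) + x = 2 • (τ • x) := by
  have hx' : arithmeticGalois (modularFunctionFieldFull N) τ • (m • x) = m • x := hx
  have hZ := Fermat.Agent.S17.H680.smul_minDiv_eq
    (arithmeticGalois (modularFunctionFieldFull N) τ)
    (Fermat.Agent.S17.H680.JZero.galois_smul_cusp N τ) hx'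
  have hmk := Fermat.Agent.S17.H680.mk_minDiv (Fermat.Agent.S17.H680.JZero.cusp N) (m • x)
  have h1 : arithmeticGalois (modularFunctionFieldFull N) τ •
      (arithmeticGalois (modularFunctionFieldFull N) τ • x - x) =
      arithmeticGalois (modularFunctionFieldFull N) τ • x - x :=
    unipotent_of_kummerTwiceP
      (arithmeticGalois (modularFunctionFieldFull N) τ) m hm.ne'
      (kummerTwiceP_of_kummerAtP N m τ h) x _ hZ hmk.symm
  have h1' : τ • (τ • x - x) = τ • x - x := h1
  rw [smul_sub] at h1'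
  rw [two_nsmul]
  have h2 : τ • (τ • x) = τ • x - x + τ • x := by
    rw [← h1']; abel
  rw [h2]; abel

end Modular

end Fermat.Agent.S15.H608

end
end
-- ===== PACK-END S15/H608/T6ppDict.lean

-- ===== PACK-BEGIN S17/H680/Rational.lean
section



/-!
# S17 / BASE-2 (helper680): rational structures for `J₀(N)`

* `JZero.isInvariant_nsmul_cusp` : `k · ∞` is a Galois-invariant divisor;
* `JZero.isInvariant_minRep`     : the minimal representative of a rational class is invariant;
* `JZero.exists_fixed_basis_cusp`: `L(k ∞)` has a basis of Galois-fixed functions;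
* `JZero.exists_rational_coordinate` : a Galois-fixed non-constant function with poles only at `∞`.
-/

set_option autoImplicit false

noncomputable section

open AlgebraicCurve ModularCurve

namespace Fermat.Agent.S17.H680

open Fermat.Agent.Lib.RR Fermat.Agent.S17.H77

variable (N : ℕ) [NeZero N]

theorem JZero.isInvariant_nsmul_cusp (k : ℕ) :
    IsInvariant (modularFunctionFieldFull N) (k • prim (JZero.cusp N)) := by
  intro σ
  rw [smul_comm, smul_prim, JZero.galois_smul_cusp]

theorem JZero.isInvariant_minRep {x : JZero N}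
    (hx : x ∈ FixedPoints.addSubgroup (AlgebraicClosure ℚ ≃ₐ[ℚ] AlgebraicClosure ℚ) (JZero N)) :
    IsInvariant (modularFunctionFieldFull N) (minRep (JZero.cusp N) x) :=
  fun σ => JZero.galois_smul_minRep N hx σ

/-- `L(k ∞)` has a basis of Galois-fixed functions (a `ℚ`-structure). -/
theorem JZero.exists_fixed_basis_cusp (k : ℕ) :
    ∃ b : Fin (ell (k • prim (JZero.cusp N))) → modularFunctionFieldBar N,
      (∀ i, b i ∈ riemannRochSpace (k • prim (JZero.cusp N))) ∧
      (∀ i, IsFixed (modularFunctionFieldFull N) (b i)) ∧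
      LinearIndependent (AlgebraicClosure ℚ) b ∧
      Submodule.span (AlgebraicClosure ℚ) (Set.range b)
        = riemannRochSpace (k • prim (JZero.cusp N)) ∧
      Submodule.span ℚ (Set.range b)
        = fixedPart (modularFunctionFieldFull N) (riemannRochSpace (k • prim (JZero.cusp N))) :=
  exists_fixed_basis_L _ (JZero.isInvariant_nsmul_cusp N k)

theorem JZero.two_le_ell_cusp :
    2 ≤ ell ((genusR (AlgebraicClosure ℚ) (modularFunctionFieldBar N) + 1) •
      prim (JZero.cusp N)) := by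
  have h := riemann_inequality
    ((genusR (AlgebraicClosure ℚ) (modularFunctionFieldBar N) + 1) • prim (JZero.cusp N))
  rw [map_nsmul, degree_prim _ (deg_eq_one _), nsmul_eq_mul, mul_one] at h
  have : (2 : ℤ) ≤ ell ((genusR (AlgebraicClosure ℚ) (modularFunctionFieldBar N) + 1) •
      prim (JZero.cusp N)) := by
    push_cast at h
    linarith
  exact_mod_cast this

/-- A Galois-fixed (i.e. rational) non-constant function whose only pole is the cusp `∞`, of
pole order at most `g + 1`. -/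
theorem JZero.exists_rational_coordinate :
    ∃ t : modularFunctionFieldBar N,
      t ∈ riemannRochSpace ((genusR (AlgebraicClosure ℚ) (modularFunctionFieldBar N) + 1) •
        prim (JZero.cusp N)) ∧
      IsFixed (modularFunctionFieldFull N) t ∧
      t ∉ Set.range (algebraMap (AlgebraicClosure ℚ) (modularFunctionFieldBar N)) :=
  exists_fixed_nonconstant _ (JZero.isInvariant_nsmul_cusp N _) (JZero.two_le_ell_cusp N)

end Fermat.Agent.S17.H680

end
end
-- ===== PACK-END S17/H680/Rational.lean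

-- ===== PACK-BEGIN S17/H736/TopData.lean
section





/-!
# S17 / tower H, leaf T-DATA (helper736): the concrete data of the pairing package of `J₀(N)`

For `F = ℚ̄(X₀(N))`, `∞ = JZero.cusp N` and a `TopInput N`

* `E₁` : the embedding used for POINTS and DISTANCES, `E₂` : the embedding used for FORMS
  (both at `∞`; the basis of `E₂` is Galois-fixed and contains the constant function `1`);
* `Rt ≥ 0` : a Galois-invariant effective divisor avoiding `∞` (the finite ramification divisor
  of the rational coordinate `t`);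
* `d` and the numerical conditions `1 ≤ g`, `2g ≤ d`, `4d + 2g ≤ m = E₂.m`;

this file fixes the DATA of `H500.PairingPackage (MW N)`:

| package | here | definition |
|---|---|---|
| `Dv`   | `Dv N = ↥(effInv N)` | effective Galois-invariant divisors (an `AddSubmonoid`) |
| `deg`  | `degHom N`  | `(Divisor.degree D).toNat` |
| `cls`  | `clsHom N`  | `[D - deg D • ∞] ∈ J₀(N)(ℚ)` |
| `Disj` | `Disj N`    | `∀ P, D P = 0 ∨ E P = 0` |
| `Good` | `T.Good`    | reduced, disjoint from `∞` and from `Rt` |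
| `N`    | `T.NN`      | `HContract.naive E₂` |
| `pr`   | `T.pr`      | `HContract.pair E₁` |
| `δ`    | `T.del`     | `(1/2) Σ_{P ≠ Q} D(P) D(Q) hD E₁ P Q` |
| `K`    | `T.KK`      | `Σ_P D(P) kap E₁ P` |
| `Pl`   | `T.Pl`      | `ht (plucker (E₂.pt ∘ enum D))`, `enum D = D.support.equivFin.symm` |
| `Lin`  | `T.Lin`     | nonzero vectors `a : Fin (E₂.r + 1) → ℚ` |
| `ht`   | `T.htL`     | `HContract.ht (castQ a)` |
| `Z`    | `T.ZL`      | `E₂.Z (castQ a)` |
| `inf`  | `infD N`    | `prim ∞` |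
| `one`  | `T.oneL`    | `Pi.single i₀ 1` (`E₂.x i₀ = 1`) |
| `Rt`   | `T.RtD`     | `Rt` |

All STRUCTURE fields of the package are proved here; the nine AXIOMS are stated as `Prop`s
(`T.NorthcottStatement`, `T.Mov1Statement`, `T.Mov2Statement`, `T.E3Statement`,
`T.BezStatement`, `T.AdjStatement`, `T.GaussStatement`, `T.VdmStatement`, `T.MinkStatement`)
and `T.mkPackage` assembles the package from them.
-/

set_option autoImplicit false
set_option linter.unusedSectionVars false

noncomputable section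

open AlgebraicCurve ModularCurve

namespace Fermat.Agent.S17.H736

open Fermat.Agent.Lib.RR Fermat.Agent.S17.HWall Fermat.Agent.S17.HContract
open Fermat.Agent.S17.H77 Fermat.Agent.S17.H680 Fermat.Agent.S17.H980

variable (N : ℕ) [NeZero N]

/-! ## Divisors -/

/-- The effective Galois-invariant divisors of `X₀(N)`. -/
def effInv : AddSubmonoid (Divisor Qb (modularFunctionFieldBar N)) where
  carrier := {D | 0 ≤ D ∧ IsInvariant (modularFunctionFieldFull N) D}
  zero_mem' := ⟨le_rfl, fun σ => smul_zero _⟩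
  add_mem' := by
    rintro D E ⟨hD, hD'⟩ ⟨hE, hE'⟩
    exact ⟨add_nonneg hD hE, fun σ => by rw [smul_add, hD' σ, hE' σ]⟩

/-- The type of effective Galois-invariant divisors. -/
abbrev Dv : Type := ↥(effInv N)

variable {N}

theorem Dv.nonneg (D : Dv N) : (0 : Divisor Qb (modularFunctionFieldBar N)) ≤ D.1 := D.2.1

theorem Dv.isInvariant (D : Dv N) : IsInvariant (modularFunctionFieldFull N) D.1 := D.2.2

theorem Dv.apply_nonneg (D : Dv N) (P : Place Qb (modularFunctionFieldBar N)) : 0 ≤ D.1 P := by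
  have h := Finsupp.le_def.mp D.nonneg P
  simpa using h

theorem Dv.degree_nonneg (D : Dv N) : 0 ≤ Divisor.degree D.1 :=
  Fermat.Agent.Lib.RR.degree_nonneg D.nonneg

@[simp] theorem Dv.coe_add (D E : Dv N) : (D + E).1 = D.1 + E.1 := rfl

@[simp] theorem Dv.coe_zero : (0 : Dv N).1 = 0 := rfl

theorem Dv.coe_nsmul (k : ℕ) (D : Dv N) : (k • D).1 = k • D.1 :=
  AddSubmonoidClass.coe_nsmul D k

variable (N)

/-- The degree of an effective divisor, as a natural number. -/
def degHom : Dv N →+ ℕ where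
  toFun D := (Divisor.degree D.1).toNat
  map_zero' := by simp
  map_add' D E := by
    rw [Dv.coe_add, map_add, Int.toNat_add D.degree_nonneg E.degree_nonneg]

variable {N}

theorem degHom_apply (D : Dv N) : degHom N D = (Divisor.degree D.1).toNat := rfl

theorem coe_degHom (D : Dv N) : ((degHom N D : ℕ) : ℤ) = Divisor.degree D.1 := by
  rw [degHom_apply, Int.toNat_of_nonneg D.degree_nonneg]

variable (N)

/-- `D ↦ D - deg D • ∞`, as a homomorphism to the divisors of degree zero. -/
def shiftHom : Divisor Qb (modularFunctionFieldBar N) →+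
    Divisor.degZero (K := Qb) (F := modularFunctionFieldBar N) where
  toFun D := ⟨D - Divisor.degree D • prim (JZero.cusp N), by
    rw [Divisor.mem_degZero, map_sub, map_zsmul, degree_prim _ (deg_eq_one _)]
    simp⟩
  map_zero' := by
    apply Subtype.ext
    simp
  map_add' D E := by
    apply Subtype.ext
    simp only [map_add, AddSubgroup.coe_add, add_smul]
    abel

variable {N}

theorem coe_shiftHom (D : Divisor Qb (modularFunctionFieldBar N)) :
    (shiftHom N D : Divisor Qb (modularFunctionFieldBar N))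
      = D - Divisor.degree D • prim (JZero.cusp N) := rfl

/-- The class `[D - deg D • ∞]` of an invariant divisor is a rational point. -/
theorem mk_shiftHom_mem {D : Divisor Qb (modularFunctionFieldBar N)}
    (hD : IsInvariant (modularFunctionFieldFull N) D) :
    Pic0.mk (shiftHom N D) ∈
      FixedPoints.addSubgroup (AlgebraicClosure ℚ ≃ₐ[ℚ] AlgebraicClosure ℚ) (JZero N) := by
  rw [JZero.mem_fixedPoints_iff]
  intro σ
  rw [SemilinearAut.pic0_smul_mk]
  congr 1
  apply Subtype.ext
  rw [SemilinearAut.coe_degZeroSMulHom, coe_shiftHom, smul_sub, hD σ, smul_comm, smul_prim,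
    JZero.galois_smul_cusp]

variable (N)

/-- The class `[D - deg D • ∞] ∈ J₀(N)(ℚ)` of an effective Galois-invariant divisor. -/
def clsHom : Dv N →+
    ↥(FixedPoints.addSubgroup (AlgebraicClosure ℚ ≃ₐ[ℚ] AlgebraicClosure ℚ) (JZero N)) where
  toFun D := ⟨Pic0.mk (shiftHom N D.1), mk_shiftHom_mem D.isInvariant⟩
  map_zero' := by
    apply Subtype.ext
    show Pic0.mk (shiftHom N (0 : Dv N).1) = 0
    rw [Dv.coe_zero, map_zero]
    rfl
  map_add' D E := by
    apply Subtype.ext
    show Pic0.mk (shiftHom N (D + E).1) = Pic0.mk (shiftHom N D.1) + Pic0.mk (shiftHom N E.1)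
    rw [Dv.coe_add, map_add]
    rfl

variable {N}

theorem coe_clsHom (D : Dv N) : ((clsHom N D : _) : JZero N) = Pic0.mk (shiftHom N D.1) := rfl

/-- `cls D = cls E` iff `D - deg D • ∞` and `E - deg E • ∞` are linearly equivalent. -/
theorem clsHom_eq_iff (D E : Dv N) :
    clsHom N D = clsHom N E ↔
      ∃ (h : modularFunctionFieldBar N) (hh : h ≠ 0),
        E.1 - Divisor.degree E.1 • prim (JZero.cusp N)
          = D.1 - Divisor.degree D.1 • prim (JZero.cusp N) + divOf h hh := by
  rw [Subtype.ext_iff, coe_clsHom, coe_clsHom, mk_eq_mk_iff']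
  rfl

/-- Disjoint supports. -/
def Disj (D E : Dv N) : Prop := ∀ P, D.1 P = 0 ∨ E.1 P = 0

theorem disj_iff_disjoint (D E : Dv N) : Disj D E ↔ Disjoint D.1.support E.1.support := by
  rw [Finset.disjoint_left]
  constructor
  · intro h P hP hQ
    rcases h P with h | h
    · exact (Finsupp.mem_support_iff.mp hP) h
    · exact (Finsupp.mem_support_iff.mp hQ) h
  · intro h P
    by_cases hP : D.1 P = 0
    · exact Or.inl hP
    · right
      by_contra hQ
      exact h (Finsupp.mem_support_iff.mpr hP) (Finsupp.mem_support_iff.mpr hQ)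

theorem disj_symm (D E : Dv N) (h : Disj D E) : Disj E D := fun P => (h P).symm

theorem disj_zero (E : Dv N) : Disj 0 E := fun _ => Or.inl rfl

theorem disj_add_left (D₁ D₂ E : Dv N) : Disj (D₁ + D₂) E ↔ Disj D₁ E ∧ Disj D₂ E := by
  constructor
  · intro h
    refine ⟨fun P => ?_, fun P => ?_⟩
    · rcases h P with h | h
      · left
        rw [Dv.coe_add, Finsupp.add_apply] at h
        have h1 := D₁.apply_nonneg P
        have h2 := D₂.apply_nonneg P
        omega
      · exact Or.inr h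
    · rcases h P with h | h
      · left
        rw [Dv.coe_add, Finsupp.add_apply] at h
        have h1 := D₁.apply_nonneg P
        have h2 := D₂.apply_nonneg P
        omega
      · exact Or.inr h
  · rintro ⟨h1, h2⟩ P
    rcases h1 P with h | h
    · rcases h2 P with h' | h'
      · left
        rw [Dv.coe_add, Finsupp.add_apply, h, h', add_zero]
      · exact Or.inr h'
    · exact Or.inr h

variable (N)

/-- The point at infinity, as an effective invariant divisor. -/
def infD : Dv N :=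
  ⟨prim (JZero.cusp N), prim_nonneg _, fun σ => by rw [smul_prim, JZero.galois_smul_cusp]⟩

variable {N}

@[simp] theorem coe_infD : (infD N).1 = prim (JZero.cusp N) := rfl

theorem deg_infD : degHom N (infD N) = 1 := by
  rw [degHom_apply, coe_infD, degree_prim _ (deg_eq_one _)]
  rfl

theorem cls_infD : clsHom N (infD N) = 0 := by
  apply Subtype.ext
  rw [coe_clsHom]
  have h : shiftHom N (infD N).1 = 0 := by
    apply Subtype.ext
    rw [coe_shiftHom, coe_infD, degree_prim _ (deg_eq_one _), one_smul, sub_self]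
    rfl
  rw [h]
  rfl

/-! ## The input of TOP -/

variable (N)

/-- The input of the TOP layer: two embedding data at the cusp `∞` (points/distances and
forms), a rational structure on the forms, the ramification divisor and the numerics. -/
structure TopInput where
  /-- the embedding used for points and distances -/
  E₁ : EmbData Qb (modularFunctionFieldBar N)
  /-- the embedding used for forms / hyperplane sections -/
  E₂ : EmbData Qb (modularFunctionFieldBar N)
  vinf₁ : E₁.vinf = JZero.cusp N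
  vinf₂ : E₂.vinf = JZero.cusp N
  /-- the basis of `E₂` is Galois-fixed -/
  x_fixed : ∀ i, IsFixed (modularFunctionFieldFull N) (E₂.x i)
  /-- the index of the constant function -/
  i₀ : Fin (E₂.r + 1)
  x_one : E₂.x i₀ = 1
  /-- the finite ramification divisor of the coordinate `t` -/
  Rt : Divisor Qb (modularFunctionFieldBar N)
  Rt_nonneg : 0 ≤ Rt
  Rt_inv : IsInvariant (modularFunctionFieldFull N) Rt
  Rt_inf : Rt (JZero.cusp N) = 0
  /-- the degree of the representatives -/
  d : ℕ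
  one_le_g : 1 ≤ genusR Qb (modularFunctionFieldBar N)
  two_g_le_d : 2 * genusR Qb (modularFunctionFieldBar N) ≤ d
  four_d_le_m : 4 * d + 2 * genusR Qb (modularFunctionFieldBar N) ≤ E₂.m

variable {N}

namespace TopInput

variable (T : TopInput N)

theorem isInvariant_vinf₂ : IsInvariant (modularFunctionFieldFull N) (prim T.E₂.vinf) := by
  intro σ
  rw [T.vinf₂, smul_prim, JZero.galois_smul_cusp]

/-- the genus -/
def g (_T : TopInput N) : ℕ := genusR Qb (modularFunctionFieldBar N)

/-- the degree of the forms -/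
def m : ℕ := T.E₂.m

/-- The ramification divisor, as an effective invariant divisor. -/
def RtD : Dv N := ⟨T.Rt, T.Rt_nonneg, T.Rt_inv⟩

@[simp] theorem coe_RtD : T.RtD.1 = T.Rt := rfl

/-- Generic divisors: reduced, avoiding `∞` and `Rt`. -/
def Good (D : Dv N) : Prop := (∀ P, D.1 P ≤ 1) ∧ Disj D (infD N) ∧ Disj D T.RtD

theorem good_disj_inf (D : Dv N) (h : T.Good D) : Disj D (infD N) := h.2.1

theorem good_disj_Rt (D : Dv N) (h : T.Good D) : Disj D T.RtD := h.2.2

/-! ### Heights of divisors -/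

/-- The naive height `N(D) = Σ_P D(P) h(E₂.pt P)`. -/
def NN (D : Dv N) : ℝ := naive T.E₂ D.1

/-- The diagonal pairing `(D . E) = Σ_{A,P} D(A) E(P) hD E₁ A P`. -/
def pr (D E : Dv N) : ℝ := pair T.E₁ D.1 E.1

open Classical in
/-- The off-diagonal self pairing `δ(D) = (1/2) Σ_{P ≠ Q} D(P) D(Q) hD E₁ P Q`
(`= Σ_{P < Q} hD E₁ P Q` for reduced `D`). -/
def del (D : Dv N) : ℝ :=
  (1 / 2 : ℝ) * ∑ P ∈ D.1.support, ∑ Q ∈ D.1.support.erase P,
    (D.1 P : ℝ) * (D.1 Q : ℝ) * hD T.E₁ P Q

/-- The tangent term `K(D) = Σ_P D(P) κ(P)`. -/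
def KK (D : Dv N) : ℝ := D.1.sum fun P n => (n : ℝ) * kap T.E₁ P

/-- The standard enumeration of the support of a divisor. -/
def enum (D : Dv N) : Fin D.1.support.card → Place Qb (modularFunctionFieldBar N) :=
  fun i => (D.1.support.equivFin.symm i : Place Qb (modularFunctionFieldBar N))

theorem enum_injective (D : Dv N) : Function.Injective (_root_.Fermat.Agent.S17.H736.TopInput.enum D) := by
  intro i j h
  exact D.1.support.equivFin.symm.injective (Subtype.ext h)

theorem enum_mem (D : Dv N) (i : Fin D.1.support.card) : _root_.Fermat.Agent.S17.H736.TopInput.enum D i ∈ D.1.support :=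
  (D.1.support.equivFin.symm i).2

theorem exists_enum_eq (D : Dv N) {P : Place Qb (modularFunctionFieldBar N)}
    (hP : P ∈ D.1.support) : ∃ i, _root_.Fermat.Agent.S17.H736.TopInput.enum D i = P :=
  ⟨D.1.support.equivFin ⟨P, hP⟩, by unfold _root_.Fermat.Agent.S17.H736.TopInput.enum; rw [Equiv.symm_apply_apply]⟩

/-- The Plücker height `h(E₂.pt P₁ ∧ … ∧ E₂.pt P_k)` of the points of the support of `D`. -/
def Pl (D : Dv N) : ℝ := ht (plucker fun i => T.E₂.pt (_root_.Fermat.Agent.S17.H736.TopInput.enum D i))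

/-! ### Linear forms -/

/-- The nonzero rational linear forms. -/
def Lin : Type := {a : Fin (T.E₂.r + 1) → ℚ // a ≠ 0}

/-- The height of a rational linear form. -/
def htL (a : T.Lin) : ℝ := ht (castQ a.1)

/-- The hyperplane section of a rational linear form. -/
def ZL (a : T.Lin) : Dv N :=
  ⟨T.E₂.Z (castQ a.1), T.E₂.Z_nonneg _,
    isInvariant_Z (modularFunctionFieldFull N) T.E₂ T.x_fixed T.isInvariant_vinf₂ a.1⟩

@[simp] theorem coe_ZL (a : T.Lin) : (T.ZL a).1 = T.E₂.Z (castQ a.1) := rfl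

theorem castQ_ne_zero' (a : T.Lin) : castQ a.1 ≠ 0 := castQ_ne_zero a.2

/-- The constant function `1`, as a linear form. -/
def oneL : T.Lin := ⟨Pi.single T.i₀ 1, by
  intro h
  have := congrFun h T.i₀
  simp at this⟩

@[simp] theorem coe_oneL : T.oneL.1 = Pi.single T.i₀ 1 := rfl

theorem lin_castQ_oneL : lin T.E₂.x (castQ T.oneL.1) = 1 := by
  unfold lin
  rw [Finset.sum_eq_single T.i₀]
  · simp [castQ, T.x_one]
  · intro j _ hj
    simp [castQ, Pi.single_eq_of_ne hj]
  · intro h
    exact absurd (Finset.mem_univ _) h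

/-! ### Structure fields -/

theorem deg_ZL (a : T.Lin) : degHom N (T.ZL a) = T.m := by
  rw [degHom_apply, coe_ZL, T.E₂.degree_Z (T.castQ_ne_zero' a)]
  rfl

theorem cls_ZL (a : T.Lin) : clsHom N (T.ZL a) = 0 := by
  apply Subtype.ext
  rw [coe_clsHom]
  show Pic0.mk (shiftHom N (T.ZL a).1) = Pic0.mk 0
  rw [mk_eq_mk_iff, isPrincipal_iff]
  refine ⟨(lin T.E₂.x (castQ a.1))⁻¹, inv_ne_zero (T.E₂.lin_ne_zero (T.castQ_ne_zero' a)), ?_⟩
  rw [divOf_inv _ (T.E₂.lin_ne_zero (T.castQ_ne_zero' a)), coe_shiftHom, coe_ZL,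
    T.E₂.degree_Z (T.castQ_ne_zero' a), T.E₂.Z_eq (T.castQ_ne_zero' a), T.vinf₂]
  simp only [AddSubgroup.coe_zero, zero_sub, natCast_zsmul]
  abel

theorem ZL_oneL : T.ZL T.oneL = T.m • infD N := by
  apply Subtype.ext
  rw [Dv.coe_nsmul, coe_ZL, T.E₂.Z_eq (T.castQ_ne_zero' T.oneL), coe_infD, T.vinf₂]
  have h : divOf (lin T.E₂.x (castQ T.oneL.1)) (T.E₂.lin_ne_zero (T.castQ_ne_zero' T.oneL))
      = (0 : Divisor Qb (modularFunctionFieldBar N)) := by
    ext P
    rw [divOf_apply, T.lin_castQ_oneL]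
    simp
  rw [h, zero_add]
  rfl

theorem htL_eq_logHeight (a : T.Lin) : T.htL a = Height.logHeight a.1 := by
  have h := H380.absLogHeight_eq (algebraMap ℚ Qb) a.1
  rw [Module.finrank_self, Nat.cast_one, inv_one, one_mul] at h
  rw [← h]
  unfold htL castQ
  have e : (fun j => ((a.1 j : ℚ) : Qb)) = fun j => algebraMap ℚ Qb (a.1 j) := by
    funext j
    rw [eq_ratCast]
  rw [e]

theorem htL_oneL : T.htL T.oneL = 0 := by
  rw [htL_eq_logHeight, coe_oneL, Height.logHeight_eq_logHeight_restrict_support]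
  have : Subsingleton (Function.support (Pi.single T.i₀ (1 : ℚ))) := by
    refine ⟨fun ⟨i, hi⟩ ⟨j, hj⟩ => Subtype.ext ?_⟩
    have hi' : i = T.i₀ := by
      by_contra h
      exact hi (Pi.single_eq_of_ne h _)
    have hj' : j = T.i₀ := by
      by_contra h
      exact hj (Pi.single_eq_of_ne h _)
    exact hi'.trans hj'.symm
  exact Height.logHeight_eq_zero_of_subsingleton _

theorem NN_add (D E : Dv N) : T.NN (D + E) = T.NN D + T.NN E := by
  unfold NN naive
  rw [Dv.coe_add]
  exact Finsupp.sum_add_index' (fun _ => by simp) (fun _ _ _ => by push_cast; ring)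

theorem NN_nonneg (D : Dv N) : 0 ≤ T.NN D := by
  unfold NN naive
  refine Finset.sum_nonneg fun P _ => ?_
  have h : (0 : ℝ) ≤ ((D.1 P : ℤ) : ℝ) := by exact_mod_cast D.apply_nonneg P
  exact mul_nonneg h (H380.absLogHeight_nonneg _)

theorem wedge_swap {n : ℕ} (y z : Fin n → Qb) : wedge y z = (-1 : Qb) • wedge z y := by
  funext p
  simp only [wedge, Pi.smul_apply, smul_eq_mul]
  ring

theorem hD_symm (E : EmbData Qb (modularFunctionFieldBar N))
    (A P : Place Qb (modularFunctionFieldBar N)) : hD E A P = hD E P A := by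
  unfold hD
  have h : ht (wedge (E.pt A) (E.pt P)) = ht (wedge (E.pt P) (E.pt A)) := by
    rw [wedge_swap]
    exact H380.absLogHeight_smul _ (fun _ => H77.isIntegral_Qb _) (by norm_num)
      (H77.isIntegral_Qb _)
  rw [h]
  ring

theorem pr_symm (D E : Dv N) : T.pr D E = T.pr E D := by
  unfold pr pair pairPt
  simp only [Finsupp.sum, Finset.mul_sum]
  rw [Finset.sum_comm]
  refine Finset.sum_congr rfl fun A _ => Finset.sum_congr rfl fun P _ => ?_
  rw [hD_symm T.E₁ A P]
  ring

theorem pr_add_left (D₁ D₂ E : Dv N) : T.pr (D₁ + D₂) E = T.pr D₁ E + T.pr D₂ E := by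
  unfold pr pair
  rw [Dv.coe_add]
  have h : ∀ P, pairPt T.E₁ (D₁.1 + D₂.1) P = pairPt T.E₁ D₁.1 P + pairPt T.E₁ D₂.1 P := by
    intro P
    unfold pairPt
    exact Finsupp.sum_add_index' (fun _ => by simp) (fun _ _ _ => by push_cast; ring)
  simp only [Finsupp.sum, h, mul_add, Finset.sum_add_distrib]

/-! ## The axioms of the package, as statements about the concrete data -/

/-- (NC) Northcott for the naive height. -/
def NorthcottStatement : Prop :=
  ∀ (e : ℕ) (B : ℝ), {D : Dv N | degHom N D ≤ e ∧ T.NN D ≤ B}.Finite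

/-- (Mov1) generic representatives of degree `d`. -/
def Mov1Statement : Prop :=
  ∀ (x : ↥(FixedPoints.addSubgroup (AlgebraicClosure ℚ ≃ₐ[ℚ] AlgebraicClosure ℚ) (JZero N)))
    (S : Dv N), ∃ D, degHom N D = T.d ∧ clsHom N D = x ∧ Disj D S ∧ T.Good D

/-- (Mov2) common generic residual divisor. -/
def Mov2Statement : Prop :=
  ∀ D₁ D₂ : Dv N, degHom N D₁ = degHom N D₂ → degHom N D₁ + 2 * T.g ≤ T.m →
    clsHom N D₁ = clsHom N D₂ → ∀ S : Dv N,
    ∃ (R : Dv N) (a₁ a₂ : T.Lin), T.ZL a₁ = D₁ + R ∧ T.ZL a₂ = D₂ + R ∧ Disj R S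

/-- (E3) -/
def E3Statement : Prop :=
  ∃ C : ℝ, ∀ (a : T.Lin) (E : Dv N), Disj (T.ZL a) E →
    |T.pr (T.ZL a) E - (degHom N E * T.htL a + T.NN E)| ≤ C * degHom N E

/-- (BEZ) -/
def BezStatement : Prop :=
  ∃ C : ℝ, ∀ a : T.Lin, |T.NN (T.ZL a) - T.m * T.htL a| ≤ C

/-- (ADJ) -/
def AdjStatement : Prop :=
  ∃ C : ℝ, ∀ (a : T.Lin) (D D' : Dv N), T.Good D → T.ZL a = D + D' → Disj D D' →
    |2 * T.del D - T.KK D + T.pr D' D - (degHom N D * T.htL a + T.NN D)| ≤ C * degHom N D

/-- (GAUSS) -/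
def GaussStatement : Prop :=
  ∃ C : ℝ, ∀ D : Dv N, T.Good D →
    |T.KK D - (T.pr T.RtD D - (((degHom N T.RtD : ℝ) - (2 * T.g - 2)) / T.m) * T.NN D)|
      ≤ C * degHom N D

/-- (VDM) -/
def VdmStatement : Prop :=
  ∃ C : ℝ, ∀ D : Dv N, T.Good D → degHom N D = T.d → T.Pl D ≤ T.NN D - T.del D + C

/-- (MINK) -/
def MinkStatement : Prop :=
  ∃ C : ℝ, ∀ D : Dv N, T.Good D → degHom N D = T.d →
    ∃ (a : T.Lin) (D' : Dv N), T.ZL a = D + D' ∧
      ((T.m : ℝ) - T.d + 1 - T.g) * T.htL a ≤ T.Pl D + C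

/-- **The pairing package of `J₀(N)`** from the nine axioms. -/
def mkPackage (hnc : T.NorthcottStatement) (hmov1 : T.Mov1Statement)
    (hmov2 : T.Mov2Statement) (he3 : T.E3Statement) (hbez : T.BezStatement)
    (hadj : T.AdjStatement) (hgauss : T.GaussStatement) (hvdm : T.VdmStatement)
    (hmink : T.MinkStatement) :
    Fermat.Agent.S17.H500.PairingPackage
      ↥(FixedPoints.addSubgroup (AlgebraicClosure ℚ ≃ₐ[ℚ] AlgebraicClosure ℚ) (JZero N)) where
  Dv := Dv N
  deg := degHom N
  cls := clsHom N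
  Disj := Disj
  Good := T.Good
  N := T.NN
  pr := T.pr
  δ := T.del
  K := T.KK
  Pl := T.Pl
  Lin := T.Lin
  ht := T.htL
  Z := T.ZL
  m := T.m
  d := T.d
  g := T.g
  inf := infD N
  one := T.oneL
  Rt := T.RtD
  one_le_g := T.one_le_g
  two_g_le_d := T.two_g_le_d
  four_d_le_m := T.four_d_le_m
  disj_symm := disj_symm
  disj_zero := disj_zero
  disj_add_left := disj_add_left
  deg_inf := deg_infD
  cls_inf := cls_infD
  deg_Z := T.deg_ZL
  cls_Z := T.cls_ZL
  Z_one := T.ZL_oneL
  ht_one := T.htL_oneL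
  good_disj_inf := T.good_disj_inf
  good_disj_Rt := T.good_disj_Rt
  N_add := T.NN_add
  N_nonneg := T.NN_nonneg
  pr_symm := T.pr_symm
  pr_add := fun D₁ D₂ E _ => T.pr_add_left D₁ D₂ E
  northcott := hnc
  mov1 := hmov1
  mov2 := hmov2
  e3 := he3
  bez := hbez
  adj := hadj
  gauss := hgauss
  vdm := hvdm
  mink := hmink

end TopInput

end Fermat.Agent.S17.H736

end
end
-- ===== PACK-END S17/H736/TopData.lean

-- ===== PACK-BEGIN S17/H35/TopAxioms.lean
section



/-!
# S17 / tower H, TOP-GLUE (helper35, subtask 606): the package axioms (E3), (BEZ), (ADJ),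
(GAUSS), (VDM) of `H736.TopInput` from the CONTRACT

For `T : H736.TopInput N`:

* `e3    : HContract.E3Statement T.E₁ T.E₂ → T.E3Statement`;
* `bez   : HContract.E3Statement T.E₁ T.E₂ → T.BezStatement`;
* `adj   : HContract.ADJStatement T.E₁ T.E₂ → T.AdjStatement`;
* `vdm   : HContract.VDMStatement T.E₁ T.E₂ d₀ → T.d ≤ d₀ → T.VdmStatement`;
* `gauss : HContract.E3Statement T.E₁ T.E₂ →
           GaussRtStatement T.E₁ T.Rt (deg Rt − (2g − 2)) → T.GaussStatement`.
-/

set_option autoImplicit false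
set_option linter.unusedSectionVars false

noncomputable section

open AlgebraicCurve ModularCurve

namespace Fermat.Agent.S17.H35

open Fermat.Agent.Lib.RR Fermat.Agent.S17.HWall Fermat.Agent.S17.HContract
open Fermat.Agent.S17.H77 Fermat.Agent.S17.H680 Fermat.Agent.S17.H980
open Fermat.Agent.S17.H736

variable {N : ℕ} [NeZero N] (T : TopInput N)

theorem cast_degHom (D : Dv N) :
    ((degHom N D : ℕ) : ℝ) = ((Divisor.degree D.1 : ℤ) : ℝ) := by
  have h := coe_degHom D
  exact_mod_cast congrArg (fun z : ℤ => (z : ℝ)) h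

theorem top_NN (D : Dv N) : T.NN D = naive T.E₂ D.1 := rfl

theorem top_pr (D E : Dv N) : T.pr D E = pair T.E₁ D.1 E.1 := rfl

theorem top_KK (D : Dv N) : T.KK D = kapSum T.E₁ D.1 := rfl

theorem top_Pl (D : Dv N) : T.Pl D = plHt T.E₂ D.1 := rfl

theorem top_htL (a : T.Lin) : T.htL a = ht (castQ a.1) := rfl

theorem top_del (D : Dv N) : T.del D = delta T.E₁ D.1 := by
  classical
  unfold TopInput.del delta selfPair
  rw [one_div, mul_comm, ← div_eq_mul_inv]
  congr 1
  unfold Finsupp.sum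
  refine Finset.sum_congr rfl fun P _ => ?_
  dsimp only
  unfold pairPt Finsupp.sum
  rw [Finset.mul_sum, Finsupp.support_erase]
  refine Finset.sum_congr (by congr) fun Q hQ => ?_
  have hQP : Q ≠ P := Finset.ne_of_mem_erase hQ
  rw [Finsupp.erase_ne hQP]
  dsimp only
  rw [hD_symm T.E₁ Q P]
  ring

/-- reducedness, in the form used by the generic lemmas -/
theorem good_reduced {D : Dv N} (h : T.Good D) (P : Place Qb (modularFunctionFieldBar N)) :
    D.1 P = 0 ∨ D.1 P = 1 := by
  have h1 := h.1 P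
  have h2 := D.apply_nonneg P
  omega

/-- **(E3)** of the package. -/
theorem e3 (h : HContract.E3Statement T.E₁ T.E₂) : T.E3Statement := by
  obtain ⟨C, _, hC⟩ := e3_sum h
  refine ⟨C, fun a E hdisj => ?_⟩
  rw [top_pr, top_NN, top_htL, cast_degHom, TopInput.coe_ZL]
  refine hC (castQ a.1) E.1 (T.castQ_ne_zero' a) E.nonneg fun P hP => ?_
  rcases hdisj P with h1 | h1
  · rwa [TopInput.coe_ZL] at h1
  · exact absurd h1 hP

/-- **(BEZ)** of the package. -/
theorem bez_top (h : HContract.E3Statement T.E₁ T.E₂) : T.BezStatement := by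
  obtain ⟨C, hC⟩ := bez h
  refine ⟨C, fun a => ?_⟩
  rw [top_NN, top_htL, TopInput.coe_ZL]
  exact hC (castQ a.1) (T.castQ_ne_zero' a)

/-- **(ADJ)** of the package. -/
theorem adj (h : HContract.ADJStatement T.E₁ T.E₂) : T.AdjStatement := by
  obtain ⟨C, _, hC⟩ := adj_sum h
  refine ⟨C, fun a D D' hgood hZ hdisj => ?_⟩
  rw [top_del, top_KK, top_pr, top_NN, top_htL, cast_degHom]
  refine hC (castQ a.1) D.1 D'.1 (T.castQ_ne_zero' a) (good_reduced T hgood) ?_ fun P hP => ?_
  · rw [← TopInput.coe_ZL, hZ, Dv.coe_add]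
  · exact (hdisj P).resolve_left hP

/-- **(VDM)** of the package. -/
theorem vdm {d₀ : ℕ} (h : HContract.VDMStatement T.E₁ T.E₂ d₀) (hd : T.d ≤ d₀) :
    T.VdmStatement := by
  obtain ⟨C, hC⟩ := vdm_sum h
  refine ⟨C, fun D hgood hdeg => ?_⟩
  rw [top_Pl, top_NN, top_del]
  refine hC D.1 (good_reduced T hgood) ?_
  have h1 := card_support_of_reduced D.1 (good_reduced T hgood)
  have h2 := coe_degHom D
  rw [hdeg] at h2
  have h3 : (D.1.support.card : ℤ) = T.d := by rw [h1, ← h2]
  have h4 : D.1.support.card = T.d := by exact_mod_cast h3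
  omega

/-- **(GAUSS)** of the package, from (GAUSS) for the divisor `K₀ = Rt − c ∞`,
`c = deg Rt − (2g − 2)`. -/
theorem gauss (h3 : HContract.E3Statement T.E₁ T.E₂)
    (hG : GaussRtStatement T.E₁ T.Rt
      (Divisor.degree T.Rt - (2 * (genusR Qb (modularFunctionFieldBar N) : ℤ) - 2))) :
    T.GaussStatement := by
  have hv : T.E₁.vinf = T.E₂.vinf := by rw [T.vinf₁, T.vinf₂]
  have hZ₁ : T.E₂.Z (castQ T.oneL.1) = T.E₂.m • prim T.E₂.vinf := by
    have := congrArg Subtype.val T.ZL_oneL
    rw [TopInput.coe_ZL, Dv.coe_nsmul, coe_infD] at this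
    rw [this, T.vinf₂]
    rfl
  obtain ⟨C, _, hC⟩ := gauss_sum hv h3 (T.castQ_ne_zero' T.oneL) hZ₁ hG
  refine ⟨C, fun D hgood => ?_⟩
  rw [top_KK, top_pr, top_NN, cast_degHom D]
  have hc : (((degHom N T.RtD : ℕ) : ℝ) - (2 * (T.g : ℝ) - 2)) =
      (((Divisor.degree T.Rt - (2 * (genusR Qb (modularFunctionFieldBar N) : ℤ) - 2) : ℤ)) : ℝ) := by
    rw [cast_degHom, TopInput.coe_RtD]
    push_cast
    rfl
  rw [hc]
  refine hC D.1 D.nonneg fun P hP => ⟨?_, ?_⟩
  · exact (hgood.2.2 P).resolve_left hP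
  · intro hPinf
    have h1 := (hgood.2.1 P).resolve_left hP
    rw [coe_infD, hPinf, T.vinf₂, prim_apply_self] at h1
    exact one_ne_zero h1

end Fermat.Agent.S17.H35

end
end
-- ===== PACK-END S17/H35/TopAxioms.lean

-- ===== PACK-BEGIN S17/H77/EmbGal.lean
section







/-!
# S17 / tower H (helper77): Galois-fixed embedding data and Galois equivariance of the points

`F = ℚ̄ · F₀`, `g_σ = arithmeticGalois F₀ σ`.

* `exists_embData_fixed` : for a Galois-fixed place `∞` and `m ≥ 2g + 1` there is an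
  `E : EmbData ℚ̄ F` with `E.vinf = ∞`, `E.m = m`, all `E.x i` Galois-fixed, `E.x 0 = 1`,
  adapted to the pole filtration at `∞` (`E.x i ∈ L((m-1)∞)` for `i < r`, `E.x r ∉ L((m-1)∞)`),
  `E.pt = ptD`, `E.tn = tnD` (helper230's constructor);

for ANY `E : EmbData ℚ̄ F` with Galois-fixed basis and invariant `∞`:

* `smul_lin`, `smul_Z` : `g_σ • Z_a = Z_{σ a}`;  `Z_galVec_smul_apply`;
* `exists_pt_smul` : `E.pt (g_σ • P) = c • σ(E.pt P)` with `c ≠ 0` (projective equivariance);
* `ht_pt_smul` : `ht (E.pt (g_σ • P)) = ht (E.pt P)`;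
* `Z_single_zero` : if `E.x 0 = 1` then `Z_{e₀} = m • ∞`.
-/

set_option autoImplicit false

noncomputable section

open AlgebraicCurve ModularCurve

namespace Fermat.Agent.S17.H77

open Fermat.Agent.Lib.RR Fermat.Agent.S17.H680 Fermat.Agent.S17.HWall

/-- the conjugate `σ ∘ a` of a coordinate vector -/
def galVec {n : ℕ} (σ : GQ) (a : Fin n → Qb) : Fin n → Qb := fun i => σ (a i)

theorem galVec_apply {n : ℕ} (σ : GQ) (a : Fin n → Qb) (i : Fin n) :
    galVec σ a i = σ (a i) := rfl

theorem galVec_zero {n : ℕ} (σ : GQ) : galVec σ (0 : Fin n → Qb) = 0 := by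
  funext i
  simp [galVec]

theorem galVec_eq_zero_iff {n : ℕ} (σ : GQ) (a : Fin n → Qb) : galVec σ a = 0 ↔ a = 0 := by
  constructor
  · intro h
    funext i
    have := congrFun h i
    simpa [galVec] using this
  · rintro rfl
    exact galVec_zero σ

theorem galVec_inv_galVec {n : ℕ} (σ : GQ) (a : Fin n → Qb) :
    galVec σ (galVec σ⁻¹ a) = a := by
  funext i
  show σ (σ⁻¹ (a i)) = a i
  rw [← AlgEquiv.mul_apply, mul_inv_cancel, AlgEquiv.one_apply]

theorem dot_galVec {n : ℕ} (σ : GQ) (a y : Fin n → Qb) :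
    dot (galVec σ a) (galVec σ y) = σ (dot a y) := by
  show ∑ i, σ (a i) * σ (y i) = σ (∑ i, a i * y i)
  rw [map_sum]
  exact Finset.sum_congr rfl fun i _ => (map_mul σ _ _).symm

theorem galVec_smul {n : ℕ} (σ : GQ) (c : Qb) (a : Fin n → Qb) :
    galVec σ (c • a) = σ c • galVec σ a := by
  funext i
  show σ (c * a i) = σ c * σ (a i)
  exact map_mul σ _ _

variable (F₀ : IntermediateField ℚ (LaurentSeries ℚ)) [FF1 Qb (laurentBaseChange Qb F₀)]

omit [FF1 Qb (laurentBaseChange Qb F₀)] in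
/-- `g_σ (Σ aᵢ xᵢ) = Σ σ(aᵢ) xᵢ` for Galois-fixed `xᵢ`. -/
theorem smul_lin {n : ℕ} (x : Fin n → laurentBaseChange Qb F₀) (hxfix : ∀ i, IsFixed F₀ (x i))
    (σ : GQ) (a : Fin n → Qb) :
    arithmeticGalois F₀ σ • lin x a = lin x (galVec σ a) := by
  unfold lin
  rw [Finset.smul_sum]
  refine Finset.sum_congr rfl fun j _ => ?_
  rw [arithmeticGalois_smul_smul, hxfix j σ]
  rfl

/-- `g_σ • Z_a = Z_{σ a}`. -/
theorem smul_Z (E : EmbData Qb (laurentBaseChange Qb F₀))
    (hxfix : ∀ i, IsFixed F₀ (E.x i)) (hinf : IsInvariant F₀ (prim E.vinf))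
    (σ : GQ) (a : Fin (E.r + 1) → Qb) :
    arithmeticGalois F₀ σ • E.Z a = E.Z (galVec σ a) := by
  by_cases ha : a = 0
  · subst ha
    have : E.Z (0 : Fin (E.r + 1) → Qb) = 0 := by
      unfold EmbData.Z hypDiv
      rw [dif_pos (by simp [lin])]
    rw [galVec_zero, this, smul_zero]
  · have ha' : galVec σ a ≠ 0 := fun h => ha ((galVec_eq_zero_iff σ a).mp h)
    rw [E.Z_eq ha, E.Z_eq ha', smul_add, smul_divOf, smul_comm, hinf σ]
    congr 1
    exact divOf_congr _ (smul_lin F₀ E.x hxfix σ a)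

theorem Z_galVec_smul_apply (E : EmbData Qb (laurentBaseChange Qb F₀))
    (hxfix : ∀ i, IsFixed F₀ (E.x i)) (hinf : IsInvariant F₀ (prim E.vinf))
    (σ : GQ) (a : Fin (E.r + 1) → Qb) (P : Place Qb (laurentBaseChange Qb F₀)) :
    E.Z (galVec σ a) (arithmeticGalois F₀ σ • P) = E.Z a P := by
  rw [← smul_Z F₀ E hxfix hinf σ a, SemilinearAut.divisor_smul_apply_smul]

/-- **Projective Galois equivariance of the points.** -/
theorem exists_pt_smul (E : EmbData Qb (laurentBaseChange Qb F₀))
    (hxfix : ∀ i, IsFixed F₀ (E.x i)) (hinf : IsInvariant F₀ (prim E.vinf))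
    (σ : GQ) (P : Place Qb (laurentBaseChange Qb F₀)) :
    ∃ c : Qb, c ≠ 0 ∧ E.pt (arithmeticGalois F₀ σ • P) = c • galVec σ (E.pt P) := by
  refine H440.exists_smul_eq_of_dot_iff (H440.pt_ne_zero E _)
    (fun h => H440.pt_ne_zero E P ((galVec_eq_zero_iff σ _).mp h)) fun a ha => ?_
  have ha' : galVec σ⁻¹ a ≠ 0 := fun h => ha ((galVec_eq_zero_iff σ⁻¹ a).mp h)
  rw [E.pt_spec _ a ha]
  have h1 : hypDiv E.vinf E.m E.x a (arithmeticGalois F₀ σ • P) = E.Z (galVec σ⁻¹ a) P := by
    have := Z_galVec_smul_apply F₀ E hxfix hinf σ (galVec σ⁻¹ a) P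
    rw [galVec_inv_galVec] at this
    exact this
  rw [h1]
  have h2 := E.pt_spec P (galVec σ⁻¹ a) ha'
  rw [show hypDiv E.vinf E.m E.x (galVec σ⁻¹ a) P = E.Z (galVec σ⁻¹ a) P from rfl] at h2
  rw [← h2]
  have h3 := dot_galVec σ (galVec σ⁻¹ a) (E.pt P)
  rw [galVec_inv_galVec] at h3
  rw [h3]
  exact (map_eq_zero_iff σ σ.injective).symm

/-- **Galois invariance of the height of a point.** -/
theorem ht_pt_smul (E : EmbData Qb (laurentBaseChange Qb F₀))
    (hxfix : ∀ i, IsFixed F₀ (E.x i)) (hinf : IsInvariant F₀ (prim E.vinf))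
    (σ : GQ) (P : Place Qb (laurentBaseChange Qb F₀)) :
    HContract.ht (E.pt (arithmeticGalois F₀ σ • P)) = HContract.ht (E.pt P) := by
  obtain ⟨c, hc, h⟩ := exists_pt_smul F₀ E hxfix hinf σ P
  unfold HContract.ht
  rw [h, H380.absLogHeight_smul _ (fun i => isIntegral_Qb _) hc (isIntegral_Qb c)]
  exact H380.absLogHeight_ringHom (σ : Qb →+* Qb) (E.pt P)

/-- `Z_{e₀} = m • ∞` when `x₀ = 1`. -/
theorem Z_single_zero (E : EmbData Qb (laurentBaseChange Qb F₀)) (hx0 : E.x 0 = 1) :
    E.Z (Pi.single 0 (1 : Qb)) = E.m • prim E.vinf := by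
  classical
  have hne : (Pi.single 0 (1 : Qb) : Fin (E.r + 1) → Qb) ≠ 0 := by
    intro h
    have := congrFun h 0
    simp at this
  have hlin : lin E.x (Pi.single 0 (1 : Qb)) = 1 := by
    unfold lin
    rw [Finset.sum_eq_single 0]
    · rw [Pi.single_eq_same, one_smul, hx0]
    · intro j _ hj
      rw [Pi.single_eq_of_ne hj, zero_smul]
    · intro h
      exact absurd (Finset.mem_univ _) h
  rw [E.Z_eq hne]
  have : divOf (K := Qb) (lin E.x (Pi.single 0 (1 : Qb))) (E.lin_ne_zero hne) = 0 := by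
    ext v
    rw [divOf_apply (K := Qb), hlin, Place.ord_one]
    rfl
  rw [this, zero_add]

/-- **Existence of a Galois-fixed adapted embedding datum.** -/
theorem exists_embData_fixed (vinf : Place Qb (laurentBaseChange Qb F₀))
    (hinv : ∀ σ : GQ, arithmeticGalois F₀ σ • vinf = vinf) (m : ℕ)
    (hm : 2 * genusR Qb (laurentBaseChange Qb F₀) + 1 ≤ m) :
    ∃ E : EmbData Qb (laurentBaseChange Qb F₀), E.vinf = vinf ∧ E.m = m ∧
      (∀ i, IsFixed F₀ (E.x i)) ∧ E.x 0 = 1 ∧
      (∀ i, i ≠ Fin.last E.r → E.x i ∈ riemannRochSpace ((m - 1) • prim vinf)) ∧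
      E.x (Fin.last E.r) ∉ riemannRochSpace ((m - 1) • prim vinf) ∧
      E.pt = H230.ptD (m • prim vinf) E.x ∧ E.tn = H230.tnD (m • prim vinf) E.x := by
  have hg : genusFF Qb (laurentBaseChange Qb F₀) = genusR Qb (laurentBaseChange Qb F₀) :=
    genusFF_eq_genusR
  obtain ⟨D, hv, hmm, hfix⟩ := exists_ptData F₀ vinf hinv m (by omega) (by rw [hg]; omega)
  subst hv hmm
  exact ⟨H230.embOfBasis D.vinf D.m hm D.x D.x_li D.x_span, rfl, rfl, hfix, D.x_zero,
    D.x_low, D.x_top, rfl, rfl⟩

/-- **The modular curve**: a Galois-fixed adapted embedding datum of `X₀(N)` at the cusp `∞`,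
for every degree `m ≥ 2g + 1`. -/
theorem exists_embData_cusp (N : ℕ) [NeZero N] [FF1 Qb (modularFunctionFieldBar N)] (m : ℕ)
    (hm : 2 * genusR Qb (modularFunctionFieldBar N) + 1 ≤ m) :
    ∃ E : EmbData Qb (modularFunctionFieldBar N), E.vinf = JZero.cusp N ∧ E.m = m ∧
      (∀ i, IsFixed (modularFunctionFieldFull N) (E.x i)) ∧
      IsInvariant (modularFunctionFieldFull N) (prim E.vinf) ∧ E.x 0 = 1 ∧
      (∀ i, i ≠ Fin.last E.r → E.x i ∈ riemannRochSpace ((m - 1) • prim (JZero.cusp N))) ∧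
      E.x (Fin.last E.r) ∉ riemannRochSpace ((m - 1) • prim (JZero.cusp N)) ∧
      E.pt = H230.ptD (m • prim (JZero.cusp N)) E.x ∧
      E.tn = H230.tnD (m • prim (JZero.cusp N)) E.x := by
  obtain ⟨E, h1, h2, h3, h4, h5, h6, h7, h8⟩ :=
    exists_embData_fixed (modularFunctionFieldFull N) (JZero.cusp N)
      (JZero.galois_smul_cusp N) m hm
  refine ⟨E, h1, h2, h3, ?_, h4, h5, h6, h7, h8⟩
  intro σ
  rw [h1, smul_prim, JZero.galois_smul_cusp]

end Fermat.Agent.S17.H77

end
end
-- ===== PACK-END S17/H77/EmbGal.lean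

-- ===== PACK-BEGIN S17/H77/TopNC.lean
section




/-!
# S17 / tower H, TOP-GLUE leaf T-NC (helper77): Northcott for effective invariant divisors

`theorem northcott (I : Top.TopInput F₀) : Top.NorthcottStatement I`.

Route: an effective divisor `D` gives the cycle `cyc E D = Σ_P D(P) • {npt P}` of NORMALISED
points (`npt P = E.pt P` divided by a coordinate chosen in terms of the support of the vector
only).  `npt` is injective (`H440.pt_injective`) and Galois equivariant (`exists_pt_smul`), so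
`D ↦ cyc E D` is injective, `cyc E D` is Galois stable for invariant `D`, has `deg D` elements
and height `N(D)`; conclude by `H50.northcott_cycle_abs`.
-/

set_option autoImplicit false
set_option linter.unusedSectionVars false

noncomputable section

open AlgebraicCurve ModularCurve

namespace Fermat.Agent.S17.H77

open Fermat.Agent.Lib.RR Fermat.Agent.S17.H680 Fermat.Agent.S17.HWall
open Fermat.Agent.S17.HContract Fermat.Agent.S17.H500.Top

/-! ### Normalisation of a non-zero vector -/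

section Norm

variable {n : ℕ}

/-- the support of a vector -/
def vsupp (v : Fin (n + 1) → Qb) : Finset (Fin (n + 1)) :=
  haveI : DecidablePred fun i => v i ≠ 0 := Classical.decPred _
  Finset.univ.filter fun i => v i ≠ 0

/-- a chosen element of a nonempty set of indices -/
def pickIdx (s : Finset (Fin (n + 1))) : Fin (n + 1) :=
  haveI : Decidable s.Nonempty := Classical.dec _
  if h : s.Nonempty then h.choose else 0

theorem pickIdx_mem {s : Finset (Fin (n + 1))} (h : s.Nonempty) : pickIdx s ∈ s := by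
  unfold pickIdx
  rw [dif_pos h]
  exact h.choose_spec

theorem mem_vsupp (v : Fin (n + 1) → Qb) (i : Fin (n + 1)) : i ∈ vsupp v ↔ v i ≠ 0 := by
  unfold vsupp
  simp only [Finset.mem_filter, Finset.mem_univ, true_and]

theorem vsupp_nonempty {v : Fin (n + 1) → Qb} (hv : v ≠ 0) : (vsupp v).Nonempty := by
  by_contra h
  apply hv
  funext i
  by_contra hi
  exact h ⟨i, (mem_vsupp v i).mpr hi⟩

theorem pick_ne_zero {v : Fin (n + 1) → Qb} (hv : v ≠ 0) : v (pickIdx (vsupp v)) ≠ 0 :=
  (mem_vsupp v _).mp (pickIdx_mem (vsupp_nonempty hv))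

/-- the normalised vector: the chosen coordinate becomes `1` -/
def nvec (v : Fin (n + 1) → Qb) : Fin (n + 1) → Qb := (v (pickIdx (vsupp v)))⁻¹ • v

theorem nvec_pick {v : Fin (n + 1) → Qb} (hv : v ≠ 0) : nvec v (pickIdx (vsupp v)) = 1 := by
  unfold nvec
  rw [Pi.smul_apply, smul_eq_mul, inv_mul_cancel₀ (pick_ne_zero hv)]

theorem vsupp_smul {c : Qb} (hc : c ≠ 0) (v : Fin (n + 1) → Qb) : vsupp (c • v) = vsupp v := by
  ext i
  rw [mem_vsupp, mem_vsupp, Pi.smul_apply, smul_eq_mul]
  exact ⟨fun h h0 => h (by rw [h0, mul_zero]), fun h => mul_ne_zero hc h⟩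

theorem vsupp_galVec (σ : GQ) (v : Fin (n + 1) → Qb) : vsupp (galVec σ v) = vsupp v := by
  ext i
  rw [mem_vsupp, mem_vsupp, galVec_apply]
  exact not_congr (map_eq_zero_iff σ σ.injective)

theorem nvec_smul {c : Qb} (hc : c ≠ 0) (v : Fin (n + 1) → Qb) : nvec (c • v) = nvec v := by
  unfold nvec
  rw [vsupp_smul hc, Pi.smul_apply, smul_eq_mul, smul_smul, mul_inv, mul_assoc,
    mul_comm _ c, ← mul_assoc, inv_mul_cancel₀ hc, one_mul]

theorem nvec_galVec (σ : GQ) (v : Fin (n + 1) → Qb) : nvec (galVec σ v) = galVec σ (nvec v) := by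
  unfold nvec
  rw [vsupp_galVec, galVec_smul, galVec_apply, map_inv₀]

theorem absLogHeight_nvec {v : Fin (n + 1) → Qb} (hv : v ≠ 0) :
    H380.absLogHeight (nvec v) = H380.absLogHeight v :=
  H380.absLogHeight_smul v (fun _ => isIntegral_Qb _) (inv_ne_zero (pick_ne_zero hv))
    (isIntegral_Qb _)

theorem eq_smul_of_nvec_eq {v w : Fin (n + 1) → Qb} (hv : v ≠ 0) (h : nvec v = nvec w) :
    ∃ c : Qb, v = c • w := by
  refine ⟨v (pickIdx (vsupp v)) * (w (pickIdx (vsupp w)))⁻¹, ?_⟩
  have h1 : v = v (pickIdx (vsupp v)) • nvec v := by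
    unfold nvec
    rw [smul_smul, mul_inv_cancel₀ (pick_ne_zero hv), one_smul]
  rw [mul_smul]
  conv_lhs => rw [h1, h]
  rfl

end Norm

/-! ### Normalised points -/

variable {F₀ : IntermediateField ℚ (LaurentSeries ℚ)} [FF1 Qb (laurentBaseChange Qb F₀)]

/-- the normalised point of a place -/
def npt (E : EmbData Qb (laurentBaseChange Qb F₀)) (P : Place Qb (laurentBaseChange Qb F₀)) :
    Fin (E.r + 1) → Qb :=
  nvec (E.pt P)

theorem npt_smul (E : EmbData Qb (laurentBaseChange Qb F₀))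
    (hxfix : ∀ i, IsFixed F₀ (E.x i)) (hinf : IsInvariant F₀ (prim E.vinf))
    (σ : GQ) (P : Place Qb (laurentBaseChange Qb F₀)) :
    npt E (arithmeticGalois F₀ σ • P) = galVec σ (npt E P) := by
  obtain ⟨c, hc, h⟩ := exists_pt_smul F₀ E hxfix hinf σ P
  unfold npt
  rw [h, nvec_smul hc, nvec_galVec]

theorem npt_injective (E : EmbData Qb (laurentBaseChange Qb F₀)) :
    Function.Injective (npt E) := by
  intro P Q h
  obtain ⟨c, hc⟩ := eq_smul_of_nvec_eq (H440.pt_ne_zero E P) h
  exact H440.pt_injective E hc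

theorem exists_npt_eq_one (E : EmbData Qb (laurentBaseChange Qb F₀))
    (P : Place Qb (laurentBaseChange Qb F₀)) : ∃ i, npt E P i = 1 :=
  ⟨_, nvec_pick (H440.pt_ne_zero E P)⟩

theorem ht_npt (E : EmbData Qb (laurentBaseChange Qb F₀))
    (P : Place Qb (laurentBaseChange Qb F₀)) :
    H380.absLogHeight (npt E P) = ht (E.pt P) :=
  absLogHeight_nvec (H440.pt_ne_zero E P)

/-! ### The cycle of an effective divisor -/

/-- the multiplicities of an effective divisor, as natural numbers -/
def natPart (D : Divisor Qb (laurentBaseChange Qb F₀)) :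
    Place Qb (laurentBaseChange Qb F₀) →₀ ℕ :=
  D.mapRange Int.toNat rfl

theorem natPart_apply (D : Divisor Qb (laurentBaseChange Qb F₀))
    (P : Place Qb (laurentBaseChange Qb F₀)) : natPart D P = (D P).toNat := rfl

theorem coe_natPart_apply {D : Divisor Qb (laurentBaseChange Qb F₀)} (hD : 0 ≤ D)
    (P : Place Qb (laurentBaseChange Qb F₀)) : ((natPart D P : ℕ) : ℤ) = D P := by
  rw [natPart_apply]
  have := Finsupp.le_def.mp hD P
  simp only [Finsupp.coe_zero, Pi.zero_apply] at this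
  omega

theorem natPart_injOn {D D' : Divisor Qb (laurentBaseChange Qb F₀)} (hD : 0 ≤ D) (hD' : 0 ≤ D')
    (h : natPart D = natPart D') : D = D' := by
  ext P
  rw [← coe_natPart_apply hD P, ← coe_natPart_apply hD' P, h]

theorem natPart_smul (g : SemilinearAut Qb (laurentBaseChange Qb F₀))
    (D : Divisor Qb (laurentBaseChange Qb F₀)) :
    natPart (g • D) = (natPart D).mapDomain (g • ·) := by
  ext P
  rw [natPart_apply, SemilinearAut.divisor_smul_apply]
  have h := Finsupp.mapDomain_apply (MulAction.injective g) (natPart D) (g⁻¹ • P)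
  rw [smul_inv_smul] at h
  rw [h, natPart_apply]

theorem natPart_support {D : Divisor Qb (laurentBaseChange Qb F₀)} (hD : 0 ≤ D) :
    (natPart D).support = D.support := by
  ext P
  rw [Finsupp.mem_support_iff, Finsupp.mem_support_iff, natPart_apply]
  have := Finsupp.le_def.mp hD P
  simp only [Finsupp.coe_zero, Pi.zero_apply] at this
  omega

/-- the cycle of normalised points of a divisor -/
def cyc (E : EmbData Qb (laurentBaseChange Qb F₀)) (D : Divisor Qb (laurentBaseChange Qb F₀)) :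
    Multiset (Fin (E.r + 1) → Qb) :=
  Finsupp.toMultiset ((natPart D).mapDomain (npt E))

theorem cyc_injOn (E : EmbData Qb (laurentBaseChange Qb F₀))
    {D D' : Divisor Qb (laurentBaseChange Qb F₀)} (hD : 0 ≤ D) (hD' : 0 ≤ D')
    (h : cyc E D = cyc E D') : D = D' := by
  classical
  unfold cyc at h
  have h1 := congrArg Multiset.toFinsupp h
  rw [Finsupp.toMultiset_toFinsupp, Finsupp.toMultiset_toFinsupp] at h1
  exact natPart_injOn hD hD' (Finsupp.mapDomain_injective (npt_injective E) h1)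

theorem mem_cyc (E : EmbData Qb (laurentBaseChange Qb F₀))
    (D : Divisor Qb (laurentBaseChange Qb F₀)) {y : Fin (E.r + 1) → Qb} (hy : y ∈ cyc E D) :
    ∃ P, y = npt E P := by
  classical
  unfold cyc at hy
  rw [Finsupp.mem_toMultiset] at hy
  have h2 := Finsupp.mapDomain_support hy
  obtain ⟨P, -, hP⟩ := Finset.mem_image.mp h2
  exact ⟨P, hP.symm⟩

theorem cyc_normalised (E : EmbData Qb (laurentBaseChange Qb F₀))
    (D : Divisor Qb (laurentBaseChange Qb F₀)) : ∀ y ∈ cyc E D, ∃ i, y i = 1 := by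
  intro y hy
  obtain ⟨P, rfl⟩ := mem_cyc E D hy
  exact exists_npt_eq_one E P

theorem card_cyc (E : EmbData Qb (laurentBaseChange Qb F₀))
    {D : Divisor Qb (laurentBaseChange Qb F₀)} (hD : 0 ≤ D) :
    ((cyc E D).card : ℤ) = Divisor.degree D := by
  classical
  unfold cyc
  rw [Finsupp.card_toMultiset, Finsupp.sum_mapDomain_index (fun _ => rfl) (fun _ _ _ => rfl),
    degree_eq_sum, Finsupp.sum, Nat.cast_sum, natPart_support hD]
  refine Finset.sum_congr rfl fun P _ => ?_
  rw [id, coe_natPart_apply hD, deg_eq_one, Nat.cast_one, mul_one]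

theorem isGStable_cyc (E : EmbData Qb (laurentBaseChange Qb F₀))
    (hxfix : ∀ i, IsFixed F₀ (E.x i)) (hinf : IsInvariant F₀ (prim E.vinf))
    {D : Divisor Qb (laurentBaseChange Qb F₀)} (hD : IsInvariant F₀ D) :
    H50.IsGStable (cyc E D) := by
  intro σ
  show (cyc E D).map (galVec σ) = cyc E D
  unfold cyc
  rw [Finsupp.toMultiset_map, ← Finsupp.mapDomain_comp]
  have hcomp : galVec σ ∘ npt E = npt E ∘ (arithmeticGalois F₀ σ • ·) := by
    funext P
    exact (npt_smul E hxfix hinf σ P).symm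
  rw [hcomp, Finsupp.mapDomain_comp, ← natPart_smul, hD σ]

theorem cycAbs_cyc (E : EmbData Qb (laurentBaseChange Qb F₀))
    {D : Divisor Qb (laurentBaseChange Qb F₀)} (hD : 0 ≤ D) :
    H50.cycAbs (cyc E D) = naive E D := by
  classical
  unfold H50.cycAbs cyc naive
  rw [Finsupp.toMultiset_map, Finsupp.sum_toMultiset, ← Finsupp.mapDomain_comp,
    Finsupp.sum_mapDomain_index (h := fun (a : ℝ) (n : ℕ) => n • a) (fun b => zero_smul ℕ b)
      (fun b m₁ m₂ => add_smul m₁ m₂ b),
    Finsupp.sum, Finsupp.sum, natPart_support hD]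
  refine Finset.sum_congr rfl fun P _ => ?_
  rw [Function.comp_apply, ht_npt, nsmul_eq_mul]
  congr 1
  have := coe_natPart_apply hD P
  exact_mod_cast congrArg (fun z : ℤ => (z : ℝ)) this

/-- **T-NC: Northcott for effective invariant divisors of bounded degree.** -/
theorem northcott (I : TopInput F₀) : NorthcottStatement I := by
  intro e B
  have hfin := H50.northcott_cycle_abs (ι := Fin (I.E.r + 1)) e B
  refine Set.Finite.of_finite_image (f := fun D : Dv F₀ =>
    cyc I.E (D : Divisor Qb (laurentBaseChange Qb F₀))) (hfin.subset ?_) ?_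
  · rintro _ ⟨D, ⟨hdeg, hN⟩, rfl⟩
    refine ⟨?_, isGStable_cyc I.E I.xfix I.inf_inv D.inv, cyc_normalised I.E _, ?_⟩
    · have h1 := card_cyc I.E D.nonneg
      have h2 := coe_degHom D
      have h3 : ((cyc I.E (D : Divisor Qb (laurentBaseChange Qb F₀))).card : ℤ) =
          (degHom D : ℕ) := by rw [h1, h2]
      have h4 : (cyc I.E (D : Divisor Qb (laurentBaseChange Qb F₀))).card = degHom D := by
        exact_mod_cast h3
      rw [h4]
      exact hdeg
    · rw [cycAbs_cyc I.E D.nonneg]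
      exact hN
  · intro D _ D' _ h
    exact Subtype.ext (cyc_injOn I.E D.nonneg D'.nonneg h)

/-- **G-EMB** (exact shape of `coord/S17-HSkel.md` sec. 5): an embedding datum of `X₀(N)` at the
cusp with Galois-fixed basis and `x₀ = 1`, for every degree `m ≥ 2g + 1`. -/
theorem gEmb (N : ℕ) [NeZero N] [FF1 Qb (modularFunctionFieldBar N)] (m : ℕ)
    (hm : 2 * genusR Qb (modularFunctionFieldBar N) + 1 ≤ m) :
    ∃ E : EmbData Qb (modularFunctionFieldBar N), E.m = m ∧ E.vinf = JZero.cusp N ∧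
      (∀ i, IsFixed (modularFunctionFieldFull N) (E.x i)) ∧ E.x 0 = 1 := by
  obtain ⟨E, h1, h2, h3, -, h4, -⟩ := exists_embData_cusp N m hm
  exact ⟨E, h2, h1, h3, h4⟩

end Fermat.Agent.S17.H77

end
end
-- ===== PACK-END S17/H77/TopNC.lean

-- ===== PACK-BEGIN S17/H696/TopMink.lean
section
/-
S17 / tower H / TOP-GLUE — leaf T-MINK (subtask 607), helper696.

`topMink T : T.MinkStatement` for every `T : H736.TopInput N` (exact T-DATA shape of helper736,
`S17/H736/TopData.lean`), from helper980's `H980.exists_form_through` (Siegel + Riemann–Roch +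
Galois descent, `S17/H980/PosLinEmb.lean`) and helper35's reduced-divisor calculus.
No hypotheses.  Constant: `C = k log k`, `k = r + 1 - d = m - d + 1 - g`.
-/



set_option autoImplicit false

noncomputable section

open AlgebraicCurve ModularCurve

namespace Fermat.Agent.S17.H696

open Fermat.Agent.Lib.RR Fermat.Agent.S17.HWall Fermat.Agent.S17.HContract
open Fermat.Agent.S17.H77 Fermat.Agent.S17.H680 Fermat.Agent.S17.H980 Fermat.Agent.S17.H736

variable {N : ℕ} [NeZero N]

/-- a good divisor is reduced -/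
theorem good_reduced (T : TopInput N) {D : Dv N} (h : T.Good D) (P) : D.1 P = 0 ∨ D.1 P = 1 := by
  have h1 := D.apply_nonneg P
  have h2 := h.1 P
  omega

/-- a good divisor of degree `d` has `d` points -/
theorem good_card (T : TopInput N) {D : Dv N} (h : T.Good D) :
    D.1.support.card = degHom N D := by
  have h1 := H35.card_support_of_reduced D.1 (good_reduced T h)
  rw [← coe_degHom] at h1
  exact_mod_cast h1

/-- **T-MINK**: the (MINK) axiom of the pairing package of `J₀(N)`. -/
theorem topMink (T : TopInput N) : T.MinkStatement := by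
  classical
  refine ⟨((T.E₂.r + 1 - T.d : ℕ) : ℝ) * Real.log ((T.E₂.r + 1 - T.d : ℕ) : ℝ),
    fun D hgood hdeg => ?_⟩
  have hred := good_reduced T hgood
  have hcard : D.1.support.card = T.d := (good_card T hgood).trans hdeg
  have hsum : D.1 = H980.sumPrim (TopInput.enum D) := H35.eq_sumPrim_of_reduced D.1 hred
  have hinv : IsInvariant (modularFunctionFieldFull N) (H980.sumPrim (TopInput.enum D)) := by
    rw [← hsum]
    exact D.isInvariant
  have hg : genusFF Qb (modularFunctionFieldBar N) = genusR Qb (modularFunctionFieldBar N) :=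
    genusFF_eq_genusR
  have h4 := T.four_d_le_m
  have hr := H980.r_add_one_eq T.E₂
  rw [hg] at hr
  obtain ⟨a, ha0, hle, hht⟩ := H980.exists_form_through (modularFunctionFieldFull N) T.E₂
    T.x_fixed T.isInvariant_vinf₂ (TopInput.enum D) (TopInput.enum_injective D) hinv
    (by rw [hg, hcard]; omega)
  have hkeq : T.E₂.r + 1 - D.1.support.card = T.E₂.r + 1 - T.d := by rw [hcard]
  rw [hkeq] at hht
  -- the rational form
  have hcast : (fun j => ((a j : ℤ) : Qb)) = castQ (fun j => ((a j : ℤ) : ℚ)) := by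
    funext j
    simp [castQ]
  have ha0' : (fun j => ((a j : ℤ) : ℚ)) ≠ 0 := by
    intro h
    apply ha0
    funext j
    have := congrFun h j
    simpa using this
  rw [hcast] at hle hht
  rw [← hsum] at hle
  let aL : T.Lin := ⟨fun j => ((a j : ℤ) : ℚ), ha0'⟩
  have hZinv := (T.ZL aL).isInvariant
  refine ⟨aL, ⟨T.E₂.Z (castQ aL.1) - D.1, sub_nonneg.2 hle, fun σ => ?_⟩, ?_, ?_⟩
  · rw [smul_sub, D.isInvariant σ]
    congr 1
    exact hZinv σ
  · apply Subtype.ext
    show T.E₂.Z (castQ aL.1) = D.1 + (T.E₂.Z (castQ aL.1) - D.1)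
    abel
  · have hk : (((T.E₂.r + 1 - T.d : ℕ) : ℕ) : ℝ) = (T.m : ℝ) - T.d + 1 - T.g := by
      have h1 : T.d ≤ T.E₂.r + 1 := by
        have : (T.d : ℤ) ≤ ((T.E₂.r + 1 : ℕ) : ℤ) := by rw [hr]; omega
        exact_mod_cast this
      rw [Nat.cast_sub h1]
      have h2 : (((T.E₂.r + 1 : ℕ) : ℤ) : ℝ) =
          ((T.E₂.m : ℤ) : ℝ) + 1 - ((genusR Qb (modularFunctionFieldBar N) : ℤ) : ℝ) := by
        rw [hr]
        push_cast
        ring
      have h3 : ((T.E₂.r + 1 : ℕ) : ℝ) = (T.E₂.m : ℝ) + 1 -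
          (genusR Qb (modularFunctionFieldBar N) : ℝ) := by
        exact_mod_cast h2
      rw [h3]
      unfold TopInput.m TopInput.g
      ring
    have hkpos : (0 : ℝ) < ((T.E₂.r + 1 - T.d : ℕ) : ℝ) := by
      have : 0 < T.E₂.r + 1 - T.d := by
        have : (T.d : ℤ) < ((T.E₂.r + 1 : ℕ) : ℤ) := by rw [hr]; omega
        have : T.d < T.E₂.r + 1 := by exact_mod_cast this
        omega
      exact_mod_cast this
    rw [← hk]
    show ((T.E₂.r + 1 - T.d : ℕ) : ℝ) * ht (castQ aL.1) ≤
      ht (plucker fun i => T.E₂.pt (TopInput.enum D i)) + _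
    calc ((T.E₂.r + 1 - T.d : ℕ) : ℝ) * ht (castQ aL.1)
        ≤ ((T.E₂.r + 1 - T.d : ℕ) : ℝ) * ((1 / ((T.E₂.r + 1 - T.d : ℕ) : ℝ)) *
            ht (plucker fun i => T.E₂.pt (TopInput.enum D i)) +
              Real.log ((T.E₂.r + 1 - T.d : ℕ) : ℝ)) :=
          mul_le_mul_of_nonneg_left hht hkpos.le
      _ = ht (plucker fun i => T.E₂.pt (TopInput.enum D i)) +
            ((T.E₂.r + 1 - T.d : ℕ) : ℝ) * Real.log ((T.E₂.r + 1 - T.d : ℕ) : ℝ) := by
          field_simp

end Fermat.Agent.S17.H696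

end

end
-- ===== PACK-END S17/H696/TopMink.lean

-- ===== PACK-BEGIN S17/H736/TopMov1.lean
section



/-!
# S17 / tower H, TOP layer (helper736): the package axiom (Mov1) for the concrete data

`TopInput.mov1 : T.Mov1Statement` (unconditional): every rational class `x ∈ J₀(N)(ℚ)` has a
representative `D` (i.e. `x = [D - d • ∞]`) which is effective, Galois-invariant, of degree `d`,
REDUCED, and avoids `∞`, `Rt` and any given divisor.

Inputs (all on main): `H680.JZero.exists_invariant_rep` (Galois descent of the minimal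
representative) and `H920.exists_fixed_reduced_member` (G-MOV1, abstract form).
-/

set_option autoImplicit false
set_option linter.unusedSectionVars false

noncomputable section

open AlgebraicCurve ModularCurve

namespace Fermat.Agent.S17.H736

open Fermat.Agent.Lib.RR Fermat.Agent.S17.HWall Fermat.Agent.S17.HContract
open Fermat.Agent.S17.H77 Fermat.Agent.S17.H680 Fermat.Agent.S17.H980

variable {N : ℕ} [NeZero N]

namespace TopInput

variable (T : TopInput N)

/-- **(Mov1)** for the concrete data. -/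
theorem mov1 : T.Mov1Statement := by
  classical
  intro x S
  obtain ⟨m₀, E, hdegE, hm₀, hE0, hEdeg, -, -, hEinv, hmk⟩ := JZero.exists_invariant_rep N x.2
  have hm₀d : m₀ ≤ T.d := by
    have h1 : m₀ ≤ genusR Qb (modularFunctionFieldBar N) := hm₀
    have h2 : 2 * genusR Qb (modularFunctionFieldBar N) ≤ T.d := T.two_g_le_d
    omega
  -- the invariant divisor `D₀ = E + (d - m₀) ∞` of degree `d` and class `x`
  set D₀ : Divisor Qb (modularFunctionFieldBar N) := E + (T.d - m₀) • prim (JZero.cusp N)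
    with hD₀
  have hD₀inv : IsInvariant (modularFunctionFieldFull N) D₀ := by
    intro σ
    rw [hD₀, smul_add, hEinv σ, JZero.isInvariant_nsmul_cusp N (T.d - m₀) σ]
  have hD₀deg : Divisor.degree D₀ = T.d := by
    rw [hD₀, map_add, hEdeg, map_nsmul, degree_prim _ (deg_eq_one _)]
    simp only [nsmul_eq_mul, mul_one]
    push_cast [Nat.cast_sub hm₀d]
    ring
  have hgen : 2 * (genusFF Qb (modularFunctionFieldBar N) : ℤ) ≤ Divisor.degree D₀ := by
    rw [hD₀deg, genusFF_eq_genusR]
    exact_mod_cast T.two_g_le_d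
  obtain ⟨f, hf, -, hffix, hred, hav⟩ :=
    Fermat.Agent.S17.H920.exists_fixed_reduced_member (F₀ := modularFunctionFieldFull N)
      hD₀inv hgen (S.1.support ∪ {JZero.cusp N} ∪ T.Rt.support)
  set D : Divisor Qb (modularFunctionFieldBar N) := D₀ + divOf f hf with hD
  have hDinv : IsInvariant (modularFunctionFieldFull N) D :=
    Fermat.Agent.S17.H920.isInvariant_add_divOf hD₀inv hf hffix
  have hD0 : 0 ≤ D := by
    rw [Finsupp.le_def]
    intro v
    simpa using (hred v).1
  have hDdeg : Divisor.degree D = T.d := by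
    rw [hD, map_add, degree_divOf, add_zero, hD₀deg]
  have hS : ∀ P ∈ S.1.support, D P = 0 := fun P hP =>
    hav P (Finset.mem_union_left _ (Finset.mem_union_left _ hP))
  have hinf : D (JZero.cusp N) = 0 :=
    hav _ (Finset.mem_union_left _ (Finset.mem_union_right _ (Finset.mem_singleton_self _)))
  have hRt : ∀ P ∈ T.Rt.support, D P = 0 := fun P hP => hav P (Finset.mem_union_right _ hP)
  refine ⟨⟨D, hD0, hDinv⟩, ?_, ?_, ?_, ?_, ?_, ?_⟩
  · -- degree
    rw [degHom_apply]
    show (Divisor.degree D).toNat = T.d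
    rw [hDdeg]
    simp
  · -- class
    apply Subtype.ext
    rw [coe_clsHom, ← hmk]
    symm
    rw [mk_eq_mk_iff']
    refine ⟨f, hf, ?_⟩
    rw [coe_shiftHom]
    show D - Divisor.degree D • prim (JZero.cusp N)
      = E - m₀ • prim (JZero.cusp N) + divOf f hf
    rw [hDdeg, hD, hD₀, natCast_zsmul]
    have e : T.d • prim (JZero.cusp N)
        = (T.d - m₀) • prim (JZero.cusp N) + m₀ • prim (JZero.cusp N) := by
      rw [← add_nsmul, Nat.sub_add_cancel hm₀d]
    rw [e]
    abel
  · -- disjoint from `S`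
    intro P
    by_cases hP : P ∈ S.1.support
    · exact Or.inl (hS P hP)
    · exact Or.inr (Finsupp.notMem_support_iff.mp hP)
  · -- reduced
    intro P
    exact (hred P).2
  · -- avoids `∞`
    intro P
    by_cases hP : P = JZero.cusp N
    · left
      rw [hP]
      exact hinf
    · right
      rw [coe_infD]
      exact prim_apply_of_ne hP
  · -- avoids `Rt`
    intro P
    by_cases hP : P ∈ T.Rt.support
    · exact Or.inl (hRt P hP)
    · exact Or.inr (Finsupp.notMem_support_iff.mp hP)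

end TopInput

end Fermat.Agent.S17.H736

end
end
-- ===== PACK-END S17/H736/TopMov1.lean

-- ===== PACK-BEGIN S17/H736/TopMov2.lean
section


/-!
# S17 / tower H, TOP layer (helper736): the package axiom (Mov2) for the concrete data

`TopInput.mov2 : T.Mov2Statement`, from `H980.exists_common_residual` (G-MOV2, on main).
Unconditional.
-/

set_option autoImplicit false
set_option linter.unusedSectionVars false

noncomputable section

open AlgebraicCurve ModularCurve

namespace Fermat.Agent.S17.H736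

open Fermat.Agent.Lib.RR Fermat.Agent.S17.HWall Fermat.Agent.S17.HContract
open Fermat.Agent.S17.H77 Fermat.Agent.S17.H680 Fermat.Agent.S17.H980

variable {N : ℕ} [NeZero N]

namespace TopInput

variable (T : TopInput N)

/-- **(Mov2)** for the concrete data: linearly equivalent effective invariant divisors of the
same degree `≤ m - 2g` are cut out by rational hyperplane sections with a common residual
divisor avoiding any given divisor. -/
theorem mov2 : T.Mov2Statement := by
  intro D₁ D₂ hdeg hm hcls S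
  have hd : Divisor.degree D₁.1 = Divisor.degree D₂.1 := by
    rw [← coe_degHom, ← coe_degHom, hdeg]
  obtain ⟨h, hh, e⟩ := (clsHom_eq_iff D₁ D₂).mp hcls
  have hdiv : divOf h⁻¹ (inv_ne_zero hh) = D₁.1 - D₂.1 := by
    rw [divOf_inv _ hh]
    rw [hd] at e
    have e' : divOf h hh = D₂.1 - D₁.1 := by
      have e2 : divOf h hh = (D₂.1 - Divisor.degree D₂.1 • prim (JZero.cusp N))
          - (D₁.1 - Divisor.degree D₂.1 • prim (JZero.cusp N)) := by
        rw [e]
        abel
      rw [e2]
      abel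
    rw [e']
    abel
  have hgen : Divisor.degree D₁.1 +
      2 * (genusFF Qb (modularFunctionFieldBar N) : ℤ) ≤ T.E₂.m := by
    rw [genusFF_eq_genusR, ← coe_degHom]
    have : degHom N D₁ + 2 * genusR Qb (modularFunctionFieldBar N) ≤ T.E₂.m := hm
    exact_mod_cast this
  obtain ⟨a₁, a₂, R, ha₁, ha₂, hR0, hRinv, hZ₁, hZ₂, hRS⟩ :=
    exists_common_residual (modularFunctionFieldFull N) T.E₂ T.x_fixed T.isInvariant_vinf₂
      D₁.1 D₂.1 D₁.nonneg D₂.nonneg D₁.isInvariant D₂.isInvariant hgen h⁻¹ (inv_ne_zero hh)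
      hdiv S.1.support
  refine ⟨⟨R, hR0, hRinv⟩, ⟨a₁, ha₁⟩, ⟨a₂, ha₂⟩, Subtype.ext hZ₁, Subtype.ext hZ₂, fun P => ?_⟩
  by_cases hP : P ∈ S.1.support
  · exact Or.inl (hRS P hP)
  · exact Or.inr (Finsupp.notMem_support_iff.mp hP)

end TopInput

end Fermat.Agent.S17.H736

end
end
-- ===== PACK-END S17/H736/TopMov2.lean

-- ===== PACK-BEGIN S15/H337/Spec.lean
section







/-!
# Row S15, DESC tower COUNT for `r` odd — interface (helper337)

Blueprint: `coord/S15-DESC-blueprint.md` sec. 6 (row-lead helper975); design of this tower: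
`coord/S15-COUNT-helper337.md` (origin/helper337).

Target `CountOddStatement`: for every level `N`, every odd prime `r` and every element `t` of the
ring generated by the Hecke operators `T_ℓ`, `ℓ ∤ N r`, the `+1` and the `-1` eigenspace of the
complex conjugation on `ker t ∩ J₀(N)[r]` have the same number of elements.  With `t = 1 - e`,
`e` the Hecke projector on the Eisenstein part `W_E` of `W = J₀(N)[r]`, this is
`#{ψ_i = 1} = dim W_E^{c = +1} = D / 2`.

Route (no Weil pairing, no Jacobian over `ℂ`):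

* (KUM) the Kummer dictionary `J₀(N)[r] ≃ {parabolic characters Γ₀(N) → ℤ/r}` on main
  (`S30.Chain.kumPackage`, `S30.H810.exists_isParHom_isKum_of_torsion`) is bijective, additive and
  Hecke-equivariant at `ℓ ∤ N r`;
* (CONJ) `KumConjStatement`: it turns the complex conjugation into `c ↦ - c ∘ ε`,
  `ε = ` conjugation by `diag(1,-1)` (Prelude `jConjGamma0`): if `U` is a twisted function of
  character `c` then `τ ↦ conj (U (-conj τ))` is one of character `- c ∘ ε`, with conjugate
  `q`-expansion;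
* (EPS) `ManinPairingEpsStatement`: the Manin pairing of row S41 (perfect, Hecke self-adjoint:
  `S41.H221.pd`, `pdHecke`) is ANTI-invariant under `ε`; proof by the β-formula, `ε` maps the
  positive primitive parabolic generators to the inverses of such (`CuspSystemEpsStatement`);
* (LIN) for `r` odd the two eigenspaces of `ε` are then isotropic, hence dual to each other as
  Hecke modules, hence `dim ker (t | C⁺) = dim ker (t | C⁻)`.

Definitions and statements only (all proved in `CountMain.lean`).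
-/

set_option autoImplicit false

noncomputable section

namespace Fermat.Agent.S15.H337

open CongruenceSubgroup Matrix.SpecialLinearGroup ModularCurve ModularCurve.Period
open Fermat.Agent.S41.Spec Fermat.Agent.S29 Fermat.Agent.S29.M4b
open scoped MatrixGroups

universe u

/-- (CUSP-eps) `γ ↦ ε(γ)⁻¹` maps cusp systems of `Γ₀(n)` to cusp systems. -/
def CuspSystemEpsStatement : Prop :=
  ∀ (n : ℕ) (ι : Type) (γ : ι → Gamma0 n), IsCuspSystem (Gamma0 n) γ →
    IsCuspSystem (Gamma0 n) (fun i => (jConjGamma0 n (γ i))⁻¹)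

/-- (EPS) the Manin pairing is anti-invariant under the involution `ε`. -/
def ManinPairingEpsStatement : Prop :=
  ∀ (n : ℕ), n ≠ 0 → ∀ (F : Type u) [Field F] (φ ψ : Additive (Gamma0 n) →+ F),
    IsCuspidal φ → IsCuspidal ψ →
      maninPairing (Gamma0 n) (charInvolution n F F φ) (charInvolution n F F ψ) =
        - maninPairing (Gamma0 n) φ ψ

/-- (CONJ) the Kummer dictionary turns the complex conjugation into `c ↦ - c ∘ ε`. -/
def KumConjStatement : Prop :=
  ∀ (N m : ℕ) [NeZero N] [NeZero m] (c : G0 N → ZMod m) (x : JZero N),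
    IsKum N m c x → IsKum N m (fun γ => - c (jConjGamma0 N γ)) (complexConjugation • x)

/-- The Hecke operators `T_ℓ`, `ℓ ∤ N r`, on `J₀(N)(ℚ̄)`. -/
def awayHecke (N r : ℕ) [NeZero N] : Set (Module.End ℤ (JZero N)) :=
  {T | ∃ ℓ : Nat.Primes, ¬ (ℓ : ℕ) ∣ N * r ∧ T = heckeOperatorBar N ℓ}

/-- The ring generated by them. -/
def awayHeckeAlg (N r : ℕ) [NeZero N] : Subalgebra ℤ (Module.End ℤ (JZero N)) :=
  Algebra.adjoin ℤ (awayHecke N r)

/-- The `s`-eigenspace (`s = ± 1`) of the complex conjugation on `ker t ∩ J₀(N)[r]`. -/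
def conjEigen (N r : ℕ) [NeZero N] (t : Module.End ℤ (JZero N)) (s : ℤ) : Set (JZero N) :=
  {x | (r : ℤ) • x = 0 ∧ t x = 0 ∧ complexConjugation • x = s • x}

/-- **COUNT, `r` odd.**  The two eigenspaces of the complex conjugation on `ker t ∩ J₀(N)[r]` are
equinumerous, for every `t` in the Hecke ring away from `N r`. -/
def CountOddStatement : Prop :=
  ∀ (N r : ℕ) [NeZero N], r.Prime → r ≠ 2 → ∀ t ∈ awayHeckeAlg N r,
    Nat.card (conjEigen N r t 1) = Nat.card (conjEigen N r t (-1))

/-- **COUNT, `r` odd, square form.**  `|ker t ∩ W| = |(ker t ∩ W)^{c = 1}| ^ 2`, `W = J₀(N)[r]`. -/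
def CountOddSqStatement : Prop :=
  ∀ (N r : ℕ) [NeZero N], r.Prime → r ≠ 2 → ∀ t ∈ awayHeckeAlg N r,
    Nat.card {x : JZero N | (r : ℤ) • x = 0 ∧ t x = 0} = Nat.card (conjEigen N r t 1) ^ 2

/-- **COUNT, `r` odd, projector form.**  For `e` in the Hecke ring away from `N r` (e.g. the
projector on the Eisenstein part `W_E` of `W = J₀(N)[r]`): `|e-fixed part of W| =
|its c-fixed part| ^ 2`, i.e. `dim W_E^{c = 1} = D / 2`. -/
def CountOddProjStatement : Prop :=
  ∀ (N r : ℕ) [NeZero N], r.Prime → r ≠ 2 → ∀ e ∈ awayHeckeAlg N r,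
    Nat.card {x : JZero N | (r : ℤ) • x = 0 ∧ e x = x} =
      Nat.card {x : JZero N | (r : ℤ) • x = 0 ∧ e x = x ∧ complexConjugation • x = x} ^ 2

end Fermat.Agent.S15.H337

end
end
-- ===== PACK-END S15/H337/Spec.lean

-- ===== PACK-BEGIN LT/H49/Product.lean
section






/-!
# Row LT, block GLUE2, leaf W2A (helper49): the product with `E_{1,χ₋₃}`

For `3 ∣ M` and a cusp form `f` of weight one on `Γ₁(M)` with nebentypus `χ₋₃`, the product
`f · E_{1,χ₋₃}` is a cusp form of weight two on `Γ₀(M)`, with `q`-expansion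
`qExpansion f * e1Chi3`.
-/

set_option autoImplicit false

noncomputable section

namespace Fermat.Agent.LT.H49

open EisensteinWeightOne CongruenceSubgroup ModularFormClass UpperHalfPlane
open Fermat.Agent.S20 (MF SF)
open scoped MatrixGroups ModularForm Manifold

theorem Gamma0_le_of_dvd {d M : ℕ} (h : d ∣ M) {γ : SL(2, ℤ)} (hγ : γ ∈ Gamma0 M) :
    γ ∈ Gamma0 d := by
  rw [Gamma0_mem] at hγ ⊢
  rw [ZMod.intCast_zmod_eq_zero_iff_dvd] at hγ ⊢
  exact dvd_trans (Int.natCast_dvd_natCast.mpr h) hγ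

theorem isUnit_lowerRight {d : ℕ} {γ : SL(2, ℤ)} (hγ : γ ∈ Gamma0 d) :
    IsUnit (((γ 1 1 : ℤ)) : ZMod d) := by
  have h10 : ((γ 1 0 : ℤ) : ZMod d) = 0 := Gamma0_mem.mp hγ
  have hdet : γ 0 0 * γ 1 1 - γ 0 1 * γ 1 0 = 1 := by
    have h := γ.det_coe
    rwa [Matrix.det_fin_two] at h
  have : ((γ 0 0 : ℤ) : ZMod d) * ((γ 1 1 : ℤ) : ZMod d) = 1 := by
    have h := congrArg (Int.cast : ℤ → ZMod d) hdet
    push_cast at h
    rw [h10, mul_zero, sub_zero] at h
    exact h
  exact IsUnit.of_mul_eq_one _ (by rw [mul_comm]; exact this)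

theorem qExpansion_E3 {E : ModularForm (Gamma1 3) 1}
    (hE : ∀ n : ℕ, qCoeff (⇑E) n = ((PowerSeries.coeff n e1Chi3 : ℤ) : ℂ)) :
    qExpansion 1 (⇑E) = e1Chi3In ℂ := by
  ext n
  have := hE n
  rw [qCoeff] at this
  rw [this, e1Chi3In, PowerSeries.coeff_map]
  rfl

/-- The product `f · E_{1,χ₋₃}` as a cusp form of weight two on `Γ₀(M)`. -/
theorem exists_product_form {M : ℕ} [NeZero M] (h3 : 3 ∣ M) (f : CuspForm (Gamma1 M) 1)
    (hneb : ∀ γ : SL(2, ℤ), γ ∈ Gamma0 M →
      (⇑f : ℍ → ℂ) ∣[(1 : ℤ)] γ = chi3 (((γ 1 1 : ℤ)) : ZMod 3) • (⇑f : ℍ → ℂ)) :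
    ∃ F : CuspForm (Gamma0 M) 2,
      qExpansion 1 (⇑F) = qExpansion 1 (⇑f) * e1Chi3In ℂ := by
  obtain ⟨E, hEneb, hEq⟩ := exists_E3
  have hf := Fermat.Agent.S20.C0h516.coe_mem_SF f
  have hE := Fermat.Agent.S20.C0h516.coe_mem_MF E
  have h2 : (2 : ℤ) = 1 + 1 := by norm_num
  have hmem : (⇑f : ℍ → ℂ) * (⇑E : ℍ → ℂ) ∈ SF (Gamma0 M) 2 := by
    refine ⟨hf.1.mul hE.1, fun γ hγ => ?_, fun γ => ?_⟩
    · have hγ3 : γ ∈ Gamma0 3 := Gamma0_le_of_dvd h3 hγ
      rw [h2, ModularForm.mul_slash_SL2, hneb γ hγ, hEneb γ hγ3]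
      ext z
      simp only [Pi.mul_apply, Pi.smul_apply, smul_eq_mul]
      have h1 := chi3_sq_intCast (isUnit_lowerRight hγ3)
      linear_combination (f z * E z) * h1
    · rw [h2, ModularForm.mul_slash_SL2]
      exact (hf.2.2 γ).mul_boundedAtFilter (hE.2.2 γ)
  obtain ⟨F, hF⟩ := Fermat.Agent.S20.C0h516.mem_SF_iff_exists.mp hmem
  refine ⟨F, ?_⟩
  rw [hF, ← qExpansion_E3 hEq]
  exact qExpansion_mul
    (ModularFormClass.analyticAt_cuspFunction_zero f one_pos
      (Fermat.Agent.S48.H788.one_mem_strictPeriods_Gamma1_788 M))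
    (ModularFormClass.analyticAt_cuspFunction_zero E one_pos
      (Fermat.Agent.S48.H788.one_mem_strictPeriods_Gamma1_788 3))

end Fermat.Agent.LT.H49

end
end
-- ===== PACK-END LT/H49/Product.lean

-- ===== PACK-BEGIN LT/H49/W2A.lean
section









/-!
# Row LT, block GLUE2, leaf W2A (helper49): weight one to weight two, modulo 3

`w2a` : part (A) of the Prelude Prop `CuspForm.WeightTwoModThreeCongruenceLift`, proved.

Given a formal eigensystem `b` over `ℤ[√-2]` for the character `χ₋₃` (depleted at the primes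
dividing `M`) realised by a cusp form `f` of weight one on `Γ₁(M)`, and an integral basis of
`S₂(Γ₀(M))`, there is a formal eigensystem `a` over `ℤ` with `a ≡ red b mod 3`, lattice-realised
in `S₂(Γ₀(M))`: the form is `F₁ - F₂`, where `f · E_{1,χ₋₃} = F₁ + √-2 F₂`.

No automorphic input; ingredients: landed S48 pieces (nebentypus from the Hecke relations,
Eisenstein series of weight one), landed S49 pieces (`q`-expansion glue).
-/

set_option autoImplicit false

noncomputable section

namespace Fermat.Agent.LT.H49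

open EisensteinWeightOne CuspForm CongruenceSubgroup ModularFormClass UpperHalfPlane Zsqrtd
open FLT.ExplicitLift
open scoped MatrixGroups ModularForm

/-! ### Embeddings of `ℤ[√-2]` -/

theorem iota_apply (ι : ℤ√(-2) →+* ℂ) (z : ℤ√(-2)) :
    ι z = (z.re : ℂ) + (z.im : ℂ) * ι sqrtd := by
  have hz : z = ((z.re : ℤ) : ℤ√(-2)) + sqrtd * ((z.im : ℤ) : ℤ√(-2)) := by
    conv_lhs => rw [show z = ⟨z.re, z.im⟩ from rfl, Zsqrtd.decompose]
  conv_lhs => rw [hz]
  rw [map_add, map_mul, map_intCast, map_intCast]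
  ring

theorem iota_sqrtd_sq (ι : ℤ√(-2) →+* ℂ) : ι sqrtd * ι sqrtd = -2 := by
  rw [← map_mul, Zsqrtd.dmuld, map_intCast]
  norm_num

theorem iota_sqrtd_re (ι : ℤ√(-2) →+* ℂ) : (ι sqrtd).re = 0 := by
  have h := iota_sqrtd_sq ι
  have hre := congrArg Complex.re h
  have him := congrArg Complex.im h
  simp only [Complex.mul_re, Complex.mul_im, Complex.neg_re, Complex.neg_im,
    Complex.re_ofNat, Complex.im_ofNat] at hre him
  by_contra hne
  have him0 : (ι sqrtd).im = 0 := by
    have : 2 * ((ι sqrtd).re * (ι sqrtd).im) = 0 := by linarith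
    rcases mul_eq_zero.mp this with h2 | h2
    · norm_num at h2
    · rcases mul_eq_zero.mp h2 with h3 | h3
      · exact absurd h3 hne
      · exact h3
  rw [him0] at hre
  nlinarith [sq_nonneg (ι sqrtd).re]

theorem iota_sqrtd_ne_zero (ι : ℤ√(-2) →+* ℂ) : ι sqrtd ≠ 0 := by
  intro h
  have := iota_sqrtd_sq ι
  rw [h] at this
  norm_num at this

theorem iota_eq_zero (ι : ℤ√(-2) →+* ℂ) {z : ℤ√(-2)} (h : ι z = 0) : z = 0 := by
  rw [iota_apply] at h
  have hre := congrArg Complex.re h
  have him := congrArg Complex.im h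
  simp only [Complex.add_re, Complex.add_im, Complex.mul_re, Complex.mul_im, Complex.intCast_re,
    Complex.intCast_im, iota_sqrtd_re, Complex.zero_re, Complex.zero_im] at hre him
  have hs : (ι sqrtd).im ≠ 0 := by
    intro h0
    apply iota_sqrtd_ne_zero ι
    apply Complex.ext
    · simpa using iota_sqrtd_re ι
    · simpa using h0
  have h1 : z.re = 0 := by
    have : (z.re : ℝ) = 0 := by linarith
    exact_mod_cast this
  have h2 : z.im = 0 := by
    have : (z.im : ℝ) * (ι sqrtd).im = 0 := by linarith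
    rcases mul_eq_zero.mp this with h3 | h3
    · exact_mod_cast h3
    · exact absurd h3 hs
  exact Zsqrtd.ext h1 h2

theorem red_apply (z : ℤ√(-2)) : red z = ((z.re - z.im : ℤ) : ZMod 3) := by
  have : red z = (z.re : ZMod 3) + (z.im : ZMod 3) * (-1) := rfl
  rw [this, Int.cast_sub, mul_neg_one, ← sub_eq_add_neg]

/-! ### The bridge product and ring homomorphisms -/

theorem map_e1Chi3In {R S : Type*} [CommRing R] [CommRing S] (φ : R →+* S) :
    PowerSeries.map φ (e1Chi3In R) = e1Chi3In S := by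
  ext n
  simp [e1Chi3In, PowerSeries.coeff_map]

theorem map_bridgeProduct {R S : Type*} [CommRing R] [CommRing S] (φ : R →+* S) (a : ℕ → R) :
    PowerSeries.map φ (bridgeProduct a) = bridgeProduct (fun n => φ (a n)) := by
  unfold bridgeProduct
  rw [map_mul, map_e1Chi3In]
  congr 1

/-! ### The statement and the proof -/

/-- Leaf W2A: part (A) of the Prelude Prop `CuspForm.WeightTwoModThreeCongruenceLift`. -/
def W2AStatement : Prop :=
  ∀ (M : ℕ) (_ : NeZero M) (b : ℕ → ℤ√(-2)),
    FormalHecke.IsEigensystem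
      (fun ℓ => if ℓ ∣ M then 0 else ((chiNegThree ℓ : ℤ) : ℤ√(-2))) b →
    HasIntegralBasis M →
    IsWeightOneChiNegThreeRealized M b →
    ∃ a : ℕ → ℤ,
      FormalHecke.IsEigensystem
        (fun ℓ => if ℓ ∣ M then 0 else ((chiNegThree ℓ : ℤ) : ℤ)) a ∧
      IsLatticeRealized M a ∧
      ∀ n : ℕ, ((a n : ℤ) : ZMod 3) = red (b n)

/-- The integral eigensystem lifting `red ∘ b`. -/
def liftSeq (M : ℕ) (b : ℕ → ℤ√(-2)) : ℕ → ℤ :=
  eigSeq (fun ℓ => if ℓ ∣ M then 0 else ((chiNegThree ℓ : ℤ) : ℤ))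
    (fun p => (((red (b p)).val : ℕ) : ℤ))

theorem isEigensystem_liftSeq (M : ℕ) (b : ℕ → ℤ√(-2)) :
    FormalHecke.IsEigensystem
      (fun ℓ => if ℓ ∣ M then 0 else ((chiNegThree ℓ : ℤ) : ℤ)) (liftSeq M b) :=
  isEigensystem_eigSeq _ _

theorem liftSeq_cast (M : ℕ) (b : ℕ → ℤ√(-2))
    (hb : FormalHecke.IsEigensystem
      (fun ℓ => if ℓ ∣ M then 0 else ((chiNegThree ℓ : ℤ) : ℤ√(-2))) b)
    (hb0 : b 0 = 0) (n : ℕ) : ((liftSeq M b n : ℤ) : ZMod 3) = red (b n) := by
  have hA := isEigensystem_map (Int.castRingHom (ZMod 3)) (isEigensystem_liftSeq M b)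
  have hB := isEigensystem_map red hb
  have he : (fun n : ℕ => (Int.castRingHom (ZMod 3))
        (if n ∣ M then 0 else ((chiNegThree n : ℤ) : ℤ))) =
      fun n : ℕ => red (if n ∣ M then 0 else ((chiNegThree n : ℤ) : ℤ√(-2))) := by
    funext n
    split_ifs <;> simp
  rw [he] at hA
  have key := eigensystem_ext hA hB ?_ ?_
  · exact congrFun key n
  · simp [liftSeq, hb0]
  · intro p hp
    simp only [liftSeq, eigSeq_prime _ _ hp, eq_intCast, Int.cast_natCast]
    exact ZMod.natCast_zmod_val _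

theorem w2a : W2AStatement := by
  intro M hM b hb hIB hreal
  obtain ⟨ι, f, hf⟩ := hreal
  -- `f ≠ 0`, `b 0 = 0`
  have hf1 : qCoeff f 1 = 1 := by rw [hf 1, hb.1, map_one]
  have hfne : (⇑f : ℍ → ℂ) ≠ 0 := by
    intro h
    unfold ModularFormClass.qCoeff at hf1
    rw [h, qExpansion_zero] at hf1
    simp at hf1
  have hper := Fermat.Agent.S48.H788.one_mem_strictPeriods_Gamma1_788 M
  have hf0 : qCoeff f 0 = 0 := by
    simp only [qCoeff]
    exact CuspFormClass.qExpansion_coeff_zero f one_pos hper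
  have hb0 : b 0 = 0 := iota_eq_zero ι (by rw [← hf 0, hf0])
  -- Hecke relations of `f`
  have hT : ∀ p : ℕ, p.Prime → ¬ p ∣ M → ∀ n : ℕ,
      qCoeff f (p * n) +
          ((chiNegThree p : ℤ) : ℂ) * (if p ∣ n then qCoeff f (n / p) else 0) =
        qCoeff f p * qCoeff f n := by
    intro p hp hpM n
    have h := congrArg ι (hb.2 p hp n)
    simp only [if_neg hpM] at h
    rw [map_add, map_mul, map_mul, map_intCast] at h
    simp only [hf]
    rw [← h]
    split_ifs
    · rfl
    · rw [map_zero]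
  -- `3 ∣ M`
  have h3 : 3 ∣ M := three_dvd_level f hfne hT
  -- nebentypus
  set ε : DirichletCharacter ℂ M := DirichletCharacter.changeLevel h3 chi3 with hε
  have hεcast : ∀ d : ℤ, IsUnit ((d : ℤ) : ZMod M) →
      ε ((d : ℤ) : ZMod M) = chi3 ((d : ℤ) : ZMod 3) := by
    intro d hd
    have := DirichletCharacter.changeLevel_eq_cast_of_dvd chi3 h3 hd.unit
    rw [IsUnit.unit_spec] at this
    rw [hε, this, ZMod.cast_intCast h3]
  have hTε : ∀ p : ℕ, p.Prime → ¬ p ∣ M → ∀ n : ℕ,
      qCoeff f (p * n) +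
          ε (p : ZMod M) * (if p ∣ n then qCoeff f (n / p) else 0) =
        qCoeff f p * qCoeff f n := by
    intro p hp hpM n
    have hu : IsUnit (((p : ℤ) : ℤ) : ZMod M) := by
      rw [Int.cast_natCast]
      exact (ZMod.isUnit_iff_coprime p M).mpr ((Nat.Prime.coprime_iff_not_dvd hp).mpr hpM)
    have h1 := hεcast (p : ℤ) hu
    rw [Int.cast_natCast, Int.cast_natCast, chi3_natCast] at h1
    rw [h1]
    exact hT p hp hpM n
  have hneb : ∀ γ : SL(2, ℤ), γ ∈ Gamma0 M →
      (⇑f : ℍ → ℂ) ∣[(1 : ℤ)] γ = chi3 (((γ 1 1 : ℤ)) : ZMod 3) • (⇑f : ℍ → ℂ) := by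
    intro γ hγ
    rw [← hεcast _ (isUnit_lowerRight hγ)]
    exact Fermat.Agent.S48.H188.nebentypus ε f hTε hγ
  -- the product form
  obtain ⟨F, hF⟩ := exists_product_form h3 f hneb
  have hFcoef : ∀ n : ℕ, qCoeff ⇑F n = ι ((bridgeProduct b).coeff n) := by
    intro n
    have h1 : qExpansion 1 (⇑f) = PowerSeries.map ι (PowerSeries.mk b) := by
      ext m
      have := hf m
      rw [qCoeff] at this
      rw [this]
      simp
    have h2 : qExpansion 1 (⇑F) = PowerSeries.map ι (bridgeProduct b) := by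
      rw [hF, h1, ← map_e1Chi3In ι, ← map_mul]
      rfl
    rw [qCoeff, h2, PowerSeries.coeff_map]
  -- splitting
  obtain ⟨g, hg, hgcoef⟩ := exists_split_form hIB F (iota_sqrtd_ne_zero ι) (iota_sqrtd_re ι)
    (fun n => ((bridgeProduct b).coeff n).re) (fun n => ((bridgeProduct b).coeff n).im)
    (fun n => by rw [hFcoef n, iota_apply])
  refine ⟨liftSeq M b, isEigensystem_liftSeq M b, ?_, liftSeq_cast M b hb hb0⟩
  refine ⟨g, hg, fun n => ((bridgeProduct b).coeff n).re - ((bridgeProduct b).coeff n).im,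
    fun n => (hgcoef n).symm, fun n => ?_⟩
  have key : (((((bridgeProduct b).coeff n).re - ((bridgeProduct b).coeff n).im -
      (bridgeProduct (liftSeq M b)).coeff n : ℤ)) : ZMod 3) = 0 := by
    rw [Int.cast_sub, ← red_apply]
    have h1 : red ((bridgeProduct b).coeff n) =
        (PowerSeries.map red (bridgeProduct b)).coeff n := by
      rw [PowerSeries.coeff_map]
    have h2 : (((bridgeProduct (liftSeq M b)).coeff n : ℤ) : ZMod 3) =
        (PowerSeries.map (Int.castRingHom (ZMod 3)) (bridgeProduct (liftSeq M b))).coeff n := by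
      rw [PowerSeries.coeff_map]
      rfl
    rw [h1, h2, map_bridgeProduct, map_bridgeProduct]
    have h3' : (fun n => (Int.castRingHom (ZMod 3)) (liftSeq M b n)) = fun n => red (b n) := by
      funext m
      exact liftSeq_cast M b hb hb0 m
    rw [h3', sub_self]
  have := (ZMod.intCast_zmod_eq_zero_iff_dvd _ 3).mp key
  exact_mod_cast this

end Fermat.Agent.LT.H49

end
end
-- ===== PACK-END LT/H49/W2A.lean

-- ===== PACK-BEGIN LT/H49/W2C.lean
section



/-!
# Row LT, block GLUE2, leaf G2d `W2C` (helper49): adapter of `w2a`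

`w2C49 : Fermat.Agent.LT.H670.W2C` -- the frozen leaf of the GLUE2 board of helper670
(`LT/H670/Glue2.lean`, byte-identical copy), from `Fermat.Agent.LT.H49.w2a`; the level is NOT
raised (`M' = M`) and the congruence holds at every index.
-/

set_option autoImplicit false

namespace Fermat.Agent.LT.H49

theorem w2C49 : Fermat.Agent.LT.H670.W2C := by
  intro hIB M hM b hb hreal
  obtain ⟨a, ha, hlat, hcong⟩ := w2a M hM b hb (@hIB M hM) hreal
  exact ⟨M, hM, a, dvd_rfl, ha, hlat, fun ℓ _ _ => hcong ℓ⟩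

end Fermat.Agent.LT.H49

end
-- ===== PACK-END LT/H49/W2C.lean

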