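import Mathlib
import Fermat.Agent.Pack.S44C.G0E19L2
import Fermat.Agent.Pack.S44C.G0E25L0
import Fermat.Agent.Pack.S43MC.G0E23L1
import Fermat.Agent.Pack.L1.E6L3
import Fermat.Agent.Pack.L1.E6L2
import Fermat.Agent.Pack.L1.E6L0
import Fermat.Agent.Pack.L1.E6L1
import Fermat.Agent.Pack.S44C.G0E25L3
import Fermat.Agent.Pack.S44C.G0E19L0
import Fermat.Agent.Pack.S44C.G0E2L3
import Fermat.Agent.Pack.S43GC.G0E19L2
import Fermat.Agent.Pack.S59C.E6L3
import Fermat.Agent.Pack.L1.E5L0
import Fermat.Agent.Pack.S43MC.G0E3L1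
import Fermat.Agent.Pack.L1.E2L2
import Fermat.Agent.Pack.S59C.E6L0

-- ===== PACK-BEGIN S17/H677/UnramifiedCore.lean
section



/-!
# S17 piece W-UNR, route B (helper677): from the S18 hub `CoreStatement`, WITHOUT a place reduction

`unramified_division` (skeleton): for `ℓ ∤ n N`, `A` over `ℓ`, `σ` in the inertia group of `A`,
`y ∈ J₀(N)(ℚ̄)` with `n • y ∈ J₀(N)(ℚ)`:  `σ • y = y`.

Route B needs

* `CoreStatement N A n`  — the Kummer-type hub of the S18 row (`Fermat.Agent.S18.Spec`);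
* a divisor of degree zero representing `n • y` which is fixed by `σ` (`HasFixedRep`; BASE-2 of the
  S17 plan: a Galois-fixed class has a Galois-fixed divisor, because the cusp `∞` is rational).

`PrincipalGeneratedByIntegral` is on `main` unconditionally (helper448/helper700).
No place reduction map `r`, no special fibre, no frozen S18, no divisibility of `Pic⁰`.

Proof (variant of helper222's ESK-U): `y = [D]`, `n D = D_x + div U₁ - div U₂` with `U₁, U₂` integral
and `σ D_x = D_x`.  Put `V₁ = σU₁ · U₂`, `V₂ = U₁ · σU₂`: same reduction, and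
`div V₁ - div V₂ = n (σD - D)`.  CORE gives `V₁ = c y^n V₂`, hence `σD - D = div y`.
-/

set_option autoImplicit false
set_option linter.style.haveILetI false

noncomputable section

namespace Fermat.Agent.S17.H677

open ModularCurve AlgebraicCurve HahnSeries IsLocalRing
open Fermat.Agent.S18 (IsInt toF CoreStatement)
open Fermat.Agent.S29.H222

/-- The class `x` is represented by a divisor of degree zero fixed by `τ`. -/
def HasFixedRep (N : ℕ) (τ : AlgebraicClosure ℚ ≃ₐ[ℚ] AlgebraicClosure ℚ) (x : JZero N) : Prop :=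
  ∃ D : Divisor.degZero (K := AlgebraicClosure ℚ) (F := modularFunctionFieldBar N),
    (Pic0.mk D : JZero N) = x ∧
      arithmeticGalois (modularFunctionFieldFull N) τ •
        (D : Divisor (AlgebraicClosure ℚ) (modularFunctionFieldBar N)) = D

/-- If `[E] = n • [D]` in `Pic⁰`, then `n D - E` is principal. -/
theorem wunr_sub_mem_principal {N : ℕ} {n : ℕ}
    (D E : Divisor.degZero (K := AlgebraicClosure ℚ) (F := modularFunctionFieldBar N))
    (h : (Pic0.mk E : JZero N) = n • (Pic0.mk D : JZero N)) :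
    (n : ℤ) • (D : Divisor (AlgebraicClosure ℚ) (modularFunctionFieldBar N))
        - (E : Divisor (AlgebraicClosure ℚ) (modularFunctionFieldBar N))
      ∈ Divisor.principal (K := AlgebraicClosure ℚ) (F := modularFunctionFieldBar N) := by
  have h1 : (Pic0.mk E : JZero N) = Pic0.mk (n • D) := by
    rw [h]; rfl
  have h2 : -E + n • D ∈
      (Divisor.principal (K := AlgebraicClosure ℚ) (F := modularFunctionFieldBar N)).addSubgroupOf
        (Divisor.degZero (K := AlgebraicClosure ℚ) (F := modularFunctionFieldBar N)) :=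
    QuotientAddGroup.eq.mp h1
  rw [AddSubgroup.mem_addSubgroupOf] at h2
  have h3 : ((-E + n • D : Divisor.degZero (K := AlgebraicClosure ℚ)
      (F := modularFunctionFieldBar N)) : Divisor (AlgebraicClosure ℚ) (modularFunctionFieldBar N))
      = (n : ℤ) • (D : Divisor (AlgebraicClosure ℚ) (modularFunctionFieldBar N))
        - (E : Divisor (AlgebraicClosure ℚ) (modularFunctionFieldBar N)) := by
    push_cast
    rw [natCast_zsmul]
    abel
  rwa [h3] at h2

/-- **W-UNR, route B, local form.** -/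
theorem unramified_division_of_core_local (N : ℕ) [NeZero N] (n : ℕ) (hn : n ≠ 0)
    (A : ValuationSubring (AlgebraicClosure ℚ)) (hcore : CoreStatement N A n)
    (hpgi : PrincipalGeneratedByIntegral A (residue A) N)
    (σ : AlgebraicClosure ℚ ≃ₐ[ℚ] AlgebraicClosure ℚ) (hσ : σ ∈ A.inertiaSubgroupIn ℚ)
    (y : JZero N) (hrep : HasFixedRep N σ (n • y)) : σ • y = y := by
  obtain ⟨g, hg, rfl⟩ := hσ
  obtain ⟨D, rfl⟩ := Pic0.mk_surjective y
  obtain ⟨E, hE, hfix⟩ := hrep
  obtain ⟨U₁, U₂, h₁, h₂, D₁, D₂, hd₁, hd₂, hDD⟩ :=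
    exists_isInt_of_principal hpgi (wunr_sub_mem_principal D E hE)
  set G := arithmeticGalois (modularFunctionFieldFull N)
    (((A.decompositionSubgroup ℚ).subtype g : AlgebraicClosure ℚ ≃ₐ[ℚ] AlgebraicClosure ℚ))
    with hG
  have hV₁ : IsInt A N (galA g U₁ * U₂) := isInt_mul (isInt_galA g h₁) h₂
  have hV₂ : IsInt A N (U₁ * galA g U₂) := isInt_mul h₁ (isInt_galA g h₂)
  have hred : coeffMap (residue A) (galA g U₁ * U₂) = coeffMap (residue A) (U₁ * galA g U₂) := by
    rw [map_mul, map_mul, coeffMap_residue_galA, coeffMap_residue_galA,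
      coeffMap_decK_of_mem_inertia hg, coeffMap_decK_of_mem_inertia hg]
  have hgd₁ : IsDivOf (toF (isInt_galA g h₁)) (G • D₁) := by
    rw [toF_galA]; exact hd₁.smul G
  have hgd₂ : IsDivOf (toF (isInt_galA g h₂)) (G • D₂) := by
    rw [toF_galA]; exact hd₂.smul G
  have hdV₁ : IsDivOf (toF hV₁) (G • D₁ + D₂) := by
    rw [toF_mul (isInt_galA g h₁) h₂]
    exact hgd₁.mul (toF_ne_zero _) (toF_ne_zero _) hd₂
  have hdV₂ : IsDivOf (toF hV₂) (D₁ + G • D₂) := by
    rw [toF_mul h₁ (isInt_galA g h₂)]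
    exact hd₁.mul (toF_ne_zero _) (toF_ne_zero _) hgd₂
  have hkey : ∀ v : Place (AlgebraicClosure ℚ) (modularFunctionFieldBar N),
      (n : ℤ) * (G • (D : Divisor (AlgebraicClosure ℚ) (modularFunctionFieldBar N)) - D) v
        = v.ord (toF hV₁) - v.ord (toF hV₂) := by
    intro v
    rw [← hdV₁ v, ← hdV₂ v]
    have e1 : ((n : ℤ) • (D : Divisor (AlgebraicClosure ℚ) (modularFunctionFieldBar N))
        - (E : Divisor (AlgebraicClosure ℚ) (modularFunctionFieldBar N))) v = D₁ v - D₂ v := by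
      rw [hDD, Finsupp.sub_apply]
    have e2 : ((n : ℤ) • (D : Divisor (AlgebraicClosure ℚ) (modularFunctionFieldBar N))
        - (E : Divisor (AlgebraicClosure ℚ) (modularFunctionFieldBar N))) (G⁻¹ • v)
        = D₁ (G⁻¹ • v) - D₂ (G⁻¹ • v) := by
      rw [hDD, Finsupp.sub_apply]
    have e3 : (E : Divisor (AlgebraicClosure ℚ) (modularFunctionFieldBar N)) (G⁻¹ • v)
        = (E : Divisor (AlgebraicClosure ℚ) (modularFunctionFieldBar N)) v := by
      have := congrArg (fun X : Divisor (AlgebraicClosure ℚ) (modularFunctionFieldBar N) => X v)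
        hfix
      simp only [SemilinearAut.divisor_smul_apply] at this
      exact this
    rw [Finsupp.sub_apply, Finsupp.smul_apply, smul_eq_mul] at e1 e2
    simp only [Finsupp.sub_apply, Finsupp.add_apply, SemilinearAut.divisor_smul_apply]
    linear_combination e2 - e1 + e3
  have hord : ∀ v : Place (AlgebraicClosure ℚ) (modularFunctionFieldBar N),
      (n : ℤ) ∣ v.ord (toF hV₁) - v.ord (toF hV₂) := fun v => ⟨_, (hkey v).symm⟩
  obtain ⟨c, y, hc, hy, hcy⟩ := hcore _ _ hV₁ hV₂ hred hord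
  have hEy := isDivOf_of_eq_const_mul_pow hn hc hy (toF_ne_zero hV₂) hcy hkey
  show (((A.decompositionSubgroup ℚ).subtype g : AlgebraicClosure ℚ ≃ₐ[ℚ] AlgebraicClosure ℚ))
    • (Pic0.mk D : JZero N) = Pic0.mk D
  rw [galois_smul_pic0_def, SemilinearAut.pic0_smul_mk]
  exact pic0_mk_eq_of_isDivOf D _ hy hEy

/-- Every rational class has a Galois-fixed divisor of degree zero (BASE-2 of the S17 plan). -/
def RationalRep (N : ℕ) : Prop :=
  ∀ x : JZero N,
    x ∈ FixedPoints.addSubgroup (AlgebraicClosure ℚ ≃ₐ[ℚ] AlgebraicClosure ℚ) (JZero N) →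
      ∀ τ : AlgebraicClosure ℚ ≃ₐ[ℚ] AlgebraicClosure ℚ, HasFixedRep N τ x

/-- The S18 hub at all places over `ℓ`. -/
def CoreAt (N ℓ n : ℕ) : Prop :=
  ∀ A : ValuationSubring (AlgebraicClosure ℚ), A.LiesOverPrime ℓ → CoreStatement N A n

/-- **W-UNR, route B, skeleton shape** (`Fermat.Agent.S17.Skel.unramified_division`), from the
S18 hub `CoreStatement` and rational representatives. -/
theorem unramified_division_of_core
    (N : ℕ) [NeZero N] (_hN : N.Prime) (_hN5 : 5 ≤ N) (n : ℕ) (hn : n ≠ 0)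
    (ℓ : ℕ) (hℓ : ℓ.Prime) (hℓn : ¬ ℓ ∣ n * N)
    (hcore : CoreAt N ℓ n) (hrat : RationalRep N)
    (A : ValuationSubring (AlgebraicClosure ℚ)) (hA : A.LiesOverPrime ℓ)
    (σ : AlgebraicClosure ℚ ≃ₐ[ℚ] AlgebraicClosure ℚ) (hσ : σ ∈ A.inertiaSubgroupIn ℚ)
    (y : JZero N)
    (hy : n • y ∈
      FixedPoints.addSubgroup (AlgebraicClosure ℚ ≃ₐ[ℚ] AlgebraicClosure ℚ) (JZero N)) :
    σ • y = y :=
  unramified_division_of_core_local N n hn A (hcore A hA)
    (Fermat.Agent.S37.H448.principalGeneratedByIntegral N hℓ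
      (fun hd => hℓn (Dvd.dvd.mul_left hd n)) A hA)
    σ hσ y (hrat _ hy σ)

end Fermat.Agent.S17.H677

end
end
-- ===== PACK-END S17/H677/UnramifiedCore.lean

-- ===== PACK-BEGIN S17/H677/UnramifiedHub.lean
section



/-!
# S17 piece W-UNR from the S18 hub ALONE (helper677)

`unramified_division_of_hub`: the skeleton statement `Skel.unramified_division` with the single
extra hypothesis `CoreAt N ℓ n` (= `Fermat.Agent.S18.CoreStatement N A n` for every valuation
subring `A` of `ℚ̄` over `ℓ`), which is the hub statement the S18 row proves on its way to S18.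

No place reduction map (S37 `node_rim`) and no frozen S18 are used:
* `PrincipalGeneratedByIntegral` is on `main` (helper448);
* rational classes have Galois-fixed divisors (helper680, minimal representatives w.r.t. the
  cusp `∞`).
-/

set_option autoImplicit false
set_option linter.style.haveILetI false

noncomputable section

namespace Fermat.Agent.S17.H677

open ModularCurve AlgebraicCurve HahnSeries

/-- **BASE-2** in the shape used by route B: every rational class is represented by a divisor of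
degree zero fixed by Galois (helper680's minimal representative). -/
theorem rationalRep (N : ℕ) [NeZero N] : RationalRep N := by
  intro x hx τ
  haveI := Fermat.Agent.Lib.RR.H804.ff1_modular N
  refine ⟨Fermat.Agent.S17.H680.minDiv (Fermat.Agent.S17.H680.JZero.cusp N) x,
    Fermat.Agent.S17.H680.mk_minDiv _ x, ?_⟩
  exact Fermat.Agent.S17.H680.smul_minDiv_eq _
    (Fermat.Agent.S17.H680.JZero.galois_smul_cusp N τ)
    ((Fermat.Agent.S17.H680.JZero.mem_fixedPoints_iff N x).mp hx τ)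

/-- **W-UNR from the S18 hub alone**: skeleton shape, single hypothesis `CoreAt N ℓ n`. -/
theorem unramified_division_of_hub
    (N : ℕ) [NeZero N] (hN : N.Prime) (hN5 : 5 ≤ N) (n : ℕ) (hn : n ≠ 0)
    (ℓ : ℕ) (hℓ : ℓ.Prime) (hℓn : ¬ ℓ ∣ n * N)
    (hcore : CoreAt N ℓ n)
    (A : ValuationSubring (AlgebraicClosure ℚ)) (hA : A.LiesOverPrime ℓ)
    (σ : AlgebraicClosure ℚ ≃ₐ[ℚ] AlgebraicClosure ℚ) (hσ : σ ∈ A.inertiaSubgroupIn ℚ)
    (y : JZero N)
    (hy : n • y ∈
      FixedPoints.addSubgroup (AlgebraicClosure ℚ ≃ₐ[ℚ] AlgebraicClosure ℚ) (JZero N)) :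
    σ • y = y :=
  unramified_division_of_core N hN hN5 n hn ℓ hℓ hℓn hcore (rationalRep N) A hA σ hσ y hy

end Fermat.Agent.S17.H677

end
end
-- ===== PACK-END S17/H677/UnramifiedHub.lean

-- ===== PACK-BEGIN S17/H710/Wall/Vdm.lean
section


/-!
# S17 / tower H — the WALL: `(VDM)` from the leaves (helper710).  Sorry-free.
-/

set_option autoImplicit false

noncomputable section

namespace Fermat.Agent.S17.Wall

open AlgebraicCurve MvPolynomial
open Fermat.Agent.Lib.RR Fermat.Agent.S17.HWall Fermat.Agent.S17.H710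
open Fermat.Agent.S17.HContract

variable {K F : Type*} [Field K] [CharZero K] [Field F] [Algebra K F]

/-- embeddings of `Fin 1` are points -/
def embFinOne (n : ℕ) : (Fin 1 ↪ Fin n) ≃ Fin n where
  toFun e := e 0
  invFun j := ⟨fun _ => j, fun a b _ => Subsingleton.elim a b⟩
  left_inv e := by
    ext i
    rw [Subsingleton.elim i 0]
    rfl
  right_inv j := rfl

theorem plucker_one {n : ℕ} (y : Fin 1 → Fin n → K) :
    plucker y = (y 0) ∘ (embFinOne n) := by
  funext e
  unfold plucker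
  rw [Matrix.det_fin_one]
  rfl

theorem plucker_zero {n : ℕ} (y : Fin 0 → Fin n → K) : plucker y = 1 := by
  funext e
  unfold plucker
  rw [Matrix.det_fin_zero]
  rfl

omit [CharZero K] in
theorem sum_sum_lt_succ {d : ℕ} (f : Fin (d + 1) → Fin (d + 1) → ℝ) :
    (∑ i, ∑ j, if i < j then f i j else 0) =
      (∑ i : Fin d, ∑ j : Fin d, if i < j then f i.castSucc j.castSucc else 0) +
        ∑ i : Fin d, f i.castSucc (Fin.last d) := by
  rw [Fin.sum_univ_castSucc]
  have h1 : (∑ j, if Fin.last d < j then f (Fin.last d) j else 0) = 0 := by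
    refine Finset.sum_eq_zero fun j _ => ?_
    rw [if_neg (not_lt.mpr (Fin.le_last j))]
  rw [h1, add_zero, ← Finset.sum_add_distrib]
  refine Finset.sum_congr rfl fun i _ => ?_
  rw [Fin.sum_univ_castSucc (f := fun j => if i.castSucc < j then f i.castSucc j else 0)]
  rw [if_pos (Fin.castSucc_lt_last i)]
  congr 1

variable [FF1 K F]

omit [CharZero K] in
/-- forms vanishing at distinct points vanish on their sum -/
theorem sum_prim_le_Z (E : EmbData K F) {a : Fin (E.r + 1) → K} (ha : a ≠ 0) {k : ℕ}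
    (A : Fin k → Place K F) (hA : Function.Injective A) (h : ∀ l, dot a (E.pt (A l)) = 0) :
    ∑ l, prim (A l) ≤ E.Z a := by
  classical
  rw [Finsupp.le_def]
  intro B
  rw [sum_prim_apply]
  have hZ := Finsupp.le_def.mp (E.Z_nonneg a) B
  simp only [Finsupp.coe_zero, Pi.zero_apply] at hZ
  by_cases hB : ∃ l, A l = B
  · obtain ⟨l, rfl⟩ := hB
    have hc : (Finset.univ.filter fun i => A i = A l).card ≤ 1 := by
      rw [Finset.card_le_one]
      intro i hi j hj
      exact hA ((Finset.mem_filter.mp hi).2.trans (Finset.mem_filter.mp hj).2.symm)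
    have hpos : 0 < (E.Z a) (A l) := (E.pt_spec (A l) a ha).mp (h l)
    have : ((Finset.univ.filter fun i => A i = A l).card : ℤ) ≤ 1 := by exact_mod_cast hc
    omega
  · have : (Finset.univ.filter fun i => A i = B) = ∅ := by
      ext i
      simp only [Finset.mem_filter, Finset.mem_univ, true_and, Finset.notMem_empty, iff_false]
      exact fun hi => hB ⟨i, hi⟩
    rw [this]
    simpa using hZ

/-- the induction for `(VDM)` -/
theorem vdm_aux [Algebra.IsAlgebraic ℚ K] (E : EmbData K F) (hE : Big E) (hL : Leaves E)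
    (d₀ : ℕ) (hd₀ : d₀ + 2 * genusR K F ≤ E.m + 1) :
    ∀ d : ℕ, d ≤ d₀ → ∃ C : ℝ, ∀ P : Fin d → Place K F, Function.Injective P →
      ht (plucker fun i => E.pt (P i)) ≤
        (∑ i, ht (E.pt (P i))) - (∑ i, ∑ j, if i < j then hD E (P i) (P j) else 0) + C := by
  classical
  intro d
  induction d with
  | zero =>
    intro _
    refine ⟨0, fun P _ => ?_⟩
    rw [plucker_zero, ht_one]
    simp
  | succ d ih =>
    intro hd
    obtain ⟨C₀, hC₀⟩ := ih (by omega)
    rcases Nat.eq_zero_or_pos d with hd0 | hdpos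
    · subst hd0
      refine ⟨0, fun P _ => ?_⟩
      rw [plucker_one]
      have := Fermat.Agent.S17.H380.absLogHeight_comp_equiv (embFinOne (E.r + 1)) (E.pt (P 0))
      rw [ht, this]
      simp
    · obtain ⟨C₁₀, hC₁₀⟩ := hL.a10 (E.r + 1) d
      obtain ⟨C, L, Q, -, -, hup⟩ := core_up E hE hL d hdpos (Fin (d + 1) ↪ Fin (E.r + 1))
      refine ⟨C₀ + C₁₀ + C, fun P hP => ?_⟩
      set A : Fin d → Place K F := fun i => P i.castSucc with hA
      have hAinj : Function.Injective A := fun i j h => Fin.castSucc_injective _ (hP h)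
      set z := E.pt (P (Fin.last d)) with hz
      obtain ⟨W, hW1, hW2, hW3⟩ := hC₁₀ (fun i => E.pt (A i))
      have hsnoc : (Fin.snoc (fun i => E.pt (A i)) z : Fin (d + 1) → Fin (E.r + 1) → K) =
          fun i => E.pt (P i) := by
        funext i
        refine Fin.lastCases ?_ (fun j => ?_) i
        · simp [hz]
        · simp [hA]
      have hv : (fun e => dot (W e) z) = plucker fun i => E.pt (P i) := by
        funext e
        rw [hW2 z e, hsnoc]
      have hindep : (plucker fun i => E.pt (P i)) ≠ 0 := hL.indep (d + 1) P (by omega) hP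
      have hne : ∀ i, A i ≠ P (Fin.last d) := fun i h =>
        absurd (hP h) (Fin.castSucc_lt_last i).ne
      have hw : ∀ i, wedge (E.pt (A i)) ((fun _ : Fin d => z) i) ≠ 0 :=
        fun i => hL.pt.2.2.1 _ _ (hne i)
      have hWZ : ∀ e, W e ≠ 0 → ∑ l, prim (A l) ≤ E.Z (W e) :=
        fun e he => sum_prim_le_Z E he A hAinj (fun l => hW1 e l)
      have hrank := hL.rank d A _ W hdpos hWZ (Fin L) (fun t => E.pt (Q t)) z
        (fun j => hL.pt.2.1 _) (hL.pt.2.1 _)
      have hψw0 : wCol (e := d - 1) W z ≠ 0 := by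
        have := tensorPow_ne_zero (e := d - 1) (fun e => dot (W e) z) z (by rw [hv]; exact hindep)
          (hL.pt.1 _)
        exact this
      have u1 := hup A W _ _ hrank hψw0
      have hhu : ht (betaCol (fun i => E.pt (A i)) fun _ => z) =
          ∑ i, ht (wedge (E.pt (A i)) z) := hL.a6 _ _ _ _ hw
      have hhw : ht (wCol (e := d - 1) W z) =
          ht (plucker fun i => E.pt (P i)) + ((d - 1 : ℕ) : ℝ) * ht z := by
        have := hL.a7 (E.r + 1) (d - 1) _ (fun e => dot (W e) z) z (by rw [hv]; exact hindep)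
          (hL.pt.1 _)
        rw [hv] at this
        exact this
      rw [hhu, hhw] at u1
      have ih' := hC₀ A hAinj
      have hc : ((d - 1 : ℕ) : ℝ) = (d : ℝ) - 1 := by
        rw [Nat.cast_sub hdpos]; simp
      rw [hc] at u1
      rw [sum_sum_lt_succ, Fin.sum_univ_castSucc]
      have hsumD : ∑ i : Fin d, hD E (P i.castSucc) (P (Fin.last d)) =
          ∑ i, ht (E.pt (A i)) + (d : ℝ) * ht z - ∑ i, ht (wedge (E.pt (A i)) z) := by
        unfold hD
        rw [Finset.sum_sub_distrib, Finset.sum_add_distrib]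
        simp [hA, hz]
      rw [hsumD]
      linarith

/-- **(VDM)** for `d₀ ≤ m - 2g + 1`, from the leaves. -/
theorem vdm [Algebra.IsAlgebraic ℚ K] (E : EmbData K F) (hE : Big E) (hL : Leaves E)
    (d₀ : ℕ) (hd₀ : d₀ + 2 * genusR K F ≤ E.m + 1) : VDMStatement E E d₀ := by
  classical
  have h : ∀ d : Fin (d₀ + 1), ∃ C : ℝ, ∀ P : Fin d → Place K F, Function.Injective P →
      ht (plucker fun i => E.pt (P i)) ≤
        (∑ i, ht (E.pt (P i))) - (∑ i, ∑ j, if i < j then hD E (P i) (P j) else 0) + C :=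
    fun d => vdm_aux E hE hL d₀ hd₀ d (by omega)
  choose Cf hCf using h
  refine ⟨∑ d, |Cf d|, fun d P hd hP => ?_⟩
  have h1 := hCf ⟨d, by omega⟩ P hP
  have h2 : Cf ⟨d, by omega⟩ ≤ ∑ d, |Cf d| :=
    (le_abs_self _).trans (Finset.single_le_sum (f := fun d => |Cf d|)
      (fun _ _ => abs_nonneg _) (Finset.mem_univ _))
  linarith

/-- (NC) is trivial for `E₁ = E₂`. -/
theorem nc (E : EmbData K F) : NCStatement E E :=
  ⟨0, fun P => by simp⟩

/-- **THE WALL**: the contract for one embedding of degree `m ≥ 4g + 1`, from the leaves and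
`(GAUSS)`. -/
theorem contract [Algebra.IsAlgebraic ℚ K] (E : EmbData K F) (hE : Big E)
    (hL : Leaves E) (hG : GAUSSStatement E) (d₀ : ℕ) (hd : d₀ + 2 * genusR K F ≤ E.m + 1) :
    Contract E E d₀ where
  vinf_eq := rfl
  e3 := e3 E hE hL
  adj := adj E hE hL
  vdm := vdm E hE hL d₀ hd
  gauss := hG
  nc := nc E

end Fermat.Agent.S17.Wall

end
end
-- ===== PACK-END S17/H710/Wall/Vdm.lean

-- ===== PACK-BEGIN S17/H317/MinorA.lean
section


/-!
# S17 / tower H — WALL leaf **G-MINOR-a** (helper317)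

`minorA : Big E → Wall.MinorAStatement E` :
for ANY `L > m²` distinct places `Q_t` and every `a ≠ 0` the matrix of the rows `a X^α`,
`|α| = m - 1`, evaluated at the points `pt (Q t)`, has rank `κ_m = m² - m + 1 - g`.

* `finrank_span_eval_eq` (**RANK-EV**): for forms `p_s` homogeneous of degree `k` and `L > k m`
  distinct places, the rank of the matrix of values `eval (pt (Q t)) (p s)` is the dimension of
  the span of the sections `aeval E.x (p s)`;
* `prod_L_minf` : `L(m∞)^(e+1) = L((e+1) m∞)` (projective normality, `m ≥ 4g + 1`);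
* multiplication by `lin E.x a ≠ 0` is injective.
-/

set_option autoImplicit false
set_option linter.unusedSectionVars false

noncomputable section

open AlgebraicCurve MvPolynomial

namespace Fermat.Agent.S17.H317

open Fermat.Agent.Lib.RR Fermat.Agent.S17.HWall Fermat.Agent.S17.H710 Fermat.Agent.S17.Wall
open Fermat.Agent.S17.H230

variable {K F : Type*} [Field K] [Field F] [Algebra K F] [FF1 K F]

/-- **RANK-EV.**  For forms `p s` homogeneous of degree `k` and `L > k m` distinct places `Q t`,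
the rank of the matrix of values `eval (pt (Q t)) (p s)` equals the dimension of the span of the
sections `aeval E.x (p s)`. -/
theorem finrank_span_eval_eq (E : EmbData K F) {k L : ℕ} (Q : Fin L → Place K F)
    (hQ : Function.Injective Q) (hL : k * E.m < L) {σ : Type*} [Finite σ]
    (p : σ → MvPolynomial (Fin (E.r + 1)) K) (hp : ∀ s, (p s).IsHomogeneous k) :
    Module.finrank K (Submodule.span K (Set.range fun s => fun t => eval (E.pt (Q t)) (p s))) =
      Module.finrank K (Submodule.span K (Set.range fun s => aeval E.x (p s))) := by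
  classical
  haveI := Fintype.ofFinite σ
  have hker : LinearMap.ker (Fintype.linearCombination K
        (fun s => fun t => eval (E.pt (Q t)) (p s))) =
      LinearMap.ker (Fintype.linearCombination K (fun s => aeval E.x (p s))) := by
    ext c
    simp only [LinearMap.mem_ker, Fintype.linearCombination_apply]
    have hGhom : (∑ s, C (c s) * p s : MvPolynomial (Fin (E.r + 1)) K).IsHomogeneous k :=
      IsHomogeneous.sum _ _ _ fun s _ => by
        simpa using (isHomogeneous_C _ (c s)).mul (hp s)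
    have h1 : ∀ t, (∑ s, c s • fun t => eval (E.pt (Q t)) (p s)) t =
        eval (E.pt (Q t)) (∑ s, C (c s) * p s) := by
      intro t
      simp [Finset.sum_apply, map_sum]
    have h2 : ∑ s, c s • aeval E.x (p s) = aeval E.x (∑ s, C (c s) * p s) := by
      simp [map_sum, Algebra.smul_def]
    rw [h2, ← forall_eval_pt_eq_zero_iff E Q hQ hL hGhom]
    constructor
    · intro h t
      rw [← h1, h]
      rfl
    · intro h
      funext t
      rw [h1]
      exact h t
  have hfr := finrank_range_eq_of_ker_eq _ _ hker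
  rw [Fintype.range_linearCombination, Fintype.range_linearCombination] at hfr
  exact hfr

/-- Projective normality: `L(m∞)^(e+1) = L((e+1) m∞)` for `m ≥ 4g + 1`. -/
theorem prod_L_minf [Infinite K] (E : EmbData K F) (hBig : Big E) :
    ∀ e : ℕ, ∏ _i : Fin (e + 1), riemannRochSpace (E.m • prim E.vinf) =
      riemannRochSpace ((e + 1) • (E.m • prim E.vinf) : Divisor K F) := by
  have hB : 4 * genusR K F + 1 ≤ E.m := hBig
  intro e
  induction e with
  | zero => simp
  | succ e ih =>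
    rw [Fin.prod_univ_succ, ih, succ_nsmul (E.m • prim E.vinf) (e + 1),
      add_comm ((e + 1) • (E.m • prim E.vinf))]
    apply H259.L_mul_L
    · rw [emb_degree_minf, genusFF_eq_genusR]
      omega
    · rw [map_nsmul, emb_degree_minf, genusFF_eq_genusR]
      have h1 : (4 * (genusR K F : ℤ)) ≤ (E.m : ℤ) := by omega
      have h2 : (0 : ℤ) ≤ (e : ℤ) := Int.natCast_nonneg e
      simp only [nsmul_eq_mul]
      push_cast
      nlinarith

theorem aeval_linForm {n : ℕ} (x : Fin n → F) (a : Fin n → K) :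
    aeval x (linForm a) = lin x a := by
  simp [linForm, lin, Algebra.smul_def]

theorem aeval_monoOrd {n e : ℕ} (x : Fin n → F) (α : Fin e → Fin n) :
    aeval x (monoOrd (K := K) α) = ∏ k, x (α k) := by
  simp [monoOrd]

/-- The monomials of degree `e` in the `x i` span `(span x)^e`. -/
theorem span_monomials {n : ℕ} (x : Fin n → F) (e : ℕ) :
    Submodule.span K (Set.range fun α : Fin e → Fin n => ∏ k, x (α k)) =
      ∏ _i : Fin e, Submodule.span K (Set.range x) := by
  rw [Submodule.prod_span]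
  congr 1
  ext f
  simp only [Set.mem_range, Set.mem_finsetProd]
  constructor
  · rintro ⟨α, rfl⟩
    exact ⟨fun i => x (α i), fun {i} _ => ⟨α i, rfl⟩, rfl⟩
  · rintro ⟨b, hb, rfl⟩
    choose α hα using fun i => hb (Finset.mem_univ i)
    exact ⟨α, Finset.prod_congr rfl fun i _ => hα i⟩

/-- Multiplication by a nonzero function preserves dimensions. -/
theorem finrank_map_mulLeft {f : F} (hf : f ≠ 0) (V : Submodule K F) :
    Module.finrank K (V.map (LinearMap.mulLeft K f)) = Module.finrank K V :=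
  (Submodule.equivMapOfInjective (LinearMap.mulLeft K f)
    (fun _ _ h => mul_left_cancel₀ hf h) V).finrank_eq.symm

/-- **G-MINOR-a.** -/
theorem minorA [Infinite K] (E : EmbData K F) (hBig : Big E) : MinorAStatement E := by
  classical
  intro L Q hQ hL a ha
  have hB : 4 * genusR K F + 1 ≤ E.m := hBig
  have hf : lin E.x a ≠ 0 := E.lin_ne_zero ha
  -- the forms
  have hp : ∀ τ : Unit × (Fin (E.m - 1) → Fin (E.r + 1)),
      (linForm a * monoOrd τ.2 : MvPolynomial (Fin (E.r + 1)) K).IsHomogeneous E.m := by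
    intro τ
    have h := (linForm_isHomogeneous a).mul (monoOrd_isHomogeneous (K := K) τ.2)
    have hm : 1 + (E.m - 1) = E.m := by omega
    rwa [hm] at h
  have hmat : (wMat (e := E.m - 1) (fun _ : Unit => a) fun t => E.pt (Q t)) =
      fun τ => fun t => eval (E.pt (Q t)) (linForm a * monoOrd τ.2) := by
    funext τ t
    exact wMat_eq_eval _ _ τ t
  rw [hmat, finrank_span_eval_eq E Q hQ hL _ hp]
  -- the span of the sections
  have hspan : Submodule.span K (Set.range fun τ : Unit × (Fin (E.m - 1) → Fin (E.r + 1)) =>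
        aeval E.x (linForm a * monoOrd τ.2)) =
      (∏ _i : Fin (E.m - 1), riemannRochSpace (E.m • prim E.vinf)).map
        (LinearMap.mulLeft K (lin E.x a)) := by
    rw [← E.x_span, ← span_monomials E.x (E.m - 1), Submodule.map_span]
    congr 1
    ext f
    simp only [Set.mem_range, Set.mem_image, map_mul, _root_.Fermat.Agent.S17.H317.aeval_linForm, aeval_monoOrd,
      LinearMap.mulLeft_apply]
    constructor
    · rintro ⟨τ, rfl⟩
      exact ⟨_, ⟨τ.2, rfl⟩, rfl⟩
    · rintro ⟨_, ⟨α, rfl⟩, rfl⟩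
      exact ⟨((), α), rfl⟩
  rw [hspan, finrank_map_mulLeft hf]
  unfold kapN
  rcases Nat.eq_zero_or_pos (E.m - 1) with h0 | hpos
  · -- `m = 1`, `g = 0`
    have hm1 : E.m = 1 := by omega
    have hg : genusR K F = 0 := by omega
    rw [h0, hm1, hg]
    rw [Fin.prod_univ_zero, Submodule.one_eq_span, finrank_span_singleton one_ne_zero]
  · obtain ⟨e, he⟩ : ∃ e, E.m - 1 = e + 1 := ⟨E.m - 1 - 1, by omega⟩
    rw [he, prod_L_minf E hBig e]
    have hdeg : Divisor.degree ((e + 1) • (E.m • prim E.vinf) : Divisor K F) =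
        ((e + 1 : ℕ) : ℤ) * (E.m : ℤ) := by
      rw [map_nsmul, emb_degree_minf, nsmul_eq_mul]
    have h3 : (4 * (genusR K F : ℤ)) + 1 ≤ (E.m : ℤ) := by exact_mod_cast hB
    have h4 : (0 : ℤ) ≤ (e : ℤ) := Int.natCast_nonneg e
    have hell := ell_eq_of_degree_gt (K := K) (F := F)
      (D := ((e + 1) • (E.m • prim E.vinf) : Divisor K F)) (by
        rw [hdeg, genusFF_eq_genusR]
        push_cast
        nlinarith)
    rw [hdeg, genusFF_eq_genusR] at hell
    unfold ell at hell
    have hem : E.m = e + 2 := by omega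
    have h5 : ((e + 1 : ℕ) : ℤ) * (E.m : ℤ) = ((E.m * E.m : ℕ) : ℤ) - (E.m : ℤ) := by
      rw [hem]; push_cast; ring
    rw [h5] at hell
    have h6 : E.m ≤ E.m * E.m := Nat.le_mul_self E.m
    have h7 : E.m * (4 * genusR K F + 1) ≤ E.m * E.m := Nat.mul_le_mul_left _ hB
    have h8 : E.m * (4 * genusR K F + 1) = 4 * (E.m * genusR K F) + E.m := by ring
    have h9 : genusR K F ≤ E.m * genusR K F := Nat.le_mul_of_pos_left _ (by omega)
    generalize E.m * E.m = mm at *
    generalize E.m * genusR K F = mg at *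
    omega

end Fermat.Agent.S17.H317

end
end
-- ===== PACK-END S17/H317/MinorA.lean

-- ===== PACK-BEGIN S17/H710/Wall/Main.lean
section











/-!
# S17 / tower H — THE WALL, unconditional (architect helper710).  Sorry-free.

`K` algebraically closed and algebraic over `ℚ`, `F / K` a function field with `FF1 K F`,
`E : EmbData K F` with `Big E : 4 g + 1 ≤ E.m`:

* `leaves E hE : Leaves E` — all 19 leaves of `Wall/Defs.lean`, from main
  (A1 H860, A2 H980, A3 H740, A4–A7 H380, A8–A9 H410, A10 H980, G-PT/G-CONE H440,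
  G-ENUM/G-INF/G-INDEP H980, G-RANK/G-RANK-JET H230, G-MINOR-β/G-MINOR-a H317);
* `e3_main`, `adj_main`, `vdm_main` — `(E3)`, `(ADJ)`, `(VDM)` of `HContract`, UNCONDITIONAL;
* `contract_main` — the contract from `(GAUSS)`.
-/

set_option autoImplicit false

noncomputable section

namespace Fermat.Agent.S17.Wall

open AlgebraicCurve MvPolynomial
open Fermat.Agent.Lib.RR Fermat.Agent.S17.HWall Fermat.Agent.S17.H710
open Fermat.Agent.S17.HContract

variable {K F : Type*} [Field K] [CharZero K] [Field F] [Algebra K F] [FF1 K F]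
variable [IsAlgClosed K] [Algebra.IsAlgebraic ℚ K]

/-- all the leaves of the wall -/
theorem leaves (E : EmbData K F) (hE : Big E) : Leaves E where
  a1 := Fermat.Agent.S17.H860.cramerHeightStatement K
  a2 := Fermat.Agent.S17.H980.minorStatement K
  a3 := Fermat.Agent.S17.H740.multislot K
  a4 := Fermat.Agent.S17.H380.htBetaMat K
  a5 := Fermat.Agent.S17.H380.htWMat K
  a6 := Fermat.Agent.S17.H380.htBetaCol K
  a7 := Fermat.Agent.S17.H380.htWCol K
  a8 := Fermat.Agent.S17.H410.minorPolyBeta K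
  a9 := Fermat.Agent.S17.H410.minorPolyA K
  a10 := Fermat.Agent.S17.H980.pluckerStepStatement K (fun a => Algebra.IsIntegral.isIntegral a)
  pt := Fermat.Agent.S17.H440.ptStatement E
  cone := Fermat.Agent.S17.H440.coneStatement E
  enum := Fermat.Agent.S17.H980.enum
  inf := Fermat.Agent.S17.H980.inf
  indep := Fermat.Agent.S17.H980.indep E
  rank := Fermat.Agent.S17.H230.rank E
  rankJet := Fermat.Agent.S17.H230.rankJet E
  minorBeta := Fermat.Agent.S17.H317.minorBeta E hE
  minorA := Fermat.Agent.S17.H317.minorA E hE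

/-- **(E3)**: `|(Z_a . P) − h(a) − h(P)| ≤ C` for all `a ≠ 0`, `P ∉ Z_a`. -/
theorem e3_main (E : EmbData K F) (hE : Big E) : E3Statement E E :=
  e3 E hE (leaves E hE)

/-- **(ADJ)**: `(E3)` at a simple zero, regularised by `κ`. -/
theorem adj_main (E : EmbData K F) (hE : Big E) : ADJStatement E E :=
  adj E hE (leaves E hE)

/-- **(VDM)** for at most `m − 2g + 1` distinct points. -/
theorem vdm_main (E : EmbData K F) (hE : Big E) (d₀ : ℕ)
    (hd : d₀ + 2 * genusR K F ≤ E.m + 1) : VDMStatement E E d₀ :=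
  vdm E hE (leaves E hE) d₀ hd

/-- **THE WALL**: the contract, from `(GAUSS)`. -/
theorem contract_main (E : EmbData K F) (hE : Big E) (hG : GAUSSStatement E) (d₀ : ℕ)
    (hd : d₀ + 2 * genusR K F ≤ E.m + 1) : Contract E E d₀ :=
  contract E hE (leaves E hE) hG d₀ hd

end Fermat.Agent.S17.Wall

end
end
-- ===== PACK-END S17/H710/Wall/Main.lean

-- ===== PACK-BEGIN S15/H337/Conj.lean
section





/-!
# Row S15, DESC tower COUNT (`r` odd), piece CONJ, analytic part (helper337)

The operator `cj G = (τ ↦ conj (G (-conj τ)))` on functions `ℍ → ℂ`: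

* `cj_mdiff`        : it preserves holomorphy;
* `cj_mem_goodRing` : it preserves the good ring of level `N`;
* `qexpFun_cj`      : it conjugates the coefficients of the `q`-expansion at `i∞`.
-/

set_option autoImplicit false

noncomputable section

namespace Fermat.Agent.S15.H337

open UpperHalfPlane CongruenceSubgroup ModularCurve ModularCurve.Period Filter Topology
open Fermat.Agent.S24 Fermat.Agent.S24.H648 Fermat.Agent.S24.H708 Fermat.Agent.S29
open Fermat.Agent.S21.ConjPartner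
open scoped MatrixGroups ComplexConjugate Manifold ModularForm

/-- `cj G τ = conj (G (-conj τ))`. -/
def cj (G : ℍ → ℂ) : ℍ → ℂ := fun τ => conj (G (J • τ))

theorem cj_apply (G : ℍ → ℂ) (τ : ℍ) : cj G τ = conj (G (J • τ)) := rfl

theorem J_smul_J_smul (τ : ℍ) : J • (J • τ) = τ := by
  rw [← mul_smul, J_mul_J, one_smul]

theorem cj_cj (G : ℍ → ℂ) : cj (cj G) = G := by
  funext τ
  rw [cj_apply, cj_apply, Complex.conj_conj, J_smul_J_smul]

theorem cj_mul (G H : ℍ → ℂ) : cj (G * H) = cj G * cj H := by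
  funext τ
  simp [cj_apply]

theorem cj_pow (G : ℍ → ℂ) (n : ℕ) : cj (G ^ n) = cj G ^ n := by
  funext τ
  simp [cj_apply]

theorem cj_pow' (G : ℍ → ℂ) (n : ℕ) : cj (fun τ => G τ ^ n) = fun τ => cj G τ ^ n := by
  funext τ
  simp [cj_apply]

theorem cj_smul (G : ℍ → ℂ) (γ : SL(2, ℤ)) (τ : ℍ) :
    cj G (γ • τ) = conj (G (jConjSL γ • (J • τ))) := by
  rw [cj_apply, J_smul_smul]

theorem cj_eq_slash (G : ℍ → ℂ) : cj G = G ∣[(0 : ℤ)] J := by
  funext τ
  simp [ModularForm.slash_def, cj_apply]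

theorem cj_mdiff {G : ℍ → ℂ} (hG : MDifferentiable 𝓘(ℂ) 𝓘(ℂ) G) :
    MDifferentiable 𝓘(ℂ) 𝓘(ℂ) (cj G) := by
  rw [cj_eq_slash]
  exact hG.slash 0 J

theorem cj_mem_goodRing {N : ℕ} {G : ℍ → ℂ} (hG : G ∈ goodRing N) : cj G ∈ goodRing N := by
  obtain ⟨h1, h2, h3⟩ := hG
  refine ⟨cj_mdiff h1, fun γ hγ τ => ?_, fun g => ?_⟩
  · rw [cj_smul, h2 _ (jConjSL_mem_Gamma0 hγ), cj_apply]
  · obtain ⟨C, m, h⟩ := h3 (jConjSL g)
    refine ⟨C, m, fun τ hτ => ?_⟩
    have := h (J • τ) (by rw [im_J_smul]; exact hτ)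
    rw [im_J_smul] at this
    show ‖cj G (g • τ)‖ ≤ _
    rw [cj_smul, Complex.norm_conj]
    exact this

/-! ## `q`-expansions -/

theorem qh_J_smul (τ : ℍ) : qh 1 (J • τ) = conj (qh 1 τ) := by
  rw [qh_apply, qh_apply, coe_J_smul]
  unfold Function.Periodic.qParam
  rw [← Complex.exp_conj]
  congr 1
  simp only [map_div₀, map_mul, Complex.conj_ofReal, Complex.conj_I, map_ofNat]
  push_cast
  ring

theorem cj_qh : cj (qh 1) = qh 1 := by
  funext τ
  rw [cj_apply, qh_J_smul, Complex.conj_conj]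

theorem cj_periodic {F : ℍ → ℂ} (hF : Function.Periodic (F ∘ ofComplex) ((1 : ℕ) : ℝ)) :
    Function.Periodic (cj F ∘ ofComplex) ((1 : ℕ) : ℝ) := by
  intro w
  by_cases hw : 0 < w.im
  · have hw' : 0 < (w + ((1 : ℕ) : ℝ)).im := by simpa using hw
    simp only [Function.comp_apply, cj_apply]
    congr 1
    rw [J_smul, J_smul, ofComplex_apply_of_im_pos hw', ofComplex_apply_of_im_pos hw]
    have h1 := hF (-(conj w) - ((1 : ℕ) : ℝ))
    simp only [Function.comp_apply] at h1
    rw [sub_add_cancel] at h1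
    show F (ofComplex (-(conj (w + (((1 : ℕ) : ℝ) : ℂ))))) = F (ofComplex (-(conj w)))
    have e1 : -(conj (w + (((1 : ℕ) : ℝ) : ℂ))) = -(conj w) - (((1 : ℕ) : ℝ) : ℂ) := by
      rw [map_add, Complex.conj_ofReal]
      ring
    rw [e1]
    exact h1.symm
  · have hw0 : w.im ≤ 0 := not_lt.mp hw
    have hw' : (w + ((1 : ℕ) : ℝ)).im ≤ 0 := by simpa using hw0
    simp only [Function.comp_apply]
    rw [ofComplex_apply_of_im_nonpos hw', ofComplex_apply_of_im_nonpos hw0]

theorem isHolInf_cj {F : ℍ → ℂ} (hF : IsHolInf 1 F) : IsHolInf 1 (cj F) := by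
  refine ⟨cj_mdiff hF.hol, cj_periodic hF.per, ?_⟩
  have hb := hF.bdd
  rw [UpperHalfPlane.isBoundedAtImInfty_iff] at hb ⊢
  obtain ⟨M, A, h⟩ := hb
  refine ⟨M, A, fun τ hτ => ?_⟩
  rw [cj_apply, Complex.norm_conj]
  exact h (J • τ) (by rw [im_J_smul]; exact hτ)

theorem qExpansion_cj {F : ℍ → ℂ} (hF : IsHolInf 1 F) :
    qExpansion ((1 : ℕ) : ℝ) (cj F) =
      PowerSeries.map (starRingEnd ℂ) (qExpansion ((1 : ℕ) : ℝ) F) := by
  ext m
  rw [PowerSeries.coeff_map]
  have hF' := isHolInf_cj hF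
  refine (qExpansion_coeff_unique_fun 1 (hpos 1) hF'.hol.continuous hF'.analyticAt
    (c := fun m => conj ((qExpansion ((1 : ℕ) : ℝ) F).coeff m)) (fun τ => ?_) m).symm
  have h := hF.hasSum (J • τ)
  have h2 := h.map (starRingEnd ℂ : ℂ →+* ℂ) Complex.continuous_conj
  rw [cj_apply]
  convert h2 using 1
  funext k
  simp only [Function.comp_apply, smul_eq_mul, map_mul, map_pow]
  rw [qh_J_smul, Complex.conj_conj, qh_apply]

theorem coeffMap_ofPowerSeries (f : ℂ →+* ℂ) (P : PowerSeries ℂ) :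
    coeffMap f (HahnSeries.ofPowerSeries ℤ ℂ P) =
      HahnSeries.ofPowerSeries ℤ ℂ (PowerSeries.map f P) := by
  ext k
  rw [coeffMap_coeff]
  have h1 : ∀ Q : PowerSeries ℂ, (HahnSeries.ofPowerSeries ℤ ℂ Q).coeff k =
      if k < 0 then 0 else PowerSeries.coeff k.natAbs Q := fun Q => PowerSeries.coeff_coe Q k
  rw [h1, h1]
  split_ifs
  · exact map_zero f
  · rw [PowerSeries.coeff_map]

theorem isMerInf_cj {G : ℍ → ℂ} (hG : IsMerInf 1 G) : IsMerInf 1 (cj G) := by
  obtain ⟨M, hM⟩ := hG.bdd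
  have h1 := isHolInf_cj (hG.isHolInf_mul_pow hM)
  rw [cj_mul, cj_pow, cj_qh] at h1
  exact ⟨cj_mdiff hG.hol, cj_periodic hG.per, M, h1.bdd⟩

/-- **`cj` conjugates the `q`-expansion at `i∞`.** -/
theorem qexpFun_cj {G : ℍ → ℂ} (hG : IsMerInf 1 G) :
    qexpFun 1 (cj G) = coeffMap (starRingEnd ℂ) (qexpFun 1 G) := by
  obtain ⟨M, hM⟩ := hG.bdd
  have hH := hG.isHolInf_mul_pow hM
  have h1 := isHolInf_cj hH
  have h2 : cj (G * qh 1 ^ M) = cj G * qh 1 ^ M := by rw [cj_mul, cj_pow, cj_qh]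
  rw [h2] at h1
  rw [qexpFun_eq_lau (isMerInf_cj hG) h1.bdd, qexpFun_eq_lau hG hM]
  unfold lau
  rw [map_mul, coeffMap_single, coeffMap_ofPowerSeries, ← h2, qExpansion_cj hH,
    RingHom.map_one]

end Fermat.Agent.S15.H337

end
end
-- ===== PACK-END S15/H337/Conj.lean

-- ===== PACK-BEGIN S15/H322/BasePieceTwo.lean
section



/-!
# Row S15 — DESC leaf BASE, part 7 (helper322): the per-piece bounds for `r = 2`

`J` an abelian group with an action of `G = Gal(ℚ̄/ℚ)`, `F' ≤ J` a `G`-stable subgroup, `e ∉ F'`,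
`2 e ∈ F'`, `G` acting trivially on the piece `(F' + ℤ e) / F'`.  For `r = 2` the cyclotomic
character is trivial, and the coordinate `f : G → ZMod 2` of a point (`HasCoord`) is at the same
time a character and an (`ω`-twisted) Kummer cocycle; its Kummer class is `a ∈ ℚˣ/(ℚˣ)²`.
Local conditions: `KumDivAt 2 ζ f ℓ` (`v_ℓ(a)` even), and `f c = 0` (`a > 0`), `c` the complex
conjugation.

* `piece_dichotomy_two_pos`, `piece_relIndex_le_two_pos` : `a > 0`, even valuations away from `p`: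
  classes `1, p`; index `≤ 2`.
* `piece_dichotomy_two_unr`, `piece_relIndex_le_two_unr` : even valuations everywhere: classes
  `1, -1`; index `≤ 2`.
* `piece_trivial_two`, `piece_le_two` : both: trivial.
* `piece_relIndex_le_four` : even valuations away from `p`: classes `±1, ±p`; index `≤ 4`.
-/

set_option autoImplicit false
set_option linter.unusedSectionVars false
set_option linter.style.haveILetI false

namespace Fermat.Agent.S15.H322

open Fermat.Agent.S56 Fermat.Agent.S56.H786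

section PieceTwo

variable {J : Type*} [AddCommGroup J] [DistribMulAction GQ J]
variable {F' : AddSubgroup J} {e : J}

/-- For `r = 2` a trivial action on the piece is an action through `ω`. -/
theorem hact_tw_of_triv_two {ζ : Qb} (hζ : IsPrimitiveRoot ζ 2) (hre : 2 • e ∈ F')
    (hact : ∀ σ : GQ, σ • e - e ∈ F') (σ : GQ) (a : ℕ) (ha : IsCycExp 2 σ a) :
    σ • e - a • e ∈ F' := by
  have h1 := isCycExp_two_cast hζ ha
  have hodd : a % 2 = 1 := by
    have h2 : ((a : ℕ) : ZMod 2) = ((1 : ℕ) : ZMod 2) := by rw [h1]; simp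
    have := (ZMod.natCast_eq_natCast_iff' a 1 2).mp h2
    simpa using this
  obtain ⟨k, hk⟩ : ∃ k, a = 2 * k + 1 := ⟨a / 2, by omega⟩
  have : σ • e - a • e = (σ • e - e) - k • (2 • e) := by
    rw [hk, add_smul, one_smul, mul_comm, mul_smul]; abel
  rw [this]
  exact F'.sub_mem (hact σ) (F'.nsmul_mem hre k)

/-- For `r = 2` an action through `ω` is a trivial action. -/
theorem hact_triv_of_tw_two
    (hact : ∀ σ : GQ, ∀ a : ℕ, IsCycExp 2 σ a → σ • e - a • e ∈ F') (σ : GQ) :
    σ • e - e ∈ F' := by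
  have h1 : IsCycExp 2 σ 1 := by
    intro μ hμ
    rw [pow_one]
    rcases sq_eq_one_iff.mp hμ with h | h <;> rw [h] <;> simp
  have := hact σ 1 h1
  rwa [one_smul] at this

/-- **`r = 2`, positive, even valuations away from `p`: the dichotomy.** -/
theorem piece_dichotomy_two_pos {p : ℕ} (hp : p.Prime) {ζ : Qb} (hζ : IsPrimitiveRoot ζ 2)
    (hstab : ∀ σ : GQ, ∀ x ∈ F', σ • x ∈ F') (he : e ∉ F') (hre : 2 • e ∈ F')
    (hact : ∀ σ : GQ, σ • e - e ∈ F')
    {y₁ y₂ : J} {f₁ f₂ : GQ → ZMod 2} (h₁ : HasCoord 2 F' e y₁ f₁) (h₂ : HasCoord 2 F' e y₂ f₂)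
    (hl₁ : HasLevel y₁) (hl₂ : HasLevel y₂)
    (hc₁ : f₁ complexConjugation = 0) (hc₂ : f₂ complexConjugation = 0)
    (hdiv₁ : ∀ ℓ : ℕ, ℓ.Prime → ℓ ≠ p → KumDivAt 2 ζ f₁ ℓ)
    (hdiv₂ : ∀ ℓ : ℕ, ℓ.Prime → ℓ ≠ p → KumDivAt 2 ζ f₂ ℓ) :
    KumIn F' y₁ ∨ ∃ m : ℕ, m < 2 ∧ KumIn F' (y₂ - m • y₁) := by
  have hact' := hact_tw_of_triv_two hζ hre hact
  have hcoc₁ := h₁.isTwCoc Nat.prime_two hstab he hre hact' hl₁
  have hcoc₂ := h₂.isTwCoc Nat.prime_two hstab he hre hact' hl₂
  rcases tw_dichotomy_two_pos hp hζ hcoc₁ hcoc₂ hc₁ hc₂ hdiv₁ hdiv₂ with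
    ⟨n, hn⟩ | ⟨m, hm, n, hn⟩
  · left
    have h0 : ∀ σ, f₁ σ = (0 : ℕ) • f₁ σ := fun σ => by rw [isTwCob_two hζ hn σ, smul_zero]
    have := kumIn_of_eq_smul Nat.prime_two he hre h₁ h₁ 0 h0
    rwa [zero_smul, sub_zero] at this
  · right
    refine ⟨m, hm, kumIn_of_eq_smul Nat.prime_two he hre h₁ h₂ m (fun σ => ?_)⟩
    have := isTwCob_two hζ hn σ
    rw [nsmul_eq_mul]
    exact sub_eq_zero.mp this

/-- **`r = 2`, even valuations everywhere: the dichotomy.** -/
theorem piece_dichotomy_two_unr {ζ : Qb} (hζ : IsPrimitiveRoot ζ 2)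
    (hstab : ∀ σ : GQ, ∀ x ∈ F', σ • x ∈ F') (he : e ∉ F') (hre : 2 • e ∈ F')
    (hact : ∀ σ : GQ, σ • e - e ∈ F')
    {y₁ y₂ : J} {f₁ f₂ : GQ → ZMod 2} (h₁ : HasCoord 2 F' e y₁ f₁) (h₂ : HasCoord 2 F' e y₂ f₂)
    (hl₁ : HasLevel y₁) (hl₂ : HasLevel y₂)
    (hdiv₁ : ∀ ℓ : ℕ, ℓ.Prime → KumDivAt 2 ζ f₁ ℓ)
    (hdiv₂ : ∀ ℓ : ℕ, ℓ.Prime → KumDivAt 2 ζ f₂ ℓ) :
    KumIn F' y₁ ∨ ∃ m : ℕ, m < 2 ∧ KumIn F' (y₂ - m • y₁) := by
  have hact' := hact_tw_of_triv_two hζ hre hact
  have hcoc₁ := h₁.isTwCoc Nat.prime_two hstab he hre hact' hl₁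
  have hcoc₂ := h₂.isTwCoc Nat.prime_two hstab he hre hact' hl₂
  rcases tw_dichotomy_two_unr hζ hcoc₁ hcoc₂ hdiv₁ hdiv₂ with ⟨n, hn⟩ | ⟨m, hm, n, hn⟩
  · left
    have h0 : ∀ σ, f₁ σ = (0 : ℕ) • f₁ σ := fun σ => by rw [isTwCob_two hζ hn σ, smul_zero]
    have := kumIn_of_eq_smul Nat.prime_two he hre h₁ h₁ 0 h0
    rwa [zero_smul, sub_zero] at this
  · right
    refine ⟨m, hm, kumIn_of_eq_smul Nat.prime_two he hre h₁ h₂ m (fun σ => ?_)⟩
    have := isTwCob_two hζ hn σ
    rw [nsmul_eq_mul]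
    exact sub_eq_zero.mp this

/-- **`r = 2`, positive and even valuations everywhere: trivial.** -/
theorem piece_trivial_two {ζ : Qb} (hζ : IsPrimitiveRoot ζ 2)
    (hstab : ∀ σ : GQ, ∀ x ∈ F', σ • x ∈ F') (he : e ∉ F') (hre : 2 • e ∈ F')
    (hact : ∀ σ : GQ, σ • e - e ∈ F')
    {y : J} {f : GQ → ZMod 2} (h : HasCoord 2 F' e y f) (hl : HasLevel y)
    (hc : f complexConjugation = 0) (hdiv : ∀ ℓ : ℕ, ℓ.Prime → KumDivAt 2 ζ f ℓ) :
    KumIn F' y := by
  have hact' := hact_tw_of_triv_two hζ hre hact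
  have hcoc := h.isTwCoc Nat.prime_two hstab he hre hact' hl
  have h0 : ∀ σ, f σ = (0 : ℕ) • f σ := fun σ => by
    rw [tw_trivial_two hζ hcoc hc hdiv σ, smul_zero]
  have := kumIn_of_eq_smul Nat.prime_two he hre h h 0 h0
  rwa [zero_smul, sub_zero] at this

/-- **Index bound, `r = 2`, positive, even valuations away from `p`.** -/
theorem piece_relIndex_le_two_pos {p : ℕ} (hp : p.Prime) {ζ : Qb} (hζ : IsPrimitiveRoot ζ 2)
    (hstab : ∀ σ : GQ, ∀ x ∈ F', σ • x ∈ F') (he : e ∉ F') (hre : 2 • e ∈ F')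
    (hact : ∀ σ : GQ, σ • e - e ∈ F') (Y H : AddSubgroup J)
    (hY : ∀ y ∈ Y, ∃ f : GQ → ZMod 2, HasCoord 2 F' e y f ∧ HasLevel y ∧
      f complexConjugation = 0 ∧ ∀ ℓ : ℕ, ℓ.Prime → ℓ ≠ p → KumDivAt 2 ζ f ℓ)
    (hH : ∀ w ∈ Y, KumIn F' w → w ∈ H) :
    H.relIndex Y ≠ 0 ∧ H.relIndex Y ≤ 2 := by
  refine relIndex_le_of_dichotomy H Y (by norm_num) (fun y₁ hy₁ y₂ hy₂ => ?_)
  obtain ⟨f₁, h₁, hl₁, hc₁, hd₁⟩ := hY y₁ hy₁
  obtain ⟨f₂, h₂, hl₂, hc₂, hd₂⟩ := hY y₂ hy₂
  rcases piece_dichotomy_two_pos hp hζ hstab he hre hact h₁ h₂ hl₁ hl₂ hc₁ hc₂ hd₁ hd₂ with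
    hn | ⟨m, hm, hn⟩
  · exact Or.inl (hH _ hy₁ hn)
  · exact Or.inr ⟨m, hm, hH _ (Y.sub_mem hy₂ (Y.nsmul_mem hy₁ m)) hn⟩

/-- **Index bound, `r = 2`, even valuations everywhere.** -/
theorem piece_relIndex_le_two_unr {ζ : Qb} (hζ : IsPrimitiveRoot ζ 2)
    (hstab : ∀ σ : GQ, ∀ x ∈ F', σ • x ∈ F') (he : e ∉ F') (hre : 2 • e ∈ F')
    (hact : ∀ σ : GQ, σ • e - e ∈ F') (Y H : AddSubgroup J)
    (hY : ∀ y ∈ Y, ∃ f : GQ → ZMod 2, HasCoord 2 F' e y f ∧ HasLevel y ∧
      ∀ ℓ : ℕ, ℓ.Prime → KumDivAt 2 ζ f ℓ)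
    (hH : ∀ w ∈ Y, KumIn F' w → w ∈ H) :
    H.relIndex Y ≠ 0 ∧ H.relIndex Y ≤ 2 := by
  refine relIndex_le_of_dichotomy H Y (by norm_num) (fun y₁ hy₁ y₂ hy₂ => ?_)
  obtain ⟨f₁, h₁, hl₁, hd₁⟩ := hY y₁ hy₁
  obtain ⟨f₂, h₂, hl₂, hd₂⟩ := hY y₂ hy₂
  rcases piece_dichotomy_two_unr hζ hstab he hre hact h₁ h₂ hl₁ hl₂ hd₁ hd₂ with
    hn | ⟨m, hm, hn⟩
  · exact Or.inl (hH _ hy₁ hn)
  · exact Or.inr ⟨m, hm, hH _ (Y.sub_mem hy₂ (Y.nsmul_mem hy₁ m)) hn⟩

/-- **`r = 2`, positive and even valuations everywhere: `Y ≤ H`.** -/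
theorem piece_le_two {ζ : Qb} (hζ : IsPrimitiveRoot ζ 2)
    (hstab : ∀ σ : GQ, ∀ x ∈ F', σ • x ∈ F') (he : e ∉ F') (hre : 2 • e ∈ F')
    (hact : ∀ σ : GQ, σ • e - e ∈ F') (Y H : AddSubgroup J)
    (hY : ∀ y ∈ Y, ∃ f : GQ → ZMod 2, HasCoord 2 F' e y f ∧ HasLevel y ∧
      f complexConjugation = 0 ∧ ∀ ℓ : ℕ, ℓ.Prime → KumDivAt 2 ζ f ℓ)
    (hH : ∀ w ∈ Y, KumIn F' w → w ∈ H) : Y ≤ H := by
  intro y hy
  obtain ⟨f, h, hl, hc, hd⟩ := hY y hy
  exact hH y hy (piece_trivial_two hζ hstab he hre hact h hl hc hd)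

/-- The points of `Y` whose Kummer value at complex conjugation lies in `F'`. -/
def posSub (F' Y : AddSubgroup J) : AddSubgroup J where
  carrier := {y | y ∈ Y ∧ complexConjugation • y - y ∈ F'}
  zero_mem' := ⟨Y.zero_mem, by rw [smul_zero, sub_zero]; exact F'.zero_mem⟩
  add_mem' := by
    rintro a b ⟨ha, ha'⟩ ⟨hb, hb'⟩
    refine ⟨Y.add_mem ha hb, ?_⟩
    have h : complexConjugation • (a + b) - (a + b) =
        (complexConjugation • a - a) + (complexConjugation • b - b) := by
      rw [smul_add]; abel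
    rw [h]
    exact F'.add_mem ha' hb'
  neg_mem' := by
    rintro a ⟨ha, ha'⟩
    refine ⟨Y.neg_mem ha, ?_⟩
    have h : complexConjugation • (-a) - (-a) = -(complexConjugation • a - a) := by
      rw [smul_neg]; abel
    rw [h]
    exact F'.neg_mem ha'

theorem posSub_le (F' Y : AddSubgroup J) : posSub F' Y ≤ Y := fun _ h => h.1

/-- The coordinate of a point of `posSub` vanishes at complex conjugation. -/
theorem HasCoord.apply_conj_eq_zero (he : e ∉ F') (hre : 2 • e ∈ F') {y : J}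
    {f : GQ → ZMod 2} (hf : HasCoord 2 F' e y f) (hy : complexConjugation • y - y ∈ F') :
    f complexConjugation = 0 := by
  have h1 := F'.sub_mem hy (hf complexConjugation)
  have h2 : complexConjugation • y - y -
      (complexConjugation • y - y - (f complexConjugation).val • e) =
      (((f complexConjugation).val : ℤ)) • e := by
    rw [natCast_zsmul]; abel
  rw [h2, zsmul_mem_iff Nat.prime_two he hre] at h1
  rwa [Int.cast_natCast, ZMod.natCast_zmod_val] at h1

/-- `[Y : posSub] ≤ 2`. -/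
theorem posSub_relIndex_le (Y : AddSubgroup J)
    (hY : ∀ y ∈ Y, ∃ f : GQ → ZMod 2, HasCoord 2 F' e y f) :
    (posSub F' Y).relIndex Y ≠ 0 ∧ (posSub F' Y).relIndex Y ≤ 2 := by
  refine relIndex_le_of_dichotomy _ Y (by norm_num) (fun y₁ hy₁ y₂ hy₂ => ?_)
  obtain ⟨f₁, h₁⟩ := hY y₁ hy₁
  obtain ⟨f₂, h₂⟩ := hY y₂ hy₂
  -- the value of a coordinate at `c` decides the membership
  have key : ∀ (y : J) (f : GQ → ZMod 2), HasCoord 2 F' e y f → f complexConjugation = 0 →
      complexConjugation • y - y ∈ F' := by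
    intro y f hf h0
    have := hf complexConjugation
    rwa [h0, ZMod.val_zero, zero_smul, sub_zero] at this
  by_cases h10 : f₁ complexConjugation = 0
  · exact Or.inl ⟨hy₁, key y₁ f₁ h₁ h10⟩
  · right
    have h11 : f₁ complexConjugation = 1 := by
      generalize f₁ complexConjugation = x at h10
      revert x; decide
    refine ⟨(f₂ complexConjugation).val, ZMod.val_lt _, Y.sub_mem hy₂ (Y.nsmul_mem hy₁ _), ?_⟩
    set m := (f₂ complexConjugation).val with hm
    have hB₁ := h₁ complexConjugation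
    have hB₂ := h₂ complexConjugation
    rw [h11] at hB₁
    have hv1 : (1 : ZMod 2).val = 1 := by decide
    rw [hv1, one_smul] at hB₁
    have e1 : complexConjugation • (y₂ - m • y₁) - (y₂ - m • y₁) =
        (complexConjugation • y₂ - y₂ - m • e) -
          m • (complexConjugation • y₁ - y₁ - e) := by
      rw [smul_sub, smul_comm complexConjugation m y₁]
      generalize complexConjugation • y₂ = Y2
      generalize complexConjugation • y₁ = Y1
      simp only [← natCast_zsmul]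
      module
    rw [e1]
    exact F'.sub_mem hB₂ (F'.nsmul_mem hB₁ m)

/-- **Index bound, `r = 2`, even valuations away from `p`: `[Y : H ∩ Y] ≤ 4`.** -/
theorem piece_relIndex_le_four {p : ℕ} (hp : p.Prime) {ζ : Qb} (hζ : IsPrimitiveRoot ζ 2)
    (hstab : ∀ σ : GQ, ∀ x ∈ F', σ • x ∈ F') (he : e ∉ F') (hre : 2 • e ∈ F')
    (hact : ∀ σ : GQ, σ • e - e ∈ F') (Y H : AddSubgroup J)
    (hY : ∀ y ∈ Y, ∃ f : GQ → ZMod 2, HasCoord 2 F' e y f ∧ HasLevel y ∧
      ∀ ℓ : ℕ, ℓ.Prime → ℓ ≠ p → KumDivAt 2 ζ f ℓ)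
    (hH : ∀ w ∈ Y, KumIn F' w → w ∈ H) :
    H.relIndex Y ≠ 0 ∧ H.relIndex Y ≤ 4 := by
  set P := posSub F' Y with hP
  have h1 := posSub_relIndex_le (F' := F') (e := e) Y (fun y hy => by
    obtain ⟨f, hf, -⟩ := hY y hy
    exact ⟨f, hf⟩)
  have h2 := piece_relIndex_le_two_pos hp hζ hstab he hre hact P H
    (fun y hy => by
      obtain ⟨f, hf, hl, hd⟩ := hY y hy.1
      exact ⟨f, hf, hl, hf.apply_conj_eq_zero he hre hy.2, hd⟩)
    (fun w hw hk => hH w hw.1 hk)
  -- `[Y : H ∩ P] = [P : H ∩ P] [Y : P]`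
  have h3 : (H ⊓ P).relIndex P * P.relIndex Y = (H ⊓ P).relIndex Y :=
    AddSubgroup.relIndex_mul_relIndex (H ⊓ P) P Y inf_le_right (posSub_le F' Y)
  rw [AddSubgroup.inf_relIndex_right] at h3
  have h4 : (H ⊓ P).relIndex Y ≠ 0 := by
    rw [← h3]
    exact mul_ne_zero h2.1 h1.1
  have h5 : H.relIndex Y ≤ (H ⊓ P).relIndex Y :=
    AddSubgroup.relIndex_le_of_le_left inf_le_left h4
  have h6 : H.relIndex Y ∣ (H ⊓ P).relIndex Y :=
    AddSubgroup.relIndex_dvd_of_le_left Y inf_le_left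
  refine ⟨fun h0 => h4 (by rw [h0] at h6; exact Nat.eq_zero_of_zero_dvd h6), ?_⟩
  calc H.relIndex Y ≤ (H ⊓ P).relIndex Y := h5
    _ = H.relIndex P * P.relIndex Y := h3.symm
    _ ≤ 2 * 2 := Nat.mul_le_mul h2.2 h1.2
    _ = 4 := by norm_num

end PieceTwo

end Fermat.Agent.S15.H322

end
-- ===== PACK-END S15/H322/BasePieceTwo.lean

-- ===== PACK-BEGIN S15/H379/Peu.lean
section





/-!
# S15 / DESC, tower T2 (PEU) — adapters (helper379)

Blueprint `coord/S15-DESC-blueprint.md` sec. 4, T2: local conditions at `r` for the classes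
`φ_i(y)` coming from a finite flat model.  No new algebra is needed: the S56 FLAT-O library on
main (Hopf lattices `S19.H435.IsHopfLattice`) already contains

* `S56.H906.flatInertia` (FI, `r` odd): `(I_aug M) ∩ M^I = 0`;
* `S56.H664.flatUnit` (FU, all `r`): the Kummer character of `I₁ = {σ ∈ I : σ ζ = ζ}` attached
  to a point is the Kummer character of a `P`-unit;
* `S56.H460.unrVal`: the inertia field is unramified.

Here:

* `peu1` (PEU-1, `r` odd): if `σ y - y` is inertia-fixed (`σ ∈ I_P`), then `σ y = y`.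
* `exists_pow_eq_zpow_of_fixed`: a nonzero element fixed by `I₁` has `v(y)^m = v(r)^n` with
  `0 < m < r`.
* `valuation_rat_eq`: `v_P(a) = v_P(r) ^ padicValRat r a` for `a ∈ ℚ^×`.
* `peuKummer` (PEU-ω and PEU-2, ALL `r`): if `α ^ r = a ∈ ℚ^×` and `σ α = ζ ^ ξ(σ x - x) α` on
  `I₁`, then `r ∣ v_r(a)`.
* `_of_hopfModel` forms (input = `S19.HopfModel`, the output of T1 / of the S19 closure lemmas).
-/

set_option autoImplicit false
set_option linter.unusedSectionVars false
set_option linter.style.haveILetI false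

noncomputable section

namespace Fermat.Agent.S15.H379

open Fermat.Agent.S56 Fermat.Agent.S56.H906

/-! ## PEU-1 -/

/-- **PEU-1** (`r` odd): in a flat module killed by `r`, an inertia element `σ` at `P | r` with
`σ y - y` fixed by inertia fixes `y`.  (Consumer: `G` acts trivially on a subgroup `P_i` and on
the quotient by it.) -/
theorem peu1 (r : ℕ) [Fact r.Prime] (hr2 : r ≠ 2) (M : Type) [AddCommGroup M] [Finite M]
    (act : GQ → M → M) (Λ : Subalgebra (Zp r) (M → Qb)) (hΛ : IsHL r act Λ)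
    (hM : ∀ x : M, r • x = 0) (P : ValuationSubring Qb) (hP : P.LiesOverPrime r)
    (σ : GQ) (hσ : σ ∈ P.inertiaSubgroupIn ℚ) (y : M)
    (hfix : ∀ τ ∈ P.inertiaSubgroupIn ℚ, act τ (act σ y - y) = act σ y - y) :
    act σ y = y := by
  have h0 : act σ y - y = 0 :=
    flatInertia r hr2 M act Λ hΛ hM P hP (act σ y - y) hfix
      (AddSubgroup.subset_closure ⟨σ, hσ, y, rfl⟩)
  exact sub_eq_zero.mp h0

/-- PEU-1 from a Hopf model. -/
theorem peu1_of_hopfModel (r : ℕ) [Fact r.Prime] (hr2 : r ≠ 2) (M : Type) [AddCommGroup M]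
    [Finite M] (act : GQ → M → M) (hH : Fermat.Agent.S19.HopfModel r M act)
    (hM : ∀ x : M, r • x = 0) (P : ValuationSubring Qb) (hP : P.LiesOverPrime r)
    (σ : GQ) (hσ : σ ∈ P.inertiaSubgroupIn ℚ) (y : M)
    (hfix : ∀ τ ∈ P.inertiaSubgroupIn ℚ, act τ (act σ y - y) = act σ y - y) :
    act σ y = y := by
  obtain ⟨Λ, hΛ⟩ := Fermat.Agent.S19.H435.exists_isHopfLattice_of_hopfModel hH
  exact peu1 r hr2 M act Λ hΛ hM P hP σ hσ y hfix

/-! ## Valuations of rational numbers -/

/-- The `P`-valuation of a rational number prime to `r` is `1`. -/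
theorem valuation_rat_eq_one (r : ℕ) (hr : r.Prime) (P : ValuationSubring Qb)
    (hP : P.LiesOverPrime r) (b : ℚ) (hb : b ≠ 0) (hv : padicValRat r b = 0) :
    P.valuation (algebraMap ℚ Qb b) = 1 := by
  haveI : Fact r.Prime := ⟨hr⟩
  have hnum : b.num ≠ 0 := Rat.num_ne_zero.mpr hb
  have hden : b.den ≠ 0 := b.den_ne_zero
  have hdef : padicValRat r b = padicValInt r b.num - padicValNat r b.den := rfl
  rw [hdef] at hv
  have hcop : Nat.Coprime b.num.natAbs b.den := b.reduced
  -- not both divisible by `r`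
  have hnot : ¬ ((r : ℤ) ∣ b.num ∧ r ∣ b.den) := by
    rintro ⟨h1, h2⟩
    have h1' : r ∣ b.num.natAbs := Int.natCast_dvd.mp h1
    have := Nat.dvd_gcd h1' h2
    rw [hcop] at this
    exact hr.one_lt.ne' (Nat.dvd_one.mp this)
  have hnd_num : ¬ (r : ℤ) ∣ b.num := by
    intro h1
    have h2 : ¬ r ∣ b.den := fun h2 => hnot ⟨h1, h2⟩
    have h3 : padicValNat r b.den = 0 := padicValNat.eq_zero_of_not_dvd h2
    rw [h3] at hv
    have h4 : padicValInt r b.num = 0 := by
      have : (padicValInt r b.num : ℤ) = 0 := by simpa using hv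
      exact_mod_cast this
    have h5 : 0 < padicValInt r b.num := by
      rw [padicValInt]
      exact (one_le_padicValNat_of_dvd (Int.natAbs_ne_zero.mpr hnum)
        (Int.natCast_dvd.mp h1))
    omega
  have hnd_den : ¬ r ∣ b.den := by
    intro h2
    have h3 : padicValInt r b.num = 0 := padicValInt.eq_zero_of_not_dvd hnd_num
    rw [h3] at hv
    have h5 : 0 < padicValNat r b.den := one_le_padicValNat_of_dvd hden h2
    have : (padicValNat r b.den : ℤ) = 0 := by simpa using hv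
    have : padicValNat r b.den = 0 := by exact_mod_cast this
    omega
  have h1 : algebraMap ℚ Qb b = (b.num : Qb) / ((b.den : ℕ) : Qb) := by
    conv_lhs => rw [← Rat.num_div_den b]
    rw [map_div₀, map_intCast, map_natCast]
  rw [h1, map_div₀,
    Fermat.Agent.S05.Sq12.valuation_intCast_eq_one_of_not_dvd P hr hP hnd_num,
    Fermat.Agent.S05.Sq12.valuation_natCast_eq_one_of_not_dvd P hr hP hnd_den, div_one]

/-- `v_P(a) = v_P(r) ^ v_r(a)` for a nonzero rational number `a` and `P | r`. -/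
theorem valuation_rat_eq (r : ℕ) (hr : r.Prime) (P : ValuationSubring Qb)
    (hP : P.LiesOverPrime r) (a : ℚ) (ha : a ≠ 0) :
    P.valuation (algebraMap ℚ Qb a) = P.valuation (r : Qb) ^ (padicValRat r a) := by
  haveI : Fact r.Prime := ⟨hr⟩
  have hr0 : (r : ℚ) ≠ 0 := by exact_mod_cast hr.ne_zero
  set k : ℤ := padicValRat r a with hk
  set b : ℚ := a / (r : ℚ) ^ k with hb
  have hrk : (r : ℚ) ^ k ≠ 0 := zpow_ne_zero k hr0
  have hb0 : b ≠ 0 := div_ne_zero ha hrk
  have hvrk : padicValRat r ((r : ℚ) ^ k) = k := by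
    rw [padicValRat.zpow, padicValRat.self hr.one_lt, mul_one]
  have hvb : padicValRat r b = 0 := by
    rw [hb, padicValRat.div ha hrk, hvrk, ← hk, sub_self]
  have hab : a = b * (r : ℚ) ^ k := by
    rw [hb, div_mul_cancel₀ _ hrk]
  have h1 := valuation_rat_eq_one r hr P hP b hb0 hvb
  conv_lhs => rw [hab]
  rw [map_mul, map_mul, h1, one_mul, map_zpow₀, map_natCast, map_zpow₀]

/-! ## The field fixed by `I₁` -/

/-- Norm argument: a nonzero element fixed by `I₁ = {σ ∈ I_P : σ ζ = ζ}` has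
`v(y)^m = v(r)^n` for some `0 < m < r`. -/
theorem exists_pow_eq_zpow_of_fixed (r : ℕ) (hr : r.Prime) (P : ValuationSubring Qb)
    (hP : P.LiesOverPrime r) (ζ : Qb) (hζ : IsPrimitiveRoot ζ r) (y : Qb) (hy : y ≠ 0)
    (hfix : ∀ σ ∈ P.inertiaSubgroupIn ℚ, σ ζ = ζ → σ y = y) :
    ∃ m : ℕ, 0 < m ∧ m < r ∧ ∃ n : ℤ, P.valuation y ^ m = P.valuation (r : Qb) ^ n := by
  classical
  haveI : NeZero r := ⟨hr.ne_zero⟩
  set I := P.inertiaSubgroupIn ℚ with hI
  -- the orbit of `ζ` under inertia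
  set O : Finset Qb := (primitiveRoots r Qb).filter (fun z => ∃ σ ∈ I, σ ζ = z) with hO
  have hζO : ζ ∈ O := by
    rw [hO, Finset.mem_filter]
    exact ⟨(mem_primitiveRoots hr.pos).mpr hζ, 1, I.one_mem, rfl⟩
  have hOmem : ∀ z ∈ O, ∃ σ ∈ I, σ ζ = z := fun z hz => (Finset.mem_filter.mp hz).2
  have hOmk : ∀ σ ∈ I, σ ζ ∈ O := by
    intro σ hσ
    rw [hO, Finset.mem_filter]
    refine ⟨(mem_primitiveRoots hr.pos).mpr ?_, σ, hσ, rfl⟩
    exact hζ.map_of_injective (f := (σ : Qb →ₐ[ℚ] Qb)) σ.injective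
  -- representatives
  let τ : Qb → GQ := fun z => if h : ∃ σ ∈ I, σ ζ = z then h.choose else 1
  have hτI : ∀ z ∈ O, τ z ∈ I := by
    intro z hz
    have h := hOmem z hz
    show (if h : ∃ σ ∈ I, σ ζ = z then h.choose else 1) ∈ I
    rw [dif_pos h]
    exact h.choose_spec.1
  have hτζ : ∀ z ∈ O, τ z ζ = z := by
    intro z hz
    have h := hOmem z hz
    show (if h : ∃ σ ∈ I, σ ζ = z then h.choose else 1) ζ = z
    rw [dif_pos h]
    exact h.choose_spec.2
  set N : Qb := ∏ z ∈ O, τ z y with hN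
  have hN0 : N ≠ 0 := by
    rw [hN, Finset.prod_ne_zero_iff]
    intro z _
    exact (map_ne_zero_iff _ (τ z).injective).mpr hy
  -- `σ (τ_z y) = τ_{σ z} y`
  have hperm : ∀ σ ∈ I, ∀ z ∈ O, σ (τ z y) = τ (σ z) y := by
    intro σ hσ z hz
    have hz' : σ z ∈ O := by
      have := hOmk (σ * τ z) (I.mul_mem hσ (hτI z hz))
      rwa [AlgEquiv.mul_apply, hτζ z hz] at this
    set h : GQ := (τ (σ z))⁻¹ * σ * τ z with hh
    have hhI : h ∈ I := I.mul_mem (I.mul_mem (I.inv_mem (hτI _ hz')) hσ) (hτI z hz)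
    have hhζ : h ζ = ζ := by
      rw [hh, AlgEquiv.mul_apply, AlgEquiv.mul_apply, hτζ z hz]
      have h1 : τ (σ z) ζ = σ z := hτζ _ hz'
      have h2 : (τ (σ z))⁻¹ (τ (σ z) ζ) = ζ := (τ (σ z)).symm_apply_apply ζ
      rw [h1] at h2
      exact h2
    have h2 := hfix h hhI hhζ
    rw [hh, AlgEquiv.mul_apply, AlgEquiv.mul_apply] at h2
    have h3 := congrArg (τ (σ z)) h2
    rwa [show (τ (σ z)) ((τ (σ z))⁻¹ (σ (τ z y))) = σ (τ z y) from
      (τ (σ z)).apply_symm_apply _] at h3
  have hNfix : ∀ σ ∈ I, σ N = N := by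
    intro σ hσ
    rw [hN, map_prod]
    rw [Finset.prod_congr rfl (fun z hz => hperm σ hσ z hz)]
    refine Finset.prod_bij (fun z _ => σ z) ?_ ?_ ?_ ?_
    · intro z hz
      have := hOmk (σ * τ z) (I.mul_mem hσ (hτI z hz))
      rwa [AlgEquiv.mul_apply, hτζ z hz] at this
    · intro z _ z' _ h
      exact σ.injective h
    · intro z' hz'
      refine ⟨σ⁻¹ z', ?_, ?_⟩
      · have := hOmk (σ⁻¹ * τ z') (I.mul_mem (I.inv_mem hσ) (hτI z' hz'))
        rwa [AlgEquiv.mul_apply, hτζ z' hz'] at this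
      · exact σ.apply_symm_apply z'
    · intro z _
      rfl
  obtain ⟨n, hn⟩ := Fermat.Agent.S56.H460.unrVal r hr P hP N hN0 hNfix
  have hvN : P.valuation N = P.valuation y ^ O.card := by
    rw [hN, map_prod]
    rw [Finset.prod_congr rfl (fun z hz =>
      Fermat.Agent.S05.Sq12.valuation_apply_eq_of_mem_inertiaIn P (hτI z hz) y)]
    rw [Finset.prod_const]
  refine ⟨O.card, Finset.card_pos.mpr ⟨ζ, hζO⟩, ?_, n, ?_⟩
  · calc O.card ≤ (primitiveRoots r Qb).card := Finset.card_filter_le _ _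
      _ = Nat.totient r := hζ.card_primitiveRoots
      _ = r - 1 := Nat.totient_prime hr
      _ < r := Nat.sub_lt hr.pos one_pos
  · rw [← hvN, hn]

/-! ## PEU-ω / PEU-2 -/

/-- **PEU-ω / PEU-2** (all primes `r`, including `r = 2`): let `(M, act, Λ)` be a Hopf lattice
over `ℤ_(r)` killed by `r`, `P | r`, `ζ` a primitive `r`-th root of unity, `I₁ = {σ ∈ I_P :
σ ζ = ζ}`, `L ⊆ M` a subgroup fixed pointwise by `I₁` and containing all `σ y - y` (`σ ∈ I₁`),
`ξ : M → 𝔽_r` additive, `x ∈ M`.  If `α ^ r = a ∈ ℚ^×` and `σ α = ζ ^ ξ(σ x - x) · α` for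
`σ ∈ I₁` (i.e. `a` is the Kummer class of the cocycle `σ ↦ ξ (σ x - x)`), then `r ∣ v_r(a)`. -/
theorem peuKummer (r : ℕ) [Fact r.Prime] (M : Type) [AddCommGroup M] [Finite M]
    (act : GQ → M → M) (Λ : Subalgebra (Zp r) (M → Qb)) (hΛ : IsHL r act Λ)
    (hM : ∀ x : M, r • x = 0) (P : ValuationSubring Qb) (hP : P.LiesOverPrime r)
    (ζ : Qb) (hζ : IsPrimitiveRoot ζ r) (L : AddSubgroup M)
    (hL1 : ∀ σ ∈ P.inertiaSubgroupIn ℚ, σ ζ = ζ → ∀ t ∈ L, act σ t = t)
    (hL2 : ∀ σ ∈ P.inertiaSubgroupIn ℚ, σ ζ = ζ → ∀ y : M, act σ y - y ∈ L)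
    (ξ : M →+ ZMod r) (x : M) (a : ℚ) (ha : a ≠ 0) (α : Qb)
    (hα : α ^ r = algebraMap ℚ Qb a)
    (hκ : ∀ σ ∈ P.inertiaSubgroupIn ℚ, σ ζ = ζ → σ α = ζ ^ (ξ (act σ x - x)).val * α) :
    (r : ℤ) ∣ padicValRat r a := by
  have hr : r.Prime := Fact.out
  obtain ⟨B, hB, hBκ⟩ := Fermat.Agent.S56.H664.flatUnit r M act Λ hΛ hM P hP ζ hζ L hL1 hL2 ξ x
  have hB0 : B ≠ 0 := by
    intro h
    rw [h, map_zero] at hB
    exact zero_ne_one hB
  have hα0 : α ≠ 0 := by
    intro h
    rw [h, zero_pow hr.ne_zero] at hα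
    exact ha ((algebraMap ℚ Qb).injective (by rw [← hα, map_zero]))
  have hζ0 : ζ ≠ 0 := hζ.ne_zero hr.ne_zero
  -- `y = α / B` is fixed by `I₁`
  have hyfix : ∀ σ ∈ P.inertiaSubgroupIn ℚ, σ ζ = ζ → σ (α / B) = α / B := by
    intro σ hσ hσζ
    rw [map_div₀, hκ σ hσ hσζ, hBκ σ hσ hσζ]
    rw [mul_div_mul_left _ _ (pow_ne_zero _ hζ0)]
  obtain ⟨m, hm0, hmr, n, hmn⟩ :=
    exists_pow_eq_zpow_of_fixed r hr P hP ζ hζ (α / B) (div_ne_zero hα0 hB0) hyfix
  rw [map_div₀, hB, div_one] at hmn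
  -- `v(α)^r = v(r)^k`
  have hk : P.valuation α ^ r = P.valuation (r : Qb) ^ (padicValRat r a) := by
    rw [← map_pow, hα]
    exact valuation_rat_eq r hr P hP a ha
  -- compare
  have hvr : P.valuation (r : Qb) < 1 := (ValuationSubring.mem_nonunits_iff P).mp hP
  have hvr0 : P.valuation (r : Qb) ≠ 0 :=
    (Valuation.ne_zero_iff _).mpr (by exact_mod_cast hr.ne_zero)
  have hcmp : P.valuation (r : Qb) ^ (n * (r : ℤ)) =
      P.valuation (r : Qb) ^ (padicValRat r a * (m : ℤ)) := by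
    rw [zpow_mul, ← hmn, zpow_mul, ← hk, zpow_natCast, zpow_natCast,
      ← pow_mul, ← pow_mul, mul_comm]
  have hinj : n * (r : ℤ) = padicValRat r a * (m : ℤ) := by
    by_contra hne
    rcases lt_or_gt_of_ne hne with h | h
    · have := zpow_lt_zpow_right_of_lt_one₀ (zero_lt_iff.mpr hvr0) hvr h
      rw [hcmp] at this
      exact lt_irrefl _ this
    · have := zpow_lt_zpow_right_of_lt_one₀ (zero_lt_iff.mpr hvr0) hvr h
      rw [hcmp] at this
      exact lt_irrefl _ this
  have hdvd : (r : ℤ) ∣ padicValRat r a * (m : ℤ) := ⟨n, by rw [← hinj, mul_comm]⟩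
  have hcop : IsCoprime (r : ℤ) (m : ℤ) := by
    rw [Int.isCoprime_iff_gcd_eq_one, Int.gcd_natCast_natCast]
    exact Nat.coprime_of_lt_prime hm0.ne' hmr hr
  exact hcop.dvd_of_dvd_mul_right hdvd

/-- PEU-ω / PEU-2 from a Hopf model. -/
theorem peuKummer_of_hopfModel (r : ℕ) [Fact r.Prime] (M : Type) [AddCommGroup M] [Finite M]
    (act : GQ → M → M) (hH : Fermat.Agent.S19.HopfModel r M act)
    (hM : ∀ x : M, r • x = 0) (P : ValuationSubring Qb) (hP : P.LiesOverPrime r)
    (ζ : Qb) (hζ : IsPrimitiveRoot ζ r) (L : AddSubgroup M)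
    (hL1 : ∀ σ ∈ P.inertiaSubgroupIn ℚ, σ ζ = ζ → ∀ t ∈ L, act σ t = t)
    (hL2 : ∀ σ ∈ P.inertiaSubgroupIn ℚ, σ ζ = ζ → ∀ y : M, act σ y - y ∈ L)
    (ξ : M →+ ZMod r) (x : M) (a : ℚ) (ha : a ≠ 0) (α : Qb)
    (hα : α ^ r = algebraMap ℚ Qb a)
    (hκ : ∀ σ ∈ P.inertiaSubgroupIn ℚ, σ ζ = ζ → σ α = ζ ^ (ξ (act σ x - x)).val * α) :
    (r : ℤ) ∣ padicValRat r a := by
  obtain ⟨Λ, hΛ⟩ := Fermat.Agent.S19.H435.exists_isHopfLattice_of_hopfModel hH
  exact peuKummer r M act Λ hΛ hM P hP ζ hζ L hL1 hL2 ξ x a ha α hα hκ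

end Fermat.Agent.S15.H379

end
end
-- ===== PACK-END S15/H379/Peu.lean

-- ===== PACK-BEGIN S15/H379/T2.lean
section



/-!
# S15 / DESC, leaves T2-ω and T2-1 — VERBATIM (helper379)

`t2Omega : H975.T2OmegaStatement` and `t2One : H975.T2OneStatement`, the frozen leaves of
`Fermat/Agent/S15/H975/DescSpec.lean`, from `peuKummer_of_hopfModel` / `peu1_of_hopfModel`
(`Peu.lean`; the mathematics is the S56 FLAT-O library: `flatUnit`, `flatInertia`, `unrVal`).
-/

set_option autoImplicit false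
set_option linter.unusedSectionVars false
set_option linter.style.haveILetI false

noncomputable section

namespace Fermat.Agent.S15.H379

open Fermat.Agent.S15

/-- There is a valuation subring of `ℚ̄` over every prime number. -/
theorem exists_valuationSubring_liesOver (r : ℕ) (hr : r.Prime) :
    ∃ A : ValuationSubring H975.Qb, A.LiesOverPrime r := by
  let A₀ : Subring H975.Qb := (algebraMap ℤ H975.Qb).range
  let l₀ : A₀ := ⟨((r : ℕ) : H975.Qb), ⟨((r : ℕ) : ℤ), by simp⟩⟩
  have hI : Ideal.span {l₀} ≠ ⊤ := by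
    intro h
    rw [Ideal.span_singleton_eq_top] at h
    obtain ⟨⟨m, n, rfl⟩, hm⟩ := h.exists_right_inv
    have h1 : (((r : ℕ) : ℤ) : H975.Qb) * ((n : ℤ) : H975.Qb) = 1 := by
      have := congrArg Subtype.val hm
      simpa [l₀] using this
    have h2 : ((r : ℕ) : ℤ) * n = 1 := by exact_mod_cast h1
    have h3 : ((r : ℕ) : ℤ) ∣ 1 := ⟨n, h2.symm⟩
    have h4 : (r : ℤ) ≤ 1 := Int.le_of_dvd one_pos h3
    have := hr.two_le
    omega
  obtain ⟨A, -, hA⟩ := Ideal.image_subset_nonunits_valuationSubring _ hI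
  refine ⟨A, ?_⟩
  apply hA
  exact ⟨l₀, Ideal.subset_span rfl, rfl⟩

/-- A linear coordinate: if `e` is not a multiple of `y`, some additive `ξ : Q → 𝔽_r` has
`ξ e = 1`, `ξ y = 0`. -/
theorem exists_coord (r : ℕ) [Fact r.Prime] (Q : Type) [AddCommGroup Q] [Module (ZMod r) Q]
    (e y : Q) (he : ∀ c : ZMod r, c • y ≠ e) :
    ∃ ξ : Q →+ ZMod r, ξ e = 1 ∧ ξ y = 0 := by
  have hey : e ∉ Submodule.span (ZMod r) ({y} : Set Q) := by
    intro h
    obtain ⟨c, hc⟩ := Submodule.mem_span_singleton.mp h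
    exact he c hc
  obtain ⟨f, hf, hfZ⟩ : ∃ f : Q →ₗ[ZMod r] ZMod r, f e ≠ 0 ∧
      (Submodule.span (ZMod r) ({y} : Set Q)).map f = ⊥ :=
    Submodule.exists_dual_map_eq_bot_of_notMem hey inferInstance
  have hfy : f y = 0 := by
    have : f y ∈ (Submodule.span (ZMod r) ({y} : Set Q)).map f :=
      ⟨y, Submodule.subset_span rfl, rfl⟩
    rw [hfZ] at this
    exact (Submodule.mem_bot _).mp this
  refine ⟨(((f e)⁻¹ • f : Q →ₗ[ZMod r] ZMod r)).toAddMonoidHom, ?_, ?_⟩
  · show (f e)⁻¹ * f e = 1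
    exact inv_mul_cancel₀ hf
  · show (f e)⁻¹ * f y = 0
    rw [hfy, mul_zero]

/-- **T2-1**, verbatim. -/
theorem t2One : H975.T2OneStatement := by
  intro r hr hr2 Q _ _ act hact hH e y hre hry hgen he hy A hA τ hτ
  haveI : Fact r.Prime := ⟨hr⟩
  have hM : ∀ x : Q, r • x = 0 := by
    intro x
    obtain ⟨i, j, rfl⟩ := hgen x
    rw [nsmul_add, smul_comm r i e, smul_comm r j y, hre, hry, nsmul_zero, nsmul_zero,
      add_zero]
  have hnsmul : ∀ (σ : H975.Gal) (m : ℕ) (x : Q), act σ (m • x) = m • act σ x := by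
    intro σ m x
    induction m with
    | zero =>
      rw [zero_nsmul, zero_nsmul]
      have h := hact.act_add σ 0 0
      rw [add_zero] at h
      exact left_eq_add.mp h
    | succ m ih => rw [succ_nsmul, succ_nsmul, hact.act_add, ih]
  refine peu1_of_hopfModel r hr2 Q act hH hM A hA τ hτ y ?_
  intro τ' _
  obtain ⟨m, hm⟩ := hy τ
  rw [hm, add_sub_cancel_left, hnsmul, he]

/-- **T2-ω**, verbatim. -/
theorem t2Omega : H975.T2OmegaStatement := by
  intro r hr Q _ _ act hact hH e y hre hry he0 hindep hgen ζ hζ hωe a α ha hα hκ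
  classical
  haveI : Fact r.Prime := ⟨hr⟩
  haveI : NeZero r := ⟨hr.ne_zero⟩
  have hM : ∀ x : Q, r • x = 0 := by
    intro x
    obtain ⟨i, j, rfl⟩ := hgen x
    rw [nsmul_add, smul_comm r i e, smul_comm r j y, hre, hry, nsmul_zero, nsmul_zero,
      add_zero]
  have hnsmul : ∀ (σ : H975.Gal) (m : ℕ) (x : Q), act σ (m • x) = m • act σ x := by
    intro σ m x
    induction m with
    | zero =>
      rw [zero_nsmul, zero_nsmul]
      have h := hact.act_add σ 0 0
      rw [add_zero] at h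
      exact left_eq_add.mp h
    | succ m ih => rw [succ_nsmul, succ_nsmul, hact.act_add, ih]
  obtain ⟨P, hP⟩ := exists_valuationSubring_liesOver r hr
  -- the `e`-coordinate
  obtain ⟨ξ, hξe, hξy⟩ : ∃ ξ : Q →+ ZMod r, ξ e = 1 ∧ ξ y = 0 := by
    refine @exists_coord r _ Q _ (AddCommGroup.zmodModule hM) e y ?_
    intro c hc
    have h2 := @Nat.cast_smul_eq_nsmul (ZMod r) Q _ _ (AddCommGroup.zmodModule hM) c.val y
    rw [ZMod.natCast_zmod_val c] at h2
    rw [h2] at hc
    have h1 : c.val • y ∈ AddSubgroup.zmultiples e := by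
      rw [hc]
      exact AddSubgroup.mem_zmultiples e
    obtain ⟨k, hk⟩ := hindep _ h1
    rw [hk, mul_nsmul', smul_comm, hry, nsmul_zero] at hc
    exact he0 hc.symm
  have hξm : ∀ m : ℕ, ξ (m • e) = (m : ZMod r) := by
    intro m
    rw [map_nsmul, hξe, nsmul_eq_mul, mul_one]
  have hζr : ζ ^ r = 1 := hζ.pow_eq_one
  -- every `σ` moves `α` by a power of `ζ`
  have hαpow : ∀ σ : H975.Gal, ∃ m : ℕ, σ α = ζ ^ m * α := by
    intro σ
    have hα0 : α ≠ 0 := by
      intro h
      rw [h, zero_pow hr.ne_zero] at hα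
      exact ha ((algebraMap ℚ H975.Qb).injective (by rw [← hα, map_zero]))
    have h1 : (σ α / α) ^ r = 1 := by
      rw [div_pow, ← map_pow, hα, AlgEquiv.commutes, div_self]
      rw [← hα]
      exact pow_ne_zero _ hα0
    obtain ⟨m, -, hm⟩ := hζ.eq_pow_of_pow_eq_one h1
    exact ⟨m, by rw [hm, div_mul_cancel₀ _ hα0]⟩
  refine peuKummer_of_hopfModel r Q act hH hM P hP ζ hζ (AddSubgroup.zmultiples e) ?_ ?_ ξ y a ha
    α hα ?_
  · -- `I₁` fixes `⟨e⟩` pointwise
    intro σ _ hσζ t ht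
    obtain ⟨k, rfl⟩ := AddSubgroup.mem_zmultiples_iff.mp ht
    have h1 : act σ e = e := by
      have := hωe σ 1 (by rw [pow_one]; exact hσζ)
      rwa [one_nsmul] at this
    have hneg : ∀ x : Q, act σ (-x) = - act σ x := by
      intro x
      have h0 : act σ 0 = 0 := by
        have h := hact.act_add σ 0 0
        rw [add_zero] at h
        exact left_eq_add.mp h
      have h := hact.act_add σ x (-x)
      rw [add_neg_cancel, h0] at h
      exact (neg_eq_of_add_eq_zero_right h.symm).symm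
    rcases Int.eq_nat_or_neg k with ⟨n, rfl | rfl⟩
    · rw [natCast_zsmul, hnsmul, h1]
    · rw [neg_zsmul, natCast_zsmul, hneg, hnsmul, h1]
  · -- `σ x - x ∈ ⟨e⟩`
    intro σ _ _ x
    obtain ⟨i, j, rfl⟩ := hgen x
    obtain ⟨m, hm⟩ := hαpow σ
    obtain ⟨k, hk⟩ : ∃ k : ℕ, σ ζ = ζ ^ k := by
      have h1 : (σ ζ) ^ r = 1 := by rw [← map_pow, hζr, map_one]
      obtain ⟨k, -, hk⟩ := hζ.eq_pow_of_pow_eq_one h1
      exact ⟨k, hk.symm⟩
    rw [hact.act_add, hnsmul, hnsmul, hωe σ k hk, hκ σ m hm]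
    have : i • k • e + j • (y + m • e) - (i • e + j • y) =
        ((i * k + j * m : ℕ) : ℤ) • e - (i : ℤ) • e := by
      rw [natCast_zsmul, natCast_zsmul, add_nsmul, mul_nsmul', mul_nsmul', nsmul_add]
      abel
    rw [this]
    exact AddSubgroup.sub_mem _ (AddSubgroup.zsmul_mem _ (AddSubgroup.mem_zmultiples e) _)
      (AddSubgroup.zsmul_mem _ (AddSubgroup.mem_zmultiples e) _)
  · -- the Kummer cocycle
    intro σ _ _
    obtain ⟨m, hm⟩ := hαpow σ
    rw [hκ σ m hm, add_sub_cancel_left, hξm, ZMod.val_natCast, ← pow_eq_pow_mod _ hζr, hm]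

end Fermat.Agent.S15.H379

end
end
-- ===== PACK-END S15/H379/T2.lean

-- ===== PACK-BEGIN G1/H180/Basic.lean
section



/-!
# G1.c-LOC (helper180): flat twist exclusion at `p = 3`, part 1 — basic lemmas

Group theory of a group of order `9` killed by `3`, and the action lemmas of a Hopf lattice.
-/

set_option autoImplicit false
set_option linter.unusedSectionVars false
set_option linter.style.haveILetI false

noncomputable section

namespace Fermat.Agent.G1.H180

open Fermat.Agent.S56 Fermat.Agent.S56.H906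

section Group

variable {V : Type} [AddCommGroup V] [Finite V]

/-- A subgroup of a group of order `9` is `⊥`, `⊤` or has order `3`. -/
theorem subgroup_trichotomy (hcard : Nat.card V = 9) (H : AddSubgroup V) :
    H = ⊥ ∨ H = ⊤ ∨ Nat.card H = 3 := by
  have hdvd : Nat.card H ∣ 9 := hcard ▸ AddSubgroup.card_addSubgroup_dvd_card H
  have hle : Nat.card H ≤ 9 := Nat.le_of_dvd (by norm_num) hdvd
  have hpos : 0 < Nat.card H := Nat.card_pos
  have h3 : Nat.card H = 1 ∨ Nat.card H = 3 ∨ Nat.card H = 9 := by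
    interval_cases h : Nat.card H <;> simp_all
  rcases h3 with h | h | h
  · exact Or.inl (AddSubgroup.card_eq_one.mp h)
  · exact Or.inr (Or.inr h)
  · refine Or.inr (Or.inl ?_)
    exact AddSubgroup.eq_top_of_le_card H (by rw [h, hcard])

/-- In a subgroup of order `3`, every element is a multiple of a given nonzero element. -/
theorem exists_nsmul_of_card_three {H : AddSubgroup V} (hH : Nat.card H = 3)
    (hkill : ∀ x : V, 3 • x = 0) {z : V} (hz : z ∈ H) (hz0 : z ≠ 0) (h : V) (hh : h ∈ H) :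
    h = 0 ∨ h = z ∨ h = 2 • z := by
  classical
  haveI : Fintype H := Fintype.ofFinite H
  have hcard : Fintype.card H = 3 := by rw [← Nat.card_eq_fintype_card]; exact hH
  -- the three elements `0, z, 2z` are distinct
  have h2z : (2 : ℕ) • z ≠ 0 := by
    intro h0
    apply hz0
    have h3 := hkill z
    have : (3 : ℕ) • z = 2 • z + z := by rw [succ_nsmul]
    rw [this, h0, zero_add] at h3
    exact h3
  have h2z' : (2 : ℕ) • z ≠ z := by
    intro h0
    apply hz0
    have : (2 : ℕ) • z = z + z := two_nsmul z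
    rw [this] at h0
    exact left_eq_add.mp h0.symm |>.symm ▸ rfl
  by_contra hcon
  push Not at hcon
  obtain ⟨h1, h2, h3⟩ := hcon
  let a0 : H := ⟨0, H.zero_mem⟩
  let a1 : H := ⟨z, hz⟩
  let a2 : H := ⟨2 • z, H.nsmul_mem hz 2⟩
  let a3 : H := ⟨h, hh⟩
  have hs : ({a0, a1, a2, a3} : Finset H).card = 4 := by
    rw [Finset.card_insert_of_notMem, Finset.card_insert_of_notMem,
      Finset.card_insert_of_notMem, Finset.card_singleton]
    · simp only [Finset.mem_singleton, a2, a3, Subtype.mk.injEq]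
      exact fun hh => h3 hh.symm
    · simp only [Finset.mem_insert, Finset.mem_singleton, a1, a2, a3, Subtype.mk.injEq, not_or]
      exact ⟨fun hh => h2z' hh.symm, fun hh => h2 hh.symm⟩
    · simp only [Finset.mem_insert, Finset.mem_singleton, a0, a1, a2, a3, Subtype.mk.injEq,
        not_or]
      exact ⟨fun hh => hz0 hh.symm, fun hh => h2z hh.symm, fun hh => h1 hh.symm⟩
  have := Finset.card_le_univ ({a0, a1, a2, a3} : Finset H)
  rw [hs, hcard] at this
  omega

end Group

end Fermat.Agent.G1.H180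

end

end
-- ===== PACK-END G1/H180/Basic.lean

-- ===== PACK-BEGIN G1/H180/Depth.lean
section


/-!
# G1.c-LOC (helper180): flat twist exclusion at `p = 3`, part 2 — the depth of a flat module

`(V, act, Λ)` a Hopf lattice at `p = 3`, `V` of order `9` killed by `3`, such that inertia at `P`
has no nonzero fixed point and no stable subgroup other than `0`, `V` ("supersingular shape").
Then there are `e ∈ Λ` and `m ∈ {1, 2, 3, 4}` such that, with `π ^ 8 = 3`,

* every nonzero point `y` has `v (e y - e 0) = v(π) ^ m`                       (`depth`),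
* `e` is additive modulo elements of smaller valuation                           (first order).

Tools: `S56.H906.lemmaA`, `S56.H66.vg0` (the inertia field is unramified), `A2.H708` (inertia
preserves the valuation).
-/

set_option autoImplicit false
set_option linter.unusedSectionVars false
set_option linter.style.haveILetI false

noncomputable section

namespace Fermat.Agent.G1.H180

open Fermat.Agent.S56 Fermat.Agent.S56.H906 Fermat.Agent.S56.H66 Fermat.Agent.S14.H894
open Fermat.Agent.A2.H708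

section Depth

variable {V : Type} [AddCommGroup V] {act : GQ → V → V}
  {Λ : Subalgebra (Zp 3) (V → Qb)} (P : ValuationSubring Qb)

/-- Equivariance of coordinate differences. -/
theorem coord_act (hΛ : IsHL 3 act Λ) {f : V → Qb} (hf : f ∈ Λ) (τ : GQ) (y : V) :
    f (act τ y) - f 0 = τ (f y - f 0) := by
  rw [map_sub, ← hΛ.equivariant f hf τ y, ← hΛ.equivariant f hf τ 0,
    Fermat.Agent.S19.H435.IsHopfLattice.act_zero hΛ τ]

/-- Inertia preserves the valuation. -/
theorem val_inertia {τ : GQ} (hτ : τ ∈ P.inertiaSubgroupIn ℚ) (x : Qb) :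
    P.valuation (τ x) = P.valuation x :=
  valuation_apply_of_mem_decomposition P (mem_decomposition_of_mem_inertiaIn P hτ) x

/-- The valuation of a coordinate difference is invariant under inertia. -/
theorem val_coord_act (hΛ : IsHL 3 act Λ) {f : V → Qb} (hf : f ∈ Λ) {τ : GQ}
    (hτ : τ ∈ P.inertiaSubgroupIn ℚ) (y : V) :
    P.valuation (f (act τ y) - f 0) = P.valuation (f y - f 0) := by
  rw [coord_act hΛ hf τ y, val_inertia P hτ]

/-- Values of elements of a Hopf lattice are integral. -/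
theorem val_apply_le_one (hΛ : IsHL 3 act Λ) (hP : P.LiesOverPrime 3) {f : V → Qb} (hf : f ∈ Λ)
    (y : V) : P.valuation (f y) ≤ 1 :=
  (ValuationSubring.valuation_le_one_iff P _).mpr (apply_mem P hΛ hP hf y)

/-- The comultiplication estimate: coordinates of `y + z` are bounded by those of `y`, `z`. -/
theorem val_coord_add_le (hΛ : IsHL 3 act Λ) (hP : P.LiesOverPrime 3) {c : P.ValueGroup}
    {y z : V} (hy : ∀ g ∈ Λ, P.valuation (g y - g 0) ≤ c)
    (hz : ∀ g ∈ Λ, P.valuation (g z - g 0) ≤ c) :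
    ∀ g ∈ Λ, P.valuation (g (y + z) - g 0) ≤ c := by
  intro g hg
  obtain ⟨n, a, b, ha, hb, hab⟩ := hΛ.comul_mem g hg
  have h0 := hab 0 0
  rw [add_zero] at h0
  rw [hab y z, h0, ← Finset.sum_sub_distrib]
  refine Valuation.map_sum_le _ fun k _ => ?_
  have h1 : a k y * b k z - a k 0 * b k 0 =
      (a k y - a k 0) * b k z + a k 0 * (b k z - b k 0) := by ring
  rw [h1]
  refine Valuation.map_add_le _ ?_ ?_
  · rw [map_mul]
    calc P.valuation (a k y - a k 0) * P.valuation (b k z)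
        ≤ P.valuation (a k y - a k 0) * 1 := by
          gcongr
          exact val_apply_le_one P hΛ hP (hb k) z
      _ = P.valuation (a k y - a k 0) := mul_one _
      _ ≤ c := hy _ (ha k)
  · rw [map_mul]
    calc P.valuation (a k 0) * P.valuation (b k z - b k 0)
        ≤ 1 * P.valuation (b k z - b k 0) := by
          gcongr
          exact val_apply_le_one P hΛ hP (ha k) 0
      _ = P.valuation (b k z - b k 0) := one_mul _
      _ ≤ c := hz _ (hb k)

/-- **First order additivity**: if all coordinate differences are `≤ c`, then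
`e (y + z) - e 0 = (e y - e 0) + (e z - e 0)` modulo elements of valuation `≤ c²`. -/
theorem val_lin_le (hΛ : IsHL 3 act Λ) {c : P.ValueGroup}
    (hall : ∀ g ∈ Λ, ∀ y : V, P.valuation (g y - g 0) ≤ c) {e : V → Qb} (he : e ∈ Λ) (y z : V) :
    P.valuation (e (y + z) - e 0 - (e y - e 0) - (e z - e 0)) ≤ c * c := by
  obtain ⟨n, a, b, ha, hb, hab⟩ := hΛ.comul_mem e he
  have h00 := hab 0 0
  rw [add_zero] at h00
  have hy0 := hab y 0
  rw [add_zero] at hy0
  have h0z := hab 0 z
  rw [zero_add] at h0z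
  have key : e (y + z) - e 0 - (e y - e 0) - (e z - e 0) =
      ∑ k, (a k y - a k 0) * (b k z - b k 0) := by
    have : ∑ k, (a k y - a k 0) * (b k z - b k 0) =
        (∑ k, a k y * b k z) - (∑ k, a k y * b k 0) - (∑ k, a k 0 * b k z)
          + ∑ k, a k 0 * b k 0 := by
      rw [← Finset.sum_sub_distrib, ← Finset.sum_sub_distrib, ← Finset.sum_add_distrib]
      exact Finset.sum_congr rfl fun k _ => by ring
    rw [this, ← hab y z, ← hy0, ← h0z, ← h00]
    ring
  rw [key]
  refine Valuation.map_sum_le _ fun k _ => ?_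
  rw [map_mul]
  exact mul_le_mul' (hall _ (ha k) y) (hall _ (hb k) z)

end Depth

section Subgroups

variable {V : Type} [AddCommGroup V]

/-- In a group killed by `3`, a subset containing `0` and closed under addition is a subgroup. -/
def subgroupOfAdd (hkill : ∀ x : V, 3 • x = 0) (S : Set V) (h0 : (0 : V) ∈ S)
    (hadd : ∀ x y, x ∈ S → y ∈ S → x + y ∈ S) : AddSubgroup V where
  carrier := S
  zero_mem' := h0
  add_mem' := fun hx hy => hadd _ _ hx hy
  neg_mem' := by
    intro x hx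
    have h3 := hkill x
    have h4 : x + x + x = 0 := by
      rw [← h3, succ_nsmul, two_nsmul]
    have : -x = x + x := (neg_eq_of_add_eq_zero_left h4)
    rw [this]
    exact hadd _ _ hx hx

theorem mem_subgroupOfAdd (hkill : ∀ x : V, 3 • x = 0) (S : Set V) (h0 : (0 : V) ∈ S)
    (hadd : ∀ x y, x ∈ S → y ∈ S → x + y ∈ S) (x : V) :
    x ∈ subgroupOfAdd hkill S h0 hadd ↔ x ∈ S := Iff.rfl

end Subgroups

section Main

variable {V : Type} [AddCommGroup V] [Finite V] {act : GQ → V → V}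
  {Λ : Subalgebra (Zp 3) (V → Qb)} (P : ValuationSubring Qb)

/-- `H` is stable under the inertia group at `P` (for the action `act`). -/
def IStable (act : GQ → V → V) (H : AddSubgroup V) : Prop :=
  ∀ τ ∈ P.inertiaSubgroupIn ℚ, ∀ x ∈ H, act τ x ∈ H

/-- `e ∈ Λ` is a *deep coordinate of slope `m / 8`*: every nonzero point has
`v (e y - e 0) = v(π)^m` and `e` is additive to first order. -/
structure IsDeep (Λ : Subalgebra (Zp 3) (V → Qb)) (π : Qb) (e : V → Qb) (m : ℕ) : Prop where
  mem : e ∈ Λ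
  one_le : 1 ≤ m
  le_four : m ≤ 4
  val_eq : ∀ y : V, y ≠ 0 → P.valuation (e y - e 0) = P.valuation π ^ m
  lin : ∀ y z : V,
    P.valuation (e (y + z) - e 0 - (e y - e 0) - (e z - e 0)) < P.valuation π ^ m

/-- The permutation of `V` given by a Galois element. -/
def actEquiv (hΛ : IsHL 3 act Λ) (τ : GQ) : V ≃ V where
  toFun := act τ
  invFun := act τ⁻¹
  left_inv := Fermat.Agent.S19.H435.IsHopfLattice.act_inv_act hΛ τ
  right_inv := Fermat.Agent.S19.H435.IsHopfLattice.act_act_inv hΛ τ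

theorem act_ne_zero (hΛ : IsHL 3 act Λ) (τ : GQ) {y : V} (hy : y ≠ 0) : act τ y ≠ 0 := by
  intro h
  apply hy
  have := Fermat.Agent.S19.H435.IsHopfLattice.act_inv_act hΛ τ y
  rw [h, Fermat.Agent.S19.H435.IsHopfLattice.act_zero hΛ] at this
  exact this.symm

theorem exists_ne_zero_of_card (hcard : Nat.card V = 9) : ∃ x : V, x ≠ 0 := by
  by_contra h
  push Not at h
  have hsub : Subsingleton V := ⟨fun a b => by rw [h a, h b]⟩
  have := Nat.card_of_subsingleton (0 : V)
  omega

/-- **The depth of a flat module of supersingular shape.** -/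
theorem exists_isDeep (hΛ : IsHL 3 act Λ) (hP : P.LiesOverPrime 3) (hcard : Nat.card V = 9)
    (hkill : ∀ x : V, 3 • x = 0)
    (hnofix : ∀ x : V, (∀ τ ∈ P.inertiaSubgroupIn ℚ, act τ x = x) → x = 0)
    (hirr : ∀ H : AddSubgroup V, IStable P act H → H = ⊥ ∨ H = ⊤)
    {π : Qb} (hπ : π ^ 8 = ((3 : ℕ) : Qb)) :
    ∃ (e : V → Qb) (m : ℕ), IsDeep P Λ π e m := by
  classical
  have hp : Nat.Prime 3 := Nat.prime_three
  obtain ⟨x₀, hx₀⟩ := exists_ne_zero_of_card hcard
  -- (a) every point lies in the kernel of reduction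
  have hred : ∀ y : V, ∀ f ∈ Λ, P.valuation (f y - f 0) < 1 := by
    have hst : IStable P act (redKer P hΛ hP) := by
      intro τ hτ x hx
      rw [mem_redKer] at hx ⊢
      intro f hf
      rw [val_coord_act P hΛ hf hτ]
      exact hx f hf
    rcases hirr _ hst with h | h
    · exfalso
      apply hx₀
      apply hnofix
      intro τ hτ
      have := act_sub_mem_redKer P hΛ hP hτ x₀
      rw [h, AddSubgroup.mem_bot, sub_eq_zero] at this
      exact this
    · intro y
      have : y ∈ redKer P hΛ hP := h ▸ AddSubgroup.mem_top y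
      exact (mem_redKer P hΛ hP y).mp this
  -- (b) a coordinate of maximal valuation at `x₀`
  obtain ⟨e, he, hμ0, hmax⟩ := ft_exists_max P hΛ hP hx₀
  set c := P.valuation (e x₀ - e 0) with hc
  have hc1 : c < 1 := hred x₀ e he
  have hc0 : c ≠ 0 := (Valuation.ne_zero_iff _).mpr hμ0
  -- (c) all coordinate differences are `≤ c`
  have hD : ∀ y : V, ∀ g ∈ Λ, P.valuation (g y - g 0) ≤ c := by
    let D : AddSubgroup V := subgroupOfAdd hkill {y | ∀ g ∈ Λ, P.valuation (g y - g 0) ≤ c}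
      (by intro g _; rw [sub_self, map_zero]; exact zero_le)
      (fun y z hy hz => val_coord_add_le P hΛ hP hy hz)
    have hst : IStable P act D := by
      intro τ hτ x hx g hg
      rw [val_coord_act P hΛ hg hτ]
      exact hx g hg
    rcases hirr D hst with h | h
    · exfalso
      apply hx₀
      have : x₀ ∈ D := hmax
      rw [h] at this
      exact (AddSubgroup.mem_bot).mp this
    · intro y
      have : y ∈ D := h ▸ AddSubgroup.mem_top y
      exact this
  -- (d) first order additivity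
  have hcc : c * c < c := by
    calc c * c < 1 * c := mul_lt_mul_of_pos_right hc1 (zero_lt_iff.mpr hc0)
      _ = c := one_mul c
  have hlin : ∀ y z : V, P.valuation (e (y + z) - e 0 - (e y - e 0) - (e z - e 0)) < c :=
    fun y z => lt_of_le_of_lt (val_lin_le P hΛ (fun g hg y => hD y g hg) he y z) hcc
  -- (e) every nonzero point has `e`-coordinate of valuation exactly `c`
  have hK : ∀ y : V, y ≠ 0 → P.valuation (e y - e 0) = c := by
    let K : AddSubgroup V := subgroupOfAdd hkill {y | P.valuation (e y - e 0) < c}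
      (by
        show P.valuation (e 0 - e 0) < c
        rw [sub_self, map_zero]
        exact zero_lt_iff.mpr hc0)
      (fun y z hy hz => by
        show P.valuation (e (y + z) - e 0) < c
        have h1 : e (y + z) - e 0 =
            (e (y + z) - e 0 - (e y - e 0) - (e z - e 0)) + (e y - e 0) + (e z - e 0) := by
          ring
        rw [h1]
        exact Valuation.map_add_lt _ (Valuation.map_add_lt _ (hlin y z) hy) hz)
    have hst : IStable P act K := by
      intro τ hτ x hx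
      show P.valuation (e (act τ x) - e 0) < c
      rw [val_coord_act P hΛ he hτ]
      exact hx
    rcases hirr K hst with h | h
    · intro y hy
      refine le_antisymm (hD y e he) ?_
      by_contra hlt
      rw [not_le] at hlt
      have : y ∈ K := hlt
      rw [h] at this
      exact hy ((AddSubgroup.mem_bot).mp this)
    · exfalso
      have : x₀ ∈ K := h ▸ AddSubgroup.mem_top x₀
      exact lt_irrefl c this
  -- (f) the norm over the nonzero points
  haveI : Fintype V := Fintype.ofFinite V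
  set G : V → Qb := fun y => if y = 0 then 1 else e y - e 0 with hG
  set N : Qb := ∏ y, G y with hN
  have hGne : ∀ y, G y ≠ 0 := by
    intro y
    rw [hG]
    by_cases hy : y = 0
    · simp [hy]
    · simp only [hy, if_false]
      intro h0
      have := hK y hy
      rw [h0, map_zero] at this
      exact hc0 this.symm
  have hN0 : N ≠ 0 := Finset.prod_ne_zero_iff.mpr fun y _ => hGne y
  have hGact : ∀ τ : GQ, ∀ y, τ (G y) = G (act τ y) := by
    intro τ y
    rw [hG]
    by_cases hy : y = 0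
    · subst hy
      simp [Fermat.Agent.S19.H435.IsHopfLattice.act_zero hΛ τ]
    · have hy' := act_ne_zero hΛ τ hy
      simp only [hy, hy', if_false]
      exact (coord_act hΛ he τ y).symm
  have hNfix : ∀ τ ∈ P.inertiaSubgroupIn ℚ, τ N = N := by
    intro τ _
    rw [hN, map_prod]
    rw [Finset.prod_congr rfl (fun y _ => hGact τ y)]
    exact Equiv.prod_comp (actEquiv hΛ τ) G
  have hcardF : Fintype.card V = 9 := by rw [← Nat.card_eq_fintype_card]; exact hcard
  have hNval : P.valuation N = c ^ 8 := by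
    rw [hN, map_prod]
    have h1 : ∀ y ∈ (Finset.univ : Finset V),
        P.valuation (G y) = if y = 0 then 1 else c := by
      intro y _
      rw [hG]
      by_cases hy : y = 0
      · simp [hy]
      · simp only [hy, if_false]
        exact hK y hy
    rw [Finset.prod_congr rfl h1, Finset.prod_ite, Finset.prod_const_one, one_mul,
      Finset.prod_const]
    congr 1
    have h2 := Finset.card_filter_add_card_filter_not (s := (Finset.univ : Finset V))
      (fun y => y = 0)
    have h3 : (Finset.univ.filter (fun y : V => y = 0)).card = 1 := by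
      rw [Finset.filter_eq' Finset.univ (0 : V)]
      simp
    rw [h3, Finset.card_univ, hcardF] at h2
    omega
  obtain ⟨n, hn⟩ := vg0 3 hp P hP N hN0 hNfix
  set v3 := P.valuation (((3 : ℕ) : Qb)) with hv3
  have hv3lt : v3 < 1 := (P.mem_nonunits_iff).mp hP
  have hv30 : v3 ≠ 0 := by
    rw [hv3, Valuation.ne_zero_iff]
    norm_num
  have hv3pos : 0 < v3 := zero_lt_iff.mpr hv30
  -- Lemma A: `v3 ≤ c²`
  have hA : v3 ≤ c ^ 2 := by
    by_contra hlt
    rw [not_le] at hlt
    exact hx₀ (lemmaA 3 V act Λ hΛ P hP x₀ (e x₀ - e 0) (hkill x₀) hlt hmax)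
  have hc8lt : c ^ 8 < 1 := pow_lt_one₀ zero_le hc1 (by norm_num)
  have hc8ge : v3 ^ 4 ≤ c ^ 8 := by
    calc v3 ^ 4 ≤ (c ^ 2) ^ 4 := pow_le_pow_left₀ zero_le hA 4
      _ = c ^ 8 := by rw [← pow_mul]
  rw [hNval] at hn
  -- `1 ≤ n ≤ 4`
  have hn1 : 1 ≤ n := by
    by_contra hcon
    push Not at hcon
    have hn0 : n ≤ 0 := by omega
    have : (1 : P.ValueGroup) ≤ v3 ^ n := by
      obtain ⟨k, rfl⟩ : ∃ k : ℕ, n = -(k : ℤ) := ⟨(-n).toNat, by omega⟩
      rw [zpow_neg, zpow_natCast]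
      exact (one_le_inv₀ (pow_pos hv3pos k)).mpr (pow_le_one₀ zero_le hv3lt.le)
    rw [← hn] at this
    exact absurd hc8lt (not_lt.mpr this)
  have hn4 : n ≤ 4 := by
    by_contra hcon
    push Not at hcon
    obtain ⟨k, rfl⟩ : ∃ k : ℕ, n = (k : ℤ) + 5 := ⟨(n - 5).toNat, by omega⟩
    have h1 : v3 ^ ((k : ℤ) + 5) = v3 ^ k * v3 ^ 5 := by
      rw [zpow_add₀ hv30, zpow_natCast]
      norm_cast
    have h2 : v3 ^ k * v3 ^ 5 ≤ v3 ^ 5 := by
      calc v3 ^ k * v3 ^ 5 ≤ 1 * v3 ^ 5 := by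
            gcongr
            exact pow_le_one₀ zero_le hv3lt.le
        _ = v3 ^ 5 := one_mul _
    have h3 : v3 ^ 5 < v3 ^ 4 := by
      calc v3 ^ 5 = v3 * v3 ^ 4 := by rw [pow_succ']
        _ < 1 * v3 ^ 4 := mul_lt_mul_of_pos_right hv3lt (pow_pos hv3pos 4)
        _ = v3 ^ 4 := one_mul _
    have h4 : c ^ 8 < v3 ^ 4 := by
      rw [hn, h1]
      exact lt_of_le_of_lt h2 h3
    exact absurd hc8ge (not_le.mpr h4)
  obtain ⟨m, rfl⟩ : ∃ m : ℕ, n = (m : ℤ) := ⟨n.toNat, by omega⟩
  rw [zpow_natCast] at hn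
  have hπv : P.valuation π ^ 8 = v3 := by rw [← map_pow, hπ]
  have hcm : c = P.valuation π ^ m := by
    have h1 : c ^ 8 = (P.valuation π ^ m) ^ 8 := by
      rw [hn, ← hπv, ← pow_mul, ← pow_mul, mul_comm]
    exact (pow_left_inj₀ zero_le zero_le (by norm_num : (8 : ℕ) ≠ 0)).mp h1
  refine ⟨e, m, he, by omega, by omega, ?_, ?_⟩
  · intro y hy
    rw [← hcm]
    exact hK y hy
  · intro y z
    rw [← hcm]
    exact hlin y z

end Main

end Fermat.Agent.G1.H180

end

end
-- ===== PACK-END G1/H180/Depth.lean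

-- ===== PACK-BEGIN G1/H180/Red.lean
section


/-!
# G1.c-LOC (helper180): flat twist exclusion at `p = 3`, part 3 — residues and the element `τ₀`

* `red P x` : the residue class of `x ∈ ℚ̄` in the residue field of `P` (junk outside `P`);
* `exists_tau0` : there is `τ₀` in the inertia group at `P | 3` acting on the cube roots of unity
  by `ζ ↦ ζ²`;
* `red_rho_pow_four` : for such a `τ₀` and `π ^ 8 = 3`, the `8`-th root of unity `ρ = τ₀ π / π`
  has `ρ⁴ ≡ 2` modulo `𝔪_P` (so its residue has exact order `8`).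
-/

set_option autoImplicit false
set_option linter.unusedSectionVars false
set_option linter.style.haveILetI false

noncomputable section

namespace Fermat.Agent.G1.H180

open Fermat.Agent.S56 Fermat.Agent.S56.H906 Fermat.Agent.S56.H66 Fermat.Agent.S14.H894
open Fermat.Agent.A2.H708

section Red

variable (P : ValuationSubring Qb)

/-- The residue field of `P`. -/
abbrev kP : Type := IsLocalRing.ResidueField P

/-- The residue class of `x ∈ ℚ̄` (junk value `0` outside `P`). -/
def red (x : Qb) : kP P :=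
  open Classical in if h : x ∈ P then IsLocalRing.residue P ⟨x, h⟩ else 0

theorem red_of_mem {x : Qb} (h : x ∈ P) : _root_.Fermat.Agent.G1.H180.red P x = IsLocalRing.residue P ⟨x, h⟩ := by
  unfold _root_.Fermat.Agent.G1.H180.red
  exact dif_pos h

theorem mem_of_val_le {x : Qb} (h : P.valuation x ≤ 1) : x ∈ P :=
  (P.valuation_le_one_iff x).mp h

theorem red_add {x y : Qb} (hx : x ∈ P) (hy : y ∈ P) : _root_.Fermat.Agent.G1.H180.red P (x + y) = _root_.Fermat.Agent.G1.H180.red P x + _root_.Fermat.Agent.G1.H180.red P y := by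
  rw [red_of_mem P hx, red_of_mem P hy, red_of_mem P (P.add_mem _ _ hx hy), ← map_add]
  rfl

theorem red_mul {x y : Qb} (hx : x ∈ P) (hy : y ∈ P) : _root_.Fermat.Agent.G1.H180.red P (x * y) = _root_.Fermat.Agent.G1.H180.red P x * _root_.Fermat.Agent.G1.H180.red P y := by
  rw [red_of_mem P hx, red_of_mem P hy, red_of_mem P (P.mul_mem _ _ hx hy), ← map_mul]
  rfl

theorem red_neg {x : Qb} (hx : x ∈ P) : _root_.Fermat.Agent.G1.H180.red P (-x) = - _root_.Fermat.Agent.G1.H180.red P x := by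
  rw [red_of_mem P hx, red_of_mem P (P.neg_mem _ hx), ← map_neg]
  rfl

theorem red_sub {x y : Qb} (hx : x ∈ P) (hy : y ∈ P) : _root_.Fermat.Agent.G1.H180.red P (x - y) = _root_.Fermat.Agent.G1.H180.red P x - _root_.Fermat.Agent.G1.H180.red P y := by
  rw [sub_eq_add_neg, red_add P hx (P.neg_mem _ hy), red_neg P hy, sub_eq_add_neg]

theorem red_one : _root_.Fermat.Agent.G1.H180.red P 1 = 1 := by
  rw [red_of_mem P P.one_mem]
  exact map_one (IsLocalRing.residue P)

theorem red_natCast (n : ℕ) : _root_.Fermat.Agent.G1.H180.red P (n : Qb) = (n : kP P) := by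
  rw [red_of_mem P (natCast_mem P n)]
  exact map_natCast (IsLocalRing.residue P) n

theorem red_pow {x : Qb} (hx : x ∈ P) (n : ℕ) : _root_.Fermat.Agent.G1.H180.red P (x ^ n) = _root_.Fermat.Agent.G1.H180.red P x ^ n := by
  induction n with
  | zero => rw [pow_zero, pow_zero, red_one]
  | succ n ih => rw [pow_succ, pow_succ, red_mul P (P.pow_mem hx n) hx, ih]

theorem red_eq_zero_iff {x : Qb} (hx : x ∈ P) : _root_.Fermat.Agent.G1.H180.red P x = 0 ↔ P.valuation x < 1 := by
  rw [red_of_mem P hx, IsLocalRing.residue_eq_zero_iff, ← ValuationSubring.coe_mem_nonunits_iff,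
    P.mem_nonunits_iff]

/-- Congruent elements have the same residue. -/
theorem red_eq_of_val_sub_lt {x y : Qb} (hx : x ∈ P) (hy : y ∈ P)
    (h : P.valuation (x - y) < 1) : _root_.Fermat.Agent.G1.H180.red P x = _root_.Fermat.Agent.G1.H180.red P y := by
  have := (_root_.Fermat.Agent.G1.H180.red_eq_zero_iff P (sub_mem hx hy)).mpr h
  rw [red_sub P hx hy, sub_eq_zero] at this
  exact this

/-- Inertia acts trivially on residues. -/
theorem red_inertia {τ : GQ} (hτ : τ ∈ P.inertiaSubgroupIn ℚ) {x : Qb} (hx : x ∈ P) :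
    _root_.Fermat.Agent.G1.H180.red P (τ x) = _root_.Fermat.Agent.G1.H180.red P x := by
  have hτx : τ x ∈ P :=
    apply_mem_of_mem_decomposition P (mem_decomposition_of_mem_inertiaIn P hτ) hx
  exact red_eq_of_val_sub_lt P hτx hx
    (valuation_sub_lt_one_of_mem_inertiaIn P hτ ((P.valuation_le_one_iff x).mpr hx))

/-- `3 = 0` in the residue field. -/
theorem three_eq_zero (hP : P.LiesOverPrime 3) : (3 : kP P) = 0 := by
  have h1 : _root_.Fermat.Agent.G1.H180.red P ((3 : ℕ) : Qb) = 0 :=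
    (_root_.Fermat.Agent.G1.H180.red_eq_zero_iff P (natCast_mem P 3)).mpr ((P.mem_nonunits_iff).mp hP)
  rw [red_natCast] at h1
  exact_mod_cast h1

theorem two_eq_neg_one (hP : P.LiesOverPrime 3) : (2 : kP P) = -1 := by
  have := three_eq_zero P hP
  linear_combination this

end Red

end Fermat.Agent.G1.H180

end

end
-- ===== PACK-END G1/H180/Red.lean

-- ===== PACK-BEGIN G1/H180/DeepOn.lean
section


/-!
# G1.c-LOC (helper180): flat twist exclusion at `p = 3`, part 2' — deep coordinates on a subgroup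

`(V, act, Λ)` a Hopf lattice at `p = 3`, `V` killed by `3`, and `U ⊂ V` a subgroup of order `9`
which is stable under the inertia group at `P`, without nonzero inertia-fixed point and without
inertia-stable subgroup other than `0`, `U`.  Then there are `e ∈ Λ` and `m ∈ {1, 2, 3, 4}` such
that, with `π ^ 8 = 3`, every nonzero point `y` of `U` has `v (e y - e 0) = v(π) ^ m`, and `e` is
additive on `U` modulo elements of smaller valuation.
-/

set_option autoImplicit false
set_option linter.unusedSectionVars false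
set_option linter.style.haveILetI false

noncomputable section

namespace Fermat.Agent.G1.H180

open Fermat.Agent.S56 Fermat.Agent.S56.H906 Fermat.Agent.S56.H66 Fermat.Agent.S14.H894
open Fermat.Agent.A2.H708

section DeepOn

variable {V : Type} [AddCommGroup V] [Finite V] {act : GQ → V → V}
  {Λ : Subalgebra (Zp 3) (V → Qb)} (P : ValuationSubring Qb)

/-- First order additivity, pointwise hypotheses. -/
theorem val_lin_le' (hΛ : IsHL 3 act Λ) {c : P.ValueGroup} {y z : V}
    (hy : ∀ g ∈ Λ, P.valuation (g y - g 0) ≤ c) (hz : ∀ g ∈ Λ, P.valuation (g z - g 0) ≤ c)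
    {e : V → Qb} (he : e ∈ Λ) :
    P.valuation (e (y + z) - e 0 - (e y - e 0) - (e z - e 0)) ≤ c * c := by
  obtain ⟨n, a, b, ha, hb, hab⟩ := hΛ.comul_mem e he
  have h00 := hab 0 0
  rw [add_zero] at h00
  have hy0 := hab y 0
  rw [add_zero] at hy0
  have h0z := hab 0 z
  rw [zero_add] at h0z
  have key : e (y + z) - e 0 - (e y - e 0) - (e z - e 0) =
      ∑ k, (a k y - a k 0) * (b k z - b k 0) := by
    have : ∑ k, (a k y - a k 0) * (b k z - b k 0) =
        (∑ k, a k y * b k z) - (∑ k, a k y * b k 0) - (∑ k, a k 0 * b k z)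
          + ∑ k, a k 0 * b k 0 := by
      rw [← Finset.sum_sub_distrib, ← Finset.sum_sub_distrib, ← Finset.sum_add_distrib]
      exact Finset.sum_congr rfl fun k _ => by ring
    rw [this, ← hab y z, ← hy0, ← h0z, ← h00]
    ring
  rw [key]
  refine Valuation.map_sum_le _ fun k _ => ?_
  rw [map_mul]
  exact mul_le_mul' (hy _ (ha k)) (hz _ (hb k))

/-- `e ∈ Λ` is a *deep coordinate of slope `m / 8` on `U`*. -/
structure IsDeepOn (Λ : Subalgebra (Zp 3) (V → Qb)) (U : AddSubgroup V) (π : Qb) (e : V → Qb)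
    (m : ℕ) : Prop where
  mem : e ∈ Λ
  one_le : 1 ≤ m
  le_four : m ≤ 4
  val_eq : ∀ y ∈ U, y ≠ 0 → P.valuation (e y - e 0) = P.valuation π ^ m
  lin : ∀ y ∈ U, ∀ z ∈ U,
    P.valuation (e (y + z) - e 0 - (e y - e 0) - (e z - e 0)) < P.valuation π ^ m

/-- **The depth of an inertia-irreducible subgroup of order `9` of a flat module.** -/
theorem exists_isDeepOn (hΛ : IsHL 3 act Λ) (hP : P.LiesOverPrime 3) (U : AddSubgroup V)
    (hU : IStable P act U) (hcard : Nat.card U = 9)
    (hkill : ∀ x : V, 3 • x = 0)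
    (hnofix : ∀ x ∈ U, (∀ τ ∈ P.inertiaSubgroupIn ℚ, act τ x = x) → x = 0)
    (hirr : ∀ H : AddSubgroup V, H ≤ U → IStable P act H → H = ⊥ ∨ H = U)
    {π : Qb} (hπ : π ^ 8 = ((3 : ℕ) : Qb)) :
    ∃ (e : V → Qb) (m : ℕ), IsDeepOn P Λ U π e m := by
  classical
  have hp : Nat.Prime 3 := Nat.prime_three
  obtain ⟨x₀, hx₀U, hx₀⟩ : ∃ x ∈ U, x ≠ 0 := by
    by_contra h
    push Not at h
    have hbot : U = ⊥ := (AddSubgroup.eq_bot_iff_forall U).mpr h
    rw [hbot] at hcard
    simp at hcard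
  -- (a) every point of `U` lies in the kernel of reduction
  have hred : ∀ y ∈ U, ∀ f ∈ Λ, P.valuation (f y - f 0) < 1 := by
    have hst : IStable P act (redKer P hΛ hP ⊓ U) := by
      intro τ hτ x hx
      refine ⟨?_, hU τ hτ x hx.2⟩
      have hx1 : x ∈ redKer P hΛ hP := hx.1
      show act τ x ∈ redKer P hΛ hP
      rw [mem_redKer] at hx1 ⊢
      intro f hf
      rw [val_coord_act P hΛ hf hτ]
      exact hx1 f hf
    rcases hirr _ inf_le_right hst with h | h
    · exfalso
      apply hx₀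
      apply hnofix x₀ hx₀U
      intro τ hτ
      have h1 : act τ x₀ - x₀ ∈ redKer P hΛ hP ⊓ U :=
        ⟨act_sub_mem_redKer P hΛ hP hτ x₀, U.sub_mem (hU τ hτ x₀ hx₀U) hx₀U⟩
      rw [h, AddSubgroup.mem_bot, sub_eq_zero] at h1
      exact h1
    · intro y hy
      have h1 : y ∈ redKer P hΛ hP ⊓ U := by rw [h]; exact hy
      exact (mem_redKer P hΛ hP y).mp h1.1
  -- (b) a coordinate of maximal valuation at `x₀`
  obtain ⟨e, he, hμ0, hmax⟩ := ft_exists_max P hΛ hP hx₀
  set c := P.valuation (e x₀ - e 0) with hc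
  have hc1 : c < 1 := hred x₀ hx₀U e he
  have hc0 : c ≠ 0 := (Valuation.ne_zero_iff _).mpr hμ0
  -- (c) all coordinate differences on `U` are `≤ c`
  have hD : ∀ y ∈ U, ∀ g ∈ Λ, P.valuation (g y - g 0) ≤ c := by
    let D : AddSubgroup V := subgroupOfAdd hkill {y | ∀ g ∈ Λ, P.valuation (g y - g 0) ≤ c}
      (by intro g _; rw [sub_self, map_zero]; exact zero_le)
      (fun y z hy hz => val_coord_add_le P hΛ hP hy hz)
    have hst : IStable P act (D ⊓ U) := by
      intro τ hτ x hx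
      refine ⟨?_, hU τ hτ x hx.2⟩
      intro g hg
      rw [val_coord_act P hΛ hg hτ]
      exact hx.1 g hg
    rcases hirr _ inf_le_right hst with h | h
    · exfalso
      apply hx₀
      have h1 : x₀ ∈ D ⊓ U := ⟨hmax, hx₀U⟩
      rw [h] at h1
      exact (AddSubgroup.mem_bot).mp h1
    · intro y hy
      have h1 : y ∈ D ⊓ U := by rw [h]; exact hy
      exact h1.1
  -- (d) first order additivity
  have hcc : c * c < c := by
    calc c * c < 1 * c := mul_lt_mul_of_pos_right hc1 (zero_lt_iff.mpr hc0)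
      _ = c := one_mul c
  have hlin : ∀ y ∈ U, ∀ z ∈ U,
      P.valuation (e (y + z) - e 0 - (e y - e 0) - (e z - e 0)) < c :=
    fun y hy z hz => lt_of_le_of_lt (val_lin_le' P hΛ (hD y hy) (hD z hz) he) hcc
  -- (e) every nonzero point of `U` has `e`-coordinate of valuation exactly `c`
  have hK : ∀ y ∈ U, y ≠ 0 → P.valuation (e y - e 0) = c := by
    let K : AddSubgroup V := subgroupOfAdd hkill {y | y ∈ U ∧ P.valuation (e y - e 0) < c}
      ⟨U.zero_mem, by rw [sub_self, map_zero]; exact zero_lt_iff.mpr hc0⟩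
      (fun y z hy hz => ⟨U.add_mem hy.1 hz.1, by
        have h1 : e (y + z) - e 0 =
            (e (y + z) - e 0 - (e y - e 0) - (e z - e 0)) + (e y - e 0) + (e z - e 0) := by
          ring
        rw [h1]
        exact Valuation.map_add_lt _ (Valuation.map_add_lt _ (hlin y hy.1 z hz.1) hy.2) hz.2⟩)
    have hKU : K ≤ U := fun y hy => hy.1
    have hst : IStable P act K := by
      intro τ hτ x hx
      refine ⟨hU τ hτ x hx.1, ?_⟩
      rw [val_coord_act P hΛ he hτ]
      exact hx.2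
    rcases hirr K hKU hst with h | h
    · intro y hyU hy
      refine le_antisymm (hD y hyU e he) ?_
      by_contra hlt
      rw [not_le] at hlt
      have h1 : y ∈ K := ⟨hyU, hlt⟩
      rw [h] at h1
      exact hy ((AddSubgroup.mem_bot).mp h1)
    · exfalso
      have h1 : x₀ ∈ K := by rw [h]; exact hx₀U
      exact lt_irrefl c h1.2
  -- (f) the norm over the nonzero points of `U`
  haveI : Fintype U := Fintype.ofFinite U
  set G : V → Qb := fun y => if y = 0 then 1 else e y - e 0 with hG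
  set N : Qb := ∏ y : U, G (y : V) with hN
  have hGne : ∀ y ∈ U, G y ≠ 0 := by
    intro y hyU
    rw [hG]
    by_cases hy : y = 0
    · simp [hy]
    · simp only [hy, if_false]
      intro h0
      have := hK y hyU hy
      rw [h0, map_zero] at this
      exact hc0 this.symm
  have hN0 : N ≠ 0 := Finset.prod_ne_zero_iff.mpr fun y _ => hGne y y.2
  have hGact : ∀ τ : GQ, ∀ y, τ (G y) = G (act τ y) := by
    intro τ y
    rw [hG]
    by_cases hy : y = 0
    · subst hy
      simp [Fermat.Agent.S19.H435.IsHopfLattice.act_zero hΛ τ]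
    · have hy' := act_ne_zero hΛ τ hy
      simp only [hy, hy', if_false]
      exact (coord_act hΛ he τ y).symm
  have hNfix : ∀ τ ∈ P.inertiaSubgroupIn ℚ, τ N = N := by
    intro τ hτ
    rw [hN, map_prod]
    have h1 : ∀ y ∈ (Finset.univ : Finset U), τ (G (y : V)) = G (act τ (y : V)) :=
      fun y _ => hGact τ (y : V)
    rw [Finset.prod_congr rfl h1]
    let E : U ≃ U :=
      { toFun := fun y => ⟨act τ y, hU τ hτ y y.2⟩
        invFun := fun y => ⟨act τ⁻¹ y, hU τ⁻¹ (inv_mem hτ) y y.2⟩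
        left_inv := fun y =>
          Subtype.ext (Fermat.Agent.S19.H435.IsHopfLattice.act_inv_act hΛ τ y)
        right_inv := fun y =>
          Subtype.ext (Fermat.Agent.S19.H435.IsHopfLattice.act_act_inv hΛ τ y) }
    exact Equiv.prod_comp E (fun y : U => G (y : V))
  have hcardF : Fintype.card U = 9 := by rw [← Nat.card_eq_fintype_card]; exact hcard
  have hNval : P.valuation N = c ^ 8 := by
    rw [hN, map_prod]
    have h1 : ∀ y ∈ (Finset.univ : Finset U),
        P.valuation (G (y : V)) = if y = 0 then 1 else c := by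
      intro y _
      rw [hG]
      by_cases hy : y = 0
      · simp [hy]
      · have hy' : (y : V) ≠ 0 := fun h => hy (Subtype.ext h)
        simp only [hy, hy', if_false]
        exact hK y y.2 hy'
    rw [Finset.prod_congr rfl h1, Finset.prod_ite, Finset.prod_const_one, one_mul,
      Finset.prod_const]
    congr 1
    have h2 := Finset.card_filter_add_card_filter_not (s := (Finset.univ : Finset U))
      (fun y => y = 0)
    have h3 : (Finset.univ.filter (fun y : U => y = 0)).card = 1 := by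
      rw [Finset.filter_eq' Finset.univ (0 : U)]
      simp
    rw [h3, Finset.card_univ, hcardF] at h2
    omega
  obtain ⟨n, hn⟩ := vg0 3 hp P hP N hN0 hNfix
  set v3 := P.valuation (((3 : ℕ) : Qb)) with hv3
  have hv3lt : v3 < 1 := (P.mem_nonunits_iff).mp hP
  have hv30 : v3 ≠ 0 := by
    rw [hv3, Valuation.ne_zero_iff]
    norm_num
  have hv3pos : 0 < v3 := zero_lt_iff.mpr hv30
  -- Lemma A: `v3 ≤ c²`
  have hA : v3 ≤ c ^ 2 := by
    by_contra hlt
    rw [not_le] at hlt
    exact hx₀ (lemmaA 3 V act Λ hΛ P hP x₀ (e x₀ - e 0) (hkill x₀) hlt hmax)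
  have hc8lt : c ^ 8 < 1 := pow_lt_one₀ zero_le hc1 (by norm_num)
  have hc8ge : v3 ^ 4 ≤ c ^ 8 := by
    calc v3 ^ 4 ≤ (c ^ 2) ^ 4 := pow_le_pow_left₀ zero_le hA 4
      _ = c ^ 8 := by rw [← pow_mul]
  rw [hNval] at hn
  -- `1 ≤ n ≤ 4`
  have hn1 : 1 ≤ n := by
    by_contra hcon
    push Not at hcon
    have hn0 : n ≤ 0 := by omega
    have : (1 : P.ValueGroup) ≤ v3 ^ n := by
      obtain ⟨k, rfl⟩ : ∃ k : ℕ, n = -(k : ℤ) := ⟨(-n).toNat, by omega⟩
      rw [zpow_neg, zpow_natCast]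
      exact (one_le_inv₀ (pow_pos hv3pos k)).mpr (pow_le_one₀ zero_le hv3lt.le)
    rw [← hn] at this
    exact absurd hc8lt (not_lt.mpr this)
  have hn4 : n ≤ 4 := by
    by_contra hcon
    push Not at hcon
    obtain ⟨k, rfl⟩ : ∃ k : ℕ, n = (k : ℤ) + 5 := ⟨(n - 5).toNat, by omega⟩
    have h1 : v3 ^ ((k : ℤ) + 5) = v3 ^ k * v3 ^ 5 := by
      rw [zpow_add₀ hv30, zpow_natCast]
      norm_cast
    have h2 : v3 ^ k * v3 ^ 5 ≤ v3 ^ 5 := by
      calc v3 ^ k * v3 ^ 5 ≤ 1 * v3 ^ 5 := by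
            gcongr
            exact pow_le_one₀ zero_le hv3lt.le
        _ = v3 ^ 5 := one_mul _
    have h3 : v3 ^ 5 < v3 ^ 4 := by
      calc v3 ^ 5 = v3 * v3 ^ 4 := by rw [pow_succ']
        _ < 1 * v3 ^ 4 := mul_lt_mul_of_pos_right hv3lt (pow_pos hv3pos 4)
        _ = v3 ^ 4 := one_mul _
    have h4 : c ^ 8 < v3 ^ 4 := by
      rw [hn, h1]
      exact lt_of_le_of_lt h2 h3
    exact absurd hc8ge (not_le.mpr h4)
  obtain ⟨m, rfl⟩ : ∃ m : ℕ, n = (m : ℤ) := ⟨n.toNat, by omega⟩
  rw [zpow_natCast] at hn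
  have hπv : P.valuation π ^ 8 = v3 := by rw [← map_pow, hπ]
  have hcm : c = P.valuation π ^ m := by
    have h1 : c ^ 8 = (P.valuation π ^ m) ^ 8 := by
      rw [hn, ← hπv, ← pow_mul, ← pow_mul, mul_comm]
    exact (pow_left_inj₀ zero_le zero_le (by norm_num : (8 : ℕ) ≠ 0)).mp h1
  refine ⟨e, m, he, by omega, by omega, ?_, ?_⟩
  · intro y hyU hy
    rw [← hcm]
    exact hK y hyU hy
  · intro y hy z hz
    rw [← hcm]
    exact hlin y hy z hz

end DeepOn

end Fermat.Agent.G1.H180

end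

end
-- ===== PACK-END G1/H180/DeepOn.lean

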