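import Mathlib
import Fermat.Prelude.Def_GaloisRep_ComplexConjugation
import Fermat.Agent.Pack.L1.E7L0
import Fermat.Agent.Pack.L1.E0L1
import Fermat.Agent.Pack.S43MC.G0E25L0
import Fermat.Agent.Pack.S44C.G0E6L3
import Fermat.Agent.Pack.L1.E4L1
import Fermat.Agent.Pack.S44C.G0E27L1
import Fermat.Agent.Pack.L1.E2L2
import Fermat.Agent.Pack.L1.E3L1
import Fermat.Agent.Pack.L1.E2L1
import Fermat.Agent.Pack.L1.E7L2
import Fermat.Agent.Pack.S43MC.G0E24L0
import Fermat.Agent.Pack.S44C.G0E23L1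
import Fermat.Agent.Pack.S44C.G0E27L2
import Fermat.Agent.Pack.S44C.G0E25L3
import Fermat.Agent.Pack.L1.E7L1
import Fermat.Agent.Pack.L1.E6L1
import Fermat.Agent.Pack.S43MC.G0E24L1
import Fermat.Agent.Pack.S43MC.G0E24L2

-- ===== PACK-BEGIN S15/H302/DescAlg.lean
section






/-!
# Row S15, piece DESC-ALG (helper302): `DescentStatement p` from the descent core

`descentStatement_of_descCore` : the node `Core.DescentStatement p` (the wall of row S15) follows
from

* Mordell–Weil for `J₀(p)` (the frozen statement S17, as a hypothesis), and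
* the **descent core** `DescCoreAt p S r` at ONE prime `r ∣ n = eisensteinNumerator p` :
  a rational point `z` of `J₀(p)` with `T_ℓ z ≡ (1 + ℓ) z` modulo `r J₀(p)(ℚ) + torsion` for all
  primes `ℓ ∉ S ∪ {p}` lies in `r J₀(p)(ℚ) + torsion`
  (i.e. `(M / r M)[𝔓] = 0` for `M = J₀(p)(ℚ) / torsion`, `𝔓 = (r, T_ℓ - 1 - ℓ)`).

Inputs from main: commutativity of the Hecke operators (`S29.heckeOperatorsCommuteBar`, helper801)
and their Galois-equivariance (`S29.H571.heckeEvalBar_smul`, helper571).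
The algebra is `H302.exists_sub_one_mem_smul_eq_zero_of_socle` (Nakayama).  No `sorry`.
-/

set_option autoImplicit false

noncomputable section

namespace Fermat.Agent.S15.H302

open ModularCurve Fermat.Agent.S15.Core

/-- the absolute Galois group of `ℚ` -/
abbrev GalQ : Type := AlgebraicClosure ℚ ≃ₐ[ℚ] AlgebraicClosure ℚ

/-- `z ≡ z'` modulo `r J₀(p)(ℚ) + J₀(p)(ℚ)_tors`. -/
def CongModRTors (p : ℕ) [NeZero p] (r : ℕ) (z z' : JZero p) : Prop :=
  ∃ w : JZero p, (∀ σ : GalQ, σ • w = w) ∧ ∃ m : ℕ, 0 < m ∧ m • (z - z' - r • w) = 0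

/-- **The descent core at the prime `r`** (node DESC-CORE): a rational point which is Eisenstein
modulo `r J₀(p)(ℚ) + torsion` lies in `r J₀(p)(ℚ) + torsion`. -/
def DescCoreAt (p : ℕ) [NeZero p] (S : Set ℕ) (r : ℕ) : Prop :=
  ∀ z : JZero p, (∀ σ : GalQ, σ • z = z) →
    (∀ ℓ : Nat.Primes, (ℓ : ℕ) ≠ p → (ℓ : ℕ) ∉ S →
      CongModRTors p r (heckeOperatorBar p ℓ z) ((1 + (ℓ : ℕ) : ℕ) • z)) →
    CongModRTors p r z 0

section Good

variable (p : ℕ) [NeZero p] (S : Set ℕ)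

/-- the good primes: `ℓ ≠ p`, `ℓ ∉ S` -/
abbrev GoodPrime : Type := {ℓ : Nat.Primes // (ℓ : ℕ) ≠ p ∧ (ℓ : ℕ) ∉ S}

/-- the polynomial ring on the good Hecke operators -/
abbrev GoodAlg : Type := MvPolynomial (GoodPrime p S) ℤ

/-- the action of the good polynomial ring on `J₀(p)(ℚ̄)` -/
def goodEval : GoodAlg p S →+* Module.End ℤ (JZero p) :=
  (heckeEvalBar (Fermat.Agent.S29.heckeOperatorsCommuteBar p)).comp
    (MvPolynomial.rename (Subtype.val : GoodPrime p S → Nat.Primes)).toRingHom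

theorem goodEval_C (a : ℤ) : goodEval p S (MvPolynomial.C a) = (a : Module.End ℤ (JZero p)) := by
  show heckeEvalBar _ (MvPolynomial.rename _ (MvPolynomial.C a)) = _
  rw [MvPolynomial.rename_C, heckeEvalBar_C]

theorem goodEval_X (ℓ : GoodPrime p S) :
    goodEval p S (MvPolynomial.X ℓ) = heckeOperatorBar p ℓ.1 := by
  show heckeEvalBar _ (MvPolynomial.rename _ (MvPolynomial.X ℓ)) = _
  rw [MvPolynomial.rename_X]
  exact heckeEvalBar_heckeGen _ ℓ.1

theorem goodEval_mem (t : GoodAlg p S) : goodEval p S t ∈ goodHeckeAlg p S := by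
  induction t using MvPolynomial.induction_on with
  | C a =>
    rw [goodEval_C]
    exact intCast_mem _ a
  | add u v hu hv =>
    rw [map_add]
    exact add_mem hu hv
  | mul_X u ℓ hu =>
    rw [map_mul, goodEval_X]
    exact mul_mem hu (Algebra.subset_adjoin ⟨ℓ.1, ℓ.2.1, ℓ.2.2, rfl⟩)

theorem goodEval_galois (t : GoodAlg p S) (σ : GalQ) (x : JZero p) :
    goodEval p S t (σ • x) = σ • goodEval p S t x :=
  Fermat.Agent.S29.H571.heckeEvalBar_smul p _ _ σ x

/-- the Eisenstein character `T_ℓ ↦ 1 + ℓ` -/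
def eisChar : GoodAlg p S →+* ℤ :=
  MvPolynomial.eval fun ℓ : GoodPrime p S => ((1 + (ℓ.1 : ℕ) : ℕ) : ℤ)

variable {p}

theorem goodEval_eisenstein {c : JZero p} (hc : IsEisensteinClass c) (t : GoodAlg p S) :
    goodEval p S t c = eisChar p S t • c := by
  induction t using MvPolynomial.induction_on with
  | C a =>
    rw [goodEval_C, Module.End.intCast_apply]
    simp [eisChar]
  | add u v hu hv =>
    rw [map_add, LinearMap.add_apply, hu, hv, map_add]
    exact (add_smul _ _ _).symm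
  | mul_X u ℓ hu =>
    rw [map_mul, Module.End.mul_apply, goodEval_X, hc ℓ.1 ℓ.2.1, map_zsmul, hu, map_mul,
      smul_smul]
    congr 1
    simp [eisChar, mul_comm]

end Good

/-- The Nakayama step: from the descent core, a good Hecke operator `t ≡ 1` modulo
`(r, T_ℓ - 1 - ℓ)` which maps `J₀(p)(ℚ)` into the torsion. -/
theorem exists_goodAlg_of_descCore (p : ℕ) [NeZero p] (S : Set ℕ) (r : ℕ) (hr : 0 < r)
    (hMW : AddGroup.FG ↥(FixedPoints.addSubgroup GalQ (JZero p)))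
    (hcore : DescCoreAt p S r) :
    ∃ t : GoodAlg p S, (r : ℤ) ∣ eisChar p S t - 1 ∧
      ∀ z : JZero p, (∀ σ : GalQ, σ • z = z) → ∃ m : ℕ, 0 < m ∧ m • goodEval p S t z = 0 := by
  classical
  letI modJ : Module (GoodAlg p S) (JZero p) := Module.compHom (JZero p) (goodEval p S)
  have hsmul : ∀ (t : GoodAlg p S) (x : JZero p), t • x = goodEval p S t x := fun _ _ => rfl
  -- the rational points, as a submodule
  let A : Submodule (GoodAlg p S) (JZero p) :=
    { carrier := {z | ∀ σ : GalQ, σ • z = z}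
      zero_mem' := fun σ => smul_zero σ
      add_mem' := fun {a b} ha hb σ => by rw [smul_add, ha σ, hb σ]
      smul_mem' := fun t z hz σ => by
        rw [hsmul, ← goodEval_galois, hz σ] }
  have hA : ∀ z : JZero p, z ∈ A ↔ ∀ σ : GalQ, σ • z = z := fun _ => Iff.rfl
  -- its torsion
  let Tors : Submodule (GoodAlg p S) A :=
    { carrier := {a | ∃ m : ℕ, 0 < m ∧ m • a = 0}
      zero_mem' := ⟨1, one_pos, smul_zero _⟩
      add_mem' := by
        rintro a b ⟨m, hm, hma⟩ ⟨n, hn, hnb⟩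
        refine ⟨m * n, Nat.mul_pos hm hn, ?_⟩
        rw [smul_add, mul_comm m n, mul_smul, hma, smul_zero, mul_comm n m, mul_smul, hnb,
          smul_zero, add_zero]
      smul_mem' := by
        rintro t a ⟨m, hm, hma⟩
        exact ⟨m, hm, by rw [smul_comm, hma, smul_zero]⟩ }
  have hTors : ∀ a : A, a ∈ Tors ↔ ∃ m : ℕ, 0 < m ∧ m • (a : JZero p) = 0 := by
    intro a
    constructor
    · rintro ⟨m, hm, hma⟩
      refine ⟨m, hm, ?_⟩
      have := congrArg (Subtype.val) hma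
      simpa using this
    · rintro ⟨m, hm, hma⟩
      refine ⟨m, hm, ?_⟩
      apply Subtype.ext
      simpa using hma
  -- `M = A / Tors` is a finitely generated abelian group
  have hfin : Module.Finite ℤ (A ⧸ Tors) := by
    rw [Module.Finite.iff_addGroup_fg]
    let f : ↥(FixedPoints.addSubgroup GalQ (JZero p)) →+ (A ⧸ Tors) :=
      { toFun := fun a => Submodule.Quotient.mk ⟨a.1, fun σ => a.2 σ⟩
        map_zero' := rfl
        map_add' := fun a b => rfl }
    have hf : Function.Surjective f := by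
      intro x
      obtain ⟨a, rfl⟩ := Submodule.Quotient.mk_surjective Tors x
      exact ⟨⟨a.1, fun σ => a.2 σ⟩, rfl⟩
    haveI := hMW
    exact AddGroup.fg_of_surjective hf
  -- the ideal `𝔓 = (r, T_ℓ - 1 - ℓ)`
  let gen : GoodPrime p S → GoodAlg p S := fun ℓ =>
    MvPolynomial.X ℓ - MvPolynomial.C (((1 + (ℓ.1 : ℕ) : ℕ) : ℤ))
  let P : Ideal (GoodAlg p S) := Ideal.span (insert (r : GoodAlg p S) (Set.range gen))
  have hrP : (r : GoodAlg p S) ∈ P := Ideal.subset_span (Set.mem_insert _ _)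
  have hgenP : ∀ ℓ, gen ℓ ∈ P := fun ℓ =>
    Ideal.subset_span (Set.mem_insert_of_mem _ (Set.mem_range_self ℓ))
  have hgen : ∀ (ℓ : GoodPrime p S) (z : JZero p),
      goodEval p S (gen ℓ) z = heckeOperatorBar p ℓ.1 z - (1 + (ℓ.1 : ℕ) : ℕ) • z := by
    intro ℓ z
    simp only [gen, map_sub, goodEval_X, goodEval_C, LinearMap.sub_apply,
      Module.End.intCast_apply]
    rw [natCast_zsmul]
  -- the socle hypothesis of ALG1 from the descent core
  have hsocle : ∀ x : A ⧸ Tors, (∀ s ∈ P, ∃ w : A ⧸ Tors, s • x = r • w) →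
      ∃ w : A ⧸ Tors, x = r • w := by
    intro x hx
    obtain ⟨a, rfl⟩ := Submodule.Quotient.mk_surjective Tors x
    have hz := (hA a.1).1 a.2
    have key : CongModRTors p r (a : JZero p) 0 := by
      refine hcore a.1 hz fun ℓ hℓp hℓS => ?_
      obtain ⟨w, hw⟩ := hx (gen ⟨ℓ, hℓp, hℓS⟩) (hgenP _)
      obtain ⟨b, rfl⟩ := Submodule.Quotient.mk_surjective Tors w
      have h1 : gen ⟨ℓ, hℓp, hℓS⟩ • a - r • b ∈ Tors := by
        rw [← Submodule.Quotient.mk_eq_zero, Submodule.Quotient.mk_sub,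
          Submodule.Quotient.mk_smul, sub_eq_zero]
        rw [hw]
        rfl
      obtain ⟨m, hm, hmz⟩ := (hTors _).1 h1
      refine ⟨b.1, (hA b.1).1 b.2, m, hm, ?_⟩
      rw [← hmz]
      congr 1
      have : ((gen ⟨ℓ, hℓp, hℓS⟩ • a - r • b : A) : JZero p)
          = goodEval p S (gen ⟨ℓ, hℓp, hℓS⟩) a.1 - r • b.1 := by
        simp [hsmul]
      rw [this, hgen]
    obtain ⟨w, hw, m, hm, hmz⟩ := key
    refine ⟨Submodule.Quotient.mk ⟨w, (hA w).2 hw⟩, ?_⟩
    have h2 : a - r • (⟨w, (hA w).2 hw⟩ : A) ∈ Tors := by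
      rw [hTors]
      refine ⟨m, hm, ?_⟩
      rw [← hmz]
      congr 1
      simp
    rw [← Submodule.Quotient.mk_eq_zero, Submodule.Quotient.mk_sub, sub_eq_zero] at h2
    rw [h2]
    rfl
  obtain ⟨t, htP, htM⟩ := exists_sub_one_mem_smul_eq_zero_of_socle (M := A ⧸ Tors) P r hr hrP
    hsocle
  refine ⟨t, ?_, fun z hz => ?_⟩
  · -- `ε(t) ≡ 1 mod r`
    have hle : P ≤ (Ideal.span {(r : ℤ)}).comap (eisChar p S) := by
      refine Ideal.span_le.2 ?_
      rintro s (rfl | ⟨ℓ, rfl⟩)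
      · show eisChar p S (r : GoodAlg p S) ∈ Ideal.span {(r : ℤ)}
        rw [map_natCast]
        exact Ideal.subset_span rfl
      · show eisChar p S (gen ℓ) ∈ Ideal.span {(r : ℤ)}
        have : eisChar p S (gen ℓ) = 0 := by simp [gen, eisChar]
        rw [this]
        exact Ideal.zero_mem _
    have := hle htP
    rw [Ideal.mem_comap, map_sub, map_one, Ideal.mem_span_singleton] at this
    exact this
  · -- `t` maps rational points to torsion
    have h3 := htM (Submodule.Quotient.mk ⟨z, (hA z).2 hz⟩)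
    rw [← Submodule.Quotient.mk_smul, Submodule.Quotient.mk_eq_zero, hTors] at h3
    obtain ⟨m, hm, hmz⟩ := h3
    exact ⟨m, hm, by simpa [hsmul] using hmz⟩

/-- **DESC-ALG.**  The node `Core.DescentStatement p` from Mordell–Weil (frozen S17) and the
descent core at one Eisenstein prime. -/
theorem descentStatement_of_descCore (p : ℕ) [NeZero p]
    (hMW : AddGroup.FG ↥(FixedPoints.addSubgroup GalQ (JZero p)))
    (hcore : ∀ S : Finset ℕ, ∃ r : ℕ, r.Prime ∧ r ∣ eisensteinNumerator p ∧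
      DescCoreAt p (S : Set ℕ) r) :
    DescentStatement p := by
  intro S
  obtain ⟨r, hr, hrn, hc⟩ := hcore S
  obtain ⟨t, ht1, htM⟩ := exists_goodAlg_of_descCore p (S : Set ℕ) r hr.pos hMW hc
  refine ⟨r, goodEval p (S : Set ℕ) t, eisChar p (S : Set ℕ) t, hr, hrn, goodEval_mem p _ t,
    fun c hc' => goodEval_eisenstein _ hc' t, ?_, htM⟩
  intro hdvd
  have h1 : (r : ℤ) ∣ 1 := by
    have := dvd_sub hdvd ht1
    simpa using this
  have h2 : (r : ℤ) = 1 ∨ (r : ℤ) = -1 := Int.isUnit_iff.1 (isUnit_of_dvd_one h1)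
  rcases h2 with h2 | h2
  · exact hr.one_lt.ne' (by exact_mod_cast h2)
  · have : (0 : ℤ) ≤ r := Int.natCast_nonneg r
    omega

end Fermat.Agent.S15.H302

end

end
-- ===== PACK-END S15/H302/DescAlg.lean

-- ===== PACK-BEGIN S15/H302/DescWeak.lean
section




/-!
# Row S15, piece DESC-ALG (helper302): `DescWeakStatement` from the descent core

`descWeakStatement_of_descCore` : the weak descent node `Fermat.Agent.S15.DescWeakStatement`
(consumed by `S15_of_weak`, row-lead helper975) follows from Mordell–Weil (frozen S17, as a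
hypothesis) and the descent core `H302.DescCoreAt p S r` at ONE prime `r` dividing the order of
the given Eisenstein vector `c`.  No `sorry`.
-/

set_option autoImplicit false

noncomputable section

namespace Fermat.Agent.S15.H302

open ModularCurve Fermat.Agent.S15

theorem isEisensteinClass_of_isEisensteinVector {p : ℕ} [NeZero p] {c : JZero p}
    (hc : IsEisensteinVector p c) : Core.IsEisensteinClass c := by
  intro ℓ hℓ
  rw [hc ℓ hℓ, natCast_zsmul]

theorem goodHeckeAlg_eq_heckeRingAway (p : ℕ) [NeZero p] (S : Finset ℕ) :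
    Core.goodHeckeAlg p (S : Set ℕ) = heckeRingAway p S := by
  unfold Core.goodHeckeAlg Core.goodHecke heckeRingAway
  congr 1
  ext T
  constructor
  · rintro ⟨ℓ, h1, h2, rfl⟩
    exact ⟨ℓ, by simpa using h2, h1, rfl⟩
  · rintro ⟨ℓ, h1, h2, rfl⟩
    exact ⟨ℓ, h2, by simpa using h1, rfl⟩

/-- **DESC-ALG, weak form.**  `DescWeakStatement` from Mordell–Weil and the descent core at one
prime `r ∣ addOrderOf c`. -/
theorem descWeakStatement_of_descCore
    (hMW : ∀ (p : ℕ) [NeZero p], p.Prime → 5 ≤ p →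
      AddGroup.FG ↥(FixedPoints.addSubgroup GalQ (JZero p)))
    (hcore : ∀ (p : ℕ) [NeZero p], p.Prime → p ∉ ({2, 3, 5, 7, 13} : Finset ℕ) →
      ∀ (S : Finset ℕ) (c : JZero p), (∀ σ : GalQ, σ • c = c) → c ≠ 0 →
        (∃ m : ℕ, 0 < m ∧ m • c = 0) → IsEisensteinVector p c →
        ∃ r : ℕ, r.Prime ∧ r ∣ addOrderOf c ∧ DescCoreAt p (S : Set ℕ) r) :
    DescWeakStatement := by
  intro p _ hp hp' S c hcfix hc0 hct hcE
  obtain ⟨r, hr, hrc, hD⟩ := hcore p hp hp' S c hcfix hc0 hct hcE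
  have hp5 : 5 ≤ p := by
    have h2 := hp.two_le
    by_contra hlt
    push Not at hlt
    have : p = 2 ∨ p = 3 ∨ p = 4 := by omega
    rcases this with rfl | rfl | rfl
    · exact hp' (by simp)
    · exact hp' (by simp)
    · exact absurd hp (by decide)
  obtain ⟨t, ht1, htM⟩ := exists_goodAlg_of_descCore p (S : Set ℕ) r hr.pos (hMW p hp hp5) hD
  refine ⟨goodEval p (S : Set ℕ) t, ?_, htM, ?_⟩
  · rw [← goodHeckeAlg_eq_heckeRingAway]
    exact goodEval_mem p _ t
  · -- `t c ≠ 0`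
    have hE := isEisensteinClass_of_isEisensteinVector hcE
    rw [goodEval_eisenstein _ hE t]
    intro h0
    -- `addOrderOf c ∣ ε(t)`, hence `r ∣ ε(t)`, hence `r ∣ 1`
    have h1 : (addOrderOf c : ℤ) ∣ eisChar p (S : Set ℕ) t :=
      (addOrderOf_dvd_iff_zsmul_eq_zero).2 h0
    have h2 : (r : ℤ) ∣ eisChar p (S : Set ℕ) t :=
      (Int.natCast_dvd_natCast.2 hrc).trans h1
    have h3 : (r : ℤ) ∣ 1 := by
      have := dvd_sub h2 ht1
      simpa using this
    have h4 : (r : ℤ) = 1 ∨ (r : ℤ) = -1 := Int.isUnit_iff.1 (isUnit_of_dvd_one h3)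
    rcases h4 with h4 | h4
    · exact hr.one_lt.ne' (by exact_mod_cast h4)
    · have : (0 : ℤ) ≤ r := Int.natCast_nonneg r
      omega

end Fermat.Agent.S15.H302

end

end
-- ===== PACK-END S15/H302/DescWeak.lean

-- ===== PACK-BEGIN S17/H317/TorsionFinite.lean
section
/-
S17 row, piece G-TORS (helper317): `torsion_finite`, EXACT statement of the row skeleton
(`origin/helper17:Fermat/Agent/S17/Skeleton.lean`, `Skel.torsion_finite`, abbreviation `Qb`
unfolded): the `n`-torsion of `J₀(N)(ℚ̄) = Pic⁰ ℚ̄ (ℚ̄(X₀(N)))` is finite for every `n ≠ 0`.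

Adapter on top of the landed unconditional S30 piece FIN
(`Fermat.Agent.S30.H810.torsion_finite : {x : JZero N | m • x = 0}.Finite`).
-/


set_option autoImplicit false

noncomputable section

open ModularCurve AlgebraicCurve

namespace Fermat.Agent.S17.H317

/-- G-TORS. The `n`-torsion of `J₀(N)(ℚ̄)` is finite. -/
theorem torsion_finite (N : ℕ) [NeZero N] (n : ℕ) (hn : n ≠ 0) :
    Finite (Pic0.torsion (AlgebraicClosure ℚ) (modularFunctionFieldBar N) n) := by
  haveI : NeZero n := ⟨hn⟩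
  have hfin : {x : JZero N | n • x = 0}.Finite := Fermat.Agent.S30.H810.torsion_finite N n
  have hsub : ((Pic0.torsion (AlgebraicClosure ℚ) (modularFunctionFieldBar N) n :
      AddSubgroup (JZero N)) : Set (JZero N)) ⊆ {x : JZero N | n • x = 0} := by
    intro x hx
    have h1 : (n : ℤ) • x = 0 := Pic0.mem_torsion.mp hx
    show n • x = 0
    rw [← natCast_zsmul]
    exact h1
  exact (hfin.subset hsub).to_subtype

end Fermat.Agent.S17.H317

end
end
-- ===== PACK-END S17/H317/TorsionFinite.lean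

-- ===== PACK-BEGIN S15/H975/DescTop.lean
section




/-!
# Row S15: FINAL ASSEMBLY from the nodes of `DescSpec.lean` (row-lead helper975)

    frozen S15  <==  GeoWeak  +  Mordell–Weil (frozen S17)  +  the nodes of `DescSpec.lean`

* `finStatement`            : FIN, from `S30.H810.torsion_finite` (on main);
* `rtf_of_fg`               : RTF from Mordell–Weil;
* `descCoreAt_of_nodes`     : `H302.DescCoreAt p S r` for every prime `r ∣ p - 1`;
* `descWeak_of_nodes`       : the weak descent node, for Eisenstein vectors killed by `p - 1`;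
* `S15_of_nodes`            : the frozen statement S15.

Everything is sorry-free; the nodes are hypotheses.
-/

set_option autoImplicit false

noncomputable section

open WeierstrassCurve WeierstrassCurve.Affine

namespace Fermat.Agent.S15.H975

open ModularCurve Fermat.Agent.S15

/-- **FIN** (on main). -/
theorem finStatement : FinStatement := by
  intro p _ n hn
  haveI : NeZero n := ⟨hn.ne'⟩
  exact (Fermat.Agent.S30.H810.torsion_finite p n).to_subtype

/-- the target of `DescSpec.lean` is the descent core of helper302, verbatim -/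
theorem descCoreAt_of_target {p : ℕ} [NeZero p] {S : Set ℕ} {r : ℕ}
    (h : DescCoreTarget p S r) : H302.DescCoreAt p S r := h

/-- **RTF from Mordell–Weil**: a finitely generated abelian group has finite torsion. -/
theorem rtf_of_fg (p : ℕ) [NeZero p]
    (hMW : AddGroup.FG ↥(FixedPoints.addSubgroup _root_.Fermat.Agent.S15.H975.Gal (JZero p))) :
    ∃ e : ℕ, 0 < e ∧
      ∀ t : JZero p, (∀ σ : _root_.Fermat.Agent.S15.H975.Gal, σ • t = t) → (∃ m : ℕ, 0 < m ∧ m • t = 0) → e • t = 0 := by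
  classical
  set A : AddSubgroup (JZero p) := FixedPoints.addSubgroup _root_.Fermat.Agent.S15.H975.Gal (JZero p) with hA
  haveI : Module.Finite ℤ A := Module.Finite.iff_addGroup_fg.mpr hMW
  -- the torsion submodule is finitely generated and torsion, hence finite
  haveI : IsNoetherian ℤ A := isNoetherian_of_isNoetherianRing_of_finite ℤ A
  haveI : Module.Finite ℤ (Submodule.torsion ℤ A) :=
    Module.Finite.of_fg (IsNoetherian.noetherian _)
  haveI hfin : Finite (Submodule.torsion ℤ A) :=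
    Module.finite_of_fg_torsion _ (Submodule.torsion_isTorsion (R := ℤ) (M := A))
  refine ⟨Nat.card (Submodule.torsion ℤ A), Nat.card_pos, ?_⟩
  intro t ht ⟨m, hm, hmt⟩
  have htA : t ∈ A := fun σ => ht σ
  have htt : (⟨t, htA⟩ : A) ∈ Submodule.torsion ℤ A := by
    rw [Submodule.mem_torsion_iff]
    refine ⟨⟨(m : ℤ), mem_nonZeroDivisors_of_ne_zero (by exact_mod_cast hm.ne')⟩, ?_⟩
    apply Subtype.ext
    show ((m : ℤ) • (⟨t, htA⟩ : A) : A).1 = 0
    rw [natCast_zsmul]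
    exact hmt
  have h1 : Nat.card (Submodule.torsion ℤ A) • (⟨⟨t, htA⟩, htt⟩ : Submodule.torsion ℤ A) = 0 :=
    card_nsmul_eq_zero'
  have h2 := congrArg (fun x : Submodule.torsion ℤ A => ((x : A) : JZero p)) h1
  simpa using h2

/-- **The descent core from the nodes.** -/
theorem descCoreAt_of_nodes (hA : Alg0Statement) (hE : EngineStatement)
    (hDiv : DivStatement) (hFlag : FlagStatement) (hLoc : LocalStatement)
    (p : ℕ) [NeZero p] (hp : p.Prime)
    (hMW : AddGroup.FG ↥(FixedPoints.addSubgroup _root_.Fermat.Agent.S15.H975.Gal (JZero p)))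
    (S : Finset ℕ) (r : ℕ) (hr : r.Prime) (hrp : r ∣ p - 1) :
    H302.DescCoreAt p (S : Set ℕ) r := by
  have hW : Finite ↥(tors p r) := finStatement p r hr.pos
  obtain ⟨D, F, hF⟩ := hFlag p hp S r hr hrp
  obtain ⟨K, U, hK, hU, hKU, hstep⟩ := hLoc p hp S r hr hrp
  have hmono : ∀ j, j ≤ D → ∀ i, i ≤ j → F i ≤ F j := by
    intro j
    induction j with
    | zero =>
      intro _ i hi
      rw [Nat.le_zero.mp hi]
    | succ j ih =>
      intro hj i hi
      rcases Nat.lt_or_ge i (j + 1) with h | h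
      · exact (ih (Nat.le_of_succ_le hj) i (Nat.lt_succ_iff.mp h)).trans
          (hF.2.2 j (Nat.lt_of_succ_le hj)).1
      · rw [le_antisymm hi h]
  have hsel : SelBound p (S : Set ℕ) r :=
    hE p (S : Set ℕ) r hr hW K U hK hU hKU D F hF fun i hi =>
      hstep (F i) (F (i + 1)) (by rw [← hF.2.1]; exact hmono D le_rfl (i + 1) hi) (hF.2.2 i hi)
  exact descCoreAt_of_target
    (hA p (S : Set ℕ) r hp hr (hDiv p hp r hr) (fun n hn => finStatement p n hn)
      (rtf_of_fg p hMW) hsel)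

/-- **NODE DESC, weak form, for vectors killed by `p - 1`.** -/
def DescWeakStatement' : Prop :=
  ∀ (p : ℕ) [NeZero p] (_hp : p.Prime) (_hp' : p ∉ ({2, 3, 5, 7, 13} : Finset ℕ))
    (S : Finset ℕ) (c : ModularCurve.JZero p) (_hc : ∀ σ : _root_.Fermat.Agent.S15.H975.Gal, σ • c = c) (_hc0 : c ≠ 0)
    (_hct : (p - 1) • c = 0) (_hcE : IsEisensteinVector p c),
    ∃ t ∈ heckeRingAway p S,
      (∀ z : ModularCurve.JZero p, (∀ σ : _root_.Fermat.Agent.S15.H975.Gal, σ • z = z) → ∃ m : ℕ, 0 < m ∧ m • t z = 0) ∧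
      t c ≠ 0

theorem five_le_of_notMem {p : ℕ} (hp : p.Prime) (hp' : p ∉ ({2, 3, 5, 7, 13} : Finset ℕ)) :
    5 ≤ p := by
  have h2 := hp.two_le
  by_contra hlt
  push Not at hlt
  have : p = 2 ∨ p = 3 ∨ p = 4 := by omega
  rcases this with rfl | rfl | rfl
  · exact hp' (by simp)
  · exact hp' (by simp)
  · exact absurd hp (by decide)

/-- **The weak descent node from Mordell–Weil and the nodes of `DescSpec.lean`.** -/
theorem descWeak_of_nodes
    (hMW : ∀ (p : ℕ) [NeZero p], p.Prime → 5 ≤ p →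
      AddGroup.FG ↥(FixedPoints.addSubgroup _root_.Fermat.Agent.S15.H975.Gal (JZero p)))
    (hA : Alg0Statement) (hE : EngineStatement)
    (hDiv : DivStatement) (hFlag : FlagStatement) (hLoc : LocalStatement) :
    DescWeakStatement' := by
  intro p _ hp hp' S c hcfix hc0 hct hcE
  have hp5 : 5 ≤ p := five_le_of_notMem hp hp'
  have hp1 : 0 < p - 1 := by omega
  -- a prime `r` dividing the order of `c`
  have hord : addOrderOf c ∣ p - 1 := addOrderOf_dvd_of_nsmul_eq_zero hct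
  have hord1 : addOrderOf c ≠ 1 := by
    intro h
    exact hc0 (AddMonoid.addOrderOf_eq_one_iff.mp h)
  obtain ⟨r, hr, hrc⟩ := Nat.exists_prime_and_dvd hord1
  have hrp : r ∣ p - 1 := hrc.trans hord
  have hD : H302.DescCoreAt p (S : Set ℕ) r :=
    descCoreAt_of_nodes hA hE hDiv hFlag hLoc p hp (hMW p hp hp5) S r hr hrp
  obtain ⟨t, ht1, htM⟩ :=
    H302.exists_goodAlg_of_descCore p (S : Set ℕ) r hr.pos (hMW p hp hp5) hD
  refine ⟨H302.goodEval p (S : Set ℕ) t, ?_, htM, ?_⟩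
  · rw [← H302.goodHeckeAlg_eq_heckeRingAway]
    exact H302.goodEval_mem p _ t
  · have hE' := H302.isEisensteinClass_of_isEisensteinVector hcE
    rw [H302.goodEval_eisenstein _ hE' t]
    intro h0
    have h1 : (addOrderOf c : ℤ) ∣ H302.eisChar p (S : Set ℕ) t :=
      (addOrderOf_dvd_iff_zsmul_eq_zero).2 h0
    have h2 : (r : ℤ) ∣ H302.eisChar p (S : Set ℕ) t :=
      (Int.natCast_dvd_natCast.2 hrc).trans h1
    have h3 : (r : ℤ) ∣ 1 := by
      have := dvd_sub h2 ht1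
      simpa using this
    have h4 : (r : ℤ) = 1 ∨ (r : ℤ) = -1 := Int.isUnit_iff.1 (isUnit_of_dvd_one h3)
    rcases h4 with h4 | h4
    · exact hr.one_lt.ne' (by exact_mod_cast h4)
    · have : (0 : ℤ) ≤ r := Int.natCast_nonneg r
      omega

/-- **S15 from `GeoWeak` and `DescWeakStatement'`** (the proof of `S15_of_weak`, which only uses
the descent node for the vector `c` of `GeoWeak`, killed by `p - 1`). -/
theorem S15_of_weak' (hgeo : GeoWeak) (hdesc : DescWeakStatement')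
    {p : ℕ} (hp : p.Prime) (hp' : p ∉ ({2, 3, 5, 7, 13} : Finset ℕ))
    (W : WeierstrassCurve ℤ) (hΔ : W.Δ ≠ 0)
    (Q : ((W.map (Int.castRingHom ℚ))⁄(AlgebraicClosure ℚ)).Point)
    (hQfix : ∀ σ : AlgebraicClosure ℚ ≃ₐ[ℚ] AlgebraicClosure ℚ, σ • Q = Q)
    (hQord : addOrderOf Q = p)
    (h2Δ : (2 : ℤ) ∣ W.Δ) (h2c₄ : ¬ (2 : ℤ) ∣ W.c₄)
    (h2 : ∀ A : ValuationSubring (AlgebraicClosure ℚ), A.LiesOverPrime 2 →
      ¬ W.InZeroComponentAt A Q)
    (h3Δ : (3 : ℤ) ∣ W.Δ) (h3c₄ : ¬ (3 : ℤ) ∣ W.c₄)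
    (h3 : ∀ A : ValuationSubring (AlgebraicClosure ℚ), A.LiesOverPrime 3 →
      ¬ W.InZeroComponentAt A Q)
    {ℓ : ℕ} (hℓ : ℓ.Prime) (hℓp : ℓ ≠ p) (hℓΔ : (ℓ : ℤ) ∣ W.Δ) (hℓc₄ : ¬ (ℓ : ℤ) ∣ W.c₄)
    (A : ValuationSubring (AlgebraicClosure ℚ)) (hA : A.LiesOverPrime ℓ) :
    ¬ W.InZeroComponentAt A Q := by
  refine H242.step3_of_pm_one hp W Q hQfix hQord hℓ hℓp hℓΔ hℓc₄ A hA (fun hpm hQ0 => ?_)
  haveI : NeZero p := ⟨hp.ne_zero⟩
  have hp2 : (2 : ℕ) ≠ p := by rintro rfl; simp at hp'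
  have hp3 : (3 : ℕ) ≠ p := by rintro rfl; simp at hp'
  obtain ⟨c, D, hcfix, hDfix, hc0, hcord, hcE, hred⟩ := hgeo p hp hp' W hΔ Q hQfix hQord
  obtain ⟨A₂, hA₂⟩ := S54.exists_valuationSubring_liesOver 2 Nat.prime_two
  obtain ⟨A₃, hA₃⟩ := S54.exists_valuationSubring_liesOver 3 Nat.prime_three
  obtain ⟨S₂, Y₂, _, red₂, hg₂, hn₂, -⟩ :=
    hred 2 Nat.prime_two hp2 (by exact_mod_cast h2Δ) (by exact_mod_cast h2c₄) A₂ hA₂
  obtain ⟨S₃, Y₃, _, red₃, hg₃, hn₃, -⟩ :=
    hred 3 Nat.prime_three hp3 (by exact_mod_cast h3Δ) (by exact_mod_cast h3c₄) A₃ hA₃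
  obtain ⟨Sℓ, Yℓ, _, redℓ, hgℓ, -, hzℓ⟩ := hred ℓ hℓ hℓp hℓΔ hℓc₄ A hA
  obtain ⟨t, htmem, httors, htc⟩ :=
    hdesc p hp hp' (S₂ ∪ S₃ ∪ Sℓ) c hcfix hc0 hcord hcE
  have ht₂ : t ∈ heckeRingAway p S₂ :=
    heckeRingAway_mono p (fun x hx => by simp [hx]) htmem
  have ht₃ : t ∈ heckeRingAway p S₃ :=
    heckeRingAway_mono p (fun x hx => by simp [hx]) htmem
  have htℓ : t ∈ heckeRingAway p Sℓ :=
    heckeRingAway_mono p (fun x hx => by simp [hx]) htmem
  have htD₂ : red₂ (t D) = 0 :=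
    red_eq_zero_of_mem_heckeRingAway' hg₂ ht₂ D (hn₂ (h2 A₂ hA₂))
  have htD₃ : red₃ (t D) = 0 :=
    red_eq_zero_of_mem_heckeRingAway' hg₃ ht₃ D (hn₃ (h3 A₃ hA₃))
  obtain ⟨m, hm0, hm⟩ := httors D hDfix
  have htD : t D = 0 := eq_zero_of_red_two_three' hg₂ hg₃ (t D) hm0 hm htD₂ htD₃
  have hcℓ : redℓ (t c) = 0 := by
    rcases hzℓ hQ0 with h | h
    · have h0 : redℓ (D - c) = 0 := by rw [map_sub, h, sub_self]
      have h1 := red_eq_zero_of_mem_heckeRingAway' hgℓ htℓ (D - c) h0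
      rw [map_sub, htD, zero_sub, map_neg, neg_eq_zero] at h1
      exact h1
    · have h0 : redℓ (D + c) = 0 := by rw [map_add, h, neg_add_cancel]
      have h1 := red_eq_zero_of_mem_heckeRingAway' hgℓ htℓ (D + c) h0
      rw [map_add, htD, zero_add] at h1
      exact h1
  have htc1 : (p - 1) • t c = 0 := by rw [← map_nsmul, hcord, map_zero]
  exact htc (hgℓ.inj (p - 1) (t c)
    (not_dvd_pred_of_pm_one' hp hℓ (Ne.symm hp2) (Ne.symm hp3) hpm) htc1 hcℓ)

/-- **The frozen statement S15 from the nodes**: `GeoWeak` (GEO side), Mordell–Weil (frozen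
S17) and the DESC nodes of `DescSpec.lean`. -/
theorem S15_of_nodes (hgeo : GeoWeak)
    (hMW : ∀ (p : ℕ) [NeZero p], p.Prime → 5 ≤ p →
      AddGroup.FG ↥(FixedPoints.addSubgroup _root_.Fermat.Agent.S15.H975.Gal (JZero p)))
    (hA : Alg0Statement) (hE : EngineStatement)
    (hDiv : DivStatement) (hFlag : FlagStatement) (hLoc : LocalStatement)
    {p : ℕ} (hp : p.Prime) (hp' : p ∉ ({2, 3, 5, 7, 13} : Finset ℕ))
    (W : WeierstrassCurve ℤ) (hΔ : W.Δ ≠ 0)
    (Q : ((W.map (Int.castRingHom ℚ))⁄(AlgebraicClosure ℚ)).Point)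
    (hQfix : ∀ σ : AlgebraicClosure ℚ ≃ₐ[ℚ] AlgebraicClosure ℚ, σ • Q = Q)
    (hQord : addOrderOf Q = p)
    (h2Δ : (2 : ℤ) ∣ W.Δ) (h2c₄ : ¬ (2 : ℤ) ∣ W.c₄)
    (h2 : ∀ A : ValuationSubring (AlgebraicClosure ℚ), A.LiesOverPrime 2 →
      ¬ W.InZeroComponentAt A Q)
    (h3Δ : (3 : ℤ) ∣ W.Δ) (h3c₄ : ¬ (3 : ℤ) ∣ W.c₄)
    (h3 : ∀ A : ValuationSubring (AlgebraicClosure ℚ), A.LiesOverPrime 3 →
      ¬ W.InZeroComponentAt A Q)
    {ℓ : ℕ} (hℓ : ℓ.Prime) (hℓp : ℓ ≠ p) (hℓΔ : (ℓ : ℤ) ∣ W.Δ) (hℓc₄ : ¬ (ℓ : ℤ) ∣ W.c₄)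
    (A : ValuationSubring (AlgebraicClosure ℚ)) (hA' : A.LiesOverPrime ℓ) :
    ¬ W.InZeroComponentAt A Q :=
  S15_of_weak' hgeo (descWeak_of_nodes hMW hA hE hDiv hFlag hLoc)
    hp hp' W hΔ Q hQfix hQord h2Δ h2c₄ h2 h3Δ h3c₄ h3 hℓ hℓp hℓΔ hℓc₄ A hA'

end Fermat.Agent.S15.H975

end

end
-- ===== PACK-END S15/H975/DescTop.lean

-- ===== PACK-BEGIN S15/H975/DescTop2.lean
section



/-!
# Row S15: FINAL ASSEMBLY, official route (row-lead helper975)

    frozen S15  <==  GeoWeak + Mordell–Weil (frozen S17) + ALG0 + DIV + SEL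
    SEL         <==  SEL-ASM + FLAG + COUNT + CNT + STEP        (`DescSpec2.lean`)

Everything is sorry-free; the nodes are hypotheses.
-/

set_option autoImplicit false

noncomputable section

open WeierstrassCurve WeierstrassCurve.Affine

namespace Fermat.Agent.S15.H975

open ModularCurve Fermat.Agent.S15

/-- **The descent core from SEL.** -/
theorem descCoreAt_of_sel (hA : Alg0Statement) (hDiv : DivStatement) (hSel : SelStatement)
    (p : ℕ) [NeZero p] (hp : p.Prime)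
    (hMW : AddGroup.FG ↥(FixedPoints.addSubgroup _root_.Fermat.Agent.S15.H975.Gal (JZero p)))
    (S : Finset ℕ) (r : ℕ) (hr : r.Prime) (hrp : r ∣ p - 1) :
    H302.DescCoreAt p (S : Set ℕ) r :=
  descCoreAt_of_target
    (hA p (S : Set ℕ) r hp hr (hDiv p hp r hr) (fun n hn => finStatement p n hn)
      (rtf_of_fg p hMW) (hSel p hp S r hr hrp))

/-- **The weak descent node from Mordell–Weil, ALG0, DIV and SEL.** -/
theorem descWeak_of_sel
    (hMW : ∀ (p : ℕ) [NeZero p], p.Prime → 5 ≤ p →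
      AddGroup.FG ↥(FixedPoints.addSubgroup _root_.Fermat.Agent.S15.H975.Gal (JZero p)))
    (hA : Alg0Statement) (hDiv : DivStatement) (hSel : SelStatement) :
    DescWeakStatement' := by
  intro p _ hp hp' S c hcfix hc0 hct hcE
  have hp5 : 5 ≤ p := five_le_of_notMem hp hp'
  have hord : addOrderOf c ∣ p - 1 := addOrderOf_dvd_of_nsmul_eq_zero hct
  have hord1 : addOrderOf c ≠ 1 := by
    intro h
    exact hc0 (AddMonoid.addOrderOf_eq_one_iff.mp h)
  obtain ⟨r, hr, hrc⟩ := Nat.exists_prime_and_dvd hord1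
  have hrp : r ∣ p - 1 := hrc.trans hord
  have hD : H302.DescCoreAt p (S : Set ℕ) r :=
    descCoreAt_of_sel hA hDiv hSel p hp (hMW p hp hp5) S r hr hrp
  obtain ⟨t, ht1, htM⟩ :=
    H302.exists_goodAlg_of_descCore p (S : Set ℕ) r hr.pos (hMW p hp hp5) hD
  refine ⟨H302.goodEval p (S : Set ℕ) t, ?_, htM, ?_⟩
  · rw [← H302.goodHeckeAlg_eq_heckeRingAway]
    exact H302.goodEval_mem p _ t
  · have hE' := H302.isEisensteinClass_of_isEisensteinVector hcE
    rw [H302.goodEval_eisenstein _ hE' t]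
    intro h0
    have h1 : (addOrderOf c : ℤ) ∣ H302.eisChar p (S : Set ℕ) t :=
      (addOrderOf_dvd_iff_zsmul_eq_zero).2 h0
    have h2 : (r : ℤ) ∣ H302.eisChar p (S : Set ℕ) t :=
      (Int.natCast_dvd_natCast.2 hrc).trans h1
    have h3 : (r : ℤ) ∣ 1 := by
      have := dvd_sub h2 ht1
      simpa using this
    have h4 : (r : ℤ) = 1 ∨ (r : ℤ) = -1 := Int.isUnit_iff.1 (isUnit_of_dvd_one h3)
    rcases h4 with h4 | h4
    · exact hr.one_lt.ne' (by exact_mod_cast h4)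
    · have : (0 : ℤ) ≤ r := Int.natCast_nonneg r
      omega

/-- **The frozen statement S15 from the nodes of the official route.** -/
theorem S15_of_sel (hgeo : GeoWeak)
    (hMW : ∀ (p : ℕ) [NeZero p], p.Prime → 5 ≤ p →
      AddGroup.FG ↥(FixedPoints.addSubgroup _root_.Fermat.Agent.S15.H975.Gal (JZero p)))
    (hA : Alg0Statement) (hDiv : DivStatement) (hSel : SelStatement)
    {p : ℕ} (hp : p.Prime) (hp' : p ∉ ({2, 3, 5, 7, 13} : Finset ℕ))
    (W : WeierstrassCurve ℤ) (hΔ : W.Δ ≠ 0)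
    (Q : ((W.map (Int.castRingHom ℚ))⁄(AlgebraicClosure ℚ)).Point)
    (hQfix : ∀ σ : AlgebraicClosure ℚ ≃ₐ[ℚ] AlgebraicClosure ℚ, σ • Q = Q)
    (hQord : addOrderOf Q = p)
    (h2Δ : (2 : ℤ) ∣ W.Δ) (h2c₄ : ¬ (2 : ℤ) ∣ W.c₄)
    (h2 : ∀ A : ValuationSubring (AlgebraicClosure ℚ), A.LiesOverPrime 2 →
      ¬ W.InZeroComponentAt A Q)
    (h3Δ : (3 : ℤ) ∣ W.Δ) (h3c₄ : ¬ (3 : ℤ) ∣ W.c₄)
    (h3 : ∀ A : ValuationSubring (AlgebraicClosure ℚ), A.LiesOverPrime 3 →
      ¬ W.InZeroComponentAt A Q)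
    {ℓ : ℕ} (hℓ : ℓ.Prime) (hℓp : ℓ ≠ p) (hℓΔ : (ℓ : ℤ) ∣ W.Δ) (hℓc₄ : ¬ (ℓ : ℤ) ∣ W.c₄)
    (A : ValuationSubring (AlgebraicClosure ℚ)) (hA' : A.LiesOverPrime ℓ) :
    ¬ W.InZeroComponentAt A Q :=
  S15_of_weak' hgeo (descWeak_of_sel hMW hA hDiv hSel)
    hp hp' W hΔ Q hQfix hQord h2Δ h2c₄ h2 h3Δ h3c₄ h3 hℓ hℓp hℓΔ hℓc₄ A hA'

/-- The official route in one statement. -/
theorem S15_of_route2 (hgeo : GeoWeak)
    (hMW : ∀ (p : ℕ) [NeZero p], p.Prime → 5 ≤ p →
      AddGroup.FG ↥(FixedPoints.addSubgroup _root_.Fermat.Agent.S15.H975.Gal (JZero p)))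
    (hA : Alg0Statement) (hDiv : DivStatement) (hAsm : SelAsmStatement)
    (hFlag : FlagStatement) (hCount : CountStatement) (hCnt : CntStatement)
    (hStep : StepStatement)
    {p : ℕ} (hp : p.Prime) (hp' : p ∉ ({2, 3, 5, 7, 13} : Finset ℕ))
    (W : WeierstrassCurve ℤ) (hΔ : W.Δ ≠ 0)
    (Q : ((W.map (Int.castRingHom ℚ))⁄(AlgebraicClosure ℚ)).Point)
    (hQfix : ∀ σ : AlgebraicClosure ℚ ≃ₐ[ℚ] AlgebraicClosure ℚ, σ • Q = Q)
    (hQord : addOrderOf Q = p)
    (h2Δ : (2 : ℤ) ∣ W.Δ) (h2c₄ : ¬ (2 : ℤ) ∣ W.c₄)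
    (h2 : ∀ A : ValuationSubring (AlgebraicClosure ℚ), A.LiesOverPrime 2 →
      ¬ W.InZeroComponentAt A Q)
    (h3Δ : (3 : ℤ) ∣ W.Δ) (h3c₄ : ¬ (3 : ℤ) ∣ W.c₄)
    (h3 : ∀ A : ValuationSubring (AlgebraicClosure ℚ), A.LiesOverPrime 3 →
      ¬ W.InZeroComponentAt A Q)
    {ℓ : ℕ} (hℓ : ℓ.Prime) (hℓp : ℓ ≠ p) (hℓΔ : (ℓ : ℤ) ∣ W.Δ) (hℓc₄ : ¬ (ℓ : ℤ) ∣ W.c₄)
    (A : ValuationSubring (AlgebraicClosure ℚ)) (hA' : A.LiesOverPrime ℓ) :
    ¬ W.InZeroComponentAt A Q :=
  S15_of_sel hgeo hMW hA hDiv (hAsm hFlag hCount hCnt hStep)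
    hp hp' W hΔ Q hQfix hQord h2Δ h2c₄ h2 h3Δ h3c₄ h3 hℓ hℓp hℓΔ hℓc₄ A hA'

end Fermat.Agent.S15.H975

end

end
-- ===== PACK-END S15/H975/DescTop2.lean

-- ===== PACK-BEGIN S15/H302/Alg0.lean
section





/-!
# Row S15, node DESC, leaf ALG0 (helper302)

`alg0 : H975.Alg0Statement` — the descent core `DescCoreTarget p S r` (= `H302.DescCoreAt`)
from DIV, FINW, RTF and SEL-BOUND.  Instance of the abstract `alg0_descCore_of_selBound`
(`Alg0Abs.lean`) for `J = J₀(p)(ℚ̄)`, `G = Gal(ℚ̄/ℚ)`, `T = ℤ[X_ℓ : ℓ good]` acting through the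
Hecke operators (`goodEval`), `η_ℓ = X_ℓ - (1 + ℓ)`.

Also `descCoreTarget_iff` : `H975.DescCoreTarget p S r ↔ H302.DescCoreAt p S r`.
-/

set_option autoImplicit false

noncomputable section

namespace Fermat.Agent.S15.H302

open ModularCurve Fermat.Agent.S15.H975

/-- The target of the skeleton is `DescCoreAt`. -/
theorem descCoreTarget_iff (p : ℕ) [NeZero p] (S : Set ℕ) (r : ℕ) :
    DescCoreTarget p S r ↔ DescCoreAt p S r :=
  Iff.rfl

/-- the Eisenstein generator `X_ℓ - (1 + ℓ)` of the good polynomial ring -/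
def eisGen (p : ℕ) [NeZero p] (S : Set ℕ) (ℓ : GoodPrime p S) : GoodAlg p S :=
  MvPolynomial.X ℓ - MvPolynomial.C (((1 + (ℓ.1 : ℕ) : ℕ) : ℤ))

theorem goodEval_eisGen (p : ℕ) [NeZero p] (S : Set ℕ) (ℓ : GoodPrime p S) :
    goodEval p S (eisGen p S ℓ) = eta p ℓ.1 := by
  unfold eisGen eta
  rw [map_sub, goodEval_X, goodEval_C]
  congr 1

theorem eta_apply (p : ℕ) [NeZero p] (ℓ : Nat.Primes) (z : JZero p) :
    eta p ℓ z = heckeOperatorBar p ℓ z - (1 + (ℓ : ℕ) : ℕ) • z := by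
  unfold eta
  rw [LinearMap.sub_apply, LinearMap.smul_apply, Module.End.one_apply, natCast_zsmul]

/-- **ALG0.** -/
theorem alg0 : Alg0Statement := by
  intro p _ S r _ hr hdiv hfin hrtf hsel
  classical
  let modJ : Module (GoodAlg p S) (JZero p) := Module.compHom (JZero p) (goodEval p S)
  have hsmul : ∀ (t : GoodAlg p S) (x : JZero p), t • x = goodEval p S t x := fun _ _ => rfl
  have hpow : ∀ (ℓ : GoodPrime p S) (k : ℕ) (w : JZero p),
      eisGen p S ℓ ^ k • w = (eta p ℓ.1 ^ k) w := by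
    intro ℓ k w
    rw [hsmul, map_pow, goodEval_eisGen]
  intro z hz hE
  have key := alg0_descCore_of_selBound (J := JZero p) (G := _root_.Fermat.Agent.S15.H975.Gal) (T := GoodAlg p S)
    (fun t σ x => goodEval_galois p S t σ x) (eisGen p S) r hr.pos hdiv
    (fun n hn => Set.finite_coe_iff.1 (hfin n hn)) hrtf
    (rat p) (eis p S r) (sel p r (eis p S r)) (fun _ => Iff.rfl)
    (by
      intro w
      constructor
      · rintro ⟨h1, h2⟩
        refine ⟨h1, fun ℓ => ?_⟩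
        obtain ⟨k, hk⟩ := h2 ℓ.1 ℓ.2.1 ℓ.2.2
        exact ⟨k, by rw [hpow, hk]⟩
      · rintro ⟨h1, h2⟩
        refine ⟨h1, fun ℓ hℓp hℓS => ?_⟩
        obtain ⟨k, hk⟩ := h2 ⟨ℓ, hℓp, hℓS⟩
        exact ⟨k, by rw [← hk, hpow]⟩)
    (fun _ => Iff.rfl) hsel z hz
    (by
      intro ℓ
      obtain ⟨w, hw, m, hm, hmz⟩ := hE ℓ.1 ℓ.2.1 ℓ.2.2
      refine ⟨w, hw, m, hm, ?_⟩
      rw [← hmz]
      congr 2
      rw [hsmul, goodEval_eisGen, eta_apply])
  obtain ⟨w, hw, m, hm, hmz⟩ := key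
  exact ⟨w, hw, m, hm, by rw [sub_zero]; exact hmz⟩

end Fermat.Agent.S15.H302

end

end
-- ===== PACK-END S15/H302/Alg0.lean

-- ===== PACK-BEGIN S17/H677/UnramifiedFinal.lean
section






/-!
# S17 piece W-UNR, UNCONDITIONAL (helper677)

`unramified_division`: the skeleton statement `Skel.unramified_division` of row S17
(`origin/helper17:Fermat/Agent/S17/Skeleton.lean`), verbatim and without extra hypotheses:

  for `N ≥ 5` prime, `n ≠ 0`, `ℓ ∤ nN` prime, `A` a valuation subring of `ℚ̄` over `ℓ`,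
  `σ` in the inertia group of `A`, and `y ∈ J₀(N)` with `n • y` rational:  `σ • y = y`.

Proof: `unramified_division_of_hub` (this seat, on main) needs the hub
`Fermat.Agent.S18.CoreStatement N A n` for every `A` over `ℓ`; row S18 landed it for prime
exponents (`Integ.coreStatement_of_mod_alg` with the closed nodes `Mod.H216.node_mod`,
`H438.node_alg`), and `H694.coreStatement_of_prime` passes from primes to all `n` prime to `ℓ`.
-/

set_option autoImplicit false
set_option linter.style.haveILetI false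

noncomputable section

namespace Fermat.Agent.S17.H677

open ModularCurve AlgebraicCurve

/-- The S18 hub at level `N` for every exponent prime to `ℓ`, unconditionally. -/
theorem coreAt_of_s18 (N : ℕ) [NeZero N] (n ℓ : ℕ) (hℓ : ℓ.Prime) (hℓN : ¬ ℓ ∣ N)
    (hℓn : ¬ ℓ ∣ n) : CoreAt N ℓ n := by
  haveI : Fact ℓ.Prime := ⟨hℓ⟩
  haveI : NeZero (Fermat.Agent.S18.Integ.levelM N ℓ) :=
    ⟨Fermat.Agent.S18.Integ.levelM_ne_zero N ℓ⟩
  intro A hA
  refine Fermat.Agent.S18.H694.coreStatement_of_prime hℓN hA (fun p hp hℓp => ?_) n hℓn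
  exact Fermat.Agent.S18.Integ.coreStatement_of_mod_alg N hℓN A hA p hp hℓp
    (Fermat.Agent.S18.Mod.H216.node_mod (Fermat.Agent.S18.Integ.levelM N ℓ)
      (Fermat.Agent.S18.Integ.not_dvd_levelM N hℓN) A hA)
    (Fermat.Agent.S18.H438.node_alg (Fermat.Agent.S18.Integ.levelM N ℓ))

/-- **W-UNR** (skeleton statement `Skel.unramified_division`, verbatim, unconditional). -/
theorem unramified_division
    (N : ℕ) [NeZero N] (hN : N.Prime) (hN5 : 5 ≤ N) (n : ℕ) (hn : n ≠ 0)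
    (ℓ : ℕ) (hℓ : ℓ.Prime) (hℓn : ¬ ℓ ∣ n * N)
    (A : ValuationSubring (AlgebraicClosure ℚ)) (hA : A.LiesOverPrime ℓ)
    (σ : AlgebraicClosure ℚ ≃ₐ[ℚ] AlgebraicClosure ℚ) (hσ : σ ∈ A.inertiaSubgroupIn ℚ)
    (y : JZero N)
    (hy : n • y ∈
      FixedPoints.addSubgroup (AlgebraicClosure ℚ ≃ₐ[ℚ] AlgebraicClosure ℚ) (JZero N)) :
    σ • y = y :=
  unramified_division_of_hub N hN hN5 n hn ℓ hℓ hℓn
    (coreAt_of_s18 N n ℓ hℓ (fun h => hℓn (Dvd.dvd.mul_left h n))
      (fun h => hℓn (Dvd.dvd.mul_right h N)))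
    A hA σ hσ y hy

end Fermat.Agent.S17.H677

end
end
-- ===== PACK-END S17/H677/UnramifiedFinal.lean

-- ===== PACK-BEGIN S15/H111/LocR2Real.lean
section
/-
Row S15, node DESC, leaf LOCR2 through the REAL place (helper111).
Design: `coord/S15-COUNT2-helper111.md`; abstract algebra: `H111/Count2Alg.lean`, `H111/Count2Top.lean`.

For `r = 2` the subgroup `K` of the skeleton node `H975.LocalStatement` can be taken at the real
place: `K = U∞ = (cc - 1) E[4] ∩ J[2]`, `cc` = complex conjugation, `E` = Eisenstein part of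
`J₀(p)[2^∞]`.  This file instantiates the abstract count on `J = JZero p`,
`T = H302.GoodAlg p S` (polynomial ring on the good Hecke operators), in the language of the frozen
skeleton `H975/DescSpec.lean`:

* `LocR2RealStatement` : for `2 ∈ S` there is `K ≤ eis p S 2` with `|K|² ≤ |eis p S 2|` and
  `cc • y - y ∈ K` for every `y ∈ sel p 2 (eis p S 2)`.
* `Pair2Statement`     : (PAIR) on every `J₀(p)[2^k]` a bi-additive pairing with values in `ℤ/2^k`,
  with trivial right kernel, self-adjoint for the `T_ℓ` (`ℓ ≠ p, 2`), anti-invariant under `cc`.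
* `locR2Real_of_pair`  : `DIV + FIN + PAIR ⟹ LocR2RealStatement`.
* `mem_eis_iff_mem_primaryPart` : the skeleton's `eis p S 2` is the `2`-torsion of the primary part
  of `J` at the Eisenstein ideal `eisIdeal p S = (2, T_ℓ - 1 - ℓ)`.
-/





set_option autoImplicit false

noncomputable section

namespace Fermat.Agent.S15.H111

open ModularCurve Fermat.Agent.S15.H975 Fermat.Agent.S15.H2 Fermat.Agent.S15.H302

/-- **LOC-R2 at the real place** (COUNT-2 + LOC-∞): for `2 ∈ S` there is a subgroup `K` of the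
Eisenstein part `W_E` of `J₀(p)[2]` with `|K|² ≤ |W_E|` containing all the values at the complex
conjugation of the cocycles of `Y(W_E)`. -/
def LocR2RealStatement : Prop :=
  ∀ (p : ℕ) [NeZero p], p.Prime → p ≠ 2 → ∀ (S : Finset ℕ), 2 ∈ S →
    ∃ K : AddSubgroup (JZero p), K ≤ H975.eis p (S : Set ℕ) 2 ∧
      Nat.card ↥K ^ 2 ≤ Nat.card ↥(H975.eis p (S : Set ℕ) 2) ∧
      ∀ y ∈ sel p 2 (H975.eis p (S : Set ℕ) 2), complexConjugation • y - y ∈ K

/-- **PAIR** (all moduli `2^k`): a pairing on `J₀(p)[2^k]` with values in `ℤ/2^k`, bi-additive,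
with trivial right kernel, self-adjoint for the Hecke operators `T_ℓ`, `ℓ ≠ p, 2`, and
anti-invariant under the complex conjugation.  (Values outside `J₀(p)[2^k]` are junk.) -/
def Pair2Statement : Prop :=
  ∀ (p : ℕ) [NeZero p], p.Prime → p ≠ 2 → ∀ k : ℕ,
    ∃ B : JZero p → JZero p → ZMod (2 ^ k),
      (∀ x x' y : JZero p, 2 ^ k • x = 0 → 2 ^ k • x' = 0 → 2 ^ k • y = 0 →
        B (x + x') y = B x y + B x' y) ∧
      (∀ x y y' : JZero p, 2 ^ k • x = 0 → 2 ^ k • y = 0 → 2 ^ k • y' = 0 →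
        B x (y + y') = B x y + B x y') ∧
      (∀ y : JZero p, 2 ^ k • y = 0 → (∀ x : JZero p, 2 ^ k • x = 0 → B x y = 0) → y = 0) ∧
      (∀ ℓ : Nat.Primes, (ℓ : ℕ) ≠ p → (ℓ : ℕ) ≠ 2 → ∀ x y : JZero p, 2 ^ k • x = 0 →
        2 ^ k • y = 0 → B (heckeOperatorBar p ℓ x) y = B x (heckeOperatorBar p ℓ y)) ∧
      (∀ x y : JZero p, 2 ^ k • x = 0 → 2 ^ k • y = 0 →
        B (complexConjugation • x) (complexConjugation • y) = - B x y)

section Good

variable (p : ℕ) [NeZero p] (S : Set ℕ)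

/-- `J₀(p)(ℚ̄)` as a module over the polynomial ring on the good Hecke operators. -/
@[reducible] def goodModule : Module (GoodAlg p S) (JZero p) :=
  Module.compHom (JZero p) (goodEval p S)

attribute [local instance] goodModule

theorem good_smul_def (t : GoodAlg p S) (x : JZero p) : t • x = goodEval p S t x := rfl

/-- The Eisenstein ideal `(2, T_ℓ - 1 - ℓ : ℓ good)` of the good polynomial ring. -/
def eisIdeal : Ideal (GoodAlg p S) :=
  Ideal.span (insert (MvPolynomial.C (2 : ℤ))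
    (Set.range fun ℓ : GoodPrime p S =>
      MvPolynomial.X ℓ - MvPolynomial.C (((1 + (ℓ.1 : ℕ) : ℕ) : ℤ))))

/-- The generator `X_ℓ - (1 + ℓ)` of the Eisenstein ideal. -/
def etaGen (ℓ : GoodPrime p S) : GoodAlg p S :=
  MvPolynomial.X ℓ - MvPolynomial.C (((1 + (ℓ.1 : ℕ) : ℕ) : ℤ))

theorem etaGen_mem (ℓ : GoodPrime p S) : etaGen p S ℓ ∈ eisIdeal p S :=
  Ideal.subset_span (Set.mem_insert_of_mem _ ⟨ℓ, rfl⟩)

theorem two_mem_eisIdeal : (MvPolynomial.C (2 : ℤ) : GoodAlg p S) ∈ eisIdeal p S :=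
  Ideal.subset_span (Set.mem_insert _ _)

theorem goodEval_etaGen (ℓ : GoodPrime p S) : goodEval p S (etaGen p S ℓ) = eta p ℓ.1 := by
  rw [etaGen, map_sub, goodEval_X, goodEval_C, eta, zsmul_one]

theorem etaGen_pow_smul (ℓ : GoodPrime p S) (k : ℕ) (w : JZero p) :
    etaGen p S ℓ ^ k • w = (eta p ℓ.1 ^ k) w := by
  rw [good_smul_def, map_pow, goodEval_etaGen]

theorem C_two_smul (w : JZero p) : (MvPolynomial.C (2 : ℤ) : GoodAlg p S) • w = 2 • w := by
  rw [good_smul_def, goodEval_C, Module.End.intCast_apply]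
  exact natCast_zsmul w 2

/-- `J₀(p)[2^k]` of `Count2Alg` is the skeleton's `tors p (2^k)`. -/
theorem mem_tk_iff_mem_tors {k : ℕ} {x : JZero p} : x ∈ tk (JZero p) k ↔ x ∈ tors p (2 ^ k) :=
  mem_tk

theorem finite_tk_of_finite_tors (k : ℕ) [h : Finite ↥(tors p (2 ^ k))] :
    Finite ↥(tk (JZero p) k) :=
  Finite.of_injective
    (fun x : ↥(tk (JZero p) k) => (⟨x, (mem_tk_iff_mem_tors p).mp x.2⟩ : ↥(tors p (2 ^ k))))
    (fun a b hab => Subtype.ext (congrArg (fun e : ↥(tors p (2 ^ k)) => (e : JZero p)) hab))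

/-- The primary part at the Eisenstein ideal consists of Eisenstein classes. -/
theorem isEis_of_mem_primaryPart {w : JZero p} (hw : w ∈ primaryPart (eisIdeal p S) (JZero p)) :
    IsEis p S w := by
  intro ℓ h1 h2
  obtain ⟨k, hk⟩ := hw
  refine ⟨k, ?_⟩
  have := hk (etaGen p S ⟨ℓ, h1, h2⟩ ^ k) (Ideal.pow_mem_pow (etaGen_mem p S ⟨ℓ, h1, h2⟩) k)
  rwa [etaGen_pow_smul] at this

/-- A `2`-torsion Eisenstein class lies in the primary part at the Eisenstein ideal. -/
theorem mem_primaryPart_of_isEis [Finite ↥(tors p (2 ^ 1))] {w : JZero p} (h2 : 2 • w = 0)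
    (hw : IsEis p S w) : w ∈ primaryPart (eisIdeal p S) (JZero p) := by
  have hfin1 : Finite ↥(tk (JZero p) 1) := finite_tk_of_finite_tors p 1
  have hfin : Finite ↥(tkSub (T := GoodAlg p S) (JZero p) 1) :=
    Finite.of_injective
      (fun x : tkSub (T := GoodAlg p S) (JZero p) 1 => (⟨x, mem_tkSub_iff.mp x.2⟩ :
        ↥(tk (JZero p) 1)))
      (fun a b h => Subtype.ext (congrArg (fun e : ↥(tk (JZero p) 1) => (e : JZero p)) h))
  obtain ⟨K, f, hs⟩ := exists_isSplit (eisIdeal p S) (tkSub (T := GoodAlg p S) (JZero p) 1)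
  have hwt : w ∈ tkSub (T := GoodAlg p S) (JZero p) 1 := by
    rw [mem_tkSub, pow_one]; exact h2
  -- the Eisenstein ideal lies in the radical of the annihilator of `w`
  have hrad : eisIdeal p S ≤ (Ideal.torsionOf (GoodAlg p S) (JZero p) w).radical := by
    refine Ideal.span_le.mpr ?_
    rintro g (rfl | ⟨ℓ, rfl⟩)
    · refine Ideal.le_radical ?_
      rw [Ideal.mem_torsionOf_iff, C_two_smul, h2]
    · obtain ⟨k, hk⟩ := hw ℓ.1 ℓ.2.1 ℓ.2.2
      refine ⟨k, ?_⟩
      rw [Ideal.mem_torsionOf_iff]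
      exact (etaGen_pow_smul p S ℓ k w).trans hk
  have hf : f ∈ eisIdeal p S := by
    have := hs.pow_mem 1
    simpa using this
  obtain ⟨n, hn⟩ := hrad hf
  rw [Ideal.mem_torsionOf_iff] at hn
  have hfw : f • (⟨w, hwt⟩ : tkSub (T := GoodAlg p S) (JZero p) 1) = 0 := by
    rcases Nat.eq_zero_or_pos n with rfl | hnpos
    · rw [pow_zero, one_smul] at hn
      subst hn
      exact Subtype.ext (smul_zero f)
    · rw [← hs.pow_smul _ n hnpos]
      exact Subtype.ext hn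
  have := (hs.mem_primaryPart_iff _).mpr hfw
  rwa [coe_mem_primaryPart_iff] at this

/-- **The bridge**: the skeleton's `W_E = eis p S 2` is the `2`-torsion of the primary part of
`J₀(p)(ℚ̄)` at the Eisenstein ideal. -/
theorem mem_eis_iff_mem_primaryPart [Finite ↥(tors p (2 ^ 1))] {w : JZero p} :
    w ∈ H975.eis p S 2 ↔ w ∈ H111.eis (eisIdeal p S) (JZero p) ⊓ tk (JZero p) 1 := by
  rw [AddSubgroup.mem_inf, mem_tk, pow_one]
  constructor
  · rintro ⟨h2, hE⟩
    exact ⟨mem_primaryPart_of_isEis p S h2 hE, h2⟩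
  · rintro ⟨hE, h2⟩
    exact ⟨h2, isEis_of_mem_primaryPart p S hE⟩

/-- The complex conjugation as a Hecke-linear endomorphism of `J₀(p)(ℚ̄)`. -/
def ccLin : JZero p →ₗ[GoodAlg p S] JZero p where
  toFun x := complexConjugation • x
  map_add' x y := smul_add _ x y
  map_smul' t x := by
    show complexConjugation • (goodEval p S t x) = goodEval p S t (complexConjugation • x)
    exact (goodEval_galois p S t complexConjugation x).symm

theorem ccLin_apply (x : JZero p) : ccLin p S x = complexConjugation • x := rfl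

theorem ccLin_ccLin (x : JZero p) : ccLin p S (ccLin p S x) = x := by
  rw [ccLin_apply, ccLin_apply, smul_smul, complexConjugation_mul_self, one_smul]

theorem smul_mem_tk (t : GoodAlg p S) {k : ℕ} {x : JZero p} (hx : x ∈ tk (JZero p) k) :
    t • x ∈ tk (JZero p) k := by
  rw [mem_tk] at hx ⊢
  rw [smul_comm, hx, smul_zero]

/-- Self-adjointness for the generators gives self-adjointness for the whole polynomial ring. -/
theorem hecke_of_gens {k : ℕ} (B : JZero p → JZero p → ZMod (2 ^ k))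
    (hl : ∀ x ∈ tk (JZero p) k, ∀ x' ∈ tk (JZero p) k, ∀ y ∈ tk (JZero p) k,
      B (x + x') y = B x y + B x' y)
    (hr : ∀ x ∈ tk (JZero p) k, ∀ y ∈ tk (JZero p) k, ∀ y' ∈ tk (JZero p) k,
      B x (y + y') = B x y + B x y')
    (hgen : ∀ ℓ : GoodPrime p S, ∀ x ∈ tk (JZero p) k, ∀ y ∈ tk (JZero p) k,
      B (heckeOperatorBar p ℓ.1 x) y = B x (heckeOperatorBar p ℓ.1 y))
    (t : GoodAlg p S) : ∀ x ∈ tk (JZero p) k, ∀ y ∈ tk (JZero p) k, B (t • x) y = B x (t • y) := by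
  -- additive maps in each variable
  have hL : ∀ y ∈ tk (JZero p) k, ∃ φ : ↥(tk (JZero p) k) →+ ZMod (2 ^ k), ∀ x, φ x = B x y :=
    fun y hy => ⟨AddMonoidHom.mk' (fun x => B x y) (fun a b => hl a a.2 b b.2 y hy), fun _ => rfl⟩
  have hR : ∀ x ∈ tk (JZero p) k, ∃ φ : ↥(tk (JZero p) k) →+ ZMod (2 ^ k), ∀ y, φ y = B x y :=
    fun x hx => ⟨AddMonoidHom.mk' (fun y => B x y) (fun a b => hr x hx a a.2 b b.2), fun _ => rfl⟩
  induction t using MvPolynomial.induction_on with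
  | C a =>
    intro x hx y hy
    have e1 : (MvPolynomial.C a : GoodAlg p S) • x = a • x := by
      rw [good_smul_def, goodEval_C, Module.End.intCast_apply]
    have e2 : (MvPolynomial.C a : GoodAlg p S) • y = a • y := by
      rw [good_smul_def, goodEval_C, Module.End.intCast_apply]
    rw [e1, e2]
    obtain ⟨φ, hφ⟩ := hL y hy
    obtain ⟨ψ, hψ⟩ := hR x hx
    have h1 := hφ (a • ⟨x, hx⟩)
    have h2 := hψ (a • ⟨y, hy⟩)
    rw [map_zsmul, hφ] at h1
    rw [map_zsmul, hψ] at h2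
    have c1 : ((a • (⟨x, hx⟩ : ↥(tk (JZero p) k)) : ↥(tk (JZero p) k)) : JZero p) = a • x := rfl
    have c2 : ((a • (⟨y, hy⟩ : ↥(tk (JZero p) k)) : ↥(tk (JZero p) k)) : JZero p) = a • y := rfl
    rw [c1] at h1
    rw [c2] at h2
    rw [← h1, ← h2]
  | add u v hu hv =>
    intro x hx y hy
    rw [add_smul, add_smul, hl _ (smul_mem_tk p S u hx) _ (smul_mem_tk p S v hx) y hy,
      hr x hx _ (smul_mem_tk p S u hy) _ (smul_mem_tk p S v hy), hu x hx y hy, hv x hx y hy]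
  | mul_X u ℓ hu =>
    intro x hx y hy
    have eX : ∀ z : JZero p, (MvPolynomial.X ℓ : GoodAlg p S) • z = heckeOperatorBar p ℓ.1 z :=
      fun z => by rw [good_smul_def, goodEval_X]
    have hXx : heckeOperatorBar p ℓ.1 x ∈ tk (JZero p) k := by
      rw [← eX]; exact smul_mem_tk p S _ hx
    rw [mul_smul, eX, hu _ hXx y hy, hgen ℓ x hx _ (smul_mem_tk p S u hy), ← eX, ← mul_smul,
      mul_comm]

end Good

/-- **LOC-R2 at the real place from DIV, FIN and PAIR.** -/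
theorem locR2Real_of_pair (hDiv : DivStatement) (hFin : FinStatement) (hPair : Pair2Statement) :
    LocR2RealStatement := by
  intro p _ hp hp2 S h2S
  letI : Module (GoodAlg p (S : Set ℕ)) (JZero p) := goodModule p (S : Set ℕ)
  have hfinT : ∀ k, Finite ↥(tors p (2 ^ k)) := fun k => hFin p (2 ^ k) (by positivity)
  have hfin : ∀ k, Finite ↥(tk (JZero p) k) := fun k =>
    haveI := hfinT k
    finite_tk_of_finite_tors p k
  haveI := hfinT 1
  haveI := hfin 2
  have hdiv : ∀ x : JZero p, ∃ y : JZero p, 2 • y = x := hDiv p hp 2 Nat.prime_two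
  have hc := ccLin_ccLin p (S : Set ℕ)
  have hpair : ∀ k, ∃ B : JZero p → JZero p → ZMod (2 ^ k),
      IsGoodPairing (GoodAlg p (S : Set ℕ)) (ccLin p (S : Set ℕ)) k B := by
    intro k
    obtain ⟨B, h1, h2, h3, h4, h5⟩ := hPair p hp hp2 k
    have hl : ∀ x ∈ tk (JZero p) k, ∀ x' ∈ tk (JZero p) k, ∀ y ∈ tk (JZero p) k,
        B (x + x') y = B x y + B x' y :=
      fun x hx x' hx' y hy => h1 x x' y (mem_tk.mp hx) (mem_tk.mp hx') (mem_tk.mp hy)
    have hr : ∀ x ∈ tk (JZero p) k, ∀ y ∈ tk (JZero p) k, ∀ y' ∈ tk (JZero p) k,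
        B x (y + y') = B x y + B x y' :=
      fun x hx y hy y' hy' => h2 x y y' (mem_tk.mp hx) (mem_tk.mp hy) (mem_tk.mp hy')
    refine ⟨B, hl, hr, fun y hy h => h3 y (mem_tk.mp hy) fun x hx => h x (mem_tk.mpr hx), ?_,
      fun x hx y hy => h5 x y (mem_tk.mp hx) (mem_tk.mp hy)⟩
    intro t
    refine hecke_of_gens p (S : Set ℕ) B hl hr (fun ℓ x hx y hy => ?_) t
    refine h4 ℓ.1 ℓ.2.1 (fun h => ℓ.2.2 ?_) x y (mem_tk.mp hx) (mem_tk.mp hy)
    rw [h]
    exact Finset.mem_coe.mpr h2S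
  refine ⟨uoo (eisIdeal p (S : Set ℕ)) (ccLin p (S : Set ℕ)), ?_, ?_, ?_⟩
  · -- `U∞ ≤ W_E`
    intro v hv
    rw [mem_uoo] at hv
    obtain ⟨⟨z, hzE, -, rfl⟩, h2⟩ := hv
    refine (mem_eis_iff_mem_primaryPart p (S : Set ℕ)).mpr (AddSubgroup.mem_inf.mpr ⟨?_, ?_⟩)
    · exact (H111.eis (eisIdeal p (S : Set ℕ)) (JZero p)).sub_mem
        (map_mem_eis (ccLin p (S : Set ℕ)) hzE) hzE
    · rw [mem_tk, pow_one]; exact h2
  · -- the count
    have hcard := card_uoo_sq_le (𝔪 := eisIdeal p (S : Set ℕ)) (ccLin p (S : Set ℕ)) hc hdiv hfin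
      hpair
    have heq : H975.eis p (S : Set ℕ) 2 =
        H111.eis (eisIdeal p (S : Set ℕ)) (JZero p) ⊓ tk (JZero p) 1 :=
      AddSubgroup.ext fun w => mem_eis_iff_mem_primaryPart p (S : Set ℕ)
    rw [heq]
    exact hcard
  · -- LOC-∞
    rintro y ⟨hy1, hy2⟩
    have hyE : ccLin p (S : Set ℕ) y - y ∈ primaryPart (eisIdeal p (S : Set ℕ)) (JZero p) :=
      ((mem_eis_iff_mem_primaryPart p (S : Set ℕ)).mp (hy2 complexConjugation)).1
    exact sub_mem_uoo (𝔪 := eisIdeal p (S : Set ℕ)) (ccLin p (S : Set ℕ)) hc hdiv y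
      (hy1 complexConjugation) hyE

end Fermat.Agent.S15.H111

end

end
-- ===== PACK-END S15/H111/LocR2Real.lean

-- ===== PACK-BEGIN S15/H337/KumConj.lean
section




/-!
# Row S15, DESC tower COUNT (`r` odd), piece CONJ (helper337)

`kumConj : KumConjStatement` — the Kummer dictionary turns the complex conjugation into
`c ↦ - c ∘ ε`: if `x` is the Kummer class of the character `c` (witnesses `f, t, U`) then
`complexConjugation • x` is the Kummer class of `γ ↦ - c (ε γ)` (witnesses `cc • f, cc • t, cj U`).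
-/

set_option autoImplicit false

noncomputable section

namespace Fermat.Agent.S15.H337

open UpperHalfPlane CongruenceSubgroup ModularCurve ModularCurve.Period AlgebraicCurve
open Fermat.Agent.S24 Fermat.Agent.S24.H648 Fermat.Agent.S24.H708 Fermat.Agent.S29
open Fermat.Agent.S29.M4b Fermat.Agent.S21.ConjPartner
open scoped MatrixGroups ComplexConjugate Manifold

/-! ## The embedding `ℚ̄ → ℂ` and the complex conjugation -/

theorem iotaC_eq_complexEmbedding : Deg457.iotaC = (complexEmbedding : Kbar →+* ℂ) := rfl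

theorem iotaC_complexConjugation (x : Kbar) :
    Deg457.iotaC (complexConjugation x) = conj (Deg457.iotaC x) := by
  rw [iotaC_eq_complexEmbedding]
  exact complexEmbedding_complexConjugation x

theorem coeffMap_iotaC_conj (u : LaurentSeries Kbar) :
    coeffMap Deg457.iotaC (coeffMap ((complexConjugation : Kbar ≃ₐ[ℚ] Kbar) : Kbar →+* Kbar) u) =
      coeffMap (starRingEnd ℂ) (coeffMap Deg457.iotaC u) := by
  rw [coeffMap_coeffMap, coeffMap_coeffMap]
  refine coeffMap_congr (RingHom.ext fun x => ?_) u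
  exact iotaC_complexConjugation x

/-! ## The root of unity -/

theorem zetaP_pow_self_h337 (p : ℕ) [NeZero p] : zetaP p ^ p = 1 := by
  unfold zetaP
  rw [← Complex.exp_nat_mul]
  have hp : (p : ℂ) ≠ 0 := Nat.cast_ne_zero.mpr (NeZero.ne p)
  rw [show (p : ℂ) * (2 * Real.pi * Complex.I / p) = 2 * Real.pi * Complex.I by field_simp]
  exact Complex.exp_two_pi_mul_I

theorem conj_zetaP (p : ℕ) : conj (zetaP p) = (zetaP p)⁻¹ := by
  unfold zetaP
  rw [← Complex.exp_conj, ← Complex.exp_neg]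
  congr 1
  simp only [map_div₀, map_mul, Complex.conj_ofReal, Complex.conj_I, map_ofNat, map_natCast]
  ring

theorem conj_zetaP_pow_val (p : ℕ) [NeZero p] (a : ZMod p) :
    conj (zetaP p) ^ a.val = zetaP p ^ (-a).val := by
  have hz : zetaP p ≠ 0 := Complex.exp_ne_zero _
  have h1 : zetaP p ^ (-a).val * zetaP p ^ a.val = 1 := by
    rw [← pow_add]
    have h : (((-a).val + a.val : ℕ) : ZMod p) = 0 := by
      rw [Nat.cast_add, ZMod.natCast_zmod_val, ZMod.natCast_zmod_val, neg_add_cancel]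
    obtain ⟨k, hk⟩ := (ZMod.natCast_eq_zero_iff _ _).1 h
    rw [hk, pow_mul, zetaP_pow_self_h337, one_pow]
  rw [conj_zetaP, inv_pow]
  exact (eq_inv_of_mul_eq_one_left h1).symm

/-! ## Twisted functions -/

theorem hasChar_cj {N p : ℕ} [NeZero p] {c : G0 N → ZMod p} {U : ℍ → ℂ}
    (hU : HasChar N p c U) : HasChar N p (fun γ => - c (jConjGamma0 N γ)) (cj U) := by
  intro γ τ
  rw [cj_smul, cj_apply]
  have h := hU (jConjGamma0 N γ) (J • τ)
  rw [jConjGamma0_coe] at h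
  rw [h, map_mul, map_pow, conj_zetaP_pow_val]

theorem isTwisted_cj {N p : ℕ} [NeZero p] {c : G0 N → ZMod p} {U : ℍ → ℂ}
    (hU : IsTwisted N p c U) : IsTwisted N p (fun γ => - c (jConjGamma0 N γ)) (cj U) := by
  refine ⟨cj_mdiff hU.mdiff, ?_, hasChar_cj hU.hasChar, ?_⟩
  · obtain ⟨τ, hτ⟩ := hU.ne_zero
    refine ⟨J • τ, ?_⟩
    rw [cj_apply, J_smul_J_smul]
    exact (map_ne_zero _).mpr hτ
  · rw [← cj_pow']
    exact cj_mem_goodRing hU.pow_mem

/-! ## Realisations -/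

theorem coe_galois_smul {N : ℕ} (σ : GQ) (u : FF N) :
    (((arithmeticGalois (modularFunctionFieldFull N) σ • u : FF N) : FF N) : LaurentSeries Kbar) =
      coeffMap ((σ : Kbar ≃ₐ[ℚ] Kbar) : Kbar →+* Kbar) (u : LaurentSeries Kbar) := rfl

theorem realises_cj {N : ℕ} [NeZero N] {u : FF N} {G : ℍ → ℂ} (h : Realises N u G) :
    Realises N (arithmeticGalois (modularFunctionFieldFull N) complexConjugation • u) (cj G) := by
  refine ⟨cj_mem_goodRing h.1, ?_⟩
  rw [qexpFun_cj (H882.isMerInf_of_mem_goodRing h.1), h.2, coe_galois_smul, coeffMap_iotaC_conj]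

/-! ## The statement -/

/-- **(CONJ)** the Kummer dictionary turns the complex conjugation into `c ↦ - c ∘ ε`. -/
theorem kumConj : KumConjStatement := by
  intro N m _ _ c x hk
  obtain ⟨f, t, U, ht, hx, hU, hR⟩ := hk
  set σ := arithmeticGalois (modularFunctionFieldFull N) complexConjugation with hσ
  refine ⟨σ • f, σ • t, cj U, ?_, ?_, isTwisted_cj hU, ?_⟩
  · rw [SemilinearAut.smul_def]
    exact (map_ne_zero _).mpr ht
  · exact H455.IsKummerClass.smul σ hx
  · have h := realises_cj hR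
    rw [cj_pow'] at h
    rw [← hσ, smul_mul', smul_pow'] at h
    exact h

end Fermat.Agent.S15.H337

end
end
-- ===== PACK-END S15/H337/KumConj.lean

-- ===== PACK-BEGIN S15/H322/Step.lean
section




/-!
# Row S15 — DESC leaf STEP (helper322): the step bounds for all Eisenstein pieces

Frozen target: `Fermat.Agent.S15.H975.StepStatement` (`S15/H975/DescSpec2.lean`).

    step_of_leaves : G3Statement → Peu1JStatement → PeuOmegaJStatement → StepStatement

`K = (c - 1) Y(W_E)` (`c` complex conjugation), `U₀ = (τ₀ - 1) Y(W_E)`, `τ₀` a good inertia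
element at `p` (`StepTau.lean`).  For a piece `F' ≤ F ≤ W_E` with generator `e`, `y ∈ Y(F)` has a
coordinate `f_y : G_ℚ → ℤ/r`, `σ y - y ≡ f_y(σ) e mod F'` (`StepCoord.lean`), and

* `f_y = 0` on inertia at `ℓ ∤ p r`                         (G3);
* piece `1`, `r` odd: `f_y` is a character, `f_y = 0` on inertia at `r`        (PEU-1);
* piece `ω` (all pieces if `r = 2`): `f_y` is a Kummer cocycle, `r ∣ v_r(a_y)`  (PEU-ω);
* `F ∩ U₀ ≤ F'` ⟹ `f_y(τ₀) = 0`;   `F ∩ K ≤ F'` ⟹ `f_y(c) = 0` (`a_y > 0` for `r = 2`).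

The counts are those of `BasePiece.lean` (`r` odd) and `BasePieceTwo.lean` (`r = 2`).
-/

set_option autoImplicit false
set_option linter.unusedSectionVars false
set_option linter.style.haveILetI false

namespace Fermat.Agent.S15.H322

open Fermat.Agent.S56 Fermat.Agent.S56.H786 ModularCurve
open Fermat.Agent.S15.H975 hiding Qb

section Local

variable {p : ℕ} [NeZero p] {S : Set ℕ} {r : ℕ} {F' F : AddSubgroup (JZero p)} {e : JZero p}

/-- Complex conjugation inverts the roots of unity. -/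
theorem complexConjugation_root_h322 {m : ℕ} (hm : m ≠ 0) {t : _root_.Fermat.Agent.S56.Qb} (ht : t ^ m = 1) :
    complexConjugation t = t⁻¹ := by
  apply complexEmbedding.toRingHom.injective
  show complexEmbedding (complexConjugation t) = complexEmbedding t⁻¹
  rw [complexEmbedding_complexConjugation, map_inv₀]
  have h1 : (complexEmbedding t) ^ m = 1 := by rw [← map_pow, ht, map_one]
  exact (Complex.inv_eq_conj (Complex.norm_eq_one_of_pow_eq_one h1 hm)).symm

/-- G3: the coordinate vanishes on inertia at `ℓ ∤ p r`. -/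
theorem coord_unram_of_g3 (hG3 : G3Statement) (hp : p.Prime) (hr : r.Prime)
    (he : e ∉ F') (hre : r • e ∈ F') {y : JZero p} (hy : y ∈ sel p r F)
    {f : GQ → ZMod r} (hf : HasCoord r F' e y f) {ℓ : ℕ} (hℓ : ℓ.Prime) (hℓp : ℓ ≠ p)
    (hℓr : ℓ ≠ r) (B : ValuationSubring _root_.Fermat.Agent.S56.Qb) (hB : B.LiesOverPrime ℓ) (τ : GQ)
    (hτ : τ ∈ B.inertiaSubgroupIn ℚ) : f τ = 0 := by
  have h1 : τ • y = y := hG3 p hp r hr ℓ hℓ hℓp hℓr B hB τ hτ y (hy.1 τ)
  refine hf.eq_zero_of_sub_mem hr he hre ?_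
  rw [h1, sub_self]
  exact F'.zero_mem

/-- G3: the local condition at `ℓ ∤ p r`, Kummer form. -/
theorem coord_kumDivAt_of_g3 (hG3 : G3Statement) (hp : p.Prime) (hr : r.Prime)
    (he : e ∉ F') (hre : r • e ∈ F') {y : JZero p} (hy : y ∈ sel p r F)
    {f : GQ → ZMod r} (hf : HasCoord r F' e y f) {ζ : _root_.Fermat.Agent.S56.Qb} (hζ : IsPrimitiveRoot ζ r)
    {ℓ : ℕ} (hℓ : ℓ.Prime) (hℓp : ℓ ≠ p) (hℓr : ℓ ≠ r) : KumDivAt r ζ f ℓ := by
  haveI : NeZero r := ⟨hr.ne_zero⟩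
  obtain ⟨B, hB⟩ := Fermat.Agent.S54.exists_valuationSubring_liesOver ℓ hℓ
  exact kumDivAt_of_unram hζ hℓ B hB
    (fun τ hτ => coord_unram_of_g3 hG3 hp hr he hre hy hf hℓ hℓp hℓr B hB τ hτ)

/-- PEU-ω: the local condition at `ℓ = r`. -/
theorem coord_kumDivAt_of_peu (hPw : PeuOmegaJStatement) (hp : p.Prime) (hr : r.Prime)
    (hrp : r ≠ p) (hle : F' ≤ F) (hFt : F ≤ tors p r) (hst' : IsStable p F')
    (hst : IsStable p F) (hidx : F'.relIndex F = r) {ζ : _root_.Fermat.Agent.S56.Qb} (hζ : IsPrimitiveRoot ζ r)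
    (hω : ∀ (σ : _root_.Fermat.Agent.S15.H975.Gal) (k : ℕ), σ ζ = ζ ^ k → ∀ f ∈ F, σ • f - k • f ∈ F')
    (heF : e ∈ F) (he : e ∉ F') (hre : r • e ∈ F') {y : JZero p} (hy : y ∈ sel p r F)
    {f : GQ → ZMod r} (hf : HasCoord r F' e y f) : KumDivAt r ζ f r := by
  haveI : NeZero r := ⟨hr.ne_zero⟩
  intro β a hβ hβa
  have ha : a ≠ 0 := by
    rintro rfl
    rw [Rat.cast_zero] at hβa
    exact hβ.1 (pow_eq_zero_iff hr.ne_zero |>.mp hβa)
  refine hPw p hp r hr hrp F' F hle hFt hst' hst hidx ζ hζ hω e heF he y hy a β ha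
    (by rw [hβa, eq_ratCast]) (fun σ m hσm => ?_)
  -- `ζ ^ m = ζ ^ f(σ)`
  have h1 : zp ζ ((m : ℕ) : ZMod r) * β = zp ζ (f σ) * β := by
    rw [zp_natCast hζ.pow_eq_one, ← hσm, hβ.2 σ]
  have h2 : ((m : ℕ) : ZMod r) = f σ := zp_injective hζ (mul_right_cancel₀ hβ.1 h1)
  have h3 := val_smul_sub_zsmul_mem hr he hre (f σ) (m : ℤ) (by push_cast; exact h2)
  have h4 : σ • y - y - m • e = (σ • y - y - (f σ).val • e) + ((f σ).val • e - (m : ℤ) • e) := by
    rw [natCast_zsmul]; abel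
  rw [h4]
  exact F'.add_mem (hf σ) h3

/-- The coordinate vanishes at `g` when the piece does not meet `(g - 1) Y(W_E)`. -/
theorem coord_eq_zero_of_inf_le (hr : r.Prime) (hF : F ≤ eis p S r)
    (he : e ∉ F') (hre : r • e ∈ F') {g : _root_.Fermat.Agent.S15.H975.Gal} (hg : F ⊓ cocImage p S r g ≤ F')
    {y : JZero p} (hy : y ∈ sel p r F) {f : GQ → ZMod r} (hf : HasCoord r F' e y f) :
    f g = 0 := by
  refine hf.eq_zero_of_sub_mem hr he hre (hg ⟨hy.2 g, ?_⟩)
  exact mem_cocImage.mpr ⟨y, sel_mono r hF hy, rfl⟩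

end Local

section Cases

variable {p : ℕ} [NeZero p] {S : Set ℕ} {r : ℕ} {F' F : AddSubgroup (JZero p)}

/-- **Pieces with trivial action, `r` odd.** -/
theorem stepBound_triv_odd (hG3 : G3Statement) (hP1 : Peu1JStatement)
    (hp : p.Prime) (hr : r.Prime) (hr2 : r ≠ 2) (hrp : r ≠ p)
    {τ₀ : _root_.Fermat.Agent.S15.H975.Gal} (hgood : IsGoodTau p r τ₀) (K : AddSubgroup (JZero p))
    (hF : F ≤ eis p S r) (hle : F' ≤ F) (hst' : IsStable p F') (hst : IsStable p F)
    (hidx : F'.relIndex F = r) (htriv : ∀ σ : _root_.Fermat.Agent.S15.H975.Gal, ∀ f ∈ F, σ • f - f ∈ F') :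
    StepBound p r K (cocImage p S r τ₀) F' F := by
  haveI : NeZero r := ⟨hr.ne_zero⟩
  have hFt : F ≤ tors p r := hF.trans (eis_le_tors_h322 S r)
  obtain ⟨e, heF, he⟩ := exists_gen_of_relIndex hr hidx
  have hre : r • e ∈ F' := by
    rw [mem_tors_iff.mp (hFt heF)]; exact F'.zero_mem
  have hact : ∀ σ : GQ, σ • e - e ∈ F' := fun σ => htriv σ e heF
  have hstab : ∀ σ : GQ, ∀ x ∈ F', σ • x ∈ F' := hst'
  -- the local conditions away from `p`
  have hY : ∀ y ∈ sel p r F, ∃ f : GQ → ZMod r, HasCoord r F' e y f ∧ HasLevel y ∧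
      ∀ ℓ : ℕ, ℓ.Prime → ℓ ≠ p → ∃ B : ValuationSubring _root_.Fermat.Agent.S56.Qb,
        B.LiesOverPrime ℓ ∧ ∀ σ ∈ B.inertiaSubgroupIn ℚ, f σ = 0 := by
    intro y hy
    obtain ⟨f, hf⟩ := exists_hasCoord hr hidx heF he hre hy
    refine ⟨f, hf, hasLevel_jzero y, fun ℓ hℓ hℓp => ?_⟩
    obtain ⟨B, hB⟩ := Fermat.Agent.S54.exists_valuationSubring_liesOver ℓ hℓ
    refine ⟨B, hB, fun τ hτ => ?_⟩
    by_cases hℓr : ℓ = r
    · subst hℓr
      exact hf.eq_zero_of_sub_mem hr he hre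
        (hP1 p hp ℓ hr hrp hr2 B hB τ hτ F' F hle hFt hst' hst hidx htriv y hy)
    · exact coord_unram_of_g3 hG3 hp hr he hre hy hf hℓ hℓp hℓr B hB τ hτ
  have hH : ∀ w ∈ sel p r F, KumIn F' w → w ∈ sel p r F' ⊔ F :=
    fun w hw hk => mem_sup_of_kumIn hw hk
  have hs : selIndex p r F' F ≠ 0 ∧ selIndex p r F' F ≤ r :=
    piece_relIndex_le_triv hp hr hrp hstab he hre hact (sel p r F) (sel p r F' ⊔ F) hY hH
  have hs1 : F ⊓ cocImage p S r τ₀ ≤ F' → selIndex p r F' F = 1 := by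
    intro hU
    refine selIndex_eq_one_of_le (fun y hy => ?_)
    obtain ⟨f, hf, hl, hunr⟩ := hY y hy
    have hchar := hf.isCharUnrOutside hr hstab he hre hact hl hunr
    have h0 : ∀ σ, f σ = 0 :=
      hgood.char f hchar (coord_eq_zero_of_inf_le hr hF he hre hU hy hf)
    exact hH y hy (hf.kumIn_of_eq_zero h0)
  have hg : fixIndex p r F' F = r := fixIndex_eq_of_triv hFt hidx htriv
  refine ⟨hs.1, fun _ hU => ?_, fun _ _ => ?_, fun _ hU => ?_, fun _ _ => ?_⟩
  · rw [hs1 hU, hg, one_mul]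
  · rw [hg]; exact hs.2
  · rw [hs1 hU, hg]; exact hr.one_le
  · rw [hg]
    exact hs.2.trans (Nat.le_mul_of_pos_left r hr.pos)

/-- **Pieces of type `ω`, `r` odd.** -/
theorem stepBound_tw_odd (hG3 : G3Statement) (hPw : PeuOmegaJStatement)
    (hp : p.Prime) (hr : r.Prime) (hr2 : r ≠ 2) (hrp : r ≠ p)
    {τ₀ : _root_.Fermat.Agent.S15.H975.Gal} (hgood : IsGoodTau p r τ₀)
    (hF : F ≤ eis p S r) (hle : F' ≤ F) (hst' : IsStable p F') (hst : IsStable p F)
    (hidx : F'.relIndex F = r) {ζ : _root_.Fermat.Agent.S56.Qb} (hζ : IsPrimitiveRoot ζ r)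
    (hω : ∀ (σ : _root_.Fermat.Agent.S15.H975.Gal) (k : ℕ), σ ζ = ζ ^ k → ∀ f ∈ F, σ • f - k • f ∈ F') :
    StepBound p r (cocImage p S r complexConjugation) (cocImage p S r τ₀) F' F := by
  haveI : NeZero r := ⟨hr.ne_zero⟩
  have hFt : F ≤ tors p r := hF.trans (eis_le_tors_h322 S r)
  obtain ⟨e, heF, he⟩ := exists_gen_of_relIndex hr hidx
  have hre : r • e ∈ F' := by
    rw [mem_tors_iff.mp (hFt heF)]; exact F'.zero_mem
  have hact : ∀ σ : GQ, ∀ a : ℕ, IsCycExp r σ a → σ • e - a • e ∈ F' :=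
    fun σ a ha => hω σ a (ha ζ hζ.pow_eq_one) e heF
  have hstab : ∀ σ : GQ, ∀ x ∈ F', σ • x ∈ F' := hst'
  have heY : e ∈ sel p r F := le_sel_of_stable hst hFt heF
  have heH : e ∈ sel p r F' ⊔ F := AddSubgroup.mem_sup_right heF
  -- the piece meets `K`
  have hnotK : ¬ F ⊓ cocImage p S r complexConjugation ≤ F' := by
    intro hK
    have h1 : complexConjugation • e - e ∈ F' :=
      hK ⟨F.sub_mem (hst _ e heF) heF, mem_cocImage.mpr ⟨e, sel_mono r hF heY, rfl⟩⟩
    have hcζ : complexConjugation ζ = ζ ^ (r - 1) := by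
      rw [complexConjugation_root_h322 hr.ne_zero hζ.pow_eq_one]
      have hζ0 : ζ ≠ 0 := hζ.ne_zero hr.ne_zero
      apply mul_left_cancel₀ hζ0
      rw [mul_inv_cancel₀ hζ0, ← pow_succ', Nat.sub_add_cancel hr.pos, hζ.pow_eq_one]
    have h2 := hω complexConjugation (r - 1) hcζ e heF
    have h3 : ((r : ℤ) - 2) • e ∈ F' := by
      have e1 : ((r : ℤ) - 2) • e =
          (complexConjugation • e - e) - (complexConjugation • e - (r - 1) • e) := by
        have e2 : ((r - 1 : ℕ) : ℤ) = (r : ℤ) - 1 := by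
          rw [Nat.cast_sub hr.one_le]; simp
        rw [← natCast_zsmul e (r - 1), e2]
        generalize complexConjugation • e = E1
        module
      rw [e1]
      exact F'.sub_mem h1 h2
    rw [zsmul_mem_iff hr he hre] at h3
    push_cast at h3
    rw [ZMod.natCast_self, zero_sub, neg_eq_zero] at h3
    have h4 : ((2 : ℕ) : ZMod r) = 0 := by exact_mod_cast h3
    rw [ZMod.natCast_eq_zero_iff] at h4
    exact hr2 ((Nat.prime_dvd_prime_iff_eq hr Nat.prime_two).mp h4)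
  -- the local conditions away from `p`
  have hY : ∀ y ∈ sel p r F, ∃ f : GQ → ZMod r, HasCoord r F' e y f ∧ HasLevel y ∧
      ∀ ℓ : ℕ, ℓ.Prime → ℓ ≠ p → KumDivAt r ζ f ℓ := by
    intro y hy
    obtain ⟨f, hf⟩ := exists_hasCoord hr hidx heF he hre hy
    refine ⟨f, hf, hasLevel_jzero y, fun ℓ hℓ hℓp => ?_⟩
    by_cases hℓr : ℓ = r
    · subst hℓr
      exact coord_kumDivAt_of_peu hPw hp hr hrp hle hFt hst' hst hidx hζ hω heF he hre hy hf
    · exact coord_kumDivAt_of_g3 hG3 hp hr he hre hy hf hζ hℓ hℓp hℓr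
  have hH : ∀ w ∈ sel p r F, KumIn F' w → w ∈ sel p r F' ⊔ F :=
    fun w hw hk => mem_sup_of_kumIn hw hk
  have hs : selIndex p r F' F ≠ 0 ∧ selIndex p r F' F ≤ r :=
    piece_relIndex_le_tw hp hr hr2 hζ hstab he hre hact (sel p r F) (sel p r F' ⊔ F)
      heY heH hY hH
  have hs1 : F ⊓ cocImage p S r τ₀ ≤ F' → selIndex p r F' F = 1 := by
    intro hU
    refine selIndex_eq_one_of_le ?_
    refine piece_le_tw hr hr2 hζ hstab he hre hact (sel p r F) (sel p r F' ⊔ F) heY heH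
      (fun y hy => ?_) hH
    obtain ⟨f, hf, hl, hd⟩ := hY y hy
    refine ⟨f, hf, hl, fun ℓ hℓ => ?_⟩
    by_cases hℓp : ℓ = p
    · subst hℓp
      exact hgood.kum ζ hζ f (coord_eq_zero_of_inf_le hr hF he hre hU hy hf)
    · exact hd ℓ hℓ hℓp
  have hg : 1 ≤ fixIndex p r F' F := fixIndex_pos hr hle hst' hFt hidx
  refine ⟨hs.1, fun hK _ => absurd hK hnotK, fun hK _ => absurd hK hnotK,
    fun _ hU => ?_, fun _ _ => ?_⟩
  · rw [hs1 hU]; exact hg
  · exact hs.2.trans (Nat.le_mul_of_pos_right r hg)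

/-- **All pieces, `r = 2`.** -/
theorem stepBound_two (hG3 : G3Statement) (hPw : PeuOmegaJStatement)
    (hp : p.Prime) (hp2 : 2 ≠ p)
    {τ₀ : _root_.Fermat.Agent.S15.H975.Gal} (hgood : IsGoodTau p 2 τ₀)
    (hF : F ≤ eis p S 2) (hle : F' ≤ F) (hst' : IsStable p F') (hst : IsStable p F)
    (hidx : F'.relIndex F = 2) (htriv : ∀ σ : _root_.Fermat.Agent.S15.H975.Gal, ∀ f ∈ F, σ • f - f ∈ F') :
    StepBound p 2 (cocImage p S 2 complexConjugation) (cocImage p S 2 τ₀) F' F := by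
  have hr : (2 : ℕ).Prime := Nat.prime_two
  have hFt : F ≤ tors p 2 := hF.trans (eis_le_tors_h322 S 2)
  obtain ⟨e, heF, he⟩ := exists_gen_of_relIndex hr hidx
  have hre : 2 • e ∈ F' := by
    rw [mem_tors_iff.mp (hFt heF)]; exact F'.zero_mem
  have hact : ∀ σ : GQ, σ • e - e ∈ F' := fun σ => htriv σ e heF
  have hstab : ∀ σ : GQ, ∀ x ∈ F', σ • x ∈ F' := hst'
  -- the primitive square root of unity
  have hζ : IsPrimitiveRoot (-1 : _root_.Fermat.Agent.S56.Qb) 2 := IsPrimitiveRoot.neg_one 0 (by norm_num)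
  have hω : ∀ (σ : _root_.Fermat.Agent.S15.H975.Gal) (k : ℕ), σ (-1 : _root_.Fermat.Agent.S56.Qb) = (-1 : _root_.Fermat.Agent.S56.Qb) ^ k → ∀ f ∈ F, σ • f - k • f ∈ F' := by
    intro σ k hk f hf
    have hodd : Odd k := by
      rw [map_neg, map_one] at hk
      by_contra hnot
      rw [Nat.not_odd_iff_even] at hnot
      rw [hnot.neg_one_pow] at hk
      norm_num at hk
    obtain ⟨j, rfl⟩ := hodd
    have h2f : 2 • f = 0 := mem_tors_iff.mp (hFt hf)
    have e1 : σ • f - (2 * j + 1) • f = σ • f - f := by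
      rw [add_smul, one_smul, mul_comm, mul_smul, h2f, smul_zero, zero_add]
    rw [e1]
    exact htriv σ f hf
  -- the local conditions away from `p`
  have hY : ∀ y ∈ sel p 2 F, ∃ f : GQ → ZMod 2, HasCoord 2 F' e y f ∧ HasLevel y ∧
      ∀ ℓ : ℕ, ℓ.Prime → ℓ ≠ p → KumDivAt 2 (-1 : _root_.Fermat.Agent.S56.Qb) f ℓ := by
    intro y hy
    obtain ⟨f, hf⟩ := exists_hasCoord hr hidx heF he hre hy
    refine ⟨f, hf, hasLevel_jzero y, fun ℓ hℓ hℓp => ?_⟩
    by_cases hℓr : ℓ = 2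
    · subst hℓr
      exact coord_kumDivAt_of_peu hPw hp hr hp2 hle hFt hst' hst hidx hζ hω heF he hre hy hf
    · exact coord_kumDivAt_of_g3 hG3 hp hr he hre hy hf hζ hℓ hℓp hℓr
  have hH : ∀ w ∈ sel p 2 F, KumIn F' w → w ∈ sel p 2 F' ⊔ F :=
    fun w hw hk => mem_sup_of_kumIn hw hk
  -- the local condition at `p`
  have hYp : F ⊓ cocImage p S 2 τ₀ ≤ F' → ∀ y ∈ sel p 2 F, ∀ f : GQ → ZMod 2,
      HasCoord 2 F' e y f → KumDivAt 2 (-1 : _root_.Fermat.Agent.S56.Qb) f p :=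
    fun hU y hy f hf => hgood.kum _ hζ f (coord_eq_zero_of_inf_le hr hF he hre hU hy hf)
  -- the condition at the real place
  have hYc : F ⊓ cocImage p S 2 complexConjugation ≤ F' → ∀ y ∈ sel p 2 F,
      ∀ f : GQ → ZMod 2, HasCoord 2 F' e y f → f complexConjugation = 0 :=
    fun hK y hy f hf => coord_eq_zero_of_inf_le hr hF he hre hK hy hf
  have hg : fixIndex p 2 F' F = 2 := fixIndex_eq_of_triv hFt hidx htriv
  have h4 : selIndex p 2 F' F ≠ 0 ∧ selIndex p 2 F' F ≤ 4 :=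
    piece_relIndex_le_four hp hζ hstab he hre hact (sel p 2 F) (sel p 2 F' ⊔ F) hY hH
  refine ⟨h4.1, fun hK hU => ?_, fun hK _ => ?_, fun _ hU => ?_, fun _ _ => ?_⟩
  · -- positive, unramified everywhere
    have h1 : selIndex p 2 F' F = 1 := by
      refine selIndex_eq_one_of_le ?_
      refine piece_le_two hζ hstab he hre hact (sel p 2 F) (sel p 2 F' ⊔ F)
        (fun y hy => ?_) hH
      obtain ⟨f, hf, hl, hd⟩ := hY y hy
      refine ⟨f, hf, hl, hYc hK y hy f hf, fun ℓ hℓ => ?_⟩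
      by_cases hℓp : ℓ = p
      · subst hℓp
        exact hYp hU y hy f hf
      · exact hd ℓ hℓ hℓp
    rw [h1, hg]
  · -- positive
    rw [hg]
    refine (piece_relIndex_le_two_pos hp hζ hstab he hre hact (sel p 2 F) (sel p 2 F' ⊔ F)
      (fun y hy => ?_) hH).2
    obtain ⟨f, hf, hl, hd⟩ := hY y hy
    exact ⟨f, hf, hl, hYc hK y hy f hf, hd⟩
  · -- unramified everywhere
    rw [hg]
    refine (piece_relIndex_le_two_unr hζ hstab he hre hact (sel p 2 F) (sel p 2 F' ⊔ F)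
      (fun y hy => ?_) hH).2
    obtain ⟨f, hf, hl, hd⟩ := hY y hy
    refine ⟨f, hf, hl, fun ℓ hℓ => ?_⟩
    by_cases hℓp : ℓ = p
    · subst hℓp
      exact hYp hU y hy f hf
    · exact hd ℓ hℓ hℓp
  · rw [hg]
    exact h4.2

end Cases

/-- **STEP**: the step bounds for all Eisenstein pieces, from G3 and PEU. -/
theorem step_of_leaves (hG3 : G3Statement) (hP1 : Peu1JStatement)
    (hPw : PeuOmegaJStatement) : StepStatement := by
  intro p _ hp S r hr hrdvd
  have hp1 : 0 < p - 1 := Nat.sub_pos_of_lt hp.one_lt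
  have hrp : r ≠ p := by
    intro h
    have := Nat.le_of_dvd hp1 hrdvd
    omega
  obtain ⟨A, hA⟩ := Fermat.Agent.S54.exists_valuationSubring_liesOver p hp
  obtain ⟨τ₀, hτ₀, hgood⟩ := exists_isGoodTau hp hr hrp A hA
  refine ⟨A, hA, τ₀, hτ₀, fun F' F hF hpiece => ?_⟩
  obtain ⟨hle, hst', hst, hidx, htype⟩ := hpiece
  by_cases hr2 : r = 2
  · subst hr2
    have htriv : ∀ σ : _root_.Fermat.Agent.S15.H975.Gal, ∀ f ∈ F, σ • f - f ∈ F' := by
      rcases htype with h | ⟨ζ, hζ, hω⟩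
      · exact h
      · intro σ f hf
        have h1 : σ ζ = ζ ^ 1 := by
          rw [pow_one]
          have hζ2 : ζ = -1 := by
            have := hζ.eq_neg_one_of_two_right
            exact this
          rw [hζ2, map_neg, map_one]
        have := hω σ 1 h1 f hf
        rwa [one_smul] at this
    exact stepBound_two hG3 hPw hp hrp hgood hF hle hst' hst hidx htriv
  · rcases htype with htriv | ⟨ζ, hζ, hω⟩
    · exact stepBound_triv_odd hG3 hP1 hp hr hr2 hrp hgood _ hF hle hst' hst hidx htriv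
    · exact stepBound_tw_odd hG3 hPw hp hr hr2 hrp hgood hF hle hst' hst hidx hζ hω

end Fermat.Agent.S15.H322

end
-- ===== PACK-END S15/H322/Step.lean

-- ===== PACK-BEGIN A3/H799/LocalDone.lean
section



/-!
# A3 / LOCAL — the abstract LOCAL theorem, unconditional  (helper799)

`localStatement : LocalStatement K F k Fk` for every abstract good reduction datum: all leaves
(DISC, DISC-I, NSP, COORD, GEO, DET, KER-I, LIFTI) are on main.
-/

set_option autoImplicit false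

open AlgebraicCurve

namespace Fermat.Agent.A3.H799

universe u₁ u₂ u₃ u₄

variable (K : Type u₁) (F : Type u₂) (k : Type u₃) (Fk : Type u₄)
  [Field K] [Field F] [Algebra K F] [Field k] [Field Fk] [Algebra k Fk]

/-- **Block LOCAL, abstract form**: for every abstract good reduction datum `GoodRed K F k Fk`,
every finite inertia-stable subgroup of `Pic0` has integral, inertia-equivariant, injective
coordinates with algebraic addition. -/
theorem localStatement [IsAlgClosed K] [IsAlgClosed k] [CharZero K] :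
    LocalStatement K F k Fk :=
  localStatement_of_det H255.Det.detStatement

end Fermat.Agent.A3.H799

end
-- ===== PACK-END A3/H799/LocalDone.lean

-- ===== PACK-BEGIN S15/H946/TorsorLocal.lean
section


/-!
# S15 / DESC / T1 HOPF-E — the abstract LOCAL theorem for TORSOR SETS  (helper946)

`A3.H799.localStatement` gives integral, inertia-equivariant coordinates with algebraic addition on
every finite inertia-stable SUBGROUP of `Pic0`.  Row S15 (Eisenstein descent, blueprint v3, tower T1)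
needs the same for the finite group

    E_x = (J[r] + ℤ y) / ℤ x,      x = r y a rational point,

which is not a subgroup of `Pic0`: it is a finite abelian group `M` with a map of REPRESENTATIVES
`ρ : M → Pic0` which is additive only up to constants, `ρ (m + m') = ρ m + ρ m' + c (κ m) (κ m')`,
where `κ : M → Q` is a finite "grading" (for `E_x`: `κ (t + j y) = j`, `c j j' = - [j + j' ≥ r] x`).

`TorsorData` packages `(κ, ρ, c)`; `torsorLocal` is the generalisation of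
`A3.H799.local_of_chart` (same proof: class indicators + chart coordinates on each class; the
constants are absorbed as constants of the chart).  For `Q = Unit`, `c = 0`, `ρ` the inclusion of a
subgroup this is `A3.H799.LocalStatement`.

Everything here is sorry-free; inputs: CHART, KER-I, LIFTI of `A3/H799` (all proved on main).
-/

set_option autoImplicit false

noncomputable section

open AlgebraicCurve

namespace Fermat.Agent.S15.H946

open Fermat.Agent.A3.H799

universe u₁ u₂ u₃ u₄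

variable {K : Type u₁} {F : Type u₂} {k : Type u₃} {Fk : Type u₄}
  [Field K] [Field F] [Algebra K F] [Field k] [Field Fk] [Algebra k Fk]

/-- **Torsor-set datum**: a finite abelian group `M` with representatives `ρ : M → Pic0` additive
up to constants depending only on a grading `κ`. -/
structure TorsorData (M : Type) [AddCommGroup M] (K : Type u₁) (F : Type u₂)
    [Field K] [Field F] [Algebra K F] where
  /-- the grading set -/
  Q : Type
  /-- the grading -/
  κ : M → Q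
  /-- the representatives -/
  ρ : M → Pic0 K F
  /-- grading and representative determine the element -/
  inj : ∀ m m' : M, κ m = κ m' → ρ m = ρ m' → m = m'
  /-- the grading of a sum -/
  μ : Q → Q → Q
  κ_add : ∀ m m' : M, κ (m + m') = μ (κ m) (κ m')
  /-- the constants -/
  c : Q → Q → Pic0 K F
  ρ_add : ∀ m m' : M, ρ (m + m') = ρ m + ρ m' + c (κ m) (κ m')

/-- **Output of T1-ABS** (frozen): integral, inertia-equivariant, injective coordinates on `M` with
algebraic addition.  Same shape as `A3.H799.LocalStatement`, with `T` replaced by `(M, D)`. -/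
def TorsorLocalStatement (K : Type u₁) (F : Type u₂) (k : Type u₃) (Fk : Type u₄)
    [Field K] [Field F] [Algebra K F] [Field k] [Field Fk] [Algebra k Fk]
    [IsAlgClosed K] [IsAlgClosed k] [CharZero K] : Prop :=
  ∀ (𝓡 : GoodRed K F k Fk),
    (∀ a b : K, a ∈ 𝓡.V.nonunits → b ≠ 0 → ∃ n : ℕ, a ^ n / b ∈ 𝓡.V) →
    ∀ (M : Type) [AddCommGroup M] [Finite M] (D : TorsorData M K F),
      ∃ (ι : Type) (_ : Finite ι) (Ψ : M → ι → K),
        Function.Injective Ψ ∧ (∀ x i, Ψ x i ∈ 𝓡.V) ∧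
        (∀ (g : SemilinearAut K F) (_ : g ∈ 𝓡.I) (m m' : M), D.κ m' = D.κ m →
          D.ρ m' = g • D.ρ m → ∀ i : ι, Ψ m' i = SemilinearAut.baseAut g (Ψ m i)) ∧
        ∀ i, (fun p : M × M => Ψ (p.1 + p.2) i) ∈
          Algebra.adjoin 𝓡.V ({f | ∃ j, f = fun p : M × M => Ψ p.1 j} ∪
            {f | ∃ j, f = fun p : M × M => Ψ p.2 j})

section Classes

variable (𝓡 : GoodRed K F k Fk) {M : Type} [AddCommGroup M] (D : TorsorData M K F)

/-- Two elements are in the same class if they have the same grading and their representatives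
are congruent modulo the kernel of reduction. -/
def clSetoid : Setoid M where
  r m m' := D.κ m = D.κ m' ∧ D.ρ m - D.ρ m' ∈ 𝓡.kerRed
  iseqv :=
    { refl := fun m => ⟨rfl, by rw [sub_self]; exact zero_mem _⟩
      symm := fun {m m'} h => ⟨h.1.symm, by
        have := neg_mem h.2
        rwa [neg_sub] at this⟩
      trans := fun {m m' m''} h h' => ⟨h.1.trans h'.1, by
        have := add_mem h.2 h'.2
        rwa [sub_add_sub_cancel] at this⟩ }

/-- The type of classes. -/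
abbrev Cl : Type := Quotient (clSetoid 𝓡 D)

/-- The class of an element. -/
def cl (m : M) : Cl 𝓡 D := Quotient.mk (clSetoid 𝓡 D) m

variable {𝓡 D}

theorem cl_eq_iff (m m' : M) :
    cl 𝓡 D m = cl 𝓡 D m' ↔ D.κ m = D.κ m' ∧ D.ρ m - D.ρ m' ∈ 𝓡.kerRed :=
  Quotient.eq (r := clSetoid 𝓡 D)

theorem cl_out (c : Cl 𝓡 D) : cl 𝓡 D (Quotient.out c) = c := Quotient.out_eq c

theorem cl_add {m₁ m₁' m₂ m₂' : M} (h1 : cl 𝓡 D m₁ = cl 𝓡 D m₁')
    (h2 : cl 𝓡 D m₂ = cl 𝓡 D m₂') : cl 𝓡 D (m₁ + m₂) = cl 𝓡 D (m₁' + m₂') := by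
  rw [cl_eq_iff] at h1 h2 ⊢
  refine ⟨by rw [D.κ_add, D.κ_add, h1.1, h2.1], ?_⟩
  rw [D.ρ_add, D.ρ_add, h1.1, h2.1]
  have h : D.ρ m₁ + D.ρ m₂ + D.c (D.κ m₁') (D.κ m₂') -
      (D.ρ m₁' + D.ρ m₂' + D.c (D.κ m₁') (D.κ m₂')) =
      (D.ρ m₁ - D.ρ m₁') + (D.ρ m₂ - D.ρ m₂') := by abel
  rw [h]
  exact add_mem h1.2 h2.2

instance [Finite M] : Finite (Cl 𝓡 D) := Quotient.finite _

end Classes

section Coordinates

variable {𝓡 : GoodRed K F k Fk} {M : Type} [AddCommGroup M] {D : TorsorData M K F} {n : ℕ}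
  (z : 𝓡.kerRed → Fin n → IsLocalRing.maximalIdeal 𝓡.V) (yt : Cl 𝓡 D → Pic0 K F)
  (hmem : ∀ (m : M) (c : Cl 𝓡 D), cl 𝓡 D m = c → D.ρ m - yt c ∈ 𝓡.kerRed)

open Classical in
/-- The coordinates: class indicators and chart coordinates on each class. -/
def psiT (m : M) : (Cl 𝓡 D) ⊕ (Cl 𝓡 D) × Fin n → K
  | Sum.inl c => if cl 𝓡 D m = c then 1 else 0
  | Sum.inr (c, i) =>
      if h : cl 𝓡 D m = c then
        (((z ⟨D.ρ m - yt c, hmem m c h⟩ i : IsLocalRing.maximalIdeal 𝓡.V) : 𝓡.V) : K)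
      else 0

open Classical in
theorem psiT_inl (m : M) (c : Cl 𝓡 D) :
    psiT z yt hmem m (Sum.inl c) = if cl 𝓡 D m = c then 1 else 0 := by
  simp only [psiT]

open Classical in
theorem psiT_inr (m : M) (c : Cl 𝓡 D) (i : Fin n) :
    psiT z yt hmem m (Sum.inr (c, i)) =
      if h : cl 𝓡 D m = c then
        (((z ⟨D.ρ m - yt c, hmem m c h⟩ i : IsLocalRing.maximalIdeal 𝓡.V) : 𝓡.V) : K)
      else 0 := by
  simp only [psiT]

theorem psiT_inr_pos (m : M) (c : Cl 𝓡 D) (i : Fin n) (h : cl 𝓡 D m = c) :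
    psiT z yt hmem m (Sum.inr (c, i)) =
      (((z ⟨D.ρ m - yt c, hmem m c h⟩ i : IsLocalRing.maximalIdeal 𝓡.V) : 𝓡.V) : K) := by
  rw [psiT_inr, dif_pos h]

theorem psiT_inr_neg (m : M) (c : Cl 𝓡 D) (i : Fin n) (h : ¬ cl 𝓡 D m = c) :
    psiT z yt hmem m (Sum.inr (c, i)) = 0 := by
  rw [psiT_inr, dif_neg h]

theorem psiT_mem (m : M) (j : (Cl 𝓡 D) ⊕ (Cl 𝓡 D) × Fin n) :
    psiT z yt hmem m j ∈ 𝓡.V := by
  classical
  rcases j with c | ⟨c, i⟩
  · rw [psiT_inl]
    split_ifs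
    · exact 𝓡.V.one_mem
    · exact 𝓡.V.zero_mem
  · rw [psiT_inr]
    split_ifs
    · exact Subtype.coe_prop _
    · exact 𝓡.V.zero_mem

theorem psiT_injective (hz : Function.Injective z) : Function.Injective (psiT z yt hmem) := by
  classical
  intro x x' h
  have h1 := congrFun h (Sum.inl (cl 𝓡 D x))
  rw [psiT_inl, psiT_inl, if_pos rfl] at h1
  have hc : cl 𝓡 D x' = cl 𝓡 D x := by
    by_contra hne
    rw [if_neg hne] at h1
    exact one_ne_zero h1
  have h2 : z ⟨D.ρ x - yt (cl 𝓡 D x), hmem x _ rfl⟩ =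
      z ⟨D.ρ x' - yt (cl 𝓡 D x), hmem x' _ hc⟩ := by
    funext i
    have h3 := congrFun h (Sum.inr (cl 𝓡 D x, i))
    rw [psiT_inr_pos z yt hmem x _ i rfl, psiT_inr_pos z yt hmem x' _ i hc] at h3
    exact Subtype.ext (Subtype.ext h3)
  have h4 := congrArg Subtype.val (hz h2)
  simp only [sub_left_inj] at h4
  exact D.inj x x' ((cl_eq_iff x' x).1 hc).1.symm h4

theorem psiT_smul (hker : ∀ g ∈ 𝓡.I, ∀ x : Pic0 K F, g • x - x ∈ 𝓡.kerRed)
    (hyI : ∀ c, ∀ g ∈ 𝓡.I, g • yt c = yt c)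
    (hzeq : ∀ g ∈ 𝓡.I, ∀ (u : 𝓡.kerRed) (hgu : g • (u : Pic0 K F) ∈ 𝓡.kerRed) (i : Fin n),
      (((z ⟨g • (u : Pic0 K F), hgu⟩ i : IsLocalRing.maximalIdeal 𝓡.V) : 𝓡.V) : K) =
        SemilinearAut.baseAut g (((z u i : IsLocalRing.maximalIdeal 𝓡.V) : 𝓡.V) : K))
    (g : SemilinearAut K F) (hg : g ∈ 𝓡.I) (m m' : M) (hκ : D.κ m' = D.κ m)
    (hρ : D.ρ m' = g • D.ρ m)
    (j : (Cl 𝓡 D) ⊕ (Cl 𝓡 D) × Fin n) :
    psiT z yt hmem m' j = SemilinearAut.baseAut g (psiT z yt hmem m j) := by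
  classical
  have hmk : cl 𝓡 D m' = cl 𝓡 D m := by
    rw [cl_eq_iff]
    refine ⟨hκ, ?_⟩
    rw [hρ]
    exact hker g hg _
  rcases j with c | ⟨c, i⟩
  · rw [psiT_inl, psiT_inl, hmk]
    split_ifs
    · rw [map_one]
    · rw [map_zero]
  · by_cases h : cl 𝓡 D m = c
    · have h' : cl 𝓡 D m' = c := by rw [hmk, h]
      rw [psiT_inr_pos z yt hmem _ c i h', psiT_inr_pos z yt hmem m c i h]
      have heq : g • (D.ρ m - yt c) = D.ρ m' - yt c := by
        rw [smul_sub, hyI c g hg, hρ]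
      have hgu : g • (D.ρ m - yt c) ∈ 𝓡.kerRed := by
        rw [heq]
        exact hmem _ c h'
      rw [← hzeq g hg ⟨D.ρ m - yt c, hmem m c h⟩ hgu i]
      congr 4
      exact heq.symm
    · have h' : ¬ cl 𝓡 D m' = c := by
        rw [hmk]; exact h
      rw [psiT_inr_neg z yt hmem _ c i h', psiT_inr_neg z yt hmem m c i h, map_zero]

open Classical in
/-- Partition of unity by the boxes. -/
theorem mem_of_forall_boxT [Finite M] (𝒜 : Subalgebra 𝓡.V (M × M → K)) (G : M × M → K)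
    (h : ∀ c₁ c₂ : Cl 𝓡 D, (fun p : M × M =>
      ((if cl 𝓡 D p.1 = c₁ then (1 : K) else 0) *
        (if cl 𝓡 D p.2 = c₂ then (1 : K) else 0)) * G p) ∈ 𝒜) :
    G ∈ 𝒜 := by
  have : Fintype (Cl 𝓡 D) := Fintype.ofFinite _
  have hG : G = ∑ c₁ : Cl 𝓡 D, ∑ c₂ : Cl 𝓡 D, (fun p : M × M =>
      ((if cl 𝓡 D p.1 = c₁ then (1 : K) else 0) *
        (if cl 𝓡 D p.2 = c₂ then (1 : K) else 0)) * G p) := by
    funext p
    simp only [Finset.sum_apply]
    simp only [← Finset.sum_mul, ← Finset.mul_sum]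
    simp
  rw [hG]
  exact Subalgebra.sum_mem _ fun c₁ _ => Subalgebra.sum_mem _ fun c₂ _ => h c₁ c₂

open Classical in
theorem psiT_add_mem [Finite M]
    (hzadd : ∀ (Λ : Subalgebra 𝓡.V (M × M → 𝓡.V)) (a b : M × M → 𝓡.kerRed),
      (∀ j, (fun τ => ((z (a τ) j : IsLocalRing.maximalIdeal 𝓡.V) : 𝓡.V)) ∈ Λ) →
      (∀ j, (fun τ => ((z (b τ) j : IsLocalRing.maximalIdeal 𝓡.V) : 𝓡.V)) ∈ Λ) →
      ∀ i, (fun τ => ((z (a τ + b τ) i : IsLocalRing.maximalIdeal 𝓡.V) : 𝓡.V)) ∈ Λ)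
    (j : (Cl 𝓡 D) ⊕ (Cl 𝓡 D) × Fin n) :
    (fun p : M × M => psiT z yt hmem (p.1 + p.2) j) ∈
      Algebra.adjoin 𝓡.V ({f | ∃ j, f = fun p : M × M => psiT z yt hmem p.1 j} ∪
        {f | ∃ j, f = fun p : M × M => psiT z yt hmem p.2 j}) := by
  set 𝒜 := Algebra.adjoin 𝓡.V ({f | ∃ j, f = fun p : M × M => psiT z yt hmem p.1 j} ∪
        {f | ∃ j, f = fun p : M × M => psiT z yt hmem p.2 j}) with h𝒜
  have g1 : ∀ j, (fun p : M × M => psiT z yt hmem p.1 j) ∈ 𝒜 :=
    fun j => Algebra.subset_adjoin (Or.inl ⟨j, rfl⟩)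
  have g2 : ∀ j, (fun p : M × M => psiT z yt hmem p.2 j) ∈ 𝒜 :=
    fun j => Algebra.subset_adjoin (Or.inr ⟨j, rfl⟩)
  -- the class of a sum on a box
  let s : Cl 𝓡 D → Cl 𝓡 D → Cl 𝓡 D := fun c₁ c₂ =>
    cl 𝓡 D (Quotient.out c₁ + Quotient.out c₂)
  have hs : ∀ (c₁ c₂ : Cl 𝓡 D) (p : M × M), cl 𝓡 D p.1 = c₁ → cl 𝓡 D p.2 = c₂ →
      cl 𝓡 D (p.1 + p.2) = s c₁ c₂ := by
    intro c₁ c₂ p h1 h2
    exact cl_add (h1.trans (cl_out c₁).symm) (h2.trans (cl_out c₂).symm)
  -- the box idempotents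
  have hbox : ∀ c₁ c₂ : Cl 𝓡 D, (fun p : M × M =>
      (if cl 𝓡 D p.1 = c₁ then (1 : K) else 0) *
        (if cl 𝓡 D p.2 = c₂ then (1 : K) else 0)) ∈ 𝒜 := by
    intro c₁ c₂
    have := 𝒜.mul_mem (g1 (Sum.inl c₁)) (g2 (Sum.inl c₂))
    simp only [psiT_inl] at this
    exact this
  have hidem : ∀ c₁ c₂ : Cl 𝓡 D, (fun p : M × M =>
      (if cl 𝓡 D p.1 = c₁ then (1 : K) else 0) *
        (if cl 𝓡 D p.2 = c₂ then (1 : K) else 0)) *
      (fun p : M × M =>
      (if cl 𝓡 D p.1 = c₁ then (1 : K) else 0) *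
        (if cl 𝓡 D p.2 = c₂ then (1 : K) else 0)) =
      (fun p : M × M =>
      (if cl 𝓡 D p.1 = c₁ then (1 : K) else 0) *
        (if cl 𝓡 D p.2 = c₂ then (1 : K) else 0)) := by
    intro c₁ c₂
    funext p
    simp only [Pi.mul_apply]
    split_ifs <;> simp
  -- the key lemma on a box
  have hkey : ∀ (c₁ c₂ : Cl 𝓡 D) (i : Fin n), (fun p : M × M =>
      ((if cl 𝓡 D p.1 = c₁ then (1 : K) else 0) *
        (if cl 𝓡 D p.2 = c₂ then (1 : K) else 0)) *
        psiT z yt hmem (p.1 + p.2) (Sum.inr (s c₁ c₂, i))) ∈ 𝒜 := by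
    intro c₁ c₂ i
    set Λ := boxAlg 𝒜 _ (hidem c₁ c₂) (hbox c₁ c₂) with hΛ
    -- the families
    let a : M × M → 𝓡.kerRed := fun p =>
      if h : cl 𝓡 D p.1 = c₁ then ⟨D.ρ p.1 - yt c₁, hmem p.1 c₁ h⟩ else 0
    let b : M × M → 𝓡.kerRed := fun p =>
      if h : cl 𝓡 D p.2 = c₂ then ⟨D.ρ p.2 - yt c₂, hmem p.2 c₂ h⟩ else 0
    have hc₀ : D.c (D.κ (Quotient.out c₁)) (D.κ (Quotient.out c₂)) + yt c₁ + yt c₂ -
        yt (s c₁ c₂) ∈ 𝓡.kerRed := by
      have h1 := hmem (Quotient.out c₁) c₁ (cl_out c₁)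
      have h2 := hmem (Quotient.out c₂) c₂ (cl_out c₂)
      have h3 := hmem (Quotient.out c₁ + Quotient.out c₂) (s c₁ c₂) rfl
      have h4 : D.c (D.κ (Quotient.out c₁)) (D.κ (Quotient.out c₂)) + yt c₁ + yt c₂ -
          yt (s c₁ c₂) =
          (D.ρ (Quotient.out c₁ + Quotient.out c₂) - yt (s c₁ c₂)) -
            (D.ρ (Quotient.out c₁) - yt c₁) - (D.ρ (Quotient.out c₂) - yt c₂) := by
        rw [D.ρ_add]
        abel
      rw [h4]
      exact sub_mem (sub_mem h3 h1) h2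
    let c₀ : M × M → 𝓡.kerRed := fun _ =>
      ⟨D.c (D.κ (Quotient.out c₁)) (D.κ (Quotient.out c₂)) + yt c₁ + yt c₂ - yt (s c₁ c₂), hc₀⟩
    have ha : ∀ j, (fun τ => ((z (a τ) j : IsLocalRing.maximalIdeal 𝓡.V) : 𝓡.V)) ∈ Λ := by
      intro j
      rw [hΛ, mem_boxAlg]
      have := 𝒜.mul_mem (g2 (Sum.inl c₂)) (g1 (Sum.inr (c₁, j)))
      convert this using 1
      funext p
      simp only [Pi.mul_apply, psiT_inl]
      by_cases h : cl 𝓡 D p.1 = c₁
      · rw [psiT_inr_pos z yt hmem p.1 c₁ j h, if_pos h, one_mul]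
        simp only [a, dif_pos h]
        rfl
      · rw [psiT_inr_neg z yt hmem p.1 c₁ j h, if_neg h]
        simp
    have hb : ∀ j, (fun τ => ((z (b τ) j : IsLocalRing.maximalIdeal 𝓡.V) : 𝓡.V)) ∈ Λ := by
      intro j
      rw [hΛ, mem_boxAlg]
      have := 𝒜.mul_mem (g1 (Sum.inl c₁)) (g2 (Sum.inr (c₂, j)))
      convert this using 1
      funext p
      simp only [Pi.mul_apply, psiT_inl]
      by_cases h : cl 𝓡 D p.2 = c₂
      · rw [psiT_inr_pos z yt hmem p.2 c₂ j h, if_pos h, mul_one]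
        simp only [b, dif_pos h]
        rfl
      · rw [psiT_inr_neg z yt hmem p.2 c₂ j h, if_neg h]
        simp
    have hc : ∀ j, (fun τ => ((z (c₀ τ) j : IsLocalRing.maximalIdeal 𝓡.V) : 𝓡.V)) ∈ Λ := by
      intro j
      exact Λ.algebraMap_mem ((z ⟨_, hc₀⟩ j : IsLocalRing.maximalIdeal 𝓡.V) : 𝓡.V)
    have hab := hzadd Λ a b ha hb
    have habc := hzadd Λ (fun τ => a τ + b τ) c₀ hab hc i
    rw [hΛ, mem_boxAlg] at habc
    convert habc using 1
    funext p
    by_cases h1 : cl 𝓡 D p.1 = c₁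
    · by_cases h2 : cl 𝓡 D p.2 = c₂
      · have h12 : cl 𝓡 D (p.1 + p.2) = s c₁ c₂ := hs c₁ c₂ p h1 h2
        have hκ1 : D.κ p.1 = D.κ (Quotient.out c₁) :=
          ((cl_eq_iff _ _).1 (h1.trans (cl_out c₁).symm)).1
        have hκ2 : D.κ p.2 = D.κ (Quotient.out c₂) :=
          ((cl_eq_iff _ _).1 (h2.trans (cl_out c₂).symm)).1
        rw [psiT_inr_pos z yt hmem _ _ i h12]
        congr 5
        simp only [a, b, c₀, dif_pos h1, dif_pos h2, AddSubgroup.coe_add]
        rw [D.ρ_add, hκ1, hκ2]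
        abel
      · simp [h2]
    · simp [h1]
  -- conclusion
  apply mem_of_forall_boxT
  intro c₁ c₂
  rcases j with c | ⟨c, i⟩
  · have hfun : (fun p : M × M =>
        ((if cl 𝓡 D p.1 = c₁ then (1 : K) else 0) *
          (if cl 𝓡 D p.2 = c₂ then (1 : K) else 0)) *
          psiT z yt hmem (p.1 + p.2) (Sum.inl c)) =
        if s c₁ c₂ = c then (fun p : M × M =>
          (if cl 𝓡 D p.1 = c₁ then (1 : K) else 0) *
            (if cl 𝓡 D p.2 = c₂ then (1 : K) else 0)) else 0 := by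
      funext p
      rw [psiT_inl]
      by_cases hcc : s c₁ c₂ = c
      · rw [if_pos hcc]
        by_cases h1 : cl 𝓡 D p.1 = c₁
        · by_cases h2 : cl 𝓡 D p.2 = c₂
          · rw [hs c₁ c₂ p h1 h2, if_pos hcc]
            simp
          · simp [h2]
        · simp [h1]
      · rw [if_neg hcc]
        by_cases h1 : cl 𝓡 D p.1 = c₁
        · by_cases h2 : cl 𝓡 D p.2 = c₂
          · rw [hs c₁ c₂ p h1 h2, if_neg hcc]
            simp
          · simp [h2]
        · simp [h1]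
    rw [hfun]
    split_ifs
    · exact hbox c₁ c₂
    · exact 𝒜.zero_mem
  · by_cases hcc : s c₁ c₂ = c
    · subst hcc
      exact hkey c₁ c₂ i
    · have hfun : (fun p : M × M =>
        ((if cl 𝓡 D p.1 = c₁ then (1 : K) else 0) *
          (if cl 𝓡 D p.2 = c₂ then (1 : K) else 0)) *
          psiT z yt hmem (p.1 + p.2) (Sum.inr (c, i))) = 0 := by
        funext p
        by_cases h1 : cl 𝓡 D p.1 = c₁
        · by_cases h2 : cl 𝓡 D p.2 = c₂
          · have h12 : ¬ cl 𝓡 D (p.1 + p.2) = c := by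
              rw [hs c₁ c₂ p h1 h2]; exact hcc
            rw [psiT_inr_neg z yt hmem _ _ i h12]
            simp
          · simp [h2]
        · simp [h1]
      rw [hfun]
      exact 𝒜.zero_mem

end Coordinates

section Main

variable [IsAlgClosed K] [IsAlgClosed k] [CharZero K]

/-- **Assembly for torsor sets.**  CHART + KER-I + LIFTI ⟹ `TorsorLocalStatement`. -/
theorem torsorLocal_of_chart (hchart : ChartStatement.{u₁, u₂, u₃, u₄, 0} K F k Fk)
    (hker : KerInertiaStatement K F k Fk) (hlift : LiftiStatement K F k Fk) :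
    TorsorLocalStatement K F k Fk := by
  classical
  intro 𝓡 _ M _ _ D
  obtain ⟨n, z, hzinj, hzeq, hzadd⟩ := hchart 𝓡
  have hl : ∀ c : Cl 𝓡 D, ∃ y : Pic0 K F, (∀ g ∈ 𝓡.I, g • y = y) ∧
      D.ρ (Quotient.out c) - y ∈ 𝓡.kerRed := fun c => hlift 𝓡 _
  choose yt hyI hyJ using hl
  have hmem : ∀ (m : M) (c : Cl 𝓡 D), cl 𝓡 D m = c → D.ρ m - yt c ∈ 𝓡.kerRed := by
    intro m c h
    have h1 : D.ρ m - D.ρ (Quotient.out c) ∈ 𝓡.kerRed :=
      ((cl_eq_iff _ _).1 (h.trans (cl_out c).symm)).2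
    have h2 : D.ρ m - yt c = (D.ρ m - D.ρ (Quotient.out c)) +
        (D.ρ (Quotient.out c) - yt c) := by abel
    rw [h2]
    exact add_mem h1 (hyJ c)
  -- the index type
  have : Finite ((Cl 𝓡 D) ⊕ (Cl 𝓡 D) × Fin n) := inferInstance
  obtain ⟨m, ⟨e⟩⟩ := Finite.exists_equiv_fin ((Cl 𝓡 D) ⊕ (Cl 𝓡 D) × Fin n)
  refine ⟨Fin m, inferInstance, fun x i => psiT z yt hmem x (e.symm i), ?_, ?_, ?_, ?_⟩
  · intro x x' h
    apply psiT_injective z yt hmem hzinj
    funext j
    have := congrFun h (e j)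
    simpa using this
  · intro x i
    exact psiT_mem z yt hmem x _
  · intro g hg x x' hκ hρ i
    exact psiT_smul z yt hmem (hker 𝓡) hyI hzeq g hg x x' hκ hρ _
  · intro i
    have := psiT_add_mem z yt hmem (fun Λ a b => hzadd (M × M) Λ a b) (e.symm i)
    refine Algebra.adjoin_mono ?_ this
    rintro f (⟨j, rfl⟩ | ⟨j, rfl⟩)
    · left
      exact ⟨e j, by simp⟩
    · right
      exact ⟨e j, by simp⟩

/-- **T1-ABS, unconditional.**  Every torsor-set datum over an abstract good reduction datum has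
integral, inertia-equivariant, injective coordinates with algebraic addition. -/
theorem torsorLocal : TorsorLocalStatement K F k Fk :=
  torsorLocal_of_chart (chartStatement_of_det Fermat.Agent.A3.H255.Det.detStatement)
    Fermat.Agent.A3.H555.kerInertiaStatement
    (Fermat.Agent.A3.H555.liftiStatement_of_disc (Fermat.Agent.A3.H75.discStatement K F k Fk)
      Fermat.Agent.A3.H555.discEquivStatement)

end Main

end Fermat.Agent.S15.H946

end
end
-- ===== PACK-END S15/H946/TorsorLocal.lean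

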