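import Fermat.Agent.Pack.L1.E7L1
import Fermat.Agent.Pack.S59C.E9L3
import Fermat.Agent.Pack.S44C.G0E26L0
import Fermat.Agent.Pack.S44C.G0E28L2
import Fermat.Agent.Pack.L1.E0L0
import Fermat.Agent.Pack.L1.E4L1
import Fermat.Agent.Pack.S59C.E10L0
import Fermat.Agent.Pack.S44C.G0E10L2
import Fermat.Agent.Pack.S59C.E7L3
import Fermat.Agent.Pack.S59C.E6L2
import Fermat.Agent.Pack.S44C.G0E27L0
import Fermat.Agent.Pack.L1.E5L1
import Fermat.Agent.Pack.S43GC.G0E13L0
import Fermat.Agent.Pack.L1.E7L2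
import Fermat.Agent.Pack.L1.E1L3
import Fermat.Agent.Pack.S59C.E10L1
import Fermat.Agent.Pack.S43MC.G0E26L0
import Fermat.Agent.Pack.S59C.E7L1

-- ===== PACK-BEGIN S15/H608/T6ppKum.lean
section





/-!
# S15 / DESC, leaf T6'' (helper608), parts (a), (b), (d): the Kummer form of the wall A2 with the
divisibility hypothesis moved from `f` to `τ f / f`

* `algSP`              : ALG route S (no `SepCoord`), hypothesis `DivisibleDiv E m (τ f * f⁻¹)`;
* `kummer_of_levelsP`  : T1' (descent from `F̄` to good finite levels);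
* `t1SP`               : `HasModelS` at level `N` ⟹ the primed Kummer statement at level `N`;
* `kummerP`            : UNCONDITIONAL, for `q ‖ N`, `q ∤ m` (`q = 3 → 2 ∣ N`, `q = 2 → 3 ∣ N`;
                         both vacuous for `q ≥ 5`): for `τ` in the inertia group at `q` and
                         `f ≠ 0` with `m ∣ div (τ f / f)`:  `τ²f · f = h^m · (τ f)²`.
-/

set_option autoImplicit false
set_option linter.unusedSectionVars false
set_option linter.unusedVariables false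
set_option synthInstance.maxHeartbeats 400000
set_option maxHeartbeats 1600000

noncomputable section

namespace Fermat.Agent.S15.H608

open ModularCurve AlgebraicCurve Fermat.Agent.A2 Fermat.Agent.A2.Alg Fermat.Agent.A2.Alg.H34
  Fermat.Agent.A2.T1.H669 Fermat.Agent.A2.Top.H994 Fermat.Agent.A2.Top.H553

/-! ## (a) ALG -/

section Alg

variable {R E F : Type} [CommRing R] [IsDomain R] [IsDiscreteValuationRing R]
  [HenselianLocalRing R] [IsAlgClosed (IsLocalRing.ResidueField R)]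
  [Field E] [CharZero E] [Algebra R E] [IsFractionRing R E]
  [Field F] [Algebra E F] [Algebra R F] [IsScalarTower R E F]

/-- **ALG, route S, primed form**: the hypothesis is `DivisibleDiv` for `τ f / f` only. -/
theorem algSP (w : R) (hw : Irreducible w) (q m : ℕ) (hq : q.Prime)
    (hqR : (q : R) ∈ IsLocalRing.maximalIdeal R) (hm : 0 < m) (hqm : ¬ q ∣ m)
    (x : F) (hx : Transcendental E x)
    (hfin : FiniteDimensional (IntermediateField.adjoin E ({x} : Set F)) F)
    (hconst : ∀ f : F, IsAlgebraic E f → f ∈ (algebraMap E F).range)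
    (Bf Bi : Subalgebra R F)
    (hBf : ∀ f : F, f ∈ Bf ↔ IsIntegral (Algebra.adjoin R ({x} : Set F)) f)
    (hBi : ∀ f : F, f ∈ Bi ↔ IsIntegral (Algebra.adjoin R ({x⁻¹} : Set F)) f)
    (cf : SSChart w Bf) (ci : SSChart w Bi)
    (τ : F ≃+* F) (τE : E ≃+* E) (τR : R ≃+* R)
    (hτE : ∀ e : E, τ (algebraMap E F e) = algebraMap E F (τE e))
    (hτR : ∀ r : R, τE (algebraMap R E r) = algebraMap R E (τR r))
    (hτf : ∀ b ∈ Bf, ∃ c ∈ Bf, τ b - b = algebraMap R F w * c)
    (hτi : ∀ b ∈ Bi, ∃ c ∈ Bi, τ b - b = algebraMap R F w * c) :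
    ∀ f : F, f ≠ 0 → DivisibleDiv E m (τ f * f⁻¹) →
      ∃ h : F, h ≠ 0 ∧ τ (τ f) * f = h ^ m * (τ f) ^ 2 := by
  have hCf : ChartCtx E w x Bf := ⟨hw, hx, hfin, hconst, hBf⟩
  have hCi : ChartCtx E w x⁻¹ Bi := chartCtx_inv w hw x hx hfin hconst Bi hBi
  have hTf : TauCtx w Bf τ τE τR := ⟨hτE, hτR, hτf⟩
  have hTi : TauCtx w Bi τ τE τR := ⟨hτE, hτR, hτi⟩
  intro f hf hdivu
  have hτf0 : τ f ≠ 0 := (map_ne_zero τ).2 hf
  have hu : τ f * f⁻¹ ≠ 0 := mul_ne_zero hτf0 (inv_ne_zero hf)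
  obtain ⟨h, hh, hh2⟩ := stepIIS q m hq hqR hm hqm w x Bf Bi hCf hCi cf ci
    τ τE τR hTf hTi (τ f * f⁻¹) hu hdivu
    (stepI w x Bf hCf cf (incomparable_of_ssChart cf) τ τE τR hTf f hf)
    (stepI w x⁻¹ Bi hCi ci (incomparable_of_ssChart ci) τ τE τR hTi f hf)
  refine ⟨h, hh, ?_⟩
  rw [map_mul, map_inv₀] at hh2
  have h3 : τ (τ f) = h ^ m * (τ f * f⁻¹) * τ f := by
    rw [← hh2, mul_assoc, inv_mul_cancel₀ hτf0, mul_one]
  rw [h3]
  field_simp

end Alg

/-! ## (b) T1' -/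

/-- **T1', core.**  One `τ`: the primed Kummer statement on `F̄` from the primed Kummer statement
at suitable finite levels. -/
theorem kummer_of_levelsP (F₀ : IntermediateField ℚ (LaurentSeries ℚ)) (m : ℕ)
    (τ : (AlgebraicClosure ℚ) ≃ₐ[ℚ] (AlgebraicClosure ℚ))
    (hlevel : ∀ S : Finset (AlgebraicClosure ℚ),
      ∃ E : IntermediateField ℚ (AlgebraicClosure ℚ), (∀ s ∈ S, s ∈ E) ∧
      ∃ τE : E ≃ₐ[ℚ] E,
        (∀ e : E, ((τE e : E) : (AlgebraicClosure ℚ)) = τ (e : (AlgebraicClosure ℚ))) ∧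
        ∀ y : ↥(laurentBaseChange E F₀), y ≠ 0 →
          (∀ V : ValuationSubring ↥(laurentBaseChange E F₀), IsDiscreteValuationRing V →
            (∀ e : E, algebraMap E ↥(laurentBaseChange E F₀) e ∈ V) →
            ∃ h u : ↥(laurentBaseChange E F₀), h ≠ 0 ∧ u ∈ V ∧ u⁻¹ ∈ V ∧
              arithmeticRingAut F₀ τE y * y⁻¹ = u * h ^ m) →
          ∃ h : ↥(laurentBaseChange E F₀), h ≠ 0 ∧
            arithmeticRingAut F₀ τE (arithmeticRingAut F₀ τE y) * y =
              h ^ m * (arithmeticRingAut F₀ τE y) ^ 2)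
    (f : ↥(laurentBaseChange (AlgebraicClosure ℚ) F₀)) (hf : f ≠ 0)
    (hdiv : ∀ v : Place (AlgebraicClosure ℚ) ↥(laurentBaseChange (AlgebraicClosure ℚ) F₀),
      (m : ℤ) ∣ v.ord (arithmeticRingAut F₀ τ f * f⁻¹)) :
    ∃ h : ↥(laurentBaseChange (AlgebraicClosure ℚ) F₀), h ≠ 0 ∧
      arithmeticRingAut F₀ τ (arithmeticRingAut F₀ τ f) * f =
        h ^ m * (arithmeticRingAut F₀ τ f) ^ 2 := by
  obtain ⟨S, hS⟩ := exists_finset_descent F₀ f
  obtain ⟨E, hSE, τE, hτE, hE⟩ := hlevel S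
  obtain ⟨y, hιy⟩ := hS E hSE
  have hy0 : y ≠ 0 := by
    rintro h0
    apply hf
    rw [← hιy, h0, map_zero]
  have hτy0 : arithmeticRingAut F₀ τE y ≠ 0 :=
    (map_ne_zero_iff _ (arithmeticRingAut F₀ τE).injective).2 hy0
  have hu0 : arithmeticRingAut F₀ τE y * y⁻¹ ≠ 0 := mul_ne_zero hτy0 (inv_ne_zero hy0)
  have hιu : iota E F₀ (arithmeticRingAut F₀ τE y * y⁻¹) = arithmeticRingAut F₀ τ f * f⁻¹ := by
    rw [map_mul, map_inv₀, iota_arithmeticRingAut E F₀ τ τE hτE, hιy]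
  obtain ⟨h, hh0, hh⟩ := hE y hy0
    (divisibleDiv_of_ord E F₀ m _ hu0 (fun v => by rw [hιu]; exact hdiv v))
  refine ⟨iota E F₀ h, iota_ne_zero E _ hh0, ?_⟩
  have := congrArg (iota E F₀) hh
  rw [map_mul, map_mul, map_pow, map_pow,
    iota_arithmeticRingAut E F₀ τ τE hτE,
    iota_arithmeticRingAut E F₀ τ τE hτE, hιy] at this
  exact this

/-- The primed Kummer form of the wall at `(N, q, m)`. -/
def KummerTargetP (N q m : ℕ) : Prop :=
  ∀ P : ValuationSubring (AlgebraicClosure ℚ), P.LiesOverPrime q →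
    ∀ τ ∈ P.inertiaSubgroupIn ℚ, ∀ f : modularFunctionFieldBar N, f ≠ 0 →
      (∀ v : Place (AlgebraicClosure ℚ) (modularFunctionFieldBar N),
        (m : ℤ) ∣ v.ord (arithmeticRingAut (modularFunctionFieldFull N) τ f * f⁻¹)) →
      ∃ h : modularFunctionFieldBar N, h ≠ 0 ∧
        arithmeticRingAut (modularFunctionFieldFull N) τ
            (arithmeticRingAut (modularFunctionFieldFull N) τ f) * f =
          h ^ m * (arithmeticRingAut (modularFunctionFieldFull N) τ f) ^ 2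

/-- **T1' for one level, without `SepCoord`.** -/
theorem t1SP (N q m : ℕ) (hq : q.Prime) (hm : 0 < m) (hqm : ¬ q ∣ m)
    (hMOD : ∀ (P : ValuationSubring (AlgebraicClosure ℚ))
        (E : IntermediateField ℚ (AlgebraicClosure ℚ)),
      P.LiesOverPrime q → GoodField P E → HasModelS P E N) :
    KummerTargetP N q m := by
  intro P hP τ hτ f hf hdiv
  refine kummer_of_levelsP (modularFunctionFieldFull N) m τ (fun S => ?_) f hf hdiv
  obtain ⟨E, hSE, hE⟩ := Fermat.Agent.A2.IF.H429.ifStatement q hq P hP S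
  refine ⟨E, hSE, hE.res τ hτ, fun e => rfl, fun y hy0 hdd => ?_⟩
  obtain ⟨x, Bf, Bi, hx, hfin, hconst, hBf, hBi, hcf, hci, hτx, hτf, hτi⟩ := hMOD P E hP hE
  haveI : IsDiscreteValuationRing ↥(RE P E) := hE.dvr
  haveI : HenselianLocalRing ↥(RE P E) := hE.henselian
  haveI : IsAlgClosed (IsLocalRing.ResidueField ↥(RE P E)) := hE.algClosed
  obtain ⟨w, hw⟩ := IsDiscreteValuationRing.exists_irreducible ↥(RE P E)
  obtain ⟨cf⟩ := hcf w hw
  obtain ⟨ci⟩ := hci w hw
  exact algSP (R := ↥(RE P E)) (E := E) (F := ↥(FE E N)) w hw q m hq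
      (natCast_mem_maximalIdeal_RE E hP) hm hqm x hx hfin hconst Bf Bi hBf hBi
      cf ci
      (arithmeticRingAut (modularFunctionFieldFull N) (hE.res τ hτ))
      (hE.res τ hτ).toRingEquiv (resR hE τ hτ)
      (fun e => arithmeticRingAut_algebraMap (modularFunctionFieldFull N) (hE.res τ hτ) e)
      (fun r => rfl)
      (hτf τ hτ (hE.res τ hτ) (fun e => rfl) w hw)
      (hτi τ hτ (hE.res τ hτ) (fun e => rfl) w hw) y hy0 hdd

/-! ## (d) MOD plugged in -/

/-- **The primed Kummer form of the wall, UNCONDITIONAL**, for `q ‖ N`, `q ∤ m`, at the levels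
where the semistable model is available without auxiliary level (always if `q ≥ 5`). -/
theorem kummerP (N q m : ℕ) (hq : q.Prime) (hqN : q ∣ N) (hq2 : ¬ q ^ 2 ∣ N) (hN : N ≠ 0)
    (h3 : q = 3 → 2 ∣ N) (h2 : q = 2 → 3 ∣ N) (hm : 0 < m) (hqm : ¬ q ∣ m) :
    KummerTargetP N q m := by
  apply t1SP N q m hq hm hqm
  intro P E hP hE
  exact hasModelS_of_parts
    (fun P E M q _ _ w => Fermat.Agent.A2.Mod.H142.s2 P E M q w)
    (fun P E M q _ _ w => Fermat.Agent.A2.Mod.H372.s3 P E M q w)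
    Fermat.Agent.A2.Top.H216.goodRedStatement
    P E N q hq hqN hq2 hN h3 h2 hP hE

end Fermat.Agent.S15.H608

end
end
-- ===== PACK-END S15/H608/T6ppKum.lean

-- ===== PACK-BEGIN S15/H608/T6pp.lean
section




/-!
# S15 / DESC, leaf T6'' (helper608): `(τ - 1)² = 0` on the divisible hull of the `τ`-fixed classes

`coord/S15-LOCp-helper208.md`, sec. 3.  UNCONDITIONAL.

For `q ‖ N`, `q ∤ m` (and `q = 3 → 2 ∣ N`, `q = 2 → 3 ∣ N`, vacuous for `q ≥ 5`), `P` a place of
`ℚ̄` over `q`, `τ` in the inertia group of `P` and `x ∈ J₀(N)`: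

* `t6pp`        : `τ • (m • x) = m • x  →  τ • (τ • x) + x = 2 • (τ • x)`;
* `t6pp_sub`    : the same conclusion in the form `τ • (τ • x - x) = τ • x - x`;
* `t6pp_fixed`  : hypothesis `m • x ∈ J₀(N)^{G_ℚ}` (`FixedPoints.addSubgroup`);
* `t6ppStatement`       : `H208.T6ppStatement N q m` (VERBATIM `S15/H208/LocPSpec.lean`);
* `t6ppStatement_prime` : `H208.T6ppStatement p p (r ^ k)` for `p ≥ 5` prime, `r ≠ p` prime;
* `t6pp_prime`  : level `p ≥ 5` prime, `q = p`, `m = r ^ k` with `r ≠ p` prime: for every `h` in the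
                  `r`-divisible hull of `A = J₀(p)(ℚ)`, `N (N h) = 0`, `N = τ - 1`.

The case `m • x = 0` is the wall A2 (`A2.Spec.Target`).
-/

set_option autoImplicit false

noncomputable section

namespace Fermat.Agent.S15.H608

open ModularCurve AlgebraicCurve

/-- **T6''.**  Unipotence of inertia at `q ‖ N` on the classes with `τ`-fixed `m`-th multiple. -/
theorem t6pp (N q m : ℕ) (hq : q.Prime) (hqN : q ∣ N) (hq2 : ¬ q ^ 2 ∣ N) (hN : N ≠ 0)
    (h3 : q = 3 → 2 ∣ N) (h2 : q = 2 → 3 ∣ N) (hm : 0 < m) (hqm : ¬ q ∣ m)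
    (P : ValuationSubring (AlgebraicClosure ℚ)) (hP : P.LiesOverPrime q)
    (τ : AlgebraicClosure ℚ ≃ₐ[ℚ] AlgebraicClosure ℚ) (hτ : τ ∈ P.inertiaSubgroupIn ℚ)
    (x : JZero N) (hx : τ • (m • x) = m • x) :
    τ • (τ • x) + x = 2 • (τ • x) := by
  haveI : NeZero N := ⟨hN⟩
  exact unipotent_of_kummerAtP N m hm τ
    (kummerP N q m hq hqN hq2 hN h3 h2 hm hqm P hP τ hτ) x hx

/-- **T6''**, subtraction form: `N (N x) = 0` for `N = τ - 1`. -/
theorem t6pp_sub (N q m : ℕ) (hq : q.Prime) (hqN : q ∣ N) (hq2 : ¬ q ^ 2 ∣ N) (hN : N ≠ 0)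
    (h3 : q = 3 → 2 ∣ N) (h2 : q = 2 → 3 ∣ N) (hm : 0 < m) (hqm : ¬ q ∣ m)
    (P : ValuationSubring (AlgebraicClosure ℚ)) (hP : P.LiesOverPrime q)
    (τ : AlgebraicClosure ℚ ≃ₐ[ℚ] AlgebraicClosure ℚ) (hτ : τ ∈ P.inertiaSubgroupIn ℚ)
    (x : JZero N) (hx : τ • (m • x) = m • x) :
    τ • (τ • x - x) = τ • x - x := by
  have h := t6pp N q m hq hqN hq2 hN h3 h2 hm hqm P hP τ hτ x hx
  rw [two_nsmul] at h
  rw [smul_sub, sub_eq_sub_iff_add_eq_add]
  rw [h]

/-- **T6''** for classes with rational `m`-th multiple. -/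
theorem t6pp_fixed (N q m : ℕ) (hq : q.Prime) (hqN : q ∣ N) (hq2 : ¬ q ^ 2 ∣ N) (hN : N ≠ 0)
    (h3 : q = 3 → 2 ∣ N) (h2 : q = 2 → 3 ∣ N) (hm : 0 < m) (hqm : ¬ q ∣ m)
    (P : ValuationSubring (AlgebraicClosure ℚ)) (hP : P.LiesOverPrime q)
    (τ : AlgebraicClosure ℚ ≃ₐ[ℚ] AlgebraicClosure ℚ) (hτ : τ ∈ P.inertiaSubgroupIn ℚ)
    (x : JZero N)
    (hx : m • x ∈
      FixedPoints.addSubgroup (AlgebraicClosure ℚ ≃ₐ[ℚ] AlgebraicClosure ℚ) (JZero N)) :
    τ • (τ • x) + x = 2 • (τ • x) :=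
  t6pp N q m hq hqN hq2 hN h3 h2 hm hqm P hP τ hτ x (hx τ)

/-- **T6''** in the frozen shape of `S15/H208/LocPSpec.lean`. -/
theorem t6ppStatement (N q m : ℕ) (hq : q.Prime) (hqN : q ∣ N) (hq2 : ¬ q ^ 2 ∣ N) (hN : N ≠ 0)
    (h3 : q = 3 → 2 ∣ N) (h2 : q = 2 → 3 ∣ N) (hm : 0 < m) (hqm : ¬ q ∣ m) :
    Fermat.Agent.S15.H208.T6ppStatement N q m :=
  fun P hP τ hτ x hx => t6pp N q m hq hqN hq2 hN h3 h2 hm hqm P hP τ hτ x (hx τ)

/-- **T6''** in the frozen shape, at prime level `p ≥ 5`, `q = p`, `m = r ^ k`, `r ≠ p` prime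
(the instance consumed by `H208.CountInst`). -/
theorem t6ppStatement_prime (p r : ℕ) (hp : p.Prime) (hp5 : 5 ≤ p) (hr : r.Prime) (hrp : r ≠ p)
    (k : ℕ) : Fermat.Agent.S15.H208.T6ppStatement p p (r ^ k) := by
  have hq2 : ¬ p ^ 2 ∣ p := by
    intro h
    have h1 := Nat.le_of_dvd hp.pos h
    have h2 : p * 2 ≤ p ^ 2 := by
      rw [pow_two]; exact Nat.mul_le_mul_left p (by omega)
    omega
  have hpm : ¬ p ∣ r ^ k := by
    intro h
    have h1 := hp.dvd_of_dvd_pow h
    exact hrp ((Nat.prime_dvd_prime_iff_eq hp hr).1 h1).symm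
  exact t6ppStatement p p (r ^ k) hp dvd_rfl hq2 hp.ne_zero (fun h => by omega)
    (fun h => by omega) (pow_pos hr.pos k) hpm

/-- **T6'' at prime level** `p ≥ 5`, `q = p`, `m = r ^ k`, `r ≠ p` prime: `N (N h) = 0` on the
`r`-divisible hull of `J₀(p)(ℚ)` for `N = τ - 1`, `τ` in an inertia group at `p`. -/
theorem t6pp_prime (p r : ℕ) (hp : p.Prime) (hp5 : 5 ≤ p) (hr : r.Prime) (hrp : r ≠ p) (k : ℕ)
    (P : ValuationSubring (AlgebraicClosure ℚ)) (hP : P.LiesOverPrime p)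
    (τ : AlgebraicClosure ℚ ≃ₐ[ℚ] AlgebraicClosure ℚ) (hτ : τ ∈ P.inertiaSubgroupIn ℚ)
    (x : JZero p)
    (hx : (r ^ k) • x ∈
      FixedPoints.addSubgroup (AlgebraicClosure ℚ ≃ₐ[ℚ] AlgebraicClosure ℚ) (JZero p)) :
    τ • (τ • x - x) = τ • x - x := by
  have hq2 : ¬ p ^ 2 ∣ p := by
    intro h
    have h1 := Nat.le_of_dvd hp.pos h
    have h2 : p * 2 ≤ p ^ 2 := by
      rw [pow_two]; exact Nat.mul_le_mul_left p (by omega)
    omega
  have hpm : ¬ p ∣ r ^ k := by
    intro h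
    have h1 := hp.dvd_of_dvd_pow h
    exact hrp ((Nat.prime_dvd_prime_iff_eq hp hr).1 h1).symm
  exact t6pp_sub p p (r ^ k) hp dvd_rfl hq2 hp.ne_zero (fun h => by omega) (fun h => by omega)
    (pow_pos hr.pos k) hpm P hP τ hτ x (hx τ)

end Fermat.Agent.S15.H608

end
end
-- ===== PACK-END S15/H608/T6pp.lean

-- ===== PACK-BEGIN G1/X/Closed.lean
section




/-!
# Row GLUE, G1 block X — the landed citations of block ORD  (acting architect helper60)

PLAIN world (imports plain files of main: `Ribet/H883/WallInputs`, `Ribet/H584/Places`).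

* `notMultType3 : NotMultType3Statement` = landed NMT-W (`Ribet.H883.notMultTypeW`) at `p = 3`;
* `place3       : Place3Statement`       = landed `Ribet.H584.places` at `q = 3`;
* `ordExcl      : OrdExclStatement`      (block ORD, closed);
* `twistExcl_of_three : TwistCurveStatement → ModSideStatement → LocalExclStatement →
                        Glue.TwistExclStatement`.
-/

set_option autoImplicit false

namespace Fermat.Agent.G1.X

theorem notMultType3 : NotMultType3Statement := fun W hΔ h3 A hA =>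
  Fermat.Agent.Ribet.H883.notMultTypeW W 3 hΔ Nat.prime_three (by norm_num) h3 A hA

theorem place3 : Place3Statement := by
  obtain ⟨A, hA, -⟩ := Fermat.Agent.Ribet.H584.places 3 Nat.prime_three
  exact ⟨A, hA⟩

/-- **Block ORD, closed.** -/
theorem ordExcl : OrdExclStatement := ordExcl_of notMultType3 place3

/-- **Block X from its three open blocks** TWC, MOD, LOC. -/
theorem twistExcl_of_three (hTWC : TwistCurveStatement) (hMOD : ModSideStatement)
    (hLOC : LocalExclStatement) : Fermat.Agent.Glue.TwistExclStatement :=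
  twistExcl_of hTWC hMOD hLOC ordExcl

/-- **Block X from its five open leaves** (ORD closed). -/
theorem twistExcl_of_five (hTWC : TwistCurveStatement) (hMF : ModFlatStatement)
    (hM3 : ModThreeStatement) (hLW : LocWStatement) (hFT : FlatTwistStatement) :
    Fermat.Agent.Glue.TwistExclStatement :=
  twistExcl_of_leaves hTWC hMF hM3 hLW hFT ordExcl

end Fermat.Agent.G1.X

end
-- ===== PACK-END G1/X/Closed.lean

-- ===== PACK-BEGIN G1/H4/LocW.lean
section




/-!
# Row GLUE, block X4 (LOCAL-W at `3`) — helper4, squad S04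

The local structure at `3` of `W[3](ℚ̄)` for an integral Weierstrass curve `W`, on the EXACT type
used by the frozen S50 / `NoFix3` (`Submodule.torsionBy ℤ ((W.map _)⁄ℚ̄).Point (3 : ℕ)` with the
Prelude's Galois action), from two landed plain theorems of row S59 (layer E):

* `locW_flat` : `W` good at `3`  ⟹  `S19.HopfModel 3 (W[3]) (σ • ·)`
  (finite flat commutative cocommutative Hopf algebra over `ℤ_(3)`);
  = `S59.H382.hopfModel_torsion` at `n = 3`.  No semistability, no irreducibility.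
* `locW_ord` : `W` semistable, bad at `3`, `A` a place over `3`  ⟹  there is `t ≠ 0` in `W[3]`
  such that the decomposition group of `A` maps `t` to `± t` and `σ x - x ∈ {0, t, -t}` for all
  `x ∈ W[3]`, `σ` in the inertia group of `A` (the line of the kernel of reduction);
  from `S59.H396.ordDataAt_of_mult`.
* `locW_ord_nofix` : if moreover no nonzero point of `W[3]` is fixed by the inertia group of `A`,
  the line is NOT pointwise fixed (`∃ σ₀ ∈ I, σ₀ t = -t`), every `σ ∈ I` acts on the line by a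
  sign and trivially on the quotient, and `W[3]` is not `I`-split:
  no `u ∉ {0, t, -t}` spans an `I`-stable line.
* `locW_ord_cyclo` : the same, plus: `σ t = c • t` whenever `σ ∈ I` raises the cube roots of unity
  to the `c`-th power, i.e. inertia acts on the line through the mod-`3` cyclotomic character
  (`Ribet.H403.det_eq_of_apply_root` + a triangular determinant).

Imports = PLAIN files of main only (`S59/H382`, `S59/H396`, `Ribet/H403`): rule R1 of the board.
-/

set_option autoImplicit false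
set_option linter.style.haveILetI false

open WeierstrassCurve WeierstrassCurve.Affine
open scoped WeierstrassCurve.Affine

namespace Fermat.Agent.G1.H4

/-- `ℚ̄` -/
abbrev Qb4 : Type := AlgebraicClosure ℚ

/-- `Gal(ℚ̄/ℚ)` -/
abbrev GQ4 : Type := Qb4 ≃ₐ[ℚ] Qb4

/-- `W[3](ℚ̄)` on the type of the frozen S50. -/
abbrev W3 (W : WeierstrassCurve ℤ) : Type :=
  Submodule.torsionBy ℤ ((W.map (Int.castRingHom ℚ))⁄(AlgebraicClosure ℚ)).Point (3 : ℕ)

/-- The clause of S50 at one place `A`. -/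
def NoFixAt (W : WeierstrassCurve ℤ) (A : ValuationSubring (AlgebraicClosure ℚ)) : Prop :=
  ∀ x : W3 W, (∀ σ ∈ A.inertiaSubgroupIn ℚ, σ • x = x) → x = 0

/-- **X4, good reduction.** -/
theorem locW_flat (W : WeierstrassCurve ℤ) (hgood : W.IsGoodPrimeFor 3) :
    Fermat.Agent.S19.HopfModel 3 (W3 W) (fun σ x => σ • x) := by
  haveI : Fact (Nat.Prime 3) := ⟨by norm_num⟩
  exact Fermat.Agent.S59.H382.hopfModel_torsion W 3 (by norm_num) hgood 3 (by decide)

/-! ## Groups of order three -/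

section three

variable {E : Type*} [AddCommGroup E]

/-- A subgroup of order `3` is `{0, t, -t}` for each of its nonzero elements `t`. -/
theorem mem_three_cases {L : AddSubgroup E} (hL : Nat.card L = 3) {t : E} (ht : t ∈ L)
    (ht0 : t ≠ 0) {y : E} (hy : y ∈ L) : y = 0 ∨ y = t ∨ y = -t := by
  haveI : Finite L := Nat.finite_of_card_ne_zero (by rw [hL]; norm_num)
  have h3 : 3 • t = 0 := by
    have h := card_nsmul_eq_zero' (G := L) (x := ⟨t, ht⟩)
    rw [hL] at h
    have h' := congrArg (Subtype.val) h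
    simpa using h'
  have hord : addOrderOf t = 3 := addOrderOf_eq_prime (p := 3) h3 ht0
  have hle : AddSubgroup.zmultiples t ≤ L := (AddSubgroup.zmultiples_le).2 ht
  have hcard : Nat.card (AddSubgroup.zmultiples t) = 3 := by
    rw [Nat.card_zmultiples, hord]
  have heq : AddSubgroup.zmultiples t = L :=
    AddSubgroup.eq_of_le_of_card_ge hle (by rw [hL, hcard])
  rw [← heq] at hy
  obtain ⟨k, rfl⟩ := AddSubgroup.mem_zmultiples_iff.1 hy
  have h3z : (3 : ℤ) • t = 0 := by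
    have := h3
    rw [← natCast_zsmul] at this
    simpa using this
  have hk : k • t = (k % 3) • t := by
    conv_lhs => rw [← Int.emod_add_mul_ediv k 3]
    rw [add_smul, mul_comm, mul_smul, h3z, smul_zero, add_zero]
  have hlt : k % 3 < 3 := Int.emod_lt_of_pos k (by norm_num)
  have hge : 0 ≤ k % 3 := Int.emod_nonneg k (by norm_num)
  rw [hk]
  have : k % 3 = 0 ∨ k % 3 = 1 ∨ k % 3 = 2 := by omega
  rcases this with h | h | h
  · left; rw [h, zero_smul]
  · right; left; rw [h, one_smul]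
  · right; right
    rw [h]
    have : (2 : ℤ) • t + t = 0 := by
      have : (2 : ℤ) • t + t = (3 : ℤ) • t := by
        rw [show (3 : ℤ) = 2 + 1 by norm_num, add_smul, one_smul]
      rw [this, h3z]
    exact eq_neg_of_add_eq_zero_left this

end three

/-! ## The line of the kernel of reduction -/

/-- `σ ∈ I_A` lies in the decomposition group of `A`. -/
theorem mem_decomposition_of_mem_inertia {A : ValuationSubring (AlgebraicClosure ℚ)}
    {σ : GQ4} (hσ : σ ∈ A.inertiaSubgroupIn ℚ) : σ ∈ A.decompositionSubgroup ℚ := by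
  obtain ⟨τ, -, rfl⟩ := Subgroup.mem_map.1 hσ
  exact τ.2

/-- **X4, multiplicative reduction**: the line `{0, t, -t}` of the kernel of reduction. -/
theorem locW_ord (W : WeierstrassCurve ℤ) (hΔ : W.Δ ≠ 0) (hW : W.IsSemistableModel)
    (hbad : ¬ W.IsGoodPrimeFor 3) (A : ValuationSubring (AlgebraicClosure ℚ))
    (hA : A.LiesOverPrime 3) :
    ∃ t : W3 W, t ≠ 0 ∧
      (∀ σ ∈ A.decompositionSubgroup ℚ, σ • t = t ∨ σ • t = -t) ∧
      (∀ σ ∈ A.inertiaSubgroupIn ℚ, ∀ x : W3 W,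
        σ • x - x = 0 ∨ σ • x - x = t ∨ σ • x - x = -t) := by
  haveI : Fact (Nat.Prime 3) := ⟨by norm_num⟩
  have hbad' : ((3 : ℕ) : ℤ) ∣ W.Δ := not_not.mp hbad
  have hc₄ : ¬ ((3 : ℕ) : ℤ) ∣ W.c₄ := hW 3 (by norm_num) hbad'
  obtain ⟨C, hC, hD, hI, -⟩ :=
    Fermat.Agent.S59.H396.ordDataAt_of_mult (W := W) (A := A) (p := 3) (by norm_num) hΔ hbad'
      hc₄ hA
  set E := (Fermat.Agent.S59.H899.curveQbar W).Point with hE
  set L : AddSubgroup E := C ⊓ Fermat.Agent.S59.H360.tors 3 E 1 with hLdef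
  have hL : Nat.card L = 3 := by
    have := hC 1
    rw [pow_one] at this
    exact this
  haveI : Finite L := Nat.finite_of_card_ne_zero (by rw [hL]; norm_num)
  -- a nonzero element of the line
  have hnt : Nontrivial L := by
    rw [← Finite.one_lt_card_iff_nontrivial, hL]
    norm_num
  obtain ⟨⟨t₀, ht₀L⟩, ht₀⟩ := exists_ne (0 : L)
  have ht₀0 : t₀ ≠ 0 := fun h => ht₀ (Subtype.ext h)
  have hmemL : ∀ y : E, y ∈ L ↔ y ∈ C ∧ (3 : ℤ) • y = 0 := by
    intro y
    rw [hLdef, AddSubgroup.mem_inf, Fermat.Agent.S59.H360.mem_tors, pow_one]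
    constructor
    · rintro ⟨h1, h2⟩
      refine ⟨h1, ?_⟩
      rw [← h2, ← natCast_zsmul]
      rfl
    · rintro ⟨h1, h2⟩
      refine ⟨h1, ?_⟩
      rw [← h2, ← natCast_zsmul]
      rfl
  have htors : ∀ x : W3 W, (3 : ℤ) • (x : E) = 0 := by
    intro x
    have := x.2
    rw [Submodule.mem_torsionBy_iff] at this
    simpa using this
  have ht₀3 : (3 : ℤ) • t₀ = 0 := ((hmemL t₀).1 ht₀L).2
  have ht₀mem : t₀ ∈ Submodule.torsionBy ℤ E ((3 : ℕ) : ℤ) := by
    rw [Submodule.mem_torsionBy_iff]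
    simpa using ht₀3
  refine ⟨⟨t₀, ht₀mem⟩, fun h => ht₀0 (congrArg Subtype.val h), ?_, ?_⟩
  · intro σ hσ
    have h1 : σ • t₀ ∈ L := by
      rw [hmemL]
      refine ⟨hD σ hσ t₀ ((hmemL t₀).1 ht₀L).1, ?_⟩
      rw [← WeierstrassCurve.Affine.Point.algEquiv_smul_zsmul, ht₀3, smul_zero]
    have h2 : σ • t₀ ≠ 0 := by
      intro h
      apply ht₀0
      have h' := congrArg (fun y => σ⁻¹ • y) h
      simp only [inv_smul_smul] at h'
      rw [h']
      exact smul_zero (A := E) σ⁻¹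
    rcases mem_three_cases hL ht₀L ht₀0 h1 with h | h | h
    · exact absurd h h2
    · left; exact Subtype.ext h
    · right; exact Subtype.ext h
  · intro σ hσ x
    have h1 : σ • (x : E) - (x : E) ∈ L := by
      rw [hmemL]
      refine ⟨hI σ hσ 1 (x : E) ?_, ?_⟩
      · have := htors x
        rw [pow_one, ← natCast_zsmul]
        exact this
      · rw [zsmul_sub, ← WeierstrassCurve.Affine.Point.algEquiv_smul_zsmul, htors x, smul_zero,
          sub_zero]
    rcases mem_three_cases hL ht₀L ht₀0 h1 with h | h | h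
    · left; exact Subtype.ext h
    · right; left; exact Subtype.ext h
    · right; right; exact Subtype.ext h

/-- every point of `W[3]` is killed by `3` -/
theorem three_zsmul_W3 (W : WeierstrassCurve ℤ) (u : W3 W) : (3 : ℤ) • u = 0 := by
  have := Submodule.smul_torsionBy ((3 : ℕ) : ℤ) u
  simpa using this

/-- **X4, multiplicative reduction, no inertia-fixed point**: the line `{0, t, -t}` is the
unique `I`-stable line of `W[3]`, inertia acts on it through a non-trivial sign and trivially on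
the quotient (so `W[3]` is not `I`-split). -/
theorem locW_ord_nofix (W : WeierstrassCurve ℤ) (hΔ : W.Δ ≠ 0) (hW : W.IsSemistableModel)
    (hbad : ¬ W.IsGoodPrimeFor 3) (A : ValuationSubring (AlgebraicClosure ℚ))
    (hA : A.LiesOverPrime 3) (hfix : NoFixAt W A) :
    ∃ t : W3 W, t ≠ 0 ∧
      (∀ σ ∈ A.decompositionSubgroup ℚ, σ • t = t ∨ σ • t = -t) ∧
      (∀ σ ∈ A.inertiaSubgroupIn ℚ, ∀ x : W3 W,
        σ • x - x = 0 ∨ σ • x - x = t ∨ σ • x - x = -t) ∧
      (∃ σ₀ ∈ A.inertiaSubgroupIn ℚ, σ₀ • t = -t) ∧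
      (∀ u : W3 W, (∀ σ ∈ A.inertiaSubgroupIn ℚ, σ • u = u ∨ σ • u = -u) →
        u = 0 ∨ u = t ∨ u = -t) := by
  obtain ⟨t, ht0, hD, hI⟩ := locW_ord W hΔ hW hbad A hA
  refine ⟨t, ht0, hD, hI, ?_, ?_⟩
  · by_contra hcon
    push Not at hcon
    apply ht0
    apply hfix t
    intro σ hσ
    rcases hD σ (mem_decomposition_of_mem_inertia hσ) with h | h
    · exact h
    · exact absurd h (hcon σ hσ)
  · intro u hu
    by_cases hall : ∀ σ ∈ A.inertiaSubgroupIn ℚ, σ • u = u
    · left; exact hfix u hall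
    · push Not at hall
      obtain ⟨σ, hσ, hσu⟩ := hall
      have hneg : σ • u = -u := by
        rcases hu σ hσ with h | h
        · exact absurd h hσu
        · exact h
      have h3 := three_zsmul_W3 W u
      have hsub : σ • u - u = u := by
        rw [hneg]
        have : (3 : ℤ) • u = u + u + u := by
          rw [show (3 : ℤ) = 1 + 1 + 1 by norm_num, add_smul, add_smul, one_smul]
        rw [this] at h3
        have h4 : -u - u = u - (u + u + u) := by abel
        rw [h4, h3, sub_zero]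
      have := hI σ hσ u
      rw [hsub] at this
      exact this

/-! ## The character on the line is the cyclotomic character -/

/-- `σ` raises the cube roots of unity to the `c`-th power (`c = ω(σ)`). -/
def CycloAt3 (σ : GQ4) (c : ℕ) : Prop :=
  ∀ ζ : AlgebraicClosure ℚ, ζ ^ 3 = 1 → σ ζ = ζ ^ c

/-- **X4, multiplicative reduction, no inertia-fixed point, with the character**: inertia acts on
the line `{0, t, -t}` through the mod-`3` cyclotomic character `ω` and trivially on the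
quotient. -/
theorem locW_ord_cyclo (W : WeierstrassCurve ℤ) (hΔ : W.Δ ≠ 0) (hW : W.IsSemistableModel)
    (hbad : ¬ W.IsGoodPrimeFor 3) (A : ValuationSubring (AlgebraicClosure ℚ))
    (hA : A.LiesOverPrime 3) (hfix : NoFixAt W A) :
    ∃ t : W3 W, t ≠ 0 ∧
      (∀ σ ∈ A.decompositionSubgroup ℚ, σ • t = t ∨ σ • t = -t) ∧
      (∀ σ ∈ A.inertiaSubgroupIn ℚ, ∀ x : W3 W,
        σ • x - x = 0 ∨ σ • x - x = t ∨ σ • x - x = -t) ∧
      (∃ σ₀ ∈ A.inertiaSubgroupIn ℚ, σ₀ • t = -t) ∧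
      (∀ u : W3 W, (∀ σ ∈ A.inertiaSubgroupIn ℚ, σ • u = u ∨ σ • u = -u) →
        u = 0 ∨ u = t ∨ u = -t) ∧
      (∀ σ ∈ A.inertiaSubgroupIn ℚ, ∀ c : ℕ, CycloAt3 σ c → σ • t = c • t) := by
  haveI : Fact (Nat.Prime 3) := ⟨by norm_num⟩
  obtain ⟨t, ht0, hD, hI, hσ₀, huniq⟩ := locW_ord_nofix W hΔ hW hbad A hA hfix
  refine ⟨t, ht0, hD, hI, hσ₀, huniq, ?_⟩
  have hΔQ : (W.map (Int.castRingHom ℚ)).Δ ≠ 0 := by
    rw [WeierstrassCurve.map_Δ]
    simpa using hΔ
  have hfin : Finite (W3 W) :=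
    Fermat.Agent.Ribet.H403.finite_tors (W.map (Int.castRingHom ℚ)) hΔQ 3 (by norm_num)
  haveI : Module.Finite (ZMod 3) (W3 W) := Module.Finite.of_finite
  have hrank : Module.finrank (ZMod 3) (W3 W) = 2 :=
    Fermat.Agent.Ribet.H403.finrank_tors (W.map (Int.castRingHom ℚ)) hΔQ 3
  -- a point outside the line
  have hex : ∃ u : W3 W, u ∉ Submodule.span (ZMod 3) ({t} : Set (W3 W)) := by
    by_contra hcon
    push Not at hcon
    have htop : Submodule.span (ZMod 3) ({t} : Set (W3 W)) = ⊤ :=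
      Submodule.eq_top_iff'.2 hcon
    have h1 : Module.finrank (ZMod 3) (Submodule.span (ZMod 3) ({t} : Set (W3 W))) = 1 :=
      finrank_span_singleton ht0
    rw [htop, finrank_top, hrank] at h1
    omega
  obtain ⟨u, hu⟩ := hex
  have hu0 : u ≠ 0 := fun h => hu (h ▸ Submodule.zero_mem _)
  have hut : ∀ a : ZMod 3, u ≠ a • t := fun a h =>
    hu (h ▸ Submodule.smul_mem _ a (Submodule.mem_span_singleton_self t))
  have hli : LinearIndependent (ZMod 3) ![t, u] := by
    rw [LinearIndependent.pair_iff]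
    intro a b hab
    have hb : b = 0 := by
      by_contra hb
      apply hut (-(b⁻¹ * a))
      have h1 : b • u = -(a • t) := eq_neg_of_add_eq_zero_right hab
      have h2 : u = b⁻¹ • (b • u) := by rw [smul_smul, inv_mul_cancel₀ hb, one_smul]
      rw [h2, h1, smul_neg, smul_smul, neg_smul]
    subst hb
    rw [zero_smul, add_zero] at hab
    exact ⟨(smul_eq_zero.1 hab).resolve_right ht0, rfl⟩
  have hcard : Fintype.card (Fin 2) = Module.finrank (ZMod 3) (W3 W) := by
    rw [hrank]; rfl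
  set b : Module.Basis (Fin 2) (ZMod 3) (W3 W) :=
    basisOfLinearIndependentOfCardEqFinrank hli hcard with hb
  have hb0 : b 0 = t := by
    rw [hb, coe_basisOfLinearIndependentOfCardEqFinrank]; rfl
  have hb1 : b 1 = u := by
    rw [hb, coe_basisOfLinearIndependentOfCardEqFinrank]; rfl
  -- the shape of an element of inertia in the basis `(t, u)`
  have hshape : ∀ σ ∈ A.inertiaSubgroupIn ℚ, ∃ ε n : ZMod 3, (ε = 1 ∨ ε = -1) ∧
      σ • t = ε • t ∧ σ • u = (1 : ZMod 3) • u + n • t := by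
    intro σ hσ
    obtain ⟨ε, hε, hεt⟩ : ∃ ε : ZMod 3, (ε = 1 ∨ ε = -1) ∧ σ • t = ε • t := by
      rcases hD σ (mem_decomposition_of_mem_inertia hσ) with h | h
      · exact ⟨1, Or.inl rfl, by rw [h, one_smul]⟩
      · exact ⟨-1, Or.inr rfl, by rw [h, neg_smul, one_smul]⟩
    obtain ⟨n, hn⟩ : ∃ n : ZMod 3, σ • u - u = n • t := by
      rcases hI σ hσ u with h | h | h
      · exact ⟨0, by rw [h, zero_smul]⟩
      · exact ⟨1, by rw [h, one_smul]⟩
      · exact ⟨-1, by rw [h, neg_smul, one_smul]⟩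
    refine ⟨ε, n, hε, hεt, ?_⟩
    rw [one_smul, ← hn]
    abel
  -- some element of inertia is not a scalar
  have hns : ∃ h : Fermat.Agent.Ribet.H403.GQ, ¬ ∃ s : ZMod 3,
      ∀ x : Fermat.Agent.Ribet.H403.Tors (W.map (Int.castRingHom ℚ)) 3, h • x = s • x := by
    obtain ⟨σ₀, hσ₀I, hσ₀t⟩ := hσ₀
    refine ⟨σ₀, ?_⟩
    rintro ⟨s, hs⟩
    have h1 : s • t = (-1 : ZMod 3) • t := by
      rw [← hs t, hσ₀t, neg_smul, one_smul]
    have h2 : s = -1 := by
      have : (s - (-1)) • t = 0 := by rw [sub_smul, h1, sub_self]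
      have := (smul_eq_zero.1 this).resolve_right ht0
      exact sub_eq_zero.1 this
    have h3 : σ₀ • u - u = u := by
      have h4 : σ₀ • u = (-1 : ZMod 3) • u := by rw [← h2]; exact hs u
      rw [h4, neg_smul, one_smul]
      have h3u := three_zsmul_W3 W u
      have : (3 : ℤ) • u = u + u + u := by
        rw [show (3 : ℤ) = 1 + 1 + 1 by norm_num, add_smul, add_smul, one_smul]
      rw [this] at h3u
      have h5 : -u - u = u - (u + u + u) := by abel
      rw [h5, h3u, sub_zero]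
    rcases hI σ₀ hσ₀I u with h | h | h
    · rw [h3] at h; exact hu0 h
    · rw [h3] at h; exact hut 1 (by rw [h, one_smul])
    · rw [h3] at h; exact hut (-1) (by rw [h, neg_smul, one_smul])
  intro σ hσ c hc
  obtain ⟨ε, n, -, hεt, hσu⟩ := hshape σ hσ
  have hdet := Fermat.Agent.Ribet.H403.det_eq_of_apply_root W 3 hΔ hns σ c hc
  have hdet' : LinearMap.det
      (WeierstrassCurve.Affine.Point.galoisRepModuleEnd (S := ℚ) (K := AlgebraicClosure ℚ)
        (W.map (Int.castRingHom ℚ)) 3 σ) = ε * 1 := by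
    apply Fermat.Agent.S59.H396.det_of_triangular b _ ε 1 n
    · rw [hb0]; exact hεt
    · rw [hb1, hb0]; exact hσu
  rw [hdet', mul_one] at hdet
  rw [hεt, hdet, Nat.cast_smul_eq_nsmul]

end Fermat.Agent.G1.H4

end
-- ===== PACK-END G1/H4/LocW.lean

-- ===== PACK-BEGIN G1/H239/LocAdapt.lean
section





/-!
# Row GLUE, side X — W-ADAPT (architect helper239)

The adapter between the abstract local twist exclusion of helper59
(`Fermat.Agent.G1.H59.LocalTwistExclusionStatement59`, lattice vocabulary `IsHL`) and the leaf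
`Fermat.Agent.G1.X.LocalExclStatement` of the wall of side X (helper60's `G1/X/Spec.lean`):

    localExcl_of_lte59 : LocalTwistExclusionStatement59 → LocalExclStatement

Inputs, all landed (plain files of main) or done in the row:
* `Ribet.H403.finrank_tors`, `Ribet.H403.card_tors`, `Ribet.H403.det_eq_of_apply_root` (det = ω),
  `Ribet.H52.exists_nonscalar_of_irreducible_h52`;
* `G1.H4.locW_flat`, `G1.H4.locW_ord_cyclo` (block LOC-W of helper4);
* `S19.H435.exists_isHopfLattice_of_hopfModel`;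
* `G1.X.place3` (helper60).
-/

set_option autoImplicit false
set_option linter.style.haveILetI false

open WeierstrassCurve WeierstrassCurve.Affine WeierstrassCurve.Affine.Point
open scoped WeierstrassCurve.Affine

namespace Fermat.Agent.G1.H239

/-- `W[3](ℚ̄)` is finite. -/
theorem finite_T3 (W : WeierstrassCurve ℤ) (hΔ : W.Δ ≠ 0) : Finite (Fermat.Agent.G1.X.T3 W) := by
  have hΔQ : (W.map (Int.castRingHom ℚ)).Δ ≠ 0 := by
    rw [WeierstrassCurve.map_Δ]
    simpa using hΔ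
  exact Fermat.Agent.Ribet.H403.finite_tors (W.map (Int.castRingHom ℚ)) hΔQ 3 (by norm_num)

/-- `# W[3](ℚ̄) = 9`. -/
theorem card_T3 (W : WeierstrassCurve ℤ) (hΔ : W.Δ ≠ 0) :
    Nat.card (Fermat.Agent.G1.X.T3 W) = 9 := by
  have hΔQ : (W.map (Int.castRingHom ℚ)).Δ ≠ 0 := by
    rw [WeierstrassCurve.map_Δ]
    simpa using hΔ
  have := Fermat.Agent.Ribet.H403.card_tors (W.map (Int.castRingHom ℚ)) hΔQ 3
  simpa using this

/-- `3 • x = 0` on `W[3]`. -/
theorem three_nsmul_T3' (W : WeierstrassCurve ℤ) (x : Fermat.Agent.G1.X.T3 W) : 3 • x = 0 :=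
  Fermat.Agent.G1.X.three_nsmul_T3 x

/-- The Weil-type pairing on `W[3]`: the determinant in a basis, with similitude character `ω`. -/
theorem exists_pairing (W : WeierstrassCurve ℤ) (hΔ : W.Δ ≠ 0) (h3 : W.ModRepIsIrreducible 3) :
    ∃ B : Fermat.Agent.G1.X.T3 W → Fermat.Agent.G1.X.T3 W → ZMod 3,
      (∀ x y z, B (x + y) z = B x z + B y z) ∧
      (∀ x y z, B x (y + z) = B x y + B x z) ∧
      (∀ x, B x x = 0) ∧ (∃ x y, B x y ≠ 0) ∧
      ∀ (τ : Fermat.Agent.G1.X.GQ) (a : ℕ), Fermat.Agent.G1.X.Cyclo3 τ a →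
        ∀ x y, B (τ • x) (τ • y) = (a : ZMod 3) * B x y := by
  haveI : Fact (Nat.Prime 3) := ⟨by norm_num⟩
  have hΔQ : (W.map (Int.castRingHom ℚ)).Δ ≠ 0 := by
    rw [WeierstrassCurve.map_Δ]
    simpa using hΔ
  haveI hfin : Finite (Fermat.Agent.G1.X.T3 W) := finite_T3 W hΔ
  haveI : Module.Finite (ZMod 3) (Fermat.Agent.G1.X.T3 W) := Module.Finite.of_finite
  have hrank : Module.finrank (ZMod 3) (Fermat.Agent.G1.X.T3 W) = 2 :=
    Fermat.Agent.Ribet.H403.finrank_tors (W.map (Int.castRingHom ℚ)) hΔQ 3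
  have hns := Fermat.Agent.Ribet.H52.exists_nonscalar_of_irreducible_h52 W hΔ 3 h3
  let b : Module.Basis (Fin 2) (ZMod 3) (Fermat.Agent.G1.X.T3 W) :=
    Module.finBasisOfFinrankEq (ZMod 3) (Fermat.Agent.G1.X.T3 W) hrank
  have hB : ∀ x y : Fermat.Agent.G1.X.T3 W,
      b.det ![x, y] = b.repr x 0 * b.repr y 1 - b.repr y 0 * b.repr x 1 := by
    intro x y
    rw [Module.Basis.det_apply, Matrix.det_fin_two]
    simp [Module.Basis.toMatrix_apply]
  refine ⟨fun x y => b.det ![x, y], ?_, ?_, ?_, ?_, ?_⟩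
  · intro x y z
    simp only [hB, map_add, Finsupp.add_apply]
    ring
  · intro x y z
    simp only [hB, map_add, Finsupp.add_apply]
    ring
  · intro x
    simp only [hB]
    ring
  · refine ⟨b 0, b 1, ?_⟩
    simp only [hB, Module.Basis.repr_self]
    simp
  · intro τ a ha x y
    have hdet := Fermat.Agent.Ribet.H403.det_eq_of_apply_root W 3 hΔ hns τ a ha
    have hcomp : (![τ • x, τ • y] : Fin 2 → Fermat.Agent.G1.X.T3 W) =
        (galoisRepModuleEnd (S := ℚ) (K := AlgebraicClosure ℚ)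
          (W.map (Int.castRingHom ℚ)) 3 τ) ∘ ![x, y] := by
      funext i
      fin_cases i
      · exact (galoisRepModuleEnd_apply (S := ℚ) (K := AlgebraicClosure ℚ)
          (W.map (Int.castRingHom ℚ)) 3 τ x).symm
      · exact (galoisRepModuleEnd_apply (S := ℚ) (K := AlgebraicClosure ℚ)
          (W.map (Int.castRingHom ℚ)) 3 τ y).symm
    show b.det ![τ • x, τ • y] = (a : ZMod 3) * b.det ![x, y]
    rw [hcomp, Module.Basis.det_comp, hdet]

/-- **W-ADAPT**: the leaf LOC of the wall of side X from the abstract local twist exclusion. -/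
theorem localExcl_of_lte59 (hL : Fermat.Agent.G1.H59.LocalTwistExclusionStatement59) :
    Fermat.Agent.G1.X.LocalExclStatement := by
  intro W hΔ hss h3 hfix W' hΔ' htw hflat'
  obtain ⟨P, hP⟩ := Fermat.Agent.G1.X.place3
  haveI : Finite (Fermat.Agent.G1.X.T3 W) := finite_T3 W hΔ
  haveI : Finite (Fermat.Agent.G1.X.T3 W') := finite_T3 W' hΔ'
  obtain ⟨B, hB1, hB2, hB3, hB4, hB5⟩ := exists_pairing W hΔ h3
  -- `W[3]` is of Weil type
  have hWeil : Fermat.Agent.G1.H59.IsWeilType59 P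
      (fun (σ : Fermat.Agent.S56.GQ) (x : Fermat.Agent.G1.X.T3 W) => σ • x) :=
    { act_add := fun τ _ x y => smul_add τ x y
      act_mul := fun σ _ τ _ x => mul_smul σ τ x
      act_one := fun x => one_smul _ x
      card := card_T3 W hΔ
      three := three_nsmul_T3' W
      nofix := fun x hx => hfix P hP x hx
      pairing := ⟨B, hB1, hB2, hB3, hB4, fun τ _ a ha x y => hB5 τ a ha x y⟩ }
  -- the local type of `W[3]`
  have h₁ : Fermat.Agent.G1.H59.HasLattice59
        (fun (σ : Fermat.Agent.S56.GQ) (x : Fermat.Agent.G1.X.T3 W) => σ • x) ∨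
      Fermat.Agent.G1.H59.HasOrdLine59 P
        (fun (σ : Fermat.Agent.S56.GQ) (x : Fermat.Agent.G1.X.T3 W) => σ • x) := by
    by_cases hgood : W.IsGoodPrimeFor 3
    · left
      exact Fermat.Agent.S19.H435.exists_isHopfLattice_of_hopfModel
        (Fermat.Agent.G1.H4.locW_flat W hgood)
    · right
      obtain ⟨t, -, -, hI, -, -, hcyc⟩ :=
        Fermat.Agent.G1.H4.locW_ord_cyclo W hΔ hss hgood P hP (hfix P hP)
      refine ⟨AddSubgroup.zmultiples t, ?_, ?_⟩
      · intro τ hτ z hz a ha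
        obtain ⟨n, rfl⟩ := AddSubgroup.mem_zmultiples_iff.1 hz
        show τ • (n • t) = a • (n • t)
        rw [smul_comm τ n t, hcyc τ hτ a ha, smul_comm a n t]
      · intro τ hτ z
        show τ • z - z ∈ AddSubgroup.zmultiples t
        rcases hI τ hτ z with h | h | h
        · rw [h]; exact zero_mem _
        · rw [h]; exact AddSubgroup.mem_zmultiples t
        · rw [h]; exact neg_mem (AddSubgroup.mem_zmultiples t)
  obtain ⟨T, hT⟩ := htw
  refine hL P hP (Fermat.Agent.G1.X.T3 W) (Fermat.Agent.G1.X.T3 W')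
    (fun σ x => σ • x) (fun σ x => σ • x) hWeil h₁ (three_nsmul_T3' W') (Or.inl hflat')
    T.toAddMonoidHom ⟨T.injective, ?_⟩
  intro τ _ a ha x
  show τ • T x = a • T (τ • x)
  rw [hT τ a ha x, ← mul_smul]
  have hsq : a * a % 3 = 1 := Fermat.Agent.G1.X.cyclo3_sq ha
  exact (Fermat.Agent.G1.X.nsmul_T3_of_mod (τ • T x) (a * a) hsq).symm

/-- The part of `localTwistExclusion_of59` with a FLAT target: (ORD-TW) is not needed. -/
theorem lteFlat_of_three59 (hD : Fermat.Agent.G1.H59.FlatDichotomyStatement59)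
    (hSS : Fermat.Agent.G1.H59.FlatTwistSSStatement59)
    (hFO : Fermat.Agent.G1.H59.FlatTwistOrdStatement59) :
    ∀ (P : ValuationSubring Fermat.Agent.S56.Qb), P.LiesOverPrime 3 →
    ∀ (M₁ M₂ : Type) [AddCommGroup M₁] [AddCommGroup M₂] [Finite M₁] [Finite M₂]
      (act₁ : Fermat.Agent.S56.GQ → M₁ → M₁) (act₂ : Fermat.Agent.S56.GQ → M₂ → M₂),
      Fermat.Agent.G1.H59.IsWeilType59 P act₁ →
      (Fermat.Agent.G1.H59.HasLattice59 act₁ ∨ Fermat.Agent.G1.H59.HasOrdLine59 P act₁) →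
      (∀ x : M₂, 3 • x = 0) → Fermat.Agent.G1.H59.HasLattice59 act₂ →
      ∀ φ : M₁ →+ M₂, Fermat.Agent.G1.H59.IsTwistedEmbedding59 P act₁ act₂ φ → False := by
  intro P hP M₁ M₂ _ _ _ _ act₁ act₂ hW h₁ h3 h₂ φ hφ
  rcases h₁ with h₁ | h₁
  · rcases hD P hP M₁ act₁ hW h₁ with ht | ht
    · exact hFO P hP M₁ M₂ act₁ act₂ hW ht h3 h₂ φ hφ
    · exact hSS P hP M₁ M₂ act₁ act₂ hW.card hW.three h3 h₁ h₂ ht φ hφ
  · exact hFO P hP M₁ M₂ act₁ act₂ hW h₁ h3 h₂ φ hφ

/-- **W-ADAPT, final form**: the leaf LOC of the wall of side X from the THREE abstract leaves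
(LOC-W) `FlatDichotomyStatement59`, (FT2) `FlatTwistSSStatement59`, (FI-TW)
`FlatTwistOrdStatement59` of helper59's local interface. -/
theorem localExcl_of_three59 (hD : Fermat.Agent.G1.H59.FlatDichotomyStatement59)
    (hSS : Fermat.Agent.G1.H59.FlatTwistSSStatement59)
    (hFO : Fermat.Agent.G1.H59.FlatTwistOrdStatement59) :
    Fermat.Agent.G1.X.LocalExclStatement := by
  intro W hΔ hss h3 hfix W' hΔ' htw hflat'
  obtain ⟨P, hP⟩ := Fermat.Agent.G1.X.place3
  haveI : Finite (Fermat.Agent.G1.X.T3 W) := finite_T3 W hΔ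
  haveI : Finite (Fermat.Agent.G1.X.T3 W') := finite_T3 W' hΔ'
  obtain ⟨B, hB1, hB2, hB3, hB4, hB5⟩ := exists_pairing W hΔ h3
  have hWeil : Fermat.Agent.G1.H59.IsWeilType59 P
      (fun (σ : Fermat.Agent.S56.GQ) (x : Fermat.Agent.G1.X.T3 W) => σ • x) :=
    { act_add := fun τ _ x y => smul_add τ x y
      act_mul := fun σ _ τ _ x => mul_smul σ τ x
      act_one := fun x => one_smul _ x
      card := card_T3 W hΔ
      three := three_nsmul_T3' W
      nofix := fun x hx => hfix P hP x hx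
      pairing := ⟨B, hB1, hB2, hB3, hB4, fun τ _ a ha x y => hB5 τ a ha x y⟩ }
  have h₁ : Fermat.Agent.G1.H59.HasLattice59
        (fun (σ : Fermat.Agent.S56.GQ) (x : Fermat.Agent.G1.X.T3 W) => σ • x) ∨
      Fermat.Agent.G1.H59.HasOrdLine59 P
        (fun (σ : Fermat.Agent.S56.GQ) (x : Fermat.Agent.G1.X.T3 W) => σ • x) := by
    by_cases hgood : W.IsGoodPrimeFor 3
    · left
      exact Fermat.Agent.S19.H435.exists_isHopfLattice_of_hopfModel
        (Fermat.Agent.G1.H4.locW_flat W hgood)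
    · right
      obtain ⟨t, -, -, hI, -, -, hcyc⟩ :=
        Fermat.Agent.G1.H4.locW_ord_cyclo W hΔ hss hgood P hP (hfix P hP)
      refine ⟨AddSubgroup.zmultiples t, ?_, ?_⟩
      · intro τ hτ z hz a ha
        obtain ⟨n, rfl⟩ := AddSubgroup.mem_zmultiples_iff.1 hz
        show τ • (n • t) = a • (n • t)
        rw [smul_comm τ n t, hcyc τ hτ a ha, smul_comm a n t]
      · intro τ hτ z
        show τ • z - z ∈ AddSubgroup.zmultiples t
        rcases hI τ hτ z with h | h | h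
        · rw [h]; exact zero_mem _
        · rw [h]; exact AddSubgroup.mem_zmultiples t
        · rw [h]; exact neg_mem (AddSubgroup.mem_zmultiples t)
  obtain ⟨T, hT⟩ := htw
  refine lteFlat_of_three59 hD hSS hFO P hP (Fermat.Agent.G1.X.T3 W) (Fermat.Agent.G1.X.T3 W')
    (fun σ x => σ • x) (fun σ x => σ • x) hWeil h₁ (three_nsmul_T3' W') hflat'
    T.toAddMonoidHom ⟨T.injective, ?_⟩
  intro τ _ a ha x
  show τ • T x = a • T (τ • x)
  rw [hT τ a ha x, ← mul_smul]
  have hsq : a * a % 3 = 1 := Fermat.Agent.G1.X.cyclo3_sq ha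
  exact (Fermat.Agent.G1.X.nsmul_T3_of_mod (τ • T x) (a * a) hsq).symm

/-- Side X from the two modular leaves, the twisted curve and the three abstract local leaves. -/
theorem twistExcl_of_six (hTWC : Fermat.Agent.G1.X.TwistCurveStatement)
    (hMF : Fermat.Agent.G1.X.ModFlatStatement) (hM3 : Fermat.Agent.G1.X.ModThreeStatement)
    (hD : Fermat.Agent.G1.H59.FlatDichotomyStatement59)
    (hSS : Fermat.Agent.G1.H59.FlatTwistSSStatement59)
    (hFO : Fermat.Agent.G1.H59.FlatTwistOrdStatement59) :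
    Fermat.Agent.Glue.TwistExclStatement :=
  Fermat.Agent.G1.X.twistExcl_of_three hTWC (Fermat.Agent.G1.X.modSide_of hMF hM3)
    (localExcl_of_three59 hD hSS hFO)

end Fermat.Agent.G1.H239

end
-- ===== PACK-END G1/H239/LocAdapt.lean

-- ===== PACK-BEGIN G1/H180/Lead.lean
section



/-!
# G1.c-LOC (helper180): flat twist exclusion at `p = 3`, part 4 — leading terms

* `psi P π τ = red (τ π / π)`: the tame character at level `8` (`π ^ 8 = 3`);
  `psi_pow_four`: `psi τ ^ 4 = a` if `a` is a cyclotomic exponent of `τ` at `3`;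
* `exists_tau0`: an inertia element with cyclotomic exponent `2`;
* `IsLead`, `exists_isLead`: the leading term map of a deep coordinate: additive, injective,
  and inertia acts on it through the scalar `psi τ ^ m`.
-/

set_option autoImplicit false
set_option linter.unusedSectionVars false
set_option linter.style.haveILetI false

noncomputable section

namespace Fermat.Agent.G1.H180

open Fermat.Agent.S56 Fermat.Agent.S56.H906 Fermat.Agent.S56.H66 Fermat.Agent.S14.H894
open Fermat.Agent.A2.H708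

section Cyc

variable (P : ValuationSubring Qb)

theorem red_zero : _root_.Fermat.Agent.G1.H180.red P 0 = 0 := by
  rw [red_of_mem P P.zero_mem]
  exact map_zero (IsLocalRing.residue P)

theorem pi_ne_zero {π : Qb} (hπ : π ^ 8 = ((3 : ℕ) : Qb)) : π ≠ 0 := by
  rintro rfl
  norm_num at hπ

/-- There is `π` with `π ^ 8 = 3`. -/
theorem exists_pi : ∃ π : Qb, π ^ 8 = ((3 : ℕ) : Qb) :=
  IsAlgClosed.exists_pow_nat_eq _ (by norm_num)

/-- Every element has a cyclotomic exponent at `3`. -/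
theorem exists_cycExp (τ : GQ) : ∃ a : ℕ, IsCycExp 3 τ a := by
  obtain ⟨ζ, hζ⟩ := HasEnoughRootsOfUnity.exists_primitiveRoot Qb 3
  have h1 : (τ ζ) ^ 3 = 1 := by rw [← map_pow, hζ.pow_eq_one, map_one]
  obtain ⟨a, -, ha⟩ := hζ.eq_pow_of_pow_eq_one h1
  refine ⟨a, fun μ hμ => ?_⟩
  obtain ⟨i, -, hi⟩ := hζ.eq_pow_of_pow_eq_one hμ
  rw [← hi, map_pow, ← ha, ← pow_mul, ← pow_mul, mul_comm]

/-- A cyclotomic exponent at `3` is `1` or `2` modulo `3`. -/
theorem cycExp_mod_three {τ : GQ} {a : ℕ} (ha : IsCycExp 3 τ a) : a % 3 = 1 ∨ a % 3 = 2 := by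
  obtain ⟨ζ, hζ⟩ := HasEnoughRootsOfUnity.exists_primitiveRoot Qb 3
  have h0 : a % 3 ≠ 0 := by
    intro h
    obtain ⟨b, rfl⟩ := Nat.dvd_of_mod_eq_zero h
    have h1 := ha ζ hζ.pow_eq_one
    rw [pow_mul, hζ.pow_eq_one, one_pow] at h1
    have h2 : ζ = 1 := τ.injective (h1.trans (map_one τ).symm)
    exact hζ.ne_one (by norm_num) h2
  omega

/-- There is an inertia element at `P | 3` with cyclotomic exponent `2`. -/
theorem exists_tau0 (hP : P.LiesOverPrime 3) :
    ∃ τ ∈ P.inertiaSubgroupIn ℚ, IsCycExp 3 τ 2 := by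
  have hp : Nat.Prime 3 := Nat.prime_three
  obtain ⟨ζ, hζ⟩ := HasEnoughRootsOfUnity.exists_primitiveRoot Qb 3
  have hζ1 : P.valuation (ζ - 1) < 1 := valuation_zeta_sub_one_lt_one P 3 hp hP ζ hζ
  have hl0 : P.valuation (ζ - 1) ≠ 0 := valuation_zeta_sub_one_ne_zero P 3 hp ζ hζ
  have h1 : P.valuation ((3 : ℕ) : Qb) = P.valuation (ζ - 1) ^ 2 :=
    valuation_natCast_eq_pow P 3 hp ζ hζ
  by_contra hcon
  push Not at hcon
  have hfix : ∀ τ ∈ P.inertiaSubgroupIn ℚ, τ ζ = ζ := by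
    intro τ hτ
    by_contra hne
    apply hcon τ hτ
    have h3 : (τ ζ) ^ 3 = 1 := by rw [← map_pow, hζ.pow_eq_one, map_one]
    obtain ⟨i, hi, hiζ⟩ := hζ.eq_pow_of_pow_eq_one h3
    have hτζ : τ ζ = ζ ^ 2 := by
      interval_cases i
      · exfalso
        rw [pow_zero] at hiζ
        have h2 : ζ = 1 := τ.injective (by rw [← hiζ, map_one])
        exact hζ.ne_one (by norm_num) h2
      · exfalso
        rw [pow_one] at hiζ
        exact hne hiζ.symm
      · exact hiζ.symm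
    intro μ hμ
    obtain ⟨j, -, hj⟩ := hζ.eq_pow_of_pow_eq_one hμ
    rw [← hj, map_pow, hτζ, ← pow_mul, ← pow_mul, mul_comm]
  have h2 := vg0_le 3 hp P hP (ζ - 1) ((P.mem_nonunits_iff).mpr hζ1)
    (fun σ hσ => by rw [map_sub, map_one, hfix σ hσ])
  rw [h1] at h2
  have h4 : P.valuation (ζ - 1) ^ 2 < P.valuation (ζ - 1) := by
    rw [pow_two]
    calc P.valuation (ζ - 1) * P.valuation (ζ - 1)
        < 1 * P.valuation (ζ - 1) := mul_lt_mul_of_pos_right hζ1 (zero_lt_iff.mpr hl0)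
      _ = P.valuation (ζ - 1) := one_mul _
  exact absurd h2 (not_le.mpr h4)

/-- The tame character at level `8`: `ψ(τ) = τ π / π mod 𝔪_P`. -/
def psi (π : Qb) (τ : GQ) : kP P := _root_.Fermat.Agent.G1.H180.red P (τ π / π)

theorem rho_mem {π : Qb} (hπ0 : π ≠ 0) {τ : GQ} (hτ : τ ∈ P.inertiaSubgroupIn ℚ) :
    τ π / π ∈ P := by
  refine mem_of_val_le P ?_
  rw [map_div₀, val_inertia P hτ, div_self ((Valuation.ne_zero_iff _).mpr hπ0)]

/-- `ψ ^ 4` is the mod-`3` cyclotomic character. -/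
theorem psi_pow_four (hP : P.LiesOverPrime 3) {π : Qb} (hπ : π ^ 8 = ((3 : ℕ) : Qb)) {τ : GQ}
    (hτ : τ ∈ P.inertiaSubgroupIn ℚ) {a : ℕ} (ha : IsCycExp 3 τ a) :
    psi P π τ ^ 4 = (a : kP P) := by
  have hp : Nat.Prime 3 := Nat.prime_three
  obtain ⟨ζ, hζ⟩ := HasEnoughRootsOfUnity.exists_primitiveRoot Qb 3
  have hπ0 : π ≠ 0 := pi_ne_zero hπ
  have hl0 : ζ - 1 ≠ 0 := sub_ne_zero.mpr (hζ.ne_one (by norm_num))
  have h1 : P.valuation ((3 : ℕ) : Qb) = P.valuation (ζ - 1) ^ 2 :=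
    valuation_natCast_eq_pow P 3 hp ζ hζ
  have h2 : P.valuation (π ^ 4) ^ 2 = P.valuation (ζ - 1) ^ 2 := by
    rw [← h1, ← map_pow, ← pow_mul, hπ]
  have h3 : P.valuation (π ^ 4) = P.valuation (ζ - 1) :=
    (pow_left_inj₀ zero_le zero_le (by norm_num : (2 : ℕ) ≠ 0)).mp h2
  set u := π ^ 4 / (ζ - 1) with hu
  have hvu : P.valuation u = 1 := by
    rw [hu, map_div₀, h3, div_self ((Valuation.ne_zero_iff _).mpr hl0)]
  have huP : u ∈ P := mem_of_val_le P hvu.le
  have hu0 : u ≠ 0 := (Valuation.ne_zero_iff P.valuation).mp (by rw [hvu]; exact one_ne_zero)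
  have hτζ : τ ζ = ζ ^ a := ha ζ hζ.pow_eq_one
  set S := ∑ j ∈ Finset.range a, ζ ^ j with hS
  have hSmul : ζ ^ a - 1 = S * (ζ - 1) := (geom_sum_mul ζ a).symm
  have hζ1 : P.valuation (ζ - 1) < 1 := valuation_zeta_sub_one_lt_one P 3 hp hP ζ hζ
  have hSa : P.valuation (S - (a : Qb)) < 1 := by
    have h1 : S - (a : Qb) = ∑ j ∈ Finset.range a, (ζ ^ j - 1) := by
      rw [Finset.sum_sub_distrib, Finset.sum_const, Finset.card_range, nsmul_eq_mul, mul_one]
    rw [h1]
    refine Valuation.map_sum_lt _ one_ne_zero fun j _ => ?_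
    exact lt_of_le_of_lt (valuation_pow_sub_one_le P (by norm_num) hζ.pow_eq_one j) hζ1
  have hSP : S ∈ P := by
    refine mem_of_val_le P (Valuation.map_sum_le _ fun j _ => ?_)
    rw [map_pow]
    exact pow_le_one₀ zero_le (valuation_le_one_of_pow_eq_one P (by norm_num) hζ.pow_eq_one)
  have hredS : _root_.Fermat.Agent.G1.H180.red P S = (a : kP P) := by
    rw [← red_natCast]
    exact red_eq_of_val_sub_lt P hSP (natCast_mem P a) hSa
  have hS0 : S ≠ 0 := by
    intro h0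
    rw [h0, zero_mul, sub_eq_zero, ← hτζ] at hSmul
    have h2 : ζ = 1 := τ.injective (hSmul.trans (map_one τ).symm)
    exact hζ.ne_one (by norm_num) h2
  have hτu : τ u ∈ P :=
    apply_mem_of_mem_decomposition P (mem_decomposition_of_mem_inertiaIn P hτ) huP
  have hvτu : P.valuation (τ u) = 1 := by rw [val_inertia P hτ, hvu]
  have hq : τ u / u ∈ P := mem_of_val_le P (by rw [map_div₀, hvτu, hvu, div_one])
  have hredq : _root_.Fermat.Agent.G1.H180.red P (τ u / u) = 1 := by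
    have h4 : _root_.Fermat.Agent.G1.H180.red P (τ u / u) * _root_.Fermat.Agent.G1.H180.red P u = _root_.Fermat.Agent.G1.H180.red P u := by
      rw [← red_mul P hq huP, div_mul_cancel₀ _ hu0, red_inertia P hτ huP]
    have h5 : _root_.Fermat.Agent.G1.H180.red P u ≠ 0 := by
      rw [Ne, _root_.Fermat.Agent.G1.H180.red_eq_zero_iff P huP, hvu]
      exact lt_irrefl 1
    exact mul_right_cancel₀ h5 (h4.trans (one_mul _).symm)
  have hρ : τ π / π ∈ P := rho_mem P hπ0 hτ
  have hid : (τ π / π) ^ 4 = (τ u / u) * S := by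
    have hτu' : τ u = (τ π) ^ 4 / (S * (ζ - 1)) := by
      rw [hu, map_div₀, map_pow, map_sub, map_one, hτζ, hSmul]
    rw [hτu', hu]
    field_simp
  unfold psi
  rw [← red_pow P hρ, hid, red_mul P hq hSP, hredq, hredS, one_mul]

end Cyc

section LeadMap

variable {V : Type} [AddCommGroup V] [Finite V] {act : GQ → V → V}
  {Λ : Subalgebra (Zp 3) (V → Qb)} (P : ValuationSubring Qb)

/-- `L` is a leading term map of slope `m / 8` on `U`: additive, without zero, and the inertia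
group acts through `ψ ^ m`. -/
structure IsLead (act : GQ → V → V) (U : AddSubgroup V) (π : Qb) (m : ℕ) (L : V → kP P) :
    Prop where
  add : ∀ y ∈ U, ∀ z ∈ U, L (y + z) = L y + L z
  ne_zero : ∀ y ∈ U, y ≠ 0 → L y ≠ 0
  act : ∀ τ ∈ P.inertiaSubgroupIn ℚ, ∀ y ∈ U, L (act τ y) = psi P π τ ^ m * L y

/-- The leading term map of a deep coordinate. -/
def lead (π : Qb) (e : V → Qb) (m : ℕ) (y : V) : kP P := _root_.Fermat.Agent.G1.H180.red P ((e y - e 0) / π ^ m)

theorem isLead_of_isDeepOn (hΛ : IsHL 3 act Λ) {U : AddSubgroup V} {π : Qb}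
    (hπ : π ^ 8 = ((3 : ℕ) : Qb)) {e : V → Qb} {m : ℕ} (hd : IsDeepOn P Λ U π e m) :
    IsLead P act U π m (lead P π e m) := by
  have hπ0 : π ≠ 0 := pi_ne_zero hπ
  have hvπ : P.valuation π ^ m ≠ 0 := pow_ne_zero _ ((Valuation.ne_zero_iff _).mpr hπ0)
  have hval : ∀ y ∈ U, y ≠ 0 → P.valuation ((e y - e 0) / π ^ m) = 1 := by
    intro y hy hy0
    rw [map_div₀, map_pow, hd.val_eq y hy hy0, div_self hvπ]
  have hmem : ∀ y ∈ U, (e y - e 0) / π ^ m ∈ P := by
    intro y hy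
    by_cases hy0 : y = 0
    · rw [hy0, sub_self, zero_div]
      exact P.zero_mem
    · exact mem_of_val_le P (hval y hy hy0).le
  refine ⟨?_, ?_, ?_⟩
  · intro y hy z hz
    unfold lead
    rw [← red_add P (hmem y hy) (hmem z hz)]
    refine red_eq_of_val_sub_lt P (hmem _ (U.add_mem hy hz))
      (P.add_mem _ _ (hmem y hy) (hmem z hz)) ?_
    have h1 : (e (y + z) - e 0) / π ^ m - ((e y - e 0) / π ^ m + (e z - e 0) / π ^ m) =
        (e (y + z) - e 0 - (e y - e 0) - (e z - e 0)) / π ^ m := by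
      field_simp
      ring
    rw [h1, map_div₀, map_pow]
    exact (div_lt_one₀ (zero_lt_iff.mpr hvπ)).mpr (hd.lin y hy z hz)
  · intro y hy hy0
    unfold lead
    rw [Ne, _root_.Fermat.Agent.G1.H180.red_eq_zero_iff P (hmem y hy), hval y hy hy0]
    exact lt_irrefl 1
  · intro τ hτ y hy
    unfold lead psi
    have hρ : τ π / π ∈ P := rho_mem P hπ0 hτ
    have hu := hmem y hy
    have hτu : τ ((e y - e 0) / π ^ m) ∈ P :=
      apply_mem_of_mem_decomposition P (mem_decomposition_of_mem_inertiaIn P hτ) hu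
    have h1 : (e (act τ y) - e 0) / π ^ m = (τ π / π) ^ m * τ ((e y - e 0) / π ^ m) := by
      rw [coord_act hΛ hd.mem τ y, map_div₀, map_pow, div_pow]
      have hτπ : τ π ≠ 0 := fun h => hπ0 (τ.injective (h.trans (map_zero τ).symm))
      field_simp
    rw [h1, red_mul P (P.pow_mem hρ m) hτu, red_pow P hρ, red_inertia P hτ hu]

theorem exists_isLead (hΛ : IsHL 3 act Λ) (hP : P.LiesOverPrime 3) (U : AddSubgroup V)
    (hU : IStable P act U) (hcard : Nat.card U = 9)
    (hkill : ∀ x : V, 3 • x = 0)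
    (hnofix : ∀ x ∈ U, (∀ τ ∈ P.inertiaSubgroupIn ℚ, act τ x = x) → x = 0)
    (hirr : ∀ H : AddSubgroup V, H ≤ U → IStable P act H → H = ⊥ ∨ H = U)
    {π : Qb} (hπ : π ^ 8 = ((3 : ℕ) : Qb)) :
    ∃ (m : ℕ) (L : V → kP P), 1 ≤ m ∧ m ≤ 4 ∧ IsLead P act U π m L := by
  obtain ⟨e, m, hd⟩ := exists_isDeepOn P hΛ hP U hU hcard hkill hnofix hirr hπ
  exact ⟨m, lead P π e m, hd.one_le, hd.le_four, isLead_of_isDeepOn P hΛ hπ hd⟩

namespace IsLead

variable {P} {U : AddSubgroup V} {π : Qb} {m : ℕ} {L : V → kP P}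

theorem map_zero' (h : IsLead P act U π m L) : L 0 = 0 := by
  have h1 := h.add 0 U.zero_mem 0 U.zero_mem
  rw [add_zero] at h1
  exact left_eq_add.mp h1

theorem map_neg' (h : IsLead P act U π m L) {y : V} (hy : y ∈ U) : L (-y) = - L y := by
  have h1 := h.add y hy (-y) (U.neg_mem hy)
  rw [add_neg_cancel, h.map_zero'] at h1
  exact (neg_eq_of_add_eq_zero_right h1.symm).symm

theorem map_nsmul' (h : IsLead P act U π m L) {y : V} (hy : y ∈ U) (n : ℕ) :
    L (n • y) = (n : kP P) * L y := by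
  induction n with
  | zero => rw [zero_smul, h.map_zero', Nat.cast_zero, zero_mul]
  | succ n ih =>
    rw [succ_nsmul, h.add _ (U.nsmul_mem hy n) _ hy, ih, Nat.cast_succ, add_mul, one_mul]

theorem inj (h : IsLead P act U π m L) {y z : V} (hy : y ∈ U) (hz : z ∈ U) (hyz : L y = L z) :
    y = z := by
  by_contra hne
  have h1 : y + -z ≠ 0 := by
    intro h0
    exact hne (by rw [← sub_eq_add_neg, sub_eq_zero] at h0; exact h0)
  have h2 := h.ne_zero _ (U.add_mem hy (U.neg_mem hz)) h1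
  rw [h.add y hy _ (U.neg_mem hz), h.map_neg' hz, hyz, add_neg_cancel] at h2
  exact h2 rfl

end IsLead

end LeadMap

end Fermat.Agent.G1.H180

end

end
-- ===== PACK-END G1/H180/Lead.lean

-- ===== PACK-BEGIN G1/H180/Tools.lean
section



/-!
# G1.c-LOC (helper180): small tools (groups killed by `3`, cyclotomic exponents)
-/

set_option autoImplicit false
set_option linter.unusedSectionVars false
set_option linter.style.haveILetI false

noncomputable section

namespace Fermat.Agent.G1.H180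

open Fermat.Agent.S56 Fermat.Agent.S56.H906 Fermat.Agent.S56.H66

section Tools

variable {M : Type} [AddCommGroup M]

theorem nsmul_mod_three {x : M} (hx : 3 • x = 0) (n : ℕ) : n • x = (n % 3) • x := by
  conv_lhs => rw [← Nat.div_add_mod n 3]
  rw [add_nsmul, mul_nsmul, hx, nsmul_zero, zero_add]

theorem eq_zero_of_eq_neg {x : M} (hx : 3 • x = 0) (h : x = -x) : x = 0 := by
  have h2 : 2 • x = 0 := by
    rw [two_nsmul]
    nth_rewrite 2 [h]
    exact add_neg_cancel x
  have h3 : 3 • x = 2 • x + x := succ_nsmul x 2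
  rw [hx, h2, zero_add] at h3
  exact h3.symm

theorem two_nsmul_eq_neg {x : M} (hx : 3 • x = 0) : 2 • x = -x := by
  have h3 : 3 • x = 2 • x + x := succ_nsmul x 2
  rw [hx] at h3
  exact (neg_eq_of_add_eq_zero_left h3.symm).symm

theorem cycExp_sq_mod {τ : GQ} {a : ℕ} (ha : IsCycExp 3 τ a) : (a * a) % 3 = 1 := by
  rcases cycExp_mod_three ha with h | h
  · rw [Nat.mul_mod, h]
  · rw [Nat.mul_mod, h]

/-- The square of a cyclotomic exponent acts trivially on a group killed by `3`. -/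
theorem cycExp_smul_smul (h3 : ∀ x : M, 3 • x = 0) {τ : GQ} {a : ℕ} (ha : IsCycExp 3 τ a)
    (w : M) : a • (a • w) = w := by
  rw [← mul_nsmul, nsmul_mod_three (h3 w), cycExp_sq_mod ha, one_nsmul]

theorem natCast_mod_three {k : Type*} [Field k] (h3 : (3 : k) = 0) (n : ℕ) :
    (n : k) = ((n % 3 : ℕ) : k) := by
  conv_lhs => rw [← Nat.div_add_mod n 3]
  push_cast
  rw [h3, zero_mul, zero_add]

/-- A subgroup of order `3` contains a nonzero element. -/
theorem exists_ne_zero_of_card_three [Finite M] {H : AddSubgroup M} (hH : Nat.card H = 3) :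
    ∃ z ∈ H, z ≠ 0 := by
  by_contra hcon
  push Not at hcon
  have hbot : H = ⊥ := (AddSubgroup.eq_bot_iff_forall H).mpr hcon
  rw [hbot] at hH
  simp at hH

end Tools

end Fermat.Agent.G1.H180

end

end
-- ===== PACK-END G1/H180/Tools.lean

-- ===== PACK-BEGIN G1/H180/FT2.lean
section



/-!
# G1.c-LOC (helper180): **(FT2)** flat–flat twist exclusion, supersingular type

`flatTwistSS_h180 : Fermat.Agent.G1.H59.FlatTwistSSStatement59` (the frozen Prop of helper59,
verbatim).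

Proof.  `τ` with `τ⁴ = -1` on `M₁` has no eigenvector, so `M₁` and (twisting) the image `U₂` of
`φ` are inertia-irreducible without fixed point; `exists_isLead` gives leading term maps
`L₁ : M₁ → k_P`, `L₂ : U₂ → k_P` of slopes `m₁, m₂ ∈ {1,…,4}`, on which `τ` acts by
`A = ψ(τ)^{m₁}` and `ψ(τ)^{m₂}`.  `A⁴ = -1` forces `ψ(τ)⁴ = -1` (so `τ` has cyclotomic exponent
`2`) and `m₁` odd; `A² = εA + 1`, hence `τ² = ετ + 1` on `M₁`; transported by `φ`,
`C = -ψ(τ)^{m₂}` is a root of the same polynomial: `alg_excl`.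
-/

set_option autoImplicit false
set_option linter.unusedSectionVars false
set_option linter.style.haveILetI false

noncomputable section

namespace Fermat.Agent.G1.H180

open Fermat.Agent.S56 Fermat.Agent.S56.H906 Fermat.Agent.S56.H66 Fermat.Agent.G1.H59

/-- **(FT2)**, verbatim. -/
theorem flatTwistSS_h180 : FlatTwistSSStatement59 := by
  intro P hP M₁ M₂ _ _ _ _ act₁ act₂ hcard h3₁ h3₂ hL₁ hL₂ h8 φ hφ
  obtain ⟨Λ₁, hΛ₁⟩ := hL₁
  obtain ⟨Λ₂, hΛ₂⟩ := hL₂
  obtain ⟨τ, hτ, hτ4⟩ := h8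
  obtain ⟨hφinj, hφtw⟩ := hφ
  obtain ⟨π, hπ⟩ := exists_pi
  obtain ⟨a, ha⟩ := exists_cycExp τ
  have h3k : (3 : kP P) = 0 := three_eq_zero P hP
  obtain ⟨x₀, hx₀⟩ := exists_ne_zero_of_card hcard
  -- (1) `τ` has no eigenvector in `M₁`
  have hnoeig : ∀ x : M₁, ∀ n : ℕ, act₁ τ x = n • x → x = 0 := by
    intro x n hn
    have h2 : act₁ τ (act₁ τ x) = (n * n) • x := by
      rw [hn, ft_act_nsmul hΛ₁, hn, mul_nsmul]
    have h4 : act₁ τ (act₁ τ (act₁ τ (act₁ τ x))) = (n * n * (n * n)) • x := by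
      rw [h2, ft_act_nsmul hΛ₁, ft_act_nsmul hΛ₁, h2, ← mul_nsmul]
    rw [hτ4 x, nsmul_mod_three (h3₁ x)] at h4
    have h5 : (n * n * (n * n)) % 3 = 0 ∨ (n * n * (n * n)) % 3 = 1 := by
      have h6 : n % 3 = 0 ∨ n % 3 = 1 ∨ n % 3 = 2 := by omega
      rcases h6 with h | h | h
      · left; simp [Nat.mul_mod, h]
      · right; simp [Nat.mul_mod, h]
      · right; simp [Nat.mul_mod, h]
    rcases h5 with h | h
    · rw [h, zero_nsmul] at h4
      exact neg_eq_zero.mp h4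
    · rw [h, one_nsmul] at h4
      exact eq_zero_of_eq_neg (h3₁ x) h4.symm
  -- (2) `M₁` is inertia-irreducible without fixed point
  have hirr₁ : ∀ H : AddSubgroup M₁, H ≤ ⊤ → IStable P act₁ H → H = ⊥ ∨ H = ⊤ := by
    intro H _ hst
    rcases subgroup_trichotomy hcard H with h | h | h
    · exact Or.inl h
    · exact Or.inr h
    · exfalso
      obtain ⟨z, hzH, hz0⟩ := exists_ne_zero_of_card_three h
      have h1 := exists_nsmul_of_card_three h h3₁ hzH hz0 (act₁ τ z) (hst τ hτ z hzH)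
      have h2 : ∃ n : ℕ, act₁ τ z = n • z := by
        rcases h1 with h1 | h1 | h1
        · exact ⟨0, by rw [h1, zero_nsmul]⟩
        · exact ⟨1, by rw [h1, one_nsmul]⟩
        · exact ⟨2, h1⟩
      obtain ⟨n, hn⟩ := h2
      exact hz0 (hnoeig z n hn)
  have hnofix₁ : ∀ x ∈ (⊤ : AddSubgroup M₁),
      (∀ σ ∈ P.inertiaSubgroupIn ℚ, act₁ σ x = x) → x = 0 := by
    intro x _ hx
    exact hnoeig x 1 (by rw [one_nsmul]; exact hx τ hτ)
  have hU₁ : IStable P act₁ (⊤ : AddSubgroup M₁) := fun _ _ _ _ => AddSubgroup.mem_top _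
  have hcard₁ : Nat.card (⊤ : AddSubgroup M₁) = 9 := by
    rw [AddSubgroup.card_top]
    exact hcard
  -- (3) the image of `φ`
  have hU₂ : IStable P act₂ φ.range := by
    rintro σ hσ w ⟨x, rfl⟩
    obtain ⟨b, hb⟩ := exists_cycExp σ
    rw [hφtw σ hσ b hb x, ← map_nsmul]
    exact ⟨_, rfl⟩
  have hcard₂ : Nat.card φ.range = 9 := by
    rw [← hcard]
    exact (Nat.card_congr (AddMonoidHom.ofInjective hφinj).toEquiv).symm
  have hirr₂ : ∀ H : AddSubgroup M₂, H ≤ φ.range → IStable P act₂ H → H = ⊥ ∨ H = φ.range := by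
    intro H hle hst
    have hst' : IStable P act₁ (H.comap φ) := by
      intro σ hσ x hx
      obtain ⟨b, hb⟩ := exists_cycExp σ
      have h1 : act₂ σ (φ x) ∈ H := hst σ hσ (φ x) hx
      rw [hφtw σ hσ b hb x] at h1
      have h2 := H.nsmul_mem h1 b
      rw [cycExp_smul_smul h3₂ hb] at h2
      exact h2
    have hmap : H = (H.comap φ).map φ := (AddSubgroup.map_comap_eq_self hle).symm
    rcases hirr₁ _ le_top hst' with h | h
    · left
      rw [hmap, h, AddSubgroup.map_bot]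
    · right
      rw [hmap, h, ← AddMonoidHom.range_eq_map]
  have hnofix₂ : ∀ w ∈ φ.range, (∀ σ ∈ P.inertiaSubgroupIn ℚ, act₂ σ w = w) → w = 0 := by
    rintro w ⟨x, rfl⟩ hfix
    have h1 := hfix τ hτ
    rw [hφtw τ hτ a ha x, ← map_nsmul] at h1
    have h2 : a • act₁ τ x = x := hφinj h1
    have h3 : act₁ τ x = a • x := by
      rw [← h2, cycExp_smul_smul h3₁ ha, h2]
    rw [hnoeig x a h3, map_zero]
  -- (4) leading term maps
  obtain ⟨m₁, L₁, hm₁1, hm₁4, hLd₁⟩ :=
    exists_isLead P hΛ₁ hP ⊤ hU₁ hcard₁ h3₁ hnofix₁ hirr₁ hπ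
  obtain ⟨m₂, L₂, hm₂1, hm₂4, hLd₂⟩ :=
    exists_isLead P hΛ₂ hP φ.range hU₂ hcard₂ h3₂ hnofix₂ hirr₂ hπ
  have htop : ∀ y : M₁, y ∈ (⊤ : AddSubgroup M₁) := fun y => AddSubgroup.mem_top y
  have hran : ∀ y : M₁, φ y ∈ φ.range := fun y => ⟨y, rfl⟩
  set r := psi P π τ with hr
  have hr4a : r ^ 4 = (a : kP P) := psi_pow_four P hP hπ hτ ha
  have hact₁ : ∀ y : M₁, L₁ (act₁ τ y) = r ^ m₁ * L₁ y := fun y => hLd₁.act τ hτ y (htop y)
  have hL₁0 : L₁ x₀ ≠ 0 := hLd₁.ne_zero x₀ (htop x₀) hx₀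
  -- (5) `A ^ 4 = -1`
  have hA4 : (r ^ m₁) ^ 4 = -1 := by
    have h1 : L₁ (act₁ τ (act₁ τ (act₁ τ (act₁ τ x₀)))) = (r ^ m₁) ^ 4 * L₁ x₀ := by
      rw [hact₁, hact₁, hact₁, hact₁]
      ring
    rw [hτ4 x₀, hLd₁.map_neg' (htop x₀)] at h1
    have h2 : ((r ^ m₁) ^ 4 + 1) * L₁ x₀ = 0 := by linear_combination -h1
    rcases mul_eq_zero.mp h2 with h | h
    · exact eq_neg_of_add_eq_zero_left h
    · exact absurd h hL₁0
  -- (6) the cyclotomic exponent of `τ` is `2`, and `m₁` is odd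
  have ha2 : a % 3 = 2 := by
    rcases cycExp_mod_three ha with h | h
    · exfalso
      have h1 : r ^ 4 = 1 := by
        rw [hr4a, natCast_mod_three h3k, h]
        norm_num
      have h2 : (r ^ m₁) ^ 4 = 1 := by
        rw [← pow_mul, mul_comm, pow_mul, h1, one_pow]
      rw [h2] at hA4
      exact neg_one_ne_one_of_three h3k hA4.symm
    · exact h
  have hr4 : r ^ 4 = -1 := by
    rw [hr4a, natCast_mod_three h3k, ha2]
    push_cast
    linear_combination h3k
  have hm₁ : m₁ = 1 ∨ m₁ = 3 := by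
    have h1 : (r ^ m₁) ^ 4 = (r ^ 4) ^ m₁ := by rw [← pow_mul, mul_comm, pow_mul]
    rw [h1, hr4] at hA4
    interval_cases m₁
    · exact Or.inl rfl
    · exfalso
      exact neg_one_ne_one_of_three h3k (by rw [← hA4]; ring)
    · exact Or.inr rfl
    · exfalso
      exact neg_one_ne_one_of_three h3k (by rw [← hA4]; ring)
  -- (7) the quadratic relation on `M₁`
  obtain ⟨ε, hε, hAε⟩ : ∃ ε : ℕ, ((ε : kP P)) ^ 2 = 1 ∧
      (r ^ m₁) ^ 2 = (ε : kP P) * r ^ m₁ + 1 := by
    rcases alg_sq h3k hA4 with h | h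
    · exact ⟨1, by norm_num, by rw [h]; push_cast; ring⟩
    · refine ⟨2, ?_, by rw [h]; push_cast; ring⟩
      push_cast
      linear_combination h3k
  have hrel : ∀ y : M₁, act₁ τ (act₁ τ y) = ε • act₁ τ y + y := by
    intro y
    refine hLd₁.inj (htop _) (htop _) ?_
    rw [hact₁, hact₁, hLd₁.add _ (htop _) _ (htop _), hLd₁.map_nsmul' (htop _), hact₁]
    linear_combination (L₁ y) * hAε
  -- (8) transport by `φ`
  have hφτ : ∀ y : M₁, φ (act₁ τ y) = 2 • act₂ τ (φ y) := by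
    intro y
    rw [hφtw τ hτ a ha y, nsmul_mod_three (h3₂ (φ (act₁ τ y))) a, ha2, ← mul_nsmul,
      nsmul_mod_three (h3₂ (φ (act₁ τ y))) (2 * 2)]
    norm_num
  have hact₂ : ∀ y : M₁, L₂ (φ (act₁ τ y)) = (- r ^ m₂) * L₂ (φ y) := by
    intro y
    rw [hφτ y, hLd₂.map_nsmul' (hU₂ τ hτ _ (hran y)), hLd₂.act τ hτ _ (hran y)]
    push_cast
    linear_combination (r ^ m₂ * L₂ (φ y)) * h3k
  have hL₂0 : L₂ (φ x₀) ≠ 0 :=
    hLd₂.ne_zero _ (hran x₀) (fun h => hx₀ (hφinj (h.trans (map_zero φ).symm)))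
  have hCε : (- r ^ m₂) ^ 2 = (ε : kP P) * (- r ^ m₂) + 1 := by
    have h1 : L₂ (φ (act₁ τ (act₁ τ x₀))) = L₂ (φ (ε • act₁ τ x₀ + x₀)) := by
      rw [hrel x₀]
    rw [hact₂, hact₂, map_add, map_nsmul, hLd₂.add _ (φ.range.nsmul_mem (hran _) ε) _ (hran _),
      hLd₂.map_nsmul' (hran _), hact₂] at h1
    have h2 : ((- r ^ m₂) ^ 2 - ((ε : kP P) * (- r ^ m₂) + 1)) * L₂ (φ x₀) = 0 := by
      linear_combination h1
    rcases mul_eq_zero.mp h2 with h | h
    · exact sub_eq_zero.mp h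
    · exact absurd h hL₂0
  exact alg_excl h3k hr4 hm₁ hm₂1 hm₂4 hε hAε hCε

end Fermat.Agent.G1.H180

end

end
-- ===== PACK-END G1/H180/FT2.lean

-- ===== PACK-BEGIN G1/H180/Pairing.lean
section



/-!
# G1.c-LOC (helper180): alternating pairings with values in `𝔽₃` on a group of order `9`
-/

set_option autoImplicit false
set_option linter.unusedSectionVars false
set_option linter.style.haveILetI false

noncomputable section

namespace Fermat.Agent.G1.H180

open Fermat.Agent.S56 Fermat.Agent.S56.H906 Fermat.Agent.S56.H66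

/-- A biadditive alternating pairing with values in `𝔽₃`. -/
structure IsPairing {M : Type} [AddCommGroup M] (B : M → M → ZMod 3) : Prop where
  add_left : ∀ x y z : M, B (x + y) z = B x z + B y z
  add_right : ∀ x y z : M, B x (y + z) = B x y + B x z
  alt : ∀ x : M, B x x = 0

namespace IsPairing

variable {M : Type} [AddCommGroup M] {B : M → M → ZMod 3}

theorem zero_right (hB : IsPairing B) (x : M) : B x 0 = 0 := by
  have h := hB.add_right x 0 0
  rw [add_zero] at h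
  exact left_eq_add.mp h

theorem zero_left (hB : IsPairing B) (x : M) : B 0 x = 0 := by
  have h := hB.add_left 0 0 x
  rw [add_zero] at h
  exact left_eq_add.mp h

theorem neg_right (hB : IsPairing B) (x y : M) : B x (-y) = - B x y := by
  have h := hB.add_right x y (-y)
  rw [add_neg_cancel, hB.zero_right] at h
  exact (neg_eq_of_add_eq_zero_right h.symm).symm

theorem neg_left (hB : IsPairing B) (x y : M) : B (-x) y = - B x y := by
  have h := hB.add_left x (-x) y
  rw [add_neg_cancel, hB.zero_left] at h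
  exact (neg_eq_of_add_eq_zero_right h.symm).symm

theorem sub_right (hB : IsPairing B) (x y z : M) : B x (y - z) = B x y - B x z := by
  rw [sub_eq_add_neg, hB.add_right, hB.neg_right, sub_eq_add_neg]

theorem nsmul_right (hB : IsPairing B) (x y : M) (n : ℕ) : B x (n • y) = (n : ZMod 3) * B x y := by
  induction n with
  | zero => rw [zero_nsmul, hB.zero_right, Nat.cast_zero, zero_mul]
  | succ n ih => rw [succ_nsmul, hB.add_right, ih, Nat.cast_succ, add_mul, one_mul]

theorem nsmul_left (hB : IsPairing B) (x y : M) (n : ℕ) : B (n • x) y = (n : ZMod 3) * B x y := by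
  induction n with
  | zero => rw [zero_nsmul, hB.zero_left, Nat.cast_zero, zero_mul]
  | succ n ih => rw [succ_nsmul, hB.add_left, ih, Nat.cast_succ, add_mul, one_mul]

theorem antisymm (hB : IsPairing B) (x y : M) : B x y = - B y x := by
  have h := hB.alt (x + y)
  rw [hB.add_left, hB.add_right, hB.add_right, hB.alt, hB.alt, zero_add, add_zero] at h
  exact eq_neg_of_add_eq_zero_left h

/-- The orthogonal of `x`. -/
def perp (hB : IsPairing B) (x : M) : AddSubgroup M where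
  carrier := {w | B x w = 0}
  zero_mem' := hB.zero_right x
  add_mem' := by
    intro a b ha hb
    show B x (a + b) = 0
    rw [hB.add_right, ha, hb, add_zero]
  neg_mem' := by
    intro a ha
    show B x (-a) = 0
    rw [hB.neg_right, ha, neg_zero]

theorem mem_perp (hB : IsPairing B) (x w : M) : w ∈ hB.perp x ↔ B x w = 0 := Iff.rfl

theorem self_mem_perp (hB : IsPairing B) (x : M) : x ∈ hB.perp x := hB.alt x

/-- On a group of order `9` killed by `3`: if `B x y ≠ 0` then the orthogonal of `x` consists of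
the multiples of `x`. -/
theorem mem_perp_iff [Finite M] (hB : IsPairing B) (hcard : Nat.card M = 9)
    (h3 : ∀ x : M, 3 • x = 0) {x y : M} (hxy : B x y ≠ 0) (w : M) (hw : B x w = 0) :
    w = 0 ∨ w = x ∨ w = 2 • x := by
  have hx0 : x ≠ 0 := by
    rintro rfl
    exact hxy (hB.zero_left y)
  rcases subgroup_trichotomy hcard (hB.perp x) with h | h | h
  · exfalso
    have h1 : x ∈ hB.perp x := hB.self_mem_perp x
    rw [h] at h1
    exact hx0 ((AddSubgroup.mem_bot).mp h1)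
  · exfalso
    have h1 : y ∈ hB.perp x := by rw [h]; exact AddSubgroup.mem_top y
    exact hxy h1
  · exact exists_nsmul_of_card_three h h3 (hB.self_mem_perp x) hx0 w hw

end IsPairing

/-- In `𝔽₃`, `b = 2 b` forces `b = 0`. -/
theorem zmod3_eq_two_mul {b : ZMod 3} (h : b = 2 * b) : b = 0 := by
  revert h
  revert b
  decide

theorem zmod3_natCast_of_mod {a : ℕ} (h : a % 3 = 2) : (a : ZMod 3) = 2 := by
  rw [← ZMod.natCast_mod a 3, h]
  rfl

/-- If an element with cyclotomic exponent `2` acts by the scalar `2`, a pairing with cyclotomic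
similitude vanishes. -/
theorem pairing_eq_zero_of_scalar {M : Type} [AddCommGroup M] {B : M → M → ZMod 3}
    (hB : IsPairing B) {f : M → M} (hf : ∀ x, f x = 2 • x)
    (hsim : ∀ x y : M, B (f x) (f y) = ((2 : ℕ) : ZMod 3) * B x y) (x y : M) : B x y = 0 := by
  have h1 := hsim x y
  rw [hf x, hf y, hB.nsmul_left, hB.nsmul_right] at h1
  apply zmod3_eq_two_mul
  have h2 : ((2 : ℕ) : ZMod 3) * (((2 : ℕ) : ZMod 3) * B x y) = B x y := by
    have h4 : ((2 : ℕ) : ZMod 3) * ((2 : ℕ) : ZMod 3) = 1 := by decide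
    rw [← mul_assoc, h4, one_mul]
  rw [h2] at h1
  exact_mod_cast h1

end Fermat.Agent.G1.H180

end

end
-- ===== PACK-END G1/H180/Pairing.lean

-- ===== PACK-BEGIN G1/H180/LocW.lean
section


/-!
# G1.c-LOC (helper180): **(LOC-W)** the dichotomy for a flat module of Weil type, verbatim

`flatDichotomy_h180 : Fermat.Agent.G1.H59.FlatDichotomyStatement59`.

* If there is an inertia-stable line `H`, `flatTame` (landed) says that inertia acts on it
  trivially (excluded: no fixed point) or through `ω`; the pairing gives the trivial action on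
  the quotient: ordinary line.
* Otherwise `exists_isLead` gives a leading term map of slope `m / 8`, `m ∈ {1,2,3,4}`, on which
  `τ₀` (cyclotomic exponent `2`) acts through `r ^ m`, `r ^ 4 = -1`.  For `m` odd, `τ₀⁴ = -1`.
  `m = 2` (`τ₀² = -1`) and `m = 4` (`τ₀ = -1`) contradict the pairing (`det τ₀ = -1`).
-/

set_option autoImplicit false
set_option linter.unusedSectionVars false
set_option linter.style.haveILetI false

noncomputable section

namespace Fermat.Agent.G1.H180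

open Fermat.Agent.S56 Fermat.Agent.S56.H906 Fermat.Agent.S56.H66 Fermat.Agent.G1.H59

theorem zmod3_two_mul_eq_zero {b : ZMod 3} (h : ((2 : ℕ) : ZMod 3) * b = 0) : b = 0 := by
  revert h
  revert b
  decide

theorem zmod3_cycExp_ne_zero {τ : GQ} {a : ℕ} (ha : IsCycExp 3 τ a) : (a : ZMod 3) ≠ 0 := by
  rw [Ne, ZMod.natCast_eq_zero_iff]
  intro h
  have h1 := Nat.mod_eq_zero_of_dvd h
  rcases cycExp_mod_three ha with h2 | h2 <;> omega

/-- **(LOC-W)**, verbatim. -/
theorem flatDichotomy_h180 : FlatDichotomyStatement59 := by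
  intro P hP M _ _ act hW hL
  obtain ⟨Λ, hΛ⟩ := hL
  obtain ⟨B, hB1, hB2, hB3, ⟨x₁, y₁, hB4⟩, hB5⟩ := hW.pairing
  have hB : IsPairing B := ⟨hB1, hB2, hB3⟩
  have h3 := hW.three
  have hcard := hW.card
  haveI : Fact (Nat.Prime 3) := ⟨Nat.prime_three⟩
  have h3k : (3 : kP P) = 0 := three_eq_zero P hP
  have hx₁0 : x₁ ≠ 0 := by
    rintro rfl
    exact hB4 (hB.zero_left y₁)
  by_cases hline : ∃ H : AddSubgroup M, IStable P act H ∧ H ≠ ⊥ ∧ H ≠ ⊤
  · -- an inertia-stable line: ordinary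
    left
    obtain ⟨H, hst, hbot, htop⟩ := hline
    have hH3 : Nat.card H = 3 := by
      rcases subgroup_trichotomy hcard H with h | h | h
      · exact absurd h hbot
      · exact absurd h htop
      · exact h
    obtain ⟨z, hzH, hz0⟩ := exists_ne_zero_of_card_three hH3
    have hsc : ∀ τ ∈ P.inertiaSubgroupIn ℚ, ∃ n : ℕ, act τ z = n • z := by
      intro τ hτ
      rcases exists_nsmul_of_card_three hH3 h3 hzH hz0 (act τ z) (hst τ hτ z hzH) with
        h | h | h
      · exact ⟨0, by rw [h, zero_nsmul]⟩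
      · exact ⟨1, by rw [h, one_nsmul]⟩
      · exact ⟨2, h⟩
    rcases flatTame 3 (by norm_num) M act Λ hΛ h3 P hP z hz0 hsc with hfix | hcyc
    · exact absurd (hW.nofix z hfix) hz0
    · have hzw : ∃ w, B z w ≠ 0 := by
        by_contra hcon
        push Not at hcon
        apply hB4
        have h1 : B x₁ z = 0 := by rw [hB.antisymm, hcon, neg_zero]
        rcases hB.mem_perp_iff hcard h3 hB4 z h1 with h | h | h
        · exact absurd h hz0
        · rw [← h]
          exact hcon y₁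
        · have h2 := hcon y₁
          rw [h, hB.nsmul_left] at h2
          exact zmod3_two_mul_eq_zero h2
      obtain ⟨w₀, hw₀⟩ := hzw
      refine ⟨H, ?_, ?_⟩
      · intro τ hτ z' hz' a ha
        rcases exists_nsmul_of_card_three hH3 h3 hzH hz0 z' hz' with h | h | h
        · rw [h, Fermat.Agent.S19.H435.IsHopfLattice.act_zero hΛ, nsmul_zero]
        · rw [h]
          exact hcyc τ hτ a ha
        · rw [h, ft_act_nsmul hΛ, hcyc τ hτ a ha, ← mul_nsmul, ← mul_nsmul, mul_comm]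
      · intro τ hτ w
        obtain ⟨a, ha⟩ := exists_cycExp τ
        have h1 := hB5 τ hτ a ha z w
        rw [hcyc τ hτ a ha, hB.nsmul_left] at h1
        have h2 : B z (act τ w) = B z w := mul_left_cancel₀ (zmod3_cycExp_ne_zero ha) h1
        have h3' : B z (act τ w - w) = 0 := by rw [hB.sub_right, h2, sub_self]
        rcases hB.mem_perp_iff hcard h3 hw₀ _ h3' with h | h | h
        · rw [h]
          exact H.zero_mem
        · rw [h]
          exact hzH
        · rw [h]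
          exact H.nsmul_mem hzH 2
  · -- no inertia-stable line: supersingular
    have hirr : ∀ H : AddSubgroup M, H ≤ ⊤ → IStable P act H → H = ⊥ ∨ H = ⊤ := by
      intro H _ hst
      by_contra hcon
      push Not at hcon
      exact hline ⟨H, hst, hcon.1, hcon.2⟩
    have hnofix : ∀ x ∈ (⊤ : AddSubgroup M),
        (∀ σ ∈ P.inertiaSubgroupIn ℚ, act σ x = x) → x = 0 := fun x _ hx => hW.nofix x hx
    have hU : IStable P act (⊤ : AddSubgroup M) := fun _ _ _ _ => AddSubgroup.mem_top _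
    have hcardtop : Nat.card (⊤ : AddSubgroup M) = 9 := by
      rw [AddSubgroup.card_top]
      exact hcard
    obtain ⟨π, hπ⟩ := exists_pi
    obtain ⟨m, L, hm1, hm4, hLd⟩ := exists_isLead P hΛ hP ⊤ hU hcardtop h3 hnofix hirr hπ
    obtain ⟨τ₀, hτ₀, ha₀⟩ := exists_tau0 P hP
    have htop : ∀ y : M, y ∈ (⊤ : AddSubgroup M) := fun y => AddSubgroup.mem_top y
    set r := psi P π τ₀ with hr
    have hr4 : r ^ 4 = -1 := by
      rw [psi_pow_four P hP hπ hτ₀ ha₀]
      push_cast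
      linear_combination h3k
    have hact : ∀ y : M, L (act τ₀ y) = r ^ m * L y := fun y => hLd.act τ₀ hτ₀ y (htop y)
    have hsim : ∀ x y : M, B (act τ₀ x) (act τ₀ y) = ((2 : ℕ) : ZMod 3) * B x y :=
      fun x y => hB5 τ₀ hτ₀ 2 ha₀ x y
    have hodd : (r ^ m) ^ 4 = -1 → HasOrderEight59 P act := by
      intro h4
      refine ⟨τ₀, hτ₀, fun y => ?_⟩
      apply hLd.inj (htop _) (htop _)
      rw [hact, hact, hact, hact, hLd.map_neg' (htop y)]
      linear_combination (L y) * h4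
    interval_cases m
    · right
      exact hodd (by rw [pow_one]; exact hr4)
    · -- `m = 2`: `τ₀² = -1`
      exfalso
      have hsq : ∀ y : M, act τ₀ (act τ₀ y) = -y := by
        intro y
        apply hLd.inj (htop _) (htop _)
        rw [hact, hact, hLd.map_neg' (htop y)]
        linear_combination (L y) * hr4
      have hx : B x₁ (act τ₀ x₁) = 0 := by
        have h1 := hsim x₁ (act τ₀ x₁)
        rw [hsq, hB.neg_right, ← hB.antisymm] at h1
        exact zmod3_eq_two_mul (by exact_mod_cast h1)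
      rcases hB.mem_perp_iff hcard h3 hB4 _ hx with h | h | h
      · exact act_ne_zero hΛ τ₀ hx₁0 h
      · have h5 := hsq x₁
        rw [h, h] at h5
        exact hx₁0 (eq_zero_of_eq_neg (h3 x₁) h5)
      · have h5 := hsq x₁
        rw [h, ft_act_nsmul hΛ, h, ← mul_nsmul, nsmul_mod_three (h3 x₁)] at h5
        norm_num at h5
        exact hx₁0 (eq_zero_of_eq_neg (h3 x₁) h5)
    · right
      refine hodd ?_
      have h1 : (r ^ 3) ^ 4 = (r ^ 4) ^ 3 := by ring
      rw [h1, hr4]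
      ring
    · -- `m = 4`: `τ₀ = -1`
      exfalso
      have hneg : ∀ y : M, act τ₀ y = 2 • y := by
        intro y
        apply hLd.inj (htop _) (htop _)
        rw [hact, hLd.map_nsmul' (htop y)]
        push_cast
        linear_combination (L y) * hr4 - (L y) * h3k
      exact hB4 (pairing_eq_zero_of_scalar hB hneg hsim x₁ y₁)

end Fermat.Agent.G1.H180

end

end
-- ===== PACK-END G1/H180/LocW.lean

-- ===== PACK-BEGIN G1/H180/Ord.lean
section


/-!
# G1.c-LOC (helper180): **(ORD-TW)** and **(FI-TW)**, verbatim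

* `ordTwist_h180 : Fermat.Agent.G1.H59.OrdTwistStatement59`
* `flatTwistOrd_h180 : Fermat.Agent.G1.H59.FlatTwistOrdStatement59`

In both cases the twisted embedding forces the inertia group to act on `M₁` through the scalar
`ω`, which contradicts the pairing (`det = ω`, `ω² = 1 ≠ ω`).
-/

set_option autoImplicit false
set_option linter.unusedSectionVars false
set_option linter.style.haveILetI false

noncomputable section

namespace Fermat.Agent.G1.H180

open Fermat.Agent.S56 Fermat.Agent.S56.H906 Fermat.Agent.S56.H66 Fermat.Agent.G1.H59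

/-- **(ORD-TW)**, verbatim. -/
theorem ordTwist_h180 : OrdTwistStatement59 := by
  intro P hP M₁ M₂ _ _ _ _ act₁ act₂ hW h3₂ hord φ hφ
  obtain ⟨L₂, hL₂a, hL₂b⟩ := hord
  obtain ⟨hφinj, hφtw⟩ := hφ
  obtain ⟨B, hB1, hB2, hB3, ⟨x₁, y₁, hB4⟩, hB5⟩ := hW.pairing
  have hB : IsPairing B := ⟨hB1, hB2, hB3⟩
  have h3₁ := hW.three
  have hK : ∀ x : M₁, φ x ∈ L₂ → x = 0 := by
    intro x hx
    apply hW.nofix
    intro τ hτ
    obtain ⟨a, ha⟩ := exists_cycExp τ
    have h1 := hL₂a τ hτ (φ x) hx a ha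
    rw [hφtw τ hτ a ha x] at h1
    have h2 : a • (a • φ (act₁ τ x)) = a • (a • φ x) := by rw [h1]
    rw [cycExp_smul_smul h3₂ ha, cycExp_smul_smul h3₂ ha] at h2
    exact hφinj h2
  have hsc : ∀ τ ∈ P.inertiaSubgroupIn ℚ, ∀ a, IsCycExp 3 τ a →
      ∀ x : M₁, act₁ τ x = a • x := by
    intro τ hτ a ha x
    have h1 := hL₂b τ hτ (φ x)
    rw [hφtw τ hτ a ha x, ← map_nsmul, ← map_sub] at h1
    have h3 : a • act₁ τ x = x := sub_eq_zero.mp (hK _ h1)
    calc act₁ τ x = a • (a • act₁ τ x) := (cycExp_smul_smul h3₁ ha _).symm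
      _ = a • x := by rw [h3]
  obtain ⟨τ₀, hτ₀, ha₀⟩ := exists_tau0 P hP
  exact hB4 (pairing_eq_zero_of_scalar hB (f := act₁ τ₀) (fun x => hsc τ₀ hτ₀ 2 ha₀ x)
    (fun x y => hB5 τ₀ hτ₀ 2 ha₀ x y) x₁ y₁)

/-- **(FI-TW)**, verbatim. -/
theorem flatTwistOrd_h180 : FlatTwistOrdStatement59 := by
  intro P hP M₁ M₂ _ _ _ _ act₁ act₂ hW hord h3₂ hL₂ φ hφ
  obtain ⟨L₁, hL₁a, hL₁b⟩ := hord
  obtain ⟨Λ₂, hΛ₂⟩ := hL₂
  obtain ⟨hφinj, hφtw⟩ := hφ
  obtain ⟨B, hB1, hB2, hB3, ⟨x₁, y₁, hB4⟩, hB5⟩ := hW.pairing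
  have hB : IsPairing B := ⟨hB1, hB2, hB3⟩
  have h3₁ := hW.three
  haveI : Fact (Nat.Prime 3) := ⟨Nat.prime_three⟩
  -- the kernel of reduction of `M₂` is stable under inertia
  have hRst : ∀ τ ∈ P.inertiaSubgroupIn ℚ, ∀ w ∈ redKer P hΛ₂ hP,
      act₂ τ w ∈ redKer P hΛ₂ hP := by
    intro τ hτ w hw
    have h1 := act_sub_mem_redKer P hΛ₂ hP hτ w
    have h2 := (redKer P hΛ₂ hP).add_mem h1 hw
    rwa [sub_add_cancel] at h2
  -- the line meets the preimage of the kernel of reduction trivially (FI)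
  have hLK : ∀ z ∈ L₁, φ z ∈ redKer P hΛ₂ hP → z = 0 := by
    intro z hz hzR
    have hfix : ∀ σ ∈ P.inertiaSubgroupIn ℚ, act₂ σ (φ z) = φ z := by
      intro σ hσ
      obtain ⟨a, ha⟩ := exists_cycExp σ
      rw [hφtw σ hσ a ha z, hL₁a σ hσ z hz a ha, map_nsmul, cycExp_smul_smul h3₂ ha]
    have h1 := eq_zero_of_mem_redKer_of_fixed P (by norm_num) hΛ₂ hP (h3₂ (φ z)) hzR hfix
    exact hφinj (h1.trans (map_zero φ).symm)
  -- the preimage of the kernel of reduction is `0`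
  have hK : ∀ k : M₁, φ k ∈ redKer P hΛ₂ hP → k = 0 := by
    intro k hk
    apply hW.nofix
    intro τ hτ
    obtain ⟨a, ha⟩ := exists_cycExp τ
    have h1 : φ (act₁ τ k) ∈ redKer P hΛ₂ hP := by
      have h2 := hRst τ hτ _ hk
      rw [hφtw τ hτ a ha k] at h2
      have h3 := (redKer P hΛ₂ hP).nsmul_mem h2 a
      rwa [cycExp_smul_smul h3₂ ha] at h3
    have h4 : φ (act₁ τ k - k) ∈ redKer P hΛ₂ hP := by
      rw [map_sub]
      exact (redKer P hΛ₂ hP).sub_mem h1 hk
    exact sub_eq_zero.mp (hLK _ (hL₁b τ hτ k) h4)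
  have hsc : ∀ τ ∈ P.inertiaSubgroupIn ℚ, ∀ a, IsCycExp 3 τ a →
      ∀ x : M₁, act₁ τ x = a • x := by
    intro τ hτ a ha x
    have h1 := act_sub_mem_redKer P hΛ₂ hP hτ (φ x)
    rw [hφtw τ hτ a ha x, ← map_nsmul, ← map_sub] at h1
    have h3 : a • act₁ τ x = x := sub_eq_zero.mp (hK _ h1)
    calc act₁ τ x = a • (a • act₁ τ x) := (cycExp_smul_smul h3₁ ha _).symm
      _ = a • x := by rw [h3]
  obtain ⟨τ₀, hτ₀, ha₀⟩ := exists_tau0 P hP
  exact hB4 (pairing_eq_zero_of_scalar hB (f := act₁ τ₀) (fun x => hsc τ₀ hτ₀ 2 ha₀ x)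
    (fun x y => hB5 τ₀ hτ₀ 2 ha₀ x y) x₁ y₁)

end Fermat.Agent.G1.H180

end

end
-- ===== PACK-END G1/H180/Ord.lean

-- ===== PACK-BEGIN G1/H180/Top.lean
section




/-!
# G1.c-LOC (helper180): the local twist exclusion at `3`, unconditional

`localTwistExclusion_h180 : Fermat.Agent.G1.H59.LocalTwistExclusionStatement59` — the frozen Prop
(LTE) of `G1/H59/Spec.lean` (helper59), from the four leaves

* `flatDichotomy_h180` (LOC-W), `flatTwistSS_h180` (FT2), `flatTwistOrd_h180` (FI-TW),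
  `ordTwist_h180` (ORD-TW)

by helper59's assembly `localTwistExclusion_of59`.

In words: `M₁` of order `9` killed by `3`, without nonzero inertia-fixed point at `P | 3`, with an
alternating pairing of similitude `ω`, which is flat (Hopf lattice) or has an ordinary line;
`M₂` killed by `3`, flat or with an ordinary line.  Then there is no injective homomorphism
`M₁ → M₂` which is inertia-equivariant up to the twist by `ω`.
-/

set_option autoImplicit false

noncomputable section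

namespace Fermat.Agent.G1.H180

open Fermat.Agent.G1.H59

/-- **(LTE)** local twist exclusion at `3`, verbatim and unconditional. -/
theorem localTwistExclusion_h180 : LocalTwistExclusionStatement59 :=
  localTwistExclusion_of59 flatDichotomy_h180 flatTwistSS_h180 flatTwistOrd_h180 ordTwist_h180

end Fermat.Agent.G1.H180

end

end
-- ===== PACK-END G1/H180/Top.lean

-- ===== PACK-BEGIN G1/H659/D6.lean
section
/-
Row GLUE, block D6 of G1 (helper659): DICT ⇐ at `p = 3`, EVEN level, TWISTED systems.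

`formTw659` : `M` even, `W[3]` irreducible, `c : ℕ → ℤ` any function with `c ℓ = 1` for
`ℓ ≡ 1 mod 3` (e.g. `c = 1` or `c = χ₋₃`).  If the system `ℓ ↦ c ℓ · a_ℓ(W)` occurs in
`Hom(Γ₀(M), 𝔽₃)` (vocabulary `S59.H826.Occ826`, Hecke transfers of S29/S41), then there is a
normalised eigenform of level `M` congruent to it modulo a maximal ideal over `3`.

`d6_659` : the same in the shape of the board (`IsResModTw659 W tw M`, `tw : Bool`).

Everything is on main (cell LO-SQ `(3, 2)` of row S59, helper826): the proof is the one of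
`S59.H826.form32_826`, with the non-Eisenstein prime taken `≡ 1 mod 3 M` (so that the twist is
trivial at it):
* `S41.H45.ne_h45` : a good prime `ℓ₀ ∉ {2, 3}`, `ℓ₀ ≡ 1 mod 3 M`, with `3 ∤ a_ℓ₀ - (ℓ₀ + 1)`;
* `S59.TW.H653.Bdry.bdry_h653` + `S59.H826.isParHom_of_nonEis826` : the class is parabolic, and
  torsion-trivial because `Γ₀(M) ⊆ Γ₀(2)` has no elements of order `3`;
* `S59.H826.exists_eigenform_of_parHom826` : lift to `ℤ`, Deligne–Serre on the lattice, S21.
-/



set_option autoImplicit false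
set_option linter.style.haveILetI false

noncomputable section

namespace Fermat.Agent.G1.H659

open CongruenceSubgroup
open Fermat.Agent.S29 Fermat.Agent.Ribet.H883 Fermat.Agent.S59.H826
open scoped MatrixGroups

/-- `χ₋₃ = ω` on natural numbers (text of the board of row GLUE). -/
def chi3_659 (ℓ : ℕ) : ℤ := if ℓ % 3 = 1 then 1 else if ℓ % 3 = 2 then -1 else 0

theorem chi3_659_of_mod_one {ℓ : ℕ} (h : ℓ % 3 = 1) : chi3_659 ℓ = 1 := by
  unfold chi3_659
  rw [if_pos h]

/-- The twist factor of the board: `χ₋₃` if `tw`, `1` otherwise. -/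
def twFactor659 (tw : Bool) (ℓ : ℕ) : ℤ := if tw then chi3_659 ℓ else 1

theorem twFactor659_of_mod_one (tw : Bool) {ℓ : ℕ} (h : ℓ % 3 = 1) : twFactor659 tw ℓ = 1 := by
  unfold twFactor659
  split
  · exact chi3_659_of_mod_one h
  · rfl

/-- Twisted residual modularity at `3` (text of the board of row GLUE; `tw = false` is
`W.IsResiduallyModularOfLevel 3 M`). -/
def IsResModTw659 (W : WeierstrassCurve ℤ) (tw : Bool) (M : ℕ) : Prop :=
  ∃ (f : CuspForm (CongruenceSubgroup.Gamma0 M) 2) (𝔪 : Ideal (integralClosure ℤ ℂ)),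
    f.IsNormalizedEigenform ∧ 𝔪.IsMaximal ∧ ((3 : ℕ) : integralClosure ℤ ℂ) ∈ 𝔪 ∧
    ∀ ℓ : ℕ, ℓ.Prime → W.IsGoodPrimeFor ℓ → ¬ ℓ ∣ M → ℓ ≠ 3 →
      ∃ a : integralClosure ℤ ℂ, (a : ℂ) = ModularFormClass.qCoeff f ℓ ∧
        a - (((if tw then chi3_659 ℓ else 1) * W.apOfModel ℓ : ℤ) : integralClosure ℤ ℂ) ∈ 𝔪

theorem isResModTw659_false_iff (W : WeierstrassCurve ℤ) (M : ℕ) :
    IsResModTw659 W false M ↔ W.IsResiduallyModularOfLevel 3 M := by
  unfold IsResModTw659 WeierstrassCurve.IsResiduallyModularOfLevel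
  simp only [Bool.false_eq_true, if_false, one_mul]

/-- **D6, general twist.**  At an even level, a mod-`3` Betti eigenclass with the eigenvalues
`c ℓ · a_ℓ(W)` of a twist (trivial at the primes `≡ 1 mod 3`) of an irreducible `W[3]` is the
reduction of a normalised eigenform of the same level. -/
theorem formTw659 (W : WeierstrassCurve ℤ) (hΔ : W.Δ ≠ 0) (hirr : W.ModRepIsIrreducible 3)
    (M : ℕ) (hM : M ≠ 0) (h2M : 2 ∣ M) (c : ℕ → ℤ) (hc : ∀ ℓ : ℕ, ℓ % 3 = 1 → c ℓ = 1)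
    (hocc : Occ826 3 M (fun ℓ => W.IsGoodPrimeFor ℓ ∧ ℓ ≠ 3) (fun ℓ => c ℓ * W.apOfModel ℓ)) :
    ∃ (f : CuspForm (CongruenceSubgroup.Gamma0 M) 2) (𝔪 : Ideal (integralClosure ℤ ℂ)),
      f.IsNormalizedEigenform ∧ 𝔪.IsMaximal ∧ ((3 : ℕ) : integralClosure ℤ ℂ) ∈ 𝔪 ∧
      ∀ ℓ : ℕ, ℓ.Prime → W.IsGoodPrimeFor ℓ → ¬ ℓ ∣ M → ℓ ≠ 3 →
        ∃ a : integralClosure ℤ ℂ, (a : ℂ) = ModularFormClass.qCoeff f ℓ ∧
          a - ((c ℓ * W.apOfModel ℓ : ℤ) : integralClosure ℤ ℂ) ∈ 𝔪 := by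
  obtain ⟨y, hy0, hyT⟩ := hocc
  haveI : Fact (Nat.Prime 3) := ⟨by norm_num⟩
  haveI : NeZero M := ⟨hM⟩
  haveI := isElliptic_map826 W hΔ
  have h3M : 0 < 3 * M := by omega
  obtain ⟨ℓ₀, hℓ₀, hℓ₀S, hℓ₀good, hℓ₀1, hℓ₀ne⟩ :=
    Fermat.Agent.S41.H45.ne_h45 (W.map (Int.castRingHom ℚ)) W (isIntegralModelOf_self826 W) 3
      (by norm_num) (by norm_num) hirr (3 * M) h3M {2, 3}
  haveI : Fact ℓ₀.Prime := ⟨hℓ₀⟩
  have hℓ₀2 : ℓ₀ ≠ 2 := fun h => hℓ₀S (by rw [h]; simp)
  have hℓ₀p : ℓ₀ ≠ 3 := fun h => hℓ₀S (by rw [h]; simp)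
  have hℓ₀M1 : ℓ₀ ≡ 1 [MOD M] := hℓ₀1.of_mul_left 3
  have hℓ₀31 : ℓ₀ ≡ 1 [MOD 3] := hℓ₀1.of_mul_right M
  have hℓ₀mod : ℓ₀ % 3 = 1 := by
    have h := hℓ₀31
    unfold Nat.ModEq at h
    simpa using h
  have hc1 : c ℓ₀ = 1 := hc ℓ₀ hℓ₀mod
  have hℓ₀M : ¬ ℓ₀ ∣ M := not_dvd_of_modEq_one826 hℓ₀ hℓ₀M1
  have hne : ¬ ((3 : ℕ) : ℤ) ∣ c ℓ₀ * W.apOfModel ℓ₀ - ((ℓ₀ : ℤ) + 1) := by
    rw [hc1, one_mul]
    exact hℓ₀ne
  have hpar : IsParHom (funOf y) :=
    isParHom_of_nonEis826 Fermat.Agent.S59.TW.H653.Bdry.bdry_h653 M hM h2M ℓ₀ hℓ₀M hℓ₀2 hℓ₀M1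
      (c ℓ₀ * W.apOfModel ℓ₀) hne y (hyT ℓ₀ hℓ₀M ⟨hℓ₀good, hℓ₀p⟩)
  obtain ⟨g, 𝔪, hg, h𝔪, hp𝔪, hcong⟩ :=
    exists_eigenform_of_parHom826 3 M (fun ℓ => W.IsGoodPrimeFor ℓ ∧ ℓ ≠ 3)
      (fun ℓ => c ℓ * W.apOfModel ℓ) y hy0 hpar hyT
  exact ⟨g, 𝔪, hg, h𝔪, hp𝔪, fun ℓ hℓ hgood hℓM hℓp => hcong ℓ hℓ hℓM ⟨hgood, hℓp⟩⟩

/-- **Block D6** (board v1 of row GLUE), at EVEN levels: a (possibly twisted) system of an
irreducible `W[3]` occurring in `Hom(Γ₀(M), 𝔽₃)` comes from a normalised eigenform of level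
`M`. -/
theorem d6_659 (W : WeierstrassCurve ℤ) (hΔ : W.Δ ≠ 0) (hirr : W.ModRepIsIrreducible 3)
    (M : ℕ) (hM : 0 < M) (h2M : 2 ∣ M) (tw : Bool)
    (hocc : Occ826 3 M (fun ℓ => W.IsGoodPrimeFor ℓ ∧ ℓ ≠ 3)
      (fun ℓ => (if tw then chi3_659 ℓ else 1) * W.apOfModel ℓ)) :
    IsResModTw659 W tw M :=
  formTw659 W hΔ hirr M hM.ne' h2M (fun ℓ => if tw then chi3_659 ℓ else 1)
    (fun _ h => twFactor659_of_mod_one tw h) hocc

/-- The untwisted case of D6, in the frozen vocabulary. -/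
theorem d6_untwisted659 (W : WeierstrassCurve ℤ) (hΔ : W.Δ ≠ 0)
    (hirr : W.ModRepIsIrreducible 3) (M : ℕ) (hM : 0 < M) (h2M : 2 ∣ M)
    (hocc : Occ826 3 M (fun ℓ => W.IsGoodPrimeFor ℓ ∧ ℓ ≠ 3) (fun ℓ => W.apOfModel ℓ)) :
    W.IsResiduallyModularOfLevel 3 M :=
  form32_826 Fermat.Agent.S59.TW.H653.Bdry.bdry_h653 W hΔ hirr M hM.ne' h2M hocc

end Fermat.Agent.G1.H659

end
end
-- ===== PACK-END G1/H659/D6.lean

-- ===== PACK-BEGIN G1/H659/D5.lean
section
/-
Row GLUE, block D5 of G1 (helper659, SPARE): DICT ⇒ for ARBITRARY systems.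

`occ_of_eigenform659` : a normalised eigenform `f` of level `M` which is congruent, modulo a
maximal ideal over `p`, to an integral system `a` at the primes `ℓ ∤ M` with `good ℓ`, gives a
nonzero class of `Hom(Γ₀(M), 𝔽_p)` with `T_ℓ y = a_ℓ y` (vocabulary `S59.H826.Occ826`).

`d5_659` : the shape of the board, `IsResModTw659 W tw M → Occ826 3 M good (tw · a(W))`.

Proof of `S59.H826.occW826` (helper826, on main), which never uses the shape of the system:
`S41.H341.occ_exists_eigenChar` (the eigen-character of `f` on `Γ₀(M)` with values in `ℤ̄/𝔪`)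
followed by an `𝔽_p`-linear form.
-/



set_option autoImplicit false
set_option linter.style.haveILetI false

noncomputable section

namespace Fermat.Agent.G1.H659

open CongruenceSubgroup
open Fermat.Agent.S29.H642 Fermat.Agent.S59.H826
open scoped MatrixGroups

/-- **D5, general system.** -/
theorem occ_of_eigenform659 (p : ℕ) [hpF : Fact p.Prime] (M : ℕ) (hM : M ≠ 0)
    (good : ℕ → Prop) (a : ℕ → ℤ)
    (f : CuspForm (CongruenceSubgroup.Gamma0 M) 2) (𝔪 : Ideal (integralClosure ℤ ℂ))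
    (hf : f.IsNormalizedEigenform) (hmax : 𝔪.IsMaximal) (hpm : (p : integralClosure ℤ ℂ) ∈ 𝔪)
    (hcong : ∀ ℓ : ℕ, ℓ.Prime → good ℓ → ¬ ℓ ∣ M →
      ∃ b : integralClosure ℤ ℂ, (b : ℂ) = ModularFormClass.qCoeff f ℓ ∧
        b - ((a ℓ : ℤ) : integralClosure ℤ ℂ) ∈ 𝔪) :
    Occ826 p M good a := by
  have hp : p.Prime := hpF.out
  haveI : NeZero M := ⟨hM⟩
  classical
  letI : Field (integralClosure ℤ ℂ ⧸ 𝔪) := Ideal.Quotient.field 𝔪
  let ψ : integralClosure ℤ ℂ →+* (integralClosure ℤ ℂ ⧸ 𝔪) := Ideal.Quotient.mk 𝔪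
  have hpk : ((p : ℕ) : integralClosure ℤ ℂ ⧸ 𝔪) = 0 := by
    have h : ψ (p : integralClosure ℤ ℂ) = 0 := Ideal.Quotient.eq_zero_iff_mem.mpr hpm
    rwa [map_natCast] at h
  haveI : CharP (integralClosure ℤ ℂ ⧸ 𝔪) p := (CharP.charP_iff_prime_eq_zero hp).mpr hpk
  letI : Algebra (ZMod p) (integralClosure ℤ ℂ ⧸ 𝔪) := ZMod.algebra _ p
  obtain ⟨χ, hχ0, -, hχe⟩ := Fermat.Agent.S41.H341.occ_exists_eigenChar hf hp ψ
  obtain ⟨γ₀, hγ₀⟩ : ∃ γ₀, χ γ₀ ≠ 0 := by
    by_contra h
    push Not at h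
    exact hχ0 (AddMonoidHom.ext h)
  obtain ⟨φ, hφ⟩ : ∃ φ : Module.Dual (ZMod p) (integralClosure ℤ ℂ ⧸ 𝔪), φ (χ γ₀) ≠ 0 := by
    by_contra hcon
    push Not at hcon
    exact hγ₀ ((Module.forall_dual_apply_eq_zero_iff (ZMod p) _).mp hcon)
  refine ⟨φ.toAddMonoidHom.comp χ, ?_, ?_⟩
  · intro h0
    apply hφ
    have := congrArg (fun y : Additive (Gamma0 M) →+ ZMod p => y γ₀) h0
    simpa using this
  · intro ℓ hℓ hℓM hgood
    obtain ⟨b, hb, hbm⟩ := hcong ℓ hℓ.out hgood hℓM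
    have h : ψ b = ψ ((a ℓ : ℤ) : integralClosure ℤ ℂ) := Ideal.Quotient.eq.mpr hbm
    have hc : ψ b = algebraMap (ZMod p) (integralClosure ℤ ℂ ⧸ 𝔪) ((a ℓ : ℤ) : ZMod p) := by
      rw [h, map_intCast, map_intCast]
    rw [heckeTransfer_comp]
    refine AddMonoidHom.ext fun γ => ?_
    rw [AddMonoidHom.comp_apply, hχe ℓ hℓM b hb γ, hc, ← Algebra.smul_def]
    show φ (((a ℓ : ℤ) : ZMod p) • χ γ) = ((a ℓ : ℤ) : ZMod p) • φ (χ γ)
    exact map_smul φ _ (χ γ)

/-- **Block D5** (board v1 of row GLUE): a (possibly twisted) residually modular system occurs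
in `Hom(Γ₀(M), 𝔽₃)`. -/
theorem d5_659 (W : WeierstrassCurve ℤ) (tw : Bool) (M : ℕ) (hM : 0 < M)
    (h : IsResModTw659 W tw M) :
    Occ826 3 M (fun ℓ => W.IsGoodPrimeFor ℓ ∧ ℓ ≠ 3)
      (fun ℓ => (if tw then chi3_659 ℓ else 1) * W.apOfModel ℓ) := by
  obtain ⟨f, 𝔪, hf, hmax, h3, hcong⟩ := h
  haveI : Fact (Nat.Prime 3) := ⟨by norm_num⟩
  exact occ_of_eigenform659 3 M hM.ne' _ _ f 𝔪 hf hmax h3
    (fun ℓ hℓ hgood hℓM => hcong ℓ hℓ hgood.1 hℓM hgood.2)

end Fermat.Agent.G1.H659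

end
end
-- ===== PACK-END G1/H659/D5.lean

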