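import Mathlib
import Fermat.Agent.Pack.L1.E6L3
import Fermat.Agent.Pack.L1.E7L0
import Fermat.Agent.Pack.L1.E6L2
import Fermat.Agent.Pack.L1.E7L1
import Fermat.Agent.Pack.L1.E7L3
import Fermat.Agent.Pack.L1.E6L0
import Fermat.Agent.Pack.L1.E7L2
import Fermat.Agent.Pack.S44C.G0E27L0
import Fermat.Agent.Pack.S44C.G0E19L2
import Fermat.Agent.Pack.S44C.G0E14L0
import Fermat.Agent.Pack.S44C.G0E1L0
import Fermat.Agent.Pack.L1.E5L1
import Fermat.Agent.Pack.S43MC.G0E5L3
import Fermat.Agent.Pack.S43MC.G0E25L0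
import Fermat.Agent.Pack.S43MC.G0E21L3
import Fermat.Agent.Pack.S43MC.G0E19L0
import Fermat.Agent.Pack.L1.E6L1
import Fermat.Agent.Pack.L1.E3L3
import Fermat.Agent.Pack.L1.E5L3
import Fermat.Agent.Pack.L1.E3L0
import Fermat.Agent.Pack.L1.E4L2

-- ===== PACK-BEGIN S17/H500/TopGlue.lean
section



/-!
# S17 / tower H : TOP-GLUE, the master statement (architect helper500)

* `hasDescentHeight_of_leaves` : `HasDescentHeight N 2` from a `TopInput` for `X₀(N)` and the
  leaves of TOP-GLUE (`Top.Leaves I`, one `Prop` per field of the pairing package).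
* `GaussPlusStatement F₀ E` : the interface with the GAUSS team (existence of `Rt`, `c`);
  `TopInput.ofGauss` builds a `TopInput` from it.
* `Top.Goal N` : what remains to be proved for tower H in genus `≥ 1`;
  `hasDescentHeight_of_goal` : tower H from it (genus zero is done).

Everything here is complete.
-/

set_option autoImplicit false

noncomputable section

open AlgebraicCurve

namespace Fermat.Agent.S17.H500.Top

open Fermat.Agent.Lib.RR Fermat.Agent.S17.HWall Fermat.Agent.S17.HContract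
open Fermat.Agent.S17.H77 Fermat.Agent.S17.H680 Fermat.Agent.S17.H980 ModularCurve

/-- **TOP-GLUE, master statement.** -/
theorem hasDescentHeight_of_leaves (N : ℕ) [NeZero N]
    (I : TopInput (modularFunctionFieldFull N))
    (h : Leaves I) : Fermat.Agent.S17.H17.HasDescentHeight N 2 :=
  hasDescentHeight_of_package N (mkPackage I h)

variable (F₀ : IntermediateField ℚ (LaurentSeries ℚ)) [FF1 Qb (laurentBaseChange Qb F₀)]

/-- **(GAUSS⁺), interface with the GAUSS team**: `κ(P) = (Rt . P) - c (∞ . P) + O(1)` for an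
effective Galois-invariant divisor `Rt` prime to `∞` with `deg Rt = 2g - 2 + c`
(`Rt - c ∞ = div(dt)` for a Galois-fixed coordinate `t`). -/
def GaussPlusStatement (E : EmbData Qb (laurentBaseChange Qb F₀)) : Prop :=
  ∃ (Rt : Divisor Qb (laurentBaseChange Qb F₀)) (c : ℕ) (C : ℝ),
    0 ≤ Rt ∧ IsInvariant F₀ Rt ∧ Rt E.vinf = 0 ∧
    Divisor.degree Rt = 2 * (genusR Qb (laurentBaseChange Qb F₀) : ℤ) - 2 + c ∧
    ∀ P : Place Qb (laurentBaseChange Qb F₀), Rt P = 0 → P ≠ E.vinf →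
      |kap E P - (pairPt E Rt P - (c : ℝ) * hD E E.vinf P)| ≤ C

variable {F₀}

/-- A `TopInput` from an embedding and (GAUSS⁺). -/
theorem exists_topInput (E : EmbData Qb (laurentBaseChange Qb F₀))
    (hxfix : ∀ i, IsFixed F₀ (E.x i)) (hinf : IsInvariant F₀ (prim E.vinf))
    (hx0 : E.x 0 = 1) (d : ℕ)
    (hg : 1 ≤ genusR Qb (laurentBaseChange Qb F₀))
    (hd : 2 * genusR Qb (laurentBaseChange Qb F₀) ≤ d)
    (hm : 4 * d + 2 * genusR Qb (laurentBaseChange Qb F₀) ≤ E.m)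
    (hG : GaussPlusStatement F₀ E) :
    ∃ I : TopInput F₀, I.E = E ∧ I.d = d ∧ GaussPlus I := by
  obtain ⟨Rt, c, C, h0, hinv, hRinf, hdeg, hb⟩ := hG
  exact ⟨⟨E, hxfix, hinf, hx0, d, Rt, h0, hinv, hRinf, c, hdeg, hg, hd, hm⟩, rfl, rfl, C, hb⟩

/-- **What remains to be proved for tower H** (genus `≥ 1`): an input with all its leaves. -/
def Goal (N : ℕ) [NeZero N] : Prop :=
  1 ≤ genusR Qb (laurentBaseChange Qb (modularFunctionFieldFull N)) →
    ∃ I : TopInput (modularFunctionFieldFull N), Leaves I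

/-- **Tower H from the goal of TOP-GLUE.** -/
theorem hasDescentHeight_of_goal (N : ℕ) [NeZero N] (h : Goal N) :
    Fermat.Agent.S17.H17.HasDescentHeight N 2 := by
  refine hasDescentHeight_of_exists_package N fun hg => ?_
  obtain ⟨I, hI⟩ := h hg
  exact ⟨mkPackage I hI⟩

end Fermat.Agent.S17.H500.Top

end
end
-- ===== PACK-END S17/H500/TopGlue.lean

-- ===== PACK-BEGIN S17/H497/RtData.lean
section





/-!
# S17 / tower H — bridge RT-DATA (helper497): `GAUSSCanStatement E ⟹ GaussPlusStatement F₀ E`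

TOP needs (GAUSS) at a canonical divisor of the shape `K₀ = Rt − c ∞` with `Rt ≥ 0`
GALOIS-INVARIANT and prime to `∞`.  The GAUSS sub-project delivers `HContract.GAUSSCanStatement E`
((GAUSS) at `div ω` for every Kähler differential `ω ≠ 0`).  Here is the bridge: for a
non-constant function `t ∈ L(m ∞)` (poles at `∞` only) take `ω = dt`, `W = div(dt)`,
`c = − W(∞) ≥ 2`, `Rt = W + c ∞`.

Abstract part (`K` algebraically closed of characteristic `0`, `[FF1 K F]`):

* `exists_const_ord_sub_ne_zero497` : at every place some `t − const` has nonzero order;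
* `D_ne_zero_of_ord_neg497`         : `dt ≠ 0` if `t` has a pole;
* `ordDifferential_D_smul497`       : `div(dt)` is invariant under a semilinear automorphism
                                      fixing `t`;
* `exists_rt497`                    : the data `W`, `Rt`, `c` with all their properties.

Galois part (`F = laurentBaseChange ℚ̄ F₀`):

* `isInvariant_divD497`     : `div(dt)` is Galois-invariant for a Galois-fixed `t`;
* `exists_rtData497`        : `Rt ≥ 0` invariant, `Rt(∞) = 0`, `deg Rt = 2g − 2 + c`, `2 ≤ c`, and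
                              `GaussRtStatement E Rt c` (the input of `H35.gauss_sum`/`H35.gauss`);
* `exists_rtData_deg497`    : the same with `c` replaced by `deg Rt − (2g − 2)`
                              (shape of `H736.TopInput` + `H35.gauss`);
* `gaussPlus_of_gaussCan497`: `GAUSSCanStatement E → H500.Top.GaussPlusStatement F₀ E`;
* `gaussPlus_of_gaussCan_x497` : the same with `t` found among the (fixed) basis `E.x`.
-/

set_option autoImplicit false

noncomputable section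

open AlgebraicCurve KaehlerDifferential

namespace Fermat.Agent.S17.H497

open Fermat.Agent.Lib.RR Fermat.Agent.S17.HWall Fermat.Agent.S17.HContract

section Abstract

variable {K F : Type*} [Field K] [Field F] [Algebra K F] [FF1 K F]

/-- At every place, some `t − const` has nonzero order (for `t` non-constant). -/
theorem exists_const_ord_sub_ne_zero497 (v : Place K F) {t : F}
    (hnc : t ∉ Set.range (algebraMap K F)) :
    ∃ c : K, v.ord (t - algebraMap K F c) ≠ 0 := by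
  by_cases h : 0 ≤ v.ord t
  · obtain ⟨c, hc | hc⟩ := exists_const_sub v (deg_eq_one v) h
    · exact absurd ⟨c, (sub_eq_zero.mp hc).symm⟩ hnc
    · exact ⟨c, hc.ne'⟩
  · refine ⟨0, ?_⟩
    rw [map_zero, sub_zero]
    omega

/-- A function of `L(m ∞)` which is regular at `∞` is constant. -/
theorem mem_range_of_mem_L_of_ord_nonneg497 {vinf : Place K F} {m : ℕ} {t : F}
    (ht : t ∈ riemannRochSpace (m • prim vinf)) (h : 0 ≤ vinf.ord t) :
    t ∈ Set.range (algebraMap K F) := by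
  have h0 : t ∈ riemannRochSpace (0 : Divisor K F) := by
    rw [mem_L_iff] at ht ⊢
    intro v
    rcases ht v with h1 | h1
    · exact Or.inl h1
    · right
      by_cases hv : v = vinf
      · subst hv
        simpa using h
      · rw [Finsupp.smul_apply, prim_apply_of_ne hv, smul_zero, neg_zero] at h1
        simpa using h1
  rw [L_zero] at h0
  obtain ⟨c, hc⟩ := h0
  exact ⟨c, hc⟩

/-- A non-constant function of `L(m ∞)` has a pole at `∞`. -/
theorem ord_neg_of_mem_L497 {vinf : Place K F} {m : ℕ} {t : F}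
    (ht : t ∈ riemannRochSpace (m • prim vinf)) (hnc : t ∉ Set.range (algebraMap K F)) :
    vinf.ord t < 0 := by
  by_contra h
  exact hnc (mem_range_of_mem_L_of_ord_nonneg497 ht (not_lt.mp h))

/-- A function of `L(m ∞)` is regular away from `∞`. -/
theorem ord_nonneg_of_mem_L497 {vinf : Place K F} {m : ℕ} {t : F}
    (ht : t ∈ riemannRochSpace (m • prim vinf)) {v : Place K F} (hv : v ≠ vinf) :
    0 ≤ v.ord t := by
  rcases (mem_L_iff.mp ht) v with h1 | h1
  · rw [h1, v.ord_zero]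
  · rw [Finsupp.smul_apply, prim_apply_of_ne hv, smul_zero, neg_zero] at h1
    exact h1

variable [IsAlgClosed K] [CharZero K]

/-- `dt ≠ 0` if `t` has a pole. -/
theorem D_ne_zero_of_ord_neg497 (v : Place K F) {t : F} (h : v.ord t < 0) : D K F t ≠ 0 := by
  intro h0
  have h1 := Fermat.Agent.Lib.RR.H80.ordDifferential_D_eq v (f := t) (by omega)
  have hgen := Fermat.Agent.Lib.RR.H80.dCoordGenerates_of_FF1 v
  have hnt : Nontrivial Ω[F⁄K] := by
    obtain ⟨ω, hω⟩ := Fermat.Agent.Lib.RR.H80.exists_kaehler_ne_zero K F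
    exact ⟨⟨ω, 0, hω⟩⟩
  rw [h0, Place.ordDifferential, Place.differentialCoeff_zero, v.ord_zero] at h1
  omega

/-- **`div(dt)` is invariant under every semilinear automorphism fixing `t`.** -/
theorem ordDifferential_D_smul497 (g : SemilinearAut K F) {t : F} (ht : g • t = t)
    (hnc : t ∉ Set.range (algebraMap K F)) (v : Place K F) :
    (g • v).ordDifferential (D K F t) = v.ordDifferential (D K F t) := by
  obtain ⟨c, hc⟩ := exists_const_ord_sub_ne_zero497 v hnc
  have e : g • (t - algebraMap K F c) = t - algebraMap K F (SemilinearAut.baseAut g c) := by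
    rw [smul_sub, ht, SemilinearAut.smul_algebraMap]
  have h1 : (g • v).ord (t - algebraMap K F (SemilinearAut.baseAut g c)) =
      v.ord (t - algebraMap K F c) := by
    rw [← e]
    exact SemilinearAut.ord_smul g v _
  rw [Fermat.Agent.Lib.RR.H80.ordDifferential_D_eq_sub v c hc,
    Fermat.Agent.Lib.RR.H80.ordDifferential_D_eq_sub (g • v) (SemilinearAut.baseAut g c)
      (by rw [h1]; exact hc), h1]

/-- **The ramification data of a coordinate `t ∈ L(m ∞)`**: `W = div(dt)`, `c = − W(∞) ≥ 2`,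
`Rt = W + c ∞ ≥ 0`, `Rt(∞) = 0`, `deg Rt = 2g − 2 + c`. -/
theorem exists_rt497 (vinf : Place K F) (m : ℕ) {t : F}
    (ht : t ∈ riemannRochSpace (m • prim vinf)) (hnc : t ∉ Set.range (algebraMap K F)) :
    ∃ (W Rt : Divisor K F) (c : ℕ), D K F t ≠ 0 ∧
      (∀ v : Place K F, W v = v.ordDifferential (D K F t)) ∧
      Rt = W + c • prim vinf ∧ 0 ≤ Rt ∧ Rt vinf = 0 ∧ 2 ≤ c ∧
      Divisor.degree Rt = 2 * (genusR K F : ℤ) - 2 + c := by
  have hpole := ord_neg_of_mem_L497 ht hnc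
  have hD := D_ne_zero_of_ord_neg497 vinf hpole
  obtain ⟨W, hW, -⟩ := Fermat.Agent.Lib.RR.H80.exists_canonical_kaehler (D K F t) hD
  have hWinf : W vinf = vinf.ord t - 1 := by
    rw [hW, Fermat.Agent.Lib.RR.H80.ordDifferential_D_eq vinf (by omega)]
  have hc : ((- W vinf).toNat : ℤ) = - W vinf := Int.toNat_of_nonneg (by omega)
  refine ⟨W, W + (- W vinf).toNat • prim vinf, (- W vinf).toNat, hD, hW, rfl, ?_, ?_, ?_, ?_⟩
  · rw [Finsupp.le_def]
    intro v
    rw [Finsupp.coe_zero, Pi.zero_apply, Finsupp.add_apply, Finsupp.smul_apply]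
    by_cases hv : v = vinf
    · subst hv
      rw [prim_apply_self, nsmul_eq_mul, mul_one, hc]
      omega
    · rw [prim_apply_of_ne hv, smul_zero, add_zero, hW]
      exact Fermat.Agent.Lib.RR.H80.ordDifferential_D_nonneg v (ord_nonneg_of_mem_L497 ht hv)
  · rw [Finsupp.add_apply, Finsupp.smul_apply, prim_apply_self, nsmul_eq_mul, mul_one, hc]
    omega
  · omega
  · rw [map_add, map_nsmul, degree_prim', Fermat.Agent.Lib.RR.H80.degree_kaehler hD hW,
      genusFF_eq_genusR, nsmul_eq_mul, mul_one]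

end Abstract

/-! ## The Galois part -/

section Galois

open Fermat.Agent.S17.H77 Fermat.Agent.S17.H680 Fermat.Agent.S17.H980 ModularCurve
open Fermat.Agent.S17.H35 Fermat.Agent.S17.H500.Top

variable (F₀ : IntermediateField ℚ (LaurentSeries ℚ)) [FF1 Qb (laurentBaseChange Qb F₀)]

/-- **`div(dt)` is Galois-invariant** for a Galois-fixed non-constant `t`. -/
theorem isInvariant_divD497 {t : laurentBaseChange Qb F₀} (htfix : IsFixed F₀ t)
    (hnc : t ∉ Set.range (algebraMap Qb (laurentBaseChange Qb F₀)))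
    {W : Divisor Qb (laurentBaseChange Qb F₀)}
    (hW : ∀ v : Place Qb (laurentBaseChange Qb F₀),
      W v = v.ordDifferential (D Qb (laurentBaseChange Qb F₀) t)) :
    IsInvariant F₀ W := by
  intro σ
  ext v
  rw [SemilinearAut.divisor_smul_apply, hW, hW]
  have hfix : (arithmeticGalois F₀ σ)⁻¹ • t = t := by
    have h := htfix σ
    rw [← h, inv_smul_smul, h]
  exact ordDifferential_D_smul497 _ hfix hnc v

/-- **RT-DATA.** For a Galois-fixed non-constant `t ∈ L(m ∞)` (`∞` invariant) and (GAUSS) at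
canonical divisors: an effective Galois-invariant divisor `Rt` prime to `∞` and `c ≥ 2` with
`Rt − c ∞ = div(dt)`, `deg Rt = 2g − 2 + c`, and (GAUSS) at `Rt − c ∞`. -/
theorem exists_rtData497 (E : EmbData Qb (laurentBaseChange Qb F₀))
    (hinf : IsInvariant F₀ (prim E.vinf))
    {t : laurentBaseChange Qb F₀} (htfix : IsFixed F₀ t)
    (htmem : t ∈ riemannRochSpace (E.m • prim E.vinf))
    (hnc : t ∉ Set.range (algebraMap Qb (laurentBaseChange Qb F₀)))
    (hG : GAUSSCanStatement E) :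
    ∃ (Rt : Divisor Qb (laurentBaseChange Qb F₀)) (c : ℕ),
      0 ≤ Rt ∧ IsInvariant F₀ Rt ∧ Rt E.vinf = 0 ∧ 2 ≤ c ∧
      Divisor.degree Rt = 2 * (genusR Qb (laurentBaseChange Qb F₀) : ℤ) - 2 + c ∧
      (∀ v : Place Qb (laurentBaseChange Qb F₀),
        (Rt - (c : ℤ) • prim E.vinf) v =
          v.ordDifferential (D Qb (laurentBaseChange Qb F₀) t)) ∧
      GaussRtStatement E Rt c := by
  obtain ⟨W, Rt, c, hD, hW, hRt, h0, hRinf, hc, hdeg⟩ := exists_rt497 E.vinf E.m htmem hnc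
  have hWinv : IsInvariant F₀ W := isInvariant_divD497 F₀ htfix hnc hW
  have hWeq : Rt - (c : ℤ) • prim E.vinf = W := by
    rw [hRt, natCast_zsmul]
    abel
  refine ⟨Rt, c, h0, ?_, hRinf, hc, hdeg, ?_, ?_⟩
  · intro σ
    rw [hRt, smul_add, hWinv σ, smul_comm, hinf σ]
  · intro v
    rw [hWeq, hW]
  · apply gaussRt_of
    rw [hWeq]
    exact hG _ W hD hW

/-- RT-DATA with `c` expressed through `deg Rt` (shape consumed by `H35.gauss` on
`H736.TopInput`). -/
theorem exists_rtData_deg497 (E : EmbData Qb (laurentBaseChange Qb F₀))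
    (hinf : IsInvariant F₀ (prim E.vinf))
    {t : laurentBaseChange Qb F₀} (htfix : IsFixed F₀ t)
    (htmem : t ∈ riemannRochSpace (E.m • prim E.vinf))
    (hnc : t ∉ Set.range (algebraMap Qb (laurentBaseChange Qb F₀)))
    (hG : GAUSSCanStatement E) :
    ∃ Rt : Divisor Qb (laurentBaseChange Qb F₀),
      0 ≤ Rt ∧ IsInvariant F₀ Rt ∧ Rt E.vinf = 0 ∧
      GaussRtStatement E Rt
        (Divisor.degree Rt - (2 * (genusR Qb (laurentBaseChange Qb F₀) : ℤ) - 2)) := by
  obtain ⟨Rt, c, h0, hinv, hRinf, -, hdeg, -, hGR⟩ :=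
    exists_rtData497 F₀ E hinf htfix htmem hnc hG
  refine ⟨Rt, h0, hinv, hRinf, ?_⟩
  have e : Divisor.degree Rt - (2 * (genusR Qb (laurentBaseChange Qb F₀) : ℤ) - 2) = (c : ℤ) := by
    rw [hdeg]; ring
  rw [e]
  exact hGR

/-- **`GAUSSCanStatement E ⟹ GaussPlusStatement F₀ E`**, given a Galois-fixed non-constant
`t ∈ L(m ∞)`. -/
theorem gaussPlus_of_gaussCan497 (E : EmbData Qb (laurentBaseChange Qb F₀))
    (hinf : IsInvariant F₀ (prim E.vinf))
    {t : laurentBaseChange Qb F₀} (htfix : IsFixed F₀ t)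
    (htmem : t ∈ riemannRochSpace (E.m • prim E.vinf))
    (hnc : t ∉ Set.range (algebraMap Qb (laurentBaseChange Qb F₀)))
    (hG : GAUSSCanStatement E) : GaussPlusStatement F₀ E := by
  obtain ⟨Rt, c, h0, hinv, hRinf, -, hdeg, -, C, hC⟩ :=
    exists_rtData497 F₀ E hinf htfix htmem hnc hG
  refine ⟨Rt, c, C, h0, hinv, hRinf, hdeg, fun P hP hPinf => ?_⟩
  have := hC P hP hPinf
  push_cast at this
  exact this

end Galois

end Fermat.Agent.S17.H497

end
end
-- ===== PACK-END S17/H497/RtData.lean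

-- ===== PACK-BEGIN S17/H500/TopFinal.lean
section




/-!
# S17 / tower H : FINAL WIRING of TOP (architect helper500)

Canonical data: `H736.TopInput N` (`S17/H736/TopData.lean`), adapters `H35` (`TopAxioms.lean`),
embedding `H77.exists_embData_cusp`, formal layer `H500.formal`.

* `OpenInputs N` : the inputs of tower H which are NOT yet on main, in their external form
  (WALL: `E3`, `ADJ`, `VDM` for one embedding of degree `≥ 4g + 1`; GAUSS in the form
  `H35.GaussRtStatement`; the adapters `Northcott`, `Mov1`, `Mov2`, `Mink` of `H736`);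
* `hasDescentHeight_of_openInputs : OpenInputs N → HasDescentHeight N 2`.

Choice of the parameters: `d = 2g`, `m = 10g`, `d₀ = d`, `E₁ = E₂ = E`.
Everything here is complete.
-/

set_option autoImplicit false

noncomputable section

open AlgebraicCurve ModularCurve

namespace Fermat.Agent.S17.H500.Final

open Fermat.Agent.Lib.RR Fermat.Agent.S17.HWall Fermat.Agent.S17.HContract
open Fermat.Agent.S17.H77 Fermat.Agent.S17.H680 Fermat.Agent.S17.H736

/-- The inputs of tower H (genus `≥ 1`) which are not yet on main. -/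
structure OpenInputs (N : ℕ) [NeZero N] : Prop where
  wall_e3 : ∀ E : EmbData Qb (modularFunctionFieldBar N),
    4 * genusR Qb (modularFunctionFieldBar N) + 1 ≤ E.m → E3Statement E E
  wall_adj : ∀ E : EmbData Qb (modularFunctionFieldBar N),
    4 * genusR Qb (modularFunctionFieldBar N) + 1 ≤ E.m → ADJStatement E E
  wall_vdm : ∀ (E : EmbData Qb (modularFunctionFieldBar N)) (d₀ : ℕ),
    4 * genusR Qb (modularFunctionFieldBar N) + 1 ≤ E.m →
    d₀ + 2 * genusR Qb (modularFunctionFieldBar N) ≤ E.m + 1 → VDMStatement E E d₀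
  gauss : ∀ E : EmbData Qb (modularFunctionFieldBar N), E.vinf = JZero.cusp N →
    (∀ i, IsFixed (modularFunctionFieldFull N) (E.x i)) →
    4 * genusR Qb (modularFunctionFieldBar N) + 1 ≤ E.m →
    E.pt = Fermat.Agent.S17.H230.ptD (E.m • prim (JZero.cusp N)) E.x →
    E.tn = Fermat.Agent.S17.H230.tnD (E.m • prim (JZero.cusp N)) E.x →
    ∃ Rt : Divisor Qb (modularFunctionFieldBar N), 0 ≤ Rt ∧
      IsInvariant (modularFunctionFieldFull N) Rt ∧ Rt (JZero.cusp N) = 0 ∧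
      Fermat.Agent.S17.H35.GaussRtStatement E Rt
        (Divisor.degree Rt - (2 * (genusR Qb (modularFunctionFieldBar N) : ℤ) - 2))
  northcott : ∀ T : TopInput N, T.NorthcottStatement
  mov1 : ∀ T : TopInput N, T.Mov1Statement
  mov2 : ∀ T : TopInput N, T.Mov2Statement
  mink : ∀ T : TopInput N, T.MinkStatement

/-- The pairing package of `J₀(N)` in genus `≥ 1`. -/
theorem exists_package_of_openInputs (N : ℕ) [NeZero N] (h : OpenInputs N)
    (hg : 1 ≤ genusR Qb (modularFunctionFieldBar N)) :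
    Nonempty (PairingPackage (Fermat.Agent.S17.H17.MW N)) := by
  obtain ⟨E, hvinf, hm, hxfix, -, hx0, -, -, hpt, htn⟩ :=
    exists_embData_cusp N (10 * genusR Qb (modularFunctionFieldBar N)) (by omega)
  have hBig : 4 * genusR Qb (modularFunctionFieldBar N) + 1 ≤ E.m := by omega
  obtain ⟨Rt, hRt0, hRtinv, hRtinf, hG⟩ :=
    h.gauss E hvinf hxfix hBig (by rw [hm] at *; exact hpt) (by rw [hm] at *; exact htn)
  let T : TopInput N :=
    { E₁ := E
      E₂ := E
      vinf₁ := hvinf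
      vinf₂ := hvinf
      x_fixed := hxfix
      i₀ := 0
      x_one := hx0
      Rt := Rt
      Rt_nonneg := hRt0
      Rt_inv := hRtinv
      Rt_inf := hRtinf
      d := 2 * genusR Qb (modularFunctionFieldBar N)
      one_le_g := hg
      two_g_le_d := le_refl _
      four_d_le_m := by omega }
  have he3 : E3Statement T.E₁ T.E₂ := h.wall_e3 E hBig
  have hadj : ADJStatement T.E₁ T.E₂ := h.wall_adj E hBig
  have hvdm : VDMStatement T.E₁ T.E₂ T.d :=
    h.wall_vdm E (2 * genusR Qb (modularFunctionFieldBar N)) hBig (by omega)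
  exact ⟨T.mkPackage (h.northcott T) (h.mov1 T) (h.mov2 T)
    (Fermat.Agent.S17.H35.e3 T he3) (Fermat.Agent.S17.H35.bez_top T he3)
    (Fermat.Agent.S17.H35.adj T hadj) (Fermat.Agent.S17.H35.gauss T he3 hG)
    (Fermat.Agent.S17.H35.vdm T hvdm (le_refl _)) (h.mink T)⟩

/-- **Tower H from the open inputs.** -/
theorem hasDescentHeight_of_openInputs (N : ℕ) [NeZero N] (h : OpenInputs N) :
    Fermat.Agent.S17.H17.HasDescentHeight N 2 :=
  hasDescentHeight_of_exists_package N fun hg => exists_package_of_openInputs N h hg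

end Fermat.Agent.S17.H500.Final

end
end
-- ===== PACK-END S17/H500/TopFinal.lean

-- ===== PACK-BEGIN S17/H500/TopFinal2.lean
section






/-!
# S17 / tower H : TOP is COMPLETE modulo WALL + GAUSS (architect helper500)

* `northcott736 T : T.NorthcottStatement` for the canonical data `H736.TopInput N`
  (adapter of `H77.northcott`, via `H50.northcott_cycle_abs`);
* `WallInputs N` : the ONLY remaining inputs of tower H:
  `E3`, `ADJ`, `VDM` (WALL, for every embedding of degree `≥ 4g + 1`) and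
  `GaussRt` (GAUSS, for the embeddings `ptD`/`tnD` at the cusp with Galois-fixed basis);
* `hasDescentHeight_of_wallInputs : WallInputs N → HasDescentHeight N 2`.

Everything here is complete.
-/

set_option autoImplicit false

noncomputable section

open AlgebraicCurve ModularCurve

namespace Fermat.Agent.S17.H500.Final

open Fermat.Agent.Lib.RR Fermat.Agent.S17.HWall Fermat.Agent.S17.HContract
open Fermat.Agent.S17.H77 Fermat.Agent.S17.H680 Fermat.Agent.S17.H736

/-- **Northcott** for the canonical data. -/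
theorem northcott736 {N : ℕ} [NeZero N] (T : TopInput N) : T.NorthcottStatement := by
  intro e B
  have hfin := Fermat.Agent.S17.H50.northcott_cycle_abs (ι := Fin (T.E₂.r + 1)) e B
  refine Set.Finite.of_finite_image (f := fun D : Dv N => cyc T.E₂ D.1) (hfin.subset ?_) ?_
  · rintro _ ⟨D, ⟨hdeg, hN⟩, rfl⟩
    refine ⟨?_, isGStable_cyc T.E₂ T.x_fixed T.isInvariant_vinf₂ D.isInvariant,
      cyc_normalised T.E₂ _, ?_⟩
    · have h1 := card_cyc T.E₂ D.nonneg
      have h2 := coe_degHom D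
      have h3 : ((cyc T.E₂ D.1).card : ℤ) = (degHom N D : ℕ) := by rw [h1, h2]
      have h4 : (cyc T.E₂ D.1).card = degHom N D := by exact_mod_cast h3
      rw [h4]
      exact hdeg
    · rw [cycAbs_cyc T.E₂ D.nonneg]
      exact hN
  · intro D _ D' _ h
    exact Subtype.ext (cyc_injOn T.E₂ D.nonneg D'.nonneg h)

/-- **The only remaining inputs of tower H** (genus `≥ 1`): the WALL and GAUSS. -/
structure WallInputs (N : ℕ) [NeZero N] : Prop where
  wall_e3 : ∀ E : EmbData Qb (modularFunctionFieldBar N),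
    4 * genusR Qb (modularFunctionFieldBar N) + 1 ≤ E.m → E3Statement E E
  wall_adj : ∀ E : EmbData Qb (modularFunctionFieldBar N),
    4 * genusR Qb (modularFunctionFieldBar N) + 1 ≤ E.m → ADJStatement E E
  wall_vdm : ∀ (E : EmbData Qb (modularFunctionFieldBar N)) (d₀ : ℕ),
    4 * genusR Qb (modularFunctionFieldBar N) + 1 ≤ E.m →
    d₀ + 2 * genusR Qb (modularFunctionFieldBar N) ≤ E.m + 1 → VDMStatement E E d₀
  gauss : ∀ E : EmbData Qb (modularFunctionFieldBar N), E.vinf = JZero.cusp N →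
    (∀ i, IsFixed (modularFunctionFieldFull N) (E.x i)) →
    4 * genusR Qb (modularFunctionFieldBar N) + 1 ≤ E.m →
    E.pt = Fermat.Agent.S17.H230.ptD (E.m • prim (JZero.cusp N)) E.x →
    E.tn = Fermat.Agent.S17.H230.tnD (E.m • prim (JZero.cusp N)) E.x →
    ∃ Rt : Divisor Qb (modularFunctionFieldBar N), 0 ≤ Rt ∧
      IsInvariant (modularFunctionFieldFull N) Rt ∧ Rt (JZero.cusp N) = 0 ∧
      Fermat.Agent.S17.H35.GaussRtStatement E Rt
        (Divisor.degree Rt - (2 * (genusR Qb (modularFunctionFieldBar N) : ℤ) - 2))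

/-- The open inputs from the wall inputs. -/
theorem openInputs_of_wallInputs (N : ℕ) [NeZero N] (h : WallInputs N) : OpenInputs N where
  wall_e3 := h.wall_e3
  wall_adj := h.wall_adj
  wall_vdm := h.wall_vdm
  gauss := h.gauss
  northcott := northcott736
  mov1 := fun T => T.mov1
  mov2 := fun T => T.mov2
  mink := Fermat.Agent.S17.H696.topMink

/-- **Tower H from the WALL and GAUSS.** -/
theorem hasDescentHeight_of_wallInputs (N : ℕ) [NeZero N] (h : WallInputs N) :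
    Fermat.Agent.S17.H17.HasDescentHeight N 2 :=
  hasDescentHeight_of_openInputs N (openInputs_of_wallInputs N h)

end Fermat.Agent.S17.H500.Final

end
end
-- ===== PACK-END S17/H500/TopFinal2.lean

-- ===== PACK-BEGIN S17/H290/GaussCan.lean
section





/-!
# S17 / tower H — sub-project GAUSS (helper290): `GAUSSCanStatement` from PN + WEIL

FROZEN output of the GAUSS sub-project (`S17/H17/HGauss.lean`):

* `princ_of_weil   : ProjNormalStatement E → WeilStatement E → PRINCStatement E`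
    (`f = G₁(x) / G₂(x)`, Weil for the single forms `G₁`, `G₂`);
* `gaussAt_of_weil : ProjNormalStatement E → WeilStatement E → GAUSSAtStatement E W` for the
    divisor `W` of EVERY nonzero Kähler differential
    (`tangentForms_at` + Weil for `(G, Z)`, for the form `1 ∈ L(m ∞)` and for `ρ`);
* `gaussCan_of_weil : ProjNormalStatement E → WeilStatement E → GAUSSCanStatement E`.

Sorry-free.
-/

set_option autoImplicit false

noncomputable section

namespace Fermat.Agent.S17.H290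

open AlgebraicCurve KaehlerDifferential MvPolynomial
open Fermat.Agent.Lib.RR Fermat.Agent.S17.HWall Fermat.Agent.S17.HContract Fermat.Agent.S17.Wall
open Fermat.Agent.S17.H380

variable {K F : Type*} [Field K] [CharZero K] [Field F] [Algebra K F] [FF1 K F]

/-- finitely many exceptions are absorbed by the constant -/
theorem bounded_of_off_finset {α : Type*} (S : Finset α) (φ : α → ℝ) (C : ℝ)
    (h : ∀ P, P ∉ S → |φ P| ≤ C) : ∃ C' : ℝ, ∀ P, |φ P| ≤ C' := by
  classical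
  refine ⟨|C| + ∑ P ∈ S, |φ P|, fun P => ?_⟩
  have hsum : 0 ≤ ∑ Q ∈ S, |φ Q| := Finset.sum_nonneg fun _ _ => abs_nonneg _
  by_cases hPS : P ∈ S
  · have := Finset.single_le_sum (f := fun Q => |φ Q|) (fun _ _ => abs_nonneg _) hPS
    have h2 := abs_nonneg C
    linarith
  · have := h P hPS
    have h2 := le_abs_self C
    linarith

omit [CharZero K] in
/-- the zero divisor of a single nonzero section is its own exact zero divisor -/
theorem exactZero_single (E : EmbData K F) (k : ℕ) (G : MvPolynomial (Fin (E.r + 1)) K)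
    (hG : aeval E.x G ≠ 0) : ExactZero E k (fun _ : Unit => G) (zdiv E k G) :=
  ⟨fun _ _ => le_refl _, fun _ => ⟨(), hG, rfl⟩⟩

omit [CharZero K] in
theorem zdiv_apply (E : EmbData K F) (k : ℕ) (G : MvPolynomial (Fin (E.r + 1)) K)
    (hG : aeval E.x G ≠ 0) (P : Place K F) :
    zdiv E k G P = P.ord (aeval E.x G) + (k : ℤ) * (E.m • prim E.vinf : Divisor K F) P := by
  unfold zdiv
  rw [dif_neg hG, Finsupp.add_apply, divOf_apply, smul_smul_prim_apply]

omit [CharZero K] in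
theorem zdiv_nonneg (E : EmbData K F) (k : ℕ) (G : MvPolynomial (Fin (E.r + 1)) K)
    (hG : aeval E.x G ≠ 0) (hmem : aeval E.x G ∈ riemannRochSpace ((k * E.m) • prim E.vinf)) :
    0 ≤ zdiv E k G := by
  rw [Finsupp.le_def]
  intro P
  rw [zdiv_apply E k G hG P, Finsupp.coe_zero, Pi.zero_apply]
  rcases (mem_L_iff.mp hmem) P with h | h
  · exact absurd h hG
  · rw [smul_smul_prim_apply] at h
    linarith

/-- **Weil's machine for ONE form**: `(Z_G . P) = k h(P) + O(1)` off `Z_G`. -/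
theorem weil_single [Algebra.IsAlgebraic ℚ K] (E : EmbData K F) (hWeil : WeilStatement E)
    (k : ℕ) (G : MvPolynomial (Fin (E.r + 1)) K) (hGh : G.IsHomogeneous k)
    (hG : aeval E.x G ≠ 0) (hmem : aeval E.x G ∈ riemannRochSpace ((k * E.m) • prim E.vinf)) :
    ∃ C : ℝ, ∀ P : Place K F, zdiv E k G P = 0 →
      |pairPt E (zdiv E k G) P - (k : ℝ) * ht (E.pt P)| ≤ C := by
  obtain ⟨C, hC⟩ := hWeil Unit k (fun _ => G) (zdiv E k G) (fun _ => hGh)
    (zdiv_nonneg E k G hG hmem) (exactZero_single E k G hG)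
  refine ⟨C, fun P hP => ?_⟩
  have h := hC P hP
  have h0 : ht (fun _ : Unit => eval (E.pt P) G) = 0 :=
    absLogHeight_const _ (isIntegral_of_isAlgebraic _)
  rw [h0, zero_sub] at h
  have e : pairPt E (zdiv E k G) P - (k : ℝ) * ht (E.pt P)
      = -(k : ℝ) * ht (E.pt P) + pairPt E (zdiv E k G) P := by ring
  rw [e, neg_mul]
  exact h

/-- **(PRINC)** from projective normality and Weil's machine. -/
theorem princ_of_weil [Algebra.IsAlgebraic ℚ K] (E : EmbData K F)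
    (hPN : ProjNormalStatement E) (hWeil : WeilStatement E) : PRINCStatement E := by
  classical
  intro f Df hf hDf
  set g : ℕ := genusR K F with hg
  have hm1 : 1 ≤ E.m := by have := E.hm; omega
  -- the pole divisor of `f`
  set N : Divisor K F := Df.mapRange (fun n : ℤ => max (-n) 0) (by simp) with hN
  have hNv : ∀ v : Place K F, N v = max (-Df v) 0 := fun v => by
    rw [hN, Finsupp.mapRange_apply]
  set k : ℕ := (Divisor.degree N + g).toNat + 1 with hk
  have hkN : Divisor.degree N + g < (k : ℤ) := by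
    have := Int.self_le_toNat (Divisor.degree N + g)
    rw [hk]
    push_cast
    omega
  set B : Divisor K F := (k * E.m) • prim E.vinf - N with hB
  have hdegB : Divisor.degree B = (k : ℤ) * E.m - Divisor.degree N := by
    rw [hB, map_sub, map_nsmul]
    unfold prim
    rw [Divisor.degree_single, FF1.deg_eq_one]
    push_cast
    simp only [nsmul_eq_mul]
    push_cast
    ring
  have hell : 0 < ell B := by
    have h1 := riemann_inequality B
    rw [hdegB] at h1
    have h2 : (k : ℤ) * 1 ≤ (k : ℤ) * E.m :=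
      mul_le_mul_of_nonneg_left (by exact_mod_cast hm1) (by positivity)
    have h3 : (0 : ℤ) < ell B := by linarith
    exact_mod_cast h3
  obtain ⟨g₂, hg₂0, hg₂⟩ := H98.exists_ne_zero_mem_L_of_ell_pos hell
  have hg₂ord : ∀ v : Place K F,
      N v - ((k * E.m) • prim E.vinf : Divisor K F) v ≤ v.ord g₂ := by
    intro v
    rcases (mem_L_iff.mp hg₂) v with h | h
    · exact absurd h hg₂0
    · rw [hB, Finsupp.sub_apply] at h
      linarith
  have hg₁0 : f * g₂ ≠ 0 := mul_ne_zero hf hg₂0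
  have hmem₂ : g₂ ∈ riemannRochSpace ((k * E.m) • prim E.vinf) := by
    rw [mem_L_iff]
    intro v
    right
    have h1 := hg₂ord v
    have h2 : 0 ≤ N v := by rw [hNv v]; exact le_max_right _ _
    linarith
  have hmem₁ : f * g₂ ∈ riemannRochSpace ((k * E.m) • prim E.vinf) := by
    rw [mem_L_iff]
    intro v
    right
    rw [v.ord_mul hf hg₂0, ← hDf v]
    have h1 := hg₂ord v
    have h2 : -Df v ≤ N v := by rw [hNv v]; exact le_max_left _ _
    linarith
  obtain ⟨G₁, hG₁h, hG₁⟩ := hPN k (f * g₂) hmem₁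
  obtain ⟨G₂, hG₂h, hG₂⟩ := hPN k g₂ hmem₂
  have hG₁0 : aeval E.x G₁ ≠ 0 := by rw [hG₁]; exact hg₁0
  have hG₂0 : aeval E.x G₂ ≠ 0 := by rw [hG₂]; exact hg₂0
  obtain ⟨C₁, hC₁⟩ := weil_single E hWeil k G₁ hG₁h hG₁0 (by rw [hG₁]; exact hmem₁)
  obtain ⟨C₂, hC₂⟩ := weil_single E hWeil k G₂ hG₂h hG₂0 (by rw [hG₂]; exact hmem₂)
  have hDfeq : Df = zdiv E k G₁ - zdiv E k G₂ := by
    ext v
    rw [Finsupp.sub_apply, zdiv_apply E k G₁ hG₁0, zdiv_apply E k G₂ hG₂0, hG₁, hG₂,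
      v.ord_mul hf hg₂0, hDf v]
    ring
  obtain ⟨C, hC⟩ := bounded_of_off_finset ((zdiv E k G₁).support ∪ (zdiv E k G₂).support)
    (fun P => pairPt E Df P) (C₁ + C₂) (by
      intro P hP
      rw [Finset.mem_union, not_or, Finsupp.notMem_support_iff, Finsupp.notMem_support_iff] at hP
      have h1 := hC₁ P hP.1
      have h2 := hC₂ P hP.2
      show |pairPt E Df P| ≤ C₁ + C₂
      rw [hDfeq, pairPt_sub]
      have e : pairPt E (zdiv E k G₁) P - pairPt E (zdiv E k G₂) P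
          = (pairPt E (zdiv E k G₁) P - (k : ℝ) * ht (E.pt P))
            - (pairPt E (zdiv E k G₂) P - (k : ℝ) * ht (E.pt P)) := by ring
      rw [e]
      exact (abs_sub _ _).trans (add_le_add h1 h2))
  exact ⟨C, fun P _ => hC P⟩

/-- **(GAUSS) at the divisor of a Kähler differential**, from PN and WEIL. -/
theorem gaussAt_of_weil [Algebra.IsAlgebraic ℚ K] (E : EmbData K F)
    (hPN : ProjNormalStatement E) (hWeil : WeilStatement E)
    (ω : Ω[F⁄K]) (hω0 : ω ≠ 0) (W : Divisor K F)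
    (hW : ∀ v : Place K F, W v = v.ordDifferential ω) : GAUSSAtStatement E W := by
  classical
  obtain ⟨e, G, ρ, hρ, -, hGhom, hZ0, hex, htan⟩ := tangentForms_at E hPN ω hω0 W hW
  set Z : Divisor K F := (e * E.m) • prim E.vinf - W + divOf ρ hρ with hZ
  obtain ⟨C₁, hC₁⟩ := hWeil _ (e + 2) G Z hGhom hZ0 hex
  obtain ⟨C₂, hC₂⟩ := princ_of_weil E hPN hWeil ρ (divOf ρ hρ) hρ (fun v => divOf_apply ρ hρ v)
  -- the form `1 ∈ L(m ∞)`
  have h1mem : (1 : F) ∈ riemannRochSpace (E.m • prim E.vinf) := by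
    rw [mem_L_iff]
    intro v
    right
    rw [Place.ord_one, Fermat.Agent.S17.H440.smul_prim_apply]
    have h0 : (0 : ℤ) ≤ prim E.vinf v := by
      unfold prim
      rw [Finsupp.single_apply]
      split_ifs <;> norm_num
    have : (0 : ℤ) ≤ (E.m : ℤ) * prim E.vinf v := mul_nonneg (by positivity) h0
    linarith
  obtain ⟨a₁, ha₁⟩ := Fermat.Agent.S17.H440.exists_lin_eq E h1mem
  have hL : aeval E.x (linForm a₁) = 1 := by
    rw [Fermat.Agent.S17.H230.aeval_linForm, ha₁]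
  have hL0 : aeval E.x (linForm a₁) ≠ 0 := by rw [hL]; exact one_ne_zero
  have hLmem : aeval E.x (linForm a₁) ∈ riemannRochSpace ((1 * E.m) • prim E.vinf) := by
    rw [hL, one_mul]; exact h1mem
  obtain ⟨C₃, hC₃⟩ := weil_single E hWeil 1 (linForm a₁) (linForm_isHomogeneous a₁) hL0 hLmem
  have hZ₁ : zdiv E 1 (linForm a₁) = E.m • prim E.vinf := by
    ext v
    rw [zdiv_apply E 1 (linForm a₁) hL0, hL, Place.ord_one]
    push_cast
    ring
  rw [hZ₁] at hC₃
  refine GAUSSAtStatement.of_off_finset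
    (Z.support ∪ (E.m • prim E.vinf : Divisor K F).support ∪ (divOf ρ hρ).support)
    ⟨C₁ + (e : ℝ) * C₃ + C₂, fun P hPS _ => ?_⟩
  rw [Finset.mem_union, Finset.mem_union, not_or, not_or, Finsupp.notMem_support_iff,
    Finsupp.notMem_support_iff, Finsupp.notMem_support_iff] at hPS
  obtain ⟨⟨hPZ, hPm⟩, hPρ⟩ := hPS
  have b1 := hC₁ P hPZ
  have b2 := hC₂ P hPρ
  have b3 := hC₃ P hPm
  obtain ⟨c, hc, hGc⟩ := htan P hPZ
  have hht : ht (fun p => eval (E.pt P) (G p)) = ht (wedge (E.pt P) (E.tn P)) := by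
    have e1 : (fun p => eval (E.pt P) (G p)) = c • wedge (E.pt P) (E.tn P) := by
      funext p
      rw [hGc p, Pi.smul_apply, smul_eq_mul]
    rw [e1]
    exact absLogHeight_smul _ (fun i => isIntegral_of_isAlgebraic _) hc
      (isIntegral_of_isAlgebraic c)
  rw [hht] at b1
  have hpZ : pairPt E Z P = (e : ℝ) * pairPt E (E.m • prim E.vinf) P - pairPt E W P
      + pairPt E (divOf ρ hρ) P := by
    rw [hZ, pairPt_add', pairPt_sub]
    have h2 : ((e * E.m) • prim E.vinf : Divisor K F) = (e : ℤ) • (E.m • prim E.vinf) := by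
      rw [natCast_zsmul, mul_smul]
    rw [h2, pairPt_zsmul]
    push_cast
    ring
  rw [hpZ] at b1
  unfold kap
  have key : ht (wedge (E.pt P) (E.tn P)) - 2 * ht (E.pt P) - pairPt E W P =
      (ht (wedge (E.pt P) (E.tn P)) - ((e + 2 : ℕ) : ℝ) * ht (E.pt P) +
        ((e : ℝ) * pairPt E (E.m • prim E.vinf) P - pairPt E W P + pairPt E (divOf ρ hρ) P))
      - (e : ℝ) * (pairPt E (E.m • prim E.vinf) P - ((1 : ℕ) : ℝ) * ht (E.pt P))
      - pairPt E (divOf ρ hρ) P := by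
    push_cast
    ring
  rw [key]
  have he0 : (0 : ℝ) ≤ (e : ℝ) := by positivity
  have b3' : |(e : ℝ) * (pairPt E (E.m • prim E.vinf) P - ((1 : ℕ) : ℝ) * ht (E.pt P))|
      ≤ (e : ℝ) * C₃ := by
    rw [abs_mul, abs_of_nonneg he0]
    exact mul_le_mul_of_nonneg_left b3 he0
  calc _ ≤ |(ht (wedge (E.pt P) (E.tn P)) - ((e + 2 : ℕ) : ℝ) * ht (E.pt P) +
        ((e : ℝ) * pairPt E (E.m • prim E.vinf) P - pairPt E W P + pairPt E (divOf ρ hρ) P))
      - (e : ℝ) * (pairPt E (E.m • prim E.vinf) P - ((1 : ℕ) : ℝ) * ht (E.pt P))|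
        + |pairPt E (divOf ρ hρ) P| := abs_sub _ _
    _ ≤ (|ht (wedge (E.pt P) (E.tn P)) - ((e + 2 : ℕ) : ℝ) * ht (E.pt P) +
        ((e : ℝ) * pairPt E (E.m • prim E.vinf) P - pairPt E W P + pairPt E (divOf ρ hρ) P)|
        + |(e : ℝ) * (pairPt E (E.m • prim E.vinf) P - ((1 : ℕ) : ℝ) * ht (E.pt P))|)
        + |pairPt E (divOf ρ hρ) P| := by
          gcongr
          exact abs_sub _ _
    _ ≤ C₁ + (e : ℝ) * C₃ + C₂ := add_le_add (add_le_add b1 b3') b2

/-- **The FROZEN output of the GAUSS sub-project**: (GAUSS) at the divisor of every nonzero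
Kähler differential, from projective normality and Weil's height machine. -/
theorem gaussCan_of_weil [Algebra.IsAlgebraic ℚ K] (E : EmbData K F)
    (hPN : ProjNormalStatement E) (hWeil : WeilStatement E) : GAUSSCanStatement E :=
  fun ω W hω hW => gaussAt_of_weil E hPN hWeil ω hω W hW

end Fermat.Agent.S17.H290

end
end
-- ===== PACK-END S17/H290/GaussCan.lean

-- ===== PACK-BEGIN S17/H290/GaussMain.lean
section



/-!
# S17 / tower H — sub-project GAUSS (helper290): the output, with ONE open leaf (WEIL)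

`gaussCan_main : Big E → WeilStatement E → GAUSSCanStatement E` and
`gauss_main    : Big E → WeilStatement E → GAUSSStatement E`
(projective normality: `H449.projNormal`; canonical divisors: `H17/HGauss`).

Sorry-free.
-/

set_option autoImplicit false

noncomputable section

namespace Fermat.Agent.S17.H290

open AlgebraicCurve
open Fermat.Agent.Lib.RR Fermat.Agent.S17.HWall Fermat.Agent.S17.HContract Fermat.Agent.S17.Wall

variable {K F : Type*} [Field K] [CharZero K] [Field F] [Algebra K F] [FF1 K F]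

/-- **GAUSS, final form**, from Weil's height machine. -/
theorem gaussCan_main [Algebra.IsAlgebraic ℚ K] (E : EmbData K F) (hBig : Big E)
    (hWeil : WeilStatement E) : GAUSSCanStatement E :=
  gaussCan_of_weil E (Fermat.Agent.S17.H449.projNormal E hBig) hWeil

/-- **GAUSS** (the input of `Wall.contract`), from Weil's height machine. -/
theorem gauss_main [IsAlgClosed K] [Algebra.IsAlgebraic ℚ K] (E : EmbData K F) (hBig : Big E)
    (hWeil : WeilStatement E) : GAUSSStatement E :=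
  gaussStatement_of_can (gaussCan_main E hBig hWeil)

end Fermat.Agent.S17.H290

end
end
-- ===== PACK-END S17/H290/GaussMain.lean

-- ===== PACK-BEGIN S17/H497/TowerH.lean
section






/-!
# S17 / tower H — CLOSED (helper497): `HasDescentHeight N 2`, unconditionally

* `gaussCan497 E hBig : HContract.GAUSSCanStatement E` for every embedding of degree `≥ 4g + 1`
  of a function field over `ℚ̄` (`H290.gaussCan_main` + `H320.weil` + wall leaves A3 `H740`,
  G-PT `H440`);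
* `gaussRt_cusp497` : the field `gauss` of `H500.Final.WallInputs N` (bridge RT-DATA of
  `S17/H497/RtData.lean` with the rational coordinate `H680.JZero.exists_rational_coordinate`);
* `wallInputs497 N : H500.Final.WallInputs N`;
* `hasDescentHeight497 N : H17.HasDescentHeight N 2`  — the input `hH` of
  `H17.result_of_core`.
-/

set_option autoImplicit false

noncomputable section

open AlgebraicCurve ModularCurve

namespace Fermat.Agent.S17.H497

open Fermat.Agent.Lib.RR Fermat.Agent.S17.HWall Fermat.Agent.S17.HContract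
open Fermat.Agent.S17.H77 Fermat.Agent.S17.H680

/-- **(GAUSS) at all canonical divisors**, for every embedding of degree `≥ 4g + 1` over `ℚ̄`. -/
theorem gaussCan497 {F : Type} [Field F] [Algebra Qb F] [FF1 Qb F] (E : EmbData Qb F)
    (hBig : Fermat.Agent.S17.Wall.Big E) : GAUSSCanStatement E := by
  have := Fermat.Agent.S17.H77.isAlgebraic_Qb
  exact Fermat.Agent.S17.H290.gaussCan_main E hBig
    (Fermat.Agent.S17.H320.weil E (Fermat.Agent.S17.H740.multislot Qb)
      (Fermat.Agent.S17.H440.ptStatement E))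

/-- **The field `gauss` of `WallInputs N`.** -/
theorem gaussRt_cusp497 (N : ℕ) [NeZero N] (E : EmbData Qb (modularFunctionFieldBar N))
    (hvinf : E.vinf = JZero.cusp N)
    (hBig : 4 * genusR Qb (modularFunctionFieldBar N) + 1 ≤ E.m) :
    ∃ Rt : Divisor Qb (modularFunctionFieldBar N), 0 ≤ Rt ∧
      IsInvariant (modularFunctionFieldFull N) Rt ∧ Rt (JZero.cusp N) = 0 ∧
      Fermat.Agent.S17.H35.GaussRtStatement E Rt
        (Divisor.degree Rt - (2 * (genusR Qb (modularFunctionFieldBar N) : ℤ) - 2)) := by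
  obtain ⟨t, htmem, htfix, hnc⟩ := JZero.exists_rational_coordinate N
  have hinf : IsInvariant (modularFunctionFieldFull N) (prim E.vinf) := by
    intro σ
    rw [hvinf, smul_prim, JZero.galois_smul_cusp]
  have htmem' : t ∈ riemannRochSpace (E.m • prim E.vinf) := by
    rw [hvinf]
    refine L_mono ?_ htmem
    rw [Finsupp.le_def]
    intro v
    rw [Finsupp.smul_apply, Finsupp.smul_apply]
    by_cases hv : v = JZero.cusp N
    · subst hv
      rw [prim_apply_self, nsmul_eq_mul, nsmul_eq_mul, mul_one, mul_one]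
      exact_mod_cast (by omega : genusR Qb (modularFunctionFieldBar N) + 1 ≤ E.m)
    · rw [prim_apply_of_ne hv, smul_zero, smul_zero]
  obtain ⟨Rt, h0, hinv, hRinf, hG⟩ :=
    exists_rtData_deg497 (modularFunctionFieldFull N) E hinf htfix htmem' hnc
      (gaussCan497 E hBig)
  exact ⟨Rt, h0, hinv, by rw [← hvinf]; exact hRinf, hG⟩

/-- **All inputs of TOP** (WALL + GAUSS). -/
theorem wallInputs497 (N : ℕ) [NeZero N] : Fermat.Agent.S17.H500.Final.WallInputs N := by
  have := Fermat.Agent.S17.H77.isAlgebraic_Qb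
  exact
    { wall_e3 := fun E h => Fermat.Agent.S17.Wall.e3_main E h
      wall_adj := fun E h => Fermat.Agent.S17.Wall.adj_main E h
      wall_vdm := fun E d₀ h hd => Fermat.Agent.S17.Wall.vdm_main E h d₀ hd
      gauss := fun E hvinf _ hBig _ _ => gaussRt_cusp497 N E hvinf hBig }

/-- **TOWER H.**  The descent height on `J₀(N)(ℚ)`. -/
theorem hasDescentHeight497 (N : ℕ) [NeZero N] : Fermat.Agent.S17.H17.HasDescentHeight N 2 :=
  Fermat.Agent.S17.H500.Final.hasDescentHeight_of_wallInputs N (wallInputs497 N)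

end Fermat.Agent.S17.H497

end
end
-- ===== PACK-END S17/H497/TowerH.lean

-- ===== PACK-BEGIN S12/H411/LocP.lean
section






/-!
# Row S12 (one-step route), local leaf at `ℓ = p` (helper411)

For a Frey package and a cofixed line `N ⊂ E[p]`:

* `cofixed_line_smul_eq_det` (linear algebra): an endomorphism of a plane which preserves a line
  `N` and is the identity on `V / N` acts on `N` through its determinant;
* `frey_line_smul` : `σ • T = χ_p(σ) • T` for `T ∈ N` (`det ρ̄ = χ_p`, landed `Ribet.H403`);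
* `frey_line_inKer` : at EVERY valuation subring `A` of `ℚ̄` over `p`, the line `N` lies in the
  kernel of reduction (inertia acts on `N` through `χ_p`, which is ramified at `p`, and moves
  integral `p`-torsion points only inside the kernel of reduction, landed `S13.H64`);
* `frey_line_x_not_mem` : the `x`-coordinate of a nonzero point of `N` is NOT in `A`;
* `frey_line_val_sub` : hence `v (x(T) - e) = v (x(T))` for every `e ∈ A`: the three products
  `Π_j = ∏ (x(kT₀) - ε_j)` of the one-step route have the SAME valuation at `A`.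
-/

set_option autoImplicit false

open WeierstrassCurve WeierstrassCurve.Affine WeierstrassCurve.Affine.Point

namespace Fermat.Agent.S12.H411

open Module in
/-- An endomorphism `f` of a plane which preserves a line `N` and induces the identity on `V / N`
acts on `N` as multiplication by `det f`. -/
theorem cofixed_line_smul_eq_det {k V : Type*} [Field k] [AddCommGroup V] [Module k V]
    (hdim : finrank k V = 2) (f : End k V) (N : Submodule k V) (hbot : N ≠ ⊥) (htop : N ≠ ⊤)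
    (hstab : ∀ x ∈ N, f x ∈ N) (hcof : ∀ x : V, f x - x ∈ N) :
    ∀ x ∈ N, f x = LinearMap.det f • x := by
  have hfd : FiniteDimensional k V := FiniteDimensional.of_finrank_pos (by omega)
  -- `N` is a line
  have hN1 : finrank k N = 1 := by
    have h1 : finrank k N < 2 := by
      rw [← hdim]
      exact Submodule.finrank_lt htop
    have h0 : 0 < finrank k N := by
      rw [Module.finrank_pos_iff]
      exact (Submodule.nontrivial_iff_ne_bot).mpr hbot
    omega
  obtain ⟨n₀, hn₀, hn₀0⟩ := (Submodule.ne_bot_iff N).1 hbot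
  have hspan : ∀ x ∈ N, ∃ c : k, x = c • n₀ := by
    intro x hx
    obtain ⟨c, hc⟩ := (finrank_eq_one_iff_of_nonzero' (⟨n₀, hn₀⟩ : N)
      (fun h => hn₀0 (congrArg Subtype.val h))).1 hN1 ⟨x, hx⟩
    exact ⟨c, by simpa using (congrArg Subtype.val hc).symm⟩
  obtain ⟨a, ha⟩ := hspan (f n₀) (hstab n₀ hn₀)
  have hfa : ∀ x ∈ N, f x = a • x := by
    intro x hx
    obtain ⟨c, rfl⟩ := hspan x hx
    rw [map_smul, ha, smul_smul, smul_smul, mul_comm]
  suffices hdet : LinearMap.det f = a by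
    intro x hx
    rw [hdet]
    exact hfa x hx
  by_cases hsc : ∃ s : k, f = s • (1 : End k V)
  · obtain ⟨s, hs⟩ := hsc
    have hsa : s = a := by
      have h1 : f n₀ = s • n₀ := by rw [hs]; rfl
      rw [ha] at h1
      have h2 : (a - s) • n₀ = 0 := by rw [sub_smul, h1, sub_self]
      rcases smul_eq_zero.1 h2 with h | h
      · exact (sub_eq_zero.1 h).symm
      · exact absurd h hn₀0
    have hs1 : s = 1 := by
      by_contra hne
      apply htop
      rw [eq_top_iff]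
      intro y _
      have hy := hcof y
      have h1 : f y = s • y := by rw [hs]; rfl
      rw [h1] at hy
      have h2 : s • y - y = (s - 1) • y := by rw [sub_smul, one_smul]
      rw [h2] at hy
      have h3 : y = (s - 1)⁻¹ • ((s - 1) • y) := by
        rw [smul_smul, inv_mul_cancel₀ (sub_ne_zero.2 hne), one_smul]
      rw [h3]
      exact N.smul_mem _ hy
    rw [← hsa, hs1, hs, hs1, one_smul]
    exact LinearMap.det_id
  · push Not at hsc
    apply Fermat.Agent.S41.H701.det_eq_of_quadratic_h701 hdim f (1 + a) a ?_ hsc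
    apply LinearMap.ext
    intro x
    have h1 := hfa _ (hcof x)
    simp only [map_sub] at h1
    simp only [LinearMap.add_apply, LinearMap.sub_apply, LinearMap.smul_apply,
      Module.End.mul_apply, Module.End.one_apply, LinearMap.zero_apply]
    have h2 : f (f x) = f x + (a • (f x - x)) := by
      rw [← h1]; abel
    rw [h2, add_smul, one_smul, smul_sub]
    abel

open Fermat.Agent.Ribet.H403 Fermat.Agent.S55.H414 in
/-- Galois acts on a cofixed line of the Frey representation through the mod `p` cyclotomic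
character. -/
theorem frey_line_smul (P : FreyPackage)
    (N : Submodule (ZMod P.p) (Tors P.freyCurve P.p))
    (hstab : IsGaloisStable (K := AlgebraicClosure ℚ) ℚ N) (hbot : N ≠ ⊥) (htop : N ≠ ⊤)
    (hcof : ∀ σ : GQ, ∀ x : Tors P.freyCurve P.p, σ • x - x ∈ N) (σ : GQ) :
    haveI : NeZero P.p := ⟨P.hp0⟩
    ∀ x ∈ N, σ • x = ((cycloPow P.p σ : (ZMod P.p)ˣ) : ZMod P.p) • x := by
  have : Fact P.p.Prime := ⟨P.pp⟩
  have : NeZero P.p := ⟨P.hp0⟩
  intro x hx
  have hdim : Module.finrank (ZMod P.p) (Tors P.freyCurve P.p) = 2 :=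
    finrank_tors P.freyCurve (Fermat.Agent.S13.H891.freyCurve_Δ_ne_zero P) P.p
  have := cofixed_line_smul_eq_det hdim
    (galoisRepModuleEnd (S := ℚ) (K := AlgebraicClosure ℚ) P.freyCurve P.p σ) N hbot htop
    (fun y hy => hstab σ y hy) (fun y => hcof σ y) x hx
  rw [frey_det_eq_cycloPow P σ] at this
  exact this

open Fermat.Agent.Ribet.H403 Fermat.Agent.S55.H414 Fermat.Agent.S05 Fermat.Agent.S05.SameRed
  Fermat.Agent.S05.Assemble in
/-- **LOCp.**  At every valuation subring of `ℚ̄` over `p`, a cofixed line of the Frey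
representation lies in the kernel of reduction. -/
theorem frey_line_inKer (P : FreyPackage)
    (N : Submodule (ZMod P.p) (Tors P.freyCurve P.p))
    (hstab : IsGaloisStable (K := AlgebraicClosure ℚ) ℚ N) (hbot : N ≠ ⊥) (htop : N ≠ ⊤)
    (hcof : ∀ σ : GQ, ∀ x : Tors P.freyCurve P.p, σ • x - x ∈ N)
    (A : ValuationSubring (AlgebraicClosure ℚ)) (hA : A.LiesOverPrime P.p)
    (T : Tors P.freyCurve P.p) (hT : T ∈ N) :
    InKer (P.freyCurve⁄(AlgebraicClosure ℚ)) A.valuation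
      (T : (P.freyCurve⁄(AlgebraicClosure ℚ)).Point) := by
  have : Fact P.p.Prime := ⟨P.pp⟩
  have : NeZero P.p := ⟨P.hp0⟩
  have hp2 : P.p ≠ 2 := by have := P.hp5; omega
  have hW := frey_integral (P := P) hA P.pp hp2
  rcases hTe : (T : (P.freyCurve⁄(AlgebraicClosure ℚ)).Point) with _ | ⟨x, y, h⟩
  · trivial
  by_contra hnk
  have hx : A.valuation x ≤ 1 := not_lt.mp hnk
  obtain ⟨σ, hσ, hne⟩ := exists_inertia_cycloPow_ne_one P.p hp2 A hA
  have h1 := frey_line_smul P N hstab hbot htop hcof σ T hT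
  set c : ZMod P.p := ((cycloPow P.p σ : (ZMod P.p)ˣ) : ZMod P.p) with hc
  have hc1 : c - 1 ≠ 0 := by
    intro h0
    apply hne
    apply Units.ext
    rw [Units.val_one]
    exact sub_eq_zero.mp h0
  have hP : P.p • Point.some x y h = 0 := by
    rw [← hTe, ← natCast_zsmul]
    exact (Submodule.mem_torsionBy_iff _ _).mp T.2
  have hker := Fermat.Agent.S13.H64.frey_inKer_smul_sub P P.pp hp2 A hA σ hσ h hP hx
  -- `T = u • (σ T - T)` with `u = (c - 1)⁻¹`
  have h2 : T = ((c - 1)⁻¹.val : ℕ) • (σ • T - T) := by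
    rw [← Nat.cast_smul_eq_nsmul (ZMod P.p), ZMod.natCast_zmod_val, h1,
      show c • T - T = (c - 1) • T by rw [sub_smul, one_smul], smul_smul,
      inv_mul_cancel₀ hc1, one_smul]
  have h3 : (T : (P.freyCurve⁄(AlgebraicClosure ℚ)).Point) =
      ((c - 1)⁻¹.val : ℕ) • (σ • (T : (P.freyCurve⁄(AlgebraicClosure ℚ)).Point) -
        (T : (P.freyCurve⁄(AlgebraicClosure ℚ)).Point)) := by
    conv_lhs => rw [h2]
    rfl
  rw [hTe] at h3
  have h4 := Fermat.Agent.S13.H64.inKer_nsmul hW hker ((c - 1)⁻¹.val)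
  rw [← h3] at h4
  exact hnk h4

open Fermat.Agent.Ribet.H403 Fermat.Agent.S05 Fermat.Agent.S05.SameRed in
/-- **LOCp**, coordinate form: the `x`-coordinate of a nonzero point of a cofixed line is not
integral at any place over `p`. -/
theorem frey_line_x_not_mem (P : FreyPackage)
    (N : Submodule (ZMod P.p) (Tors P.freyCurve P.p))
    (hstab : IsGaloisStable (K := AlgebraicClosure ℚ) ℚ N) (hbot : N ≠ ⊥) (htop : N ≠ ⊤)
    (hcof : ∀ σ : GQ, ∀ x : Tors P.freyCurve P.p, σ • x - x ∈ N)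
    (A : ValuationSubring (AlgebraicClosure ℚ)) (hA : A.LiesOverPrime P.p)
    (T : Tors P.freyCurve P.p) (hT : T ∈ N) {x y : AlgebraicClosure ℚ}
    (h : (P.freyCurve⁄(AlgebraicClosure ℚ)).Nonsingular x y)
    (hTe : (T : (P.freyCurve⁄(AlgebraicClosure ℚ)).Point) = Point.some x y h) :
    1 < A.valuation x := by
  have := frey_line_inKer P N hstab hbot htop hcof A hA T hT
  rw [hTe] at this
  exact this

/-- If `x` is not integral and `e` is, then `v (x - e) = v x`. -/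
theorem val_sub_eq_of_one_lt {K : Type*} [Field K] {Γ₀ : Type*}
    [LinearOrderedCommGroupWithZero Γ₀] (v : Valuation K Γ₀) {x e : K} (hx : 1 < v x)
    (he : v e ≤ 1) : v (x - e) = v x :=
  Valuation.map_sub_eq_of_lt_left v (lt_of_le_of_lt he hx)

end Fermat.Agent.S12.H411

end
-- ===== PACK-END S12/H411/LocP.lean

-- ===== PACK-BEGIN S12/H411/Leaves.lean
section





/-!
# Row S12 (one-step route): the local leaves in the shapes of `S12/H291/Local.lean` (helper411)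

* `locP_h411 : H291.LocPStatement`       — the term statement at `ℓ = p` (cofixed line ⊂ kernel of
  reduction, `S12/H411/LocP.lean`);
* `locGood_h411 : H291.LocGoodStatement` — the term statement at the primes `ℓ ∤ 2·p·abc`;
* `termAt_of_inE0_h411`                  — TORIC ⇒ TERM: a point of order `p` in `E⁰(A)`,
  `A` over ANY prime `ℓ ≠ p` (`ℓ = 2` included), satisfies `H291.TermAt`;
* `loc2_of_toric_h411`, `locBad_of_toric_h411` — the leaves `Loc2`, `LocBad` from "the cofixed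
  line is toric at `A`".
-/

set_option autoImplicit false

open WeierstrassCurve WeierstrassCurve.Affine WeierstrassCurve.Affine.Point

namespace Fermat.Agent.S12.H411

open Fermat.Agent.S12.H291 Fermat.Agent.S05.Assemble Fermat.Agent.S15.H242

lemma eps₂_eq_h411 (P : FreyPackage) : eps₂ P = fA P / 4 := by
  simp only [eps₂, fA]
  push_cast
  simp

lemma eps₃_eq_h411 (P : FreyPackage) : eps₃ P = -(fB P / 4) := by
  simp only [eps₃, fB]
  push_cast
  simp [neg_div]

/-- **TORIC ⇒ TERM.**  A point of order `p` of the Frey curve lying in `E⁰(A)`, `A` over a prime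
`ℓ ≠ p` (any `ℓ`, `2` included), satisfies the term statement. -/
theorem termAt_of_inE0_h411 (P : FreyPackage) {ℓ : ℕ} (hℓ : ℓ.Prime) (hℓp : ℓ ≠ P.p)
    (A : ValuationSubring (AlgebraicClosure ℚ)) (hA : A.LiesOverPrime ℓ) (T : FreyPt P)
    (hord : addOrderOf T = P.p)
    (hT : InE0 A (IsLocalRing.residue A) (P.freyCurveInt⁄(IsLocalRing.ResidueField A)) T) :
    TermAt P A T := by
  obtain ⟨x, y, h, rfl, hx, hB, hA4⟩ := frey_factor_vals_of_inE0 P hℓ hℓp A hA T hord hT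
  unfold TermAt
  rw [xc_some, sub_zero, eps₃_eq_h411, eps₂_eq_h411, sub_neg_eq_add, hB, hx]
  exact ⟨rfl, hA4.symm⟩

/-- **LEAF LocP.** -/
theorem locP_h411 : LocPStatement := by
  intro P _ N hN T hTN hT A hA
  have hp2 : P.p ≠ 2 := by have := P.hp5; omega
  have hT' : (T : FreyPt P) ≠ 0 := fun h => hT (Subtype.ext h)
  rcases hTe : (T : FreyPt P) with _ | ⟨x, y, h⟩
  · exact absurd hTe hT'
  have hx : 1 < A.valuation x :=
    frey_line_x_not_mem P N hN.stable hN.ne_bot hN.ne_top hN.cofixed A hA T hTN h hTe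
  have h4 : A.valuation (4 : AlgebraicClosure ℚ) = 1 := val_four_eq_one hA P.pp hp2
  have h2 : A.valuation (eps₂ P) ≤ 1 := by
    rw [eps₂_eq_h411, map_div₀, h4, div_one]
    exact val_fA_le_one (P := P) (A := A)
  have h3 : A.valuation (eps₃ P) ≤ 1 := by
    rw [eps₃_eq_h411, Valuation.map_neg]
    exact val_fB_div_four_le_one P A
  unfold TermAt
  rw [xc_some, sub_zero, val_sub_eq_of_one_lt _ hx h3, val_sub_eq_of_one_lt _ hx h2, h4, one_mul]
  exact ⟨rfl, rfl⟩

/-- **LEAF LocGood.** -/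
theorem locGood_h411 : LocGoodStatement := by
  intro P _ N _ T _ hT ℓ hℓ _ hℓp hndvd A hA
  have hgood : ¬ (ℓ : ℤ) ∣ P.freyCurveInt.Δ := fun h =>
    hndvd (Fermat.Agent.Ribet.H104.dvd_abc_of_dvd_Δ P (Nat.prime_iff_prime_int.mp hℓ) h)
  exact termAt_of_inE0_h411 P hℓ hℓp A hA T (addOrderOf_eq_of_mem_torsion T hT)
    (frey_inE0_of_good P hℓ hgood A hA T)

/-- The node "the cofixed lines of the Frey curve are toric at `2`": every point of a cofixed line
has nonsingular reduction at every place over `2`. -/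
def Toric2Statement : Prop :=
  ∀ (P : FreyPackage), 17 ≤ P.p →
    ∀ N : Submodule (ZMod P.p) (Submodule.torsionBy ℤ (FreyPt P) P.p), IsCofixedLine P N →
    ∀ T : Submodule.torsionBy ℤ (FreyPt P) P.p, T ∈ N →
    ∀ A : ValuationSubring (AlgebraicClosure ℚ), A.LiesOverPrime 2 →
      InE0 A (IsLocalRing.residue A) (P.freyCurveInt⁄(IsLocalRing.ResidueField A))
        (T : FreyPt P)

/-- **LEAF Loc2** from the toric node at `2`. -/
theorem loc2_of_toric_h411 (h : Toric2Statement) : Loc2Statement := by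
  intro P hp N hN T hTN hT A hA
  have hp2 : 2 ≠ P.p := by have := P.hp5; omega
  exact termAt_of_inE0_h411 P Nat.prime_two hp2 A hA T (addOrderOf_eq_of_mem_torsion T hT)
    (h P hp N hN T hTN A hA)

/-- The node "the cofixed lines of the Frey curve are toric at the odd bad primes `ℓ ≠ p`". -/
def ToricBadStatement : Prop :=
  ∀ (P : FreyPackage), 17 ≤ P.p →
    ∀ N : Submodule (ZMod P.p) (Submodule.torsionBy ℤ (FreyPt P) P.p), IsCofixedLine P N →
    ∀ T : Submodule.torsionBy ℤ (FreyPt P) P.p, T ∈ N →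
    ∀ (ℓ : ℕ), ℓ.Prime → ℓ ≠ 2 → ℓ ≠ P.p → (ℓ : ℤ) ∣ P.a * P.b * P.c →
    ∀ A : ValuationSubring (AlgebraicClosure ℚ), A.LiesOverPrime ℓ →
      InE0 A (IsLocalRing.residue A) (P.freyCurveInt⁄(IsLocalRing.ResidueField A))
        (T : FreyPt P)

/-- **LEAF LocBad** from the toric node at the odd bad primes. -/
theorem locBad_of_toric_h411 (h : S15Statement → ToricBadStatement) : LocBadStatement := by
  intro hS15 P hp N hN T hTN hT ℓ hℓ hℓ2 hℓp hdvd A hA
  exact termAt_of_inE0_h411 P hℓ hℓp A hA T (addOrderOf_eq_of_mem_torsion T hT)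
    (h hS15 P hp N hN T hTN ℓ hℓ hℓ2 hℓp hdvd A hA)

/-- **Row S12, one-step route**: frozen S12 from frozen S15 and the two toric nodes. -/
theorem s12_of_toric_h411 (hS15 : S15Statement) (h2 : Toric2Statement)
    (hB : S15Statement → ToricBadStatement) (P : FreyPackage) (hp : 17 ≤ P.p) :
    ¬ HasGaloisStableCofixedLine (K := AlgebraicClosure ℚ) ℚ P.freyCurve P.p :=
  s12_of_leaves hS15 (loc2_of_toric_h411 h2) locP_h411 locGood_h411 (locBad_of_toric_h411 hB) P hp

end Fermat.Agent.S12.H411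

end
-- ===== PACK-END S12/H411/Leaves.lean

-- ===== PACK-BEGIN S12/H291/Glue.lean
section




/-!
# Row S12, one-step route: FINAL GLUE (helper291)

`s12_of_s15_nodes` : frozen S12 from the three nodes of row S15 (`CuspStatement p`,
`GeoSubStatement p` = node GEO for Galois-stable subgroups, `DescentStatement p`, for the primes
`p ≥ 17`).  Everything else is proved:

* TOP (`OneStep`, `PiRat`, `Local`): Jacobi's identity + `2`-adic endgame + rationality of `Π_j`;
* local leaves at `ℓ = p`, good `ℓ`, and TORIC ⇒ TERM (helper411, `S12/H411/Leaves.lean`);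
* the cofixed line is toric at `2`, at `3` (and `3 ∣ abc`), and at every bad `ℓ ≢ ±1 mod p`
  (`ToricFrey`, `GoodSmall`);
* the cofixed line is toric at the bad `ℓ ≡ ±1 mod p`: helper111's `inZero_of_nodes`
  (`S12/H111/GeoSub.lean`) applied to the Frey curve itself — the ONLY global input.

No quotient curve `E/N`, no Vélu isogeny, no determinant is used.
-/

set_option autoImplicit false
set_option linter.unusedSectionVars false
set_option linter.style.haveILetI false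

noncomputable section

open WeierstrassCurve WeierstrassCurve.Affine WeierstrassCurve.Affine.Point

namespace Fermat.Agent.S12.H291

open Fermat.Agent.Lib.Red.H290 Fermat.Agent.S15.H242
open Fermat.Agent.S15.Core (CuspStatement DescentStatement)
open Fermat.Agent.S12.H111 (GeoSubStatement inZero_of_nodes)

/-- `E⁰` in the sense of reduction implies the Prelude's `InZeroComponentAt`. -/
lemma inZeroComponentAt_of_inE0 (W : WeierstrassCurve ℤ) (A : ValuationSubring Qb)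
    {Q : ((W.map (Int.castRingHom ℚ))⁄Qb).Point}
    (hQ : InE0 A (IsLocalRing.residue A) (W⁄(IsLocalRing.ResidueField A)) Q) :
    W.InZeroComponentAt A Q := by
  rcases Q with _ | ⟨x, y, h⟩
  · exact Or.inl rfl
  · refine Or.inr ⟨x, y, h, rfl, ?_⟩
    by_cases hx : x ∈ A
    · have hred := isRedOf_int A W (IsLocalRing.residue A)
      have hy : y ∈ A := y_mem_of_x_mem hred h.1 hx
      refine Or.inr ⟨hx, hy, ?_⟩
      have := hQ hx
      rw [rd_of_mem hx, rd_of_mem hy] at this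
      exact this
    · exact Or.inl hx

/-- helper111's dual TOP, transported to a curve `Wq = W₀_ℚ` and to `E⁰` in the sense of
reduction. -/
theorem inE0_of_nodes_general {p : ℕ} (hp : p.Prime) (hp2 : p ≠ 2) (hp3 : p ≠ 3)
    (hCusp : haveI : NeZero p := ⟨hp.ne_zero⟩; CuspStatement p)
    (hGeo : haveI : NeZero p := ⟨hp.ne_zero⟩; GeoSubStatement p)
    (hDesc : haveI : NeZero p := ⟨hp.ne_zero⟩; DescentStatement p)
    (W₀ : WeierstrassCurve ℤ) (hΔ : W₀.Δ ≠ 0)
    (Wq : WeierstrassCurve ℚ) (hW : Wq = W₀.map (Int.castRingHom ℚ))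
    (Q : (Wq⁄Qb).Point)
    (hQstab : ∀ σ : Qb ≃ₐ[ℚ] Qb, σ • Q ∈ AddSubgroup.zmultiples Q)
    (hQord : addOrderOf Q = p)
    (h2Δ : (2 : ℤ) ∣ W₀.Δ) (h2c₄ : ¬ (2 : ℤ) ∣ W₀.c₄)
    (h2 : ∀ A : ValuationSubring Qb, A.LiesOverPrime 2 →
      InE0 A (IsLocalRing.residue A) (W₀⁄(IsLocalRing.ResidueField A)) Q)
    (h3Δ : (3 : ℤ) ∣ W₀.Δ) (h3c₄ : ¬ (3 : ℤ) ∣ W₀.c₄)
    (h3 : ∀ A : ValuationSubring Qb, A.LiesOverPrime 3 →
      InE0 A (IsLocalRing.residue A) (W₀⁄(IsLocalRing.ResidueField A)) Q)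
    {ℓ : ℕ} (hℓ : ℓ.Prime) (hℓp : ℓ ≠ p) (hℓΔ : (ℓ : ℤ) ∣ W₀.Δ) (hℓc₄ : ¬ (ℓ : ℤ) ∣ W₀.c₄)
    (hpm : p ∣ ℓ - 1 ∨ p ∣ ℓ + 1)
    (A : ValuationSubring Qb) (hA : A.LiesOverPrime ℓ) :
    InE0 A (IsLocalRing.residue A) (W₀⁄(IsLocalRing.ResidueField A)) Q := by
  subst hW
  exact inE0_of_inZeroComponentAt W₀ A
    (inZero_of_nodes hp hp2 hp3 hCusp hGeo hDesc W₀ hΔ Q hQstab hQord h2Δ h2c₄
      (fun A₂ hA₂ => _root_.Fermat.Agent.S12.H291.inZeroComponentAt_of_inE0 W₀ A₂ (h2 A₂ hA₂)) h3Δ h3c₄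
      (fun A₃ hA₃ => _root_.Fermat.Agent.S12.H291.inZeroComponentAt_of_inE0 W₀ A₃ (h3 A₃ hA₃)) hℓ hℓp hℓΔ hℓc₄ hpm A hA)

/-- **TORIC at `2`** in helper411's shape. -/
theorem toric2Statement : Fermat.Agent.S12.H411.Toric2Statement := by
  intro P hp N hN T hTN A hA
  exact toric_two P (by omega) N hN A hA T hTN

/-- **TORIC at the odd bad primes** from the three nodes of row S15. -/
theorem toricBad_of_nodes
    (hCusp : ∀ (p : ℕ) (hp : p.Prime), 17 ≤ p →
      haveI : NeZero p := ⟨hp.ne_zero⟩; CuspStatement p)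
    (hGeo : ∀ (p : ℕ) (hp : p.Prime), 17 ≤ p →
      haveI : NeZero p := ⟨hp.ne_zero⟩; GeoSubStatement p)
    (hDesc : ∀ (p : ℕ) (hp : p.Prime), 17 ≤ p →
      haveI : NeZero p := ⟨hp.ne_zero⟩; DescentStatement p) :
    Fermat.Agent.S12.H411.ToricBadStatement := by
  intro P hp N hN T hTN ℓ hℓ hℓ2 hℓp hbad A hA
  by_cases hpm : P.p ∣ ℓ - 1 ∨ P.p ∣ ℓ + 1
  · by_cases hT0 : T = 0
    · rw [hT0]; exact inE0_zero
    have h3abc := three_dvd_abc_of_cofixed P (by omega) N hN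
    have h2Δ' := dvd_freyΔ_of_dvd_abc P Nat.prime_two (by exact_mod_cast P.two_dvd_abc)
    have h3Δ' := dvd_freyΔ_of_dvd_abc P Nat.prime_three (by exact_mod_cast h3abc)
    have hℓΔ := dvd_freyΔ_of_dvd_abc P hℓ hbad
    have h2c := Fermat.Agent.Ribet.H164.g1a_semistable P 2 Nat.prime_two h2Δ'
    have h3c := Fermat.Agent.Ribet.H164.g1a_semistable P 3 Nat.prime_three h3Δ'
    have hℓc := Fermat.Agent.Ribet.H164.g1a_semistable P ℓ hℓ hℓΔ
    refine inE0_of_nodes_general P.pp (by omega) (by omega) (hCusp P.p P.pp hp)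
      (hGeo P.p P.pp hp) (hDesc P.p P.pp hp) P.freyCurveInt
      (Fermat.Agent.Ribet.H164.g1a_Δ_ne_zero P) P.freyCurve
      (Fermat.Agent.S13.H164.freyCurve_eq_map P) (T : FreyPt P) ?_
      (addOrderOf_eq_of_mem_torsion T hT0) (by exact_mod_cast h2Δ') (by exact_mod_cast h2c)
      (fun A₂ hA₂ => toric_two P (by omega) N hN A₂ hA₂ T hTN)
      (by exact_mod_cast h3Δ') (by exact_mod_cast h3c)
      (fun A₃ hA₃ => toric_three P (by omega) h3abc N hN A₃ hA₃ T hTN)
      hℓ hℓp hℓΔ hℓc hpm A hA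
    intro σ
    obtain ⟨k, hk⟩ := Fermat.Agent.S13.H64.frey_line P N hN.ne_top T hTN hT0 (σ • T)
      (hN.stable σ T hTN)
    have hk' : σ • (T : FreyPt P) = k • (T : FreyPt P) := congrArg Subtype.val hk
    rw [hk']
    exact AddSubgroup.zsmul_mem_zmultiples _ k
  · push Not at hpm
    exact toric_local P N hN hℓ hℓp hbad hpm.1 hpm.2 A hA T hTN

/-- Frozen S12 from the term statement at every place (variant of `s12_of_leaves` without the
`S15Statement` hypothesis). -/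
theorem s12_of_terms
    (h2 : Loc2Statement) (hP : LocPStatement) (hG : LocGoodStatement)
    (hB : ∀ (P : FreyPackage), 17 ≤ P.p →
      ∀ N : Submodule (ZMod P.p) (Submodule.torsionBy ℤ (FreyPt P) P.p), IsCofixedLine P N →
      ∀ T : Submodule.torsionBy ℤ (FreyPt P) P.p, T ∈ N → T ≠ 0 →
      ∀ (ℓ : ℕ), ℓ.Prime → ℓ ≠ 2 → ℓ ≠ P.p → (ℓ : ℤ) ∣ P.a * P.b * P.c →
      ∀ A : ValuationSubring Qb, A.LiesOverPrime ℓ → TermAt P A (T : FreyPt P))
    (P : FreyPackage) (hp : 17 ≤ P.p) :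
    ¬ HasGaloisStableCofixedLine (K := AlgebraicClosure ℚ) ℚ P.freyCurve P.p := by
  refine s12_of_piVal (piVal_of_termAt ?_) P hp
  intro P hp N hN T hTN hT ℓ hℓ A hA
  by_cases hℓ2 : ℓ = 2
  · subst hℓ2
    exact h2 P hp N hN T hTN hT A hA
  by_cases hℓp : ℓ = P.p
  · subst hℓp
    exact hP P hp N hN T hTN hT A hA
  by_cases hdvd : (ℓ : ℤ) ∣ P.a * P.b * P.c
  · exact hB P hp N hN T hTN hT ℓ hℓ hℓ2 hℓp hdvd A hA
  · exact hG P hp N hN T hTN hT ℓ hℓ hℓ2 hℓp hdvd A hA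

/-- **Row S12, one-step route**: frozen S12 from a toric statement at the odd bad primes. -/
theorem s12_of_toricBad (hB : Fermat.Agent.S12.H411.ToricBadStatement)
    (P : FreyPackage) (hp : 17 ≤ P.p) :
    ¬ HasGaloisStableCofixedLine (K := AlgebraicClosure ℚ) ℚ P.freyCurve P.p :=
  s12_of_terms (Fermat.Agent.S12.H411.loc2_of_toric_h411 toric2Statement)
    Fermat.Agent.S12.H411.locP_h411 Fermat.Agent.S12.H411.locGood_h411
    (fun P hp N hN T hTN hT ℓ hℓ hℓ2 hℓp hdvd A hA =>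
      Fermat.Agent.S12.H411.termAt_of_inE0_h411 P hℓ hℓp A hA T
        (addOrderOf_eq_of_mem_torsion T hT) (hB P hp N hN T hTN ℓ hℓ hℓ2 hℓp hdvd A hA))
    P hp

/-- **Row S12 — FINAL**: frozen S12 from the three nodes of row S15 (GEO in subgroup form). -/
theorem s12_of_s15_nodes
    (hCusp : ∀ (p : ℕ) (hp : p.Prime), 17 ≤ p →
      haveI : NeZero p := ⟨hp.ne_zero⟩; CuspStatement p)
    (hGeo : ∀ (p : ℕ) (hp : p.Prime), 17 ≤ p →
      haveI : NeZero p := ⟨hp.ne_zero⟩; GeoSubStatement p)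
    (hDesc : ∀ (p : ℕ) (hp : p.Prime), 17 ≤ p →
      haveI : NeZero p := ⟨hp.ne_zero⟩; DescentStatement p)
    (P : FreyPackage) (hp : 17 ≤ P.p) :
    ¬ HasGaloisStableCofixedLine (K := AlgebraicClosure ℚ) ℚ P.freyCurve P.p :=
  s12_of_toricBad (toricBad_of_nodes hCusp hGeo hDesc) P hp

end Fermat.Agent.S12.H291

end
end
-- ===== PACK-END S12/H291/Glue.lean

-- ===== PACK-BEGIN G1/H486/BettiDescent.lean
section






/-!
# G1, block D (assembly): the Betti descent step `3N → N` for `3 ∣ N`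

Vocabulary of `S59/TW/H653`.  `k` is a field of characteristic `3`, `Sig` a set of primes not
dividing `3N`, `θ : ℕ → k`.

`bettiDescent` : if `x ≠ 0` in `Hom(Γ0(3N), k)` satisfies `T_ℓ x = θ(ℓ) x` for all `ℓ ∈ Sig` and
there is `ℓ₀ ∈ Sig` with `ℓ₀ ≡ 1 mod 3N` and `θ(ℓ₀) ≠ 2` (non-Eisenstein), then there are
`i ∈ {0, 1}` and `y ≠ 0` in `Hom(Γ0(N), k)` with `T_ℓ y = ℓ^i θ(ℓ) y` for all `ℓ ∈ Sig`.

Steps: (B) `τ`-analysis (`exists_invariant_eigen`): a `τ`-invariant eigenvector `z` for `ℓ^i θ`;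
(C) `z` kills `g0 ^ 3` (the boundary is Eisenstein, `Bdry.TK_apply_of_trace_eq_two` of main) and
extends to `Γ0(N)`; (D)-(G) the extension is corrected by a multiple of the character
`c3 : Γ0(N) → ZMod 3 → k` to an eigenvector.
-/

set_option autoImplicit false
set_option linter.unusedSectionVars false

namespace Fermat.Agent.G1.H486

open CongruenceSubgroup Matrix.SpecialLinearGroup ModularCurve.Period ModularForm
open Fermat.Agent.S29.H642 Fermat.Agent.S41.Spec Fermat.Agent.S41.H761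
open Fermat.Agent.S59.TW.H653 Fermat.Agent.S59.TW.H653.Cross
open P2MW.S_ModularForm_heckeT_slash_eq_self_of_mem_Gamma0.ModularForm.HeckeSlashInvariance
open scoped MatrixGroups

variable {N : ℕ} {k : Type*} [Field k] [CharP k 3]

/-! ## (A) Linearity -/

section Linear

variable {M : ℕ} {K : Subgroup SL(2, ℤ)}

theorem smul_eq_mulLeft_comp (c : k) (φ : Additive K →+ k) :
    c • φ = (AddMonoidHom.mulLeft c).comp φ := rfl

theorem TK_smul (hK : IsMid M K) {ℓ : ℕ} [Fact ℓ.Prime] (hℓ : ¬ ℓ ∣ M) (c : k)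
    (φ : Additive K →+ k) : TK M K ℓ (c • φ) = c • TK M K ℓ φ := by
  rw [smul_eq_mulLeft_comp, TK_comp hK hℓ, ← smul_eq_mulLeft_comp]

theorem TK_sub (hK : IsMid M K) {ℓ : ℕ} [Fact ℓ.Prime] (hℓ : ¬ ℓ ∣ M)
    (φ ψ : Additive K →+ k) : TK M K ℓ (φ - ψ) = TK M K ℓ φ - TK M K ℓ ψ :=
  map_sub (TKHom hK k hℓ) φ ψ

theorem TK_zero (hK : IsMid M K) {ℓ : ℕ} [Fact ℓ.Prime] (hℓ : ¬ ℓ ∣ M) :
    TK M K ℓ (0 : Additive K →+ k) = 0 :=
  map_zero (TKHom hK k hℓ)

theorem tau3_smul (h3 : 3 ∣ N) (g : Gamma0 N) (c : k) (φ : Additive (Gamma0 (3 * N)) →+ k) :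
    tau3 h3 g (c • φ) = c • tau3 h3 g φ := rfl

theorem tau3_sub (h3 : 3 ∣ N) (g : Gamma0 N) (φ ψ : Additive (Gamma0 (3 * N)) →+ k) :
    tau3 h3 g (φ - ψ) = tau3 h3 g φ - tau3 h3 g ψ := rfl

theorem hom_three_eq_zero (φ : Additive K →+ k) : φ + φ + φ = 0 := by
  refine AddMonoidHom.ext fun g => ?_
  have h3 : (3 : k) = 0 := by
    have := CharP.cast_eq_zero k 3
    exact_mod_cast this
  rw [AddMonoidHom.add_apply, AddMonoidHom.add_apply, AddMonoidHom.zero_apply]
  linear_combination (φ g) * h3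

end Linear

/-! ## Residues of `ℓ` modulo `3` -/

theorem mod_three_of_prime {ℓ : ℕ} (hp : ℓ.Prime) (hℓ : ¬ ℓ ∣ 3 * N) : ℓ % 3 = 1 ∨ ℓ % 3 = 2 := by
  have h := not_three_dvd_of_not_dvd hp hℓ
  omega

theorem natCast_zmod3_of_mod {ℓ r : ℕ} (h : ℓ % 3 = r) : (ℓ : ZMod 3) = (r : ZMod 3) := by
  rw [← h, ZMod.natCast_mod]

theorem natCast_of_mod {ℓ r : ℕ} (h : ℓ % 3 = r) : (ℓ : k) = (r : k) := by
  rw [← h]
  exact CharP.cast_eq_mod k 3 ℓ

/-! ## (B) The `τ`-analysis -/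

section TauAnalysis

variable (h3 : 3 ∣ N)

/-- `ℓ ≡ 1 mod 3`: `τ T_ℓ = T_ℓ τ`. -/
theorem tau_TK_of_one {ℓ : ℕ} [Fact ℓ.Prime] (hℓ : ¬ ℓ ∣ 3 * N) (h1 : ℓ % 3 = 1)
    (φ : Additive (Gamma0 (3 * N)) →+ k) :
    tau3 h3 (g0 N) (TK (3 * N) (Gamma0 (3 * N)) ℓ φ) =
      TK (3 * N) (Gamma0 (3 * N)) ℓ (tau3 h3 (g0 N) φ) := by
  apply tau3_TK h3 hℓ
  rw [natCast_zmod3_of_mod h1]
  simp

/-- `ℓ ≡ 2 mod 3`: `τ T_ℓ = T_ℓ τ²`. -/
theorem tau_TK_of_two {ℓ : ℕ} [Fact ℓ.Prime] (hℓ : ¬ ℓ ∣ 3 * N) (h2 : ℓ % 3 = 2)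
    (φ : Additive (Gamma0 (3 * N)) →+ k) :
    tau3 h3 (g0 N) (TK (3 * N) (Gamma0 (3 * N)) ℓ φ) =
      TK (3 * N) (Gamma0 (3 * N)) ℓ (tau3 h3 (g0 N) (tau3 h3 (g0 N) φ)) := by
  rw [← tau3_mul]
  apply tau3_TK h3 hℓ
  rw [natCast_zmod3_of_mod h2]
  show c3Fun N ((g0 N : SL(2, ℤ)) * (g0 N : SL(2, ℤ))) = _
  rw [c3Fun_mul h3 (g0 N).2 (g0 N).2]
  push_cast
  ring

/-- `ℓ ≡ 2 mod 3`: `τ² T_ℓ = T_ℓ τ`. -/
theorem tau_tau_TK_of_two {ℓ : ℕ} [Fact ℓ.Prime] (hℓ : ¬ ℓ ∣ 3 * N) (h2 : ℓ % 3 = 2)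
    (φ : Additive (Gamma0 (3 * N)) →+ k) :
    tau3 h3 (g0 N) (tau3 h3 (g0 N) (TK (3 * N) (Gamma0 (3 * N)) ℓ φ)) =
      TK (3 * N) (Gamma0 (3 * N)) ℓ (tau3 h3 (g0 N) φ) := by
  rw [← tau3_mul]
  apply tau3_TK h3 hℓ
  rw [natCast_zmod3_of_mod h2]
  show _ = _ * c3Fun N ((g0 N : SL(2, ℤ)) * (g0 N : SL(2, ℤ)))
  rw [c3Fun_mul h3 (g0 N).2 (g0 N).2]
  generalize c3Fun N (g0 N : SL(2, ℤ)) = c
  revert c
  decide

/-- **The `τ`-analysis.**  A nonzero eigenvector for `θ` at level `3N` gives a nonzero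
`τ`-invariant eigenvector for `ℓ^i θ`, `i ∈ {0, 1}`. -/
theorem exists_invariant_eigen (Sig : Set ℕ) (hSig : ∀ ℓ ∈ Sig, ℓ.Prime ∧ ¬ ℓ ∣ 3 * N)
    (θ : ℕ → k) (x : Additive (Gamma0 (3 * N)) →+ k) (hx : x ≠ 0)
    (hT : ∀ (ℓ : ℕ) [Fact ℓ.Prime], ℓ ∈ Sig → TK (3 * N) (Gamma0 (3 * N)) ℓ x = θ ℓ • x) :
    ∃ (i : ℕ) (z : Additive (Gamma0 (3 * N)) →+ k), i < 2 ∧ z ≠ 0 ∧
      tau3 h3 (g0 N) z = z ∧
      ∀ (ℓ : ℕ) [Fact ℓ.Prime], ℓ ∈ Sig →
        TK (3 * N) (Gamma0 (3 * N)) ℓ z = ((ℓ : k) ^ i * θ ℓ) • z := by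
  have hK := isMid_Gamma0 (3 * N)
  set τ : (Additive (Gamma0 (3 * N)) →+ k) → (Additive (Gamma0 (3 * N)) →+ k) :=
    tau3 h3 (g0 N) with hτ
  have hτ3 : ∀ φ, τ (τ (τ φ)) = φ := fun φ => tau3_cube h3 (g0 N) φ
  have hτadd : ∀ φ ψ, τ (φ + ψ) = τ φ + τ ψ := fun φ ψ => tau3_add h3 (g0 N) φ ψ
  have hτsub : ∀ φ ψ, τ (φ - ψ) = τ φ - τ ψ := fun φ ψ => tau3_sub h3 (g0 N) φ ψ
  have hτsmul : ∀ (c : k) φ, τ (c • φ) = c • τ φ := fun c φ => tau3_smul h3 (g0 N) c φ
  set x₁ := τ x with hx₁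
  set x₂ := τ x₁ with hx₂
  have hx₃ : τ x₂ = x := hτ3 x
  -- the action of `T_ℓ` on `x₁`, `x₂`
  have hT1 : ∀ (ℓ : ℕ) [Fact ℓ.Prime], ℓ ∈ Sig → ℓ % 3 = 1 →
      TK (3 * N) (Gamma0 (3 * N)) ℓ x₁ = θ ℓ • x₁ ∧
      TK (3 * N) (Gamma0 (3 * N)) ℓ x₂ = θ ℓ • x₂ := by
    intro ℓ _ hℓS h1
    have hℓ := (hSig ℓ hℓS).2
    have e1 : TK (3 * N) (Gamma0 (3 * N)) ℓ x₁ = θ ℓ • x₁ := by
      rw [hx₁, hτ, ← tau_TK_of_one h3 hℓ h1, hT ℓ hℓS, tau3_smul]
    refine ⟨e1, ?_⟩
    rw [hx₂, hτ, ← tau_TK_of_one h3 hℓ h1, ← hτ, e1, hτsmul]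
  have hT2 : ∀ (ℓ : ℕ) [Fact ℓ.Prime], ℓ ∈ Sig → ℓ % 3 = 2 →
      TK (3 * N) (Gamma0 (3 * N)) ℓ x₁ = θ ℓ • x₂ ∧
      TK (3 * N) (Gamma0 (3 * N)) ℓ x₂ = θ ℓ • x₁ := by
    intro ℓ _ hℓS h2
    have hℓ := (hSig ℓ hℓS).2
    have e1 : TK (3 * N) (Gamma0 (3 * N)) ℓ x₁ = θ ℓ • x₂ := by
      rw [hx₁, hτ, ← tau_tau_TK_of_two h3 hℓ h2, hT ℓ hℓS, tau3_smul, tau3_smul]
    refine ⟨e1, ?_⟩
    rw [hx₂, hτ, ← tau_tau_TK_of_two h3 hℓ h2, ← hτ, e1, hτsmul, hτsmul, hx₃]
  by_cases ha : x₁ = x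
  · -- case (a)
    refine ⟨0, x, by norm_num, hx, ha, ?_⟩
    intro ℓ _ hℓS
    rw [hT ℓ hℓS, pow_zero, one_mul]
  by_cases hb : τ (x₁ - x) = x₁ - x
  · -- case (b)
    refine ⟨1, x₁ - x, by norm_num, sub_ne_zero.mpr ha, hb, ?_⟩
    intro ℓ _ hℓS
    have hℓ := (hSig ℓ hℓS).2
    rw [TK_sub hK hℓ, hT ℓ hℓS, pow_one]
    rcases mod_three_of_prime (N := N) (hSig ℓ hℓS).1 hℓ with h1 | h2
    · rw [(hT1 ℓ hℓS h1).1, natCast_of_mod (k := k) h1, Nat.cast_one, one_mul, smul_sub]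
    · rw [(hT2 ℓ hℓS h2).1, natCast_of_mod (k := k) h2]
      have e : x₂ = x₁ + x₁ - x := by
        have := hb
        rw [hτsub] at this
        have h' : x₂ - x₁ = x₁ - x := this
        calc x₂ = (x₂ - x₁) + x₁ := by abel
          _ = (x₁ - x) + x₁ := by rw [h']
          _ = x₁ + x₁ - x := by abel
      rw [e]
      push_cast
      module
  · -- case (c)
    have hz : τ (x₁ - x) - (x₁ - x) = x₂ + x₁ + x := by
      rw [hτsub]
      have e3 := hom_three_eq_zero (k := k) x₁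
      calc x₂ - x₁ - (x₁ - x) = x₂ + x₁ + x - (x₁ + x₁ + x₁) := by abel
        _ = x₂ + x₁ + x := by rw [e3, sub_zero]
    refine ⟨0, x₂ + x₁ + x, by norm_num, ?_, ?_, ?_⟩
    · rw [← hz]
      exact sub_ne_zero.mpr hb
    · show τ (x₂ + x₁ + x) = x₂ + x₁ + x
      rw [hτadd, hτadd, hx₃]
      abel
    · intro ℓ _ hℓS
      have hℓ := (hSig ℓ hℓS).2
      rw [TK_add hK hℓ, TK_add hK hℓ, hT ℓ hℓS, pow_zero, one_mul]
      rcases mod_three_of_prime (N := N) (hSig ℓ hℓS).1 hℓ with h1 | h2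
      · rw [(hT1 ℓ hℓS h1).1, (hT1 ℓ hℓS h1).2, smul_add, smul_add]
      · rw [(hT2 ℓ hℓS h2).1, (hT2 ℓ hℓS h2).2, smul_add, smul_add]
        abel

end TauAnalysis

/-! ## (C) Invariance under `Γ0(N)` and extension to `Γ0(N)` -/

section Extension

variable (h3 : 3 ∣ N) (hN : N ≠ 0)

include h3 hN in
theorem c3Fun_lowerUnip_pow (n : ℕ) : c3Fun N (lowerUnip (N : ℤ) ^ n) = (n : ZMod 3) := by
  induction n with
  | zero => simp [c3Fun_one]
  | succ n ih =>
    rw [pow_succ, c3Fun_mul h3 ((Gamma0 N).pow_mem (lowerUnip_mem_Gamma0 N) n)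
      (lowerUnip_mem_Gamma0 N), ih, c3Fun_lowerUnip hN]
    push_cast
    rfl

theorem lowerUnip_pow_mem (n : ℕ) : lowerUnip (N : ℤ) ^ n ∈ Gamma0 N :=
  (Gamma0 N).pow_mem (lowerUnip_mem_Gamma0 N) n

include hN in
/-- A `τ`-invariant class is invariant under conjugation by every element of `Γ0(N)`. -/
theorem tau3_eq_self {z : Additive (Gamma0 (3 * N)) →+ k} (hz : tau3 h3 (g0 N) z = z)
    (g : Gamma0 N) : tau3 h3 g z = z := by
  have h1 : tau3 h3 g z = tau3 h3 (g0 N ^ (c3Fun N (g : SL(2, ℤ))).val) z := by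
    apply tau3_congr
    show c3Fun N (g : SL(2, ℤ)) = c3Fun N (lowerUnip (N : ℤ) ^ (c3Fun N (g : SL(2, ℤ))).val)
    rw [c3Fun_lowerUnip_pow h3 hN, ZMod.natCast_zmod_val]
  rw [h1, tau3_pow]
  exact Function.iterate_fixed hz _

/-- The cube of `g0` as an element of `Γ0(3N)`. -/
def g0cube (N : ℕ) : Gamma0 (3 * N) :=
  ⟨lowerUnip (N : ℤ) ^ 3, by
    rw [lowerUnip_pow]
    apply mem_Gamma0_of_natCast_dvd
    simp⟩

theorem g0cube_trace (N : ℕ) :
    (((g0cube N : Gamma0 (3 * N)) : SL(2, ℤ)) : Matrix (Fin 2) (Fin 2) ℤ).trace = 2 := by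
  show ((lowerUnip (N : ℤ) ^ 3 : SL(2, ℤ)) : Matrix (Fin 2) (Fin 2) ℤ).trace = 2
  rw [lowerUnip_pow, Matrix.trace_fin_two]
  simp

/-- The element `(g0 ^ n)⁻¹ * g` of `Γ0(3N)`, `n = c3(g)`. -/
def redElt (g : Gamma0 N) : Gamma0 (3 * N) :=
  ⟨(lowerUnip (N : ℤ) ^ (c3Fun N (g : SL(2, ℤ))).val)⁻¹ * (g : SL(2, ℤ)),
    inv_mul_mem_of_c3Fun_eq h3 (lowerUnip_pow_mem _) g.2
      (by rw [c3Fun_lowerUnip_pow h3 hN, ZMod.natCast_zmod_val])⟩

/-- The extension as a function. -/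
def extFun (z : Additive (Gamma0 (3 * N)) →+ k) (g : Gamma0 N) : k :=
  z (Additive.ofMul (redElt h3 hN g))

theorem extFun_eq {z : Additive (Gamma0 (3 * N)) →+ k}
    (hz0 : z (Additive.ofMul (g0cube N)) = 0) (g : Gamma0 N) (n : ℕ) (a : Gamma0 (3 * N))
    (hg : (g : SL(2, ℤ)) = lowerUnip (N : ℤ) ^ n * (a : SL(2, ℤ))) :
    extFun h3 hN z g = z (Additive.ofMul a) := by
  have hc : c3Fun N (g : SL(2, ℤ)) = (n : ZMod 3) := by
    rw [hg, c3Fun_mul h3 (lowerUnip_pow_mem n) (Gamma0_three_mul_le N a.2),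
      c3Fun_lowerUnip_pow h3 hN, (c3Fun_eq_zero_iff h3 (Gamma0_three_mul_le N a.2)).mpr a.2,
      add_zero]
  have hm : (c3Fun N (g : SL(2, ℤ))).val = n % 3 := by
    rw [hc, ZMod.val_natCast]
  have hred : redElt h3 hN g = g0cube N ^ (n / 3) * a := by
    apply Subtype.ext
    show (lowerUnip (N : ℤ) ^ (c3Fun N (g : SL(2, ℤ))).val)⁻¹ * (g : SL(2, ℤ)) =
      ((g0cube N ^ (n / 3) : Gamma0 (3 * N)) : SL(2, ℤ)) * (a : SL(2, ℤ))
    rw [hm, hg, Subgroup.coe_pow]
    show _ = (lowerUnip (N : ℤ) ^ 3) ^ (n / 3) * (a : SL(2, ℤ))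
    rw [← pow_mul, ← mul_assoc]
    congr 1
    rw [inv_mul_eq_iff_eq_mul, ← pow_add]
    congr 1
    omega
  unfold extFun
  rw [hred, ofMul_mul, map_add, ofMul_pow, map_nsmul, hz0, smul_zero, zero_add]

/-- **Extension.**  A class on `Γ0(3N)` which is invariant under conjugation by `Γ0(N)` and
kills `g0 ^ 3` extends to `Γ0(N)`. -/
def extHom (z : Additive (Gamma0 (3 * N)) →+ k) (hz : ∀ g : Gamma0 N, tau3 h3 g z = z)
    (hz0 : z (Additive.ofMul (g0cube N)) = 0) : Additive (Gamma0 N) →+ k where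
  toFun g := extFun h3 hN z (Additive.toMul g)
  map_zero' := by
    have h := extFun_eq h3 hN hz0 (1 : Gamma0 N) 0 1 (by simp)
    rw [ofMul_one, map_zero] at h
    exact h
  map_add' g g' := by
    obtain ⟨g, rfl⟩ : ∃ γ : Gamma0 N, Additive.ofMul γ = g := ⟨Additive.toMul g, rfl⟩
    obtain ⟨g', rfl⟩ : ∃ γ : Gamma0 N, Additive.ofMul γ = g' := ⟨Additive.toMul g', rfl⟩
    show extFun h3 hN z (g * g') = extFun h3 hN z g + extFun h3 hN z g'
    set n := (c3Fun N (g : SL(2, ℤ))).val with hn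
    set n' := (c3Fun N (g' : SL(2, ℤ))).val with hn'
    set a := redElt h3 hN g with ha
    set b := redElt h3 hN g' with hb
    have hga : (g : SL(2, ℤ)) = lowerUnip (N : ℤ) ^ n * (a : SL(2, ℤ)) := by
      show _ = _ * ((lowerUnip (N : ℤ) ^ n)⁻¹ * (g : SL(2, ℤ)))
      rw [mul_inv_cancel_left]
    have hgb : (g' : SL(2, ℤ)) = lowerUnip (N : ℤ) ^ n' * (b : SL(2, ℤ)) := by
      show _ = _ * ((lowerUnip (N : ℤ) ^ n')⁻¹ * (g' : SL(2, ℤ)))
      rw [mul_inv_cancel_left]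
    -- the conjugate of `a`
    let u : Gamma0 N := ⟨(lowerUnip (N : ℤ) ^ n')⁻¹, (Gamma0 N).inv_mem (lowerUnip_pow_mem n')⟩
    have hprod : ((g * g' : Gamma0 N) : SL(2, ℤ)) =
        lowerUnip (N : ℤ) ^ (n + n') * ((conj3 h3 u a * b : Gamma0 (3 * N)) : SL(2, ℤ)) := by
      show (g : SL(2, ℤ)) * (g' : SL(2, ℤ)) = _
      rw [Subgroup.coe_mul, conj3_coe]
      show _ = _ * ((lowerUnip (N : ℤ) ^ n')⁻¹ * (a : SL(2, ℤ)) * ((lowerUnip (N : ℤ) ^ n')⁻¹)⁻¹ *
        (b : SL(2, ℤ)))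
      rw [hga, hgb, pow_add]
      group
    rw [extFun_eq h3 hN hz0 (g * g') (n + n') _ hprod, extFun_eq h3 hN hz0 g n a hga,
      extFun_eq h3 hN hz0 g' n' b hgb, ofMul_mul, map_add]
    congr 1
    have := congrArg (fun φ : Additive (Gamma0 (3 * N)) →+ k => φ (Additive.ofMul a)) (hz u)
    exact this

theorem extHom_apply_incl (z : Additive (Gamma0 (3 * N)) →+ k)
    (hz : ∀ g : Gamma0 N, tau3 h3 g z = z) (hz0 : z (Additive.ofMul (g0cube N)) = 0)
    (a : Gamma0 (3 * N)) :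
    extHom h3 hN z hz hz0 (Additive.ofMul (Subgroup.inclusion (Gamma0_three_mul_le N) a)) =
      z (Additive.ofMul a) :=
  extFun_eq h3 hN hz0 _ 0 a (by simp)

theorem resK_extHom (z : Additive (Gamma0 (3 * N)) →+ k)
    (hz : ∀ g : Gamma0 N, tau3 h3 g z = z) (hz0 : z (Additive.ofMul (g0cube N)) = 0) :
    resK (Gamma0_three_mul_le N) (extHom h3 hN z hz hz0) = z := by
  refine AddMonoidHom.ext fun a' => ?_
  obtain ⟨a, rfl⟩ : ∃ a : Gamma0 (3 * N), Additive.ofMul a = a' := ⟨Additive.toMul a', rfl⟩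
  rw [resK_apply]
  exact extHom_apply_incl h3 hN z hz hz0 a

end Extension

/-! ## (D) The kernel of the restriction is spanned by the character `c3` -/

section Kernel

variable (h3 : 3 ∣ N) (hN : N ≠ 0)

/-- The character `c3 : Γ0(N) → ZMod 3 → k`. -/
def c3k (k : Type*) [Field k] [CharP k 3] (h3 : 3 ∣ N) : Additive (Gamma0 N) →+ k :=
  (ZMod.castHom (dvd_refl 3) k).toAddMonoidHom.comp (c3Hom N h3)

theorem c3k_apply (g : Gamma0 N) :
    c3k k h3 (Additive.ofMul g) = ZMod.castHom (dvd_refl 3) k (c3Fun N (g : SL(2, ℤ))) := rfl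

include hN in
theorem c3k_g0 : c3k k h3 (Additive.ofMul (g0 N)) = 1 := by
  rw [c3k_apply]
  show ZMod.castHom (dvd_refl 3) k (c3Fun N (lowerUnip (N : ℤ))) = 1
  rw [c3Fun_lowerUnip hN, map_one]

theorem c3k_incl (a : Gamma0 (3 * N)) :
    c3k k h3 (Additive.ofMul (Subgroup.inclusion (Gamma0_three_mul_le N) a)) = 0 := by
  rw [c3k_apply]
  have : c3Fun N ((Subgroup.inclusion (Gamma0_three_mul_le N) a : Gamma0 N) : SL(2, ℤ)) = 0 :=
    (c3Fun_eq_zero_iff h3 (Gamma0_three_mul_le N a.2)).mpr a.2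
  rw [this, map_zero]

theorem resK_c3k : resK (Gamma0_three_mul_le N) (c3k k h3) = 0 := by
  refine AddMonoidHom.ext fun a' => ?_
  obtain ⟨a, rfl⟩ : ∃ a : Gamma0 (3 * N), Additive.ofMul a = a' := ⟨Additive.toMul a', rfl⟩
  rw [resK_apply]
  exact c3k_incl h3 a

include hN in
/-- A class on `Γ0(N)` which vanishes on `Γ0(3N)` is a multiple of `c3`. -/
theorem eq_smul_c3k_of_resK_eq_zero (y : Additive (Gamma0 N) →+ k)
    (hy : resK (Gamma0_three_mul_le N) y = 0) :
    y = y (Additive.ofMul (g0 N)) • c3k k h3 := by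
  refine AddMonoidHom.ext fun g' => ?_
  obtain ⟨g, rfl⟩ : ∃ g : Gamma0 N, Additive.ofMul g = g' := ⟨Additive.toMul g', rfl⟩
  set n := (c3Fun N (g : SL(2, ℤ))).val with hn
  set a := redElt h3 hN g with ha
  have hg : g = g0 N ^ n * Subgroup.inclusion (Gamma0_three_mul_le N) a := by
    apply Subtype.ext
    show (g : SL(2, ℤ)) = lowerUnip (N : ℤ) ^ n * ((lowerUnip (N : ℤ) ^ n)⁻¹ * (g : SL(2, ℤ)))
    rw [mul_inv_cancel_left]
  have hya : y (Additive.ofMul (Subgroup.inclusion (Gamma0_three_mul_le N) a)) = 0 := by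
    have := congrArg (fun φ : Additive (Gamma0 (3 * N)) →+ k => φ (Additive.ofMul a)) hy
    exact this
  have hc : c3k k h3 (Additive.ofMul g) = (n : k) := by
    rw [c3k_apply, ← ZMod.natCast_zmod_val (c3Fun N (g : SL(2, ℤ))), map_natCast]
  rw [AddMonoidHom.smul_apply, hc]
  conv_lhs => rw [hg]
  rw [ofMul_mul, map_add, hya, add_zero, ofMul_pow, map_nsmul, nsmul_eq_mul, smul_eq_mul,
    mul_comm]

end Kernel

/-! ## (E) The character `c3` is an Eisenstein eigenvector; (F) restriction and `T_ℓ` -/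

section Hecke

variable (h3 : 3 ∣ N)

theorem dvd_three_mul (N : ℕ) : N ∣ 3 * N := Dvd.intro_left 3 rfl

/-- `T_ℓ c3 = (ℓ + 1) ℓ c3` on `Γ0(N)`. -/
theorem TK_c3k {ℓ : ℕ} [Fact ℓ.Prime] (hℓ : ¬ ℓ ∣ 3 * N) :
    TK N (Gamma0 N) ℓ (c3k k h3) = (((ℓ + 1 : ℕ) : k) * (ℓ : k)) • c3k k h3 := by
  rw [TK_eq_of_dvd (isMid_Gamma0 N) (dvd_three_mul N) hℓ]
  set h₁ := repsT_system_of_dvd (isMid_Gamma0 N) (dvd_three_mul N) hℓ with hh₁
  refine AddMonoidHom.ext fun g' => ?_
  obtain ⟨g, rfl⟩ : ∃ g : Gamma0 N, Additive.ofMul g = g' := ⟨Additive.toMul g', rfl⟩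
  rw [IsCosetSystem.transfer_apply, AddMonoidHom.smul_apply]
  have hterm : ∀ i, c3k k h3 (Additive.ofMul (h₁.coc i g)) =
      (ℓ : k) * c3k k h3 (Additive.ofMul g) := by
    intro i
    rw [c3k_apply, c3k_apply]
    have hc := c3Fun_coc_repsT h3 hℓ (N := N) h₁ i g
    refine (congrArg (ZMod.castHom (dvd_refl 3) k) hc).trans ?_
    rw [map_mul, map_natCast]
  rw [Finset.sum_congr rfl (fun i _ => hterm i), Finset.sum_const, Finset.card_univ,
    Bdry.card_onePoint_zmod, nsmul_eq_mul, smul_eq_mul, mul_assoc]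

/-- Restriction from `Γ0(N)` to `Γ0(3N)` commutes with `T_ℓ`. -/
theorem resK_TK_three {ℓ : ℕ} [Fact ℓ.Prime] (hℓ : ¬ ℓ ∣ 3 * N)
    (y : Additive (Gamma0 N) →+ k) :
    resK (Gamma0_three_mul_le N) (TK N (Gamma0 N) ℓ y) =
      TK (3 * N) (Gamma0 (3 * N)) ℓ (resK (Gamma0_three_mul_le N) y) := by
  rw [TK_eq_of_dvd (isMid_Gamma0 N) (dvd_three_mul N) hℓ, TK_eq (isMid_Gamma0 (3 * N)) hℓ]
  set h₁ := repsT_system_of_dvd (isMid_Gamma0 N) (dvd_three_mul N) hℓ with hh₁
  set hH := repsT_system (isMid_Gamma0 (3 * N)) hℓ with hhH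
  refine AddMonoidHom.ext fun a' => ?_
  obtain ⟨a, rfl⟩ : ∃ a : Gamma0 (3 * N), Additive.ofMul a = a' := ⟨Additive.toMul a', rfl⟩
  rw [resK_apply, IsCosetSystem.transfer_apply, IsCosetSystem.transfer_apply]
  refine Finset.sum_congr rfl fun i _ => ?_
  rw [resK_apply]
  congr 2
  exact h₁.coc_eq (j := hH.act i a) (hH.spec i a)

end Hecke

/-! ## (G) The descent step -/

section Descent

/-- **Betti descent step.**  `3 ∣ N`, `N ≠ 0`, `k` a field of characteristic `3`, `Sig` a set of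
primes not dividing `3N`.  A nonzero eigenvector `x ∈ Hom(Γ0(3N), k)` of the `T_ℓ`, `ℓ ∈ Sig`, with
eigenvalues `θ ℓ`, which is non-Eisenstein (`θ ℓ₀ ≠ 2` for some `ℓ₀ ∈ Sig`, `ℓ₀ ≡ 1 mod 3N`),
gives a nonzero eigenvector `y ∈ Hom(Γ0(N), k)` with eigenvalues `ℓ^i θ ℓ`, `i ∈ {0, 1}`. -/
theorem bettiDescent (h3 : 3 ∣ N) (hN : N ≠ 0) (Sig : Set ℕ)
    (hSig : ∀ ℓ ∈ Sig, ℓ.Prime ∧ ¬ ℓ ∣ 3 * N) (θ : ℕ → k)
    (x : Additive (Gamma0 (3 * N)) →+ k) (hx : x ≠ 0)
    (hT : ∀ (ℓ : ℕ) [Fact ℓ.Prime], ℓ ∈ Sig → TK (3 * N) (Gamma0 (3 * N)) ℓ x = θ ℓ • x)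
    (ℓ₀ : ℕ) (hℓ₀ : ℓ₀ ∈ Sig) (hℓ₀1 : ((3 * N : ℕ) : ℤ) ∣ (ℓ₀ : ℤ) - 1) (hNE : θ ℓ₀ ≠ 2) :
    ∃ (i : ℕ) (y : Additive (Gamma0 N) →+ k), i < 2 ∧ y ≠ 0 ∧
      ∀ (ℓ : ℕ) [Fact ℓ.Prime], ℓ ∈ Sig →
        TK N (Gamma0 N) ℓ y = ((ℓ : k) ^ i * θ ℓ) • y := by
  obtain ⟨i, z, hi, hz0, hτz, hTz⟩ := exists_invariant_eigen h3 Sig hSig θ x hx hT
  have hK₃ := isMid_Gamma0 (3 * N)
  have hK₁ := isMid_Gamma0 N
  have hℓN : ∀ ℓ ∈ Sig, ¬ ℓ ∣ N := fun ℓ hℓ h => (hSig ℓ hℓ).2 (dvd_trans h (dvd_three_mul N))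
  have : Fact ℓ₀.Prime := ⟨(hSig ℓ₀ hℓ₀).1⟩
  -- `ℓ₀ ≡ 1 mod 3`
  have hℓ₀mod : ℓ₀ % 3 = 1 := by
    have h1 : (3 : ℤ) ∣ (ℓ₀ : ℤ) - 1 := dvd_trans ⟨(N : ℤ), by push_cast; ring⟩ hℓ₀1
    have hpos := (hSig ℓ₀ hℓ₀).1.pos
    omega
  have hℓ₀k : (ℓ₀ : k) = 1 := by
    rw [natCast_of_mod (k := k) hℓ₀mod, Nat.cast_one]
  set θ' : ℕ → k := fun ℓ => (ℓ : k) ^ i * θ ℓ with hθ'
  have hθ'₀ : θ' ℓ₀ = θ ℓ₀ := by
    show (ℓ₀ : k) ^ i * θ ℓ₀ = θ ℓ₀
    rw [hℓ₀k, one_pow, one_mul]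
  have htwo : ((ℓ₀ + 1 : ℕ) : k) = 2 := by
    push_cast
    rw [hℓ₀k]
    norm_num
  -- `z` kills `g0 ^ 3`
  have hzc : z (Additive.ofMul (g0cube N)) = 0 := by
    have h1 := Bdry.TK_apply_of_trace_eq_two hK₃ hℓ₀1 z (g0cube N) (g0cube_trace N)
    rw [hTz ℓ₀ hℓ₀, AddMonoidHom.smul_apply, nsmul_eq_mul, smul_eq_mul, htwo] at h1
    have h2 : (θ' ℓ₀ - 2) * z (Additive.ofMul (g0cube N)) = 0 := by
      show ((ℓ₀ : k) ^ i * θ ℓ₀ - 2) * _ = 0
      linear_combination h1
    rcases mul_eq_zero.mp h2 with h | h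
    · exact absurd (sub_eq_zero.mp (hθ'₀ ▸ h)) hNE
    · exact h
  have hzinv : ∀ g : Gamma0 N, tau3 h3 g z = z := tau3_eq_self h3 hN hτz
  -- the extension
  set y₀ := extHom h3 hN z hzinv hzc with hy₀
  have hres₀ : resK (Gamma0_three_mul_le N) y₀ = z := resK_extHom h3 hN z hzinv hzc
  set φ := c3k k h3 with hφ
  have hφres : resK (Gamma0_three_mul_le N) φ = 0 := resK_c3k h3
  have hφg0 : φ (Additive.ofMul (g0 N)) = 1 := c3k_g0 h3 hN
  have hφne : φ ≠ 0 := by
    intro h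
    rw [h] at hφg0
    exact zero_ne_one hφg0
  -- `T_ℓ y₀ = θ' ℓ • y₀ + c ℓ • φ`
  have hres_add : ∀ u v : Additive (Gamma0 N) →+ k,
      resK (Gamma0_three_mul_le N) (u - v) =
        resK (Gamma0_three_mul_le N) u - resK (Gamma0_three_mul_le N) v := fun _ _ => rfl
  have hres_smul : ∀ (c : k) (u : Additive (Gamma0 N) →+ k),
      resK (Gamma0_three_mul_le N) (c • u) = c • resK (Gamma0_three_mul_le N) u := fun _ _ => rfl
  have hstep : ∀ (ℓ : ℕ) [Fact ℓ.Prime], ℓ ∈ Sig → ∃ c : k,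
      TK N (Gamma0 N) ℓ y₀ = θ' ℓ • y₀ + c • φ := by
    intro ℓ _ hℓS
    have hℓ := (hSig ℓ hℓS).2
    have hker : resK (Gamma0_three_mul_le N) (TK N (Gamma0 N) ℓ y₀ - θ' ℓ • y₀) = 0 := by
      rw [hres_add, hres_smul, resK_TK_three hℓ, hres₀, hTz ℓ hℓS, sub_self]
    have := eq_smul_c3k_of_resK_eq_zero h3 hN _ hker
    exact ⟨_, by rw [← this]; abel⟩
  obtain ⟨c₀, hc₀⟩ := hstep ℓ₀ hℓ₀
  have hne : θ' ℓ₀ - 2 ≠ 0 := by
    rw [hθ'₀]
    exact sub_ne_zero.mpr hNE
  have he₀ : ((ℓ₀ + 1 : ℕ) : k) * (ℓ₀ : k) = 2 := by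
    rw [htwo, hℓ₀k, mul_one]
  set a : k := c₀ / (θ' ℓ₀ - 2) with ha
  set y := y₀ + a • φ with hy
  have hTφ : ∀ (ℓ : ℕ) [Fact ℓ.Prime], ℓ ∈ Sig →
      TK N (Gamma0 N) ℓ φ = (((ℓ + 1 : ℕ) : k) * (ℓ : k)) • φ := fun ℓ _ hℓS =>
    TK_c3k h3 (hSig ℓ hℓS).2
  -- `T_ℓ y = θ' ℓ • y + b • φ`
  have hstep' : ∀ (ℓ : ℕ) [Fact ℓ.Prime], ℓ ∈ Sig → ∃ b : k,
      TK N (Gamma0 N) ℓ y = θ' ℓ • y + b • φ := by
    intro ℓ _ hℓS
    obtain ⟨c, hc⟩ := hstep ℓ hℓS
    refine ⟨c + a * (((ℓ + 1 : ℕ) : k) * (ℓ : k)) - θ' ℓ * a, ?_⟩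
    rw [hy, TK_add hK₁ (hℓN ℓ hℓS), TK_smul hK₁ (hℓN ℓ hℓS), hc, hTφ ℓ hℓS]
    module
  have hy₀eig : TK N (Gamma0 N) ℓ₀ y = θ' ℓ₀ • y := by
    rw [hy, TK_add hK₁ (hℓN ℓ₀ hℓ₀), TK_smul hK₁ (hℓN ℓ₀ hℓ₀), hc₀, hTφ ℓ₀ hℓ₀, he₀]
    have : c₀ = a * (θ' ℓ₀ - 2) := by
      rw [ha, div_mul_cancel₀ _ hne]
    rw [this]
    module
  refine ⟨i, y, hi, ?_, ?_⟩
  · intro h
    apply hz0
    have : resK (Gamma0_three_mul_le N) y = z := by
      show resK (Gamma0_three_mul_le N) y₀ + a • resK (Gamma0_three_mul_le N) φ = z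
      rw [hres₀, hφres, smul_zero, add_zero]
    rw [← this, h]
    rfl
  · intro ℓ _ hℓS
    obtain ⟨b, hb⟩ := hstep' ℓ hℓS
    have hcomm := TK_comm hK₁ (hℓN ℓ hℓS) (hℓN ℓ₀ hℓ₀) y
    rw [hb, hy₀eig, TK_add hK₁ (hℓN ℓ₀ hℓ₀), TK_smul hK₁ (hℓN ℓ₀ hℓ₀),
      TK_smul hK₁ (hℓN ℓ₀ hℓ₀), hy₀eig, hTφ ℓ₀ hℓ₀, he₀, TK_smul hK₁ (hℓN ℓ hℓS), hb] at hcomm
    have hb0 : (b * (2 - θ' ℓ₀)) • φ = 0 := by
      have : (b * (2 - θ' ℓ₀)) • φ =
          (θ' ℓ • θ' ℓ₀ • y + b • (2 : k) • φ) - θ' ℓ₀ • (θ' ℓ • y + b • φ) := by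
        module
      rw [this, hcomm, sub_self]
    have hb1 : b * (2 - θ' ℓ₀) = 0 := by
      have := congrArg (fun ψ : Additive (Gamma0 N) →+ k => ψ (Additive.ofMul (g0 N))) hb0
      simpa [hφg0] using this
    have hb2 : b = 0 := by
      rcases mul_eq_zero.mp hb1 with h | h
      · exact h
      · exact absurd (by linear_combination -h : θ' ℓ₀ - 2 = 0) hne
    rw [hb, hb2, zero_smul, add_zero]

/-- `ℓ² = 1` in `k` for a prime `ℓ ≠ 3`. -/
theorem natCast_sq_eq_one {ℓ : ℕ} (hp : ℓ.Prime) (hℓ : ¬ ℓ ∣ 3 * N) : (ℓ : k) ^ 2 = 1 := by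
  rcases mod_three_of_prime (N := N) hp hℓ with h | h
  · rw [natCast_of_mod (k := k) h, Nat.cast_one, one_pow]
  · rw [natCast_of_mod (k := k) h]
    have h3 : ((3 : ℕ) : k) = 0 := CharP.cast_eq_zero k 3
    push_cast at h3 ⊢
    linear_combination h3

/-- **Iterated Betti descent**: from level `3 ^ a * N₀` to level `N₀`, for `3 ∣ N₀`. -/
theorem bettiDescent_iter {N₀ : ℕ} (h3 : 3 ∣ N₀) (hN₀ : N₀ ≠ 0) (Sig : Set ℕ)
    (hSig : ∀ ℓ ∈ Sig, ℓ.Prime ∧ ¬ ℓ ∣ 3 * N₀) (ℓ₀ : ℕ) (hℓ₀ : ℓ₀ ∈ Sig) :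
    ∀ (a : ℕ) (L : ℕ), L = 3 ^ a * N₀ → ((L : ℕ) : ℤ) ∣ (ℓ₀ : ℤ) - 1 →
      ∀ (θ : ℕ → k) (x : Additive (Gamma0 L) →+ k), x ≠ 0 →
        (∀ (ℓ : ℕ) [Fact ℓ.Prime], ℓ ∈ Sig → TK L (Gamma0 L) ℓ x = θ ℓ • x) → θ ℓ₀ ≠ 2 →
        ∃ (i : ℕ) (y : Additive (Gamma0 N₀) →+ k), i < 2 ∧ y ≠ 0 ∧
          ∀ (ℓ : ℕ) [Fact ℓ.Prime], ℓ ∈ Sig →
            TK N₀ (Gamma0 N₀) ℓ y = ((ℓ : k) ^ i * θ ℓ) • y := by
  intro a
  induction a with
  | zero =>
    intro L hL _ θ x hx hT _
    rw [pow_zero, one_mul] at hL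
    subst hL
    refine ⟨0, x, by norm_num, hx, ?_⟩
    intro ℓ _ hℓS
    rw [hT ℓ hℓS, pow_zero, one_mul]
  | succ a ih =>
    intro L hL hdvd θ x hx hT hNE
    have hL' : L = 3 * (3 ^ a * N₀) := by rw [hL, pow_succ]; ring
    subst hL'
    have h3N : 3 ∣ 3 ^ a * N₀ := dvd_mul_of_dvd_right h3 _
    have hNne : 3 ^ a * N₀ ≠ 0 := mul_ne_zero (pow_ne_zero _ (by norm_num)) hN₀
    have hSig' : ∀ ℓ ∈ Sig, ℓ.Prime ∧ ¬ ℓ ∣ 3 * (3 ^ a * N₀) := by
      intro ℓ hℓS
      refine ⟨(hSig ℓ hℓS).1, fun h => ?_⟩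
      have hp := (hSig ℓ hℓS).1
      have h' : ℓ ∣ 3 ^ (a + 1) * N₀ := by
        rw [pow_succ]
        convert h using 1
        ring
      rcases (Nat.Prime.dvd_mul hp).mp h' with h1 | h1
      · have := hp.dvd_of_dvd_pow h1
        exact (hSig ℓ hℓS).2 (dvd_mul_of_dvd_left this _)
      · exact (hSig ℓ hℓS).2 (dvd_mul_of_dvd_right h1 _)
    obtain ⟨i₁, y₁, -, hy₁, hT₁⟩ := bettiDescent h3N hNne Sig hSig' θ x hx hT ℓ₀ hℓ₀ hdvd hNE
    have hdvd' : (((3 ^ a * N₀ : ℕ) : ℕ) : ℤ) ∣ (ℓ₀ : ℤ) - 1 :=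
      dvd_trans (Int.natCast_dvd_natCast.mpr (Dvd.intro_left 3 rfl)) hdvd
    have hℓ₀k : (ℓ₀ : k) = 1 := by
      have h1 : (3 : ℤ) ∣ (ℓ₀ : ℤ) - 1 :=
        dvd_trans ⟨((3 ^ a * N₀ : ℕ) : ℤ), by push_cast; ring⟩ hdvd
      have hpos := (hSig ℓ₀ hℓ₀).1.pos
      have hmod : ℓ₀ % 3 = 1 := by omega
      rw [natCast_of_mod (k := k) hmod, Nat.cast_one]
    have hNE₁ : (fun ℓ : ℕ => (ℓ : k) ^ i₁ * θ ℓ) ℓ₀ ≠ 2 := by
      show (ℓ₀ : k) ^ i₁ * θ ℓ₀ ≠ 2
      rw [hℓ₀k, one_pow, one_mul]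
      exact hNE
    obtain ⟨i₂, y, -, hy, hTy⟩ := ih (3 ^ a * N₀) rfl hdvd' (fun ℓ => (ℓ : k) ^ i₁ * θ ℓ) y₁ hy₁
      hT₁ hNE₁
    refine ⟨(i₂ + i₁) % 2, y, Nat.mod_lt _ (by norm_num), hy, ?_⟩
    intro ℓ _ hℓS
    rw [hTy ℓ hℓS]
    congr 1
    have hsq : (ℓ : k) ^ 2 = 1 := natCast_sq_eq_one (N := N₀) (hSig ℓ hℓS).1 (hSig ℓ hℓS).2
    have hpow : (ℓ : k) ^ (i₂ + i₁) = (ℓ : k) ^ ((i₂ + i₁) % 2) := by
      conv_lhs => rw [← Nat.div_add_mod (i₂ + i₁) 2, pow_add, pow_mul, hsq, one_pow, one_mul]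
    rw [← hpow, pow_add]
    ring

end Descent

end Fermat.Agent.G1.H486

end
-- ===== PACK-END G1/H486/BettiDescent.lean

-- ===== PACK-BEGIN LT/H49/Top.lean
section







/-!
# Row LT, block GLUE2 (helper49, squad S21/S49): the top with every closed leaf plugged in

CLOSED leaves (all sorry-free, byte-identical copies of the owners' files):
`W2C` (`w2C49`, helper49), `LiftC`, `IntBasisC`, `FrobC` (helper589: landed S49, S23, S58),
`SectionC` (helper772), `ConjC`, `KWC` (helper51), `GrpC` (helper952).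
Hence `SurjC` is closed (`surjC49`).

OPEN: `MatFormC` (G2a) only.

* `surjC49 : SurjC`
* `glue2_of_matForm49 : MatFormC → LTB.Glue2`
* `glue2_of_open49 : MatFormC → SurjC → SectionC → LTB.Glue2`
* `glue2_of_rep49 : RepC → DetC → TraceC → IrrC → UnipC → LTB.Glue2`
-/

set_option autoImplicit false

namespace Fermat.Agent.LT.H49

open Fermat.Agent.LT.H670

theorem glue2_of_open49 (hMat : MatFormC) (hSurj : SurjC) (hSec : SectionC) : LTB.Glue2 :=
  glue2_of_matForm hMat hSurj hSec Fermat.Agent.LT.H589.frobC589 w2C49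
    Fermat.Agent.LT.H589.intBasisC589 Fermat.Agent.LT.H589.liftC589

theorem glue2_of_subleaves49 (hRep : RepC) (hDet : DetC) (hTr : TraceC) (hIrr : IrrC)
    (hUnip : UnipC) (hKW : KWC) (hcc : ConjC) (hG : GrpC) (hSec : SectionC) : LTB.Glue2 :=
  glue2_of_open49 (matFormC_of hRep hDet hTr hIrr hUnip) (surjC_of hKW hcc hG) hSec

/-- **G2b** is closed. -/
theorem surjC49 : SurjC :=
  surjC_of Fermat.Agent.LT.H51.kwC Fermat.Agent.LT.H51.conjC Fermat.Agent.LT.H952.grpC

/-- GLUE2 from its last open leaf. -/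
theorem glue2_of_matForm49 (hMat : MatFormC) : LTB.Glue2 :=
  glue2_of_open49 hMat surjC49 Fermat.Agent.LT.H772.sectionC

theorem glue2_of_rep49 (hRep : RepC) (hDet : DetC) (hTr : TraceC) (hIrr : IrrC)
    (hUnip : UnipC) : LTB.Glue2 :=
  glue2_of_matForm49 (matFormC_of hRep hDet hTr hIrr hUnip)

end Fermat.Agent.LT.H49

end
-- ===== PACK-END LT/H49/Top.lean

-- ===== PACK-BEGIN LT/H49/Glue2Final.lean
section



/-!
# Row LT, block GLUE2 -- CLOSED (assembly by helper49, squad S21/S49)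

`glue2_49 : LTB.Glue2`, unconditional: the frozen S47 implies that every semistable `W` with
`Δ ≠ 0` and irreducible `W[3]` is residually modular at `3` (of some level).

Leaves (byte-identical copies of the owners' files, all sorry-free):
G2a `MatFormC` helper595 | G2b `SurjC` = KWC + ConjC (helper51) + GrpC (helper952), also
helper595 `surjC595` | G2c `SectionC` helper772 | G2d `W2C` helper49 | `LiftC`, `IntBasisC`,
`FrobC` helper589 (landed S49, S23, S58) | assembly `glue2_of_matForm` helper670.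

With the row board (`LT/H17/Board.lean`): `top50_of_glue2_49 : IdentC → WallC → LevelOpt →`
conclusion of the frozen S50.
-/

set_option autoImplicit false

namespace Fermat.Agent.LT.H49

/-- **GLUE2**, unconditional. -/
theorem glue2_49 : LTB.Glue2 :=
  glue2_of_matForm49 Fermat.Agent.LT.H595.matFormC595

/-- **GLUE2**, under the name asked by the architect (helper670, GLUE2 STATUS v2). -/
theorem glue2 : LTB.Glue2 := glue2_49

/-- The same with helper595's proof of `SurjC` (cross-check of the two routes to G2b). -/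
theorem glue2_49' : LTB.Glue2 :=
  glue2_of_open49 Fermat.Agent.LT.H595.matFormC595 Fermat.Agent.LT.H595.surjC595
    Fermat.Agent.LT.H772.sectionC

/-- The frozen S47 gives residual modularity at 3 (the statement of `LTB.Glue2`, unfolded). -/
theorem residuallyModular_three_of_S47 (h47 : LTB.S47Statement) (W : WeierstrassCurve ℤ)
    (hΔ : W.Δ ≠ 0) (hW : W.IsSemistableModel) (h3 : W.ModRepIsIrreducible 3) :
    W.IsResiduallyModular 3 :=
  glue2_49 h47 W ⟨hΔ, hW, h3⟩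

end Fermat.Agent.LT.H49

end
-- ===== PACK-END LT/H49/Glue2Final.lean

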