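import Fermat.Statements.S37
import Fermat.Agent.Pack.S43MC.G0E27L1
import Fermat.Agent.Pack.S43MC.G0E25L0
import Fermat.Agent.Pack.S44C.G0E6L3
import Fermat.Agent.Pack.L1.E0L2
import Fermat.Agent.Pack.L1.E2L1
import Fermat.Agent.Pack.S43MC.G0E4L0
import Fermat.Agent.Pack.S44C.G0E10L2
import Fermat.Agent.Pack.S44C.G0E18L0
import Fermat.Agent.Pack.S43MC.G0E26L3
import Fermat.Agent.Pack.L1.E2L2
import Fermat.Agent.Pack.L1.E8L1

-- ===== PACK-BEGIN S37.lean
section



/-!
# S37 — Eichler–Shimura congruence relation for `J₀(N)` (row-lead helper37)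

`result` = `Core.specializationExists` (`Fermat/Agent/S37/Core/Inst.lean`):

* `Core.result_of_rim_s18` (`Core/Board.lean`): S37 from the place reduction map at good levels
  (`RimStatement`) and the frozen S18 (`Fermat.Agent.S18.result`), via
  `H697.weakRedData_of_red` (bounded-homomorphism route: Kronecker congruence for norms,
  helper697/819/340/400), `H818.node_pull` (levels `2N`, `3N` for `ℓ = 3, 2`, helper818),
  `Core.result_of_weakRedData` and helper99's formal core;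
* `RimStatement` from a linked reduction datum with good charts (`Core/RimGlue.lean`,
  abstract theorem `Red.H940.main_of_fibreSum` of helper940/160/399, architect helper40),
  whose leaves are `Core.datumLeaf` (D1), `H278.leaf_normalAbs` (D2, normality of the special
  fibre from `b2Normal` of row S18), `H697.liftLeaf` (D3), `H339.leaf_H1` (D4),
  `S18.Mod.H216.node_mod` (good models of row S18).
-/

set_option autoImplicit false
open ModularCurve

namespace Fermat.Agent.S37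

theorem result (N p : ℕ) [NeZero N] (hcomm : ModularCurve.HeckeOperatorsCommuteBar N) : letI := ModularCurve.heckeModuleBar N; ∀ (_ : SMulCommClass (AlgebraicClosure ℚ ≃ₐ[ℚ] AlgebraicClosure ℚ) ModularCurve.HeckeAlg (ModularCurve.JZero N)), ModularCurve.SpecializationExists (K := ℚ) (L := AlgebraicClosure ℚ) N p (ModularCurve.JZero N) :=
  Core.specializationExists N p hcomm

end Fermat.Agent.S37

end
-- ===== PACK-END S37.lean

-- ===== PACK-BEGIN S15/H628/G3.lean
section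





/-!
# Row S15, DESC leaf G3 (helper628): Kummer cocycles of `J₀(p)` are unramified outside `p r`

Blueprint `coord/S15-DESC-blueprint.md` v3, sec. 3.  Everything is formal from Tower A on main
(frozen `Fermat.Agent.S37.result` = Eichler–Shimura specialisation, with its two hypotheses
discharged by `S29.heckeOperatorsCommuteBar` and `S29.H571.smulCommClass_heckeModuleBar`).

* `specExists N r` : `SpecializationExists N r (JZero N)`, unconditionally.
* `g3` : for a prime `ℓ ∤ N r`, a place `A` of `ℚ̄` over `ℓ`, `σ` in the inertia group of `A` and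
  `y ∈ J₀(N)(ℚ̄)` with `σ (rⁿ y) = rⁿ y`:  `σ y = y`.
  (For `y ∈ Y`, `r y = x ∈ J₀(p)(ℚ)`, this says: the cocycle `c_y(s) = s y - y` vanishes on the
  inertia groups at all `ℓ ∤ p r`.)
* `g3_cocycle` : the same in cocycle form.
* `es_torsion` : the Eichler–Shimura relation `τ² - T_ℓ τ + ℓ = 0` on `J₀(N)[r^∞]` for a Frobenius
  element `τ` at `ℓ ∤ N r`, with the Prelude operator `heckeOperatorBar N ℓ`.
* `unram_torsion` : inertia at `ℓ ∤ N r` acts trivially on `J₀(N)[r^∞]`.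
-/

set_option autoImplicit false
set_option linter.style.haveILetI false

noncomputable section

namespace Fermat.Agent.S15.H628

open ModularCurve

/-- The conclusion of the frozen statement S37 for `J₀(N)`, with both hypotheses discharged. -/
theorem specExists (N r : ℕ) [NeZero N] :
    letI := heckeModuleBar N
    haveI := Fermat.Agent.S29.H571.smulCommClass_heckeModuleBar N
    SpecializationExists (K := ℚ) (L := AlgebraicClosure ℚ) N r (JZero N) := by
  letI := heckeModuleBar N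
  haveI := Fermat.Agent.S29.H571.smulCommClass_heckeModuleBar N
  exact Fermat.Agent.S37.result N r (Fermat.Agent.S29.heckeOperatorsCommuteBar N) inferInstance

/-- The Galois action commutes with multiplication by a natural number. -/
theorem gal_nsmul {N : ℕ} [NeZero N] (σ : AlgebraicClosure ℚ ≃ₐ[ℚ] AlgebraicClosure ℚ) (n : ℕ)
    (x : JZero N) : σ • (n • x) = n • (σ • x) :=
  map_nsmul (DistribSMul.toAddMonoidHom (JZero N) σ) n x

/-- **G3.**  Inertia at `ℓ ∤ N r` fixes every `r`-power division point of a point it fixes. -/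
theorem g3 (N r : ℕ) [NeZero N] {ℓ : ℕ} (hℓ : ℓ.Prime) (hℓNr : ¬ ℓ ∣ N * r)
    (A : ValuationSubring (AlgebraicClosure ℚ)) (hA : A.LiesOverPrime ℓ)
    {σ : AlgebraicClosure ℚ ≃ₐ[ℚ] AlgebraicClosure ℚ} (hσ : σ ∈ A.inertiaSubgroupIn ℚ)
    (y : JZero N) (n : ℕ) (hy : σ • (r ^ n • y) = r ^ n • y) : σ • y = y := by
  letI := heckeModuleBar N
  haveI := Fermat.Agent.S29.H571.smulCommClass_heckeModuleBar N
  obtain ⟨J', _, _, sp, F, hsp, -⟩ := specExists N r ℓ hℓ hℓNr A hA
  have h1 : sp (σ • y - y) = 0 := by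
    rw [map_sub, hsp.inertia_comm σ hσ y, sub_self]
  have h2 : r ^ n • (σ • y - y) = 0 := by
    have e : r ^ n • (σ • y - y) = r ^ n • (σ • y) - r ^ n • y := nsmul_sub _ _ _
    rw [e, ← gal_nsmul, hy, sub_self]
  exact sub_eq_zero.mp (hsp.injective_torsion _ ⟨n, h2⟩ h1)

/-- **G3, cocycle form.**  If `r y` is Galois-fixed, the Kummer cocycle `s ↦ s y - y` vanishes on
the inertia group of every place over a prime `ℓ ∤ N r`. -/
theorem g3_cocycle (N r : ℕ) [NeZero N] {ℓ : ℕ} (hℓ : ℓ.Prime) (hℓNr : ¬ ℓ ∣ N * r)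
    (A : ValuationSubring (AlgebraicClosure ℚ)) (hA : A.LiesOverPrime ℓ)
    (y : JZero N)
    (hy : ∀ σ : AlgebraicClosure ℚ ≃ₐ[ℚ] AlgebraicClosure ℚ, σ • (r • y) = r • y)
    (σ : AlgebraicClosure ℚ ≃ₐ[ℚ] AlgebraicClosure ℚ) (hσ : σ ∈ A.inertiaSubgroupIn ℚ) :
    σ • y - y = 0 := by
  rw [sub_eq_zero]
  exact g3 N r hℓ hℓNr A hA hσ y 1 (by simpa using hy σ)

/-- Inertia at `ℓ ∤ N r` acts trivially on `J₀(N)[r^∞]`. -/
theorem unram_torsion (N r : ℕ) [NeZero N] {ℓ : ℕ} (hℓ : ℓ.Prime) (hℓNr : ¬ ℓ ∣ N * r)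
    (A : ValuationSubring (AlgebraicClosure ℚ)) (hA : A.LiesOverPrime ℓ)
    {σ : AlgebraicClosure ℚ ≃ₐ[ℚ] AlgebraicClosure ℚ} (hσ : σ ∈ A.inertiaSubgroupIn ℚ)
    (x : JZero N) (n : ℕ) (hx : r ^ n • x = 0) : σ • x = x :=
  g3 N r hℓ hℓNr A hA hσ x n (by
    rw [hx]
    exact map_zero (DistribSMul.toAddMonoidHom (JZero N) σ))

/-- **Eichler–Shimura on torsion.**  For a Frobenius element `τ` at a place over `ℓ ∤ N r` and
`x ∈ J₀(N)[r^∞]`:  `τ² x - T_ℓ (τ x) + ℓ x = 0`. -/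
theorem es_torsion (N r : ℕ) [NeZero N] {ℓ : ℕ} (hℓ : ℓ.Prime) (hℓNr : ¬ ℓ ∣ N * r)
    (A : ValuationSubring (AlgebraicClosure ℚ)) (hA : A.LiesOverPrime ℓ)
    (τ : AlgebraicClosure ℚ ≃ₐ[ℚ] AlgebraicClosure ℚ) (hτ : A.IsFrobeniusAt τ ℓ)
    (x : JZero N) (n : ℕ) (hx : r ^ n • x = 0) :
    τ • τ • x - heckeOperatorBar N ⟨ℓ, hℓ⟩ (τ • x) + ℓ • x = 0 := by
  letI := heckeModuleBar N
  haveI := Fermat.Agent.S29.H571.smulCommClass_heckeModuleBar N
  have h := Fermat.Agent.S29.H451.frobeniusQuadratic_of_specializationExists N r (JZero N)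
    (specExists N r) ℓ hℓ hℓNr A hA τ hτ x ⟨n, hx⟩
  have e := heckeModuleBar_heckeGen_smul (Fermat.Agent.S29.heckeOperatorsCommuteBar N)
    ⟨ℓ, hℓ⟩ (τ • x)
  rw [← e]
  exact h

end Fermat.Agent.S15.H628

end

end
-- ===== PACK-END S15/H628/G3.lean

-- ===== PACK-BEGIN S15/H628/Flag.lean
section








/-!
# Row S15, DESC leaf FLAG-glue (helper628)

Blueprint `coord/S15-DESC-blueprint.md` v3, sec. 1 (FLAG).
-/

set_option autoImplicit false
set_option linter.style.haveILetI false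
set_option linter.unusedSectionVars false

noncomputable section

namespace Fermat.Agent.S15.H628

open ModularCurve
open Fermat.Agent.Lib.Cheb.Spec (GQ Qb)

section Level

variable {N : ℕ} [NeZero N]

/-- A finite set of torsion points of `J₀(N)` is defined over a finite extension of `ℚ`, which
can be taken to contain any given finite-dimensional field. -/
theorem exists_level_of_finite (X : AddSubgroup (JZero N)) [Finite X] {m : ℕ} (hm : m ≠ 0)
    (hXm : ∀ x ∈ X, m • x = 0) (R : IntermediateField ℚ Qb) [FiniteDimensional ℚ R] :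
    ∃ E : IntermediateField ℚ Qb, FiniteDimensional ℚ E ∧ R ≤ E ∧
      ∀ σ τ : GQ, (∀ a ∈ E, σ a = τ a) → ∀ x ∈ X, σ • x = τ • x := by
  classical
  have h1 : ∀ x : X, ∃ L : IntermediateField ℚ Qb, FiniteDimensional ℚ L ∧
      ∀ σ : GQ, (∀ a ∈ L, σ a = a) → σ • (x : JZero N) = x := by
    intro x
    have hx : ((m : ℤ)) • (x : JZero N) = 0 := by
      rw [natCast_zsmul]
      exact hXm x x.2
    exact Fermat.Agent.S29.H571.exists_finiteLevel_of_zsmul_eq_zero
      (modularFunctionFieldFull N) (x : JZero N) (by exact_mod_cast hm) hx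
  choose L hLfin hL using h1
  haveI : ∀ x, FiniteDimensional ℚ (L x) := hLfin
  refine ⟨(⨆ x, L x) ⊔ R, ?_, le_sup_right, ?_⟩
  · haveI : FiniteDimensional ℚ (⨆ x, L x : IntermediateField ℚ Qb) :=
      IntermediateField.finiteDimensional_iSup_of_finite
    exact IntermediateField.finiteDimensional_sup _ _
  · intro σ τ h x hx
    have h2 : ∀ a ∈ L ⟨x, hx⟩, (τ⁻¹ * σ) a = a := by
      intro a ha
      have ha' : a ∈ (⨆ x, L x) ⊔ R :=
        (le_sup_left : (⨆ x, L x) ≤ (⨆ x, L x) ⊔ R) (le_iSup L ⟨x, hx⟩ ha)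
      show τ⁻¹ (σ a) = a
      rw [h a ha']
      exact τ.symm_apply_apply a
    have h3 := hL ⟨x, hx⟩ (τ⁻¹ * σ) h2
    have h4 : σ • x = τ • ((τ⁻¹ * σ) • x) := by
      rw [← mul_smul, mul_inv_cancel_left]
    rw [h4]
    exact congrArg (τ • ·) h3

end Level

section Abstract

variable {N : ℕ} [NeZero N] {r : ℕ} [Fact r.Prime]
variable (X : AddSubgroup (JZero N)) [hXr : Fact (∀ x ∈ X, r • x = 0)]
  (hXG : ∀ σ : GQ, ∀ x ∈ X, σ • x ∈ X)

/-- `X ⊆ J[r]` as an `𝔽_r`-vector space. -/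
instance modX : Module (ZMod r) X :=
  AddCommGroup.zmodModule (n := r) fun x => Subtype.ext (by simpa using hXr.out x x.2)

/-- The action of `σ` on `X`. -/
def galHomX (σ : GQ) : X →+ X where
  toFun x := ⟨σ • (x : JZero N), hXG σ x x.2⟩
  map_zero' := Subtype.ext (smul_zero σ)
  map_add' a b := Subtype.ext (smul_add σ (a : JZero N) (b : JZero N))

omit hXr in
@[simp] theorem coe_galHomX (σ : GQ) (x : X) :
    ((galHomX X hXG σ x : X) : JZero N) = σ • (x : JZero N) := rfl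

/-- The Galois representation on `X`. -/
def repX : Representation (ZMod r) GQ X where
  toFun := fun σ => (galHomX X hXG σ).toZModLinearMap r
  map_one' := by
    refine LinearMap.ext fun x => Subtype.ext ?_
    simp
  map_mul' := fun σ τ => by
    refine LinearMap.ext fun x => Subtype.ext ?_
    simp [mul_smul]

theorem coe_repX (σ : GQ) (x : X) :
    ((repX (r := r) X hXG σ x : X) : JZero N) = σ • (x : JZero N) := rfl

/-- Restriction to `X` of an additive endomorphism of `J₀(N)` preserving `X`. -/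
def resX (D : Module.End ℤ (JZero N)) (hD : ∀ x ∈ X, D x ∈ X) : X →+ X where
  toFun x := ⟨D (x : JZero N), hD x x.2⟩
  map_zero' := Subtype.ext (map_zero D)
  map_add' a b := Subtype.ext (map_add D (a : JZero N) (b : JZero N))

/-- Restriction to `X`, as an `𝔽_r`-linear endomorphism. -/
def endX (D : Module.End ℤ (JZero N)) (hD : ∀ x ∈ X, D x ∈ X) : Module.End (ZMod r) X :=
  (resX X D hD).toZModLinearMap r

theorem coe_endX (D : Module.End ℤ (JZero N)) (hD : ∀ x ∈ X, D x ∈ X) (x : X) :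
    ((endX (r := r) X D hD x : X) : JZero N) = D (x : JZero N) := rfl

/-- Scalars of `𝔽_r` given by natural numbers act on `X` as in `J₀(N)`. -/
theorem coe_natCast_smul (k : ℕ) (x : X) :
    (((k : ZMod r) • x : X) : JZero N) = k • (x : JZero N) := by
  rw [Nat.cast_smul_eq_nsmul (ZMod r) k x]
  rfl

/-- Coordinates of `D - (1 + k)` on `X`. -/
theorem coe_sub_one_add_apply (D : Module.End (ZMod r) X) (k : ℕ) (x : X) :
    (((D - (1 + algebraMap (ZMod r) (Module.End (ZMod r) X) (k : ZMod r))) x : X) : JZero N)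
      = ((D x : X) : JZero N) - ((x : JZero N) + k • (x : JZero N)) := by
  show ((D x - (x + (k : ZMod r) • x) : X) : JZero N) = _
  rw [AddSubgroup.coe_sub, AddSubgroup.coe_add, coe_natCast_smul]

/-- Coordinates of `ρ ρ - T ρ + k` on `X`. -/
theorem coe_quadratic_apply (R T : Module.End (ZMod r) X) (k : ℕ) (x : X) :
    (((R * R - T * R + algebraMap (ZMod r) (Module.End (ZMod r) X) (k : ZMod r)) x : X) : JZero N)
      = ((R (R x) : X) : JZero N) - ((T (R x) : X) : JZero N) + k • (x : JZero N) := by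
  show ((R (R x) - T (R x) + (k : ZMod r) • x : X) : JZero N) = _
  rw [AddSubgroup.coe_add, AddSubgroup.coe_sub, coe_natCast_smul]

/-- Pointwise nilpotency on a finite group is nilpotency. -/
theorem isNilpotent_of_pointwise [Finite X]
    (D : Module.End (ZMod r) X)
    (D' : Module.End ℤ (JZero N)) (hDD' : ∀ x : X, ((D x : X) : JZero N) = D' (x : JZero N))
    (hnil : ∀ x ∈ X, ∃ n : ℕ, (D' ^ n) x = 0) :
    IsNilpotent D := by
  have hpow : ∀ (n : ℕ) (x : X), (((D ^ n) x : X) : JZero N) = (D' ^ n) (x : JZero N) := by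
    intro n
    induction n with
    | zero => intro x; simp
    | succ n ih =>
      intro x
      rw [pow_succ, Module.End.mul_apply, ih, hDD', pow_succ, Module.End.mul_apply]
  choose n hn using fun x : X => hnil x x.2
  obtain ⟨M, hM⟩ := (Set.finite_range n).bddAbove
  refine ⟨M, LinearMap.ext fun x => Subtype.ext ?_⟩
  have hle : n x ≤ M := hM ⟨x, rfl⟩
  rw [hpow, LinearMap.zero_apply, AddSubgroup.coe_zero]
  obtain ⟨k, rfl⟩ := Nat.exists_eq_add_of_le hle
  rw [add_comm, pow_add, Module.End.mul_apply, hn x, map_zero]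

open Classical in
/-- The Hecke operators on `X` (zero at the bad indices). -/
def heckeX (S : Finset ℕ)
    (hXT : ∀ ℓ : Nat.Primes, (ℓ : ℕ) ∉ S → ∀ x ∈ X, heckeOperatorBar N ℓ x ∈ X) (ℓ : ℕ) :
    Module.End (ZMod r) X :=
  if h : ℓ.Prime ∧ ℓ ∉ S then
    endX X (heckeOperatorBar N ⟨ℓ, h.1⟩) (hXT ⟨ℓ, h.1⟩ h.2)
  else 0

theorem coe_heckeX (S : Finset ℕ)
    (hXT : ∀ ℓ : Nat.Primes, (ℓ : ℕ) ∉ S → ∀ x ∈ X, heckeOperatorBar N ℓ x ∈ X) {ℓ : ℕ}
    (hℓ : ℓ.Prime) (hℓS : ℓ ∉ S) (x : X) :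
    ((heckeX (r := r) X S hXT ℓ x : X) : JZero N) = heckeOperatorBar N ⟨ℓ, hℓ⟩ (x : JZero N) := by
  unfold heckeX
  rw [dif_pos (And.intro hℓ hℓS)]
  rfl

attribute [irreducible] heckeX

end Abstract

section Flag

variable {N : ℕ} [NeZero N] {r : ℕ} [Fact r.Prime]

/-- The finite extension `ℚ(μ_r)` of `ℚ` inside `ℚ̄`. -/
def muField (r : ℕ) : IntermediateField ℚ Qb :=
  IntermediateField.adjoin ℚ {t : Qb | t ^ r = 1}

theorem finiteDimensional_muField : FiniteDimensional ℚ (muField r) := by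
  have hr : 0 < r := (Fact.out : r.Prime).pos
  have hfin : {t : Qb | t ^ r = 1}.Finite := by
    have h := (Polynomial.X ^ r - 1 : Polynomial Qb).rootSet_finite Qb
    refine h.subset fun t ht => ?_
    rw [Polynomial.mem_rootSet]
    refine ⟨Polynomial.X_pow_sub_C_ne_zero hr 1, ?_⟩
    have ht' : t ^ r = 1 := ht
    simp [ht']
  haveI : Finite {t : Qb | t ^ r = 1} := hfin.to_subtype
  refine IntermediateField.finiteDimensional_adjoin fun t ht => ?_
  exact (AlgebraicClosure.isAlgebraic ℚ).isAlgebraic t |>.isIntegral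

/-- The mod `r` cyclotomic character factors through `ℚ(μ_r)`. -/
theorem cycloChar_eq_of_muField (σ τ : GQ) (h : ∀ a ∈ muField r, σ a = τ a) :
    ExtCitation.cycloChar r σ = ExtCitation.cycloChar r τ := by
  have h1 : ExtCitation.cycloChar r (τ⁻¹ * σ) = 1 := by
    apply Fermat.Agent.S29.H872.cycloChar_eq_one_of_fixes_roots
    intro t ht
    have ht' : t ∈ muField r := IntermediateField.subset_adjoin ℚ _ ht
    show τ⁻¹ (σ t) = t
    rw [h t ht']
    exact τ.symm_apply_apply t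
  rw [map_mul, map_inv, inv_mul_eq_one] at h1
  exact h1.symm

open Fermat.Agent.Lib.Cheb.Spec (FrobeniusDivisionStatement) in
/-- **FLAG, abstract form.**  A finite subgroup `X ⊆ J₀(N)[r]`, stable under Galois and under the
Hecke operators `T_ℓ` (`ℓ ∉ S`), on which all `T_ℓ - (1 + ℓ)` (`ℓ ∉ S`) are pointwise nilpotent
and the Eichler–Shimura relations hold, has a Galois-stable full flag with graded pieces of type
`𝟙` or `χ` (mod `r` cyclotomic character). -/
theorem hasFlagFrom_of_eisenstein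
    (X : AddSubgroup (JZero N)) [Finite X] [hXr : Fact (∀ x ∈ X, r • x = 0)]
    (hXG : ∀ σ : GQ, ∀ x ∈ X, σ • x ∈ X)
    (S : Finset ℕ) (hrS : r ∈ S)
    (hXT : ∀ ℓ : Nat.Primes, (ℓ : ℕ) ∉ S → ∀ x ∈ X, heckeOperatorBar N ℓ x ∈ X)
    (hnil : ∀ ℓ : Nat.Primes, (ℓ : ℕ) ∉ S → ∀ x ∈ X, ∃ n : ℕ,
      ((heckeOperatorBar N ℓ - ((1 + (ℓ : ℕ) : ℕ) : Module.End ℤ (JZero N))) ^ n) x = 0)
    (hES : ∀ ℓ : Nat.Primes, (ℓ : ℕ) ∉ S → ∀ A : ValuationSubring Qb, A.LiesOverPrime ℓ →
      ∀ τ : GQ, A.IsFrobeniusAt τ ℓ → ∀ x ∈ X,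
        τ • τ • x - heckeOperatorBar N ℓ (τ • x) + (ℓ : ℕ) • x = 0)
    (hcheb : FrobeniusDivisionStatement) :
    H62.HasFlagFrom (repX (r := r) X hXG) (ExtCitation.cycloChar r) ⊥ := by
  have hr : r.Prime := Fact.out
  haveI : FiniteDimensional ℚ (muField r) := finiteDimensional_muField
  obtain ⟨E, hEfin, hRE, hE⟩ := exists_level_of_finite X hr.ne_zero hXr.out (muField r)
  have hT : ∀ (ℓ : ℕ) (hℓ : ℓ.Prime) (hℓS : ℓ ∉ S) (x : X),
      ((heckeX (r := r) X S hXT ℓ x : X) : JZero N)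
        = heckeOperatorBar N ⟨ℓ, hℓ⟩ (x : JZero N) :=
    fun ℓ hℓ hℓS x => coe_heckeX X S hXT hℓ hℓS x
  refine H62.exists_flag_of_frobenius (repX X hXG) (ExtCitation.cycloChar r) E hEfin
    ?_ ?_ S (heckeX X S hXT) ?_ ?_ ?_ ?_ hcheb
  · -- `ρ` factors through `E`
    intro σ τ h
    refine LinearMap.ext fun x => Subtype.ext ?_
    exact hE σ τ h x x.2
  · -- `χ` factors through `E`
    intro σ τ h
    exact cycloChar_eq_of_muField σ τ fun a ha => h a (hRE ha)
  · -- `T_ℓ` commutes with Galois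
    intro ℓ hℓ hℓS σ
    refine LinearMap.ext fun x => Subtype.ext ?_
    have e1 : ((heckeX (r := r) X S hXT ℓ (repX (r := r) X hXG σ x) : X) : JZero N)
        = heckeOperatorBar N ⟨ℓ, hℓ⟩ (σ • (x : JZero N)) := hT ℓ hℓ hℓS _
    have e2 : ((repX (r := r) X hXG σ (heckeX (r := r) X S hXT ℓ x) : X) : JZero N)
        = σ • heckeOperatorBar N ⟨ℓ, hℓ⟩ (x : JZero N) :=
      congrArg (σ • ·) (hT ℓ hℓ hℓS x)
    exact e1.trans
      ((Fermat.Agent.S29.H571.heckeOperatorBar_smul N ⟨ℓ, hℓ⟩ σ x).trans e2.symm)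
  · -- nilpotency
    intro ℓ hℓ hℓS
    refine isNilpotent_of_pointwise X _
      (heckeOperatorBar N ⟨ℓ, hℓ⟩ - ((1 + ℓ : ℕ) : Module.End ℤ (JZero N))) ?_
      (hnil ⟨ℓ, hℓ⟩ hℓS)
    intro x
    rw [coe_sub_one_add_apply, LinearMap.sub_apply, Module.End.natCast_apply,
      add_smul, one_smul]
    exact congrArg (· - ((x : JZero N) + ℓ • (x : JZero N))) (hT ℓ hℓ hℓS x)
  · -- Eichler–Shimura
    intro ℓ hℓ hℓS A hA τ hτ
    refine LinearMap.ext fun x => Subtype.ext ?_
    have key := hES ⟨ℓ, hℓ⟩ hℓS A hA τ hτ x x.2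
    have e1 : ((heckeX (r := r) X S hXT ℓ (repX (r := r) X hXG τ x) : X) : JZero N)
        = heckeOperatorBar N ⟨ℓ, hℓ⟩ (τ • (x : JZero N)) := hT ℓ hℓ hℓS _
    rw [coe_quadratic_apply]
    exact (congrArg (fun z => τ • τ • (x : JZero N) - z + ℓ • (x : JZero N)) e1).trans key
  · -- `χ(Frob_ℓ) = ℓ`
    intro ℓ hℓ hℓS A hA τ hτ
    have hℓr : ℓ ≠ r := fun h => hℓS (h ▸ hrS)
    exact Fermat.Agent.S29.H872.cycloChar_frobenius r hℓ hℓr A hA τ hτ

/-- Over `𝔽_r`, the span of a vector is the subgroup it generates. -/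
theorem span_singleton_toAddSubgroup (X : AddSubgroup (JZero N))
    [hXr : Fact (∀ x ∈ X, r • x = 0)] (u : X) :
    (Submodule.span (ZMod r) {u}).toAddSubgroup = AddSubgroup.zmultiples u := by
  ext y
  rw [Submodule.mem_toAddSubgroup, Submodule.mem_span_singleton, AddSubgroup.mem_zmultiples_iff]
  constructor
  · rintro ⟨a, rfl⟩
    refine ⟨(a.val : ℤ), ?_⟩
    rw [natCast_zsmul, ← Nat.cast_smul_eq_nsmul (ZMod r), ZMod.natCast_zmod_val]
  · rintro ⟨k, rfl⟩
    exact ⟨(k : ZMod r), Int.cast_smul_eq_zsmul (ZMod r) k u⟩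

open Fermat.Agent.Lib.Cheb.Spec (FrobeniusDivisionStatement) in
/-- **FLAG, concrete form.**  Same hypotheses; the flag is given by subgroups `F i` of `J₀(N)`,
`F (i+1) = F i + ℤ u_i`, and `σ u_i ≡ ψ_i(σ) u_i` modulo `F i` with `ψ_i = 1` (`ε i = false`) or
`ψ_i =` the mod `r` cyclotomic character (`ε i = true`; `cycloExp r σ` is its representative in
`ℕ`). -/
theorem exists_flag_addSubgroup
    (X : AddSubgroup (JZero N)) [Finite X] (hXr : ∀ x ∈ X, r • x = 0)
    (hXG : ∀ σ : GQ, ∀ x ∈ X, σ • x ∈ X)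
    (S : Finset ℕ) (hrS : r ∈ S)
    (hXT : ∀ ℓ : Nat.Primes, (ℓ : ℕ) ∉ S → ∀ x ∈ X, heckeOperatorBar N ℓ x ∈ X)
    (hnil : ∀ ℓ : Nat.Primes, (ℓ : ℕ) ∉ S → ∀ x ∈ X, ∃ n : ℕ,
      ((heckeOperatorBar N ℓ - ((1 + (ℓ : ℕ) : ℕ) : Module.End ℤ (JZero N))) ^ n) x = 0)
    (hES : ∀ ℓ : Nat.Primes, (ℓ : ℕ) ∉ S → ∀ A : ValuationSubring Qb, A.LiesOverPrime ℓ →
      ∀ τ : GQ, A.IsFrobeniusAt τ ℓ → ∀ x ∈ X,
        τ • τ • x - heckeOperatorBar N ℓ (τ • x) + (ℓ : ℕ) • x = 0)
    (hcheb : FrobeniusDivisionStatement) :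
    ∃ (n : ℕ) (F : ℕ → AddSubgroup (JZero N)) (u : ℕ → JZero N) (ε : ℕ → Bool),
      F 0 = ⊥ ∧ F n = X ∧
      (∀ i < n, F (i + 1) = F i ⊔ AddSubgroup.zmultiples (u i)) ∧
      (∀ i < n, u i ∉ F i) ∧ (∀ i < n, u i ∈ X) ∧
      (∀ i < n, ∀ σ : GQ,
        σ • u i - (if ε i then ExtCitation.cycloExp r σ else 1) • u i ∈ F i) := by
  haveI : Fact (∀ x ∈ X, r • x = 0) := ⟨hXr⟩
  obtain ⟨n, F, u, ε, h0, hn, hstep, hu, hact⟩ :=
    hasFlagFrom_of_eisenstein (r := r) X hXG S hrS hXT hnil hES hcheb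
  refine ⟨n, fun i => (F i).toAddSubgroup.map X.subtype, fun i => (u i : JZero N), ε,
    ?_, ?_, ?_, ?_, ?_, ?_⟩
  · show (F 0).toAddSubgroup.map X.subtype = ⊥
    rw [h0, Submodule.bot_toAddSubgroup, AddSubgroup.map_bot]
  · show (F n).toAddSubgroup.map X.subtype = X
    rw [hn, Submodule.top_toAddSubgroup, ← AddMonoidHom.range_eq_map, AddSubgroup.range_subtype]
  · intro i hi
    show (F (i + 1)).toAddSubgroup.map X.subtype
      = (F i).toAddSubgroup.map X.subtype ⊔ AddSubgroup.zmultiples (u i : JZero N)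
    rw [hstep i hi, Submodule.sup_toAddSubgroup, AddSubgroup.map_sup,
      span_singleton_toAddSubgroup, AddMonoidHom.map_zmultiples]
    rfl
  · intro i hi hmem
    obtain ⟨y, hy, hyu⟩ := AddSubgroup.mem_map.mp hmem
    have : y = u i := Subtype.ext hyu
    exact hu i hi (this ▸ hy)
  · intro i _
    exact (u i).2
  · intro i hi σ
    refine AddSubgroup.mem_map.mpr ⟨_, hact i hi σ, ?_⟩
    show ((repX (r := r) X hXG σ (u i) : X) : JZero N)
      - (((if ε i then ((ExtCitation.cycloChar r σ : (ZMod r)ˣ) : ZMod r) else 1) • u i : X) :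
          JZero N) = _
    rw [coe_repX]
    congr 1
    cases ε i with
    | false =>
      simp
    | true =>
      simp only [if_true]
      rw [ExtCitation.coe_cycloChar, coe_natCast_smul]

end Flag

/-! ## The Eisenstein part of `J₀(N)[r]` and its flag -/

section Eis

variable (N : ℕ) [NeZero N]

/-- The operator `T_ℓ - (1 + ℓ)` on `J₀(N)(ℚ̄)`. -/
def eisD (ℓ : Nat.Primes) : Module.End ℤ (JZero N) :=
  heckeOperatorBar N ℓ - ((1 + (ℓ : ℕ) : ℕ) : Module.End ℤ (JZero N))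

theorem eisD_smul (ℓ : Nat.Primes) (σ : GQ) (x : JZero N) :
    eisD N ℓ (σ • x) = σ • eisD N ℓ x := by
  unfold eisD
  rw [LinearMap.sub_apply, LinearMap.sub_apply, Module.End.natCast_apply,
    Module.End.natCast_apply, Fermat.Agent.S29.H571.heckeOperatorBar_smul, ← gal_nsmul]
  exact (map_sub (DistribSMul.toAddMonoidHom (JZero N) σ) _ _).symm

theorem eisD_pow_smul (ℓ : Nat.Primes) (σ : GQ) (n : ℕ) (x : JZero N) :
    (eisD N ℓ ^ n) (σ • x) = σ • (eisD N ℓ ^ n) x := by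
  induction n generalizing x with
  | zero => simp
  | succ n ih =>
    rw [pow_succ, Module.End.mul_apply, Module.End.mul_apply, eisD_smul, ih]

theorem commute_eisD_hecke (ℓ q : Nat.Primes) :
    Commute (eisD N ℓ) (heckeOperatorBar N q) := by
  unfold eisD
  have h : Commute (heckeOperatorBar N ℓ) (heckeOperatorBar N q) :=
    Fermat.Agent.S29.heckeOperatorsCommuteBar N ℓ q
  exact h.sub_left (Nat.cast_commute _ _)

/-- **The Eisenstein part** of `J₀(N)[r]` away from `S`: the `r`-torsion points killed by a power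
of `T_ℓ - (1 + ℓ)` for every prime `ℓ ∉ S`. -/
def eisPart (S : Set ℕ) (r : ℕ) : AddSubgroup (JZero N) where
  carrier := {x | r • x = 0 ∧ ∀ ℓ : Nat.Primes, (ℓ : ℕ) ∉ S → ∃ n : ℕ, (eisD N ℓ ^ n) x = 0}
  zero_mem' := ⟨smul_zero r, fun ℓ _ => ⟨0, by simp⟩⟩
  add_mem' := by
    rintro a b ⟨ha, ha'⟩ ⟨hb, hb'⟩
    refine ⟨by rw [nsmul_add, ha, hb, add_zero], fun ℓ hℓ => ?_⟩
    obtain ⟨n, hn⟩ := ha' ℓ hℓ
    obtain ⟨m, hm⟩ := hb' ℓ hℓ
    refine ⟨n + m, ?_⟩
    rw [map_add]
    have h1 : (eisD N ℓ ^ (n + m)) a = 0 := by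
      rw [add_comm, pow_add, Module.End.mul_apply, hn, map_zero]
    have h2 : (eisD N ℓ ^ (n + m)) b = 0 := by
      rw [pow_add, Module.End.mul_apply, hm, map_zero]
    rw [h1, h2, add_zero]
  neg_mem' := by
    rintro a ⟨ha, ha'⟩
    refine ⟨by rw [neg_nsmul, ha, neg_zero], fun ℓ hℓ => ?_⟩
    obtain ⟨n, hn⟩ := ha' ℓ hℓ
    exact ⟨n, by rw [map_neg, hn, neg_zero]⟩

variable {N}

theorem mem_eisPart {S : Set ℕ} {r : ℕ} {x : JZero N} :
    x ∈ eisPart N S r ↔
      r • x = 0 ∧ ∀ ℓ : Nat.Primes, (ℓ : ℕ) ∉ S → ∃ n : ℕ, (eisD N ℓ ^ n) x = 0 := Iff.rfl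

theorem nsmul_eq_zero_of_mem_eisPart {S : Set ℕ} {r : ℕ} {x : JZero N}
    (hx : x ∈ eisPart N S r) : r • x = 0 := hx.1

/-- The Eisenstein part is Galois-stable. -/
theorem gal_mem_eisPart {S : Set ℕ} {r : ℕ} (σ : GQ) {x : JZero N}
    (hx : x ∈ eisPart N S r) : σ • x ∈ eisPart N S r := by
  refine ⟨?_, fun ℓ hℓ => ?_⟩
  · rw [← gal_nsmul, hx.1]
    exact map_zero (DistribSMul.toAddMonoidHom (JZero N) σ)
  · obtain ⟨n, hn⟩ := hx.2 ℓ hℓ
    refine ⟨n, ?_⟩
    rw [eisD_pow_smul, hn]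
    exact map_zero (DistribSMul.toAddMonoidHom (JZero N) σ)

/-- The Eisenstein part is stable under all Hecke operators. -/
theorem hecke_mem_eisPart {S : Set ℕ} {r : ℕ} (q : Nat.Primes) {x : JZero N}
    (hx : x ∈ eisPart N S r) : heckeOperatorBar N q x ∈ eisPart N S r := by
  refine ⟨?_, fun ℓ hℓ => ?_⟩
  · rw [← map_nsmul, hx.1, map_zero]
  · obtain ⟨n, hn⟩ := hx.2 ℓ hℓ
    refine ⟨n, ?_⟩
    have hc : Commute (eisD N ℓ ^ n) (heckeOperatorBar N q) :=
      (commute_eisD_hecke N ℓ q).pow_left n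
    have := congrArg (fun f : Module.End ℤ (JZero N) => f x) hc.eq
    simp only [Module.End.mul_apply] at this
    rw [this, hn, map_zero]

/-- The Eisenstein part is finite. -/
theorem finite_eisPart (S : Set ℕ) (r : ℕ) [Fact r.Prime] : Finite (eisPart N S r) := by
  haveI : Finite (Fermat.Agent.S19.Tors N r 1) := Fermat.Agent.A3.H319.finStatement N r 1
  let f : eisPart N S r → Fermat.Agent.S19.Tors N r 1 := fun x =>
    ⟨(x : JZero N), by
      rw [Submodule.mem_torsionBy_iff, pow_one, natCast_zsmul]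
      exact x.2.1⟩
  refine Finite.of_injective f fun a b h => Subtype.ext ?_
  have h' : ((f a : Fermat.Agent.S19.Tors N r 1) : JZero N) = (f b : Fermat.Agent.S19.Tors N r 1) :=
    congrArg Subtype.val h
  exact h'

/-- **FLAG for the Eisenstein part.**  For a finite set `S` of primes, the Eisenstein part
`X = eisPart N S r` of `J₀(N)[r]` has a full flag `0 = F 0 < F 1 < ⋯ < F n = X` of subgroups with
`F (i+1) = F i + ℤ u_i` such that every `σ ∈ Gal(ℚ̄/ℚ)` satisfies `σ u_i ≡ ψ_i(σ) u_i` modulo `F i`,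
where `ψ_i = 1` or `ψ_i` is the mod `r` cyclotomic character.  Unconditional. -/
theorem flag_eisPart (S : Finset ℕ) (r : ℕ) [Fact r.Prime] :
    ∃ (n : ℕ) (F : ℕ → AddSubgroup (JZero N)) (u : ℕ → JZero N) (ε : ℕ → Bool),
      F 0 = ⊥ ∧ F n = eisPart N (S : Set ℕ) r ∧
      (∀ i < n, F (i + 1) = F i ⊔ AddSubgroup.zmultiples (u i)) ∧
      (∀ i < n, u i ∉ F i) ∧ (∀ i < n, u i ∈ eisPart N (S : Set ℕ) r) ∧
      (∀ i < n, ∀ σ : GQ,
        σ • u i - (if ε i then ExtCitation.cycloExp r σ else 1) • u i ∈ F i) := by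
  classical
  haveI := finite_eisPart (N := N) (S : Set ℕ) r
  have hN : N ≠ 0 := NeZero.ne N
  have hr : r.Prime := Fact.out
  -- the exceptional set: `S`, the primes dividing `N`, and `r`
  set S' : Finset ℕ := S ∪ N.primeFactors ∪ {r} with hS'
  have hsub : ∀ ℓ : ℕ, ℓ ∉ S' → ℓ ∉ S ∧ ℓ ∉ N.primeFactors ∧ ℓ ≠ r := by
    intro ℓ hℓ
    simp only [hS', Finset.mem_union, Finset.mem_singleton, not_or] at hℓ
    exact ⟨hℓ.1.1, hℓ.1.2, hℓ.2⟩
  refine exists_flag_addSubgroup (r := r) (eisPart N (S : Set ℕ) r)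
    (fun x hx => hx.1) (fun σ x hx => gal_mem_eisPart σ hx) S'
    (by simp [hS']) (fun ℓ _ x hx => hecke_mem_eisPart ℓ hx)
    (fun ℓ hℓ x hx => hx.2 ℓ (by exact_mod_cast (hsub ℓ hℓ).1)) ?_
    Fermat.Agent.Lib.Cheb.frobeniusDivision
  intro ℓ hℓ A hA τ hτ x hx
  obtain ⟨-, h2, h3⟩ := hsub ℓ hℓ
  have hℓN : ¬ (ℓ : ℕ) ∣ N := fun hd => h2 (Nat.mem_primeFactors.mpr ⟨ℓ.2, hd, hN⟩)
  have hℓNr : ¬ (ℓ : ℕ) ∣ N * r := by
    intro hd
    rcases (Nat.Prime.dvd_mul ℓ.2).1 hd with h | h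
    · exact hℓN h
    · exact h3 ((Nat.prime_dvd_prime_iff_eq ℓ.2 hr).1 h)
  exact es_torsion N r ℓ.2 hℓNr A hA τ hτ x 1 (by rw [pow_one]; exact hx.1)

/-- In a flag as in `flag_eisPart`, every term is Galois-stable. -/
theorem flag_stable {n : ℕ} {F : ℕ → AddSubgroup (JZero N)} {u : ℕ → JZero N} {c : ℕ → GQ → ℕ}
    (h0 : F 0 = ⊥) (hstep : ∀ i < n, F (i + 1) = F i ⊔ AddSubgroup.zmultiples (u i))
    (hact : ∀ i < n, ∀ σ : GQ, σ • u i - c i σ • u i ∈ F i) :
    ∀ i ≤ n, ∀ σ : GQ, ∀ x ∈ F i, σ • x ∈ F i := by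
  intro i
  induction i with
  | zero =>
    intro _ σ x hx
    rw [h0, AddSubgroup.mem_bot] at hx
    rw [hx, h0, AddSubgroup.mem_bot]
    exact map_zero (DistribSMul.toAddMonoidHom (JZero N) σ)
  | succ i ih =>
    intro hi σ x hx
    have hi' : i < n := hi
    rw [hstep i hi'] at hx ⊢
    obtain ⟨f, hf, z, hz, rfl⟩ := AddSubgroup.mem_sup.mp hx
    obtain ⟨k, rfl⟩ := AddSubgroup.mem_zmultiples_iff.mp hz
    have e1 : σ • (f + k • u i) = σ • f + k • (σ • u i) := by
      have h1 := map_add (DistribSMul.toAddMonoidHom (JZero N) σ) f (k • u i)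
      have h2 := map_zsmul (DistribSMul.toAddMonoidHom (JZero N) σ) k (u i)
      exact h1.trans (congrArg (σ • f + ·) h2)
    have e2 : σ • u i = (σ • u i - c i σ • u i) + c i σ • u i := by abel
    rw [e1, e2, zsmul_add]
    refine add_mem (AddSubgroup.mem_sup_left (ih hi'.le σ f hf)) (add_mem ?_ ?_)
    · exact AddSubgroup.mem_sup_left (zsmul_mem (hact i hi' σ) k)
    · exact AddSubgroup.mem_sup_right
        (zsmul_mem (nsmul_mem (AddSubgroup.mem_zmultiples (u i)) _) k)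

/-- In a flag as in `flag_eisPart`, the terms increase. -/
theorem flag_mono {n : ℕ} {F : ℕ → AddSubgroup (JZero N)} {u : ℕ → JZero N}
    (hstep : ∀ i < n, F (i + 1) = F i ⊔ AddSubgroup.zmultiples (u i)) :
    ∀ i j, i ≤ j → j ≤ n → F i ≤ F j := by
  intro i j hij
  induction j, hij using Nat.le_induction with
  | base => intro _; exact le_rfl
  | succ j hj ih =>
    intro hjn
    have hj' : j < n := hjn
    exact (ih hj'.le).trans (by rw [hstep j hj']; exact le_sup_left)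

/-- **FLAG for the Eisenstein part, full form**: `flag_eisPart` together with the formal
consequences (terms increasing, Galois-stable, steps of order `r`). -/
theorem flag_eisPart_full (S : Finset ℕ) (r : ℕ) [Fact r.Prime] :
    ∃ (n : ℕ) (F : ℕ → AddSubgroup (JZero N)) (u : ℕ → JZero N) (ε : ℕ → Bool),
      F 0 = ⊥ ∧ F n = eisPart N (S : Set ℕ) r ∧
      (∀ i < n, F (i + 1) = F i ⊔ AddSubgroup.zmultiples (u i)) ∧
      (∀ i < n, u i ∉ F i) ∧ (∀ i < n, u i ∈ eisPart N (S : Set ℕ) r) ∧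
      (∀ i < n, ∀ σ : GQ,
        σ • u i - (if ε i then ExtCitation.cycloExp r σ else 1) • u i ∈ F i) ∧
      (∀ i j, i ≤ j → j ≤ n → F i ≤ F j) ∧
      (∀ i ≤ n, F i ≤ eisPart N (S : Set ℕ) r) ∧
      (∀ i ≤ n, ∀ σ : GQ, ∀ x ∈ F i, σ • x ∈ F i) ∧
      (∀ i < n, r • u i = 0) := by
  obtain ⟨n, F, u, ε, h0, hn, hstep, hu, huX, hact⟩ := flag_eisPart (N := N) S r
  refine ⟨n, F, u, ε, h0, hn, hstep, hu, huX, hact, flag_mono hstep, ?_, ?_, ?_⟩
  · intro i hi
    rw [← hn]
    exact flag_mono hstep i n hi le_rfl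
  · exact flag_stable (c := fun i σ => if ε i then ExtCitation.cycloExp r σ else 1) h0 hstep hact
  · intro i hi
    exact (huX i hi).1

end Eis

end Fermat.Agent.S15.H628

end

end
-- ===== PACK-END S15/H628/Flag.lean

-- ===== PACK-BEGIN S15/H628/FlagStmt.lean
section



/-!
# Row S15, DESC leaf FLAG (helper628): `flagStatement : H975.FlagStatement` (VERBATIM)

Adapter from `H628.flag_eisPart_full` (unconditional flag of the Eisenstein part of `J₀(N)[r]`,
`Fermat/Agent/S15/H628/Flag.lean`) to the frozen skeleton shape of `H975/DescSpec.lean`.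
-/

set_option autoImplicit false

noncomputable section

namespace Fermat.Agent.S15.H628

open ModularCurve
open Fermat.Agent.Lib.Cheb.Spec (GQ Qb)

section Group

variable {G : Type*} [AddCommGroup G]

/-- A step `F < F + ℤ u` with `u ∉ F`, `r u ∈ F`, `r` prime, has index `r`. -/
theorem relIndex_sup_zmultiples (F : AddSubgroup G) (u : G) (r : ℕ) [Fact r.Prime]
    (hu : u ∉ F) (hru : r • u ∈ F) :
    F.relIndex (F ⊔ AddSubgroup.zmultiples u) = r := by
  set K : AddSubgroup G := F ⊔ AddSubgroup.zmultiples u with hK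
  have huK : u ∈ K := AddSubgroup.mem_sup_right (AddSubgroup.mem_zmultiples u)
  set H : AddSubgroup K := F.addSubgroupOf K with hH
  let ū : K ⧸ H := QuotientAddGroup.mk ⟨u, huK⟩
  have h1 : r • ū = 0 := by
    show r • (QuotientAddGroup.mk (⟨u, huK⟩ : K) : K ⧸ H) = 0
    rw [← QuotientAddGroup.mk_nsmul, QuotientAddGroup.eq_zero_iff]
    exact AddSubgroup.mem_addSubgroupOf.mpr hru
  have h2 : ū ≠ 0 := by
    intro h
    have := (QuotientAddGroup.eq_zero_iff (⟨u, huK⟩ : K)).mp h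
    exact hu (AddSubgroup.mem_addSubgroupOf.mp this)
  have h3 : ∀ q : K ⧸ H, q ∈ AddSubgroup.zmultiples ū := by
    intro q
    obtain ⟨⟨x, hx⟩, rfl⟩ := QuotientAddGroup.mk_surjective q
    obtain ⟨f, hf, z, hz, rfl⟩ := AddSubgroup.mem_sup.mp hx
    obtain ⟨k, rfl⟩ := AddSubgroup.mem_zmultiples_iff.mp hz
    refine AddSubgroup.mem_zmultiples_iff.mpr ⟨k, ?_⟩
    show k • (QuotientAddGroup.mk (⟨u, huK⟩ : K) : K ⧸ H) = _
    rw [← QuotientAddGroup.mk_zsmul, QuotientAddGroup.eq]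
    refine AddSubgroup.mem_addSubgroupOf.mpr ?_
    have e : ((-(k • (⟨u, huK⟩ : K)) + ⟨f + k • u, hx⟩ : K) : G) = f := by
      simp
    rw [e]
    exact hf
  have h4 : addOrderOf ū = r := addOrderOf_eq_prime h1 h2
  have h5 : addOrderOf ū = Nat.card (K ⧸ H) := addOrderOf_eq_card_of_forall_mem_zmultiples h3
  show H.index = r
  rw [AddSubgroup.index_eq_card, ← h5, h4]

end Group

section Adapter

variable (p : ℕ) [NeZero p]

theorem eta_eq_eisD (ℓ : Nat.Primes) : Fermat.Agent.S15.H975.eta p ℓ = eisD p ℓ := by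
  unfold Fermat.Agent.S15.H975.eta eisD
  congr 1

theorem eis_eq_eisPart (S : Finset ℕ) (r : ℕ) :
    Fermat.Agent.S15.H975.eis p (S : Set ℕ) r
      = eisPart p ((insert p S : Finset ℕ) : Set ℕ) r := by
  ext w
  constructor
  · rintro ⟨h1, h2⟩
    refine ⟨h1, fun ℓ hℓ => ?_⟩
    have hℓ' : (ℓ : ℕ) ≠ p ∧ (ℓ : ℕ) ∉ S := by
      simpa [Finset.mem_insert, not_or] using hℓ
    obtain ⟨k, hk⟩ := h2 ℓ hℓ'.1 (by exact_mod_cast hℓ'.2)
    exact ⟨k, by rw [← eta_eq_eisD]; exact hk⟩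
  · rintro ⟨h1, h2⟩
    refine ⟨h1, fun ℓ hℓp hℓS => ?_⟩
    have hℓ' : (ℓ : ℕ) ∉ ((insert p S : Finset ℕ) : Set ℕ) := by
      have hℓS' : (ℓ : ℕ) ∉ S := by exact_mod_cast hℓS
      simp [hℓp, hℓS']
    obtain ⟨k, hk⟩ := h2 ℓ hℓ'
    exact ⟨k, by rw [eta_eq_eisD]; exact hk⟩

end Adapter

/-- One step of the flag acts through `c` on the whole step. -/
theorem step_act {N : ℕ} [NeZero N] {F' : AddSubgroup (JZero N)} {u : JZero N} (σ : GQ) (c : ℕ)
    (hstab : ∀ x ∈ F', σ • x ∈ F') (hu : σ • u - c • u ∈ F') :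
    ∀ f ∈ F' ⊔ AddSubgroup.zmultiples u, σ • f - c • f ∈ F' := by
  intro f hf
  obtain ⟨f', hf', z, hz, rfl⟩ := AddSubgroup.mem_sup.mp hf
  obtain ⟨k, rfl⟩ := AddSubgroup.mem_zmultiples_iff.mp hz
  have e1 : σ • (f' + k • u) = σ • f' + k • (σ • u) := by
    have h1 := map_add (DistribSMul.toAddMonoidHom (JZero N) σ) f' (k • u)
    have h2 := map_zsmul (DistribSMul.toAddMonoidHom (JZero N) σ) k u
    exact h1.trans (congrArg (σ • f' + ·) h2)
  have e2 : σ • (f' + k • u) - c • (f' + k • u)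
      = (σ • f' - c • f') + k • (σ • u - c • u) := by
    rw [e1, nsmul_add, zsmul_sub, ← natCast_zsmul (k • u) c, ← natCast_zsmul u c,
      smul_comm (c : ℤ) k u]
    abel
  rw [e2]
  exact add_mem (sub_mem (hstab f' hf') (nsmul_mem hf' c)) (zsmul_mem hu k)

/-- **FLAG** (frozen skeleton leaf, verbatim): the Eisenstein part `W_E` of `J₀(p)[r]` has a full
Galois flag with pieces of type `1` or `ω`.  Unconditional. -/
theorem flagStatement : Fermat.Agent.S15.H975.FlagStatement := by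
  intro p _ _ S r hr _
  have : Fact r.Prime := ⟨hr⟩
  obtain ⟨n, F, u, ε, h0, hn, hstep, hu, huX, hact, hmono, -, hstab, hru⟩ :=
    flag_eisPart_full (N := p) (insert p S) r
  refine ⟨n, F, h0, by rw [hn, eis_eq_eisPart], fun i hi => ?_⟩
  have hFi : ∀ σ : GQ, ∀ x ∈ F i, σ • x ∈ F i := hstab i hi.le
  refine ⟨hmono i (i + 1) (Nat.le_succ i) hi, hFi, hstab (i + 1) hi, ?_, ?_⟩
  · rw [hstep i hi]
    exact relIndex_sup_zmultiples (F i) (u i) r (hu i hi)
      (by rw [hru i hi]; exact (F i).zero_mem)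
  · rw [hstep i hi]
    cases hε : ε i with
    | false =>
      left
      intro σ f hf
      have h1 : σ • u i - 1 • u i ∈ F i := by
        have := hact i hi σ
        rwa [hε] at this
      have h2 := step_act σ 1 (hFi σ) h1 f hf
      rwa [one_nsmul] at h2
    | true =>
      right
      obtain ⟨ζ, hζ⟩ := HasEnoughRootsOfUnity.exists_primitiveRoot Qb r
      refine ⟨ζ, hζ, fun σ k hk f hf => ?_⟩
      -- `σ ζ = ζ ^ cycloExp`, hence `k ≡ cycloExp (mod r)`
      have hζu : IsUnit ζ := hζ.isUnit hr.ne_zero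
      obtain ⟨t, rfl⟩ := hζu
      have ht : t ∈ rootsOfUnity r Qb := by
        rw [mem_rootsOfUnity]
        exact Units.ext (by simpa using hζ.pow_eq_one)
      have hspec := Fermat.Agent.S55.Bridge.cycloChar_spec r σ ht
      have hc : ((ExtCitation.cycloChar r σ : (ZMod r)ˣ) : ZMod r).val
          = ExtCitation.cycloExp r σ := ExtCitation.val_cycloChar r σ
      rw [hc, hk] at hspec
      have hmod : k ≡ ExtCitation.cycloExp r σ [MOD r] := by
        have hspec' : t ^ k = t ^ ExtCitation.cycloExp r σ :=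
          Units.ext (by rw [Units.val_pow_eq_pow_val, Units.val_pow_eq_pow_val]; exact hspec)
        have h := pow_eq_pow_iff_modEq.mp hspec'
        have ho : orderOf t = r := by rw [← orderOf_units, ← hζ.eq_orderOf]
        rwa [ho] at h
      have h1 : σ • u i - ExtCitation.cycloExp r σ • u i ∈ F i := by
        have := hact i hi σ
        rwa [hε] at this
      have h2 : k • u i = ExtCitation.cycloExp r σ • u i := by
        have hr0 : r • u i = 0 := hru i hi
        have e : ∀ m : ℕ, m • u i = (m % r) • u i := by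
          intro m
          conv_lhs => rw [← Nat.div_add_mod m r, add_nsmul, mul_nsmul, hr0, nsmul_zero, zero_add]
        rw [e k, e (ExtCitation.cycloExp r σ), hmod]
      have h3 : σ • u i - k • u i ∈ F i := by rw [h2]; exact h1
      exact step_act σ k (hFi σ) h3 f hf

end Fermat.Agent.S15.H628

end

end
-- ===== PACK-END S15/H628/FlagStmt.lean

-- ===== PACK-BEGIN S15/H106/G3.lean
section





/-!
# Row S15 / DESC, leaf G3 (helper106): Kummer cocycles are unramified at good primes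

Blueprint `coord/S15-DESC-blueprint.md` sec. 3; frozen shape `H975.G3Statement`.

* `g3 : H975.G3Statement` (exact frozen type);
* `inertia_smul_eq` : level `N`, any `r`, `k`: for a prime `ℓ ∤ N * r`, a place `A` of `ℚ̄` over
  `ℓ` and `σ` in the inertia group of `A`: if `σ` fixes `r ^ k • y` then `σ` fixes `y`;
* `kummer_cocycle_unramified`, `inertia_smul_eq_of_torsion` : cocycle and torsion forms;
* `inertia_smul_eq_of_specializationExists` : the abstract core (any `J` with the Prelude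
  property `SpecializationExists N r J`).

Inputs: landed S37 (`Fermat.Agent.S37.result`: `inertia_comm` + `injective_torsion`),
`S29.heckeOperatorsCommuteBar`, `S29.H571.smulCommClass_heckeModuleBar`.
-/

set_option autoImplicit false
set_option linter.style.haveILetI false

namespace Fermat.Agent.S15.H106

open ModularCurve

/-- the absolute Galois group of `ℚ` -/
abbrev GalQ : Type := AlgebraicClosure ℚ ≃ₐ[ℚ] AlgebraicClosure ℚ

section Abstract

variable {J : Type*} [AddCommGroup J] [Module HeckeAlg J] [DistribMulAction GalQ J]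

/-- **G3, abstract form.**  If `J` has specializations at the primes not dividing `N * r`
(frozen S37), `σ` is in the inertia group of a place `A` over such a prime `ℓ`, and `σ` fixes
`r ^ k • y`, then `σ` fixes `y`. -/
theorem inertia_smul_eq_of_specializationExists {N r : ℕ}
    (hS : SpecializationExists (K := ℚ) (L := AlgebraicClosure ℚ) N r J)
    {ℓ : ℕ} (hℓ : ℓ.Prime) (hℓN : ¬ ℓ ∣ N * r)
    (A : ValuationSubring (AlgebraicClosure ℚ)) (hA : A.LiesOverPrime ℓ)
    (σ : GalQ) (hσ : σ ∈ A.inertiaSubgroupIn ℚ) (y : J) (k : ℕ)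
    (hy : σ • (r ^ k • y) = r ^ k • y) : σ • y = y := by
  obtain ⟨J', _, _, sp, F, hsp, -⟩ := hS ℓ hℓ hℓN A hA
  have h1 : r ^ k • (σ • y - y) = 0 := by
    rw [smul_sub, smul_comm (r ^ k) σ y, hy, sub_self]
  have h2 : sp (σ • y - y) = 0 := by
    rw [map_sub, hsp.inertia_comm σ hσ y, sub_self]
  exact sub_eq_zero.1 (hsp.injective_torsion _ ⟨k, h1⟩ h2)

end Abstract

/-- the frozen S37 at level `N`, auxiliary prime `r`, with the two Hecke hypotheses discharged -/
theorem specializationExists_JZero (N r : ℕ) [NeZero N] :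
    letI := ModularCurve.heckeModuleBar N
    SpecializationExists (K := ℚ) (L := AlgebraicClosure ℚ) N r (JZero N) := by
  letI := ModularCurve.heckeModuleBar N
  exact Fermat.Agent.S37.result N r (Fermat.Agent.S29.heckeOperatorsCommuteBar N)
    (Fermat.Agent.S29.H571.smulCommClass_heckeModuleBar N)

/-- **G3.**  Inertia at a prime `ℓ ∤ N * r` fixes every `y : JZero N` such that it fixes
`r ^ k • y`. -/
theorem inertia_smul_eq (N r : ℕ) [NeZero N] {ℓ : ℕ} (hℓ : ℓ.Prime) (hℓN : ¬ ℓ ∣ N * r)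
    (A : ValuationSubring (AlgebraicClosure ℚ)) (hA : A.LiesOverPrime ℓ)
    (σ : GalQ) (hσ : σ ∈ A.inertiaSubgroupIn ℚ) (y : JZero N) (k : ℕ)
    (hy : σ • (r ^ k • y) = r ^ k • y) : σ • y = y := by
  letI := ModularCurve.heckeModuleBar N
  exact inertia_smul_eq_of_specializationExists (specializationExists_JZero N r) hℓ hℓN A hA σ hσ
    y k hy

/-- **G3, cocycle form.**  If `r ^ k • y` is rational, the Kummer cocycle `σ ↦ σ y - y` is
trivial on the inertia groups at all primes `ℓ ∤ N * r`. -/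
theorem kummer_cocycle_unramified (N r : ℕ) [NeZero N] {ℓ : ℕ} (hℓ : ℓ.Prime)
    (hℓN : ¬ ℓ ∣ N * r) (A : ValuationSubring (AlgebraicClosure ℚ)) (hA : A.LiesOverPrime ℓ)
    (σ : GalQ) (hσ : σ ∈ A.inertiaSubgroupIn ℚ) (y : JZero N) (k : ℕ)
    (hy : ∀ τ : GalQ, τ • (r ^ k • y) = r ^ k • y) : σ • y - y = 0 :=
  sub_eq_zero.2 (inertia_smul_eq N r hℓ hℓN A hA σ hσ y k (hy σ))

/-- **G3 on torsion**: inertia at `ℓ ∤ N * r` acts trivially on `J[r ^ k]`. -/
theorem inertia_smul_eq_of_torsion (N r : ℕ) [NeZero N] {ℓ : ℕ} (hℓ : ℓ.Prime)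
    (hℓN : ¬ ℓ ∣ N * r) (A : ValuationSubring (AlgebraicClosure ℚ)) (hA : A.LiesOverPrime ℓ)
    (σ : GalQ) (hσ : σ ∈ A.inertiaSubgroupIn ℚ) (y : JZero N) (k : ℕ)
    (hy : r ^ k • y = 0) : σ • y = y :=
  inertia_smul_eq N r hℓ hℓN A hA σ hσ y k (by rw [hy]; exact smul_zero (A := JZero N) σ)

/-- **Leaf G3** (exact frozen type of `H975/DescSpec.lean`). -/
theorem g3 : Fermat.Agent.S15.H975.G3Statement := by
  intro p _ hp r hr ℓ hℓ hℓp hℓr A hA τ hτ y hy
  have hℓN : ¬ ℓ ∣ p * r := by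
    intro h
    rcases (Nat.Prime.dvd_mul hℓ).1 h with h1 | h1
    · exact hℓp ((Nat.prime_dvd_prime_iff_eq hℓ hp).1 h1)
    · exact hℓr ((Nat.prime_dvd_prime_iff_eq hℓ hr).1 h1)
  exact inertia_smul_eq p r hℓ hℓN A hA τ hτ y 1 (by rw [pow_one]; exact hy)

end Fermat.Agent.S15.H106

end
-- ===== PACK-END S15/H106/G3.lean

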