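import Fermat.Prelude.Def_GaloisRep_ComplexConjugation
import Fermat.Agent.Pack.S44C.G0E29L3
import Fermat.Agent.Pack.S44C.G0E28L3
import Fermat.Agent.Pack.L1.E6L0
import Fermat.Agent.Pack.L1.E5L0
import Fermat.Agent.Pack.S43MC.G0E12L2
import Fermat.Agent.Pack.S44C.G0E27L3
import Fermat.Agent.Pack.L1.E3L1
import Fermat.Agent.Pack.L1.E8L1
import Fermat.Agent.Pack.S59C.E11L3
import Fermat.Agent.Pack.L1.E1L2
import Fermat.Agent.Pack.S43MC.G0E28L1
import Fermat.Agent.Pack.S43MC.G0E23L1
import Fermat.Agent.Pack.L1.E2L2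
import Fermat.Agent.Pack.L1.E7L2
import Fermat.Agent.Pack.S43GC.G0E16L2
import Fermat.Agent.Pack.L1.E8L3

-- ===== PACK-BEGIN S15/H111/PairDict.lean
section
/-
Row S15, node DESC, tower COUNT (helper111): the pairing (PAIR) on `J₀(N)[m]` from the Kummer
dictionary.  Design: `coord/S15-COUNT2-helper111.md`.

Inputs, all on main:
* the Kummer dictionary of rows S29/S30: `S30.Chain.kumPackage` (every cuspidal character
  `Γ₀(N) → ℤ/m` has a point; uniqueness, injectivity, additivity), `S30.H810` (every `m`-torsion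
  point has a character), the Hecke compatibility `S29.H395` (replayed here for ALL `ℓ ∤ N`,
  including `ℓ ∣ m`);
* the Manin pairing modulo `m`: `S59.H585` (bi-additive, perfect, Hecke self-adjoint);
* EPS: `S15.H221.maninPairing_gamma0Eps` (anti-invariance under `Ad ε`, `ε = diag(-1, 1)`).

The only open input is CONJ (`ConjStatement`, owners helper337/helper346): the Kummer character
of `cc • x` is `γ ↦ - c (ε γ ε⁻¹)`.  Only the weak form `ConjWeakStatement` (`± c ∘ Ad ε`) is used.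

Main results:
* `chi N m x`          : the cuspidal class of the `m`-torsion point `x`;
* `isKum_hecke_all`    : Hecke compatibility of the dictionary for every prime `ℓ ∤ N`;
* `pairJ N m`          : the pairing `B(x, y) = maninPairing (chi x) (chi y)`;
* `pairStatement_of_conj : ConjWeakStatement → PairStatement`.
-/








set_option autoImplicit false
set_option linter.style.haveILetI false

noncomputable section

open ModularCurve AlgebraicCurve CongruenceSubgroup UpperHalfPlane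
open scoped MatrixGroups Manifold Real

namespace Fermat.Agent.S15.H111

open Fermat.Agent.S24 Fermat.Agent.S29 Fermat.Agent.S29.M4b Fermat.Agent.S37.H400
open Fermat.Agent.S41.Spec Fermat.Agent.Ribet.H883 Fermat.Agent.S29.H395

/-! ## Statements -/

/-- **CONJ**: the Kummer character of the complex conjugate of `x` is `γ ↦ - c (ε γ ε⁻¹)`. -/
def ConjStatement : Prop :=
  ∀ (N m : ℕ) [NeZero N] [NeZero m] (c : G0 N → ZMod m) (x : JZero N),
    IsKum N m c x →
      IsKum N m (fun g => - c (Fermat.Agent.S15.H221.gamma0Eps N g)) (complexConjugation • x)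

/-- **CONJ, weak form**: the Kummer character of the complex conjugate of `x` is
`γ ↦ u * c (ε γ ε⁻¹)` for a fixed sign `u` (`u * u = 1`). -/
def ConjWeakStatement : Prop :=
  ∀ (N m : ℕ) [NeZero N] [NeZero m], ∃ u : ZMod m, u * u = 1 ∧
    ∀ (c : G0 N → ZMod m) (x : JZero N), IsKum N m c x →
      IsKum N m (fun g => u * c (Fermat.Agent.S15.H221.gamma0Eps N g)) (complexConjugation • x)

theorem conjWeak_of_conj (h : ConjStatement) : ConjWeakStatement := by
  intro N m _ _
  refine ⟨-1, by ring, fun c x hx => ?_⟩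
  have := h N m c x hx
  simpa using this

/-- **PAIR**: on every `J₀(N)[m]` a pairing with values in `ℤ/m`, bi-additive, with trivial
right kernel, self-adjoint for the Hecke operators `T_ℓ`, `ℓ ∤ N`, and anti-invariant under the
complex conjugation.  (Values outside `J₀(N)[m]` are junk.) -/
def PairStatement : Prop :=
  ∀ (N : ℕ) [NeZero N] (m : ℕ), 0 < m →
    ∃ B : JZero N → JZero N → ZMod m,
      (∀ x x' y : JZero N, m • x = 0 → m • x' = 0 → m • y = 0 →
        B (x + x') y = B x y + B x' y) ∧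
      (∀ x y y' : JZero N, m • x = 0 → m • y = 0 → m • y' = 0 →
        B x (y + y') = B x y + B x y') ∧
      (∀ y : JZero N, m • y = 0 → (∀ x : JZero N, m • x = 0 → B x y = 0) → y = 0) ∧
      (∀ ℓ : Nat.Primes, ¬ (ℓ : ℕ) ∣ N → ∀ x y : JZero N, m • x = 0 → m • y = 0 →
        B (heckeOperatorBar N ℓ x) y = B x (heckeOperatorBar N ℓ y)) ∧
      (∀ x y : JZero N, m • x = 0 → m • y = 0 →
        B (complexConjugation • x) (complexConjugation • y) = - B x y)

/-! ## The two languages for characters -/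

section Lang

variable {N : ℕ} {A : Type*} [AddCommGroup A]

theorem isCuspidal_of_isParHom {φ : Additive (Gamma0 N) →+ A} (h : IsParHom (funOf φ)) :
    IsCuspidal φ := by
  refine ⟨fun γ hγ => ?_, fun γ hγ => ?_⟩
  · refine h.parabolic γ ?_
    have hγ' : (G0.mat γ).trace ^ 2 = 4 := hγ
    have h0 : ((G0.mat γ).trace - 2) * ((G0.mat γ).trace + 2) = 0 := by
      linear_combination hγ'
    rcases mul_eq_zero.mp h0 with h1 | h1
    · left; linarith
    · right; linarith
  · obtain ⟨n, hn, hγn⟩ := isOfFinOrder_iff_pow_eq_one.mp hγ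
    exact h.elliptic γ n hn hγn

theorem isParHom_of_isCuspidal {φ : Additive (Gamma0 N) →+ A} (h : IsCuspidal φ) :
    IsParHom (funOf φ) := by
  refine ⟨funOf_map_mul φ, fun γ hγ => h.1 γ ?_, fun γ n hn hγn =>
    h.2 γ (isOfFinOrder_iff_pow_eq_one.mpr ⟨n, hn, hγn⟩)⟩
  have e : ((γ : SL(2, ℤ)) : Matrix (Fin 2) (Fin 2) ℤ).trace = (G0.mat γ).trace := rfl
  rw [e]
  rcases hγ with h1 | h1 <;> rw [h1] <;> norm_num

theorem funOf_add (φ ψ : Additive (Gamma0 N) →+ A) : funOf (φ + ψ) = funOf φ + funOf ψ := rfl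

theorem funOf_zero : funOf (0 : Additive (Gamma0 N) →+ A) = 0 := rfl

theorem funOf_homOf (c : G0 N → A) (hc : ∀ γ γ' : G0 N, c (γ * γ') = c γ + c γ') :
    funOf (homOf c hc) = c := rfl

end Lang

/-! ## Hecke compatibility of the dictionary for every `ℓ ∤ N` -/

section Hecke

variable (N : ℕ) [NeZero N] (p : ℕ) [NeZero p]

/-- **K4-HECKE for all `ℓ ∤ N`** (replay of `S29.H395.isKum_hecke_of_normId`, whose hypothesis
`ℓ ∤ N * p` is only used through `ℓ ∤ N`). -/
theorem isKum_hecke_all (ℓ : Nat.Primes) (hℓN : ¬ (ℓ : ℕ) ∣ N)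
    {c c' : G0 N → ZMod p} (hcc' : IsTransfer N (ℓ : ℕ) c c')
    {x : JZero N} (h : IsKum N p c x) : IsKum N p c' (heckeOperatorBar N ℓ x) := by
  haveI : NeZero (ℓ : ℕ) := ⟨ℓ.2.ne_zero⟩
  haveI : Fact (ℓ : ℕ).Prime := ⟨ℓ.2⟩
  have hnorm : H222.NormId N (ℓ : ℕ) := Fermat.Agent.S29.M4b.H395.normId_H222 N (ℓ : ℕ) ℓ.2 hℓN
  obtain ⟨f, t, U, ht, hx, hU, hR⟩ := h
  obtain ⟨hα, hβ, hP, hfin, hFI, hN⟩ := heckeInputsAlong_bar N (ℓ : ℕ) ℓ.2
  haveI := hP
  set α := heckeAlphaBar (AlgebraicClosure ℚ) N (ℓ : ℕ) with hαdef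
  set β := heckeBetaBar (AlgebraicClosure ℚ) N (ℓ : ℕ) with hβdef
  have hT : heckeOperatorBar N ℓ x = Pic0.correspondence β α hβ hα hFI hfin hN x := by
    rw [heckeOperatorBar_apply, heckeOperatorAlong_eq hα hβ hFI hfin hN]
    rfl
  have hx' := hx.correspondence β α hβ hα hFI hfin hN
  rw [← hT] at hx'
  have ht' : H455.normAlong α (β t) ≠ 0 :=
    H455.normAlong_ne_zero α hfin ((map_ne_zero β).mpr ht)
  have hmul : H455.normAlong α (β f) * H455.normAlong α (β t) ^ p
      = H222.heckeNorm N (ℓ : ℕ) (f * t ^ p) := by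
    rw [← H455.normAlong_pow, ← H455.normAlong_mul, ← map_pow, ← map_mul]
    rfl
  have hgood : (fun τ => heckeProd (ℓ : ℕ) U τ ^ p) ∈ H648.goodRing N := by
    rw [← heckeProd_pow_fun]
    exact heckeProd_mem_goodRing hℓN hR.1
  have hq : H708.qexpFun 1 (fun τ => heckeProd (ℓ : ℕ) U τ ^ p)
      = coeffMap Deg457.iotaC
          ((((H455.normAlong α (β f) * H455.normAlong α (β t) ^ p : FF N)) : FF N) :
            LaurentSeries Kbar) := by
    rw [← heckeProd_pow_fun, qexpFun_heckeProd hℓN hR.1, hR.2, ← coeffMap_kronNorm, hmul]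
    exact congrArg _ (hnorm (f * t ^ p)).symm
  have hne : (H455.normAlong α (β f) * H455.normAlong α (β t) ^ p : FF N) ≠ 0 :=
    mul_ne_zero hx'.ne_zero (pow_ne_zero _ ht')
  refine ⟨H455.normAlong α (β f), H455.normAlong α (β t), heckeProd (ℓ : ℕ) U, ht', hx',
    ⟨mdiff_heckeProd hU.mdiff, ?_, hasChar_heckeProd N p hℓN hcc' hU.hasChar, hgood⟩,
    ⟨hgood, hq⟩⟩
  by_contra hzero
  push Not at hzero
  have hp0 : p ≠ 0 := NeZero.ne p
  have h0 : (fun τ => heckeProd (ℓ : ℕ) U τ ^ p) = 0 := by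
    funext τ
    rw [hzero τ]
    simp [hp0]
  have h1 := (H882.hasQExp_of_mem_goodRing hgood)
  have h2 : H708.qexpFun 1 (fun τ => heckeProd (ℓ : ℕ) U τ ^ p) = 0 :=
    h1.eq_zero_iff.mpr h0
  rw [hq] at h2
  have hinj : Function.Injective (coeffMap Deg457.iotaC) :=
    inf_coeffMap_injective Deg457.iotaC.injective
  have h3 : (((H455.normAlong α (β f) * H455.normAlong α (β t) ^ p : FF N)) :
      LaurentSeries Kbar) = 0 := hinj (by rw [h2, map_zero])
  exact hne (by exact_mod_cast h3)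

end Hecke

/-! ## The character of a torsion point -/

section Chi

variable (N : ℕ) [NeZero N] (m : ℕ) [NeZero m]

theorem isKum_zero_zero : IsKum N m (0 : G0 N → ZMod m) (0 : JZero N) := by
  have H := Fermat.Agent.S30.Chain.kumPackage N m
  have hpar : IsParHom (0 : G0 N → ZMod m) :=
    ⟨fun _ _ => by simp, fun _ _ => rfl, fun _ _ _ _ => rfl⟩
  obtain ⟨x₀, hx₀⟩ := H.ex 0 hpar
  have h2 := H.add 0 0 x₀ x₀ hx₀ hx₀
  rw [add_zero] at h2
  have hx : x₀ = x₀ + x₀ := H.uniq 0 x₀ (x₀ + x₀) hx₀ h2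
  have : x₀ = 0 := by
    have := congrArg (fun z => z - x₀) hx
    simpa using this.symm
  rwa [this] at hx₀

variable {N m}

theorem isKum_nsmul {c : G0 N → ZMod m} {x : JZero N} (h : IsKum N m c x) (n : ℕ) :
    IsKum N m (n • c) (n • x) := by
  have H := Fermat.Agent.S30.Chain.kumPackage N m
  induction n with
  | zero =>
    rw [zero_nsmul, zero_nsmul]
    exact isKum_zero_zero N m
  | succ n ih =>
    rw [succ_nsmul, succ_nsmul]
    exact H.add _ _ _ _ ih h

theorem nsmul_eq_zero_of_isKum {c : G0 N → ZMod m} {x : JZero N} (h : IsKum N m c x) :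
    m • x = 0 := by
  obtain ⟨f, t, U, -, hx, -, -⟩ := h
  have := hx.zsmul_eq_zero
  rwa [natCast_zsmul] at this

theorem isKum_neg {c : G0 N → ZMod m} {x : JZero N} (h : IsKum N m c x) :
    IsKum N m (-c) (-x) := by
  have h1 := isKum_nsmul h (m - 1)
  have hm : 1 ≤ m := Nat.one_le_iff_ne_zero.mpr (NeZero.ne m)
  have e1 : (m - 1) • x = -x := by
    have h0 := nsmul_eq_zero_of_isKum h
    have : (m - 1) • x + x = 0 := by
      rw [← succ_nsmul, Nat.sub_add_cancel hm, h0]
    exact eq_neg_of_add_eq_zero_left this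
  have e2 : (m - 1) • c = -c := by
    have : (m - 1) • c + c = 0 := by
      rw [← succ_nsmul, Nat.sub_add_cancel hm]
      funext γ
      simp
    exact eq_neg_of_add_eq_zero_left this
  rwa [e1, e2] at h1

/-- The character of a point is unique. -/
theorem isKum_char_unique {c c' : G0 N → ZMod m} {x : JZero N} (h : IsKum N m c x)
    (h' : IsKum N m c' x) : c = c' := by
  have H := Fermat.Agent.S30.Chain.kumPackage N m
  have h1 := H.add _ _ _ _ h (isKum_neg h')
  rw [add_neg_cancel] at h1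
  have := H.inj _ h1
  exact sub_eq_zero.mp (by rw [sub_eq_add_neg]; exact this)

variable (N m)

open Classical in
/-- The cuspidal class `Γ₀(N) → ℤ/m` of the `m`-torsion point `x` (`0` if `x` is not
`m`-torsion). -/
def chi (x : JZero N) : Additive (Gamma0 N) →+ ZMod m :=
  if h : ∃ φ : Additive (Gamma0 N) →+ ZMod m, IsKum N m (funOf φ) x then h.choose else 0

variable {N m}

theorem exists_hom_isKum {x : JZero N} (hx : m • x = 0) :
    ∃ φ : Additive (Gamma0 N) →+ ZMod m, IsKum N m (funOf φ) x := by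
  have hx' : (m : ℤ) • x = 0 := by rw [natCast_zsmul]; exact hx
  obtain ⟨c, hc, hk⟩ := Fermat.Agent.S30.H810.exists_isParHom_isKum_of_torsion N m hx'
  exact ⟨homOf c hc.map_mul, hk⟩

theorem isKum_chi {x : JZero N} (hx : m • x = 0) : IsKum N m (funOf (chi N m x)) x := by
  have h := exists_hom_isKum (N := N) (m := m) hx
  rw [chi, dif_pos h]
  exact h.choose_spec

theorem chi_eq_of_isKum {x : JZero N} {φ : Additive (Gamma0 N) →+ ZMod m}
    (h : IsKum N m (funOf φ) x) : chi N m x = φ :=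
  funOf_injective (isKum_char_unique (isKum_chi (nsmul_eq_zero_of_isKum h)) h)

theorem isCuspidal_chi {x : JZero N} (hx : m • x = 0) : IsCuspidal (chi N m x) :=
  isCuspidal_of_isParHom (Fermat.Agent.S30.H810.isParHom_of_isKum (isKum_chi hx))

theorem chi_add {x x' : JZero N} (hx : m • x = 0) (hx' : m • x' = 0) :
    chi N m (x + x') = chi N m x + chi N m x' := by
  have H := Fermat.Agent.S30.Chain.kumPackage N m
  refine chi_eq_of_isKum ?_
  rw [funOf_add]
  exact H.add _ _ _ _ (isKum_chi hx) (isKum_chi hx')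

theorem eq_zero_of_chi_eq_zero {y : JZero N} (hy : m • y = 0) (h : chi N m y = 0) : y = 0 := by
  have H := Fermat.Agent.S30.Chain.kumPackage N m
  have h1 := isKum_chi (N := N) (m := m) hy
  rw [h, funOf_zero] at h1
  exact H.uniq 0 y 0 h1 (isKum_zero_zero N m)

theorem exists_chi_eq {φ : Additive (Gamma0 N) →+ ZMod m} (hφ : IsCuspidal φ) :
    ∃ x : JZero N, m • x = 0 ∧ chi N m x = φ := by
  have H := Fermat.Agent.S30.Chain.kumPackage N m
  obtain ⟨x, hx⟩ := H.ex (funOf φ) (isParHom_of_isCuspidal hφ)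
  exact ⟨x, nsmul_eq_zero_of_isKum hx, chi_eq_of_isKum hx⟩

theorem chi_hecke (ℓ : ℕ) [Fact ℓ.Prime] (hℓN : ¬ ℓ ∣ N) {x : JZero N} (hx : m • x = 0) :
    chi N m (heckeOperatorBar N ⟨ℓ, Fact.out⟩ x) = H642.heckeTransfer hℓN (chi N m x) := by
  refine chi_eq_of_isKum ?_
  rw [funOf_heckeTransfer]
  exact isKum_hecke_all N m ⟨ℓ, Fact.out⟩ hℓN
    (Fermat.Agent.S30.H450.isTransfer_heckeCoh_h450 Fact.out hℓN _) (isKum_chi hx)

/-- `φ ↦ u • (φ ∘ Ad ε)`. -/
def twistEps (N : ℕ) (u : ZMod m) (φ : Additive (Gamma0 N) →+ ZMod m) :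
    Additive (Gamma0 N) →+ ZMod m :=
  u • φ.comp (MonoidHom.toAdditive (Fermat.Agent.S15.H221.gamma0Eps N).toMonoidHom)

theorem funOf_twistEps (u : ZMod m) (φ : Additive (Gamma0 N) →+ ZMod m) :
    funOf (twistEps N u φ) = fun g => u * funOf φ (Fermat.Agent.S15.H221.gamma0Eps N g) := rfl

theorem chi_conj {u : ZMod m}
    (hu : ∀ (c : G0 N → ZMod m) (x : JZero N), IsKum N m c x →
      IsKum N m (fun g => u * c (Fermat.Agent.S15.H221.gamma0Eps N g)) (complexConjugation • x))
    {x : JZero N} (hx : m • x = 0) :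
    chi N m (complexConjugation • x) = twistEps N u (chi N m x) := by
  refine chi_eq_of_isKum ?_
  rw [funOf_twistEps]
  exact hu _ _ (isKum_chi hx)

end Chi

/-! ## The pairing -/

section Pair

variable (N : ℕ) [NeZero N] (m : ℕ) [NeZero m]

/-- The pairing on `J₀(N)[m]`: the Manin pairing of the characters. -/
def pairJ (x y : JZero N) : ZMod m :=
  maninPairing (Gamma0 N) (chi N m x) (chi N m y)

variable {N m}

theorem hneg_gamma0 : (-1 : SL(2, ℤ)) ∈ Gamma0 N := Fermat.Agent.S59.H585.neg_one_mem_Gamma0' N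

theorem pairJ_add_left {x x' y : JZero N} (hx : m • x = 0) (hx' : m • x' = 0) (hy : m • y = 0) :
    pairJ N m (x + x') y = pairJ N m x y + pairJ N m x' y := by
  have := Fermat.Agent.S59.H585.finiteIndex_Gamma0' (NeZero.ne N)
  rw [pairJ, chi_add hx hx']
  exact Fermat.Agent.S59.H585.maninPairing_add_left hneg_gamma0 (isCuspidal_chi hx)
    (isCuspidal_chi hx') (isCuspidal_chi hy)

theorem pairJ_add_right {x y y' : JZero N} (hx : m • x = 0) (hy : m • y = 0) (hy' : m • y' = 0) :
    pairJ N m x (y + y') = pairJ N m x y + pairJ N m x y' := by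
  have := Fermat.Agent.S59.H585.finiteIndex_Gamma0' (NeZero.ne N)
  rw [pairJ, chi_add hy hy']
  exact Fermat.Agent.S59.H585.maninPairing_add_right hneg_gamma0 (isCuspidal_chi hx)
    (isCuspidal_chi hy) (isCuspidal_chi hy')

theorem pairJ_nondeg {y : JZero N} (hy : m • y = 0)
    (h : ∀ x : JZero N, m • x = 0 → pairJ N m x y = 0) : y = 0 := by
  have := Fermat.Agent.S59.H585.finiteIndex_Gamma0' (NeZero.ne N)
  refine eq_zero_of_chi_eq_zero hy ?_
  refine Fermat.Agent.S59.H585.pairing_mod_right_kernel hneg_gamma0 m (isCuspidal_chi hy) ?_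
  intro φ hφ
  obtain ⟨x, hx, rfl⟩ := exists_chi_eq (N := N) (m := m) hφ
  exact h x hx

theorem nsmul_heckeOperatorBar (ℓ : Nat.Primes) {x : JZero N} (hx : m • x = 0) :
    m • heckeOperatorBar N ℓ x = 0 := by
  rw [← map_nsmul, hx, map_zero]

theorem pairJ_hecke (ℓ : Nat.Primes) (hℓN : ¬ (ℓ : ℕ) ∣ N) {x y : JZero N} (hx : m • x = 0)
    (hy : m • y = 0) :
    pairJ N m (heckeOperatorBar N ℓ x) y = pairJ N m x (heckeOperatorBar N ℓ y) := by
  haveI : Fact (ℓ : ℕ).Prime := ⟨ℓ.2⟩
  have e : (⟨(ℓ : ℕ), Fact.out⟩ : Nat.Primes) = ℓ := Subtype.ext rfl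
  have h1 := chi_hecke (N := N) (m := m) (ℓ : ℕ) hℓN hx
  have h2 := chi_hecke (N := N) (m := m) (ℓ : ℕ) hℓN hy
  rw [e] at h1 h2
  rw [pairJ, pairJ, h1, h2]
  exact Fermat.Agent.S59.H585.pairing_hecke_mod m hℓN (NeZero.ne N) _ _ (isCuspidal_chi hx)
    (isCuspidal_chi hy)

theorem nsmul_conj {x : JZero N} (hx : m • x = 0) : m • (complexConjugation • x) = 0 := by
  rw [smul_comm, hx]
  exact smul_zero (A := JZero N) complexConjugation

theorem pairJ_conj {u : ZMod m} (huu : u * u = 1)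
    (hu : ∀ (c : G0 N → ZMod m) (x : JZero N), IsKum N m c x →
      IsKum N m (fun g => u * c (Fermat.Agent.S15.H221.gamma0Eps N g)) (complexConjugation • x))
    {x y : JZero N} (hx : m • x = 0) (hy : m • y = 0) :
    pairJ N m (complexConjugation • x) (complexConjugation • y) = - pairJ N m x y := by
  have := Fermat.Agent.S59.H585.finiteIndex_Gamma0' (NeZero.ne N)
  rw [pairJ, pairJ, chi_conj hu hx, chi_conj hu hy, twistEps, twistEps]
  have cx := Fermat.Agent.S15.H221.isCuspidal_comp_gamma0Eps (isCuspidal_chi (N := N) hx)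
  have cy := Fermat.Agent.S15.H221.isCuspidal_comp_gamma0Eps (isCuspidal_chi (N := N) hy)
  have cy' : IsCuspidalOn (Gamma0 N) (u • (chi N m y).comp
      (MonoidHom.toAdditive (Fermat.Agent.S15.H221.gamma0Eps N).toMonoidHom)) :=
    (Fermat.Agent.S59.H585.cuspSub (ZMod m) (Gamma0 N) (ZMod m)).smul_mem u cy
  rw [Fermat.Agent.S59.H585.maninPairing_smul_left hneg_gamma0 u cx cy',
    Fermat.Agent.S59.H585.maninPairing_smul_right hneg_gamma0 u cx cy,
    Fermat.Agent.S15.H221.maninPairing_gamma0Eps (NeZero.ne N) (isCuspidal_chi hx)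
      (isCuspidal_chi hy), ← mul_assoc, huu, one_mul]

end Pair

/-- **PAIR from CONJ** (everything else is on main). -/
theorem pairStatement_of_conjWeak (hC : ConjWeakStatement) : PairStatement := by
  intro N _ m hm
  haveI : NeZero m := ⟨hm.ne'⟩
  obtain ⟨u, huu, hu⟩ := hC N m
  exact ⟨pairJ N m, fun x x' y hx hx' hy => pairJ_add_left hx hx' hy,
    fun x y y' hx hy hy' => pairJ_add_right hx hy hy',
    fun y hy h => pairJ_nondeg hy h,
    fun ℓ hℓ x y hx hy => pairJ_hecke ℓ hℓ hx hy,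
    fun x y hx hy => pairJ_conj huu hu hx hy⟩

theorem pairStatement_of_conj (hC : ConjStatement) : PairStatement :=
  pairStatement_of_conjWeak (conjWeak_of_conj hC)

end Fermat.Agent.S15.H111

end

end
-- ===== PACK-END S15/H111/PairDict.lean

-- ===== PACK-BEGIN S15/H111/CountAll.lean
section
/-
Row S15, node DESC, tower COUNT (helper111): the official node `H975.CountStatement`
(real place, ALL primes `r`, ALL finite sets `S`) from DIV, FIN and PAIR.

* `r = 2`  : `(cc - 1) Y(W_E) ≤ U∞ = (cc - 1) E[4] ∩ J[2]` (LOC-∞) and `|U∞|² ≤ |W_E|` (COUNT-2,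
             `Count2Top.card_uoo_sq_le`: pairings modulo `2^k` for all `k` + `J = 2 J`);
* `r` odd  : `(cc - 1) Y(W_E) ≤ W_E^{cc = -1}`, which is isotropic for the pairing modulo `r`.

`PairStatement` is `H111/PairDict.lean` (`pairStatement_of_conjWeak`: PAIR from CONJ alone), so

    countStatement_of_conjWeak : DivStatement → FinStatement → ConjWeakStatement → CountStatement.

No restriction on `S` (the dictionary is Hecke-compatible at every `ℓ ∤ N`, `isKum_hecke_all`).
-/




set_option autoImplicit false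

noncomputable section

namespace Fermat.Agent.S15.H111

open ModularCurve Fermat.Agent.S15.H975 Fermat.Agent.S15.H2 Fermat.Agent.S15.H302

/-! ## Abstract algebra at a general modulus -/

section Abstract

variable {T : Type*} [CommRing T] (𝔪 : Ideal T) {J : Type*} [AddCommGroup J] [Module T J]

/-- `J[n]` as a `T`-submodule. -/
def nSub (T : Type*) [CommRing T] (J : Type*) [AddCommGroup J] [Module T J] (n : ℕ) :
    Submodule T J where
  carrier := {x | n • x = 0}
  zero_mem' := smul_zero _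
  add_mem' := fun {a b} ha hb => by
    show n • (a + b) = 0
    rw [smul_add, ha, hb, add_zero]
  smul_mem' := fun t x hx => by
    show n • (t • x) = 0
    rw [smul_comm, hx, smul_zero]

theorem mem_nSub {n : ℕ} {x : J} : x ∈ nSub T J n ↔ n • x = 0 := Iff.rfl

theorem coe_mem_primaryPart_nSub_iff {n : ℕ} (x : nSub T J n) :
    x ∈ primaryPart 𝔪 (nSub T J n) ↔ (x : J) ∈ primaryPart 𝔪 J := by
  constructor
  · rintro ⟨k, hk⟩
    exact ⟨k, fun t ht => by
      have := congrArg (fun e : nSub T J n => (e : J)) (hk t ht)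
      simpa using this⟩
  · rintro ⟨k, hk⟩
    exact ⟨k, fun t ht => Subtype.ext (by simpa using hk t ht)⟩

variable {𝔪}

/-- Projection to the `𝔪`-primary part inside `J[n]`. -/
theorem exists_projector_n (n : ℕ) [Finite ↥(nSub T J n)] :
    ∃ f : T, (∀ x : J, n • x = 0 → x - f • x ∈ primaryPart 𝔪 J) ∧
      ∀ y ∈ primaryPart 𝔪 J, n • y = 0 → f • y = 0 := by
  obtain ⟨K, f, hs⟩ := exists_isSplit 𝔪 (nSub T J n)
  refine ⟨f, fun x hx => ?_, fun y hyE hy => ?_⟩
  · have := hs.sub_smul_mem_primaryPart ⟨x, hx⟩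
    rw [coe_mem_primaryPart_nSub_iff] at this
    simpa using this
  · have h1 : (⟨y, hy⟩ : nSub T J n) ∈ primaryPart 𝔪 (nSub T J n) := by
      rw [coe_mem_primaryPart_nSub_iff]; exact hyE
    have h2 := (hs.mem_primaryPart_iff _).mp h1
    have := congrArg (fun e : nSub T J n => (e : J)) h2
    simpa using this

/-- **The odd count (abstract).**  If `n` is odd and `J[n]` carries a good pairing, every subgroup
of the primary part of `J[n]` on which `c = -1` has at most `√|E[n]|` elements. -/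
theorem card_minus_sq_le {n : ℕ} [NeZero n] (hodd : Odd n) (c : J →ₗ[T] J)
    [Finite ↥(nSub T J n)] (B : J → J → ZMod n)
    (hl : ∀ x x' y : J, n • x = 0 → n • x' = 0 → n • y = 0 → B (x + x') y = B x y + B x' y)
    (hr : ∀ x y y' : J, n • x = 0 → n • y = 0 → n • y' = 0 → B x (y + y') = B x y + B x y')
    (hnd : ∀ y : J, n • y = 0 → (∀ x : J, n • x = 0 → B x y = 0) → y = 0)
    (hhecke : ∀ (t : T) (x y : J), n • x = 0 → n • y = 0 → B (t • x) y = B x (t • y))
    (hconj : ∀ x y : J, n • x = 0 → n • y = 0 → B (c x) (c y) = - B x y)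
    (E Y : AddSubgroup J) (hE : ∀ w, w ∈ E ↔ w ∈ primaryPart 𝔪 J ∧ n • w = 0)
    (hYE : Y ≤ E) (hY : ∀ w ∈ Y, c w = -w) :
    Nat.card ↥Y ^ 2 ≤ Nat.card ↥E := by
  have hfinE : Finite ↥E :=
    Finite.of_injective (fun x : ↥E => (⟨x, ((hE x).mp x.2).2⟩ : ↥(nSub T J n)))
      (fun a b h => Subtype.ext (congrArg (fun e : ↥(nSub T J n) => (e : J)) h))
  have hEn : ∀ x ∈ E, n • x = 0 := fun x hx => ((hE x).mp hx).2
  have hYn : ∀ y ∈ Y, n • y = 0 := fun y hy => hEn y (hYE hy)
  have hr0 : ∀ x : J, n • x = 0 → B x 0 = 0 := fun x hx => by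
    have := hr x 0 0 hx (smul_zero n) (smul_zero n)
    rw [add_zero] at this
    exact left_eq_add.mp this
  have hl0 : ∀ y : J, n • y = 0 → B 0 y = 0 := fun y hy => by
    have := hl 0 0 y (smul_zero n) (smul_zero n) hy
    rw [add_zero] at this
    exact left_eq_add.mp this
  have hnegl : ∀ x y : J, n • x = 0 → n • y = 0 → B (-x) y = - B x y := fun x y hx hy => by
    have h := hl x (-x) y hx (by rw [smul_neg, hx, neg_zero]) hy
    rw [add_neg_cancel, hl0 y hy] at h
    exact eq_neg_of_add_eq_zero_right h.symm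
  have hnegr : ∀ x y : J, n • x = 0 → n • y = 0 → B x (-y) = - B x y := fun x y hx hy => by
    have h := hr x y (-y) hx hy (by rw [smul_neg, hy, neg_zero])
    rw [add_neg_cancel, hr0 x hx] at h
    exact eq_neg_of_add_eq_zero_right h.symm
  obtain ⟨f, hf1, hf2⟩ := exists_projector_n (T := T) (𝔪 := 𝔪) (J := J) n
  refine card_sq_le_of_isotropic B E Y hYE
    (fun x hx x' hx' y hy => hl x x' y (hEn x hx) (hEn x' hx') (hYn y hy))
    (fun x hx y hy y' hy' => hr x y y' (hEn x hx) (hYn y hy) (hYn y' hy')) ?_ ?_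
  · -- isotropy
    intro y hy y' hy'
    have h1 := hconj y y' (hYn y hy) (hYn y' hy')
    rw [hY y hy, hY y' hy', hnegl _ _ (hYn y hy) (by rw [smul_neg, hYn y' hy', neg_zero]),
      hnegr _ _ (hYn y hy) (hYn y' hy'), neg_neg] at h1
    -- `B y y' = - B y y'` and `n` odd
    have h2 : (2 : ZMod n) * B y y' = 0 := by
      rw [two_mul]
      nth_rewrite 1 [h1]
      exact neg_add_cancel _
    have hu : IsUnit (2 : ZMod n) := by
      have := (ZMod.isUnit_iff_coprime 2 n).mpr (Nat.coprime_two_left.mpr hodd)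
      simpa using this
    exact (hu.mul_right_eq_zero).mp h2
  · -- nondegeneracy on the primary part
    intro y hy hzero
    have hyE := (hE y).mp (hYE hy)
    refine hnd y hyE.2 fun x hx => ?_
    have hfx : n • (f • x) = 0 := by rw [smul_comm, hx, smul_zero]
    have hx'' : x - f • x ∈ E :=
      (hE _).mpr ⟨hf1 x hx, by rw [smul_sub, hx, hfx, sub_zero]⟩
    have h1 := hzero _ hx''
    have h2 := hl (x - f • x) (f • x) y (hEn _ hx'') hfx hyE.2
    rw [sub_add_cancel, h1, zero_add, hhecke f x y hx hyE.2, hf2 y hyE.1 hyE.2, hr0 x hx] at h2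
    exact h2

end Abstract

/-! ## The Eisenstein ideal at a general prime `r` -/

section Good

variable (p : ℕ) [NeZero p] (S : Set ℕ)

attribute [local instance] goodModule

/-- The Eisenstein ideal `(r, T_ℓ - 1 - ℓ : ℓ good)` of the good polynomial ring. -/
def eisIdealR (r : ℕ) : Ideal (GoodAlg p S) :=
  Ideal.span (insert (MvPolynomial.C (r : ℤ)) (Set.range (etaGen p S)))

theorem etaGen_mem_eisIdealR (r : ℕ) (ℓ : GoodPrime p S) : etaGen p S ℓ ∈ eisIdealR p S r :=
  Ideal.subset_span (Set.mem_insert_of_mem _ ⟨ℓ, rfl⟩)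

theorem C_natCast_smul (r : ℕ) (w : JZero p) :
    (MvPolynomial.C (r : ℤ) : GoodAlg p S) • w = r • w := by
  rw [good_smul_def, goodEval_C, Module.End.intCast_apply]
  exact natCast_zsmul w r

theorem finite_nSub_of_finite_tors (n : ℕ) [h : Finite ↥(tors p n)] :
    Finite ↥(nSub (GoodAlg p S) (JZero p) n) :=
  Finite.of_injective
    (fun x : ↥(nSub (GoodAlg p S) (JZero p) n) => (⟨x, x.2⟩ : ↥(tors p n)))
    (fun a b hab => Subtype.ext (congrArg (fun e : ↥(tors p n) => (e : JZero p)) hab))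

theorem isEis_of_mem_primaryPartR {r : ℕ} {w : JZero p}
    (hw : w ∈ primaryPart (eisIdealR p S r) (JZero p)) : IsEis p S w := by
  intro ℓ h1 h2
  obtain ⟨k, hk⟩ := hw
  refine ⟨k, ?_⟩
  have := hk (etaGen p S ⟨ℓ, h1, h2⟩ ^ k)
    (Ideal.pow_mem_pow (etaGen_mem_eisIdealR p S r ⟨ℓ, h1, h2⟩) k)
  rwa [etaGen_pow_smul] at this

theorem mem_primaryPartR_of_isEis {r : ℕ} [Finite ↥(tors p r)] {w : JZero p} (hr : r • w = 0)
    (hw : IsEis p S w) : w ∈ primaryPart (eisIdealR p S r) (JZero p) := by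
  have hfin : Finite ↥(nSub (GoodAlg p S) (JZero p) r) := finite_nSub_of_finite_tors p S r
  obtain ⟨K, f, hs⟩ := exists_isSplit (eisIdealR p S r) (nSub (GoodAlg p S) (JZero p) r)
  have hrad : eisIdealR p S r ≤ (Ideal.torsionOf (GoodAlg p S) (JZero p) w).radical := by
    refine Ideal.span_le.mpr ?_
    rintro g (rfl | ⟨ℓ, rfl⟩)
    · refine Ideal.le_radical ?_
      rw [Ideal.mem_torsionOf_iff, C_natCast_smul, hr]
    · obtain ⟨k, hk⟩ := hw ℓ.1 ℓ.2.1 ℓ.2.2
      refine ⟨k, ?_⟩
      rw [Ideal.mem_torsionOf_iff]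
      exact (etaGen_pow_smul p S ℓ k w).trans hk
  have hf : f ∈ eisIdealR p S r := by
    have := hs.pow_mem 1
    simpa using this
  obtain ⟨n, hn⟩ := hrad hf
  rw [Ideal.mem_torsionOf_iff] at hn
  have hfw : f • (⟨w, hr⟩ : nSub (GoodAlg p S) (JZero p) r) = 0 := by
    rcases Nat.eq_zero_or_pos n with rfl | hnpos
    · rw [pow_zero, one_smul] at hn
      subst hn
      exact Subtype.ext (smul_zero f)
    · rw [← hs.pow_smul _ n hnpos]
      exact Subtype.ext hn
  have := (hs.mem_primaryPart_iff _).mpr hfw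
  rwa [coe_mem_primaryPart_nSub_iff] at this

/-- **The bridge at `r`**: `W_E = eis p S r` is the `r`-torsion of the primary part at the
Eisenstein ideal. -/
theorem mem_eis_iff_mem_primaryPartR {r : ℕ} [Finite ↥(tors p r)] {w : JZero p} :
    w ∈ H975.eis p S r ↔ w ∈ primaryPart (eisIdealR p S r) (JZero p) ∧ r • w = 0 :=
  ⟨fun h => ⟨mem_primaryPartR_of_isEis p S h.1 h.2, h.1⟩,
    fun h => ⟨h.2, isEis_of_mem_primaryPartR p S h.1⟩⟩

/-- Self-adjointness for the generators gives self-adjointness for the whole polynomial ring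
(general modulus). -/
theorem hecke_of_gens_n {n : ℕ} (B : JZero p → JZero p → ZMod n)
    (hl : ∀ x x' y : JZero p, n • x = 0 → n • x' = 0 → n • y = 0 →
      B (x + x') y = B x y + B x' y)
    (hr : ∀ x y y' : JZero p, n • x = 0 → n • y = 0 → n • y' = 0 →
      B x (y + y') = B x y + B x y')
    (hgen : ∀ ℓ : GoodPrime p S, ∀ x y : JZero p, n • x = 0 → n • y = 0 →
      B (heckeOperatorBar p ℓ.1 x) y = B x (heckeOperatorBar p ℓ.1 y))
    (t : GoodAlg p S) : ∀ x y : JZero p, n • x = 0 → n • y = 0 → B (t • x) y = B x (t • y) := by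
  have hsm : ∀ (u : GoodAlg p S) (x : JZero p), n • x = 0 → n • (u • x) = 0 :=
    fun u x hx => by rw [smul_comm, hx, smul_zero]
  have hL : ∀ y : JZero p, n • y = 0 →
      ∃ φ : ↥(tors p n) →+ ZMod n, ∀ x, φ x = B x y :=
    fun y hy => ⟨AddMonoidHom.mk' (fun x => B x y) (fun a b => hl a b y a.2 b.2 hy), fun _ => rfl⟩
  have hR : ∀ x : JZero p, n • x = 0 →
      ∃ φ : ↥(tors p n) →+ ZMod n, ∀ y, φ y = B x y :=
    fun x hx => ⟨AddMonoidHom.mk' (fun y => B x y) (fun a b => hr x a b hx a.2 b.2), fun _ => rfl⟩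
  induction t using MvPolynomial.induction_on with
  | C a =>
    intro x y hx hy
    have e1 : (MvPolynomial.C a : GoodAlg p S) • x = a • x := by
      rw [good_smul_def, goodEval_C, Module.End.intCast_apply]
    have e2 : (MvPolynomial.C a : GoodAlg p S) • y = a • y := by
      rw [good_smul_def, goodEval_C, Module.End.intCast_apply]
    rw [e1, e2]
    obtain ⟨φ, hφ⟩ := hL y hy
    obtain ⟨ψ, hψ⟩ := hR x hx
    have h1 := hφ (a • ⟨x, hx⟩)
    have h2 := hψ (a • ⟨y, hy⟩)
    rw [map_zsmul, hφ] at h1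
    rw [map_zsmul, hψ] at h2
    have c1 : ((a • (⟨x, hx⟩ : ↥(tors p n)) : ↥(tors p n)) : JZero p) = a • x := rfl
    have c2 : ((a • (⟨y, hy⟩ : ↥(tors p n)) : ↥(tors p n)) : JZero p) = a • y := rfl
    rw [c1] at h1
    rw [c2] at h2
    rw [← h1, ← h2]
  | add u v hu hv =>
    intro x y hx hy
    rw [add_smul, add_smul, hl _ _ y (hsm u x hx) (hsm v x hx) hy,
      hr x _ _ hx (hsm u y hy) (hsm v y hy), hu x y hx hy, hv x y hx hy]
  | mul_X u ℓ hu =>
    intro x y hx hy
    have eX : ∀ z : JZero p, (MvPolynomial.X ℓ : GoodAlg p S) • z = heckeOperatorBar p ℓ.1 z :=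
      fun z => by rw [good_smul_def, goodEval_X]
    have hXx : n • heckeOperatorBar p ℓ.1 x = 0 := by
      rw [← eX]; exact hsm _ x hx
    rw [mul_smul, eX, hu _ y hXx hy, hgen ℓ x _ hx (hsm u y hy), ← eX, ← mul_smul, mul_comm]

end Good

/-! ## COUNT -/

/-- The pairing on `J₀(p)[n]` in the form used below. -/
theorem exists_pairing (hPair : PairStatement) (p : ℕ) [NeZero p] (hp : p.Prime) (S : Set ℕ)
    (n : ℕ) (hn : 0 < n) :
    letI := goodModule p S
    ∃ B : JZero p → JZero p → ZMod n,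
      (∀ x x' y : JZero p, n • x = 0 → n • x' = 0 → n • y = 0 →
        B (x + x') y = B x y + B x' y) ∧
      (∀ x y y' : JZero p, n • x = 0 → n • y = 0 → n • y' = 0 →
        B x (y + y') = B x y + B x y') ∧
      (∀ y : JZero p, n • y = 0 → (∀ x : JZero p, n • x = 0 → B x y = 0) → y = 0) ∧
      (∀ (t : GoodAlg p S) (x y : JZero p), n • x = 0 → n • y = 0 →
        B (t • x) y = B x (t • y)) ∧
      (∀ x y : JZero p, n • x = 0 → n • y = 0 →
        B (complexConjugation • x) (complexConjugation • y) = - B x y) := by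
  letI := goodModule p S
  obtain ⟨B, h1, h2, h3, h4, h5⟩ := hPair p n hn
  refine ⟨B, h1, h2, h3, fun t => hecke_of_gens_n p S B h1 h2 (fun ℓ x y hx hy => ?_) t, h5⟩
  refine h4 ℓ.1 (fun hdvd => ℓ.2.1 ?_) x y hx hy
  exact (Nat.prime_dvd_prime_iff_eq ℓ.1.2 hp).mp hdvd

/-- **COUNT at `r = 2`.** -/
theorem count_two (hDiv : DivStatement) (hFin : FinStatement) (hPair : PairStatement)
    (p : ℕ) [NeZero p] (hp : p.Prime) (S : Finset ℕ) :
    Nat.card ↥(cocImage p (S : Set ℕ) 2 complexConjugation) ^ 2 ≤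
      Nat.card ↥(H975.eis p (S : Set ℕ) 2) := by
  letI : Module (GoodAlg p (S : Set ℕ)) (JZero p) := goodModule p (S : Set ℕ)
  have hfinT : ∀ k, Finite ↥(tors p (2 ^ k)) := fun k => hFin p (2 ^ k) (by positivity)
  have hfin : ∀ k, Finite ↥(tk (JZero p) k) := fun k =>
    haveI := hfinT k
    finite_tk_of_finite_tors p k
  haveI := hfinT 1
  haveI := hfin 2
  haveI := hfin 1
  have hdiv : ∀ x : JZero p, ∃ y : JZero p, 2 • y = x := hDiv p hp 2 Nat.prime_two
  have hc := ccLin_ccLin p (S : Set ℕ)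
  have hpair : ∀ k, ∃ B : JZero p → JZero p → ZMod (2 ^ k),
      IsGoodPairing (GoodAlg p (S : Set ℕ)) (ccLin p (S : Set ℕ)) k B := by
    intro k
    obtain ⟨B, h1, h2, h3, h4, h5⟩ := exists_pairing hPair p hp (S : Set ℕ) (2 ^ k) (by positivity)
    exact ⟨B, fun x hx x' hx' y hy => h1 x x' y (mem_tk.mp hx) (mem_tk.mp hx') (mem_tk.mp hy),
      fun x hx y hy y' hy' => h2 x y y' (mem_tk.mp hx) (mem_tk.mp hy) (mem_tk.mp hy'),
      fun y hy h => h3 y (mem_tk.mp hy) fun x hx => h x (mem_tk.mpr hx),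
      fun t x hx y hy => h4 t x y (mem_tk.mp hx) (mem_tk.mp hy),
      fun x hx y hy => h5 x y (mem_tk.mp hx) (mem_tk.mp hy)⟩
  have hcard := card_uoo_sq_le (𝔪 := eisIdeal p (S : Set ℕ)) (ccLin p (S : Set ℕ)) hc hdiv hfin
    hpair
  have heq : H975.eis p (S : Set ℕ) 2 =
      H111.eis (eisIdeal p (S : Set ℕ)) (JZero p) ⊓ tk (JZero p) 1 :=
    AddSubgroup.ext fun w => mem_eis_iff_mem_primaryPart p (S : Set ℕ)
  have hle : cocImage p (S : Set ℕ) 2 complexConjugation ≤
      uoo (eisIdeal p (S : Set ℕ)) (ccLin p (S : Set ℕ)) := by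
    rintro w ⟨y, ⟨hy1, hy2⟩, rfl⟩
    have hyE : ccLin p (S : Set ℕ) y - y ∈ primaryPart (eisIdeal p (S : Set ℕ)) (JZero p) :=
      ((mem_eis_iff_mem_primaryPart p (S : Set ℕ)).mp (hy2 complexConjugation)).1
    exact sub_mem_uoo (𝔪 := eisIdeal p (S : Set ℕ)) (ccLin p (S : Set ℕ)) hc hdiv y
      (hy1 complexConjugation) hyE
  have hfinU : Finite ↥(uoo (eisIdeal p (S : Set ℕ)) (ccLin p (S : Set ℕ))) :=
    Finite.of_injective
      (fun x : ↥(uoo (eisIdeal p (S : Set ℕ)) (ccLin p (S : Set ℕ))) =>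
        (⟨x, (AddSubgroup.mem_inf.mp x.2).2⟩ : ↥(tk (JZero p) 1)))
      (fun a b h => Subtype.ext (congrArg (fun e : ↥(tk (JZero p) 1) => (e : JZero p)) h))
  have hcardle : Nat.card ↥(cocImage p (S : Set ℕ) 2 complexConjugation) ≤
      Nat.card ↥(uoo (eisIdeal p (S : Set ℕ)) (ccLin p (S : Set ℕ))) :=
    Nat.card_le_card_of_injective (fun x => (⟨x, hle x.2⟩ :
        ↥(uoo (eisIdeal p (S : Set ℕ)) (ccLin p (S : Set ℕ)))))
      (fun a b h => Subtype.ext (congrArg
        (fun e : ↥(uoo (eisIdeal p (S : Set ℕ)) (ccLin p (S : Set ℕ))) => (e : JZero p)) h))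
  rw [heq]
  exact (Nat.pow_le_pow_left hcardle 2).trans hcard

/-- **COUNT at an odd prime `r`.** -/
theorem count_odd (hFin : FinStatement) (hPair : PairStatement)
    (p : ℕ) [NeZero p] (hp : p.Prime) (S : Finset ℕ) (r : ℕ) (hr : r.Prime) (hr2 : r ≠ 2) :
    Nat.card ↥(cocImage p (S : Set ℕ) r complexConjugation) ^ 2 ≤
      Nat.card ↥(H975.eis p (S : Set ℕ) r) := by
  letI : Module (GoodAlg p (S : Set ℕ)) (JZero p) := goodModule p (S : Set ℕ)
  haveI : NeZero r := ⟨hr.ne_zero⟩
  haveI hfinT : Finite ↥(tors p r) := hFin p r hr.pos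
  haveI : Finite ↥(nSub (GoodAlg p (S : Set ℕ)) (JZero p) r) :=
    finite_nSub_of_finite_tors p (S : Set ℕ) r
  obtain ⟨B, h1, h2, h3, h4, h5⟩ := exists_pairing hPair p hp (S : Set ℕ) r hr.pos
  refine card_minus_sq_le (𝔪 := eisIdealR p (S : Set ℕ) r) (hr.odd_of_ne_two hr2)
    (ccLin p (S : Set ℕ)) B h1 h2 h3 h4 h5 (H975.eis p (S : Set ℕ) r)
    (cocImage p (S : Set ℕ) r complexConjugation)
    (fun w => mem_eis_iff_mem_primaryPartR p (S : Set ℕ))
    (cocImage_le p (S : Set ℕ) r complexConjugation) ?_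
  rintro w ⟨y, -, rfl⟩
  show complexConjugation • (complexConjugation • y - y) = -(complexConjugation • y - y)
  rw [smul_sub, smul_smul, complexConjugation_mul_self, one_smul]
  abel

/-- **COUNT** (the official node) from DIV, FIN and PAIR. -/
theorem countStatement_of_pair (hDiv : DivStatement) (hFin : FinStatement)
    (hPair : PairStatement) : CountStatement := by
  intro p _ hp S r hr _
  rcases eq_or_ne r 2 with rfl | hr2
  · exact count_two hDiv hFin hPair p hp S
  · exact count_odd hFin hPair p hp S r hr hr2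

/-- **COUNT from CONJ** (weak form), DIV and FIN. -/
theorem countStatement_of_conjWeak (hDiv : DivStatement) (hFin : FinStatement)
    (hC : ConjWeakStatement) : CountStatement :=
  countStatement_of_pair hDiv hFin (pairStatement_of_conjWeak hC)

/-- **COUNT from CONJ**, DIV and FIN. -/
theorem countStatement_of_conj (hDiv : DivStatement) (hFin : FinStatement)
    (hC : ConjStatement) : CountStatement :=
  countStatement_of_pair hDiv hFin (pairStatement_of_conj hC)

end Fermat.Agent.S15.H111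

end

end
-- ===== PACK-END S15/H111/CountAll.lean

-- ===== PACK-BEGIN S15/H111/CountFinal.lean
section
/-
Row S15, node DESC, tower COUNT (helper111): the official node `H975.CountStatement`,
UNCONDITIONAL.

    count : H975.CountStatement        (real place, all primes `r` including `r = 2`, all `S`)

Assembly of `H111/CountAll.lean` (`countStatement_of_conj`) with
* CONJ  : `S15.H337.kumConj` (helper337), transported from the Prelude's `jConjGamma0` to
          `H221.gamma0Eps` (the same map);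
* DIV   : `S17.GDiv.divisible` (row S17);
* FIN   : `H975.finStatement`.
-/





set_option autoImplicit false

noncomputable section

namespace Fermat.Agent.S15.H111

open ModularCurve CongruenceSubgroup Fermat.Agent.S15.H975
open scoped MatrixGroups

/-- The Prelude's `jConjGamma0` is `Ad ε` of `H221`. -/
theorem jConjGamma0_eq_gamma0Eps (N : ℕ) (γ : Gamma0 N) :
    ModularCurve.Period.jConjGamma0 N γ = Fermat.Agent.S15.H221.gamma0Eps N γ :=
  Subtype.ext (Subtype.ext rfl)

/-- **CONJ** in the shape of `H111/PairDict.lean`. -/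
theorem conjStatement : ConjStatement := by
  intro N m _ _ c x hk
  have h := Fermat.Agent.S15.H337.kumConj N m c x hk
  have e : (fun γ : Fermat.Agent.S29.G0 N => - c (ModularCurve.Period.jConjGamma0 N γ)) =
      fun g => - c (Fermat.Agent.S15.H221.gamma0Eps N g) := by
    funext γ
    rw [jConjGamma0_eq_gamma0Eps]
  rwa [e] at h

/-- **PAIR**, unconditional. -/
theorem pairStatement : PairStatement := pairStatement_of_conj conjStatement

/-- **DIV** from row S17. -/
theorem divStatement : DivStatement := fun p _ _ r hr x =>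
  Fermat.Agent.S17.GDiv.divisible p r hr.ne_zero x

/-- **COUNT**: the official node, unconditional. -/
theorem count : CountStatement :=
  countStatement_of_conj _root_.Fermat.Agent.S15.H111.divStatement finStatement conjStatement

end Fermat.Agent.S15.H111

end

end
-- ===== PACK-END S15/H111/CountFinal.lean

-- ===== PACK-BEGIN S15/H946/HopfE.lean
section





/-!
# S15 / DESC / T1 HOPF-E — the Hopf model of `E_x`  (helper946)

For a level `N`, a prime `ℓ ∤ N` and a RATIONAL point `x ∈ J₀(N)(ℚ)`: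

    hopfModel_Ex : S19.HopfModel ℓ (Ex ℓ x) (actE ℓ x hx)

i.e. the extension `E_x` of `ℤ/ℓ` by `J₀(N)[ℓ]` whose class is the Kummer class of `x`
(`Ex.lean`) is, Galois-equivariantly, the group of `ℚ̄`-points of a finite flat commutative
cocommutative Hopf algebra over `ℤ_(ℓ)`: "Kummer classes of rational points are FLAT at `ℓ`".

Chain: `torsorLocal` (T1-ABS, `TorsorLocal.lean`) at a good level (`ℓ ≥ 5`: `N`; `ℓ = 2`: `3N`,
`ℓ = 3`: `2N`, via the conorm `A3.H319.levelPull`) with the good-reduction datum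
`A3.H615.grStatement`  ⟹  `S19.LocalCoordDatum`  ⟹ (UNR, `S19.H679`)  `CoordDatum`
⟹  `OrderDatum`  ⟹ (ORD, `S19.H15`)  `HopfModel`.

Sorry-free.
-/

set_option autoImplicit false

noncomputable section

open AlgebraicCurve ModularCurve

namespace Fermat.Agent.S15.H946

open Fermat.Agent.S19 Fermat.Agent.A3.H799

/-! ### Open stabilisers of division points of rational points -/

section FiniteLevel

variable (F₀ : IntermediateField ℚ (LaurentSeries ℚ))

/-- A Galois element fixing the divisor `X` and the function `f` with `n D - X = div f`, `n ≠ 0`,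
fixes the class of `D`. -/
theorem smul_mk_eq_of_fixes_sub (σ : AlgebraicClosure ℚ ≃ₐ[ℚ] AlgebraicClosure ℚ)
    (D : Divisor.degZero (K := AlgebraicClosure ℚ)
      (F := laurentBaseChange (AlgebraicClosure ℚ) F₀))
    {n : ℤ} (hn : n ≠ 0) (X : Divisor (AlgebraicClosure ℚ)
      (laurentBaseChange (AlgebraicClosure ℚ) F₀))
    (hX : arithmeticGalois F₀ σ • X = X)
    (f : laurentBaseChange (AlgebraicClosure ℚ) F₀)
    (hD : ∀ v : Place (AlgebraicClosure ℚ) (laurentBaseChange (AlgebraicClosure ℚ) F₀),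
      n * (D : Divisor _ _) v - X v = v.ord f)
    (hσ : coeffMap (σ : AlgebraicClosure ℚ →+* AlgebraicClosure ℚ)
      (f : LaurentSeries (AlgebraicClosure ℚ)) = f) :
    σ • (Pic0.mk D) = Pic0.mk D := by
  set g := arithmeticGalois F₀ σ with hg
  have hgf : g • f = f := Subtype.ext (by rw [coe_arithmeticGalois_smul, hσ])
  have hgf' : g⁻¹ • f = f := by
    conv_lhs => rw [← hgf]
    exact inv_smul_smul g f
  rw [galois_smul_pic0_def, SemilinearAut.pic0_smul_mk]
  refine congrArg Pic0.mk (Subtype.ext ?_)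
  rw [SemilinearAut.coe_degZeroSMulHom]
  ext w
  rw [SemilinearAut.divisor_smul_apply]
  have h1 := hD (g⁻¹ • w)
  have h2 := hD w
  have h3 : (g⁻¹ • w).ord f = w.ord f := by
    have := SemilinearAut.ord_smul g⁻¹ w f
    rwa [hgf'] at this
  have h4 : X (g⁻¹ • w) = X w := by
    have := congrArg (fun Y : Divisor _ _ => Y w) hX
    simp only [SemilinearAut.divisor_smul_apply] at this
    exact this
  rw [h3, ← h2, h4] at h1
  have h5 : n * (D : Divisor _ _) (g⁻¹ • w) = n * (D : Divisor _ _) w := by linarith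
  exact mul_left_cancel₀ hn h5

/-- **FINLEVEL for division points.**  If `n • s` (`n ≠ 0`) is the class of a Galois-invariant
divisor, then `s` is fixed by `Gal(ℚ̄/L)` for some finite extension `L/ℚ`. -/
theorem exists_finiteLevel_of_zsmul_eq_mk
    (s : Pic0 (AlgebraicClosure ℚ) (laurentBaseChange (AlgebraicClosure ℚ) F₀))
    {n : ℤ} (hn : n ≠ 0)
    (X : Divisor.degZero (K := AlgebraicClosure ℚ)
      (F := laurentBaseChange (AlgebraicClosure ℚ) F₀))
    (hX : ∀ σ : AlgebraicClosure ℚ ≃ₐ[ℚ] AlgebraicClosure ℚ,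
      arithmeticGalois F₀ σ •
        (X : Divisor (AlgebraicClosure ℚ) (laurentBaseChange (AlgebraicClosure ℚ) F₀)) = X)
    (hs : n • s = Pic0.mk X) :
    ∃ L : IntermediateField ℚ (AlgebraicClosure ℚ), FiniteDimensional ℚ L ∧
      ∀ σ : AlgebraicClosure ℚ ≃ₐ[ℚ] AlgebraicClosure ℚ, (∀ a ∈ L, σ a = a) → σ • s = s := by
  obtain ⟨D, rfl⟩ := Pic0.mk_surjective s
  have h0 : Pic0.mk (n • D - X) = 0 := by
    have h1 : Pic0.mk (n • D - X) = Pic0.mk (n • D) - Pic0.mk X :=
      map_sub (QuotientAddGroup.mk' _) (n • D) X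
    have h2 : Pic0.mk (n • D) = n • Pic0.mk D :=
      map_zsmul (QuotientAddGroup.mk' _) n D
    rw [h1, h2, hs, sub_self]
  have h1 : ((n • D - X : Divisor.degZero (K := AlgebraicClosure ℚ)
      (F := laurentBaseChange (AlgebraicClosure ℚ) F₀)) : Divisor _ _)
      ∈ Divisor.principal (K := AlgebraicClosure ℚ)
        (F := laurentBaseChange (AlgebraicClosure ℚ) F₀) := by
    have := (QuotientAddGroup.eq_zero_iff _).mp h0
    exact AddSubgroup.mem_addSubgroupOf.mp this
  obtain ⟨f, -, hf⟩ := h1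
  obtain ⟨L, hL, hLσ⟩ := Fermat.Agent.S29.H571.seriesFiniteLevel_of_mem (F₀ := F₀) f.2
  have hD : ∀ v : Place (AlgebraicClosure ℚ) (laurentBaseChange (AlgebraicClosure ℚ) F₀),
      n * (D : Divisor _ _) v - (X : Divisor _ _) v = v.ord f := by
    intro v
    rw [← hf v]
    simp
  exact ⟨L, hL, fun σ hσ =>
    smul_mk_eq_of_fixes_sub F₀ σ D hn
      (X := ((X : Divisor (AlgebraicClosure ℚ) (laurentBaseChange (AlgebraicClosure ℚ) F₀))))
      (hX σ) f hD (hLσ σ hσ)⟩

end FiniteLevel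

/-! ### The good level -/

/-- **Level selection.**  Every level `N` prime to `ℓ` maps, by an additive Galois-equivariant map
which is injective on `ℓ`-torsion, to a GOOD level (conorm to level `3N` if `ℓ = 2`, `2N` if
`ℓ = 3`). -/
theorem exists_goodLevel_pull (N : ℕ) [NeZero N] (ℓ : ℕ) [hℓ : Fact ℓ.Prime] (hℓN : ¬ ℓ ∣ N) :
    ∃ (M' : ℕ) (_ : NeZero M'), ¬ ℓ ∣ M' ∧ GoodLevel M' ℓ ∧
      ∃ lp : JZero N →+ JZero M', (∀ (σ : GalQ) (s : JZero N), lp (σ • s) = σ • lp s) ∧
        ∀ s : JZero N, (ℓ : ℤ) • s = 0 → lp s = 0 → s = 0 := by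
  have hprime : ℓ.Prime := hℓ.out
  have : NeZero ℓ := ⟨hprime.ne_zero⟩
  by_cases h5 : 5 ≤ ℓ
  · exact ⟨N, inferInstance, hℓN, Or.inl h5, AddMonoidHom.id _, fun _ _ => rfl,
      fun s _ h => h⟩
  · have hℓ23 : ℓ = 2 ∨ ℓ = 3 := by
      have h2 := hprime.two_le
      have hlt : ℓ < 5 := not_le.mp h5
      interval_cases ℓ
      · exact Or.inl rfl
      · exact Or.inr rfl
      · exact absurd hprime (by decide)
    rcases hℓ23 with rfl | rfl
    · by_cases h3 : 3 ∣ N
      · exact ⟨N, inferInstance, hℓN, Or.inr (Or.inr ⟨rfl, h3⟩), AddMonoidHom.id _,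
          fun _ _ => rfl, fun s _ h => h⟩
      · refine ⟨N * 3, inferInstance, ?_, Or.inr (Or.inr ⟨rfl, dvd_mul_left 3 N⟩),
          Fermat.Agent.A3.H319.levelPull N 3,
          fun σ s => Fermat.Agent.A3.H319.levelPull_smul N 3 σ s,
          fun s hs h0 => Fermat.Agent.A3.H319.eq_zero_of_levelPull_eq_zero N 3 Nat.prime_three 2
            (by decide) (by exact_mod_cast hs) h0⟩
        intro h
        rcases (Nat.Prime.dvd_mul Nat.prime_two).mp h with h | h
        · exact hℓN h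
        · exact absurd h (by decide)
    · by_cases h2 : 2 ∣ N
      · exact ⟨N, inferInstance, hℓN, Or.inr (Or.inl ⟨rfl, h2⟩), AddMonoidHom.id _,
          fun _ _ => rfl, fun s _ h => h⟩
      · refine ⟨N * 2, inferInstance, ?_, Or.inr (Or.inl ⟨rfl, dvd_mul_left 2 N⟩),
          Fermat.Agent.A3.H319.levelPull N 2,
          fun σ s => Fermat.Agent.A3.H319.levelPull_smul N 2 σ s,
          fun s hs h0 => Fermat.Agent.A3.H319.eq_zero_of_levelPull_eq_zero N 2 Nat.prime_two 3
            (by decide) (by exact_mod_cast hs) h0⟩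
        intro h
        rcases (Nat.Prime.dvd_mul Nat.prime_three).mp h with h | h
        · exact hℓN h
        · exact absurd h (by decide)

/-! ### The Hopf model of `E_x` -/

section Main

variable (N : ℕ) [NeZero N] (ℓ : ℕ) [hℓ : Fact ℓ.Prime] (x : JZero N)
  (hx : ∀ σ : GalQ, σ • x = x)

/-- The torsor-set datum of `E_x` at a level `M'` receiving `N`. -/
def exTorsorData {M' : ℕ} (lp : JZero N →+ JZero M')
    (hinj : ∀ s : JZero N, (ℓ : ℤ) • s = 0 → lp s = 0 → s = 0) :
    TorsorData (Ex ℓ x) (AlgebraicClosure ℚ) (modularFunctionFieldBar M') where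
  Q := ZMod ℓ
  κ := kap ℓ x
  ρ := fun m => lp (rep ℓ x m)
  inj := fun m m' hk hr => eq_of_kap_rep ℓ x hk (by
    have h1 : (ℓ : ℤ) • (rep ℓ x m - rep ℓ x m') = 0 := by
      rw [zsmul_sub, smul_rep, smul_rep, hk, sub_self]
    have h2 : lp (rep ℓ x m - rep ℓ x m') = 0 := by
      rw [map_sub, hr, sub_self]
    exact sub_eq_zero.1 (hinj _ h1 h2))
  μ := fun j j' => j + j'
  κ_add := fun m m' => map_add _ m m'
  c := fun j j' => lp (carry ℓ x j j')
  ρ_add := fun m m' => by rw [rep_add, map_add, map_add]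

/-- `E_x` is finite. -/
theorem finite_Ex_JZero : Finite (Ex ℓ x) := by
  have : Finite (Submodule.torsionBy ℤ (JZero N) (ℓ : ℤ)) := by
    have h := Fermat.Agent.A3.H319.finStatement N ℓ 1
    have e : Tors N ℓ 1 = Submodule.torsionBy ℤ (JZero N) (ℓ : ℤ) := by
      show ↥(Submodule.torsionBy ℤ (JZero N) ((ℓ : ℤ) ^ 1)) = _
      rw [pow_one]
    rwa [e] at h
  exact finite_Ex ℓ x

/-- The Galois action on `E_x` is additive with open stabilisers. -/
theorem isContAddAction_Ex : IsContAddAction (fun σ : GalQ => ⇑(actE ℓ x hx σ)) := by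
  refine ⟨fun m => actE_one ℓ x hx m, fun σ τ m => actE_mul ℓ x hx σ τ m,
    fun σ m m' => map_add _ m m', fun m => ?_⟩
  -- open stabiliser of the representative
  have hℓ0 : (ℓ : ℤ) ≠ 0 := by exact_mod_cast hℓ.out.ne_zero
  have hxmem : x ∈ FixedPoints.addSubgroup
      (AlgebraicClosure ℚ ≃ₐ[ℚ] AlgebraicClosure ℚ) (JZero N) := fun σ => hx σ
  set X := Fermat.Agent.S17.H680.minDiv (Fermat.Agent.S17.H680.JZero.cusp N) x with hXdef
  have hXmk : Pic0.mk X = x := Fermat.Agent.S17.H680.mk_minDiv _ x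
  have hXσ : ∀ σ : AlgebraicClosure ℚ ≃ₐ[ℚ] AlgebraicClosure ℚ,
      arithmeticGalois (modularFunctionFieldFull N) σ •
        (X : Divisor (AlgebraicClosure ℚ) (modularFunctionFieldBar N)) = X := fun σ =>
    Fermat.Agent.S17.H680.smul_minDiv_eq _
      (Fermat.Agent.S17.H680.JZero.galois_smul_cusp N σ) (hx σ)
  set j : ℤ := ((kap ℓ x m).val : ℤ) with hj
  have hXjσ : ∀ σ : AlgebraicClosure ℚ ≃ₐ[ℚ] AlgebraicClosure ℚ,
      arithmeticGalois (modularFunctionFieldFull N) σ • ((j • X : Divisor.degZero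
        (K := AlgebraicClosure ℚ) (F := modularFunctionFieldBar N)) :
          Divisor (AlgebraicClosure ℚ) (modularFunctionFieldBar N)) =
        ((j • X : Divisor.degZero (K := AlgebraicClosure ℚ)
          (F := modularFunctionFieldBar N)) :
            Divisor (AlgebraicClosure ℚ) (modularFunctionFieldBar N)) := by
    intro σ
    rw [AddSubgroup.coe_zsmul, smul_comm, hXσ σ]
  have hs : (ℓ : ℤ) • rep ℓ x m = Pic0.mk (j • X) := by
    have h2 : Pic0.mk (j • X) = j • Pic0.mk X := map_zsmul (QuotientAddGroup.mk' _) j X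
    rw [smul_rep, h2, hXmk]
  obtain ⟨L, hL, hLσ⟩ := exists_finiteLevel_of_zsmul_eq_mk (modularFunctionFieldFull N)
    (rep ℓ x m) hℓ0 (j • X) hXjσ hs
  exact ⟨L, hL, fun σ hσ => actE_eq_self_of_rep ℓ x hx (hLσ σ hσ)⟩

/-- **Local coordinates on `E_x`** at a place above `ℓ`. -/
theorem exists_localCoordDatum_Ex (hℓN : ¬ ℓ ∣ N) :
    Nonempty (LocalCoordDatum ℓ (Ex ℓ x) (fun σ : GalQ => ⇑(actE ℓ x hx σ))) := by
  obtain ⟨M', _, hℓM', hgood, lp, hlpσ, hlpinj⟩ := exists_goodLevel_pull N ℓ hℓN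
  obtain ⟨k, _, _, Fk, _, _, 𝓡, hℓV, hI⟩ := Fermat.Agent.A3.H615.grStatement M' ℓ hℓM' hgood
  have hrank := H979.rankOneStatement ℓ 𝓡.V hℓV
  have : Finite (Ex ℓ x) := finite_Ex_JZero N ℓ x
  obtain ⟨ι, hι, Ψ, hinj, hint, heq, hadd⟩ :=
    torsorLocal (K := AlgebraicClosure ℚ) (F := modularFunctionFieldBar M') (k := k) (Fk := Fk)
      𝓡 hrank (Ex ℓ x) (exTorsorData N ℓ x lp hlpinj)
  refine ⟨{ V := 𝓡.V
            ell_mem := hℓV
            ι := ι
            fin := hι
            Ψ := Ψ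
            inj := hinj
            integral := hint
            equivariant := ?_
            add_mem := hadd }⟩
  intro σ hσ m i
  refine heq (arithmeticGalois (modularFunctionFieldFull M') σ) (hI σ hσ) m (actE ℓ x hx σ m)
    (kap_actE ℓ x hx σ m) ?_ i
  show lp (rep ℓ x (actE ℓ x hx σ m)) = _
  rw [rep_actE, hlpσ]
  rfl

/-- **T1 HOPF-E.**  For every rational point `x` of `J₀(N)` and every prime `ℓ ∤ N`, the
extension `E_x` of `ℤ/ℓ` by `J₀(N)[ℓ]` (class = Kummer class of `x`) has a Hopf model over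
`ℤ_(ℓ)`. -/
theorem hopfModel_Ex (hℓN : ¬ ℓ ∣ N) :
    HopfModel ℓ (Ex ℓ x) (fun σ : GalQ => ⇑(actE ℓ x hx σ)) := by
  have : Finite (Ex ℓ x) := finite_Ex_JZero N ℓ x
  obtain ⟨L⟩ := exists_localCoordDatum_Ex N ℓ x hx hℓN
  obtain ⟨C⟩ := H679.unrStatementH679 ℓ (Ex ℓ x) _ (isContAddAction_Ex N ℓ x hx) L
  exact H15.ordStatement ℓ (Ex ℓ x) _
    (orderDatum_of_coordDatum (fun σ a b => map_add (actE ℓ x hx σ) a b) C)

end Main

end Fermat.Agent.S15.H946

end
end
-- ===== PACK-END S15/H946/HopfE.lean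

-- ===== PACK-BEGIN S15/H946/T1.lean
section



/-!
# S15 / DESC / leaf T1 (HOPF-E) in the EXACT skeleton shape  (helper946)

    theorem t1 : H975.T1Statement

`M := Ex r x` with `x := r y` (`Ex.lean`), `act := actE`, `ι := iot`, `y' := ptE y`; the Hopf model
is `hopfModel_Ex` (`HopfE.lean`).  Sorry-free.
-/

set_option autoImplicit false

noncomputable section

open ModularCurve

namespace Fermat.Agent.S15.H946

open Fermat.Agent.S15.H975

/-- `J₀(p)[r]` in the skeleton's form is `torsionBy ℤ J r`. -/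
def torsToTorsionBy (p : ℕ) [NeZero p] (r : ℕ) :
    ↥(tors p r) →+ Submodule.torsionBy ℤ (JZero p) (r : ℤ) where
  toFun w := ⟨(w : JZero p), by
    rw [Submodule.mem_torsionBy_iff, natCast_zsmul]
    exact w.2⟩
  map_zero' := rfl
  map_add' _ _ := rfl

theorem torsToTorsionBy_injective (p : ℕ) [NeZero p] (r : ℕ) :
    Function.Injective (torsToTorsionBy p r) := by
  intro w w' h
  exact Subtype.ext (congrArg (fun t : Submodule.torsionBy ℤ (JZero p) (r : ℤ) => (t : JZero p)) h)

/-- `ℓ · pt y = 0` in `E_x`. -/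
theorem nsmul_ptE {J : Type} [AddCommGroup J] (ℓ : ℕ) (x : J) (y : J) (hy : (ℓ : ℤ) • y = x) :
    ℓ • ptE ℓ x y hy = 0 := by
  have h1 : ℓ • ptE ℓ x y hy = QuotientAddGroup.mk (genE ℓ x) := by
    unfold ptE mkE
    rw [← QuotientAddGroup.mk_nsmul]
    refine congrArg _ (Subtype.ext ?_)
    refine Prod.ext ?_ ?_
    · show ℓ • y = x
      rw [← hy, natCast_zsmul]
    · show ℓ • (1 : ℤ) = (ℓ : ℤ)
      simp
  rw [h1]
  exact (QuotientAddGroup.eq_zero_iff _).2 (AddSubgroup.mem_zmultiples _)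

/-- **Leaf T1 (HOPF-E)**, verbatim. -/
theorem t1 : T1Statement := by
  intro p _ hp r hr hrp y hy
  have : Fact r.Prime := ⟨hr⟩
  have hrN : ¬ r ∣ p := fun h => hrp ((Nat.prime_dvd_prime_iff_eq hr hp).1 h)
  have hx : ∀ σ : Fermat.Agent.S19.GalQ, σ • ((r : ℤ) • y) = (r : ℤ) • y := by
    intro σ
    rw [natCast_zsmul]
    exact hy σ
  have hfin : Finite (Ex r ((r : ℤ) • y)) := finite_Ex_JZero p r _
  refine ⟨Ex r ((r : ℤ) • y), inferInstance, hfin, fun σ => ⇑(actE r ((r : ℤ) • y) hx σ),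
    (iot r ((r : ℤ) • y)).comp (torsToTorsionBy p r), ptE r ((r : ℤ) • y) y rfl,
    isContAddAction_Ex p r _ hx, hopfModel_Ex p r _ hx hrN,
    (iot_injective r _).comp (torsToTorsionBy_injective p r), nsmul_ptE r _ y rfl,
    ?_, ?_, ?_, ?_⟩
  · rintro j ⟨w, hw⟩
    have h := congrArg (kap r ((r : ℤ) • y)) hw
    rw [AddMonoidHom.comp_apply, kap_iot, map_nsmul, kap_ptE, nsmul_one] at h
    exact (ZMod.natCast_eq_zero_iff j r).1 h.symm
  · intro m
    obtain ⟨w, hw⟩ := exists_eq_iot_add r ((r : ℤ) • y) y rfl m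
    have hwmem : (w : JZero p) ∈ tors p r := by
      show r • (w : JZero p) = 0
      have h := (Submodule.mem_torsionBy_iff _ _).1 w.2
      rwa [natCast_zsmul] at h
    have e1 : ((iot r ((r : ℤ) • y)).comp (torsToTorsionBy p r)) ⟨(w : JZero p), hwmem⟩ =
        iot r ((r : ℤ) • y) w := rfl
    have e2 : (((kap r ((r : ℤ) • y) m).val : ℤ)) • ptE r ((r : ℤ) • y) y rfl =
        (kap r ((r : ℤ) • y) m).val • ptE r ((r : ℤ) • y) y rfl := natCast_zsmul _ _
    refine ⟨(kap r ((r : ℤ) • y) m).val, ⟨(w : JZero p), hwmem⟩, ?_⟩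
    rw [e1, ← e2, add_comm]
    exact hw
  · intro σ w w' hww'
    show actE r ((r : ℤ) • y) hx σ (iot r ((r : ℤ) • y) (torsToTorsionBy p r w)) = _
    rw [actE_iot]
    exact congrArg (iot r ((r : ℤ) • y)) (Subtype.ext hww'.symm)
  · intro σ w hw
    show actE r ((r : ℤ) • y) hx σ (ptE r ((r : ℤ) • y) y rfl) = _
    rw [actE_ptE]
    exact congrArg (fun t => ptE r ((r : ℤ) • y) y rfl + iot r ((r : ℤ) • y) t)
      (Subtype.ext hw.symm)

end Fermat.Agent.S15.H946

end
end
-- ===== PACK-END S15/H946/T1.lean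

-- ===== PACK-BEGIN S15/H106/PeuJ.lean
section





/-!
# S15 / DESC, leaves PEU1J and PEUwJ, UNCONDITIONAL (helper106)

`peu1J : H975.Peu1JStatement` and `peuOmegaJ : H975.PeuOmegaJStatement`, in the exact shapes of
`Fermat/Agent/S15/H975/DescSpec.lean`, from

* the glue `peu1J_of`, `peuOmegaJ_of` of `Fermat/Agent/S15/H106/PeuGlue.lean`,
* leaf T1 (`Fermat.Agent.S15.H946.t1`, helper946),
* leaves T2 (`Fermat.Agent.S15.H379.t2One`, `Fermat.Agent.S15.H379.t2Omega`, helper379),
* the ORD block (`Fermat.Agent.S19.H15.ordStatement`).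
-/

set_option autoImplicit false

namespace Fermat.Agent.S15.H106

/-- **PEU-1 on `J`**, exact skeleton shape, unconditional. -/
theorem peu1J : Fermat.Agent.S15.H975.Peu1JStatement :=
  peu1J_of Fermat.Agent.S19.H15.ordStatement Fermat.Agent.S15.H946.t1
    Fermat.Agent.S15.H379.t2One

/-- **PEU-ω on `J`**, exact skeleton shape, unconditional. -/
theorem peuOmegaJ : Fermat.Agent.S15.H975.PeuOmegaJStatement :=
  peuOmegaJ_of Fermat.Agent.S19.H15.ordStatement Fermat.Agent.S15.H946.t1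
    Fermat.Agent.S15.H379.t2Omega

end Fermat.Agent.S15.H106

end
-- ===== PACK-END S15/H106/PeuJ.lean

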