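import Fermat.Agent.Pack.L1.E9L0
import Fermat.Agent.Pack.L1.E9L1
import Fermat.Agent.Pack.L1.E4L0
import Fermat.Agent.Pack.S43MC.G0E25L0
import Fermat.Agent.Pack.L1.E9L3
import Fermat.Agent.Pack.L1.E8L1
import Fermat.Agent.Pack.L1.E6L3
import Fermat.Agent.Pack.S59C.E16L0
import Fermat.Agent.Pack.L1.E6L1
import Fermat.Agent.Pack.S43C.E2L3
import Fermat.Agent.Pack.S43MC.G0E29L0
import Fermat.Agent.Pack.S43C.E4L0
import Fermat.Agent.Pack.S44C.G0E19L2
import Fermat.Agent.Pack.L1.E1L0
import Fermat.Agent.Pack.L1.E1L2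
import Fermat.Agent.Pack.L1.E2L1
import Fermat.Agent.Pack.L1.E1L1
import Fermat.Agent.Pack.L1.E5L2
import Fermat.Agent.Pack.L1.E2L2
import Fermat.Agent.Pack.L1.E3L2
import Fermat.Agent.Pack.S59C.E14L3
import Fermat.Agent.Pack.S44C.G0E30L3
import Fermat.Agent.Pack.S59C.E10L0
import Fermat.Agent.Pack.S44C.G0E10L2
import Fermat.Agent.Pack.L1.E3L0
import Fermat.Agent.Pack.S43GC.G0E13L0
import Fermat.Agent.Pack.S43MC.G0E26L2
import Fermat.Agent.Pack.S59C.E13L3
import Fermat.Agent.Pack.L1.E8L2
import Fermat.Agent.Pack.L1.E9L2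
import Fermat.Agent.Pack.L1.E3L1
import Fermat.Agent.Pack.L1.E7L3
import Fermat.Agent.Pack.L1.E4L2
import Fermat.Agent.Pack.L1.E8L3
import Fermat.Agent.Pack.S45.E4L0
import Fermat.Agent.Pack.S44C.G0E28L3
import Fermat.Agent.Pack.S59C.E13L2

-- ===== PACK-BEGIN S15/H975/Top.lean
section










/-!
# Row S15: the PLAIN TOP — every node plugged in (row-lead helper975)

`S15_top` is the frozen statement S15 (Mazur's key step), unconditional.

* GEO   : `H602.geoStatement_all602` (helper602; pieces of helper962, helper542, helper182,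
          helper722, helper362);
* FLAG  : `H628.flagStatement` (helper628);
* COUNT : `H111.count` (helper111; CONJ helper337, EPS helper221);
* STEP  : `H322.step_of_leaves` (helper322) on `H106.g3`, `H106.peu1J`, `H106.peuOmegaJ`
          (helper106; T1 helper946, T2 helper379);
* PROJ  : `H466.projStatement_of` (helper466) + `S29.heckeOperatorsCommuteBar` (helper801);
* the rest (MW, DIV, ALG0, FIN, RTF, T6'', Hecke–Galois, CNT, ENGINE, CUSP, TOP) is plugged in
  `H975/Final.lean`.

Consumers (rows S12, S09, packers): import THIS file, never `Fermat/Agent/S15.lean`.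
-/

set_option autoImplicit false

noncomputable section

open WeierstrassCurve WeierstrassCurve.Affine

namespace Fermat.Agent.S15.H975

open ModularCurve Fermat.Agent.S15

/-- **FLAG** (helper628). -/
theorem flagStatement : FlagStatement := Fermat.Agent.S15.H628.flagStatement

/-- **PROJ** (helper466, helper801). -/
theorem projStatement : Fermat.Agent.S15.H466.ProjStatement :=
  Fermat.Agent.S15.H466.projStatement_of finStatement heckeGalStatement
    fun p _ => Fermat.Agent.S29.heckeOperatorsCommuteBar p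

/-- **COUNT** (helper111; CONJ helper337, EPS helper221). -/
theorem countStatement : CountStatement := Fermat.Agent.S15.H111.count

/-- **STEP** (helper322; G3 and PEU-J helper106, T1 helper946, T2 helper379). -/
theorem stepStatement : StepStatement :=
  Fermat.Agent.S15.H322.step_of_leaves Fermat.Agent.S15.H106.g3 Fermat.Agent.S15.H106.peu1J
    Fermat.Agent.S15.H106.peuOmegaJ

/-- **SEL**, unconditional. -/
theorem selStatement : SelStatement :=
  selStatement_of_open flagStatement countStatement stepStatement projStatement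

/-- **GEO**, unconditional (helper602). -/
theorem geoStatement (p : ℕ) [NeZero p] (hp : p.Prime)
    (hp' : p ∉ ({2, 3, 5, 7, 13} : Finset ℕ)) : Core.GeoStatement p :=
  Fermat.Agent.S15.H602.geoStatement_all602 p hp hp'

/-- **The frozen statement S15**, unconditional. -/
theorem S15_top
    {p : ℕ} (hp : p.Prime) (hp' : p ∉ ({2, 3, 5, 7, 13} : Finset ℕ))
    (W : WeierstrassCurve ℤ) (hΔ : W.Δ ≠ 0)
    (Q : ((W.map (Int.castRingHom ℚ))⁄(AlgebraicClosure ℚ)).Point)
    (hQfix : ∀ σ : AlgebraicClosure ℚ ≃ₐ[ℚ] AlgebraicClosure ℚ, σ • Q = Q)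
    (hQord : addOrderOf Q = p)
    (h2Δ : (2 : ℤ) ∣ W.Δ) (h2c₄ : ¬ (2 : ℤ) ∣ W.c₄)
    (h2 : ∀ A : ValuationSubring (AlgebraicClosure ℚ), A.LiesOverPrime 2 →
      ¬ W.InZeroComponentAt A Q)
    (h3Δ : (3 : ℤ) ∣ W.Δ) (h3c₄ : ¬ (3 : ℤ) ∣ W.c₄)
    (h3 : ∀ A : ValuationSubring (AlgebraicClosure ℚ), A.LiesOverPrime 3 →
      ¬ W.InZeroComponentAt A Q)
    {ℓ : ℕ} (hℓ : ℓ.Prime) (hℓp : ℓ ≠ p) (hℓΔ : (ℓ : ℤ) ∣ W.Δ) (hℓc₄ : ¬ (ℓ : ℤ) ∣ W.c₄)
    (A : ValuationSubring (AlgebraicClosure ℚ)) (hA' : A.LiesOverPrime ℓ) :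
    ¬ W.InZeroComponentAt A Q :=
  S15_of_open (fun p _ hp hp' => geoStatement p hp hp') flagStatement countStatement
    stepStatement projStatement
    hp hp' W hΔ Q hQfix hQord h2Δ h2c₄ h2 h3Δ h3c₄ h3 hℓ hℓp hℓΔ hℓc₄ A hA'

end Fermat.Agent.S15.H975

end

end
-- ===== PACK-END S15/H975/Top.lean

-- ===== PACK-BEGIN S12/H975/Top12.lean
section



/-!
# Row S12: the PLAIN TOP (row-lead helper975)

`S12_top` is the frozen statement S12 (no Galois-stable cofixed line for `p ≥ 17`),
unconditional: helper291's route `S12.H291.s12_of_route` with the nodes of row S15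
(`S15/H975/Top.lean`) and the specialisation node `H602.spStatement602`.

Consumers (row S09, packers): import THIS file, never `Fermat/Agent/S12.lean`.
-/

set_option autoImplicit false

noncomputable section

open WeierstrassCurve WeierstrassCurve.Affine WeierstrassCurve.Affine.Point
open FreyPackage

namespace Fermat.Agent.S12.H975

/-- **The frozen statement S12**, unconditional. -/
theorem S12_top (P : FreyPackage) (hp : 17 ≤ P.p) :
    ¬ HasGaloisStableCofixedLine (K := AlgebraicClosure ℚ) ℚ P.freyCurve P.p :=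
  Fermat.Agent.S12.H291.s12_of_route
    (fun p hp h17 =>
      haveI : NeZero p := ⟨hp.ne_zero⟩
      fun q hq hqp A hA P₀ hP₀ =>
        Fermat.Agent.S15.H602.spStatement602 p hp (by omega) q hq hqp A hA P₀ hP₀)
    (fun p _ hp hp5 => Fermat.Agent.S15.H975.mordellWeil p hp hp5)
    Fermat.Agent.S15.H302.alg0 Fermat.Agent.S15.H975.divStatement
    Fermat.Agent.S15.H975.selStatement P hp

end Fermat.Agent.S12.H975

end

end
-- ===== PACK-END S12/H975/Top12.lean

-- ===== PACK-BEGIN S09/H975/Top09.lean
section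



/-!
# Row S09: the PLAIN TOP (row-lead helper975)

`S09_top` is the frozen statement S09 (Mazur: the mod-`p` representation of the Frey curve is
irreducible), unconditional: helper182's glue `S09.H182.result_of_S12` (landed S10, S11, S13)
with `S12.H975.S12_top`.
-/

set_option autoImplicit false

noncomputable section

open WeierstrassCurve WeierstrassCurve.Affine WeierstrassCurve.Affine.Point
open FreyPackage

namespace Fermat.Agent.S09.H975

/-- **The frozen statement S09**, unconditional. -/
theorem S09_top (P : FreyPackage) :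
    GaloisRepIsIrreducible (K := AlgebraicClosure ℚ) ℚ P.freyCurve P.p :=
  Fermat.Agent.S09.H182.result_of_S12 Fermat.Agent.S12.H975.S12_top P

end Fermat.Agent.S09.H975

end

end
-- ===== PACK-END S09/H975/Top09.lean

-- ===== PACK-BEGIN Cond/H239/Chain.lean
section




















/-!
# Row GLUE — the CONDITIONAL chain to Fermat's Last Theorem in ONE plain import universe
(assembly: helper239; glue pieces of helper120 (S60), helper604/helper4 (S04), helper211 (S06),
helper404 (S45), helper918 (S03, S01))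

Inputs that are NOT on main (hypotheses of every theorem below):

* `h50  : S60.StatementS50`        — frozen S50 (Langlands–Tunnell, form (iii)), verbatim;
* `hgap : S60.StatementGapAtThree` — G1, level optimisation at `3` when `9 ∣ M` (not frozen).

Everything else is the landed library, taken from the PLAIN tops (no pack is imported here):
S59 (`Arch.s59_of_c` + `LoSqC.H433.sqFree35_433`), S51, S52, S09 (`S09.H975.S09_top`),
S43 (plain proof term of the row), S44 (`Ribet.H943.S44Top.s44`), S05, S07, S08, S02.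

    s60_of, s04_of, s06_of, s45_of, s03_of, s01_of : h50 → hgap → <frozen statement, verbatim>
-/

set_option autoImplicit false
open WeierstrassCurve WeierstrassCurve.Affine WeierstrassCurve.Affine.Point
open CuspForm ModularFormClass UpperHalfPlane
open scoped WeierstrassCurve.Affine

namespace Fermat.Agent.Cond.H239

open Fermat.Agent

/-! ## The landed inputs, in the vocabulary of the glue files -/

/-- S59 (landed), as the hypothesis shape of the S60 glue. -/
theorem s59 : S60.StatementS59 := fun p hp W hΔ hW hirr M₀ _ hres₀ hM₀ hM₀3 =>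
  Fermat.Agent.S59.Arch.s59_of_c Fermat.Agent.S59.LoSqC.H433.sqFree35_433
    p hp W hΔ hW hirr M₀ hres₀ hM₀ hM₀3

/-- S51 (landed). -/
theorem s51 : S60.StatementS51 := fun W hΔ hW => Fermat.Agent.S51.result W hΔ hW

/-- S52 (landed). -/
theorem s52 : S60.StatementS52 := fun W hΔ hW h5 => Fermat.Agent.S52.result W hΔ hW h5

/-- S44 (landed), plain top of the row. -/
theorem s44 : S45.H404.S44Statement := fun P _ hcond hpN hirr hmod =>
  Fermat.Agent.Ribet.H943.S44Top.s44 P hcond hpN hirr hmod

/-- S43 (landed), plain proof term of the row. -/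
theorem s43 : S45.H404.S43Statement := fun P _ _ hcond hq hq2 hqp hqN hirr hmod hunr =>
  Fermat.Agent.Ribet.H723.S43_of_hardMinScalar
    Fermat.Agent.Ribet.H943.S44Top.s44
    (fun P _ hq hq2 hqp => Fermat.Agent.S05.result P hq hq2 hqp)
    Fermat.Agent.Ribet.H158.WallQ.mazurPrincipleOddPlus
    Fermat.Agent.S38.IA.hardMinScalar_closed
    P hcond hq hq2 hqp hqN hirr hmod hunr

/-- S09 (landed), plain top of the row. -/
theorem s09 (P : FreyPackage) :
    GaloisRepIsIrreducible (K := AlgebraicClosure ℚ) ℚ P.freyCurve P.p :=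
  Fermat.Agent.S09.H975.S09_top P

/-! ## The conditional chain -/

section chain

variable (h50 : S60.StatementS50) (hgap : S60.StatementGapAtThree)
include h50 hgap

/-- Exact-conductor-level modularity of every semistable integral model (Wiles), from S50 + G1. -/
theorem mlc1_of (W : WeierstrassCurve ℤ) (hΔ : W.Δ ≠ 0) (hW : W.IsSemistableModel) :
    Mlc1IsModularModelOfExactConductorLevel W := by
  rcases s51 W hΔ hW with h3 | h5
  · exact S60.mlc1_of_irreducible_three h50 hgap s59 W hΔ hW h3
  · obtain ⟨W', hΔ', hW', h3', hcong⟩ := s52 W hΔ hW h5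
    have hmod' := S60.mlc1_of_irreducible_three h50 hgap s59 W' hΔ' hW' h3'
    obtain ⟨N, hN, hsq, hres⟩ := S60.residuallyModular_five_of_congruent hmod' hcong
    have : NeZero N := ⟨hN.ne'⟩
    have hnot_sq : ∀ q : ℕ, q.Prime → ∀ k : ℕ, 2 ≤ k → ¬ q ^ k ∣ N := by
      intro q hq k hk hdvd
      have h2 : q * q ∣ N := by
        have : q ^ 2 ∣ q ^ k := pow_dvd_pow q hk
        rw [pow_two] at this
        exact this.trans hdvd
      exact hq.not_isUnit (hsq q h2)
    exact s59 5 (Or.inr rfl) W hΔ hW h5 N hres (hnot_sq 5 (by norm_num) 2 le_rfl)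
      (fun q hq _ => hnot_sq q hq 3 (by norm_num))

/-- **S60** (frozen statement, verbatim) from S50 + G1. -/
theorem s60_of (W : WeierstrassCurve ℤ) (hΔ : W.Δ ≠ 0) (hW : W.IsSemistableModel) :
    (W.map (Int.castRingHom ℚ)).IsModular :=
  S60.isModular_of_chain s51 s52 h50 hgap s59 W hΔ hW

/-- **S04** (frozen statement, verbatim) from S50 + G1. -/
theorem s04_of (P : FreyPackage) : P.freyCurve.IsModular :=
  S04.isModular_of_semistable_modularity (s60_of h50 hgap) P

/-- **S06** (frozen statement, verbatim) from S50 + G1. -/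
theorem s06_of (P : FreyPackage) : ∃ N : ℕ, P.IsConductorLevel N ∧ P.ModularRepOfLevel N :=
  S06.H211.s06_of_semistable_mlc1 (mlc1_of h50 hgap) S04.freyCurveInt_isSemistableModel P

/-- **S45** (frozen statement, verbatim) from S50 + G1. -/
theorem s45_of (P : FreyPackage) (hmod : P.freyCurve.IsModular)
    (hirr : GaloisRepIsIrreducible (K := AlgebraicClosure ℚ) ℚ P.freyCurve P.p) :
    ∃ f : CuspForm (CongruenceSubgroup.Gamma0 2) 2, f ≠ 0 :=
  S45.H404.s45_of (s06_of h50 hgap) s43 s44 P hmod hirr

/-- **S03** (frozen statement, verbatim) from S50 + G1. -/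
theorem s03_of (P : FreyPackage) : False :=
  S03.H918.result_of (s04_of h50 hgap) s09 (s45_of h50 hgap) P

/-- **S01 — Fermat's Last Theorem** (frozen statement, verbatim) from S50 + G1. -/
theorem s01_of (n : ℕ) (hn : 3 ≤ n) (a b c : ℕ) (ha : 0 < a) (hb : 0 < b) (hc : 0 < c) :
    a ^ n + b ^ n ≠ c ^ n :=
  S01.H918.result_of (s03_of h50 hgap) n hn a b c ha hb hc

end chain

end Fermat.Agent.Cond.H239

end
-- ===== PACK-END Cond/H239/Chain.lean

-- ===== PACK-BEGIN G1/H899/NewWire.lean
section






/-!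
# G1.c, leaf NEWX (helper899): the twisted system at level `3 M'` is `3`-old

`W` an integral Weierstrass curve with `Δ ≠ 0`, `W[3]` irreducible and WITHOUT nonzero
inertia-fixed point at the places over `3` (the clause of S50); `W' = twistNegThree899 W`.

    newx_ready899 : W' residually modular (at 3) of level 3 M', 3 ∤ M', 2 ∣ M'
                      ⟹ W' residually modular of level M'
    newx899       : W' residually modular of level 3 M', 3 ∤ M'
                      ⟹ W' residually modular of level M' or 2 M'   (a level prime to 3)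

Proof.  BLR-W (`Ribet.H823.embedW`) embeds `W'[3]` in `J₀(3M')[3]`.  If the image is not in the
new part, (W0) `occursIn_of_not_new` + R3S + R3'-W lower the level.  If it is, the landed wall at
`3` — (S1) `Ribet.H884.s1`, (S2) `S33.H558.s2Ready` (READY levels) — gives
`τ (σ x' - x') = χ(τ) (σ x' - x')` on `W'[3]`, so by `newx_core899` inertia acts on `W[3]` through
`χ`, which NMT-W (`Ribet.H883.notMultTypeW`) forbids.
-/

set_option autoImplicit false
set_option linter.style.haveILetI false

open WeierstrassCurve WeierstrassCurve.Affine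
open ModularCurve

namespace Fermat.Agent.G1.H899

open Fermat.Agent.Ribet Fermat.Agent.Ribet.Spec Fermat.Agent.Ribet.H944.Wall
open Fermat.Agent.Ribet.H884 Fermat.Agent.Ribet.H801

local notation "Qb" => AlgebraicClosure ℚ

/-- The clause of S50: no nonzero point of `W[3]` is fixed by an inertia group over `3`. -/
def NoFixThree899 (W : WeierstrassCurve ℤ) : Prop :=
  ∀ A : ValuationSubring (AlgebraicClosure ℚ), A.LiesOverPrime 3 →
    ∀ x : Submodule.torsionBy ℤ
        ((W.map (Int.castRingHom ℚ))⁄(AlgebraicClosure ℚ)).Point (3 : ℕ),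
      (∀ σ ∈ A.inertiaSubgroupIn ℚ, σ • x = x) → x = 0

lemma cyclo3At_iff899 (σ : Qb ≃ₐ[ℚ] Qb) (c : ℕ) : Cyclo3At899 σ c ↔ CycloAt 3 σ c := Iff.rfl

/-- **NEWX at a READY level.** -/
theorem newx_ready899 (W : WeierstrassCurve ℤ) (hΔ : W.Δ ≠ 0) (hirr : W.ModRepIsIrreducible 3)
    (hfix : NoFixThree899 W) (M' : ℕ) (hM' : 0 < M') (h3 : ¬ 3 ∣ M') (hr : 2 ∣ M')
    (hmod : (twistNegThree899 W).IsResiduallyModularOfLevel 3 (3 * M')) :
    (twistNegThree899 W).IsResiduallyModularOfLevel 3 M' := by
  haveI : NeZero M' := ⟨hM'.ne'⟩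
  haveI : NeZero (3 : ℕ) := ⟨by norm_num⟩
  haveI : NeZero (3 * M') := ⟨by positivity⟩
  have hp : Nat.Prime 3 := Nat.prime_three
  have hp2 : (3 : ℕ) ≠ 2 := by norm_num
  have hΔ' := twistNegThree_Δ_ne_zero899 hΔ
  have hirr' := twc_irreducible899 W 3 hirr
  obtain ⟨f, 𝔪, hwit⟩ := hmod
  obtain ⟨S, ι, hinj, hgal, hT⟩ :=
    H823.embedW (twistNegThree899 W) 3 (3 * M') hΔ' hp hp2 hirr' f 𝔪 hwit
  obtain ⟨A, hA, -⟩ := H584.places 3 hp
  have hdeg := isDegPair_alphaL_betaL 3 M' hp
  by_cases h : ∃ x, alphaL 3 M' (ι x) ≠ 0 ∨ betaL 3 M' (ι x) ≠ 0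
  · -- OLD
    have hocc : OccursIn M' 3 (S ∪ {3}) (fun ℓ => (twistNegThree899 W).apOfModel ℓ) :=
      occursIn_of_not_new hdeg ι hT h
    obtain ⟨g, 𝔪', hg, hmax, hpm, hc⟩ :=
      exists_eigenform_of_occursIn H404.eigenformOfOccursAway hp hocc
    exact ⟨g, 𝔪', H943.Final.almostAllToWitnessW (twistNegThree899 W) 3 M' hΔ' hp hp2 hM' hirr'
      g 𝔪' _ hg hmax hpm hc⟩
  · -- NEW
    exfalso
    have hnew : ∀ x, alphaL 3 M' (ι x) = 0 ∧ betaL 3 M' (ι x) = 0 := by
      intro x
      by_contra hx
      apply h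
      refine ⟨x, ?_⟩
      by_cases h1 : alphaL 3 M' (ι x) = 0
      · exact Or.inr (fun h2 => hx ⟨h1, h2⟩)
      · exact Or.inl h1
    have hS1 := H884.s1 3 M' hp h3 A hA
    have hS2 := Fermat.Agent.S33.H558.s2Ready 3 M' hp hp2 h3 (fun _ => hr) A hA
    have hstar : ∀ x' : Submodule.torsionBy ℤ
        (((twistNegThree899 W).map (Int.castRingHom ℚ))⁄Qb).Point (3 : ℕ),
        ∀ σ ∈ A.inertiaSubgroupIn ℚ, ∀ τ ∈ A.inertiaSubgroupIn ℚ, ∀ c : ℕ, Cyclo3At899 τ c →
          τ • (σ • x' - x') = c • (σ • x' - x') := by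
      intro x' σ hσ τ hτ c hc
      apply hinj
      rw [hgal, map_nsmul]
      have hmem : ι (σ • x' - x') ∈ splitPart 3 M' A := by
        have := hS1 (ι x') (nsmul_emb_eq_zero ι x') σ hσ
        rwa [← hgal, ← map_sub] at this
      exact hS2 (ι (σ • x' - x')) hmem
        ⟨nsmul_emb_eq_zero ι _, (hnew _).1, (hnew _).2⟩ τ hτ c hc
    have hmult := newx_core899 W A (hfix A hA) hstar
    exact H883.notMultTypeW W 3 hΔ hp hp2 hirr A hA hmult

/-- **NEWX**: the twisted system at level `3 M'` (`3 ∤ M'`) lives at a level prime to `3`. -/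
theorem newx899 (W : WeierstrassCurve ℤ) (hΔ : W.Δ ≠ 0) (hirr : W.ModRepIsIrreducible 3)
    (hfix : NoFixThree899 W) (M' : ℕ) (hM' : 0 < M') (h3 : ¬ 3 ∣ M')
    (hmod : (twistNegThree899 W).IsResiduallyModularOfLevel 3 (3 * M')) :
    ∃ M'' : ℕ, 0 < M'' ∧ ¬ 3 ∣ M'' ∧ (M'' = M' ∨ M'' = M' * 2) ∧
      (twistNegThree899 W).IsResiduallyModularOfLevel 3 M'' := by
  by_cases hr : 2 ∣ M'
  · exact ⟨M', hM', h3, Or.inl rfl, newx_ready899 W hΔ hirr hfix M' hM' h3 hr hmod⟩
  · have h2 : ¬ 2 ∣ 3 * M' := by
      intro h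
      rcases (Nat.Prime.dvd_mul Nat.prime_two).mp h with h | h
      · norm_num at h
      · exact hr h
    have hpad := Fermat.Agent.S59.WallP3.isResiduallyModularOfLevel_mul_prime
      (twistNegThree899 W) 3 (3 * M') 2 Nat.prime_two h2 hmod
    have e : 3 * M' * 2 = 3 * (M' * 2) := by ring
    rw [e] at hpad
    have h3' : ¬ 3 ∣ M' * 2 := by
      intro h
      rcases (Nat.Prime.dvd_mul Nat.prime_three).mp h with h | h
      · exact h3 h
      · norm_num at h
    exact ⟨M' * 2, by positivity, h3', Or.inr rfl,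
      newx_ready899 W hΔ hirr hfix (M' * 2) (by positivity) h3' (Dvd.intro_left _ rfl) hpad⟩

end Fermat.Agent.G1.H899

end
-- ===== PACK-END G1/H899/NewWire.lean

-- ===== PACK-BEGIN G1/H899/XLeaves.lean
section



/-!
# G1 block X (helper899): the leaves TWC and MOD-3, VERBATIM in the frozen interface `G1/X/Spec.lean`

    twistCurve899 : Fermat.Agent.G1.X.TwistCurveStatement
    modThree899   : Fermat.Agent.G1.X.ModThreeStatement

Both unconditional (plain landed modules only).
-/

set_option autoImplicit false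
set_option linter.style.haveILetI false

open WeierstrassCurve WeierstrassCurve.Affine
open ModularCurve

namespace Fermat.Agent.G1.H899

open Fermat.Agent.Ribet Fermat.Agent.Ribet.Spec Fermat.Agent.Ribet.H944.Wall
open Fermat.Agent.Ribet.H884 Fermat.Agent.Ribet.H801
open Fermat.Agent.G1.X

local notation "Qb" => AlgebraicClosure ℚ

lemma twcChi_eq_chi3_899 (ℓ : ℕ) : twcChi899 ℓ = Fermat.Agent.Glue.chi3 ℓ := rfl

/-- Adapter: the twisted system of `W` is the system of the twisted curve. -/
theorem resMod_twist_of_isResModTw899 (W : WeierstrassCurve ℤ) (N : ℕ)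
    (h : Fermat.Agent.Glue.IsResModTw W true N) :
    (twistNegThree899 W).IsResiduallyModularOfLevel 3 N := by
  obtain ⟨f, 𝔪, hf, hmax, h3, hc⟩ := h
  refine ⟨f, 𝔪, hf, hmax, h3, fun ℓ hℓ hgood hℓN hℓ3 => ?_⟩
  obtain ⟨-, -, hW⟩ := twistNegThree_good899 hgood
  obtain ⟨a, ha, ham⟩ := hc ℓ hℓ hW hℓN hℓ3
  refine ⟨a, ha, ?_⟩
  rw [twc_apOfModel899 W ℓ hℓ hgood, twcChi_eq_chi3_899]
  exact ham

/-- `W'[3] ≅ W[3] ⊗ ω` in the shape of the frozen interface. -/
theorem isOmegaTwist899 (W : WeierstrassCurve ℤ) : IsOmegaTwist3 W (twistNegThree899 W) := by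
  obtain ⟨sd, hsd⟩ := twc_exists_sd899
  set Φ := twcPhiTors899 W sd hsd 3 with hΦ
  refine ⟨Φ.symm, fun σ c hc x => ?_⟩
  obtain ⟨x', rfl⟩ := Φ.surjective x
  rw [AddEquiv.symm_apply_apply]
  rcases twcPhiTors_smul899 W sd hsd 3 σ x' with ⟨hs, e⟩ | ⟨hs, e⟩
  · rw [e, AddEquiv.symm_apply_apply, tors_nsmul_mod899 3 c,
      cyclo_mod_of_pos899 sd hsd σ hs c hc, one_nsmul]
  · rw [e, map_neg, AddEquiv.symm_apply_apply, tors_nsmul_mod899 3 c,
      cyclo_mod_of_neg899 sd hsd σ hs c hc]
    have h3 := tors_nsmul899 3 (σ • x')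
    have h3' : 2 • (σ • x') + σ • x' = 0 := (succ_nsmul (σ • x') 2).symm.trans h3
    exact (eq_neg_of_add_eq_zero_left h3').symm

/-- **Leaf TWC, verbatim.** -/
theorem twistCurve899 : TwistCurveStatement := fun W hΔ hirr =>
  ⟨twistNegThree899 W, twistNegThree_Δ_ne_zero899 hΔ, twc_irreducible899 W 3 hirr,
    isOmegaTwist899 W, fun N h => resMod_twist_of_isResModTw899 W N h⟩

/-- **Leaf MOD-3, verbatim**: an irreducible `W'[3]` which is residually modular of level `3 M'`
(`3 ∤ M'`, `2 ∣ M'`) is `ω`-ordinary at `3` or residually modular of level `M'`. -/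
theorem modThree899 : ModThreeStatement := by
  intro W' hΔ' hirr' M' hM' hr h3 hmod
  haveI : NeZero M' := ⟨hM'.ne'⟩
  haveI : NeZero (3 : ℕ) := ⟨by norm_num⟩
  haveI : NeZero (3 * M') := ⟨by positivity⟩
  have hp : Nat.Prime 3 := Nat.prime_three
  have hp2 : (3 : ℕ) ≠ 2 := by norm_num
  obtain ⟨f, 𝔪, hwit⟩ := hmod
  obtain ⟨S, ι, hinj, hgal, hT⟩ := H823.embedW W' 3 (3 * M') hΔ' hp hp2 hirr' f 𝔪 hwit
  have hdeg := isDegPair_alphaL_betaL 3 M' hp
  by_cases h : ∃ x, alphaL 3 M' (ι x) ≠ 0 ∨ betaL 3 M' (ι x) ≠ 0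
  · -- OLD
    right
    have hocc : OccursIn M' 3 (S ∪ {3}) (fun ℓ => W'.apOfModel ℓ) :=
      occursIn_of_not_new hdeg ι hT h
    obtain ⟨g, 𝔪', hg, hmax, hpm, hc⟩ :=
      exists_eigenform_of_occursIn H404.eigenformOfOccursAway hp hocc
    exact ⟨g, 𝔪', H943.Final.almostAllToWitnessW W' 3 M' hΔ' hp hp2 hM' hirr'
      g 𝔪' _ hg hmax hpm hc⟩
  · -- NEW
    left
    have hnew : ∀ x, alphaL 3 M' (ι x) = 0 ∧ betaL 3 M' (ι x) = 0 := by
      intro x
      by_contra hx
      apply h
      refine ⟨x, ?_⟩
      by_cases h1 : alphaL 3 M' (ι x) = 0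
      · exact Or.inr (fun h2 => hx ⟨h1, h2⟩)
      · exact Or.inl h1
    intro A hA σ hσ τ hτ c hc x'
    have hS1 := H884.s1 3 M' hp h3 A hA
    have hS2 := Fermat.Agent.S33.H558.s2Ready 3 M' hp hp2 h3 (fun _ => hr) A hA
    apply hinj
    rw [hgal, map_nsmul]
    have hmem : ι (σ • x' - x') ∈ splitPart 3 M' A := by
      have := hS1 (ι x') (nsmul_emb_eq_zero ι x') σ hσ
      rwa [← hgal, ← map_sub] at this
    exact hS2 (ι (σ • x' - x')) hmem
      ⟨nsmul_emb_eq_zero ι _, (hnew _).1, (hnew _).2⟩ τ hτ c hc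

end Fermat.Agent.G1.H899

end
-- ===== PACK-END G1/H899/XLeaves.lean

-- ===== PACK-BEGIN G1/H186/ModFlat.lean
section






/-!
# Row GLUE, side X, leaf MOD-FLAT (helper186, spare)

`modFlat_h186 : Fermat.Agent.G1.X.ModFlatStatement`, unconditional:

  `W'` ANY integral Weierstrass curve with `Δ ≠ 0` and `W'[3]` irreducible, residually modular at
  `3` of a level `N > 0` with `3 ∤ N`   ⟹   `W'[3]` carries a Hopf lattice over `ℤ₍₃₎`.

Wiring of landed plain files of main (no semistability anywhere):

* `S58.H273.wRes_hcard`, `wRes_hker`     : `#W'[3] = 9`, finite level;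
* `S59.H401.dictGen0`                    : the dictionary WITHOUT semistability (`𝒪`, `ι`, `χ`);
* `S59.H294.resFlat_of_dict294`          : `ofResidualGaloisRep (W'[3])` is flat at `3`;
* `S59.H659.hopfSubquot_closed`          : Hopf models pass to submodules (level `⊥`);
* `S19.H435.exists_isHopfLattice_of_hopfModel` : Hopf model ⟹ Hopf lattice.

Also `hopfModel_h186` (the `S19.HopfModel` form, any odd prime `p`).
-/

set_option autoImplicit false
set_option linter.style.haveILetI false

open IsLocalRing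
open scoped WeierstrassCurve.Affine

namespace Fermat.Agent.G1.H186

open Fermat.Agent.S59 Fermat.Agent.S59.Arch

/-- A residual representation whose trivial lift is flat at `p` has a Hopf model over `ℤ₍p₎`
(level `⊥` of the definition of `IsFlatAt`). -/
theorem hopfModel_of_isFlatAt_ofResidual_h186 {p : ℕ} (hSub : H779.HopfSubquotSpec p)
    {k : Type} [Field k] (ρE : ResidualGaloisRep k)
    (hflat : (GaloisRepAdic.ofResidualGaloisRep ρE).IsFlatAt p) :
    Fermat.Agent.S19.HopfModel p ρE.V (fun σ x => ρE.ρ σ x) := by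
  have hfin0 : Finite (ResidueField k) := hflat.1
  have hfink : Finite k :=
    Finite.of_injective (IsLocalRing.residue k) (IsLocalRing.residue k).injective
  have hfin : Finite (k ⧸ (⊥ : Ideal k)) :=
    Finite.of_surjective (Ideal.Quotient.mk (⊥ : Ideal k)) Ideal.Quotient.mk_surjective
  have h0 : Fermat.Agent.S19.HopfModel p
      ((GaloisRepAdic.ofResidualGaloisRep ρE).V ⧸
        ((⊥ : Ideal k) • (⊤ : Submodule k (GaloisRepAdic.ofResidualGaloisRep ρE).V)))
      (fun σ x => (GaloisRepAdic.ofResidualGaloisRep ρE).levelAction (⊥ : Ideal k) σ x) :=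
    hflat.2 (⊥ : Ideal k) hfin
  refine H779.HopfModel.sub hSub
    (Submodule.mkQ ((⊥ : Ideal k) •
      (⊤ : Submodule k (GaloisRepAdic.ofResidualGaloisRep ρE).V))).toAddMonoidHom ?_
    (fun σ x => rfl) h0
  intro x y hxy
  have h1 : (x : (GaloisRepAdic.ofResidualGaloisRep ρE).V) - y ∈
      (⊥ : Ideal k) • (⊤ : Submodule k (GaloisRepAdic.ofResidualGaloisRep ρE).V) :=
    (Submodule.Quotient.eq _).mp hxy
  rw [Submodule.bot_smul] at h1
  exact sub_eq_zero.mp ((Submodule.mem_bot k).mp h1)

/-- **MOD-FLAT, Hopf-model form.**  `W` any integral model with `Δ ≠ 0`, `p` an odd prime with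
`W[p]` irreducible, residually modular of a level `N ≠ 0` prime to `p`: then `W[p]` has a Hopf
model over `ℤ₍p₎`. -/
theorem hopfModel_h186 (p : ℕ) [Fact p.Prime] (hp2 : p ≠ 2)
    (W : WeierstrassCurve ℤ) (hΔ : W.Δ ≠ 0) (hirr : W.ModRepIsIrreducible p)
    (N : ℕ) (hN : N ≠ 0) (hpN : ¬ p ∣ N) (hres : W.IsResiduallyModularOfLevel p N) :
    Fermat.Agent.S19.HopfModel p
      (Submodule.torsionBy ℤ ((W.map (Int.castRingHom ℚ))⁄(AlgebraicClosure ℚ)).Point p)
      (fun σ x => WeierstrassCurve.Affine.Point.galoisRepModuleEnd (K := AlgebraicClosure ℚ) ℚ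
        (W.map (Int.castRingHom ℚ)) p σ x) := by
  have hpr : p.Prime := Fact.out
  haveI : NeZero N := ⟨hN⟩
  have hcard := Fermat.Agent.S58.H273.wRes_hcard W hΔ p
  have hker := Fermat.Agent.S58.H273.wRes_hker W hΔ p
  have hpS : p ∈ insert p N.primeFactors := Finset.mem_insert_self _ _
  have hNS : ∀ q : ℕ, q.Prime → q ∣ N → q ∈ insert p N.primeFactors := fun q hq hqN =>
    Finset.mem_insert_of_mem (Nat.mem_primeFactors.mpr ⟨hq, hqN, hN⟩)
  obtain ⟨𝒪, _, _, _, _, _, _, ι, χ, hp𝒪, -, hRF⟩ :=
    Fermat.Agent.S59.H401.dictGen0 p W hΔ hirr hcard hker N (insert p N.primeFactors) hpS hNS hres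
  have hflat := Fermat.Agent.S59.H294.resFlat_of_dict294 p hp2 W hΔ hirr hcard hker N hpN
    (insert p N.primeFactors) hpS hNS 𝒪 hp𝒪 ι χ hRF
  exact hopfModel_of_isFlatAt_ofResidual_h186 (Fermat.Agent.S59.H659.hopfSubquot_closed p)
    ((W.map (Int.castRingHom ℚ)).residualGaloisRepOf p hcard hker) hflat

/-- **Leaf MOD-FLAT** of side X, verbatim. -/
theorem modFlat_h186 : Fermat.Agent.G1.X.ModFlatStatement := by
  intro W' hΔ hirr N hN h3N hres
  haveI : Fact (Nat.Prime 3) := ⟨Nat.prime_three⟩
  have h := hopfModel_h186 3 (by norm_num) W' hΔ hirr N hN.ne' h3N hres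
  exact Fermat.Agent.S19.H435.exists_isHopfLattice_of_hopfModel h

end Fermat.Agent.G1.H186

end
-- ===== PACK-END G1/H186/ModFlat.lean

-- ===== PACK-BEGIN G1/H239/XFinal.lean
section





/-!
# Row GLUE, side X — CLOSED (architect helper239)

`twistExcl : Fermat.Agent.Glue.TwistExclStatement`, UNCONDITIONAL, in the plain world of main:

* wall: `G1/X/{Spec,Top,Closed}.lean` (helper60): `twistExcl_of_three`, `modSide_of`;
* TWC, MOD-3: `G1/H899/XLeaves.lean` (helper899): `twistCurve899`, `modThree899`;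
* MOD-FLAT: `G1/H186/ModFlat.lean` (helper186): `modFlat_h186`;
* LOC: `G1/H180/Top.lean` (helper180): `localTwistExclusion_h180` (the abstract local twist
  exclusion in the interface `G1/H59/Spec.lean` of helper59), `G1/H4/LocW.lean` (helper4) and
  the adapter `G1/H239/LocAdapt.lean`.
-/

set_option autoImplicit false

namespace Fermat.Agent.G1.H239

/-- The leaf LOC of the wall of side X. -/
theorem localExcl : Fermat.Agent.G1.X.LocalExclStatement :=
  localExcl_of_lte59 Fermat.Agent.G1.H180.localTwistExclusion_h180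

/-- The leaf MOD of the wall of side X. -/
theorem modSide : Fermat.Agent.G1.X.ModSideStatement :=
  Fermat.Agent.G1.X.modSide_of Fermat.Agent.G1.H186.modFlat_h186
    Fermat.Agent.G1.H899.modThree899

/-- **Side X, closed**: the twisted system does not occur at a neat level `N` with `9 ∤ N`. -/
theorem twistExcl : Fermat.Agent.Glue.TwistExclStatement :=
  Fermat.Agent.G1.X.twistExcl_of_three Fermat.Agent.G1.H899.twistCurve899 modSide localExcl

end Fermat.Agent.G1.H239

end
-- ===== PACK-END G1/H239/XFinal.lean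

-- ===== PACK-BEGIN G1/H239/G1Final.lean
section



/-!
# Row GLUE — G1 CLOSED (architect of side X, helper239)

`g1 : Fermat.Agent.Glue.G1Statement`, UNCONDITIONAL, in the plain world of main:
blocks R (helper120), D (helper723 + 486 + 659) and X (`G1/H239/XFinal.lean`).
-/

set_option autoImplicit false

namespace Fermat.Agent.G1.H239

/-- **G1, closed**: level lowering at `3` for a semistable curve with irreducible `W[3]` and no
inertia-fixed `3`-torsion. -/
theorem g1 : Fermat.Agent.Glue.G1Statement :=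
  Fermat.Agent.G1.H723.g1_of_twistExcl723 twistExcl

end Fermat.Agent.G1.H239

end
-- ===== PACK-END G1/H239/G1Final.lean

-- ===== PACK-BEGIN Cond/H239/Final.lean
section



/-!
# Row GLUE — the chain `S50 ⟹ S01` in ONE plain import universe, G1 PLUGGED (helper239)

`G1` (`Fermat.Agent.G1.H239.g1 : Glue.G1Statement`, blocks R + D + X of row GLUE) is proved, so
the ONLY remaining hypothesis of the whole chain is the frozen statement S50
(Langlands–Tunnell, form (iii)):

    s60_of50, s04_of50, s06_of50, s45_of50, s03_of50, s01_of50 :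
        S60.StatementS50 → <frozen statement, verbatim>
-/

set_option autoImplicit false
open WeierstrassCurve WeierstrassCurve.Affine WeierstrassCurve.Affine.Point
open CuspForm ModularFormClass UpperHalfPlane
open scoped WeierstrassCurve.Affine

namespace Fermat.Agent.Cond.H239

open Fermat.Agent

/-- G1 in the vocabulary of the S60 glue. -/
theorem gapAtThree : S60.StatementGapAtThree :=
  fun W hΔ hW h3 M hM hres hM3 h9 hfix =>
    Fermat.Agent.G1.H239.g1 W hΔ hW h3 M hM hres hM3 h9 hfix

section

variable (h50 : S60.StatementS50)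
include h50

/-- Exact conductor-level modularity of every semistable integral model, from S50. -/
theorem mlc1_of50 (W : WeierstrassCurve ℤ) (hΔ : W.Δ ≠ 0) (hW : W.IsSemistableModel) :
    Mlc1IsModularModelOfExactConductorLevel W :=
  mlc1_of h50 gapAtThree W hΔ hW

/-- **S60** (frozen statement, verbatim) from S50. -/
theorem s60_of50 (W : WeierstrassCurve ℤ) (hΔ : W.Δ ≠ 0) (hW : W.IsSemistableModel) :
    (W.map (Int.castRingHom ℚ)).IsModular :=
  s60_of h50 gapAtThree W hΔ hW

/-- **S04** (frozen statement, verbatim) from S50. -/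
theorem s04_of50 (P : FreyPackage) : P.freyCurve.IsModular :=
  s04_of h50 gapAtThree P

/-- **S06** (frozen statement, verbatim) from S50. -/
theorem s06_of50 (P : FreyPackage) : ∃ N : ℕ, P.IsConductorLevel N ∧ P.ModularRepOfLevel N :=
  s06_of h50 gapAtThree P

/-- **S45** (frozen statement, verbatim) from S50. -/
theorem s45_of50 (P : FreyPackage) (hmod : P.freyCurve.IsModular)
    (hirr : GaloisRepIsIrreducible (K := AlgebraicClosure ℚ) ℚ P.freyCurve P.p) :
    ∃ f : CuspForm (CongruenceSubgroup.Gamma0 2) 2, f ≠ 0 :=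
  s45_of h50 gapAtThree P hmod hirr

/-- **S03** (frozen statement, verbatim) from S50. -/
theorem s03_of50 (P : FreyPackage) : False :=
  s03_of h50 gapAtThree P

/-- **S01 — Fermat's Last Theorem** (frozen statement, verbatim) from S50. -/
theorem s01_of50 (n : ℕ) (hn : 3 ≤ n) (a b c : ℕ) (ha : 0 < a) (hb : 0 < b) (hc : 0 < c) :
    a ^ n + b ^ n ≠ c ^ n :=
  s01_of h50 gapAtThree n hn a b c ha hb hc

end

end Fermat.Agent.Cond.H239

end
-- ===== PACK-END Cond/H239/Final.lean

-- ===== PACK-BEGIN Glue/Top2.lean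
section







/-!
# Row GLUE, phase 2 — the plain TOP  (row-lead helper120)

    s01_of_rm3_C_Q : RM3Statement → CuspSwitchStatement → QStatement → S01Statement

Everything else is plugged in from the plain world: the landed statements (plain trunk of
helper239, `Cond/H239/Chain.lean`), `G1` (`G1/H239/G1Final.lean`), block F up to the leaf C
(`G2/H480/FClosed.lean` of helper480 with the leaves of helper3, helper559, helper304, helper781)
and the leaf F5 (`G2/H6/Frey5V.lean` of helper6).

`RM3Statement` is the conclusion of `LTB.Glue2` (closed, helper49) applied to the frozen S47.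
-/

set_option autoImplicit false
open WeierstrassCurve WeierstrassCurve.Affine WeierstrassCurve.Affine.Point
open CuspForm ModularFormClass UpperHalfPlane
open scoped WeierstrassCurve.Affine

namespace Fermat.Agent.Glue.Top2

open Fermat.Agent Fermat.Agent.Glue

theorem s02T : S02Statement := fun a b c ha hb hc p pp hp5 H =>
  Fermat.Agent.S02.result a b c ha hb hc p pp hp5 H
theorem s05T : S05Statement := fun P _ hq hq2 hqp => Fermat.Agent.S05.result P hq hq2 hqp
theorem s07T : S07Statement := fun f => Fermat.Agent.S07.result f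
theorem s08T : S08Statement := fun f => Fermat.Agent.S08.result f
theorem s09T : S09Statement := fun P => Fermat.Agent.Cond.H239.s09 P
theorem s43T : S43Statement := fun P _ _ hcond hq hq2 hqp hqN hirr hmod hunr =>
  Fermat.Agent.Cond.H239.s43 P hcond hq hq2 hqp hqN hirr hmod hunr
theorem s44T : S44Statement := fun P _ hcond hpN hirr hmod =>
  Fermat.Agent.Cond.H239.s44 P hcond hpN hirr hmod
theorem s59T : S59Statement := fun p hp W hΔ hW hirr M₀ _ hres hM₀ hM₀3 =>
  Fermat.Agent.Cond.H239.s59 p hp W hΔ hW hirr M₀ hres hM₀ hM₀3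
theorem g1T : G1Statement := fun W hΔ hW h3 M hM hres hM3 h9 hfix =>
  Fermat.Agent.G1.H239.g1 W hΔ hW h3 M hM hres hM3 h9 hfix

/-- Block F from the leaf C alone. -/
theorem freyRoute_of_C (hC : CuspSwitchStatement) : FreyRouteStatement :=
  Fermat.Agent.G2.H480.freyRoute_of_C_F5_480 hC Fermat.Agent.G2.H6.frey5Statement

/-- **Fermat's Last Theorem** from `RM3` (= S47 + `LTB.Glue2`), the leaf C and block Q. -/
theorem s01_of_rm3_C_Q (hRM : RM3Statement) (hC : CuspSwitchStatement) (hQ : QStatement) :
    S01Statement :=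
  s01_of_gap FreyInt.freyInt s02T s05T s07T s08T s09T s43T s44T s59T g1T hRM hQ
    (freyRoute_of_C hC)

/-- The same, unfolded to the frozen statement S01. -/
theorem s01_of_rm3_C_Q' (hRM : RM3Statement) (hC : CuspSwitchStatement) (hQ : QStatement)
    (n : ℕ) (hn : 3 ≤ n) (a b c : ℕ) (ha : 0 < a) (hb : 0 < b) (hc : 0 < c) :
    a ^ n + b ^ n ≠ c ^ n :=
  s01_of_rm3_C_Q hRM hC hQ n hn a b c ha hb hc

end Fermat.Agent.Glue.Top2

end
-- ===== PACK-END Glue/Top2.lean

-- ===== PACK-BEGIN Glue/Top3.lean
section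



/-!
# Row GLUE, phase 2 — the plain TOP with the frozen S47 as hypothesis  (row-lead helper120)

    s01_of_s47_C_Q : LTB.S47Statement → CuspSwitchStatement → QStatement → S01Statement

`LTB.S47Statement` is the frozen statement S47 (row 42) as a Prop (`LT/H17/Board.lean`, helper17);
`glue2_49 : LTB.Glue2` (helper49) turns it into `RM3Statement`.
-/

set_option autoImplicit false

namespace Fermat.Agent.Glue.Top3

open Fermat.Agent Fermat.Agent.Glue

/-- `RM3` from the frozen S47. -/
theorem rm3_of_s47 (h47 : LTB.S47Statement) : RM3Statement :=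
  fun W hΔ hW h3 => Fermat.Agent.LT.H49.glue2_49 h47 W ⟨hΔ, hW, h3⟩

/-- **Fermat's Last Theorem** from the frozen S47, the leaf C and block Q. -/
theorem s01_of_s47_C_Q (h47 : LTB.S47Statement) (hC : CuspSwitchStatement) (hQ : QStatement) :
    S01Statement :=
  Top2.s01_of_rm3_C_Q (rm3_of_s47 h47) hC hQ

/-- The frozen S47 also gives S04 and S06 (rows 4, 6) with C and Q. -/
theorem s04_of_s47_C_Q (h47 : LTB.S47Statement) (hC : CuspSwitchStatement) (hQ : QStatement) :
    S04Statement :=
  s04_of_gap FreyInt.freyInt Top2.s59T Top2.g1T (rm3_of_s47 h47) hQ (Top2.freyRoute_of_C hC)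

theorem s06_of_s47_C_Q (h47 : LTB.S47Statement) (hC : CuspSwitchStatement) (hQ : QStatement) :
    S06Statement :=
  s06_of_gap FreyInt.freyInt Top2.s59T Top2.g1T (rm3_of_s47 h47) hQ (Top2.freyRoute_of_C hC)

theorem s03_of_s47_C_Q (h47 : LTB.S47Statement) (hC : CuspSwitchStatement) (hQ : QStatement) :
    S03Statement :=
  s03_of_gap FreyInt.freyInt Top2.s05T Top2.s07T Top2.s08T Top2.s09T Top2.s43T Top2.s44T
    Top2.s59T Top2.g1T (rm3_of_s47 h47) hQ (Top2.freyRoute_of_C hC)

end Fermat.Agent.Glue.Top3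

end
-- ===== PACK-END Glue/Top3.lean

-- ===== PACK-BEGIN Glue/Top4.lean
section



/-!
# Row GLUE, phase 2 — block F CLOSED; the plain TOP with S47 and block Q as the only hypotheses
(row-lead helper120)

    freyRoute      : FreyRouteStatement                                   (block F, unconditional)
    s01_of_s47_Q   : LTB.S47Statement → QStatement → S01Statement

Leaf C = `cuspSwitch723 : CuspSwitchStatement` (helper723, `G2/H723/`).
-/

set_option autoImplicit false

namespace Fermat.Agent.Glue.Top4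

open Fermat.Agent Fermat.Agent.Glue

/-- **Block F**, unconditional: every Frey curve has a route. -/
theorem freyRoute : FreyRouteStatement :=
  Top2.freyRoute_of_C Fermat.Agent.G2.H723.cuspSwitch723

/-- **Fermat's Last Theorem** from `RM3` and block Q. -/
theorem s01_of_rm3_Q (hRM : RM3Statement) (hQ : QStatement) : S01Statement :=
  Top2.s01_of_rm3_C_Q hRM Fermat.Agent.G2.H723.cuspSwitch723 hQ

/-- **Fermat's Last Theorem** from the frozen S47 and block Q. -/
theorem s01_of_s47_Q (h47 : LTB.S47Statement) (hQ : QStatement) : S01Statement :=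
  Top3.s01_of_s47_C_Q h47 Fermat.Agent.G2.H723.cuspSwitch723 hQ

theorem s03_of_s47_Q (h47 : LTB.S47Statement) (hQ : QStatement) : S03Statement :=
  Top3.s03_of_s47_C_Q h47 Fermat.Agent.G2.H723.cuspSwitch723 hQ

theorem s04_of_s47_Q (h47 : LTB.S47Statement) (hQ : QStatement) : S04Statement :=
  Top3.s04_of_s47_C_Q h47 Fermat.Agent.G2.H723.cuspSwitch723 hQ

theorem s06_of_s47_Q (h47 : LTB.S47Statement) (hQ : QStatement) : S06Statement :=
  Top3.s06_of_s47_C_Q h47 Fermat.Agent.G2.H723.cuspSwitch723 hQ

end Fermat.Agent.Glue.Top4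

end
-- ===== PACK-END Glue/Top4.lean

-- ===== PACK-BEGIN G2/Q/H284/Closed.lean
section









/-!
# Row GLUE, phase 2, BLOCK Q — CLOSED (integration by helper284 on the drafts of architect helper666)

    qStatement284 : Fermat.Agent.Glue.QStatement          (VERBATIM, unconditional)

`Glue.QStatement` (origin/helper120 `Glue/Gap.lean`): a level of residual modularity at `3` of a
semistable `W` with irreducible `W[3]` can be replaced by one which is cube-free away from `3`.

Plugged into `G2.Q.qStatement_of_leaves` (helper666):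
* BLR-W   `Ribet.H823.embedW`                                   (main),
* R3'-W   `Ribet.H764.almostAllToWitnessW_of_S29 S29.result_top` (main, plain top of S29),
* LEV-X   `G2.Q.H666.levelExactGE_of_modelE` on the closed MOD-E of row CAR3
          (`S45.ModE.H233.modelE_h233`, trunk origin/helper233, through the adapter
          `S45.ModE.H562.engModelE_of_modelE562`),
* DESC-X  `G2.Q.H666.descExact`.
-/

set_option autoImplicit false

namespace Fermat.Agent.G2.Q.H284

/-- LEV-X, unconditional: the exact level engine at neat levels `M q`, `q ∣ M`. -/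
theorem levelExactGE284 : Fermat.Agent.G2.Q.LevelExactGEStatement :=
  Fermat.Agent.G2.Q.H666.levelExactGE_of_modelE
    (Fermat.Agent.S45.ModE.H562.engModelE_of_modelE562 Fermat.Agent.S45.ModE.H233.modelE_h233)

/-- The exact engine on `J₀(M q q)` at neat levels, `q ∣ M`, unconditional. -/
theorem qNewZeroNeat284 : Fermat.Agent.G2.Q.QNewZeroNeatStatement :=
  Fermat.Agent.G2.Q.qNewZeroNeat_of_leaves levelExactGE284 Fermat.Agent.G2.Q.H666.descExact

/-- CORE-GE, unconditional. -/
theorem coreGE284 : Fermat.Agent.G2.Q.CoreGEStatement :=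
  Fermat.Agent.G2.Q.coreGE_of_qNewZero qNewZeroNeat284

/-- R3'-W on the plain top of S29. -/
theorem almostAllToWitnessW284 : Fermat.Agent.Ribet.Spec.AlmostAllToWitnessWStatement :=
  Fermat.Agent.Ribet.H764.almostAllToWitnessW_of_S29 Fermat.Agent.S29.result_top

/-- LO-GE at neat levels (W-form), unconditional. -/
theorem loGE284 : Fermat.Agent.G2.Q.LoGEStatement :=
  Fermat.Agent.G2.Q.loGE_of_coreGE Fermat.Agent.Ribet.H823.embedW almostAllToWitnessW284
    coreGE284

/-- **BLOCK Q, unconditional.** -/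
theorem qStatement284 : Fermat.Agent.Glue.QStatement :=
  Fermat.Agent.G2.Q.qStatement_of_loGE loGE284

end Fermat.Agent.G2.Q.H284

end
-- ===== PACK-END G2/Q/H284/Closed.lean

-- ===== PACK-BEGIN Glue/Top5.lean
section



/-!
# Row GLUE, phase 2 — CLOSED: Fermat's Last Theorem from the frozen S47 alone  (row-lead helper120)

    s01_of_s47 : LTB.S47Statement → S01Statement

plain world.  Block F = `Top4.freyRoute` (unconditional), block Q = `qStatement284` (helper284 on
the drafts of helper666, on the plain S45 trunk of helper233), `LTB.Glue2` = `glue2_49` (helper49),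
G1 = `G1.H239.g1` (helper239), landed statements from the plain tops.

`LTB.S47Statement` is the frozen statement S47 as a Prop (`LT/H17/Board.lean`).
-/

set_option autoImplicit false

namespace Fermat.Agent.Glue.Top5

open Fermat.Agent Fermat.Agent.Glue

/-- **Block Q**, unconditional. -/
theorem qStatement : QStatement := Fermat.Agent.G2.Q.H284.qStatement284

/-- **Fermat's Last Theorem from `RM3`.** -/
theorem s01_of_rm3 (hRM : RM3Statement) : S01Statement := Top4.s01_of_rm3_Q hRM qStatement

/-- **Fermat's Last Theorem from the frozen S47.** -/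
theorem s01_of_s47 (h47 : LTB.S47Statement) : S01Statement := Top4.s01_of_s47_Q h47 qStatement

/-- The frozen S03 (no Frey package exists) from the frozen S47. -/
theorem s03_of_s47 (h47 : LTB.S47Statement) : S03Statement := Top4.s03_of_s47_Q h47 qStatement

/-- The frozen S04 (the Frey curve is modular) from the frozen S47. -/
theorem s04_of_s47 (h47 : LTB.S47Statement) : S04Statement := Top4.s04_of_s47_Q h47 qStatement

/-- The frozen S06 from the frozen S47. -/
theorem s06_of_s47 (h47 : LTB.S47Statement) : S06Statement := Top4.s06_of_s47_Q h47 qStatement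

/-- The same, unfolded to the frozen statement S01. -/
theorem fermat_of_s47 (h47 : LTB.S47Statement)
    (n : ℕ) (hn : 3 ≤ n) (a b c : ℕ) (ha : 0 < a) (hb : 0 < b) (hc : 0 < c) :
    a ^ n + b ^ n ≠ c ^ n :=
  s01_of_s47 h47 n hn a b c ha hb hc

end Fermat.Agent.Glue.Top5

end
-- ===== PACK-END Glue/Top5.lean

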