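import Fermat.Prelude.Def_AlgebraicCurve_Correspondence
import Fermat.Prelude.Def_ModularCurve_ReductionModL
import Fermat.Prelude.Def_ModularCurve_HeckeOperator
import Fermat.Agent.Pack.L1.E7L0
import Fermat.Agent.Pack.L1.E5L3
import Fermat.Agent.Pack.L1.E5L0
import Fermat.Agent.Pack.S44C.G0E23L3
import Fermat.Agent.Pack.S44C.G0E22L1
import Fermat.Agent.Pack.S44C.G0E17L2
import Fermat.Agent.Pack.S44C.G0E23L1
import Fermat.Agent.Pack.S44C.G0E26L1
import Fermat.Agent.Pack.S44C.G0E7L1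
import Fermat.Agent.Pack.L1.E7L3
import Fermat.Agent.Pack.L1.E0L0
import Fermat.Agent.Pack.L1.E5L2
import Fermat.Agent.Pack.L1.E6L2

-- ===== PACK-BEGIN S15/H362/CuspTwo.lean
section



/-!
# S15 / piece CUSP (helper362): at prime level the only poles of `j` are the cusps `∞` and `0`

* `cuspCount_prime` : `cuspCount m = 2` for a prime `m`;
* `eq_cusp_of_ord_jBar_neg` (C4) : a place of `ℚ̄(X₀(m))`, `m` prime, at which `j` has a pole is
  `∞` or `0`;
* `eq_cusp_of_ord_jLevelBar_neg` : the same for `j(q^m)`.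

Sorry-free.
-/

set_option autoImplicit false
set_option synthInstance.maxHeartbeats 400000

noncomputable section

open AlgebraicCurve ModularCurve HahnSeries

namespace Fermat.Agent.S15.H362

open Fermat.Agent.A2.H528

theorem cuspCount_prime {m : ℕ} (hm : m.Prime) : cuspCount m = 2 := by
  unfold cuspCount
  rw [Nat.Prime.divisors hm, Finset.sum_pair hm.one_lt.ne]
  simp [Nat.div_self hm.pos]

variable (m : ℕ) [NeZero m]

theorem jBar_eq_jF : jBar m = Fermat.Agent.S24.jF m := rfl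

/-- **C4.** At prime level, a pole of `j` is one of the two cusps `∞`, `0`. -/
theorem eq_cusp_of_ord_jBar_neg (hm : m.Prime) (P : Place Qb (FB m))
    (h : P.ord (jBar m) < 0) : P = cuspInfty m ∨ P = cuspZero m := by
  classical
  obtain ⟨hfin, hcard, -⟩ := Fermat.Agent.Lib.X0Branch.places_inv m
  rw [cuspCount_prime hm, Nat.card_eq_card_finite_toFinset hfin] at hcard
  obtain ⟨x, y, hxy, hS⟩ := Finset.card_eq_two.mp hcard
  have hmem : ∀ v : Place Qb (FB m), v.ord (jBar m) < 0 → v = x ∨ v = y := by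
    intro v hv
    have hv' : v ∈ hfin.toFinset := by
      rw [Set.Finite.mem_toFinset, Set.mem_ofPred_eq, ← jBar_eq_jF, Place.ord_inv]
      omega
    rw [hS] at hv'
    simpa using hv'
  have h1 : (cuspInfty m).ord (jBar m) < 0 := by rw [ord_cuspInfty_jBar]; omega
  have hm0 : (0 : ℤ) < m := by exact_mod_cast hm.pos
  have h2 : (cuspZero m).ord (jBar m) < 0 := by rw [ord_cuspZero_jBar]; omega
  have hne := cuspZero_ne_cuspInfty m hm.one_lt
  rcases hmem _ h1 with e1 | e1 <;> rcases hmem _ h2 with e2 | e2 <;>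
    rcases hmem P h with e3 | e3
  · exact absurd (e2.trans e1.symm) hne
  · exact absurd (e2.trans e1.symm) hne
  · exact Or.inl (e3.trans e1.symm)
  · exact Or.inr (e3.trans e2.symm)
  · exact Or.inr (e3.trans e2.symm)
  · exact Or.inl (e3.trans e1.symm)
  · exact absurd (e2.trans e1.symm) hne
  · exact absurd (e2.trans e1.symm) hne

/-- `ord_{w P} f = ord_P (w f)`. -/
theorem ord_wSemi_smul (P : Place Qb (FB m)) (f : FB m) :
    (wSemi m • P).ord f = P.ord (wF m f) := by
  have h := SemilinearAut.ord_smul (wSemi m) P (wF m f)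
  rw [wSemi_smul, wF_wF] at h
  exact h

/-- At prime level, a pole of `j(q^m)` is one of the two cusps `∞`, `0`. -/
theorem eq_cusp_of_ord_jLevelBar_neg (hm : m.Prime) (P : Place Qb (FB m))
    (h : P.ord (jLevelBar m) < 0) : P = cuspInfty m ∨ P = cuspZero m := by
  have h' : (wSemi m • P).ord (jBar m) < 0 := by
    rw [ord_wSemi_smul, wF_jBar]; exact h
  have hP : wSemi m • (wSemi m • P) = P := by
    rw [← mul_smul, wSemi_mul_self, one_smul]
  rcases eq_cusp_of_ord_jBar_neg m hm _ h' with e | e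
  · right
    rw [← hP, e]; rfl
  · left
    rw [← hP, e, wSemi_smul_cuspZero]

end Fermat.Agent.S15.H362

end
end
-- ===== PACK-END S15/H362/CuspTwo.lean

-- ===== PACK-BEGIN S15/H362/CuspRatio.lean
section


/-!
# S15 / piece CUSP (helper362): the ratio lemma

Let `m` be a prime, `ι : ℚ̄(X₀(m)) → Z` an integral embedding into a function field and `W` a place
of `Z` at which `ι j` or `ι j(q^m)` has a pole.  Then `W` lies over `∞` or over `0`, and
accordingly `ord_W (ι j_m) = m · ord_W (ι j)` or `ord_W (ι j) = m · ord_W (ι j_m)`.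

Sorry-free.
-/

set_option autoImplicit false
set_option synthInstance.maxHeartbeats 400000
set_option linter.style.haveILetI false

noncomputable section

open AlgebraicCurve ModularCurve HahnSeries

namespace Fermat.Agent.S15.H362

variable {Z : Type*} [Field Z] [Algebra Qb Z]
variable (m : ℕ) [NeZero m]

/-- **Ratio lemma.** -/
theorem cusp_ratio (hm : m.Prime) (ι : FB m →ₐ[Qb] Z) (hι : ι.toRingHom.IsIntegral)
    (W : Place Qb Z)
    (h : W.ord (ι (jBar m)) < 0 ∨ W.ord (ι (jLevelBar m)) < 0) :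
    (W.restrictAlong ι hι = cuspInfty m ∧ W.ord (ι (jBar m)) < 0 ∧
        W.ord (ι (jLevelBar m)) = m * W.ord (ι (jBar m))) ∨
      (W.restrictAlong ι hι = cuspZero m ∧ W.ord (ι (jLevelBar m)) < 0 ∧
        W.ord (ι (jBar m)) = m * W.ord (ι (jLevelBar m))) := by
  have h1 := Place.ord_restrictAlong ι hι W (jBar m)
  have h2 := Place.ord_restrictAlong ι hι W (jLevelBar m)
  set e : ℕ := Place.ramificationIndexAlong ι W with he
  set P := W.restrictAlong ι hι with hP
  have hm0 : (0 : ℤ) < m := by exact_mod_cast hm.pos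
  have he0 : (0 : ℤ) < e := by
    rcases Nat.eq_zero_or_pos e with h0 | h0
    · rw [h0] at h1 h2
      simp only [Nat.cast_zero, zero_mul] at h1 h2
      rw [h1, h2] at h
      omega
    · exact_mod_cast h0
  have hcusp : P = cuspInfty m ∨ P = cuspZero m := by
    rcases h with h | h
    · refine eq_cusp_of_ord_jBar_neg m hm P ?_
      rw [h1] at h
      by_contra hc
      rw [not_lt] at hc
      have := mul_nonneg he0.le hc
      omega
    · refine eq_cusp_of_ord_jLevelBar_neg m hm P ?_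
      rw [h2] at h
      by_contra hc
      rw [not_lt] at hc
      have := mul_nonneg he0.le hc
      omega
  rcases hcusp with e1 | e1
  · left
    rw [e1, ord_cuspInfty_jBar] at h1
    rw [e1, ord_cuspInfty_jLevelBar] at h2
    refine ⟨e1, by rw [h1]; omega, ?_⟩
    rw [h1, h2]; ring
  · right
    rw [e1, ord_cuspZero_jBar] at h1
    rw [e1, ord_cuspZero_jLevelBar] at h2
    refine ⟨e1, by rw [h2]; omega, ?_⟩
    rw [h1, h2]; ring

/-- A place over `∞`: `ι j` has a pole and `ord (ι j_m) = m · ord (ι j)`. -/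
theorem ord_of_restrict_eq_cuspInfty (ι : FB m →ₐ[Qb] Z) (hι : ι.toRingHom.IsIntegral)
    (W : Place Qb Z) (hW : W.restrictAlong ι hι = cuspInfty m) :
    W.ord (ι (jBar m)) < 0 ∧ W.ord (ι (jLevelBar m)) = m * W.ord (ι (jBar m)) := by
  have h1 := Place.ord_restrictAlong ι hι W (jBar m)
  have h2 := Place.ord_restrictAlong ι hι W (jLevelBar m)
  rw [hW, ord_cuspInfty_jBar] at h1
  rw [hW, ord_cuspInfty_jLevelBar] at h2
  have he0 : 0 < Place.ramificationIndexAlong ι W := by
    letI := algebraAlong ι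
    haveI := isScalarTower_along ι
    haveI := isIntegral_along ι hι
    exact Place.ramificationIndex_pos (F := FB m) W
  have he0' : (0 : ℤ) < (Place.ramificationIndexAlong ι W : ℤ) := by exact_mod_cast he0
  refine ⟨by rw [h1]; omega, ?_⟩
  rw [h1, h2]; ring

/-- A place over `0`: `ι j_m` has a pole and `ord (ι j) = m · ord (ι j_m)`. -/
theorem ord_of_restrict_eq_cuspZero (ι : FB m →ₐ[Qb] Z) (hι : ι.toRingHom.IsIntegral)
    (W : Place Qb Z) (hW : W.restrictAlong ι hι = cuspZero m) :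
    W.ord (ι (jLevelBar m)) < 0 ∧ W.ord (ι (jBar m)) = m * W.ord (ι (jLevelBar m)) := by
  have h1 := Place.ord_restrictAlong ι hι W (jBar m)
  have h2 := Place.ord_restrictAlong ι hι W (jLevelBar m)
  rw [hW, ord_cuspZero_jBar] at h1
  rw [hW, ord_cuspZero_jLevelBar] at h2
  have he0 : 0 < Place.ramificationIndexAlong ι W := by
    letI := algebraAlong ι
    haveI := isScalarTower_along ι
    haveI := isIntegral_along ι hι
    exact Place.ramificationIndex_pos (F := FB m) W
  have he0' : (0 : ℤ) < (Place.ramificationIndexAlong ι W : ℤ) := by exact_mod_cast he0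
  refine ⟨by rw [h2]; omega, ?_⟩
  rw [h1, h2]; ring

end Fermat.Agent.S15.H362

end
end
-- ===== PACK-END S15/H362/CuspRatio.lean

-- ===== PACK-BEGIN S15/H362/CuspLevel.lean
section



/-!
# S15 / piece CUSP (helper362): the cusps of `X₀(pℓ)` over the cusps of `X₀(p)`

For distinct primes `p`, `ℓ` and a place `W` of `ℚ̄(X₀(pℓ))`:
`W|_β = ∞ → W|_α = ∞` and `W|_β = 0 → W|_α = 0`, where `α, β : ℚ̄(X₀(p)) → ℚ̄(X₀(pℓ))` are the two
degeneracy maps (`α` the inclusion, `β : q ↦ q^ℓ`).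

Proof: the four functions `j(q), j(q^ℓ), j(q^p), j(q^{pℓ})` of level `pℓ` are the images of
`j, j_p` under `α, β` and of `j, j_ℓ` under the two degeneracy maps `γ, δ` from level `ℓ`; the
ratio lemma (`cusp_ratio`) for the four maps gives four relations between the pole orders,
which exclude the mixed cases.

Sorry-free.
-/

set_option autoImplicit false
set_option synthInstance.maxHeartbeats 400000
set_option linter.style.haveILetI false

noncomputable section

open AlgebraicCurve ModularCurve HahnSeries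

namespace Fermat.Agent.S15.H362

/-- `coeffEmb` commutes with `q ↦ q^n`. -/
theorem coeffEmb_qExpand_h362 (n : ℕ) [NeZero n] (x : LaurentSeries ℚ) :
    coeffEmb Qb (qExpand ℚ n x) = qExpand Qb n (coeffEmb Qb x) := by
  ext k
  by_cases hk : (n : ℤ) ∣ k
  · obtain ⟨m, rfl⟩ := hk
    rw [coeffEmb_coeff, qExpand_coeff_mul, qExpand_coeff_mul, coeffEmb_coeff]
  · rw [coeffEmb_coeff, qExpand_coeff_of_not_dvd n _ hk, qExpand_coeff_of_not_dvd n _ hk,
      map_zero]

theorem FB_congr {a b : ℕ} [NeZero a] [NeZero b] (h : a = b) :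
    modularFunctionFieldBar a = modularFunctionFieldBar b := by
  subst h; rfl

variable (p ℓ : ℕ) [NeZero p] [NeZero ℓ]

/-- The identification `ℚ̄(X₀(ℓp)) = ℚ̄(X₀(pℓ))`. -/
def castLevel : FB (ℓ * p) →ₐ[Qb] FB (p * ℓ) :=
  IntermediateField.inclusion (le_of_eq (FB_congr (Nat.mul_comm ℓ p)))

/-- The inclusion `ℚ̄(X₀(ℓ)) → ℚ̄(X₀(pℓ))`. -/
def gammaL : FB ℓ →ₐ[Qb] FB (p * ℓ) := (castLevel p ℓ).comp (heckeAlphaBar Qb ℓ p)

/-- The map `q ↦ q^p : ℚ̄(X₀(ℓ)) → ℚ̄(X₀(pℓ))`. -/
def deltaL : FB ℓ →ₐ[Qb] FB (p * ℓ) := (castLevel p ℓ).comp (heckeBetaBar Qb ℓ p)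

theorem coe_castLevel (x : FB (ℓ * p)) :
    ((castLevel p ℓ x : FB (p * ℓ)) : LaurentSeries Qb) = (x : LaurentSeries Qb) :=
  IntermediateField.coe_inclusion _ x

theorem coe_gammaL (x : FB ℓ) :
    ((gammaL p ℓ x : FB (p * ℓ)) : LaurentSeries Qb) = (x : LaurentSeries Qb) := by
  rw [gammaL, AlgHom.comp_apply, coe_castLevel, coe_heckeAlphaBar]

theorem coe_deltaL (x : FB ℓ) :
    ((deltaL p ℓ x : FB (p * ℓ)) : LaurentSeries Qb) = qExpand Qb p (x : LaurentSeries Qb) := by
  rw [deltaL, AlgHom.comp_apply, coe_castLevel, coe_heckeBetaBar]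

theorem gammaL_integral : (gammaL p ℓ).toRingHom.IsIntegral := by
  obtain ⟨h, -⟩ := Fermat.Agent.Lib.FF398.heckeInputs_general (gammaL p ℓ) (deltaL p ℓ)
    (Fermat.Agent.S24.jF ℓ) (Fermat.Agent.Lib.FF398.transcendental_jF ℓ)
    (Fermat.Agent.S24.jF (p * ℓ)) (Fermat.Agent.Lib.FF398.transcendental_jF (p * ℓ))
  exact h

theorem deltaL_integral : (deltaL p ℓ).toRingHom.IsIntegral := by
  obtain ⟨-, h, -⟩ := Fermat.Agent.Lib.FF398.heckeInputs_general (gammaL p ℓ) (deltaL p ℓ)
    (Fermat.Agent.S24.jF ℓ) (Fermat.Agent.Lib.FF398.transcendental_jF ℓ)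
    (Fermat.Agent.S24.jF (p * ℓ)) (Fermat.Agent.Lib.FF398.transcendental_jF (p * ℓ))
  exact h

/-! ### The four `j`-functions of level `pℓ` -/

theorem alpha_jBar : heckeAlphaBar Qb p ℓ (jBar p) = gammaL p ℓ (jBar ℓ) := by
  apply Subtype.ext
  rw [coe_heckeAlphaBar, coe_gammaL, coe_jBar, coe_jBar]

theorem beta_jBar : heckeBetaBar Qb p ℓ (jBar p) = gammaL p ℓ (jLevelBar ℓ) := by
  apply Subtype.ext
  rw [coe_heckeBetaBar, coe_gammaL, coe_jBar, coe_jLevelBar, coeffEmb_qExpand_h362]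

theorem alpha_jLevelBar : heckeAlphaBar Qb p ℓ (jLevelBar p) = deltaL p ℓ (jBar ℓ) := by
  apply Subtype.ext
  rw [coe_heckeAlphaBar, coe_deltaL, coe_jBar, coe_jLevelBar, coeffEmb_qExpand_h362]

theorem beta_jLevelBar : heckeBetaBar Qb p ℓ (jLevelBar p) = deltaL p ℓ (jLevelBar ℓ) := by
  apply Subtype.ext
  rw [coe_heckeBetaBar, coe_deltaL, coe_jLevelBar, coe_jLevelBar, coeffEmb_qExpand_h362,
    coeffEmb_qExpand_h362, qExpand_qExpand, qExpand_qExpand]
  exact qExpand_congr (Nat.mul_comm ℓ p) _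

/-! ### The key lemma -/

/-- Arithmetic core, case `β ↦ ∞`, `α ↦ 0`. -/
theorem no_mixed_cusp_aux {P L a b c d : ℤ} (hP : 1 < P) (hL : 1 < L) (hPL : P ≠ L)
    (hc : c < 0)
    (h1 : d = P * b) (h2 : a = P * c)
    (h3 : b = L * a ∨ a = L * b) (h4 : d = L * c ∨ c = L * d) : False := by
  have hP2 : 1 < P * P := by nlinarith
  have hL2 : 1 < L * L := by nlinarith
  rcases h3 with h3 | h3 <;> rcases h4 with h4 | h4
  · -- d = P b = P L a = P L P c,  d = L c
    have h : (P * P - 1) * (L * c) = 0 := by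
      have : d = P * (L * (P * c)) := by rw [h1, h3, h2]
      rw [h4] at this
      linear_combination -this
    rcases mul_eq_zero.mp h with h | h
    · omega
    · rcases mul_eq_zero.mp h with h | h <;> omega
  · -- c = L d = L P b = L P L a = L P L P c
    have h : (P * P * (L * L) - 1) * c = 0 := by
      have : c = L * (P * (L * (P * c))) := by
        conv_lhs => rw [h4, h1, h3, h2]
      linear_combination -this
    have hPL2 : 1 < P * P * (L * L) := by nlinarith
    rcases mul_eq_zero.mp h with h | h <;> omega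
  · -- a = L b, a = P c, d = P b, d = L c:  L a = L P c = P d = P P b, and L a = L L b
    have hb : b < 0 := by
      by_contra hb
      rw [not_lt] at hb
      have : 0 ≤ L * b := mul_nonneg (by omega) hb
      have : P * c < 0 := mul_neg_of_pos_of_neg (by omega) hc
      omega
    have h : (L * L - P * P) * b = 0 := by
      have e1 : L * b = P * c := by rw [← h3, h2]
      have e2 : P * b = L * c := by rw [← h1, h4]
      linear_combination L * e1 - P * e2
    rcases mul_eq_zero.mp h with h | h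
    · have h' : (L - P) * (L + P) = 0 := by linear_combination h
      rcases mul_eq_zero.mp h' with h' | h' <;> omega
    · omega
  · -- a = L b, c = L d, d = P b, a = P c: a = P c = P L d = P L P b, a = L b
    have hb : b < 0 := by
      by_contra hb
      rw [not_lt] at hb
      have : 0 ≤ L * b := mul_nonneg (by omega) hb
      have : P * c < 0 := mul_neg_of_pos_of_neg (by omega) hc
      omega
    have h : (P * P - 1) * (L * b) = 0 := by
      have : a = P * (L * (P * b)) := by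
        conv_lhs => rw [h2, h4, h1]
      rw [h3] at this
      linear_combination -this
    rcases mul_eq_zero.mp h with h | h
    · omega
    · rcases mul_eq_zero.mp h with h | h <;> omega

end Fermat.Agent.S15.H362

end
end
-- ===== PACK-END S15/H362/CuspLevel.lean

-- ===== PACK-BEGIN S15/H362/CuspHecke.lean
section



/-!
# S15 / piece CUSP (helper362): **K8** — the cuspidal class is Eisenstein

For primes `ℓ ≠ p`:
* `restrictAlpha_cuspInfty`, `restrictAlpha_cuspZero` : a place of `X₀(pℓ)` over `∞` (resp. `0`)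
  along `β` lies over `∞` (resp. `0`) along `α`;
* `heckeDivBar_cuspInfty`, `heckeDivBar_cuspZero` : `T_ℓ (n[∞]) = n(ℓ+1)[∞]`, same for `0`;
* `heckeOperatorBar_cuspClass` : `T_ℓ c = (1 + ℓ) c` for `c = cl((0) - (∞))`;
* `isEisensteinClass_cuspClass : Core.IsEisensteinClass (cuspClass p)`.

Sorry-free.
-/

set_option autoImplicit false
set_option synthInstance.maxHeartbeats 400000
set_option linter.style.haveILetI false

noncomputable section

open AlgebraicCurve ModularCurve HahnSeries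

namespace Fermat.Agent.S15.H362

variable (p ℓ : ℕ) [NeZero p] [NeZero ℓ]

/-- The four pole orders at a cusp of `X₀(pℓ)`: relations coming from level `ℓ`. -/
theorem cusp_relations_level (hℓ : ℓ.Prime) (W : Place Qb (FB (p * ℓ)))
    (h : W.ord (gammaL p ℓ (jBar ℓ)) < 0 ∨ W.ord (gammaL p ℓ (jLevelBar ℓ)) < 0) :
    W.ord (gammaL p ℓ (jBar ℓ)) < 0 ∧ W.ord (gammaL p ℓ (jLevelBar ℓ)) < 0 ∧
      (W.ord (gammaL p ℓ (jLevelBar ℓ)) = ℓ * W.ord (gammaL p ℓ (jBar ℓ)) ∨
        W.ord (gammaL p ℓ (jBar ℓ)) = ℓ * W.ord (gammaL p ℓ (jLevelBar ℓ))) := by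
  have hℓ0 : (0 : ℤ) < ℓ := by exact_mod_cast hℓ.pos
  rcases cusp_ratio ℓ hℓ (gammaL p ℓ) (gammaL_integral p ℓ) W h with ⟨-, h1, h2⟩ | ⟨-, h1, h2⟩
  · refine ⟨h1, ?_, Or.inl h2⟩
    rw [h2]; exact mul_neg_of_pos_of_neg hℓ0 h1
  · refine ⟨?_, h1, Or.inr h2⟩
    rw [h2]; exact mul_neg_of_pos_of_neg hℓ0 h1

theorem cusp_relations_level' (hℓ : ℓ.Prime) (W : Place Qb (FB (p * ℓ)))
    (h : W.ord (deltaL p ℓ (jBar ℓ)) < 0 ∨ W.ord (deltaL p ℓ (jLevelBar ℓ)) < 0) :
    W.ord (deltaL p ℓ (jBar ℓ)) < 0 ∧ W.ord (deltaL p ℓ (jLevelBar ℓ)) < 0 ∧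
      (W.ord (deltaL p ℓ (jLevelBar ℓ)) = ℓ * W.ord (deltaL p ℓ (jBar ℓ)) ∨
        W.ord (deltaL p ℓ (jBar ℓ)) = ℓ * W.ord (deltaL p ℓ (jLevelBar ℓ))) := by
  have hℓ0 : (0 : ℤ) < ℓ := by exact_mod_cast hℓ.pos
  rcases cusp_ratio ℓ hℓ (deltaL p ℓ) (deltaL_integral p ℓ) W h with ⟨-, h1, h2⟩ | ⟨-, h1, h2⟩
  · refine ⟨h1, ?_, Or.inl h2⟩
    rw [h2]; exact mul_neg_of_pos_of_neg hℓ0 h1
  · refine ⟨?_, h1, Or.inr h2⟩
    rw [h2]; exact mul_neg_of_pos_of_neg hℓ0 h1

/-- **Key lemma at `∞`.** -/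
theorem restrictAlpha_cuspInfty (hp : p.Prime) (hℓ : ℓ.Prime) (hne : ℓ ≠ p)
    (hα : HeckeAlphaBarIntegral Qb p ℓ) (hβ : HeckeBetaBarIntegral Qb p ℓ)
    (W : Place Qb (FB (p * ℓ)))
    (hW : W.restrictAlong (heckeBetaBar Qb p ℓ) hβ = cuspInfty p) :
    W.restrictAlong (heckeAlphaBar Qb p ℓ) hα = cuspInfty p := by
  obtain ⟨hb, hd⟩ := ord_of_restrict_eq_cuspInfty p (heckeBetaBar Qb p ℓ) hβ W hW
  rw [beta_jBar] at hb hd
  rw [beta_jLevelBar] at hd
  obtain ⟨ha, -, h3⟩ := cusp_relations_level p ℓ hℓ W (Or.inr hb)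
  rcases cusp_ratio p hp (heckeAlphaBar Qb p ℓ) hα W (Or.inl (by rw [alpha_jBar]; exact ha))
    with ⟨h, -⟩ | ⟨-, hc, h2⟩
  · exact h
  · exfalso
    rw [alpha_jBar, alpha_jLevelBar] at h2
    rw [alpha_jLevelBar] at hc
    obtain ⟨-, -, h4⟩ := cusp_relations_level' p ℓ hℓ W (Or.inl hc)
    have hP : (1 : ℤ) < p := by exact_mod_cast hp.one_lt
    have hL : (1 : ℤ) < ℓ := by exact_mod_cast hℓ.one_lt
    have hPL : (p : ℤ) ≠ ℓ := by exact_mod_cast hne.symm
    exact no_mixed_cusp_aux hP hL hPL hc hd h2 h3 h4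

/-- **Key lemma at `0`.** -/
theorem restrictAlpha_cuspZero (hp : p.Prime) (hℓ : ℓ.Prime) (hne : ℓ ≠ p)
    (hα : HeckeAlphaBarIntegral Qb p ℓ) (hβ : HeckeBetaBarIntegral Qb p ℓ)
    (W : Place Qb (FB (p * ℓ)))
    (hW : W.restrictAlong (heckeBetaBar Qb p ℓ) hβ = cuspZero p) :
    W.restrictAlong (heckeAlphaBar Qb p ℓ) hα = cuspZero p := by
  obtain ⟨hd, hb⟩ := ord_of_restrict_eq_cuspZero p (heckeBetaBar Qb p ℓ) hβ W hW
  rw [beta_jLevelBar] at hd hb
  rw [beta_jBar] at hb
  obtain ⟨hc, -, h4⟩ := cusp_relations_level' p ℓ hℓ W (Or.inr hd)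
  rcases cusp_ratio p hp (heckeAlphaBar Qb p ℓ) hα W
    (Or.inr (by rw [alpha_jLevelBar]; exact hc)) with ⟨-, ha, h2⟩ | ⟨h, -⟩
  · exfalso
    rw [alpha_jBar, alpha_jLevelBar] at h2
    rw [alpha_jBar] at ha
    obtain ⟨-, -, h3⟩ := cusp_relations_level p ℓ hℓ W (Or.inl ha)
    have hP : (1 : ℤ) < p := by exact_mod_cast hp.one_lt
    have hL : (1 : ℤ) < ℓ := by exact_mod_cast hℓ.one_lt
    have hPL : (p : ℤ) ≠ ℓ := by exact_mod_cast hne.symm
    exact no_mixed_cusp_aux hP hL hPL ha hb h2 h4 h3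
  · exact h

/-- `T_ℓ` on a multiple of a place `P` all of whose `β`-preimages lie over `P` along `α`. -/
theorem heckeDivBar_single_of_fixed (hℓ : ℓ.Prime) (hN : ¬ ℓ ∣ p)
    (hα : HeckeAlphaBarIntegral Qb p ℓ) (hβ : HeckeBetaBarIntegral Qb p ℓ)
    (P : Place Qb (FB p))
    (hP : ∀ W : Place Qb (FB (p * ℓ)), W.restrictAlong (heckeBetaBar Qb p ℓ) hβ = P →
      W.restrictAlong (heckeAlphaBar Qb p ℓ) hα = P) (n : ℤ) :
    heckeDivBar hα hβ (Finsupp.single P n) = Finsupp.single P (n * ((ℓ : ℤ) + 1)) := by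
  classical
  rw [Fermat.Agent.Lib.FF398.heckeDivBar_single p ℓ hα hβ P n]
  have h1 : ∀ W ∈ Place.fiberAlong (heckeBetaBar Qb p ℓ) hβ P,
      Finsupp.single (W.restrictAlong (heckeAlphaBar Qb p ℓ) hα)
          (n * (W.ramificationIndexAlong (heckeBetaBar Qb p ℓ) : ℤ)) =
        Finsupp.single P (n * (W.ramificationIndexAlong (heckeBetaBar Qb p ℓ) : ℤ)) := by
    intro W hW
    rw [hP W (Place.mem_fiberAlong.mp hW)]
  rw [Finset.sum_congr rfl h1, ← Finsupp.single_finsetSum, ← Finset.mul_sum,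
    Fermat.Agent.Lib.FF398.sum_ramificationIndexAlong_beta p ℓ hβ P,
    Fermat.Agent.S37.H218.finrankAlong_heckeBetaBar_of_not_dvd p ℓ hℓ hN]
  push_cast
  rfl

theorem not_dvd_of_prime_ne {p ℓ : ℕ} (hp : p.Prime) (hℓ : ℓ.Prime) (hne : ℓ ≠ p) : ¬ ℓ ∣ p := by
  intro h
  rcases (Nat.dvd_prime hp).mp h with h1 | h1
  · exact hℓ.one_lt.ne' h1
  · exact hne h1

/-- `T_ℓ ((0) - (∞)) = (ℓ + 1) ((0) - (∞))` on divisors. -/
theorem heckeDivBar_cuspDivisor (hp : p.Prime) (hℓ : ℓ.Prime) (hne : ℓ ≠ p)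
    (hα : HeckeAlphaBarIntegral Qb p ℓ) (hβ : HeckeBetaBarIntegral Qb p ℓ) :
    heckeDivBar hα hβ (Finsupp.single (cuspZero p) (1 : ℤ) - Finsupp.single (cuspInfty p) 1) =
      ((1 + ℓ : ℕ) : ℤ) • (Finsupp.single (cuspZero p) (1 : ℤ) - Finsupp.single (cuspInfty p) 1) := by
  have hN := not_dvd_of_prime_ne hp hℓ hne
  rw [map_sub,
    heckeDivBar_single_of_fixed p ℓ hℓ hN hα hβ (cuspZero p)
      (restrictAlpha_cuspZero p ℓ hp hℓ hne hα hβ) 1,
    heckeDivBar_single_of_fixed p ℓ hℓ hN hα hβ (cuspInfty p)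
      (restrictAlpha_cuspInfty p ℓ hp hℓ hne hα hβ) 1,
    smul_sub, Finsupp.smul_single, Finsupp.smul_single, smul_eq_mul, one_mul, mul_one]
  push_cast
  rw [add_comm]

/-- **K8.** `T_q c = (1 + q) c` for the cuspidal class `c` and every prime `q ≠ p`. -/
theorem heckeOperatorBar_cuspClass (hp : p.Prime) (q : Nat.Primes) (hne : (q : ℕ) ≠ p) :
    heckeOperatorBar p q (cuspClass p) = ((1 + (q : ℕ) : ℕ) : ℤ) • cuspClass p := by
  haveI : NeZero (q : ℕ) := ⟨q.2.ne_zero⟩
  rw [cuspClass, Fermat.Agent.Lib.FF398.heckeOperatorBar_mk p q (cuspDivisor p)]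
  have h : Pic0.degZeroCorrespondence (heckeBetaBar Qb p q) (heckeAlphaBar Qb p q)
      (Fermat.Agent.Lib.FF398.heckeBetaBarIntegral p q)
      (Fermat.Agent.Lib.FF398.heckeAlphaBarIntegral p q)
      (Fermat.Agent.Lib.FF398.fundamentalIdentityAlong_beta p q) (cuspDivisor p) =
      ((1 + (q : ℕ) : ℕ) : ℤ) • cuspDivisor p := by
    apply Subtype.ext
    exact heckeDivBar_cuspDivisor p q hp q.2 hne
      (Fermat.Agent.Lib.FF398.heckeAlphaBarIntegral p q)
      (Fermat.Agent.Lib.FF398.heckeBetaBarIntegral p q)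
  rw [h]
  rfl

/-- **K8** in the form of `Core/Top.lean`. -/
theorem isEisensteinClass_cuspClass (hp : p.Prime) :
    Fermat.Agent.S15.Core.IsEisensteinClass (cuspClass p) :=
  fun q hq => heckeOperatorBar_cuspClass p hp q hq

/-- **K8** with natural-number multiples. -/
theorem heckeOperatorBar_cuspClass_nsmul (hp : p.Prime) (q : Nat.Primes) (hne : (q : ℕ) ≠ p) :
    heckeOperatorBar p q (cuspClass p) = (1 + (q : ℕ)) • cuspClass p := by
  rw [heckeOperatorBar_cuspClass p hp q hne, natCast_zsmul]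

end Fermat.Agent.S15.H362

end
end
-- ===== PACK-END S15/H362/CuspHecke.lean

-- ===== PACK-BEGIN S15/H482/CuspPoles.lean
section





/-!
# S15 / piece CUSP (helper482): the poles of `j` at prime level are exactly the two cusps

Level `p` prime, `F = ℚ̄(X₀(p))`, `∞ = H362.cuspInfty p`, `0 = H362.cuspZero p = w • ∞`.

* `ord_jBar_neg_iff`          : `ord_P j < 0 ↔ P = ∞ ∨ P = 0`   (the old node C4, on the v2 objects);
* `eq_cusp_of_ord_jBar_neg`   : a pole of `j` is a cusp;
* `ord_jBar_nonneg_of_ne`     : `P ≠ ∞`, `P ≠ 0` ⟹ `0 ≤ ord_P j`;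
* `ord_jLevelBar_neg_iff`, `ord_jLevelBar_nonneg_of_ne` : the same for `j_p = j(q^p)`;
* `IsCuspZero.eq_cuspZero`    : `Core.IsCuspZero p P₀ → P₀ = cuspZero p` (uniqueness of the cusp `0`).

Inputs: the S24 modular package (local data at `j = ∞`, degree `[F : ℚ̄(j)] = ψ(p) = p + 1`) and
the orbit count `#(T-orbits) = cuspCount p = 2`.  Everything in this file is sorry-free.
-/

set_option autoImplicit false
set_option synthInstance.maxHeartbeats 400000

noncomputable section

open AlgebraicCurve ModularCurve HahnSeries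

namespace Fermat.Agent.S15.H482

open Fermat.Agent.S15.H362 Fermat.Agent.A2.H528 Fermat.Agent.S24

/-! ## Numerics at prime level -/

theorem cuspCount_prime {p : ℕ} (hp : p.Prime) : cuspCount p = 2 := by
  unfold cuspCount
  rw [hp.divisors, Finset.sum_pair hp.one_lt.ne]
  have h1 : Nat.gcd 1 (p / 1) = 1 := Nat.gcd_one_left _
  have h2 : Nat.gcd p (p / p) = 1 := by
    rw [Nat.div_self hp.pos]; exact Nat.gcd_one_right _
  rw [h1, h2]
  simp

theorem dedekindPsi_prime {p : ℕ} (hp : p.Prime) : dedekindPsi p = p + 1 := by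
  unfold dedekindPsi
  rw [hp.divisors, Finset.filter_true_of_mem, Finset.sum_pair hp.one_lt.ne]
  · rw [Nat.div_one, Nat.div_self hp.pos]
  · intro d hd
    rcases Finset.mem_insert.mp hd with rfl | hd
    · exact squarefree_one
    · rw [Finset.mem_singleton] at hd
      subst hd
      exact hp.squarefree

/-! ## The poles of `j` -/

section Poles

variable (p : ℕ) [NeZero p]

theorem jBar_eq_jF : H362.jBar p = jF p := rfl

/-- The poles of `j`: a finset of exactly two places, with total pole order `p + 1`. -/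
theorem exists_poles_jBar (hp : p.Prime) :
    ∃ Z : Finset (Place Qb (FB p)),
      (∀ P : Place Qb (FB p), P ∈ Z ↔ P.ord (H362.jBar p) < 0) ∧ Z.card = 2 ∧
        ∑ P ∈ Z, P.ord (H362.jBar p) = -((p : ℤ) + 1) := by
  classical
  obtain ⟨M⟩ := nonempty_modularPackage p
  have := M.finiteDimensional
  obtain ⟨hfd, hfr⟩ := finiteDimensional_and_finrank_of_eq (adjoin_inv Kbar (jF p))
  have hr := hfr.trans M.finrank_eq
  have hcard := card_zeroPlaces_toFinset (jF p)⁻¹ hr M.dataInf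
  have hsum := sum_ord_zeroPlaces (jF p)⁻¹ hr M.dataInf
  rw [M.orbits_inf, numOrbits_T, _root_.Fermat.Agent.S15.H482.cuspCount_prime hp] at hcard
  rw [card_XX, dedekindPsi_prime hp] at hsum
  refine ⟨(zeroPlaces_finite (jF p)⁻¹ hr M.dataInf).toFinset, fun P => ?_,
    by exact_mod_cast hcard, ?_⟩
  · rw [Set.Finite.mem_toFinset]
    show 0 < P.ord (jF p)⁻¹ ↔ P.ord (jF p) < 0
    rw [Place.ord_inv]
    omega
  · have h2 : ∑ P ∈ (zeroPlaces_finite (jF p)⁻¹ hr M.dataInf).toFinset, P.ord (H362.jBar p)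
        = -∑ P ∈ (zeroPlaces_finite (jF p)⁻¹ hr M.dataInf).toFinset, P.ord (jF p)⁻¹ := by
      rw [← Finset.sum_neg_distrib]
      refine Finset.sum_congr rfl fun P _ => ?_
      rw [Place.ord_inv, neg_neg]
      rfl
    rw [h2, hsum]
    push_cast
    ring

/-- **The poles of `j` at prime level are exactly the cusps `∞` and `0`.** -/
theorem ord_jBar_neg_iff (hp : p.Prime) (P : Place Qb (FB p)) :
    P.ord (H362.jBar p) < 0 ↔ (P = H362.cuspInfty p ∨ P = cuspZero p) := by
  classical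
  obtain ⟨Z, hZ, hcard, -⟩ := exists_poles_jBar p hp
  have hinf : H362.cuspInfty p ∈ Z := by
    rw [hZ, _root_.Fermat.Agent.S15.H482.ord_cuspInfty_jBar]; norm_num
  have h0 : cuspZero p ∈ Z := by
    rw [hZ, _root_.Fermat.Agent.S15.H482.ord_cuspZero_jBar]
    have := hp.pos
    omega
  have hne : H362.cuspInfty p ≠ cuspZero p := (_root_.Fermat.Agent.S15.H482.cuspZero_ne_cuspInfty p hp.one_lt.ne').symm
  have hZeq : Z = {H362.cuspInfty p, cuspZero p} := by
    symm
    apply Finset.eq_of_subset_of_card_le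
    · intro Q hQ
      rcases Finset.mem_insert.mp hQ with rfl | hQ
      · exact hinf
      · rw [Finset.mem_singleton] at hQ; rw [hQ]; exact h0
    · rw [hcard, Finset.card_pair hne]
  rw [← hZ, hZeq, Finset.mem_insert, Finset.mem_singleton]

/-- A pole of `j` is a cusp. -/
theorem eq_cusp_of_ord_jBar_neg (hp : p.Prime) {P : Place Qb (FB p)}
    (h : P.ord (H362.jBar p) < 0) : P = H362.cuspInfty p ∨ P = cuspZero p :=
  (ord_jBar_neg_iff p hp P).mp h

/-- `j` is regular away from the cusps. -/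
theorem ord_jBar_nonneg_of_ne (hp : p.Prime) {P : Place Qb (FB p)}
    (h₁ : P ≠ H362.cuspInfty p) (h₂ : P ≠ cuspZero p) : 0 ≤ P.ord (H362.jBar p) := by
  by_contra h
  rw [not_le] at h
  rcases _root_.Fermat.Agent.S15.H482.eq_cusp_of_ord_jBar_neg p hp h with h | h
  · exact h₁ h
  · exact h₂ h

/-- **The poles of `j_p = j(q^p)` at prime level are exactly the cusps `∞` and `0`.** -/
theorem ord_jLevelBar_neg_iff (hp : p.Prime) (P : Place Qb (FB p)) :
    P.ord (jLevelBar p) < 0 ↔ (P = H362.cuspInfty p ∨ P = cuspZero p) := by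
  have h := SemilinearAut.ord_smul (wSemi p) P (jLevelBar p)
  rw [wSemi_smul, _root_.Fermat.Agent.S15.H482.wF_jLevelBar] at h
  have hP : wSemi p • (wSemi p • P) = P := by
    rw [← mul_smul, wSemi_mul_self, one_smul]
  rw [← h, ord_jBar_neg_iff p hp]
  constructor
  · rintro (h' | h')
    · right
      rw [cuspZero, ← h', hP]
    · left
      rw [← wSemi_smul_cuspZero, ← h', hP]
  · rintro (h' | h')
    · right
      rw [h']; rfl
    · left
      rw [h', wSemi_smul_cuspZero]

/-- `j_p` is regular away from the cusps. -/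
theorem ord_jLevelBar_nonneg_of_ne (hp : p.Prime) {P : Place Qb (FB p)}
    (h₁ : P ≠ H362.cuspInfty p) (h₂ : P ≠ cuspZero p) : 0 ≤ P.ord (jLevelBar p) := by
  by_contra h
  rw [not_le] at h
  rcases (ord_jLevelBar_neg_iff p hp P).mp h with h | h
  · exact h₁ h
  · exact h₂ h

/-- **Uniqueness of the cusp `0`**: any place satisfying `Core.IsCuspZero` is `cuspZero p`. -/
theorem IsCuspZero.eq_cuspZero (hp : p.Prime) {P₀ : Place Qb (FB p)}
    (h : Fermat.Agent.S15.Core.IsCuspZero p P₀) : P₀ = cuspZero p := by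
  rcases _root_.Fermat.Agent.S15.H482.eq_cusp_of_ord_jBar_neg p hp (P := P₀) h.2 with h' | h'
  · exact absurd (h'.trans (cuspInfty_eq_core p)) h.1
  · exact h'

end Poles

end Fermat.Agent.S15.H482

end
end
-- ===== PACK-END S15/H482/CuspPoles.lean

-- ===== PACK-BEGIN S15/H422/CuspUnit.lean
section






/-!
# S15 / piece CUSP, nodes K2, K3, K4, K6 (helper422) — exact statements of `H362/CuspSpec.lean`

* K2 `unitSeriesBar_mem`  : `Δ(q)/Δ(q^p) ∈ ℚ̄(X₀(p))`;
* `unitBar p hp`          : the modular unit as an element of the function field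
                            (same definition as in `CuspSpec.lean`);
* K3 `ord_unitBar_of_ne`  : no zeros or poles off the cusps `∞`, `0`;
* K4 `wF_unitBar`         : `w u = p¹² u⁻¹`;
* `ord_cuspInfty_unitBar = 1 - p`, `ord_cuspZero_unitBar = p - 1`;
* K6 `pred_smul_cuspClass`: `(p - 1) • c = 0`.

Sorry-free.
-/

set_option autoImplicit false
set_option synthInstance.maxHeartbeats 400000

noncomputable section

open AlgebraicCurve ModularCurve HahnSeries

namespace Fermat.Agent.S15.H422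

open Fermat.Agent.S15.H362 Fermat.Agent.A2.H528 Fermat.Agent.S24

variable (p : ℕ) [NeZero p]

/-- **K2.** `Δ(q)/Δ(q^p)` is a modular function of level `p`. -/
theorem unitSeriesBar_mem (_hp : p.Prime) : unitSeriesBar p ∈ modularFunctionFieldBar p :=
  gSer_mem p

/-- The modular unit `u = Δ(q)/Δ(q^p)` as an element of `ℚ̄(X₀(p))`. -/
def unitBar (hp : p.Prime) : FB p := ⟨unitSeriesBar p, unitSeriesBar_mem p hp⟩

theorem unitBar_eq_gF (hp : p.Prime) : unitBar p hp = gF p := rfl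

@[simp] theorem coe_unitBar (hp : p.Prime) :
    ((unitBar p hp : FB p) : LaurentSeries Qb) = unitSeriesBar p := rfl

theorem unitBar_ne_zero (hp : p.Prime) : unitBar p hp ≠ 0 := gF_ne_zero p

/-- **K4.** `w u = p¹² u⁻¹`. -/
theorem wF_unitBar (hp : p.Prime) :
    wF p (unitBar p hp) = algebraMap Qb (FB p) ((p : Qb) ^ 12) * (unitBar p hp)⁻¹ := by
  rw [unitBar_eq_gF, wF_gF, ← uF_mul_gF p, mul_assoc, mul_inv_cancel₀ (gF_ne_zero p), mul_one]

/-- the inverse unit `p¹² Δ(q^p)/Δ(q)` is regular away from the cusps. -/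
theorem ord_uF_nonneg_of_ne (hp : p.Prime) (P : Place Qb (FB p))
    (h₁ : P ≠ H362.cuspInfty p) (h₂ : P ≠ cuspZero p) : 0 ≤ P.ord (uF p) := by
  have hj : 0 ≤ P.ord (H362.jBar p) := Fermat.Agent.S15.H482.ord_jBar_nonneg_of_ne p hp h₁ h₂
  have hjm : jF p ∈ P.toValuationSubring := H144.loc_mem_of_ord_nonneg P hj
  exact H144.loc_ord_nonneg_of_mem P (uF_mem_of_jF_mem p hp P.toValuationSubring hjm)

theorem wSemi_smul_wSemi_smul (P : Place Qb (FB p)) : wSemi p • (wSemi p • P) = P := by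
  rw [← mul_smul, wSemi_mul_self, one_smul]

/-- `ord_P (w f) = ord_{w P} f`. -/
theorem ord_wF (P : Place Qb (FB p)) (f : FB p) :
    P.ord (wF p f) = (wSemi p • P).ord f := by
  have h := SemilinearAut.ord_smul (wSemi p) P (wF p f)
  rw [wSemi_smul, wF_wF] at h
  exact h.symm

theorem ord_gF_nonneg_of_ne (hp : p.Prime) (P : Place Qb (FB p))
    (h₁ : P ≠ H362.cuspInfty p) (h₂ : P ≠ cuspZero p) : 0 ≤ P.ord (gF p) := by
  rw [← wF_uF, ord_wF]
  refine ord_uF_nonneg_of_ne p hp _ ?_ ?_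
  · intro h
    apply h₂
    rw [cuspZero, ← h, wSemi_smul_wSemi_smul]
  · intro h
    apply h₁
    rw [← wSemi_smul_cuspZero, ← h, wSemi_smul_wSemi_smul]

theorem ord_uF_add_ord_gF (P : Place Qb (FB p)) : P.ord (uF p) + P.ord (gF p) = 0 := by
  rw [← P.ord_mul (uF_ne_zero p) (gF_ne_zero p), uF_mul_gF]
  exact Fermat.Agent.S24.ord_algebraMap P _

/-- **K3.** The modular unit has neither zeros nor poles away from the cusps. -/
theorem ord_unitBar_of_ne (hp : p.Prime) (P : Place Qb (FB p))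
    (h₁ : P ≠ H362.cuspInfty p) (h₂ : P ≠ cuspZero p) : P.ord (unitBar p hp) = 0 := by
  rw [unitBar_eq_gF]
  have h1 := ord_uF_nonneg_of_ne p hp P h₁ h₂
  have h2 := ord_gF_nonneg_of_ne p hp P h₁ h₂
  have h3 := ord_uF_add_ord_gF p P
  omega

/-- the order of the modular unit at `∞`. -/
theorem ord_cuspInfty_unitBar (hp : p.Prime) :
    (H362.cuspInfty p).ord (unitBar p hp) = 1 - (p : ℤ) := by
  rw [H362.ord_cuspInfty, coe_unitBar, unitSeriesBar, H362.order_coeffEmb,
    (isMonicOfOrder_modularUnitSeries p).1]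

/-- the order of the modular unit at `0`. -/
theorem ord_cuspZero_unitBar (hp : p.Prime) :
    (cuspZero p).ord (unitBar p hp) = (p : ℤ) - 1 := by
  have h1 := ord_cuspInfty_unitBar p hp
  have h2 := ord_uF_add_ord_gF p (H362.cuspInfty p)
  rw [ord_cuspZero, unitBar_eq_gF, wF_gF]
  rw [unitBar_eq_gF] at h1
  omega

/-- `div u = (p - 1) ((0) - (∞))`. -/
theorem ord_unitBar_eq (hp : p.Prime) (P : Place Qb (FB p)) :
    (((p - 1 : ℕ) : ℤ) • (Finsupp.single (cuspZero p) (1 : ℤ)
        - Finsupp.single (H362.cuspInfty p) (1 : ℤ)) : Divisor Qb (FB p)) P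
      = P.ord (unitBar p hp) := by
  classical
  have hne : cuspZero p ≠ H362.cuspInfty p := cuspZero_ne_cuspInfty p hp.one_lt
  have hp1 : ((p - 1 : ℕ) : ℤ) = (p : ℤ) - 1 := by
    have := hp.one_le
    push_cast [Nat.cast_sub this]
    ring
  rw [Finsupp.smul_apply, Finsupp.sub_apply, smul_eq_mul, hp1]
  by_cases h1 : P = H362.cuspInfty p
  · subst h1
    rw [Finsupp.single_eq_same, Finsupp.single_eq_of_ne hne.symm, ord_cuspInfty_unitBar]
    ring
  by_cases h2 : P = cuspZero p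
  · subst h2
    rw [Finsupp.single_eq_same, Finsupp.single_eq_of_ne hne, ord_cuspZero_unitBar]
    ring
  rw [Finsupp.single_eq_of_ne h1, Finsupp.single_eq_of_ne h2, ord_unitBar_of_ne p hp P h1 h2]
  ring

/-- **K6.** `(p - 1) • c = 0`. -/
theorem pred_smul_cuspClass (hp : p.Prime) : (p - 1) • cuspClass p = 0 := by
  show (p - 1) • (QuotientAddGroup.mk (cuspDivisor p) : JZero p) = 0
  rw [← QuotientAddGroup.mk_nsmul, QuotientAddGroup.eq_zero_iff, AddSubgroup.mem_addSubgroupOf,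
    Divisor.mem_principal]
  refine ⟨unitBar p hp, unitBar_ne_zero p hp, fun P => ?_⟩
  rw [← ord_unitBar_eq p hp P]
  show ((p - 1) • (Finsupp.single (cuspZero p) (1 : ℤ)
        - Finsupp.single (H362.cuspInfty p) (1 : ℤ)) : Divisor Qb (FB p)) P = _
  rw [← natCast_zsmul]

end Fermat.Agent.S15.H422

end
end
-- ===== PACK-END S15/H422/CuspUnit.lean

-- ===== PACK-BEGIN S15/H362/CuspFinal.lean
section





/-!
# S15 / piece CUSP (architect helper362): **NODE CUSP CLOSED**

Assembly of the nodes K1–K9 (helper362, helper422, helper482, helper242, helper62):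

* `cuspStatement (hp : p.Prime) : Core.CuspStatement p` — the node CUSP of `Core/Top.lean`;
* `cusp_geo_part` — the CUSP part of `GeoStatement` / `GeoWeak` of `Skeleton.lean`:
  for a prime `p ∉ {2, 3, 5, 7, 13}` the class `c = cl((0) - (∞)) ∈ J₀(p)` is Galois-fixed,
  `c ≠ 0`, `(p - 1) c = 0` and `T_q c = (1 + q) c` for all primes `q ≠ p`.

Sorry-free.
-/

set_option autoImplicit false
set_option synthInstance.maxHeartbeats 400000

noncomputable section

open AlgebraicCurve ModularCurve HahnSeries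

namespace Fermat.Agent.S15.H362

open Fermat.Agent.S15.Core

variable (p : ℕ) [NeZero p]

/-- **K7** (Ogg, lower bound). `m • c = 0 → n ∣ m`, `n = num((p-1)/12)`. -/
theorem eisensteinNumerator_dvd_of_smul_cuspClass (hp : p.Prime) (m : ℕ)
    (h : m • cuspClass p = 0) : eisensteinNumerator p ∣ m := by
  refine Fermat.Agent.S15.H242.eisensteinNumerator_dvd_of_nsmul_eq_zero p hp
    (Fermat.Agent.S15.H422.unitBar p hp) rfl (cuspDivisor p) ?_ m h
  intro v
  rw [← Fermat.Agent.S15.H422.ord_unitBar_eq p hp v, coe_cuspDivisor, Finsupp.smul_apply,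
    smul_eq_mul, Nat.cast_sub hp.one_le, Nat.cast_one]

/-- **K6** (helper422). -/
theorem pred_smul_cuspClass' (hp : p.Prime) : (p - 1) • cuspClass p = 0 :=
  Fermat.Agent.S15.H422.pred_smul_cuspClass p hp

theorem addOrderOf_cuspClass_ne_zero (hp : p.Prime) : addOrderOf (cuspClass p) ≠ 0 := by
  have h1 : 0 < p - 1 := by have := hp.two_le; omega
  have h2 := addOrderOf_dvd_of_nsmul_eq_zero (pred_smul_cuspClass' p hp)
  exact fun h0 => h1.ne' (by simpa [h0] using h2)

theorem eisensteinNumerator_dvd_addOrderOf_cuspClass (hp : p.Prime) :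
    eisensteinNumerator p ∣ addOrderOf (cuspClass p) :=
  eisensteinNumerator_dvd_of_smul_cuspClass p hp _ (addOrderOf_nsmul_eq_zero _)

/-- **NODE CUSP** of `Fermat/Agent/S15/Core/Top.lean`. -/
theorem cuspStatement (hp : p.Prime) : CuspStatement p :=
  ⟨cuspZero p, cuspClass p, isCuspZero_cuspZero p hp.one_lt, isDiffClass_cuspClass p,
    isEisensteinClass_cuspClass p hp, addOrderOf_cuspClass_ne_zero p hp,
    fun _ _ hr => hr.trans (eisensteinNumerator_dvd_addOrderOf_cuspClass p hp)⟩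

theorem one_lt_eisensteinNumerator {p : ℕ} (hp : p.Prime)
    (hp' : p ∉ ({2, 3, 5, 7, 13} : Finset ℕ)) : 1 < eisensteinNumerator p := by
  have hg : 0 < Nat.gcd (p - 1) 12 := Nat.gcd_pos_of_pos_right _ (by norm_num)
  have hG : Nat.gcd (p - 1) 12 ∣ p - 1 := Nat.gcd_dvd_left _ _
  have hn : eisensteinNumerator p * Nat.gcd (p - 1) 12 = p - 1 := by
    unfold eisensteinNumerator
    exact Nat.div_mul_cancel hG
  have h2 := hp.two_le
  by_contra hlt
  rw [not_lt] at hlt
  rcases Nat.le_one_iff_eq_zero_or_eq_one.mp hlt with h0 | h1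
  · rw [h0, zero_mul] at hn
    omega
  · rw [h1, one_mul] at hn
    have h12 : p - 1 ∣ 12 := by
      rw [← hn]; exact Nat.gcd_dvd_right _ _
    have hle : p - 1 ≤ 12 := Nat.le_of_dvd (by norm_num) h12
    have hp13 : p ≤ 13 := by omega
    simp only [Finset.mem_insert, Finset.mem_singleton, not_or] at hp'
    obtain ⟨a2, a3, a5, a7, a13⟩ := hp'
    interval_cases p
    all_goals first
      | omega
      | exact absurd hp (by decide)

/-- The cuspidal class is non-zero for `p ∉ {2, 3, 5, 7, 13}`. -/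
theorem cuspClass_ne_zero (hp : p.Prime) (hp' : p ∉ ({2, 3, 5, 7, 13} : Finset ℕ)) :
    cuspClass p ≠ 0 := by
  intro h0
  have h1 : (1 : ℕ) • cuspClass p = 0 := by rw [one_smul, h0]
  have := Nat.le_of_dvd Nat.one_pos (eisensteinNumerator_dvd_of_smul_cuspClass p hp 1 h1)
  have := one_lt_eisensteinNumerator hp hp'
  omega

/-- The cuspidal class is an Eisenstein vector in the sense of `Skeleton.lean`. -/
theorem isEisensteinVector_cuspClass (hp : p.Prime) :
    Fermat.Agent.S15.IsEisensteinVector p (cuspClass p) :=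
  fun q hq => heckeOperatorBar_cuspClass_nsmul p hp q hq

/-- **The CUSP part of `GeoStatement` / `GeoWeak`** (`Skeleton.lean`, `TopWeak.lean`). -/
theorem cusp_geo_part (hp : p.Prime) (hp' : p ∉ ({2, 3, 5, 7, 13} : Finset ℕ)) :
    (∀ σ : Fermat.Agent.S15.Gal, σ • cuspClass p = cuspClass p) ∧ cuspClass p ≠ 0 ∧
      (p - 1) • cuspClass p = 0 ∧ Fermat.Agent.S15.IsEisensteinVector p (cuspClass p) :=
  ⟨galois_smul_cuspClass p, cuspClass_ne_zero p hp hp', pred_smul_cuspClass' p hp,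
    isEisensteinVector_cuspClass p hp⟩

end Fermat.Agent.S15.H362

end
end
-- ===== PACK-END S15/H362/CuspFinal.lean

-- ===== PACK-BEGIN S15/H602/IdentLevP.lean
section





/-!
# S15 / GEO-PARTS (b) IDENT (helper602): the functions `j`, `j_p`, `j_p / j ^ p` at level `p`

Facts on the places of `F_p = ℚ̄(X₀(p))`, `p` prime, used by IDENT at level `p` and (through
restriction of places) at level `p k`:

* `ord_jBar_pos_of_ord_ratio_neg602` : the poles of `u = j_p / j ^ p` are zeros of `j`;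
* `hasVal_ratio_cuspInfty602`, `hasVal_ratio_cuspZero602` : `u (∞) = 1`, `u (0) = 0`;
* `one_lt_val_jBar_of_jLevelBar602` : `j_p (P) = b`, `v b > 1` ⟹ `v (j (P)) > 1`
  (Newton polygon of the modular equation, `H962.val_root_of_isModularShape`).
-/

set_option autoImplicit false
set_option synthInstance.maxHeartbeats 400000

noncomputable section

open AlgebraicCurve ModularCurve HahnSeries

namespace Fermat.Agent.S15.H602

open Fermat.Agent.S15.H722 Fermat.Agent.Lib.RR Fermat.Agent.S18.H725 Fermat.Agent.S15.H362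

section LevelP

variable (p : ℕ) [NeZero p]

theorem jBar_sub_const_ne_zero602 (c : Qb) : jBar p - algebraMap Qb (FB p) c ≠ 0 := by
  intro h
  have h1 : jBar p = algebraMap Qb (FB p) c := sub_eq_zero.mp h
  have h2 := ord_cuspInfty_jBar p
  rw [h1, ord_algebraMap] at h2
  omega

theorem jLevelBar_sub_const_ne_zero602 (c : Qb) :
    jLevelBar p - algebraMap Qb (FB p) c ≠ 0 := by
  intro h
  have h1 : jLevelBar p = algebraMap Qb (FB p) c := sub_eq_zero.mp h
  have h2 := ord_cuspInfty_jLevelBar p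
  rw [h1, ord_algebraMap] at h2
  have : (p : ℤ) ≠ 0 := by exact_mod_cast NeZero.ne p
  omega

theorem jBar_ne_zero602 : jBar p ≠ 0 := by
  have := jBar_sub_const_ne_zero602 p 0
  rwa [map_zero, sub_zero] at this

theorem jLevelBar_ne_zero602 : jLevelBar p ≠ 0 := by
  have := jLevelBar_sub_const_ne_zero602 p 0
  rwa [map_zero, sub_zero] at this

theorem hasValueAt_jBar_iff602 {P : Place Qb (FB p)} {a : Qb} :
    Fermat.Agent.S15.H542.HasValueAt P (Fermat.Agent.S15.H542.jBar p) a ↔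
      HasVal P (jBar p) a := by
  constructor
  · intro h
    exact Or.inr h
  · intro h
    exact h.resolve_left (jBar_sub_const_ne_zero602 p a)

theorem hasValueAt_jNBar_iff602 {P : Place Qb (FB p)} {a : Qb} :
    Fermat.Agent.S15.H542.HasValueAt P (Fermat.Agent.S15.H542.jNBar p) a ↔
      HasVal P (jLevelBar p) a := by
  constructor
  · intro h
    exact Or.inr h
  · intro h
    exact h.resolve_left (jLevelBar_sub_const_ne_zero602 p a)

/-- the poles of `j_p` are poles of `j` -/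
theorem ord_jBar_neg_of_jLevelBar602 (hp : p.Prime) (P : Place Qb (FB p))
    (h : P.ord (jLevelBar p) < 0) : P.ord (jBar p) < 0 := by
  have hp0 : (0 : ℤ) < p := by exact_mod_cast hp.pos
  rcases eq_cusp_of_ord_jLevelBar_neg p hp P h with rfl | rfl
  · rw [ord_cuspInfty_jBar]; omega
  · rw [ord_cuspZero_jBar]; omega

/-- the poles of `j` are poles of `j_p` -/
theorem ord_jLevelBar_neg_of_jBar602 (hp : p.Prime) (P : Place Qb (FB p))
    (h : P.ord (jBar p) < 0) : P.ord (jLevelBar p) < 0 := by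
  have hp0 : (0 : ℤ) < p := by exact_mod_cast hp.pos
  rcases eq_cusp_of_ord_jBar_neg p hp P h with rfl | rfl
  · rw [ord_cuspInfty_jLevelBar]; omega
  · rw [ord_cuspZero_jLevelBar]; omega

/-- `u = j_p / j ^ p` -/
def ratio602 : FB p := jLevelBar p / jBar p ^ p

theorem ord_ratio602 (P : Place Qb (FB p)) :
    P.ord (ratio602 p) = P.ord (jLevelBar p) - p * P.ord (jBar p) := by
  unfold ratio602
  rw [div_eq_mul_inv, P.ord_mul (jLevelBar_ne_zero602 p)
    (inv_ne_zero (pow_ne_zero _ (jBar_ne_zero602 p))), P.ord_inv, ord_pow]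
  ring

/-- the poles of `u` are zeros of `j` -/
theorem ord_jBar_pos_of_ord_ratio_neg602 (hp : p.Prime) (P : Place Qb (FB p))
    (h : P.ord (ratio602 p) < 0) : 0 < P.ord (jBar p) := by
  have hp2 : (2 : ℤ) ≤ p := by exact_mod_cast hp.two_le
  rw [ord_ratio602] at h
  by_contra hcon
  push Not at hcon
  rcases lt_or_eq_of_le hcon with hlt | heq
  · rcases eq_cusp_of_ord_jBar_neg p hp P hlt with rfl | rfl
    · rw [ord_cuspInfty_jLevelBar, ord_cuspInfty_jBar] at h
      linarith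
    · rw [ord_cuspZero_jLevelBar, ord_cuspZero_jBar] at h
      nlinarith
  · rw [heq, mul_zero, sub_zero] at h
    have := ord_jBar_neg_of_jLevelBar602 p hp P h
    omega

theorem hasVal_ratio_cuspZero602 (hp : p.Prime) : HasVal (cuspZero p) (ratio602 p) 0 := by
  have hp2 : (2 : ℤ) ≤ p := by exact_mod_cast hp.two_le
  apply hasVal_zero_of_ord_pos
  rw [ord_ratio602, ord_cuspZero_jLevelBar, ord_cuspZero_jBar]
  nlinarith

theorem coe_jBar_eq602 : ((jBar p : FB p) : LaurentSeries Qb) = jqModC Qb :=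
  Fermat.Agent.S15.H542.coe_jBar_eq p

theorem coe_jLevelBar_eq602 :
    ((jLevelBar p : FB p) : LaurentSeries Qb) = qExpand Qb p (jqModC Qb) :=
  Fermat.Agent.S15.H542.coe_jNBar_eq p

theorem hasVal_ratio_cuspInfty602 : HasVal (cuspInfty p) (ratio602 p) 1 := by
  have hp0 : (p : ℤ) ≠ 0 := by exact_mod_cast NeZero.ne p
  by_cases hx : jLevelBar p - jBar p ^ p = 0
  · left
    have h1 : jLevelBar p = jBar p ^ p := sub_eq_zero.mp hx
    unfold ratio602
    rw [h1, div_self (pow_ne_zero _ (jBar_ne_zero602 p)), map_one, sub_self]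
  · right
    have hpow : jBar p ^ p ≠ 0 := pow_ne_zero _ (jBar_ne_zero602 p)
    have hfac : ratio602 p - algebraMap Qb (FB p) 1 =
        (jLevelBar p - jBar p ^ p) * (jBar p ^ p)⁻¹ := by
      unfold ratio602
      rw [map_one]
      field_simp
    rw [hfac, (cuspInfty p).ord_mul hx (inv_ne_zero hpow), (cuspInfty p).ord_inv, ord_pow,
      ord_cuspInfty_jBar, ord_cuspInfty]
    -- the `q`-order of `j_p - j ^ p` is `> -p`
    have hL1 : Fermat.Agent.S15.H386.IsLead (jqModC Qb) (-1) 1 :=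
      Fermat.Agent.S15.H386.isLead_jqModC
    have hL2 : Fermat.Agent.S15.H386.IsLead (qExpand Qb p (jqModC Qb)) (-(p : ℤ)) 1 := by
      have := Fermat.Agent.S15.H386.isLead_qExpand p hL1
      simpa using this
    have hL3 : Fermat.Agent.S15.H386.IsLead (jqModC Qb ^ p) (-(p : ℤ)) 1 := by
      have := hL1.pow p
      simpa using this
    have hL4 := hL2.sub hL3
    rw [sub_self] at hL4
    have hcoe : ((jLevelBar p - jBar p ^ p : FB p) : LaurentSeries Qb) =
        qExpand Qb p (jqModC Qb) - jqModC Qb ^ p := by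
      rw [← coe_jLevelBar_eq602 p, ← coe_jBar_eq602 p]
      rfl
    have hne : ((jLevelBar p - jBar p ^ p : FB p) : LaurentSeries Qb) ≠ 0 := by
      intro h0
      exact hx (Subtype.ext h0)
    rw [Fermat.Agent.S15.H386.isLead_iff_lt_orderTop, HahnSeries.single_eq_zero, sub_zero,
      ← hcoe, ← HahnSeries.order_eq_orderTop_of_ne_zero hne] at hL4
    have hL5 : -(p : ℤ) < ((jLevelBar p - jBar p ^ p : FB p) : LaurentSeries Qb).order := by
      exact_mod_cast hL4
    linarith

theorem hasVal_ratio602 {P : Place Qb (FB p)} {a b : Qb} (ha : HasVal P (jBar p) a)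
    (hb : HasVal P (jLevelBar p) b) (ha0 : a ≠ 0) : HasVal P (ratio602 p) (b / a ^ p) :=
  hb.div (ha.pow p) (pow_ne_zero _ ha0)

/-- a place where `j_p` is regular has a `j`-value -/
theorem exists_hasVal_jBar602 (hp : p.Prime) {P : Place Qb (FB p)}
    (h : 0 ≤ P.ord (jLevelBar p)) : ∃ a : Qb, HasVal P (jBar p) a := by
  refine exists_hasVal P (Fermat.Agent.Lib.FF398.deg_eq_one_FF p P) ?_
  by_contra hcon
  push Not at hcon
  have := ord_jLevelBar_neg_of_jBar602 p hp P hcon
  omega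

/-- a place where `j` is regular has a `j_p`-value -/
theorem exists_hasVal_jLevelBar602 (hp : p.Prime) {P : Place Qb (FB p)}
    (h : 0 ≤ P.ord (jBar p)) : ∃ b : Qb, HasVal P (jLevelBar p) b := by
  refine exists_hasVal P (Fermat.Agent.Lib.FF398.deg_eq_one_FF p P) ?_
  by_contra hcon
  push Not at hcon
  have := ord_jBar_neg_of_jLevelBar602 p hp P hcon
  omega

/-- **Newton polygon**: a non-integral value of `j_p` forces a non-integral value of `j`. -/
theorem one_lt_val_jBar_of_jLevelBar602 (hp : p.Prime) {Γ₀ : Type*}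
    [LinearOrderedCommGroupWithZero Γ₀] (v : Valuation Qb Γ₀)
    {P : Place Qb (FB p)} {a b : Qb} (ha : HasVal P (jBar p) a)
    (hb : HasVal P (jLevelBar p) b) (hvb : 1 < v b) : 1 < v a := by
  obtain ⟨Φ, hshape, -, hyx⟩ := Fermat.Agent.S15.H542.eval2_jBar_jNBar p hp
  have hP1 := (hasValueAt_jBar_iff602 p).mpr ha
  have hP2 := (hasValueAt_jNBar_iff602 p).mpr hb
  have hc := Fermat.Agent.S15.H542.isCentredAt_of_hasValueAt p hP1 hP2
  have hcs : IsCentredAt P (Fermat.Agent.S15.H542.jNBar p) (Fermat.Agent.S15.H542.jBar p) b a :=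
    ⟨hc.hy, hc.hx⟩
  have hrelyx : ev (K := Qb) (Fermat.Agent.S15.H542.jNBar p) (Fermat.Agent.S15.H542.jBar p)
      (Fermat.Agent.S15.H542.phiK Qb Φ) = 0 := by
    rw [Fermat.Agent.S15.H542.ev_phiK]; exact hyx
  have h0yx : Fermat.Agent.S15.H962.eval2 Φ b a = 0 := by
    rw [← Fermat.Agent.S15.H542.ev0_phiK]
    exact Fermat.Agent.S15.H542.ev0_eq_zero_of_isCentredAt hcs hrelyx
  rcases Fermat.Agent.S15.H962.val_root_of_isModularShape v hp.pos hshape hvb h0yx with hv | hv
  · rw [hv]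
    exact one_lt_pow₀ hvb hp.pos.ne'
  · exact Fermat.Agent.S15.H962.one_lt_of_pow_eq hvb hv

end LevelP

end Fermat.Agent.S15.H602

end

end
-- ===== PACK-END S15/H602/IdentLevP.lean

-- ===== PACK-BEGIN S15/H602/IdentPull.lean
section




/-!
# S15 / GEO-PARTS (b) IDENT (helper602): the identification at level `p k`, generic form

`ident_pull602` : let `r` be a place reduction of `F_{p k}` along `A` (`p k` invertible in the
residue field), `f₀ ∈ {j, j_p} ⊂ F_p` with integral model `f`, `t ∈ ℚ̄` with `t⁻¹ = c ∈ 𝔪_A`,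
`g = f₀ - t`, and `T` a type of residues.  If the pole `P_c` of `g` has order `1` and type `T`
(for `u = j_p / j ^ p`), the other poles of `g` are not of type `T`, the zeros and poles of `g` are
near the cusps and `P` is a zero of `g` of type `T`, then `r_* π^* (P) = r_* π^* (P_c)`.
-/

set_option autoImplicit false
set_option synthInstance.maxHeartbeats 400000
set_option maxHeartbeats 1000000

noncomputable section

open AlgebraicCurve ModularCurve HahnSeries

namespace Fermat.Agent.S15.H602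

open Fermat.Agent.S15.H722 Fermat.Agent.Lib.RR Fermat.Agent.S18.H725 Fermat.Agent.S15.H362

section Val

variable (A : ValuationSubring Qb)

theorem residue_eq_zero602 (a : A) (ha : ¬ IsUnit a) : IsLocalRing.residue A a = 0 :=
  (IsLocalRing.residue_eq_zero_iff a).mpr ((IsLocalRing.mem_maximalIdeal a).mpr ha)

theorem mem_of_val_le_one602 {β : Qb} (h : A.valuation β ≤ 1) : β ∈ A :=
  (A.valuation_le_one_iff β).mp h

theorem not_isUnit_of_val_lt_one602 {β : Qb} (hβ : β ∈ A) (h : A.valuation β < 1) :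
    ¬ IsUnit (⟨β, hβ⟩ : A) := by
  intro hu
  have h1 : A.valuation β = 1 := (A.valuation_eq_one_iff ⟨β, hβ⟩).mp hu
  rw [h1] at h
  exact lt_irrefl _ h

theorem isUnit_of_val_eq_one602 {β : Qb} (hβ : β ∈ A) (h : A.valuation β = 1) :
    IsUnit (⟨β, hβ⟩ : A) :=
  (A.valuation_eq_one_iff ⟨β, hβ⟩).mpr h

theorem val_inv_lt_one602 {a : Qb} (ha : 1 < A.valuation a) : A.valuation a⁻¹ < 1 := by
  rw [map_inv₀]
  exact inv_lt_one_of_one_lt₀ ha

theorem ne_zero_of_one_lt_val602 {a : Qb} (ha : 1 < A.valuation a) : a ≠ 0 := by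
  rintro rfl
  rw [map_zero] at ha
  exact absurd ha (not_lt.mpr zero_le_one)

theorem val_ratio_lt_one602 {a b : Qb} {p : ℕ} (hp : 1 < p) (ha : 1 < A.valuation a)
    (hab : A.valuation b ^ p = A.valuation a) : A.valuation (b / a ^ p) < 1 := by
  have hb : 1 < A.valuation b := Fermat.Agent.S15.H962.one_lt_of_pow_eq ha hab
  rw [map_div₀, map_pow, ← hab, ← pow_mul]
  have h1 : A.valuation b < A.valuation b ^ (p * p) := by
    calc A.valuation b = A.valuation b ^ 1 := (pow_one _).symm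
      _ < A.valuation b ^ (p * p) := pow_lt_pow_right₀ hb (by nlinarith)
  have h0 : 0 < A.valuation b ^ (p * p) := lt_trans (lt_trans zero_lt_one hb) h1
  exact (div_lt_one₀ h0).mpr h1

theorem val_ratio_eq_one602 {a b : Qb} {p : ℕ} (ha : 1 < A.valuation a)
    (hab : A.valuation b = A.valuation a ^ p) : A.valuation (b / a ^ p) = 1 := by
  rw [map_div₀, map_pow, hab]
  exact div_self (pow_ne_zero _ (ne_of_gt (lt_trans zero_lt_one ha)))

end Val

section Transfer

variable {K F F' : Type*} [Field K] [Field F] [Field F'] [Algebra K F] [Algebra K F']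

theorem ord_map_neg_iff602 (φ : F →ₐ[K] F') (hφ : φ.toRingHom.IsIntegral) (w : Place K F')
    (f : F) : w.ord (φ f) < 0 ↔ (w.restrictAlong φ hφ).ord f < 0 := by
  have he : (0 : ℤ) < (w.ramificationIndexAlong φ : ℤ) := by
    exact_mod_cast ramificationIndexAlong_pos602 φ hφ w
  rw [Place.ord_restrictAlong φ hφ w f]
  constructor
  · intro h
    by_contra hc
    push Not at hc
    have := mul_nonneg he.le hc
    omega
  · intro h
    exact mul_neg_of_pos_of_neg he h

theorem ord_map_pos_iff602 (φ : F →ₐ[K] F') (hφ : φ.toRingHom.IsIntegral) (w : Place K F')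
    (f : F) : 0 < w.ord (φ f) ↔ 0 < (w.restrictAlong φ hφ).ord f := by
  have he : (0 : ℤ) < (w.ramificationIndexAlong φ : ℤ) := by
    exact_mod_cast ramificationIndexAlong_pos602 φ hφ w
  rw [Place.ord_restrictAlong φ hφ w f]
  exact mul_pos_iff_of_pos_left he

theorem ord_sub_const_of_neg602 (v : Place K F) {f : F} (c : K) (h : v.ord f < 0) :
    v.ord (f - algebraMap K F c) = v.ord f := by
  rcases eq_or_ne c 0 with rfl | hc
  · rw [map_zero, sub_zero]
  have hf : f ≠ 0 := ne_zero_of_ord_ne_zero v h.ne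
  have hcne : -(algebraMap K F c) ≠ 0 := neg_ne_zero.mpr ((map_ne_zero _).mpr hc)
  rw [sub_eq_add_neg]
  exact ord_add_eq_of_lt v hf hcne (by rw [ord_neg, ord_algebraMap]; exact h)

theorem ord_neg_of_ord_sub_const_neg602 (v : Place K F) {f : F} (c : K)
    (h : v.ord (f - algebraMap K F c) < 0) : v.ord f < 0 := by
  by_contra hcon
  push Not at hcon
  have := ord_sub_nonneg v hcon (by rw [ord_algebraMap] : 0 ≤ v.ord (algebraMap K F c))
  omega

end Transfer

section AbstractPull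

variable {K F₀ F k Fk : Type*} [Field K] [Field F₀] [Field F] [Algebra K F₀] [Algebra K F]
  [Field k] [Field Fk] [Algebra k Fk]
variable {Φ : RedCore K F k Fk} (X : InfCoord Φ) [HasPrincipalDivisors K F]

/-- **IDENT along an embedding, with the data pulled back from the lower level.**
`u = ι u₀` the type function, `x = ι x₀` the coordinate at infinity, `f = ι f₀` integral,
`c ∈ 𝔪_A`, `c t = 1`, `g = f₀ - t`. -/
theorem mapDomain_pullback_eq_of_level602
    (hdeg1 : ∀ v : Place K F, v.deg = 1) (hdeg0 : ∀ v : Place K F₀, v.deg = 1)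
    (hr : ∀ P, (Φ.r P).deg = P.deg)
    (ι : F₀ →ₐ[K] F) (hι : ι.toRingHom.IsIntegral) (hFI : FundamentalIdentityAlong K ι hι)
    (u : Φ.O) (u₀ : F₀) (hucoe : (u : F) = ι u₀) (x₀ : F₀) (hxcoe : (X.x : F) = ι x₀)
    (hupoles₀ : ∀ P' : Place K F₀, P'.ord u₀ < 0 → P'.ord x₀ < 0)
    (f : Φ.O) (f₀ : F₀) (hf : (f : F) = ι f₀)
    (c : Φ.A) (hc : ¬ IsUnit c) (t : K) (hct : (c : K) * t = 1)
    (T : k → Prop) (P Pc : Place K F₀)
    (hPc : Pc.ord (f₀ - algebraMap K F₀ t) = -1)
    (hTc : ∃ (β : K) (hβ : β ∈ Φ.A), HasVal Pc u₀ β ∧ T (Φ.res ⟨β, hβ⟩))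
    (hP : 0 < P.ord (f₀ - algebraMap K F₀ t))
    (hTP : ∃ (β : K) (hβ : β ∈ Φ.A), HasVal P u₀ β ∧ T (Φ.res ⟨β, hβ⟩))
    (hpoles : ∀ P' : Place K F₀, P'.ord (f₀ - algebraMap K F₀ t) < 0 → P' ≠ Pc →
      ∃ (β : K) (hβ : β ∈ Φ.A), HasVal P' u₀ β ∧ ¬ T (Φ.res ⟨β, hβ⟩))
    (hnear : ∀ P' : Place K F₀, P'.ord (f₀ - algebraMap K F₀ t) ≠ 0 →
      ∃ c' : Φ.A, ¬ IsUnit c' ∧ HasVal P' x₀ (c' : K)) :
    Finsupp.mapDomain Φ.r (Divisor.pullbackAlong ι hι (Finsupp.single P 1)) =
      Finsupp.mapDomain Φ.r (Divisor.pullbackAlong ι hι (Finsupp.single Pc 1)) := by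
  classical
  have hupoles : ∀ W : Place K F, W.ord (u : F) < 0 → W.ord (X.x : F) < 0 := by
    intro W hW
    rw [hucoe, ord_map_neg_iff602 _ hι] at hW
    rw [hxcoe, ord_map_neg_iff602 _ hι]
    exact hupoles₀ _ hW
  -- the function `z = 1 - c f = - c (f - t)`
  set g : F₀ := f₀ - algebraMap K F₀ t with hg
  have hc0 : (c : K) ≠ 0 := left_ne_zero_of_mul_eq_one hct
  set z : Φ.O := 1 - Φ.const c * f with hz
  have hρz : Φ.ρ z = 1 := by
    rw [hz, map_sub, map_one, map_mul, Φ.ρ_const', Φ.res_eq_zero c hc, map_zero, zero_mul,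
      sub_zero]
  have hzcoe : (z : F) = -(algebraMap K F (c : K) * ι g) := by
    have h1 : (z : F) = 1 - algebraMap K F (c : K) * ι f₀ := by
      rw [← hf]; rfl
    rw [h1, hg, map_sub, AlgHom.commutes, mul_sub, ← map_mul, hct, map_one]
    ring
  have hzord : ∀ W : Place K F, W.ord (z : F) =
      (W.ramificationIndexAlong ι : ℤ) * (W.restrictAlong ι hι).ord g := by
    intro W
    rw [hzcoe, ord_neg, ord_const_mul W hc0, Place.ord_restrictAlong _ hι]
  have he : ∀ W : Place K F, (0 : ℤ) < (W.ramificationIndexAlong ι : ℤ) := fun W => by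
    exact_mod_cast ramificationIndexAlong_pos602 ι hι W
  -- types transfer from the lower level
  have htype : ∀ (S : k → Prop) (W : Place K F),
      (∃ (β : K) (hβ : β ∈ Φ.A), HasVal (W.restrictAlong ι hι) u₀ β ∧ S (Φ.res ⟨β, hβ⟩)) →
      HasType602 u S W := by
    rintro S W ⟨β, hβ, hv, hS⟩
    refine ⟨β, hβ, ?_, hS⟩
    rw [hucoe]
    exact (hasVal_map_iff602 _ hι W _ β).mpr hv
  refine mapDomain_pullback_eq602 X hdeg1 hr ι hι hFI hupoles z hρz T P Pc ?_ ?_ ?_ ?_ ?_
  · rw [hdeg0 P, hdeg0 Pc]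
  · -- `h1`
    intro W hW
    rw [hzord W] at hW
    have hg0 : (W.restrictAlong ι hι).ord g ≠ 0 := by
      intro h0
      rw [h0, mul_zero] at hW
      exact hW rfl
    obtain ⟨c', hc', hv⟩ := hnear _ hg0
    refine ⟨c', hc', ?_⟩
    rw [hxcoe]
    exact (hasVal_map_iff602 _ hι W _ _).mpr hv
  · -- `h2`
    intro W hW
    refine ⟨?_, htype T W (by rw [hW]; exact hTc)⟩
    rw [hzord W, hW, hPc]
    ring
  · -- `h3`
    intro W hWneg hWne
    refine htype _ W (hpoles _ ?_ hWne)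
    rw [hzord W] at hWneg
    by_contra hcon
    push Not at hcon
    have := mul_nonneg (he W).le hcon
    omega
  · -- `h4`
    intro W hW
    refine ⟨?_, htype T W (by rw [hW]; exact hTP)⟩
    rw [hzord W, hW]
    have h1 : (1 : ℤ) ≤ P.ord g := hP
    have := he W
    nlinarith

end AbstractPull

section Pull

variable (p k : ℕ) [NeZero p] [NeZero k]

theorem alpha_jBar602 : heckeAlphaBar Qb p k (jBar p) = jF Qb (p * k) :=
  Subtype.ext (by rw [coe_heckeAlphaBar, coe_jBar_eq602]; rfl)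

theorem alpha_jLevelBar602 :
    heckeAlphaBar Qb p k (jLevelBar p) = jdF Qb (p * k) (dvd_mul_right p k) :=
  Subtype.ext (by rw [coe_heckeAlphaBar, coe_jLevelBar_eq602]; rfl)

theorem alpha_ratio602 :
    heckeAlphaBar Qb p k (ratio602 p) =
      jdF Qb (p * k) (dvd_mul_right p k) / jF Qb (p * k) ^ p := by
  unfold ratio602
  rw [map_div₀, map_pow, alpha_jBar602, alpha_jLevelBar602]

variable (A : ValuationSubring Qb)

/-- **IDENT at level `p k`, generic form.** -/
theorem ident_pull602 (hp : p.Prime)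
    (hN : ((p * k : ℕ) : IsLocalRing.ResidueField A) ≠ 0)
    (r : Place Qb (laurentBaseChange Qb (modularFunctionFieldFull (p * k))) →
      Place (IsLocalRing.ResidueField A)
        (modularFunctionFieldFullC (IsLocalRing.ResidueField A) (p * k)))
    (hr : IsPlaceReductionAlong A (IsLocalRing.residue A) (p * k) r)
    (hι : (heckeAlphaBar Qb p k).toRingHom.IsIntegral)
    (f : intO A (IsLocalRing.residue A) (laurentBaseChange Qb (modularFunctionFieldFull (p * k)))
      (modularFunctionFieldFullC (IsLocalRing.ResidueField A) (p * k)))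
    (f₀ : FB p)
    (hf : ((f : intO A (IsLocalRing.residue A)
        (laurentBaseChange Qb (modularFunctionFieldFull (p * k)))
        (modularFunctionFieldFullC (IsLocalRing.ResidueField A) (p * k))) :
          laurentBaseChange Qb (modularFunctionFieldFull (p * k))) = heckeAlphaBar Qb p k f₀)
    (c : A) (hc : ¬ IsUnit c) (t : Qb) (hct : (c : Qb) * t = 1)
    (T : IsLocalRing.ResidueField A → Prop) (P Pc : Place Qb (FB p))
    (hPc : Pc.ord (f₀ - algebraMap Qb (FB p) t) = -1)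
    (hTc : ∃ (β : Qb) (hβ : β ∈ A), HasVal Pc (ratio602 p) β ∧
      T (IsLocalRing.residue A ⟨β, hβ⟩))
    (hP : 0 < P.ord (f₀ - algebraMap Qb (FB p) t))
    (hTP : ∃ (β : Qb) (hβ : β ∈ A), HasVal P (ratio602 p) β ∧
      T (IsLocalRing.residue A ⟨β, hβ⟩))
    (hpoles : ∀ P' : Place Qb (FB p), P'.ord (f₀ - algebraMap Qb (FB p) t) < 0 → P' ≠ Pc →
      ∃ (β : Qb) (hβ : β ∈ A), HasVal P' (ratio602 p) β ∧
        ¬ T (IsLocalRing.residue A ⟨β, hβ⟩))
    (hnear : ∀ P' : Place Qb (FB p), P'.ord (f₀ - algebraMap Qb (FB p) t) ≠ 0 →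
      ∃ c' : A, ¬ IsUnit c' ∧ HasVal P' ((jBar p)⁻¹) (c' : Qb)) :
    Finsupp.mapDomain r
        (Divisor.pullbackAlong (heckeAlphaBar Qb p k) hι (Finsupp.single P 1)) =
      Finsupp.mapDomain r
        (Divisor.pullbackAlong (heckeAlphaBar Qb p k) hι (Finsupp.single Pc 1)) := by
  classical
  have hπ : ∀ a : A, ¬ IsUnit a → IsLocalRing.residue A a = 0 := residue_eq_zero602 A
  have hsign := sign_red_jF602 (p * k) A hN r hr
  have hdeg1 : ∀ v : Place Qb (laurentBaseChange Qb (modularFunctionFieldFull (p * k))),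
      v.deg = 1 := Fermat.Agent.Lib.FF398.deg_eq_one_FF (p * k)
  have hFI : FundamentalIdentityAlong Qb (heckeAlphaBar Qb p k) hι :=
    Fermat.Agent.Lib.FF398.fundamentalIdentityAlong_alpha p k
  have hucoe : ((jdO A (IsLocalRing.residue A) (p * k) (dvd_mul_right p k) *
      xO A (IsLocalRing.residue A) (p * k) ^ p : intO A (IsLocalRing.residue A)
      (laurentBaseChange Qb (modularFunctionFieldFull (p * k)))
      (modularFunctionFieldFullC (IsLocalRing.ResidueField A) (p * k))) :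
        laurentBaseChange Qb (modularFunctionFieldFull (p * k))) =
      heckeAlphaBar Qb p k (ratio602 p) := by
    rw [alpha_ratio602]
    push_cast
    rw [coe_jdO, coe_xO, inv_pow, div_eq_mul_inv]
  have hxcoe : ((xO A (IsLocalRing.residue A) (p * k) : intO A (IsLocalRing.residue A)
      (laurentBaseChange Qb (modularFunctionFieldFull (p * k)))
      (modularFunctionFieldFullC (IsLocalRing.ResidueField A) (p * k))) :
        laurentBaseChange Qb (modularFunctionFieldFull (p * k))) =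
      heckeAlphaBar Qb p k ((jBar p)⁻¹) := by
    rw [map_inv₀, alpha_jBar602]
    exact coe_xO A (IsLocalRing.residue A) (p * k)
  have hupoles₀ : ∀ P' : Place Qb (FB p), P'.ord (ratio602 p) < 0 →
      P'.ord ((jBar p)⁻¹) < 0 := by
    intro P' hP'
    rw [Place.ord_inv]
    have := ord_jBar_pos_of_ord_ratio_neg602 p hp P' hP'
    omega
  exact mapDomain_pullback_eq_of_level602
    (Φ := modRedCore A (IsLocalRing.residue A) (p * k) hπ r hr)
    (modInfCoord A (IsLocalRing.residue A) (p * k) hπ r hr (fun W => (hsign W).2)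
      (fun W => (hsign W).1))
    hdeg1 (Fermat.Agent.Lib.FF398.deg_eq_one_FF p) hr.1 (heckeAlphaBar Qb p k) hι hFI
    (jdO A (IsLocalRing.residue A) (p * k) (dvd_mul_right p k) *
      xO A (IsLocalRing.residue A) (p * k) ^ p) (ratio602 p) hucoe ((jBar p)⁻¹) hxcoe hupoles₀
    f f₀ hf c hc t hct T P Pc hPc hTc hP hTP hpoles hnear

end Pull

end Fermat.Agent.S15.H602

end

end
-- ===== PACK-END S15/H602/IdentPull.lean

-- ===== PACK-BEGIN S15/H602/IdentSpec.lean
section






/-!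
# S15 / GEO-PARTS (b) (helper602): FROZEN interface between IDENT and RED

`(b)` of GEO-PARTS is the hypothesis `hsp` of `H542.geoParts_of_pieces`, here `SpStatement p`.
It splits into

* `IdentBaseStatement p` (level `p`, used at the primes `q ≥ 5`): every place reduction `r` at
  level `p` along `A` (`p` invertible in the residue field) maps the residue disc of the cusp `0`
  to `r (0)` and the residue disc of the cusp `∞` to `r (∞)`;
* `IdentLevelStatement p` (level `p * k`, used for `(q, k) = (2, 3), (3, 2)`): for every place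
  reduction `r` at level `p * k` along `A` (`p * k` invertible in the residue field) and `P` in
  the residue disc of a cusp `c`,  `r_* π^* (P) = r_* π^* (c)`, `π^*` the pull-back of divisors
  along `F_p ⊂ F_{p k}`;
* RED: `IdentBaseStatement p → IdentLevelStatement p → SpStatement p` (reduction inputs
  `S37.Core.rimStatement`, injectivity `S18.result`, level transfer `S37.H818.transferInputs`).
-/

set_option autoImplicit false
set_option synthInstance.maxHeartbeats 400000

noncomputable section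

open AlgebraicCurve ModularCurve

namespace Fermat.Agent.S15.H602

open Fermat.Agent.S15.Core Fermat.Agent.S15.H962

/-- **(b) of GEO-PARTS**: exactly the hypothesis `hsp` of `H542.geoParts_of_pieces`. -/
def SpStatement (p : ℕ) [NeZero p] : Prop :=
  ∀ q : ℕ, q.Prime → q ≠ p →
    ∀ A : ValuationSubring (AlgebraicClosure ℚ), A.LiesOverPrime q →
    ∀ P₀ : Place (AlgebraicClosure ℚ) (modularFunctionFieldBar p), IsCuspZero p P₀ →
    ∃ (X : Type) (_ : AddCommGroup X) (sp₀ : JZero p →+ X),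
      (∀ (m : ℕ) (z : JZero p), ¬ q ∣ m → m • z = 0 → sp₀ z = 0 → z = 0) ∧
      KilledBy p A P₀ sp₀

/-- **IDENT at level `p`**: a place reduction maps the residue discs of the cusps to the
reductions of the cusps. -/
def IdentBaseStatement (p : ℕ) [NeZero p] : Prop :=
  p.Prime → 5 < p → ∀ A : ValuationSubring (AlgebraicClosure ℚ),
    ((p : ℕ) : IsLocalRing.ResidueField A) ≠ 0 →
    ∀ r : Place (AlgebraicClosure ℚ) (modularFunctionFieldBar p) →
        Place (IsLocalRing.ResidueField A)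
          (modularFunctionFieldFullC (IsLocalRing.ResidueField A) p),
      IsPlaceReductionModL A p r →
      ∀ P : Place (AlgebraicClosure ℚ) (modularFunctionFieldBar p),
        (InDiscZero p A P → r P = r (Fermat.Agent.S15.H362.cuspZero p)) ∧
        (InDiscInfty p A P → r P = r (cuspInfty p))

/-- **IDENT at level `p * k`**: `r_* π^* (P) = r_* π^* (cusp)` for `P` in the residue disc of the
cusp. -/
def IdentLevelStatement (p : ℕ) [NeZero p] : Prop :=
  p.Prime → 5 < p → ∀ (k : ℕ) [NeZero k], k.Prime → k ≠ p →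
    ∀ A : ValuationSubring (AlgebraicClosure ℚ),
    ((p * k : ℕ) : IsLocalRing.ResidueField A) ≠ 0 →
    ∀ r : Place (AlgebraicClosure ℚ) (modularFunctionFieldBar (p * k)) →
        Place (IsLocalRing.ResidueField A)
          (modularFunctionFieldFullC (IsLocalRing.ResidueField A) (p * k)),
      IsPlaceReductionModL A (p * k) r →
      ∀ (hι : (heckeAlphaBar (AlgebraicClosure ℚ) p k).toRingHom.IsIntegral)
        (P : Place (AlgebraicClosure ℚ) (modularFunctionFieldBar p)),
        (InDiscZero p A P →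
          Finsupp.mapDomain r
              (Divisor.pullbackAlong (heckeAlphaBar (AlgebraicClosure ℚ) p k) hι
                (Finsupp.single P 1)) =
            Finsupp.mapDomain r
              (Divisor.pullbackAlong (heckeAlphaBar (AlgebraicClosure ℚ) p k) hι
                (Finsupp.single (Fermat.Agent.S15.H362.cuspZero p) 1))) ∧
        (InDiscInfty p A P →
          Finsupp.mapDomain r
              (Divisor.pullbackAlong (heckeAlphaBar (AlgebraicClosure ℚ) p k) hι
                (Finsupp.single P 1)) =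
            Finsupp.mapDomain r
              (Divisor.pullbackAlong (heckeAlphaBar (AlgebraicClosure ℚ) p k) hι
                (Finsupp.single (cuspInfty p) 1)))

end Fermat.Agent.S15.H602

end

end
-- ===== PACK-END S15/H602/IdentSpec.lean

-- ===== PACK-BEGIN S15/H602/IdentLevel.lean
section



/-!
# S15 / GEO-PARTS (b) IDENT (helper602): the identification at level `p k`

`identLevel602 : IdentLevelStatement p` : for every place reduction `r` of `F_{p k}` along `A`
(`p k` invertible in the residue field) and every place `P` of `F_p` in the residue disc of a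
cusp `c`,  `r_* π^* (P) = r_* π^* (c)`.

* disc of `0` (`j (P) = a`, `j_p (P) = b`, `v b ^ p = v a > 1`): `z = 1 - b⁻¹ j_p`, type `ū = 0`;
  the zeros of `z` lie near the cusps by the Newton polygon of the modular equation;
* disc of `∞` (`v b = v a ^ p`): `z = 1 - a⁻¹ j`, type `ū ≠ 0`.
-/

set_option autoImplicit false
set_option synthInstance.maxHeartbeats 400000
set_option maxHeartbeats 1000000

noncomputable section

open AlgebraicCurve ModularCurve HahnSeries

namespace Fermat.Agent.S15.H602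

open Fermat.Agent.S15.H722 Fermat.Agent.Lib.RR Fermat.Agent.S18.H725 Fermat.Agent.S15.H362

section Level

variable (p : ℕ) [NeZero p]

/-- a pole of `j` is near the cusps -/
theorem near_of_ord_jBar_neg602 (A : ValuationSubring Qb) {P' : Place Qb (FB p)}
    (h : P'.ord (jBar p) < 0) : ∃ c' : A, ¬ IsUnit c' ∧ HasVal P' ((jBar p)⁻¹) (c' : Qb) := by
  refine ⟨0, not_isUnit_zero, ?_⟩
  have : HasVal P' ((jBar p)⁻¹) 0 := by
    apply hasVal_zero_of_ord_pos
    rw [Place.ord_inv]
    omega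
  exact this

/-- a place with a non-integral `j`-value is near the cusps -/
theorem near_of_hasVal_jBar602 (A : ValuationSubring Qb) {P' : Place Qb (FB p)} {a' : Qb}
    (ha' : HasVal P' (jBar p) a') (hva' : 1 < A.valuation a') :
    ∃ c' : A, ¬ IsUnit c' ∧ HasVal P' ((jBar p)⁻¹) (c' : Qb) := by
  have ha'0 := ne_zero_of_one_lt_val602 A hva'
  have hcv' := val_inv_lt_one602 A hva'
  have hcA' := mem_of_val_le_one602 A hcv'.le
  exact ⟨⟨a'⁻¹, hcA'⟩, not_isUnit_of_val_lt_one602 A hcA' hcv', ha'.inv ha'0⟩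

theorem residue_one_ne_zero602 (A : ValuationSubring Qb) (h : (1 : Qb) ∈ A) :
    IsLocalRing.residue A ⟨1, h⟩ ≠ 0 := by
  have : (⟨1, h⟩ : A) = 1 := rfl
  rw [this, map_one]
  exact one_ne_zero

theorem residue_zero_eq_zero602 (A : ValuationSubring Qb) (h : (0 : Qb) ∈ A) :
    IsLocalRing.residue A ⟨0, h⟩ = 0 := by
  have : (⟨0, h⟩ : A) = 0 := rfl
  rw [this, map_zero]

/-- **IDENT at level `p k`.** -/
theorem identLevel602 : IdentLevelStatement p := by
  intro hp _ k _ _ _ A hN r hr hι P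
  have hp0 : (0 : ℤ) < p := by exact_mod_cast hp.pos
  constructor
  · -- the disc of the cusp `0`
    rintro ⟨a, b, hPa, hPb, hva, hvab⟩
    have ha : HasVal P (jBar p) a := (hasValueAt_jBar_iff602 p).mp hPa
    have hb : HasVal P (jLevelBar p) b := (hasValueAt_jNBar_iff602 p).mp hPb
    have hvb : 1 < A.valuation b := Fermat.Agent.S15.H962.one_lt_of_pow_eq hva hvab
    have hb0 : b ≠ 0 := ne_zero_of_one_lt_val602 A hvb
    have ha0 : a ≠ 0 := ne_zero_of_one_lt_val602 A hva
    have hcv : A.valuation b⁻¹ < 1 := val_inv_lt_one602 A hvb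
    have hcA : b⁻¹ ∈ A := mem_of_val_le_one602 A hcv.le
    refine ident_pull602 p k A hp hN r hr hι
      (jdO A (IsLocalRing.residue A) (p * k) (dvd_mul_right p k)) (jLevelBar p)
      (by rw [coe_jdO, alpha_jLevelBar602]) ⟨b⁻¹, hcA⟩
      (not_isUnit_of_val_lt_one602 A hcA hcv) b (inv_mul_cancel₀ hb0)
      (fun c => c = 0) P (cuspZero p) ?_ ?_ ?_ ?_ ?_ ?_
    · rw [ord_sub_const_of_neg602 _ b (by rw [ord_cuspZero_jLevelBar]; omega),
        ord_cuspZero_jLevelBar]
    · exact ⟨0, zero_mem A, hasVal_ratio_cuspZero602 p hp, residue_zero_eq_zero602 A _⟩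
    · exact hPb
    · have hβv := val_ratio_lt_one602 A hp.one_lt hva hvab
      have hβA := mem_of_val_le_one602 A hβv.le
      exact ⟨b / a ^ p, hβA, hasVal_ratio602 p ha hb ha0,
        residue_eq_zero602 A _ (not_isUnit_of_val_lt_one602 A hβA hβv)⟩
    · intro P' hP' hne
      have h1 : P'.ord (jLevelBar p) < 0 := ord_neg_of_ord_sub_const_neg602 P' b hP'
      rcases eq_cusp_of_ord_jLevelBar_neg p hp P' h1 with rfl | rfl
      · exact ⟨1, one_mem A, hasVal_ratio_cuspInfty602 p, residue_one_ne_zero602 A _⟩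
      · exact absurd rfl hne
    · intro P' hP'
      rcases lt_or_gt_of_ne hP' with hlt | hgt
      · have h1 : P'.ord (jLevelBar p) < 0 := ord_neg_of_ord_sub_const_neg602 P' b hlt
        exact near_of_ord_jBar_neg602 p A (ord_jBar_neg_of_jLevelBar602 p hp P' h1)
      · have hb' : HasVal P' (jLevelBar p) b := Or.inr hgt
        obtain ⟨a', ha'⟩ := exists_hasVal_jBar602 p hp hb'.ord_nonneg
        have hva' := one_lt_val_jBar_of_jLevelBar602 p hp A.valuation ha' hb' hvb
        exact near_of_hasVal_jBar602 p A ha' hva'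
  · -- the disc of the cusp `∞`
    rintro ⟨a, b, hPa, hPb, hva, hvab⟩
    have ha : HasVal P (jBar p) a := (hasValueAt_jBar_iff602 p).mp hPa
    have hb : HasVal P (jLevelBar p) b := (hasValueAt_jNBar_iff602 p).mp hPb
    have ha0 : a ≠ 0 := ne_zero_of_one_lt_val602 A hva
    have hcv : A.valuation a⁻¹ < 1 := val_inv_lt_one602 A hva
    have hcA : a⁻¹ ∈ A := mem_of_val_le_one602 A hcv.le
    rw [← cuspInfty_eq_core]
    refine ident_pull602 p k A hp hN r hr hι
      (jO A (IsLocalRing.residue A) (p * k)) (jBar p)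
      (by rw [coe_jO, alpha_jBar602]) ⟨a⁻¹, hcA⟩
      (not_isUnit_of_val_lt_one602 A hcA hcv) a (inv_mul_cancel₀ ha0)
      (fun c => c ≠ 0) P (cuspInfty p) ?_ ?_ ?_ ?_ ?_ ?_
    · rw [ord_sub_const_of_neg602 _ a (by rw [ord_cuspInfty_jBar]; omega), ord_cuspInfty_jBar]
    · exact ⟨1, one_mem A, hasVal_ratio_cuspInfty602 p, residue_one_ne_zero602 A _⟩
    · exact hPa
    · have hβv := val_ratio_eq_one602 A hva hvab
      have hβA := mem_of_val_le_one602 A hβv.le
      exact ⟨b / a ^ p, hβA, hasVal_ratio602 p ha hb ha0,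
        ((isUnit_of_val_eq_one602 A hβA hβv).map (IsLocalRing.residue A)).ne_zero⟩
    · intro P' hP' hne
      have h1 : P'.ord (jBar p) < 0 := ord_neg_of_ord_sub_const_neg602 P' a hP'
      rcases eq_cusp_of_ord_jBar_neg p hp P' h1 with rfl | rfl
      · exact absurd rfl hne
      · exact ⟨0, zero_mem A, hasVal_ratio_cuspZero602 p hp,
          fun h => h (residue_zero_eq_zero602 A _)⟩
    · intro P' hP'
      rcases lt_or_gt_of_ne hP' with hlt | hgt
      · exact near_of_ord_jBar_neg602 p A (ord_neg_of_ord_sub_const_neg602 P' a hlt)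
      · exact near_of_hasVal_jBar602 p A (Or.inr hgt) hva

end Level

end Fermat.Agent.S15.H602

end

end
-- ===== PACK-END S15/H602/IdentLevel.lean

-- ===== PACK-BEGIN S15/H542/GeoD.lean
section






/-!
# S15, node GEO (helper542): the rational class `D = [(P_x) - (0)]` and its residue discs

* `moduliPlace_of_mult` : the MOD node for a curve with SOME multiplicative prime (not
  necessarily `2`): the place `P_x` with `j(P_x) = j(E)`, `j_p(P_x) = j(E/⟨Q⟩)` exists, is unique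
  and Galois-fixed;
* `exists_geoClass` : **the datum `D` of the node GEO**.  For every `W` (`Δ ≠ 0`), every
  Galois-fixed `Q` of prime order `p > 5` and every cusp `0` `P₀` there is a Galois-fixed class
  `D ∈ J₀(p)` such that at EVERY multiplicative place `A ∣ q ≠ p` there is a place `P` with
  `D = [(P) - (P₀)]`, `D + c = [(P) - (∞)]`, `j(P) = a`, `j_p(P) = a'`, `1 < v_A(a)` and
  - `Q ∉ E⁰(A)` ⟹ `v_A(a') ^ p = v_A(a)`   (`P` is in the residue disc of the cusp `0`),
  - `Q ∈ E⁰(A)` ⟹ `v_A(a') = v_A(a) ^ p`   (`P` is in the residue disc of the cusp `∞`).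
-/

set_option autoImplicit false

noncomputable section

open WeierstrassCurve AlgebraicCurve ModularCurve
open scoped WeierstrassCurve.Affine

namespace Fermat.Agent.S15.H542

open Fermat.Agent.S15.H782 Fermat.Agent.S15.H602

/-- **MOD at an arbitrary multiplicative prime**: existence, uniqueness and rationality of the
moduli place. -/
theorem moduliPlace_of_mult (p : ℕ) [NeZero p] (hp : p.Prime) (hp2 : p ≠ 2)
    (W : WeierstrassCurve ℤ) (hΔ : W.Δ ≠ 0) (Q : (curveBar W).toAffine.Point)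
    (hQfix : ∀ σ : AlgebraicClosure ℚ ≃ₐ[ℚ] AlgebraicClosure ℚ, σ • Q = Q)
    (hQord : addOrderOf Q = p)
    {ℓ : ℕ} (hℓ : ℓ.Prime) (hℓΔ : (ℓ : ℤ) ∣ W.Δ) (hℓc₄ : ¬ (ℓ : ℤ) ∣ W.c₄) :
    ∃ P : Place (AlgebraicClosure ℚ) (modularFunctionFieldBar p),
      IsGaloisFixedPlace P ∧
      HasValueAt P (jBar p) (jInv (curveBar W)) ∧
      HasValueAt P (jNBar p) (jInv (veluCurve (curveBar W) Q p)) ∧
      ∀ P' : Place (AlgebraicClosure ℚ) (modularFunctionFieldBar p),
        HasValueAt P' (jBar p) (jInv (curveBar W)) →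
        HasValueAt P' (jNBar p) (jInv (veluCurve (curveBar W) Q p)) → P' = P := by
  obtain ⟨A, hA⟩ := Fermat.Agent.S54.exists_valuationSubring_liesOver ℓ hℓ
  have hv : 1 < A.valuation (jInv (curveBar W)) := one_lt_val_jInv_curveBar hΔ hℓ hℓΔ hℓc₄ hA
  obtain ⟨-, hpair⟩ := Fermat.Agent.S15.H215.veluModularPair p hp hp2 (curveBar W)
    (Δ_curveBar_ne_zero W hΔ) Q hQord
  obtain ⟨r', hr'⟩ := veluRational p W Q hQfix
  obtain ⟨P, hP1, hP2⟩ := Fermat.Agent.S15.H602.placeOfModularPairStatement p hp _ _ hpair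
  have huniq : ∀ P' : Place (AlgebraicClosure ℚ) (modularFunctionFieldBar p),
      HasValueAt P' (jBar p) (jInv (curveBar W)) →
      HasValueAt P' (jNBar p) (jInv (veluCurve (curveBar W) Q p)) → P' = P :=
    fun P' h1 h2 => place_unique_of_one_lt_val p hp A.valuation hv h1 h2 hP1 hP2
  refine ⟨P, ?_, hP1, hP2, huniq⟩
  intro σ
  apply huniq
  · have hj := jInv_curveBar W
    rw [hj] at hP1 ⊢
    exact hasValueAt_smul_of_rational σ P (jBar p) jq rfl _ hP1
  · rw [← hr'] at hP2 ⊢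
    exact hasValueAt_smul_of_rational σ P (jNBar p) (qExpand ℚ p jq) rfl _ hP2

/-- `[(P) - (P₀)] + [(P₀) - (∞)] = [(P) - (∞)]`. -/
theorem isDiffClass_add {N : ℕ} [NeZero N]
    {P P₀ Pi : Place (AlgebraicClosure ℚ) (modularFunctionFieldBar N)} {D c : JZero N}
    (hD : Fermat.Agent.S15.Core.IsDiffClass P P₀ D)
    (hc : Fermat.Agent.S15.Core.IsDiffClass P₀ Pi c) :
    Fermat.Agent.S15.Core.IsDiffClass P Pi (D + c) := by
  obtain ⟨h1, rfl⟩ := hD
  obtain ⟨h2, rfl⟩ := hc
  have h3 : (Finsupp.single P (1 : ℤ) - Finsupp.single Pi (1 : ℤ) :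
      Divisor (AlgebraicClosure ℚ) (modularFunctionFieldBar N)) ∈
        Divisor.degZero (K := AlgebraicClosure ℚ) (F := modularFunctionFieldBar N) := by
    have := (Divisor.degZero (K := AlgebraicClosure ℚ) (F := modularFunctionFieldBar N)).add_mem
      h1 h2
    simpa using this
  refine ⟨h3, ?_⟩
  rw [← Pic0.mk_add]
  congr 1
  apply Subtype.ext
  simp

/-- **The datum `D` of the node GEO**, with its residue discs. -/
theorem exists_geoClass (p : ℕ) [NeZero p] (hp : p.Prime) (hp5 : 5 < p)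
    (W : WeierstrassCurve ℤ) (hΔ : W.Δ ≠ 0) (Q : (curveBar W).toAffine.Point)
    (hQfix : ∀ σ : AlgebraicClosure ℚ ≃ₐ[ℚ] AlgebraicClosure ℚ, σ • Q = Q)
    (hQord : addOrderOf Q = p)
    (P₀ : Place (AlgebraicClosure ℚ) (modularFunctionFieldBar p))
    (hP₀ : Fermat.Agent.S15.Core.IsCuspZero p P₀) :
    ∃ D : JZero p, (∀ σ : AlgebraicClosure ℚ ≃ₐ[ℚ] AlgebraicClosure ℚ, σ • D = D) ∧
      ∀ q : ℕ, q.Prime → q ≠ p → (q : ℤ) ∣ W.Δ → ¬ (q : ℤ) ∣ W.c₄ →
      ∀ A : ValuationSubring (AlgebraicClosure ℚ), A.LiesOverPrime q →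
      ∃ P : Place (AlgebraicClosure ℚ) (modularFunctionFieldBar p),
        Fermat.Agent.S15.Core.IsDiffClass P P₀ D ∧
        HasValueAt P (jBar p) (jInv (curveBar W)) ∧
        HasValueAt P (jNBar p) (jInv (veluCurve (curveBar W) Q p)) ∧
        1 < A.valuation (jInv (curveBar W)) ∧
        (¬ W.InZeroComponentAt A Q →
          A.valuation (jInv (veluCurve (curveBar W) Q p)) ^ p =
            A.valuation (jInv (curveBar W))) ∧
        (W.InZeroComponentAt A Q →
          A.valuation (jInv (veluCurve (curveBar W) Q p)) =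
            A.valuation (jInv (curveBar W)) ^ p) := by
  have hp2 : p ≠ 2 := by omega
  by_cases hex : ∃ ℓ : ℕ, ℓ.Prime ∧ (ℓ : ℤ) ∣ W.Δ ∧ ¬ (ℓ : ℤ) ∣ W.c₄
  · obtain ⟨ℓ, hℓ, hℓΔ, hℓc₄⟩ := hex
    obtain ⟨P, hPfix, hP1, hP2, -⟩ :=
      moduliPlace_of_mult p hp hp2 W hΔ Q hQfix hQord hℓ hℓΔ hℓc₄
    have hP₀eq : P₀ = Fermat.Agent.S15.H362.cuspZero p :=
      Fermat.Agent.S15.H482.IsCuspZero.eq_cuspZero p hp hP₀
    have hdeg : P.deg = P₀.deg := by
      rw [Fermat.Agent.Lib.FF398.deg_eq_one_FF p P, Fermat.Agent.Lib.FF398.deg_eq_one_FF p P₀]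
    refine ⟨ptClass P P₀ hdeg, ?_, ?_⟩
    · intro σ
      refine galois_smul_ptClass_eq_self (modularFunctionFieldFull p) σ hdeg (hPfix σ) ?_
      rw [hP₀eq]
      exact Fermat.Agent.S15.H362.galois_smul_cuspZero p σ
    · intro q hq hqp hqΔ hqc₄ A hA
      exact ⟨P, ⟨single_sub_single_mem_degZero hdeg, rfl⟩, hP1, hP2,
        one_lt_val_jInv_curveBar hΔ hq hqΔ hqc₄ hA,
        fun hQ0 => val_jInv_velu_of_not_inZeroComponentAt hp hp5 hΔ hQord hq hqp hqΔ hqc₄ hA hQ0,
        fun hQ0 => val_jInv_velu_of_inZeroComponentAt hp hp5 hΔ hQord hq hqp hqΔ hqc₄ hA hQ0⟩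
  · refine ⟨0, fun σ => smul_zero (A := JZero p) σ, ?_⟩
    intro q hq _ hqΔ hqc₄
    exact absurd ⟨q, hq, hqΔ, hqc₄⟩ hex

end Fermat.Agent.S15.H542

end
end
-- ===== PACK-END S15/H542/GeoD.lean

-- ===== PACK-BEGIN S15/H542/GeoDisc.lean
section




/-!
# S15, node GEO-PARTS, leaf (c) = DISC (helper542), on helper962's frozen `discK`

* `geoDisc` : for every `W` (`Δ ≠ 0`), Galois-fixed `Q` of prime order `p > 5`, cusp `0` `P₀` and
  `c = [(P₀) - (∞)]` there is a Galois-fixed `D ∈ J₀(p)` with, at every multiplicative place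
  `A ∣ q ≠ p`:  `Q ∉ E⁰(A) → D ∈ discK p A P₀`  and  `Q ∈ E⁰(A) → D + c ∈ discK p A P₀`.
* `geoParts_of_pieces` : `GeoPartsStatement p` from (a) `PropagationStatement p` and, at each
  multiplicative place, a specialisation map injective on prime-to-`q` torsion which kills
  `discK` ((b) + GE-2 (i)).
* `geoStatement_of_pieces` : the node `Core.GeoStatement p` from the same.
-/

set_option autoImplicit false

noncomputable section

open WeierstrassCurve AlgebraicCurve ModularCurve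
open scoped WeierstrassCurve.Affine

namespace Fermat.Agent.S15.H542

open Fermat.Agent.S15.Core Fermat.Agent.S15.H962

/-- **GEO-PARTS (c), DISC.** -/
theorem geoDisc (p : ℕ) [NeZero p] (hp : p.Prime) (hp5 : 5 < p)
    (W : WeierstrassCurve ℤ) (hΔ : W.Δ ≠ 0)
    (Q : ((W.map (Int.castRingHom ℚ))⁄(AlgebraicClosure ℚ)).Point)
    (hQfix : ∀ σ : AlgebraicClosure ℚ ≃ₐ[ℚ] AlgebraicClosure ℚ, σ • Q = Q)
    (hQord : addOrderOf Q = p)
    (P₀ : Place (AlgebraicClosure ℚ) (modularFunctionFieldBar p)) (c : JZero p)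
    (hP₀ : IsCuspZero p P₀) (hc : IsDiffClass P₀ (cuspInfty p) c) :
    ∃ D : JZero p, (∀ σ : AlgebraicClosure ℚ ≃ₐ[ℚ] AlgebraicClosure ℚ, σ • D = D) ∧
      ∀ q : ℕ, q.Prime → q ≠ p → (q : ℤ) ∣ W.Δ → ¬ (q : ℤ) ∣ W.c₄ →
      ∀ A : ValuationSubring (AlgebraicClosure ℚ), A.LiesOverPrime q →
        (¬ W.InZeroComponentAt A Q → D ∈ discK p A P₀) ∧
        (W.InZeroComponentAt A Q → D + c ∈ discK p A P₀) := by
  obtain ⟨D, hDfix, hD⟩ := exists_geoClass p hp hp5 W hΔ Q hQfix hQord P₀ hP₀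
  refine ⟨D, hDfix, fun q hq hqp hqΔ hqc₄ A hA => ?_⟩
  obtain ⟨P, hPD, hP1, hP2, hv, h0, hInf⟩ := hD q hq hqp hqΔ hqc₄ A hA
  constructor
  · intro hQ0
    exact mem_discK_of_inDiscZero ⟨_, _, hP1, hP2, hv, h0 hQ0⟩ hPD
  · intro hQ0
    exact mem_discK_of_inDiscInfty ⟨_, _, hP1, hP2, hv, hInf hQ0⟩ (isDiffClass_add hPD hc)

/-- **GEO-PARTS from (a) PROPAGATION and (b) IDENT + GE-2 (i)** ((c) DISC is `geoDisc`). -/
theorem geoParts_of_pieces (p : ℕ) [NeZero p] (hp : p.Prime) (hp5 : 5 < p)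
    (hprop : PropagationStatement p)
    (hsp : ∀ q : ℕ, q.Prime → q ≠ p →
      ∀ A : ValuationSubring (AlgebraicClosure ℚ), A.LiesOverPrime q →
      ∀ P₀ : Place (AlgebraicClosure ℚ) (modularFunctionFieldBar p), IsCuspZero p P₀ →
      ∃ (X : Type) (_ : AddCommGroup X) (sp₀ : JZero p →+ X),
        (∀ (m : ℕ) (z : JZero p), ¬ q ∣ m → m • z = 0 → sp₀ z = 0 → z = 0) ∧
        KilledBy p A P₀ sp₀) :
    GeoPartsStatement p := by
  intro W hΔ Q hQfix hQord P₀ c hP₀ hc
  obtain ⟨D, hDfix, hD⟩ := geoDisc p hp hp5 W hΔ Q hQfix hQord P₀ c hP₀ hc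
  refine ⟨D, hDfix, fun q hq hqp hqΔ hqc₄ A hA => ?_⟩
  obtain ⟨X, instX, sp₀, hinj, hkill⟩ := hsp q hq hqp A hA P₀ hP₀
  obtain ⟨h0, hInf⟩ := hD q hq hqp hqΔ hqc₄ A hA
  exact ⟨X, instX, sp₀, discK p A P₀, hinj,
    goodHecke_stable_of_propagation p hprop hp A P₀ hP₀ {q}, hkill, h0, hInf⟩

/-- **The node GEO from (a) and (b) + GE-2 (i).** -/
theorem geoStatement_of_pieces (p : ℕ) [NeZero p] (hp : p.Prime) (hp5 : 5 < p)
    (hprop : PropagationStatement p)
    (hsp : ∀ q : ℕ, q.Prime → q ≠ p →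
      ∀ A : ValuationSubring (AlgebraicClosure ℚ), A.LiesOverPrime q →
      ∀ P₀ : Place (AlgebraicClosure ℚ) (modularFunctionFieldBar p), IsCuspZero p P₀ →
      ∃ (X : Type) (_ : AddCommGroup X) (sp₀ : JZero p →+ X),
        (∀ (m : ℕ) (z : JZero p), ¬ q ∣ m → m • z = 0 → sp₀ z = 0 → z = 0) ∧
        KilledBy p A P₀ sp₀) :
    _root_.Fermat.Agent.S15.Core.GeoStatement p :=
  geoStatement_of_geoParts p (geoParts_of_pieces p hp hp5 hprop hsp)

end Fermat.Agent.S15.H542

end
end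
-- ===== PACK-END S15/H542/GeoDisc.lean

-- ===== PACK-BEGIN S12/H291/GeoSubParts.lean
section



/-!
# Node GEO-PARTS of row S15 for Galois-STABLE subgroups (helper291, for row S12)

`GeoPartsSubStatement p` is `S15.H962.GeoPartsStatement p` with "`Q` Galois-fixed" weakened to
"`⟨Q⟩` Galois-stable".  It implies BOTH

* `S15.H962.GeoPartsStatement p` (hence `S15.Core.GeoStatement p`, row S15), and
* `S12.H111.GeoSubStatement p` (row S12, one-step route).

The moduli place in subgroup form is `S12.H291.moduliPlaceSub` (`ModSub.lean`); all other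
GEO-PARTS leaves (DISC, PROP, IDENT) are local or formal and do not use that `Q` is fixed.
-/

set_option autoImplicit false

noncomputable section

open AlgebraicCurve ModularCurve WeierstrassCurve WeierstrassCurve.Affine

namespace Fermat.Agent.S12.H291

open Fermat.Agent.S15.Core Fermat.Agent.S15.H962 Fermat.Agent.S12.H111

variable (p : ℕ) [NeZero p]

/-- **GEO-PARTS, subgroup form.** -/
def GeoPartsSubStatement : Prop :=
  ∀ (W : WeierstrassCurve ℤ), W.Δ ≠ 0 →
  ∀ (Q : ((W.map (Int.castRingHom ℚ))⁄(AlgebraicClosure ℚ)).Point),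
    (∀ σ : AlgebraicClosure ℚ ≃ₐ[ℚ] AlgebraicClosure ℚ, σ • Q ∈ AddSubgroup.zmultiples Q) →
    addOrderOf Q = p →
  ∀ (P₀ : Place (AlgebraicClosure ℚ) (modularFunctionFieldBar p)) (c : JZero p),
    IsCuspZero p P₀ → IsDiffClass P₀ (cuspInfty p) c →
  ∃ D : JZero p, (∀ σ : AlgebraicClosure ℚ ≃ₐ[ℚ] AlgebraicClosure ℚ, σ • D = D) ∧
    ∀ q : ℕ, q.Prime → q ≠ p → (q : ℤ) ∣ W.Δ → ¬ (q : ℤ) ∣ W.c₄ →
    ∀ A : ValuationSubring (AlgebraicClosure ℚ), A.LiesOverPrime q →
    ∃ (X : Type) (_ : AddCommGroup X) (sp₀ : JZero p →+ X) (K : AddSubgroup (JZero p)),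
      (∀ (m : ℕ) (z : JZero p), ¬ q ∣ m → m • z = 0 → sp₀ z = 0 → z = 0) ∧
      (∀ T ∈ goodHecke p {q}, ∀ z ∈ K, T z ∈ K) ∧
      (∀ z ∈ K, sp₀ z = 0) ∧
      (¬ W.InZeroComponentAt A Q → D ∈ K) ∧
      (W.InZeroComponentAt A Q → D + c ∈ K)

variable {p}

/-- The subgroup form implies the point form of GEO-PARTS (row S15). -/
theorem geoParts_of_geoPartsSub (h : GeoPartsSubStatement p) : GeoPartsStatement p := by
  intro W hΔ Q hQfix hQord P₀ c hP₀ hc
  refine h W hΔ Q (fun σ => ?_) hQord P₀ c hP₀ hc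
  rw [hQfix σ]
  exact AddSubgroup.mem_zmultiples Q

/-- **GEO (subgroup form) from GEO-PARTS (subgroup form)** (formal; row S12). -/
theorem geoSub_of_geoPartsSub (h : GeoPartsSubStatement p) : GeoSubStatement p := by
  intro W hΔ Q hQstab hQord P₀ c hP₀ hc
  obtain ⟨D, hDfix, hD⟩ := h W hΔ Q hQstab hQord P₀ c hP₀ hc
  refine ⟨D, hDfix, ?_⟩
  intro q hq hqp hqΔ hqc₄ A hA
  obtain ⟨X, instX, sp₀, K, hinj, hK, hsp, hD₀, hDinf⟩ := hD q hq hqp hqΔ hqc₄ A hA
  exact ⟨heckeWords p q → X, inferInstance, iterSp q sp₀, iterSp_inj hinj,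
    fun T hT z hz => iterSp_hecke sp₀ T hT z hz,
    fun hQ => iterSp_eq_zero_of_mem K hK hsp (hD₀ hQ),
    fun hQ => iterSp_eq_zero_of_mem K hK hsp (hDinf hQ)⟩

end Fermat.Agent.S12.H291

end
end
-- ===== PACK-END S12/H291/GeoSubParts.lean

-- ===== PACK-BEGIN S15/H542/GeoDiscSub.lean
section




/-!
# S15 / S12, node GEO-PARTS, leaf (c) = DISC in SUBGROUP form (helper542)

The same as `GeoD.lean` / `GeoDisc.lean`, with "`Q` Galois-fixed" weakened to "`⟨Q⟩`
Galois-stable" (helper291's form, consumed by rows S15 AND S12):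

* `moduliPlaceSub_of_mult`, `exists_geoClassSub`, `geoDiscSub`;
* `geoPartsSub_of_pieces` : `S12.H291.GeoPartsSubStatement p` from (a) `PropagationStatement p`
  and (b) + GE-2 (i) (a specialisation map injective on prime-to-`q` torsion killing `discK`).
-/

set_option autoImplicit false

noncomputable section

open WeierstrassCurve AlgebraicCurve ModularCurve
open scoped WeierstrassCurve.Affine

namespace Fermat.Agent.S15.H542

open Fermat.Agent.S15.H782 Fermat.Agent.S15.H602 Fermat.Agent.S15.Core Fermat.Agent.S15.H962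

/-- **MOD at an arbitrary multiplicative prime, subgroup form.** -/
theorem moduliPlaceSub_of_mult (p : ℕ) [NeZero p] (hp : p.Prime) (hp2 : p ≠ 2)
    (W : WeierstrassCurve ℤ) (hΔ : W.Δ ≠ 0) (Q : (curveBar W).toAffine.Point)
    (hQstab : ∀ σ : AlgebraicClosure ℚ ≃ₐ[ℚ] AlgebraicClosure ℚ,
      σ • Q ∈ AddSubgroup.zmultiples Q)
    (hQord : addOrderOf Q = p)
    {ℓ : ℕ} (hℓ : ℓ.Prime) (hℓΔ : (ℓ : ℤ) ∣ W.Δ) (hℓc₄ : ¬ (ℓ : ℤ) ∣ W.c₄) :
    ∃ P : Place (AlgebraicClosure ℚ) (modularFunctionFieldBar p),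
      IsGaloisFixedPlace P ∧
      HasValueAt P (_root_.Fermat.Agent.S15.H542.jBar p) (jInv (curveBar W)) ∧
      HasValueAt P (jNBar p) (jInv (veluCurve (curveBar W) Q p)) ∧
      ∀ P' : Place (AlgebraicClosure ℚ) (modularFunctionFieldBar p),
        HasValueAt P' (_root_.Fermat.Agent.S15.H542.jBar p) (jInv (curveBar W)) →
        HasValueAt P' (jNBar p) (jInv (veluCurve (curveBar W) Q p)) → P' = P := by
  obtain ⟨A, hA⟩ := Fermat.Agent.S54.exists_valuationSubring_liesOver ℓ hℓ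
  have hv : 1 < A.valuation (jInv (curveBar W)) := one_lt_val_jInv_curveBar hΔ hℓ hℓΔ hℓc₄ hA
  obtain ⟨-, hpair⟩ := Fermat.Agent.S15.H215.veluModularPair p hp hp2 (curveBar W)
    (Δ_curveBar_ne_zero W hΔ) Q hQord
  obtain ⟨r', hr'⟩ := Fermat.Agent.S12.H291.veluRationalSub hp hp2 W Q hQord hQstab
  obtain ⟨P, hP1, hP2⟩ := Fermat.Agent.S15.H602.placeOfModularPairStatement p hp _ _ hpair
  have huniq : ∀ P' : Place (AlgebraicClosure ℚ) (modularFunctionFieldBar p),
      HasValueAt P' (_root_.Fermat.Agent.S15.H542.jBar p) (jInv (curveBar W)) →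
      HasValueAt P' (jNBar p) (jInv (veluCurve (curveBar W) Q p)) → P' = P :=
    fun P' h1 h2 => place_unique_of_one_lt_val p hp A.valuation hv h1 h2 hP1 hP2
  refine ⟨P, ?_, hP1, hP2, huniq⟩
  intro σ
  apply huniq
  · have hj := jInv_curveBar W
    rw [hj] at hP1 ⊢
    exact hasValueAt_smul_of_rational σ P (_root_.Fermat.Agent.S15.H542.jBar p) jq rfl _ hP1
  · rw [← hr'] at hP2 ⊢
    exact hasValueAt_smul_of_rational σ P (jNBar p) (qExpand ℚ p jq) rfl _ hP2

/-- **The datum `D` of the node GEO**, subgroup form. -/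
theorem exists_geoClassSub (p : ℕ) [NeZero p] (hp : p.Prime) (hp5 : 5 < p)
    (W : WeierstrassCurve ℤ) (hΔ : W.Δ ≠ 0) (Q : (curveBar W).toAffine.Point)
    (hQstab : ∀ σ : AlgebraicClosure ℚ ≃ₐ[ℚ] AlgebraicClosure ℚ,
      σ • Q ∈ AddSubgroup.zmultiples Q)
    (hQord : addOrderOf Q = p)
    (P₀ : Place (AlgebraicClosure ℚ) (modularFunctionFieldBar p))
    (hP₀ : Fermat.Agent.S15.Core.IsCuspZero p P₀) :
    ∃ D : JZero p, (∀ σ : AlgebraicClosure ℚ ≃ₐ[ℚ] AlgebraicClosure ℚ, σ • D = D) ∧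
      ∀ q : ℕ, q.Prime → q ≠ p → (q : ℤ) ∣ W.Δ → ¬ (q : ℤ) ∣ W.c₄ →
      ∀ A : ValuationSubring (AlgebraicClosure ℚ), A.LiesOverPrime q →
      ∃ P : Place (AlgebraicClosure ℚ) (modularFunctionFieldBar p),
        Fermat.Agent.S15.Core.IsDiffClass P P₀ D ∧
        HasValueAt P (_root_.Fermat.Agent.S15.H542.jBar p) (jInv (curveBar W)) ∧
        HasValueAt P (jNBar p) (jInv (veluCurve (curveBar W) Q p)) ∧
        1 < A.valuation (jInv (curveBar W)) ∧
        (¬ W.InZeroComponentAt A Q →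
          A.valuation (jInv (veluCurve (curveBar W) Q p)) ^ p =
            A.valuation (jInv (curveBar W))) ∧
        (W.InZeroComponentAt A Q →
          A.valuation (jInv (veluCurve (curveBar W) Q p)) =
            A.valuation (jInv (curveBar W)) ^ p) := by
  have hp2 : p ≠ 2 := by omega
  by_cases hex : ∃ ℓ : ℕ, ℓ.Prime ∧ (ℓ : ℤ) ∣ W.Δ ∧ ¬ (ℓ : ℤ) ∣ W.c₄
  · obtain ⟨ℓ, hℓ, hℓΔ, hℓc₄⟩ := hex
    obtain ⟨P, hPfix, hP1, hP2, -⟩ :=
      moduliPlaceSub_of_mult p hp hp2 W hΔ Q hQstab hQord hℓ hℓΔ hℓc₄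
    have hP₀eq : P₀ = Fermat.Agent.S15.H362.cuspZero p :=
      Fermat.Agent.S15.H482.IsCuspZero.eq_cuspZero p hp hP₀
    have hdeg : P.deg = P₀.deg := by
      rw [Fermat.Agent.Lib.FF398.deg_eq_one_FF p P, Fermat.Agent.Lib.FF398.deg_eq_one_FF p P₀]
    refine ⟨ptClass P P₀ hdeg, ?_, ?_⟩
    · intro σ
      refine galois_smul_ptClass_eq_self (modularFunctionFieldFull p) σ hdeg (hPfix σ) ?_
      rw [hP₀eq]
      exact Fermat.Agent.S15.H362.galois_smul_cuspZero p σ
    · intro q hq hqp hqΔ hqc₄ A hA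
      exact ⟨P, ⟨single_sub_single_mem_degZero hdeg, rfl⟩, hP1, hP2,
        one_lt_val_jInv_curveBar hΔ hq hqΔ hqc₄ hA,
        fun hQ0 => val_jInv_velu_of_not_inZeroComponentAt hp hp5 hΔ hQord hq hqp hqΔ hqc₄ hA hQ0,
        fun hQ0 => val_jInv_velu_of_inZeroComponentAt hp hp5 hΔ hQord hq hqp hqΔ hqc₄ hA hQ0⟩
  · refine ⟨0, fun σ => smul_zero (A := JZero p) σ, ?_⟩
    intro q hq _ hqΔ hqc₄
    exact absurd ⟨q, hq, hqΔ, hqc₄⟩ hex

/-- **GEO-PARTS (c), DISC, subgroup form.** -/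
theorem geoDiscSub (p : ℕ) [NeZero p] (hp : p.Prime) (hp5 : 5 < p)
    (W : WeierstrassCurve ℤ) (hΔ : W.Δ ≠ 0)
    (Q : ((W.map (Int.castRingHom ℚ))⁄(AlgebraicClosure ℚ)).Point)
    (hQstab : ∀ σ : AlgebraicClosure ℚ ≃ₐ[ℚ] AlgebraicClosure ℚ,
      σ • Q ∈ AddSubgroup.zmultiples Q)
    (hQord : addOrderOf Q = p)
    (P₀ : Place (AlgebraicClosure ℚ) (modularFunctionFieldBar p)) (c : JZero p)
    (hP₀ : IsCuspZero p P₀) (hc : IsDiffClass P₀ (cuspInfty p) c) :
    ∃ D : JZero p, (∀ σ : AlgebraicClosure ℚ ≃ₐ[ℚ] AlgebraicClosure ℚ, σ • D = D) ∧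
      ∀ q : ℕ, q.Prime → q ≠ p → (q : ℤ) ∣ W.Δ → ¬ (q : ℤ) ∣ W.c₄ →
      ∀ A : ValuationSubring (AlgebraicClosure ℚ), A.LiesOverPrime q →
        (¬ W.InZeroComponentAt A Q → D ∈ discK p A P₀) ∧
        (W.InZeroComponentAt A Q → D + c ∈ discK p A P₀) := by
  obtain ⟨D, hDfix, hD⟩ := exists_geoClassSub p hp hp5 W hΔ Q hQstab hQord P₀ hP₀
  refine ⟨D, hDfix, fun q hq hqp hqΔ hqc₄ A hA => ?_⟩
  obtain ⟨P, hPD, hP1, hP2, hv, h0, hInf⟩ := hD q hq hqp hqΔ hqc₄ A hA
  constructor
  · intro hQ0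
    exact mem_discK_of_inDiscZero ⟨_, _, hP1, hP2, hv, h0 hQ0⟩ hPD
  · intro hQ0
    exact mem_discK_of_inDiscInfty ⟨_, _, hP1, hP2, hv, hInf hQ0⟩ (isDiffClass_add hPD hc)

/-- **GEO-PARTS (subgroup form) from (a) PROPAGATION and (b) IDENT + GE-2 (i).** -/
theorem geoPartsSub_of_pieces (p : ℕ) [NeZero p] (hp : p.Prime) (hp5 : 5 < p)
    (hprop : PropagationStatement p)
    (hsp : ∀ q : ℕ, q.Prime → q ≠ p →
      ∀ A : ValuationSubring (AlgebraicClosure ℚ), A.LiesOverPrime q →
      ∀ P₀ : Place (AlgebraicClosure ℚ) (modularFunctionFieldBar p), IsCuspZero p P₀ →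
      ∃ (X : Type) (_ : AddCommGroup X) (sp₀ : JZero p →+ X),
        (∀ (m : ℕ) (z : JZero p), ¬ q ∣ m → m • z = 0 → sp₀ z = 0 → z = 0) ∧
        KilledBy p A P₀ sp₀) :
    Fermat.Agent.S12.H291.GeoPartsSubStatement p := by
  intro W hΔ Q hQstab hQord P₀ c hP₀ hc
  obtain ⟨D, hDfix, hD⟩ := geoDiscSub p hp hp5 W hΔ Q hQstab hQord P₀ c hP₀ hc
  refine ⟨D, hDfix, fun q hq hqp hqΔ hqc₄ A hA => ?_⟩
  obtain ⟨X, instX, sp₀, hinj, hkill⟩ := hsp q hq hqp A hA P₀ hP₀
  obtain ⟨h0, hInf⟩ := hD q hq hqp hqΔ hqc₄ A hA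
  exact ⟨X, instX, sp₀, discK p A P₀, hinj,
    goodHecke_stable_of_propagation p hprop hp A P₀ hP₀ {q}, hkill, h0, hInf⟩

/-- **The node GEO in subgroup form (row S12) from (a) and (b) + GE-2 (i).** -/
theorem geoSub_of_pieces (p : ℕ) [NeZero p] (hp : p.Prime) (hp5 : 5 < p)
    (hprop : PropagationStatement p)
    (hsp : ∀ q : ℕ, q.Prime → q ≠ p →
      ∀ A : ValuationSubring (AlgebraicClosure ℚ), A.LiesOverPrime q →
      ∀ P₀ : Place (AlgebraicClosure ℚ) (modularFunctionFieldBar p), IsCuspZero p P₀ →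
      ∃ (X : Type) (_ : AddCommGroup X) (sp₀ : JZero p →+ X),
        (∀ (m : ℕ) (z : JZero p), ¬ q ∣ m → m • z = 0 → sp₀ z = 0 → z = 0) ∧
        KilledBy p A P₀ sp₀) :
    Fermat.Agent.S12.H111.GeoSubStatement p :=
  Fermat.Agent.S12.H291.geoSub_of_geoPartsSub (geoPartsSub_of_pieces p hp hp5 hprop hsp)

end Fermat.Agent.S15.H542

end
end
-- ===== PACK-END S15/H542/GeoDiscSub.lean

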