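import Fermat.Statements.S17
import Fermat.Agent.Pack.L1.E8L1
import Fermat.Agent.Pack.L1.E8L0
import Fermat.Agent.Pack.L1.E7L0
import Fermat.Agent.Pack.L1.E4L3
import Fermat.Agent.Pack.S59C.E11L3
import Fermat.Agent.Pack.L1.E8L3
import Fermat.Agent.Pack.L1.E3L2
import Fermat.Agent.Pack.L1.E7L3
import Fermat.Agent.Pack.L1.E8L2
import Fermat.Agent.Pack.S43MC.G0E27L1
import Fermat.Agent.Pack.S44C.G0E25L3
import Fermat.Agent.Pack.L1.E6L2
import Fermat.Agent.Pack.L1.E4L1
import Fermat.Agent.Pack.L1.E5L2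
import Fermat.Agent.Pack.S43MC.G0E22L1
import Fermat.Agent.Pack.S44C.G0E3L1

-- ===== PACK-BEGIN S15/H975/DescTop3.lean
section



/-!
# Row S15: FINAL ASSEMBLY on the three-node TOP of helper915 (row-lead helper975)

    frozen S15  <==  Core.GeoStatement p  +  Mordell–Weil (frozen S17)  +  ALG0 + DIV + SEL

`Core.CuspStatement p` is on main (`H362.cuspStatement`, helper362); `Core.DescentStatement p` is
`H302.descentStatement_of_descCore` (helper302) applied to `descCoreAt_of_sel`.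
Everything is sorry-free; the nodes are hypotheses.
-/

set_option autoImplicit false

noncomputable section

open WeierstrassCurve WeierstrassCurve.Affine

namespace Fermat.Agent.S15.H975

open ModularCurve Fermat.Agent.S15

/-- **NODE DESC of the three-node TOP** from Mordell–Weil, ALG0, DIV and SEL. -/
theorem descentStatement_of_sel (hA : Alg0Statement) (hDiv : DivStatement)
    (hSel : SelStatement) {p : ℕ} [NeZero p] (hp : p.Prime)
    (hp' : p ∉ ({2, 3, 5, 7, 13} : Finset ℕ))
    (hMW : AddGroup.FG ↥(FixedPoints.addSubgroup _root_.Fermat.Agent.S15.H975.Gal (JZero p))) :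
    Core.DescentStatement p := by
  refine H302.descentStatement_of_descCore p hMW fun S => ?_
  have h1 : eisensteinNumerator p ≠ 1 := (H362.one_lt_eisensteinNumerator hp hp').ne'
  obtain ⟨r, hr, hrn⟩ := Nat.exists_prime_and_dvd h1
  exact ⟨r, hr, hrn, descCoreAt_of_sel hA hDiv hSel p hp hMW S r hr
    (hrn.trans (eisensteinNumerator_dvd p))⟩

/-- **The frozen statement S15** from `Core.GeoStatement`, Mordell–Weil and the DESC nodes. -/
theorem S15_of_geo_sel
    (hGeo : ∀ (p : ℕ) [NeZero p], p.Prime → p ∉ ({2, 3, 5, 7, 13} : Finset ℕ) →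
      Core.GeoStatement p)
    (hMW : ∀ (p : ℕ) [NeZero p], p.Prime → 5 ≤ p →
      AddGroup.FG ↥(FixedPoints.addSubgroup _root_.Fermat.Agent.S15.H975.Gal (JZero p)))
    (hA : Alg0Statement) (hDiv : DivStatement) (hSel : SelStatement)
    {p : ℕ} (hp : p.Prime) (hp' : p ∉ ({2, 3, 5, 7, 13} : Finset ℕ))
    (W : WeierstrassCurve ℤ) (hΔ : W.Δ ≠ 0)
    (Q : ((W.map (Int.castRingHom ℚ))⁄(AlgebraicClosure ℚ)).Point)
    (hQfix : ∀ σ : AlgebraicClosure ℚ ≃ₐ[ℚ] AlgebraicClosure ℚ, σ • Q = Q)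
    (hQord : addOrderOf Q = p)
    (h2Δ : (2 : ℤ) ∣ W.Δ) (h2c₄ : ¬ (2 : ℤ) ∣ W.c₄)
    (h2 : ∀ A : ValuationSubring (AlgebraicClosure ℚ), A.LiesOverPrime 2 →
      ¬ W.InZeroComponentAt A Q)
    (h3Δ : (3 : ℤ) ∣ W.Δ) (h3c₄ : ¬ (3 : ℤ) ∣ W.c₄)
    (h3 : ∀ A : ValuationSubring (AlgebraicClosure ℚ), A.LiesOverPrime 3 →
      ¬ W.InZeroComponentAt A Q)
    {ℓ : ℕ} (hℓ : ℓ.Prime) (hℓp : ℓ ≠ p) (hℓΔ : (ℓ : ℤ) ∣ W.Δ) (hℓc₄ : ¬ (ℓ : ℤ) ∣ W.c₄)
    (A : ValuationSubring (AlgebraicClosure ℚ)) (hA' : A.LiesOverPrime ℓ) :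
    ¬ W.InZeroComponentAt A Q := by
  haveI : NeZero p := ⟨hp.ne_zero⟩
  exact Core.s15_of_nodes hp hp' (H362.cuspStatement p hp) (hGeo p hp hp')
    (descentStatement_of_sel hA hDiv hSel hp hp' (hMW p hp (five_le_of_notMem hp hp')))
    W hΔ Q hQfix hQord h2Δ h2c₄ h2 h3Δ h3c₄ h3 hℓ hℓp hℓΔ hℓc₄ A hA'

end Fermat.Agent.S15.H975

end

end
-- ===== PACK-END S15/H975/DescTop3.lean

-- ===== PACK-BEGIN S17/H17/Top.lean
section






/-!
# S17 (row-lead helper17): the frozen statement from tower H alone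

`result_of_height` : the frozen statement S17 from `HasDescentHeight N 2`.
Towers W (BASE-1 `H77`, W-KUM `H857`, W-UNR `H677` unconditional via the S18 hub, W-HM `H497`)
and G (G-TORS `H317`, G-DIV `GDiv.divisible`) are on main and wired here.
-/

set_option autoImplicit false

noncomputable section

namespace Fermat.Agent.S17.H17

open ModularCurve AlgebraicCurve

/-- **S17 from a descent height.** -/
theorem result_of_height (N : ℕ) [NeZero N] (hN : N.Prime) (hN5 : 5 ≤ N)
    (hH : HasDescentHeight N 2) :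
    AddGroup.FG ↥(FixedPoints.addSubgroup ((AlgebraicClosure ℚ) ≃ₐ[ℚ] (AlgebraicClosure ℚ))
      (JZero N)) := by
  classical
  refine result_of_unr N 2 le_rfl (Fermat.Agent.S17.H317.torsion_finite N 2 two_ne_zero)
    (fun x => Fermat.Agent.S17.GDiv.divisible N 2 two_ne_zero x)
    ((2 * N).primeFactors) ?_
    (fun d => Fermat.Agent.S17.H497.finite_unramified_fields _ d) hH
  intro ℓ hℓ hℓS A hA σ hσ y hy
  refine Fermat.Agent.S17.H677.unramified_division N hN hN5 2 two_ne_zero ℓ hℓ ?_ A hA σ hσ y hy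
  intro hdvd
  exact hℓS (Nat.mem_primeFactors.mpr ⟨hℓ, hdvd, mul_ne_zero two_ne_zero hN.ne_zero⟩)

end Fermat.Agent.S17.H17

end
end
-- ===== PACK-END S17/H17/Top.lean

-- ===== PACK-BEGIN S17.lean
section




set_option autoImplicit false
open ModularCurve AlgebraicCurve
open ModularCurve ModularCurve.JZero

namespace Fermat.Agent.S17

theorem result (N : ℕ) [NeZero N] (hN : N.Prime) (hN5 : 5 ≤ N) :
    AddGroup.FG ↥(FixedPoints.addSubgroup ((AlgebraicClosure ℚ) ≃ₐ[ℚ] (AlgebraicClosure ℚ)) (JZero N)) :=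
  Fermat.Agent.S17.H17.result_of_height N hN hN5 (Fermat.Agent.S17.H497.hasDescentHeight497 N)

end Fermat.Agent.S17

end
-- ===== PACK-END S17.lean

-- ===== PACK-BEGIN S15/H975/Final.lean
section








/-!
# Row S15: the FINAL CHAIN with every landed node plugged in (row-lead helper975)

    frozen S15  <==  Core.GeoStatement p  +  FLAG  +  COUNT  +  STEP  +  PROJ

Plugged in from main: Mordell–Weil (`S17.result`), DIV (`S17.GDiv.divisible`), ALG0
(`H302.alg0`), FIN (`finStatement`), RTF (`H808.rtfStatement_of_mw`), T6'' (`H608`),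
Hecke–Galois (`S29.H571.heckeOperatorBar_smul`), the route-208 consumer
(`H466.selBound_of_nodes208`), CUSP (`H362.cuspStatement`), the three-node TOP
(`Core.s15_of_nodes`) and `H302.descentStatement_of_descCore`.
-/

set_option autoImplicit false

noncomputable section

open WeierstrassCurve WeierstrassCurve.Affine

namespace Fermat.Agent.S15.H975

open ModularCurve Fermat.Agent.S15

/-- Mordell–Weil (frozen S17, on main). -/
theorem mordellWeil (p : ℕ) [NeZero p] (hp : p.Prime) (hp5 : 5 ≤ p) :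
    AddGroup.FG ↥(FixedPoints.addSubgroup _root_.Fermat.Agent.S15.H975.Gal (JZero p)) :=
  Fermat.Agent.S17.result p hp hp5

/-- **DIV** (row S17, helper797). -/
theorem divStatement : DivStatement := fun p _ _ r hr x =>
  Fermat.Agent.S17.GDiv.divisible p r hr.ne_zero x

/-- **RTF** (helper808, from Mordell–Weil). -/
theorem rtfStatement : RtfStatement :=
  Fermat.Agent.S15.H808.rtfStatement_of_mw fun N _ hN hN5 => Fermat.Agent.S17.result N hN hN5

/-- Hecke–Galois equivariance (helper571). -/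
theorem heckeGalStatement : Fermat.Agent.S15.H466.HeckeGalStatement := fun p _ ℓ σ x =>
  Fermat.Agent.S29.H571.heckeOperatorBar_smul p ℓ σ x

/-- **T6''** at all prime levels (helper608; levels `2`, `3` are trivial). -/
theorem t6ppAllStatement : Fermat.Agent.S15.H466.T6ppAllStatement := by
  intro p _ hp r hr hrp k
  rcases Nat.lt_or_ge p 5 with h5 | h5
  · have h2 := hp.two_le
    have hp' : p = 2 ∨ p = 3 := by
      rcases (show p = 2 ∨ p = 3 ∨ p = 4 by omega) with h | h | h
      · exact Or.inl h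
      · exact Or.inr h
      · subst h
        exact absurd hp (by decide)
    rcases hp' with rfl | rfl
    · exfalso
      have h1 : r ∣ 1 := hrp
      exact hr.one_lt.ne' (Nat.dvd_one.mp h1)
    · intro P _ τ _ x _
      haveI := Fermat.Agent.S15.H808.subsingleton_jZero_three
      exact Subsingleton.elim _ _
  · have hrp' : r ≠ p := by
      rintro rfl
      have h1 := Nat.le_of_dvd (by omega) hrp
      omega
    exact Fermat.Agent.S15.H608.t6ppStatement_prime p r hp h5 hr hrp' k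

/-- LOCAL on route 208 from COUNT and STEP. -/
theorem local208_of_count_step (hCount : CountStatement) (hStep : StepStatement) :
    Fermat.Agent.S15.H466.Local208Statement := by
  intro p _ hp S r hr hrp
  obtain ⟨A, hA, τ₀, hτ, hstep⟩ := hStep p hp S r hr hrp
  exact ⟨A, τ₀, cocImage p (S : Set ℕ) r complexConjugation, hA, hτ,
    cocImage_le p (S : Set ℕ) r complexConjugation, hCount p hp S r hr hrp, hstep⟩

/-- **SEL** from the open nodes. -/
theorem selStatement_of_open (hFlag : FlagStatement) (hCount : CountStatement)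
    (hStep : StepStatement) (hProj : Fermat.Agent.S15.H466.ProjStatement) : SelStatement :=
  fun p _ hp S r hr hrp =>
    Fermat.Agent.S15.H466.selBound_of_nodes208 divStatement finStatement rtfStatement hFlag
      (local208_of_count_step hCount hStep) t6ppAllStatement heckeGalStatement hProj
      p hp S r hr hrp

/-- **The frozen statement S15 from the open nodes.** -/
theorem S15_of_open
    (hGeo : ∀ (p : ℕ) [NeZero p], p.Prime → p ∉ ({2, 3, 5, 7, 13} : Finset ℕ) →
      Core.GeoStatement p)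
    (hFlag : FlagStatement) (hCount : CountStatement) (hStep : StepStatement)
    (hProj : Fermat.Agent.S15.H466.ProjStatement)
    {p : ℕ} (hp : p.Prime) (hp' : p ∉ ({2, 3, 5, 7, 13} : Finset ℕ))
    (W : WeierstrassCurve ℤ) (hΔ : W.Δ ≠ 0)
    (Q : ((W.map (Int.castRingHom ℚ))⁄(AlgebraicClosure ℚ)).Point)
    (hQfix : ∀ σ : AlgebraicClosure ℚ ≃ₐ[ℚ] AlgebraicClosure ℚ, σ • Q = Q)
    (hQord : addOrderOf Q = p)
    (h2Δ : (2 : ℤ) ∣ W.Δ) (h2c₄ : ¬ (2 : ℤ) ∣ W.c₄)
    (h2 : ∀ A : ValuationSubring (AlgebraicClosure ℚ), A.LiesOverPrime 2 →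
      ¬ W.InZeroComponentAt A Q)
    (h3Δ : (3 : ℤ) ∣ W.Δ) (h3c₄ : ¬ (3 : ℤ) ∣ W.c₄)
    (h3 : ∀ A : ValuationSubring (AlgebraicClosure ℚ), A.LiesOverPrime 3 →
      ¬ W.InZeroComponentAt A Q)
    {ℓ : ℕ} (hℓ : ℓ.Prime) (hℓp : ℓ ≠ p) (hℓΔ : (ℓ : ℤ) ∣ W.Δ) (hℓc₄ : ¬ (ℓ : ℤ) ∣ W.c₄)
    (A : ValuationSubring (AlgebraicClosure ℚ)) (hA' : A.LiesOverPrime ℓ) :
    ¬ W.InZeroComponentAt A Q :=
  S15_of_geo_sel hGeo (fun p _ hp hp5 => mordellWeil p hp hp5) Fermat.Agent.S15.H302.alg0
    divStatement (selStatement_of_open hFlag hCount hStep hProj)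
    hp hp' W hΔ Q hQfix hQord h2Δ h2c₄ h2 h3Δ h3c₄ h3 hℓ hℓp hℓΔ hℓc₄ A hA'

end Fermat.Agent.S15.H975

end

end
-- ===== PACK-END S15/H975/Final.lean

-- ===== PACK-BEGIN S15/H182/Red.lean
section



/-!
# Row S15, node RED / GE-2 (helper182): the specialisation maps `sp₀` with property (i)

`GeoPartsStatement` (`S15/H962/IterRed.lean`) asks, at every multiplicative prime `q ≠ p` and every
valuation subring `A ∣ q`, for an additive map `sp₀` out of `J₀(p)` which is injective on torsion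
of order prime to `q`.  The concrete maps are (any level `N`, `q ∤ N`):

* `q ≥ 5`          : `reductionModL A N`                         (`sp_inj_of_five_le`);
* `q = 3`, `2 ∤ N` : `spThree = reductionModL A (N * 2) ∘ π^*`   (`spThree_inj`);
* `q = 2`, `3 ∤ N` : `spTwo   = reductionModL A (N * 3) ∘ π^*`   (`spTwo_inj`),

where `π^* = pullbackPic0Along (heckeAlphaBar Qb N a)` is `H818.TransferInputs.pullback`.
Everything is UNCONDITIONAL: frozen S18 (`Fermat.Agent.S18.result`, via `S37.Core.s18Statement`),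
node_rim (`S37.Core.rimStatement`), node_pull (`S37.H818`).  Also exported: the reduction inputs
`ReductionInputsModL A M` at the three levels (`rim_of_five_le`, `rim_three`, `rim_two`), Galois
equivariance of `π^*`, and the formulas `spThree_apply`, `spTwo_apply`.
-/

set_option autoImplicit false
set_option linter.style.haveILetI false

noncomputable section

namespace Fermat.Agent.S15.H182

open ModularCurve AlgebraicCurve Fermat.Agent.S37 Fermat.Agent.S37.Core

/-! ### The reduction inputs at the three levels -/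

/-- node_rim at level `N`, residue characteristic `q ≥ 5`. -/
theorem rim_of_five_le (N : ℕ) [NeZero N] {q : ℕ} (hq : q.Prime) (hq5 : 5 ≤ q) (hqN : ¬ q ∣ N)
    (A : ValuationSubring (AlgebraicClosure ℚ)) (hA : A.LiesOverPrime q) :
    ReductionInputsModL A N :=
  rimStatement N q hq hqN (Or.inl hq5) A hA

theorem three_not_dvd_mul_two {N : ℕ} (h3N : ¬ 3 ∣ N) : ¬ 3 ∣ N * 2 := by
  intro h
  rcases (Nat.Prime.dvd_mul Nat.prime_three).mp h with h | h
  · exact h3N h
  · exact absurd h (by decide)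

theorem two_not_dvd_mul_three {N : ℕ} (h2N : ¬ 2 ∣ N) : ¬ 2 ∣ N * 3 := by
  intro h
  rcases (Nat.Prime.dvd_mul Nat.prime_two).mp h with h | h
  · exact h2N h
  · exact absurd h (by decide)

/-- node_rim at level `N * 2`, residue characteristic `3`. -/
theorem rim_three (N : ℕ) [NeZero N] (h3N : ¬ 3 ∣ N)
    (A : ValuationSubring (AlgebraicClosure ℚ)) (hA : A.LiesOverPrime 3) :
    ReductionInputsModL A (N * 2) :=
  rimStatement (N * 2) 3 Nat.prime_three (three_not_dvd_mul_two h3N)
    (Or.inr (Or.inl ⟨rfl, Dvd.intro_left N rfl⟩)) A hA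

/-- node_rim at level `N * 3`, residue characteristic `2`. -/
theorem rim_two (N : ℕ) [NeZero N] (h2N : ¬ 2 ∣ N)
    (A : ValuationSubring (AlgebraicClosure ℚ)) (hA : A.LiesOverPrime 2) :
    ReductionInputsModL A (N * 3) :=
  rimStatement (N * 3) 2 Nat.prime_two (two_not_dvd_mul_three h2N)
    (Or.inr (Or.inr ⟨rfl, Dvd.intro_left N rfl⟩)) A hA

/-! ### `q ≥ 5` -/

/-- **(i) at `q ≥ 5`**: `reductionModL A N` is injective on torsion of order prime to `q`. -/
theorem sp_inj_of_five_le (N : ℕ) [NeZero N] {q : ℕ} (hq : q.Prime) (hq5 : 5 ≤ q)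
    (hqN : ¬ q ∣ N) (A : ValuationSubring (AlgebraicClosure ℚ)) (hA : A.LiesOverPrime q)
    (m : ℕ) (z : JZero N) (hm : ¬ q ∣ m) (hmz : m • z = 0)
    (hz : reductionModL A N z = 0) : z = 0 :=
  s18Statement N q hq hqN A hA (rim_of_five_le N hq hq5 hqN A hA) m hm z hmz hz

/-! ### `q = 3`: level `N * 2` -/

/-- The transfer inputs for `(ℓ, a) = (3, 2)`. -/
theorem transferThree (N : ℕ) [NeZero N] (h2N : ¬ 2 ∣ N) (h3N : ¬ 3 ∣ N) :
    H818.TransferInputs N 2 3 :=
  H818.transferInputs N 2 3 Nat.prime_three Nat.prime_two h3N (by decide)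
    (H818.finrankAlong_pow N 2 3 (Or.inl ⟨rfl, rfl⟩) h2N)

/-- `π^* : J₀(N) → J₀(N * 2)`. -/
def pullThree (N : ℕ) [NeZero N] (h2N : ¬ 2 ∣ N) (h3N : ¬ 3 ∣ N) : JZero N →+ JZero (N * 2) :=
  (transferThree N h2N h3N).pullback

/-- The specialisation map at a place over `3`: `reductionModL A (N * 2) ∘ π^*`. -/
def spThree (N : ℕ) [NeZero N] (h2N : ¬ 2 ∣ N) (h3N : ¬ 3 ∣ N)
    (A : ValuationSubring (AlgebraicClosure ℚ)) :
    JZero N →+ JZeroC (IsLocalRing.ResidueField A) (N * 2) :=
  (reductionModL A (N * 2)).comp (pullThree N h2N h3N)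

theorem spThree_apply (N : ℕ) [NeZero N] (h2N : ¬ 2 ∣ N) (h3N : ¬ 3 ∣ N)
    (A : ValuationSubring (AlgebraicClosure ℚ)) (z : JZero N) :
    spThree N h2N h3N A z = reductionModL A (N * 2) (pullThree N h2N h3N z) := rfl

theorem pullThree_galois (N : ℕ) [NeZero N] (h2N : ¬ 2 ∣ N) (h3N : ¬ 3 ∣ N)
    (σ : AlgebraicClosure ℚ ≃ₐ[ℚ] AlgebraicClosure ℚ) (z : JZero N) :
    pullThree N h2N h3N (σ • z) = σ • pullThree N h2N h3N z :=
  (transferThree N h2N h3N).pullback_galois σ z

/-- **(i) at `q = 3`**. -/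
theorem spThree_inj (N : ℕ) [NeZero N] (h2N : ¬ 2 ∣ N) (h3N : ¬ 3 ∣ N)
    (A : ValuationSubring (AlgebraicClosure ℚ)) (hA : A.LiesOverPrime 3)
    (m : ℕ) (z : JZero N) (hm : ¬ 3 ∣ m) (hmz : m • z = 0)
    (hz : spThree N h2N h3N A z = 0) : z = 0 := by
  have h1 : pullThree N h2N h3N z = 0 :=
    s18Statement (N * 2) 3 Nat.prime_three (three_not_dvd_mul_two h3N) A hA
      (rim_three N h3N A hA) m hm _ (by rw [← map_nsmul, hmz, map_zero]) hz
  exact (transferThree N h2N h3N).pullback_injective_of_coprime m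
    ((Nat.Prime.coprime_iff_not_dvd Nat.prime_three).mpr hm).symm z hmz h1

/-! ### `q = 2`: level `N * 3` -/

/-- The transfer inputs for `(ℓ, a) = (2, 3)`. -/
theorem transferTwo (N : ℕ) [NeZero N] (h2N : ¬ 2 ∣ N) (h3N : ¬ 3 ∣ N) :
    H818.TransferInputs N 3 2 :=
  H818.transferInputs N 3 2 Nat.prime_two Nat.prime_three h2N (by decide)
    (H818.finrankAlong_pow N 3 2 (Or.inr ⟨rfl, rfl⟩) h3N)

/-- `π^* : J₀(N) → J₀(N * 3)`. -/
def pullTwo (N : ℕ) [NeZero N] (h2N : ¬ 2 ∣ N) (h3N : ¬ 3 ∣ N) : JZero N →+ JZero (N * 3) :=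
  (transferTwo N h2N h3N).pullback

/-- The specialisation map at a place over `2`: `reductionModL A (N * 3) ∘ π^*`. -/
def spTwo (N : ℕ) [NeZero N] (h2N : ¬ 2 ∣ N) (h3N : ¬ 3 ∣ N)
    (A : ValuationSubring (AlgebraicClosure ℚ)) :
    JZero N →+ JZeroC (IsLocalRing.ResidueField A) (N * 3) :=
  (reductionModL A (N * 3)).comp (pullTwo N h2N h3N)

theorem spTwo_apply (N : ℕ) [NeZero N] (h2N : ¬ 2 ∣ N) (h3N : ¬ 3 ∣ N)
    (A : ValuationSubring (AlgebraicClosure ℚ)) (z : JZero N) :
    spTwo N h2N h3N A z = reductionModL A (N * 3) (pullTwo N h2N h3N z) := rfl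

theorem pullTwo_galois (N : ℕ) [NeZero N] (h2N : ¬ 2 ∣ N) (h3N : ¬ 3 ∣ N)
    (σ : AlgebraicClosure ℚ ≃ₐ[ℚ] AlgebraicClosure ℚ) (z : JZero N) :
    pullTwo N h2N h3N (σ • z) = σ • pullTwo N h2N h3N z :=
  (transferTwo N h2N h3N).pullback_galois σ z

/-- **(i) at `q = 2`**. -/
theorem spTwo_inj (N : ℕ) [NeZero N] (h2N : ¬ 2 ∣ N) (h3N : ¬ 3 ∣ N)
    (A : ValuationSubring (AlgebraicClosure ℚ)) (hA : A.LiesOverPrime 2)
    (m : ℕ) (z : JZero N) (hm : ¬ 2 ∣ m) (hmz : m • z = 0)
    (hz : spTwo N h2N h3N A z = 0) : z = 0 := by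
  have h1 : pullTwo N h2N h3N z = 0 :=
    s18Statement (N * 3) 2 Nat.prime_two (two_not_dvd_mul_three h2N) A hA
      (rim_two N h2N A hA) m hm _ (by rw [← map_nsmul, hmz, map_zero]) hz
  exact (transferTwo N h2N h3N).pullback_injective_of_coprime m
    ((Nat.Prime.coprime_iff_not_dvd Nat.prime_two).mpr hm).symm z hmz h1

end Fermat.Agent.S15.H182

end

end
-- ===== PACK-END S15/H182/Red.lean

-- ===== PACK-BEGIN S15/H962/GeoProp.lean
section






/-!
# Row S15, node GEO-PARTS (a) (helper962): PROPAGATION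

`propagation : PropagationStatement p` — the subgroup `K = discK p A P₀` of `J₀(p)` generated by
the classes `cl((P) - (0))`, `P` in the residue disc of the cusp `0` at `A`, and `cl((P) - (∞))`,
`P` in the residue disc of the cusp `∞`, is stable under every Hecke operator `T_ℓ`, `ℓ ≠ p`.

Proof.  `T_ℓ = α_* β^*` for the two degeneracy maps `α, β : ℚ̄(X₀(p)) → ℚ̄(X₀(pℓ))`
(`α` the inclusion, `β : q ↦ q^ℓ`), so `T_ℓ (P) = ∑_{W ∣_β = P} e_β(W) (W ∣_α)` and, the cusps being
fixed, `T_ℓ ((P) - (0)) = ∑ e_β(W) ((W ∣_α) - (0))`.  It remains to see that `W ∣_α` lies in the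
disc of `0` if `W ∣_β` does.  At `W` the four functions `β j, β j_p, α j, α j_p` have values
`a, a', b, b'` with `Φ_ℓ(a, b) = 0`, `Φ_ℓ(a', b') = 0`, `Φ_p(b, b') = 0` (`Φ_m` the modular
polynomials); the Newton polygons of the `Φ_m` (`val_root_of_isModularShape`) and the arithmetic
lemma `val_propagate_zero` give `v(b')^p = v(b)`, `1 < v(b)`.
-/

set_option autoImplicit false
set_option synthInstance.maxHeartbeats 400000
set_option linter.style.haveILetI false

noncomputable section

open AlgebraicCurve ModularCurve HahnSeries Polynomial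

namespace Fermat.Agent.S15.H962

open Fermat.Agent.S15.Core Fermat.Agent.S15.H542
open Fermat.Agent.S15.H362 (Qb FB)

/-! ### Values along an embedding of function fields -/

section Along

variable {N M : ℕ}

theorem ramificationIndexAlong_pos_h962 (φ : FB N →ₐ[Qb] FB M) (hφ : φ.toRingHom.IsIntegral)
    (W : Place Qb (FB M)) : (0 : ℤ) < (Place.ramificationIndexAlong φ W : ℤ) := by
  have he0 : 0 < Place.ramificationIndexAlong φ W := by
    letI := algebraAlong φ
    haveI := isScalarTower_along φ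
    haveI := isIntegral_along φ hφ
    exact Place.ramificationIndex_pos (F := FB N) W
  exact_mod_cast he0

/-- `φ f` has the value `c` at `W` iff `f` has the value `c` at `W ∣_φ`. -/
theorem hasValueAt_along (φ : FB N →ₐ[Qb] FB M) (hφ : φ.toRingHom.IsIntegral)
    (W : Place Qb (FB M)) (f : FB N) (c : Qb) :
    HasValueAt W (φ f) c ↔ HasValueAt (W.restrictAlong φ hφ) f c := by
  unfold HasValueAt
  have h1 : φ f - algebraMap Qb (FB M) c = φ (f - algebraMap Qb (FB N) c) := by
    rw [map_sub, AlgHom.commutes]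
  rw [h1, Place.ord_restrictAlong φ hφ W]
  exact mul_pos_iff_of_pos_left (ramificationIndexAlong_pos_h962 φ hφ W)

/-- `φ f` is regular at `W` iff `f` is regular at `W ∣_φ`. -/
theorem ord_nonneg_along (φ : FB N →ₐ[Qb] FB M) (hφ : φ.toRingHom.IsIntegral)
    (W : Place Qb (FB M)) (f : FB N) :
    0 ≤ W.ord (φ f) ↔ 0 ≤ (W.restrictAlong φ hφ).ord f := by
  rw [Place.ord_restrictAlong φ hφ W]
  exact mul_nonneg_iff_of_pos_left (ramificationIndexAlong_pos_h962 φ hφ W)

theorem ord_nonneg_of_hasValueAt {P : Place Qb (FB N)} {f : FB N} {c : Qb}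
    (h : HasValueAt P f c) : 0 ≤ P.ord f := by
  have h1 : Fermat.Agent.S15.H722.HasVal P f c := Or.inr h
  exact h1.ord_nonneg

/-- A function which is regular at `P` and not constant has a value at `P`. -/
theorem exists_hasValueAt [NeZero N] (P : Place Qb (FB N)) {f : FB N} (hf : 0 ≤ P.ord f)
    (hne : ∀ c : Qb, f - algebraMap Qb (FB N) c ≠ 0) : ∃ c : Qb, HasValueAt P f c := by
  obtain ⟨c, hc⟩ := Fermat.Agent.S15.H722.exists_hasVal P
    (Fermat.Agent.Lib.FF398.deg_eq_one_FF N P) hf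
  rcases hc with hc | hc
  · exact absurd hc (hne c)
  · exact ⟨c, hc⟩

end Along

/-! ### The modular relations at level `pℓ` -/

section Relations

variable (p ℓ : ℕ) [NeZero p] [NeZero ℓ]

theorem coe_alpha_jBar :
    ((heckeAlphaBar Qb p ℓ (H542.jBar p) : FB (p * ℓ)) : LaurentSeries Qb) = jqModC Qb := by
  rw [coe_heckeAlphaBar, coe_jBar_eq]

theorem coe_beta_jBar :
    ((heckeBetaBar Qb p ℓ (H542.jBar p) : FB (p * ℓ)) : LaurentSeries Qb) =
      qExpand Qb ℓ (jqModC Qb) := by
  rw [coe_heckeBetaBar, coe_jBar_eq]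

theorem coe_alpha_jNBar :
    ((heckeAlphaBar Qb p ℓ (jNBar p) : FB (p * ℓ)) : LaurentSeries Qb) =
      qExpand Qb p (jqModC Qb) := by
  rw [coe_heckeAlphaBar, coe_jNBar_eq]

theorem coe_beta_jNBar :
    ((heckeBetaBar Qb p ℓ (jNBar p) : FB (p * ℓ)) : LaurentSeries Qb) =
      qExpand Qb (p * ℓ) (jqModC Qb) := by
  rw [coe_heckeBetaBar, coe_jNBar_eq, qExpand_qExpand]
  exact qExpand_congr (Nat.mul_comm ℓ p) _

/-- The relations `Φ_ℓ(β j, α j) = 0` and `Φ_ℓ(β j_p, α j_p) = 0`. -/
theorem exists_rel_level (hℓ : ℓ.Prime) :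
    ∃ Φ : ℤ[X][X], IsModularShape ℓ Φ ∧
      eval2 Φ (heckeBetaBar Qb p ℓ (H542.jBar p)) (heckeAlphaBar Qb p ℓ (H542.jBar p)) = 0 ∧
      eval2 Φ (heckeBetaBar Qb p ℓ (jNBar p)) (heckeAlphaBar Qb p ℓ (jNBar p)) = 0 := by
  obtain ⟨Φ, hshape, hrel⟩ := Fermat.Agent.S15.H386.exists_isModularShape.{0} ℓ hℓ
  obtain ⟨-, hrel1⟩ := hrel Qb 1
  obtain ⟨-, hrel2⟩ := hrel Qb p
  rw [qExpand_one_apply, qExpand_congr (one_mul ℓ)] at hrel1
  refine ⟨Φ, hshape, ?_, ?_⟩
  · rw [← Fermat.Agent.S15.H386.eval2_eq_zero_iff_map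
      (algebraMap (FB (p * ℓ)) (LaurentSeries Qb))]
    have h1 : algebraMap (FB (p * ℓ)) (LaurentSeries Qb)
        (heckeBetaBar Qb p ℓ (H542.jBar p)) = qExpand Qb ℓ (jqModC Qb) := coe_beta_jBar p ℓ
    have h2 : algebraMap (FB (p * ℓ)) (LaurentSeries Qb)
        (heckeAlphaBar Qb p ℓ (H542.jBar p)) = jqModC Qb := coe_alpha_jBar p ℓ
    rw [h1, h2]
    exact hrel1
  · rw [← Fermat.Agent.S15.H386.eval2_eq_zero_iff_map
      (algebraMap (FB (p * ℓ)) (LaurentSeries Qb))]
    have h1 : algebraMap (FB (p * ℓ)) (LaurentSeries Qb)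
        (heckeBetaBar Qb p ℓ (jNBar p)) = qExpand Qb (p * ℓ) (jqModC Qb) := coe_beta_jNBar p ℓ
    have h2 : algebraMap (FB (p * ℓ)) (LaurentSeries Qb)
        (heckeAlphaBar Qb p ℓ (jNBar p)) = qExpand Qb p (jqModC Qb) := coe_alpha_jNBar p ℓ
    rw [h1, h2]
    exact hrel2

/-- The relation `Φ_p(α j, α j_p) = 0`. -/
theorem exists_rel_base (hp : p.Prime) :
    ∃ Φ : ℤ[X][X], IsModularShape p Φ ∧
      eval2 Φ (heckeAlphaBar Qb p ℓ (H542.jBar p)) (heckeAlphaBar Qb p ℓ (jNBar p)) = 0 := by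
  obtain ⟨Φ, hshape, hrel, -⟩ := eval2_jBar_jNBar p hp
  refine ⟨Φ, hshape, ?_⟩
  exact (Fermat.Agent.S15.H386.eval2_eq_zero_iff_map
    ((heckeAlphaBar Qb p ℓ : FB p →ₐ[Qb] FB (p * ℓ)) : FB p →+* FB (p * ℓ)) Φ _ _).mpr hrel

end Relations

/-! ### Places of `X₀(pℓ)` over a non-cuspidal place -/

section NonCusp

variable (p ℓ : ℕ) [NeZero p] [NeZero ℓ]

/-- If `β j`, `β j_p` are regular at `W` then so are `α j`, `α j_p`. -/
theorem ord_alpha_nonneg (hℓ : ℓ.Prime) (W : Place Qb (FB (p * ℓ)))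
    (h1 : 0 ≤ W.ord (heckeBetaBar Qb p ℓ (H542.jBar p)))
    (h2 : 0 ≤ W.ord (heckeBetaBar Qb p ℓ (jNBar p))) :
    0 ≤ W.ord (heckeAlphaBar Qb p ℓ (H542.jBar p)) ∧
      0 ≤ W.ord (heckeAlphaBar Qb p ℓ (jNBar p)) := by
  have e1 : H542.jBar p = Fermat.Agent.S15.H362.jBar p := rfl
  have e2 : jNBar p = Fermat.Agent.S15.H362.jLevelBar p := rfl
  rw [e1] at h1 ⊢
  rw [e2] at h2 ⊢
  constructor
  · by_contra hlt
    rw [not_le, Fermat.Agent.S15.H362.alpha_jBar] at hlt
    obtain ⟨-, h3, -⟩ := Fermat.Agent.S15.H362.cusp_relations_level p ℓ hℓ W (Or.inl hlt)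
    rw [← Fermat.Agent.S15.H362.beta_jBar] at h3
    exact absurd h1 (not_le.mpr h3)
  · by_contra hlt
    rw [not_le, Fermat.Agent.S15.H362.alpha_jLevelBar] at hlt
    obtain ⟨-, h3, -⟩ := Fermat.Agent.S15.H362.cusp_relations_level' p ℓ hℓ W (Or.inl hlt)
    rw [← Fermat.Agent.S15.H362.beta_jLevelBar] at h3
    exact absurd h2 (not_le.mpr h3)

/-- **The local computation.**  Values `a, a'` of `j, j_p` at `W ∣_β` with `1 < v a`, `1 < v a'`
give values `b, b'` at `W ∣_α` related to `a, a'` by the Newton polygons of `Φ_ℓ` and `Φ_p`. -/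
theorem exists_values_alpha (hp : p.Prime) (hℓ : ℓ.Prime)
    (hα : HeckeAlphaBarIntegral Qb p ℓ) (hβ : HeckeBetaBarIntegral Qb p ℓ)
    {Γ₀ : Type*} [LinearOrderedCommGroupWithZero Γ₀] (v : Valuation Qb Γ₀)
    (W : Place Qb (FB (p * ℓ))) {a a' : Qb}
    (ha : HasValueAt (W.restrictAlong (heckeBetaBar Qb p ℓ) hβ) (H542.jBar p) a)
    (ha' : HasValueAt (W.restrictAlong (heckeBetaBar Qb p ℓ) hβ) (jNBar p) a')
    (hva : 1 < v a) (hva' : 1 < v a') :
    ∃ b b' : Qb, HasValueAt (W.restrictAlong (heckeAlphaBar Qb p ℓ) hα) (H542.jBar p) b ∧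
      HasValueAt (W.restrictAlong (heckeAlphaBar Qb p ℓ) hα) (jNBar p) b' ∧
      1 < v b ∧ (v b = v a ^ ℓ ∨ v b ^ ℓ = v a) ∧ (v b' = v a' ^ ℓ ∨ v b' ^ ℓ = v a') ∧
      (v b' = v b ^ p ∨ v b' ^ p = v b) := by
  have hWa : HasValueAt W (heckeBetaBar Qb p ℓ (H542.jBar p)) a :=
    (hasValueAt_along _ hβ W _ a).mpr ha
  have hWa' : HasValueAt W (heckeBetaBar Qb p ℓ (jNBar p)) a' :=
    (hasValueAt_along _ hβ W _ a').mpr ha'
  obtain ⟨h1, h2⟩ := ord_alpha_nonneg p ℓ hℓ W (ord_nonneg_of_hasValueAt hWa) (ord_nonneg_of_hasValueAt hWa')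
  obtain ⟨b, hb⟩ := exists_hasValueAt (W.restrictAlong (heckeAlphaBar Qb p ℓ) hα)
    ((ord_nonneg_along _ hα W _).mp h1) (Fermat.Agent.S15.H602.jBar_sub_ne_zero p)
  obtain ⟨b', hb'⟩ := exists_hasValueAt (W.restrictAlong (heckeAlphaBar Qb p ℓ) hα)
    ((ord_nonneg_along _ hα W _).mp h2) (Fermat.Agent.S15.H602.jNBar_sub_ne_zero p)
  have hWb : HasValueAt W (heckeAlphaBar Qb p ℓ (H542.jBar p)) b :=
    (hasValueAt_along _ hα W _ b).mpr hb
  have hWb' : HasValueAt W (heckeAlphaBar Qb p ℓ (jNBar p)) b' :=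
    (hasValueAt_along _ hα W _ b').mpr hb'
  obtain ⟨Φℓ, hshℓ, r1, r2⟩ := exists_rel_level p ℓ hℓ
  obtain ⟨Φp, hshp, r3⟩ := exists_rel_base p ℓ hp
  have e1 : eval2 Φℓ a b = 0 := by
    rw [← ev0_phiK]
    exact ev0_eq_zero_of_isCentredAt (isCentredAt_of_hasValueAt (p * ℓ) hWa hWb)
      (by rw [ev_phiK]; exact r1)
  have e2 : eval2 Φℓ a' b' = 0 := by
    rw [← ev0_phiK]
    exact ev0_eq_zero_of_isCentredAt (isCentredAt_of_hasValueAt (p * ℓ) hWa' hWb')
      (by rw [ev_phiK]; exact r2)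
  have e3 : eval2 Φp b b' = 0 := by
    rw [← ev0_phiK]
    exact ev0_eq_zero_of_isCentredAt (isCentredAt_of_hasValueAt (p * ℓ) hWb hWb')
      (by rw [ev_phiK]; exact r3)
  have hB := val_root_of_isModularShape v hℓ.pos hshℓ hva e1
  have hvb : 1 < v b := by
    rcases hB with h | h
    · rw [h]; exact one_lt_pow₀ hva hℓ.pos.ne'
    · exact one_lt_of_pow_eq hva h
  exact ⟨b, b', hb, hb', hvb, hB, val_root_of_isModularShape v hℓ.pos hshℓ hva' e2,
    val_root_of_isModularShape v hp.pos hshp hvb e3⟩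

/-- The residue disc of the cusp `0` propagates along the Hecke correspondence. -/
theorem inDiscZero_restrictAlpha (hp : p.Prime) (hℓ : ℓ.Prime) (hne : ℓ ≠ p)
    (hα : HeckeAlphaBarIntegral Qb p ℓ) (hβ : HeckeBetaBarIntegral Qb p ℓ)
    (A : ValuationSubring Qb) (W : Place Qb (FB (p * ℓ)))
    (hW : InDiscZero p A (W.restrictAlong (heckeBetaBar Qb p ℓ) hβ)) :
    InDiscZero p A (W.restrictAlong (heckeAlphaBar Qb p ℓ) hα) := by
  obtain ⟨a, a', ha, ha', hva, hrel⟩ := hW
  obtain ⟨b, b', hb, hb', hvb, hB, hC₁, hC₂⟩ := exists_values_alpha p ℓ hp hℓ hα hβ A.valuation W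
    ha ha' hva (one_lt_of_pow_eq hva hrel)
  exact ⟨b, b', hb, hb', hvb,
    val_propagate_zero hp.two_le hℓ.two_le (Ne.symm hne) hva hrel hB hC₁ hC₂⟩

/-- The residue disc of the cusp `∞` propagates along the Hecke correspondence. -/
theorem inDiscInfty_restrictAlpha (hp : p.Prime) (hℓ : ℓ.Prime) (hne : ℓ ≠ p)
    (hα : HeckeAlphaBarIntegral Qb p ℓ) (hβ : HeckeBetaBarIntegral Qb p ℓ)
    (A : ValuationSubring Qb) (W : Place Qb (FB (p * ℓ)))
    (hW : InDiscInfty p A (W.restrictAlong (heckeBetaBar Qb p ℓ) hβ)) :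
    InDiscInfty p A (W.restrictAlong (heckeAlphaBar Qb p ℓ) hα) := by
  obtain ⟨a, a', ha, ha', hva, hrel⟩ := hW
  have hva' : 1 < A.valuation a' := by
    rw [hrel]; exact one_lt_pow₀ hva hp.pos.ne'
  obtain ⟨b, b', hb, hb', hvb, hB, hC₁, hC₂⟩ := exists_values_alpha p ℓ hp hℓ hα hβ A.valuation W
    ha ha' hva hva'
  exact ⟨b, b', hb, hb', hvb,
    val_propagate_infty hp.two_le hℓ.two_le (Ne.symm hne) hva hrel hB hC₁ hC₂⟩

end NonCusp

/-! ### `T_ℓ` on the class of a difference of two places -/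

section Divisors

variable (p ℓ : ℕ) [NeZero p] [NeZero ℓ]

/-- `T_ℓ ((P) - (P₁)) = ∑_{W ∣_β = P} e_β(W) ((W ∣_α) - (P₁))` if `P₁` is fixed by the
correspondence. -/
theorem heckeDivBar_ptDiff (hℓ : ℓ.Prime) (hN : ¬ ℓ ∣ p)
    (hα : HeckeAlphaBarIntegral Qb p ℓ) (hβ : HeckeBetaBarIntegral Qb p ℓ)
    (P P₁ : Place Qb (FB p))
    (hP₁ : ∀ W : Place Qb (FB (p * ℓ)), W.restrictAlong (heckeBetaBar Qb p ℓ) hβ = P₁ →
      W.restrictAlong (heckeAlphaBar Qb p ℓ) hα = P₁) :
    heckeDivBar hα hβ (Finsupp.single P (1 : ℤ) - Finsupp.single P₁ 1) =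
      ∑ W ∈ Place.fiberAlong (heckeBetaBar Qb p ℓ) hβ P,
        (W.ramificationIndexAlong (heckeBetaBar Qb p ℓ) : ℤ) •
          (Finsupp.single (W.restrictAlong (heckeAlphaBar Qb p ℓ) hα) (1 : ℤ) -
            Finsupp.single P₁ 1) := by
  classical
  rw [map_sub, Fermat.Agent.Lib.FF398.heckeDivBar_single p ℓ hα hβ P 1,
    Fermat.Agent.S15.H362.heckeDivBar_single_of_fixed p ℓ hℓ hN hα hβ P₁ hP₁ 1]
  simp only [smul_sub, Finsupp.smul_single, smul_eq_mul, mul_one, one_mul]
  rw [Finset.sum_sub_distrib, ← Finsupp.single_finsetSum,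
    Fermat.Agent.Lib.FF398.sum_ramificationIndexAlong_beta p ℓ hβ P,
    Fermat.Agent.S37.H218.finrankAlong_heckeBetaBar_of_not_dvd p ℓ hℓ hN]
  push_cast
  rfl

end Divisors

section Classes

variable (p : ℕ) [NeZero p]

/-- `T_ℓ cl((P) - (P₁)) ∈ H` as soon as `cl((W ∣_α) - (P₁)) ∈ H` for all `W` over `P` along `β`
(`P₁` fixed by the correspondence). -/
theorem heckeOperatorBar_diffClass_mem (ℓ : Nat.Primes) (hN : ¬ (ℓ : ℕ) ∣ p)
    (H : AddSubgroup (JZero p)) (P P₁ : Place Qb (FB p))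
    (hP₁ : haveI : NeZero (ℓ : ℕ) := ⟨ℓ.2.ne_zero⟩
      ∀ W : Place Qb (FB (p * ℓ)),
        W.restrictAlong (heckeBetaBar Qb p ℓ) (Fermat.Agent.Lib.FF398.heckeBetaBarIntegral p ℓ)
          = P₁ →
        W.restrictAlong (heckeAlphaBar Qb p ℓ) (Fermat.Agent.Lib.FF398.heckeAlphaBarIntegral p ℓ)
          = P₁)
    (hmem : haveI : NeZero (ℓ : ℕ) := ⟨ℓ.2.ne_zero⟩
      ∀ W : Place Qb (FB (p * ℓ)),
        W.restrictAlong (heckeBetaBar Qb p ℓ) (Fermat.Agent.Lib.FF398.heckeBetaBarIntegral p ℓ)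
          = P →
        ∀ z : JZero p, IsDiffClass
          (W.restrictAlong (heckeAlphaBar Qb p ℓ)
            (Fermat.Agent.Lib.FF398.heckeAlphaBarIntegral p ℓ)) P₁ z → z ∈ H)
    (z : JZero p) (hz : IsDiffClass P P₁ z) : heckeOperatorBar p ℓ z ∈ H := by
  classical
  haveI : NeZero (ℓ : ℕ) := ⟨ℓ.2.ne_zero⟩
  obtain ⟨h, rfl⟩ := hz
  rw [Fermat.Agent.Lib.FF398.heckeOperatorBar_mk p ℓ]
  set hα := Fermat.Agent.Lib.FF398.heckeAlphaBarIntegral p ℓ with hαdef
  set hβ := Fermat.Agent.Lib.FF398.heckeBetaBarIntegral p ℓ with hβdef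
  have hdeg : ∀ W : Place Qb (FB (p * ℓ)),
      (Finsupp.single (W.restrictAlong (heckeAlphaBar Qb p ℓ) hα) (1 : ℤ) - Finsupp.single P₁ 1 :
        Divisor Qb (FB p)) ∈ Divisor.degZero (K := Qb) (F := FB p) := fun W => by
    rw [Divisor.mem_degZero, map_sub, Divisor.degree_single, Divisor.degree_single,
      Fermat.Agent.Lib.FF398.deg_eq_one_FF p, Fermat.Agent.Lib.FF398.deg_eq_one_FF p, sub_self]
  have key : Pic0.degZeroCorrespondence (heckeBetaBar Qb p ℓ) (heckeAlphaBar Qb p ℓ) hβ hα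
      (Fermat.Agent.Lib.FF398.fundamentalIdentityAlong_beta p ℓ)
      ⟨Finsupp.single P (1 : ℤ) - Finsupp.single P₁ 1, h⟩ =
      ∑ W ∈ Place.fiberAlong (heckeBetaBar Qb p ℓ) hβ P,
        (W.ramificationIndexAlong (heckeBetaBar Qb p ℓ) : ℤ) •
          (⟨_, hdeg W⟩ : Divisor.degZero (K := Qb) (F := FB p)) := by
    apply Subtype.ext
    rw [AddSubgroup.val_finsetSum]
    exact heckeDivBar_ptDiff p ℓ ℓ.2 hN hα hβ P P₁ hP₁
  rw [key]
  have hmk : ∀ D : Divisor.degZero (K := Qb) (F := FB p),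
      Pic0.mk D = QuotientAddGroup.mk' _ D := fun _ => rfl
  rw [hmk, map_sum]
  refine H.sum_mem fun W hW => ?_
  rw [map_zsmul]
  exact H.zsmul_mem (hmem W (Place.mem_fiberAlong.mp hW) _ ⟨hdeg W, rfl⟩) _

end Classes

/-! ### The theorem -/

/-- **GEO-PARTS (a), PROPAGATION.** -/
theorem propagation (p : ℕ) [NeZero p] : PropagationStatement p := by
  intro hp A P₀ hP₀ ℓ hℓp
  haveI : NeZero (ℓ : ℕ) := ⟨ℓ.2.ne_zero⟩
  have hN : ¬ (ℓ : ℕ) ∣ p := Fermat.Agent.S15.H362.not_dvd_of_prime_ne hp ℓ.2 hℓp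
  -- the cusp `0`
  have hP₀eq : P₀ = Fermat.Agent.S15.H362.cuspZero p := by
    obtain ⟨h1, h2⟩ := hP₀
    have h3 : P₀.ord (Fermat.Agent.S15.H362.jBar p) < 0 := h2
    rcases Fermat.Agent.S15.H362.eq_cusp_of_ord_jBar_neg p hp P₀ h3 with e | e
    · rw [Fermat.Agent.S15.H362.cuspInfty_eq_core] at e
      exact absurd e h1
    · exact e
  have hle : discK p A P₀ ≤ (discK p A P₀).comap (heckeOperatorBar p ℓ).toAddMonoidHom := by
    refine discK_le ?_ ?_
    · intro P z hP hz
      refine heckeOperatorBar_diffClass_mem p ℓ hN (discK p A P₀) P P₀ ?_ ?_ z hz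
      · rw [hP₀eq]
        exact Fermat.Agent.S15.H362.restrictAlpha_cuspZero p ℓ hp ℓ.2 hℓp _ _
      · intro W hW z' hz'
        refine mem_discK_of_inDiscZero ?_ hz'
        exact inDiscZero_restrictAlpha p ℓ hp ℓ.2 hℓp _ _ A W (by rw [hW]; exact hP)
    · intro P z hP hz
      refine heckeOperatorBar_diffClass_mem p ℓ hN (discK p A P₀) P (_root_.Fermat.Agent.S15.Core.cuspInfty p) ?_ ?_ z hz
      · rw [← Fermat.Agent.S15.H362.cuspInfty_eq_core]
        exact Fermat.Agent.S15.H362.restrictAlpha_cuspInfty p ℓ hp ℓ.2 hℓp _ _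
      · intro W hW z' hz'
        refine mem_discK_of_inDiscInfty ?_ hz'
        exact inDiscInfty_restrictAlpha p ℓ hp ℓ.2 hℓp _ _ A W (by rw [hW]; exact hP)
  intro z hz
  exact hle hz

/-- (a) in the form consumed by `GeoPartsStatement`: `K` is stable under `goodHecke p S`. -/
theorem discK_goodHecke_stable (p : ℕ) [NeZero p] (hp : p.Prime)
    (A : ValuationSubring Qb) (P₀ : Place Qb (FB p)) (hP₀ : IsCuspZero p P₀) (S : Set ℕ) :
    ∀ T ∈ goodHecke p S, ∀ z ∈ discK p A P₀, T z ∈ discK p A P₀ :=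
  goodHecke_stable_of_propagation p (propagation p) hp A P₀ hP₀ S

end Fermat.Agent.S15.H962

end

end
-- ===== PACK-END S15/H962/GeoProp.lean

-- ===== PACK-BEGIN S15/H962/GeoFib.lean
section


/-!
# Row S15, node GEO-PARTS (b), level-`p` fibre facts (helper962)

Facts on the places of `X₀(p)` in the residue discs of the cusps, for the identification step
(b) (`sp₀` kills `discK`):

* `big_root_unique` : for `Φ` of modular shape and `1 < v a`, the root `b` of `Φ(a, Y)` with
  `v b = (v a)^N` is unique;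
* `fibre_jNBar_of_inDiscZero` (F0) : `P` in the disc of `0` with values `(a, a')`; a place `P'` with
  `j_p(P') = a'` is `P` or lies in the disc of `∞`;
* `fibre_jBar_of_inDiscInfty` (F∞) : `P` in the disc of `∞`; a place `P'` with `j(P') = a` is `P` or
  lies in the disc of `0`;
* `ord_jNBar_sub_const_*`, `ord_jBar_sub_const_*` : the orders of `j_p - c`, `j - c` at the cusps;
* `val_ratio_of_inDiscInfty`, `val_ratio_of_inDiscZero` : `v(a' / a^p) = 1`, resp. `< 1`.
-/

set_option autoImplicit false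
set_option synthInstance.maxHeartbeats 400000
set_option linter.style.haveILetI false

noncomputable section

open AlgebraicCurve ModularCurve HahnSeries Polynomial

namespace Fermat.Agent.S15.H962

open Fermat.Agent.S15.Core Fermat.Agent.S15.H542
open Fermat.Agent.S15.H362 (Qb FB)

/-! ### Uniqueness of the big root -/

section BigRoot

variable {K : Type*} [Field K] {Γ₀ : Type*} [LinearOrderedCommGroupWithZero Γ₀]
  (v : Valuation K Γ₀)

/-- **The big root is unique.** -/
theorem big_root_unique [IsAlgClosed K] {N : ℕ} (hN : 1 < N) {Φ : ℤ[X][X]}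
    (hΦ : IsModularShape N Φ) {a b₁ b₂ : K} (ha : 1 < v a)
    (h₁ : eval2 Φ a b₁ = 0) (h₂ : eval2 Φ a b₂ = 0)
    (hb₁ : v b₁ = v a ^ N) (hb₂ : v b₂ = v a ^ N) : b₁ = b₂ := by
  classical
  by_contra hne
  have hN0 : 0 < N := by omega
  set f := phiSpec Φ a with hf
  have hf_monic : f.Monic := phiSpec_monic hΦ.monic a
  have hf0 : f ≠ 0 := hf_monic.ne_zero
  have hr₁ : b₁ ∈ f.roots := by
    rw [Polynomial.mem_roots hf0, IsRoot, hf, eval_phiSpec]; exact h₁
  have hr₂ : b₂ ∈ f.roots := by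
    rw [Polynomial.mem_roots hf0, IsRoot, hf, eval_phiSpec]; exact h₂
  have hsplit : f.Splits := IsAlgClosed.splits f
  have hprod : f.coeff 0 = (-1) ^ f.natDegree * f.roots.prod :=
    hsplit.coeff_zero_eq_prod_roots_of_monic hf_monic
  have hc0 : v (f.coeff 0) = v a ^ (N + 1) := by
    rw [hf, phiSpec_coeff_zero]
    exact val_eval_eq v ha (Φ.coeff 0) hΦ.coeff_zero_natDegree hΦ.coeff_zero_unit
  have hroots : ∀ r ∈ f.roots, 1 ≤ v r := by
    intro r hr
    have hr0 : eval2 Φ a r = 0 := by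
      rw [← eval_phiSpec]
      exact (Polynomial.mem_roots hf0).mp hr
    rcases val_root_of_isModularShape v hN0 hΦ ha hr0 with h1 | h1
    · rw [h1]; exact (one_lt_pow₀ ha hN0.ne').le
    · exact (one_lt_of_pow_eq ha h1).le
  obtain ⟨t, ht⟩ := Multiset.exists_cons_of_mem hr₁
  have hr₂' : b₂ ∈ t := by
    rw [ht, Multiset.mem_cons] at hr₂
    rcases hr₂ with h | h
    · exact absurd h.symm hne
    · exact h
  obtain ⟨t', ht'⟩ := Multiset.exists_cons_of_mem hr₂'
  have hprod2 : f.roots.prod = b₁ * (b₂ * t'.prod) := by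
    rw [ht, Multiset.prod_cons, ht', Multiset.prod_cons]
  have ht1 : 1 ≤ v t'.prod := by
    refine one_le_val_multiset_prod v t' fun r hr => hroots r ?_
    rw [ht, ht']
    exact Multiset.mem_cons_of_mem (Multiset.mem_cons_of_mem hr)
  have hval : v (f.coeff 0) = v a ^ (2 * N) * v t'.prod := by
    rw [hprod, hprod2, map_mul, map_pow, Valuation.map_neg, map_one, one_pow, one_mul, map_mul,
      map_mul, hb₁, hb₂, ← mul_assoc, ← _root_.pow_add, two_mul]
  rw [hc0] at hval
  have hlt : v a ^ (N + 1) < v a ^ (2 * N) := pow_lt_pow_right₀ ha (by omega)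
  have hle : v a ^ (2 * N) ≤ v a ^ (2 * N) * v t'.prod := by
    calc v a ^ (2 * N) = v a ^ (2 * N) * 1 := (mul_one _).symm
      _ ≤ v a ^ (2 * N) * v t'.prod := mul_le_mul' le_rfl ht1
  rw [← hval] at hle
  exact absurd hlt (not_lt.mpr hle)

end BigRoot

/-! ### Values at non-cuspidal places of `X₀(p)` -/

section Values

variable (p : ℕ) [NeZero p]

/-- A place at which `j_p` is regular is not a pole of `j`. -/
theorem ord_jBar_nonneg_of_ord_jNBar_nonneg (hp : p.Prime) (P : Place Qb (FB p))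
    (h : 0 ≤ P.ord (jNBar p)) : 0 ≤ P.ord (H542.jBar p) := by
  by_contra hlt
  rw [not_le] at hlt
  have e1 : H542.jBar p = Fermat.Agent.S15.H362.jBar p := rfl
  have e2 : jNBar p = Fermat.Agent.S15.H362.jLevelBar p := rfl
  rw [e1] at hlt
  rw [e2] at h
  have hp0 : (0 : ℤ) < p := by exact_mod_cast hp.pos
  rcases Fermat.Agent.S15.H362.eq_cusp_of_ord_jBar_neg p hp P hlt with e | e
  · rw [e, Fermat.Agent.S15.H362.ord_cuspInfty_jLevelBar] at h
    omega
  · rw [e, Fermat.Agent.S15.H362.ord_cuspZero_jLevelBar] at h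
    omega

/-- A place at which `j` is regular is not a pole of `j_p`. -/
theorem ord_jNBar_nonneg_of_ord_jBar_nonneg (hp : p.Prime) (P : Place Qb (FB p))
    (h : 0 ≤ P.ord (H542.jBar p)) : 0 ≤ P.ord (jNBar p) := by
  by_contra hlt
  rw [not_le] at hlt
  have e1 : H542.jBar p = Fermat.Agent.S15.H362.jBar p := rfl
  have e2 : jNBar p = Fermat.Agent.S15.H362.jLevelBar p := rfl
  rw [e1] at h
  rw [e2] at hlt
  have hp0 : (0 : ℤ) < p := by exact_mod_cast hp.pos
  rcases Fermat.Agent.S15.H362.eq_cusp_of_ord_jLevelBar_neg p hp P hlt with e | e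
  · rw [e, Fermat.Agent.S15.H362.ord_cuspInfty_jBar] at h
    omega
  · rw [e, Fermat.Agent.S15.H362.ord_cuspZero_jBar] at h
    omega

/-- The modular relation at the centre of a place. -/
theorem exists_rel_values (hp : p.Prime) :
    ∃ Φ : ℤ[X][X], IsModularShape p Φ ∧
      ∀ (P : Place Qb (FB p)) (a a' : Qb), HasValueAt P (H542.jBar p) a →
        HasValueAt P (jNBar p) a' → eval2 Φ a a' = 0 ∧ eval2 Φ a' a = 0 := by
  obtain ⟨Φ, hshape, hxy, hyx⟩ := eval2_jBar_jNBar p hp
  refine ⟨Φ, hshape, fun P a a' h1 h2 => ⟨?_, ?_⟩⟩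
  · rw [← ev0_phiK]
    exact ev0_eq_zero_of_isCentredAt (isCentredAt_of_hasValueAt p h1 h2)
      (by rw [ev_phiK]; exact hxy)
  · rw [← ev0_phiK]
    exact ev0_eq_zero_of_isCentredAt (isCentredAt_of_hasValueAt p h2 h1)
      (by rw [ev_phiK]; exact hyx)

/-- **(F0)** The fibre of `j_p` through a place of the disc of `0`. -/
theorem fibre_jNBar_of_inDiscZero (hp : p.Prime) (A : ValuationSubring Qb)
    {P P' : Place Qb (FB p)} {a a' : Qb}
    (ha : HasValueAt P (H542.jBar p) a) (ha' : HasValueAt P (jNBar p) a')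
    (hva : 1 < A.valuation a) (hrel : A.valuation a' ^ p = A.valuation a)
    (hP' : HasValueAt P' (jNBar p) a') : P' = P ∨ InDiscInfty p A P' := by
  obtain ⟨Φ, hshape, hval⟩ := exists_rel_values p hp
  have hva' : 1 < A.valuation a' := one_lt_of_pow_eq hva hrel
  obtain ⟨b, hb⟩ := exists_hasValueAt P'
    (ord_jBar_nonneg_of_ord_jNBar_nonneg p hp P' (ord_nonneg_of_hasValueAt hP'))
    (Fermat.Agent.S15.H602.jBar_sub_ne_zero p)
  obtain ⟨-, e1⟩ := hval P a a' ha ha'
  obtain ⟨-, e2⟩ := hval P' b a' hb hP'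
  rcases val_root_of_isModularShape A.valuation hp.pos hshape hva' e2 with h | h
  · left
    have hab : a = b := big_root_unique A.valuation hp.one_lt hshape hva' e1 e2 hrel.symm h
    rw [← hab] at hb
    exact (place_unique_of_one_lt_val p hp A.valuation hva ha ha' hb hP').symm
  · right
    exact ⟨b, a', hb, hP', one_lt_of_pow_eq hva' h, h.symm⟩

/-- **(F∞)** The fibre of `j` through a place of the disc of `∞`. -/
theorem fibre_jBar_of_inDiscInfty (hp : p.Prime) (A : ValuationSubring Qb)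
    {P P' : Place Qb (FB p)} {a a' : Qb}
    (ha : HasValueAt P (H542.jBar p) a) (ha' : HasValueAt P (jNBar p) a')
    (hva : 1 < A.valuation a) (hrel : A.valuation a' = A.valuation a ^ p)
    (hP' : HasValueAt P' (H542.jBar p) a) : P' = P ∨ InDiscZero p A P' := by
  obtain ⟨Φ, hshape, hval⟩ := exists_rel_values p hp
  obtain ⟨b', hb'⟩ := exists_hasValueAt P'
    (ord_jNBar_nonneg_of_ord_jBar_nonneg p hp P' (ord_nonneg_of_hasValueAt hP'))
    (Fermat.Agent.S15.H602.jNBar_sub_ne_zero p)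
  obtain ⟨e1, -⟩ := hval P a a' ha ha'
  obtain ⟨e2, -⟩ := hval P' a b' hP' hb'
  rcases val_root_of_isModularShape A.valuation hp.pos hshape hva e2 with h | h
  · left
    have hab : a' = b' := big_root_unique A.valuation hp.one_lt hshape hva e1 e2 hrel h
    rw [← hab] at hb'
    exact (place_unique_of_one_lt_val p hp A.valuation hva ha ha' hP' hb').symm
  · right
    exact ⟨a, b', hP', hb', hva, h⟩

/-- A place of the disc of `0` is not in the disc of `∞`. -/
theorem not_inDiscInfty_of_inDiscZero (hp : p.Prime) (A : ValuationSubring Qb)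
    {P : Place Qb (FB p)} (h0 : InDiscZero p A P) : ¬ InDiscInfty p A P := by
  rintro ⟨b, b', hb, hb', hvb, hrel'⟩
  obtain ⟨a, a', ha, ha', hva, hrel⟩ := h0
  have e1 : a = b := Fermat.Agent.S15.H722.HasVal.unique (Or.inr ha) (Or.inr hb)
  have e2 : a' = b' := Fermat.Agent.S15.H722.HasVal.unique (Or.inr ha') (Or.inr hb')
  rw [← e1, ← e2] at hrel'
  rw [hrel', ← pow_mul] at hrel
  have h1 : A.valuation a ^ (p * p) = A.valuation a ^ 1 := by rw [hrel, pow_one]
  have h2 := (pow_eq_pow_iff_of_one_lt hva).mp h1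
  have := hp.two_le
  nlinarith

end Values

/-! ### Valuations of the ratio `a' / a ^ p` -/

section Ratio

variable {p : ℕ} {Γ₀ : Type*} [LinearOrderedCommGroupWithZero Γ₀] (v : Valuation Qb Γ₀)

theorem val_ratio_of_inDiscInfty {a a' : Qb} (hva : 1 < v a) (hrel : v a' = v a ^ p) :
    v (a' / a ^ p) = 1 := by
  have h0 : v a ^ p ≠ 0 := pow_ne_zero _ (ne_of_gt (lt_trans zero_lt_one hva))
  rw [map_div₀, map_pow, hrel, div_self h0]

theorem val_ratio_of_inDiscZero (hp : 2 ≤ p) {a a' : Qb} (hva : 1 < v a)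
    (hrel : v a' ^ p = v a) : v (a' / a ^ p) < 1 := by
  have hva' : 1 < v a' := one_lt_of_pow_eq hva hrel
  have h0 : 0 < v a ^ p := pow_pos (lt_trans zero_lt_one hva) p
  rw [map_div₀, map_pow, div_lt_one₀ h0, ← hrel, ← pow_mul]
  calc v a' = v a' ^ 1 := (pow_one _).symm
    _ < v a' ^ (p * p) := pow_lt_pow_right₀ hva' (by nlinarith)

theorem not_mem_of_one_lt_val (A : ValuationSubring Qb) {a : Qb} (hva : 1 < A.valuation a) :
    a ∉ A := by
  intro h
  exact absurd ((ValuationSubring.valuation_le_one_iff A a).mpr h) (not_le.mpr hva)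

end Ratio

end Fermat.Agent.S15.H962

end

end
-- ===== PACK-END S15/H962/GeoFib.lean

-- ===== PACK-BEGIN S15/H962/GeoIdent.lean
section





/-!
# Row S15, node GEO-PARTS (b), IDENTIFICATION at level `p` (helper962)

`sp₀ = reductionModL A p` kills the subgroup `K = discK p A P₀`, for every valuation ring `A` of
`ℚ̄` over a prime `q ≠ p` at which the Prelude's reduction inputs exist:

* `zero_pole_of_conservation` : abstract conservation of zeros and poles (`r_* D = E` and equal
  degrees of the zero parts);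
* `zero_pole_j_of_isPlaceReduction` (DEG-J) : ANY place reduction of `X₀(N)` at `q ∤ N` maps zeros
  of `j` to zeros of `j̄` and poles to poles (degrees `ψ(N)` on both fibres, helper868);
* `hasVal_ratio_cuspInfty`, `hasVal_ratio_cuspZero` : `j_p / j^p` is `1` at `∞` and `0` at `0`;
* `placeRed_eq_of_inDisc` : `r P = r 0` on the disc of `0`, `r P = r ∞` on the disc of `∞`
  (helper722's cusp criterion `H722.r_eq_cusp`);
* `killedBy_reductionModL_of_inputs` : **(b) at level `p`**, generic in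
  `h : ReductionInputsModL A p`.
-/

set_option autoImplicit false
set_option synthInstance.maxHeartbeats 400000
set_option linter.style.haveILetI false

noncomputable section

open AlgebraicCurve ModularCurve HahnSeries Polynomial

namespace Fermat.Agent.S15.H962

open Fermat.Agent.S15.Core Fermat.Agent.S15.H542
open Fermat.Agent.S15.H362 (Qb FB)
open Fermat.Agent.S15.H722 (HasVal jF jdF jFk jInvSer coeffMap_jInvSer)
open Fermat.Agent.S18.H725 (mapDomain_nonneg mapDomain_pos)
open Fermat.Agent.Lib.RR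

/-! ### Conservation of zeros and poles: the abstract lemma -/

section Abstract

variable {K F k Fk : Type*} [Field K] [Field F] [Algebra K F] [Field k] [Field Fk] [Algebra k Fk]

/-- The positive part of a divisor. -/
def posPartDiv (D : Divisor K F) : Divisor K F :=
  Finsupp.mapRange (fun n : ℤ => max n 0) (by simp) D

theorem posPartDiv_apply (D : Divisor K F) (P : Place K F) : posPartDiv D P = max (D P) 0 :=
  Finsupp.mapRange_apply (hf := by simp)

theorem posPartDiv_nonneg (D : Divisor K F) (P : Place K F) : 0 ≤ posPartDiv D P := by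
  rw [posPartDiv_apply]; exact le_max_right _ _

theorem posPartDiv_sub_neg (D : Divisor K F) : posPartDiv D - posPartDiv (-D) = D := by
  ext P
  rw [Finsupp.sub_apply, posPartDiv_apply, posPartDiv_apply, Finsupp.neg_apply]
  rcases le_total 0 (D P) with h | h
  · rw [max_eq_left h, max_eq_right (by omega)]; omega
  · rw [max_eq_right h, max_eq_left (by omega)]; omega

theorem degree_posPartDiv (hdeg : ∀ P : Place K F, P.deg = 1) (D : Divisor K F) :
    Divisor.degree (posPartDiv D) = ∑ P ∈ D.support, max (D P) 0 := by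
  classical
  rw [Fermat.Agent.S37.H518.degree_eq_sum_of_deg_one _ hdeg]
  have h1 : ∀ P, posPartDiv D P = max (D P) 0 := posPartDiv_apply D
  rw [Finset.sum_congr rfl fun P _ => h1 P]
  refine Finset.sum_subset ?_ ?_
  · intro P hP
    rw [Finsupp.mem_support_iff, h1] at hP
    rw [Finsupp.mem_support_iff]
    intro h0
    rw [h0] at hP
    simp at hP
  · intro P _ hP
    rw [Finsupp.notMem_support_iff, h1] at hP
    exact hP

/-- Pushforward of divisors along a degree-preserving map of places preserves the degree. -/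
theorem degree_mapDomain_h962 {r : Place K F → Place k Fk} (hrdeg : ∀ P, (r P).deg = P.deg)
    (D : Divisor K F) : Divisor.degree (Finsupp.mapDomain r D) = Divisor.degree D := by
  induction D using Finsupp.induction with
  | zero => simp
  | single_add P n D _ _ ih =>
    rw [Finsupp.mapDomain_add, map_add, map_add, ih, Finsupp.mapDomain_single,
      Divisor.degree_single, Divisor.degree_single, hrdeg]

/-- An effective divisor of degree zero is zero (all places of degree one). -/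
theorem eq_zero_of_nonneg_of_degree_zero (hdeg : ∀ P : Place K F, P.deg = 1) {G : Divisor K F}
    (hG : ∀ P, 0 ≤ G P) (h0 : Divisor.degree G = 0) : G = 0 := by
  classical
  rw [Fermat.Agent.S37.H518.degree_eq_sum_of_deg_one _ hdeg] at h0
  have h1 := (Finset.sum_eq_zero_iff_of_nonneg (fun P _ => hG P)).mp h0
  ext P
  by_cases hP : P ∈ G.support
  · rw [h1 P hP]; rfl
  · rw [Finsupp.notMem_support_iff.mp hP]; rfl

/-- **Conservation of zeros and poles.**  If `r_* D = E` and the zero parts of `D` and `E` have the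
same degree, then `r` maps zeros to zeros and poles to poles. -/
theorem zero_pole_of_conservation (r : Place K F → Place k Fk)
    (hdegK : ∀ P : Place K F, P.deg = 1) (hdegk : ∀ Q : Place k Fk, Q.deg = 1)
    (D : Divisor K F) (E : Divisor k Fk) (hred : ∀ Q, Finsupp.mapDomain r D Q = E Q)
    (hsum : ∑ P ∈ D.support, max (D P) 0 = ∑ Q ∈ E.support, max (E Q) 0) :
    (∀ P, 0 < D P → 0 < E (r P)) ∧ (∀ P, D P < 0 → E (r P) < 0) := by
  classical
  have hrdeg : ∀ P : Place K F, (r P).deg = P.deg := fun P => by rw [hdegK, hdegk]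
  have hRD : Finsupp.mapDomain r D = E := Finsupp.ext hred
  have hsplit : Finsupp.mapDomain r (posPartDiv D) - Finsupp.mapDomain r (posPartDiv (-D)) = E := by
    rw [← Finsupp.mapDomain_sub, posPartDiv_sub_neg, hRD]
  have hnn₁ : ∀ Q, 0 ≤ Finsupp.mapDomain r (posPartDiv D) Q := fun Q =>
    mapDomain_nonneg r _ fun P _ => posPartDiv_nonneg D P
  have hnn₂ : ∀ Q, 0 ≤ Finsupp.mapDomain r (posPartDiv (-D)) Q := fun Q =>
    mapDomain_nonneg r _ fun P _ => posPartDiv_nonneg (-D) P
  have hEQ : ∀ Q, E Q = Finsupp.mapDomain r (posPartDiv D) Q -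
      Finsupp.mapDomain r (posPartDiv (-D)) Q := fun Q => by
    rw [← Finsupp.sub_apply, hsplit]
  -- the zero parts agree
  have hG : ∀ Q, 0 ≤ (Finsupp.mapDomain r (posPartDiv D) - posPartDiv E) Q := by
    intro Q
    rw [Finsupp.sub_apply, posPartDiv_apply, hEQ Q]
    have h1 := hnn₁ Q
    have h2 := hnn₂ Q
    rcases le_total 0 (Finsupp.mapDomain r (posPartDiv D) Q -
      Finsupp.mapDomain r (posPartDiv (-D)) Q) with h | h
    · rw [max_eq_left h]; omega
    · rw [max_eq_right h]; omega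
  have hGdeg : Divisor.degree (Finsupp.mapDomain r (posPartDiv D) - posPartDiv E) = 0 := by
    rw [map_sub, degree_mapDomain_h962 hrdeg, degree_posPartDiv hdegK,
      degree_posPartDiv hdegk, hsum, sub_self]
  have hpos : Finsupp.mapDomain r (posPartDiv D) = posPartDiv E :=
    sub_eq_zero.mp (eq_zero_of_nonneg_of_degree_zero hdegk hG hGdeg)
  have hneg : Finsupp.mapDomain r (posPartDiv (-D)) = posPartDiv (-E) := by
    have h1 : Finsupp.mapDomain r (posPartDiv (-D)) = posPartDiv E - E := by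
      rw [← hpos, ← hsplit]; abel
    rw [h1]
    have h2 := posPartDiv_sub_neg E
    generalize posPartDiv E = a at h2 ⊢
    generalize posPartDiv (-E) = b at h2 ⊢
    rw [← h2, sub_sub_cancel]
  constructor
  · intro P hP
    have h1 : 0 < Finsupp.mapDomain r (posPartDiv D) (r P) :=
      mapDomain_pos r _ (fun P' _ => posPartDiv_nonneg D P') rfl
        (by rw [posPartDiv_apply, max_eq_left hP.le]; exact hP)
    rw [hpos, posPartDiv_apply] at h1
    by_contra hcon
    rw [max_eq_right (by omega)] at h1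
    exact lt_irrefl _ h1
  · intro P hP
    have h1 : 0 < Finsupp.mapDomain r (posPartDiv (-D)) (r P) :=
      mapDomain_pos r _ (fun P' _ => posPartDiv_nonneg (-D) P') rfl
        (by rw [posPartDiv_apply, Finsupp.neg_apply, max_eq_left (by omega)]; omega)
    rw [hneg, posPartDiv_apply, Finsupp.neg_apply] at h1
    by_contra hcon
    rw [max_eq_right (by omega)] at h1
    exact lt_irrefl _ h1

end Abstract

/-! ### Degree preservation for `j` under a place reduction of `X₀(N)` -/

section Modular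

variable (N : ℕ) [NeZero N]

/-- **DEG-J.**  A place reduction of `X₀(N)` at a prime `q ∤ N` maps the zeros of `j` to zeros of
`j̄` and the poles of `j` to poles of `j̄`. -/
theorem zero_pole_j_of_isPlaceReduction {q : ℕ} (hq : q.Prime) (hqN : ¬ q ∣ N)
    (A : ValuationSubring Qb) (hA : A.LiesOverPrime q)
    (r : Place Qb (FB N) → Place (IsLocalRing.ResidueField A)
      (modularFunctionFieldFullC (IsLocalRing.ResidueField A) N))
    (hr : IsPlaceReductionModL A N r) :
    (∀ P : Place Qb (FB N), 0 < P.ord (jF Qb N) →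
        0 < (r P).ord (jFk (IsLocalRing.ResidueField A) N)) ∧
      (∀ P : Place Qb (FB N), P.ord (jF Qb N) < 0 →
        (r P).ord (jFk (IsLocalRing.ResidueField A) N) < 0) := by
  classical
  haveI : IsAlgClosed (IsLocalRing.ResidueField A) := Fermat.Agent.S18.H9.resAlgClosed Qb A
  have hchar : ∀ p : ℕ, p.Prime → p ∣ N → ((p : ℕ) : IsLocalRing.ResidueField A) ≠ 0 :=
    fun p hp hpN => Fermat.Agent.S18.H9.resChar Qb A q p hq hp hA (fun h => hqN (h ▸ hpN))
  -- the integral series `1 / j`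
  have hy : coeffMap A.subtype (jInvSer A) ∈
      laurentBaseChange Qb (modularFunctionFieldFull N) := by
    rw [coeffMap_jInvSer]; exact inv_mem (Fermat.Agent.S15.H722.j_mem_F Qb N)
  have hyk : coeffMap (IsLocalRing.residue A) (jInvSer A) ∈
      modularFunctionFieldFullC (IsLocalRing.ResidueField A) N := by
    rw [coeffMap_jInvSer]; exact inv_mem (jqModC_mem_full _ N)
  have hne : coeffMap (IsLocalRing.residue A) (jInvSer A) ≠ 0 := by
    rw [coeffMap_jInvSer]
    exact inv_ne_zero (Fermat.Agent.S15.H722.jqModC_ne_zero' _)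
  set u : FB N := ⟨coeffMap A.subtype (jInvSer A), hy⟩ with hu
  set uk : modularFunctionFieldFullC (IsLocalRing.ResidueField A) N :=
    ⟨coeffMap (IsLocalRing.residue A) (jInvSer A), hyk⟩ with huk
  have hu_inv : u = (jF Qb N)⁻¹ := Subtype.ext (by
    show coeffMap A.subtype (jInvSer A) = ((jF Qb N)⁻¹ : FB N)
    rw [coeffMap_jInvSer]; rfl)
  have huk_inv : uk = (jFk (IsLocalRing.ResidueField A) N)⁻¹ := Subtype.ext (by
    show coeffMap (IsLocalRing.residue A) (jInvSer A) =
      ((jFk (IsLocalRing.ResidueField A) N)⁻¹ : modularFunctionFieldFullC _ N)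
    rw [coeffMap_jInvSer]; rfl)
  have hu0 : u ≠ 0 := by
    rw [hu_inv]; exact inv_ne_zero (Fermat.Agent.S15.H722.jF_ne_zero Qb N)
  have huk0 : uk ≠ 0 := by
    rw [huk_inv]; exact inv_ne_zero (Fermat.Agent.S15.H722.jFk_ne_zero _ N)
  obtain ⟨D₁, hD₁, -⟩ := HasPrincipalDivisors.exists_divisor (K := Qb) u hu0
  haveI := Fermat.Agent.S37.H868.hpd_fullC (IsLocalRing.ResidueField A) N hchar
  obtain ⟨E₁, hE₁, -⟩ := HasPrincipalDivisors.exists_divisor (K := IsLocalRing.ResidueField A) uk huk0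
  have hred : ∀ Q, Finsupp.mapDomain r D₁ Q = E₁ Q := fun Q => by
    rw [hE₁]
    exact hr.2 (jInvSer A) hy hyk hne D₁ hD₁ Q
  have hsum : ∑ P ∈ D₁.support, max (D₁ P) 0 = ∑ Q ∈ E₁.support, max (E₁ Q) 0 := by
    rw [Fermat.Agent.S37.H868.sum_zero_inv_j_bar Qb N u (coeffMap_jInvSer A.subtype) D₁ hD₁,
      Fermat.Agent.S37.H868.sum_zero_inv_j_fullC _ N hchar uk
        (coeffMap_jInvSer (IsLocalRing.residue A)) E₁ hE₁]
  obtain ⟨h1, h2⟩ := zero_pole_of_conservation r (Fermat.Agent.Lib.FF398.deg_eq_one_FF N)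
    (Fermat.Agent.S37.H868.deg_fullC _ N hchar) D₁ E₁ hred hsum
  have hDP : ∀ P : Place Qb (FB N), D₁ P = -P.ord (jF Qb N) := fun P => by
    rw [hD₁, hu_inv, Place.ord_inv]
  have hEQ : ∀ Q : Place (IsLocalRing.ResidueField A) (modularFunctionFieldFullC _ N),
      E₁ Q = -Q.ord (jFk (IsLocalRing.ResidueField A) N) := fun Q => by
    rw [hE₁, huk_inv, Place.ord_inv]
  constructor
  · intro P hP
    have := h2 P (by rw [hDP]; omega)
    rw [hEQ] at this
    omega
  · intro P hP
    have := h1 P (by rw [hDP]; omega)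
    rw [hEQ] at this
    omega

end Modular

/-! ### Series of order `0` with leading coefficient `1` -/

section Monic

theorem isMonicOfOrder_pow {f : LaurentSeries ℚ} {m : ℤ} (hf : IsMonicOfOrder f m) (n : ℕ) :
    IsMonicOfOrder (f ^ n) ((n : ℤ) * m) := by
  induction n with
  | zero =>
    have h := IsMonicOfOrder.single (0 : ℤ)
    simpa using h
  | succ n ih =>
    have h := ih.mul hf
    rw [pow_succ]
    have e : ((n + 1 : ℕ) : ℤ) * m = (n : ℤ) * m + m := by push_cast; ring
    rw [e]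
    exact h

theorem order_sub_one_pos_of_isMonicOfOrder {f : LaurentSeries ℚ} (hf : IsMonicOfOrder f 0)
    (hne : f - 1 ≠ 0) : 0 < (f - 1).order := by
  by_contra hle
  rw [not_lt] at hle
  have hc : (f - 1).coeff (f - 1).order ≠ 0 := fun h => hne (HahnSeries.coeff_order_eq_zero.mp h)
  apply hc
  rw [HahnSeries.coeff_sub]
  rcases lt_or_eq_of_le hle with h | h
  · rw [hf.coeff_of_lt h, HahnSeries.coeff_one, if_neg (ne_of_lt h), sub_zero]
  · rw [h, hf.coeff_self, HahnSeries.coeff_one, if_pos rfl, sub_self]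

end Monic

/-! ### The cusp data of `X₀(p)` in the notation of `H722.r_eq_cusp` -/

section CuspData

variable (p : ℕ) [NeZero p]

theorem jF_eq_jBar : jF Qb p = H542.jBar p := Subtype.ext (coe_jBar_eq p).symm

theorem jdF_eq_jNBar : jdF Qb p (dvd_refl p) = jNBar p := Subtype.ext (coe_jNBar_eq p).symm

/-- `hcusps`: the poles of `j` are the two cusps. -/
theorem cusps_of_ord_jF_neg (hp : p.Prime) (P : Place Qb (FB p)) (h : P.ord (jF Qb p) < 0) :
    P = Fermat.Agent.S15.H362.cuspInfty p ∨ P = Fermat.Agent.S15.H362.cuspZero p := by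
  rw [jF_eq_jBar] at h
  exact Fermat.Agent.S15.H362.eq_cusp_of_ord_jBar_neg p hp P h

/-- `hjd`: the poles of `j_p` are poles of `j`. -/
theorem ord_jF_neg_of_ord_jdF_neg (hp : p.Prime) (P : Place Qb (FB p))
    (h : P.ord (jdF Qb p (dvd_refl p)) < 0) : P.ord (jF Qb p) < 0 := by
  rw [jdF_eq_jNBar] at h
  rw [jF_eq_jBar]
  by_contra hcon
  rw [not_lt] at hcon
  exact absurd (ord_jNBar_nonneg_of_ord_jBar_nonneg p hp P hcon) (not_le.mpr h)

theorem jBar_ne_zero_h962 : H542.jBar p ≠ 0 := by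
  have := Fermat.Agent.S15.H602.jBar_sub_ne_zero p 0
  rwa [map_zero, sub_zero] at this

theorem jNBar_ne_zero_h962 : jNBar p ≠ 0 := by
  have := Fermat.Agent.S15.H602.jNBar_sub_ne_zero p 0
  rwa [map_zero, sub_zero] at this

/-- `h0`: `j_p / j ^ p` vanishes at the cusp `0`. -/
theorem hasVal_ratio_cuspZero (hp : p.Prime) :
    HasVal (Fermat.Agent.S15.H362.cuspZero p) (jdF Qb p (dvd_refl p) / jF Qb p ^ p) 0 := by
  refine Fermat.Agent.S15.H722.hasVal_zero_of_ord_pos ?_
  rw [jF_eq_jBar, jdF_eq_jNBar, div_eq_mul_inv,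
    Place.ord_mul _ (jNBar_ne_zero_h962 p) (inv_ne_zero (pow_ne_zero _ (jBar_ne_zero_h962 p))),
    Place.ord_inv, ord_pow]
  have e1 : H542.jBar p = Fermat.Agent.S15.H362.jBar p := rfl
  have e2 : jNBar p = Fermat.Agent.S15.H362.jLevelBar p := rfl
  rw [e1, e2, Fermat.Agent.S15.H362.ord_cuspZero_jBar, Fermat.Agent.S15.H362.ord_cuspZero_jLevelBar]
  have hp2 : (2 : ℤ) ≤ p := by exact_mod_cast hp.two_le
  nlinarith

/-- `hinf`: `j_p / j ^ p` takes the value `1` at the cusp `∞`. -/
theorem hasVal_ratio_cuspInfty :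
    HasVal (Fermat.Agent.S15.H362.cuspInfty p) (jdF Qb p (dvd_refl p) / jF Qb p ^ p) 1 := by
  by_cases hne : jdF Qb p (dvd_refl p) / jF Qb p ^ p - algebraMap Qb (FB p) 1 = 0
  · exact Or.inl hne
  refine Or.inr ?_
  rw [Fermat.Agent.S15.H362.ord_cuspInfty]
  -- the `q`-expansion comes from `ℚ`
  set u₀ : LaurentSeries ℚ := qExpand ℚ p jq / jq ^ p with hu₀
  have hjq : IsMonicOfOrder jq (-1) := Fermat.Agent.S15.H362.isMonicOfOrder_jq
  have hjqp : IsMonicOfOrder (jq ^ p) ((p : ℤ) * (-1)) := isMonicOfOrder_pow hjq p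
  have hqe : IsMonicOfOrder (qExpand ℚ p jq) ((p : ℤ) * (-1)) := hjq.qExpand p
  have hmul : u₀ * jq ^ p = qExpand ℚ p jq := by
    rw [hu₀, div_mul_cancel₀ _ hjqp.ne_zero]
  have hu : IsMonicOfOrder u₀ 0 := by
    have h := IsMonicOfOrder.of_mul_right (by rw [hmul]; exact hqe) hjqp
    rwa [sub_self] at h
  have hcoe : ((jdF Qb p (dvd_refl p) / jF Qb p ^ p - algebraMap Qb (FB p) 1 : FB p) :
      LaurentSeries Qb) = coeffEmb Qb (u₀ - 1) := by
    have h1 : coeffEmb Qb jq = jqModC Qb := by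
      rw [coeffEmb, ← jqModC_rat, coeffMap_jqModC]
    have h2 : coeffEmb Qb (qExpand ℚ p jq) = qExpand Qb p (jqModC Qb) := by
      rw [coeffEmb, coeffMap_qExpand, ← jqModC_rat, coeffMap_jqModC]
    rw [hu₀, map_sub, map_div₀, map_pow, map_one, h1, h2, map_one]
    rfl
  rw [hcoe, Fermat.Agent.S15.H362.order_coeffEmb]
  refine order_sub_one_pos_of_isMonicOfOrder hu ?_
  intro h0
  apply hne
  apply Subtype.ext
  rw [hcoe, h0, map_zero]
  rfl

end CuspData

/-! ### The identification at level `p` -/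

section Ident

variable (p : ℕ) [NeZero p]

theorem residue_eq_zero_of_not_isUnit (A : ValuationSubring Qb) (a : A) (ha : ¬ IsUnit a) :
    IsLocalRing.residue A a = 0 := by
  rw [IsLocalRing.residue_eq_zero_iff]
  exact (IsLocalRing.mem_maximalIdeal a).mpr ha

/-- **The cusp criterion on the residue discs**: a place reduction with degree preservation for
`j` maps the disc of `0` to `r 0` and the disc of `∞` to `r ∞`. -/
theorem placeRed_eq_of_inDisc (hp : p.Prime) (A : ValuationSubring Qb)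
    (r : Place Qb (FB p) → Place (IsLocalRing.ResidueField A)
      (modularFunctionFieldFullC (IsLocalRing.ResidueField A) p))
    (hr : IsPlaceReductionModL A p r)
    (hzero : ∀ P : Place Qb (FB p), 0 < P.ord (jF Qb p) →
      0 < (r P).ord (jFk (IsLocalRing.ResidueField A) p))
    (hpole : ∀ P : Place Qb (FB p), P.ord (jF Qb p) < 0 →
      (r P).ord (jFk (IsLocalRing.ResidueField A) p) < 0) :
    (∀ P, InDiscZero p A P → r P = r (Fermat.Agent.S15.H362.cuspZero p)) ∧
      (∀ P, InDiscInfty p A P → r P = r (Fermat.Agent.S15.H362.cuspInfty p)) := by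
  have key : ∀ (P : Place Qb (FB p)) (a a' : Qb), HasValueAt P (H542.jBar p) a →
      HasValueAt P (jNBar p) a' → 1 < A.valuation a →
      ∃ h : a' / a ^ p ∈ A,
        (IsUnit (⟨a' / a ^ p, h⟩ : A) → r P = r (Fermat.Agent.S15.H362.cuspInfty p)) ∧
        (¬ IsUnit (⟨a' / a ^ p, h⟩ : A) → r P = r (Fermat.Agent.S15.H362.cuspZero p)) := by
    intro P a a' ha ha' hva
    have h1 : HasVal P (jF Qb p) a := by rw [jF_eq_jBar]; exact Or.inr ha
    have h2 : HasVal P (jdF Qb p (dvd_refl p)) a' := by rw [jdF_eq_jNBar]; exact Or.inr ha'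
    exact Fermat.Agent.S15.H722.r_eq_cusp A (IsLocalRing.residue A) p
      (residue_eq_zero_of_not_isUnit A) r hr hzero hpole (dvd_refl p)
      (cusps_of_ord_jF_neg p hp) (ord_jF_neg_of_ord_jdF_neg p hp)
      (hasVal_ratio_cuspInfty p) (hasVal_ratio_cuspZero p hp) h1 h2
      (not_mem_of_one_lt_val A hva)
  constructor
  · rintro P ⟨a, a', ha, ha', hva, hrel⟩
    obtain ⟨h, -, h0⟩ := key P a a' ha ha' hva
    refine h0 ?_
    rw [ValuationSubring.valuation_eq_one_iff]
    exact ne_of_lt (val_ratio_of_inDiscZero A.valuation hp.two_le hva hrel)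
  · rintro P ⟨a, a', ha, ha', hva, hrel⟩
    obtain ⟨h, h1, -⟩ := key P a a' ha ha' hva
    refine h1 ?_
    rw [ValuationSubring.valuation_eq_one_iff]
    exact val_ratio_of_inDiscInfty A.valuation hva hrel

/-- **GEO-PARTS (b) at level `p`**, generic in the reduction inputs: `reductionModL A p` kills
`discK p A P₀` as soon as the place reduction preserves the zeros and the poles of `j`. -/
theorem killedBy_reductionModL (hp : p.Prime) (A : ValuationSubring Qb)
    (P₀ : Place Qb (FB p)) (hP₀ : IsCuspZero p P₀) (h : ReductionInputsModL A p)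
    (hzero : ∀ P : Place Qb (FB p), 0 < P.ord (jF Qb p) →
      0 < (placeReductionModL h P).ord (jFk (IsLocalRing.ResidueField A) p))
    (hpole : ∀ P : Place Qb (FB p), P.ord (jF Qb p) < 0 →
      (placeReductionModL h P).ord (jFk (IsLocalRing.ResidueField A) p) < 0) :
    KilledBy p A P₀ (reductionModL A p) := by
  obtain ⟨h0, hInf⟩ := placeRed_eq_of_inDisc p hp A (placeReductionModL h)
    (isPlaceReductionModL_placeReductionModL h) hzero hpole
  have hP₀eq : P₀ = Fermat.Agent.S15.H362.cuspZero p := by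
    obtain ⟨h1, h2⟩ := hP₀
    have h3 : P₀.ord (Fermat.Agent.S15.H362.jBar p) < 0 := h2
    rcases Fermat.Agent.S15.H362.eq_cusp_of_ord_jBar_neg p hp P₀ h3 with e | e
    · rw [Fermat.Agent.S15.H362.cuspInfty_eq_core] at e
      exact absurd e h1
    · exact e
  have key : ∀ (P P₁ : Place Qb (FB p)) (z : JZero p),
      placeReductionModL h P = placeReductionModL h P₁ → IsDiffClass P P₁ z →
      reductionModL A p z = 0 := by
    rintro P P₁ z hPP ⟨hd, rfl⟩
    rw [reductionModL_mk h]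
    have hz : reductionDegZeroAlong (placeReductionModL h)
        (isPlaceReductionModL_placeReductionModL h).1
        ⟨Finsupp.single P (1 : ℤ) - Finsupp.single P₁ 1, hd⟩ = 0 := by
      apply Subtype.ext
      rw [coe_reductionDegZeroAlong]
      show Finsupp.mapDomain (placeReductionModL h)
        (Finsupp.single P (1 : ℤ) - Finsupp.single P₁ 1) = 0
      rw [Finsupp.mapDomain_sub, Finsupp.mapDomain_single, Finsupp.mapDomain_single, hPP,
        sub_self]
    rw [hz]
    rfl
  refine killedBy_of_gens ?_ ?_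
  · intro P z hP hz
    refine key P P₀ z ?_ hz
    rw [hP₀eq]
    exact h0 P hP
  · intro P z hP hz
    refine key P (_root_.Fermat.Agent.S15.Core.cuspInfty p) z ?_ hz
    rw [← Fermat.Agent.S15.H362.cuspInfty_eq_core]
    exact hInf P hP

end Ident


/-! ### (b) at level `p`, generic in the reduction inputs -/

section Final

variable (p : ℕ) [NeZero p]

/-- **GEO-PARTS (b) at level `p`**: for `A` over a prime `q ≠ p` and ANY reduction inputs at
level `p`, the reduction map `reductionModL A p` kills `discK p A P₀`. -/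
theorem killedBy_reductionModL_of_inputs (hp : p.Prime) {q : ℕ} (hq : q.Prime) (hqp : q ≠ p)
    (A : ValuationSubring Qb) (hA : A.LiesOverPrime q)
    (P₀ : Place Qb (FB p)) (hP₀ : IsCuspZero p P₀) (h : ReductionInputsModL A p) :
    KilledBy p A P₀ (reductionModL A p) := by
  have hqN : ¬ q ∣ p := fun hd => by
    rcases (Nat.dvd_prime hp).mp hd with h1 | h1
    · exact hq.one_lt.ne' h1
    · exact hqp h1
  obtain ⟨hzero, hpole⟩ := zero_pole_j_of_isPlaceReduction p hq hqN A hA (placeReductionModL h)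
    (isPlaceReductionModL_placeReductionModL h)
  exact killedBy_reductionModL p hp A P₀ hP₀ h hzero hpole

end Final

end Fermat.Agent.S15.H962

end

end
-- ===== PACK-END S15/H962/GeoIdent.lean

-- ===== PACK-BEGIN S15/H602/IdentFinal.lean
section




/-!
# S15 / GEO-PARTS (b) (helper602): the specialisation maps kill the residue discs

* `killedBy_comp_pullback602` : for `k` prime, `k ≠ p`, and `A` with `p k` invertible in the
  residue field, `reductionModL A (p k) ∘ π^*` kills `discK p A P₀`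
  (`identLevel602` + `reductionModL_mk` + `pullbackPic0Along_mk`);
* `killedBy_spThree602`, `killedBy_spTwo602` : the maps `H182.spThree`, `H182.spTwo` of helper182
  kill `discK p A P₀` at the places over `3`, resp. `2`;
* `spStatement602` : **(b) of GEO-PARTS**, `SpStatement p` for `p > 5` prime, i.e. exactly the
  hypothesis `hsp` of `H542.geoParts_of_pieces` / `geoStatement_of_pieces`
  (`q ≥ 5` : helper962's `killedBy_reductionModL_of_inputs`, helper182's `sp_inj_of_five_le`).
-/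

set_option autoImplicit false
set_option synthInstance.maxHeartbeats 400000
set_option maxHeartbeats 1000000

noncomputable section

open AlgebraicCurve ModularCurve

namespace Fermat.Agent.S15.H602

open Fermat.Agent.S15.Core Fermat.Agent.S15.H962
open Fermat.Agent.S15.H362 (Qb FB)

section Final

variable (p : ℕ) [NeZero p]

theorem eq_cuspZero_of_isCuspZero602 (hp : p.Prime) {P₀ : Place Qb (FB p)}
    (hP₀ : IsCuspZero p P₀) : P₀ = Fermat.Agent.S15.H362.cuspZero p := by
  obtain ⟨h1, h2⟩ := hP₀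
  have h3 : P₀.ord (Fermat.Agent.S15.H362.jBar p) < 0 := h2
  rcases Fermat.Agent.S15.H362.eq_cusp_of_ord_jBar_neg p hp P₀ h3 with e | e
  · rw [Fermat.Agent.S15.H362.cuspInfty_eq_core] at e
    exact absurd e h1
  · exact e

/-- **Killing at level `p k`.** -/
theorem killedBy_comp_pullback602 (k : ℕ) [NeZero k] (hp : p.Prime) (hp5 : 5 < p)
    (hk : k.Prime) (hkp : k ≠ p) (A : ValuationSubring Qb)
    (hN : ((p * k : ℕ) : IsLocalRing.ResidueField A) ≠ 0)
    (h : ReductionInputsModL A (p * k))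
    (hι : (heckeAlphaBar Qb p k).toRingHom.IsIntegral)
    (hFI : FundamentalIdentityAlong Qb (heckeAlphaBar Qb p k) hι)
    (P₀ : Place Qb (FB p)) (hP₀ : IsCuspZero p P₀) :
    KilledBy p A P₀ ((reductionModL A (p * k)).comp
      (Fermat.Agent.S37.H818.pullbackPic0Along (heckeAlphaBar Qb p k) hι hFI)) := by
  have hP₀eq := eq_cuspZero_of_isCuspZero602 p hp hP₀
  have key := identLevel602 p hp hp5 k hk hkp A hN (placeReductionModL h)
    (isPlaceReductionModL_placeReductionModL h) hι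
  have kill : ∀ (P P₁ : Place Qb (FB p)) (z : JZero p),
      Finsupp.mapDomain (placeReductionModL h)
          (Divisor.pullbackAlong (heckeAlphaBar Qb p k) hι (Finsupp.single P 1)) =
        Finsupp.mapDomain (placeReductionModL h)
          (Divisor.pullbackAlong (heckeAlphaBar Qb p k) hι (Finsupp.single P₁ 1)) →
      IsDiffClass P P₁ z →
      ((reductionModL A (p * k)).comp
        (Fermat.Agent.S37.H818.pullbackPic0Along (heckeAlphaBar Qb p k) hι hFI)) z = 0 := by
    rintro P P₁ z hPP ⟨hd, rfl⟩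
    rw [AddMonoidHom.comp_apply, Fermat.Agent.S37.H818.pullbackPic0Along_mk, reductionModL_mk h]
    have hz : reductionDegZeroAlong (placeReductionModL h)
        (isPlaceReductionModL_placeReductionModL h).1
        (Fermat.Agent.S37.H818.pullbackDegZeroAlong (heckeAlphaBar Qb p k) hι hFI
          ⟨Finsupp.single P (1 : ℤ) - Finsupp.single P₁ 1, hd⟩) = 0 := by
      apply Subtype.ext
      rw [coe_reductionDegZeroAlong, Fermat.Agent.S37.H818.coe_pullbackDegZeroAlong]
      show Finsupp.mapDomain (placeReductionModL h)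
        (Divisor.pullbackAlong (heckeAlphaBar Qb p k) hι
          (Finsupp.single P (1 : ℤ) - Finsupp.single P₁ 1)) = 0
      rw [map_sub, Finsupp.mapDomain_sub, hPP, sub_self]
    rw [hz]
    rfl
  refine killedBy_of_gens ?_ ?_
  · intro P z hP hz
    refine kill P P₀ z ?_ hz
    rw [hP₀eq]
    exact (key P).1 hP
  · intro P z hP hz
    exact kill P (_root_.Fermat.Agent.S15.Core.cuspInfty p) z ((key P).2 hP) hz

theorem two_three_not_dvd602 (hp : p.Prime) (hp5 : 5 < p) : ¬ 2 ∣ p ∧ ¬ 3 ∣ p := by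
  constructor
  · intro h
    have := (Nat.prime_dvd_prime_iff_eq Nat.prime_two hp).mp h
    omega
  · intro h
    have := (Nat.prime_dvd_prime_iff_eq Nat.prime_three hp).mp h
    omega

/-- **(b) at the places over `3`** (level `2 p`). -/
theorem killedBy_spThree602 (hp : p.Prime) (hp5 : 5 < p) (h2 : ¬ 2 ∣ p) (h3 : ¬ 3 ∣ p)
    (A : ValuationSubring Qb) (hA : A.LiesOverPrime 3)
    (P₀ : Place Qb (FB p)) (hP₀ : IsCuspZero p P₀) :
    KilledBy p A P₀ (Fermat.Agent.S15.H182.spThree p h2 h3 A) := by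
  have hN : ((p * 2 : ℕ) : IsLocalRing.ResidueField A) ≠ 0 :=
    Fermat.Agent.S18.H905.natCast_residue_ne_zero A Nat.prime_three hA
      (Fermat.Agent.S15.H182.three_not_dvd_mul_two h3)
  exact killedBy_comp_pullback602 p 2 hp hp5 Nat.prime_two (by omega) A hN
    (Fermat.Agent.S15.H182.rim_three p h3 A hA)
    (Fermat.Agent.S15.H182.transferThree p h2 h3).isIntegral
    (Fermat.Agent.S15.H182.transferThree p h2 h3).fundamentalIdentity P₀ hP₀

/-- **(b) at the places over `2`** (level `3 p`). -/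
theorem killedBy_spTwo602 (hp : p.Prime) (hp5 : 5 < p) (h2 : ¬ 2 ∣ p) (h3 : ¬ 3 ∣ p)
    (A : ValuationSubring Qb) (hA : A.LiesOverPrime 2)
    (P₀ : Place Qb (FB p)) (hP₀ : IsCuspZero p P₀) :
    KilledBy p A P₀ (Fermat.Agent.S15.H182.spTwo p h2 h3 A) := by
  have hN : ((p * 3 : ℕ) : IsLocalRing.ResidueField A) ≠ 0 :=
    Fermat.Agent.S18.H905.natCast_residue_ne_zero A Nat.prime_two hA
      (Fermat.Agent.S15.H182.two_not_dvd_mul_three h2)
  exact killedBy_comp_pullback602 p 3 hp hp5 Nat.prime_three (by omega) A hN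
    (Fermat.Agent.S15.H182.rim_two p h2 A hA)
    (Fermat.Agent.S15.H182.transferTwo p h2 h3).isIntegral
    (Fermat.Agent.S15.H182.transferTwo p h2 h3).fundamentalIdentity P₀ hP₀

/-- **GEO-PARTS (b)**: at every place `A` over a prime `q ≠ p` there is a specialisation map,
injective on the torsion of order prime to `q`, which kills `discK p A P₀`. -/
theorem spStatement602 (hp : p.Prime) (hp5 : 5 < p) : SpStatement p := by
  intro q hq hqp A hA P₀ hP₀
  obtain ⟨h2, h3⟩ := two_three_not_dvd602 p hp hp5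
  by_cases hq5 : 5 ≤ q
  · have hqN : ¬ q ∣ p := fun hd => hqp ((Nat.prime_dvd_prime_iff_eq hq hp).mp hd)
    exact ⟨JZeroC (IsLocalRing.ResidueField A) p, inferInstance, reductionModL A p,
      fun m z hm hmz hz =>
        Fermat.Agent.S15.H182.sp_inj_of_five_le p hq hq5 hqN A hA m z hm hmz hz,
      killedBy_reductionModL_of_inputs p hp hq hqp A hA P₀ hP₀
        (Fermat.Agent.S15.H182.rim_of_five_le p hq hq5 hqN A hA)⟩
  · have hq23 : q = 2 ∨ q = 3 := by
      have hlt : q < 5 := by omega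
      have h2le := hq.two_le
      interval_cases q
      · exact Or.inl rfl
      · exact Or.inr rfl
      · exact absurd hq (by decide)
    rcases hq23 with rfl | rfl
    · exact ⟨JZeroC (IsLocalRing.ResidueField A) (p * 3), inferInstance,
        Fermat.Agent.S15.H182.spTwo p h2 h3 A,
        fun m z hm hmz hz => Fermat.Agent.S15.H182.spTwo_inj p h2 h3 A hA m z hm hmz hz,
        killedBy_spTwo602 p hp hp5 h2 h3 A hA P₀ hP₀⟩
    · exact ⟨JZeroC (IsLocalRing.ResidueField A) (p * 2), inferInstance,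
        Fermat.Agent.S15.H182.spThree p h2 h3 A,
        fun m z hm hmz hz => Fermat.Agent.S15.H182.spThree_inj p h2 h3 A hA m z hm hmz hz,
        killedBy_spThree602 p hp hp5 h2 h3 A hA P₀ hP₀⟩

end Final

end Fermat.Agent.S15.H602

end

end
-- ===== PACK-END S15/H602/IdentFinal.lean

-- ===== PACK-BEGIN S15/H602/GeoFinal.lean
section




/-!
# S15, node GEO: CLOSED (helper602, assembly of helper542's DISC, helper962's PROPAGATION and
IDENT at level `p`, helper182's RED and helper602's IDENT at the levels `2 p`, `3 p`)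

* `geoStatement602 p hp hp5 : Core.GeoStatement p` for every prime `p > 5`;
* `geoStatement_all602` : the hypothesis `hGeo` of `H975.S15_of_geo_sel`, verbatim.
-/

set_option autoImplicit false

noncomputable section

namespace Fermat.Agent.S15.H602

/-- **The node GEO** for every prime `p > 5`. -/
theorem geoStatement602 (p : ℕ) [NeZero p] (hp : p.Prime) (hp5 : 5 < p) :
    Fermat.Agent.S15.Core.GeoStatement p :=
  Fermat.Agent.S15.H542.geoStatement_of_pieces p hp hp5 (Fermat.Agent.S15.H962.propagation p)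
    (spStatement602 p hp hp5)

/-- **The node GEO**, in the form consumed by `H975.S15_of_geo_sel`. -/
theorem geoStatement_all602 :
    ∀ (p : ℕ) [NeZero p], p.Prime → p ∉ ({2, 3, 5, 7, 13} : Finset ℕ) →
      Fermat.Agent.S15.Core.GeoStatement p := by
  intro p _ hp hp'
  refine geoStatement602 p hp ?_
  have h2 : p ≠ 2 := fun h => hp' (by simp [h])
  have h3 : p ≠ 3 := fun h => hp' (by simp [h])
  have h5 : p ≠ 5 := fun h => hp' (by simp [h])
  have h4 : p ≠ 4 := fun h => by rw [h] at hp; exact absurd hp (by decide)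
  have := hp.two_le
  omega

end Fermat.Agent.S15.H602

end

end
-- ===== PACK-END S15/H602/GeoFinal.lean

-- ===== PACK-BEGIN S12/H291/Final.lean
section



/-!
# Row S12, one-step route: frozen S12 from CUSP, GEO-PARTS (subgroup form) and DESC (helper291)

`s12_of_parts` is `Glue.s12_of_s15_nodes` with GEO replaced by GEO-PARTS in subgroup form
(`GeoPartsSubStatement`, which also implies the GEO-PARTS node of row S15).
-/

set_option autoImplicit false

noncomputable section

open WeierstrassCurve WeierstrassCurve.Affine WeierstrassCurve.Affine.Point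

namespace Fermat.Agent.S12.H291

open Fermat.Agent.S15.Core (CuspStatement DescentStatement)

/-- **Row S12 — FINAL (parts form).** -/
theorem s12_of_parts
    (hCusp : ∀ (p : ℕ) (hp : p.Prime), 17 ≤ p →
      haveI : NeZero p := ⟨hp.ne_zero⟩; CuspStatement p)
    (hGeo : ∀ (p : ℕ) (hp : p.Prime), 17 ≤ p →
      haveI : NeZero p := ⟨hp.ne_zero⟩; GeoPartsSubStatement p)
    (hDesc : ∀ (p : ℕ) (hp : p.Prime), 17 ≤ p →
      haveI : NeZero p := ⟨hp.ne_zero⟩; DescentStatement p)
    (P : FreyPackage) (hp : 17 ≤ P.p) :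
    ¬ HasGaloisStableCofixedLine (K := AlgebraicClosure ℚ) ℚ P.freyCurve P.p :=
  s12_of_s15_nodes hCusp
    (fun p hp h17 =>
      haveI : NeZero p := ⟨hp.ne_zero⟩
      geoSub_of_geoPartsSub (hGeo p hp h17))
    hDesc P hp

end Fermat.Agent.S12.H291

end
end
-- ===== PACK-END S12/H291/Final.lean

-- ===== PACK-BEGIN S12/H291/Route.lean
section





/-!
# Row S12, one-step route: frozen S12 from the OPEN nodes of row S15 (helper291)

`s12_of_route` consumes EXACTLY the nodes that the final assembly of row S15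
(`S15.H975.S15_of_geo_sel`) consumes, with GEO in its PARTS form:

* `SpNode p` : GEO-PARTS (b) = IDENT + RED (i), i.e. for every prime `q ≠ p`, every place `A | q`
  and the cusp `0` a specialisation map `sp₀` on `J₀(p)`, injective on prime-to-`q` torsion, which
  kills `discK p A P₀` (`H962.KilledBy`);
* Mordell–Weil for `J₀(p)` (frozen S17), `Alg0Statement`, `DivStatement`, `SelStatement`
  (the DESC nodes of `S15/H975/DescSpec.lean`, `DescSpec2.lean`).

CUSP (`H362.cuspStatement`), PROPAGATION (`H962.propagation`), DISC in subgroup form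
(`H542.geoPartsSub_of_pieces`), MOD in subgroup form (`moduliPlaceSub`) and all the
S12-specific local analysis (`Glue.lean`) are on main and plugged in.
-/

set_option autoImplicit false

noncomputable section

open AlgebraicCurve ModularCurve WeierstrassCurve WeierstrassCurve.Affine
  WeierstrassCurve.Affine.Point

namespace Fermat.Agent.S12.H291

/-- **GEO-PARTS (b)** (IDENT + RED (i)) at level `p`: the only open GEO node. -/
def SpNode (p : ℕ) [NeZero p] : Prop :=
  ∀ q : ℕ, q.Prime → q ≠ p →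
    ∀ A : ValuationSubring (AlgebraicClosure ℚ), A.LiesOverPrime q →
    ∀ P₀ : Place (AlgebraicClosure ℚ) (modularFunctionFieldBar p),
      Fermat.Agent.S15.Core.IsCuspZero p P₀ →
    ∃ (X : Type) (_ : AddCommGroup X) (sp₀ : JZero p →+ X),
      (∀ (m : ℕ) (z : JZero p), ¬ q ∣ m → m • z = 0 → sp₀ z = 0 → z = 0) ∧
      Fermat.Agent.S15.H962.KilledBy p A P₀ sp₀

theorem notMem_of_seventeen_le {p : ℕ} (h17 : 17 ≤ p) :
    p ∉ ({2, 3, 5, 7, 13} : Finset ℕ) := by
  intro h
  simp only [Finset.mem_insert, Finset.mem_singleton] at h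
  omega

/-- **Row S12 — FINAL (route form)**: frozen S12 from the open nodes of row S15. -/
theorem s12_of_route
    (hSp : ∀ (p : ℕ) (hp : p.Prime), 17 ≤ p →
      haveI : NeZero p := ⟨hp.ne_zero⟩; SpNode p)
    (hMW : ∀ (p : ℕ) [NeZero p], p.Prime → 5 ≤ p →
      AddGroup.FG ↥(FixedPoints.addSubgroup (AlgebraicClosure ℚ ≃ₐ[ℚ] AlgebraicClosure ℚ)
        (JZero p)))
    (hA : Fermat.Agent.S15.H975.Alg0Statement) (hDiv : Fermat.Agent.S15.H975.DivStatement)
    (hSel : Fermat.Agent.S15.H975.SelStatement)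
    (P : FreyPackage) (hp : 17 ≤ P.p) :
    ¬ HasGaloisStableCofixedLine (K := AlgebraicClosure ℚ) ℚ P.freyCurve P.p :=
  s12_of_parts
    (fun p hp _ =>
      haveI : NeZero p := ⟨hp.ne_zero⟩
      Fermat.Agent.S15.H362.cuspStatement p hp)
    (fun p hp h17 =>
      haveI : NeZero p := ⟨hp.ne_zero⟩
      Fermat.Agent.S15.H542.geoPartsSub_of_pieces p hp (by omega)
        (Fermat.Agent.S15.H962.propagation p) (hSp p hp h17))
    (fun p hp h17 =>
      haveI : NeZero p := ⟨hp.ne_zero⟩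
      Fermat.Agent.S15.H975.descentStatement_of_sel hA hDiv hSel hp
        (notMem_of_seventeen_le h17) (hMW p hp (by omega)))
    P hp

end Fermat.Agent.S12.H291

end
end
-- ===== PACK-END S12/H291/Route.lean

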