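import Fermat.Agent.Pack.L1.E1L2
import Fermat.Agent.Pack.L1.E8L2
import Fermat.Agent.Pack.L1.E8L3
import Fermat.Agent.Pack.L1.E7L0
import Fermat.Agent.Pack.L1.E3L1
import Fermat.Agent.Pack.S43MC.G0E27L3
import Fermat.Agent.Pack.S43MC.G0E21L0
import Fermat.Agent.Pack.S44C.G0E13L2
import Fermat.Agent.Pack.S59C.E10L1
import Fermat.Agent.Pack.S59C.E9L2
import Fermat.Agent.Pack.S59C.E7L2
import Fermat.Agent.Pack.S44C.G0E10L2
import Fermat.Agent.Pack.S44C.G0E30L3
import Fermat.Agent.Pack.S45.E0L3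
import Fermat.Agent.Pack.S45.E3L1

-- ===== PACK-BEGIN G1/H723/DTop.lean
section




/-!
# Row GLUE, leaf G1, block D-TOP (fallback copy of the architect, helper723)

`descent723 : Glue.DescentStatement` VERBATIM (trunk `Glue/Spec.lean`, sha256 `a0a4a645…`), wired from

* D5  `G1.H659.d5_659`          (helper659; `IsResModTw ⇒` class in `Hom(Γ₀(3N), 𝔽₃)`, `Occ826`),
* D7  `S41.H45.ne_h45`          (main; the non-Eisenstein prime `ℓ₀ ≡ 1 mod 3N`),
* D-ASM `G1.H486.bettiDescent`  (helper486; the Betti `C₃`-descent step, `TK` vocabulary),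
* D6  `G1.H659.d6_659`          (helper659; class at an EVEN level `⇒ IsResModTw`).
-/

set_option autoImplicit false
set_option linter.style.haveILetI false

noncomputable section

namespace Fermat.Agent.G1.H723

open CongruenceSubgroup
open Fermat.Agent.S29.H642 Fermat.Agent.S59.H826 Fermat.Agent.S59.TW.H653
open Fermat.Agent.G1.H659 Fermat.Agent.G1.H486
open scoped MatrixGroups

/-- The twisted residual modularity of the trunk is the one of `G1/H659` (same text). -/
theorem isResModTw_iff_659 (W : WeierstrassCurve ℤ) (tw : Bool) (M : ℕ) :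
    Fermat.Agent.Glue.IsResModTw W tw M ↔ IsResModTw659 W tw M := Iff.rfl

/-- `χ₋₃(ℓ) ≡ ℓ mod 3` for `3 ∤ ℓ`. -/
theorem chi3_659_cast {ℓ : ℕ} (h : ℓ % 3 ≠ 0) : ((chi3_659 ℓ : ℤ) : ZMod 3) = (ℓ : ZMod 3) := by
  have h3 : ℓ % 3 < 3 := Nat.mod_lt _ (by norm_num)
  have hℓ : (ℓ : ZMod 3) = ((ℓ % 3 : ℕ) : ZMod 3) := by
    rw [ZMod.natCast_mod]
  unfold chi3_659
  rw [hℓ]
  interval_cases hm : ℓ % 3
  · exact absurd rfl h
  · simp
  · simp
    decide

/-- The twist factor after the multiplication by `ℓ ^ i`, `i < 2`. -/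
theorem tw_factor_pow {ℓ : ℕ} (h : ℓ % 3 ≠ 0) (tw : Bool) {i : ℕ} (hi : i < 2) (a : ℤ) :
    (ℓ : ZMod 3) ^ i * (((if tw then chi3_659 ℓ else 1) * a : ℤ) : ZMod 3) =
      (((if (if i = 1 then !tw else tw) then chi3_659 ℓ else 1) * a : ℤ) : ZMod 3) := by
  have hc := chi3_659_cast h
  have hsq : (ℓ : ZMod 3) * (ℓ : ZMod 3) = 1 := by
    have h3 : ℓ % 3 < 3 := Nat.mod_lt _ (by norm_num)
    have hℓ : (ℓ : ZMod 3) = ((ℓ % 3 : ℕ) : ZMod 3) := by rw [ZMod.natCast_mod]
    rw [hℓ]
    interval_cases hm : ℓ % 3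
    · exact absurd rfl h
    · simp
    · decide
  interval_cases i
  · cases tw <;> simp
  · cases tw
    · simp only [pow_one, Bool.false_eq_true, if_false, if_true, Bool.not_false, one_mul]
      push_cast
      rw [hc]
    · simp only [pow_one, if_true, Bool.not_true, Bool.false_eq_true, if_false, one_mul]
      push_cast
      rw [hc, ← mul_assoc, hsq, one_mul]

/-- **Block D-TOP**: one `C₃`-step of the descent at neat levels, VERBATIM. -/
theorem descent723 : Fermat.Agent.Glue.DescentStatement := by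
  intro W hΔ _hW h3 N r tw hneat h3N hres
  haveI : Fact (Nat.Prime 3) := ⟨Nat.prime_three⟩
  haveI := isElliptic_map826 W hΔ
  have h3Npos : 0 < 3 * N := hneat.pos
  have hNpos : 0 < N := by omega
  have hN0 : N ≠ 0 := hNpos.ne'
  have h4N : 4 ∣ N := (Nat.Coprime.dvd_mul_left (by norm_num : Nat.Coprime 4 3)).1 hneat.four_dvd
  have h2N : 2 ∣ N := dvd_trans (by norm_num : 2 ∣ 4) h4N
  -- D5: the class at level `3 N`
  obtain ⟨x, hx0, hxT⟩ := d5_659 W tw (3 * N) h3Npos ((isResModTw_iff_659 W tw (3 * N)).mp hres)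
  -- D7: the non-Eisenstein prime `ℓ₀ ≡ 1 mod 3 N`
  obtain ⟨ℓ₀, hℓ₀, hℓ₀S, hℓ₀good, hℓ₀1, hℓ₀ne⟩ :=
    Fermat.Agent.S41.H45.ne_h45 (W.map (Int.castRingHom ℚ)) W (isIntegralModelOf_self826 W) 3
      (by norm_num) (by norm_num) h3 (3 * N) h3Npos {2, 3}
  have hℓ₀3 : ℓ₀ ≠ 3 := fun h => hℓ₀S (by rw [h]; simp)
  have hℓ₀M : ¬ ℓ₀ ∣ 3 * N := not_dvd_of_modEq_one826 hℓ₀ hℓ₀1
  have hℓ₀31 : ℓ₀ ≡ 1 [MOD 3] := hℓ₀1.of_mul_right N
  have hℓ₀mod : ℓ₀ % 3 = 1 := by
    have h := hℓ₀31
    unfold Nat.ModEq at h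
    simpa using h
  -- the data of the Betti step
  set Sig : Set ℕ := {ℓ | ℓ.Prime ∧ ¬ ℓ ∣ 3 * N ∧ W.IsGoodPrimeFor ℓ ∧ ℓ ≠ 3} with hSigdef
  set θ : ℕ → ZMod 3 := fun ℓ => (((if tw then chi3_659 ℓ else 1) * W.apOfModel ℓ : ℤ) : ZMod 3)
    with hθ
  have hSig : ∀ ℓ ∈ Sig, ℓ.Prime ∧ ¬ ℓ ∣ 3 * N := fun ℓ hℓ => ⟨hℓ.1, hℓ.2.1⟩
  have hT : ∀ (ℓ : ℕ) [Fact ℓ.Prime], ℓ ∈ Sig →
      TK (3 * N) (Gamma0 (3 * N)) ℓ x = θ ℓ • x := by
    intro ℓ _ hℓ
    rw [TK_Gamma0 hℓ.2.1]
    exact hxT ℓ hℓ.2.1 ⟨hℓ.2.2.1, hℓ.2.2.2⟩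
  have hℓ₀Sig : ℓ₀ ∈ Sig := ⟨hℓ₀, hℓ₀M, hℓ₀good, hℓ₀3⟩
  have hℓ₀dvd : ((3 * N : ℕ) : ℤ) ∣ (ℓ₀ : ℤ) - 1 := by
    have := (Nat.modEq_iff_dvd.mp hℓ₀1.symm)
    simpa using this
  have hNE : θ ℓ₀ ≠ 2 := by
    intro h
    apply hℓ₀ne
    have hθ₀ : θ ℓ₀ = ((W.apOfModel ℓ₀ : ℤ) : ZMod 3) := by
      show (((if tw then chi3_659 ℓ₀ else 1) * W.apOfModel ℓ₀ : ℤ) : ZMod 3) = _
      have : (if tw then chi3_659 ℓ₀ else 1) = 1 := twFactor659_of_mod_one tw hℓ₀mod
      rw [this, one_mul]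
    rw [hθ₀] at h
    have hℓz : ((ℓ₀ : ℕ) : ZMod 3) = 1 := by
      have : ((ℓ₀ : ℕ) : ZMod 3) = ((ℓ₀ % 3 : ℕ) : ZMod 3) := by rw [ZMod.natCast_mod]
      rw [this, hℓ₀mod, Nat.cast_one]
    rw [← ZMod.intCast_zmod_eq_zero_iff_dvd]
    push_cast
    rw [h, hℓz]
    ring
  obtain ⟨i, y, hi, hy0, hyT⟩ :=
    bettiDescent h3N hN0 Sig hSig θ x hx0 hT ℓ₀ hℓ₀Sig hℓ₀dvd hNE
  -- D6 at the even level `N`
  refine ⟨if i = 1 then !tw else tw, ?_⟩
  apply (isResModTw_iff_659 W _ N).mpr
  refine d6_659 W hΔ h3 N hNpos h2N _ ⟨y, hy0, ?_⟩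
  intro ℓ _ hℓN hgood
  have hℓp : ℓ.Prime := Fact.out
  have hℓ3N : ¬ ℓ ∣ 3 * N := by
    intro h
    rcases (Nat.Prime.dvd_mul hℓp).mp h with h' | h'
    · exact hgood.2 ((Nat.prime_dvd_prime_iff_eq hℓp Nat.prime_three).mp h')
    · exact hℓN h'
  have hℓmod : ℓ % 3 ≠ 0 := by
    intro h
    have : 3 ∣ ℓ := Nat.dvd_of_mod_eq_zero h
    exact hgood.2 ((Nat.prime_dvd_prime_iff_eq Nat.prime_three hℓp).mp this).symm
  have h1 := hyT ℓ ⟨hℓp, hℓ3N, hgood.1, hgood.2⟩
  rw [TK_Gamma0 hℓN] at h1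
  rw [h1]
  congr 1
  exact tw_factor_pow hℓmod tw hi (W.apOfModel ℓ)

end Fermat.Agent.G1.H723

end
end
-- ===== PACK-END G1/H723/DTop.lean

-- ===== PACK-BEGIN G1/H723/G1Of.lean
section



/-!
# Row GLUE, leaf G1: `G1Statement` from block X alone (helper723)

Blocks R (`G1.H120.raise`, helper120) and D (`G1.H723.descent723`) are closed, so the level lowering
at `3` (`Glue.G1Statement`) follows from the twist exclusion `Glue.TwistExclStatement` (block X).
-/

set_option autoImplicit false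

namespace Fermat.Agent.G1.H723

/-- `G1` from block X: blocks R and D are plugged. -/
theorem g1_of_twistExcl723 (hX : Fermat.Agent.Glue.TwistExclStatement) :
    Fermat.Agent.Glue.G1Statement :=
  Fermat.Agent.Glue.g1_of Fermat.Agent.G1.H120.raise descent723 hX

end Fermat.Agent.G1.H723

end
-- ===== PACK-END G1/H723/G1Of.lean

-- ===== PACK-BEGIN G2/Q/Spec.lean
section





/-!
# Row GLUE, phase 2, BLOCK Q — frozen interfaces (architect helper666)

Board: `coord/GLUE2-Q.md` on `origin/helper666`.  OFF-MAIN, plain world.  Definitions only.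

Target: `Fermat.Agent.Glue.QStatement` — a level of residual modularity at `3` of a semistable
`W` with irreducible `W[3]` can be replaced by one which is cube-free away from `3`.

Mathematics: for `q ≠ p` and `q³ ∣ L` the `q`-new part of `J₀(L)` has unipotent reduction at
`q` and trivial component-group contribution, so it has NO inertia-fixed `p`-torsion.  This is
the EXACT form (`C = 1`) of the Carayol engine of row CAR3 (`S45.Eng`, levels `q ^ e`, `e ≥ 3`):
ALG-E is proved there with `C = q ^ 2`, which is prime to every admissible exponent `m`.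

## The chain (top to bottom)

    Glue.QStatement
      ⇑ TOP  (padding `L ↦ 36 r L` by stabilisation, then induction on the level)
    LoGEStatement          W-form at neat levels: `q ^ 3 ∣ L`, `ResMod p L ⟹ ResMod p (L / q)`
      ⇑ W-glue (replay of `H885.loSq_of_core`; row inputs BLR-W, R3'-W)
    CoreGEStatement        J-form: a nonzero inertia-fixed eigenclass of `J₀(M q q)[p]`, `q ∣ M`,
                           pushes forward to a nonzero eigenclass of `J₀(M q)[p]`
      ⇑ (W0) `H301.occursIn_of_not_isQNew`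
    QNewZeroNeatStatement  J-form: the `q`-new inertia-fixed `p`-torsion of `J₀(M q q)` is ZERO
      ⇑ DESC-X  `DescExactStatement`  (replay of `H756` / `H36` with `C = 1`, `k = 0`)
    LevelExactGEStatement  E-form: the level engine at `q ∣ M` with `C = 1`
      ⇑ ALG-X  `AlgExactStatement` (replay of `S45.H193.algE_of_leaves` + Bezout)
      ⇑ MOD-E  `S45.Eng.ModelEStatement` (closed by row CAR3)

The leaves are `AlgExactStatement` (or directly `LevelExactGEStatement`) and
`DescExactStatement`; everything else is proved in `G2/Q/Skel.lean`.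
-/

set_option autoImplicit false
set_option linter.style.haveILetI false
set_option linter.unusedSectionVars false
set_option synthInstance.maxHeartbeats 400000
set_option maxHeartbeats 1600000

noncomputable section

namespace Fermat.Agent.G2.Q

open ModularCurve AlgebraicCurve
open Fermat.Agent.S36.Eng (NeatFor Unramified inertiaFld)
open Fermat.Agent.Ribet.Spec Fermat.Agent.Ribet.H944.Wall

/-! ## E-form -/

/-- **The EXACT engine at the level `E`**, levels `N = M q` and `N q = M q q`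
(`S36.Eng.LevelInertiaAt E M q` with `C = 1`). -/
def LevelExactAt (E : IntermediateField ℚ A2.Qb) (M q : ℕ) [NeZero M] [NeZero q]
    [NeZero (M * q)] : Prop :=
  ∀ m : ℕ, 0 < m → ¬ q ∣ m →
    ∀ y : A2.Mod.FE E (M * q * q), y ≠ 0 → A2.DivisibleDiv E m y →
      S35.G.NormPow (A2.Mod.αE E (M * q) q) m y → S35.G.NormPow (A2.Mod.βE E (M * q) q) m y →
      ∃ (c : E) (h : A2.Mod.FE E (M * q * q)), h ≠ 0 ∧
        y = algebraMap E (A2.Mod.FE E (M * q * q)) c * h ^ m

/-- **LEV-X (interface statement)**: the exact level engine at neat levels `M q`, `q ∣ M`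
(so `q ^ 3 ∣ M q q`), over every unramified good level `E`. -/
def LevelExactGEStatement : Prop :=
  ∀ (P : ValuationSubring A2.Qb) (E : IntermediateField ℚ A2.Qb) (M q : ℕ)
    [NeZero M] [NeZero q] [NeZero (M * q)],
    q.Prime → q ∣ M → P.LiesOverPrime q → Unramified P E q → NeatFor M q →
    LevelExactAt E M q

/-! ## J-form -/

/-- **The exact engine on `J₀(N q)`**: the `I_P`-fixed `p`-torsion of the `q`-new part is zero. -/
def QNewZeroAt (N q p : ℕ) [NeZero N] [NeZero q]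
    (P : ValuationSubring (AlgebraicClosure ℚ)) : Prop :=
  ∀ x : JZero (N * q), p • x = 0 → Fermat.Agent.S35.H155.IsQNew N q x →
    (∀ τ ∈ P.inertiaSubgroupIn ℚ, τ • x = x) → x = 0

/-- **DESC-X (leaf), pointwise**: the exact level engine over the inertia field of `A` gives the
exact engine on `J₀(M q q)` (replay of `H756.qNewInertiaAt_of_levelEngine` with `C = 1`). -/
def DescExactStatement : Prop :=
  ∀ (M q p : ℕ) [NeZero M] [NeZero q] [NeZero (M * q)], q.Prime → p.Prime → p ≠ q →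
    ∀ A : ValuationSubring A2.Qb, A.LiesOverPrime q →
      LevelExactAt (inertiaFld A) M q → QNewZeroAt (M * q) q p A

/-- **The exact engine on `J₀(M q q)` at neat levels, `q ∣ M`.** -/
def QNewZeroNeatStatement : Prop :=
  ∀ (M q p : ℕ) [NeZero M] [NeZero q] [NeZero (M * q)], q.Prime → q ∣ M → NeatFor M q →
    p.Prime → p ≠ q →
    ∀ A : ValuationSubring A2.Qb, A.LiesOverPrime q → QNewZeroAt (M * q) q p A

/-- **CORE-GE** (J-form): at a neat level `M q`, `q ∣ M`, the eigensystem of a nonzero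
inertia-fixed eigenclass of `J₀(M q q)[p]` occurs in `J₀(M q)[p]`. -/
def CoreGEStatement : Prop :=
  ∀ (M q p : ℕ) [NeZero M] [NeZero q] [NeZero (M * q)], q.Prime → q ∣ M → NeatFor M q →
    p.Prime → p ≠ q →
    ∀ P : ValuationSubring (AlgebraicClosure ℚ), P.LiesOverPrime q →
    ∀ (S : Finset ℕ) (a : ℕ → ℤ) (x : JZero (M * q * q)), x ≠ 0 → p • x = 0 →
      EigenAt (M * q * q) S a x → (∀ τ ∈ P.inertiaSubgroupIn ℚ, τ • x = x) →
      OccursIn (M * q) p (insert q S) a

/-! ## W-form -/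

/-- **LO-GE at neat levels** (W-form): `q ^ 3 ∣ L`, `L / q ^ 2` neat for `q`. -/
def LoGEStatement : Prop :=
  ∀ (p : ℕ) (_hp : p.Prime) (_hp2 : p ≠ 2)
    (W : WeierstrassCurve ℤ) (_hΔ : W.Δ ≠ 0) (_hW : W.IsSemistableModel)
    (_hirr : W.ModRepIsIrreducible p)
    (L q : ℕ) (_hL : L ≠ 0) (_hq : q.Prime) (_hqp : q ≠ p) (_hq3 : q ^ 3 ∣ L)
    (_hneat : NeatFor (L / q ^ 2) q)
    (_hres : W.IsResiduallyModularOfLevel p L),
    W.IsResiduallyModularOfLevel p (L / q)

end Fermat.Agent.G2.Q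

end

end
-- ===== PACK-END G2/Q/Spec.lean

-- ===== PACK-BEGIN G2/Q/Skel.lean
section








/-!
# Row GLUE, phase 2, BLOCK Q — the skeleton (architect helper666)

Sorry-free; the leaves are hypotheses.

* `qNewZeroNeat_of_leaves : LevelExactGEStatement → DescExactStatement → QNewZeroNeatStatement`
* `coreGE_of_qNewZero     : QNewZeroNeatStatement → CoreGEStatement`   ((W0) of helper301)
* `loGE_of_coreGE         : BLR-W → R3'-W → CoreGEStatement → LoGEStatement`
                            (replay of `H885.loSq_of_core`)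
* `qStatement_of_loGE     : LoGEStatement → Glue.QStatement`
                            (padding by `36 r`, induction on the level)
* `qStatement_of_leaves   : BLR-W → R3'-W → LevelExactGEStatement → DescExactStatement →
                            Glue.QStatement`
-/

set_option autoImplicit false
set_option linter.style.haveILetI false
set_option linter.unusedSectionVars false
set_option synthInstance.maxHeartbeats 400000
set_option maxHeartbeats 1600000

noncomputable section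

namespace Fermat.Agent.G2.Q

open ModularCurve AlgebraicCurve
open Fermat.Agent.S36.Eng (NeatFor Unramified inertiaFld)
open Fermat.Agent.Ribet Fermat.Agent.Ribet.Spec Fermat.Agent.Ribet.H944.Wall

/-! ## J-form -/

/-- LEV-X + DESC-X ⟹ the exact engine on `J₀(M q q)` at neat levels. -/
theorem qNewZeroNeat_of_leaves (hL : LevelExactGEStatement) (hD : DescExactStatement) :
    QNewZeroNeatStatement := by
  intro M q p _ _ _ hq hqM hneat hp hpq A hA
  exact hD M q p hq hp hpq A hA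
    (hL A (inertiaFld A) M q hq hqM hA
      (Fermat.Agent.S36.Eng.inertiaFieldStatement q hq A hA) hneat)

/-- The exact engine ⟹ CORE-GE ((W0): a class which is not `q`-new pushes forward). -/
theorem coreGE_of_qNewZero (h : QNewZeroNeatStatement) : CoreGEStatement := by
  intro M q p _ _ _ hq hqM hneat hp hpq P hP S a x hx hpx heig hfix
  have hnew : ¬ Fermat.Agent.S35.H155.IsQNew (M * q) q x := fun hn =>
    hx (h M q p hq hqM hneat hp hpq P hP x hpx hn hfix)
  exact Fermat.Agent.S59.LoSqC.H301.occursIn_of_not_isQNew hq hpx heig hnew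

/-! ## W-form -/

/-- **LO-GE at neat levels from CORE-GE** (replay of `H885.loSq_of_core`). -/
theorem loGE_of_coreGE (hE : EmbedWStatement) (hR3' : AlmostAllToWitnessWStatement)
    (hCore : CoreGEStatement) : LoGEStatement := by
  intro p hp hp2 W hΔ hW hirr L q hL hq hqp hq3 hneat hres
  have hq2L : q ^ 2 ∣ L := dvd_trans (pow_dvd_pow q (by norm_num)) hq3
  obtain ⟨M, hM⟩ : ∃ M, L = M * q * q := by
    obtain ⟨c, hc⟩ := hq2L
    exact ⟨c, by rw [hc]; ring⟩
  have hM0 : M ≠ 0 := by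
    rintro rfl
    apply hL
    rw [hM]
    simp
  have hLq2 : L / q ^ 2 = M := by
    rw [hM, mul_assoc, ← pow_two]
    exact Nat.mul_div_cancel _ (pow_pos hq.pos 2)
  have hLq : L / q = M * q := by
    rw [hM]
    exact Nat.mul_div_cancel _ hq.pos
  have hqM : q ∣ M := by
    have h1 : q ^ 2 * q ∣ q ^ 2 * M := by
      have e1 : q ^ 2 * q = q ^ 3 := by ring
      have e2 : q ^ 2 * M = M * q * q := by ring
      rw [e1, e2, ← hM]
      exact hq3
    exact Nat.dvd_of_mul_dvd_mul_left (pow_pos hq.pos 2) h1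
  rw [hLq2] at hneat
  rw [hLq]
  haveI : NeZero L := ⟨hL⟩
  haveI : NeZero M := ⟨hM0⟩
  haveI : NeZero q := ⟨hq.ne_zero⟩
  haveI : NeZero (M * q) := ⟨Nat.mul_ne_zero hM0 hq.ne_zero⟩
  haveI : NeZero (M * q * q) := ⟨Nat.mul_ne_zero (NeZero.ne (M * q)) hq.ne_zero⟩
  -- the embedding `W[p] ↪ J₀(L)`
  obtain ⟨f, 𝔪, hwit⟩ := hres
  obtain ⟨S, ι, hinj, hgal, hT⟩ := hE W p L hΔ hp hp2 hirr f 𝔪 hwit
  -- an inertia-fixed vector
  obtain ⟨A, hA, -⟩ := Fermat.Agent.Ribet.H584.places q hq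
  obtain ⟨v, hv0, hvfix⟩ := Fermat.Agent.S59.H885.fixW W p q hΔ hW hp hq hqp A hA
  obtain ⟨e, heG, heT⟩ := Fermat.Agent.S59.H885.exists_levelCast885 L (M * q * q) hM
  have hpv : p • ι v = 0 := by
    rw [← map_nsmul]
    have h0 : p • v = 0 := by
      apply Subtype.ext
      have hv := v.2
      rw [Submodule.mem_torsionBy_iff, natCast_zsmul] at hv
      simpa using hv
    rw [h0, _root_.map_zero]
  have hocc : OccursIn (M * q) p (insert q S) (fun ℓ => W.apOfModel ℓ) :=
    hCore M q p hq hqM hneat hp (Ne.symm hqp) A hA S _ (e (ι v))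
      (by
        intro h
        have h1 : ι v = 0 := e.injective (by rw [h, _root_.map_zero])
        exact hv0 (hinj (by rw [h1, _root_.map_zero])))
      (by rw [← map_nsmul, hpv, _root_.map_zero])
      (by
        intro ℓ hℓ
        rw [← heT, hT ℓ hℓ v, map_zsmul])
      (by
        intro τ hτ
        rw [← heG, ← hgal, hvfix τ hτ])
  have hlow : Lowered (M * q) p S (fun ℓ => W.apOfModel ℓ) :=
    ⟨insert q S, Finset.subset_insert q S, Or.inl hocc⟩
  obtain ⟨S'', g, 𝔪', hg, hmax, hpm, hc⟩ :=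
    eigenAway_of_lowered Fermat.Agent.Ribet.H404.eigenformOfOccursAway hp hlow
  exact ⟨g, 𝔪', hR3' W p (M * q) hΔ hp hp2 (Nat.pos_of_ne_zero (NeZero.ne (M * q))) hirr g 𝔪' _
    hg hmax hpm hc⟩

/-! ## Arithmetic -/

/-- `a ∣ L`, `b ∣ L`, `gcd (a, b) = 1` ⟹ `a ∣ L / b`. -/
theorem dvd_div_of_coprime {a b L : ℕ} (ha : a ∣ L) (hb : b ∣ L) (hc : Nat.Coprime a b) :
    a ∣ L / b := by
  have hL : L = b * (L / b) := (Nat.mul_div_cancel' hb).symm
  exact hc.dvd_of_dvd_mul_left (by rw [← hL]; exact ha)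

theorem coprime_four_of_ne_two {q : ℕ} (hq : q.Prime) (hq2 : q ≠ 2) : Nat.Coprime 4 q := by
  have h2 : Nat.Coprime 2 q := (Nat.coprime_primes Nat.prime_two hq).2 (Ne.symm hq2)
  have h4 : Nat.Coprime (2 ^ 2) q := Nat.Coprime.pow_left 2 h2
  simpa using h4

theorem coprime_nine_of_ne_three {q : ℕ} (hq : q.Prime) (hq3 : q ≠ 3) : Nat.Coprime 9 q := by
  have h3 : Nat.Coprime 3 q := (Nat.coprime_primes Nat.prime_three hq).2 (Ne.symm hq3)
  have h9 : Nat.Coprime (3 ^ 2) q := Nat.Coprime.pow_left 2 h3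
  simpa using h9

/-! ## The top -/

section Induction

variable {W : WeierstrassCurve ℤ}

/-- The induction: at padded levels (`4 ∣ L`, `9 ∣ L`, `r ∥ L` with `r ≡ 11 mod 12`) every cube
away from `3` is removed. -/
theorem exists_cubefree_of_loGE (hLo : LoGEStatement) (hΔ : W.Δ ≠ 0)
    (hW : W.IsSemistableModel) (hirr : W.ModRepIsIrreducible 3)
    (r : ℕ) (hr : r.Prime) (hr12 : r % 12 = 11) :
    ∀ L : ℕ, L ≠ 0 → 4 ∣ L → 9 ∣ L → r ∣ L → ¬ r ^ 2 ∣ L →
      W.IsResiduallyModularOfLevel 3 L →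
      ∃ M' : ℕ, 0 < M' ∧ W.IsResiduallyModularOfLevel 3 M' ∧
        ∀ q : ℕ, q.Prime → q ≠ 3 → ¬ q ^ 3 ∣ M' := by
  intro L
  induction L using Nat.strong_induction_on with
  | _ L ih =>
    intro hL h4 h9 hrL hr2 hres
    by_cases hcf : ∀ q : ℕ, q.Prime → q ≠ 3 → ¬ q ^ 3 ∣ L
    · exact ⟨L, Nat.pos_of_ne_zero hL, hres, hcf⟩
    · rw [not_forall] at hcf
      obtain ⟨q, hq'⟩ := hcf
      rw [Classical.not_imp, Classical.not_imp, not_not] at hq'
      obtain ⟨hq, hq3, hqL3⟩ := hq'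
      have hq2L : q ^ 2 ∣ L := dvd_trans (pow_dvd_pow q (by norm_num)) hqL3
      have hqL : q ∣ L := dvd_trans (dvd_pow_self q two_ne_zero) hq2L
      have hqr : q ≠ r := by
        rintro rfl
        exact hr2 hq2L
      have hcrq : Nat.Coprime r q := (Nat.coprime_primes hr hq).2 (Ne.symm hqr)
      have hneat : NeatFor (L / q ^ 2) q := by
        refine ⟨⟨r, hr, hr12, Ne.symm hqr, ?_⟩, fun hq2 => ?_, fun hq2 => ?_⟩
        · exact dvd_div_of_coprime hrL hq2L (Nat.Coprime.pow_right 2 hcrq)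
        · exact dvd_div_of_coprime h4 hq2L
            (Nat.Coprime.pow_right 2 (coprime_four_of_ne_two hq hq2))
        · subst hq2
          exact dvd_div_of_coprime h9 hq2L (by norm_num)
      have hres' : W.IsResiduallyModularOfLevel 3 (L / q) :=
        hLo 3 Nat.prime_three (by norm_num) W hΔ hW hirr L q hL hq hq3 hqL3 hneat hres
      have hdiv : L / q ∣ L := Nat.div_dvd_of_dvd hqL
      have hLq0 : L / q ≠ 0 := by
        intro h0
        have := Nat.div_mul_cancel hqL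
        rw [h0, zero_mul] at this
        exact hL this.symm
      have hlt : L / q < L := Nat.div_lt_self (Nat.pos_of_ne_zero hL) hq.one_lt
      have h4' : 4 ∣ L / q := by
        by_cases hq2 : q = 2
        · subst hq2
          have h8 : 2 * 4 ∣ L := by
            have : (2 : ℕ) ^ 3 = 2 * 4 := by norm_num
            rw [← this]
            exact hqL3
          have hL2 : L = 2 * (L / 2) := (Nat.mul_div_cancel' hqL).symm
          rw [hL2] at h8
          exact Nat.dvd_of_mul_dvd_mul_left (by norm_num) h8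
        · exact dvd_div_of_coprime h4 hqL (coprime_four_of_ne_two hq hq2)
      have h9' : 9 ∣ L / q := dvd_div_of_coprime h9 hqL (coprime_nine_of_ne_three hq hq3)
      have hr' : r ∣ L / q := dvd_div_of_coprime hrL hqL hcrq
      exact ih (L / q) hlt hLq0 h4' h9' hr' (fun h => hr2 (h.trans hdiv)) hres'

end Induction

/-- **Block Q from LO-GE at neat levels.** -/
theorem qStatement_of_loGE (hLo : LoGEStatement) : Fermat.Agent.Glue.QStatement := by
  intro W hΔ hW h3 M hM hres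
  obtain ⟨r, hrM, hr, hr12⟩ := Fermat.Agent.S36.H442.exists_neat_prime (M + 3)
  have hr2 : r ≠ 2 := by
    rintro rfl
    omega
  have hr3 : r ≠ 3 := by
    rintro rfl
    omega
  have hrM' : ¬ r ∣ M := fun h => by
    have := Nat.le_of_dvd hM h
    omega
  have hc36 : Nat.Coprime r 36 := by
    have h2 : Nat.Coprime r 2 := (Nat.coprime_primes hr Nat.prime_two).2 hr2
    have h3' : Nat.Coprime r 3 := (Nat.coprime_primes hr Nat.prime_three).2 hr3
    have h4 : Nat.Coprime r (2 ^ 2) := Nat.Coprime.pow_right 2 h2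
    have h9 : Nat.Coprime r (3 ^ 2) := Nat.Coprime.pow_right 2 h3'
    have := Nat.Coprime.mul_right h4 h9
    simpa using this
  set L : ℕ := 36 * M * r with hLdef
  have hL0 : L ≠ 0 := by
    have := hr.pos
    positivity
  have hML : M ∣ L := ⟨36 * r, by rw [hLdef]; ring⟩
  have h4 : 4 ∣ L := ⟨9 * M * r, by rw [hLdef]; ring⟩
  have h9 : 9 ∣ L := ⟨4 * M * r, by rw [hLdef]; ring⟩
  have hrL : r ∣ L := Dvd.intro_left _ rfl
  have hr2L : ¬ r ^ 2 ∣ L := by
    intro h
    rw [hLdef, pow_two] at h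
    have h1 : r ∣ 36 * M := Nat.dvd_of_mul_dvd_mul_right hr.pos h
    rcases (Nat.Prime.dvd_mul hr).1 h1 with h2 | h2
    · have := Nat.Coprime.eq_one_of_dvd hc36 h2
      exact hr.one_lt.ne' this
    · exact hrM' h2
  exact exists_cubefree_of_loGE hLo hΔ hW h3 r hr hr12 L hL0 h4 h9 hrL hr2L
    (Fermat.Agent.S59.H826.resMod_of_dvd826 hL0 hML hres)

/-- **Block Q from its leaves** (row inputs BLR-W and R3'-W as hypotheses). -/
theorem qStatement_of_leaves (hE : EmbedWStatement) (hR3' : AlmostAllToWitnessWStatement)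
    (hL : LevelExactGEStatement) (hD : DescExactStatement) : Fermat.Agent.Glue.QStatement :=
  qStatement_of_loGE (loGE_of_coreGE hE hR3' (coreGE_of_qNewZero (qNewZeroNeat_of_leaves hL hD)))

end Fermat.Agent.G2.Q

end

end
-- ===== PACK-END G2/Q/Skel.lean

-- ===== PACK-BEGIN G2/Q/H666/DescX.lean
section



/-!
# Row GLUE, phase 2, BLOCK Q — leaf DESC-X (helper666)

`descExact : DescExactStatement`: the EXACT level engine over the inertia field of `A`
(`C = 1`) gives the exact engine on `J₀(M q q)`: the `I_A`-fixed `p`-torsion of the `q`-new part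
is zero.

Replay of the DESC plug of row S36 with the constants exposed:

* `kummerQNewWith_of_fixedWith` = `S36.H756.kummerQNewInertiaAt_of_fixedAtC` (helper756) with the
  constant `C` as a parameter (`k = v_p(C)`);
* `qNewWith_of_kummerWith`      = `S36.H36.qNewInertiaAt_of_kummerAt` (helper36) with the exponent
  `k` as a parameter.

The proofs are those of helper756 and helper36, verbatim after the first line.
-/

set_option autoImplicit false
set_option linter.style.haveILetI false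
set_option linter.unusedSectionVars false
set_option synthInstance.maxHeartbeats 400000
set_option maxHeartbeats 1600000

noncomputable section

namespace Fermat.Agent.G2.Q.H666

/-! ## The wiring of helper756, constant exposed -/

section Wire

open AlgebraicCurve ModularCurve IntermediateField
open Fermat.Agent.A2.T1.H669 (iota)
open Fermat.Agent.S29.H395 (normAlong)
open Fermat.Agent.S36.H756

local notation "Q̄" => AlgebraicClosure ℚ

/-- `S36.H756.KummerFixedAtC` with the constant `C` as a parameter. -/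
def KummerFixedWith (N q p : ℕ) [NeZero N] [NeZero q] (P : ValuationSubring Q̄) (C : ℕ) :
    Prop :=
  ∀ (n : ℕ)
    (y : laurentBaseChange (fixedField (P.inertiaSubgroupIn ℚ))
      (modularFunctionFieldFull (N * q))), y ≠ 0 →
    Fermat.Agent.A2.DivisibleDiv (fixedField (P.inertiaSubgroupIn ℚ)) (p ^ n) y →
    (∃ (c : fixedField (P.inertiaSubgroupIn ℚ))
      (h : laurentBaseChange (fixedField (P.inertiaSubgroupIn ℚ)) (modularFunctionFieldFull N)),
      c ≠ 0 ∧ h ≠ 0 ∧
      normAlong (heckeAlphaBar (fixedField (P.inertiaSubgroupIn ℚ)) N q) y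
        = algebraMap (fixedField (P.inertiaSubgroupIn ℚ)) _ c * h ^ (p ^ n)) →
    (∃ (c : fixedField (P.inertiaSubgroupIn ℚ))
      (h : laurentBaseChange (fixedField (P.inertiaSubgroupIn ℚ)) (modularFunctionFieldFull N)),
      c ≠ 0 ∧ h ≠ 0 ∧
      normAlong (heckeBetaBar (fixedField (P.inertiaSubgroupIn ℚ)) N q) y
        = algebraMap (fixedField (P.inertiaSubgroupIn ℚ)) _ c * h ^ (p ^ n)) →
    ∃ (c : fixedField (P.inertiaSubgroupIn ℚ))
      (z : laurentBaseChange (fixedField (P.inertiaSubgroupIn ℚ))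
        (modularFunctionFieldFull (N * q))),
      z ≠ 0 ∧ y ^ C = algebraMap (fixedField (P.inertiaSubgroupIn ℚ)) _ c * z ^ (p ^ n)

/-- `S36.H36.KummerQNewInertiaAt` with the exponent `k` as a parameter. -/
def KummerQNewWith (N q p : ℕ) [NeZero N] [NeZero q] (P : ValuationSubring Q̄) (k : ℕ) :
    Prop :=
  ∀ (n : ℕ) (f : modularFunctionFieldBar (N * q)), f ≠ 0 →
    (∀ v : Place Q̄ (modularFunctionFieldBar (N * q)), ((p ^ n : ℕ) : ℤ) ∣ v.ord f) →
    (∃ h : modularFunctionFieldBar N, h ≠ 0 ∧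
      Fermat.Agent.S29.H395.normAlong (heckeAlphaBar Q̄ N q) f = h ^ (p ^ n)) →
    (∃ h : modularFunctionFieldBar N, h ≠ 0 ∧
      Fermat.Agent.S29.H395.normAlong (heckeBetaBar Q̄ N q) f = h ^ (p ^ n)) →
    (∀ τ ∈ P.inertiaSubgroupIn ℚ, ∃ y : modularFunctionFieldBar (N * q), y ≠ 0 ∧
      arithmeticRingAut (modularFunctionFieldFull (N * q)) τ f = y ^ (p ^ n) * f) →
    ∃ y : modularFunctionFieldBar (N * q), y ≠ 0 ∧ f ^ (p ^ k) = y ^ (p ^ n)

/-- **DESC-WIRE, constant exposed** (proof of helper756). -/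
theorem kummerQNewWith_of_fixedWith (N q p : ℕ) [NeZero N] [NeZero q] (hp : p.Prime)
    (P : ValuationSubring Q̄) (C : ℕ) (hC : C ≠ 0) (hE : KummerFixedWith N q p P C) :
    KummerQNewWith N q p P (C.factorization p) := by
  intro n f hf hdiv hα hβ hfix
  have hm0 : 0 < p ^ n := pow_pos hp.pos n
  -- Step 1: DESC
  obtain ⟨a, ha, b, hb, hfixed⟩ := exists_fixed_rep (P.inertiaSubgroupIn ℚ) (p ^ n) f hf
    (fun τ hτ => by
      obtain ⟨y, hy, e⟩ := hfix τ hτ
      exact ⟨1, one_ne_zero, y, hy, by rw [map_one, one_mul]; exact e⟩)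
  have haK : algebraMap Q̄ (modularFunctionFieldBar (N * q)) a ≠ 0 := by simpa using ha
  have hbm : b ^ (p ^ n) ≠ 0 := pow_ne_zero _ hb
  obtain ⟨y₀, hy₀⟩ := exists_iota_eq_of_fixed (P.inertiaSubgroupIn ℚ) _ hfixed
  have hy₀0 : y₀ ≠ 0 := by
    rintro rfl
    rw [map_zero] at hy₀
    exact mul_ne_zero (mul_ne_zero haK hbm) hf hy₀.symm
  -- Step 2: divisibility
  have hDD : Fermat.Agent.A2.DivisibleDiv (fixedField (P.inertiaSubgroupIn ℚ)) (p ^ n) y₀ := by
    refine Fermat.Agent.A2.T1.H669.divisibleDiv_of_ord (fixedField (P.inertiaSubgroupIn ℚ))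
      (modularFunctionFieldFull (N * q)) (p ^ n) y₀ hy₀0 fun v => ?_
    rw [hy₀, v.ord_mul (mul_ne_zero haK hbm) hf, v.ord_mul haK hbm, ord_const_eq_zero,
      zero_add, ord_npow]
    exact dvd_add (dvd_mul_right _ _) (hdiv v)
  -- Step 3: the norms
  have hfinα := Fermat.Agent.S29.H812.finiteAlong_heckeAlphaBar N q
  have hfinβ := Fermat.Agent.S29.H812.finiteAlong_heckeBetaBar N q
  have hNα : ∃ (c : fixedField (P.inertiaSubgroupIn ℚ))
      (h : laurentBaseChange (fixedField (P.inertiaSubgroupIn ℚ)) (modularFunctionFieldFull N)),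
      c ≠ 0 ∧ h ≠ 0 ∧
      normAlong (heckeAlphaBar (fixedField (P.inertiaSubgroupIn ℚ)) N q) y₀
        = algebraMap (fixedField (P.inertiaSubgroupIn ℚ)) _ c * h ^ (p ^ n) := by
    obtain ⟨h, hh, e⟩ := hα
    obtain ⟨d, hd⟩ := normAlong_algebraMap_const (heckeAlphaBar Q̄ N q) a
    refine descend_const_mul_pow (P.inertiaSubgroupIn ℚ) hm0 _ (a ^ d)
      (normAlong (heckeAlphaBar Q̄ N q) b * h) (pow_ne_zero d ha)
      (mul_ne_zero (Fermat.Agent.S29.H395.normAlong_ne_zero _ hfinα hb) hh) ?_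
    rw [Fermat.Agent.S35.H858.iota_normAlong_alpha (fixedField (P.inertiaSubgroupIn ℚ)) N q
        hfinα y₀, hy₀,
      Fermat.Agent.S29.H395.normAlong_mul, Fermat.Agent.S29.H395.normAlong_mul,
      Fermat.Agent.S29.H395.normAlong_pow, hd, e, mul_pow, mul_assoc]
  have hNβ : ∃ (c : fixedField (P.inertiaSubgroupIn ℚ))
      (h : laurentBaseChange (fixedField (P.inertiaSubgroupIn ℚ)) (modularFunctionFieldFull N)),
      c ≠ 0 ∧ h ≠ 0 ∧
      normAlong (heckeBetaBar (fixedField (P.inertiaSubgroupIn ℚ)) N q) y₀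
        = algebraMap (fixedField (P.inertiaSubgroupIn ℚ)) _ c * h ^ (p ^ n) := by
    obtain ⟨h, hh, e⟩ := hβ
    obtain ⟨d, hd⟩ := normAlong_algebraMap_const (heckeBetaBar Q̄ N q) a
    refine descend_const_mul_pow (P.inertiaSubgroupIn ℚ) hm0 _ (a ^ d)
      (normAlong (heckeBetaBar Q̄ N q) b * h) (pow_ne_zero d ha)
      (mul_ne_zero (Fermat.Agent.S29.H395.normAlong_ne_zero _ hfinβ hb) hh) ?_
    rw [Fermat.Agent.S35.H858.iota_normAlong_beta (fixedField (P.inertiaSubgroupIn ℚ)) N q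
        hfinβ y₀, hy₀,
      Fermat.Agent.S29.H395.normAlong_mul, Fermat.Agent.S29.H395.normAlong_mul,
      Fermat.Agent.S29.H395.normAlong_pow, hd, e, mul_pow, mul_assoc]
  -- Step 4: the engine over `E`
  obtain ⟨c, z, hz, e⟩ := hE n y₀ hy₀0 hDD hNα hNβ
  have e' : (algebraMap Q̄ (modularFunctionFieldBar (N * q)) a * b ^ (p ^ n) * f) ^ C
      = algebraMap Q̄ (modularFunctionFieldBar (N * q)) (c : Q̄)
        * (iota (fixedField (P.inertiaSubgroupIn ℚ)) (modularFunctionFieldFull (N * q)) z)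
          ^ (p ^ n) := by
    rw [← hy₀, ← map_pow, e, map_mul, map_pow, iota_algebraMap_E]
  -- Step 5: back to `f`
  obtain ⟨c'', hc''⟩ := IsAlgClosed.exists_pow_nat_eq ((c : Q̄) / a ^ C) hm0
  have hfC : f ^ C = (algebraMap Q̄ (modularFunctionFieldBar (N * q)) c''
      * iota (fixedField (P.inertiaSubgroupIn ℚ)) (modularFunctionFieldFull (N * q)) z
      * (b ^ C)⁻¹) ^ (p ^ n) := by
    have haC : algebraMap Q̄ (modularFunctionFieldBar (N * q)) a ^ C ≠ 0 := pow_ne_zero C haK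
    have hbC : b ^ C ≠ 0 := pow_ne_zero C hb
    have h1 : algebraMap Q̄ (modularFunctionFieldBar (N * q)) c'' ^ (p ^ n)
        = algebraMap Q̄ (modularFunctionFieldBar (N * q)) (c : Q̄)
          * (algebraMap Q̄ (modularFunctionFieldBar (N * q)) a ^ C)⁻¹ := by
      rw [← map_pow, hc'', map_div₀, map_pow, div_eq_mul_inv]
    have h2 : f ^ C = (algebraMap Q̄ (modularFunctionFieldBar (N * q)) a ^ C)⁻¹
        * ((b ^ C) ^ (p ^ n))⁻¹
        * (algebraMap Q̄ (modularFunctionFieldBar (N * q)) a * b ^ (p ^ n) * f) ^ C := by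
      rw [mul_pow, mul_pow, ← pow_mul b (p ^ n) C, ← pow_mul b C (p ^ n), mul_comm (p ^ n) C]
      have : b ^ (C * p ^ n) ≠ 0 := pow_ne_zero _ hb
      field_simp
    rw [h2, e', mul_pow, mul_pow, h1, inv_pow]
    ring
  exact pow_primePow_of_pow hp hC n hf hfC

end Wire

/-! ## Layer (ii) of helper36, exponent exposed -/

section Point

open AlgebraicCurve ModularCurve Fermat.Agent.A2
open Fermat.Agent.S36.H36

/-- **Layer (ii), pointwise, exponent exposed** (proof of helper36). -/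
theorem qNewWith_of_kummerWith (N q p : ℕ) [NeZero N] [NeZero q] (hp : p.Prime)
    (P : ValuationSubring Qb) (k : ℕ) (hk : KummerQNewWith N q p P k)
    (x : JZero (N * q)) (hx : ∃ n : ℕ, p ^ n • x = 0)
    (hnew : Fermat.Agent.S35.H155.IsQNew N q x)
    (hfix : ∀ τ ∈ P.inertiaSubgroupIn ℚ, τ • x = x) : p ^ k • x = 0 := by
  obtain ⟨n, hn⟩ := hx
  haveI : NeZero (N * q) := ⟨Nat.mul_ne_zero (NeZero.ne N) (NeZero.ne q)⟩
  set m : ℕ := p ^ n with hmdef
  have hm : 0 < m := pow_pos hp.pos n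
  obtain ⟨D, rfl⟩ := Pic0.mk_surjective x
  rw [Fermat.Agent.S35.H155.isQNew_mk_iff] at hnew
  obtain ⟨⟨a, ha, haD⟩, ⟨b, hb, hbD⟩⟩ := hnew
  -- the Kummer generator
  have hprin : ((m • D : Divisor.degZero (K := Qb) (F := modularFunctionFieldBar (N * q))) :
      Divisor Qb (modularFunctionFieldBar (N * q))) ∈
      Divisor.principal (K := Qb) (F := modularFunctionFieldBar (N * q)) := by
    have h0 : Pic0.mk (m • D) = 0 := hn
    have := (QuotientAddGroup.eq_zero_iff (m • D)).1 h0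
    simpa [AddSubgroup.mem_addSubgroupOf] using this
  obtain ⟨f, hf, hfD⟩ := hprin
  have hfD' : ∀ v : Place Qb (modularFunctionFieldBar (N * q)),
      v.ord f = (m : ℤ) * (D : Divisor Qb (modularFunctionFieldBar (N * q))) v := by
    intro v
    rw [← hfD v]
    simp [Finsupp.smul_apply]
  have hfD'' : ∀ w : Place Qb (modularFunctionFieldBar (N * q)),
      ((m : ℤ) • (D : Divisor Qb (modularFunctionFieldBar (N * q)))) w = w.ord f := by
    intro w
    rw [Finsupp.smul_apply, smul_eq_mul, hfD' w]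
  -- the norm formula for `α` and `β`
  haveI hPD : HasPrincipalDivisors Qb (modularFunctionFieldBar (N * q)) :=
    Fermat.Agent.Lib.RR.H864.hasPrincipalDivisors_modularFunctionFieldBar (N * q)
  have hF := Fermat.Agent.S29.H812.exists_coord_modular N
  have hα := Fermat.Agent.Lib.FF398.heckeAlphaBarIntegral N q
  have hβ := Fermat.Agent.Lib.FF398.heckeBetaBarIntegral N q
  have hfinα := Fermat.Agent.S29.H812.finiteAlong_heckeAlphaBar N q
  have hfinβ := Fermat.Agent.S29.H812.finiteAlong_heckeBetaBar N q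
  have hNα := Fermat.Agent.S29.H812.normFormulaAlong hF (heckeAlphaBar Qb N q) hfinα
  have hNβ := Fermat.Agent.S29.H812.normFormulaAlong hF (heckeBetaBar Qb N q) hfinβ
  have hordα : ∀ v : Place Qb (modularFunctionFieldBar N),
      v.ord (Fermat.Agent.S29.H395.normAlong (heckeAlphaBar Qb N q) f) = (m : ℤ) * v.ord a := by
    intro v
    rw [← Fermat.Agent.S29.H395.pushforwardAlong_apply_eq_ord (heckeAlphaBar Qb N q) hα hfinα hNα
      hf hfD'' v, map_zsmul, Finsupp.smul_apply, smul_eq_mul, haD v]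
  have hordβ : ∀ v : Place Qb (modularFunctionFieldBar N),
      v.ord (Fermat.Agent.S29.H395.normAlong (heckeBetaBar Qb N q) f) = (m : ℤ) * v.ord b := by
    intro v
    rw [← Fermat.Agent.S29.H395.pushforwardAlong_apply_eq_ord (heckeBetaBar Qb N q) hβ hfinβ hNβ
      hf hfD'' v, map_zsmul, Finsupp.smul_apply, smul_eq_mul, hbD v]
  have hα' := Fermat.Agent.S35.H909.exists_pow_eq_of_ord N m hm
    (Fermat.Agent.S29.H395.normAlong_ne_zero _ hfinα hf) ha hordα
  have hβ' := Fermat.Agent.S35.H909.exists_pow_eq_of_ord N m hm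
    (Fermat.Agent.S29.H395.normAlong_ne_zero _ hfinβ hf) hb hordβ
  -- the fixed condition
  have hfixK : ∀ τ ∈ P.inertiaSubgroupIn ℚ, ∃ y : modularFunctionFieldBar (N * q), y ≠ 0 ∧
      arithmeticRingAut (modularFunctionFieldFull (N * q)) τ f = y ^ m * f := by
    intro τ hτ
    have h1 : arithmeticGalois (L := Qb) (modularFunctionFieldFull (N * q)) τ • Pic0.mk D
        = Pic0.mk D := hfix τ hτ
    obtain ⟨y, hy, hyw⟩ := exists_ord_eq_of_smul_eq
      (arithmeticGalois (L := Qb) (modularFunctionFieldFull (N * q)) τ) m D hfD' h1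
    rw [toRingAut_arithmeticGalois] at hyw
    set τf := arithmeticRingAut (modularFunctionFieldFull (N * q)) τ f with hτf
    have hτf0 : τf ≠ 0 := by
      rw [hτf]
      exact (map_ne_zero_iff _
        (arithmeticRingAut (modularFunctionFieldFull (N * q)) τ).injective).2 hf
    have hyf0 : y ^ m * f ≠ 0 := mul_ne_zero (pow_ne_zero _ hy) hf
    -- `τ f = (y ^ m * f) * (unit of order zero everywhere)`
    have hy' : ∀ w : Place Qb (modularFunctionFieldBar (N * q)),
        w.ord τf = w.ord (y ^ m * f) := by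
      intro w
      rw [hyw w, w.ord_mul (pow_ne_zero _ hy) hf, Fermat.Agent.A2.H129.ord_pow]
    have h2 := Fermat.Agent.S35.H909.exists_pow_eq_of_ord (N * q) m hm
      (y := τf * (y ^ m * f)⁻¹ * y ^ m) (a := y)
      (mul_ne_zero (mul_ne_zero hτf0 (inv_ne_zero hyf0)) (pow_ne_zero _ hy)) hy (fun w => by
        rw [w.ord_mul (mul_ne_zero hτf0 (inv_ne_zero hyf0)) (pow_ne_zero _ hy),
          Fermat.Agent.A2.H129.ord_div w hτf0 hyf0, hy' w, sub_self, zero_add,
          Fermat.Agent.A2.H129.ord_pow])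
    obtain ⟨z, hz, hzy⟩ := h2
    refine ⟨z, hz, ?_⟩
    rw [← hzy]
    field_simp
  obtain ⟨y, hy, hyf⟩ := hk n f hf (fun v => ⟨_, hfD' v⟩) hα' hβ' hfixK
  exact nsmul_mk_eq_zero_of_pow_eq m (p ^ k) hm.ne' D hfD' hy hyf

end Point

/-! ## DESC-X -/

open Fermat.Agent.S36.Eng (inertiaFld)

/-- **DESC-X.** -/
theorem descExact : DescExactStatement := by
  intro M q p _ _ _ hq hp hpq A _ hL x hpx hnew hfix
  have hF : KummerFixedWith (M * q) q p A 1 := by
    intro n y hy hdiv hα hβ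
    have hqm : ¬ q ∣ p ^ n := fun hd =>
      hpq ((Nat.prime_dvd_prime_iff_eq hq hp).1 (hq.dvd_of_dvd_pow hd)).symm
    obtain ⟨c₁, h₁, -, -, e₁⟩ := hα
    obtain ⟨c₂, h₂, -, -, e₂⟩ := hβ
    obtain ⟨c, z, hz, e⟩ :=
      hL (p ^ n) (pow_pos hp.pos n) hqm y hy hdiv ⟨c₁, h₁, e₁⟩ ⟨c₂, h₂, e₂⟩
    exact ⟨c, z, hz, by rw [pow_one]; exact e⟩
  have hK := kummerQNewWith_of_fixedWith (M * q) q p hp A 1 one_ne_zero hF
  have h0 := qNewWith_of_kummerWith (M * q) q p hp A _ hK x ⟨1, by rw [pow_one]; exact hpx⟩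
    hnew hfix
  rw [Nat.factorization_one, Finsupp.zero_apply, pow_zero, one_nsmul] at h0
  exact h0

end Fermat.Agent.G2.Q.H666

end

end
-- ===== PACK-END G2/Q/H666/DescX.lean

-- ===== PACK-BEGIN G2/Q/H666/AlgX.lean
section




/-!
# Row GLUE, phase 2, BLOCK Q — leaf ALG-X / LEV-X (helper666)

The EXACT form of ALG-E (row CAR3, `S45.AlgE.algE`): the constant `C` of `S45.Eng.AlgEStatement`
is `q ^ 2` (`C = c₁ · c₂`, `c₁ = q ^ 2` from STEP-A of helper403, `c₂ = 1` from PURE of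
helper630 / helper987), which is prime to every admissible exponent `m` (`q ∤ m`).  Hence, by
Bezout, `f ^ C ∈ E · (Fˣ) ^ m ⟹ f ∈ E · (Fˣ) ^ m`.

* `exact_of_pow_coprime`   : the Bezout step (any fields);
* `algE_explicit`          : replay of `S45.H193.algE_of_leaves` with the constant exposed;
* `algExact`               : `AlgExactStatement`, unconditional;
* `levelExactGE_of_modelE` : `S45.Eng.ModelEStatement → LevelExactGEStatement`.
-/

set_option autoImplicit false
set_option linter.style.haveILetI false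
set_option linter.unusedSectionVars false
set_option linter.unusedVariables false
set_option synthInstance.maxHeartbeats 400000
set_option maxHeartbeats 1600000

noncomputable section

namespace Fermat.Agent.G2.Q.H666

open Polynomial
open Fermat.Agent.A2.H12 (IsSheet)
open Fermat.Agent.S18.H138 (chart)
open Fermat.Agent.S36.Eng (UnitAt UnifAt NeatFor Unramified)
open Fermat.Agent.S45.Eng (CtxE mult QepE)
open Fermat.Agent.S36.H193 (BasePureValuesAt)
open Fermat.Agent.S45.H193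

/-! ## Bezout -/

/-- `f ^ C = c · h ^ m` with `gcd (C, m) = 1` ⟹ `f = c' · h' ^ m`. -/
theorem exact_of_pow_coprime {E F : Type*} [Field E] [Field F] [Algebra E F] {C m : ℕ}
    (hcop : Nat.Coprime C m) (hm : 0 < m) {f : F} (hf : f ≠ 0) {c : E} {h : F}
    (e : f ^ C = algebraMap E F c * h ^ m) :
    ∃ (c' : E) (h' : F), h' ≠ 0 ∧ f = algebraMap E F c' * h' ^ m := by
  have hfC : f ^ C ≠ 0 := pow_ne_zero _ hf
  have hc0 : algebraMap E F c ≠ 0 := by
    intro h0
    rw [h0, zero_mul] at e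
    exact hfC e
  have hhm : h ^ m ≠ 0 := by
    intro h0
    rw [h0, mul_zero] at e
    exact hfC e
  have hh : h ≠ 0 := by
    rintro rfl
    exact hhm (zero_pow hm.ne')
  have hb : (1 : ℤ) = (C : ℤ) * Nat.gcdA C m + (m : ℤ) * Nat.gcdB C m := by
    have := Nat.gcd_eq_gcd_ab C m
    rw [hcop.gcd_eq_one] at this
    exact_mod_cast this
  refine ⟨c ^ Nat.gcdA C m, h ^ Nat.gcdA C m * f ^ Nat.gcdB C m,
    mul_ne_zero (zpow_ne_zero _ hh) (zpow_ne_zero _ hf), ?_⟩
  have h1 : f = f ^ ((C : ℤ) * Nat.gcdA C m + (m : ℤ) * Nat.gcdB C m) := by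
    rw [← hb, zpow_one]
  have h2 : f ^ ((C : ℤ) * Nat.gcdA C m) = (f ^ C) ^ Nat.gcdA C m := by
    rw [zpow_mul, zpow_natCast]
  have h3 : f ^ ((m : ℤ) * Nat.gcdB C m) = (f ^ Nat.gcdB C m) ^ m := by
    rw [mul_comm, zpow_mul, zpow_natCast]
  have h4 : (h ^ m) ^ Nat.gcdA C m = (h ^ Nat.gcdA C m) ^ m := by
    rw [← zpow_natCast, ← zpow_mul, mul_comm, zpow_mul, zpow_natCast]
  calc f = f ^ ((C : ℤ) * Nat.gcdA C m) * f ^ ((m : ℤ) * Nat.gcdB C m) := by
        rw [← zpow_add₀ hf]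
        exact h1
    _ = (algebraMap E F c * h ^ m) ^ Nat.gcdA C m * (f ^ Nat.gcdB C m) ^ m := by
        rw [h2, h3, e]
    _ = algebraMap E F (c ^ Nat.gcdA C m) * (h ^ Nat.gcdA C m * f ^ Nat.gcdB C m) ^ m := by
        rw [mul_zpow, h4, map_zpow₀, mul_pow, mul_assoc]

/-! ## ALG-E with the constant exposed -/

/-- **ALG-E, explicit constant** (`S45.H193.algE_of_leaves` with `C = c₁ q e * c₂ q e`
exposed; the proof is the one of helper193). -/
theorem algE_explicit {c₁ c₂ : ℕ → ℕ → ℕ} (hA : LeafStepAE c₁) (hP : LeafPureE c₂)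
    {R E F F' : Type} [CommRing R] [IsDomain R] [IsDiscreteValuationRing R]
    [HenselianLocalRing R] [IsAlgClosed (IsLocalRing.ResidueField R)]
    [Field E] [CharZero E] [Algebra R E] [IsFractionRing R E]
    [Field F] [Algebra E F] [Algebra R F] [IsScalarTower R E F]
    [Field F'] [Algebra E F'] [Algebra R F'] [IsScalarTower R E F']
    (w : R) (hw : Irreducible w) (q : ℕ) (hq : q.Prime)
    (hqR : (q : R) ∈ IsLocalRing.maximalIdeal R) (e : ℕ) (he : 3 ≤ e)
    (α β : F' →ₐ[E] F) (x : F) (x' : F')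
    (V : ℕ → ValuationSubring F) (V' : ℕ → ValuationSubring F')
    (ctx : CtxE w q e α β x x' V V')
    (m : ℕ) (hm : 0 < m) (hqm : ¬ q ∣ m) (f : F) (hf : f ≠ 0) (hdiv : A2.DivisibleDiv E m f)
    (hNα : S35.G.NormPow α m f) (hNβ : S35.G.NormPow β m f) :
    ∃ (c : E) (h : F), h ≠ 0 ∧ f ^ (c₁ q e * c₂ q e) = algebraMap E F c * h ^ m := by
  obtain ⟨s, G, u, k₁, k₂, hG, hfu, hu, hk₁, hk₂⟩ :=
    hA w hw q hq hqR e he α β x x' V V' ctx m hm hqm f hf hNα hNβ
  have hu0 : u ≠ 0 := ne_zero_of_sub_one_mem (hu 0 (Nat.zero_le e))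
  -- the uniformiser in `E` and `F`
  have hinjRE : Function.Injective (algebraMap R E) := IsFractionRing.injective R E
  have hinjRF : Function.Injective (algebraMap R F) := by
    rw [IsScalarTower.algebraMap_eq R E F]
    exact (algebraMap E F).injective.comp hinjRE
  have hwE : algebraMap R E w ≠ 0 := fun h => hw.ne_zero (hinjRE (by rw [h, map_zero]))
  have hwF0 : algebraMap R F w ≠ 0 := fun h => hw.ne_zero (hinjRF (by rw [h, map_zero]))
  have hwF : algebraMap R F w = algebraMap E F (algebraMap R E w) :=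
    IsScalarTower.algebraMap_apply R E F w
  have hfu' : f ^ c₁ q e = algebraMap E F (algebraMap R E w ^ s) * G ^ m * u := by
    rw [hfu, hwF, map_zpow₀]
  have hdivu : A2.DivisibleDiv E m u :=
    Fermat.Agent.S36.Alg3.divisibleDiv_of_eq (zpow_ne_zero _ hwE) hG hdiv hfu'
  -- roots of unity and the purity data
  obtain ⟨ζ, hζ⟩ := Fermat.Agent.A2.Alg.H348.exists_primitiveRoot (R := R) q m hq hqR hm hqm
  obtain ⟨κ, hfin, hinf⟩ := hP w hw q hq hqR e he α β x x' V V' ctx m hm hqm ζ hζ u hu0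
    hdivu hu k₁ k₂ hk₁ hk₂
  -- the wall
  have hxR : Transcendental R x := Fermat.Agent.S36.H919.h919_transcendental E ctx.hx
  haveI : FiniteDimensional (Fermat.Agent.S18.H138.baseField R x) F :=
    Fermat.Agent.S36.H919.h919_finiteDimensional E ctx.hfin
  obtain ⟨mi, hmi⟩ := exists_natCast_mul_eq_one (R := R) E q hq hqR hqm
  have hunif0 := ctxE_unifAt_zero ctx
  obtain ⟨g, hg⟩ := Fermat.Agent.S36.H193.exists_pow_eq_of_base_set E w hw hxR hm hmi hζ
    (f := u ^ c₂ q e) (pow_ne_zero _ hu0) (compSet e V)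
    (fun W hW => by
      obtain ⟨i, hi, hiW⟩ := ctxE_sheets hw hq.pos ctx W hW
      exact ⟨i, hi, hiW.symm⟩)
    (fun W hW => by
      obtain ⟨i, hi, rfl⟩ := hW
      exact sub_one_pow_mem_nonunits (hu i hi) _)
    (V 0) (ctx.base 0 (Nat.zero_le e)) hunif0.2.1
    (sub_one_pow_mem_nonunits (hu 0 (Nat.zero_le e)) _)
    (Fermat.Agent.S36.H919.h919_unif_of_unifAt (V 0) hwF0 hunif0.2.2)
    (ctxE_hdisc_zero ctx) κ hfin hinf
  have hg0 : g ≠ 0 := by
    rintro rfl
    rw [zero_pow hm.ne'] at hg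
    exact pow_ne_zero _ hu0 hg.symm
  refine ⟨(algebraMap R E w ^ s) ^ c₂ q e, G ^ c₂ q e * g,
    mul_ne_zero (pow_ne_zero _ hG) hg0, ?_⟩
  rw [pow_mul, hfu', mul_pow, mul_pow, ← hg, map_pow, mul_pow, ← pow_mul, ← pow_mul,
    mul_comm m (c₂ q e), mul_assoc]

/-! ## ALG-X -/

/-- **ALG-X (interface statement)**: `S45.Eng.AlgEStatement` with `C = 1`. -/
def AlgExactStatement : Prop :=
  ∀ {R E F F' : Type} [CommRing R] [IsDomain R] [IsDiscreteValuationRing R]
    [HenselianLocalRing R] [IsAlgClosed (IsLocalRing.ResidueField R)]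
    [Field E] [CharZero E] [Algebra R E] [IsFractionRing R E]
    [Field F] [Algebra E F] [Algebra R F] [IsScalarTower R E F]
    [Field F'] [Algebra E F'] [Algebra R F'] [IsScalarTower R E F']
    (w : R) (_ : Irreducible w) (q : ℕ) (_ : q.Prime)
    (_ : (q : R) ∈ IsLocalRing.maximalIdeal R) (e : ℕ) (_ : 3 ≤ e)
    (α β : F' →ₐ[E] F) (x : F) (x' : F')
    (V : ℕ → ValuationSubring F) (V' : ℕ → ValuationSubring F')
    (_ : CtxE w q e α β x x' V V'),
    ∀ m : ℕ, 0 < m → ¬ q ∣ m →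
      ∀ f : F, f ≠ 0 → A2.DivisibleDiv E m f →
        S35.G.NormPow α m f → S35.G.NormPow β m f →
        ∃ (c : E) (h : F), h ≠ 0 ∧ f = algebraMap E F c * h ^ m

/-- **ALG-X**, unconditional: `C = q ^ 2 · 1` is prime to `m`. -/
theorem algExact : AlgExactStatement := by
  intro R E F F' _ _ _ _ _ _ _ _ _ _ _ _ _ _ _ _ _ w hw q hq hqR e he α β x x' V V' ctx
    m hm hqm f hf hdiv hNα hNβ
  obtain ⟨c, h, -, hc⟩ := algE_explicit
    Fermat.Agent.S45.H403.leafStepAE_max403 Fermat.Agent.S45.AlgE.leafPureE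
    w hw q hq hqR e he α β x x' V V' ctx m hm hqm f hf hdiv hNα hNβ
  have hcop : Nat.Coprime (Fermat.Agent.S45.H403.stepExp403 q e * 1) m := by
    rw [mul_one, Fermat.Agent.S45.H403.stepExp_prime403 hq e]
    exact Nat.Coprime.pow_left 2 ((Nat.Prime.coprime_iff_not_dvd hq).2 hqm)
  exact exact_of_pow_coprime hcop hm hf hc

/-! ## LEV-X -/

/-- **LEV-X from MOD-E** (mirror of `S45.Eng.levelInertiaGE_of_algE_modelE`). -/
theorem levelExactGE_of_modelE (hMOD : Fermat.Agent.S45.Eng.ModelEStatement) :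
    LevelExactGEStatement := by
  intro P E M q _ _ _ hq hqM hP hE hneat
  haveI : IsDiscreteValuationRing ↥(A2.RE P E) := hE.1.dvr
  haveI : HenselianLocalRing ↥(A2.RE P E) := hE.1.henselian
  haveI : IsAlgClosed (IsLocalRing.ResidueField ↥(A2.RE P E)) := hE.1.algClosed
  obtain ⟨w, hw⟩ := IsDiscreteValuationRing.exists_irreducible ↥(A2.RE P E)
  obtain ⟨x, x', V, V', hctx⟩ := hMOD P E M q hq hqM hP hE hneat w hw
  exact algExact (R := ↥(A2.RE P E)) (E := E) (F := ↥(A2.Mod.FE E (M * q * q)))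
    (F' := ↥(A2.Mod.FE E (M * q))) w hw q hq
    (Fermat.Agent.S36.Eng.natCast_mem_maximalIdeal_RE E hP)
    (M.factorization q + 2)
    (Fermat.Agent.S45.Eng.three_le_factorization_add_two (NeZero.ne M) hq hqM)
    (A2.Mod.αE E (M * q) q) (A2.Mod.βE E (M * q) q) x x' V V' hctx

end Fermat.Agent.G2.Q.H666

end

end
-- ===== PACK-END G2/Q/H666/AlgX.lean

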